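import Mathlib
import Fermat.Agent.Pack.LT2.E0L1
import Fermat.Agent.Pack.LT2.E7L3
import Fermat.Agent.Pack.LT2.E0L2
import Fermat.Agent.Pack.LT3.E6L3
import Fermat.Agent.Pack.LT3.E30L1
import Fermat.Agent.Pack.LT3.E30L2
import Fermat.Agent.Pack.LT3.E30L3

set_option linter.all false

-- ===== PACK-BEGIN LT/T3/H681/SatLaurent.lean
section


/-!
# Row LT, tower T3, asset `SatakeInjC` (helper681), OFF-MAIN -- part 1: Laurent uniqueness

A finitely supported `B : ℤ × ℤ → ℂ` whose Laurent polynomial `∑ B(m) z₁^{m₁} z₂^{m₂}` vanishes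
on `(ℂˣ)²` is zero.  Mathlib only.
-/

set_option autoImplicit false

noncomputable section

namespace Fermat.Agent.LT.T3.H681

/-- One variable: a Laurent polynomial vanishing on `ℂˣ` has zero coefficients. -/
theorem laurent1_inj681 (S : Finset ℤ) (c : ℤ → ℂ)
    (h : ∀ z : ℂ, z ≠ 0 → ∑ a ∈ S, c a * z ^ a = 0) : ∀ a ∈ S, c a = 0 := by
  classical
  obtain ⟨N, hN⟩ : ∃ N : ℤ, ∀ a ∈ S, 0 ≤ a + N := by
    refine ⟨∑ a ∈ S, |a|, fun a ha => ?_⟩
    have h1 : |a| ≤ ∑ b ∈ S, |b| := Finset.single_le_sum (fun b _ => abs_nonneg b) ha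
    have h2 := neg_abs_le a
    linarith
  have hp : (∑ a ∈ S, Polynomial.C (c a) * Polynomial.X ^ (a + N).toNat : Polynomial ℂ) = 0 := by
    apply Polynomial.eq_zero_of_infinite_isRoot
    refine Set.Infinite.mono ?_ (Set.finite_singleton (0 : ℂ)).infinite_compl
    intro z hz
    have hz0 : z ≠ 0 := hz
    show Polynomial.IsRoot _ z
    rw [Polynomial.IsRoot.def, Polynomial.eval_finset_sum]
    have e : ∀ a ∈ S, Polynomial.eval z (Polynomial.C (c a) * Polynomial.X ^ (a + N).toNat)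
        = z ^ N * (c a * z ^ a) := by
      intro a ha
      rw [Polynomial.eval_mul, Polynomial.eval_C, Polynomial.eval_pow, Polynomial.eval_X,
        ← zpow_natCast, Int.toNat_of_nonneg (hN a ha), zpow_add₀ hz0]
      ring
    rw [Finset.sum_congr rfl e, ← Finset.mul_sum, h z hz0, mul_zero]
  intro a ha
  have hc := congrArg (fun q : Polynomial ℂ => q.coeff (a + N).toNat) hp
  simp only [Polynomial.coeff_zero, Polynomial.finset_sum_coeff,
    Polynomial.coeff_C_mul_X_pow] at hc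
  rw [Finset.sum_eq_single a] at hc
  · simpa using hc
  · intro b hb hba
    rw [if_neg]
    intro heq
    apply hba
    have h1 := hN a ha
    have h2 := hN b hb
    have : ((a + N).toNat : ℤ) = ((b + N).toNat : ℤ) := by rw [heq]
    rw [Int.toNat_of_nonneg h1, Int.toNat_of_nonneg h2] at this
    omega
  · intro hna
    exact absurd ha hna

/-- Two variables. -/
theorem laurent2_zero681 (B : ℤ × ℤ → ℂ) (hB : (Function.support B).Finite)
    (h : ∀ z₁ z₂ : ℂ, z₁ ≠ 0 → z₂ ≠ 0 → ∑ᶠ m : ℤ × ℤ, B m * z₁ ^ m.1 * z₂ ^ m.2 = 0) :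
    ∀ m, B m = 0 := by
  classical
  set S₁ : Finset ℤ := hB.toFinset.image Prod.fst with hS₁
  set S₂ : Finset ℤ := hB.toFinset.image Prod.snd with hS₂
  have hsupp : ∀ m : ℤ × ℤ, B m ≠ 0 → m ∈ S₁ ×ˢ S₂ := by
    intro m hm
    have : m ∈ hB.toFinset := by
      rw [Set.Finite.mem_toFinset, Function.mem_support]
      exact hm
    rw [Finset.mem_product]
    exact ⟨Finset.mem_image_of_mem _ this, Finset.mem_image_of_mem _ this⟩
  have hsum : ∀ z₁ z₂ : ℂ, ∑ᶠ m : ℤ × ℤ, B m * z₁ ^ m.1 * z₂ ^ m.2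
      = ∑ a ∈ S₁, (∑ b ∈ S₂, B (a, b) * z₂ ^ b) * z₁ ^ a := by
    intro z₁ z₂
    rw [finsum_eq_sum_of_support_subset (s := S₁ ×ˢ S₂), Finset.sum_product]
    · refine Finset.sum_congr rfl (fun a _ => ?_)
      rw [Finset.sum_mul]
      refine Finset.sum_congr rfl (fun b _ => ?_)
      ring
    · intro m hm
      rw [Function.mem_support] at hm
      apply hsupp
      intro h0
      apply hm
      rw [h0, zero_mul, zero_mul]
  have key : ∀ z₂ : ℂ, z₂ ≠ 0 → ∀ a ∈ S₁, ∑ b ∈ S₂, B (a, b) * z₂ ^ b = 0 := by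
    intro z₂ hz₂
    apply laurent1_inj681 S₁ (fun a => ∑ b ∈ S₂, B (a, b) * z₂ ^ b)
    intro z₁ hz₁
    rw [← hsum z₁ z₂]
    exact h z₁ z₂ hz₁ hz₂
  intro m
  by_contra hm
  have hmem := hsupp m hm
  rw [Finset.mem_product] at hmem
  have := laurent1_inj681 S₂ (fun b => B (m.1, b)) (fun z hz => key z hz m.1 hmem.1) m.2 hmem.2
  exact hm this

/-- Two finitely supported functions with the same Laurent polynomial on `(ℂˣ)²` agree. -/
theorem laurent2_inj681 (A A' : ℤ × ℤ → ℂ) (hA : (Function.support A).Finite)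
    (hA' : (Function.support A').Finite)
    (h : ∀ z₁ z₂ : ℂ, z₁ ≠ 0 → z₂ ≠ 0 →
      ∑ᶠ m : ℤ × ℤ, A m * z₁ ^ m.1 * z₂ ^ m.2 = ∑ᶠ m : ℤ × ℤ, A' m * z₁ ^ m.1 * z₂ ^ m.2) :
    A = A' := by
  have hsub : ∀ (C : ℤ × ℤ → ℂ) (z₁ z₂ : ℂ),
      Function.support (fun m : ℤ × ℤ => C m * z₁ ^ m.1 * z₂ ^ m.2) ⊆ Function.support C := by
    intro C z₁ z₂ m hm
    rw [Function.mem_support] at hm ⊢
    intro h0
    apply hm
    rw [h0, zero_mul, zero_mul]
  have hfin : (Function.support (fun m => A m - A' m)).Finite := by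
    refine (hA.union hA').subset ?_
    intro m hm
    rw [Function.mem_support] at hm
    by_contra hcon
    rw [Set.mem_union, Function.mem_support, Function.mem_support] at hcon
    push Not at hcon
    apply hm
    rw [hcon.1, hcon.2, sub_zero]
  have h0 := laurent2_zero681 (fun m => A m - A' m) hfin (by
    intro z₁ z₂ hz₁ hz₂
    have e : (fun m : ℤ × ℤ => (A m - A' m) * z₁ ^ m.1 * z₂ ^ m.2)
        = fun m => A m * z₁ ^ m.1 * z₂ ^ m.2 - A' m * z₁ ^ m.1 * z₂ ^ m.2 := by
      funext m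
      ring
    rw [e, finsum_sub_distrib (hA.subset (hsub A z₁ z₂)) (hA'.subset (hsub A' z₁ z₂)),
      h z₁ z₂ hz₁ hz₂, sub_self])
  funext m
  have := h0 m
  exact sub_eq_zero.1 this

end Fermat.Agent.LT.T3.H681

end

end
-- ===== PACK-END LT/T3/H681/SatLaurent.lean

-- ===== PACK-BEGIN LT/T7/H314/SatInjCore.lean
section




/-!
# Row LT, tower T7, node T7.L2.1.H2b.3 `SphHypC893` (helper314, OFF-MAIN): the CORE

INJECTIVITY OF THE SATAKE TRANSFORM (T6 form).  Mathlib + `T6/Spec.lean` + the Laurent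
uniqueness of helper681 (`T3/H681/SatLaurent.lean`, Mathlib only, byte-identical copy).

    satT_inj314 : q ≠ 0 → IsDominant A → IsDominant A' →
        (∀ x y ≠ 0, A.sum (c * satake q lam x y) = A'.sum (c * satake q lam x y)) → A = A'

Proof.  Closed formula `(x - y) P_{n+2} = s^{n+2} (x^{n+3} - y^{n+3}) - s^n x y (x^{n+1} -
y^{n+1})` (`s = √q`), so `(x - y) * satake (b + n, b)` is the Laurent polynomial
`s^n (x^{b+n+1} y^b - x^b y^{b+n+1}) - κ_n (x^{b+n} y^{b+1} - x^{b+1} y^{b+n})`,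
`κ_0 = 0`, `κ_n = s^n / q`.  The coefficient of `x^{a+1} y^b` (`b ≤ a`) of `(x - y) * ∑ B(λ)
satake λ` is `s^{a-b} (B(a, b) - B(a+1, b-1))`; so `B(a, b) = B(a + k, b - k)` for all `k`, and
`B = 0` (finite support).

No hole, nothing assumed.  ADDITIVE (suffix `314`).
-/

set_option autoImplicit false

noncomputable section

namespace Fermat.Agent.LT.T7.H314

open Fermat.Agent.LT

/-- `s = √q`. -/
def sq314 (q : ℕ) : ℂ := ((Real.sqrt q : ℝ) : ℂ)

theorem sq_sq314 (q : ℕ) : sq314 q ^ 2 = (q : ℂ) := by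
  unfold sq314
  rw [← Complex.ofReal_pow, Real.sq_sqrt (Nat.cast_nonneg q)]
  simp

theorem sq_ne_zero314 {q : ℕ} (hq : q ≠ 0) : sq314 q ≠ 0 := by
  intro h
  have := sq_sq314 q
  rw [h] at this
  have hq' : (q : ℂ) ≠ 0 := Nat.cast_ne_zero.2 hq
  exact hq' (by rw [← this]; ring)

theorem satPoly_zero314 (q : ℕ) (x y : ℂ) : T6.satPoly q x y 0 = 1 := T6.satPoly.eq_1 q x y

theorem satPoly_one314 (q : ℕ) (x y : ℂ) : T6.satPoly q x y 1 = sq314 q * (x + y) :=
  T6.satPoly.eq_2 q x y

theorem satPoly_two314 (q : ℕ) (x y : ℂ) :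
    T6.satPoly q x y 2 = (sq314 q * (x + y)) ^ 2 - ((q : ℂ) + 1) * (x * y) :=
  T6.satPoly.eq_3 q x y

theorem satPoly_add_three314 (q : ℕ) (x y : ℂ) (n : ℕ) :
    T6.satPoly q x y (n + 3)
      = sq314 q * (x + y) * T6.satPoly q x y (n + 2)
        - (q : ℂ) * (x * y) * T6.satPoly q x y (n + 1) :=
  T6.satPoly.eq_4 q x y n

/-- **The closed formula** of the Satake polynomials. -/
theorem satPoly_closed314 (q : ℕ) (x y : ℂ) (n : ℕ) :
    (x - y) * T6.satPoly q x y (n + 2)
      = sq314 q ^ (n + 2) * (x ^ (n + 3) - y ^ (n + 3))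
        - sq314 q ^ n * (x * y) * (x ^ (n + 1) - y ^ (n + 1)) := by
  have hs := sq_sq314 q
  have key : ∀ n : ℕ,
      ((x - y) * T6.satPoly q x y (n + 2)
        = sq314 q ^ (n + 2) * (x ^ (n + 3) - y ^ (n + 3))
          - sq314 q ^ n * (x * y) * (x ^ (n + 1) - y ^ (n + 1))) ∧
      ((x - y) * T6.satPoly q x y (n + 3)
        = sq314 q ^ (n + 3) * (x ^ (n + 4) - y ^ (n + 4))
          - sq314 q ^ (n + 1) * (x * y) * (x ^ (n + 2) - y ^ (n + 2))) := by
    intro n
    induction n with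
    | zero =>
      have h2 : (x - y) * T6.satPoly q x y 2
          = sq314 q ^ 2 * (x ^ 3 - y ^ 3) - sq314 q ^ 0 * (x * y) * (x ^ 1 - y ^ 1) := by
        rw [satPoly_two314, mul_pow, hs]
        ring
      refine ⟨h2, ?_⟩
      show (x - y) * T6.satPoly q x y (0 + 3) = _
      rw [satPoly_add_three314]
      have e : (x - y) * (sq314 q * (x + y) * T6.satPoly q x y (0 + 2)
            - (q : ℂ) * (x * y) * T6.satPoly q x y (0 + 1))
          = sq314 q * (x + y) * ((x - y) * T6.satPoly q x y 2)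
            - (q : ℂ) * (x * y) * ((x - y) * T6.satPoly q x y 1) := by
        simp only [zero_add]
        ring
      rw [e, h2, satPoly_one314, ← hs]
      ring
    | succ n ih =>
      refine ⟨ih.2, ?_⟩
      show (x - y) * T6.satPoly q x y (n + 1 + 3) = _
      rw [satPoly_add_three314]
      have e : (x - y) * (sq314 q * (x + y) * T6.satPoly q x y (n + 1 + 2)
            - (q : ℂ) * (x * y) * T6.satPoly q x y (n + 1 + 1))
          = sq314 q * (x + y) * ((x - y) * T6.satPoly q x y (n + 3))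
            - (q : ℂ) * (x * y) * ((x - y) * T6.satPoly q x y (n + 2)) := by
        ring
      rw [e, ih.1, ih.2, ← hs]
      ring
  exact (key n).1


/-! ## The Laurent polynomial of `(x - y) * satake` -/

/-- `κ_n`: `κ_0 = 0`, `κ_n = s^n / q`. -/
def kap314 (q : ℕ) (n : ℕ) : ℂ := if n = 0 then 0 else sq314 q ^ n / (q : ℂ)

theorem kap_zero314 (q : ℕ) : kap314 q 0 = 0 := by
  unfold kap314
  rw [if_pos rfl]

theorem kap_one314 (q : ℕ) : kap314 q 1 = sq314 q ^ 1 / (q : ℂ) := by
  unfold kap314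
  rw [if_neg one_ne_zero]

theorem kap_add_two314 {q : ℕ} (hq : q ≠ 0) (k : ℕ) : kap314 q (k + 2) = sq314 q ^ k := by
  unfold kap314
  have h2 : sq314 q ^ 2 ≠ 0 := pow_ne_zero _ (sq_ne_zero314 hq)
  rw [if_neg (by omega), ← sq_sq314 q, pow_add, mul_div_assoc, div_self h2, mul_one]

/-- The Laurent polynomial of `(x - y) * satake (b + n, b)`. -/
def lau314 (q : ℕ) (b : ℤ) (n : ℕ) : (ℤ × ℤ) →₀ ℂ :=
  sq314 q ^ n • (Finsupp.single (b + n + 1, b) 1 - Finsupp.single (b, b + n + 1) 1)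
    - kap314 q n • (Finsupp.single (b + n, b + 1) 1 - Finsupp.single (b + 1, b + n) 1)

/-- Evaluation of a Laurent polynomial. -/
def ev314 (x y : ℂ) : ((ℤ × ℤ) →₀ ℂ) →ₗ[ℂ] ℂ :=
  Finsupp.linearCombination ℂ (fun m : ℤ × ℤ => x ^ m.1 * y ^ m.2)

theorem ev_single314 (x y : ℂ) (m : ℤ × ℤ) (c : ℂ) :
    ev314 x y (Finsupp.single m c) = c * (x ^ m.1 * y ^ m.2) := by
  unfold ev314
  rw [Finsupp.linearCombination_single, smul_eq_mul]

theorem ev_apply314 (x y : ℂ) (C : (ℤ × ℤ) →₀ ℂ) :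
    ev314 x y C = ∑ m ∈ C.support, C m * (x ^ m.1 * y ^ m.2) := by
  unfold ev314
  rw [Finsupp.linearCombination_apply, Finsupp.sum]
  rfl

theorem ev_lau314 {q : ℕ} (hq : q ≠ 0) (x y : ℂ) (hx : x ≠ 0) (hy : y ≠ 0) (b : ℤ) (n : ℕ) :
    ev314 x y (lau314 q b n) = (x - y) * ((x * y) ^ b * T6.satPoly q x y n) := by
  have e1 : x ^ (b + (n : ℤ) + 1) = x ^ b * x ^ n * x := by
    rw [zpow_add₀ hx, zpow_add₀ hx, zpow_natCast, zpow_one]
  have e2 : y ^ (b + (n : ℤ) + 1) = y ^ b * y ^ n * y := by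
    rw [zpow_add₀ hy, zpow_add₀ hy, zpow_natCast, zpow_one]
  have e3 : x ^ (b + (n : ℤ)) = x ^ b * x ^ n := by
    rw [zpow_add₀ hx, zpow_natCast]
  have e4 : y ^ (b + (n : ℤ)) = y ^ b * y ^ n := by
    rw [zpow_add₀ hy, zpow_natCast]
  have e5 : x ^ (b + 1) = x ^ b * x := by
    rw [zpow_add₀ hx, zpow_one]
  have e6 : y ^ (b + 1) = y ^ b * y := by
    rw [zpow_add₀ hy, zpow_one]
  have hL : ev314 x y (lau314 q b n)
      = sq314 q ^ n * (x ^ b * x ^ n * x * y ^ b - x ^ b * (y ^ b * y ^ n * y))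
        - kap314 q n * (x ^ b * x ^ n * (y ^ b * y) - x ^ b * x * (y ^ b * y ^ n)) := by
    unfold lau314
    rw [map_sub, map_smul, map_smul, map_sub, map_sub, ev_single314, ev_single314, ev_single314,
      ev_single314]
    simp only [smul_eq_mul, one_mul]
    rw [e1, e2, e3, e4, e5, e6]
  rw [hL, mul_zpow]
  rcases n with _ | _ | k
  · rw [kap_zero314, satPoly_zero314]
    ring
  · rw [satPoly_one314]
    ring
  · have hc := satPoly_closed314 q x y k
    have e : (x - y) * (x ^ b * y ^ b * T6.satPoly q x y (k + 1 + 1))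
        = x ^ b * y ^ b * ((x - y) * T6.satPoly q x y (k + 2)) := by
      ring
    rw [e, hc, show k + 1 + 1 = k + 2 from rfl, kap_add_two314 hq]
    ring

theorem satake_eq314 (q : ℕ) (lam : ℤ × ℤ) (x y : ℂ) :
    T6.satake q lam x y = (x * y) ^ lam.2 * T6.satPoly q x y (lam.1 - lam.2).toNat := rfl

/-- The value of the Laurent polynomial of `(x - y) * satake λ` at `(a + 1, b)`, `b ≤ a`. -/
theorem lau_apply314 (q : ℕ) (lam : ℤ × ℤ) (hlam : lam.2 ≤ lam.1) (a b : ℤ) (hab : b ≤ a) :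
    lau314 q lam.2 (lam.1 - lam.2).toNat (a + 1, b)
      = (if lam = (a, b) then sq314 q ^ (a - b).toNat else 0)
        - (if lam = (a + 1, b - 1) then kap314 q ((a - b).toNat + 2) else 0) := by
  classical
  obtain ⟨l1, l2⟩ := lam
  simp only at hlam
  have hn : ((l1 - l2).toNat : ℤ) = l1 - l2 := Int.toNat_of_nonneg (by omega)
  have hn' : (((a - b).toNat : ℕ) : ℤ) = a - b := Int.toNat_of_nonneg (by omega)
  unfold lau314
  simp only [Finsupp.sub_apply, Finsupp.smul_apply, Finsupp.single_apply, smul_eq_mul,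
    Prod.mk.injEq]
  have c2 : ¬ (l2 = a + 1 ∧ l2 + ((l1 - l2).toNat : ℤ) + 1 = b) := by
    rintro ⟨h1, h2⟩
    omega
  rw [if_neg c2]
  by_cases h1 : l1 = a ∧ l2 = b
  · obtain ⟨rfl, rfl⟩ := h1
    have c1 : l2 + ((l1 - l2).toNat : ℤ) + 1 = l1 + 1 ∧ l2 = l2 := ⟨by omega, rfl⟩
    have c3 : ¬ (l2 + ((l1 - l2).toNat : ℤ) = l1 + 1 ∧ l2 + 1 = l2) := by
      rintro ⟨_, h⟩
      omega
    have c5 : ¬ (l1 = l1 + 1 ∧ l2 = l2 - 1) := by
      rintro ⟨h, _⟩
      omega
    rw [if_pos c1, if_neg c3, if_pos (show l1 = l1 ∧ l2 = l2 from ⟨rfl, rfl⟩), if_neg c5]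
    by_cases c4 : l2 + 1 = l1 + 1 ∧ l2 + ((l1 - l2).toNat : ℤ) = l2
    · have h0 : (l1 - l2).toNat = 0 := by omega
      rw [h0, kap_zero314]
      ring
    · rw [if_neg c4]
      ring
  · have c1 : ¬ (l2 + ((l1 - l2).toNat : ℤ) + 1 = a + 1 ∧ l2 = b) := by
      rintro ⟨h, h'⟩
      exact h1 ⟨by omega, h'⟩
    have c4 : ¬ (l2 + 1 = a + 1 ∧ l2 + ((l1 - l2).toNat : ℤ) = b) := by
      rintro ⟨h, h'⟩
      exact h1 ⟨by omega, by omega⟩
    rw [if_neg c1, if_neg c4, if_neg h1]
    by_cases h2 : l1 = a + 1 ∧ l2 = b - 1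
    · obtain ⟨rfl, rfl⟩ := h2
      have c3 : b - 1 + (((a + 1 - (b - 1)).toNat : ℕ) : ℤ) = a + 1 ∧ b - 1 + 1 = b :=
        ⟨by omega, by omega⟩
      have hk : (a + 1 - (b - 1)).toNat = (a - b).toNat + 2 := by omega
      rw [if_pos c3, if_pos (show a + 1 = a + 1 ∧ b - 1 = b - 1 from ⟨rfl, rfl⟩), hk]
      ring
    · have c3 : ¬ (l2 + ((l1 - l2).toNat : ℤ) = a + 1 ∧ l2 + 1 = b) := by
        rintro ⟨h, h'⟩
        exact h2 ⟨by omega, by omega⟩
      rw [if_neg c3, if_neg h2]
      ring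


/-! ## Injectivity -/

/-- The Laurent polynomial of `(x - y) * ∑ B(λ) satake λ`. -/
def lauSum314 (q : ℕ) (B : (ℤ × ℤ) →₀ ℂ) : (ℤ × ℤ) →₀ ℂ :=
  ∑ lam ∈ B.support, B lam • lau314 q lam.2 (lam.1 - lam.2).toNat

theorem ev_lauSum314 {q : ℕ} (hq : q ≠ 0) (B : (ℤ × ℤ) →₀ ℂ) (x y : ℂ) (hx : x ≠ 0)
    (hy : y ≠ 0) :
    ev314 x y (lauSum314 q B) = (x - y) * (B.sum fun lam c => c * T6.satake q lam x y) := by
  unfold lauSum314
  rw [map_sum, Finsupp.sum, Finset.mul_sum]
  refine Finset.sum_congr rfl (fun lam _ => ?_)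
  rw [map_smul, ev_lau314 hq x y hx hy, smul_eq_mul, satake_eq314]
  ring

theorem lauSum_zero314 {q : ℕ} (hq : q ≠ 0) (B : (ℤ × ℤ) →₀ ℂ)
    (h : ∀ x y : ℂ, x ≠ 0 → y ≠ 0 → (B.sum fun lam c => c * T6.satake q lam x y) = 0) :
    lauSum314 q B = 0 := by
  have hz : ∀ m, (fun m => lauSum314 q B m) m = 0 := by
    apply T3.H681.laurent2_zero681 (fun m => lauSum314 q B m) (Finsupp.finite_support _)
    intro z₁ z₂ h1 h2
    have e := ev_lauSum314 hq B z₁ z₂ h1 h2
    rw [h z₁ z₂ h1 h2, mul_zero, ev_apply314] at e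
    rw [finsum_eq_sum_of_support_subset (s := (lauSum314 q B).support)]
    · rw [← e]
      exact Finset.sum_congr rfl (fun m _ => by ring)
    · intro m hm
      rw [Function.mem_support] at hm
      rw [Finset.mem_coe, Finsupp.mem_support_iff]
      intro h0
      apply hm
      rw [h0]
      ring
  exact Finsupp.ext hz

theorem lauSum_apply314 (q : ℕ) (B : (ℤ × ℤ) →₀ ℂ) (hB : T6.IsDominant B) (a b : ℤ)
    (hab : b ≤ a) :
    lauSum314 q B (a + 1, b)
      = B (a, b) * sq314 q ^ (a - b).toNat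
        - B (a + 1, b - 1) * kap314 q ((a - b).toNat + 2) := by
  classical
  unfold lauSum314
  rw [Finsupp.finset_sum_apply]
  have e : ∀ lam ∈ B.support, (B lam • lau314 q lam.2 (lam.1 - lam.2).toNat) (a + 1, b)
      = (if lam = (a, b) then B lam * sq314 q ^ (a - b).toNat else 0)
        - (if lam = (a + 1, b - 1) then B lam * kap314 q ((a - b).toNat + 2) else 0) := by
    intro lam hl
    rw [Finsupp.smul_apply, smul_eq_mul, lau_apply314 q lam (hB lam hl) a b hab, mul_sub,
      mul_ite, mul_zero, mul_ite, mul_zero]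
  rw [Finset.sum_congr rfl e, Finset.sum_sub_distrib, Finset.sum_ite_eq', Finset.sum_ite_eq']
  have h1 : (if (a, b) ∈ B.support then B (a, b) * sq314 q ^ (a - b).toNat else 0)
      = B (a, b) * sq314 q ^ (a - b).toNat := by
    split_ifs with h
    · rfl
    · rw [Finsupp.notMem_support_iff.1 h, zero_mul]
  have h2 : (if (a + 1, b - 1) ∈ B.support then
        B (a + 1, b - 1) * kap314 q ((a - b).toNat + 2) else 0)
      = B (a + 1, b - 1) * kap314 q ((a - b).toNat + 2) := by
    split_ifs with h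
    · rfl
    · rw [Finsupp.notMem_support_iff.1 h, zero_mul]
  rw [h1, h2]

/-- **The Satake transform (T6 form) is injective on the dominant functions**, zero form. -/
theorem satT_zero314 {q : ℕ} (hq : q ≠ 0) (B : (ℤ × ℤ) →₀ ℂ) (hB : T6.IsDominant B)
    (h : ∀ x y : ℂ, x ≠ 0 → y ≠ 0 → (B.sum fun lam c => c * T6.satake q lam x y) = 0) :
    B = 0 := by
  have hC := lauSum_zero314 hq B h
  have step : ∀ a b : ℤ, b ≤ a → B (a, b) = B (a + 1, b - 1) := by
    intro a b hab
    have e := lauSum_apply314 q B hB a b hab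
    rw [hC, Finsupp.zero_apply, kap_add_two314 hq] at e
    have hs : sq314 q ^ (a - b).toNat ≠ 0 := pow_ne_zero _ (sq_ne_zero314 hq)
    have h0 : (B (a, b) - B (a + 1, b - 1)) * sq314 q ^ (a - b).toNat = 0 := by
      rw [sub_mul]
      exact e.symm
    rcases mul_eq_zero.1 h0 with h1 | h1
    · exact sub_eq_zero.1 h1
    · exact absurd h1 hs
  have iter : ∀ (k : ℕ) (a b : ℤ), b ≤ a → B (a, b) = B (a + k, b - k) := by
    intro k
    induction k with
    | zero =>
      intro a b _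
      simp
    | succ k ih =>
      intro a b hab
      rw [ih a b hab, step (a + k) (b - k) (by omega)]
      have e1 : a + (k : ℤ) + 1 = a + ((k + 1 : ℕ) : ℤ) := by push_cast; ring
      have e2 : b - (k : ℤ) - 1 = b - ((k + 1 : ℕ) : ℤ) := by push_cast; ring
      rw [e1, e2]
  ext ⟨a, b⟩
  rw [Finsupp.zero_apply]
  by_contra hne
  have hab : b ≤ a := hB (a, b) (Finsupp.mem_support_iff.2 hne)
  have hmem : ∀ k : ℕ, ((a + (k : ℤ), b - (k : ℤ)) : ℤ × ℤ) ∈ (B.support : Set (ℤ × ℤ)) := by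
    intro k
    rw [Finset.mem_coe, Finsupp.mem_support_iff, ← iter k a b hab]
    exact hne
  have hinj : Function.Injective (fun k : ℕ => ((a + (k : ℤ), b - (k : ℤ)) : ℤ × ℤ)) := by
    intro k k' hkk
    simp only [Prod.mk.injEq] at hkk
    omega
  exact (Set.infinite_of_injective_forall_mem hinj hmem) B.support.finite_toSet

/-- **The Satake transform (T6 form) is injective on the dominant functions.** -/
theorem satT_inj314 {q : ℕ} (hq : q ≠ 0) (A A' : (ℤ × ℤ) →₀ ℂ) (hA : T6.IsDominant A)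
    (hA' : T6.IsDominant A')
    (h : ∀ x y : ℂ, x ≠ 0 → y ≠ 0 →
      (A.sum fun lam c => c * T6.satake q lam x y)
        = A'.sum fun lam c => c * T6.satake q lam x y) : A = A' := by
  classical
  have hB : T6.IsDominant (A - A') := by
    intro lam hl
    rcases Finset.mem_union.1 (Finsupp.support_sub hl) with h1 | h1
    · exact hA lam h1
    · exact hA' lam h1
  have h0 := satT_zero314 hq (A - A') hB (fun x y hx hy => by
    rw [Finsupp.sum_sub_index (fun a b₁ b₂ => by ring), h x y hx hy, sub_self])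
  exact sub_eq_zero.1 h0

end Fermat.Agent.LT.T7.H314

end

end
-- ===== PACK-END LT/T7/H314/SatInjCore.lean

-- ===== PACK-BEGIN LT/T7/H717/PushCalcAbs.lean
section


/-!
# Row LT, tower T7, leaf DF.1 `DF619.PushCalcC619` (cut of `B981.DownFinC981` by helper619):
# MATHLIB-ONLY core (helper717, OFF-MAIN, never land)

`pushCalc_abs717`: for a finite index type `ι`, weights `f : ι → ℕ` and finitely supported
symmetric coefficients `A' w : ℤ × ℤ → ℂ`, the push-forward
`M ↦ ∑ᶠ mm, if ∑ w, f w • mm w = M then ∏ w, A' w (mm w) else 0`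
is finitely supported, symmetric, and its Laurent polynomial at `(x, y)`, `x, y ≠ 0`, is the
product of the Laurent polynomials of the `A' w` at `(x ^ f w, y ^ f w)`.
-/

set_option autoImplicit false
set_option linter.unusedSectionVars false
set_option linter.style.haveILetI false
set_option linter.unusedVariables false
set_option maxHeartbeats 1600000

namespace Fermat.Agent.LT.T7.H717

open Finset

theorem zpow_sum717 {ι : Type*} (s : Finset ι) (x : ℂ) (hx : x ≠ 0) (a : ι → ℤ) :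
    x ^ (∑ i ∈ s, a i) = ∏ i ∈ s, x ^ a i := by
  classical
  induction s using Finset.induction_on with
  | empty => simp
  | insert i s hi ih =>
    rw [Finset.sum_insert hi, Finset.prod_insert hi, zpow_add₀ hx, ih]

theorem pushCalc_abs717 {ι : Type*} [Fintype ι] (f : ι → ℕ) (A' : ι → ℤ × ℤ → ℂ)
    [∀ (M : ℤ × ℤ) (mm : ι → ℤ × ℤ), Decidable (∑ w, ((f w : ℕ) : ℤ) • mm w = M)]
    (hfin : ∀ w, (Function.support (A' w)).Finite)
    (hsym : ∀ (w : ι) (m₁ m₂ : ℤ), A' w (m₁, m₂) = A' w (m₂, m₁))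
    (push : ℤ × ℤ → ℂ)
    (hpush : ∀ M, push M = ∑ᶠ mm : ι → ℤ × ℤ,
      if ∑ w, ((f w : ℕ) : ℤ) • mm w = M then ∏ w, A' w (mm w) else 0) :
    (Function.support push).Finite ∧ (∀ m₁ m₂ : ℤ, push (m₁, m₂) = push (m₂, m₁)) ∧
      ∀ x y : ℂ, x ≠ 0 → y ≠ 0 →
        (∑ᶠ m : ℤ × ℤ, push m * x ^ m.1 * y ^ m.2)
          = ∏ w, (∑ᶠ m : ℤ × ℤ, A' w m * (x ^ f w) ^ m.1 * (y ^ f w) ^ m.2) := by
  classical
  set S : ι → Finset (ℤ × ℤ) := fun w => (hfin w).toFinset with hS
  set Box : Finset (ι → ℤ × ℤ) := Fintype.piFinset S with hBox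
  set N : (ι → ℤ × ℤ) → ℤ × ℤ := fun mm => ∑ w, ((f w : ℕ) : ℤ) • mm w with hN
  have hmemS : ∀ w m, m ∈ S w ↔ A' w m ≠ 0 := by
    intro w m
    simp [hS, Function.mem_support]
  have hbox : ∀ mm : ι → ℤ × ℤ, (∏ w, A' w (mm w)) ≠ 0 → mm ∈ Box := by
    intro mm h
    rw [hBox, Fintype.mem_piFinset]
    intro w
    rw [hmemS]
    intro h0
    exact h (Finset.prod_eq_zero (Finset.mem_univ w) h0)
  -- the push-forward as a finite sum
  have hsum : ∀ M, push M = ∑ mm ∈ Box, if N mm = M then ∏ w, A' w (mm w) else 0 := by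
    intro M
    rw [hpush M]
    apply finsum_eq_sum_of_support_subset
    intro mm hmm
    rw [Function.mem_support] at hmm
    have : (∏ w, A' w (mm w)) ≠ 0 := by
      intro h0
      apply hmm
      split_ifs
      · exact h0
      · rfl
    exact Finset.mem_coe.2 (hbox mm this)
  have hsupp : Function.support push ⊆ ((Box.image N : Finset (ℤ × ℤ)) : Set (ℤ × ℤ)) := by
    intro M hM
    rw [Function.mem_support, hsum M] at hM
    obtain ⟨mm, hmm, hne⟩ := Finset.exists_ne_zero_of_sum_ne_zero hM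
    rw [Finset.mem_coe, Finset.mem_image]
    refine ⟨mm, hmm, ?_⟩
    by_contra hcon
    exact hne (if_neg hcon)
  refine ⟨(Finset.finite_toSet _).subset hsupp, ?_, ?_⟩
  · -- symmetry
    intro m₁ m₂
    rw [hpush (m₁, m₂), hpush (m₂, m₁)]
    let sw : (ι → ℤ × ℤ) ≃ (ι → ℤ × ℤ) :=
      { toFun := fun mm w => ((mm w).2, (mm w).1)
        invFun := fun mm w => ((mm w).2, (mm w).1)
        left_inv := fun mm => by funext w; rfl
        right_inv := fun mm => by funext w; rfl }
    rw [← finsum_comp_equiv sw]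
    apply finsum_congr
    intro mm
    have h1 : (∏ w, A' w (sw mm w)) = ∏ w, A' w (mm w) := by
      apply Finset.prod_congr rfl
      intro w _
      show A' w ((mm w).2, (mm w).1) = A' w (mm w)
      rw [hsym w (mm w).2 (mm w).1]
    have h2 : (∑ w, ((f w : ℕ) : ℤ) • sw mm w = (m₁, m₂))
        ↔ (∑ w, ((f w : ℕ) : ℤ) • mm w = (m₂, m₁)) := by
      have hfst : ∀ g : ι → ℤ × ℤ, (∑ w, ((f w : ℕ) : ℤ) • g w)
          = (∑ w, ((f w : ℕ) : ℤ) * (g w).1, ∑ w, ((f w : ℕ) : ℤ) * (g w).2) := by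
        intro g
        apply Prod.ext
        · rw [Prod.fst_sum]
          apply Finset.sum_congr rfl
          intro w _
          simp
        · rw [Prod.snd_sum]
          apply Finset.sum_congr rfl
          intro w _
          simp
      rw [hfst, hfst]
      show ((∑ w, ((f w : ℕ) : ℤ) * (mm w).2, ∑ w, ((f w : ℕ) : ℤ) * (mm w).1) = (m₁, m₂)) ↔ _
      rw [Prod.mk.injEq, Prod.mk.injEq]
      exact and_comm
    by_cases hc : ∑ w, ((f w : ℕ) : ℤ) • mm w = (m₂, m₁)
    · rw [if_pos hc, if_pos (h2.2 hc), h1]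
    · rw [if_neg hc, if_neg (fun h => hc (h2.1 h))]
  · -- the Laurent polynomial
    intro x y hx hy
    have hL : (∑ᶠ m : ℤ × ℤ, push m * x ^ m.1 * y ^ m.2)
        = ∑ M ∈ Box.image N, push M * x ^ M.1 * y ^ M.2 := by
      apply finsum_eq_sum_of_support_subset
      intro M hM
      rw [Function.mem_support] at hM
      apply hsupp
      rw [Function.mem_support]
      intro h0
      apply hM
      rw [h0, zero_mul, zero_mul]
    rw [hL]
    have hR : ∀ w, (∑ᶠ m : ℤ × ℤ, A' w m * (x ^ f w) ^ m.1 * (y ^ f w) ^ m.2)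
        = ∑ m ∈ S w, A' w m * (x ^ f w) ^ m.1 * (y ^ f w) ^ m.2 := by
      intro w
      apply finsum_eq_sum_of_support_subset
      intro m hm
      rw [Function.mem_support] at hm
      rw [Finset.mem_coe, hmemS]
      intro h0
      apply hm
      rw [h0, zero_mul, zero_mul]
    simp_rw [hR]
    rw [Finset.prod_univ_sum]
    -- exchange the sums
    have h3 : ∀ M ∈ Box.image N, push M * x ^ M.1 * y ^ M.2
        = ∑ mm ∈ Box, if N mm = M then (∏ w, A' w (mm w)) * x ^ (N mm).1 * y ^ (N mm).2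
            else 0 := by
      intro M _
      rw [hsum M, Finset.sum_mul, Finset.sum_mul]
      apply Finset.sum_congr rfl
      intro mm _
      by_cases hc : N mm = M
      · rw [if_pos hc, if_pos hc, hc]
      · rw [if_neg hc, if_neg hc, zero_mul, zero_mul]
    rw [Finset.sum_congr rfl h3, Finset.sum_comm]
    apply Finset.sum_congr rfl
    intro mm hmm
    rw [Finset.sum_eq_single (N mm) (fun b _ hb => if_neg (Ne.symm hb))
      (fun h => absurd (Finset.mem_image_of_mem N hmm) h), if_pos rfl]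
    have hN1 : (N mm).1 = ∑ w, ((f w : ℕ) : ℤ) * (mm w).1 := by
      rw [hN]
      show (∑ w, ((f w : ℕ) : ℤ) • mm w).1 = _
      rw [Prod.fst_sum]
      apply Finset.sum_congr rfl
      intro w _
      simp
    have hN2 : (N mm).2 = ∑ w, ((f w : ℕ) : ℤ) * (mm w).2 := by
      rw [hN]
      show (∑ w, ((f w : ℕ) : ℤ) • mm w).2 = _
      rw [Prod.snd_sum]
      apply Finset.sum_congr rfl
      intro w _
      simp
    rw [hN1, hN2, zpow_sum717 _ x hx, zpow_sum717 _ y hy, ← Finset.prod_mul_distrib,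
      ← Finset.prod_mul_distrib]
    apply Finset.prod_congr rfl
    intro w _
    rw [zpow_mul, zpow_mul, zpow_natCast, zpow_natCast]

end Fermat.Agent.LT.T7.H717

end
-- ===== PACK-END LT/T7/H717/PushCalcAbs.lean

-- ===== PACK-BEGIN LT/T7/H812/PlacesCore.lean
section



/-!
# Row LT, tower T7: places of `K'` over places of `K` (helper812; Mathlib + `T7/Spec.lean`)

OFF-MAIN.  ADDITIVE (new names only, suffix `812`).  Every proof is complete, nothing assumed.

    placesCore812 : the statement of `B981.SS503.PlacesC503 K K'` (leaf SS.5 of the cut of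
                    helper503 of the node `B981.StepSC981`), word for word

`v = w ∩ 𝓞_K`, `f = f(w | v)` (`Ideal.absNorm_eq_pow_inertiaDeg'_of_liesOver`), the set of the
places over `v` is finite (`primesOverFinset`), `∑ e f = [K' : K]`
(`Ideal.sum_ramification_inertia`).
-/

set_option autoImplicit false
set_option linter.unusedSectionVars false
set_option linter.deprecated false
set_option linter.style.haveILetI false

open IsDedekindDomain NumberField

noncomputable section

namespace Fermat.Agent.LT.T7.H812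

open Fermat.Agent.LT.T7

variable {K K' : Type} [Field K] [NumberField K] [Field K'] [NumberField K'] [Algebra K K']

theorem coe_algebraMap812 (x : 𝓞 K) :
    ((algebraMap (𝓞 K) (𝓞 K') x : 𝓞 K') : K') = algebraMap K K' (x : K) := rfl

/-- `w` lies over `v` iff `v = w ∩ 𝓞_K`. -/
theorem placeOver_iff_comap812 (v : HeightOneSpectrum (𝓞 K)) (w : HeightOneSpectrum (𝓞 K')) :
    PlaceOver K K' v w ↔ v.asIdeal = Ideal.comap (algebraMap (𝓞 K) (𝓞 K')) w.asIdeal := by
  constructor
  · intro h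
    ext x
    rw [Ideal.mem_comap]
    exact h x (algebraMap (𝓞 K) (𝓞 K') x) (coe_algebraMap812 x)
  · intro h x y hxy
    have e : y = algebraMap (𝓞 K) (𝓞 K') x :=
      RingOfIntegers.ext (hxy.trans (coe_algebraMap812 x).symm)
    rw [e, h, Ideal.mem_comap]

/-- The place of `K` under a place of `K'`. -/
def underPlace812 (K : Type) {K' : Type} [Field K] [NumberField K] [Field K'] [NumberField K']
    [Algebra K K'] (w : HeightOneSpectrum (𝓞 K')) : HeightOneSpectrum (𝓞 K) where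
  asIdeal := Ideal.comap (algebraMap (𝓞 K) (𝓞 K')) w.asIdeal
  isPrime := Ideal.comap_isPrime _ _
  ne_bot := Ideal.under_ne_bot (𝓞 K) w.ne_bot

theorem underPlace812_asIdeal (w : HeightOneSpectrum (𝓞 K')) :
    (underPlace812 K w).asIdeal = Ideal.comap (algebraMap (𝓞 K) (𝓞 K')) w.asIdeal := rfl

theorem placeOver_underPlace812 (w : HeightOneSpectrum (𝓞 K')) :
    PlaceOver K K' (underPlace812 K w) w :=
  (placeOver_iff_comap812 _ _).2 rfl

theorem eq_underPlace812 {v : HeightOneSpectrum (𝓞 K)} {w : HeightOneSpectrum (𝓞 K')}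
    (h : PlaceOver K K' v w) : v = underPlace812 K w :=
  HeightOneSpectrum.ext ((placeOver_iff_comap812 v w).1 h)

theorem liesOver_of_placeOver812 {v : HeightOneSpectrum (𝓞 K)} {w : HeightOneSpectrum (𝓞 K')}
    (h : PlaceOver K K' v w) : w.asIdeal.LiesOver v.asIdeal :=
  ⟨(placeOver_iff_comap812 v w).1 h⟩

theorem placeOver_of_liesOver812 {v : HeightOneSpectrum (𝓞 K)} {w : HeightOneSpectrum (𝓞 K')}
    (h : w.asIdeal.LiesOver v.asIdeal) : PlaceOver K K' v w :=
  (placeOver_iff_comap812 v w).2 h.over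

/-- The residue degree. -/
theorem hasResDeg_inertiaDeg812 {v : HeightOneSpectrum (𝓞 K)} {w : HeightOneSpectrum (𝓞 K')}
    (h : PlaceOver K K' v w) :
    HasResDeg K K' v w (v.asIdeal.inertiaDeg' w.asIdeal) := by
  haveI : w.asIdeal.LiesOver v.asIdeal := liesOver_of_placeOver812 h
  exact ⟨h, Ideal.absNorm_eq_pow_inertiaDeg'_of_liesOver w.asIdeal v.asIdeal v.isPrime v.ne_bot⟩

/-- The primes over `v` are the places over `v`. -/
theorem mem_primesOverFinset_iff812 (v : HeightOneSpectrum (𝓞 K))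
    (w : HeightOneSpectrum (𝓞 K')) :
    w.asIdeal ∈ IsDedekindDomain.primesOverFinset v.asIdeal (𝓞 K') ↔ PlaceOver K K' v w := by
  haveI : v.asIdeal.IsMaximal := v.isMaximal
  rw [IsDedekindDomain.mem_primesOverFinset_iff v.ne_bot]
  constructor
  · rintro ⟨_, h2⟩
    exact placeOver_of_liesOver812 h2
  · intro h
    exact ⟨w.isPrime, liesOver_of_placeOver812 h⟩

/-- A prime over `v` is a place. -/
theorem exists_place_of_mem812 (v : HeightOneSpectrum (𝓞 K)) {Q : Ideal (𝓞 K')}
    (hQ : Q ∈ IsDedekindDomain.primesOverFinset v.asIdeal (𝓞 K')) :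
    ∃ w : HeightOneSpectrum (𝓞 K'), w.asIdeal = Q ∧ PlaceOver K K' v w := by
  haveI : v.asIdeal.IsMaximal := v.isMaximal
  obtain ⟨h1, h2⟩ := (IsDedekindDomain.mem_primesOverFinset_iff v.ne_bot (𝓞 K')).1 hQ
  haveI := h2
  have hne : Q ≠ ⊥ := Ideal.ne_bot_of_liesOver_of_ne_bot v.ne_bot Q
  exact ⟨⟨Q, h1, hne⟩, rfl, placeOver_of_liesOver812 h2⟩

/-- The set of the places over `v` is finite. -/
theorem finite_placeOver812 (v : HeightOneSpectrum (𝓞 K)) :
    {w : HeightOneSpectrum (𝓞 K') | PlaceOver K K' v w}.Finite := by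
  have hinj : Function.Injective
      (fun w : HeightOneSpectrum (𝓞 K') => w.asIdeal) := fun a b h => HeightOneSpectrum.ext h
  have h1 : ((fun w : HeightOneSpectrum (𝓞 K') => w.asIdeal) ⁻¹'
      (IsDedekindDomain.primesOverFinset v.asIdeal (𝓞 K') : Set (Ideal (𝓞 K')))).Finite :=
    (IsDedekindDomain.primesOverFinset v.asIdeal (𝓞 K')).finite_toSet.preimage hinj.injOn
  refine h1.subset ?_
  intro w hw
  exact (mem_primesOverFinset_iff812 v w).2 hw

/-- Every term of the fundamental identity is positive. -/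
theorem one_le_ef812 (v : HeightOneSpectrum (𝓞 K)) {Q : Ideal (𝓞 K')}
    (hQ : Q ∈ IsDedekindDomain.primesOverFinset v.asIdeal (𝓞 K')) :
    1 ≤ v.asIdeal.ramificationIdx' Q * v.asIdeal.inertiaDeg' Q := by
  haveI : v.asIdeal.IsMaximal := v.isMaximal
  obtain ⟨h1, h2⟩ := (IsDedekindDomain.mem_primesOverFinset_iff v.ne_bot (𝓞 K')).1 hQ
  haveI := h1
  haveI := h2
  refine Right.one_le_mul ?_ ?_
  · exact Nat.pos_iff_ne_zero.mpr
      (Ideal.IsDedekindDomain.ramificationIdx'_ne_zero_of_liesOver Q v.ne_bot)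
  · exact Nat.pos_iff_ne_zero.mpr (Ideal.inertiaDeg'_ne_zero v.asIdeal Q)

/-- The fundamental identity. -/
theorem sum_ef812 (v : HeightOneSpectrum (𝓞 K)) :
    ∑ Q ∈ IsDedekindDomain.primesOverFinset v.asIdeal (𝓞 K'),
      v.asIdeal.ramificationIdx' Q * v.asIdeal.inertiaDeg' Q = Module.finrank K K' := by
  haveI : v.asIdeal.IsMaximal := v.isMaximal
  exact Ideal.sum_ramification_inertia (𝓞 K') K K' v.ne_bot

/-- `e = 1` for a place which is unramified in the sense of the leaf. -/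
theorem ramificationIdx_eq_one812 {v : HeightOneSpectrum (𝓞 K)} {w : HeightOneSpectrum (𝓞 K')}
    (h : PlaceOver K K' v w)
    (hx : ∃ x : 𝓞 K, x ∈ v.asIdeal ∧ algebraMap (𝓞 K) (𝓞 K') x ∉ w.asIdeal ^ 2) :
    v.asIdeal.ramificationIdx' w.asIdeal = 1 := by
  haveI : v.asIdeal.IsMaximal := v.isMaximal
  haveI : w.asIdeal.LiesOver v.asIdeal := liesOver_of_placeOver812 h
  haveI : w.asIdeal.IsPrime := w.isPrime
  have h0 : v.asIdeal.ramificationIdx' w.asIdeal ≠ 0 :=
    Ideal.IsDedekindDomain.ramificationIdx'_ne_zero_of_liesOver w.asIdeal v.ne_bot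
  obtain ⟨x, hxv, hxw⟩ := hx
  by_contra hne
  have h2 : 2 ≤ v.asIdeal.ramificationIdx' w.asIdeal := by omega
  have h3 : Ideal.map (algebraMap (𝓞 K) (𝓞 K')) v.asIdeal
      ≤ w.asIdeal ^ v.asIdeal.ramificationIdx' w.asIdeal := Ideal.le_pow_ramificationIdx'
  exact hxw (Ideal.pow_le_pow_right h2 (h3 (Ideal.mem_map_of_mem _ hxv)))

/-- **The statement of `B981.SS503.PlacesC503 K K'`.** -/
theorem placesCore812 (K K' : Type) [Field K] [NumberField K] [Field K'] [NumberField K']
    [Algebra K K'] :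
    ∀ ℓ : ℕ, IsCycExt K K' ℓ → ∀ w : HeightOneSpectrum (𝓞 K'),
    ∃ (v : HeightOneSpectrum (𝓞 K)) (f : ℕ) (P : Finset (HeightOneSpectrum (𝓞 K'))),
      HasResDeg K K' v w f ∧
      (∀ v' : HeightOneSpectrum (𝓞 K), PlaceOver K K' v' w → v' = v) ∧
      (∀ w' : HeightOneSpectrum (𝓞 K'), w' ∈ P ↔ PlaceOver K K' v w') ∧
      ((∃ x : 𝓞 K, x ∈ v.asIdeal ∧ algebraMap (𝓞 K) (𝓞 K') x ∉ w.asIdeal ^ 2) →
        ((∀ w' : HeightOneSpectrum (𝓞 K'), PlaceOver K K' v w' → w' = w) → f = ℓ) ∧
        ∀ u : ℕ → HeightOneSpectrum (𝓞 K'), (∀ j : ℕ, PlaceOver K K' v (u j)) →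
          (∀ j j' : ℕ, j < ℓ → j' < ℓ → u j = u j' → j = j') →
          f = 1 ∧ ∃ j : ℕ, j < ℓ ∧ u j = w) := by
  classical
  intro ℓ hcyc w
  have hw : PlaceOver K K' (underPlace812 K w) w := placeOver_underPlace812 w
  have hwmem : w.asIdeal ∈ IsDedekindDomain.primesOverFinset (underPlace812 K w).asIdeal (𝓞 K') :=
    (mem_primesOverFinset_iff812 _ w).2 hw
  have hsum := sum_ef812 (K' := K') (underPlace812 K w)
  rw [hcyc.degree] at hsum
  refine ⟨underPlace812 K w, (underPlace812 K w).asIdeal.inertiaDeg' w.asIdeal,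
    (finite_placeOver812 (underPlace812 K w)).toFinset, hasResDeg_inertiaDeg812 hw,
    fun v' hv' => eq_underPlace812 hv', fun w' => ?_, fun hx => ⟨fun hone => ?_, fun u hu hinj => ?_⟩⟩
  · rw [Set.Finite.mem_toFinset]
    rfl
  · -- one place
    have hPF : IsDedekindDomain.primesOverFinset (underPlace812 K w).asIdeal (𝓞 K') = {w.asIdeal} := by
      ext Q
      rw [Finset.mem_singleton]
      constructor
      · intro hQ
        obtain ⟨w', rfl, hw'⟩ := exists_place_of_mem812 _ hQ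
        rw [hone w' hw']
      · rintro rfl
        exact hwmem
    rw [hPF, Finset.sum_singleton, ramificationIdx_eq_one812 hw hx, one_mul] at hsum
    exact hsum
  · -- `ℓ` places
    set PF := IsDedekindDomain.primesOverFinset (underPlace812 K w).asIdeal (𝓞 K') with hPFdef
    set U : Finset (Ideal (𝓞 K')) := (Finset.range ℓ).image (fun j => (u j).asIdeal) with hU
    have hUsub : U ⊆ PF := by
      intro Q hQ
      obtain ⟨j, -, rfl⟩ := Finset.mem_image.1 hQ
      exact (mem_primesOverFinset_iff812 _ (u j)).2 (hu j)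
    have hUcard : U.card = ℓ := by
      rw [hU, Finset.card_image_of_injOn, Finset.card_range]
      intro j hj j' hj' h
      exact hinj j j' (Finset.mem_range.1 hj) (Finset.mem_range.1 hj')
        (HeightOneSpectrum.ext h)
    have hge : PF.card ≤ ℓ := by
      calc PF.card = ∑ _Q ∈ PF, 1 := Finset.card_eq_sum_ones PF
        _ ≤ ∑ Q ∈ PF, (underPlace812 K w).asIdeal.ramificationIdx' Q *
              (underPlace812 K w).asIdeal.inertiaDeg' Q :=
            Finset.sum_le_sum (fun Q hQ => one_le_ef812 _ hQ)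
        _ = ℓ := hsum
    have hUPF : U = PF := Finset.eq_of_subset_of_card_le hUsub (by rw [hUcard]; exact hge)
    have hcard : PF.card = ℓ := by rw [← hUPF, hUcard]
    refine ⟨?_, ?_⟩
    · -- `e f = 1` at `w`
      have h1 := Finset.add_sum_erase PF
        (fun Q => (underPlace812 K w).asIdeal.ramificationIdx' Q *
              (underPlace812 K w).asIdeal.inertiaDeg' Q) hwmem
      have h2 : (PF.erase w.asIdeal).card ≤ ∑ Q ∈ PF.erase w.asIdeal,
          (underPlace812 K w).asIdeal.ramificationIdx' Q *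
              (underPlace812 K w).asIdeal.inertiaDeg' Q := by
        calc (PF.erase w.asIdeal).card = ∑ _Q ∈ PF.erase w.asIdeal, 1 :=
              Finset.card_eq_sum_ones _
          _ ≤ _ := Finset.sum_le_sum (fun Q hQ => one_le_ef812 _ (Finset.mem_of_mem_erase hQ))
      have h3 : (PF.erase w.asIdeal).card = ℓ - 1 := by
        rw [Finset.card_erase_of_mem hwmem, hcard]
      have h4 := one_le_ef812 _ hwmem
      have hℓ : 1 ≤ ℓ := hcyc.prime.one_le
      have h5 : (underPlace812 K w).asIdeal.ramificationIdx' w.asIdeal *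
              (underPlace812 K w).asIdeal.inertiaDeg' w.asIdeal = 1 := by
        rw [hsum] at h1
        omega
      exact Nat.eq_one_of_mul_eq_one_left h5
    · have hwU : w.asIdeal ∈ U := by rw [hUPF]; exact hwmem
      obtain ⟨j, hj, hjw⟩ := Finset.mem_image.1 hwU
      exact ⟨j, Finset.mem_range.1 hj, HeightOneSpectrum.ext hjw⟩

end Fermat.Agent.LT.T7.H812

end

end
-- ===== PACK-END LT/T7/H812/PlacesCore.lean

-- ===== PACK-BEGIN LT/T7/H756/LvlCore.lean
section



/-!
# The closure of a nonzero ideal in `K_v` is a ball (helper756, OFF-MAIN)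

Mathlib + the definition `A0.idealClosure` only.

* `idealClosure_eq_ball756` : for `b ∈ 𝔫` of maximal valuation at `v`, the closure of `𝔫` in
  `K_v` is `{x | v x ≤ v b}`;
* `exists_levelExp756` : for `𝔫 ≠ ⊥` there is `m : places → ℕ` with
  `x ∈ idealClosure 𝔫 v ↔ v x ≤ exp (- m v)`, and `d ≤ m v` whenever `𝔫 ≤ v ^ d`.

(The density of `𝓞 K` in `𝒪_v` and the stability of the closure under `𝒪_v` are the proofs of
helper981 `T7/H981/FinIndex.lean`, restated under fresh names.)
-/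

set_option autoImplicit false

open IsDedekindDomain NumberField

noncomputable section

namespace Fermat.Agent.LT.T7.H756

open Fermat.Agent.LT.H556 Fermat.Agent.LT.H556.A0 Fermat.Agent.LT

variable {F : Type} [Field F] [NumberField F]

/-- The map `𝓞 F → F_v`. -/
abbrev toC756 (v : HeightOneSpectrum (𝓞 F)) (x : 𝓞 F) : v.adicCompletion F :=
  algebraMap F (v.adicCompletion F) (algebraMap (𝓞 F) F x)

theorem valued_algebraMapC756 (v : HeightOneSpectrum (𝓞 F)) (y : F) :
    Valued.v (algebraMap F (v.adicCompletion F) y) = v.valuation F y :=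
  HeightOneSpectrum.valuedAdicCompletion_eq_valuation' v y

theorem valued_toC756 (v : HeightOneSpectrum (𝓞 F)) (x : 𝓞 F) :
    Valued.v (toC756 v x) = v.intValuation x := by
  rw [toC756, valued_algebraMapC756, HeightOneSpectrum.valuation_of_algebraMap]

/-- `𝓞 F` is dense in `𝒪_v`. -/
theorem integers_subset_closure756 (v : HeightOneSpectrum (𝓞 F)) :
    (v.adicCompletionIntegers F : Set (v.adicCompletion F))
      ⊆ closure (Set.range (toC756 v)) := by
  intro x hx
  rw [mem_closure_iff]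
  intro U hU hxU
  have hO : IsOpen (v.adicCompletionIntegers F : Set (v.adicCompletion F)) :=
    Valued.isOpen_valuationSubring _
  obtain ⟨k, hk⟩ := (HeightOneSpectrum.denseRange_algebraMap F v).exists_mem_open
    (hU.inter hO) ⟨x, hxU, hx⟩
  have hkU : algebraMap F (v.adicCompletion F) k ∈ U := hk.1
  have hk1 : v.valuation F k ≤ 1 := by
    rw [← valued_algebraMapC756]
    exact (HeightOneSpectrum.mem_adicCompletionIntegers (𝓞 F) F v).1 hk.2
  obtain ⟨γ, hγ⟩ := (Valued.mem_nhds (R := v.adicCompletion F)).1 (hU.mem_nhds hkU)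
  have hγ0 : MonoidWithZeroHom.ValueGroup₀.embedding γ.1 ≠ 0 := by
    simp
  obtain ⟨a, ha⟩ := HeightOneSpectrum.exists_valuation_sub_lt_of_integer v hk1
    (Units.mk0 _ hγ0)
  refine ⟨toC756 v a, hγ ?_, a, rfl⟩
  show (Valued.v : Valuation (v.adicCompletion F) _).restrict
    (toC756 v a - algebraMap F (v.adicCompletion F) k) < γ.1
  rw [Valuation.restrict_lt_iff_lt_embedding]
  have e : toC756 v a - algebraMap F (v.adicCompletion F) k
      = algebraMap F (v.adicCompletion F) (algebraMap (𝓞 F) F a - k) := by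
    rw [map_sub]
  rw [e, valued_algebraMapC756]
  exact ha

variable (𝔫 : Ideal (𝓞 F)) (v : HeightOneSpectrum (𝓞 F))

theorem toC756_mem_idealClosure {a : 𝓞 F} (ha : a ∈ 𝔫) :
    toC756 v a ∈ idealClosure 𝔫 v :=
  subset_closure ⟨a, ha, rfl⟩

theorem mul_mem_idealClosure756 {x y : v.adicCompletion F}
    (hx : x ∈ v.adicCompletionIntegers F) (hy : y ∈ idealClosure 𝔫 v) :
    x * y ∈ idealClosure 𝔫 v := by
  refine map_mem_closure₂ continuous_mul (integers_subset_closure756 v hx) hy ?_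
  rintro _ ⟨a, rfl⟩ _ ⟨b, hb, rfl⟩
  exact ⟨a * b, 𝔫.mul_mem_left a hb, by simp [toC756]⟩

theorem toC756_ne_zero {a : 𝓞 F} (ha : a ≠ 0) : toC756 v a ≠ 0 := by
  intro h
  apply ha
  have h1 : algebraMap (𝓞 F) F a = 0 :=
    (map_eq_zero_iff _ (algebraMap F (v.adicCompletion F)).injective).1 h
  exact (map_eq_zero_iff _ (IsFractionRing.injective (𝓞 F) F)).1 h1

/-- **The closure of `𝔫` is the ball of radius `v b`**, `b ∈ 𝔫` of maximal valuation. -/
theorem idealClosure_eq_ball756 {b : 𝓞 F} (hb : b ∈ 𝔫) (hb0 : b ≠ 0)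
    (hmax : ∀ a ∈ 𝔫, v.intValuation a ≤ v.intValuation b) (x : v.adicCompletion F) :
    x ∈ idealClosure 𝔫 v ↔ Valued.v x ≤ v.intValuation b := by
  have hc0 : toC756 v b ≠ 0 := toC756_ne_zero v hb0
  have hvc : Valued.v (toC756 v b) = v.intValuation b := valued_toC756 v b
  have hvc0 : Valued.v (toC756 v b) ≠ 0 := (Valuation.ne_zero_iff _).2 hc0
  -- the ball as a preimage of the integers
  have hball : ∀ y : v.adicCompletion F,
      Valued.v y ≤ v.intValuation b ↔ y * (toC756 v b)⁻¹ ∈ v.adicCompletionIntegers F := by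
    intro y
    rw [HeightOneSpectrum.mem_adicCompletionIntegers, map_mul, map_inv₀, ← hvc,
      mul_inv_le_iff₀ (zero_lt_iff.2 hvc0), one_mul]
  constructor
  · intro hx
    have hcl : IsClosed {y : v.adicCompletion F |
        y * (toC756 v b)⁻¹ ∈ v.adicCompletionIntegers F} :=
      (Valued.isClosed_valuationSubring (v.adicCompletion F)).preimage
        (continuous_id.mul continuous_const)
    have hsub : ((fun a : 𝓞 F => algebraMap F (v.adicCompletion F) (algebraMap (𝓞 F) F a)) ''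
        (𝔫 : Set (𝓞 F))) ⊆ {y : v.adicCompletion F |
          y * (toC756 v b)⁻¹ ∈ v.adicCompletionIntegers F} := by
      rintro _ ⟨a, ha, rfl⟩
      show toC756 v a * (toC756 v b)⁻¹ ∈ v.adicCompletionIntegers F
      rw [← hball, valued_toC756]
      exact hmax a ha
    exact (hball x).2 (closure_minimal hsub hcl hx)
  · intro hx
    have h1 := mul_mem_idealClosure756 𝔫 v ((hball x).1 hx) (toC756_mem_idealClosure 𝔫 v hb)
    rwa [mul_assoc, inv_mul_cancel₀ hc0, mul_one] at h1

/-- **The exponents of a nonzero ideal.** -/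
theorem exists_levelExp756 (h𝔫 : 𝔫 ≠ ⊥) :
    ∃ m : HeightOneSpectrum (𝓞 F) → ℕ,
      (∀ (v : HeightOneSpectrum (𝓞 F)) (x : v.adicCompletion F),
        x ∈ idealClosure 𝔫 v ↔ Valued.v x ≤ WithZero.exp (-(m v : ℤ))) ∧
      ∀ (v : HeightOneSpectrum (𝓞 F)) (d : ℕ), 𝔫 ≤ v.asIdeal ^ d → d ≤ m v := by
  classical
  have key : ∀ v : HeightOneSpectrum (𝓞 F), ∃ m : ℕ,
      (∀ x : v.adicCompletion F,
        x ∈ idealClosure 𝔫 v ↔ Valued.v x ≤ WithZero.exp (-(m : ℤ))) ∧
      ∀ d : ℕ, 𝔫 ≤ v.asIdeal ^ d → d ≤ m := by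
    intro v
    obtain ⟨a₀, ha₀, ha₀0⟩ := Submodule.exists_mem_ne_zero_of_ne_bot h𝔫
    have hex : ∃ k : ℕ, ∃ b ∈ 𝔫, b ≠ 0 ∧ v.intValuation b = WithZero.exp (-(k : ℤ)) :=
      ⟨_, a₀, ha₀, ha₀0, v.intValuation_if_neg ha₀0⟩
    obtain ⟨b, hb, hb0, hbv⟩ := Nat.find_spec hex
    have hmax : ∀ a ∈ 𝔫, v.intValuation a ≤ v.intValuation b := by
      intro a ha
      by_cases ha0 : a = 0
      · rw [ha0, map_zero]; exact zero_le
      · have hk : Nat.find hex ≤ _ := Nat.find_min' hex ⟨a, ha, ha0, v.intValuation_if_neg ha0⟩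
        rw [hbv, v.intValuation_if_neg ha0, WithZero.exp_le_exp]
        omega
    refine ⟨Nat.find hex, fun x => ?_, fun d hd => ?_⟩
    · rw [← hbv]
      exact idealClosure_eq_ball756 𝔫 v hb hb0 hmax x
    · have h1 : v.intValuation b ≤ WithZero.exp (-(d : ℤ)) :=
        (v.intValuation_le_pow_iff_mem b d).2 (hd hb)
      rw [hbv, WithZero.exp_le_exp] at h1
      omega
  choose m hm using key
  exact ⟨m, fun v x => (hm v).1 x, fun v d hd => (hm v).2 d hd⟩

end Fermat.Agent.LT.T7.H756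

end

end
-- ===== PACK-END LT/T7/H756/LvlCore.lean

-- ===== PACK-BEGIN LT/T7/H270/UnramCore.lean
section


/-!
# Row LT, tower T7, leaf T7.L2Q.1.H2.2 `UnramQC57` (helper270), part 1: the number theory

OFF-MAIN.  Mathlib only.  ADDITIVE (new names only, all suffixed `270`).

`F` a number field with ONE infinite place, which is complex, and with a square root of `-3`.
Then `[F : ℚ] = 2`, `F` is the third cyclotomic field, its discriminant is `-3`, and a prime
number `p ≠ 3` lies in the square of no prime ideal of `𝓞 F`: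

    natCast_not_mem_sq270 : p.Prime → p ≠ 3 → P.IsPrime → (p : 𝓞 F) ∉ P ^ 2

(`P ^ 2 ∣ p` implies `P ∣ 𝔡_{F/ℚ}` (Mathlib `pow_sub_one_dvd_differentIdeal`), hence
`N P ∣ N 𝔡 = |d_F| = 3` (Mathlib `NumberField.absNorm_differentIdeal`,
`IsCyclotomicExtension.Rat.discr_prime`), so `3 ∈ P` and `p ∈ P`, `1 ∈ P`.)
-/

set_option autoImplicit false

open IsDedekindDomain NumberField

noncomputable section

namespace Fermat.Agent.LT.T7.H270

variable {F : Type} [Field F] [NumberField F]

/-- The degree of a number field with one infinite place, which is complex, is two. -/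
theorem finrank_eq_two270 (h1 : Nat.card (InfinitePlace F) = 1)
    (h2 : ∀ w : InfinitePlace F, w.IsComplex) : Module.finrank ℚ F = 2 := by
  classical
  have h0 : InfinitePlace.nrRealPlaces F = 0 := by
    show Fintype.card {w : InfinitePlace F // w.IsReal} = 0
    rw [Fintype.card_eq_zero_iff]
    exact ⟨fun w => InfinitePlace.not_isReal_iff_isComplex.2 (h2 w.1) w.2⟩
  have h1' : InfinitePlace.nrComplexPlaces F = 1 := by
    show Fintype.card {w : InfinitePlace F // w.IsComplex} = 1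
    have hc : Fintype.card (InfinitePlace F) = 1 := by
      rw [← Nat.card_eq_fintype_card]; exact h1
    rw [← hc]
    exact Fintype.card_of_subtype Finset.univ (fun w => by simp [h2 w])
  have := InfinitePlace.card_add_two_mul_card_eq_rank (K := F)
  rw [h0, h1'] at this
  omega

/-- A square root of `-3` is not rational. -/
theorem sqrt_not_rat270 {x : F} (hx : x * x = -3) (q : ℚ) : algebraMap ℚ F q ≠ x := by
  intro h
  rw [← h, ← map_mul] at hx
  have h3 : algebraMap ℚ F (q * q) = algebraMap ℚ F (-3) := by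
    rw [hx]; simp
  have h4 : q * q = -3 := (algebraMap ℚ F).injective h3
  nlinarith [mul_self_nonneg q]

/-- `ℚ(x) = F` for a square root `x` of `-3` in a field of degree two. -/
theorem adjoin_sqrt_eq_top270 (hfin : Module.finrank ℚ F = 2) {x : F} (hx : x * x = -3) :
    Algebra.adjoin ℚ ({x} : Set F) = ⊤ := by
  have hint : IsIntegral ℚ x := Algebra.IsIntegral.isIntegral x
  have hne : IntermediateField.adjoin ℚ ({x} : Set F) ≠ ⊥ := by
    intro hbot
    have hmem : x ∈ IntermediateField.adjoin ℚ ({x} : Set F) :=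
      IntermediateField.mem_adjoin_simple_self ℚ x
    rw [hbot, IntermediateField.mem_bot] at hmem
    obtain ⟨q, hq⟩ := hmem
    exact sqrt_not_rat270 hx q hq
  have htop : IntermediateField.adjoin ℚ ({x} : Set F) = ⊤ := by
    have hprime : (Module.finrank ℚ F).Prime := by rw [hfin]; exact Nat.prime_two
    rcases IntermediateField.isSimpleOrder_of_finrank_prime ℚ F hprime |>.eq_bot_or_eq_top
      (IntermediateField.adjoin ℚ ({x} : Set F)) with hb | ht
    · exact absurd hb hne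
    · exact ht
  have := IntermediateField.adjoin_simple_toSubalgebra_of_isAlgebraic hint.isAlgebraic
  rw [htop] at this
  rw [← this]
  rfl

/-- A number field of degree two with a square root of `-3` is the third cyclotomic field. -/
theorem isCyclotomicExtension270 (hfin : Module.finrank ℚ F = 2) {x : F} (hx : x * x = -3) :
    IsCyclotomicExtension {3} ℚ F := by
  set ζ : F := (x - 1) / 2 with hζ
  have h2 : (2 : F) ≠ 0 := two_ne_zero
  have hx2 : x = 2 * ζ + 1 := by rw [hζ]; field_simp; ring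
  have hrel : ζ ^ 2 + ζ + 1 = 0 := by
    have : (2 * ζ + 1) * (2 * ζ + 1) = -3 := by rw [← hx2]; exact hx
    have h4 : (4 : F) * (ζ ^ 2 + ζ + 1) = 0 := by linear_combination this
    rcases mul_eq_zero.1 h4 with h | h
    · exact absurd h (by norm_num)
    · exact h
  have hcube : ζ ^ 3 = 1 := by linear_combination (ζ - 1) * hrel
  have hne1 : ζ ≠ 1 := by
    intro h1
    rw [h1] at hrel
    norm_num at hrel
  have hprim : IsPrimitiveRoot ζ 3 := by
    refine IsPrimitiveRoot.mk_of_lt ζ (by norm_num) hcube ?_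
    intro l hl0 hl3 hl
    interval_cases l
    · exact hne1 (by simpa using hl)
    · have h5 : ζ = -2 := by linear_combination hrel - hl
      rw [h5] at hrel
      norm_num at hrel
  rw [IsCyclotomicExtension.iff_singleton]
  refine ⟨⟨ζ, hprim⟩, fun y => ?_⟩
  have htop := adjoin_sqrt_eq_top270 hfin hx
  have hsub : Algebra.adjoin ℚ ({x} : Set F) ≤ Algebra.adjoin ℚ {b : F | b ^ 3 = 1} := by
    apply Algebra.adjoin_le
    intro z hz
    rw [Set.mem_singleton_iff] at hz
    rw [hz, hx2]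
    have hζmem : ζ ∈ Algebra.adjoin ℚ {b : F | b ^ 3 = 1} :=
      Algebra.subset_adjoin (by simpa using hcube)
    exact Subalgebra.add_mem _ (Subalgebra.mul_mem _ (by
      have : (2 : F) = algebraMap ℚ F 2 := by simp
      rw [this]; exact Subalgebra.algebraMap_mem _ _) hζmem) (Subalgebra.one_mem _)
  rw [htop] at hsub
  exact hsub Algebra.mem_top

/-- The discriminant of the third cyclotomic field is `-3`. -/
theorem discr_eq270 (hfin : Module.finrank ℚ F = 2) {x : F} (hx : x * x = -3) :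
    NumberField.discr F = -3 := by
  have := isCyclotomicExtension270 hfin hx
  have h := IsCyclotomicExtension.Rat.discr_prime 3 F
  rw [h]
  norm_num

/-- **Only `3` ramifies in `ℚ(√-3)`**: a prime number `p ≠ 3` lies in the square of no prime
ideal of the ring of integers. -/
theorem natCast_not_mem_sq270 (hs : ∃ x : F, x * x = -3)
    (h1 : Nat.card (InfinitePlace F) = 1) (h2 : ∀ w : InfinitePlace F, w.IsComplex)
    (P : Ideal (𝓞 F)) (hP : P.IsPrime) (p : ℕ) (hp : p.Prime) (hp3 : p ≠ 3) :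
    ((p : ℕ) : 𝓞 F) ∉ P ^ 2 := by
  intro hmem
  obtain ⟨x, hx⟩ := hs
  have hfin := finrank_eq_two270 h1 h2
  have hd := discr_eq270 hfin hx
  -- the prime of `ℤ`
  have hpZ : Prime (p : ℤ) := Nat.prime_iff_prime_int.mp hp
  have hmax : (Ideal.span {(p : ℤ)}).IsMaximal :=
    PrincipalIdealRing.isMaximal_of_irreducible hpZ.irreducible
  have hbot : Ideal.span {(p : ℤ)} ≠ ⊥ := by
    rw [Ne, Ideal.span_singleton_eq_bot]
    exact hpZ.ne_zero
  have hle : (Ideal.span {(p : ℤ)}).map (algebraMap ℤ (𝓞 F)) ≤ P ^ 2 := by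
    rw [Ideal.map_span, Set.image_singleton, Ideal.span_le]
    intro y hy
    rw [Set.mem_singleton_iff] at hy
    rw [hy]
    simpa using hmem
  have hdvd : P ^ 2 ∣ (Ideal.span {(p : ℤ)}).map (algebraMap ℤ (𝓞 F)) :=
    Ideal.dvd_iff_le.mpr hle
  have hdiff : P ^ (2 - 1) ∣ differentIdeal ℤ (𝓞 F) :=
    pow_sub_one_dvd_differentIdeal ℤ P 2 hbot hdvd
  have hdiff' : differentIdeal ℤ (𝓞 F) ≤ P := by
    have : P ∣ differentIdeal ℤ (𝓞 F) := by simpa using hdiff
    exact Ideal.dvd_iff_le.mp this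
  have hN : Ideal.absNorm P ∣ 3 := by
    have := Ideal.absNorm_dvd_absNorm_of_le hdiff'
    rw [NumberField.absNorm_differentIdeal F (𝓞 F), hd] at this
    simpa using this
  have hpP : ((p : ℕ) : 𝓞 F) ∈ P := Ideal.pow_le_self (by norm_num) hmem
  have hNP : ((Ideal.absNorm P : ℕ) : 𝓞 F) ∈ P := Ideal.absNorm_mem P
  have h3P : ((3 : ℕ) : 𝓞 F) ∈ P := by
    obtain ⟨c, hc⟩ := hN
    have : ((3 : ℕ) : 𝓞 F) = ((Ideal.absNorm P : ℕ) : 𝓞 F) * ((c : ℕ) : 𝓞 F) := by
      rw [← Nat.cast_mul, ← hc]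
    rw [this]
    exact Ideal.mul_mem_right _ _ hNP
  have hcop : Nat.Coprime p 3 := (Nat.coprime_primes hp Nat.prime_three).mpr hp3
  have hone : (1 : 𝓞 F) ∈ P := by
    have hg : IsCoprime (p : ℤ) (3 : ℤ) := by
      have := Nat.isCoprime_iff_coprime.mpr hcop
      simpa using this
    obtain ⟨a, b, hab⟩ := hg
    have h : (1 : 𝓞 F) = (a : 𝓞 F) * ((p : ℕ) : 𝓞 F) + (b : 𝓞 F) * ((3 : ℕ) : 𝓞 F) := by
      have := congrArg (Int.cast : ℤ → 𝓞 F) hab
      push_cast at this
      push_cast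
      exact this.symm
    rw [h]
    exact Ideal.add_mem _ (Ideal.mul_mem_left _ _ hpP) (Ideal.mul_mem_left _ _ h3P)
  exact hP.ne_top ((Ideal.eq_top_iff_one P).mpr hone)

end Fermat.Agent.LT.T7.H270

end

end
-- ===== PACK-END LT/T7/H270/UnramCore.lean

-- ===== PACK-BEGIN LT/T7/H62P/PushParCore.lean
section


/-!
# Row LT, tower T7, leaf T7.L2.1.RT4 `PushParC` (spare of helper62) : the Mathlib-only core

OFF-MAIN.  `N` linear, `b` a basis of `ℝ^ι`, `B` a basis of `ℝ^{ι'}` indexed by `ι ⊕ J` with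
`N (B (inl i)) = b i`, `N (B (inr j)) = 0`.  Then `N` maps the fundamental parallelepiped of `B`
onto the one of `b` and the normalised Lebesgue measure to the normalised Lebesgue measure.
No hole, nothing assumed.  New names only (suffix `62`).
-/

set_option autoImplicit false

open MeasureTheory

noncomputable section

namespace Fermat.Agent.LT.T7.H62P

/-- The Lebesgue measure of the unit cube `[0,1)^κ`, as a product measure. -/
def cubeM62 (κ : Type) [Fintype κ] : Measure (κ → ℝ) :=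
  Measure.pi (fun _ : κ => (volume : Measure ℝ).restrict (Set.Ico 0 1))

instance cubeM62_prob (κ : Type) [Fintype κ] : IsProbabilityMeasure (cubeM62 κ) := by
  have : IsProbabilityMeasure ((volume : Measure ℝ).restrict (Set.Ico 0 1)) :=
    ⟨by simp⟩
  unfold cubeM62
  infer_instance

theorem cubeM62_eq (κ : Type) [Fintype κ] :
    cubeM62 κ
      = (volume : Measure (κ → ℝ)).restrict (Set.pi Set.univ fun _ => Set.Ico (0 : ℝ) 1) := by
  rw [cubeM62, volume_pi, Measure.restrict_pi_pi]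

/-- The coordinates of a basis as a measurable equivalence. -/
def coordE62 {κ κ' : Type} [Fintype κ] [Fintype κ'] (b : Module.Basis κ ℝ (κ' → ℝ)) :
    (κ → ℝ) ≃ᵐ (κ' → ℝ) :=
  (b.equivFun.symm.toContinuousLinearEquiv).toHomeomorph.toMeasurableEquiv

theorem coordE62_apply {κ κ' : Type} [Fintype κ] [Fintype κ'] (b : Module.Basis κ ℝ (κ' → ℝ))
    (x : κ → ℝ) : coordE62 b x = b.equivFun.symm x := rfl

theorem coordE62_preimage {κ κ' : Type} [Fintype κ] [Fintype κ'] (b : Module.Basis κ ℝ (κ' → ℝ)) :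
    coordE62 b ⁻¹' ZSpan.fundamentalDomain b = Set.pi Set.univ fun _ => Set.Ico (0 : ℝ) 1 := by
  ext x
  simp only [Set.mem_preimage, ZSpan.mem_fundamentalDomain, Set.mem_pi, Set.mem_univ,
    forall_true_left, coordE62_apply]
  refine forall_congr' fun i => ?_
  have : b.repr (b.equivFun.symm x) i = x i := by
    have h0 : b.repr (b.equivFun.symm x) i = (b.equivFun (b.equivFun.symm x)) i := by
      rw [Module.Basis.equivFun_apply]
    rw [h0, LinearEquiv.apply_symm_apply]
  rw [this]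

/-- The image of the cube measure in the coordinates of `b` is a multiple of the Lebesgue measure
restricted to the fundamental parallelepiped, and the constant is the inverse of the volume. -/
theorem exists_map_cube62 {κ κ' : Type} [Fintype κ] [Fintype κ'] (b : Module.Basis κ ℝ (κ' → ℝ)) :
    ∃ c : NNReal, Measure.map (coordE62 b) (cubeM62 κ)
        = c • (volume : Measure (κ' → ℝ)).restrict (ZSpan.fundamentalDomain b) ∧
      (c : ℝ) = ((volume (ZSpan.fundamentalDomain b)).toReal)⁻¹ := by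
  classical
  set e : (κ → ℝ) ≃L[ℝ] (κ' → ℝ) := b.equivFun.symm.toContinuousLinearEquiv with he
  set ν : Measure (κ' → ℝ) := Measure.map e volume with hν
  have : ν.IsAddHaarMeasure := e.isAddHaarMeasure_map volume
  set c : NNReal := Measure.addHaarScalarFactor ν volume with hc
  have hνc : ν = c • (volume : Measure (κ' → ℝ)) := Measure.isAddLeftInvariant_eq_smul ν volume
  have hF : MeasurableSet (ZSpan.fundamentalDomain b) := ZSpan.fundamentalDomain_measurableSet b
  have hcoe : ⇑(coordE62 b) = ⇑e := rfl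
  have hmap : Measure.map (coordE62 b) (cubeM62 κ) = ν.restrict (ZSpan.fundamentalDomain b) := by
    rw [cubeM62_eq, ← coordE62_preimage b, ← MeasurableEquiv.restrict_map, hν, hcoe]
  have h1 : ν (ZSpan.fundamentalDomain b) = 1 := by
    rw [hν, Measure.map_apply e.continuous.measurable hF, ← hcoe, coordE62_preimage, volume_pi,
      Measure.pi_pi]
    simp
  have h2 : (c : ENNReal) * volume (ZSpan.fundamentalDomain b) = 1 := by
    rw [hνc] at h1
    simpa using h1
  refine ⟨c, ?_, ?_⟩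
  · rw [hmap, hνc, Measure.restrict_smul]
  · have h3 : volume (ZSpan.fundamentalDomain b) = (c : ENNReal)⁻¹ :=
      (ENNReal.eq_inv_of_mul_eq_one_left (by rw [mul_comm]; exact h2))
    rw [h3]
    simp

/-- The normalised integral over the fundamental parallelepiped of `b` is the integral over the
unit cube in the coordinates of `b`. -/
theorem normInt_eq_cube62 {κ κ' : Type} [Fintype κ] [Fintype κ'] (b : Module.Basis κ ℝ (κ' → ℝ))
    (g : (κ' → ℝ) → ℂ) :
    (((volume (ZSpan.fundamentalDomain b)).toReal : ℝ) : ℂ)⁻¹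
        * ∫ t in ZSpan.fundamentalDomain b, g t
      = ∫ x, g (b.equivFun.symm x) ∂(cubeM62 κ) := by
  obtain ⟨c, hmap, hc⟩ := exists_map_cube62 b
  have h1 : ∫ x, g (b.equivFun.symm x) ∂(cubeM62 κ)
      = ∫ t, g t ∂(Measure.map (coordE62 b) (cubeM62 κ)) := by
    rw [integral_map_equiv]
    rfl
  rw [h1, hmap, integral_smul_nnreal_measure, NNReal.smul_def, hc, Complex.real_smul,
    Complex.ofReal_inv]

/-- Transfer of a.e. strong measurability to the cube. -/
theorem aesm_cube62 {κ κ' : Type} [Fintype κ] [Fintype κ'] (b : Module.Basis κ ℝ (κ' → ℝ))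
    (g : (κ' → ℝ) → ℂ)
    (hg : AEStronglyMeasurable g ((volume : Measure (κ' → ℝ)).restrict (ZSpan.fundamentalDomain b))) :
    AEStronglyMeasurable (fun x => g (b.equivFun.symm x)) (cubeM62 κ) := by
  obtain ⟨c, hmap, -⟩ := exists_map_cube62 b
  have h1 : AEStronglyMeasurable g (Measure.map (coordE62 b) (cubeM62 κ)) := by
    rw [hmap]
    exact hg.smul_measure c
  exact h1.comp_measurable (coordE62 b).measurable

/-- The projection of the cube of `ι ⊕ J` to the cube of `ι`. -/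
theorem map_inl_cube62 (ι J : Type) [Fintype ι] [Fintype J] :
    Measure.map (fun (x : ι ⊕ J → ℝ) (i : ι) => x (Sum.inl i)) (cubeM62 (ι ⊕ J)) = cubeM62 ι := by
  have hmp := measurePreserving_sumPiEquivProdPi (X := fun _ : ι ⊕ J => ℝ)
    (fun _ : ι ⊕ J => (volume : Measure ℝ).restrict (Set.Ico 0 1))
  have hcomp : (fun (x : ι ⊕ J → ℝ) (i : ι) => x (Sum.inl i))
      = Prod.fst ∘ (MeasurableEquiv.sumPiEquivProdPi (fun _ : ι ⊕ J => ℝ)) := by
    funext x
    rfl
  rw [hcomp, ← Measure.map_map measurable_fst (MeasurableEquiv.measurable _)]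
  have : Measure.map (MeasurableEquiv.sumPiEquivProdPi (fun _ : ι ⊕ J => ℝ)) (cubeM62 (ι ⊕ J))
      = (cubeM62 ι).prod (cubeM62 J) := hmp.map_eq
  rw [this, Measure.map_fst_prod]
  simp

theorem pushPar_core62 (ι ι' J : Type) [Fintype ι] [Fintype ι'] [Fintype J]
    (N : (ι' → ℝ) →ₗ[ℝ] (ι → ℝ)) (b : Module.Basis ι ℝ (ι → ℝ))
    (B : Module.Basis (ι ⊕ J) ℝ (ι' → ℝ))
    (hN1 : ∀ i, N (B (Sum.inl i)) = b i) (hN2 : ∀ j, N (B (Sum.inr j)) = 0) :
    (∀ t' ∈ ZSpan.fundamentalDomain B, N t' ∈ ZSpan.fundamentalDomain b) ∧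
    (∀ t ∈ ZSpan.fundamentalDomain b, ∃ t' ∈ ZSpan.fundamentalDomain B, N t' = t) ∧
    ∀ h : (ι → ℝ) → ℂ, IntegrableOn h (ZSpan.fundamentalDomain b) volume →
      (((volume (ZSpan.fundamentalDomain B)).toReal : ℝ) : ℂ)⁻¹
          * ∫ t' in ZSpan.fundamentalDomain B, h (N t')
        = (((volume (ZSpan.fundamentalDomain b)).toReal : ℝ) : ℂ)⁻¹
          * ∫ t in ZSpan.fundamentalDomain b, h t := by
  classical
  have hA : ∀ x : ι ⊕ J → ℝ,
      N (B.equivFun.symm x) = b.equivFun.symm (fun i => x (Sum.inl i)) := by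
    intro x
    rw [Module.Basis.equivFun_symm_apply, Module.Basis.equivFun_symm_apply, map_sum,
      Fintype.sum_sum_type]
    simp [hN1, hN2]
  have hreprB : ∀ (x : ι ⊕ J → ℝ) (k : ι ⊕ J), B.repr (B.equivFun.symm x) k = x k := by
    intro x k
    have h0 : B.repr (B.equivFun.symm x) k = (B.equivFun (B.equivFun.symm x)) k := by
      rw [Module.Basis.equivFun_apply]
    rw [h0, LinearEquiv.apply_symm_apply]
  have hreprb : ∀ (y : ι → ℝ) (i : ι), b.repr (b.equivFun.symm y) i = y i := by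
    intro y i
    have h0 : b.repr (b.equivFun.symm y) i = (b.equivFun (b.equivFun.symm y)) i := by
      rw [Module.Basis.equivFun_apply]
    rw [h0, LinearEquiv.apply_symm_apply]
  refine ⟨?_, ?_, ?_⟩
  · intro t' ht'
    rw [ZSpan.mem_fundamentalDomain] at ht' ⊢
    intro i
    have h1 : t' = B.equivFun.symm (B.equivFun t') := (B.equivFun.symm_apply_apply t').symm
    rw [h1, hA, hreprb]
    simpa [Module.Basis.equivFun_apply] using ht' (Sum.inl i)
  · intro t ht
    rw [ZSpan.mem_fundamentalDomain] at ht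
    refine ⟨B.equivFun.symm (Sum.elim (b.equivFun t) 0), ?_, ?_⟩
    · rw [ZSpan.mem_fundamentalDomain]
      intro k
      rw [hreprB]
      cases k with
      | inl i => simpa [Module.Basis.equivFun_apply] using ht i
      | inr j => simp
    · rw [hA]
      simp
  · intro h hh
    rw [normInt_eq_cube62 B (fun t' => h (N t')), normInt_eq_cube62 b h]
    have hG : AEStronglyMeasurable (fun y => h (b.equivFun.symm y)) (cubeM62 ι) :=
      aesm_cube62 b h hh.aestronglyMeasurable
    have hG' : AEStronglyMeasurable (fun y => h (b.equivFun.symm y))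
        (Measure.map (fun (x : ι ⊕ J → ℝ) (i : ι) => x (Sum.inl i)) (cubeM62 (ι ⊕ J))) := by
      rw [map_inl_cube62]
      exact hG
    have hmeas : Measurable (fun (x : ι ⊕ J → ℝ) (i : ι) => x (Sum.inl i)) :=
      measurable_pi_lambda _ fun i => measurable_pi_apply _
    calc ∫ x, h (N (B.equivFun.symm x)) ∂(cubeM62 (ι ⊕ J))
        = ∫ x, (fun y => h (b.equivFun.symm y)) ((fun (x : ι ⊕ J → ℝ) (i : ι) => x (Sum.inl i)) x)
            ∂(cubeM62 (ι ⊕ J)) := by
          simp only [hA]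
      _ = ∫ y, h (b.equivFun.symm y)
            ∂(Measure.map (fun (x : ι ⊕ J → ℝ) (i : ι) => x (Sum.inl i)) (cubeM62 (ι ⊕ J))) :=
          (integral_map hmeas.aemeasurable hG').symm
      _ = ∫ y, h (b.equivFun.symm y) ∂(cubeM62 ι) := by rw [map_inl_cube62]

end Fermat.Agent.LT.T7.H62P

end

end
-- ===== PACK-END LT/T7/H62P/PushParCore.lean

-- ===== PACK-BEGIN LT/T7/H510/CosetSum.lean
section



/-!
# Local coset sums in `GL₂(k)`, `k` a local field (helper510, OFF-MAIN)

For `n : ℕ` there is a finite set `R ⊆ GL₂(𝒪) = U(0)` of representatives of `U(0) / U(n)`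
(`U(n)` is open, `U(0)` is compact).  `U(n)` is normal in `U(0)`, so for every set `H` with
`U(n) H ⊆ H ⊆ U(0)`:

    1_H(x) = ∑_{r ∈ R ∩ H} 1_{U(n)}(x r⁻¹) = ∑_{r ∈ R ∩ H} 1_{U(n)}(r⁻¹ x).

Assets: helper420 `T6/H420/GLTop.lean` (`subU`, `isOpen_subU`, `isCompact_subU`).
-/

set_option autoImplicit false
set_option linter.unusedSectionVars false

noncomputable section

namespace Fermat.Agent.LT.T7.H510

open Fermat.Agent.LT Fermat.Agent.LT.T6 Fermat.Agent.LT.T6.H420

section Local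

variable {k : Type} [Field k] [Valued k T6.Γ₀]

theorem small_mul_left_K510 {n : ℕ} {A B : Matrix (Fin 2) (Fin 2) k} (hA : A ∈ matSmall 0)
    (hB : B ∈ matSmall n) : A * B ∈ matSmall n := fun i j => by
  rw [Matrix.mul_apply]
  refine Valued.v.map_sum_le fun l _ => ?_
  rw [map_mul]
  have h1 : Valued.v (A i l) ≤ 1 := by
    have := hA i l
    simpa using this
  calc Valued.v (A i l) * Valued.v (B l j) ≤ 1 * WithZero.exp (-(n : ℤ)) :=
        mul_le_mul' h1 (hB l j)
    _ = WithZero.exp (-(n : ℤ)) := one_mul _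

theorem small_mul_right_K510 {n : ℕ} {A B : Matrix (Fin 2) (Fin 2) k} (hA : A ∈ matSmall n)
    (hB : B ∈ matSmall 0) : A * B ∈ matSmall n := fun i j => by
  rw [Matrix.mul_apply]
  refine Valued.v.map_sum_le fun l _ => ?_
  rw [map_mul]
  have h1 : Valued.v (B l j) ≤ 1 := by
    have := hB l j
    simpa using this
  calc Valued.v (A i l) * Valued.v (B l j) ≤ WithZero.exp (-(n : ℤ)) * 1 :=
        mul_le_mul' (hA i l) h1
    _ = WithZero.exp (-(n : ℤ)) := mul_one _

theorem one_mem_matSmall_K510 : (1 : Matrix (Fin 2) (Fin 2) k) ∈ matSmall 0 := fun i j => by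
  by_cases h : i = j
  · subst h; simp
  · simp [h]

theorem integral_of_matBall_K510 {A : Matrix (Fin 2) (Fin 2) k} (hA : A ∈ matBall 0) :
    A ∈ matSmall 0 := by
  have h : A = (A - 1) + 1 := by simp
  rw [h]
  exact matSmall_add ((mem_matBall_iff 0 A).1 hA) one_mem_matSmall_K510

/-- `U(n)` is normalised by `U(0) = GL₂(𝒪)`. -/
theorem inU_conj_K510 {n : ℕ} {r u : GL (Fin 2) k} (hr : InU 0 r) (hu : InU n u) :
    InU n (r * u * r⁻¹) := by
  have hr' := (inU_iff 0 r).1 hr
  have hu' := (inU_iff n u).1 hu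
  have h1 := integral_of_matBall_K510 hr'.1
  have h2 := integral_of_matBall_K510 hr'.2
  have hrr : (r : Matrix (Fin 2) (Fin 2) k) * ((r⁻¹ : GL (Fin 2) k) : Matrix (Fin 2) (Fin 2) k)
      = 1 := by
    rw [← Units.val_mul, mul_inv_cancel]; rfl
  have key : ∀ M : Matrix (Fin 2) (Fin 2) k, M ∈ matBall n →
      (r : Matrix (Fin 2) (Fin 2) k) * M * ((r⁻¹ : GL (Fin 2) k) : Matrix (Fin 2) (Fin 2) k)
        ∈ matBall n := by
    intro M hM
    rw [mem_matBall_iff] at hM ⊢
    have e : (r : Matrix (Fin 2) (Fin 2) k) * M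
          * ((r⁻¹ : GL (Fin 2) k) : Matrix (Fin 2) (Fin 2) k) - 1
        = (r : Matrix (Fin 2) (Fin 2) k) * (M - 1)
          * ((r⁻¹ : GL (Fin 2) k) : Matrix (Fin 2) (Fin 2) k) := by
      rw [mul_sub, sub_mul, mul_one, hrr]
    rw [e]
    exact small_mul_right_K510 (small_mul_left_K510 h1 hM) h2
  rw [inU_iff]
  refine ⟨?_, ?_⟩
  · rw [Units.val_mul, Units.val_mul]
    exact key _ hu'.1
  · have e : (r * u * r⁻¹)⁻¹ = r * u⁻¹ * r⁻¹ := by group
    rw [e, Units.val_mul, Units.val_mul]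
    exact key _ hu'.2

/-- `x r⁻¹ ∈ U(n) ↔ r⁻¹ x ∈ U(n)` for `r ∈ U(0)`. -/
theorem inU_left_right_K510 {n : ℕ} {r : GL (Fin 2) k} (hr : InU 0 r) (x : GL (Fin 2) k) :
    InU n (r⁻¹ * x) ↔ InU n (x * r⁻¹) := by
  constructor
  · intro h
    have := inU_conj_K510 hr h
    have e : r * (r⁻¹ * x) * r⁻¹ = x * r⁻¹ := by group
    rwa [e] at this
  · intro h
    have hr' : InU 0 r⁻¹ := (subU 0).inv_mem hr
    have := inU_conj_K510 hr' h
    have e : r⁻¹ * (x * r⁻¹) * r⁻¹⁻¹ = r⁻¹ * x := by group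
    rwa [e] at this

/-- **Finite system of representatives** of `U(0) / U(n)`. -/
theorem exists_reps_K510 {q : ℕ} (h : IsLocalField k q) (n : ℕ) :
    ∃ R : Finset (GL (Fin 2) k), (∀ r ∈ R, InU 0 r) ∧
      ∀ x : GL (Fin 2) k, InU 0 x →
        ∃ r ∈ R, InU n (x * r⁻¹) ∧ ∀ r' ∈ R, InU n (x * r'⁻¹) → r' = r := by
  classical
  obtain ⟨ϖ, hϖ⟩ := h.unif
  have hc : IsCompact ((subU 0 : Subgroup (GL (Fin 2) k)) : Set (GL (Fin 2) k)) :=
    isCompact_subU h 0
  have ho : IsOpen ((subU n : Subgroup (GL (Fin 2) k)) : Set (GL (Fin 2) k)) :=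
    isOpen_subU hϖ n
  -- the open cover
  have hcov : ∀ y ∈ ((subU 0 : Subgroup (GL (Fin 2) k)) : Set (GL (Fin 2) k)),
      {x : GL (Fin 2) k | x * y⁻¹ ∈ subU n} ∈ nhds y := by
    intro y _
    have hopen : IsOpen {x : GL (Fin 2) k | x * y⁻¹ ∈ subU n} :=
      ho.preimage (continuous_mul_const y⁻¹)
    refine hopen.mem_nhds ?_
    show y * y⁻¹ ∈ subU n
    rw [mul_inv_cancel]
    exact (subU n).one_mem
  obtain ⟨S, hS0, hScov⟩ := hc.elim_nhds_subcover _ hcov
  -- the choice of a representative, constant on the classes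
  let c : GL (Fin 2) k → GL (Fin 2) k :=
    fun x => Classical.epsilon (fun s => s ∈ S ∧ x * s⁻¹ ∈ subU n)
  have hc_spec : ∀ x, x ∈ subU 0 → c x ∈ S ∧ x * (c x)⁻¹ ∈ subU n := by
    intro x hx
    have hex : ∃ s, s ∈ S ∧ x * s⁻¹ ∈ subU n := by
      have := hScov hx
      simp only [Set.mem_iUnion] at this
      obtain ⟨s, hs, hxs⟩ := this
      exact ⟨s, hs, hxs⟩
    exact Classical.epsilon_spec hex
  have hc_congr : ∀ x y, x * y⁻¹ ∈ subU n → c x = c y := by
    intro x y hxy
    show Classical.epsilon _ = Classical.epsilon _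
    congr 1
    funext s
    apply propext
    constructor
    · rintro ⟨hs, hxs⟩
      refine ⟨hs, ?_⟩
      have e : y * s⁻¹ = (x * y⁻¹)⁻¹ * (x * s⁻¹) := by group
      rw [e]
      exact (subU n).mul_mem ((subU n).inv_mem hxy) hxs
    · rintro ⟨hs, hys⟩
      refine ⟨hs, ?_⟩
      have e : x * s⁻¹ = (x * y⁻¹) * (y * s⁻¹) := by group
      rw [e]
      exact (subU n).mul_mem hxy hys
  refine ⟨S.image c, ?_, ?_⟩
  · intro r hr
    obtain ⟨s, hs, rfl⟩ := Finset.mem_image.1 hr
    exact hS0 _ (hc_spec s (hS0 s hs)).1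
  · intro x hx
    have hx' : x ∈ subU 0 := hx
    obtain ⟨h1, h2⟩ := hc_spec x hx'
    refine ⟨c x, ?_, h2, ?_⟩
    · -- `c x = c (c x)`
      have e : c x = c (c x) := hc_congr _ _ h2
      rw [e]
      exact Finset.mem_image_of_mem c h1
    · intro r' hr' hxr'
      obtain ⟨s, hs, rfl⟩ := Finset.mem_image.1 hr'
      -- `x ~ c s ~ s`
      have hs' := hc_spec s (hS0 s hs)
      have e1 : c x = c (c s) := hc_congr _ _ hxr'
      have e2 : c s = c (c s) := hc_congr _ _ hs'.2
      rw [e1, ← e2]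

open Classical in
/-- **The coset sum.**  For `H` with `U(n) H ⊆ H ⊆ U(0)`, `1 ∈ H`: a finite non-empty set
`R ⊆ H` with `1_H(x) = ∑_{r ∈ R} 1_{U(n)}(x r⁻¹) = ∑_{r ∈ R} 1_{U(n)}(r⁻¹ x)`. -/
theorem exists_cosetSum_K510 {q : ℕ} (h : IsLocalField k q) (n : ℕ)
    (H : GL (Fin 2) k → Prop) (hH0 : ∀ y, H y → InU 0 y)
    (hHU : ∀ u y, InU n u → H y → H (u * y)) (hH1 : H 1) :
    ∃ R : Finset (GL (Fin 2) k), R.Nonempty ∧ (∀ r ∈ R, H r) ∧
      ∀ x : GL (Fin 2) k,
        (∑ r ∈ R, (if InU n (x * r⁻¹) then (1 : ℂ) else 0)) = (if H x then 1 else 0) ∧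
        (∑ r ∈ R, (if InU n (r⁻¹ * x) then (1 : ℂ) else 0)) = (if H x then 1 else 0) := by
  obtain ⟨R, hR0, hR⟩ := exists_reps_K510 h n
  have hmem : ∀ x, H x → ∃ r ∈ R.filter H, InU n (x * r⁻¹) ∧
      ∀ r' ∈ R.filter H, InU n (x * r'⁻¹) → r' = r := by
    intro x hx
    obtain ⟨r, hr, hxr, huniq⟩ := hR x (hH0 x hx)
    have hrH : H r := by
      have e : r = (x * r⁻¹)⁻¹ * x := by group
      rw [e]
      exact hHU _ _ ((subU n).inv_mem hxr) hx
    exact ⟨r, Finset.mem_filter.2 ⟨hr, hrH⟩, hxr,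
      fun r' hr' h' => huniq r' (Finset.mem_filter.1 hr').1 h'⟩
  have hsum : ∀ x : GL (Fin 2) k,
      (∑ r ∈ R.filter H, (if InU n (x * r⁻¹) then (1 : ℂ) else 0)) = (if H x then 1 else 0) := by
    intro x
    by_cases hx : H x
    · obtain ⟨r, hr, hxr, huniq⟩ := hmem x hx
      rw [if_pos hx, Finset.sum_eq_single r]
      · rw [if_pos hxr]
      · intro r' hr' hne
        rw [if_neg]
        intro h'
        exact hne (huniq r' hr' h')
      · intro hr'
        exact absurd hr hr'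
    · rw [if_neg hx]
      refine Finset.sum_eq_zero fun r hr => ?_
      rw [if_neg]
      intro h'
      apply hx
      have e : x = (x * r⁻¹) * r := by group
      rw [e]
      exact hHU _ _ h' (Finset.mem_filter.1 hr).2
  refine ⟨R.filter H, ?_, fun r hr => (Finset.mem_filter.1 hr).2, fun x => ⟨hsum x, ?_⟩⟩
  · obtain ⟨r, hr, -, -⟩ := hmem 1 hH1
    exact ⟨r, hr⟩
  · rw [← hsum x]
    refine Finset.sum_congr rfl fun r hr => ?_
    have hr0 : InU 0 r := hR0 r (Finset.mem_filter.1 hr).1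
    by_cases h' : InU n (x * r⁻¹)
    · rw [if_pos h', if_pos ((inU_left_right_K510 hr0 x).2 h')]
    · rw [if_neg h', if_neg (fun h'' => h' ((inU_left_right_K510 hr0 x).1 h''))]

end Local

end Fermat.Agent.LT.T7.H510

end

end
-- ===== PACK-END LT/T7/H510/CosetSum.lean

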