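import Mathlib
import Fermat.Agent.Pack.LT2.E0L1
import Fermat.Agent.Pack.LT2.E2L2
import Fermat.Agent.Pack.LT3.E0L3
import Fermat.Agent.Pack.LT3.E2L0
import Fermat.Agent.Pack.LT3.E5L0
import Fermat.Agent.Pack.LT3.E0L2
import Fermat.Agent.Pack.LT3.E9L2
import Fermat.Agent.Pack.LT3.E8L0
import Fermat.Agent.Pack.LT2.E2L1
import Fermat.Agent.Pack.LT3.E30L1
import Fermat.Agent.Pack.LT3.E30L2
import Fermat.Agent.Pack.LT3.E30L3

set_option linter.all false

-- ===== PACK-BEGIN LT/T7/H53/HaarSplitLoc.lean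
section





/-!
# Row LT, tower T7, leaf C2.7.4 `HaarSplitC305` (helper53, SPARE): the local groups

OFF-MAIN.  Mathlib + the definition `T6.InU` + the assets `LT/H11/LC.lean`, `LT/H11/SC.lean`
(helper11).  For a finite place `v` of a number field: the congruence subgroups `U(n)` of
`GL₂(K_v)` are open, closed and compact, `U(0) = GL₂(𝒪_v)`; `GL₂(K_v)` and `GL₂(ℂ)` are locally
compact, Hausdorff and second countable.
-/

set_option autoImplicit false
set_option linter.style.haveILetI false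
set_option linter.unusedSectionVars false

open IsDedekindDomain NumberField WithZero Topology

noncomputable section

namespace Fermat.Agent.LT.T7.H53

open Fermat.Agent.LT

variable {K : Type} [Field K] [NumberField K] (v : HeightOneSpectrum (𝓞 K))

/-! ## Balls of `K_v` -/

theorem exists_val_eq_exp53 (n : ℕ) :
    ∃ c : v.adicCompletion K, c ≠ 0 ∧ Valued.v c = exp (-(n : ℤ)) := by
  obtain ⟨π, hπ⟩ := v.valuation_exists_uniformizer K
  have h1 : Valued.v ((π : v.adicCompletion K)) = exp (-1 : ℤ) := by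
    rw [HeightOneSpectrum.valuedAdicCompletion_eq_valuation', hπ]
  have hπ0 : (π : v.adicCompletion K) ≠ 0 := by
    intro h0
    rw [h0, map_zero] at h1
    exact exp_ne_zero h1.symm
  refine ⟨(π : v.adicCompletion K) ^ n, pow_ne_zero n hπ0, ?_⟩
  rw [map_pow, h1, ← exp_nsmul]
  congr 1
  simp

theorem ball_eq_preimage53 (a : v.adicCompletion K) (n : ℕ) {c : v.adicCompletion K}
    (hc0 : c ≠ 0) (hc : Valued.v c = exp (-(n : ℤ))) :
    {x : v.adicCompletion K | Valued.v (x - a) ≤ exp (-(n : ℤ))}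
      = (fun x : v.adicCompletion K => (x - a) * c⁻¹) ⁻¹'
          (v.adicCompletionIntegers K : Set (v.adicCompletion K)) := by
  ext x
  have hv0 : Valued.v c ≠ 0 := (Valuation.ne_zero_iff _).2 hc0
  simp only [Set.mem_ofPred_eq, Set.mem_preimage, SetLike.mem_coe,
    HeightOneSpectrum.mem_adicCompletionIntegers, map_mul, map_inv₀]
  rw [← hc, ← div_eq_mul_inv, div_le_one₀ (zero_lt_iff.2 hv0)]

theorem isOpen_ball53 (a : v.adicCompletion K) (n : ℕ) :
    IsOpen {x : v.adicCompletion K | Valued.v (x - a) ≤ exp (-(n : ℤ))} := by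
  obtain ⟨c, hc0, hc⟩ := exists_val_eq_exp53 v n
  rw [ball_eq_preimage53 v a n hc0 hc]
  exact (Valued.isOpen_valuationSubring (v.adicCompletion K)).preimage
    ((continuous_id.sub continuous_const).mul continuous_const)

theorem isClosed_ball53 (a : v.adicCompletion K) (n : ℕ) :
    IsClosed {x : v.adicCompletion K | Valued.v (x - a) ≤ exp (-(n : ℤ))} := by
  obtain ⟨c, hc0, hc⟩ := exists_val_eq_exp53 v n
  rw [ball_eq_preimage53 v a n hc0 hc]
  exact (Valued.isClosed_valuationSubring (v.adicCompletion K)).preimage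
    ((continuous_id.sub continuous_const).mul continuous_const)

/-! ## The topology of `GL₂(K_v)` and of `GL₂(ℂ)` -/

theorem locallyCompact_GLv53 : LocallyCompactSpace (GL (Fin 2) (v.adicCompletion K)) :=
  H11.LC.locallyCompactSpace_GL2_adicCompletion_h11 K v

theorem secondCountable_GLv53 : SecondCountableTopology (GL (Fin 2) (v.adicCompletion K)) := by
  have := H11.SC.secondCountableTopology_adicCompletion_h11 K v
  have := H11.SC.secondCountableTopology_matrix_h11 (Fin 2) (v.adicCompletion K)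
  exact H11.SC.secondCountableTopology_units_h11 _

theorem t2_GLv53 : T2Space (GL (Fin 2) (v.adicCompletion K)) := by
  have := H11.LC.t2Space_matrix_h11 (Fin 2) (v.adicCompletion K)
  infer_instance

theorem locallyCompact_GLC53 : LocallyCompactSpace (GL (Fin 2) ℂ) := by
  have := H11.LC.locallyCompactSpace_matrix_h11 (Fin 2) ℂ
  have := H11.LC.t2Space_matrix_h11 (Fin 2) ℂ
  infer_instance

theorem secondCountable_GLC53 : SecondCountableTopology (GL (Fin 2) ℂ) := by
  have := H11.SC.secondCountableTopology_matrix_h11 (Fin 2) ℂ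
  exact H11.SC.secondCountableTopology_units_h11 _

theorem t2_GLC53 : T2Space (GL (Fin 2) ℂ) := by
  have := H11.LC.t2Space_matrix_h11 (Fin 2) ℂ
  infer_instance

theorem continuous_entry53 {R : Type*} [CommRing R] [TopologicalSpace R] [IsTopologicalRing R]
    (i j : Fin 2) : Continuous fun g : GL (Fin 2) R => (g : Matrix (Fin 2) (Fin 2) R) i j :=
  (Units.continuous_val (M := Matrix (Fin 2) (Fin 2) R)).matrix_elem i j

theorem continuous_inv_entry53 {R : Type*} [CommRing R] [TopologicalSpace R]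
    [IsTopologicalRing R] (i j : Fin 2) :
    Continuous fun g : GL (Fin 2) R => ((g⁻¹ : GL (Fin 2) R) : Matrix (Fin 2) (Fin 2) R) i j :=
  (continuous_entry53 i j).comp continuous_inv

/-! ## The congruence subgroups -/

theorem inU_iff53 (n : ℕ) (g : GL (Fin 2) (v.adicCompletion K)) :
    T6.InU n g ↔ ∀ i j : Fin 2,
      (g : Matrix (Fin 2) (Fin 2) (v.adicCompletion K)) i j
          ∈ {x : v.adicCompletion K |
            Valued.v (x - (1 : Matrix (Fin 2) (Fin 2) (v.adicCompletion K)) i j)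
              ≤ exp (-(n : ℤ))} ∧
        ((g⁻¹ : GL (Fin 2) (v.adicCompletion K)) :
            Matrix (Fin 2) (Fin 2) (v.adicCompletion K)) i j
          ∈ {x : v.adicCompletion K |
            Valued.v (x - (1 : Matrix (Fin 2) (Fin 2) (v.adicCompletion K)) i j)
              ≤ exp (-(n : ℤ))} :=
  Iff.rfl

theorem setOf_inU_eq53 (n : ℕ) :
    {g : GL (Fin 2) (v.adicCompletion K) | T6.InU n g}
      = ⋂ (i : Fin 2), ⋂ (j : Fin 2),
        ((fun g : GL (Fin 2) (v.adicCompletion K) =>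
            (g : Matrix (Fin 2) (Fin 2) (v.adicCompletion K)) i j) ⁻¹'
            {x : v.adicCompletion K |
              Valued.v (x - (1 : Matrix (Fin 2) (Fin 2) (v.adicCompletion K)) i j)
                ≤ exp (-(n : ℤ))}) ∩
          ((fun g : GL (Fin 2) (v.adicCompletion K) =>
            ((g⁻¹ : GL (Fin 2) (v.adicCompletion K)) :
              Matrix (Fin 2) (Fin 2) (v.adicCompletion K)) i j) ⁻¹'
            {x : v.adicCompletion K |
              Valued.v (x - (1 : Matrix (Fin 2) (Fin 2) (v.adicCompletion K)) i j)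
                ≤ exp (-(n : ℤ))}) := by
  ext g
  simp only [Set.mem_iInter, Set.mem_inter_iff, Set.mem_preimage]
  exact inU_iff53 v n g

theorem isOpen_inU53 (n : ℕ) : IsOpen {g : GL (Fin 2) (v.adicCompletion K) | T6.InU n g} := by
  rw [setOf_inU_eq53]
  refine isOpen_iInter_of_finite fun i => isOpen_iInter_of_finite fun j => IsOpen.inter ?_ ?_
  · exact (isOpen_ball53 v _ n).preimage (continuous_entry53 i j)
  · exact (isOpen_ball53 v _ n).preimage (continuous_inv_entry53 i j)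

theorem isClosed_inU53 (n : ℕ) :
    IsClosed {g : GL (Fin 2) (v.adicCompletion K) | T6.InU n g} := by
  rw [setOf_inU_eq53]
  refine isClosed_iInter fun i => isClosed_iInter fun j => IsClosed.inter ?_ ?_
  · exact (isClosed_ball53 v _ n).preimage (continuous_entry53 i j)
  · exact (isClosed_ball53 v _ n).preimage (continuous_inv_entry53 i j)

theorem one_entry_mem_integers53 (i j : Fin 2) :
    (1 : Matrix (Fin 2) (Fin 2) (v.adicCompletion K)) i j ∈ v.adicCompletionIntegers K := by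
  by_cases h : i = j
  · rw [h, Matrix.one_apply_eq]
    exact one_mem _
  · rw [Matrix.one_apply_ne h]
    exact zero_mem _

/-- `U(0) = GL₂(𝒪_v)`. -/
theorem inU_zero_iff53 (g : GL (Fin 2) (v.adicCompletion K)) :
    T6.InU 0 g ↔ (∀ i j : Fin 2,
        (g : Matrix (Fin 2) (Fin 2) (v.adicCompletion K)) i j ∈ v.adicCompletionIntegers K) ∧
      ∀ i j : Fin 2, ((g⁻¹ : GL (Fin 2) (v.adicCompletion K)) :
        Matrix (Fin 2) (Fin 2) (v.adicCompletion K)) i j ∈ v.adicCompletionIntegers K := by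
  have key : ∀ (x : v.adicCompletion K) (i j : Fin 2),
      Valued.v (x - (1 : Matrix (Fin 2) (Fin 2) (v.adicCompletion K)) i j)
          ≤ exp (-((0 : ℕ) : ℤ)) ↔ x ∈ v.adicCompletionIntegers K := by
    intro x i j
    have h1 : exp (-((0 : ℕ) : ℤ)) = (1 : ℤᵐ⁰) := by simp
    rw [h1, ← HeightOneSpectrum.mem_adicCompletionIntegers]
    constructor
    · intro h
      have := add_mem h (one_entry_mem_integers53 v i j)
      rwa [sub_add_cancel] at this
    · intro h
      exact sub_mem h (one_entry_mem_integers53 v i j)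
  constructor
  · intro h
    exact ⟨fun i j => (key _ i j).1 (h i j).1, fun i j => (key _ i j).1 (h i j).2⟩
  · intro h i j
    exact ⟨(key _ i j).2 (h.1 i j), (key _ i j).2 (h.2 i j)⟩

theorem inU_zero_of_inU53 {n : ℕ} {g : GL (Fin 2) (v.adicCompletion K)} (h : T6.InU n g) :
    T6.InU 0 g := by
  intro i j
  have hle : exp (-(n : ℤ)) ≤ exp (-((0 : ℕ) : ℤ)) := by
    rw [exp_le_exp]
    simp
  exact ⟨(h i j).1.trans hle, (h i j).2.trans hle⟩

theorem inU_one53 (n : ℕ) : T6.InU n (1 : GL (Fin 2) (v.adicCompletion K)) := by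
  intro i j
  simp

/-- `GL₂(𝒪_v)` is compact. -/
theorem isCompact_inU_zero53 :
    IsCompact {g : GL (Fin 2) (v.adicCompletion K) | T6.InU 0 g} := by
  have hO : IsCompact (v.adicCompletionIntegers K : Set (v.adicCompletion K)) :=
    H11.LC.isCompact_integers_h11 K v
  have : T2Space (Matrix (Fin 2) (Fin 2) (v.adicCompletion K)) :=
    H11.LC.t2Space_matrix_h11 (Fin 2) (v.adicCompletion K)
  obtain ⟨B, hB⟩ : ∃ B : Set (Matrix (Fin 2) (Fin 2) (v.adicCompletion K)),
      B = {M | ∀ i j, M i j ∈ v.adicCompletionIntegers K} := ⟨_, rfl⟩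
  have hBc : IsCompact B := by
    have h : IsCompact (Set.pi Set.univ (fun _ : Fin 2 =>
        Set.pi Set.univ (fun _ : Fin 2 =>
          (v.adicCompletionIntegers K : Set (v.adicCompletion K))))) :=
      isCompact_univ_pi (fun _ => isCompact_univ_pi (fun _ => hO))
    have e : B = Set.pi Set.univ (fun _ : Fin 2 =>
        Set.pi Set.univ (fun _ : Fin 2 =>
          (v.adicCompletionIntegers K : Set (v.adicCompletion K)))) := by
      rw [hB]
      ext M
      constructor
      · intro hM i _ j _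
        exact hM i j
      · intro hM i j
        exact hM i (Set.mem_univ i) j (Set.mem_univ j)
    rw [e]
    exact h
  have hop : IsCompact (MulOpposite.unop ⁻¹' B :
      Set (Matrix (Fin 2) (Fin 2) (v.adicCompletion K))ᵐᵒᵖ) := by
    have := hBc.image (MulOpposite.continuous_op)
    convert this using 1
    ext x
    simp only [Set.mem_preimage, Set.mem_image]
    constructor
    · intro hx
      exact ⟨x.unop, hx, MulOpposite.op_unop x⟩
    · rintro ⟨y, hy, rfl⟩
      exact hy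
  have hS : IsCompact ((Units.embedProduct (Matrix (Fin 2) (Fin 2) (v.adicCompletion K))) ⁻¹'
      (B ×ˢ (MulOpposite.unop ⁻¹' B))) :=
    Units.isClosedEmbedding_embedProduct.isCompact_preimage (hBc.prod hop)
  refine hS.of_isClosed_subset (isClosed_inU53 v 0) ?_
  intro g hg
  have hg' := (inU_zero_iff53 v g).1 hg
  rw [hB]
  exact ⟨fun i j => hg'.1 i j, fun i j => hg'.2 i j⟩

theorem isCompact_inU53 (n : ℕ) :
    IsCompact {g : GL (Fin 2) (v.adicCompletion K) | T6.InU n g} :=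
  (isCompact_inU_zero53 v).of_isClosed_subset (isClosed_inU53 v n)
    (fun _ hg => inU_zero_of_inU53 v hg)

theorem inU_mem_nhds53 (n : ℕ) :
    {g : GL (Fin 2) (v.adicCompletion K) | T6.InU n g} ∈ 𝓝 (1 : GL (Fin 2) (v.adicCompletion K)) :=
  (isOpen_inU53 v n).mem_nhds (inU_one53 v n)

end Fermat.Agent.LT.T7.H53

end

end
-- ===== PACK-END LT/T7/H53/HaarSplitLoc.lean

-- ===== PACK-BEGIN LT/T7/H53/ConvLoc.lean
section



/-!
# Row LT, tower T7, leaf PT.1 `PT563.ConvPureC563` (helper53, SPARE): the local convolution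

OFF-MAIN.  Mathlib + the definitions `T6.InU`, `T6.IsBiInv`, `T6.IsConv` + `H53/HaarSplitLoc`.

* `integral_conv_of_isConv53` (GENERIC, Mathlib + `T6.IsBiInv`, `T6.IsConv`): for a left
  invariant measure `μ` on a group `Γ` and a subgroup `U` (a predicate) with `μ U = 1`:
  `∫ f(y) g(y⁻¹ a) dμ(y) = χ(a)` if `f`, `g` are bi-`U`-invariant and `χ` is the finite
  convolution `T6.IsConv U f g χ`.
* `inU_mul53`, `inU_inv53`: `U(n)` is a subgroup of `GL₂(k)`.
* `continuous_of_isBiInv53`: a bi-`U(n)`-invariant function on `GL₂(K_v)` is continuous.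
* `exists_locHaar53`: the Haar measure of `GL₂(K_v)` with `vol U(n) = 1` exists.
-/

set_option autoImplicit false
set_option linter.style.haveILetI false
set_option linter.unusedSectionVars false

open IsDedekindDomain NumberField WithZero Topology MeasureTheory

noncomputable section

namespace Fermat.Agent.LT.T7.H53

open Fermat.Agent.LT

/-! ## 1. The generic lemma -/

section Generic

variable {Γ : Type} [Group Γ]

/-- The integrand of the convolution is right `U`-invariant. -/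
theorem conv_term_right_inv53 (U : Γ → Prop) (hUi : ∀ a : Γ, U a → U a⁻¹)
    (hU1 : U 1) (f g : Γ → ℂ) (hf : T6.IsBiInv U f) (hg : T6.IsBiInv U g) (a y u : Γ)
    (hu : U u) : f (y * u) * g ((y * u)⁻¹ * a) = f y * g (y⁻¹ * a) := by
  have h1 : f (y * u) = f y := by
    have := hf 1 u y hU1 hu
    rwa [one_mul] at this
  have h2 : g ((y * u)⁻¹ * a) = g (y⁻¹ * a) := by
    have := hg u⁻¹ 1 (y⁻¹ * a) (hUi u hu) hU1
    rw [mul_one] at this
    rw [← this]
    congr 1
    group
  rw [h1, h2]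

/-- **The local convolution integral is the finite convolution** (`vol U = 1`). -/
theorem integral_conv_of_isConv53 [MeasurableSpace Γ] [MeasurableMul Γ] (μ : Measure Γ)
    [μ.IsMulLeftInvariant] (U : Γ → Prop) (hU1 : U 1)
    (hUm : ∀ a b : Γ, U a → U b → U (a * b)) (hUi : ∀ a : Γ, U a → U a⁻¹)
    (hmeas : MeasurableSet {u : Γ | U u}) (hvol : μ {u : Γ | U u} = 1)
    (f g χ : Γ → ℂ) (hf : T6.IsBiInv U f) (hg : T6.IsBiInv U g) (hc : T6.IsConv U f g χ)
    (a : Γ) : ∫ y, f y * g (y⁻¹ * a) ∂μ = χ a := by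
  classical
  obtain ⟨R, hR1, hR2, hR3⟩ := hc a
  have hinv := conv_term_right_inv53 U hUi hU1 f g hf hg a
  -- the cosets
  have hcos : ∀ h : Γ, {y : Γ | U (h⁻¹ * y)} = (fun y => h⁻¹ * y) ⁻¹' {u : Γ | U u} := fun h => rfl
  have hcm : ∀ h : Γ, MeasurableSet {y : Γ | U (h⁻¹ * y)} := fun h => by
    rw [hcos]
    exact (measurable_const_mul h⁻¹) hmeas
  have hcv : ∀ h : Γ, μ {y : Γ | U (h⁻¹ * y)} = 1 := fun h => by
    rw [hcos, measure_preimage_mul, hvol]
  -- pointwise decomposition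
  have hpt : ∀ y : Γ, f y * g (y⁻¹ * a)
      = ∑ h ∈ R, Set.indicator {y : Γ | U (h⁻¹ * y)} (fun _ => f h * g (h⁻¹ * a)) y := by
    intro y
    by_cases hy : f y * g (y⁻¹ * a) = 0
    · rw [hy]
      symm
      refine Finset.sum_eq_zero fun h _ => ?_
      by_cases hm : U (h⁻¹ * y)
      · rw [Set.indicator_of_mem (show y ∈ {y : Γ | U (h⁻¹ * y)} from hm)]
        have := hinv h (h⁻¹ * y) hm
        rw [mul_inv_cancel_left] at this
        rw [← this, hy]
      · exact Set.indicator_of_notMem (show y ∉ {y : Γ | U (h⁻¹ * y)} from hm) _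
    · obtain ⟨h', hh', u, hu, hyu⟩ := hR2 y hy
      rw [Finset.sum_eq_single h']
      · have hm : U (h'⁻¹ * y) := by
          rw [hyu, inv_mul_cancel_left]
          exact hu
        rw [Set.indicator_of_mem (show y ∈ {y : Γ | U (h'⁻¹ * y)} from hm)]
        rw [hyu]
        exact hinv h' u hu
      · intro h hh hne
        have hnm : ¬ U (h⁻¹ * y) := by
          intro hm
          apply hne
          have h1 : U (h⁻¹ * y * u⁻¹) := hUm _ _ hm (hUi u hu)
          refine hR1 h hh h' hh' ⟨h⁻¹ * y * u⁻¹, h1, ?_⟩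
          rw [hyu]
          group
        exact Set.indicator_of_notMem (show y ∉ {y : Γ | U (h⁻¹ * y)} from hnm) _
      · intro hn
        exact absurd hh' hn
  have hint : ∀ h ∈ R, Integrable
      (Set.indicator {y : Γ | U (h⁻¹ * y)} (fun _ : Γ => f h * g (h⁻¹ * a))) μ := by
    intro h _
    refine (integrable_indicator_iff (hcm h)).mpr ?_
    refine integrableOn_const ?_
    rw [hcv]
    exact ENNReal.one_ne_top
  calc ∫ y, f y * g (y⁻¹ * a) ∂μ
      = ∫ y, ∑ h ∈ R,
          Set.indicator {y : Γ | U (h⁻¹ * y)} (fun _ => f h * g (h⁻¹ * a)) y ∂μ := by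
        exact integral_congr_ae (Filter.Eventually.of_forall hpt)
    _ = ∑ h ∈ R, ∫ y,
          Set.indicator {y : Γ | U (h⁻¹ * y)} (fun _ => f h * g (h⁻¹ * a)) y ∂μ :=
        integral_finsetSum R hint
    _ = ∑ h ∈ R, f h * g (h⁻¹ * a) := by
        refine Finset.sum_congr rfl fun h _ => ?_
        rw [integral_indicator_const _ (hcm h), Measure.real, hcv, ENNReal.toReal_one, one_smul]
    _ = χ a := hR3.symm

end Generic

/-! ## 2. `U(n)` is a subgroup -/

section Sub

variable {k : Type} [Field k] [Valued k T6.Γ₀]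

theorem inU_inv53 {n : ℕ} {g : GL (Fin 2) k} (hg : T6.InU n g) : T6.InU n g⁻¹ := by
  intro i j
  refine ⟨(hg i j).2, ?_⟩
  rw [inv_inv]
  exact (hg i j).1

theorem sub_one_mul_entry53 (A B : Matrix (Fin 2) (Fin 2) k) (i j : Fin 2) :
    (A * B) i j - (1 : Matrix (Fin 2) (Fin 2) k) i j
      = (A i j - (1 : Matrix (Fin 2) (Fin 2) k) i j)
        + (B i j - (1 : Matrix (Fin 2) (Fin 2) k) i j)
        + ∑ l : Fin 2, (A i l - (1 : Matrix (Fin 2) (Fin 2) k) i l)
            * (B l j - (1 : Matrix (Fin 2) (Fin 2) k) l j) := by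
  have h : A * B - 1 = (A - 1) + (B - 1) + (A - 1) * (B - 1) := by
    noncomm_ring
  have h2 := congrFun (congrFun h i) j
  simpa [Matrix.mul_apply, Matrix.sub_apply, Matrix.add_apply] using h2

theorem val_entry_mul_le53 {n : ℕ} {A B : Matrix (Fin 2) (Fin 2) k}
    (hA : ∀ i j : Fin 2, Valued.v (A i j - (1 : Matrix (Fin 2) (Fin 2) k) i j)
      ≤ WithZero.exp (-(n : ℤ)))
    (hB : ∀ i j : Fin 2, Valued.v (B i j - (1 : Matrix (Fin 2) (Fin 2) k) i j)
      ≤ WithZero.exp (-(n : ℤ))) (i j : Fin 2) :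
    Valued.v ((A * B) i j - (1 : Matrix (Fin 2) (Fin 2) k) i j)
      ≤ WithZero.exp (-(n : ℤ)) := by
  have hle : (WithZero.exp (-(n : ℤ)) : T6.Γ₀) ≤ 1 := by
    have : (WithZero.exp (-(n : ℤ)) : T6.Γ₀) ≤ WithZero.exp (0 : ℤ) := by
      rw [WithZero.exp_le_exp]
      simp
    simpa using this
  rw [sub_one_mul_entry53]
  refine Valuation.map_add_le _ (Valuation.map_add_le _ (hA i j) (hB i j)) ?_
  refine Valuation.map_sum_le _ fun l _ => ?_
  rw [map_mul]
  calc Valued.v (A i l - (1 : Matrix (Fin 2) (Fin 2) k) i l)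
        * Valued.v (B l j - (1 : Matrix (Fin 2) (Fin 2) k) l j)
      ≤ WithZero.exp (-(n : ℤ)) * 1 := mul_le_mul' (hA i l) ((hB l j).trans hle)
    _ = WithZero.exp (-(n : ℤ)) := mul_one _

theorem inU_mul53 {n : ℕ} {g h : GL (Fin 2) k} (hg : T6.InU n g) (hh : T6.InU n h) :
    T6.InU n (g * h) := by
  intro i j
  constructor
  · have := val_entry_mul_le53 (n := n) (A := (g : Matrix (Fin 2) (Fin 2) k))
      (B := (h : Matrix (Fin 2) (Fin 2) k)) (fun i j => (hg i j).1) (fun i j => (hh i j).1) i j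
    simpa using this
  · have := val_entry_mul_le53 (n := n)
      (A := ((h⁻¹ : GL (Fin 2) k) : Matrix (Fin 2) (Fin 2) k))
      (B := ((g⁻¹ : GL (Fin 2) k) : Matrix (Fin 2) (Fin 2) k))
      (fun i j => (hh i j).2) (fun i j => (hg i j).2) i j
    rw [mul_inv_rev]
    simpa using this

theorem inU_one'53 (n : ℕ) : T6.InU n (1 : GL (Fin 2) k) := by
  intro i j
  simp

end Sub

/-! ## 3. The local groups `GL₂(K_v)` -/

section Loc

variable {K : Type} [Field K] [NumberField K] (v : HeightOneSpectrum (𝓞 K))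

/-- A function which is right invariant under `U(n)` is continuous. -/
theorem continuous_of_isBiInv53 (n : ℕ) (f : GL (Fin 2) (v.adicCompletion K) → ℂ)
    (hf : T6.IsBiInv (T6.InU n) f) : Continuous f := by
  refine (IsLocallyConstant.iff_exists_open f).2 (fun x => ?_) |>.continuous
  refine ⟨(fun y => x⁻¹ * y) ⁻¹' {g | T6.InU n g},
    (isOpen_inU53 v n).preimage (continuous_const.mul continuous_id), ?_, ?_⟩
  · change T6.InU n (x⁻¹ * x)
    rw [inv_mul_cancel]
    exact inU_one53 v n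
  · intro y hy
    have := hf 1 (x⁻¹ * y) x (inU_one53 v n) hy
    rw [one_mul, mul_inv_cancel_left] at this
    exact this

/-- **The Haar measure of `GL₂(K_v)` with `vol U(n) = 1`.** -/
theorem exists_locHaar53 (n : ℕ) :
    ∃ μ : @Measure (GL (Fin 2) (v.adicCompletion K)) (borel _),
      @Measure.IsHaarMeasure _ _ _ (borel _) μ ∧ μ {g | T6.InU n g} = 1 := by
  letI : MeasurableSpace (GL (Fin 2) (v.adicCompletion K)) := borel _
  haveI : BorelSpace (GL (Fin 2) (v.adicCompletion K)) := ⟨rfl⟩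
  haveI : LocallyCompactSpace (GL (Fin 2) (v.adicCompletion K)) := locallyCompact_GLv53 v
  haveI : T2Space (GL (Fin 2) (v.adicCompletion K)) := t2_GLv53 v
  let K₀ : TopologicalSpace.PositiveCompacts (GL (Fin 2) (v.adicCompletion K)) :=
    ⟨⟨{g | T6.InU n g}, isCompact_inU53 v n⟩, by
      refine ⟨1, ?_⟩
      rw [mem_interior_iff_mem_nhds]
      exact inU_mem_nhds53 v n⟩
  refine ⟨Measure.haarMeasure K₀, inferInstance, ?_⟩
  exact Measure.haarMeasure_self (K₀ := K₀)

end Loc

end Fermat.Agent.LT.T7.H53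

end

end
-- ===== PACK-END LT/T7/H53/ConvLoc.lean

-- ===== PACK-BEGIN LT/T7/H402/ConvAlg.lean
section



/-!
# Row LT, tower T7, asset for `ProdMtCb` (helper402): the convolution algebra of a unimodular
locally compact group -- abstract part

OFF-MAIN.  Mathlib + `T6/Spec.lean` (only `T6.convInt`).  No `sorry`, nothing assumed.

For `T6.convInt μ φ ψ g = ∫ φ h * ψ (h⁻¹ g) dμ(h)`:

* `convInt_anti402` (GELFAND'S TRICK, pointwise, NO integrability, NO continuity): `θ` a measure
  preserving anti-automorphism, `μ` left and inversion invariant, `f₁ ∘ θ = f₁`, `f₂ ∘ θ = f₂`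
  ⟹ `(f₁ ⋆ f₂)(g) = (f₂ ⋆ f₁)(θ g)`;
* `convInt_auto402`: invariance of `f₁ ⋆ f₂` under a measure preserving automorphism fixing
  `f₁`, `f₂`;
* `convInt_left_inv402`, `convInt_right_inv402`: left / right invariance of `f₁ ⋆ f₂`;
* `convInt_smul_left402`, `convInt_smul_right402`, `convInt_smul_measure402`: homogeneity;
* `continuous_convInt402`, `hasCompactSupport_convInt402`: `f₁ ⋆ f₂` is continuous with compact
  support when `f₁`, `f₂` are;
* `convInt_assoc402`: associativity for continuous functions with compact support (Fubini);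
* `map_mulEquiv_eq_self402`: a continuous involutive automorphism of a locally compact second
  countable group preserves every Haar measure.
-/

set_option autoImplicit false
set_option linter.unusedSectionVars false
set_option linter.style.haveILetI false

open MeasureTheory MeasureTheory.Measure
open scoped ENNReal Pointwise

noncomputable section

namespace Fermat.Agent.LT.T7.H402

open Fermat.Agent.LT

/-! ## 1. Invariance properties (no integrability needed) -/

section Inv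

variable {G : Type} [Group G] [MeasurableSpace G]

theorem convInt_apply402 (μ : Measure G) (f₁ f₂ : G → ℂ) (g : G) :
    T6.convInt μ f₁ f₂ g = ∫ h, f₁ h * f₂ (h⁻¹ * g) ∂μ := rfl

/-- An anti-multiplicative map preserves `1`. -/
theorem anti_one402 (θ : G → G) (hmul : ∀ a b, θ (a * b) = θ b * θ a) : θ 1 = 1 := by
  have h := hmul 1 1
  rw [mul_one] at h
  exact (mul_eq_left (a := θ 1)).1 h.symm

/-- An anti-multiplicative map commutes with inversion. -/
theorem anti_inv402 (θ : G → G) (hmul : ∀ a b, θ (a * b) = θ b * θ a) (a : G) :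
    θ a⁻¹ = (θ a)⁻¹ := by
  have h := hmul a⁻¹ a
  rw [inv_mul_cancel, anti_one402 θ hmul] at h
  exact (inv_eq_of_mul_eq_one_right h.symm).symm

/-- **GELFAND'S TRICK.**  `(f₁ ⋆ f₂)(g) = (f₂ ⋆ f₁)(θ g)` for a measure preserving
anti-automorphism `θ` fixing `f₁` and `f₂`, `μ` left invariant and inversion invariant. -/
theorem convInt_anti402 [MeasurableMul G] [MeasurableInv G]
    (μ : Measure G) [μ.IsMulLeftInvariant] [μ.IsInvInvariant]
    (θ : G ≃ᵐ G) (hθ : MeasurePreserving θ μ μ) (hmul : ∀ a b, θ (a * b) = θ b * θ a)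
    (f₁ f₂ : G → ℂ) (h₁ : ∀ g, f₁ (θ g) = f₁ g) (h₂ : ∀ g, f₂ (θ g) = f₂ g) (g : G) :
    T6.convInt μ f₁ f₂ g = T6.convInt μ f₂ f₁ (θ g) := by
  rw [convInt_apply402, convInt_apply402]
  calc ∫ h, f₁ h * f₂ (h⁻¹ * g) ∂μ
      = ∫ h, (fun x => f₁ x * f₂ (θ g * x⁻¹)) (θ h) ∂μ := by
        refine integral_congr_ae (Filter.Eventually.of_forall fun h => ?_)
        simp only
        rw [h₁, ← anti_inv402 θ hmul, ← hmul, h₂]
    _ = ∫ x, f₁ x * f₂ (θ g * x⁻¹) ∂μ :=
        hθ.integral_comp' (fun x => f₁ x * f₂ (θ g * x⁻¹))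
    _ = ∫ x, (fun y => f₁ y⁻¹ * f₂ (θ g * y)) x⁻¹ ∂μ := by
        refine integral_congr_ae (Filter.Eventually.of_forall fun h => ?_)
        simp only [inv_inv]
    _ = ∫ y, f₁ y⁻¹ * f₂ (θ g * y) ∂μ :=
        integral_inv_eq_self (fun y => f₁ y⁻¹ * f₂ (θ g * y)) μ
    _ = ∫ y, (fun u => f₂ u * f₁ (u⁻¹ * θ g)) (θ g * y) ∂μ := by
        refine integral_congr_ae (Filter.Eventually.of_forall fun h => ?_)
        simp only [mul_inv_rev, inv_mul_cancel_right]
        rw [mul_comm]
    _ = ∫ u, f₂ u * f₁ (u⁻¹ * θ g) ∂μ :=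
        integral_mul_left_eq_self (fun u => f₂ u * f₁ (u⁻¹ * θ g)) (θ g)

/-- `f₁ ⋆ f₂` is invariant under a measure preserving automorphism fixing `f₁` and `f₂`. -/
theorem convInt_auto402 (μ : Measure G)
    (e : G ≃ᵐ G) (he : MeasurePreserving e μ μ) (hmul : ∀ a b, e (a * b) = e a * e b)
    (f₁ f₂ : G → ℂ) (h₁ : ∀ g, f₁ (e g) = f₁ g) (h₂ : ∀ g, f₂ (e g) = f₂ g) (g : G) :
    T6.convInt μ f₁ f₂ (e g) = T6.convInt μ f₁ f₂ g := by
  rw [convInt_apply402, convInt_apply402]
  have hinv : ∀ a : G, e a⁻¹ = (e a)⁻¹ := by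
    intro a
    have h1 : e 1 = 1 := by
      have h := hmul 1 1
      rw [mul_one] at h
      exact (mul_eq_left (a := e 1)).1 h.symm
    have h := hmul a⁻¹ a
    rw [inv_mul_cancel, h1] at h
    exact (inv_eq_of_mul_eq_one_left h.symm).symm
  calc ∫ h, f₁ h * f₂ (h⁻¹ * e g) ∂μ
      = ∫ h, (fun x => f₁ x * f₂ (x⁻¹ * e g)) (e h) ∂μ :=
        (he.integral_comp' (fun x => f₁ x * f₂ (x⁻¹ * e g))).symm
    _ = ∫ h, f₁ h * f₂ (h⁻¹ * g) ∂μ := by
        refine integral_congr_ae (Filter.Eventually.of_forall fun h => ?_)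
        simp only
        rw [h₁, ← hinv, ← hmul, h₂]

/-- `f₁ ⋆ f₂` is left invariant under `k` when `f₁` is. -/
theorem convInt_left_inv402 [MeasurableMul G] (μ : Measure G) [μ.IsMulLeftInvariant]
    (f₁ f₂ : G → ℂ) (k : G) (h : ∀ g, f₁ (k * g) = f₁ g) (g : G) :
    T6.convInt μ f₁ f₂ (k * g) = T6.convInt μ f₁ f₂ g := by
  rw [convInt_apply402, convInt_apply402]
  calc ∫ x, f₁ x * f₂ (x⁻¹ * (k * g)) ∂μ
      = ∫ x, (fun y => f₁ y * f₂ (y⁻¹ * (k * g))) (k * x) ∂μ :=
        (integral_mul_left_eq_self (fun y => f₁ y * f₂ (y⁻¹ * (k * g))) k).symm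
    _ = ∫ x, f₁ x * f₂ (x⁻¹ * g) ∂μ := by
        refine integral_congr_ae (Filter.Eventually.of_forall fun x => ?_)
        simp only
        rw [h, mul_inv_rev, mul_assoc, inv_mul_cancel_left]

/-- `f₁ ⋆ f₂` is right invariant under `k` when `f₂` is. -/
theorem convInt_right_inv402 (μ : Measure G)
    (f₁ f₂ : G → ℂ) (k : G) (h : ∀ g, f₂ (g * k) = f₂ g) (g : G) :
    T6.convInt μ f₁ f₂ (g * k) = T6.convInt μ f₁ f₂ g := by
  rw [convInt_apply402, convInt_apply402]
  refine integral_congr_ae (Filter.Eventually.of_forall fun x => ?_)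
  simp only
  rw [← mul_assoc, h]

theorem convInt_smul_left402 (μ : Measure G) (c : ℂ) (f₁ f₂ : G → ℂ) :
    T6.convInt μ (fun x => c * f₁ x) f₂ = fun g => c * T6.convInt μ f₁ f₂ g := by
  funext g
  rw [convInt_apply402, convInt_apply402, ← integral_const_mul]
  refine integral_congr_ae (Filter.Eventually.of_forall fun x => ?_)
  simp only
  ring

theorem convInt_smul_right402 (μ : Measure G) (c : ℂ) (f₁ f₂ : G → ℂ) :
    T6.convInt μ f₁ (fun x => c * f₂ x) = fun g => c * T6.convInt μ f₁ f₂ g := by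
  funext g
  rw [convInt_apply402, convInt_apply402, ← integral_const_mul]
  refine integral_congr_ae (Filter.Eventually.of_forall fun x => ?_)
  simp only
  ring

theorem convInt_smul_measure402 (μ : Measure G) (c : ℝ≥0∞) (f₁ f₂ : G → ℂ) (g : G) :
    T6.convInt (c • μ) f₁ f₂ g = (c.toReal : ℂ) * T6.convInt μ f₁ f₂ g := by
  rw [convInt_apply402, convInt_apply402, integral_smul_measure]
  rw [Complex.real_smul]

end Inv

/-! ## 2. Continuity, compact support, associativity -/

section Top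

variable {G : Type} [Group G] [TopologicalSpace G] [IsTopologicalGroup G]
  [LocallyCompactSpace G] [SecondCountableTopology G] [MeasurableSpace G] [BorelSpace G]

/-- The convolution of a continuous function with compact support and a continuous function is
continuous. -/
theorem continuous_convInt402 (μ : Measure G) [IsFiniteMeasureOnCompacts μ]
    {f₁ f₂ : G → ℂ} (hf₁ : Continuous f₁) (hc₁ : HasCompactSupport f₁) (hf₂ : Continuous f₂) :
    Continuous (T6.convInt μ f₁ f₂) := by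
  have hset : T6.convInt μ f₁ f₂
      = fun g => ∫ h in tsupport f₁, (fun g h => f₁ h * f₂ (h⁻¹ * g)) g h ∂μ := by
    funext g
    rw [convInt_apply402]
    symm
    apply setIntegral_eq_integral_of_forall_compl_eq_zero
    intro x hx
    have : f₁ x = 0 := image_eq_zero_of_notMem_tsupport hx
    simp [this]
  rw [hset]
  apply continuous_parametric_integral_of_continuous _ hc₁
  simp only [Function.uncurry_def]
  fun_prop

/-- The convolution of two functions with compact support has compact support. -/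
theorem hasCompactSupport_convInt402 (μ : Measure G)
    {f₁ f₂ : G → ℂ} (hc₁ : HasCompactSupport f₁) (hc₂ : HasCompactSupport f₂) :
    HasCompactSupport (T6.convInt μ f₁ f₂) := by
  refine HasCompactSupport.intro (hc₁.isCompact.mul hc₂.isCompact) ?_
  intro g hg
  rw [convInt_apply402]
  refine integral_eq_zero_of_ae (Filter.Eventually.of_forall fun h => ?_)
  simp only [Pi.zero_apply]
  by_cases h1 : h ∈ tsupport f₁
  · have h2 : h⁻¹ * g ∉ tsupport f₂ := by
      intro h2
      apply hg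
      refine ⟨h, h1, h⁻¹ * g, h2, ?_⟩
      simp
    rw [image_eq_zero_of_notMem_tsupport h2, mul_zero]
  · rw [image_eq_zero_of_notMem_tsupport h1, zero_mul]

/-- **ASSOCIATIVITY** of the convolution of continuous functions with compact support. -/
theorem convInt_assoc402 (μ : Measure G) [IsHaarMeasure μ]
    {f₁ f₂ f₃ : G → ℂ} (hf₁ : Continuous f₁) (hc₁ : HasCompactSupport f₁)
    (hf₂ : Continuous f₂) (hc₂ : HasCompactSupport f₂) (hf₃ : Continuous f₃) :
    T6.convInt μ (T6.convInt μ f₁ f₂) f₃ = T6.convInt μ f₁ (T6.convInt μ f₂ f₃) := by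
  funext g
  -- the integrand on `G × G`
  set F : G → G → ℂ := fun h a => f₁ a * f₂ (a⁻¹ * h) * f₃ (h⁻¹ * g) with hF
  have hFc : Continuous (Function.uncurry F) := by
    simp only [hF, Function.uncurry_def]
    fun_prop
  have hFs : HasCompactSupport (Function.uncurry F) := by
    refine HasCompactSupport.intro
      (((hc₁.isCompact.mul hc₂.isCompact)).prod hc₁.isCompact) ?_
    rintro ⟨h, a⟩ hx
    simp only [Function.uncurry_apply_pair, hF]
    by_cases h1 : a ∈ tsupport f₁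
    · have h2 : a⁻¹ * h ∉ tsupport f₂ := by
        intro h2
        apply hx
        refine ⟨⟨a, h1, a⁻¹ * h, h2, ?_⟩, h1⟩
        simp
      rw [image_eq_zero_of_notMem_tsupport h2, mul_zero, zero_mul]
    · rw [image_eq_zero_of_notMem_tsupport h1, zero_mul, zero_mul]
  have hFi : Integrable (Function.uncurry F) (μ.prod μ) :=
    hFc.integrable_of_hasCompactSupport hFs
  calc T6.convInt μ (T6.convInt μ f₁ f₂) f₃ g
      = ∫ h, (∫ a, F h a ∂μ) ∂μ := by
        rw [convInt_apply402]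
        refine integral_congr_ae (Filter.Eventually.of_forall fun h => ?_)
        simp only [hF]
        rw [convInt_apply402, ← integral_mul_const]
    _ = ∫ a, (∫ h, F h a ∂μ) ∂μ := integral_integral_swap hFi
    _ = T6.convInt μ f₁ (T6.convInt μ f₂ f₃) g := by
        rw [convInt_apply402]
        refine integral_congr_ae (Filter.Eventually.of_forall fun a => ?_)
        simp only [hF]
        rw [convInt_apply402]
        have h1 : ∫ h, f₁ a * f₂ (a⁻¹ * h) * f₃ (h⁻¹ * g) ∂μ
            = f₁ a * ∫ h, f₂ (a⁻¹ * h) * f₃ (h⁻¹ * g) ∂μ := by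
          rw [← integral_const_mul]
          refine integral_congr_ae (Filter.Eventually.of_forall fun h => ?_)
          simp only
          ring
        rw [h1]
        congr 1
        calc ∫ h, f₂ (a⁻¹ * h) * f₃ (h⁻¹ * g) ∂μ
            = ∫ h, (fun x => f₂ (a⁻¹ * x) * f₃ (x⁻¹ * g)) (a * h) ∂μ :=
              (integral_mul_left_eq_self (fun x => f₂ (a⁻¹ * x) * f₃ (x⁻¹ * g)) a).symm
          _ = ∫ h, f₂ h * f₃ (h⁻¹ * (a⁻¹ * g)) ∂μ := by
              refine integral_congr_ae (Filter.Eventually.of_forall fun h => ?_)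
              simp only
              rw [inv_mul_cancel_left, mul_inv_rev, mul_assoc]

/-- **A continuous involutive automorphism preserves every Haar measure.** -/
theorem map_mulEquiv_eq_self402 [T2Space G] (e : G ≃* G) (he : Continuous e)
    (hinv : ∀ x, e (e x) = x) (μ : Measure G) [IsHaarMeasure μ] : map e μ = μ := by
  have hsymm : (e.symm : G → G) = e := by
    funext x
    rw [MulEquiv.symm_apply_eq, hinv]
  have hes : Continuous e.symm := by rw [hsymm]; exact he
  haveI : IsHaarMeasure (map e μ) := e.isHaarMeasure_map μ he hes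
  let c : ℝ≥0∞ := haarScalarFactor (map e μ) μ
  have hc : map e μ = c • μ := isMulLeftInvariant_eq_smul_of_innerRegular (map e μ) μ
  have h2 : map e (map e μ) = c ^ 2 • μ := by
    rw [hc, Measure.map_smul, hc, smul_smul, pow_two]
  have μeq : μ = c ^ 2 • μ := by
    rw [map_map he.measurable he.measurable] at h2
    have hid : (e : G → G) ∘ e = id := funext hinv
    rw [hid, Measure.map_id] at h2
    exact h2
  have K : TopologicalSpace.PositiveCompacts G := Classical.arbitrary _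
  have h3 : c ^ 2 * μ K = 1 ^ 2 * μ K := by
    conv_rhs => rw [μeq]
    simp
  have h4 : c ^ 2 = 1 ^ 2 :=
    (ENNReal.mul_left_inj (measure_pos_of_nonempty_interior _ K.interior_nonempty).ne'
          K.isCompact.measure_lt_top.ne).1 h3
  have h5 : c = 1 := (ENNReal.pow_right_strictMono two_ne_zero).injective h4
  rw [hc, h5, one_smul]

end Top

end Fermat.Agent.LT.T7.H402

end

end
-- ===== PACK-END LT/T7/H402/ConvAlg.lean

-- ===== PACK-BEGIN LT/T7/H402/GelfandC.lean
section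





/-!
# Row LT, tower T7, asset for `ProdMtCb` (helper402): the bi-`U(2)`-invariant functions on
`GL₂(ℂ)` COMMUTE under convolution (Gelfand pair `(GL₂(ℂ), U(2))`)

OFF-MAIN.  Mathlib + `T6/Spec.lean` (only `T6.convInt`) + `T6/H8/Unimod.lean` (helper8,
Mathlib only: unimodularity of `GL₂(ℂ)`).  No `sorry`, nothing assumed.

* `IsBiU2_402 f`: `f (k₁ g k₂) = f g` for `k₁ k₁ᴴ = 1`, `k₂ k₂ᴴ = 1` (the clause of
  `H893.ArchOk893`, verbatim);
* `exists_unitary_star402`: for every `g ∈ GL₂(ℂ)` there is a unitary `u` with `gᴴ = u g u`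
  (polar decomposition `g = k p`, `u = k⁻¹`; the square root `p` of `gᴴ g` is EXPLICIT for
  `2 × 2` matrices: `p = (gᴴ g + |det g|) / √(tr gᴴ g + 2 |det g|)`, Cayley-Hamilton);
* `biU2_star402`: a bi-`U(2)`-invariant function is invariant under `g ↦ gᴴ`;
* `map_star_GL2C402`: `g ↦ gᴴ` preserves every Haar measure of `GL₂(ℂ)`;
* **`convInt_comm_GL2C402`**: `f₁ ⋆ f₂ = f₂ ⋆ f₁` for ALL bi-`U(2)`-invariant `f₁`, `f₂`
  (no continuity, no integrability);
* `biU2_convInt402`: `f₁ ⋆ f₂` is bi-`U(2)`-invariant when `f₁` is left and `f₂` is right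
  invariant.
-/

set_option autoImplicit false
set_option linter.unusedSectionVars false
set_option linter.style.haveILetI false

open MeasureTheory MeasureTheory.Measure
open scoped ENNReal Matrix

noncomputable section

namespace Fermat.Agent.LT.T7.H402

open Fermat.Agent.LT

/-- Bi-`U(2)`-invariance (the form of `H893.ArchOk893`). -/
def IsBiU2_402 (f : GL (Fin 2) ℂ → ℂ) : Prop :=
  ∀ k₁ k₂ g : GL (Fin 2) ℂ,
    (k₁ : Matrix (Fin 2) (Fin 2) ℂ) * (k₁ : Matrix (Fin 2) (Fin 2) ℂ).conjTranspose = 1 →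
    (k₂ : Matrix (Fin 2) (Fin 2) ℂ) * (k₂ : Matrix (Fin 2) (Fin 2) ℂ).conjTranspose = 1 →
    f (k₁ * g * k₂) = f g

/-! ## 1. The polar decomposition of `GL₂(ℂ)`, explicit -/

/-- Cayley-Hamilton for `2 × 2` matrices. -/
theorem cayley_two402 (A : Matrix (Fin 2) (Fin 2) ℂ) :
    A * A = A.trace • A - A.det • (1 : Matrix (Fin 2) (Fin 2) ℂ) := by
  ext i j
  fin_cases i <;> fin_cases j <;>
    simp [Matrix.mul_apply, Fin.sum_univ_two, Matrix.det_fin_two, Matrix.trace_fin_two] <;> ring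

/-- The explicit square root: if `s² = det A` and `t² = tr A + 2 s`, `t ≠ 0`, then
`P = (A + s) / t` satisfies `P² = A`. -/
theorem sqrt_two402 (A : Matrix (Fin 2) (Fin 2) ℂ) (s t : ℂ) (hs : s * s = A.det)
    (ht : t * t = A.trace + 2 * s) (ht0 : t ≠ 0) :
    (t⁻¹ • (A + s • (1 : Matrix (Fin 2) (Fin 2) ℂ))) * (t⁻¹ • (A + s • 1)) = A := by
  have hCH := cayley_two402 A
  have h1 : (A + s • (1 : Matrix (Fin 2) (Fin 2) ℂ)) * (A + s • 1) = (t * t) • A := by
    rw [add_mul, mul_add, mul_add, hCH, ht, ← hs]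
    simp only [Matrix.mul_smul, Matrix.smul_mul, Matrix.mul_one, Matrix.one_mul, smul_smul]
    module
  rw [Matrix.smul_mul, Matrix.mul_smul, h1, smul_smul, smul_smul]
  have : t⁻¹ * t⁻¹ * (t * t) = 1 := by field_simp
  rw [this, one_smul]

/-- `tr (Mᴴ M)` has non-negative real part. -/
theorem trace_re_nonneg402 (M : Matrix (Fin 2) (Fin 2) ℂ) : 0 ≤ ((Mᴴ * M).trace).re := by
  rw [Matrix.trace_fin_two]
  simp only [Matrix.mul_apply, Matrix.conjTranspose_apply, Fin.sum_univ_two, Complex.add_re,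
    Complex.mul_re, Complex.star_def, Complex.conj_re, Complex.conj_im]
  nlinarith [mul_self_nonneg (M 0 0).re, mul_self_nonneg (M 0 0).im, mul_self_nonneg (M 1 0).re,
    mul_self_nonneg (M 1 0).im, mul_self_nonneg (M 0 1).re, mul_self_nonneg (M 0 1).im,
    mul_self_nonneg (M 1 1).re, mul_self_nonneg (M 1 1).im]

/-- `tr (Mᴴ M)` is real. -/
theorem trace_real402 (M : Matrix (Fin 2) (Fin 2) ℂ) :
    (Mᴴ * M).trace = ((((Mᴴ * M).trace).re : ℝ) : ℂ) := by
  have hH : (Mᴴ * M).IsHermitian := Matrix.isHermitian_conjTranspose_mul_self M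
  have h0 := hH.coe_re_apply_self 0
  have h1 := hH.coe_re_apply_self 1
  rw [Matrix.trace_fin_two, Complex.add_re, Complex.ofReal_add]
  simp only [RCLike.re_to_complex, Complex.coe_algebraMap] at h0 h1
  rw [h0, h1]

/-- **Polar decomposition, in the form needed**: a Hermitian invertible square root of
`gᴴ g`. -/
theorem exists_sqrt_star_mul402 (g : GL (Fin 2) ℂ) :
    ∃ p : GL (Fin 2) ℂ, star p = p ∧ p * p = star g * g := by
  set M : Matrix (Fin 2) (Fin 2) ℂ := (g : Matrix (Fin 2) (Fin 2) ℂ) with hM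
  set A : Matrix (Fin 2) (Fin 2) ℂ := Mᴴ * M with hA
  have hdet : M.det ≠ 0 := by
    have := g.isUnit
    exact ((Matrix.isUnit_iff_isUnit_det _).mp this).ne_zero
  set s : ℝ := ‖M.det‖ with hs
  have hs0 : 0 < s := norm_pos_iff.mpr hdet
  set x : ℝ := (A.trace).re + 2 * s with hx
  have hx0 : 0 < x := by
    have := trace_re_nonneg402 M
    rw [hx]
    linarith
  set t : ℝ := Real.sqrt x with ht
  have ht0 : 0 < t := Real.sqrt_pos.mpr hx0
  have htt : t * t = x := Real.mul_self_sqrt hx0.le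
  have hAdet : ((s : ℂ)) * (s : ℂ) = A.det := by
    rw [hA, Matrix.det_mul, Matrix.det_conjTranspose, Complex.star_def, Complex.conj_mul', hs,
      pow_two]
  have hAtr : ((t : ℂ)) * (t : ℂ) = A.trace + 2 * (s : ℂ) := by
    rw [← Complex.ofReal_mul, htt, hx, trace_real402 M]
    push_cast
    rw [← hA]
    simp
  have htc : (t : ℂ) ≠ 0 := Complex.ofReal_ne_zero.mpr ht0.ne'
  set P : Matrix (Fin 2) (Fin 2) ℂ := (t : ℂ)⁻¹ • (A + (s : ℂ) • 1) with hP
  have hPP : P * P = A := sqrt_two402 A s t hAdet hAtr htc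
  have hPdet : P.det ≠ 0 := by
    intro h0
    have h1 : (P * P).det = 0 := by rw [Matrix.det_mul, h0, mul_zero]
    rw [hPP, ← hAdet] at h1
    have hsc : (s : ℂ) ≠ 0 := Complex.ofReal_ne_zero.mpr hs0.ne'
    exact mul_ne_zero hsc hsc h1
  have hAH : Aᴴ = A := Matrix.isHermitian_conjTranspose_mul_self M
  have hPH : Pᴴ = P := by
    rw [hP, Matrix.conjTranspose_smul, Matrix.conjTranspose_add, Matrix.conjTranspose_smul,
      Matrix.conjTranspose_one, hAH]
    simp
  refine ⟨Matrix.GeneralLinearGroup.mkOfDetNeZero P hPdet, ?_, ?_⟩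
  · apply Units.ext
    rw [Units.coe_star, Matrix.star_eq_conjTranspose]
    exact hPH
  · apply Units.ext
    rw [Units.val_mul, Units.val_mul, Units.coe_star, Matrix.star_eq_conjTranspose]
    exact hPP

/-- **For every `g ∈ GL₂(ℂ)` there is a unitary `u` with `gᴴ = u g u`.** -/
theorem exists_unitary_star402 (g : GL (Fin 2) ℂ) :
    ∃ u : GL (Fin 2) ℂ,
      (u : Matrix (Fin 2) (Fin 2) ℂ) * (u : Matrix (Fin 2) (Fin 2) ℂ).conjTranspose = 1 ∧
      star g = u * g * u := by
  obtain ⟨p, hp, hpp⟩ := exists_sqrt_star_mul402 g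
  -- `k = g p⁻¹`, `u = star k = k⁻¹`
  set k : GL (Fin 2) ℂ := g * p⁻¹ with hk
  have hsk : star k = p⁻¹ * star g := by
    rw [hk, star_mul, star_inv, hp]
  have hunit : star k * k = 1 := by
    rw [hsk, hk]
    calc p⁻¹ * star g * (g * p⁻¹) = p⁻¹ * (star g * g) * p⁻¹ := by group
      _ = 1 := by rw [← hpp]; group
  have hg : g = k * p := by rw [hk]; group
  refine ⟨star k, ?_, ?_⟩
  · have h1 : ((star k * star (star k) : GL (Fin 2) ℂ) : Matrix (Fin 2) (Fin 2) ℂ) = 1 := by
      rw [star_star, hunit]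
      rfl
    rw [Units.val_mul, Units.coe_star (star k), Matrix.star_eq_conjTranspose] at h1
    exact h1
  · calc star g = star p * star k := by conv_lhs => rw [hg, star_mul]
      _ = (star k * k) * p * star k := by rw [hunit, one_mul, hp]
      _ = star k * (k * p) * star k := by group
      _ = star k * g * star k := by rw [← hg]

/-- A bi-`U(2)`-invariant function is invariant under `g ↦ gᴴ`. -/
theorem biU2_star402 {f : GL (Fin 2) ℂ → ℂ} (hf : IsBiU2_402 f) (g : GL (Fin 2) ℂ) :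
    f (star g) = f g := by
  obtain ⟨u, hu, hg⟩ := exists_unitary_star402 g
  rw [hg]
  exact hf u u g hu hu

/-! ## 2. The measure -/

section Meas

variable [MeasurableSpace (GL (Fin 2) ℂ)] [BorelSpace (GL (Fin 2) ℂ)]

/-- `g ↦ (gᴴ)⁻¹` as an automorphism of `GL₂(ℂ)`. -/
def invStar402 : GL (Fin 2) ℂ ≃* GL (Fin 2) ℂ where
  toFun g := star g⁻¹
  invFun g := star g⁻¹
  left_inv g := by simp
  right_inv g := by simp
  map_mul' a b := by simp [mul_inv_rev, star_mul]

theorem invStar402_apply (g : GL (Fin 2) ℂ) : invStar402 g = star g⁻¹ := rfl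

/-- `g ↦ gᴴ` as a homeomorphism of `GL₂(ℂ)`. -/
def starHomeo402 : GL (Fin 2) ℂ ≃ₜ GL (Fin 2) ℂ where
  toFun := star
  invFun := star
  left_inv := star_star
  right_inv := star_star
  continuous_toFun := continuous_star
  continuous_invFun := continuous_star

theorem starHomeo402_apply (g : GL (Fin 2) ℂ) : starHomeo402 g = star g := rfl

/-- Every Haar measure of `GL₂(ℂ)` is inversion invariant (helper8). -/
theorem isInvInvariant_GL2C402 (μ : Measure (GL (Fin 2) ℂ)) [IsHaarMeasure μ] :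
    μ.IsInvInvariant :=
  ⟨(T6.H8.rightInv_GL2C8 μ).2⟩

/-- `g ↦ (gᴴ)⁻¹` preserves every Haar measure of `GL₂(ℂ)`. -/
theorem map_invStar_GL2C402 (μ : Measure (GL (Fin 2) ℂ)) [IsHaarMeasure μ] :
    map invStar402 μ = μ := by
  haveI := T6.H8.locallyCompactSpace_GL2C8
  haveI := T6.H8.secondCountableTopology_GL2C8
  refine map_mulEquiv_eq_self402 invStar402 ?_ ?_ μ
  · exact continuous_star.comp continuous_inv
  · intro x
    simp [invStar402_apply]

/-- **`g ↦ gᴴ` preserves every Haar measure of `GL₂(ℂ)`.** -/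
theorem map_star_GL2C402 (μ : Measure (GL (Fin 2) ℂ)) [IsHaarMeasure μ] :
    map (star : GL (Fin 2) ℂ → GL (Fin 2) ℂ) μ = μ := by
  have h1 : (star : GL (Fin 2) ℂ → GL (Fin 2) ℂ) = (fun x => x⁻¹) ∘ invStar402 := by
    funext g
    simp [invStar402_apply]
  have hm : Measurable (invStar402 : GL (Fin 2) ℂ → GL (Fin 2) ℂ) :=
    (continuous_star.comp continuous_inv).measurable
  rw [h1, ← map_map continuous_inv.measurable hm, map_invStar_GL2C402 μ]
  exact (T6.H8.rightInv_GL2C8 μ).2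

theorem measurePreserving_star402 (μ : Measure (GL (Fin 2) ℂ)) [IsHaarMeasure μ] :
    MeasurePreserving (starHomeo402.toMeasurableEquiv) μ μ :=
  ⟨starHomeo402.toMeasurableEquiv.measurable, map_star_GL2C402 μ⟩

/-! ## 3. Commutativity -/

/-- The convolution of a left `U(2)`-invariant and a right `U(2)`-invariant function is
bi-`U(2)`-invariant. -/
theorem biU2_convInt402 (μ : Measure (GL (Fin 2) ℂ)) [IsHaarMeasure μ]
    {f₁ f₂ : GL (Fin 2) ℂ → ℂ} (h₁ : IsBiU2_402 f₁) (h₂ : IsBiU2_402 f₂) :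
    IsBiU2_402 (T6.convInt μ f₁ f₂) := by
  intro k₁ k₂ g hk₁ hk₂
  have hone : ((1 : GL (Fin 2) ℂ) : Matrix (Fin 2) (Fin 2) ℂ)
      * ((1 : GL (Fin 2) ℂ) : Matrix (Fin 2) (Fin 2) ℂ).conjTranspose = 1 := by
    simp
  rw [convInt_right_inv402 μ f₁ f₂ k₂ (fun x => by
    have := h₂ 1 k₂ x hone hk₂
    rwa [one_mul] at this)]
  exact convInt_left_inv402 μ f₁ f₂ k₁ (fun x => by
    have := h₁ k₁ 1 x hk₁ hone
    rwa [mul_one] at this) g

/-- **GELFAND: the bi-`U(2)`-invariant functions on `GL₂(ℂ)` commute under convolution.**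
No continuity, no integrability. -/
theorem convInt_comm_GL2C402 (μ : Measure (GL (Fin 2) ℂ)) [IsHaarMeasure μ]
    {f₁ f₂ : GL (Fin 2) ℂ → ℂ} (h₁ : IsBiU2_402 f₁) (h₂ : IsBiU2_402 f₂) :
    T6.convInt μ f₁ f₂ = T6.convInt μ f₂ f₁ := by
  haveI := T6.H8.locallyCompactSpace_GL2C8
  haveI := T6.H8.secondCountableTopology_GL2C8
  haveI := isInvInvariant_GL2C402 μ
  funext g
  have h := convInt_anti402 μ starHomeo402.toMeasurableEquiv (measurePreserving_star402 μ)
    (fun a b => star_mul a b) f₁ f₂ (fun x => biU2_star402 h₁ x) (fun x => biU2_star402 h₂ x) g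
  rw [h]
  exact biU2_star402 (biU2_convInt402 μ h₂ h₁) g

end Meas

end Fermat.Agent.LT.T7.H402

end

end
-- ===== PACK-END LT/T7/H402/GelfandC.lean

-- ===== PACK-BEGIN LT/T7/H159/BlockFubini.lean
section


/-!
# Row LT, tower T7, node UpFactC340 / FactUpC305 -- ASSET "BLOCK-FUBINI" (helper159)

OFF-MAIN.  MATHLIB ONLY, abstract.  No hole, nothing assumed.  ADDITIVE (suffix `159`).

FUBINI GROUPED ALONG A MAP OF INDEX SETS (the places `w` of `K'` grouped by the places `v` of
`K` below them).  `π : ι' → ι` a map of finite types, `X w` measurable spaces with `σ`-finite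
measures `μ w` (`w : ι'`).

* `blockEquiv159 π : (∀ w, X w) ≃ᵐ ∀ v, ∀ w : {w // π w = v}, X w`, `x ↦ (x_w)_{w ∣ v}`;
* `measurePreserving_block159`: it maps `⊗_w μ_w` to `⊗_v ⊗_{w ∣ v} μ_w`;
* **`integral_block159`**: for ARBITRARY functions `F v` of the block at `v` (no hypothesis)

      ∫ ∏_v F_v((x_w)_{w ∣ v}) d(⊗_w μ_w) = ∏_v ∫ F_v d(⊗_{w ∣ v} μ_w);

* `integral_block_one159`: a block with ONE element `w₀` (a place with one place over it):
  `∫ F d(⊗_{w ∣ v} μ_w) = ∫ F(the family with the value y at w₀) dμ_{w₀}(y)`;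
* `integral_block_fin159`: a block enumerated by `e : Fin l ≃ {w // π w = v}` with measure
  preserving identifications `a j : X (e j) ≃ᵐ H` (a split place: `i_j : K_v ≃ K'_{w_j}`):
  `∫ F d(⊗_{w ∣ v} μ_w) = ∫ F((a_j⁻¹ y_j)_j) d(ν^{⊗ l})(y)`.
-/

set_option autoImplicit false

open MeasureTheory MeasureTheory.Measure Set

noncomputable section

namespace Fermat.Agent.LT.T7.H159

section Block

variable {ι' ι : Type*} (π : ι' → ι) {X : ι' → Type*}

/-- The regrouping `x ↦ (x_w)_{w ∣ v}` as an equivalence. -/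
def blockEquivRaw159 : (∀ w, X w) ≃ ∀ v, ∀ w : {w : ι' // π w = v}, X w.1 where
  toFun x := fun _ w => x w.1
  invFun y := fun w => y (π w) ⟨w, rfl⟩
  left_inv _ := rfl
  right_inv y := by
    funext v w
    obtain ⟨w, hw⟩ := w
    subst hw
    rfl

variable [∀ w, MeasurableSpace (X w)]

/-- The regrouping `x ↦ (x_w)_{w ∣ v}` as a measurable equivalence. -/
def blockEquiv159 : (∀ w, X w) ≃ᵐ ∀ v, ∀ w : {w : ι' // π w = v}, X w.1 where
  toEquiv := blockEquivRaw159 π
  measurable_toFun :=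
    measurable_pi_lambda _ fun _ => measurable_pi_lambda _ fun w => measurable_pi_apply w.1
  measurable_invFun :=
    measurable_pi_lambda _ fun w =>
      (measurable_pi_apply (⟨w, rfl⟩ : {w' : ι' // π w' = π w})).comp (measurable_pi_apply (π w))

@[simp] theorem blockEquiv_apply159 (x : ∀ w, X w) (v : ι) (w : {w : ι' // π w = v}) :
    blockEquiv159 π x v w = x w.1 := rfl

variable [Fintype ι'] [Fintype ι] [DecidableEq ι] (μ : ∀ w, Measure (X w))
  [∀ w, SigmaFinite (μ w)]

/-- The regrouping maps the product measure to the product of the product measures of the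
blocks. -/
theorem map_block159 :
    Measure.map (blockEquiv159 π) (Measure.pi μ)
      = Measure.pi fun v : ι => Measure.pi fun w : {w : ι' // π w = v} => μ w.1 := by
  symm
  refine Measure.pi_eq_generateFrom
    (C := fun v : ι => Set.pi univ ''
      Set.pi univ fun w : {w : ι' // π w = v} => {s : Set (X w.1) | MeasurableSet s})
    (fun v => generateFrom_pi) (fun v => isPiSystem_pi)
    (fun v => FiniteSpanningSetsIn.pi fun w => (μ w.1).toFiniteSpanningSetsIn) ?_
  intro s hs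
  choose t ht hts using hs
  have htm : ∀ (v : ι) (w : {w : ι' // π w = v}), MeasurableSet (t v w) :=
    fun v w => ht v w (Set.mem_univ w)
  have hsm : MeasurableSet (Set.pi univ s) :=
    MeasurableSet.univ_pi fun v => by
      rw [← hts v]
      exact MeasurableSet.univ_pi fun w => htm v w
  rw [Measure.map_apply (blockEquiv159 π).measurable hsm]
  have hpre : (blockEquiv159 π) ⁻¹' (Set.pi univ s)
      = Set.pi univ fun w : ι' => t (π w) ⟨w, rfl⟩ := by
    ext x
    simp only [mem_preimage, mem_pi, mem_univ, true_implies]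
    constructor
    · intro h w
      have := h (π w)
      rw [← hts (π w)] at this
      exact this ⟨w, rfl⟩ (Set.mem_univ _)
    · intro h v
      rw [← hts v]
      rintro ⟨w, hw⟩ _
      subst hw
      exact h w
  rw [hpre, Measure.pi_pi]
  have hv : ∀ v : ι, (Measure.pi fun w : {w : ι' // π w = v} => μ w.1) (s v)
      = ∏ w : {w : ι' // π w = v}, μ w.1 (t (π w.1) ⟨w.1, rfl⟩) := by
    intro v
    rw [← hts v, Measure.pi_pi]
    refine Finset.prod_congr rfl ?_
    rintro ⟨w, hw⟩ _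
    subst hw
    rfl
  simp_rw [hv]
  exact (Fintype.prod_fiberwise π fun w => μ w (t (π w) ⟨w, rfl⟩)).symm

theorem measurePreserving_block159 :
    MeasurePreserving (blockEquiv159 π) (Measure.pi μ)
      (Measure.pi fun v : ι => Measure.pi fun w : {w : ι' // π w = v} => μ w.1) :=
  ⟨(blockEquiv159 π).measurable, map_block159 π μ⟩

/-- **BLOCK FUBINI.**  No hypothesis on the functions. -/
theorem integral_block159 (F : ∀ v : ι, (∀ w : {w : ι' // π w = v}, X w.1) → ℂ) :
    ∫ x, ∏ v : ι, F v (fun w => x w.1) ∂(Measure.pi μ)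
      = ∏ v : ι, ∫ y, F v y ∂(Measure.pi fun w : {w : ι' // π w = v} => μ w.1) := by
  have h := (measurePreserving_block159 π μ).integral_comp'
    (fun y : (∀ v : ι, ∀ w : {w : ι' // π w = v}, X w.1) => ∏ v : ι, F v (y v))
  rw [integral_fintype_prod_eq_prod] at h
  rw [← h]
  rfl

end Block

section Pieces

variable {J : Type*} [Fintype J] {Y : J → Type*} [∀ j, MeasurableSpace (Y j)]
  (ν : ∀ j, Measure (Y j)) [∀ j, SigmaFinite (ν j)]

omit [∀ j, SigmaFinite (ν j)] in
/-- A block with ONE element. -/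
theorem integral_block_one159 [Unique J] (F : (∀ j, Y j) → ℂ) :
    ∫ y, F y ∂(Measure.pi ν)
      = ∫ z, F ((MeasurableEquiv.piUnique Y).symm z) ∂(ν default) :=
  (((measurePreserving_piUnique ν).symm (MeasurableEquiv.piUnique Y)).integral_comp' F).symm

/-- A block enumerated by `Fin l`, with measure preserving identifications of the factors with
one measure space `(H, ν₀)`. -/
theorem integral_block_fin159 {l : ℕ} {H : Type*} [MeasurableSpace H] (ν₀ : Measure H)
    [SigmaFinite ν₀] (e : Fin l ≃ J) (a : ∀ j : Fin l, Y (e j) ≃ᵐ H)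
    (ha : ∀ j, MeasurePreserving (a j) (ν (e j)) ν₀) (F : (∀ j, Y j) → ℂ) :
    ∫ y, F y ∂(Measure.pi ν)
      = ∫ z : Fin l → H,
          F (MeasurableEquiv.piCongrLeft Y e (fun j => (a j).symm (z j)))
          ∂(Measure.pi fun _ : Fin l => ν₀) := by
  have h2 := (measurePreserving_piCongrLeft ν e).integral_comp' F
  rw [← h2]
  have h1 : MeasurePreserving (MeasurableEquiv.piCongrRight fun j : Fin l => (a j).symm)
      (Measure.pi fun _ : Fin l => ν₀) (Measure.pi fun j : Fin l => ν (e j)) :=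
    measurePreserving_pi (fun _ : Fin l => ν₀) (fun j : Fin l => ν (e j))
      (f := fun j => (a j).symm) fun j => (ha j).symm (a j)
  have h3 := h1.integral_comp'
    (fun y : (∀ j : Fin l, Y (e j)) => F (MeasurableEquiv.piCongrLeft Y e y))
  rw [← h3]
  rfl

end Pieces

end Fermat.Agent.LT.T7.H159

end

end
-- ===== PACK-END LT/T7/H159/BlockFubini.lean

-- ===== PACK-BEGIN LT/T7/H627/HaarSplitAbs.lean
section


/-!
# Row LT, tower T7, leaf C2.7.4 `HaarSplitC305` -- abstract core (helper627, spare)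

OFF-MAIN.  Mathlib only.  (Multiplicative, non-commutative form of helper201's
`A2/H201/PushHaar.lean`.)

* `isMulLeftInvariant_map_restrict627`: the push-forward of the restriction of a left invariant
  measure to a subgroup `B` under a multiplicative map `q` which is onto on `B` is left invariant.
* `map_restrict_eq_smul627`: it is a multiple of any Haar measure of the target, the constant
  being computed on one set `E` with non-empty interior.
-/

set_option autoImplicit false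
set_option linter.unusedSectionVars false
set_option linter.style.haveILetI false

open MeasureTheory Set Filter Topology
open scoped ENNReal NNReal

noncomputable section

namespace Fermat.Agent.LT.T7.H627

section PushMul

variable {Y H : Type*} [Group Y] [TopologicalSpace Y] [MeasurableSpace Y] [BorelSpace Y]
  [IsTopologicalGroup Y]
  [Group H] [TopologicalSpace H] [MeasurableSpace H] [BorelSpace H]
  [IsTopologicalGroup H]

/-- Push-forward of the restriction of a left invariant measure to a subgroup `B` under a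
multiplicative map which is onto on `B`: the result is left invariant. -/
theorem isMulLeftInvariant_map_restrict627 (lam : Measure Y) [lam.IsMulLeftInvariant]
    (B : Subgroup Y) (hB : MeasurableSet (B : Set Y)) (q : Y → H) (hq : Measurable q)
    (hmul : ∀ x y, q (x * y) = q x * q y)
    (hsurj : ∀ h : H, ∃ b ∈ B, q b = h) :
    ((lam.restrict (B : Set Y)).map q).IsMulLeftInvariant := by
  refine ⟨fun h => ?_⟩
  obtain ⟨b, hb, rfl⟩ := hsurj h
  rw [Measure.map_map (measurable_const_mul _) hq]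
  have h1 : (fun x => q b * x) ∘ q = q ∘ (fun y => b * y) := by
    funext y
    simp [hmul]
  rw [h1, ← Measure.map_map hq (measurable_const_mul b)]
  congr 1
  have h2 : (fun y => b * y) ⁻¹' (B : Set Y) = (B : Set Y) := by
    ext y
    simp only [mem_preimage, SetLike.mem_coe]
    exact ⟨fun hy => by simpa using B.mul_mem (B.inv_mem hb) hy, fun hy => B.mul_mem hb hy⟩
  have h3 := Measure.restrict_map (μ := lam) (measurable_const_mul b) hB
  rw [h2, map_mul_left_eq_self] at h3
  exact h3.symm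

/-- The push-forward is a multiple of every Haar measure of the target. -/
theorem map_restrict_eq_smul627 [LocallyCompactSpace H] [SecondCountableTopology H]
    (lam : Measure Y) [lam.IsMulLeftInvariant]
    (B : Subgroup Y) (hB : MeasurableSet (B : Set Y)) (q : Y → H) (hq : Measurable q)
    (hmul : ∀ x y, q (x * y) = q x * q y)
    (hsurj : ∀ h : H, ∃ b ∈ B, q b = h)
    (m : Measure H) [m.IsHaarMeasure]
    (E : Set H) (hE : MeasurableSet E) (hEint : (interior E).Nonempty)
    (hfin : lam ((B : Set Y) ∩ q ⁻¹' E) ≠ ∞) (hm0 : m E ≠ 0) (hmtop : m E ≠ ∞) :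
    (lam.restrict (B : Set Y)).map q = (lam ((B : Set Y) ∩ q ⁻¹' E) / m E) • m := by
  set nu := (lam.restrict (B : Set Y)).map q with hnu
  have hinv : nu.IsMulLeftInvariant := isMulLeftInvariant_map_restrict627 lam B hB q hq hmul hsurj
  have hnuE : nu E = lam ((B : Set Y) ∩ q ⁻¹' E) := by
    rw [hnu, Measure.map_apply hq hE, Measure.restrict_apply (hq hE), inter_comm]
  have hfinc : IsFiniteMeasureOnCompacts nu :=
    ⟨fun C hC => measure_lt_top_of_isCompact_of_isMulLeftInvariant (interior E) isOpen_interior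
      hEint (ne_top_of_le_ne_top (by rw [hnuE]; exact hfin) (measure_mono interior_subset)) hC⟩
  have h1 := Measure.isMulLeftInvariant_eq_smul nu m
  have h2 : nu E = (Measure.haarScalarFactor nu m : ℝ≥0∞) * m E := by
    conv_lhs => rw [h1]
    simp [Measure.smul_apply]
  have h3 : (Measure.haarScalarFactor nu m : ℝ≥0∞) = lam ((B : Set Y) ∩ q ⁻¹' E) / m E := by
    rw [← hnuE, h2, ENNReal.mul_div_cancel_right hm0 hmtop]
  rw [h1, ← h3]
  rfl

end PushMul

end Fermat.Agent.LT.T7.H627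

end
end
-- ===== PACK-END LT/T7/H627/HaarSplitAbs.lean

-- ===== PACK-BEGIN LT/T7/H878/LocConv.lean
section



/-!
# Row LT, tower T7, calculus of pure tensors: ASSET `LocConv` (Mathlib + `T6/Spec` only)

OFF-MAIN (helper878).  Complete proofs, nothing assumed.  ADDITIVE (new names only, suffix `878`).

THE CONVOLUTION BY FINITE SUMS (`T6.IsConv U`, the normalisation `vol U = 1`) IS THE
CONVOLUTION INTEGRAL (`T6.convInt μ`) for a left invariant measure `μ` with `μ(U) = 1`:

    isConv_eq_convInt878 : T6.IsConv U f g χ → χ a = T6.convInt μ f g a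

for an open subgroup `U` (given as a predicate closed under products and inverses), `f` right
invariant and `g` left invariant under `U`.  No finiteness of the support is asked: the finite
set of representatives of `T6.IsConv` covers the support of the integrand.
-/

set_option autoImplicit false

open MeasureTheory

noncomputable section

namespace Fermat.Agent.LT.T7.H878

open Fermat.Agent.LT

/-- **`T6.IsConv` is `T6.convInt`** (left invariant measure, `μ(U) = 1`). -/
theorem isConv_eq_convInt878 {H : Type} [Group H] [TopologicalSpace H] [IsTopologicalGroup H]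
    [MeasurableSpace H] [BorelSpace H] (μ : Measure H) [μ.IsMulLeftInvariant]
    (U : H → Prop) (hmul : ∀ a b : H, U a → U b → U (a * b)) (hinv : ∀ a : H, U a → U a⁻¹)
    (hopen : IsOpen {u : H | U u}) (hvol : μ {u : H | U u} = 1)
    (f g χ : H → ℂ) (hf : ∀ u x : H, U u → f (x * u) = f x)
    (hg : ∀ u x : H, U u → g (u * x) = g x)
    (hχ : T6.IsConv U f g χ) (a : H) : χ a = T6.convInt μ f g a := by
  classical
  obtain ⟨R, hR1, hR2, hR3⟩ := hχ a
  -- the integrand
  set I : H → ℂ := fun y => f y * g (y⁻¹ * a) with hIdef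
  have hI : ∀ y u : H, U u → I (y * u) = I y := by
    intro y u hu
    change f (y * u) * g ((y * u)⁻¹ * a) = f y * g (y⁻¹ * a)
    rw [hf u y hu, mul_inv_rev, mul_assoc, hg u⁻¹ (y⁻¹ * a) (hinv u hu)]
  -- the cosets
  set C : H → Set H := fun h => {y : H | U (h⁻¹ * y)} with hCdef
  have hCmeas : ∀ h : H, MeasurableSet (C h) := fun h =>
    (hopen.preimage (continuous_const.mul continuous_id)).measurableSet
  have hCvol : ∀ h : H, μ (C h) = 1 := by
    intro h
    have h1 : C h = (fun y : H => h⁻¹ * y) ⁻¹' {u : H | U u} := rfl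
    rw [h1, measure_preimage_mul, hvol]
  -- the integrand is the sum of its values on the cosets
  have hsum : ∀ y : H, I y = ∑ h ∈ R, (C h).indicator (fun _ => I h) y := by
    intro y
    by_cases hex : ∃ h ∈ R, U (h⁻¹ * y)
    · obtain ⟨h₀, hh₀, hu₀⟩ := hex
      have hy : I y = I h₀ := by
        have h1 : y = h₀ * (h₀⁻¹ * y) := by rw [mul_inv_cancel_left]
        rw [h1]
        exact hI h₀ _ hu₀
      rw [Finset.sum_eq_single h₀]
      · rw [Set.indicator_of_mem (show y ∈ C h₀ from hu₀), hy]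
      · intro h hh hne
        apply Set.indicator_of_notMem
        intro hyh
        apply hne
        have h2 : ∃ u : H, U u ∧ h₀ = h * u := by
          refine ⟨(h⁻¹ * y) * (h₀⁻¹ * y)⁻¹, hmul _ _ hyh (hinv _ hu₀), ?_⟩
          group
        exact hR1 h hh h₀ hh₀ h2
      · intro hh
        exact absurd hh₀ hh
    · have h0 : I y = 0 := by
        by_contra hne
        obtain ⟨h', hh', u, hu, hyu⟩ := hR2 y hne
        apply hex
        refine ⟨h', hh', ?_⟩
        rw [hyu, inv_mul_cancel_left]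
        exact hu
      rw [h0]
      symm
      apply Finset.sum_eq_zero
      intro h hh
      apply Set.indicator_of_notMem
      intro hyh
      exact hex ⟨h, hh, hyh⟩
  -- the integral
  have hint : ∀ h ∈ R, Integrable ((C h).indicator (fun _ : H => I h)) μ := by
    intro h _
    rw [integrable_indicator_iff (hCmeas h)]
    refine integrableOn_const ?_
    rw [hCvol h]
    exact ENNReal.one_ne_top
  change χ a = ∫ y, f y * g (y⁻¹ * a) ∂μ
  have h1 : (fun y : H => f y * g (y⁻¹ * a))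
      = fun y => ∑ h ∈ R, (C h).indicator (fun _ => I h) y := by
    funext y
    exact hsum y
  rw [h1, integral_finsetSum R hint, hR3]
  refine Finset.sum_congr rfl fun h _ => ?_
  rw [integral_indicator_const _ (hCmeas h)]
  have h2 : μ.real (C h) = 1 := by
    change (μ (C h)).toReal = 1
    rw [hCvol h]
    rfl
  rw [h2, one_smul]

end Fermat.Agent.LT.T7.H878

end

end
-- ===== PACK-END LT/T7/H878/LocConv.lean

-- ===== PACK-BEGIN LT/T6/H830/HypSpec.lean
section







/-!
# Row LT, tower T6, leaf T6.20d-X `HypExplC634` (hyperbolic matching, explicit constant): THE CUT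

OFF-MAIN (helper830, registry row 1634).  Definitions and `Prop`s only; nothing is assumed.
Frame (byte-identical copies): `T6/Spec.lean` v3, `T6/SpecArch.lean` (helper22),
`T6/H626/ArchCut.lean` (helper626), `T6/H189/ArchIntSpec.lean` (helper189),
`T6/H634/EllCut.lean` (helper634: `cStar634`, `boxR634`, `boxC634`, `HypExplC634`).
The top `hypExplC634_of_leaves830` is PROVED in `HypTop.lean`.

## The mathematics

`μ|_{det>0} = c_I (iwaR)_* (du₁ du₂ dx dθ)`, `μ' = c_I' (iwaC)_* (du₁ du₂ dw dκ)` (T6.23, closed).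
A regular `γ` with `disc γ > 0` is conjugate in `GL₂(ℝ)` to `γ₀ = diag(a, b)`, `a ≠ b`
(`HypDiagC`), and the matching at `γ` follows from the matching at `γ₀` (`ConjRedC`: left
translation of `μ`, `μ'`, transport of `μT`).  At `γ₀` the centraliser `T` is the group of all
diagonal matrices and `μT = lam · Σ_{signs} (torR s)_* (du₁ du₂)` (`TorusHaarC`).  A cut-off
function `β` (`∫_T β(t x) dμT = 1`) satisfies `Σ_s ∫ β(torR s u · x) du = 1 / lam`
(`IsCutR lam β`, `CutROfC`); same upstairs (`IsCutC`, `CutCOfC`).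

* REAL SIDE (`OrbRC`): for `f` continuous with compact support, invariant under the conjugation
  by `SO(2)`: `∫ f(x⁻¹ γ₀ x) β(x) dμ = (π c_I / lam) |1 - b/a|⁻¹ ∫_ℝ f(!![a, a x; 0, b]) dx`.
  [`μ = c_I ((iwaR)_* + (epsR · iwaR)_*)` (`IwaFullRC`); `x = η d n(x) k_θ` gives
  `x⁻¹ γ₀ x = k_θ⁻¹ γ₀ n((1 - b/a) x) k_θ`; the inner integral over `(u, θ)` of `β` is `π / lam`
  because `b₊(y) + b₊(-y) = 1 / lam` and `-n(x) k_θ = n(x) k_{θ+π}` (`QuadIntRC`).]
* COMPLEX SIDE (`TwOrbCC`): for `δ = diag(α, β₁)`, `|α|² = a`, `|β₁|² = b`, `φ` continuous with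
  compact support, bi-`U(2)`-invariant:
  `∫ φ(x⁻¹ δ x̄) β'(x) dμ' = (c_I' / (4 lam)) |1 - b/a|⁻¹ ∫_ℂ φ(!![√a, √a w; 0, √b]) dw`.
  [`x = d n(w) k` gives `x⁻¹ δ x̄ = k⁻¹ δ n(w̄ - (β₁/α) w) k̄`; the `ℝ`-linear map
  `w ↦ w̄ - c w` has determinant `|c|² - 1 = b/a - 1`; `w ↦ φ(δ n(w))` is even and invariant
  under rotations; the sign matrices lie in `U(2)`: `b'(w) + b'(-w) = 1 / (2 lam)`
  (`QuadIntCC`).]
* `N δ = δ δ̄ = γ₀` forces `δ` diagonal, `a = |α|²`, `b = |β₁|²` (`NormDiagC`); `γ₀` is a norm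
  if `a, b > 0` (`NormExC`).  `a b < 0`: `f` vanishes on the orbit.  `a, b < 0`:
  `f₀(-g) = f₀(g)`, `f₁(-g) = -f₁(g)` (`NegWtC`) and `F_{f₀} = F_{f₁}`.
* `μ(boxR634) = 2π c_I`, `μ'(boxC634) = π c_I'` (`BoxRC`, `BoxCC`), so
  `cStar634 μ μ' = c_I' / (8π c_I)` and `2 · cStar · π c_I = c_I' / 4`.
-/

set_option autoImplicit false

open scoped Matrix ENNReal
open MeasureTheory

noncomputable section

namespace Fermat.Agent.LT.T6.H830

open Fermat.Agent.LT.T6

/-! ## 1. Definitions -/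

/-- The sign `-1` (`true`) or `1` (`false`). -/
def sgS (s : Bool) : ℝ := if s then -1 else 1

theorem sgS_ne_zero830 (s : Bool) : sgS s ≠ 0 := by
  cases s <;> simp [sgS]

/-- `diag(± e^{u₁}, ± e^{u₂}) ∈ GL₂(ℝ)`: the four components of the diagonal torus. -/
def torR (s₁ s₂ : Bool) (u₁ u₂ : ℝ) : GL (Fin 2) ℝ :=
  Matrix.GeneralLinearGroup.mkOfDetNeZero
    !![sgS s₁ * Real.exp u₁, 0; 0, sgS s₂ * Real.exp u₂]
    (by
      rw [Matrix.det_fin_two_of, mul_zero, sub_zero]
      exact mul_ne_zero (mul_ne_zero (sgS_ne_zero830 _) (Real.exp_ne_zero _))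
        (mul_ne_zero (sgS_ne_zero830 _) (Real.exp_ne_zero _)))

/-- `diag(± e^{u₁}, ± e^{u₂}) ∈ GL₂(ℂ)` (the image of `torR`). -/
def torC (s₁ s₂ : Bool) (u₁ u₂ : ℝ) : GL (Fin 2) ℂ :=
  Matrix.GeneralLinearGroup.mkOfDetNeZero
    !![((sgS s₁ * Real.exp u₁ : ℝ) : ℂ), 0; 0, ((sgS s₂ * Real.exp u₂ : ℝ) : ℂ)]
    (by
      rw [Matrix.det_fin_two_of, mul_zero, sub_zero]
      exact mul_ne_zero
        (Complex.ofReal_ne_zero.2 (mul_ne_zero (sgS_ne_zero830 _) (Real.exp_ne_zero _)))
        (Complex.ofReal_ne_zero.2 (mul_ne_zero (sgS_ne_zero830 _) (Real.exp_ne_zero _))))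

theorem coe_torR830 (s₁ s₂ : Bool) (u₁ u₂ : ℝ) :
    ((torR s₁ s₂ u₁ u₂ : GL (Fin 2) ℝ) : Matrix (Fin 2) (Fin 2) ℝ)
      = !![sgS s₁ * Real.exp u₁, 0; 0, sgS s₂ * Real.exp u₂] := rfl

theorem coe_torC830 (s₁ s₂ : Bool) (u₁ u₂ : ℝ) :
    ((torC s₁ s₂ u₁ u₂ : GL (Fin 2) ℂ) : Matrix (Fin 2) (Fin 2) ℂ)
      = !![((sgS s₁ * Real.exp u₁ : ℝ) : ℂ), 0; 0, ((sgS s₂ * Real.exp u₂ : ℝ) : ℂ)] := rfl

/-- `Σ_{signs} ∫_{ℝ²} h(diag(± e^{u₁}, ± e^{u₂})) du₁ du₂` (lower integrals). -/
def torSumR (h : GL (Fin 2) ℝ → ℝ≥0∞) : ℝ≥0∞ :=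
  ∑ s : Bool × Bool, ∫⁻ u : ℝ × ℝ, h (torR s.1 s.2 u.1 u.2)

/-- The same sum on `GL₂(ℂ)`. -/
def torSumC (h : GL (Fin 2) ℂ → ℝ≥0∞) : ℝ≥0∞ :=
  ∑ s : Bool × Bool, ∫⁻ u : ℝ × ℝ, h (torC s.1 s.2 u.1 u.2)

/-- `β` is a cut-off function on `GL₂(ℝ)` for the measure `lam · Σ_s (torR s)_* du` of the
diagonal torus: `Σ_s ∫ β(torR s u · x) du = 1 / lam` for all `x`. -/
def IsCutR (lam : ℝ) (β : GL (Fin 2) ℝ → ℝ) : Prop :=
  ∀ x : GL (Fin 2) ℝ,
    torSumR (fun t => ENNReal.ofReal (β (t * x))) = ENNReal.ofReal (1 / lam)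

/-- `β'` is a cut-off function on `GL₂(ℂ)` for the measure `lam · Σ_s (torR s)_* du` of the
diagonal torus of `GL₂(ℝ)`. -/
def IsCutC (lam : ℝ) (β' : GL (Fin 2) ℂ → ℝ) : Prop :=
  ∀ x : GL (Fin 2) ℂ,
    torSumC (fun t => ENNReal.ofReal (β' (t * x))) = ENNReal.ofReal (1 / lam)

/-- `lam` is the constant of the Haar measure `μT` of the centraliser of `γ₀` (diagonal,
regular): `∫_T h dμT = lam · Σ_s ∫ h(torR s u) du` for all Borel functions `h ≥ 0`. -/
def IsTorConst (γ₀ : GL (Fin 2) ℝ)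
    (μT : @Measure (twCentSub (MonoidHom.id (GL (Fin 2) ℝ)) γ₀) (borel _)) (lam : ℝ) : Prop :=
  ∀ h : GL (Fin 2) ℝ → ℝ≥0∞, @Measurable _ _ (borel _) _ h →
    @lintegral _ (borel _) μT
        (fun t : twCentSub (MonoidHom.id (GL (Fin 2) ℝ)) γ₀ => h (t : GL (Fin 2) ℝ))
      = ENNReal.ofReal lam * torSumR h

/-- The geometric matching of `SpecArch.IsArchMatch` at ONE element `γ`. -/
def IsMatchAt (μ : @Measure (GL (Fin 2) ℝ) (borel _)) (μ' : @Measure (GL (Fin 2) ℂ) (borel _))
    (φ : GL (Fin 2) ℂ → ℂ) (f : GL (Fin 2) ℝ → ℂ) (γ : GL (Fin 2) ℝ) : Prop :=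
  ∀ μT : @Measure (twCentSub (MonoidHom.id (GL (Fin 2) ℝ)) γ) (borel _),
    @Measure.IsHaarMeasure _ _ _ (borel _) μT →
  ∀ β : GL (Fin 2) ℝ → ℝ, Continuous β → (∀ x, 0 ≤ β x) →
    (∀ x : GL (Fin 2) ℝ,
      @integral _ _ _ _ (borel _) μT
        (fun t : twCentSub (MonoidHom.id (GL (Fin 2) ℝ)) γ =>
          β ((t : GL (Fin 2) ℝ) * x)) = 1) →
    (∀ δ : GL (Fin 2) ℂ,
      twNorm (starRingAut : ℂ ≃+* ℂ) 2 δ
        = Matrix.GeneralLinearGroup.map (algebraMap ℝ ℂ) γ →
      ∀ β' : GL (Fin 2) ℂ → ℝ, Continuous β' → (∀ x, 0 ≤ β' x) →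
        (∀ x : GL (Fin 2) ℂ,
          @integral _ _ _ _ (borel _) μT
            (fun t : twCentSub (MonoidHom.id (GL (Fin 2) ℝ)) γ =>
              β' (Matrix.GeneralLinearGroup.map (algebraMap ℝ ℂ) (t : GL (Fin 2) ℝ) * x))
            = 1) →
        @integral _ _ _ _ (borel _) μ
            (fun x : GL (Fin 2) ℝ => f (x⁻¹ * γ * x) * (β x : ℂ))
          = @integral _ _ _ _ (borel _) μ'
            (fun x : GL (Fin 2) ℂ =>
              φ (x⁻¹ * δ * glAut (starRingAut : ℂ ≃+* ℂ) x) * (β' x : ℂ))) ∧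
    (¬ IsNormFrom 2 (algebraMap ℝ ℂ) (starRingAut : ℂ ≃+* ℂ) γ →
      @integral _ _ _ _ (borel _) μ
        (fun x : GL (Fin 2) ℝ => f (x⁻¹ * γ * x) * (β x : ℂ)) = 0)

/-- `IsArchMatchOn626` is the matching at every regular `γ` with `P`. -/
theorem isArchMatchOn_iff830 (P : GL (Fin 2) ℝ → Prop)
    (μ : @Measure (GL (Fin 2) ℝ) (borel _)) (μ' : @Measure (GL (Fin 2) ℂ) (borel _))
    (φ : GL (Fin 2) ℂ → ℂ) (f : GL (Fin 2) ℝ → ℂ) :
    H626.IsArchMatchOn626 P μ μ' φ f ↔ ∀ γ : GL (Fin 2) ℝ, IsReg γ → P γ → IsMatchAt μ μ' φ f γ :=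
  Iff.rfl

/-! ## 2. Linear algebra -/

/-- **T6.20d.01 HYP-DIAG** (Mathlib only): a real `2 × 2` matrix with positive discriminant is
conjugate in `GL₂(ℝ)` to a diagonal matrix with distinct entries. -/
def HypDiagC : Prop :=
  ∀ γ : GL (Fin 2) ℝ, 0 < disc γ →
    ∃ (g γ₀ : GL (Fin 2) ℝ) (a b : ℝ), a ≠ b ∧
      (γ₀ : Matrix (Fin 2) (Fin 2) ℝ) = !![a, 0; 0, b] ∧ γ = g * γ₀ * g⁻¹

/-- **T6.20d.02 NORM-DIAG** (Mathlib only): if `δ δ̄ = diag(a, b)` with `a ≠ b` real, then `δ` is
diagonal, `δ = diag(α, β₁)`, and `a = |α|²`, `b = |β₁|²`.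
(`δ̄ δ = conj(δ δ̄) = δ δ̄`, so `δ` commutes with `diag(a, b)`.) -/
def NormDiagC : Prop :=
  ∀ a b : ℝ, a ≠ b → ∀ γ₀ : GL (Fin 2) ℝ,
    (γ₀ : Matrix (Fin 2) (Fin 2) ℝ) = !![a, 0; 0, b] →
    ∀ δ : GL (Fin 2) ℂ,
      twNorm (starRingAut : ℂ ≃+* ℂ) 2 δ = Matrix.GeneralLinearGroup.map (algebraMap ℝ ℂ) γ₀ →
      ∃ α β₁ : ℂ, (δ : Matrix (Fin 2) (Fin 2) ℂ) = !![α, 0; 0, β₁] ∧
        ‖α‖ ^ 2 = a ∧ ‖β₁‖ ^ 2 = b

/-- **T6.20d.03 NORM-EX** (Mathlib only): `diag(a, b)` with `a, b > 0` is a norm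
(`δ = diag(√a, √b)`). -/
def NormExC : Prop :=
  ∀ a b : ℝ, 0 < a → 0 < b → ∀ γ₀ : GL (Fin 2) ℝ,
    (γ₀ : Matrix (Fin 2) (Fin 2) ℝ) = !![a, 0; 0, b] →
    IsNormFrom 2 (algebraMap ℝ ℂ) (starRingAut : ℂ ≃+* ℂ) γ₀

/-- **T6.20d.04 CONJ-INV**: a test function of weight `n` is invariant under the conjugation by
`SO(2)` (`wtChar n k⁻¹ · wtChar n k = 1`). -/
def ConjInvC : Prop :=
  ∀ (n : ℤ) (f : GL (Fin 2) ℝ → ℂ), IsArchTestR n f →
    ∀ k g : GL (Fin 2) ℝ, InSO2 k → f (k⁻¹ * g * k) = f g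

/-- **T6.20d.05 NEG-WT**: `f(-g) = (-1)^n f(g)` for a test function of weight `n`
(`-1 = k_π ∈ SO(2)`, `wtChar n (-1) = (-1)^n`). -/
def NegWtC : Prop :=
  ∀ (n : ℤ) (f : GL (Fin 2) ℝ → ℂ), IsArchTestR n f →
    ∀ g g' : GL (Fin 2) ℝ,
      (g' : Matrix (Fin 2) (Fin 2) ℝ) = -(g : Matrix (Fin 2) (Fin 2) ℝ) →
      f g' = (-1 : ℂ) ^ n * f g

/-! ## 3. Reduction to the diagonal elements -/

/-- **T6.20d.06 CONJ-RED** (formal): the matching at `γ` implies the matching at `g γ g⁻¹`
(`x ↦ g x` on both groups, left invariance of `μ`, `μ'`; `μT` is transported by `t ↦ g⁻¹ t g`;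
`β ↦ β(g ·)`, `β' ↦ β'(g ·)`, `δ ↦ g⁻¹ δ g`; `IsNormFrom` is invariant under conjugation).
No hypothesis on `φ`, `f`. -/
def ConjRedC : Prop :=
  ∀ (μ : @Measure (GL (Fin 2) ℝ) (borel _)) (μ' : @Measure (GL (Fin 2) ℂ) (borel _)),
    @Measure.IsHaarMeasure _ _ _ (borel _) μ → @Measure.IsHaarMeasure _ _ _ (borel _) μ' →
    ∀ (φ : GL (Fin 2) ℂ → ℂ) (f : GL (Fin 2) ℝ → ℂ) (γ g : GL (Fin 2) ℝ),
      IsMatchAt μ μ' φ f γ → IsMatchAt μ μ' φ f (g * γ * g⁻¹)

/-! ## 4. The torus -/

/-- **T6.20d.07 TORUS-HAAR**: a Haar measure of the centraliser of `diag(a, b)`, `a ≠ b`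
(= all diagonal matrices) is `lam · Σ_s (torR s)_* (du₁ du₂)`, `lam > 0`.
(Uniqueness of the Haar measure; `(s, u) ↦ torR s u` is an isomorphism of topological groups
`{±1}² × ℝ² → T`.) -/
def TorusHaarC : Prop :=
  ∀ a b : ℝ, a ≠ b → ∀ γ₀ : GL (Fin 2) ℝ,
    (γ₀ : Matrix (Fin 2) (Fin 2) ℝ) = !![a, 0; 0, b] →
    ∀ μT : @Measure (twCentSub (MonoidHom.id (GL (Fin 2) ℝ)) γ₀) (borel _),
      @Measure.IsHaarMeasure _ _ _ (borel _) μT →
      ∃ lam : ℝ, 0 < lam ∧ IsTorConst γ₀ μT lam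

/-- **T6.20d.08 CUT-R-OF**: a cut-off function for `μT` is a cut-off function in the sense of
`IsCutR` (`h = ofReal (β (· * x))`; `β(· x)` is integrable because its integral is `1`). -/
def CutROfC : Prop :=
  ∀ (γ₀ : GL (Fin 2) ℝ)
    (μT : @Measure (twCentSub (MonoidHom.id (GL (Fin 2) ℝ)) γ₀) (borel _)) (lam : ℝ),
    0 < lam → IsTorConst γ₀ μT lam →
    ∀ β : GL (Fin 2) ℝ → ℝ, Continuous β → (∀ x, 0 ≤ β x) →
      (∀ x : GL (Fin 2) ℝ,
        @integral _ _ _ _ (borel _) μT
          (fun t : twCentSub (MonoidHom.id (GL (Fin 2) ℝ)) γ₀ =>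
            β ((t : GL (Fin 2) ℝ) * x)) = 1) →
      IsCutR lam β

/-- **T6.20d.09 CUT-C-OF**: the same upstairs (`h = ofReal (β' (map · * x))`,
`map (torR s u) = torC s u`). -/
def CutCOfC : Prop :=
  ∀ (γ₀ : GL (Fin 2) ℝ)
    (μT : @Measure (twCentSub (MonoidHom.id (GL (Fin 2) ℝ)) γ₀) (borel _)) (lam : ℝ),
    0 < lam → IsTorConst γ₀ μT lam →
    ∀ β' : GL (Fin 2) ℂ → ℝ, Continuous β' → (∀ x, 0 ≤ β' x) →
      (∀ x : GL (Fin 2) ℂ,
        @integral _ _ _ _ (borel _) μT
          (fun t : twCentSub (MonoidHom.id (GL (Fin 2) ℝ)) γ₀ =>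
            β' (Matrix.GeneralLinearGroup.map (algebraMap ℝ ℂ) (t : GL (Fin 2) ℝ) * x))
          = 1) →
      IsCutC lam β'

/-! ## 5. The real side -/

/-- **T6.20d.10 IWA-FULL-R**: the Iwasawa formula on both components of `GL₂(ℝ)`
(`μ|_{det<0}` is the image of `μ|_{det>0}` under `g ↦ epsR * g`). -/
def IwaFullRC : Prop :=
  ∀ μ : @Measure (GL (Fin 2) ℝ) (borel _), @Measure.IsHaarMeasure _ _ _ (borel _) μ →
    ∀ c : ℝ≥0∞,
      @Measure.restrict _ (borel _) μ H189.posR
        = c • @Measure.map _ _ _ (borel _) H189.iwaR H189.iwaMR →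
      μ = c • (@Measure.map _ _ _ (borel _) H189.iwaR H189.iwaMR
        + @Measure.map _ _ _ (borel _) (fun p => H189.epsR * H189.iwaR p) H189.iwaMR)

/-- **T6.20d.11 QUAD-INT-R** (Mathlib + the definitions; Tonelli): for a cut-off function `β`
and `g` continuous with compact support on `ℝ`,
`∫ g(x) [β(d n(x) k_θ) + β(epsR d n(x) k_θ)] du₁ du₂ dx dθ = (π / lam) ∫ g(x) dx`. -/
def QuadIntRC : Prop :=
  ∀ lam : ℝ, 0 < lam → ∀ β : GL (Fin 2) ℝ → ℝ, Continuous β → (∀ x, 0 ≤ β x) →
    IsCutR lam β →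
    ∀ g : ℝ → ℂ, Continuous g → HasCompactSupport g →
      Integrable (fun p : ℝ × ℝ × ℝ × ℝ => g p.2.2.1 * ((β (H189.iwaR p) : ℝ) : ℂ))
          H189.iwaMR ∧
        Integrable (fun p : ℝ × ℝ × ℝ × ℝ =>
          g p.2.2.1 * ((β (H189.epsR * H189.iwaR p) : ℝ) : ℂ)) H189.iwaMR ∧
        (∫ p : ℝ × ℝ × ℝ × ℝ, g p.2.2.1 * ((β (H189.iwaR p) : ℝ) : ℂ) ∂H189.iwaMR)
            + (∫ p : ℝ × ℝ × ℝ × ℝ,
                g p.2.2.1 * ((β (H189.epsR * H189.iwaR p) : ℝ) : ℂ) ∂H189.iwaMR)
          = ((Real.pi / lam : ℝ) : ℂ) * ∫ x : ℝ, g x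

/-- **T6.20d.12 ORB-R**: the hyperbolic orbital integral at `γ₀ = diag(a, b)`:
`∫ f(x⁻¹ γ₀ x) β(x) dμ = (π c / lam) |1 - b/a|⁻¹ ∫_ℝ f(!![a, a x; 0, b]) dx`. -/
def OrbRC : Prop :=
  QuadIntRC →
  ∀ μ : @Measure (GL (Fin 2) ℝ) (borel _), @Measure.IsHaarMeasure _ _ _ (borel _) μ →
    ∀ c : ℝ≥0∞, c ≠ ⊤ →
      μ = c • (@Measure.map _ _ _ (borel _) H189.iwaR H189.iwaMR
        + @Measure.map _ _ _ (borel _) (fun p => H189.epsR * H189.iwaR p) H189.iwaMR) →
    ∀ lam : ℝ, 0 < lam → ∀ β : GL (Fin 2) ℝ → ℝ, Continuous β → (∀ x, 0 ≤ β x) →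
      IsCutR lam β →
    ∀ a b : ℝ, a ≠ b → ∀ γ₀ : GL (Fin 2) ℝ,
      (γ₀ : Matrix (Fin 2) (Fin 2) ℝ) = !![a, 0; 0, b] →
    ∀ f : GL (Fin 2) ℝ → ℂ, Continuous f → HasCompactSupport f →
      (∀ k g : GL (Fin 2) ℝ, InSO2 k → f (k⁻¹ * g * k) = f g) →
    ∀ nn : ℝ → GL (Fin 2) ℝ,
      (∀ x : ℝ, ((nn x : GL (Fin 2) ℝ) : Matrix (Fin 2) (Fin 2) ℝ) = !![a, a * x; 0, b]) →
      Integrable (fun x : ℝ => f (nn x)) ∧
        @integral _ _ _ _ (borel _) μ
            (fun x : GL (Fin 2) ℝ => f (x⁻¹ * γ₀ * x) * (β x : ℂ))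
          = ((Real.pi * c.toReal / lam * |1 - b / a|⁻¹ : ℝ) : ℂ) * ∫ x : ℝ, f (nn x)

/-! ## 6. The complex side -/

/-- **T6.20d.13 QUAD-INT-C** (Tonelli; the sign matrices lie in `U(2)`): for a cut-off function
`β'` and `g` continuous with compact support on `ℂ`, EVEN:
`∫ g(w) β'(d n(w) k) du₁ du₂ dw dκ = (1 / (4 lam)) ∫ g(w) dw`. -/
def QuadIntCC : Prop :=
  ∀ κ : @Measure (GL (Fin 2) ℂ) (borel _), H189.IsU2Haar κ →
  ∀ lam : ℝ, 0 < lam → ∀ β' : GL (Fin 2) ℂ → ℝ, Continuous β' → (∀ x, 0 ≤ β' x) →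
    IsCutC lam β' →
    ∀ g : ℂ → ℂ, Continuous g → HasCompactSupport g → (∀ w : ℂ, g (-w) = g w) →
      @Integrable _ _ _ _
          (@Prod.instMeasurableSpace _ _ _ (@Prod.instMeasurableSpace _ _ _
            (@Prod.instMeasurableSpace _ _ _ (borel _))))
          (fun p : ℝ × ℝ × ℂ × GL (Fin 2) ℂ => g p.2.2.1 * ((β' (H189.iwaC p) : ℝ) : ℂ))
          (H189.iwaMC κ) ∧
        @integral _ _ _ _
            (@Prod.instMeasurableSpace _ _ _ (@Prod.instMeasurableSpace _ _ _
              (@Prod.instMeasurableSpace _ _ _ (borel _))))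
            (H189.iwaMC κ)
            (fun p : ℝ × ℝ × ℂ × GL (Fin 2) ℂ => g p.2.2.1 * ((β' (H189.iwaC p) : ℝ) : ℂ))
          = ((1 / (4 * lam) : ℝ) : ℂ) * ∫ w : ℂ, g w

/-- **T6.20d.14 TW-ORB-C**: the twisted orbital integral at `δ = diag(α, β₁)`, `|α|² = a`,
`|β₁|² = b`, `a ≠ b`:
`∫ φ(x⁻¹ δ x̄) β'(x) dμ' = (c' / (4 lam)) |1 - b/a|⁻¹ ∫_ℂ φ(!![√a, √a w; 0, √b]) dw`. -/
def TwOrbCC : Prop :=
  QuadIntCC →
  ∀ κ : @Measure (GL (Fin 2) ℂ) (borel _), H189.IsU2Haar κ →
  ∀ μ' : @Measure (GL (Fin 2) ℂ) (borel _), @Measure.IsHaarMeasure _ _ _ (borel _) μ' →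
    ∀ c' : ℝ≥0∞, c' ≠ ⊤ →
      μ' = c' • @Measure.map _ _
        (@Prod.instMeasurableSpace _ _ _ (@Prod.instMeasurableSpace _ _ _
          (@Prod.instMeasurableSpace _ _ _ (borel _)))) (borel _) H189.iwaC (H189.iwaMC κ) →
    ∀ lam : ℝ, 0 < lam → ∀ β' : GL (Fin 2) ℂ → ℝ, Continuous β' → (∀ x, 0 ≤ β' x) →
      IsCutC lam β' →
    ∀ a b : ℝ, 0 < a → 0 < b → a ≠ b → ∀ (δ : GL (Fin 2) ℂ) (α β₁ : ℂ),
      (δ : Matrix (Fin 2) (Fin 2) ℂ) = !![α, 0; 0, β₁] → ‖α‖ ^ 2 = a → ‖β₁‖ ^ 2 = b →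
    ∀ φ : GL (Fin 2) ℂ → ℂ, Continuous φ → HasCompactSupport φ →
      (∀ k g : GL (Fin 2) ℂ, InU2 k → φ (k * g) = φ g) →
      (∀ k g : GL (Fin 2) ℂ, InU2 k → φ (g * k) = φ g) →
    ∀ nn' : ℂ → GL (Fin 2) ℂ,
      (∀ w : ℂ, ((nn' w : GL (Fin 2) ℂ) : Matrix (Fin 2) (Fin 2) ℂ)
        = !![((Real.sqrt a : ℝ) : ℂ), ((Real.sqrt a : ℝ) : ℂ) * w; 0, ((Real.sqrt b : ℝ) : ℂ)]) →
      @integral _ _ _ _ (borel _) μ'
          (fun x : GL (Fin 2) ℂ =>
            φ (x⁻¹ * δ * glAut (starRingAut : ℂ ≃+* ℂ) x) * (β' x : ℂ))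
        = ((c'.toReal / (4 * lam) * |1 - b / a|⁻¹ : ℝ) : ℂ) * ∫ w : ℂ, φ (nn' w)

/-! ## 7. The boxes -/

/-- **T6.20d.15 BOX-R**: `μ (boxR634) = 2π c` (`iwaR` is injective on
`ℝ × ℝ × ℝ × (0, 2π]`; `boxR634` is compact: `rotR 0 = rotR (2π)`). -/
def BoxRC : Prop :=
  ∀ μ : @Measure (GL (Fin 2) ℝ) (borel _), @Measure.IsHaarMeasure _ _ _ (borel _) μ →
    ∀ c : ℝ≥0∞,
      @Measure.restrict _ (borel _) μ H189.posR
        = c • @Measure.map _ _ _ (borel _) H189.iwaR H189.iwaMR →
      μ H634.boxR634 = c * ENNReal.ofReal (2 * Real.pi)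

/-- **T6.20d.16 BOX-C**: `μ' (boxC634) = π c'` (`iwaC` is injective on `ℝ × ℝ × ℂ × U(2)`,
`κ (U2) = 1`, the unit disc has area `π`). -/
def BoxCC : Prop :=
  ∀ κ : @Measure (GL (Fin 2) ℂ) (borel _), H189.IsU2Haar κ →
  ∀ μ' : @Measure (GL (Fin 2) ℂ) (borel _), @Measure.IsHaarMeasure _ _ _ (borel _) μ' →
    ∀ c' : ℝ≥0∞,
      μ' = c' • @Measure.map _ _
        (@Prod.instMeasurableSpace _ _ _ (@Prod.instMeasurableSpace _ _ _
          (@Prod.instMeasurableSpace _ _ _ (borel _)))) (borel _) H189.iwaC (H189.iwaMC κ) →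
      μ' H634.boxC634 = c' * ENNReal.ofReal Real.pi

end Fermat.Agent.LT.T6.H830

end

end
-- ===== PACK-END LT/T6/H830/HypSpec.lean

-- ===== PACK-BEGIN LT/T6/H372/HcZReg.lean
section


/-!
# Row LT, tower T6, leaf T6.21.2 `HcZRegC` (helper372)

OFF-MAIN.  Leaf `HcZRegC` of the cut `LT/T6/H830/InjSpec.lean` (helper830, bytes frozen, imported
verbatim): for a test function `f` on `GL₂(ℝ)` the function
`hcZ f r = ∫_ζ ∫_x f (bR ζ r x)` is continuous with compact support.

* `(ζ, r, x) ↦ bR ζ r x` is continuous into `GL₂(ℝ)` (units topology).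
* On the compact support of `f` the functions `det g`, `det g⁻¹`, `g 0 0`, `g 1 1`, `g 0 1` are
  bounded; at `g = bR ζ r x` they are `e^ζ`, `e^{-ζ}`, `e^{(ζ+r)/2}`, `e^{(ζ-r)/2}`,
  `e^{(ζ+r)/2} x`: so `|ζ|, |r|, |x| ≤ B` whenever `f (bR ζ r x) ≠ 0`.
* Both integrals are integrals over `[-B, B]`; continuity of parametric integrals over a compact
  set (`continuous_parametric_integral_of_continuous`), twice.
-/

set_option autoImplicit false

open scoped Matrix
open MeasureTheory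

noncomputable section

namespace Fermat.Agent.LT.T6.H372

open Fermat.Agent.LT.T6 Fermat.Agent.LT.T6.H830

/-- A map into `GL₂(ℝ)` is continuous if its matrix is. -/
theorem continuous_toGLR372 {X : Type*} [TopologicalSpace X] (f : X → GL (Fin 2) ℝ)
    (hf : Continuous fun x => (f x : Matrix (Fin 2) (Fin 2) ℝ)) : Continuous f := by
  rw [Units.continuous_iff]
  refine ⟨hf, ?_⟩
  have hdet : ∀ x, (f x : Matrix (Fin 2) (Fin 2) ℝ).det ≠ 0 := fun x =>
    ((Matrix.isUnit_iff_isUnit_det _).1 (f x).isUnit).ne_zero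
  have h : (fun x => (((f x)⁻¹ : GL (Fin 2) ℝ) : Matrix (Fin 2) (Fin 2) ℝ))
      = fun x => ((f x : Matrix (Fin 2) (Fin 2) ℝ).det)⁻¹ •
          (f x : Matrix (Fin 2) (Fin 2) ℝ).adjugate := by
    funext x
    rw [Matrix.coe_units_inv, Matrix.inv_def, Ring.inverse_eq_inv']
  rw [h]
  exact (hf.matrix_det.inv₀ hdet).smul hf.matrix_adjugate

/-- `(ζ, r, x) ↦ bR ζ r x` is continuous. -/
theorem continuous_bR372 : Continuous fun p : ℝ × ℝ × ℝ => bR p.1 p.2.1 p.2.2 := by
  apply continuous_toGLR372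
  simp only [coe_bR830]
  refine continuous_matrix fun i j => ?_
  fin_cases i <;> fin_cases j <;> simp <;> fun_prop

theorem det_bR372 (ζ r x : ℝ) :
    ((bR ζ r x : GL (Fin 2) ℝ) : Matrix (Fin 2) (Fin 2) ℝ).det = Real.exp ζ := by
  rw [coe_bR830, Matrix.det_fin_two_of, mul_zero, sub_zero, ← Real.exp_add]
  congr 1
  ring

/-- The coordinates `(ζ, r, x)` are bounded on the support of a compactly supported function. -/
theorem bR_bounds372 {f : GL (Fin 2) ℝ → ℂ} (hc : HasCompactSupport f) :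
    ∃ B : ℝ, ∀ ζ r x : ℝ, f (bR ζ r x) ≠ 0 → |ζ| ≤ B ∧ |r| ≤ B ∧ |x| ≤ B := by
  have hval : Continuous fun g : GL (Fin 2) ℝ => (g : Matrix (Fin 2) (Fin 2) ℝ) :=
    Units.continuous_val
  have hinv : Continuous fun g : GL (Fin 2) ℝ =>
      ((g⁻¹ : GL (Fin 2) ℝ) : Matrix (Fin 2) (Fin 2) ℝ) :=
    Units.continuous_val.comp continuous_inv
  obtain ⟨C1, h1⟩ := hc.isCompact.exists_bound_of_continuousOn
    (f := fun g : GL (Fin 2) ℝ => (g : Matrix (Fin 2) (Fin 2) ℝ).det)
    hval.matrix_det.continuousOn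
  obtain ⟨C2, h2⟩ := hc.isCompact.exists_bound_of_continuousOn
    (f := fun g : GL (Fin 2) ℝ => ((g⁻¹ : GL (Fin 2) ℝ) : Matrix (Fin 2) (Fin 2) ℝ).det)
    hinv.matrix_det.continuousOn
  obtain ⟨C3, h3⟩ := hc.isCompact.exists_bound_of_continuousOn
    (f := fun g : GL (Fin 2) ℝ => (g : Matrix (Fin 2) (Fin 2) ℝ) 0 0)
    (hval.matrix_elem 0 0).continuousOn
  obtain ⟨C4, h4⟩ := hc.isCompact.exists_bound_of_continuousOn
    (f := fun g : GL (Fin 2) ℝ => (g : Matrix (Fin 2) (Fin 2) ℝ) 1 1)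
    (hval.matrix_elem 1 1).continuousOn
  obtain ⟨C5, h5⟩ := hc.isCompact.exists_bound_of_continuousOn
    (f := fun g : GL (Fin 2) ℝ => (g : Matrix (Fin 2) (Fin 2) ℝ) 0 1)
    (hval.matrix_elem 0 1).continuousOn
  set C : ℝ := max 1 (max C1 (max C2 (max C3 (max C4 C5)))) with hC
  have hC1 : 1 ≤ C := le_max_left _ _
  have hCpos : 0 < C := lt_of_lt_of_le one_pos hC1
  have hlog : 0 ≤ Real.log C := Real.log_nonneg hC1
  have hle1 : C1 ≤ C := le_trans (le_max_left _ _) (le_max_right _ _)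
  have hle2 : C2 ≤ C :=
    le_trans (le_trans (le_max_left _ _) (le_max_right _ _)) (le_max_right _ _)
  have hle3 : C3 ≤ C :=
    le_trans (le_trans (le_trans (le_max_left _ _) (le_max_right _ _)) (le_max_right _ _))
      (le_max_right _ _)
  have hle4 : C4 ≤ C :=
    le_trans (le_trans (le_trans (le_trans (le_max_left _ _) (le_max_right _ _))
      (le_max_right _ _)) (le_max_right _ _)) (le_max_right _ _)
  have hle5 : C5 ≤ C :=
    le_trans (le_trans (le_trans (le_trans (le_max_right _ _) (le_max_right _ _))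
      (le_max_right _ _)) (le_max_right _ _)) (le_max_right _ _)
  refine ⟨3 * Real.log C + C ^ 3, fun ζ r x hne => ?_⟩
  have hmem : bR ζ r x ∈ tsupport f := subset_tsupport f hne
  -- the five bounds
  have b1 : Real.exp ζ ≤ C := by
    have h := h1 _ hmem
    simp only [det_bR372, Real.norm_eq_abs, abs_of_pos (Real.exp_pos ζ)] at h
    exact h.trans hle1
  have b2 : Real.exp (-ζ) ≤ C := by
    have h := h2 _ hmem
    simp only [Matrix.coe_units_inv, Matrix.det_nonsing_inv, det_bR372, Ring.inverse_eq_inv',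
      Real.norm_eq_abs, ← Real.exp_neg, abs_of_pos (Real.exp_pos (-ζ))] at h
    exact h.trans hle2
  have b3 : Real.exp ((ζ + r) / 2) ≤ C := by
    have h := h3 _ hmem
    simp only [coe_bR830, Matrix.of_apply, Matrix.cons_val', Matrix.cons_val_zero,
      Real.norm_eq_abs, abs_of_pos (Real.exp_pos _)] at h
    exact h.trans hle3
  have b4 : Real.exp ((ζ - r) / 2) ≤ C := by
    have h := h4 _ hmem
    simp only [coe_bR830, Matrix.of_apply, Matrix.cons_val', Matrix.cons_val_one,
      Matrix.cons_val_fin_one, Real.norm_eq_abs, abs_of_pos (Real.exp_pos _)] at h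
    exact h.trans hle4
  have b5 : Real.exp ((ζ + r) / 2) * |x| ≤ C := by
    have h := h5 _ hmem
    simp only [coe_bR830, Matrix.of_apply, Matrix.cons_val', Matrix.cons_val_zero,
      Matrix.cons_val_one, Real.norm_eq_abs, abs_mul, abs_of_pos (Real.exp_pos _)] at h
    exact h.trans hle5
  have l1 : ζ ≤ Real.log C := (Real.le_log_iff_exp_le hCpos).mpr b1
  have l2 : -ζ ≤ Real.log C := (Real.le_log_iff_exp_le hCpos).mpr b2
  have l3 : (ζ + r) / 2 ≤ Real.log C := (Real.le_log_iff_exp_le hCpos).mpr b3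
  have l4 : (ζ - r) / 2 ≤ Real.log C := (Real.le_log_iff_exp_le hCpos).mpr b4
  have hC3 : 0 ≤ C ^ 3 := by positivity
  refine ⟨abs_le.mpr ⟨by linarith, by linarith⟩, abs_le.mpr ⟨by linarith, by linarith⟩, ?_⟩
  -- `|x| = e^{-ζ} e^{(ζ-r)/2} (e^{(ζ+r)/2} |x|) ≤ C³`
  have hx : |x| = Real.exp (-ζ) * Real.exp ((ζ - r) / 2) * (Real.exp ((ζ + r) / 2) * |x|) := by
    rw [← mul_assoc, ← Real.exp_add, ← Real.exp_add]
    have : -ζ + (ζ - r) / 2 + (ζ + r) / 2 = 0 := by ring
    rw [this, Real.exp_zero, one_mul]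
  have hx2 : |x| ≤ C ^ 3 := by
    rw [hx]
    calc Real.exp (-ζ) * Real.exp ((ζ - r) / 2) * (Real.exp ((ζ + r) / 2) * |x|)
        ≤ C * C * C := by
          apply mul_le_mul (mul_le_mul b2 b4 (Real.exp_pos _).le hCpos.le) b5
            (mul_nonneg (Real.exp_pos _).le (abs_nonneg _)) (mul_nonneg hCpos.le hCpos.le)
      _ = C ^ 3 := by ring
  linarith

/-- **Leaf T6.21.2 HCZ-REG**: `hcZ f` is continuous with compact support. -/
theorem hcZRegC372 : HcZRegC := by
  intro n _ f hf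
  obtain ⟨B, hB⟩ := bR_bounds372 hf.supp
  -- the inner integral is an integral over `[-B, B]`
  have hin : ∀ ζ r : ℝ, hcR f ζ r = ∫ x in Set.Icc (-B) B, f (bR ζ r x) := by
    intro ζ r
    unfold hcR
    symm
    apply setIntegral_eq_integral_of_forall_compl_eq_zero
    intro x hx
    by_contra h
    exact hx (abs_le.mp (hB ζ r x h).2.2)
  have hcont1 : Continuous (fun p : ℝ × ℝ => hcR f p.1 p.2) := by
    have h : (fun p : ℝ × ℝ => hcR f p.1 p.2)
        = fun p : ℝ × ℝ => ∫ x in Set.Icc (-B) B, f (bR p.1 p.2 x) :=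
      funext fun p => hin p.1 p.2
    rw [h]
    refine continuous_parametric_integral_of_continuous
      (f := fun (p : ℝ × ℝ) (x : ℝ) => f (bR p.1 p.2 x)) ?_ isCompact_Icc
    have h2 : Continuous fun q : (ℝ × ℝ) × ℝ => ((q.1.1, q.1.2, q.2) : ℝ × ℝ × ℝ) := by fun_prop
    exact hf.cont.comp (continuous_bR372.comp h2)
  -- the vanishing of the inner integral
  have hzero : ∀ ζ r : ℝ, (B < |ζ| ∨ B < |r|) → hcR f ζ r = 0 := by
    intro ζ r h
    unfold hcR
    have h0 : (fun x : ℝ => f (bR ζ r x)) = fun _ => 0 := by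
      funext x
      by_contra hne
      obtain ⟨h1, h2, -⟩ := hB ζ r x hne
      rcases h with h | h
      · exact absurd h1 (not_le.mpr h)
      · exact absurd h2 (not_le.mpr h)
    rw [h0, integral_zero]
  have hout : ∀ r : ℝ, hcZ f r = ∫ ζ in Set.Icc (-B) B, hcR f ζ r := by
    intro r
    unfold hcZ
    symm
    apply setIntegral_eq_integral_of_forall_compl_eq_zero
    intro ζ hζ
    apply hzero ζ r
    left
    by_contra h
    exact hζ (abs_le.mp (not_lt.mp h))
  refine ⟨?_, ?_⟩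
  · have h : hcZ f = fun r : ℝ => ∫ ζ in Set.Icc (-B) B, hcR f ζ r := funext hout
    rw [h]
    refine continuous_parametric_integral_of_continuous
      (f := fun (r : ℝ) (ζ : ℝ) => hcR f ζ r) ?_ isCompact_Icc
    exact hcont1.comp (continuous_snd.prodMk continuous_fst)
  · refine HasCompactSupport.intro (isCompact_Icc (a := -B) (b := B)) fun r hr => ?_
    have hr' : B < |r| := by
      by_contra h
      exact hr (abs_le.mp (not_lt.mp h))
    unfold hcZ
    have h0 : (fun ζ : ℝ => hcR f ζ r) = fun _ => 0 :=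
      funext fun ζ => hzero ζ r (Or.inr hr')
    rw [h0, integral_zero]

end Fermat.Agent.LT.T6.H372

end

end
-- ===== PACK-END LT/T6/H372/HcZReg.lean

-- ===== PACK-BEGIN LT/T1/H317/Box.lean
section




/-!
# Row LT, tower T1, shared lemma (helper317): the reference box of the adele ring

OFF-MAIN.  `box317 K R = {x : |x_w| ≤ R at the infinite places, x_v ∈ 𝒪_v at the finite places}`
is compact, closed and a neighbourhood of `0` (for `0 < R`).
-/

set_option autoImplicit false

open IsDedekindDomain NumberField MeasureTheory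
open scoped Pointwise NNReal ENNReal RestrictedProduct

noncomputable section

namespace Fermat.Agent.LT.T1.H317

open Fermat.Agent.LT.H556.A0 Fermat.Agent.LT.T1

variable (K : Type) [Field K] [NumberField K]

/-- The integral finite adeles. -/
def intFin317 : Set (FiniteAdeleRing (𝓞 K) K) :=
  {f | ∀ v : HeightOneSpectrum (𝓞 K), f v ∈ v.adicCompletionIntegers K}

/-- The product of the closed balls of radius `R` at the infinite places. -/
def ballInf317 (R : ℝ) : Set (InfiniteAdeleRing K) :=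
  {a | ∀ w : InfinitePlace K, ‖a w‖ ≤ R}

/-- The reference box. -/
def box317 (R : ℝ) : Set (Adl K) :=
  {x | (∀ w : InfinitePlace K, ‖x.1 w‖ ≤ R) ∧
    ∀ v : HeightOneSpectrum (𝓞 K), x.2 v ∈ v.adicCompletionIntegers K}

theorem box317_eq_prod (R : ℝ) :
    box317 K R = (ballInf317 K R) ×ˢ (intFin317 K) := by
  ext x
  exact Iff.rfl

omit [NumberField K] in
theorem isCompact_closedBall_completion317 (w : InfinitePlace K) (R : ℝ) :
    IsCompact {z : w.Completion | ‖z‖ ≤ R} := by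
  have hiso := InfinitePlace.Completion.isometry_extensionEmbedding w
  have hce : Topology.IsClosedEmbedding (InfinitePlace.Completion.extensionEmbedding w) :=
    hiso.isClosedEmbedding
  have h1 : {z : w.Completion | ‖z‖ ≤ R}
      = (InfinitePlace.Completion.extensionEmbedding w) ⁻¹' (Metric.closedBall (0 : ℂ) R) := by
    ext z
    show ‖z‖ ≤ R ↔ InfinitePlace.Completion.extensionEmbedding w z ∈ Metric.closedBall (0 : ℂ) R
    rw [Metric.mem_closedBall, dist_zero_right, hiso.norm_map_of_map_zero (map_zero _)]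
  rw [h1]
  exact hce.isCompact_preimage (isCompact_closedBall (0 : ℂ) R)

omit [NumberField K] in
theorem isCompact_ballInf317 (R : ℝ) : IsCompact (ballInf317 K R) := by
  have h1 : ballInf317 K R
      = Set.univ.pi (fun w : InfinitePlace K => {z : w.Completion | ‖z‖ ≤ R}) := by
    ext a
    exact ⟨fun h w _ => h w, fun h w => h w (Set.mem_univ w)⟩
  rw [h1]
  exact isCompact_univ_pi (fun w => isCompact_closedBall_completion317 K w R)

theorem isCompact_intFin317 : IsCompact (intFin317 K) := by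
  have hc : ∀ v : HeightOneSpectrum (𝓞 K), CompactSpace (v.adicCompletionIntegers K) :=
    fun v => Fermat.Agent.LT.H11.LC.compactSpace_integers_h11 K v
  have h1 : intFin317 K = Set.range (RestrictedProduct.structureMap
      (fun v : HeightOneSpectrum (𝓞 K) => v.adicCompletion K)
      (fun v : HeightOneSpectrum (𝓞 K) => (v.adicCompletionIntegers K : Set (v.adicCompletion K)))
      Filter.cofinite) := by
    rw [RestrictedProduct.range_structureMap]
    rfl
  rw [h1]
  exact isCompact_range (RestrictedProduct.isEmbedding_structureMap).continuous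

theorem isOpen_intFin317 : IsOpen (intFin317 K) := by
  exact RestrictedProduct.isOpen_forall_mem
    (fun v : HeightOneSpectrum (𝓞 K) => Valued.isOpen_valuationSubring (v.adicCompletion K))

theorem isCompact_box317 (R : ℝ) : IsCompact (box317 K R) := by
  rw [box317_eq_prod]
  exact (isCompact_ballInf317 K R).prod (isCompact_intFin317 K)

theorem ballInf317_mem_nhds {R : ℝ} (hR : 0 < R) : ballInf317 K R ∈ nhds (0 : InfiniteAdeleRing K) := by
  have h1 : ballInf317 K R
      = Set.univ.pi (fun w : InfinitePlace K => {z : w.Completion | ‖z‖ ≤ R}) := by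
    ext a
    exact ⟨fun h w _ => h w, fun h w => h w (Set.mem_univ w)⟩
  rw [h1]
  refine set_pi_mem_nhds Set.finite_univ (fun w _ => ?_)
  have h2 : {z : w.Completion | ‖z‖ ≤ R} = Metric.closedBall (0 : w.Completion) R := by
    ext z
    show ‖z‖ ≤ R ↔ z ∈ Metric.closedBall (0 : w.Completion) R
    rw [Metric.mem_closedBall, dist_zero_right]
  rw [h2]
  exact Metric.closedBall_mem_nhds _ hR

theorem box317_mem_nhds {R : ℝ} (hR : 0 < R) : box317 K R ∈ nhds (0 : Adl K) := by
  rw [box317_eq_prod]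
  have h0 : (0 : FiniteAdeleRing (𝓞 K) K) ∈ intFin317 K := fun v => zero_mem _
  exact prod_mem_nhds (ballInf317_mem_nhds K hR) ((isOpen_intFin317 K).mem_nhds h0)

end Fermat.Agent.LT.T1.H317

end

end
-- ===== PACK-END LT/T1/H317/Box.lean

-- ===== PACK-BEGIN LT/T1/H317/Local.lean
section



/-!
# Row LT, tower T1, shared lemma (helper317): local ideles and unit ideles

OFF-MAIN.  Algebra only: the local idele `locFin317 K v x` (`x` at `v`, `1` elsewhere), the
infinite idele `infIdele317 K a`, unit ideles, and their action on the reference box.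
-/

set_option autoImplicit false

open IsDedekindDomain NumberField MeasureTheory
open scoped Pointwise NNReal ENNReal RestrictedProduct

noncomputable section

namespace Fermat.Agent.LT.T1.H317

open Fermat.Agent.LT.H556.A0 Fermat.Agent.LT.T1

variable (K : Type) [Field K] [NumberField K]

/-! ## Components -/

theorem mul_fst317 (x y : Adl K) (w : InfinitePlace K) : (x * y).1 w = x.1 w * y.1 w := rfl
theorem mul_snd317 (x y : Adl K) (v : HeightOneSpectrum (𝓞 K)) :
    (x * y).2 v = x.2 v * y.2 v := rfl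
theorem add_fst317 (x y : Adl K) (w : InfinitePlace K) : (x + y).1 w = x.1 w + y.1 w := rfl
theorem add_snd317 (x y : Adl K) (v : HeightOneSpectrum (𝓞 K)) :
    (x + y).2 v = x.2 v + y.2 v := rfl
theorem one_fst317 (w : InfinitePlace K) : (1 : Adl K).1 w = 1 := rfl
theorem one_snd317 (v : HeightOneSpectrum (𝓞 K)) : (1 : Adl K).2 v = 1 := rfl
theorem zero_fst317 (w : InfinitePlace K) : (0 : Adl K).1 w = 0 := rfl
theorem zero_snd317 (v : HeightOneSpectrum (𝓞 K)) : (0 : Adl K).2 v = 0 := rfl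

/-- The image of `S` under multiplication by `a`. -/
def mulSet317 (a : Adl K) (S : Set (Adl K)) : Set (Adl K) := (fun x => a * x) '' S

theorem unit_inv_fst317 (u : (Adl K)ˣ) (w : InfinitePlace K) :
    ((u⁻¹ : (Adl K)ˣ) : Adl K).1 w * (u : Adl K).1 w = 1 := by
  have h := congrArg (fun x : Adl K => x.1 w) u.inv_mul
  exact h

theorem unit_inv_snd317 (u : (Adl K)ˣ) (v : HeightOneSpectrum (𝓞 K)) :
    ((u⁻¹ : (Adl K)ˣ) : Adl K).2 v * (u : Adl K).2 v = 1 := by
  have h := congrArg (fun x : Adl K => x.2 v) u.inv_mul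
  exact h

theorem unit_fst_ne_zero317 (u : (Adl K)ˣ) (w : InfinitePlace K) : (u : Adl K).1 w ≠ 0 :=
  right_ne_zero_of_mul_eq_one (unit_inv_fst317 K u w)

theorem unit_snd_ne_zero317 (u : (Adl K)ˣ) (v : HeightOneSpectrum (𝓞 K)) : (u : Adl K).2 v ≠ 0 :=
  right_ne_zero_of_mul_eq_one (unit_inv_snd317 K u v)

/-! ## Unit ideles -/

/-- `u` has absolute value `1` at every place. -/
def IsUnitIdele317 (u : (Adl K)ˣ) : Prop :=
  (∀ w : InfinitePlace K, ‖(u : Adl K).1 w‖ = 1) ∧
    ∀ v : HeightOneSpectrum (𝓞 K), Valued.v ((u : Adl K).2 v) = 1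

theorem IsUnitIdele317.inv {u : (Adl K)ˣ} (h : IsUnitIdele317 K u) : IsUnitIdele317 K u⁻¹ := by
  refine ⟨fun w => ?_, fun v => ?_⟩
  · have h1 := congrArg norm (unit_inv_fst317 K u w)
    rw [norm_mul, h.1 w, mul_one, norm_one] at h1
    exact h1
  · have h1 := congrArg Valued.v (unit_inv_snd317 K u v)
    rw [map_mul, h.2 v, mul_one, map_one] at h1
    exact h1

theorem mul_mem_box317_of_le {a : Adl K} {c R : ℝ} (hc : 0 ≤ c)
    (h1 : ∀ w : InfinitePlace K, ‖a.1 w‖ ≤ c)
    (h2 : ∀ v : HeightOneSpectrum (𝓞 K), Valued.v (a.2 v) ≤ 1)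
    {x : Adl K} (hx : x ∈ box317 K R) : a * x ∈ box317 K (c * R) := by
  refine ⟨fun w => ?_, fun v => ?_⟩
  · rw [mul_fst317, norm_mul]
    exact mul_le_mul (h1 w) (hx.1 w) (norm_nonneg _) hc
  · rw [mul_snd317]
    exact mul_mem ((HeightOneSpectrum.mem_adicCompletionIntegers (𝓞 K) K v).2 (h2 v)) (hx.2 v)

theorem mulSet_box317_subset {a : Adl K} {c R : ℝ} (hc : 0 ≤ c)
    (h1 : ∀ w : InfinitePlace K, ‖a.1 w‖ ≤ c)
    (h2 : ∀ v : HeightOneSpectrum (𝓞 K), Valued.v (a.2 v) ≤ 1) :
    mulSet317 K a (box317 K R) ⊆ box317 K (c * R) := by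
  rintro _ ⟨x, hx, rfl⟩
  exact mul_mem_box317_of_le K hc h1 h2 hx

theorem IsUnitIdele317.mulSet_box {u : (Adl K)ˣ} (h : IsUnitIdele317 K u) (R : ℝ) :
    mulSet317 K (u : Adl K) (box317 K R) = box317 K R := by
  apply Set.Subset.antisymm
  · have := mulSet_box317_subset K (R := R) (a := (u : Adl K)) zero_le_one
      (fun w => (h.1 w).le) (fun v => (h.2 v).le)
    rwa [one_mul] at this
  · intro x hx
    have h' := h.inv
    have := mul_mem_box317_of_le K (R := R) (a := ((u⁻¹ : (Adl K)ˣ) : Adl K)) zero_le_one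
      (fun w => (h'.1 w).le) (fun v => (h'.2 v).le) hx
    rw [one_mul] at this
    refine ⟨((u⁻¹ : (Adl K)ˣ) : Adl K) * x, this, ?_⟩
    show (u : Adl K) * (((u⁻¹ : (Adl K)ˣ) : Adl K) * x) = x
    rw [← mul_assoc, Units.mul_inv, one_mul]

/-! ## Local ideles -/

/-- The finite adele with component `x` at `v` and `1` elsewhere. -/
def mulSingleFin317 (v : HeightOneSpectrum (𝓞 K)) (x : v.adicCompletion K) :
    FiniteAdeleRing (𝓞 K) K :=
  letI := Classical.decEq (HeightOneSpectrum (𝓞 K))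
  RestrictedProduct.mulSingle (fun v : HeightOneSpectrum (𝓞 K) => v.adicCompletionIntegers K) v x

/-- The finite adele with component `x` at `v` and `0` elsewhere. -/
def singleFin317 (v : HeightOneSpectrum (𝓞 K)) (x : v.adicCompletion K) :
    FiniteAdeleRing (𝓞 K) K :=
  letI := Classical.decEq (HeightOneSpectrum (𝓞 K))
  RestrictedProduct.single (fun v : HeightOneSpectrum (𝓞 K) => v.adicCompletionIntegers K) v x

theorem mulSingleFin317_same (v : HeightOneSpectrum (𝓞 K)) (x : v.adicCompletion K) :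
    mulSingleFin317 K v x v = x := by
  letI := Classical.decEq (HeightOneSpectrum (𝓞 K))
  exact RestrictedProduct.mulSingle_eq_same _ v x

theorem mulSingleFin317_of_ne (v : HeightOneSpectrum (𝓞 K)) (x : v.adicCompletion K)
    {v' : HeightOneSpectrum (𝓞 K)} (h : v' ≠ v) : mulSingleFin317 K v x v' = 1 := by
  letI := Classical.decEq (HeightOneSpectrum (𝓞 K))
  exact RestrictedProduct.mulSingle_eq_of_ne _ x h

theorem singleFin317_same (v : HeightOneSpectrum (𝓞 K)) (x : v.adicCompletion K) :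
    singleFin317 K v x v = x := by
  letI := Classical.decEq (HeightOneSpectrum (𝓞 K))
  exact RestrictedProduct.single_eq_same _ v x

theorem singleFin317_of_ne (v : HeightOneSpectrum (𝓞 K)) (x : v.adicCompletion K)
    {v' : HeightOneSpectrum (𝓞 K)} (h : v' ≠ v) : singleFin317 K v x v' = 0 := by
  letI := Classical.decEq (HeightOneSpectrum (𝓞 K))
  exact RestrictedProduct.single_eq_of_ne _ x h

/-- The adele `(1, x at v)` as a monoid homomorphism in `x`. -/
def locFinHom317 (v : HeightOneSpectrum (𝓞 K)) : v.adicCompletion K →* Adl K where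
  toFun x := ((1 : InfiniteAdeleRing K), mulSingleFin317 K v x)
  map_one' := by
    refine Prod.ext rfl ?_
    apply FiniteAdeleRing.ext
    intro v'
    by_cases h : v' = v
    · subst h; rw [mulSingleFin317_same]; rfl
    · rw [mulSingleFin317_of_ne K v 1 h]; rfl
  map_mul' x y := by
    refine Prod.ext (mul_one _).symm ?_
    apply FiniteAdeleRing.ext
    intro v'
    show mulSingleFin317 K v (x * y) v' = mulSingleFin317 K v x v' * mulSingleFin317 K v y v'
    by_cases h : v' = v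
    · subst h; simp only [mulSingleFin317_same]
    · simp only [mulSingleFin317_of_ne K v _ h, mul_one]

/-- The local idele at the finite place `v`. -/
def locFin317 (v : HeightOneSpectrum (𝓞 K)) : (v.adicCompletion K)ˣ →* (Adl K)ˣ :=
  Units.map (locFinHom317 K v)

theorem locFin317_fst (v : HeightOneSpectrum (𝓞 K)) (x : (v.adicCompletion K)ˣ)
    (w : InfinitePlace K) : ((locFin317 K v x : (Adl K)ˣ) : Adl K).1 w = 1 := rfl

theorem locFin317_snd_same (v : HeightOneSpectrum (𝓞 K)) (x : (v.adicCompletion K)ˣ) :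
    ((locFin317 K v x : (Adl K)ˣ) : Adl K).2 v = x :=
  mulSingleFin317_same K v x

theorem locFin317_snd_of_ne (v : HeightOneSpectrum (𝓞 K)) (x : (v.adicCompletion K)ˣ)
    {v' : HeightOneSpectrum (𝓞 K)} (h : v' ≠ v) :
    ((locFin317 K v x : (Adl K)ˣ) : Adl K).2 v' = 1 :=
  mulSingleFin317_of_ne K v x h

/-- The adele `(0, x at v)`. -/
def addFin317 (v : HeightOneSpectrum (𝓞 K)) (x : v.adicCompletion K) : Adl K :=
  ((0 : InfiniteAdeleRing K), singleFin317 K v x)

theorem addFin317_fst (v : HeightOneSpectrum (𝓞 K)) (x : v.adicCompletion K)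
    (w : InfinitePlace K) : (addFin317 K v x).1 w = 0 := rfl

theorem addFin317_snd_same (v : HeightOneSpectrum (𝓞 K)) (x : v.adicCompletion K) :
    (addFin317 K v x).2 v = x := singleFin317_same K v x

theorem addFin317_snd_of_ne (v : HeightOneSpectrum (𝓞 K)) (x : v.adicCompletion K)
    {v' : HeightOneSpectrum (𝓞 K)} (h : v' ≠ v) : (addFin317 K v x).2 v' = 0 :=
  singleFin317_of_ne K v x h

/-! ## The valuation group `ℤᵐ⁰` -/

theorem lt_one_iff_le_exp317 (x : WithZero (Multiplicative ℤ)) :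
    x < 1 ↔ x ≤ WithZero.exp (-1 : ℤ) := by
  rcases eq_or_ne x 0 with rfl | hx
  · exact ⟨fun _ => bot_le, fun _ => zero_lt_one⟩
  · obtain ⟨n, rfl⟩ : ∃ n : ℤ, x = WithZero.exp n := ⟨WithZero.log x, (WithZero.exp_log hx).symm⟩
    rw [← WithZero.exp_zero, WithZero.exp_lt_exp, WithZero.exp_le_exp]
    omega


end Fermat.Agent.LT.T1.H317

end

end
-- ===== PACK-END LT/T1/H317/Local.lean

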