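import Mathlib
import Fermat.Agent.Pack.LT2.E0L1
import Fermat.Agent.Pack.LT3.E0L3
import Fermat.Agent.Pack.LT3.E0L1
import Fermat.Agent.Pack.LT3.E2L0
import Fermat.Agent.Pack.LT3.E5L2
import Fermat.Agent.Pack.LT3.E5L0
import Fermat.Agent.Pack.LT2.E5L3
import Fermat.Agent.Pack.LT3.E30L1
import Fermat.Agent.Pack.LT3.E30L2
import Fermat.Agent.Pack.LT3.E30L3

set_option linter.all false

-- ===== PACK-BEGIN LT/T6/H698/ConvSoft.lean
section



/-!
# Row LT, tower T6, station T6.20x (helper698): soft properties of the convolution `T6.convInt`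

OFF-MAIN.  Mathlib + `LT/T6/Spec.lean` (`convInt` only).  General topological group `H` with its
Borel `σ`-algebra:

* `convInt_eq_zero_of698`, `exists_of_convInt_ne_zero698`: the convolution vanishes at `z` unless
  `φ y ≠ 0` and `ψ (y⁻¹ z) ≠ 0` for some `y`;
* `hasCompactSupport_convInt698`: `supp (φ ⋆ ψ) ⊆ supp φ · supp ψ`;
* `continuous_convInt698`: the convolution of continuous functions, the first with compact
  support, is continuous;
* `convInt_mul_left698`: `(φ ⋆ ψ)(k z) = ∫ φ(k y) ψ(y⁻¹ z) dy` (left invariant measure);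
* `convInt_mul_right698`: `(φ ⋆ ψ)(z k) = ∫ φ(y) ψ(y⁻¹ z k) dy`.
-/

set_option autoImplicit false

open MeasureTheory
open scoped Pointwise

noncomputable section

namespace Fermat.Agent.LT.T6.H698

open Fermat.Agent.LT.T6

section ConvSoft

variable {H : Type} [Group H] [MeasurableSpace H]

theorem convInt_apply698 (μ : Measure H) (φ ψ : H → ℂ) (z : H) :
    convInt μ φ ψ z = ∫ y, φ y * ψ (y⁻¹ * z) ∂μ := rfl

theorem convInt_eq_zero_of698 (μ : Measure H) (φ ψ : H → ℂ) (z : H)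
    (h : ∀ y, φ y = 0 ∨ ψ (y⁻¹ * z) = 0) : convInt μ φ ψ z = 0 := by
  rw [convInt_apply698]
  have h0 : (fun y => φ y * ψ (y⁻¹ * z)) = fun _ => (0 : ℂ) := by
    funext y
    rcases h y with h1 | h1
    · rw [h1, zero_mul]
    · rw [h1, mul_zero]
  rw [h0, integral_zero]

theorem exists_of_convInt_ne_zero698 (μ : Measure H) (φ ψ : H → ℂ) (z : H)
    (h : convInt μ φ ψ z ≠ 0) : ∃ y, φ y ≠ 0 ∧ ψ (y⁻¹ * z) ≠ 0 := by
  by_contra hc
  apply h
  apply convInt_eq_zero_of698
  intro y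
  by_cases h1 : φ y = 0
  · exact Or.inl h1
  · right
    by_contra h2
    exact hc ⟨y, h1, h2⟩

theorem convInt_mul_right698 (μ : Measure H) (φ ψ : H → ℂ) (z k : H) :
    convInt μ φ ψ (z * k) = ∫ y, φ y * ψ (y⁻¹ * z * k) ∂μ := by
  rw [convInt_apply698]
  simp only [mul_assoc]

theorem convInt_mul_left698 [MeasurableMul H] (μ : Measure H) [μ.IsMulLeftInvariant]
    (φ ψ : H → ℂ) (k z : H) :
    convInt μ φ ψ (k * z) = ∫ y, φ (k * y) * ψ (y⁻¹ * z) ∂μ := by
  rw [convInt_apply698, ← integral_mul_left_eq_self (fun y => φ y * ψ (y⁻¹ * (k * z))) k]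
  congr 1
  funext y
  congr 2
  group

variable [TopologicalSpace H] [IsTopologicalGroup H]

theorem hasCompactSupport_convInt698 [T2Space H] (μ : Measure H) {φ ψ : H → ℂ}
    (hφ : HasCompactSupport φ) (hψ : HasCompactSupport ψ) :
    HasCompactSupport (convInt μ φ ψ) := by
  have hK : IsCompact (tsupport φ * tsupport ψ) := IsCompact.mul hφ hψ
  refine HasCompactSupport.intro hK ?_
  intro z hz
  apply convInt_eq_zero_of698
  intro y
  by_contra hc
  obtain ⟨hc1, hc2⟩ := not_or.1 hc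
  apply hz
  refine Set.mem_mul.2 ⟨y, subset_tsupport _ hc1, y⁻¹ * z, subset_tsupport _ hc2, ?_⟩
  group

theorem continuous_convInt698 [BorelSpace H] [LocallyCompactSpace H] [FirstCountableTopology H]
    (μ : Measure H) [IsLocallyFiniteMeasure μ] {φ ψ : H → ℂ}
    (hφ : Continuous φ) (hφs : HasCompactSupport φ) (hψ : Continuous ψ) :
    Continuous (convInt μ φ ψ) := by
  have h1 : convInt μ φ ψ = fun z => ∫ y in tsupport φ, φ y * ψ (y⁻¹ * z) ∂μ := by
    funext z
    rw [convInt_apply698]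
    refine (setIntegral_eq_integral_of_forall_compl_eq_zero fun y hy => ?_).symm
    rw [image_eq_zero_of_notMem_tsupport hy, zero_mul]
  rw [h1]
  have hc : Continuous (Function.uncurry fun (z : H) (y : H) => φ y * ψ (y⁻¹ * z)) := by
    refine (hφ.comp continuous_snd).mul (hψ.comp ?_)
    exact (continuous_inv.comp continuous_snd).mul continuous_fst
  exact continuous_parametric_integral_of_continuous hc hφs

end ConvSoft

end Fermat.Agent.LT.T6.H698

end

end
-- ===== PACK-END LT/T6/H698/ConvSoft.lean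

-- ===== PACK-BEGIN LT/T7/H44/ArchComm.lean
section






/-!
# Row LT, tower T7 (helper44): THE GELFAND PAIR `(GL₂(ℂ), U(2))`

OFF-MAIN.  ADDITIVE (new names only, all ending in `44`).  Mathlib + closed assets
(`T2.H555.svd555`: singular value decomposition; `T6.H8.rightInv_GL2C8`: `GL₂(ℂ)` is unimodular;
`T6.H698`: soft properties of `T6.convInt`).

* `biU_tr44`: a bi-`U(2)`-invariant function is invariant under the transposition;
* `map_trGL44`: every Haar measure of `GL₂(ℂ)` is invariant under the transposition;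
* `convInt_comm44`: the convolution of bi-`U(2)`-invariant functions is commutative;
* `convInt_assoc44`: the convolution of continuous functions of compact support is associative.
-/

set_option autoImplicit false

open MeasureTheory
open scoped Pointwise Matrix

noncomputable section

namespace Fermat.Agent.LT.T7.H44

open Fermat.Agent.LT

/-- `Φ` is bi-invariant under `U(2)` (the form of the clauses of `H893.ArchOk893`). -/
def IsBiU44 (Φ : GL (Fin 2) ℂ → ℂ) : Prop :=
  ∀ k₁ k₂ g : GL (Fin 2) ℂ,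
    (k₁ : Matrix (Fin 2) (Fin 2) ℂ) * (k₁ : Matrix (Fin 2) (Fin 2) ℂ).conjTranspose = 1 →
    (k₂ : Matrix (Fin 2) (Fin 2) ℂ) * (k₂ : Matrix (Fin 2) (Fin 2) ℂ).conjTranspose = 1 →
    Φ (k₁ * g * k₂) = Φ g

/-- The transposition of `GL₂(ℂ)`. -/
def trGL44 (g : GL (Fin 2) ℂ) : GL (Fin 2) ℂ where
  val := (g : Matrix (Fin 2) (Fin 2) ℂ).transpose
  inv := ((g⁻¹ : GL (Fin 2) ℂ) : Matrix (Fin 2) (Fin 2) ℂ).transpose
  val_inv := by
    rw [← Matrix.transpose_mul, ← Matrix.GeneralLinearGroup.coe_mul, inv_mul_cancel]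
    simp
  inv_val := by
    rw [← Matrix.transpose_mul, ← Matrix.GeneralLinearGroup.coe_mul, mul_inv_cancel]
    simp

theorem coe_trGL44 (g : GL (Fin 2) ℂ) :
    ((trGL44 g : GL (Fin 2) ℂ) : Matrix (Fin 2) (Fin 2) ℂ)
      = (g : Matrix (Fin 2) (Fin 2) ℂ).transpose := rfl

theorem trGL44_mul (a b : GL (Fin 2) ℂ) : trGL44 (a * b) = trGL44 b * trGL44 a := by
  apply Units.ext
  show ((a * b : GL (Fin 2) ℂ) : Matrix (Fin 2) (Fin 2) ℂ).transpose
    = (b : Matrix (Fin 2) (Fin 2) ℂ).transpose * (a : Matrix (Fin 2) (Fin 2) ℂ).transpose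
  rw [Matrix.GeneralLinearGroup.coe_mul, Matrix.transpose_mul]

theorem trGL44_one : trGL44 (1 : GL (Fin 2) ℂ) = 1 := by
  apply Units.ext
  show ((1 : GL (Fin 2) ℂ) : Matrix (Fin 2) (Fin 2) ℂ).transpose = 1
  simp

theorem trGL44_inv (a : GL (Fin 2) ℂ) : trGL44 a⁻¹ = (trGL44 a)⁻¹ := by
  apply eq_inv_of_mul_eq_one_left
  rw [← trGL44_mul, mul_inv_cancel, trGL44_one]

theorem trGL44_trGL44 (a : GL (Fin 2) ℂ) : trGL44 (trGL44 a) = a := by
  apply Units.ext
  show ((a : Matrix (Fin 2) (Fin 2) ℂ).transpose).transpose = _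
  rw [Matrix.transpose_transpose]

theorem continuous_trGL44 : Continuous trGL44 := by
  rw [Units.continuous_iff]
  constructor
  · exact (Units.continuous_val).matrix_transpose
  · have h : (fun g : GL (Fin 2) ℂ => (((trGL44 g)⁻¹ : GL (Fin 2) ℂ) : Matrix (Fin 2) (Fin 2) ℂ))
        = fun g => ((g⁻¹ : GL (Fin 2) ℂ) : Matrix (Fin 2) (Fin 2) ℂ).transpose := by
      funext g
      rw [← trGL44_inv]
      rfl
    rw [h]
    exact (Units.continuous_val.comp continuous_inv).matrix_transpose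

/-- The unitary matrices as elements of `GL₂(ℂ)`. -/
def unitGL44 (k : Matrix (Fin 2) (Fin 2) ℂ) (h : k * k.conjTranspose = 1) : GL (Fin 2) ℂ where
  val := k
  inv := k.conjTranspose
  val_inv := h
  inv_val := mul_eq_one_comm.1 h

theorem unitary_tr44 {k : Matrix (Fin 2) (Fin 2) ℂ} (h : k * k.conjTranspose = 1) :
    k.transpose * (k.transpose).conjTranspose = 1 := by
  have h' : k.conjTranspose * k = 1 := mul_eq_one_comm.1 h
  have e : (k.transpose).conjTranspose = (k.conjTranspose).transpose := by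
    ext i j
    simp [Matrix.conjTranspose_apply, Matrix.transpose_apply]
  rw [e, ← Matrix.transpose_mul, h', Matrix.transpose_one]

/-- **A bi-`U(2)`-invariant function is invariant under the transposition** (Cartan
decomposition). -/
theorem biU_tr44 {Φ : GL (Fin 2) ℂ → ℂ} (hΦ : IsBiU44 Φ) (g : GL (Fin 2) ℂ) :
    Φ (trGL44 g) = Φ g := by
  have hdet : (g : Matrix (Fin 2) (Fin 2) ℂ).det ≠ 0 := by
    have := (Matrix.isUnit_iff_isUnit_det _).1 g.isUnit
    exact this.ne_zero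
  obtain ⟨k₁, k₂, d, h1, h2, -, hg⟩ := Fermat.Agent.LT.T2.H555.svd555
    (g : Matrix (Fin 2) (Fin 2) ℂ) hdet
  set K₁ : GL (Fin 2) ℂ := unitGL44 k₁ h1 with hK₁
  set K₂ : GL (Fin 2) ℂ := unitGL44 k₂ h2 with hK₂
  set D : GL (Fin 2) ℂ := K₁⁻¹ * g * K₂⁻¹ with hD
  have hg' : g = K₁ * D * K₂ := by
    rw [hD]
    group
  have hDval : (D : Matrix (Fin 2) (Fin 2) ℂ) = Matrix.diagonal (fun i => ((d i : ℝ) : ℂ)) := by
    have e1 : (D : Matrix (Fin 2) (Fin 2) ℂ)
        = k₁.conjTranspose * (g : Matrix (Fin 2) (Fin 2) ℂ) * k₂.conjTranspose := rfl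
    rw [e1, hg]
    have a1 : k₁.conjTranspose * k₁ = 1 := mul_eq_one_comm.1 h1
    calc k₁.conjTranspose * (k₁ * Matrix.diagonal (fun i => ((d i : ℝ) : ℂ)) * k₂)
          * k₂.conjTranspose
        = (k₁.conjTranspose * k₁) * Matrix.diagonal (fun i => ((d i : ℝ) : ℂ))
            * (k₂ * k₂.conjTranspose) := by
          simp only [Matrix.mul_assoc]
      _ = Matrix.diagonal (fun i => ((d i : ℝ) : ℂ)) := by
          rw [a1, h2, Matrix.one_mul, Matrix.mul_one]
  have hDt : trGL44 D = D := by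
    apply Units.ext
    rw [coe_trGL44, hDval, Matrix.diagonal_transpose]
  have hu1 : ((trGL44 K₁ : GL (Fin 2) ℂ) : Matrix (Fin 2) (Fin 2) ℂ)
      * ((trGL44 K₁ : GL (Fin 2) ℂ) : Matrix (Fin 2) (Fin 2) ℂ).conjTranspose = 1 :=
    unitary_tr44 h1
  have hu2 : ((trGL44 K₂ : GL (Fin 2) ℂ) : Matrix (Fin 2) (Fin 2) ℂ)
      * ((trGL44 K₂ : GL (Fin 2) ℂ) : Matrix (Fin 2) (Fin 2) ℂ).conjTranspose = 1 :=
    unitary_tr44 h2
  calc Φ (trGL44 g) = Φ (trGL44 K₂ * trGL44 D * trGL44 K₁) := by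
        rw [hg', trGL44_mul, trGL44_mul, mul_assoc]
    _ = Φ (trGL44 K₂ * D * trGL44 K₁) := by rw [hDt]
    _ = Φ D := hΦ _ _ _ hu2 hu1
    _ = Φ (K₁ * D * K₂) := (hΦ K₁ K₂ D h1 h2).symm
    _ = Φ g := by rw [← hg']

/-! ## The Haar measure and the transposition -/

section Meas

variable [MeasurableSpace (GL (Fin 2) ℂ)] [BorelSpace (GL (Fin 2) ℂ)]

/-- The transposition as a homeomorphism. -/
def trHomeo44 : GL (Fin 2) ℂ ≃ₜ GL (Fin 2) ℂ where
  toFun := trGL44
  invFun := trGL44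
  left_inv := trGL44_trGL44
  right_inv := trGL44_trGL44
  continuous_toFun := continuous_trGL44
  continuous_invFun := continuous_trGL44

/-- The automorphism `g ↦ (gᵀ)⁻¹`. -/
def trInvEquiv44 : GL (Fin 2) ℂ ≃* GL (Fin 2) ℂ where
  toFun g := (trGL44 g)⁻¹
  invFun g := (trGL44 g)⁻¹
  left_inv g := by
    show (trGL44 (trGL44 g)⁻¹)⁻¹ = g
    rw [← trGL44_inv, inv_inv, trGL44_trGL44]
  right_inv g := by
    show (trGL44 (trGL44 g)⁻¹)⁻¹ = g
    rw [← trGL44_inv, inv_inv, trGL44_trGL44]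
  map_mul' a b := by
    show (trGL44 (a * b))⁻¹ = (trGL44 a)⁻¹ * (trGL44 b)⁻¹
    rw [trGL44_mul, mul_inv_rev]

theorem trInvEquiv44_apply (g : GL (Fin 2) ℂ) : trInvEquiv44 g = (trGL44 g)⁻¹ := rfl

theorem trInvEquiv44_invol (g : GL (Fin 2) ℂ) : trInvEquiv44 (trInvEquiv44 g) = g := by
  rw [trInvEquiv44_apply, trInvEquiv44_apply, ← trGL44_inv, inv_inv, trGL44_trGL44]

theorem continuous_trInvEquiv44 : Continuous (trInvEquiv44 : GL (Fin 2) ℂ → GL (Fin 2) ℂ) :=
  continuous_inv.comp continuous_trGL44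

theorem continuous_trInvEquiv44_symm :
    Continuous (trInvEquiv44.symm : GL (Fin 2) ℂ → GL (Fin 2) ℂ) :=
  continuous_inv.comp continuous_trGL44

open scoped NNReal ENNReal in
/-- Every Haar measure of `GL₂(ℂ)` is invariant under `g ↦ (gᵀ)⁻¹`. -/
theorem map_trInv44 (μ : Measure (GL (Fin 2) ℂ)) [μ.IsHaarMeasure] :
    Measure.map (trInvEquiv44 : GL (Fin 2) ℂ → GL (Fin 2) ℂ) μ = μ := by
  have := Fermat.Agent.LT.T6.H8.locallyCompactSpace_GL2C8
  have := Fermat.Agent.LT.T6.H8.secondCountableTopology_GL2C8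
  have hH : (Measure.map (trInvEquiv44 : GL (Fin 2) ℂ → GL (Fin 2) ℂ) μ).IsHaarMeasure :=
    trInvEquiv44.isHaarMeasure_map μ continuous_trInvEquiv44 continuous_trInvEquiv44_symm
  set ν : Measure (GL (Fin 2) ℂ) := Measure.map (trInvEquiv44 : GL (Fin 2) ℂ → GL (Fin 2) ℂ) μ
    with hν
  let c : ℝ≥0 := Measure.haarScalarFactor ν μ
  have hc : ν = c • μ := Measure.isMulLeftInvariant_eq_smul ν μ
  have hm : Measurable (trInvEquiv44 : GL (Fin 2) ℂ → GL (Fin 2) ℂ) :=
    continuous_trInvEquiv44.measurable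
  have h2 : Measure.map (trInvEquiv44 : GL (Fin 2) ℂ → GL (Fin 2) ℂ) ν = (c * c) • μ := by
    rw [hc, Measure.map_smul, ← hν, hc, smul_smul]
  have μeq : μ = (c * c) • μ := by
    rw [hν, Measure.map_map hm hm] at h2
    have e : ((trInvEquiv44 : GL (Fin 2) ℂ → GL (Fin 2) ℂ) ∘ (trInvEquiv44 : GL (Fin 2) ℂ → _))
        = id := funext fun g => trInvEquiv44_invol g
    rw [e, Measure.map_id] at h2
    exact h2
  have Kc : TopologicalSpace.PositiveCompacts (GL (Fin 2) ℂ) := Classical.arbitrary _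
  have h3 : ((c * c : ℝ≥0) : ℝ≥0∞) * μ Kc = 1 * μ Kc := by
    conv_rhs => rw [μeq]
    simp [Measure.smul_apply, ENNReal.smul_def]
  have h4 : ((c * c : ℝ≥0) : ℝ≥0∞) = 1 :=
    (ENNReal.mul_left_inj (Measure.measure_pos_of_nonempty_interior _ Kc.interior_nonempty).ne'
      Kc.isCompact.measure_lt_top.ne).1 h3
  have h5 : c * c = 1 := by exact_mod_cast h4
  have h6 : c = 1 := by
    have h7 : (c : ℝ) * (c : ℝ) = 1 := by exact_mod_cast h5
    rcases mul_self_eq_one_iff.1 h7 with h | h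
    · exact_mod_cast h
    · exfalso
      have := c.coe_nonneg
      rw [h] at this
      linarith
  rw [hc, h6, one_smul]

/-- Every Haar measure of `GL₂(ℂ)` is invariant under the transposition. -/
theorem map_trGL44 (μ : Measure (GL (Fin 2) ℂ)) [μ.IsHaarMeasure] :
    Measure.map trGL44 μ = μ := by
  have h1 := map_trInv44 μ
  have h2 := (Fermat.Agent.LT.T6.H8.rightInv_GL2C8 μ).2
  have e : trGL44 = (fun x : GL (Fin 2) ℂ => x⁻¹) ∘ (trInvEquiv44 : GL (Fin 2) ℂ → _) := by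
    funext g
    show trGL44 g = ((trGL44 g)⁻¹)⁻¹
    rw [inv_inv]
  rw [e, ← Measure.map_map continuous_inv.measurable continuous_trInvEquiv44.measurable, h1, h2]

/-- Change of variables: the transposition. -/
theorem integral_comp_trGL44 (μ : Measure (GL (Fin 2) ℂ)) [μ.IsHaarMeasure]
    (f : GL (Fin 2) ℂ → ℂ) : ∫ h, f (trGL44 h) ∂μ = ∫ y, f y ∂μ := by
  have hmp : MeasurePreserving (trHomeo44.toMeasurableEquiv) μ μ :=
    ⟨trHomeo44.toMeasurableEquiv.measurable, map_trGL44 μ⟩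
  exact hmp.integral_comp' f

/-- Change of variables: `u ↦ u⁻¹ g`. -/
theorem integral_comp_inv_mul44 (μ : Measure (GL (Fin 2) ℂ)) [μ.IsHaarMeasure]
    (f : GL (Fin 2) ℂ → ℂ) (g : GL (Fin 2) ℂ) : ∫ u, f (u⁻¹ * g) ∂μ = ∫ y, f y ∂μ := by
  obtain ⟨hr, hi⟩ := Fermat.Agent.LT.T6.H8.rightInv_GL2C8 μ
  have : μ.IsMulRightInvariant := ⟨hr⟩
  have : μ.IsInvInvariant := ⟨hi⟩
  calc ∫ u, f (u⁻¹ * g) ∂μ = ∫ u, (fun y => f (y * g)) u⁻¹ ∂μ := rfl
    _ = ∫ y, f (y * g) ∂μ := integral_inv_eq_self (fun y => f (y * g)) μ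
    _ = ∫ y, f y ∂μ := integral_mul_right_eq_self f g

/-- The convolution of bi-`U(2)`-invariant functions is bi-`U(2)`-invariant. -/
theorem isBiU_convInt44 (μ : Measure (GL (Fin 2) ℂ)) [μ.IsHaarMeasure]
    {Φ Ψ : GL (Fin 2) ℂ → ℂ} (hΦ : IsBiU44 Φ) (hΨ : IsBiU44 Ψ) :
    IsBiU44 (T6.convInt μ Φ Ψ) := by
  intro k₁ k₂ g h1 h2
  have hone : ((1 : GL (Fin 2) ℂ) : Matrix (Fin 2) (Fin 2) ℂ)
      * ((1 : GL (Fin 2) ℂ) : Matrix (Fin 2) (Fin 2) ℂ).conjTranspose = 1 := by simp
  show ∫ h, Φ h * Ψ (h⁻¹ * (k₁ * g * k₂)) ∂μ = ∫ h, Φ h * Ψ (h⁻¹ * g) ∂μ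
  have e1 : ∫ h, Φ h * Ψ (h⁻¹ * (k₁ * g * k₂)) ∂μ
      = ∫ h, (fun y => Φ y * Ψ (y⁻¹ * (k₁ * g * k₂))) (k₁ * h) ∂μ :=
    (integral_mul_left_eq_self (fun y => Φ y * Ψ (y⁻¹ * (k₁ * g * k₂))) k₁).symm
  rw [e1]
  refine integral_congr_ae (Filter.Eventually.of_forall fun h => ?_)
  show Φ (k₁ * h) * Ψ ((k₁ * h)⁻¹ * (k₁ * g * k₂)) = Φ h * Ψ (h⁻¹ * g)
  have a1 : Φ (k₁ * h) = Φ h := by
    have := hΦ k₁ 1 h h1 hone
    rwa [mul_one] at this
  have a2 : (k₁ * h)⁻¹ * (k₁ * g * k₂) = 1 * (h⁻¹ * g) * k₂ := by group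
  rw [a1, a2, hΨ 1 k₂ (h⁻¹ * g) hone h2]

/-- **THE GELFAND PAIR `(GL₂(ℂ), U(2))`**: the convolution of bi-`U(2)`-invariant functions is
commutative (Gelfand's trick with the transposition). -/
theorem convInt_comm44 (μ : Measure (GL (Fin 2) ℂ)) [μ.IsHaarMeasure]
    {Φ Ψ : GL (Fin 2) ℂ → ℂ} (hΦ : IsBiU44 Φ) (hΨ : IsBiU44 Ψ) (g : GL (Fin 2) ℂ) :
    T6.convInt μ Φ Ψ g = T6.convInt μ Ψ Φ g := by
  have hB := biU_tr44 (isBiU_convInt44 μ hΦ hΨ) g
  rw [← hB]
  show ∫ h, Φ h * Ψ (h⁻¹ * trGL44 g) ∂μ = ∫ u, Ψ u * Φ (u⁻¹ * g) ∂μ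
  have e1 : ∀ h : GL (Fin 2) ℂ, Φ h * Ψ (h⁻¹ * trGL44 g)
      = (fun y => Φ y * Ψ (g * y⁻¹)) (trGL44 h) := by
    intro h
    show Φ h * Ψ (h⁻¹ * trGL44 g) = Φ (trGL44 h) * Ψ (g * (trGL44 h)⁻¹)
    rw [biU_tr44 hΦ h, ← biU_tr44 hΨ (h⁻¹ * trGL44 g), trGL44_mul, trGL44_trGL44, trGL44_inv]
  have e2 : ∀ u : GL (Fin 2) ℂ, Ψ u * Φ (u⁻¹ * g)
      = (fun y => Φ y * Ψ (g * y⁻¹)) (u⁻¹ * g) := by
    intro u
    show Ψ u * Φ (u⁻¹ * g) = Φ (u⁻¹ * g) * Ψ (g * (u⁻¹ * g)⁻¹)
    have : g * (u⁻¹ * g)⁻¹ = u := by group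
    rw [this, mul_comm]
  simp only [e1, e2]
  rw [integral_comp_trGL44 μ (fun y => Φ y * Ψ (g * y⁻¹)),
    integral_comp_inv_mul44 μ (fun y => Φ y * Ψ (g * y⁻¹)) g]

/-- **The convolution of continuous functions of compact support is associative** (Fubini). -/
theorem convInt_assoc44 (μ : Measure (GL (Fin 2) ℂ)) [μ.IsHaarMeasure]
    {X Y Z : GL (Fin 2) ℂ → ℂ} (hX : Continuous X) (hXs : HasCompactSupport X)
    (hY : Continuous Y) (hYs : HasCompactSupport Y) (hZ : Continuous Z) (g : GL (Fin 2) ℂ) :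
    T6.convInt μ (T6.convInt μ X Y) Z g = T6.convInt μ X (T6.convInt μ Y Z) g := by
  have := Fermat.Agent.LT.T6.H8.locallyCompactSpace_GL2C8
  have := Fermat.Agent.LT.T6.H8.secondCountableTopology_GL2C8
  show ∫ k, (∫ h, X h * Y (h⁻¹ * k) ∂μ) * Z (k⁻¹ * g) ∂μ
    = ∫ h, X h * (∫ u, Y u * Z (u⁻¹ * (h⁻¹ * g)) ∂μ) ∂μ
  have hL : ∀ k : GL (Fin 2) ℂ, (∫ h, X h * Y (h⁻¹ * k) ∂μ) * Z (k⁻¹ * g)
      = ∫ h, X h * Y (h⁻¹ * k) * Z (k⁻¹ * g) ∂μ := fun k =>
    (integral_mul_const (Z (k⁻¹ * g)) (fun h => X h * Y (h⁻¹ * k))).symm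
  have hR : ∀ h : GL (Fin 2) ℂ, X h * (∫ u, Y u * Z (u⁻¹ * (h⁻¹ * g)) ∂μ)
      = ∫ k, X h * Y (h⁻¹ * k) * Z (k⁻¹ * g) ∂μ := by
    intro h
    rw [← integral_const_mul]
    have e := integral_mul_left_eq_self (μ := μ)
      (fun u => X h * (Y u * Z (u⁻¹ * (h⁻¹ * g)))) h⁻¹
    rw [← e]
    refine integral_congr_ae (Filter.Eventually.of_forall fun k => ?_)
    show X h * (Y (h⁻¹ * k) * Z ((h⁻¹ * k)⁻¹ * (h⁻¹ * g))) = X h * Y (h⁻¹ * k) * Z (k⁻¹ * g)
    have e' : (h⁻¹ * k)⁻¹ * (h⁻¹ * g) = k⁻¹ * g := by group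
    rw [e', mul_assoc]
  simp only [hL, hR]
  have hcont : Continuous (Function.uncurry fun (k h : GL (Fin 2) ℂ) =>
      X h * Y (h⁻¹ * k) * Z (k⁻¹ * g)) := by
    refine ((hX.comp continuous_snd).mul (hY.comp ?_)).mul (hZ.comp ?_)
    · exact (continuous_inv.comp continuous_snd).mul continuous_fst
    · exact (continuous_inv.comp continuous_fst).mul continuous_const
  have hcs : HasCompactSupport (Function.uncurry fun (k h : GL (Fin 2) ℂ) =>
      X h * Y (h⁻¹ * k) * Z (k⁻¹ * g)) := by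
    have hK : IsCompact (tsupport X * tsupport Y) := IsCompact.mul hXs hYs
    refine HasCompactSupport.intro (hK.prod hXs) fun p hp => ?_
    show X p.2 * Y (p.2⁻¹ * p.1) * Z (p.1⁻¹ * g) = 0
    by_contra h0
    have h1 : X p.2 ≠ 0 := fun h => h0 (by rw [h, zero_mul, zero_mul])
    have h2 : Y (p.2⁻¹ * p.1) ≠ 0 := fun h => h0 (by rw [h, mul_zero, zero_mul])
    apply hp
    refine ⟨Set.mem_mul.2 ⟨p.2, subset_tsupport _ h1, p.2⁻¹ * p.1, subset_tsupport _ h2, ?_⟩,
      subset_tsupport _ h1⟩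
    group
  exact integral_integral_swap (hcont.integrable_of_hasCompactSupport hcs)

end Meas

end Fermat.Agent.LT.T7.H44

end

end
-- ===== PACK-END LT/T7/H44/ArchComm.lean

-- ===== PACK-BEGIN LT/T7/H53/HaarPush.lean
section


/-!
# Row LT, tower T7, asset for C2.7.4 `HaarSplitC305` / C2.7.5 `TorSplitC305` (helper53):
# the image of a Haar measure restricted to an open subgroup -- MATHLIB ONLY

OFF-MAIN.  Generic, no definition of the towers is used.

* `isHaarMeasure_map_restrict53`: `G`, `L` topological groups with their Borel σ-algebras, `μ` a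
  Haar measure of `G`, `H ≤ G` an open subgroup, `π : G →* L` continuous with `π(H) = L`, and
  `H ∩ π⁻¹(N)` contained in a compact set for ONE compact neighbourhood `N` of `1` in `L`
  (properness at `1`).  Then `π_* (μ|_H)` is a Haar measure of `L`.
* `map_restrict_eq_smul53`: if moreover `L` is locally compact and second countable and `ν'` is
  a Haar measure of `L`, then `π_* (μ|_H) = c • ν'` with `c = μ(H ∩ π⁻¹ A) / ν'(A)` for every
  measurable `A` with `0 < ν'(A) < ∞`.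
-/

set_option autoImplicit false

open MeasureTheory Topology

noncomputable section

namespace Fermat.Agent.LT.T7.H53

variable {G L : Type*} [Group G] [TopologicalSpace G] [IsTopologicalGroup G]
  [MeasurableSpace G] [BorelSpace G]
  [Group L] [TopologicalSpace L] [IsTopologicalGroup L] [T2Space L]
  [MeasurableSpace L] [BorelSpace L]

/-- The restriction of a left invariant measure to a subgroup is invariant under the left
translations by the elements of the subgroup. -/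
theorem map_mul_left_restrict53 (μ : Measure G) [μ.IsMulLeftInvariant] (H : Subgroup G)
    (hH : MeasurableSet (H : Set G)) {h : G} (hh : h ∈ H) :
    Measure.map (fun x => h * x) (μ.restrict (H : Set G)) = μ.restrict (H : Set G) := by
  have hpre : (fun x => h * x) ⁻¹' (H : Set G) = (H : Set G) := by
    ext x
    simp only [Set.mem_preimage, SetLike.mem_coe]
    exact H.mul_mem_cancel_left hh
  have h1 := Measure.restrict_map (μ := μ) (measurable_const_mul h) hH
  rw [hpre, map_mul_left_eq_self] at h1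
  exact h1.symm

/-- **The image of a Haar measure restricted to an open subgroup is a Haar measure.** -/
theorem isHaarMeasure_map_restrict53 (μ : Measure G) [μ.IsHaarMeasure] (H : Subgroup G)
    (hH : IsOpen (H : Set G)) (π : G →* L) (hπ : Continuous π)
    (hsurj : ∀ l : L, ∃ h ∈ H, π h = l)
    (N : Set L) (hN : IsCompact N) (hN1 : N ∈ 𝓝 (1 : L))
    (C : Set G) (hC : IsCompact C) (hNC : (H : Set G) ∩ π ⁻¹' N ⊆ C) :
    (Measure.map π (μ.restrict (H : Set G))).IsHaarMeasure := by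
  have hπm : Measurable π := hπ.measurable
  have hHm : MeasurableSet (H : Set G) := hH.measurableSet
  have hinv : (Measure.map π (μ.restrict (H : Set G))).IsMulLeftInvariant := by
    refine ⟨fun l => ?_⟩
    obtain ⟨h, hh, rfl⟩ := hsurj l
    rw [Measure.map_map (measurable_const_mul _) hπm]
    have hcomp : (fun x => π h * x) ∘ π = π ∘ fun x => h * x := by
      funext x
      simp only [Function.comp_apply, map_mul]
    rw [hcomp, ← Measure.map_map hπm (measurable_const_mul h),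
      map_mul_left_restrict53 μ H hHm hh]
  have hval : ∀ A : Set L, MeasurableSet A →
      Measure.map π (μ.restrict (H : Set G)) A = μ ((H : Set G) ∩ π ⁻¹' A) := by
    intro A hA
    rw [Measure.map_apply hπm hA, Measure.restrict_apply (hπm hA), Set.inter_comm]
  have hNm : MeasurableSet N := hN.isClosed.measurableSet
  refine Measure.isHaarMeasure_of_isCompact_nonempty_interior _ N hN ?_ ?_ ?_
  · exact ⟨1, mem_interior_iff_mem_nhds.2 hN1⟩
  · rw [hval N hNm]
    have hopen : IsOpen ((H : Set G) ∩ π ⁻¹' interior N) :=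
      hH.inter (isOpen_interior.preimage hπ)
    have hne : ((H : Set G) ∩ π ⁻¹' interior N).Nonempty :=
      ⟨1, H.one_mem, by
        show π 1 ∈ interior N
        rw [map_one]
        exact mem_interior_iff_mem_nhds.2 hN1⟩
    have hpos := hopen.measure_pos μ hne
    have hsub : (H : Set G) ∩ π ⁻¹' interior N ⊆ (H : Set G) ∩ π ⁻¹' N :=
      Set.inter_subset_inter_right _ (Set.preimage_mono interior_subset)
    exact (lt_of_lt_of_le hpos (measure_mono hsub)).ne'
  · rw [hval N hNm]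
    exact (lt_of_le_of_lt (measure_mono hNC) hC.measure_lt_top).ne

/-- **The image of a Haar measure restricted to an open subgroup against a Haar measure of the
target**, with the constant. -/
theorem map_restrict_eq_smul53 [LocallyCompactSpace L] [SecondCountableTopology L]
    (μ : Measure G) [μ.IsHaarMeasure] (H : Subgroup G)
    (hH : IsOpen (H : Set G)) (π : G →* L) (hπ : Continuous π)
    (hsurj : ∀ l : L, ∃ h ∈ H, π h = l)
    (N : Set L) (hN : IsCompact N) (hN1 : N ∈ 𝓝 (1 : L))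
    (C : Set G) (hC : IsCompact C) (hNC : (H : Set G) ∩ π ⁻¹' N ⊆ C)
    (ν' : Measure L) [ν'.IsHaarMeasure] (A : Set L) (hA : MeasurableSet A)
    (h0 : ν' A ≠ 0) (h1 : ν' A ≠ ⊤) :
    Measure.map π (μ.restrict (H : Set G))
      = ENNReal.ofReal ((μ ((H : Set G) ∩ π ⁻¹' A)).toReal / (ν' A).toReal) • ν' := by
  have hπm : Measurable π := hπ.measurable
  have hHaar : (Measure.map π (μ.restrict (H : Set G))).IsHaarMeasure :=
    isHaarMeasure_map_restrict53 μ H hH π hπ hsurj N hN hN1 C hC hNC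
  obtain ⟨s, heq⟩ : ∃ s : NNReal, Measure.map π (μ.restrict (H : Set G)) = s • ν' :=
    ⟨_, Measure.isMulLeftInvariant_eq_smul (Measure.map π (μ.restrict (H : Set G))) ν'⟩
  have hvalA : Measure.map π (μ.restrict (H : Set G)) A = μ ((H : Set G) ∩ π ⁻¹' A) := by
    rw [Measure.map_apply hπm hA, Measure.restrict_apply (hπm hA), Set.inter_comm]
  have hA2 : μ ((H : Set G) ∩ π ⁻¹' A) = (s : ENNReal) * ν' A := by
    rw [← hvalA, heq, Measure.smul_apply]
    rfl
  have hreal : (μ ((H : Set G) ∩ π ⁻¹' A)).toReal = (s : ℝ) * (ν' A).toReal := by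
    rw [hA2, ENNReal.toReal_mul]
    rfl
  have hpos : 0 < (ν' A).toReal := ENNReal.toReal_pos h0 h1
  have hc : (μ ((H : Set G) ∩ π ⁻¹' A)).toReal / (ν' A).toReal = (s : ℝ) := by
    rw [hreal]
    field_simp
  rw [hc, heq, ENNReal.ofReal_coe_nnreal]
  rfl

end Fermat.Agent.LT.T7.H53

end

end
-- ===== PACK-END LT/T7/H53/HaarPush.lean

-- ===== PACK-BEGIN LT/T7/B981/H302/HaarCplxCore.lean
section


/-!
# Row LT, tower T7, leaf T7.L2.1.H2a.0 `HaarCplxC981` (registry row 2685): the MATHLIB-ONLY core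
# (helper302)

OFF-MAIN, never land.  Complete proofs, nothing assumed.  ADDITIVE (new names only, suffix
`302`).  `GL₂(ℂ)` is a locally compact Hausdorff topological group (the units of the matrix
ring, which is a finite product of copies of `ℂ`), so it has a Haar measure on its Borel
`σ`-algebra.
-/

set_option autoImplicit false
set_option linter.style.haveILetI false

open MeasureTheory

namespace Fermat.Agent.LT.T7.B981.H302

/-- The matrix ring `M₂(ℂ)` is locally compact (a finite product of copies of `ℂ`). -/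
theorem locallyCompactSpace_matrix302 : LocallyCompactSpace (Matrix (Fin 2) (Fin 2) ℂ) :=
  inferInstanceAs (LocallyCompactSpace (Fin 2 → Fin 2 → ℂ))

/-- `GL₂(ℂ)` is locally compact. -/
theorem locallyCompactSpace_GL2C302 : LocallyCompactSpace (GL (Fin 2) ℂ) := by
  haveI := locallyCompactSpace_matrix302
  infer_instance

/-- **`GL₂(ℂ)` has a Haar measure on its Borel `σ`-algebra.** -/
theorem exists_haar_GL2C302 :
    ∃ μc : @Measure (GL (Fin 2) ℂ) (borel _), @Measure.IsHaarMeasure _ _ _ (borel _) μc := by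
  letI : MeasurableSpace (GL (Fin 2) ℂ) := borel _
  haveI : BorelSpace (GL (Fin 2) ℂ) := ⟨rfl⟩
  haveI := locallyCompactSpace_GL2C302
  exact ⟨Measure.haar, inferInstance⟩

end Fermat.Agent.LT.T7.B981.H302

end
-- ===== PACK-END LT/T7/B981/H302/HaarCplxCore.lean

-- ===== PACK-BEGIN LT/T6/H680/ArchConvSpec.lean
section






/-!
# Row LT, tower T6, station T6.20x `ArchConv` (helper680): THE ARCHIMEDEAN PRODUCT RULE at the
# real place (for `ConstrQRC` / `ProdMt` over `ℚ`) -- THE CUT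

OFF-MAIN.  Definitions and frozen Props only (the proved top is `ArchConvTop.lean`).  No hole,
nothing assumed.  ADDITIVE (new names only, suffix `680`).

## Why

The members of the families of the supply are CONVOLUTIONS `Φ₁ ⋆ (… φ₂)`, `F₁ n ⋆ (… f₂ n)`.
Over `ℚ` the local hypothesis of the matching theorem (`MQ298.LocHypQ298.arch`, helper298) asks
for the EXACT matching `T6.IsArchMatch μr μc Φ (F0 + F1)` of the archimedean components of the
members, with `IsArchTestC Φ`, `IsArchTestR 0 F0`, `IsArchTestR (-1) F1`.  For the members: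
`Φ = φ¹ ⋆ φ²`, `F0 = f¹₀ ⋆ f²₀`, `F1 = f¹₁ ⋆ f²₁` (up to constants).  `T6.ArchInjC` gives the
multiplicativity of the matching only MODULO THE CENTRE; the exact statement follows from the
closed leaves of T6.20 (helper626) through the `N`-integrals:

    N-integral of a convolution = κ · (convolution on ℝ² of the N-integrals)   (both groups)
    ⇒ the Abel relation `IsAbelRel626` is multiplicative (constant `4 c₁ c₂ κ_ℝ / κ_ℂ`)
    ⇒ (closed `geoMatchC626_closed`) the products are matched.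

## The leaves

| leaf | Prop | content |
|---|---|---|
| X.1 | `AbelConvRC680` | `N(f ⋆ g)(v) = κ ∫_{ℝ²} N(f)(u) N(g)(v - u) du`, `GL₂(ℝ)`, weight `n` |
| X.2 | `AbelConvCC680` | the same on `GL₂(ℂ)`, bi-`U(2)`-invariant |
| X.3 | `ConvTestRC680` | `IsArchTestR n` is stable under convolution |
| X.4 | `ConvTestCC680` | `IsArchTestC` is stable under convolution |

Coordinates: `b(ζ, r, x) = H830.bR ζ r x = e^{ζ/2} !![e^{r/2}, e^{r/2} x; 0, e^{-r/2}]`,
`N(f)(ζ, r) = ∫ f(b(ζ, r, x)) dx`; group law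
`b(ζ, r, x)⁻¹ b(ζ₀, r₀, t) = b(ζ₀ - ζ, r₀ - r, t - x e^{-(r₀ - r)})`.
Proof of X.1 (X.2 is the same with `H830.IwasawaIntCC`): for fixed `z` the function
`y ↦ f(y) g(y⁻¹ z)` is continuous with compact support, supported in `det > 0`, and right
`SO(2)`-invariant (the weights cancel: `f(y k) g(k⁻¹ y⁻¹ z) = f(y) g(y⁻¹ z)`), so by the CLOSED
Iwasawa integration formula `H830.IwasawaIntRC` (`H673.iwasawaIntRC673`)
`(f ⋆ g)(z) = c ∫∫∫ f(b(ζ, r, x)) g(b(ζ, r, x)⁻¹ z) dx dr dζ`.  For `z = b(ζ₀, r₀, t)` the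
integral over `t` is translation invariant: `∫ g(b(ζ', r', t - x e^{-r'})) dt = N(g)(ζ', r')`,
and `∫ f(b(ζ, r, x)) dx = N(f)(ζ, r)`.  Fubini: the integrand is continuous with compact support
in `(ζ, r, x, t)`.  `κ = c`.
Proof of X.3: continuity and compact support of the convolution of two continuous functions
with compact support (`supp ⊆ supp f · supp g`); `det > 0` (`det y > 0`, `det (y⁻¹ z) > 0`);
left weight by the left invariance of `μ`, right weight from `g`; smoothness: derivation under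
the integral (the family `t ↦ g(y⁻¹ z h(t))` is smooth, jointly in a chart of `y`: apply the
field `smooth` of `g` to families in `m + 4` variables).
-/

set_option autoImplicit false

open MeasureTheory
open scoped Matrix ContDiff

noncomputable section

namespace Fermat.Agent.LT.T6.H680

open Fermat.Agent.LT.T6 Fermat.Agent.LT.T6.H626

/-! ## 1. Vocabulary -/

/-- Convolution on `GL₂(ℝ)` (Borel σ-algebra): `(f ⋆ g)(z) = ∫ f(y) g(y⁻¹ z) dμ(y)`
(`T6.convInt`). -/
def convR680 (μ : @Measure (GL (Fin 2) ℝ) (borel _)) (f g : GL (Fin 2) ℝ → ℂ) :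
    GL (Fin 2) ℝ → ℂ :=
  fun z => @convInt (GL (Fin 2) ℝ) _ (borel _) μ f g z

/-- Convolution on `GL₂(ℂ)` (Borel σ-algebra). -/
def convC680 (μ' : @Measure (GL (Fin 2) ℂ) (borel _)) (φ ψ : GL (Fin 2) ℂ → ℂ) :
    GL (Fin 2) ℂ → ℂ :=
  fun z => @convInt (GL (Fin 2) ℂ) _ (borel _) μ' φ ψ z

/-- The `N`-integral on `GL₂(ℝ)` in the coordinates of `H830.bR`:
`N(f)(ζ, r) = ∫_ℝ f(e^{ζ/2} !![e^{r/2}, e^{r/2} x; 0, e^{-r/2}]) dx`. -/
def nIntR680 (f : GL (Fin 2) ℝ → ℂ) (u : ℝ × ℝ) : ℂ :=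
  ∫ x : ℝ, f (H830.bR u.1 u.2 x)

/-- The `N`-integral on `GL₂(ℂ)` in the coordinates of `H830.bC`:
`N(φ)(ζ, r) = ∫_ℂ φ(e^{ζ/2} !![e^{r/2}, e^{r/2} w; 0, e^{-r/2}]) dw`. -/
def nIntC680 (φ : GL (Fin 2) ℂ → ℂ) (u : ℝ × ℝ) : ℂ :=
  ∫ w : ℂ, φ (H830.bC u.1 u.2 w)

/-! ## 2. The leaves -/

/-- **X.1 (the `N`-integral of a convolution, `GL₂(ℝ)`).**  For every Haar measure `μ` there is
`κ > 0` with `N(f ⋆ g)(v) = κ ∫_{ℝ²} N(f)(u) N(g)(v - u) du` for all test functions `f`, `g` of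
the same weight `n`. -/
def AbelConvRC680 : Prop :=
  ∀ μ : @Measure (GL (Fin 2) ℝ) (borel _), @Measure.IsHaarMeasure _ _ _ (borel _) μ →
    ∃ κ : ℝ, 0 < κ ∧
      ∀ (n : ℤ) (f g : GL (Fin 2) ℝ → ℂ), IsArchTestR n f → IsArchTestR n g →
        ∀ v : ℝ × ℝ, nIntR680 (convR680 μ f g) v
          = (κ : ℂ) * ∫ u : ℝ × ℝ, nIntR680 f u * nIntR680 g (v - u)

/-- **X.2 (the `N`-integral of a convolution, `GL₂(ℂ)`).** -/
def AbelConvCC680 : Prop :=
  ∀ μ' : @Measure (GL (Fin 2) ℂ) (borel _), @Measure.IsHaarMeasure _ _ _ (borel _) μ' →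
    ∃ κ : ℝ, 0 < κ ∧
      ∀ φ ψ : GL (Fin 2) ℂ → ℂ, IsArchTestC φ → IsArchTestC ψ →
        ∀ v : ℝ × ℝ, nIntC680 (convC680 μ' φ ψ) v
          = (κ : ℂ) * ∫ u : ℝ × ℝ, nIntC680 φ u * nIntC680 ψ (v - u)

/-- **X.3 (test functions of weight `n` on `GL₂(ℝ)` are stable under convolution).** -/
def ConvTestRC680 : Prop :=
  ∀ μ : @Measure (GL (Fin 2) ℝ) (borel _), @Measure.IsHaarMeasure _ _ _ (borel _) μ →
    ∀ (n : ℤ) (f g : GL (Fin 2) ℝ → ℂ), IsArchTestR n f → IsArchTestR n g →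
      IsArchTestR n (convR680 μ f g)

/-- **X.4 (test functions on `GL₂(ℂ)` are stable under convolution).** -/
def ConvTestCC680 : Prop :=
  ∀ μ' : @Measure (GL (Fin 2) ℂ) (borel _), @Measure.IsHaarMeasure _ _ _ (borel _) μ' →
    ∀ φ ψ : GL (Fin 2) ℂ → ℂ, IsArchTestC φ → IsArchTestC ψ →
      IsArchTestC (convC680 μ' φ ψ)

/-! ## 3. The nodes (tops in `ArchConvTop.lean`) -/

/-- **The Abel relation is multiplicative** (NODE; top `abelRelConv_of680`).  For all Haar
measures there is `d > 0` such that the Abel relations with constants `c₁`, `c₂` give the Abel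
relation of the convolutions with the constant `c₁ c₂ d`. -/
def AbelRelConvC680 : Prop :=
  ∀ (μ : @Measure (GL (Fin 2) ℝ) (borel _)) (μ' : @Measure (GL (Fin 2) ℂ) (borel _)),
    @Measure.IsHaarMeasure _ _ _ (borel _) μ → @Measure.IsHaarMeasure _ _ _ (borel _) μ' →
    ∃ d : ℝ, 0 < d ∧
      ∀ (n : ℤ) (c₁ c₂ : ℂ) (φ₁ φ₂ : GL (Fin 2) ℂ → ℂ) (f₁ g₁ f₂ g₂ : GL (Fin 2) ℝ → ℂ),
        IsArchTestC φ₁ → IsArchTestC φ₂ →
        IsArchTestR 0 f₁ → IsArchTestR n g₁ → IsArchTestR 0 f₂ → IsArchTestR n g₂ →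
        IsAbelRel626 c₁ φ₁ f₁ g₁ → IsAbelRel626 c₂ φ₂ f₂ g₂ →
        IsAbelRel626 (c₁ * c₂ * (d : ℂ)) (convC680 μ' φ₁ φ₂) (convR680 μ f₁ f₂)
          (convR680 μ g₁ g₂)

/-- **THE ARCHIMEDEAN PRODUCT RULE at the real place** (NODE; top `archProd_of680`).  For all
Haar measures there are constants `c > 0` (the matching constant) and `d > 0` such that for
`n = ±1`: if `(φ₁, f₁, g₁)` and `(φ₂, f₂, g₂)` are in the Abel relation with constants `c₁`, `c₂`
and `c₁ c₂ d = c`, then the convolutions are test functions and `f₁ ⋆ f₂ + g₁ ⋆ g₂` is EXACTLY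
matched with `φ₁ ⋆ φ₂`. -/
def ArchProdC680 : Prop :=
  ∀ (μ : @Measure (GL (Fin 2) ℝ) (borel _)) (μ' : @Measure (GL (Fin 2) ℂ) (borel _)),
    @Measure.IsHaarMeasure _ _ _ (borel _) μ → @Measure.IsHaarMeasure _ _ _ (borel _) μ' →
    ∃ c d : ℝ, 0 < c ∧ 0 < d ∧
      ∀ n : ℤ, n = 1 ∨ n = -1 →
      ∀ (c₁ c₂ : ℂ) (φ₁ φ₂ : GL (Fin 2) ℂ → ℂ) (f₁ g₁ f₂ g₂ : GL (Fin 2) ℝ → ℂ),
        IsArchTestC φ₁ → IsArchTestC φ₂ →
        IsArchTestR 0 f₁ → IsArchTestR n g₁ → IsArchTestR 0 f₂ → IsArchTestR n g₂ →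
        IsAbelRel626 c₁ φ₁ f₁ g₁ → IsAbelRel626 c₂ φ₂ f₂ g₂ → c₁ * c₂ * (d : ℂ) = (c : ℂ) →
        IsArchTestC (convC680 μ' φ₁ φ₂) ∧ IsArchTestR 0 (convR680 μ f₁ f₂) ∧
          IsArchTestR n (convR680 μ g₁ g₂) ∧
          IsArchMatch μ μ' (convC680 μ' φ₁ φ₂)
            (fun z => convR680 μ f₁ f₂ z + convR680 μ g₁ g₂ z)

/-! ## Appendix: the equation lemmas of the definitions of this file are realised HERE -/

theorem eqns_realised_archConv680 : True := by
  have _a1 := @convR680.eq_1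
  have _a2 := @convC680.eq_1
  have _a3 := @nIntR680.eq_1
  have _a4 := @nIntC680.eq_1
  have _b1 := @AbelConvRC680.eq_1
  have _b2 := @AbelConvCC680.eq_1
  have _b3 := @ConvTestRC680.eq_1
  have _b4 := @ConvTestCC680.eq_1
  have _b5 := @AbelRelConvC680.eq_1
  have _b6 := @ArchProdC680.eq_1
  trivial

end Fermat.Agent.LT.T6.H680

end

end
-- ===== PACK-END LT/T6/H680/ArchConvSpec.lean

-- ===== PACK-BEGIN LT/T6/H323/Conv/ParamInt.lean
section


/-!
# Row LT, tower T6, station T6.20x (helper323), OFF-MAIN: SMOOTH PARAMETRIC INTEGRALS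
# (MATHLIB ONLY)

    contDiff_paramIntegral323 :
      `t ↦ ∫_{y ∈ K} Ψ (s y, t) dμ(y)` is `C^∞`

for a compact set `K` of a topological measure space `Y`, a CONTINUOUS map `s : Y → S` into a
normed space and a `C^∞` function `Ψ : S × E → G` (`E` finite-dimensional).  Induction on the
order of differentiability, for all target spaces; derivation under the integral
(`hasFDerivAt_integral_of_dominated_of_fderiv_le`).  No hole, nothing assumed.  ADDITIVE
(suffix `323`).
-/

set_option autoImplicit false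

open MeasureTheory Set
open scoped ContDiff Topology

noncomputable section

namespace Fermat.Agent.LT.T6.H323

section ParamInt

variable {S : Type} [NormedAddCommGroup S] [NormedSpace ℝ S]
  {E : Type} [NormedAddCommGroup E] [NormedSpace ℝ E]

/-- The partial derivative in the second variable. -/
def dSnd323 {G : Type} [NormedAddCommGroup G] [NormedSpace ℝ G] (Ψ : S × E → G) :
    S × E → (E →L[ℝ] G) :=
  fun p => (fderiv ℝ Ψ p).comp (ContinuousLinearMap.inr ℝ S E)

theorem contDiff_dSnd323 {G : Type} [NormedAddCommGroup G] [NormedSpace ℝ G] {Ψ : S × E → G}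
    (hΨ : ContDiff ℝ ∞ Ψ) : ContDiff ℝ ∞ (dSnd323 Ψ) := by
  have h1 : ContDiff ℝ ∞ (fderiv ℝ Ψ) := hΨ.fderiv_right (by simp)
  exact h1.clm_comp contDiff_const

theorem hasFDerivAt_snd323 {G : Type} [NormedAddCommGroup G] [NormedSpace ℝ G] {Ψ : S × E → G}
    (hΨ : ContDiff ℝ ∞ Ψ) (a : S) (t : E) :
    HasFDerivAt (fun t' : E => Ψ (a, t')) (dSnd323 Ψ (a, t)) t := by
  have h1 : HasFDerivAt Ψ (fderiv ℝ Ψ (a, t)) (a, t) :=
    ((hΨ.differentiable (by simp)) (a, t)).hasFDerivAt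
  exact h1.comp t (hasFDerivAt_prodMk_right a t)

variable {Y : Type} [TopologicalSpace Y] [T2Space Y] [MeasurableSpace Y] [OpensMeasurableSpace Y]
  (μ : Measure Y) [IsFiniteMeasureOnCompacts μ] {K : Set Y} [FiniteDimensional ℝ E]

theorem hasFDerivAt_paramIntegral323 (hK : IsCompact K) {s : Y → S} (hs : Continuous s)
    {G : Type} [NormedAddCommGroup G] [NormedSpace ℝ G] [SecondCountableTopology G]
    {Ψ : S × E → G} (hΨ : ContDiff ℝ ∞ Ψ) (t₀ : E) :
    HasFDerivAt (fun t : E => ∫ y in K, Ψ (s y, t) ∂μ)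
      (∫ y in K, dSnd323 Ψ (s y, t₀) ∂μ) t₀ := by
  have hKm : MeasurableSet K := hK.measurableSet
  have hΨc : Continuous Ψ := hΨ.continuous
  have hdc : Continuous (dSnd323 Ψ) := (contDiff_dSnd323 hΨ).continuous
  -- the bound
  have hcomp : IsCompact (K ×ˢ Metric.closedBall t₀ 1) :=
    hK.prod (isCompact_closedBall t₀ 1)
  obtain ⟨C, hC⟩ := hcomp.exists_bound_of_continuousOn
    (f := fun q : Y × E => dSnd323 Ψ (s q.1, q.2))
    (hdc.comp ((hs.comp continuous_fst).prodMk continuous_snd)).continuousOn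
  refine hasFDerivAt_integral_of_dominated_of_fderiv_le (μ := μ.restrict K)
    (F := fun (t : E) (y : Y) => Ψ (s y, t))
    (F' := fun (t : E) (y : Y) => dSnd323 Ψ (s y, t)) (bound := fun _ => C)
    (s := Metric.closedBall t₀ 1) (Metric.closedBall_mem_nhds t₀ one_pos) ?_ ?_ ?_ ?_ ?_ ?_
  · refine Filter.Eventually.of_forall fun t => ?_
    exact ContinuousOn.aestronglyMeasurable_of_isCompact
      (hΨc.comp (hs.prodMk continuous_const)).continuousOn hK hKm
  · exact ContinuousOn.integrableOn_compact hK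
      (hΨc.comp (hs.prodMk continuous_const)).continuousOn
  · exact ContinuousOn.aestronglyMeasurable_of_isCompact
      (hdc.comp (hs.prodMk continuous_const)).continuousOn hK hKm
  · refine ae_restrict_of_forall_mem hKm fun y hy t ht => ?_
    exact hC (y, t) ⟨hy, ht⟩
  · exact integrable_const_iff.2 (Or.inr ⟨by
      rw [Measure.restrict_apply_univ]; exact hK.measure_lt_top⟩)
  · refine Filter.Eventually.of_forall fun y t _ => ?_
    exact hasFDerivAt_snd323 hΨ (s y) t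

/-- **SMOOTH PARAMETRIC INTEGRALS.** -/
theorem contDiff_paramIntegral_nat323 (hK : IsCompact K) {s : Y → S} (hs : Continuous s)
    (n : ℕ) : ∀ (G : Type) [NormedAddCommGroup G] [NormedSpace ℝ G] [SecondCountableTopology G]
      (Ψ : S × E → G), ContDiff ℝ ∞ Ψ →
      ContDiff ℝ n (fun t : E => ∫ y in K, Ψ (s y, t) ∂μ) := by
  induction n with
  | zero =>
    intro G _ _ _ Ψ hΨ
    exact contDiff_zero.2 (continuous_iff_continuousAt.2 fun t =>
      (hasFDerivAt_paramIntegral323 μ hK hs hΨ t).continuousAt)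
  | succ n ih =>
    intro G _ _ _ Ψ hΨ
    have hd : ∀ t₀ : E, HasFDerivAt (fun t : E => ∫ y in K, Ψ (s y, t) ∂μ)
        (∫ y in K, dSnd323 Ψ (s y, t₀) ∂μ) t₀ := hasFDerivAt_paramIntegral323 μ hK hs hΨ
    have hfd : fderiv ℝ (fun t : E => ∫ y in K, Ψ (s y, t) ∂μ)
        = fun t : E => ∫ y in K, dSnd323 Ψ (s y, t) ∂μ := funext fun t => (hd t).fderiv
    have hcast : ((n + 1 : ℕ) : WithTop ℕ∞) = (n : WithTop ℕ∞) + 1 := by norm_cast
    rw [hcast, contDiff_succ_iff_fderiv]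
    refine ⟨fun t => (hd t).differentiableAt, ?_, ?_⟩
    · intro h
      exact absurd h (by exact_mod_cast WithTop.coe_ne_top)
    · rw [hfd]
      exact ih (E →L[ℝ] G) (dSnd323 Ψ) (contDiff_dSnd323 hΨ)

/-- **SMOOTH PARAMETRIC INTEGRALS.** -/
theorem contDiff_paramIntegral323 (hK : IsCompact K) {s : Y → S} (hs : Continuous s)
    {G : Type} [NormedAddCommGroup G] [NormedSpace ℝ G] [SecondCountableTopology G]
    {Ψ : S × E → G} (hΨ : ContDiff ℝ ∞ Ψ) :
    ContDiff ℝ ∞ (fun t : E => ∫ y in K, Ψ (s y, t) ∂μ) :=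
  contDiff_infty.2 fun n => contDiff_paramIntegral_nat323 μ hK hs n G Ψ hΨ

end ParamInt

end Fermat.Agent.LT.T6.H323

end

end
-- ===== PACK-END LT/T6/H323/Conv/ParamInt.lean

-- ===== PACK-BEGIN LT/T6/H323/Conv/Ext.lean
section



/-!
# Row LT, tower T6, station T6.20x (helper323), OFF-MAIN: SMOOTHNESS OF CONVOLUTIONS ON `GL₂(𝕂)`
# (`𝕂 = ℝ, ℂ`; MATHLIB ONLY)

* `ext323 ψ` : the extension by zero of `ψ : GL₂(𝕂) → ℂ` to the matrices.
* `contDiff_ext323` : if `ψ` has compact support and is smooth along all smooth families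
  (the field `smooth` of `T6.IsArchTestR`, `T6.IsArchTestC`), its extension by zero is `C^∞` on
  the real vector space of the matrices (bump chart at the invertible matrices, compact support
  at the others).
* `convExt323 μ φ ψ` : `Z ↦ ∫_{supp φ} φ(y) ψ~(y⁻¹ Z) dμ(y)` on the matrices; `contDiff_convExt323`
  (smooth parametric integrals, `ParamInt.lean`); `conv_eq_convExt323`.
* `smooth_conv323` : the convolution is smooth along all smooth families.
No hole, nothing assumed.  ADDITIVE (suffix `323`).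
-/

set_option autoImplicit false

open MeasureTheory Set
open scoped ContDiff Topology Matrix

noncomputable section

namespace Fermat.Agent.LT.T6.H323

attribute [local instance] Matrix.normedAddCommGroup Matrix.normedSpace

variable {𝕂 : Type} [RCLike 𝕂]

/-- The extension by zero to the matrices. -/
def ext323 (ψ : GL (Fin 2) 𝕂 → ℂ) (X : Matrix (Fin 2) (Fin 2) 𝕂) : ℂ :=
  if h : X.det ≠ 0 then ψ (Matrix.GeneralLinearGroup.mkOfDetNeZero X h) else 0

theorem det_coe_ne_zero323 (g : GL (Fin 2) 𝕂) : (g : Matrix (Fin 2) (Fin 2) 𝕂).det ≠ 0 := by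
  have := (Matrix.GeneralLinearGroup.det g).ne_zero
  simpa using this

theorem ext_coe323 (ψ : GL (Fin 2) 𝕂 → ℂ) (g : GL (Fin 2) 𝕂) :
    ext323 ψ (g : Matrix (Fin 2) (Fin 2) 𝕂) = ψ g := by
  unfold ext323
  rw [dif_pos (det_coe_ne_zero323 g)]
  congr 1
  exact Units.ext rfl

theorem ext_of_det323 (ψ : GL (Fin 2) 𝕂 → ℂ) {X : Matrix (Fin 2) (Fin 2) 𝕂} (h : X.det ≠ 0) :
    ext323 ψ X = ψ (Matrix.GeneralLinearGroup.mkOfDetNeZero X h) := by
  unfold ext323
  rw [dif_pos h]

theorem continuous_det323 : Continuous fun X : Matrix (Fin 2) (Fin 2) 𝕂 => X.det :=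
  continuous_id.matrix_det

theorem contDiff_entry323 {E : Type} [NormedAddCommGroup E] [NormedSpace ℝ E]
    {Φ : E → Matrix (Fin 2) (Fin 2) 𝕂} (hΦ : ContDiff ℝ ∞ Φ) (i j : Fin 2) :
    ContDiff ℝ ∞ fun t => Φ t i j := by
  have h1 : ContDiff ℝ ∞ fun t => (Φ t) i := (contDiff_pi (Φ := Φ)).1 hΦ i
  exact (contDiff_pi (Φ := fun t => (Φ t) i)).1 h1 j

theorem contDiff_of_entry323 {E : Type} [NormedAddCommGroup E] [NormedSpace ℝ E]
    {Φ : E → Matrix (Fin 2) (Fin 2) 𝕂} (hΦ : ∀ i j : Fin 2, ContDiff ℝ ∞ fun t => Φ t i j) :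
    ContDiff ℝ ∞ Φ := by
  refine (contDiff_pi (Φ := Φ)).2 fun i => ?_
  exact (contDiff_pi (Φ := fun t => (Φ t) i)).2 fun j => hΦ i j

/-- The product of two smooth families of matrices is smooth. -/
theorem contDiff_matMul323 {E : Type} [NormedAddCommGroup E] [NormedSpace ℝ E]
    {Φ Φ' : E → Matrix (Fin 2) (Fin 2) 𝕂} (hΦ : ContDiff ℝ ∞ Φ) (hΦ' : ContDiff ℝ ∞ Φ') :
    ContDiff ℝ ∞ fun t => Φ t * Φ' t := by
  refine contDiff_of_entry323 fun i j => ?_
  simp only [Matrix.mul_apply]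
  refine ContDiff.sum fun k _ => ?_
  exact (contDiff_entry323 hΦ i k).mul (contDiff_entry323 hΦ' k j)

/-- `ψ` is smooth along all smooth families (the field `smooth` of the test functions). -/
def IsFamSmooth323 (ψ : GL (Fin 2) 𝕂 → ℂ) : Prop :=
  ∀ (m : ℕ) (h : (Fin m → ℝ) → GL (Fin 2) 𝕂),
    (∀ i j : Fin 2,
      ContDiff ℝ ∞ (fun t => ((h t : GL (Fin 2) 𝕂) : Matrix (Fin 2) (Fin 2) 𝕂) i j)) →
    ∀ g : GL (Fin 2) 𝕂, ContDiff ℝ ∞ (fun t => ψ (g * h t))

/-- The extension by zero vanishes near the singular matrices. -/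
theorem ext_eventually_zero323 {ψ : GL (Fin 2) 𝕂 → ℂ} (hc : HasCompactSupport ψ)
    {X₀ : Matrix (Fin 2) (Fin 2) 𝕂} (h0 : X₀.det = 0) :
    ∀ᶠ X in 𝓝 X₀, ext323 ψ X = 0 := by
  have hC : IsCompact ((fun g : GL (Fin 2) 𝕂 => (g : Matrix (Fin 2) (Fin 2) 𝕂)) '' tsupport ψ) :=
    hc.isCompact.image Units.continuous_val
  have hX₀ : X₀ ∉ (fun g : GL (Fin 2) 𝕂 => (g : Matrix (Fin 2) (Fin 2) 𝕂)) '' tsupport ψ := by
    rintro ⟨g, -, rfl⟩
    exact det_coe_ne_zero323 g h0
  filter_upwards [hC.isClosed.isOpen_compl.mem_nhds hX₀] with X hX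
  by_cases h : X.det ≠ 0
  · rw [ext_of_det323 ψ h]
    refine image_eq_zero_of_notMem_tsupport fun hmem => hX ?_
    exact ⟨_, hmem, rfl⟩
  · unfold ext323
    rw [dif_neg h]

/-- **THE EXTENSION BY ZERO IS SMOOTH.** -/
theorem contDiff_ext323 {ψ : GL (Fin 2) 𝕂 → ℂ} (hc : HasCompactSupport ψ)
    (hs : IsFamSmooth323 ψ) : ContDiff ℝ ∞ (ext323 ψ) := by
  refine contDiff_iff_contDiffAt.2 fun X₀ => ?_
  by_cases h0 : X₀.det = 0
  · exact (contDiffAt_const (c := (0 : ℂ))).congr_of_eventuallyEq (ext_eventually_zero323 hc h0)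
  -- a ball of invertible matrices
  have hopen : IsOpen {X : Matrix (Fin 2) (Fin 2) 𝕂 | X.det ≠ 0} :=
    isOpen_ne_fun continuous_det323 continuous_const
  obtain ⟨δ, hδ, hball⟩ := Metric.isOpen_iff.1 hopen X₀ h0
  let χ : ContDiffBump (0 : Matrix (Fin 2) (Fin 2) 𝕂) := ⟨δ / 2, δ, half_pos hδ, half_lt_self hδ⟩
  let e : Matrix (Fin 2) (Fin 2) 𝕂 ≃L[ℝ]
      (Fin (Module.finrank ℝ (Matrix (Fin 2) (Fin 2) 𝕂)) → ℝ) :=
    (Module.finBasis ℝ (Matrix (Fin 2) (Fin 2) 𝕂)).equivFunL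
  -- the family
  have hin : ∀ Z : Matrix (Fin 2) (Fin 2) 𝕂, X₀ + χ.toFun Z • Z ∈ Metric.ball X₀ δ := by
    intro Z
    rw [Metric.mem_ball, dist_eq_norm, add_sub_cancel_left, norm_smul, Real.norm_eq_abs,
      abs_of_nonneg χ.nonneg]
    by_cases hZ : ‖Z‖ < δ
    · calc χ.toFun Z * ‖Z‖ ≤ 1 * ‖Z‖ := mul_le_mul_of_nonneg_right χ.le_one (norm_nonneg _)
        _ = ‖Z‖ := one_mul _
        _ < δ := hZ
    · have : χ.toFun Z = 0 := χ.zero_of_le_dist (by rw [dist_zero_right]; exact not_lt.1 hZ)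
      rw [this, zero_mul]
      exact hδ
  let H : (Fin (Module.finrank ℝ (Matrix (Fin 2) (Fin 2) 𝕂)) → ℝ) → GL (Fin 2) 𝕂 := fun t =>
    Matrix.GeneralLinearGroup.mkOfDetNeZero (X₀ + χ.toFun (e.symm t) • e.symm t)
      (hball (hin (e.symm t)))
  have hHval : ∀ t, ((H t : GL (Fin 2) 𝕂) : Matrix (Fin 2) (Fin 2) 𝕂)
      = X₀ + χ.toFun (e.symm t) • e.symm t := fun t => rfl
  have hΦ : ContDiff ℝ ∞ fun t : Fin (Module.finrank ℝ (Matrix (Fin 2) (Fin 2) 𝕂)) → ℝ =>
      X₀ + χ.toFun (e.symm t) • e.symm t := by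
    have h1 : ContDiff ℝ ∞ fun t : Fin (Module.finrank ℝ (Matrix (Fin 2) (Fin 2) 𝕂)) → ℝ =>
        e.symm t := e.symm.contDiff
    have h2 : ContDiff ℝ ∞ fun t : Fin (Module.finrank ℝ (Matrix (Fin 2) (Fin 2) 𝕂)) → ℝ =>
        χ.toFun (e.symm t) := χ.contDiff.comp h1
    exact contDiff_const.add (h2.smul h1)
  have hf₁ : ContDiff ℝ ∞ fun t => ψ (1 * H t) :=
    hs _ H (fun i j => by
      simp only [hHval]
      exact contDiff_entry323 hΦ i j) 1
  have hτ : ContDiff ℝ ∞ fun X : Matrix (Fin 2) (Fin 2) 𝕂 => e (X - X₀) :=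
    e.contDiff.comp (contDiff_id.sub contDiff_const)
  have hcomp : ContDiff ℝ ∞ fun X : Matrix (Fin 2) (Fin 2) 𝕂 => ψ (1 * H (e (X - X₀))) :=
    hf₁.comp hτ
  refine hcomp.contDiffAt.congr_of_eventuallyEq ?_
  filter_upwards [Metric.ball_mem_nhds X₀ (half_pos hδ)] with X hX
  have hX' : X - X₀ ∈ Metric.closedBall (0 : Matrix (Fin 2) (Fin 2) 𝕂) χ.rIn := by
    rw [Metric.mem_closedBall, dist_zero_right]
    rw [Metric.mem_ball, dist_eq_norm] at hX
    exact hX.le
  have hχ : χ.toFun (X - X₀) = 1 := χ.one_of_mem_closedBall hX'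
  have hdet : X.det ≠ 0 := hball (Metric.ball_subset_ball (half_le_self hδ.le) hX)
  rw [ext_of_det323 ψ hdet, one_mul]
  congr 1
  apply Units.ext
  rw [hHval, e.symm_apply_apply, hχ, one_smul]
  simp

/-! ## The convolution -/

section Conv

variable [MeasurableSpace (GL (Fin 2) 𝕂)] [BorelSpace (GL (Fin 2) 𝕂)]
  (μ : Measure (GL (Fin 2) 𝕂))

/-- The convolution `(φ ⋆ ψ)(z) = ∫ φ(y) ψ(y⁻¹ z) dμ(y)`. -/
def conv323 (φ ψ : GL (Fin 2) 𝕂 → ℂ) (z : GL (Fin 2) 𝕂) : ℂ :=
  ∫ y, φ y * ψ (y⁻¹ * z) ∂μ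

/-- The convolution on the matrices. -/
def convExt323 (φ ψ : GL (Fin 2) 𝕂 → ℂ) (Z : Matrix (Fin 2) (Fin 2) 𝕂) : ℂ :=
  ∫ y in tsupport φ, φ y * ext323 ψ (((y⁻¹ : GL (Fin 2) 𝕂) : Matrix (Fin 2) (Fin 2) 𝕂) * Z) ∂μ

theorem conv_eq_convExt323 (φ ψ : GL (Fin 2) 𝕂 → ℂ) (z : GL (Fin 2) 𝕂) :
    conv323 μ φ ψ z = convExt323 μ φ ψ (z : Matrix (Fin 2) (Fin 2) 𝕂) := by
  unfold conv323 convExt323
  rw [setIntegral_eq_integral_of_forall_compl_eq_zero]
  · refine integral_congr_ae (Filter.Eventually.of_forall fun y => ?_)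
    simp only []
    rw [← Units.val_mul, ext_coe323]
  · intro y hy
    rw [image_eq_zero_of_notMem_tsupport hy, zero_mul]

theorem contDiff_convExt323 [IsFiniteMeasureOnCompacts μ] {φ ψ : GL (Fin 2) 𝕂 → ℂ}
    (hφc : Continuous φ) (hφ : HasCompactSupport φ) (hψ : HasCompactSupport ψ)
    (hs : IsFamSmooth323 ψ) : ContDiff ℝ ∞ (convExt323 μ φ ψ) := by
  have hsc : Continuous fun y : GL (Fin 2) 𝕂 =>
      ((φ y, ((y⁻¹ : GL (Fin 2) 𝕂) : Matrix (Fin 2) (Fin 2) 𝕂)) :
        ℂ × Matrix (Fin 2) (Fin 2) 𝕂) :=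
    hφc.prodMk (Units.continuous_val.comp continuous_inv)
  have hΨ : ContDiff ℝ ∞ fun p : (ℂ × Matrix (Fin 2) (Fin 2) 𝕂) × Matrix (Fin 2) (Fin 2) 𝕂 =>
      p.1.1 * ext323 ψ (p.1.2 * p.2) := by
    refine (contDiff_fst.fst).mul ((contDiff_ext323 hψ hs).comp ?_)
    exact contDiff_matMul323 (contDiff_fst.snd) contDiff_snd
  exact contDiff_paramIntegral323 μ hφ.isCompact hsc hΨ

/-- **THE CONVOLUTION IS SMOOTH ALONG ALL SMOOTH FAMILIES.** -/
theorem smooth_conv323 [IsFiniteMeasureOnCompacts μ] {φ ψ : GL (Fin 2) 𝕂 → ℂ}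
    (hφc : Continuous φ) (hφ : HasCompactSupport φ) (hψ : HasCompactSupport ψ)
    (hs : IsFamSmooth323 ψ) : IsFamSmooth323 (conv323 μ φ ψ) := by
  intro m h hh g
  have e : (fun t => conv323 μ φ ψ (g * h t))
      = fun t => convExt323 μ φ ψ
        ((g : Matrix (Fin 2) (Fin 2) 𝕂) * ((h t : GL (Fin 2) 𝕂) : Matrix (Fin 2) (Fin 2) 𝕂)) := by
    funext t
    rw [conv_eq_convExt323, Units.val_mul]
  rw [e]
  exact (contDiff_convExt323 μ hφc hφ hψ hs).comp
    (contDiff_matMul323 contDiff_const (contDiff_of_entry323 hh))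

theorem continuous_conv323 [IsFiniteMeasureOnCompacts μ] {φ ψ : GL (Fin 2) 𝕂 → ℂ}
    (hφc : Continuous φ) (hφ : HasCompactSupport φ) (hψ : HasCompactSupport ψ)
    (hs : IsFamSmooth323 ψ) : Continuous (conv323 μ φ ψ) := by
  have e : conv323 μ φ ψ
      = fun z : GL (Fin 2) 𝕂 => convExt323 μ φ ψ (z : Matrix (Fin 2) (Fin 2) 𝕂) :=
    funext fun z => conv_eq_convExt323 μ φ ψ z
  rw [e]
  exact (contDiff_convExt323 μ hφc hφ hψ hs).continuous.comp Units.continuous_val

/-- If the convolution does not vanish at `z`, the integrand does not vanish somewhere. -/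
theorem exists_of_conv_ne_zero323 {φ ψ : GL (Fin 2) 𝕂 → ℂ} {z : GL (Fin 2) 𝕂}
    (h : conv323 μ φ ψ z ≠ 0) : ∃ y : GL (Fin 2) 𝕂, φ y ≠ 0 ∧ ψ (y⁻¹ * z) ≠ 0 := by
  by_contra hne
  apply h
  have e : (fun y : GL (Fin 2) 𝕂 => φ y * ψ (y⁻¹ * z)) = fun _ => 0 := by
    funext y
    by_cases hy : φ y = 0
    · rw [hy, zero_mul]
    · have : ψ (y⁻¹ * z) = 0 := by
        by_contra h2
        exact hne ⟨y, hy, h2⟩
      rw [this, mul_zero]
  unfold conv323
  rw [e, integral_zero]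

open Pointwise in
theorem hasCompactSupport_conv323 {φ ψ : GL (Fin 2) 𝕂 → ℂ}
    (hφ : HasCompactSupport φ) (hψ : HasCompactSupport ψ) :
    HasCompactSupport (conv323 μ φ ψ) := by
  refine HasCompactSupport.intro (hφ.isCompact.mul hψ.isCompact) fun z hz => ?_
  by_contra hne
  obtain ⟨y, h1, h2⟩ := exists_of_conv_ne_zero323 μ hne
  exact hz (Set.mem_mul.2 ⟨y, subset_tsupport _ h1, y⁻¹ * z, subset_tsupport _ h2, by simp⟩)

theorem conv_left323 [μ.IsMulLeftInvariant] (φ ψ : GL (Fin 2) 𝕂 → ℂ) (k : GL (Fin 2) 𝕂) (c : ℂ)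
    (hk : ∀ g : GL (Fin 2) 𝕂, φ (k * g) = c * φ g) (z : GL (Fin 2) 𝕂) :
    conv323 μ φ ψ (k * z) = c * conv323 μ φ ψ z := by
  unfold conv323
  rw [← integral_mul_left_eq_self (fun y : GL (Fin 2) 𝕂 => φ y * ψ (y⁻¹ * (k * z))) k,
    ← integral_const_mul]
  refine integral_congr_ae (Filter.Eventually.of_forall fun y => ?_)
  simp only []
  have e : (k * y)⁻¹ * (k * z) = y⁻¹ * z := by group
  rw [e, hk, mul_assoc]

theorem conv_right323 (φ ψ : GL (Fin 2) 𝕂 → ℂ) (k : GL (Fin 2) 𝕂) (c : ℂ)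
    (hk : ∀ g : GL (Fin 2) 𝕂, ψ (g * k) = c * ψ g) (z : GL (Fin 2) 𝕂) :
    conv323 μ φ ψ (z * k) = c * conv323 μ φ ψ z := by
  unfold conv323
  rw [← integral_const_mul]
  refine integral_congr_ae (Filter.Eventually.of_forall fun y => ?_)
  simp only []
  rw [← mul_assoc, hk]
  ring

end Conv

end Fermat.Agent.LT.T6.H323

end

end
-- ===== PACK-END LT/T6/H323/Conv/Ext.lean

-- ===== PACK-BEGIN LT/T6/H323/Conv/TestC.lean
section




/-!
# Row LT, tower T6, station T6.20x, LEAF X.4 `ConvTestCC680` (helper323), OFF-MAIN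

    convTestCC323 : H680.ConvTestCC680        (VERBATIM, UNCONDITIONAL)

Test functions on `GL₂(ℂ)` are stable under convolution.  Smoothness: the extension by zero of a
test function to the matrices is `C^∞` (`contDiff_ext323`), smooth parametric integrals
(`contDiff_paramIntegral323`); the rest is invariance of the Haar measure.  MATHLIB + the Spec.
No hole, nothing assumed.  ADDITIVE (suffix `323`).
-/

set_option autoImplicit false

open MeasureTheory
open scoped ContDiff Matrix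

noncomputable section

namespace Fermat.Agent.LT.T6.H323

open Fermat.Agent.LT.T6 Fermat.Agent.LT.T6.H680

/-- **LEAF X.4 `ConvTestCC680`.** -/
theorem convTestCC323 : ConvTestCC680 := by
  intro μ' hμ' φ ψ hφ hψ
  letI : MeasurableSpace (GL (Fin 2) ℂ) := borel _
  haveI : BorelSpace (GL (Fin 2) ℂ) := ⟨rfl⟩
  haveI : μ'.IsHaarMeasure := hμ'
  have e : convC680 μ' φ ψ = conv323 μ' φ ψ := rfl
  rw [e]
  have hs : IsFamSmooth323 ψ := hψ.smooth
  exact
    { cont := continuous_conv323 μ' hφ.cont hφ.supp hψ.supp hs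
      supp := hasCompactSupport_conv323 μ' hφ.supp hψ.supp
      smooth := smooth_conv323 μ' hφ.cont hφ.supp hψ.supp hs
      left := fun k g hk => by
        have h1 := conv_left323 μ' φ ψ k 1 (fun g' => by rw [hφ.left k g' hk, one_mul]) g
        rw [h1, one_mul]
      right := fun k g hk => by
        have h1 := conv_right323 μ' φ ψ k 1 (fun g' => by rw [hψ.right k g' hk, one_mul]) g
        rw [h1, one_mul] }

end Fermat.Agent.LT.T6.H323

end

end
-- ===== PACK-END LT/T6/H323/Conv/TestC.lean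

-- ===== PACK-BEGIN LT/T7/H942/PushTelCore.lean
section


/-!
# Row LT, T7.L2.1.H2a.A.0.D.5 `PushTelC981` (spare by helper942): the ABSTRACT CORE — OFF-MAIN

MATHLIB ONLY.

* `block_elim942`: a finite sum of pure tensors which vanishes at every point (of a product of
  sets) is killed by every product of BLOCK FUNCTIONALS (functionals on the blocks of slots with
  the property (★): they kill the finite linear combinations of block tensors which vanish on
  the set of the block).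
* `pushAbs942` (the push-forward of finitely supported functions on `ℤ²` over a finite fibre
  with weights; `B981.pushFin981` is an instance): property (★) on the fibre
  (`pushAbs_star942`), translation (`pushAbs_shift942`).
* `convR942` (the iterated convolution on `ℝ²`; `B981.convR981` is the same recursion):
  continuity and compact support (`convR_cont942`), property (★) (`convR_star942`),
  translation (`convR_shift942`).
-/

set_option autoImplicit false

open MeasureTheory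
open scoped Convolution

noncomputable section

namespace Fermat.Agent.LT.T7.H942

/-! ## 1. Block elimination -/

theorem block_elim942 {S : Type} [Fintype S] [DecidableEq S] {κ : Type} (𝒦 : Finset κ)
    (Y : S → Type) [∀ s, Nonempty (Y s)] (Z : ∀ s, Set (Y s)) (g : ∀ s, κ → Y s → ℂ)
    (l : S → κ → ℂ)
    (hstar : ∀ (s : S) (c : κ → ℂ), (∀ y ∈ Z s, ∑ k ∈ 𝒦, c k * g s k y = 0) →
      ∑ k ∈ 𝒦, c k * l s k = 0)
    (c : κ → ℂ)
    (h : ∀ y : ∀ s, Y s, (∀ s, y s ∈ Z s) → ∑ k ∈ 𝒦, c k * ∏ s, g s k (y s) = 0) :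
    ∑ k ∈ 𝒦, c k * ∏ s, l s k = 0 := by
  classical
  have key : ∀ B : Finset S, ∀ y : ∀ s, Y s, (∀ s, s ∉ B → y s ∈ Z s) →
      ∑ k ∈ 𝒦, c k * ((∏ s ∈ B, l s k) * ∏ s ∈ Bᶜ, g s k (y s)) = 0 := by
    intro B
    induction B using Finset.induction_on with
    | empty =>
      intro y hy
      have h0 := h y (fun s => hy s (Finset.notMem_empty s))
      refine Eq.trans (Finset.sum_congr rfl fun k _ => ?_) h0
      rw [Finset.prod_empty, one_mul, Finset.compl_empty]
    | insert s₀ B hs₀ ih =>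
      intro y hy
      have hmem : s₀ ∈ Bᶜ := Finset.mem_compl.2 hs₀
      have hcompl : (insert s₀ B)ᶜ = Bᶜ.erase s₀ := by
        ext s
        simp only [Finset.mem_compl, Finset.mem_insert, Finset.mem_erase, not_or]
      have hc := hstar s₀
        (fun k => c k * ((∏ s ∈ B, l s k) * ∏ s ∈ (insert s₀ B)ᶜ, g s k (y s))) (by
          intro y' hy'
          have hup := ih (Function.update y s₀ y') (fun s hs => by
            by_cases hss : s = s₀
            · subst hss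
              rw [Function.update_self]
              exact hy'
            · rw [Function.update_of_ne hss]
              exact hy s (by
                rw [Finset.mem_insert, not_or]
                exact ⟨hss, hs⟩))
          refine Eq.trans (Finset.sum_congr rfl fun k _ => ?_) hup
          rw [← Finset.mul_prod_erase _ _ hmem, Function.update_self, hcompl]
          have e : ∏ s ∈ Bᶜ.erase s₀, g s k (Function.update y s₀ y' s)
              = ∏ s ∈ Bᶜ.erase s₀, g s k (y s) :=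
            Finset.prod_congr rfl fun s hs => by
              rw [Function.update_of_ne (Finset.ne_of_mem_erase hs)]
          rw [e]
          ring)
      refine Eq.trans (Finset.sum_congr rfl fun k _ => ?_) hc
      rw [Finset.prod_insert hs₀]
      ring
  obtain ⟨y₀⟩ : Nonempty (∀ s, Y s) := inferInstance
  have h1 := key Finset.univ y₀ (fun s hs => absurd (Finset.mem_univ s) hs)
  refine Eq.trans (Finset.sum_congr rfl fun k _ => ?_) h1
  rw [Finset.compl_univ, Finset.prod_empty, mul_one]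

/-! ## 2. The push-forward at the finite places -/

section Push

variable {ι : Type} [Fintype ι]

/-- The push-forward of the family `a` over the fibre `ι` with the weights `f`. -/
def pushAbs942 (f : ι → ℕ) (a : ι → ℤ × ℤ → ℂ) (M : ℤ × ℤ) : ℂ :=
  ∑ᶠ mm : ι → ℤ × ℤ, if ∑ w, (f w : ℤ) • mm w = M then ∏ w, a w (mm w) else 0

theorem pushAbs_supp942 (f : ι → ℕ) (a : ι → ℤ × ℤ → ℂ)
    (ha : ∀ w, (Function.support (a w)).Finite) (M : ℤ × ℤ) :
    (Function.support fun mm : ι → ℤ × ℤ =>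
      if ∑ w, (f w : ℤ) • mm w = M then ∏ w, a w (mm w) else 0).Finite := by
  refine (Set.Finite.pi' ha).subset fun mm hmm w => ?_
  rw [Function.mem_support] at hmm ⊢
  intro h0
  apply hmm
  split_ifs
  · exact Finset.prod_eq_zero (Finset.mem_univ w) h0
  · rfl

/-- If the push-forward does not vanish, a point of the fibre lies in the supports. -/
theorem exists_of_pushAbs_ne942 (f : ι → ℕ) (a : ι → ℤ × ℤ → ℂ) (M : ℤ × ℤ)
    (h : pushAbs942 f a M ≠ 0) :
    ∃ mm : ι → ℤ × ℤ, ∑ w, (f w : ℤ) • mm w = M ∧ ∀ w, a w (mm w) ≠ 0 := by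
  by_contra hcon
  apply h
  unfold pushAbs942
  have h0 : ∀ mm : ι → ℤ × ℤ,
      (if ∑ w, (f w : ℤ) • mm w = M then ∏ w, a w (mm w) else 0) = 0 := by
    intro mm
    split_ifs with hM
    · by_contra hne
      apply hcon
      refine ⟨mm, hM, fun w hw => hne ?_⟩
      exact Finset.prod_eq_zero (Finset.mem_univ w) hw
    · rfl
  rw [finsum_congr h0, finsum_zero]

/-- **Property (★) of the push-forward**, on the fibre. -/
theorem pushAbs_star942 (f : ι → ℕ) {κ : Type} (𝒦 : Finset κ) (a : κ → ι → ℤ × ℤ → ℂ)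
    (ha : ∀ k w, (Function.support (a k w)).Finite) (M : ℤ × ℤ) (c : κ → ℂ)
    (h : ∀ mm : ι → ℤ × ℤ, ∑ w, (f w : ℤ) • mm w = M →
      ∑ k ∈ 𝒦, c k * ∏ w, a k w (mm w) = 0) :
    ∑ k ∈ 𝒦, c k * pushAbs942 f (a k) M = 0 := by
  have e1 : ∀ k ∈ 𝒦, c k * pushAbs942 f (a k) M
      = ∑ᶠ mm : ι → ℤ × ℤ,
          c k * (if ∑ w, (f w : ℤ) • mm w = M then ∏ w, a k w (mm w) else 0) :=
    fun k _ => mul_finsum _ _
  rw [Finset.sum_congr rfl e1, ← finsum_sum_comm]
  · have h0 : ∀ mm : ι → ℤ × ℤ, ∑ k ∈ 𝒦,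
        c k * (if ∑ w, (f w : ℤ) • mm w = M then ∏ w, a k w (mm w) else 0) = 0 := by
      intro mm
      by_cases hM : ∑ w, (f w : ℤ) • mm w = M
      · simp only [hM, if_true]
        exact h mm hM
      · simp only [hM, if_false, mul_zero, Finset.sum_const_zero]
    rw [finsum_congr h0, finsum_zero]
  · intro k _
    refine (pushAbs_supp942 f (a k) (ha k) M).subset fun mm hmm => ?_
    rw [Function.mem_support] at hmm ⊢
    intro h0
    apply hmm
    rw [h0, mul_zero]

/-- **Translation of the push-forward.** -/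
theorem pushAbs_shift942 (f : ι → ℕ) (a : ι → ℤ × ℤ → ℂ) (d : ι → ℤ × ℤ) (M : ℤ × ℤ) :
    pushAbs942 f (fun w m => a w (m + d w)) M
      = pushAbs942 f a (M + ∑ w, (f w : ℤ) • d w) := by
  unfold pushAbs942
  rw [← finsum_comp_equiv (Equiv.addRight d)
    (f := fun mm' : ι → ℤ × ℤ => if ∑ w, (f w : ℤ) • mm' w = M + ∑ w, (f w : ℤ) • d w
      then ∏ w, a w (mm' w) else 0)]
  refine finsum_congr fun mm => ?_
  show (if ∑ w, (f w : ℤ) • mm w = M then ∏ w, a w (mm w + d w) else 0)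
    = if ∑ w, (f w : ℤ) • (mm w + d w) = M + ∑ w, (f w : ℤ) • d w
      then ∏ w, a w (mm w + d w) else 0
  have e : ∑ w, (f w : ℤ) • (mm w + d w)
      = ∑ w, (f w : ℤ) • mm w + ∑ w, (f w : ℤ) • d w := by
    rw [← Finset.sum_add_distrib]
    exact Finset.sum_congr rfl fun w _ => smul_add _ _ _
  rw [e]
  by_cases hM : ∑ w, (f w : ℤ) • mm w = M
  · rw [if_pos hM, if_pos (by rw [hM])]
  · rw [if_neg hM, if_neg (fun h' => hM (add_right_cancel h'))]

end Push

/-! ## 3. The iterated convolution at the infinite places -/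

/-- Iterated convolution on `ℝ²` (left nested): the recursion of `B981.convR981`. -/
def convR942 (β : ℕ → ℝ × ℝ → ℂ) : ℕ → ℝ × ℝ → ℂ
  | 0 => β 0
  | (j + 1) => fun X => ∫ t : ℝ × ℝ, convR942 β j t * β (j + 1) (X - t)

theorem convR_zero942 (β : ℕ → ℝ × ℝ → ℂ) : convR942 β 0 = β 0 := rfl

theorem convR_succ942 (β : ℕ → ℝ × ℝ → ℂ) (j : ℕ) (X : ℝ × ℝ) :
    convR942 β (j + 1) X = ∫ t : ℝ × ℝ, convR942 β j t * β (j + 1) (X - t) := rfl

theorem convR_cont942 (β : ℕ → ℝ × ℝ → ℂ) (n : ℕ) (hc : ∀ j ≤ n, Continuous (β j))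
    (hs : ∀ j ≤ n, HasCompactSupport (β j)) :
    Continuous (convR942 β n) ∧ HasCompactSupport (convR942 β n) := by
  induction n with
  | zero => exact ⟨hc 0 le_rfl, hs 0 le_rfl⟩
  | succ n ih =>
    obtain ⟨h1, h2⟩ := ih (fun j hj => hc j (Nat.le_succ_of_le hj))
      (fun j hj => hs j (Nat.le_succ_of_le hj))
    have e : convR942 β (n + 1)
        = (convR942 β n) ⋆[ContinuousLinearMap.mul ℂ ℂ, volume] (β (n + 1)) := by
      funext X
      rw [convolution_mul, convR_succ942]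
    rw [e]
    exact ⟨(hs (n + 1) le_rfl).continuous_convolution_right _ h1.locallyIntegrable
      (hc (n + 1) le_rfl), h2.convolution _ (hs (n + 1) le_rfl)⟩

/-- **Property (★) of the iterated convolution.** -/
theorem convR_star942 {κ : Type} (𝒦 : Finset κ) (b : κ → ℕ → ℝ × ℝ → ℂ) (n : ℕ)
    (hc : ∀ k, ∀ j ≤ n, Continuous (b k j)) (hs : ∀ k, ∀ j ≤ n, HasCompactSupport (b k j))
    (c : κ → ℂ)
    (h : ∀ y : ℕ → ℝ × ℝ, ∑ k ∈ 𝒦, c k * ∏ j ∈ Finset.range (n + 1), b k j (y j) = 0)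
    (X : ℝ × ℝ) :
    ∑ k ∈ 𝒦, c k * convR942 (b k) n X = 0 := by
  induction n generalizing c X with
  | zero =>
    have h0 := h (fun _ => X)
    refine Eq.trans (Finset.sum_congr rfl fun k _ => ?_) h0
    rw [Finset.prod_range_one, convR_zero942]
  | succ n ih =>
    have hint : ∀ k, Integrable (fun t => convR942 (b k) n t * b k (n + 1) (X - t)) := by
      intro k
      obtain ⟨h1, h2⟩ := convR_cont942 (b k) n (fun j hj => hc k j (Nat.le_succ_of_le hj))
        (fun j hj => hs k j (Nat.le_succ_of_le hj))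
      have hcont : Continuous (fun t => convR942 (b k) n t * b k (n + 1) (X - t)) :=
        h1.mul ((hc k (n + 1) le_rfl).comp (continuous_const.sub continuous_id))
      exact hcont.integrable_of_hasCompactSupport h2.mul_right
    have e : ∑ k ∈ 𝒦, c k * convR942 (b k) (n + 1) X
        = ∫ t, ∑ k ∈ 𝒦, c k * (convR942 (b k) n t * b k (n + 1) (X - t)) := by
      rw [integral_finsetSum _ fun k _ => (hint k).const_mul (c k)]
      refine Finset.sum_congr rfl fun k _ => ?_
      rw [integral_const_mul, convR_succ942]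
    rw [e]
    have hz : ∀ t, ∑ k ∈ 𝒦, c k * (convR942 (b k) n t * b k (n + 1) (X - t)) = 0 := by
      intro t
      have h1 := ih (fun k j hj => hc k j (Nat.le_succ_of_le hj))
        (fun k j hj => hs k j (Nat.le_succ_of_le hj)) (fun k => c k * b k (n + 1) (X - t))
        (by
          intro y
          have h2 := h (Function.update y (n + 1) (X - t))
          refine Eq.trans (Finset.sum_congr rfl fun k _ => ?_) h2
          rw [Finset.prod_range_succ _ (n + 1), Function.update_self]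
          have e3 : ∏ j ∈ Finset.range (n + 1), b k j (Function.update y (n + 1) (X - t) j)
              = ∏ j ∈ Finset.range (n + 1), b k j (y j) :=
            Finset.prod_congr rfl fun j hj => by
              rw [Function.update_of_ne (by
                have := Finset.mem_range.1 hj
                omega)]
          rw [e3]
          ring) t
      refine Eq.trans (Finset.sum_congr rfl fun k _ => ?_) h1
      ring
    rw [integral_congr_ae (Filter.Eventually.of_forall hz), integral_zero]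

/-- **Translation of the iterated convolution.** -/
theorem convR_shift942 (β : ℕ → ℝ × ℝ → ℂ) (a : ℕ → ℝ × ℝ) (n : ℕ) (X : ℝ × ℝ) :
    convR942 (fun j x => β j (x + a j)) n X
      = convR942 β n (X + ∑ j ∈ Finset.range (n + 1), a j) := by
  induction n generalizing X with
  | zero =>
    rw [convR_zero942, convR_zero942, Finset.sum_range_one]
  | succ n ih =>
    rw [convR_succ942, convR_succ942,
      ← integral_add_right_eq_self (fun t => convR942 β n t
        * β (n + 1) (X + ∑ j ∈ Finset.range (n + 1 + 1), a j - t))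
        (∑ j ∈ Finset.range (n + 1), a j)]
    refine integral_congr_ae (Filter.Eventually.of_forall fun t => ?_)
    show convR942 (fun j x => β j (x + a j)) n t * β (n + 1) (X - t + a (n + 1))
      = convR942 β n (t + ∑ j ∈ Finset.range (n + 1), a j)
        * β (n + 1) (X + ∑ j ∈ Finset.range (n + 1 + 1), a j
          - (t + ∑ j ∈ Finset.range (n + 1), a j))
    rw [ih, Finset.sum_range_succ _ (n + 1)]
    congr 2
    abel

end Fermat.Agent.LT.T7.H942

end

end
-- ===== PACK-END LT/T7/H942/PushTelCore.lean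

-- ===== PACK-BEGIN LT/T6/H830/ConvCore.lean
section


/-!
# Row LT, tower T6, asset ARCH-CONV (helper830): the analytic core (Mathlib only)

OFF-MAIN.  Complete proofs, nothing assumed.

* `iterConv830`: the Fubini identity behind "the Harish-Chandra transform of a convolution is the
  convolution of the Harish-Chandra transforms", for continuous functions with bounded support
  in the coordinates `(ζ, r, x)` of the Borel subgroup, `x` in a finite dimensional space `X`
  (`X = ℝ`, `X = ℂ`).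
-/

set_option autoImplicit false
set_option linter.unusedSectionVars false

open MeasureTheory Set
open scoped ContDiff Convolution Topology

noncomputable section

namespace Fermat.Agent.LT.T6.H830

section Partial

variable {A B : Type*} [TopologicalSpace A] [TopologicalSpace B]

/-- The partial functions of a continuous function with compact support on a product have
compact support. -/
theorem hasCompactSupport_partial830 [R1Space B] {g : A × B → ℂ} (hs : HasCompactSupport g)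
    (a : A) : HasCompactSupport (fun b : B => g (a, b)) := by
  refine HasCompactSupport.intro (hs.isCompact.image continuous_snd) (fun b hb => ?_)
  by_contra h
  exact hb ⟨(a, b), subset_tsupport _ (Function.mem_support.2 h), rfl⟩

theorem integrable_partial830 [MeasurableSpace B] [OpensMeasurableSpace B] [R1Space B]
    (ν : Measure B) [IsFiniteMeasureOnCompacts ν] {g : A × B → ℂ} (hg : Continuous g)
    (hs : HasCompactSupport g) (a : A) : Integrable (fun b : B => g (a, b)) ν :=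
  (hg.comp (Continuous.prodMk_right a)).integrable_of_hasCompactSupport
    (hasCompactSupport_partial830 hs a)

end Partial

section Core

variable {X : Type*} [NormedAddCommGroup X] [NormedSpace ℝ X] [ProperSpace X]
  [MeasureSpace X] [BorelSpace X] [SecondCountableTopology X]
  [SFinite (volume : Measure X)] [IsFiniteMeasureOnCompacts (volume : Measure X)]
  [(volume : Measure X).IsAddRightInvariant]

/-- Bounded support in the coordinates. -/
def BddSupp830 (f : ℝ → ℝ → X → ℂ) : Prop :=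
  ∃ R : ℝ, ∀ (a b : ℝ) (x : X), f a b x ≠ 0 → |a| ≤ R ∧ |b| ≤ R ∧ ‖x‖ ≤ R

/-- Iterated integrals of a continuous function with compact support on `ℝ × ℝ × X`. -/
theorem iter3_830 {g : ℝ × ℝ × X → ℂ} (hg : Continuous g) (hs : HasCompactSupport g) :
    ∫ q, g q = ∫ a : ℝ, ∫ b : ℝ, ∫ y : X, g (a, b, y) := by
  have hi : Integrable g (volume : Measure (ℝ × ℝ × X)) :=
    hg.integrable_of_hasCompactSupport hs
  rw [Measure.volume_eq_prod] at hi ⊢
  rw [integral_prod _ hi]
  refine integral_congr_ae (Filter.Eventually.of_forall fun a => ?_)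
  have hi2 : Integrable (fun q : ℝ × X => g (a, q)) (volume : Measure (ℝ × X)) :=
    integrable_partial830 _ hg hs a
  rw [Measure.volume_eq_prod] at hi2
  exact integral_prod _ hi2

/-- The integrand of the convolution in the coordinates. -/
def convKer830 (f₁ f₂ : ℝ → ℝ → X → ℂ) (ζ r : ℝ) (p : X × ℝ × ℝ × X) : ℂ :=
  f₁ p.2.1 p.2.2.1 p.2.2.2 *
    f₂ (ζ - p.2.1) (r - p.2.2.1) (p.1 - Real.exp (-(r - p.2.2.1)) • p.2.2.2)

theorem continuous_convKer830 {f₁ f₂ : ℝ → ℝ → X → ℂ}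
    (h₁ : Continuous (fun p : ℝ × ℝ × X => f₁ p.1 p.2.1 p.2.2))
    (h₂ : Continuous (fun p : ℝ × ℝ × X => f₂ p.1 p.2.1 p.2.2)) (ζ r : ℝ) :
    Continuous (convKer830 f₁ f₂ ζ r) := by
  have c1 : Continuous (fun p : X × ℝ × ℝ × X => f₁ p.2.1 p.2.2.1 p.2.2.2) :=
    h₁.comp (by fun_prop : Continuous fun p : X × ℝ × ℝ × X => (p.2.1, p.2.2.1, p.2.2.2))
  have c2 : Continuous (fun p : X × ℝ × ℝ × X =>
      f₂ (ζ - p.2.1) (r - p.2.2.1) (p.1 - Real.exp (-(r - p.2.2.1)) • p.2.2.2)) :=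
    h₂.comp (by fun_prop : Continuous fun p : X × ℝ × ℝ × X =>
      (ζ - p.2.1, r - p.2.2.1, p.1 - Real.exp (-(r - p.2.2.1)) • p.2.2.2))
  exact c1.mul c2

theorem hasCompactSupport_convKer830 {f₁ f₂ : ℝ → ℝ → X → ℂ}
    (s₁ : BddSupp830 f₁) (s₂ : BddSupp830 f₂) (ζ r : ℝ) :
    HasCompactSupport (convKer830 f₁ f₂ ζ r) := by
  obtain ⟨R₁, hR₁⟩ := s₁
  obtain ⟨R₂, hR₂⟩ := s₂
  set M : ℝ := R₂ + Real.exp (|r| + R₁) * R₁ with hM
  refine HasCompactSupport.intro
    (K := Metric.closedBall (0 : X) M ×ˢ (Set.Icc (-R₁) R₁ ×ˢ (Set.Icc (-R₁) R₁ ×ˢ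
      Metric.closedBall (0 : X) R₁)))
    ((isCompact_closedBall _ _).prod (isCompact_Icc.prod (isCompact_Icc.prod
      (isCompact_closedBall _ _)))) (fun p hp => ?_)
  by_contra h
  apply hp
  have h1 : f₁ p.2.1 p.2.2.1 p.2.2.2 ≠ 0 := left_ne_zero_of_mul h
  have h2 : f₂ (ζ - p.2.1) (r - p.2.2.1) (p.1 - Real.exp (-(r - p.2.2.1)) • p.2.2.2) ≠ 0 :=
    right_ne_zero_of_mul h
  obtain ⟨ha, hb, hy⟩ := hR₁ _ _ _ h1
  obtain ⟨-, -, hx⟩ := hR₂ _ _ _ h2
  have hR₁0 : 0 ≤ R₁ := (abs_nonneg _).trans ha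
  have he : Real.exp (-(r - p.2.2.1)) ≤ Real.exp (|r| + R₁) := by
    apply Real.exp_le_exp.2
    have := neg_abs_le r
    have := le_abs_self p.2.2.1
    linarith
  have hxn : ‖p.1‖ ≤ M := by
    have e : p.1 = (p.1 - Real.exp (-(r - p.2.2.1)) • p.2.2.2)
        + Real.exp (-(r - p.2.2.1)) • p.2.2.2 := by abel
    calc ‖p.1‖ = ‖(p.1 - Real.exp (-(r - p.2.2.1)) • p.2.2.2)
          + Real.exp (-(r - p.2.2.1)) • p.2.2.2‖ := by rw [← e]
      _ ≤ ‖p.1 - Real.exp (-(r - p.2.2.1)) • p.2.2.2‖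
          + ‖Real.exp (-(r - p.2.2.1)) • p.2.2.2‖ := norm_add_le _ _
      _ ≤ R₂ + Real.exp (|r| + R₁) * R₁ := by
          refine add_le_add hx ?_
          rw [norm_smul, Real.norm_eq_abs, abs_of_pos (Real.exp_pos _)]
          exact mul_le_mul he hy (norm_nonneg _) (Real.exp_pos _).le
  refine ⟨?_, ⟨?_, ?_⟩, ⟨?_, ?_⟩, ?_⟩
  · simpa [Metric.mem_closedBall, dist_zero_right] using hxn
  · exact (abs_le.1 ha).1
  · exact (abs_le.1 ha).2
  · exact (abs_le.1 hb).1
  · exact (abs_le.1 hb).2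
  · simpa [Metric.mem_closedBall, dist_zero_right] using hy

/-- **The Fubini identity of ARCH-CONV.** -/
theorem iterConv830 (f₁ f₂ : ℝ → ℝ → X → ℂ)
    (h₁ : Continuous (fun p : ℝ × ℝ × X => f₁ p.1 p.2.1 p.2.2))
    (h₂ : Continuous (fun p : ℝ × ℝ × X => f₂ p.1 p.2.1 p.2.2))
    (s₁ : BddSupp830 f₁) (s₂ : BddSupp830 f₂) (ζ r : ℝ) :
    ∫ x : X, ∫ a : ℝ, ∫ b : ℝ, ∫ y : X,
        f₁ a b y * f₂ (ζ - a) (r - b) (x - Real.exp (-(r - b)) • y)
      = ∫ a : ℝ, ∫ b : ℝ, (∫ y : X, f₁ a b y) * ∫ x : X, f₂ (ζ - a) (r - b) x := by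
  have hc := continuous_convKer830 h₁ h₂ ζ r
  have hs := hasCompactSupport_convKer830 s₁ s₂ ζ r
  have hi : Integrable (convKer830 f₁ f₂ ζ r) (volume : Measure (X × ℝ × ℝ × X)) :=
    hc.integrable_of_hasCompactSupport hs
  rw [Measure.volume_eq_prod] at hi
  -- the inner integral in `x`
  have inner : ∀ q : ℝ × ℝ × X, ∫ x : X, convKer830 f₁ f₂ ζ r (x, q)
      = f₁ q.1 q.2.1 q.2.2 * ∫ x : X, f₂ (ζ - q.1) (r - q.2.1) x := by
    intro q
    simp only [convKer830]
    rw [integral_const_mul]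
    congr 1
    exact integral_sub_right_eq_self (fun x => f₂ (ζ - q.1) (r - q.2.1) x) _
  -- left side
  have hL : ∫ x : X, ∫ a : ℝ, ∫ b : ℝ, ∫ y : X,
        f₁ a b y * f₂ (ζ - a) (r - b) (x - Real.exp (-(r - b)) • y)
      = ∫ x : X, ∫ q : ℝ × ℝ × X, convKer830 f₁ f₂ ζ r (x, q) := by
    refine integral_congr_ae (Filter.Eventually.of_forall fun x => ?_)
    exact (iter3_830 (g := fun q => convKer830 f₁ f₂ ζ r (x, q))
      (hc.comp (Continuous.prodMk_right x)) (hasCompactSupport_partial830 hs x)).symm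
  rw [hL, integral_integral_swap (f := fun x q => convKer830 f₁ f₂ ζ r (x, q)) hi]
  -- the function of `q`
  have hK : Integrable (fun q : ℝ × ℝ × X => ∫ x : X, convKer830 f₁ f₂ ζ r (x, q))
      (volume : Measure (ℝ × ℝ × X)) := hi.integral_prod_right
  rw [Measure.volume_eq_prod] at hK ⊢
  rw [integral_prod _ hK]
  have hae := hK.prod_right_ae
  refine integral_congr_ae ?_
  filter_upwards [hae] with a ha
  rw [Measure.volume_eq_prod] at ha ⊢
  rw [integral_prod _ ha]
  refine integral_congr_ae (Filter.Eventually.of_forall fun b => ?_)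
  simp only [inner]
  rw [integral_mul_const]

end Core

/-! ## Parametric integrals (the lemma of helper872 `T7/H872/ConvTest.lean`, Mathlib only) -/

/-- **Parametric integrals of smooth functions.**  If `Φ` is smooth on `E × P`, `ν` is a finite
measure and `σ` is a measurable map with (almost everywhere) bounded values, then
`p ↦ ∫ Φ (σ y, p) dν(y)` is smooth. -/
theorem contDiff_paramInt830 {Y : Type*} [MeasurableSpace Y] (ν : Measure Y)
    [IsFiniteMeasure ν]
    {E P : Type*} [NormedAddCommGroup E] [NormedSpace ℝ E] [FiniteDimensional ℝ E]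
    [MeasurableSpace E] [BorelSpace E]
    [NormedAddCommGroup P] [NormedSpace ℝ P]
    (Φ : E × P → ℂ) (hΦ : ContDiff ℝ ∞ Φ) (σ : Y → E) (hσ : Measurable σ) (R : ℝ)
    (hR : ∀ᵐ y ∂ν, ‖σ y‖ ≤ R) :
    ContDiff ℝ ∞ (fun p : P => ∫ y, Φ (σ y, p) ∂ν) := by
  classical
  set R' : ℝ := max R 0 + 1 with hR'def
  have hR'pos : 0 < R' := by positivity
  have hRR' : R ≤ R' := by
    have := le_max_left R 0
    linarith
  let χ : ContDiffBump (0 : E) := ⟨R', R' + 1, hR'pos, by linarith⟩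
  let lam : Measure E := Measure.map σ ν
  have hlam : IsFiniteMeasure lam := Measure.isFiniteMeasure_map ν σ
  let g : P → E → ℂ := fun p x => ((χ (-x) : ℝ) : ℂ) * Φ (-x, p)
  let f : E → ℂ := fun _ => 1
  let L : ℂ →L[ℝ] ℂ →L[ℝ] ℂ := ContinuousLinearMap.mul ℝ ℂ
  have hgs : ∀ p, ∀ x, p ∈ (univ : Set P) → x ∉ Metric.closedBall (0 : E) (R' + 1) →
      g p x = 0 := by
    intro p x _ hx
    have h1 : χ (-x) = 0 := by
      apply χ.zero_of_le_dist
      rw [Metric.mem_closedBall, not_le, dist_zero_right] at hx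
      rw [dist_zero_right, norm_neg]
      exact hx.le
    simp only [g, h1, Complex.ofReal_zero, zero_mul]
  have hf : LocallyIntegrable f lam := (integrable_const (1 : ℂ)).locallyIntegrable
  have hχ : ContDiff ℝ ∞ (fun x : E => χ x) := χ.contDiff
  have hg : ContDiffOn ℝ ∞ (↿g) ((univ : Set P) ×ˢ (univ : Set E)) := by
    apply ContDiff.contDiffOn
    have h1 : ContDiff ℝ ∞ (fun q : P × E => ((χ (-q.2) : ℝ) : ℂ)) :=
      Complex.ofRealCLM.contDiff.comp (hχ.comp contDiff_snd.neg)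
    have h2 : ContDiff ℝ ∞ (fun q : P × E => Φ (-q.2, q.1)) :=
      hΦ.comp ((contDiff_snd.neg).prodMk contDiff_fst)
    exact h1.mul h2
  have key := contDiffOn_convolution_right_with_param (μ := lam) (f := f) (n := ⊤) L
    (g := g) (s := univ) (k := Metric.closedBall (0 : E) (R' + 1)) isOpen_univ
    (isCompact_closedBall _ _) hgs hf hg
  rw [univ_prod_univ, contDiffOn_univ] at key
  have h2 : ContDiff ℝ ∞ (fun p : P => (p, (0 : E))) := contDiff_id.prodMk contDiff_const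
  have h3 := key.comp h2
  have e : (fun p : P => ∫ y, Φ (σ y, p) ∂ν)
      = (fun q : P × E => (f ⋆[L, lam] g q.1) q.2) ∘ fun p : P => (p, (0 : E)) := by
    funext p
    simp only [Function.comp_apply]
    rw [convolution_def]
    have hfun : (fun t : E => L (f t) (g p (0 - t)))
        = fun t : E => ((χ t : ℝ) : ℂ) * Φ (t, p) := by
      funext t
      simp [L, f, g]
    rw [hfun]
    have hm : AEStronglyMeasurable (fun t : E => ((χ t : ℝ) : ℂ) * Φ (t, p))
        (Measure.map σ ν) := by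
      apply Continuous.aestronglyMeasurable
      have c1 : Continuous (fun t : E => ((χ t : ℝ) : ℂ)) :=
        Complex.continuous_ofReal.comp hχ.continuous
      have c2 : Continuous (fun t : E => Φ (t, p)) :=
        hΦ.continuous.comp (by fun_prop)
      exact c1.mul c2
    rw [integral_map hσ.aemeasurable hm]
    refine integral_congr_ae ?_
    filter_upwards [hR] with y hy
    have h1 : χ (σ y) = 1 := by
      apply χ.one_of_mem_closedBall
      rw [Metric.mem_closedBall, dist_zero_right]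
      exact hy.trans hRR'
    simp [h1]
  rw [e]
  exact h3


/-! ## Appendix: the equation lemmas of the definitions of this file are realised HERE -/

theorem eqns_realised_convCore830 : True := by
  have _h0 := @BddSupp830.eq_1.{0}
  have _h1 := @BddSupp830.eq_def.{0}
  have _h2 := @convKer830.eq_1.{0}
  have _h3 := @convKer830.eq_def.{0}
  trivial

end Fermat.Agent.LT.T6.H830

end

end
-- ===== PACK-END LT/T6/H830/ConvCore.lean

-- ===== PACK-BEGIN LT/T3/H773/AbelCore.lean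
section




/-!
# Row LT, tower T3, station T3.18R, leaf R.1 (helper773, SPARE): real Abel inversion, THE CORE

OFF-MAIN.  Mathlib + the byte-identical assets `LT/T3/H984/{ParamInt,Hadamard,Whitney}.lean`
(helper984) and `LT/T6/H517/Abel.lean` (helper517).

For `E(u, c)` smooth on `ℝ²`, even in `u`, vanishing for `|u| ≥ R` and for `|c| ≥ C`, there is
`H(y, c)`, smooth on the closed half plane `{y ≥ 1}`, vanishing for `y ≥ cosh (R + 1)` and for
`|c| ≥ C`, with `∫_ℝ H(cosh u + s², c) ds = E(u, c)` (`abelCore773`).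

Construction: `L = ∂_u E / sinh u` (`opL984`, smooth and even), `ρ_L(y, c) = L(arcosh y, c)`
(Whitney: smooth on `{y ≥ 1}`), `G(r, c) = ∫_ℝ ρ_L(cosh r + t², c) dt` (smooth on `ℝ²`: a
parametric integral with compact support, `contDiffOn_convolution_right_with_param`; even in
`r`), `H(y, c) = -(1/π) G(arcosh y, c)` (Whitney again).  The identity is the classical Abel
inversion: polar coordinates (`integral_radial517`) and the fundamental theorem of calculus.
-/

set_option autoImplicit false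

noncomputable section

namespace Fermat.Agent.LT.T3.H773

open Set Filter Topology MeasureTheory
open scoped ContDiff Convolution
open Fermat.Agent.LT.T3.H984 Fermat.Agent.LT.T6.H517

/-- `E` vanishes for `R ≤ |u|` and for `C ≤ |c|`. -/
structure IsBox773 (E : ℝ × ℝ → ℂ) (R C : ℝ) : Prop where
  u : ∀ u c : ℝ, R ≤ |u| → E (u, c) = 0
  c : ∀ u c : ℝ, C ≤ |c| → E (u, c) = 0

variable {E : ℝ × ℝ → ℂ} {R C : ℝ}

theorem d1_zero_u773 (hE : ContDiff ℝ ∞ E) (hb : IsBox773 E R C) (u c : ℝ) (hu : R < |u|) :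
    d1_984 E (u, c) = 0 := by
  rw [d1_eq_deriv984 hE]
  have : (fun t : ℝ => E (t, c)) =ᶠ[𝓝 u] fun _ => (0 : ℂ) := by
    have hopen : IsOpen {t : ℝ | R < |t|} := isOpen_lt continuous_const continuous_abs
    filter_upwards [hopen.mem_nhds hu] with t ht
    exact hb.u t c (le_of_lt ht)
  rw [this.deriv_eq]
  simp

theorem d1_zero_c773 (hE : ContDiff ℝ ∞ E) (hb : IsBox773 E R C) (u c : ℝ) (hc : C ≤ |c|) :
    d1_984 E (u, c) = 0 := by
  rw [d1_eq_deriv984 hE]
  have : (fun t : ℝ => E (t, c)) = fun _ => (0 : ℂ) := funext fun t => hb.c t c hc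
  rw [this]
  simp

theorem opL_zero_of_d1_773 (hE : ContDiff ℝ ∞ E) (hev : IsEv984 E) (u c : ℝ) (hu : u ≠ 0)
    (h : d1_984 E (u, c) = 0) : opL984 E (u, c) = 0 := by
  have h1 := opL_mul984 hE hev u c
  rw [h] at h1
  have hs : (Real.sinh u : ℂ) ≠ 0 := by
    rw [Ne, Complex.ofReal_eq_zero, Real.sinh_eq_zero]
    exact hu
  exact (mul_eq_zero.mp h1.symm).resolve_left hs

theorem opL_zero_u773 (hE : ContDiff ℝ ∞ E) (hev : IsEv984 E) (hb : IsBox773 E R C)
    (hR : 0 ≤ R) (u c : ℝ) (hu : R < |u|) : opL984 E (u, c) = 0 :=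
  opL_zero_of_d1_773 hE hev u c
    (by intro h; rw [h, abs_zero] at hu; linarith) (d1_zero_u773 hE hb u c hu)

theorem opL_zero_c773 (hE : ContDiff ℝ ∞ E) (hev : IsEv984 E) (hb : IsBox773 E R C)
    (u c : ℝ) (hc : C ≤ |c|) : opL984 E (u, c) = 0 := by
  have hcont : Continuous fun t : ℝ => opL984 E (t, c) :=
    (opL_contDiff984 hE).continuous.comp (by fun_prop)
  have hd : Dense ({0}ᶜ : Set ℝ) := dense_compl_singleton 0
  have := Continuous.ext_on hd hcont (continuous_const (y := (0 : ℂ)))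
    (fun t ht => opL_zero_of_d1_773 hE hev t c ht (d1_zero_c773 hE hb t c hc))
  exact congrFun this u

/-- `ρ_L(y, c) = L(arcosh y, c)`, `L = ∂_u E / sinh u`. -/
def rL773 (E : ℝ × ℝ → ℂ) : ℝ × ℝ → ℂ := rho984 (opL984 E)

theorem rL_contDiffOn773 (hE : ContDiff ℝ ∞ E) (hev : IsEv984 E) :
    ContDiffOn ℝ ∞ (rL773 E) hp984 :=
  rho_contDiffOn984 (opL_contDiff984 hE) (opL_even984 hE hev)

theorem rL_zero_u773 (hE : ContDiff ℝ ∞ E) (hev : IsEv984 E) (hb : IsBox773 E R C)
    (hR : 0 ≤ R) (y c : ℝ) (hy : Real.cosh (R + 1) ≤ y) : rL773 E (y, c) = 0 := by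
  unfold rL773 rho984 inn984
  apply opL_zero_u773 hE hev hb hR
  have h1 : (1 : ℝ) ≤ y := le_trans (Real.one_le_cosh _) hy
  have h2 : R + 1 ≤ Real.arcosh y := by
    rw [← Real.arcosh_cosh (by linarith : (0 : ℝ) ≤ R + 1)]
    exact (Real.arcosh_le_arcosh (Real.cosh_pos _) (by linarith)).mpr hy
  show R < |Real.arcosh y|
  rw [abs_of_nonneg (Real.arcosh_nonneg h1)]
  linarith

theorem rL_zero_c773 (hE : ContDiff ℝ ∞ E) (hev : IsEv984 E) (hb : IsBox773 E R C)
    (y c : ℝ) (hc : C ≤ |c|) : rL773 E (y, c) = 0 :=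
  opL_zero_c773 hE hev hb _ c hc

/-- The integrand `ρ_L(cosh r + t², c)`. -/
def gfun773 (E : ℝ × ℝ → ℂ) (p : ℝ × ℝ) (t : ℝ) : ℂ := rL773 E (Real.cosh p.1 + t ^ 2, p.2)

theorem gfun_contDiff773 (hE : ContDiff ℝ ∞ E) (hev : IsEv984 E) :
    ContDiff ℝ ∞ (fun q : (ℝ × ℝ) × ℝ => gfun773 E q.1 q.2) := by
  rw [← contDiffOn_univ]
  have hmap : ContDiff ℝ ∞ (fun q : (ℝ × ℝ) × ℝ => (Real.cosh q.1.1 + q.2 ^ 2, q.1.2)) := by
    refine ContDiff.prodMk ?_ (contDiff_snd.comp contDiff_fst)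
    exact (Real.contDiff_cosh.comp (contDiff_fst.comp contDiff_fst)).add (contDiff_snd.pow 2)
  refine (rL_contDiffOn773 hE hev).comp hmap.contDiffOn fun q _ => ⟨?_, mem_univ _⟩
  show (1 : ℝ) ≤ Real.cosh q.1.1 + q.2 ^ 2
  nlinarith [Real.one_le_cosh q.1.1, sq_nonneg q.2]

theorem gfun_zero773 (hE : ContDiff ℝ ∞ E) (hev : IsEv984 E) (hb : IsBox773 E R C)
    (hR : 0 ≤ R) (p : ℝ × ℝ) (t : ℝ)
    (ht : t ∉ Metric.closedBall (0 : ℝ) (Real.cosh (R + 1))) : gfun773 E p t = 0 := by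
  apply rL_zero_u773 hE hev hb hR
  have h0 : Real.cosh (R + 1) < |t| := by
    simpa [Metric.mem_closedBall, Real.dist_eq] using ht
  have h1 : 1 ≤ Real.cosh (R + 1) := Real.one_le_cosh _
  have h2 : Real.cosh (R + 1) ≤ t ^ 2 := by
    rw [← sq_abs]
    nlinarith
  nlinarith [Real.one_le_cosh p.1]

/-- `G(r, c) = ∫_ℝ ρ_L(cosh r + t², c) dt`. -/
def gInt773 (E : ℝ × ℝ → ℂ) (p : ℝ × ℝ) : ℂ := ∫ t : ℝ, gfun773 E p t

/-- The convolution of `1` with the integrand, as a function of the parameter and the point. -/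
def gConv773 (E : ℝ × ℝ → ℂ) (q : (ℝ × ℝ) × ℝ) : ℂ :=
  ((fun _ : ℝ => (1 : ℝ)) ⋆[(ContinuousLinearMap.lsmul ℝ ℝ : ℝ →L[ℝ] ℂ →L[ℝ] ℂ), volume]
    gfun773 E q.1) q.2

theorem gConv_eq773 (E : ℝ × ℝ → ℂ) (p : ℝ × ℝ) : gConv773 E (p, 0) = gInt773 E p := by
  unfold gConv773 gInt773
  rw [MeasureTheory.convolution_def]
  congr 1
  funext t
  simp only [ContinuousLinearMap.lsmul_apply, one_smul, zero_sub, gfun773, neg_sq]

theorem gConv_contDiff773 (hE : ContDiff ℝ ∞ E) (hev : IsEv984 E) (hb : IsBox773 E R C)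
    (hR : 0 ≤ R) : ContDiff ℝ ∞ (gConv773 E) := by
  have hg' : ContDiffOn ℝ ((⊤ : ℕ∞) : WithTop ℕ∞) ↿(gfun773 E) (univ ×ˢ univ) :=
    (gfun_contDiff773 hE hev).contDiffOn
  have key : ContDiffOn ℝ ((⊤ : ℕ∞) : WithTop ℕ∞) (gConv773 E) (univ ×ˢ univ) :=
    contDiffOn_convolution_right_with_param (μ := volume)
      (ContinuousLinearMap.lsmul ℝ ℝ : ℝ →L[ℝ] ℂ →L[ℝ] ℂ) (f := fun _ : ℝ => (1 : ℝ))
      (g := gfun773 E) (s := univ) (k := Metric.closedBall (0 : ℝ) (Real.cosh (R + 1)))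
      isOpen_univ (isCompact_closedBall _ _)
      (fun p x _ hx => gfun_zero773 hE hev hb hR p x hx) (locallyIntegrable_const 1) hg'
  rw [univ_prod_univ] at key
  exact contDiffOn_univ.mp key

theorem gInt_contDiff773 (hE : ContDiff ℝ ∞ E) (hev : IsEv984 E) (hb : IsBox773 E R C)
    (hR : 0 ≤ R) : ContDiff ℝ ∞ (gInt773 E) := by
  have key2 : ContDiff ℝ ∞ (fun p : ℝ × ℝ => gConv773 E (p, (0 : ℝ))) :=
    (gConv_contDiff773 hE hev hb hR).comp (contDiff_id.prodMk contDiff_const)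
  have e : gInt773 E = fun p : ℝ × ℝ => gConv773 E (p, (0 : ℝ)) := by
    funext p
    exact (gConv_eq773 E p).symm
  rw [e]
  exact key2

theorem gInt_even773 (E : ℝ × ℝ → ℂ) : IsEv984 (gInt773 E) := by
  intro u c
  simp only [gInt773, gfun773, Real.cosh_neg]

/-- THE ABEL INVERSE `H(y, c) = -(1/π) ∫_ℝ ρ_L(y + t², c) dt` (for `y ≥ 1`). -/
def hAbel773 (E : ℝ × ℝ → ℂ) (p : ℝ × ℝ) : ℂ :=
  (-(1 / Real.pi) : ℝ) • rho984 (gInt773 E) p

theorem hAbel_contDiffOn773 (hE : ContDiff ℝ ∞ E) (hev : IsEv984 E) (hb : IsBox773 E R C)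
    (hR : 0 ≤ R) : ContDiffOn ℝ ∞ (hAbel773 E) hp984 :=
  (rho_contDiffOn984 (gInt_contDiff773 hE hev hb hR) (gInt_even773 E)).const_smul _

theorem hAbel_eq773 (E : ℝ × ℝ → ℂ) (y c : ℝ) (hy : 1 ≤ y) :
    hAbel773 E (y, c) = (-(1 / Real.pi) : ℝ) • ∫ t : ℝ, rL773 E (y + t ^ 2, c) := by
  simp only [hAbel773, rho984, inn984, gInt773, gfun773, Real.cosh_arcosh hy]

theorem hAbel_zero_u773 (hE : ContDiff ℝ ∞ E) (hev : IsEv984 E) (hb : IsBox773 E R C)
    (hR : 0 ≤ R) (y c : ℝ) (hy : Real.cosh (R + 1) ≤ y) : hAbel773 E (y, c) = 0 := by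
  rw [hAbel_eq773 E y c (le_trans (Real.one_le_cosh _) hy)]
  have : (fun t : ℝ => rL773 E (y + t ^ 2, c)) = fun _ => (0 : ℂ) :=
    funext fun t => rL_zero_u773 hE hev hb hR _ c (by nlinarith [sq_nonneg t])
  rw [this]
  simp

theorem hAbel_zero_c773 (hE : ContDiff ℝ ∞ E) (hev : IsEv984 E) (hb : IsBox773 E R C)
    (y c : ℝ) (hy : 1 ≤ y) (hc : C ≤ |c|) : hAbel773 E (y, c) = 0 := by
  rw [hAbel_eq773 E y c hy]
  have : (fun t : ℝ => rL773 E (y + t ^ 2, c)) = fun _ => (0 : ℂ) :=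
    funext fun t => rL_zero_c773 hE hev hb _ c hc
  rw [this]
  simp

/-- **Abel inversion.** -/
theorem hAbel_abel773 (hE : ContDiff ℝ ∞ E) (hev : IsEv984 E) (hb : IsBox773 E R C)
    (hR : 0 ≤ R) (u c : ℝ) : ∫ s : ℝ, hAbel773 E (Real.cosh u + s ^ 2, c) = E (u, c) := by
  have hy₀ : (1 : ℝ) ≤ Real.cosh u := Real.one_le_cosh u
  set y₀ : ℝ := Real.cosh u with hy₀def
  let Gw : ℝ → ℂ := fun w => rL773 E (y₀ + max w 0, c)
  have hGwc : Continuous Gw := by
    have hmap : Continuous fun w : ℝ => ((y₀ + max w 0, c) : ℝ × ℝ) := by fun_prop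
    refine (rL_contDiffOn773 hE hev).continuousOn.comp_continuous hmap fun w => ⟨?_, mem_univ _⟩
    show (1 : ℝ) ≤ y₀ + max w 0
    linarith [le_max_right w 0]
  have hGwv : VanishesAbove517 Gw (Real.cosh (R + 1)) := by
    intro w hw
    apply rL_zero_u773 hE hev hb hR
    have : w ≤ max w 0 := le_max_left _ _
    linarith
  have hrad := integral_radial517 hGwc hGwv
  have hL : ∫ s : ℝ, hAbel773 E (y₀ + s ^ 2, c)
      = (-(1 / Real.pi) : ℝ) • ∫ s : ℝ, ∫ w : ℝ, Gw (s ^ 2 + w ^ 2) := by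
    rw [← integral_smul]
    congr 1
    funext s
    rw [hAbel_eq773 E _ c (by nlinarith [sq_nonneg s])]
    congr 2
    funext w
    simp only [Gw]
    rw [max_eq_left (by positivity)]
    congr 2
    ring
  rw [hL, hrad]
  have hF : ∫ w in Ioi (0 : ℝ), Gw w = - E (u, c) := by
    have e1 : ∫ w in Ioi (0 : ℝ), Gw w = ∫ w in Ioi (0 : ℝ), rL773 E (y₀ + w, c) := by
      refine setIntegral_congr_fun measurableSet_Ioi fun w hw => ?_
      simp only [Gw, max_eq_left (le_of_lt (mem_Ioi.mp hw))]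
    rw [e1]
    have hderiv : ∀ w ∈ Ioi (0 : ℝ),
        HasDerivAt (fun w => rho984 E (y₀ + w, c)) (rL773 E (y₀ + w, c)) w := by
      intro w hw
      have hp : ((y₀ + w, c) : ℝ × ℝ) ∈ hpo984 :=
        ⟨by show (1 : ℝ) < y₀ + w; linarith [mem_Ioi.mp hw], mem_univ _⟩
      have h1 := rho_hasFDerivAt984 hE hev (y₀ + w, c) hp
      have h2 : HasDerivAt (fun w : ℝ => ((y₀ + w, c) : ℝ × ℝ)) ((1, 0) : ℝ × ℝ) w :=
        ((hasDerivAt_id w).const_add y₀).prodMk (hasDerivAt_const w c)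
      have h3 := h1.comp_hasDerivAt w h2
      have e : der984 E (y₀ + w, c) ((1, 0) : ℝ × ℝ) = rL773 E (y₀ + w, c) := by
        simp [der984, rL773]
      rw [e] at h3
      exact h3
    have hcont : ContinuousWithinAt (fun w => rho984 E (y₀ + w, c)) (Ici 0) 0 := by
      have hmap : Continuous fun w : ℝ => ((y₀ + w, c) : ℝ × ℝ) := by fun_prop
      have : ContinuousOn (fun w => rho984 E (y₀ + w, c)) (Ici 0) :=
        (rho_contOn984 hE.continuous).comp hmap.continuousOn fun w hw =>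
          ⟨by show (1 : ℝ) ≤ y₀ + w; linarith [mem_Ici.mp hw], mem_univ _⟩
      exact this 0 self_mem_Ici
    have hint : IntegrableOn (fun w => rL773 E (y₀ + w, c)) (Ioi 0) := by
      have hGi : IntegrableOn Gw (Ioi 0) := by
        have hK : IntegrableOn Gw (Icc 0 (Real.cosh (R + 1))) :=
          hGwc.continuousOn.integrableOn_compact isCompact_Icc
        refine hK.of_forall_sdiff_eq_zero measurableSet_Ioi ?_
        rintro w ⟨hw, hn⟩
        apply hGwv
        by_contra hcon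
        exact hn ⟨le_of_lt hw, le_of_not_ge hcon⟩
      exact hGi.congr_fun (fun w hw => by
        simp only [Gw, max_eq_left (le_of_lt (mem_Ioi.mp hw))]) measurableSet_Ioi
    have htend : Tendsto (fun w => rho984 E (y₀ + w, c)) atTop (𝓝 0) := by
      apply tendsto_const_nhds.congr'
      filter_upwards [eventually_ge_atTop (Real.cosh (R + 1))] with w hw
      symm
      show E (Real.arcosh (y₀ + w), c) = 0
      apply hb.u
      have h1 : (1 : ℝ) ≤ y₀ + w := by linarith [Real.one_le_cosh (R + 1)]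
      have h2 : R + 1 ≤ Real.arcosh (y₀ + w) := by
        rw [← Real.arcosh_cosh (by linarith : (0 : ℝ) ≤ R + 1)]
        exact (Real.arcosh_le_arcosh (Real.cosh_pos _) (by linarith)).mpr (by linarith)
      rw [abs_of_nonneg (Real.arcosh_nonneg h1)]
      linarith
    rw [integral_Ioi_of_hasDerivAt_of_tendsto hcont hderiv hint htend]
    simp only [add_zero, zero_sub]
    congr 1
    show E (Real.arcosh (Real.cosh u), c) = E (u, c)
    rcases le_total 0 u with h | h
    · rw [Real.arcosh_cosh h]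
    · rw [← Real.cosh_neg, Real.arcosh_cosh (by linarith), hev]
  rw [hF, smul_smul]
  have : (-(1 / Real.pi) * Real.pi : ℝ) = -1 := by
    field_simp
  rw [this]
  simp

/-- **THE CORE: real Abel inversion with a parameter.** -/
theorem abelCore773 (hE : ContDiff ℝ ∞ E) (hev : IsEv984 E) (hb : IsBox773 E R C)
    (hR : 0 ≤ R) :
    ∃ H : ℝ × ℝ → ℂ, ContDiffOn ℝ ∞ H hp984 ∧
      (∀ y c : ℝ, Real.cosh (R + 1) ≤ y → H (y, c) = 0) ∧
      (∀ y c : ℝ, 1 ≤ y → C ≤ |c| → H (y, c) = 0) ∧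
      ∀ u c : ℝ, ∫ s : ℝ, H (Real.cosh u + s ^ 2, c) = E (u, c) :=
  ⟨hAbel773 E, hAbel_contDiffOn773 hE hev hb hR, hAbel_zero_u773 hE hev hb hR,
    hAbel_zero_c773 hE hev hb, hAbel_abel773 hE hev hb hR⟩

end Fermat.Agent.LT.T3.H773

end

end
-- ===== PACK-END LT/T3/H773/AbelCore.lean

-- ===== PACK-BEGIN LT/T7/H698/SphConvCore.lean
section



/-!
# Row LT, tower T7, leaf T7.L2.1.H2a.A.3 M.8 `SphConvC445` (helper698): the abstract core

OFF-MAIN.  Mathlib + `LT/T6/Spec.lean` (`T6.convInt` only).  A locally compact second countable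
Hausdorff group `H` with its Borel `σ`-algebra, a measure `μ` finite on compact sets, and the
two-parameter mean in the right variable

    mean2_sc698 a b c d s y Φ g = ∫ α in a..b, ∫ β in c..d, Φ (g * y α β) * s β.

* `swap2_sc698`: Fubini for `∫ x, ∫ α, ∫ β` (jointly continuous, support in `x` in one compact
  set);
* `conv_mean_sc698` (F1): `A ⋆ (M B) = M (A ⋆ B)`;
* `mean_conv_sc698` (F2): `(M A) ⋆ B = A ⋆ (M B)` if `y = k a`, `y' = a k⁻¹`, `A` right invariant
  under `k`, `B` left invariant under `k`, `μ` right invariant, and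
  `(M B)(h) = ∫∫ B(y' h) s`.
-/

set_option autoImplicit false

open MeasureTheory Set Function

noncomputable section

namespace Fermat.Agent.LT.T7.H698

open Fermat.Agent.LT.T6

section Swap

variable {X : Type*} [TopologicalSpace X] [T2Space X] [SecondCountableTopology X]
  [MeasurableSpace X] [BorelSpace X]

/-- A jointly continuous function on `ℝ × X` whose support in `X` lies in one compact set is
integrable on `[a, b] × X`. -/
theorem integrable_uncurry_sc698 (μ : Measure X) [IsFiniteMeasureOnCompacts μ] [SFinite μ]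
    (a b : ℝ) {f : ℝ → X → ℂ} (hf : Continuous (uncurry f)) {K : Set X} (hK : IsCompact K)
    (hfK : ∀ t x, x ∉ K → f t x = 0) :
    Integrable (uncurry f) ((volume.restrict (uIoc a b)).prod μ) := by
  have h1 : IntegrableOn (uncurry f) (Icc (min a b) (max a b) ×ˢ K) (volume.prod μ) :=
    hf.continuousOn.integrableOn_compact (isCompact_Icc.prod hK)
  have h2 : IntegrableOn (uncurry f) (uIoc a b ×ˢ univ) (volume.prod μ) := by
    refine h1.of_forall_sdiff_eq_zero (measurableSet_uIoc.prod MeasurableSet.univ) ?_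
    rintro ⟨t, x⟩ ⟨ht, hx⟩
    apply hfK
    intro hxK
    apply hx
    refine ⟨?_, hxK⟩
    have ht' : t ∈ uIoc a b := ht.1
    exact ⟨ht'.1.le, ht'.2⟩
  rwa [IntegrableOn, ← Measure.prod_restrict, Measure.restrict_univ] at h2

/-- Fubini: `∫ x, ∫ t in a..b, F x t = ∫ t in a..b, ∫ x, F x t`. -/
theorem swap1_sc698 (μ : Measure X) [IsFiniteMeasureOnCompacts μ] [SFinite μ]
    (a b : ℝ) {F : X → ℝ → ℂ} (hF : Continuous (uncurry F)) {K : Set X} (hK : IsCompact K)
    (hFK : ∀ x t, x ∉ K → F x t = 0) :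
    ∫ x, (∫ t in a..b, F x t) ∂μ = ∫ t in a..b, (∫ x, F x t ∂μ) := by
  have hf : Continuous (uncurry fun (t : ℝ) (x : X) => F x t) :=
    hF.comp (continuous_snd.prodMk continuous_fst)
  exact (intervalIntegral_integral_swap
    (integrable_uncurry_sc698 μ a b hf hK fun t x hx => hFK x t hx)).symm

/-- Fubini: `∫ x, ∫ α, ∫ β, F x α β = ∫ α, ∫ β, ∫ x, F x α β`. -/
theorem swap2_sc698 (μ : Measure X) [IsFiniteMeasureOnCompacts μ] [SFinite μ]
    (a b c d : ℝ) {F : X → ℝ → ℝ → ℂ}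
    (hF : Continuous fun p : X × ℝ × ℝ => F p.1 p.2.1 p.2.2) {K : Set X} (hK : IsCompact K)
    (hFK : ∀ x α β, x ∉ K → F x α β = 0) :
    ∫ x, (∫ α in a..b, ∫ β in c..d, F x α β) ∂μ
      = ∫ α in a..b, ∫ β in c..d, (∫ x, F x α β ∂μ) := by
  have hG : Continuous (uncurry fun (x : X) (α : ℝ) => ∫ β in c..d, F x α β) := by
    have h1 : Continuous (uncurry fun (q : X × ℝ) (β : ℝ) => F q.1 q.2 β) :=
      hF.comp ((continuous_fst.comp continuous_fst).prodMk
        ((continuous_snd.comp continuous_fst).prodMk continuous_snd))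
    exact intervalIntegral.continuous_parametric_intervalIntegral_of_continuous' h1 c d
  rw [swap1_sc698 μ a b hG hK (fun x α hx => by simp only [hFK x α _ hx,
    intervalIntegral.integral_zero])]
  congr 1
  funext α
  have h2 : Continuous (uncurry fun (x : X) (β : ℝ) => F x α β) :=
    hF.comp (continuous_fst.prodMk (continuous_const.prodMk continuous_snd))
  exact swap1_sc698 μ c d h2 hK (fun x β hx => hFK x α β hx)

end Swap

section Mean

variable {H : Type} [Group H]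

/-- The two-parameter mean in the right variable. -/
def mean2_sc698 (a b c d : ℝ) (s : ℝ → ℂ) (y : ℝ → ℝ → H) (Φ : H → ℂ) (g : H) : ℂ :=
  ∫ α in a..b, ∫ β in c..d, Φ (g * y α β) * s β

theorem mean2_apply_sc698 (a b c d : ℝ) (s : ℝ → ℂ) (y : ℝ → ℝ → H) (Φ : H → ℂ) (g : H) :
    mean2_sc698 a b c d s y Φ g = ∫ α in a..b, ∫ β in c..d, Φ (g * y α β) * s β := rfl

variable [TopologicalSpace H] [IsTopologicalGroup H] [T2Space H] [SecondCountableTopology H]
  [MeasurableSpace H] [BorelSpace H]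

/-- **F1**: `A ⋆ (M B) = M (A ⋆ B)`. -/
theorem conv_mean_sc698 (μ : Measure H) [IsFiniteMeasureOnCompacts μ] [SFinite μ]
    (a b c d : ℝ) {s : ℝ → ℂ} (hs : Continuous s) {y : ℝ → ℝ → H}
    (hy : Continuous fun p : ℝ × ℝ => y p.1 p.2) {A B : H → ℂ} (hA : Continuous A)
    (hAs : HasCompactSupport A) (hB : Continuous B) (g : H) :
    convInt μ A (mean2_sc698 a b c d s y B) g = mean2_sc698 a b c d s y (convInt μ A B) g := by
  show ∫ x, A x * (∫ α in a..b, ∫ β in c..d, B (x⁻¹ * g * y α β) * s β) ∂μ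
    = ∫ α in a..b, ∫ β in c..d, (∫ x, A x * B (x⁻¹ * (g * y α β)) ∂μ) * s β
  have e1 : ∀ x : H, A x * (∫ α in a..b, ∫ β in c..d, B (x⁻¹ * g * y α β) * s β)
      = ∫ α in a..b, ∫ β in c..d, A x * (B (x⁻¹ * g * y α β) * s β) := by
    intro x
    rw [← intervalIntegral.integral_const_mul]
    congr 1
    funext α
    rw [← intervalIntegral.integral_const_mul]
  simp only [e1]
  have hF : Continuous fun p : H × ℝ × ℝ => A p.1 * (B (p.1⁻¹ * g * y p.2.1 p.2.2) * s p.2.2) := by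
    refine (hA.comp continuous_fst).mul ((hB.comp ?_).mul (hs.comp (continuous_snd.comp
      continuous_snd)))
    exact ((continuous_inv.comp continuous_fst).mul continuous_const).mul
      (hy.comp continuous_snd)
  rw [swap2_sc698 μ a b c d hF hAs (fun x α β hx => by
    rw [image_eq_zero_of_notMem_tsupport hx, zero_mul])]
  congr 1
  funext α
  congr 1
  funext β
  rw [← integral_mul_const]
  congr 1
  funext x
  rw [mul_assoc, mul_assoc]

omit [T2Space H] [SecondCountableTopology H] in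
/-- The two inner integrals of F2 agree (`μ` right invariant). -/
theorem inner_eq_sc698 (μ : Measure H) [μ.IsMulRightInvariant] {A B : H → ℂ} (k a g : H)
    (hA : ∀ x, A (x * k) = A x) (hB : ∀ h, B (k * h) = B h) :
    ∫ x, A (x * (k * a)) * B (x⁻¹ * g) ∂μ = ∫ x, A x * B (a * k⁻¹ * (x⁻¹ * g)) ∂μ := by
  have h1 : ∫ x, A (x * (k * a)) * B (x⁻¹ * g) ∂μ = ∫ x, A x * B (a * (x⁻¹ * g)) ∂μ := by
    rw [← integral_mul_right_eq_self (fun x => A (x * (k * a)) * B (x⁻¹ * g)) (k * a)⁻¹]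
    congr 1
    funext x
    have e1 : x * (k * a)⁻¹ * (k * a) = x := by group
    have e2 : (x * (k * a)⁻¹)⁻¹ * g = k * (a * (x⁻¹ * g)) := by group
    rw [e1, e2, hB]
  have h2 : ∫ x, A x * B (a * k⁻¹ * (x⁻¹ * g)) ∂μ = ∫ x, A x * B (a * (x⁻¹ * g)) ∂μ := by
    rw [← integral_mul_right_eq_self (fun x => A x * B (a * k⁻¹ * (x⁻¹ * g))) k⁻¹]
    congr 1
    funext x
    have e1 : A (x * k⁻¹) = A x := by
      have := hA (x * k⁻¹)
      rw [inv_mul_cancel_right] at this
      exact this.symm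
    have e2 : a * k⁻¹ * ((x * k⁻¹)⁻¹ * g) = a * (x⁻¹ * g) := by group
    rw [e1, e2]
  rw [h1, h2]

/-- **F2**: `(M A) ⋆ B = A ⋆ (M B)`. -/
theorem mean_conv_sc698 (μ : Measure H) [IsFiniteMeasureOnCompacts μ] [SFinite μ]
    [μ.IsMulRightInvariant]
    (a b c d : ℝ) {s : ℝ → ℂ} (hs : Continuous s) {y y' : ℝ → ℝ → H}
    (hy : Continuous fun p : ℝ × ℝ => y p.1 p.2)
    (hy' : Continuous fun p : ℝ × ℝ => y' p.1 p.2)
    {A B : H → ℂ} (hA : Continuous A) (hAs : HasCompactSupport A) (hB : Continuous B)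
    (hBs : HasCompactSupport B)
    (hyy : ∀ α β : ℝ, ∃ k t : H, y α β = k * t ∧ y' α β = t * k⁻¹ ∧ (∀ x, A (x * k) = A x) ∧
      ∀ h, B (k * h) = B h)
    (hMB : ∀ h : H, mean2_sc698 a b c d s y B h
      = ∫ α in a..b, ∫ β in c..d, B (y' α β * h) * s β) (g : H) :
    convInt μ (mean2_sc698 a b c d s y A) B g = convInt μ A (mean2_sc698 a b c d s y B) g := by
  -- the left side
  have hL : convInt μ (mean2_sc698 a b c d s y A) B g
      = ∫ α in a..b, ∫ β in c..d, (∫ x, A (x * y α β) * B (x⁻¹ * g) ∂μ) * s β := by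
    show ∫ x, (∫ α in a..b, ∫ β in c..d, A (x * y α β) * s β) * B (x⁻¹ * g) ∂μ = _
    have e1 : ∀ x : H, (∫ α in a..b, ∫ β in c..d, A (x * y α β) * s β) * B (x⁻¹ * g)
        = ∫ α in a..b, ∫ β in c..d, A (x * y α β) * s β * B (x⁻¹ * g) := by
      intro x
      rw [← intervalIntegral.integral_mul_const]
      congr 1
      funext α
      rw [← intervalIntegral.integral_mul_const]
    simp only [e1]
    have hF : Continuous fun p : H × ℝ × ℝ =>
        A (p.1 * y p.2.1 p.2.2) * s p.2.2 * B (p.1⁻¹ * g) := by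
      refine ((hA.comp (continuous_fst.mul (hy.comp continuous_snd))).mul
        (hs.comp (continuous_snd.comp continuous_snd))).mul (hB.comp ?_)
      exact (continuous_inv.comp continuous_fst).mul continuous_const
    have hK : IsCompact ((fun h : H => g * h⁻¹) '' tsupport B) :=
      hBs.isCompact.image (continuous_const.mul continuous_inv)
    rw [swap2_sc698 μ a b c d hF hK (fun x α β hx => by
      have hx' : x⁻¹ * g ∉ tsupport B := by
        intro hmem
        apply hx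
        refine ⟨x⁻¹ * g, hmem, ?_⟩
        show g * (x⁻¹ * g)⁻¹ = x
        group
      rw [image_eq_zero_of_notMem_tsupport hx', mul_zero])]
    congr 1
    funext α
    congr 1
    funext β
    rw [← integral_mul_const]
    congr 1
    funext x
    ring
  -- the right side
  have hR : convInt μ A (mean2_sc698 a b c d s y B) g
      = ∫ α in a..b, ∫ β in c..d, (∫ x, A x * B (y' α β * (x⁻¹ * g)) ∂μ) * s β := by
    show ∫ x, A x * mean2_sc698 a b c d s y B (x⁻¹ * g) ∂μ = _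
    simp only [hMB]
    have e1 : ∀ x : H, A x * (∫ α in a..b, ∫ β in c..d, B (y' α β * (x⁻¹ * g)) * s β)
        = ∫ α in a..b, ∫ β in c..d, A x * (B (y' α β * (x⁻¹ * g)) * s β) := by
      intro x
      rw [← intervalIntegral.integral_const_mul]
      congr 1
      funext α
      rw [← intervalIntegral.integral_const_mul]
    simp only [e1]
    have hF : Continuous fun p : H × ℝ × ℝ =>
        A p.1 * (B (y' p.2.1 p.2.2 * (p.1⁻¹ * g)) * s p.2.2) := by
      refine (hA.comp continuous_fst).mul ((hB.comp ?_).mul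
        (hs.comp (continuous_snd.comp continuous_snd)))
      exact (hy'.comp continuous_snd).mul
        ((continuous_inv.comp continuous_fst).mul continuous_const)
    rw [swap2_sc698 μ a b c d hF hAs (fun x α β hx => by
      rw [image_eq_zero_of_notMem_tsupport hx, zero_mul])]
    congr 1
    funext α
    congr 1
    funext β
    rw [← integral_mul_const]
    congr 1
    funext x
    ring
  rw [hL, hR]
  congr 1
  funext α
  congr 1
  funext β
  obtain ⟨k, t, h1, h2, h3, h4⟩ := hyy α β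
  rw [h1, h2, inner_eq_sc698 μ k t g h3 h4]

end Mean

end Fermat.Agent.LT.T7.H698

end

end
-- ===== PACK-END LT/T7/H698/SphConvCore.lean

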