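import Mathlib
import Fermat.Agent.Pack.LT3.E3L0
import Fermat.Agent.Pack.LT3.E5L1
import Fermat.Agent.Pack.LT3.E3L1
import Fermat.Agent.Pack.LT3.E3L3
import Fermat.Agent.Pack.LT3.E4L3
import Fermat.Agent.Pack.LT3.E0L3
import Fermat.Agent.Pack.LT3.E3L2
import Fermat.Agent.Pack.LT2.E0L1
import Fermat.Agent.Pack.LT3.E1L1
import Fermat.Agent.Pack.LT3.E4L2
import Fermat.Agent.Pack.LT3.E6L1
import Fermat.Agent.Pack.LT3.E6L3
import Fermat.Agent.Pack.LT3.E9L3
import Fermat.Agent.Pack.LT3.E5L2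
import Fermat.Agent.Pack.LT3.E1L3
import Fermat.Agent.Pack.LT3.E30L1
import Fermat.Agent.Pack.LT3.E30L2
import Fermat.Agent.Pack.LT3.E30L3

set_option linter.all false

-- ===== PACK-BEGIN LT/T6/H137/Closed.lean
section








/-!
# Row LT, tower T6, leaf T6.00b `HasseNormQC`: integration (helper137, OFF-MAIN)

Six of the eight leaves of the cut of helper438 are CLOSED: five by the vendored byte-identical
files of their owners (helper157 QuadGen 63e1b826, helper166 NormF a57b113d, helper857 AlgB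
1c7e2b3a, helper439 LocMul 1767385d, helper793 AlgC f86e4947), `LocalAC438` by
`H137/LocalA.lean`.  What is still open: `LocalCC438`, `CoreC438`.
-/

set_option autoImplicit false

namespace Fermat.Agent.LT.T6.H137

open Fermat.Agent.LT.T6

/-- The leaves of T6.00b which are still open. -/
structure Open137 : Prop where
  localC : H438.LocalCC438
  core : H438.CoreC438

/-- **T6.00b from the open leaves.** -/
theorem hasseNormQC_of_open137 (h : Open137) : HasseNormQC :=
  hasseNormQC_of_leaves137 H157.quadGenC157 localAC137 H166.normFC166 H857.algBC857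
    H439.locMulC_h439 h.localC h.core H793.algCC793

end Fermat.Agent.LT.T6.H137

end
-- ===== PACK-END LT/T6/H137/Closed.lean

-- ===== PACK-BEGIN LT/T3/Push/Kit.lean
section


/-!
# Row LT, tower T3, station T3.19 (helper14): the push-forward of the core -- THE ENGINE

OFF-MAIN.  Complete proofs, MATHLIB ONLY.  ADDITIVE (new names only, namespace `T3.Push`).

An "integration kit" on an additive commutative group `G` (a translation invariant linear
functional `I` on a class `F` of functions, a class `R` of test functions stable under the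
convolution of `I`), the telescoping state `Tel` of a finite family of pure tensors on an active
set of coordinates, and THE MERGE: the convolution of two coordinates preserves the telescoping
state (`Tel.merge`).
-/

set_option autoImplicit false
set_option linter.unusedSectionVars false

noncomputable section

namespace Fermat.Agent.LT.T3.Push

/-- An integration kit on `G`: a functional `I`, linear and translation invariant on the class
`F`; a class `R` of test functions whose convolution integrands are in `F` and whose convolutions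
are in `R`. -/
structure IntKit (G : Type) [AddCommGroup G] where
  /-- the integral -/
  I : (G → ℂ) → ℂ
  /-- the integrable functions -/
  F : (G → ℂ) → Prop
  /-- the test functions -/
  R : (G → ℂ) → Prop
  I_zero : I (fun _ => 0) = 0
  I_add : ∀ f g : G → ℂ, F f → F g → I (fun u => f u + g u) = I f + I g
  I_smul : ∀ (c : ℂ) (f : G → ℂ), F f → I (fun u => c * f u) = c * I f
  I_trans : ∀ (f : G → ℂ) (h : G), F f → I (fun u => f (u + h)) = I f
  F_zero : F (fun _ => 0)
  F_add : ∀ f g : G → ℂ, F f → F g → F (fun u => f u + g u)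
  F_smul : ∀ (c : ℂ) (f : G → ℂ), F f → F (fun u => c * f u)
  F_trans : ∀ (f : G → ℂ) (h : G), F f → F (fun u => f (u + h))
  F_conv : ∀ β γ : G → ℂ, R β → R γ → ∀ y : G, F (fun u => β u * γ (y - u))
  R_conv : ∀ β γ : G → ℂ, R β → R γ → R (fun y => I (fun u => β u * γ (y - u)))

section Kit

variable {G : Type} [AddCommGroup G] (kit : IntKit G)

/-- The convolution of the kit: `(β ⋆ γ)(y) = I(u ↦ β(u) γ(y - u))`. -/
def IntKit.conv (β γ : G → ℂ) : G → ℂ :=
  fun y => kit.I (fun u => β u * γ (y - u))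

/-- Left nested iterated convolution: `b 0 ⋆ b 1 ⋆ ⋯ ⋆ b j`. -/
def IntKit.convL {G : Type} [AddCommGroup G] (kit : IntKit G) (b : ℕ → G → ℂ) : ℕ → G → ℂ
  | 0 => b 0
  | (j + 1) => kit.conv (IntKit.convL kit b j) (b (j + 1))

theorem IntKit.R_convL (b : ℕ → G → ℂ) (n : ℕ) (h : ∀ j ≤ n, kit.R (b j)) :
    kit.R (kit.convL b n) := by
  induction n with
  | zero => exact h 0 le_rfl
  | succ n ih =>
    exact kit.R_conv _ _ (ih fun j hj => h j (Nat.le_succ_of_le hj)) (h (n + 1) le_rfl)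

theorem IntKit.F_sum {α : Type} (s : Finset α) (f : α → G → ℂ)
    (h : ∀ i ∈ s, kit.F (f i)) : kit.F (fun u => ∑ i ∈ s, f i u) := by
  classical
  induction s using Finset.induction_on with
  | empty => simpa using kit.F_zero
  | insert i s hi ih =>
    have h1 : kit.F (f i) := h i (Finset.mem_insert_self i s)
    have h2 : kit.F (fun u => ∑ i ∈ s, f i u) :=
      ih fun j hj => h j (Finset.mem_insert_of_mem hj)
    have := kit.F_add _ _ h1 h2
    have e : (fun u => ∑ j ∈ insert i s, f j u) = fun u => f i u + ∑ j ∈ s, f j u := by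
      funext u; rw [Finset.sum_insert hi]
    rw [e]; exact this

theorem IntKit.I_sum {α : Type} (s : Finset α) (f : α → G → ℂ)
    (h : ∀ i ∈ s, kit.F (f i)) :
    kit.I (fun u => ∑ i ∈ s, f i u) = ∑ i ∈ s, kit.I (f i) := by
  classical
  induction s using Finset.induction_on with
  | empty => simpa using kit.I_zero
  | insert i s hi ih =>
    have h1 : kit.F (f i) := h i (Finset.mem_insert_self i s)
    have h2 : kit.F (fun u => ∑ i ∈ s, f i u) :=
      kit.F_sum s f fun j hj => h j (Finset.mem_insert_of_mem hj)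
    have e : (fun u => ∑ j ∈ insert i s, f j u) = fun u => f i u + ∑ j ∈ s, f j u := by
      funext u; rw [Finset.sum_insert hi]
    rw [e, kit.I_add _ _ h1 h2, ih fun j hj => h j (Finset.mem_insert_of_mem hj),
      Finset.sum_insert hi]

/-- If `I f ≠ 0` then `f` does not vanish identically. -/
theorem IntKit.exists_ne_of_I_ne (f : G → ℂ) (h : kit.I f ≠ 0) : ∃ u, f u ≠ 0 := by
  by_contra hc
  have : f = fun _ => 0 := by
    funext u
    by_contra hu
    exact hc ⟨u, hu⟩
  exact h (by rw [this]; exact kit.I_zero)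

end Kit

/-! ## The telescoping state -/

section State

variable {G : Type} [AddCommGroup G] (kit : IntKit G) {Z : Type} [AddCommGroup Z]
  {ι : Type} [DecidableEq ι] {I : Type} [Fintype I]

/-- The sum of pure tensors on the active set `S` with the spectator factors `g a`. -/
def psi (g : I → Z → ℂ) (S : Finset ι) (B : I → ι → G → ℂ) (z : Z) (x : ι → G) : ℂ :=
  ∑ a, g a z * ∏ i ∈ S, B a i (x i)

/-- THE TELESCOPING STATE: the factors are test functions, the total degree
`lZ z + ∑_{i ∈ S} lG (x i)` of a point of the support lies in the finite set `Bd`, the total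
degree of the direction `(cZ, c)` is not zero, and the sum telescopes along `(cZ, c)`. -/
structure Tel (lZ : Z →+ ℤ) (lG : G →+ ℤ) (g : I → Z → ℂ) (cZ : Z) (Bd : Finset ℤ)
    (S : Finset ι) (B : I → ι → G → ℂ) (c : ι → G) : Prop where
  reg : ∀ a, ∀ i ∈ S, kit.R (B a i)
  supp : ∀ (z : Z) (x : ι → G), psi g S B z x ≠ 0 → lZ z + ∑ i ∈ S, lG (x i) ∈ Bd
  deg : lZ cZ + ∑ i ∈ S, lG (c i) ≠ 0
  tel : ∀ (z : Z) (x : ι → G),
    HasSum (fun j : ℤ => psi g S B (z + j • cZ) (fun i => x i + j • c i)) 0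

variable {kit}

/-- The substitution of the merge of `b` into `a₀`: `x_{a₀} ↦ u`, `x_b ↦ x_{a₀} - u`. -/
def sig (a₀ b : ι) (x : ι → G) (u : G) : ι → G :=
  Function.update (Function.update x a₀ u) b (x a₀ - u)

theorem sig_a {a₀ b : ι} (hab : a₀ ≠ b) (x : ι → G) (u : G) : sig a₀ b x u a₀ = u := by
  unfold sig
  rw [Function.update_of_ne hab, Function.update_self]

theorem sig_b {a₀ b : ι} (x : ι → G) (u : G) : sig a₀ b x u b = x a₀ - u := by
  unfold sig
  rw [Function.update_self]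

theorem sig_ne {a₀ b i : ι} (h1 : i ≠ a₀) (h2 : i ≠ b) (x : ι → G) (u : G) :
    sig a₀ b x u i = x i := by
  unfold sig
  rw [Function.update_of_ne h2, Function.update_of_ne h1]

/-- Splitting of a product over `S` at `a₀`, `b`. -/
theorem prod_split {S : Finset ι} {a₀ b : ι} (ha : a₀ ∈ S) (hb : b ∈ S) (hab : a₀ ≠ b)
    (h : ι → ℂ) :
    ∏ i ∈ S, h i = (∏ i ∈ (S.erase b).erase a₀, h i) * (h a₀ * h b) := by
  have ha' : a₀ ∈ S.erase b := Finset.mem_erase.2 ⟨hab, ha⟩
  rw [← Finset.mul_prod_erase S h hb, ← Finset.mul_prod_erase (S.erase b) h ha']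
  ring

theorem sum_split {S : Finset ι} {a₀ b : ι} (ha : a₀ ∈ S) (hb : b ∈ S) (hab : a₀ ≠ b)
    (h : ι → ℤ) :
    ∑ i ∈ S, h i = (∑ i ∈ (S.erase b).erase a₀, h i) + (h a₀ + h b) := by
  have ha' : a₀ ∈ S.erase b := Finset.mem_erase.2 ⟨hab, ha⟩
  rw [← Finset.add_sum_erase S h hb, ← Finset.add_sum_erase (S.erase b) h ha']
  ring

theorem sum_split' {S : Finset ι} {a₀ b : ι} (ha : a₀ ∈ S) (hab : a₀ ≠ b)
    (h : ι → ℤ) :
    ∑ i ∈ S.erase b, h i = (∑ i ∈ (S.erase b).erase a₀, h i) + h a₀ := by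
  have ha' : a₀ ∈ S.erase b := Finset.mem_erase.2 ⟨hab, ha⟩
  rw [← Finset.add_sum_erase (S.erase b) h ha']
  ring

theorem prod_split' {S : Finset ι} {a₀ b : ι} (ha : a₀ ∈ S) (hab : a₀ ≠ b)
    (h : ι → ℂ) :
    ∏ i ∈ S.erase b, h i = (∏ i ∈ (S.erase b).erase a₀, h i) * h a₀ := by
  have ha' : a₀ ∈ S.erase b := Finset.mem_erase.2 ⟨hab, ha⟩
  rw [← Finset.mul_prod_erase (S.erase b) h ha']
  ring

/-- The total degree of the substituted point. -/
theorem sum_lG_sig (lG : G →+ ℤ) {S : Finset ι} {a₀ b : ι} (ha : a₀ ∈ S) (hb : b ∈ S)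
    (hab : a₀ ≠ b) (x : ι → G) (u : G) :
    ∑ i ∈ S, lG (sig a₀ b x u i) = ∑ i ∈ S.erase b, lG (x i) := by
  rw [sum_split ha hb hab, sum_split' ha hab, sig_a hab, sig_b]
  have : ∑ i ∈ (S.erase b).erase a₀, lG (sig a₀ b x u i)
      = ∑ i ∈ (S.erase b).erase a₀, lG (x i) := by
    refine Finset.sum_congr rfl fun i hi => ?_
    have h1 : i ≠ a₀ := (Finset.mem_erase.1 hi).1
    have h2 : i ≠ b := (Finset.mem_erase.1 (Finset.mem_erase.1 hi).2).1
    rw [sig_ne h1 h2]
  rw [this, map_sub]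
  ring

/-- (K1) the integrand of the merge. -/
theorem psi_sig (g : I → Z → ℂ) {S : Finset ι} {a₀ b : ι} (ha : a₀ ∈ S) (hb : b ∈ S)
    (hab : a₀ ≠ b) (B : I → ι → G → ℂ) (z : Z) (x : ι → G) (u : G) :
    psi g S B z (sig a₀ b x u)
      = ∑ a, (g a z * ∏ i ∈ (S.erase b).erase a₀, B a i (x i))
          * (B a a₀ u * B a b (x a₀ - u)) := by
  unfold psi
  refine Finset.sum_congr rfl fun a _ => ?_
  rw [prod_split ha hb hab, sig_a hab, sig_b]
  have : ∏ i ∈ (S.erase b).erase a₀, B a i (sig a₀ b x u i)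
      = ∏ i ∈ (S.erase b).erase a₀, B a i (x i) := by
    refine Finset.prod_congr rfl fun i hi => ?_
    have h1 : i ≠ a₀ := (Finset.mem_erase.1 hi).1
    have h2 : i ≠ b := (Finset.mem_erase.1 (Finset.mem_erase.1 hi).2).1
    rw [sig_ne h1 h2]
  rw [this]
  ring

/-- (K2) the integrand of the merge is integrable. -/
theorem F_psi_sig (g : I → Z → ℂ) {S : Finset ι} {a₀ b : ι} (ha : a₀ ∈ S) (hb : b ∈ S)
    (hab : a₀ ≠ b) (B : I → ι → G → ℂ) (hR : ∀ a, ∀ i ∈ S, kit.R (B a i)) (z : Z)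
    (x : ι → G) :
    kit.F (fun u => psi g S B z (sig a₀ b x u)) := by
  have e : (fun u => psi g S B z (sig a₀ b x u))
      = fun u => ∑ a ∈ (Finset.univ : Finset I),
          (g a z * ∏ i ∈ (S.erase b).erase a₀, B a i (x i))
            * (B a a₀ u * B a b (x a₀ - u)) := by
    funext u; exact psi_sig g ha hb hab B z x u
  rw [e]
  refine kit.F_sum _ _ fun a _ => ?_
  exact kit.F_smul _ _ (kit.F_conv _ _ (hR a a₀ ha) (hR a b hb) (x a₀))

/-- (K3) the integral of the merge is the merged sum of pure tensors. -/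
theorem I_psi_sig (g : I → Z → ℂ) {S : Finset ι} {a₀ b : ι} (ha : a₀ ∈ S) (hb : b ∈ S)
    (hab : a₀ ≠ b) (B : I → ι → G → ℂ) (hR : ∀ a, ∀ i ∈ S, kit.R (B a i)) (z : Z)
    (x : ι → G) :
    kit.I (fun u => psi g S B z (sig a₀ b x u))
      = psi g (S.erase b)
          (fun a => Function.update (B a) a₀ (kit.conv (B a a₀) (B a b))) z x := by
  have e : (fun u => psi g S B z (sig a₀ b x u))
      = fun u => ∑ a ∈ (Finset.univ : Finset I),
          (g a z * ∏ i ∈ (S.erase b).erase a₀, B a i (x i))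
            * (B a a₀ u * B a b (x a₀ - u)) := by
    funext u; exact psi_sig g ha hb hab B z x u
  rw [e, kit.I_sum _ _ fun a _ =>
    kit.F_smul _ _ (kit.F_conv _ _ (hR a a₀ ha) (hR a b hb) (x a₀))]
  unfold psi
  refine Finset.sum_congr rfl fun a _ => ?_
  beta_reduce
  rw [kit.I_smul _ _ (kit.F_conv _ _ (hR a a₀ ha) (hR a b hb) (x a₀)),
    prod_split' ha hab, Function.update_self]
  have : ∏ i ∈ (S.erase b).erase a₀,
        Function.update (B a) a₀ (kit.conv (B a a₀) (B a b)) i (x i)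
      = ∏ i ∈ (S.erase b).erase a₀, B a i (x i) := by
    refine Finset.prod_congr rfl fun i hi => ?_
    have h1 : i ≠ a₀ := (Finset.mem_erase.1 hi).1
    rw [Function.update_of_ne h1]
  rw [this]
  unfold IntKit.conv
  ring

/-- **THE MERGE.**  The convolution of the coordinate `b` into the coordinate `a₀` preserves the
telescoping state; the direction becomes `c_{a₀} + c_b` at `a₀`. -/
theorem Tel.merge {lZ : Z →+ ℤ} {lG : G →+ ℤ} {g : I → Z → ℂ} {cZ : Z} {Bd : Finset ℤ}
    {S : Finset ι} {B : I → ι → G → ℂ} {c : ι → G} (h : Tel kit lZ lG g cZ Bd S B c)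
    {a₀ b : ι} (ha : a₀ ∈ S) (hb : b ∈ S) (hab : a₀ ≠ b) :
    Tel kit lZ lG g cZ Bd (S.erase b)
      (fun a => Function.update (B a) a₀ (kit.conv (B a a₀) (B a b)))
      (Function.update c a₀ (c a₀ + c b)) := by
  have ha' : a₀ ∈ S.erase b := Finset.mem_erase.2 ⟨hab, ha⟩
  refine ⟨?_, ?_, ?_, ?_⟩
  · intro a i hi
    by_cases h1 : i = a₀
    · subst h1
      rw [Function.update_self]
      exact kit.R_conv _ _ (h.reg a i ha) (h.reg a b hb)
    · rw [Function.update_of_ne h1]
      exact h.reg a i (Finset.mem_of_mem_erase hi)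
  · intro z x hne
    rw [← I_psi_sig g ha hb hab B h.reg z x] at hne
    obtain ⟨u, hu⟩ := kit.exists_ne_of_I_ne _ hne
    have := h.supp z (sig a₀ b x u) hu
    rwa [sum_lG_sig lG ha hb hab] at this
  · have e : ∑ i ∈ S.erase b, lG (Function.update c a₀ (c a₀ + c b) i)
        = ∑ i ∈ S, lG (c i) := by
      rw [sum_split' ha hab, sum_split ha hb hab, Function.update_self, map_add]
      have : ∑ i ∈ (S.erase b).erase a₀, lG (Function.update c a₀ (c a₀ + c b) i)
          = ∑ i ∈ (S.erase b).erase a₀, lG (c i) := by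
        refine Finset.sum_congr rfl fun i hi => ?_
        rw [Function.update_of_ne (Finset.mem_erase.1 hi).1]
      rw [this]
    rw [e]; exact h.deg
  · intro z x
    -- the integrands
    set c' : ι → G := Function.update c a₀ (c a₀ + c b) with hc'
    set f : ℤ → G → ℂ := fun j u =>
      psi g S B (z + j • cZ) (fun i => sig a₀ b x u i + j • c i) with hf
    -- the shifted substitution
    have hsig : ∀ (j : ℤ) (u : G),
        sig a₀ b (fun i => x i + j • c' i) (u + j • c a₀) = fun i => sig a₀ b x u i + j • c i := by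
      intro j u
      funext i
      by_cases h1 : i = a₀
      · subst h1
        rw [sig_a hab, sig_a hab]
      · by_cases h2 : i = b
        · subst h2
          rw [sig_b, sig_b, hc', Function.update_self, smul_add]
          abel
        · rw [sig_ne h1 h2, sig_ne h1 h2, hc', Function.update_of_ne h1]
    have hFj : ∀ j : ℤ, kit.F (f j) := by
      intro j
      have := kit.F_trans _ (j • c a₀)
        (F_psi_sig (kit := kit) g ha hb hab B h.reg (z + j • cZ) (fun i => x i + j • c' i))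
      have e : (fun u => psi g S B (z + j • cZ)
            (sig a₀ b (fun i => x i + j • c' i) (u + j • c a₀))) = f j := by
        funext u; rw [hsig j u]
      rwa [e] at this
    have hIj : ∀ j : ℤ,
        psi g (S.erase b) (fun a => Function.update (B a) a₀ (kit.conv (B a a₀) (B a b)))
          (z + j • cZ) (fun i => x i + j • c' i) = kit.I (f j) := by
      intro j
      rw [← I_psi_sig g ha hb hab B h.reg (z + j • cZ) (fun i => x i + j • c' i),
        ← kit.I_trans _ (j • c a₀)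
          (F_psi_sig (kit := kit) g ha hb hab B h.reg (z + j • cZ) (fun i => x i + j • c' i))]
      congr 1
      funext u; rw [hsig j u]
    -- pointwise telescoping
    have htel : ∀ u : G, HasSum (fun j : ℤ => f j u) 0 := fun u => h.tel z (sig a₀ b x u)
    -- the finite range
    set L' : ℤ := lZ z + ∑ i ∈ S.erase b, lG (x i) with hL'
    set d : ℤ := lZ cZ + ∑ i ∈ S, lG (c i) with hd
    have hd0 : d ≠ 0 := h.deg
    set J : Finset ℤ := Bd.image (fun m => (m - L') / d) with hJ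
    have hvan : ∀ j : ℤ, j ∉ J → ∀ u : G, f j u = 0 := by
      intro j hj u
      by_contra hne
      have h1 := h.supp (z + j • cZ) (fun i => sig a₀ b x u i + j • c i) hne
      have h2 : lZ (z + j • cZ) + ∑ i ∈ S, lG (sig a₀ b x u i + j • c i) = L' + j * d := by
        have : ∑ i ∈ S, lG (sig a₀ b x u i + j • c i)
            = ∑ i ∈ S, lG (sig a₀ b x u i) + j * ∑ i ∈ S, lG (c i) := by
          rw [Finset.mul_sum, ← Finset.sum_add_distrib]
          refine Finset.sum_congr rfl fun i _ => ?_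
          rw [map_add, map_zsmul, smul_eq_mul]
        rw [this, sum_lG_sig lG ha hb hab, map_add, map_zsmul, smul_eq_mul, hL', hd]
        ring
      rw [h2] at h1
      apply hj
      rw [hJ, Finset.mem_image]
      refine ⟨L' + j * d, h1, ?_⟩
      rw [add_sub_cancel_left, Int.mul_ediv_cancel _ hd0]
    -- the sum over `J`
    have hsumJ : ∑ j ∈ J, kit.I (f j) = 0 := by
      rw [← kit.I_sum J f fun j _ => hFj j]
      have : (fun u => ∑ j ∈ J, f j u) = fun _ => 0 := by
        funext u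
        have h1 : HasSum (fun j : ℤ => f j u) (∑ j ∈ J, f j u) :=
          hasSum_sum_of_ne_finset_zero fun j hj => hvan j hj u
        exact h1.unique (htel u)
      rw [this]; exact kit.I_zero
    have hmain : HasSum (fun j : ℤ => kit.I (f j)) (∑ j ∈ J, kit.I (f j)) := by
      refine hasSum_sum_of_ne_finset_zero fun j hj => ?_
      have : f j = fun _ => 0 := by funext u; exact hvan j hj u
      rw [this]; exact kit.I_zero
    rw [hsumJ] at hmain
    have e : (fun j : ℤ => psi g (S.erase b)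
          (fun a => Function.update (B a) a₀ (kit.conv (B a a₀) (B a b)))
          (z + j • cZ) (fun i => x i + j • c' i)) = fun j : ℤ => kit.I (f j) := by
      funext j; exact hIj j
    rw [e]; exact hmain

end State

/-! ## Appendix: the equation lemmas of the definitions of this file are realised HERE -/

theorem eqns_realised_pushKit : True := by
  have _a1 := @IntKit.conv.eq_1
  have _a2 := @IntKit.convL.eq_1
  have _a3 := @IntKit.convL.eq_2
  have _a4 := @IntKit.convL.eq_def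
  have _a5 := @IntKit.convL.eq_unfold
  have _b1 := @psi.eq_1
  have _b2 := @sig.eq_1
  trivial

end Fermat.Agent.LT.T3.Push

end

end
-- ===== PACK-END LT/T3/Push/Kit.lean

-- ===== PACK-BEGIN LT/T3/Push/Iter.lean
section


/-!
# Row LT, tower T3, station T3.19 (helper14): the push-forward of the core -- THE ITERATION

OFF-MAIN.  Complete proofs, MATHLIB ONLY.  ADDITIVE (new names only, namespace `T3.Push`).

`Tel.push`: for an enumeration of the fibres of `ι → κ` the telescoping state of a family on `ι`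
(active set `univ`) gives the telescoping state of the family of the left nested convolutions
along the fibres on `κ`; the direction is the sum of the directions along the fibres.
-/

set_option autoImplicit false
set_option linter.unusedSectionVars false

noncomputable section

namespace Fermat.Agent.LT.T3.Push

section Iter

variable {G : Type} [AddCommGroup G] {kit : IntKit G} {Z : Type} [AddCommGroup Z]
  {ι : Type} [Fintype ι] [DecidableEq ι] {κ : Type} [Fintype κ] [DecidableEq κ]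
  {I : Type} [Fintype I]

/-- The data of an enumeration of the fibres with the inverse maps. -/
structure FibData (k : κ → ℕ) (w : κ → ℕ → ι) (fib : ι → κ) (pos : ι → ℕ) : Prop where
  pos_lt : ∀ i, pos i < k (fib i)
  w_fib : ∀ i, w (fib i) (pos i) = i
  fib_w : ∀ v j, j < k v → fib (w v j) = v
  pos_w : ∀ v j, j < k v → pos (w v j) = j

variable {k : κ → ℕ} {w : κ → ℕ → ι} {fib : ι → κ} {pos : ι → ℕ}

/-- The active set at the stage `t`: the heads and the elements not yet merged. -/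
def stS (fib : ι → κ) (pos : ι → ℕ) (t : κ → ℕ) : Finset ι :=
  Finset.univ.filter fun i => pos i = 0 ∨ t (fib i) < pos i

/-- The factors at the stage `t`. -/
def stB (kit : IntKit G) (w : κ → ℕ → ι) (fib : ι → κ) (pos : ι → ℕ) (B : I → ι → G → ℂ)
    (t : κ → ℕ) : I → ι → G → ℂ :=
  fun a i => if pos i = 0 then kit.convL (fun j => B a (w (fib i) j)) (t (fib i)) else B a i

/-- The direction at the stage `t`. -/
def stC (w : κ → ℕ → ι) (fib : ι → κ) (pos : ι → ℕ) (c : ι → G) (t : κ → ℕ) : ι → G :=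
  fun i => if pos i = 0 then ∑ j ∈ Finset.range (t (fib i) + 1), c (w (fib i) j) else c i

theorem stS_zero (fib : ι → κ) (pos : ι → ℕ) : stS fib pos (fun _ => 0) = Finset.univ := by
  ext i
  simp only [stS, Finset.mem_filter, Finset.mem_univ, true_and, iff_true]
  omega

theorem stB_zero (hD : FibData k w fib pos) (B : I → ι → G → ℂ) :
    stB kit w fib pos B (fun _ => 0) = B := by
  funext a i
  unfold stB
  split_ifs with h
  · have := hD.w_fib i
    rw [h] at this
    show kit.convL (fun j => B a (w (fib i) j)) 0 = B a i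
    rw [IntKit.convL, this]
  · rfl

theorem stC_zero (hD : FibData k w fib pos) (c : ι → G) :
    stC w fib pos c (fun _ => 0) = c := by
  funext i
  unfold stC
  split_ifs with h
  · have := hD.w_fib i
    rw [h] at this
    simp [this]
  · rfl

/-- One step of the iteration: the identification of the merged state. -/
theorem stS_step (hD : FibData k w fib pos) (t : κ → ℕ) (v : κ) (m : ℕ)
    (htv : t v = m + 1) (hlt : m + 1 < k v) :
    stS fib pos t = (stS fib pos (Function.update t v m)).erase (w v (m + 1)) := by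
  ext i
  simp only [stS, Finset.mem_filter, Finset.mem_univ, true_and, Finset.mem_erase]
  by_cases hv : fib i = v
  · have hib : i = w v (m + 1) ↔ pos i = m + 1 := by
      constructor
      · intro h; rw [h]; exact hD.pos_w v (m + 1) hlt
      · intro h
        have := hD.w_fib i
        rw [hv, h] at this
        exact this.symm
    rw [hv, htv, Function.update_self, Ne, hib]
    omega
  · have hne : i ≠ w v (m + 1) := by
      intro h
      apply hv
      rw [h]; exact hD.fib_w v (m + 1) hlt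
    rw [Function.update_of_ne hv]
    simp [hne]

theorem stB_step (hD : FibData k w fib pos) (B : I → ι → G → ℂ) (t : κ → ℕ) (v : κ) (m : ℕ)
    (htv : t v = m + 1) (hlt : m + 1 < k v) :
    stB kit w fib pos B t = fun a =>
      Function.update (stB kit w fib pos B (Function.update t v m) a) (w v 0)
        (kit.conv (stB kit w fib pos B (Function.update t v m) a (w v 0))
          (stB kit w fib pos B (Function.update t v m) a (w v (m + 1)))) := by
  have h0 : 0 < k v := by omega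
  have hf0 : fib (w v 0) = v := hD.fib_w v 0 h0
  have hp0 : pos (w v 0) = 0 := hD.pos_w v 0 h0
  have hpb : pos (w v (m + 1)) = m + 1 := hD.pos_w v (m + 1) hlt
  funext a i
  by_cases hi : i = w v 0
  · subst hi
    rw [Function.update_self]
    unfold stB
    rw [if_pos hp0, if_pos hp0, if_neg (by rw [hpb]; omega), hf0, htv, Function.update_self]
    rfl
  · rw [Function.update_of_ne hi]
    unfold stB
    by_cases hp : pos i = 0
    · rw [if_pos hp, if_pos hp]
      have hv : fib i ≠ v := by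
        intro hv
        apply hi
        have := hD.w_fib i
        rw [hv, hp] at this
        exact this.symm
      rw [Function.update_of_ne hv]
    · rw [if_neg hp, if_neg hp]

theorem stC_step (hD : FibData k w fib pos) (c : ι → G) (t : κ → ℕ) (v : κ) (m : ℕ)
    (htv : t v = m + 1) (hlt : m + 1 < k v) :
    stC w fib pos c t =
      Function.update (stC w fib pos c (Function.update t v m)) (w v 0)
        (stC w fib pos c (Function.update t v m) (w v 0)
          + stC w fib pos c (Function.update t v m) (w v (m + 1))) := by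
  have h0 : 0 < k v := by omega
  have hf0 : fib (w v 0) = v := hD.fib_w v 0 h0
  have hp0 : pos (w v 0) = 0 := hD.pos_w v 0 h0
  have hpb : pos (w v (m + 1)) = m + 1 := hD.pos_w v (m + 1) hlt
  funext i
  by_cases hi : i = w v 0
  · subst hi
    rw [Function.update_self]
    unfold stC
    rw [if_pos hp0, if_pos hp0, if_neg (by rw [hpb]; omega), hf0, htv, Function.update_self,
      Finset.sum_range_succ _ (m + 1)]
  · rw [Function.update_of_ne hi]
    unfold stC
    by_cases hp : pos i = 0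
    · rw [if_pos hp, if_pos hp]
      have hv : fib i ≠ v := by
        intro hv
        apply hi
        have := hD.w_fib i
        rw [hv, hp] at this
        exact this.symm
      rw [Function.update_of_ne hv]
    · rw [if_neg hp, if_neg hp]

/-- **THE ITERATION**: the telescoping state at every stage. -/
theorem Tel.stage {lZ : Z →+ ℤ} {lG : G →+ ℤ} {g : I → Z → ℂ} {cZ : Z} {Bd : Finset ℤ}
    {B : I → ι → G → ℂ} {c : ι → G} (hD : FibData k w fib pos)
    (h : Tel kit lZ lG g cZ Bd Finset.univ B c) :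
    ∀ (n : ℕ) (t : κ → ℕ), (∀ v, t v < k v) → ∑ v, t v = n →
      Tel kit lZ lG g cZ Bd (stS fib pos t) (stB kit w fib pos B t) (stC w fib pos c t) := by
  intro n
  induction n with
  | zero =>
    intro t _ hsum
    have ht : t = fun _ => 0 := by
      funext v
      exact (Finset.sum_eq_zero_iff.1 hsum) v (Finset.mem_univ v)
    rw [ht, stS_zero, stB_zero hD, stC_zero hD]
    exact h
  | succ n ih =>
    intro t ht hsum
    obtain ⟨v, hv⟩ : ∃ v, 0 < t v := by
      by_contra hc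
      have : ∑ v, t v = 0 := Finset.sum_eq_zero fun v _ => by
        by_contra h0
        exact hc ⟨v, Nat.pos_of_ne_zero h0⟩
      omega
    obtain ⟨m, hm⟩ : ∃ m, t v = m + 1 := ⟨t v - 1, by omega⟩
    have hlt : m + 1 < k v := hm ▸ ht v
    have ht' : ∀ v', Function.update t v m v' < k v' := by
      intro v'
      by_cases h1 : v' = v
      · subst h1; rw [Function.update_self]; omega
      · rw [Function.update_of_ne h1]; exact ht v'
    have hsum' : ∑ v', Function.update t v m v' = n := by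
      have h1 := Finset.sum_update_of_mem (Finset.mem_univ v) t m
      have h2 := Finset.add_sum_erase Finset.univ t (Finset.mem_univ v)
      rw [Finset.sdiff_singleton_eq_erase] at h1
      omega
    have hprev := ih (Function.update t v m) ht' hsum'
    have h0 : 0 < k v := by omega
    have hp0 : pos (w v 0) = 0 := hD.pos_w v 0 h0
    have hpb : pos (w v (m + 1)) = m + 1 := hD.pos_w v (m + 1) hlt
    have hfb : fib (w v (m + 1)) = v := hD.fib_w v (m + 1) hlt
    have ha : w v 0 ∈ stS fib pos (Function.update t v m) := by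
      simp only [stS, Finset.mem_filter, Finset.mem_univ, true_and]
      exact Or.inl hp0
    have hb : w v (m + 1) ∈ stS fib pos (Function.update t v m) := by
      simp only [stS, Finset.mem_filter, Finset.mem_univ, true_and]
      right
      rw [hfb, Function.update_self, hpb]
      omega
    have hab : w v 0 ≠ w v (m + 1) := by
      intro heq
      have := congrArg pos heq
      rw [hp0, hpb] at this
      omega
    have := hprev.merge ha hb hab
    rw [stS_step hD t v m hm hlt, stB_step hD B t v m hm hlt, stC_step hD c t v m hm hlt]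
    exact this

/-- At the last stage the active set is the set of the heads. -/
theorem stS_last (hk : ∀ v, 0 < k v) (hD : FibData k w fib pos) :
    stS fib pos (fun v => k v - 1) = Finset.univ.image fun v => w v 0 := by
  ext i
  simp only [stS, Finset.mem_filter, Finset.mem_univ, true_and, Finset.mem_image]
  constructor
  · intro hi
    have h1 := hD.pos_lt i
    have h2 : pos i = 0 := by omega
    refine ⟨fib i, ?_⟩
    have := hD.w_fib i
    rw [h2] at this
    exact this
  · rintro ⟨v, rfl⟩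
    exact Or.inl (hD.pos_w v 0 (hk v))

theorem head_inj (hk : ∀ v, 0 < k v) (hD : FibData k w fib pos) :
    Function.Injective fun v => w v 0 := by
  intro v v' h
  have h1 := hD.fib_w v 0 (hk v)
  have h2 := hD.fib_w v' 0 (hk v')
  simp only at h
  rw [h] at h1
  rw [← h1, h2]

theorem prod_last {M : Type} [CommMonoid M] (hk : ∀ v, 0 < k v) (hD : FibData k w fib pos)
    (h : ι → M) : ∏ i ∈ stS fib pos (fun v => k v - 1), h i = ∏ v : κ, h (w v 0) := by
  rw [stS_last hk hD, Finset.prod_image fun v _ v' _ hvv => head_inj hk hD hvv]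

theorem sum_last {M : Type} [AddCommMonoid M] (hk : ∀ v, 0 < k v) (hD : FibData k w fib pos)
    (h : ι → M) : ∑ i ∈ stS fib pos (fun v => k v - 1), h i = ∑ v : κ, h (w v 0) := by
  rw [stS_last hk hD, Finset.sum_image fun v _ v' _ hvv => head_inj hk hD hvv]

theorem stB_last (hk : ∀ v, 0 < k v) (hD : FibData k w fib pos) (B : I → ι → G → ℂ) (a : I)
    (v : κ) :
    stB kit w fib pos B (fun v => k v - 1) a (w v 0)
      = kit.convL (fun j => B a (w v j)) (k v - 1) := by
  unfold stB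
  rw [if_pos (hD.pos_w v 0 (hk v)), hD.fib_w v 0 (hk v)]

theorem stC_last (hk : ∀ v, 0 < k v) (hD : FibData k w fib pos) (c : ι → G) (v : κ) :
    stC w fib pos c (fun v => k v - 1) (w v 0) = ∑ j ∈ Finset.range (k v), c (w v j) := by
  unfold stC
  rw [if_pos (hD.pos_w v 0 (hk v)), hD.fib_w v 0 (hk v), Nat.sub_add_cancel (hk v)]

theorem psi_last (hk : ∀ v, 0 < k v) (hD : FibData k w fib pos) (g : I → Z → ℂ)
    (B : I → ι → G → ℂ) (z : Z) (x : ι → G) :
    psi g (stS fib pos (fun v => k v - 1)) (stB kit w fib pos B (fun v => k v - 1)) z x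
      = psi g (Finset.univ : Finset κ)
          (fun a v => kit.convL (fun j => B a (w v j)) (k v - 1)) z (fun v => x (w v 0)) := by
  unfold psi
  refine Finset.sum_congr rfl fun a _ => ?_
  rw [prod_last hk hD]
  congr 1
  refine Finset.prod_congr rfl fun v _ => ?_
  rw [stB_last hk hD]

/-- **THE PUSH-FORWARD OF THE TELESCOPING STATE** along an enumeration of the fibres. -/
theorem Tel.push {lZ : Z →+ ℤ} {lG : G →+ ℤ} {g : I → Z → ℂ} {cZ : Z} {Bd : Finset ℤ}
    {B : I → ι → G → ℂ} {c : ι → G} (hk : ∀ v, 0 < k v) (hD : FibData k w fib pos)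
    (h : Tel kit lZ lG g cZ Bd Finset.univ B c) :
    Tel kit lZ lG g cZ Bd (Finset.univ : Finset κ)
      (fun a v => kit.convL (fun j => B a (w v j)) (k v - 1))
      (fun v => ∑ j ∈ Finset.range (k v), c (w v j)) := by
  have hst := h.stage hD (∑ v, (k v - 1)) (fun v => k v - 1)
    (fun v => Nat.sub_lt (hk v) Nat.one_pos) rfl
  refine ⟨?_, ?_, ?_, ?_⟩
  · intro a v _
    have := hst.reg a (w v 0) (by
      rw [stS_last hk hD]; exact Finset.mem_image_of_mem _ (Finset.mem_univ v))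
    rwa [stB_last hk hD] at this
  · intro z y hne
    have e := psi_last (kit := kit) hk hD g B z (fun i => y (fib i))
    have e2 : (fun v => (fun i => y (fib i)) (w v 0)) = y := by
      funext v
      show y (fib (w v 0)) = y v
      rw [hD.fib_w v 0 (hk v)]
    rw [e2] at e
    rw [← e] at hne
    have := hst.supp z (fun i => y (fib i)) hne
    rw [sum_last hk hD] at this
    have e3 : ∑ v : κ, lG ((fun i => y (fib i)) (w v 0)) = ∑ v : κ, lG (y v) := by
      refine Finset.sum_congr rfl fun v _ => ?_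
      show lG (y (fib (w v 0))) = lG (y v)
      rw [hD.fib_w v 0 (hk v)]
    rwa [e3] at this
  · have := hst.deg
    rw [sum_last hk hD] at this
    have e3 : ∑ v : κ, lG (stC w fib pos c (fun v => k v - 1) (w v 0))
        = ∑ v : κ, lG (∑ j ∈ Finset.range (k v), c (w v j)) := by
      refine Finset.sum_congr rfl fun v _ => ?_
      rw [stC_last hk hD]
    rwa [e3] at this
  · intro z y
    have := hst.tel z (fun i => y (fib i))
    have e : (fun j : ℤ => psi g (stS fib pos (fun v => k v - 1))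
          (stB kit w fib pos B (fun v => k v - 1)) (z + j • cZ)
          (fun i => (fun i => y (fib i)) i + j • stC w fib pos c (fun v => k v - 1) i))
        = fun j : ℤ => psi g (Finset.univ : Finset κ)
            (fun a v => kit.convL (fun j => B a (w v j)) (k v - 1)) (z + j • cZ)
            (fun v => y v + j • ∑ j ∈ Finset.range (k v), c (w v j)) := by
      funext j
      rw [psi_last hk hD]
      congr 1
      funext v
      show y (fib (w v 0)) + j • stC w fib pos c (fun v => k v - 1) (w v 0) = _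
      rw [hD.fib_w v 0 (hk v), stC_last hk hD]
    rwa [e] at this

omit [Fintype ι] [DecidableEq ι] [Fintype κ] [DecidableEq κ] in
/-- The inverse maps of an enumeration of the fibres. -/
theorem exists_fibData
    (hinj : ∀ (i i₂ : κ) (j j₂ : ℕ), j < k i → j₂ < k i₂ → w i j = w i₂ j₂ → i = i₂ ∧ j = j₂)
    (hsur : ∀ i' : ι, ∃ (i : κ) (j : ℕ), j < k i ∧ w i j = i') :
    ∃ (fib : ι → κ) (pos : ι → ℕ), FibData k w fib pos := by
  choose fib pos hpos hw using hsur
  refine ⟨fib, pos, ⟨hpos, hw, ?_, ?_⟩⟩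
  · intro v j hj
    exact (hinj _ _ _ _ (hpos (w v j)) hj (hw (w v j))).1
  · intro v j hj
    exact (hinj _ _ _ _ (hpos (w v j)) hj (hw (w v j))).2

end Iter

/-! ## Appendix: the equation lemmas of the definitions of this file are realised HERE -/

theorem eqns_realised_pushIter : True := by
  have _a1 := @stS.eq_1
  have _a2 := @stB.eq_1
  have _a3 := @stC.eq_1
  trivial

end Fermat.Agent.LT.T3.Push

end

end
-- ===== PACK-END LT/T3/Push/Iter.lean

-- ===== PACK-BEGIN LT/T7/H444/ArchGelfandCore.lean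
section



/-!
# Row LT, tower T7: ASSET `ArchGelfand` (helper444) -- core, Mathlib + helper8 `Unimod` only

OFF-MAIN.  The GELFAND PAIR `(GL₂(ℂ), U(2))`: convolution of bi-`U(2)`-invariant functions on
`GL₂(ℂ)` is COMMUTATIVE, for every Haar measure and ALL functions (no measurability, no
integrability: both sides are Bochner integrals, and the proof is a chain of measure preserving
substitutions).  This is what the clause `arch` of `H305.LocHyp305` / `H893.LocHyp893` (for ALL
enumerations of the places over an infinite place) needs for PRODUCTS (`ProdMtCb`) and for the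
construction (`BaseCb`); `ArchOk893` carries the bi-invariance for this purpose.

* `exists_polar444`      : polar decomposition `g = k p`, `k` unitary, `p` Hermitian.
* `biU_star444`          : a bi-`U(2)`-invariant function satisfies `Φ (star g) = Φ g`.
* `map_star_haar444`     : every Haar measure of `GL₂(ℂ)` is invariant under `g ↦ gᴴ`.
* `conv_biU444`          : the convolution of bi-invariant functions is bi-invariant.
* `conv_comm_biU444`     : `∫ Φ₁ h * Φ₂ (h⁻¹ g) dμ = ∫ Φ₂ h * Φ₁ (h⁻¹ g) dμ`.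
-/

set_option autoImplicit false
set_option linter.style.haveILetI false
set_option linter.unusedSectionVars false

open MeasureTheory MeasureTheory.Measure Matrix
open scoped NNReal ENNReal

noncomputable section

namespace Fermat.Agent.LT.T7.H444

/-- `Φ` is bi-invariant under `U(2)` (the shape of the clauses of `H893.ArchOk893`). -/
def IsBiU444 (Φ : GL (Fin 2) ℂ → ℂ) : Prop :=
  ∀ k₁ k₂ g : GL (Fin 2) ℂ,
    (k₁ : Matrix (Fin 2) (Fin 2) ℂ) * (k₁ : Matrix (Fin 2) (Fin 2) ℂ).conjTranspose = 1 →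
    (k₂ : Matrix (Fin 2) (Fin 2) ℂ) * (k₂ : Matrix (Fin 2) (Fin 2) ℂ).conjTranspose = 1 →
    Φ (k₁ * g * k₂) = Φ g

/-! ## 1. The polar decomposition -/

/-- A Hermitian square root of `gᴴ g`. -/
theorem exists_herm_sq444 (g : Matrix (Fin 2) (Fin 2) ℂ) :
    ∃ p : Matrix (Fin 2) (Fin 2) ℂ, p.conjTranspose = p ∧ p * p = g.conjTranspose * g := by
  classical
  have hA : (g.conjTranspose * g).IsHermitian := isHermitian_conjTranspose_mul_self g
  set U : Matrix (Fin 2) (Fin 2) ℂ := (hA.eigenvectorUnitary : Matrix (Fin 2) (Fin 2) ℂ) with hU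
  have hUU : star U * U = 1 := Unitary.coe_star_mul_self hA.eigenvectorUnitary
  have hspec : g.conjTranspose * g
      = U * diagonal (RCLike.ofReal ∘ hA.eigenvalues) * star U := by
    have h := hA.spectral_theorem
    rw [Unitary.conjStarAlgAut_apply] at h
    exact h
  have hnn : ∀ i, 0 ≤ hA.eigenvalues i := fun i =>
    eigenvalues_conjTranspose_mul_self_nonneg g i
  set d : Fin 2 → ℂ := fun i => ((Real.sqrt (hA.eigenvalues i) : ℝ) : ℂ) with hd
  refine ⟨U * diagonal d * star U, ?_, ?_⟩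
  · have hsd : star d = d := by
      funext i
      simp [hd]
    rw [conjTranspose_mul, conjTranspose_mul, ← star_eq_conjTranspose U,
      ← star_eq_conjTranspose (star U), star_star, diagonal_conjTranspose, hsd, mul_assoc]
  · have h1 : U * diagonal d * star U * (U * diagonal d * star U)
        = U * (diagonal d * (star U * U) * diagonal d) * star U := by
      simp only [mul_assoc]
    have hdd : (fun i => d i * d i) = (RCLike.ofReal ∘ hA.eigenvalues : Fin 2 → ℂ) := by
      funext i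
      show ((Real.sqrt (hA.eigenvalues i) : ℝ) : ℂ) * ((Real.sqrt (hA.eigenvalues i) : ℝ) : ℂ)
        = ((hA.eigenvalues i : ℝ) : ℂ)
      rw [← Complex.ofReal_mul, Real.mul_self_sqrt (hnn i)]
    rw [h1, hUU, mul_one, diagonal_mul_diagonal, hspec, hdd]

/-- **Polar decomposition** in `GL₂(ℂ)`: `g = k p`, `k` unitary, `p` Hermitian. -/
theorem exists_polar444 (g : GL (Fin 2) ℂ) :
    ∃ k p : GL (Fin 2) ℂ,
      (k : Matrix (Fin 2) (Fin 2) ℂ) * (k : Matrix (Fin 2) (Fin 2) ℂ).conjTranspose = 1 ∧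
      (k : Matrix (Fin 2) (Fin 2) ℂ).conjTranspose * (k : Matrix (Fin 2) (Fin 2) ℂ) = 1 ∧
      star p = p ∧ g = k * p := by
  obtain ⟨p, hp, hpp⟩ := exists_herm_sq444 (g : Matrix (Fin 2) (Fin 2) ℂ)
  have hgu : IsUnit ((g : Matrix (Fin 2) (Fin 2) ℂ).conjTranspose
      * (g : Matrix (Fin 2) (Fin 2) ℂ)) := by
    have h1 : IsUnit (g : Matrix (Fin 2) (Fin 2) ℂ) := g.isUnit
    have h2 : IsUnit ((g : Matrix (Fin 2) (Fin 2) ℂ).conjTranspose) := by
      rw [← star_eq_conjTranspose]
      exact h1.star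
    exact h2.mul h1
  have hpu : IsUnit p := by
    rw [← hpp] at hgu
    exact isUnit_of_mul_isUnit_left hgu
  obtain ⟨P, rfl⟩ := hpu
  have hPstar : star P = P := by
    apply Units.ext
    rw [Units.coe_star, star_eq_conjTranspose]
    exact hp
  have hkk : ((g * P⁻¹ : GL (Fin 2) ℂ) : Matrix (Fin 2) (Fin 2) ℂ).conjTranspose
      * ((g * P⁻¹ : GL (Fin 2) ℂ) : Matrix (Fin 2) (Fin 2) ℂ) = 1 := by
    have h1 : star (g * P⁻¹) * (g * P⁻¹) = 1 := by
      have h2 : star g * g = P * P := by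
        apply Units.ext
        rw [Units.val_mul, Units.val_mul, Units.coe_star, star_eq_conjTranspose]
        exact hpp.symm
      rw [star_mul, star_inv, hPstar, mul_assoc, ← mul_assoc (star g), h2]
      group
    have h3 := congrArg (fun u : GL (Fin 2) ℂ => (u : Matrix (Fin 2) (Fin 2) ℂ)) h1
    simp only [Units.val_mul, Units.coe_star, Units.val_one] at h3
    rw [star_eq_conjTranspose] at h3
    exact h3
  refine ⟨g * P⁻¹, P, mul_eq_one_comm.mp hkk, hkk, hPstar, ?_⟩
  group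

/-- A bi-`U(2)`-invariant function is invariant under `g ↦ gᴴ`. -/
theorem biU_star444 {Φ : GL (Fin 2) ℂ → ℂ} (hΦ : IsBiU444 Φ) (g : GL (Fin 2) ℂ) :
    Φ (star g) = Φ g := by
  obtain ⟨k, p, hk, hk', hp, rfl⟩ := exists_polar444 g
  have h1 : (1 : Matrix (Fin 2) (Fin 2) ℂ) * (1 : Matrix (Fin 2) (Fin 2) ℂ).conjTranspose = 1 := by
    simp
  have hone : ((1 : GL (Fin 2) ℂ) : Matrix (Fin 2) (Fin 2) ℂ)
      * ((1 : GL (Fin 2) ℂ) : Matrix (Fin 2) (Fin 2) ℂ).conjTranspose = 1 := by
    rw [Units.val_one]; exact h1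
  have hks : ((star k : GL (Fin 2) ℂ) : Matrix (Fin 2) (Fin 2) ℂ)
      * ((star k : GL (Fin 2) ℂ) : Matrix (Fin 2) (Fin 2) ℂ).conjTranspose = 1 := by
    rw [Units.coe_star, star_eq_conjTranspose, conjTranspose_conjTranspose]
    exact hk'
  have e1 : Φ (star (k * p)) = Φ p := by
    rw [star_mul, hp]
    have := hΦ 1 (star k) p hone hks
    rwa [one_mul] at this
  have e2 : Φ (k * p) = Φ p := by
    have := hΦ k 1 p hk hone
    rwa [mul_one] at this
  rw [e1, e2]

/-! ## 2. Haar measures of `GL₂(ℂ)` and the anti-involution `g ↦ gᴴ` -/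

/-- `g ↦ gᴴ` as a homeomorphism. -/
def starHomeo444 : GL (Fin 2) ℂ ≃ₜ GL (Fin 2) ℂ where
  toFun := star
  invFun := star
  left_inv := star_star
  right_inv := star_star
  continuous_toFun := continuous_star
  continuous_invFun := continuous_star

/-- The automorphism `g ↦ (gᴴ)⁻¹`. -/
def starInv444 : GL (Fin 2) ℂ ≃* GL (Fin 2) ℂ where
  toFun g := (star g)⁻¹
  invFun g := (star g)⁻¹
  left_inv g := by
    show (star (star g)⁻¹)⁻¹ = g
    rw [star_inv, inv_inv, star_star]
  right_inv g := by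
    show (star (star g)⁻¹)⁻¹ = g
    rw [star_inv, inv_inv, star_star]
  map_mul' g h := by
    show (star (g * h))⁻¹ = (star g)⁻¹ * (star h)⁻¹
    rw [star_mul, _root_.mul_inv_rev]

theorem continuous_starInv444 : Continuous (starInv444 : GL (Fin 2) ℂ → GL (Fin 2) ℂ) :=
  continuous_star.inv

theorem continuous_starInv_symm444 :
    Continuous (starInv444.symm : GL (Fin 2) ℂ → GL (Fin 2) ℂ) :=
  continuous_star.inv

section Haar

variable [MeasurableSpace (GL (Fin 2) ℂ)] [BorelSpace (GL (Fin 2) ℂ)]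
  (μ : Measure (GL (Fin 2) ℂ)) [IsHaarMeasure μ]

/-- Every Haar measure of `GL₂(ℂ)` is invariant under the automorphism `g ↦ (gᴴ)⁻¹`. -/
theorem map_starInv444 : map (starInv444 : GL (Fin 2) ℂ → GL (Fin 2) ℂ) μ = μ := by
  haveI := Fermat.Agent.LT.T6.H8.locallyCompactSpace_GL2C8
  haveI := Fermat.Agent.LT.T6.H8.secondCountableTopology_GL2C8
  haveI : IsHaarMeasure (map (starInv444 : GL (Fin 2) ℂ → GL (Fin 2) ℂ) μ) :=
    starInv444.isHaarMeasure_map μ continuous_starInv444 continuous_starInv_symm444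
  set ν := map (starInv444 : GL (Fin 2) ℂ → GL (Fin 2) ℂ) μ with hν
  let c : ℝ≥0∞ := haarScalarFactor ν μ
  have hc : ν = c • μ := isMulLeftInvariant_eq_smul ν μ
  have hinv : (starInv444 : GL (Fin 2) ℂ → GL (Fin 2) ℂ) ∘ (starInv444 : GL (Fin 2) ℂ → _)
      = id := by
    funext g
    exact starInv444.left_inv g
  have h2 : map (starInv444 : GL (Fin 2) ℂ → GL (Fin 2) ℂ) ν = c ^ 2 • μ := by
    rw [hc, Measure.map_smul, ← hν, hc, smul_smul, pow_two]
  have μeq : μ = c ^ 2 • μ := by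
    rw [hν, map_map continuous_starInv444.measurable continuous_starInv444.measurable, hinv,
      Measure.map_id] at h2
    exact h2
  have K : TopologicalSpace.PositiveCompacts (GL (Fin 2) ℂ) := Classical.arbitrary _
  have h3 : c ^ 2 * μ K = 1 ^ 2 * μ K := by
    conv_rhs => rw [μeq]
    simp
  have h4 : c ^ 2 = 1 ^ 2 :=
    (ENNReal.mul_left_inj (measure_pos_of_nonempty_interior _ K.interior_nonempty).ne'
          K.isCompact.measure_lt_top.ne).1 h3
  have h5 : c = 1 := (ENNReal.pow_right_strictMono two_ne_zero).injective h4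
  rw [hc, h5, one_smul]

/-- Every Haar measure of `GL₂(ℂ)` is invariant under inversion. -/
theorem map_inv_haar444 : map (fun x : GL (Fin 2) ℂ => x⁻¹) μ = μ :=
  (Fermat.Agent.LT.T6.H8.rightInv_GL2C8 μ).2

/-- **Every Haar measure of `GL₂(ℂ)` is invariant under `g ↦ gᴴ`.** -/
theorem map_star_haar444 : map (star : GL (Fin 2) ℂ → GL (Fin 2) ℂ) μ = μ := by
  have h : (star : GL (Fin 2) ℂ → GL (Fin 2) ℂ)
      = (fun x : GL (Fin 2) ℂ => x⁻¹) ∘ (starInv444 : GL (Fin 2) ℂ → GL (Fin 2) ℂ) := by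
    funext g
    show star g = ((star g)⁻¹)⁻¹
    rw [inv_inv]
  rw [h, ← map_map continuous_inv.measurable continuous_starInv444.measurable,
    map_starInv444, map_inv_haar444]

/-- Substitution `h ↦ hᴴ`. -/
theorem integral_star444 (f : GL (Fin 2) ℂ → ℂ) : ∫ h, f (star h) ∂μ = ∫ h, f h ∂μ := by
  have hmp : MeasurePreserving (starHomeo444.toMeasurableEquiv) μ μ :=
    ⟨starHomeo444.toMeasurableEquiv.measurable, map_star_haar444 μ⟩
  exact hmp.integral_comp' f

/-- Substitution `h ↦ h⁻¹`. -/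
theorem integral_inv444 (f : GL (Fin 2) ℂ → ℂ) : ∫ h, f h⁻¹ ∂μ = ∫ h, f h ∂μ := by
  have hmp : MeasurePreserving (MeasurableEquiv.inv (GL (Fin 2) ℂ)) μ μ :=
    ⟨(MeasurableEquiv.inv (GL (Fin 2) ℂ)).measurable, map_inv_haar444 μ⟩
  exact hmp.integral_comp' f

/-! ## 3. The convolution of bi-invariant functions -/

/-- The convolution of bi-`U(2)`-invariant functions is bi-`U(2)`-invariant. -/
theorem conv_biU444 {Φ₁ Φ₂ : GL (Fin 2) ℂ → ℂ} (h₁ : IsBiU444 Φ₁) (h₂ : IsBiU444 Φ₂) :
    IsBiU444 (fun g => ∫ h, Φ₁ h * Φ₂ (h⁻¹ * g) ∂μ) := by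
  intro k₁ k₂ g hk₁ hk₂
  have hone : ((1 : GL (Fin 2) ℂ) : Matrix (Fin 2) (Fin 2) ℂ)
      * ((1 : GL (Fin 2) ℂ) : Matrix (Fin 2) (Fin 2) ℂ).conjTranspose = 1 := by
    rw [Units.val_one]; simp
  show ∫ h, Φ₁ h * Φ₂ (h⁻¹ * (k₁ * g * k₂)) ∂μ = ∫ h, Φ₁ h * Φ₂ (h⁻¹ * g) ∂μ
  have e1 : ∀ h : GL (Fin 2) ℂ, Φ₂ (h⁻¹ * (k₁ * g * k₂)) = Φ₂ (h⁻¹ * (k₁ * g)) := by
    intro h
    have := h₂ 1 k₂ (h⁻¹ * (k₁ * g)) hone hk₂
    rw [one_mul] at this
    rw [← this]
    congr 1
    group
  have e2 : ∀ h : GL (Fin 2) ℂ, Φ₁ (k₁ * h) = Φ₁ h := by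
    intro h
    have := h₁ k₁ 1 h hk₁ hone
    rwa [mul_one] at this
  calc ∫ h, Φ₁ h * Φ₂ (h⁻¹ * (k₁ * g * k₂)) ∂μ
      = ∫ h, Φ₁ h * Φ₂ (h⁻¹ * (k₁ * g)) ∂μ := by
        refine integral_congr_ae (Filter.Eventually.of_forall fun h => ?_)
        show Φ₁ h * Φ₂ (h⁻¹ * (k₁ * g * k₂)) = Φ₁ h * Φ₂ (h⁻¹ * (k₁ * g))
        rw [e1]
    _ = ∫ h, Φ₁ (k₁ * h) * Φ₂ ((k₁ * h)⁻¹ * (k₁ * g)) ∂μ :=
        (integral_mul_left_eq_self (fun h => Φ₁ h * Φ₂ (h⁻¹ * (k₁ * g))) k₁).symm
    _ = ∫ h, Φ₁ h * Φ₂ (h⁻¹ * g) ∂μ := by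
        refine integral_congr_ae (Filter.Eventually.of_forall fun h => ?_)
        show Φ₁ (k₁ * h) * Φ₂ ((k₁ * h)⁻¹ * (k₁ * g)) = Φ₁ h * Φ₂ (h⁻¹ * g)
        rw [e2]
        congr 2
        group

/-- **THE GELFAND PAIR `(GL₂(ℂ), U(2))`**: the convolution of bi-`U(2)`-invariant functions is
commutative (every Haar measure, ALL functions). -/
theorem conv_comm_biU444 {Φ₁ Φ₂ : GL (Fin 2) ℂ → ℂ} (h₁ : IsBiU444 Φ₁) (h₂ : IsBiU444 Φ₂)
    (g : GL (Fin 2) ℂ) :
    ∫ h, Φ₁ h * Φ₂ (h⁻¹ * g) ∂μ = ∫ h, Φ₂ h * Φ₁ (h⁻¹ * g) ∂μ := by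
  -- `(Φ₁ * Φ₂)(g) = (Φ₂ * Φ₁)(gᴴ)`
  have key : ∀ x : GL (Fin 2) ℂ,
      ∫ h, Φ₁ h * Φ₂ (h⁻¹ * x) ∂μ = ∫ h, Φ₂ h * Φ₁ (h⁻¹ * star x) ∂μ := by
    intro x
    calc ∫ h, Φ₁ h * Φ₂ (h⁻¹ * x) ∂μ
        = ∫ h, Φ₁ (star h) * Φ₂ (star x * (star h)⁻¹) ∂μ := by
          refine integral_congr_ae (Filter.Eventually.of_forall fun h => ?_)
          show Φ₁ h * Φ₂ (h⁻¹ * x) = Φ₁ (star h) * Φ₂ (star x * (star h)⁻¹)
          rw [biU_star444 h₁ h, ← biU_star444 h₂ (h⁻¹ * x), star_mul, star_inv]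
      _ = ∫ h, Φ₁ h * Φ₂ (star x * h⁻¹) ∂μ :=
          integral_star444 μ (fun h => Φ₁ h * Φ₂ (star x * h⁻¹))
      _ = ∫ h, Φ₁ (h⁻¹)⁻¹ * Φ₂ (star x * h⁻¹) ∂μ := by
          refine integral_congr_ae (Filter.Eventually.of_forall fun h => ?_)
          show Φ₁ h * Φ₂ (star x * h⁻¹) = Φ₁ (h⁻¹)⁻¹ * Φ₂ (star x * h⁻¹)
          rw [inv_inv]
      _ = ∫ h, Φ₁ h⁻¹ * Φ₂ (star x * h) ∂μ :=
          integral_inv444 μ (fun h => Φ₁ h⁻¹ * Φ₂ (star x * h))
      _ = ∫ h, Φ₁ ((star x)⁻¹ * h)⁻¹ * Φ₂ (star x * ((star x)⁻¹ * h)) ∂μ :=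
          (integral_mul_left_eq_self (fun h => Φ₁ h⁻¹ * Φ₂ (star x * h)) (star x)⁻¹).symm
      _ = ∫ h, Φ₂ h * Φ₁ (h⁻¹ * star x) ∂μ := by
          refine integral_congr_ae (Filter.Eventually.of_forall fun h => ?_)
          show Φ₁ ((star x)⁻¹ * h)⁻¹ * Φ₂ (star x * ((star x)⁻¹ * h)) = Φ₂ h * Φ₁ (h⁻¹ * star x)
          rw [mul_comm]
          congr 2
          · group
  rw [key g]
  exact biU_star444 (conv_biU444 μ h₂ h₁) g

end Haar

end Fermat.Agent.LT.T7.H444

end

end
-- ===== PACK-END LT/T7/H444/ArchGelfandCore.lean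

-- ===== PACK-BEGIN LT/T7/H227/SphConvCore.lean
section




/-!
# Row LT, tower T7, node StepMC981 (cut of helper445): the LOCAL SPHERE MEAN on `GL₂(ℂ)` -- core

OFF-MAIN (helper227, SPARE).  Imports: Mathlib, `T2/H197/S2Rot.lean` (helper197: invariance of
`sin β dβ dα` under the rotations, `subS2Rot_stmt197`), `T7/H444/ArchGelfandCore.lean` (helper444:
the Gelfand pair `(GL₂(ℂ), U(2))`, `conv_comm_biU444`, `conv_biU444`) and `T6/H8/Unimod.lean`
(helper8), byte-identical copies.  No tower Spec is imported.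

* `continuous_mkGL227`, `continuous_sph227` : the sphere family `y(α,β)` is continuous.
* `sphM227 y Φ` : the local sphere mean `g ↦ ∫∫ Φ(g y(α,β)) sin β dβ dα` (the body of
  `H445.sphMeanC445`); `continuous_sphM227`, `hasCompactSupport_sphM227`, `sphM_biU227`
  (right invariance = rotation invariance of the sphere measure), `sphM_conj227`.
* `swap_interval227` : Fubini for an interval and a Radon measure.
* `continuous_conv227`, `hasCompactSupport_conv227` : the convolution of `C_c` functions.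
* `sphM_conv227` : `M (A ⋆ B) = A ⋆ M B` (Fubini);
  `conv_sphM_left227` : `M A ⋆ B = M (A ⋆ B)` for bi-`U(2)`-invariant `A`, `B`.
* `sphConv227` : the iterated convolution with ONE factor replaced by its sphere mean is the
  sphere mean of the iterated convolution (core form of `H445.SphConvC445`).
-/

set_option autoImplicit false
set_option maxHeartbeats 400000
set_option linter.style.haveILetI false
set_option linter.unusedSectionVars false

open MeasureTheory MeasureTheory.Measure Matrix Set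
open Fermat.Agent.LT.H556.A0

noncomputable section

namespace Fermat.Agent.LT.T7.H227

/-! ## 0. The topology of `GL₂(ℂ)` -/

/-- `mkOfDetNeZero` is continuous on the matrices of non-zero determinant. -/
theorem continuous_mkGL227 :
    Continuous (fun m : {m : Matrix (Fin 2) (Fin 2) ℂ // m.det ≠ 0} =>
      Matrix.GeneralLinearGroup.mkOfDetNeZero m.1 m.2) := by
  rw [Units.continuous_iff]
  refine ⟨continuous_subtype_val, ?_⟩
  have h : (fun m : {m : Matrix (Fin 2) (Fin 2) ℂ // m.det ≠ 0} =>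
      (((Matrix.GeneralLinearGroup.mkOfDetNeZero m.1 m.2)⁻¹ : GL (Fin 2) ℂ) :
        Matrix (Fin 2) (Fin 2) ℂ))
      = fun m => (m.1.det)⁻¹ • m.1.adjugate := by
    funext m
    rw [Matrix.coe_units_inv]
    show (m.1)⁻¹ = _
    rw [Matrix.inv_def, Ring.inverse_eq_inv']
  rw [h]
  exact ((continuous_subtype_val.matrix_det).inv₀ (fun m => m.2)).smul
    continuous_subtype_val.matrix_adjugate

theorem det_ne_zero_GL227 (g : GL (Fin 2) ℂ) : (g : Matrix (Fin 2) (Fin 2) ℂ).det ≠ 0 :=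
  ((Matrix.isUnit_iff_isUnit_det _).mp g.isUnit).ne_zero

theorem mkGL_val227 (g : GL (Fin 2) ℂ) (h : (g : Matrix (Fin 2) (Fin 2) ℂ).det ≠ 0) :
    Matrix.GeneralLinearGroup.mkOfDetNeZero (g : Matrix (Fin 2) (Fin 2) ℂ) h = g :=
  Units.ext rfl

theorem continuous_rotZ227 : Continuous rotZ := by
  have h : rotZ = fun α : ℝ => !![Complex.exp (Complex.I * ((α / 2 : ℝ) : ℂ)), 0;
     0, Complex.exp (-(Complex.I * ((α / 2 : ℝ) : ℂ)))] := rfl
  rw [h]
  refine continuous_matrix fun i j => ?_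
  fin_cases i <;> fin_cases j <;> simp <;> fun_prop

theorem continuous_rotY227 : Continuous rotY := by
  have h : rotY = fun β : ℝ => !![((Real.cos (β / 2) : ℝ) : ℂ), -((Real.sin (β / 2) : ℝ) : ℂ);
     ((Real.sin (β / 2) : ℝ) : ℂ), ((Real.cos (β / 2) : ℝ) : ℂ)] := rfl
  rw [h]
  refine continuous_matrix fun i j => ?_
  fin_cases i <;> fin_cases j <;> simp <;> fun_prop

/-- `y` is the sphere family of radius `d` of `GL₂(ℂ)`. -/
def IsSph227 (d : ℝ) (y : ℝ → ℝ → GL (Fin 2) ℂ) : Prop :=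
  ∀ α β : ℝ, ((y α β : GL (Fin 2) ℂ) : Matrix (Fin 2) (Fin 2) ℂ) = rotZ α * rotY β * torus d

theorem continuous_sph227 {d : ℝ} {y : ℝ → ℝ → GL (Fin 2) ℂ} (hy : IsSph227 d y) :
    Continuous (fun p : ℝ × ℝ => y p.1 p.2) := by
  have hdet : ∀ p : ℝ × ℝ, (rotZ p.1 * rotY p.2 * torus d).det ≠ 0 := by
    intro p
    rw [← hy]
    exact det_ne_zero_GL227 _
  have hc : Continuous (fun p : ℝ × ℝ => rotZ p.1 * rotY p.2 * torus d) :=
    ((continuous_rotZ227.comp continuous_fst).matrix_mul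
      (continuous_rotY227.comp continuous_snd)).matrix_mul continuous_const
  have h : (fun p : ℝ × ℝ => y p.1 p.2)
      = fun p => Matrix.GeneralLinearGroup.mkOfDetNeZero _ (hdet p) := by
    funext p
    apply Units.ext
    rw [hy]
    rfl
  rw [h]
  exact continuous_mkGL227.comp (hc.subtype_mk hdet)

/-! ## 1. The local sphere mean -/

/-- THE LOCAL SPHERE MEAN on `GL₂(ℂ)`: `g ↦ ∫∫ Φ(g y(α,β)) sin β dβ dα`. -/
def sphM227 (y : ℝ → ℝ → GL (Fin 2) ℂ) (Φ : GL (Fin 2) ℂ → ℂ) : GL (Fin 2) ℂ → ℂ :=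
  fun g => ∫ α in (0 : ℝ)..(2 * Real.pi), ∫ β in (0 : ℝ)..Real.pi,
    Φ (g * y α β) * ((Real.sin β : ℝ) : ℂ)

theorem continuous_sphM227 {y : ℝ → ℝ → GL (Fin 2) ℂ}
    (hyc : Continuous (fun p : ℝ × ℝ => y p.1 p.2)) {Φ : GL (Fin 2) ℂ → ℂ}
    (hΦ : Continuous Φ) : Continuous (sphM227 y Φ) := by
  have h1 : Continuous (Function.uncurry (fun (q : GL (Fin 2) ℂ × ℝ) (β : ℝ) =>
      Φ (q.1 * y q.2 β) * ((Real.sin β : ℝ) : ℂ))) := by
    have hy' : Continuous (fun r : (GL (Fin 2) ℂ × ℝ) × ℝ => y r.1.2 r.2) :=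
      hyc.comp ((continuous_snd.comp continuous_fst).prodMk continuous_snd)
    have hs : Continuous (fun r : (GL (Fin 2) ℂ × ℝ) × ℝ => ((Real.sin r.2 : ℝ) : ℂ)) := by
      fun_prop
    exact (hΦ.comp ((continuous_fst.comp continuous_fst).mul hy')).mul hs
  have h2 := intervalIntegral.continuous_parametric_intervalIntegral_of_continuous'
    (μ := volume) h1 0 Real.pi
  have h3 : Continuous (Function.uncurry (fun (g : GL (Fin 2) ℂ) (α : ℝ) =>
      ∫ β in (0 : ℝ)..Real.pi, Φ (g * y α β) * ((Real.sin β : ℝ) : ℂ))) := h2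
  exact intervalIntegral.continuous_parametric_intervalIntegral_of_continuous'
    (μ := volume) h3 0 (2 * Real.pi)

theorem sphM_eq_zero227 {y : ℝ → ℝ → GL (Fin 2) ℂ} {Φ : GL (Fin 2) ℂ → ℂ} {g : GL (Fin 2) ℂ}
    (h : ∀ α ∈ Icc (0 : ℝ) (2 * Real.pi), ∀ β ∈ Icc (0 : ℝ) Real.pi, Φ (g * y α β) = 0) :
    sphM227 y Φ g = 0 := by
  have h2pi : (0 : ℝ) ≤ 2 * Real.pi := by positivity
  show ∫ α in (0 : ℝ)..(2 * Real.pi), ∫ β in (0 : ℝ)..Real.pi,
    Φ (g * y α β) * ((Real.sin β : ℝ) : ℂ) = 0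
  have e : ∀ α ∈ uIcc (0 : ℝ) (2 * Real.pi),
      (∫ β in (0 : ℝ)..Real.pi, Φ (g * y α β) * ((Real.sin β : ℝ) : ℂ)) = 0 := by
    intro α hα
    rw [uIcc_of_le h2pi] at hα
    have e' : ∀ β ∈ uIcc (0 : ℝ) Real.pi,
        Φ (g * y α β) * ((Real.sin β : ℝ) : ℂ) = 0 := by
      intro β hβ
      rw [uIcc_of_le Real.pi_pos.le] at hβ
      rw [h α hα β hβ, zero_mul]
    rw [intervalIntegral.integral_congr e']
    simp
  rw [intervalIntegral.integral_congr e]
  simp

theorem hasCompactSupport_sphM227 {y : ℝ → ℝ → GL (Fin 2) ℂ}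
    (hyc : Continuous (fun p : ℝ × ℝ => y p.1 p.2)) {Φ : GL (Fin 2) ℂ → ℂ}
    (hΦ : HasCompactSupport Φ) : HasCompactSupport (sphM227 y Φ) := by
  have hC : IsCompact ((fun q : GL (Fin 2) ℂ × (ℝ × ℝ) => q.1 * (y q.2.1 q.2.2)⁻¹) ''
      (tsupport Φ ×ˢ (Icc (0 : ℝ) (2 * Real.pi) ×ˢ Icc (0 : ℝ) Real.pi))) := by
    refine (hΦ.isCompact.prod (isCompact_Icc.prod isCompact_Icc)).image ?_
    exact continuous_fst.mul (hyc.comp continuous_snd).inv
  refine HasCompactSupport.intro hC ?_
  intro g hg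
  apply sphM_eq_zero227
  intro α hα β hβ
  by_contra hne
  apply hg
  refine ⟨(g * y α β, (α, β)), ⟨subset_tsupport _ hne, hα, hβ⟩, ?_⟩
  show g * y α β * (y α β)⁻¹ = g
  rw [mul_inv_cancel_right]

/-- `k` is in `U(2)`. -/
def IsU227 (k : GL (Fin 2) ℂ) : Prop :=
  (k : Matrix (Fin 2) (Fin 2) ℂ) * (k : Matrix (Fin 2) (Fin 2) ℂ).conjTranspose = 1

theorem isU_one227 : IsU227 1 := by
  show ((1 : GL (Fin 2) ℂ) : Matrix (Fin 2) (Fin 2) ℂ)
      * ((1 : GL (Fin 2) ℂ) : Matrix (Fin 2) (Fin 2) ℂ).conjTranspose = 1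
  rw [Units.val_one]; simp

theorem biU_left227 {Φ : GL (Fin 2) ℂ → ℂ} (hΦ : H444.IsBiU444 Φ) {k : GL (Fin 2) ℂ}
    (hk : IsU227 k) (g : GL (Fin 2) ℂ) : Φ (k * g) = Φ g := by
  have := hΦ k 1 g hk isU_one227
  rwa [mul_one] at this

theorem biU_right227 {Φ : GL (Fin 2) ℂ → ℂ} (hΦ : H444.IsBiU444 Φ) {k : GL (Fin 2) ℂ}
    (hk : IsU227 k) (g : GL (Fin 2) ℂ) : Φ (g * k) = Φ g := by
  have := hΦ 1 k g isU_one227 hk
  rwa [one_mul] at this

theorem sphM_left227 {y : ℝ → ℝ → GL (Fin 2) ℂ} {Φ : GL (Fin 2) ℂ → ℂ}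
    (hΦ : H444.IsBiU444 Φ) {k : GL (Fin 2) ℂ} (hk : IsU227 k) (g : GL (Fin 2) ℂ) :
    sphM227 y Φ (k * g) = sphM227 y Φ g := by
  show ∫ α in (0 : ℝ)..(2 * Real.pi), ∫ β in (0 : ℝ)..Real.pi,
      Φ (k * g * y α β) * ((Real.sin β : ℝ) : ℂ)
    = ∫ α in (0 : ℝ)..(2 * Real.pi), ∫ β in (0 : ℝ)..Real.pi,
      Φ (g * y α β) * ((Real.sin β : ℝ) : ℂ)
  have e : ∀ α β : ℝ, Φ (k * g * y α β) = Φ (g * y α β) := by
    intro α β
    rw [mul_assoc]
    exact biU_left227 hΦ hk _
  simp only [e]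

theorem sphM_right227 {d : ℝ} {y : ℝ → ℝ → GL (Fin 2) ℂ} (hy : IsSph227 d y)
    {Φ : GL (Fin 2) ℂ → ℂ} (hΦc : Continuous Φ) (hΦ : H444.IsBiU444 Φ)
    {k : GL (Fin 2) ℂ} (hk : IsU227 k) (g : GL (Fin 2) ℂ) :
    sphM227 y Φ (g * k) = sphM227 y Φ g := by
  classical
  let ψ : Matrix (Fin 2) (Fin 2) ℂ → ℂ := fun m =>
    if h : m.det ≠ 0 then Φ (g * Matrix.GeneralLinearGroup.mkOfDetNeZero m h) else 0
  have hψc : ContinuousOn ψ {m | m.det ≠ 0} := by
    rw [continuousOn_iff_continuous_domRestrict]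
    have e : ({m : Matrix (Fin 2) (Fin 2) ℂ | m.det ≠ 0}.domRestrict ψ)
        = fun m : {m : Matrix (Fin 2) (Fin 2) ℂ // m.det ≠ 0} =>
          Φ (g * Matrix.GeneralLinearGroup.mkOfDetNeZero m.1 m.2) := by
      funext m
      show ψ m.1 = _
      exact dif_pos m.2
    rw [e]
    exact hΦc.comp (continuous_const.mul continuous_mkGL227)
  have hψinv : ∀ m k' : Matrix (Fin 2) (Fin 2) ℂ, k' * k'.conjTranspose = 1 →
      ψ (m * k') = ψ m := by
    intro m k' hk'
    have hdk : k'.det ≠ 0 := by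
      intro h0
      have := congrArg Matrix.det hk'
      rw [Matrix.det_mul, h0, zero_mul, Matrix.det_one] at this
      exact zero_ne_one this
    by_cases hm : m.det ≠ 0
    · have hmk : (m * k').det ≠ 0 := by
        rw [Matrix.det_mul]; exact mul_ne_zero hm hdk
      simp only [ψ]
      rw [dif_pos hm, dif_pos hmk]
      have e : Matrix.GeneralLinearGroup.mkOfDetNeZero (m * k') hmk
          = Matrix.GeneralLinearGroup.mkOfDetNeZero m hm
            * Matrix.GeneralLinearGroup.mkOfDetNeZero k' hdk := Units.ext rfl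
      rw [e, ← mul_assoc]
      exact biU_right227 hΦ (k := Matrix.GeneralLinearGroup.mkOfDetNeZero k' hdk) hk' _
    · have hmk : ¬ (m * k').det ≠ 0 := by
        rw [not_not] at hm ⊢
        rw [Matrix.det_mul, hm, zero_mul]
      simp only [ψ]
      rw [dif_neg hm, dif_neg hmk]
  have key := Fermat.Agent.LT.T2.H197.subS2Rot_stmt197 ψ hψc hψinv
    (k : Matrix (Fin 2) (Fin 2) ℂ) hk d
  have e1 : ∀ α β : ℝ, ψ ((k : Matrix (Fin 2) (Fin 2) ℂ) * (rotZ α * rotY β * torus d))
      = Φ (g * k * y α β) := by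
    intro α β
    have hdet : ((k : Matrix (Fin 2) (Fin 2) ℂ) * (rotZ α * rotY β * torus d)).det ≠ 0 := by
      rw [← hy, ← Units.val_mul]
      exact det_ne_zero_GL227 _
    have e : Matrix.GeneralLinearGroup.mkOfDetNeZero _ hdet = k * y α β := by
      apply Units.ext
      show (k : Matrix (Fin 2) (Fin 2) ℂ) * (rotZ α * rotY β * torus d)
        = ((k * y α β : GL (Fin 2) ℂ) : Matrix (Fin 2) (Fin 2) ℂ)
      rw [Units.val_mul, hy]
    simp only [ψ]
    rw [dif_pos hdet, e, mul_assoc]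
  have e2 : ∀ α β : ℝ, ψ (rotZ α * rotY β * torus d) = Φ (g * y α β) := by
    intro α β
    have hdet : (rotZ α * rotY β * torus d).det ≠ 0 := by
      rw [← hy]
      exact det_ne_zero_GL227 _
    have e : Matrix.GeneralLinearGroup.mkOfDetNeZero _ hdet = y α β := by
      apply Units.ext
      show rotZ α * rotY β * torus d = ((y α β : GL (Fin 2) ℂ) : Matrix (Fin 2) (Fin 2) ℂ)
      rw [hy]
    simp only [ψ]
    rw [dif_pos hdet, e]
  simp only [e1, e2] at key
  exact key

theorem sphM_biU227 {d : ℝ} {y : ℝ → ℝ → GL (Fin 2) ℂ} (hy : IsSph227 d y)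
    {Φ : GL (Fin 2) ℂ → ℂ} (hΦc : Continuous Φ) (hΦ : H444.IsBiU444 Φ) :
    H444.IsBiU444 (sphM227 y Φ) := by
  intro k₁ k₂ g hk₁ hk₂
  rw [sphM_right227 hy hΦc hΦ hk₂, sphM_left227 hΦ hk₁]

/-! ## 2. Fubini -/

section Swap

variable {H : Type*} [TopologicalSpace H] [T2Space H] [MeasurableSpace H] [BorelSpace H]

/-- Fubini for an interval and a continuous function which vanishes outside a compact set in
the second variable. -/
theorem swap_interval227 (μ : Measure H) [IsFiniteMeasureOnCompacts μ] [SFinite μ]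
    {f : ℝ → H → ℂ} (hf : Continuous (Function.uncurry f)) {K : Set H} (hK : IsCompact K)
    (hfK : ∀ (t : ℝ) (h : H), h ∉ K → f t h = 0) {a b : ℝ} (hab : a ≤ b) :
    ∫ t in a..b, ∫ h, f t h ∂μ = ∫ h, (∫ t in a..b, f t h) ∂μ := by
  rw [intervalIntegral.integral_of_le hab]
  simp_rw [intervalIntegral.integral_of_le hab]
  refine integral_integral_swap ?_
  have h1 : IntegrableOn (Function.uncurry f) (Icc a b ×ˢ K) ((volume : Measure ℝ).prod μ) :=
    ContinuousOn.integrableOn_compact (isCompact_Icc.prod hK) hf.continuousOn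
  have h2 : IntegrableOn (Function.uncurry f) (Ioc a b ×ˢ (univ : Set H))
      ((volume : Measure ℝ).prod μ) := by
    refine h1.of_forall_sdiff_eq_zero (measurableSet_Ioc.prod MeasurableSet.univ) ?_
    rintro ⟨t, h⟩ ⟨⟨ht, -⟩, hn⟩
    apply hfK
    intro hh
    exact hn ⟨Ioc_subset_Icc_self ht, hh⟩
  rw [IntegrableOn, ← Measure.prod_restrict, Measure.restrict_univ] at h2
  exact h2

end Swap

/-! ## 3. Convolution -/

section Conv

variable [MeasurableSpace (GL (Fin 2) ℂ)] [BorelSpace (GL (Fin 2) ℂ)]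
  (μ : Measure (GL (Fin 2) ℂ)) [IsHaarMeasure μ]

theorem continuous_conv227 {A B : GL (Fin 2) ℂ → ℂ} (hA : Continuous A)
    (hAc : HasCompactSupport A) (hB : Continuous B) :
    Continuous (fun g => ∫ h, A h * B (h⁻¹ * g) ∂μ) := by
  haveI := Fermat.Agent.LT.T6.H8.locallyCompactSpace_GL2C8
  haveI := Fermat.Agent.LT.T6.H8.secondCountableTopology_GL2C8
  have e : (fun g => ∫ h, A h * B (h⁻¹ * g) ∂μ)
      = fun g => ∫ h in tsupport A, A h * B (h⁻¹ * g) ∂μ := by
    funext g
    symm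
    apply setIntegral_eq_integral_of_forall_compl_eq_zero
    intro h hh
    rw [image_eq_zero_of_notMem_tsupport hh, zero_mul]
  rw [e]
  refine continuous_parametric_integral_of_continuous ?_ hAc.isCompact
  exact (hA.comp continuous_snd).mul (hB.comp (continuous_snd.inv.mul continuous_fst))

theorem hasCompactSupport_conv227 {A B : GL (Fin 2) ℂ → ℂ} (hAc : HasCompactSupport A)
    (hBc : HasCompactSupport B) :
    HasCompactSupport (fun g => ∫ h, A h * B (h⁻¹ * g) ∂μ) := by
  refine HasCompactSupport.intro (hAc.isCompact.mul hBc.isCompact) ?_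
  intro g hg
  have e : ∀ h : GL (Fin 2) ℂ, A h * B (h⁻¹ * g) = 0 := by
    intro h
    by_contra hne
    apply hg
    have h1 : A h ≠ 0 := fun h0 => hne (by rw [h0, zero_mul])
    have h2 : B (h⁻¹ * g) ≠ 0 := fun h0 => hne (by rw [h0, mul_zero])
    refine ⟨h, subset_tsupport _ h1, h⁻¹ * g, subset_tsupport _ h2, ?_⟩
    show h * (h⁻¹ * g) = g
    rw [mul_inv_cancel_left]
  simp only [e, integral_zero]

/-- `M (A ⋆ B) = A ⋆ M B` (Fubini). -/
theorem sphM_conv227 {y : ℝ → ℝ → GL (Fin 2) ℂ}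
    (hyc : Continuous (fun p : ℝ × ℝ => y p.1 p.2)) {A B : GL (Fin 2) ℂ → ℂ}
    (hA : Continuous A) (hAc : HasCompactSupport A) (hB : Continuous B) (g : GL (Fin 2) ℂ) :
    sphM227 y (fun x => ∫ h, A h * B (h⁻¹ * x) ∂μ) g
      = ∫ h, A h * sphM227 y B (h⁻¹ * g) ∂μ := by
  haveI := Fermat.Agent.LT.T6.H8.locallyCompactSpace_GL2C8
  haveI := Fermat.Agent.LT.T6.H8.secondCountableTopology_GL2C8
  have h2pi : (0 : ℝ) ≤ 2 * Real.pi := by positivity
  -- the integrand
  let F : ℝ → ℝ → GL (Fin 2) ℂ → ℂ := fun α β h =>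
    A h * B (h⁻¹ * (g * y α β)) * ((Real.sin β : ℝ) : ℂ)
  have hFc : Continuous (fun r : (ℝ × GL (Fin 2) ℂ) × ℝ => F r.1.1 r.2 r.1.2) := by
    have hy' : Continuous (fun r : (ℝ × GL (Fin 2) ℂ) × ℝ => y r.1.1 r.2) :=
      hyc.comp ((continuous_fst.comp continuous_fst).prodMk continuous_snd)
    have hh : Continuous (fun r : (ℝ × GL (Fin 2) ℂ) × ℝ => r.1.2) :=
      continuous_snd.comp continuous_fst
    have hs : Continuous (fun r : (ℝ × GL (Fin 2) ℂ) × ℝ => ((Real.sin r.2 : ℝ) : ℂ)) := by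
      fun_prop
    exact ((hA.comp hh).mul (hB.comp (hh.inv.mul (continuous_const.mul hy')))).mul hs
  have hFK : ∀ (α β : ℝ) (h : GL (Fin 2) ℂ), h ∉ tsupport A → F α β h = 0 := by
    intro α β h hh
    show A h * B (h⁻¹ * (g * y α β)) * ((Real.sin β : ℝ) : ℂ) = 0
    rw [image_eq_zero_of_notMem_tsupport hh, zero_mul, zero_mul]
  -- step 1
  have s1 : sphM227 y (fun x => ∫ h, A h * B (h⁻¹ * x) ∂μ) g
      = ∫ α in (0 : ℝ)..(2 * Real.pi), ∫ β in (0 : ℝ)..Real.pi, ∫ h, F α β h ∂μ := by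
    show ∫ α in (0 : ℝ)..(2 * Real.pi), ∫ β in (0 : ℝ)..Real.pi,
        (∫ h, A h * B (h⁻¹ * (g * y α β)) ∂μ) * ((Real.sin β : ℝ) : ℂ) = _
    simp only [F, integral_mul_const]
  -- step 2: the inner swap
  have s2 : ∀ α : ℝ, ∫ β in (0 : ℝ)..Real.pi, ∫ h, F α β h ∂μ
      = ∫ h, (∫ β in (0 : ℝ)..Real.pi, F α β h) ∂μ := by
    intro α
    refine swap_interval227 μ (f := fun β h => F α β h) ?_ hAc.isCompact (hFK α)
      Real.pi_pos.le
    exact hFc.comp (((continuous_const (y := α)).prodMk continuous_snd).prodMk continuous_fst)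
  -- step 3: the outer swap
  have hIc : Continuous (Function.uncurry (fun (α : ℝ) (h : GL (Fin 2) ℂ) =>
      ∫ β in (0 : ℝ)..Real.pi, F α β h)) :=
    intervalIntegral.continuous_parametric_intervalIntegral_of_continuous'
      (μ := volume) (f := fun (q : ℝ × GL (Fin 2) ℂ) (β : ℝ) => F q.1 β q.2) hFc 0 Real.pi
  have s3 : ∫ α in (0 : ℝ)..(2 * Real.pi), ∫ h, (∫ β in (0 : ℝ)..Real.pi, F α β h) ∂μ
      = ∫ h, (∫ α in (0 : ℝ)..(2 * Real.pi), ∫ β in (0 : ℝ)..Real.pi, F α β h) ∂μ := by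
    refine swap_interval227 μ hIc hAc.isCompact ?_ h2pi
    intro α h hh
    simp only [hFK _ _ h hh]
    simp
  rw [s1]
  simp only [s2]
  rw [s3]
  refine integral_congr_ae (Filter.Eventually.of_forall fun h => ?_)
  show ∫ α in (0 : ℝ)..(2 * Real.pi), ∫ β in (0 : ℝ)..Real.pi,
      A h * B (h⁻¹ * (g * y α β)) * ((Real.sin β : ℝ) : ℂ)
    = A h * ∫ α in (0 : ℝ)..(2 * Real.pi), ∫ β in (0 : ℝ)..Real.pi,
      B (h⁻¹ * g * y α β) * ((Real.sin β : ℝ) : ℂ)
  simp only [mul_assoc, intervalIntegral.integral_const_mul]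

/-- `M A ⋆ B = M (A ⋆ B)` for good `A`, `B` (the bi-`U(2)`-invariant functions commute). -/
theorem conv_sphM_left227 {d : ℝ} {y : ℝ → ℝ → GL (Fin 2) ℂ} (hy : IsSph227 d y)
    {A B : GL (Fin 2) ℂ → ℂ} (hA : Continuous A) (hAU : H444.IsBiU444 A)
    (hB : Continuous B) (hBc : HasCompactSupport B) (hBU : H444.IsBiU444 B)
    (g : GL (Fin 2) ℂ) :
    ∫ h, sphM227 y A h * B (h⁻¹ * g) ∂μ
      = sphM227 y (fun x => ∫ h, A h * B (h⁻¹ * x) ∂μ) g := by
  have hyc := continuous_sph227 hy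
  rw [H444.conv_comm_biU444 μ (sphM_biU227 hy hA hAU) hBU g,
    ← sphM_conv227 μ hyc hB hBc hA g]
  have e : (fun x => ∫ h, B h * A (h⁻¹ * x) ∂μ) = fun x => ∫ h, A h * B (h⁻¹ * x) ∂μ := by
    funext x
    exact H444.conv_comm_biU444 μ hBU hAU x
  rw [e]

/-- The iterated convolution (left nested). -/
def convIt227 (Φ : ℕ → GL (Fin 2) ℂ → ℂ) : ℕ → GL (Fin 2) ℂ → ℂ
  | 0 => Φ 0
  | (j + 1) => fun g => ∫ h, convIt227 Φ j h * Φ (j + 1) (h⁻¹ * g) ∂μ

/-- The properties of the components which are used. -/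
def IsGood227 (Φ : GL (Fin 2) ℂ → ℂ) : Prop :=
  Continuous Φ ∧ HasCompactSupport Φ ∧ H444.IsBiU444 Φ

theorem good_convIt227 (N : ℕ) (Ψ : ℕ → GL (Fin 2) ℂ → ℂ)
    (hΨ : ∀ j : ℕ, j ≤ N → IsGood227 (Ψ j)) : IsGood227 (convIt227 μ Ψ N) := by
  induction N with
  | zero => exact hΨ 0 le_rfl
  | succ N ih =>
    have ih' := ih (fun j hj => hΨ j (Nat.le_succ_of_le hj))
    have hB := hΨ (N + 1) le_rfl
    exact ⟨continuous_conv227 μ ih'.1 ih'.2.1 hB.1,
      hasCompactSupport_conv227 μ ih'.2.1 hB.2.1, H444.conv_biU444 μ ih'.2.2 hB.2.2⟩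

theorem convIt_congr227 (N : ℕ) (Ψ Ψ' : ℕ → GL (Fin 2) ℂ → ℂ)
    (h : ∀ j : ℕ, j ≤ N → Ψ j = Ψ' j) : convIt227 μ Ψ N = convIt227 μ Ψ' N := by
  induction N with
  | zero => exact h 0 le_rfl
  | succ N ih =>
    show (fun g => ∫ x, convIt227 μ Ψ N x * Ψ (N + 1) (x⁻¹ * g) ∂μ)
      = fun g => ∫ x, convIt227 μ Ψ' N x * Ψ' (N + 1) (x⁻¹ * g) ∂μ
    rw [ih (fun j hj => h j (Nat.le_succ_of_le hj)), h (N + 1) le_rfl]

/-- **SPH-CONV, core form.**  The iterated convolution with ONE factor replaced by its local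
sphere mean is the local sphere mean of the iterated convolution. -/
theorem sphConv227 {d : ℝ} {y : ℝ → ℝ → GL (Fin 2) ℂ} (hy : IsSph227 d y)
    (N : ℕ) (Ψ : ℕ → GL (Fin 2) ℂ → ℂ) (hΨ : ∀ j : ℕ, j ≤ N → IsGood227 (Ψ j))
    (j₀ : ℕ) (hj : j₀ ≤ N) :
    convIt227 μ (fun j => if j = j₀ then sphM227 y (Ψ j₀) else Ψ j) N
      = sphM227 y (convIt227 μ Ψ N) := by
  have hyc := continuous_sph227 hy
  induction N with
  | zero =>
    have h0 : j₀ = 0 := Nat.le_zero.mp hj
    subst h0
    show (if (0 : ℕ) = 0 then sphM227 y (Ψ 0) else Ψ 0) = sphM227 y (Ψ 0)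
    rw [if_pos rfl]
  | succ N ih =>
    have hΨ' : ∀ j : ℕ, j ≤ N → IsGood227 (Ψ j) := fun j hj' => hΨ j (Nat.le_succ_of_le hj')
    have hC := good_convIt227 μ N Ψ hΨ'
    have hB := hΨ (N + 1) le_rfl
    funext g
    show ∫ x, convIt227 μ (fun j => if j = j₀ then sphM227 y (Ψ j₀) else Ψ j) N x
        * (if N + 1 = j₀ then sphM227 y (Ψ j₀) else Ψ (N + 1)) (x⁻¹ * g) ∂μ
      = sphM227 y (fun g' => ∫ x, convIt227 μ Ψ N x * Ψ (N + 1) (x⁻¹ * g') ∂μ) g
    rcases Nat.lt_or_ge N j₀ with hlt | hge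
    · -- `j₀ = N + 1`
      have hj₀ : j₀ = N + 1 := le_antisymm hj hlt
      subst hj₀
      rw [if_pos rfl]
      have e : convIt227 μ (fun j => if j = N + 1 then sphM227 y (Ψ (N + 1)) else Ψ j) N
          = convIt227 μ Ψ N := by
        apply convIt_congr227
        intro j hj'
        show (if j = N + 1 then sphM227 y (Ψ (N + 1)) else Ψ j) = Ψ j
        rw [if_neg (by omega)]
      rw [e]
      exact (sphM_conv227 μ hyc hC.1 hC.2.1 hB.1 g).symm
    · -- `j₀ ≤ N`
      rw [if_neg (by omega), ih hΨ' hge]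
      exact conv_sphM_left227 μ hy hC.1 hC.2.2 hB.1 hB.2.1 hB.2.2 g

end Conv

/-! ## 4. The complex conjugation -/

theorem rotZ_add_two_pi227 (α : ℝ) : rotZ (α + 2 * Real.pi) = -rotZ α := by
  have h : rotZ = fun α : ℝ => !![Complex.exp (Complex.I * ((α / 2 : ℝ) : ℂ)), 0;
     0, Complex.exp (-(Complex.I * ((α / 2 : ℝ) : ℂ)))] := rfl
  have e1 : Complex.exp (Complex.I * (((α + 2 * Real.pi) / 2 : ℝ) : ℂ))
      = -Complex.exp (Complex.I * ((α / 2 : ℝ) : ℂ)) := by
    have : Complex.I * (((α + 2 * Real.pi) / 2 : ℝ) : ℂ)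
        = Complex.I * ((α / 2 : ℝ) : ℂ) + (Real.pi : ℂ) * Complex.I := by
      push_cast; ring
    rw [this, Complex.exp_add, Complex.exp_pi_mul_I]
    ring
  have e2 : Complex.exp (-(Complex.I * (((α + 2 * Real.pi) / 2 : ℝ) : ℂ)))
      = -Complex.exp (-(Complex.I * ((α / 2 : ℝ) : ℂ))) := by
    rw [Complex.exp_neg, e1, Complex.exp_neg, inv_neg]
  rw [h]
  show !![Complex.exp (Complex.I * (((α + 2 * Real.pi) / 2 : ℝ) : ℂ)), 0;
     0, Complex.exp (-(Complex.I * (((α + 2 * Real.pi) / 2 : ℝ) : ℂ)))]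
    = -!![Complex.exp (Complex.I * ((α / 2 : ℝ) : ℂ)), 0;
     0, Complex.exp (-(Complex.I * ((α / 2 : ℝ) : ℂ)))]
  rw [e1, e2]
  ext i j
  fin_cases i <;> fin_cases j <;> simp

theorem map_of227 (f : ℂ →+* ℂ) (a b c d : ℂ) :
    (!![a, b; c, d] : Matrix (Fin 2) (Fin 2) ℂ).map f = !![f a, f b; f c, f d] := by
  ext i j
  fin_cases i <;> fin_cases j <;> rfl

theorem rotZ_conj227 (α : ℝ) : (rotZ α).map (starRingEnd ℂ) = rotZ (-α) := by
  have h : rotZ = fun α : ℝ => !![Complex.exp (Complex.I * ((α / 2 : ℝ) : ℂ)), 0;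
     0, Complex.exp (-(Complex.I * ((α / 2 : ℝ) : ℂ)))] := rfl
  have e1 : (starRingEnd ℂ) (Complex.exp (Complex.I * ((α / 2 : ℝ) : ℂ)))
      = Complex.exp (Complex.I * (((-α) / 2 : ℝ) : ℂ)) := by
    rw [← Complex.exp_conj]
    congr 1
    rw [map_mul, Complex.conj_I, Complex.conj_ofReal]
    push_cast; ring
  have e2 : (starRingEnd ℂ) (Complex.exp (-(Complex.I * ((α / 2 : ℝ) : ℂ))))
      = Complex.exp (-(Complex.I * (((-α) / 2 : ℝ) : ℂ))) := by
    rw [← Complex.exp_conj]
    congr 1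
    rw [map_neg, map_mul, Complex.conj_I, Complex.conj_ofReal]
    push_cast; ring
  rw [h]
  show (!![Complex.exp (Complex.I * ((α / 2 : ℝ) : ℂ)), 0;
     0, Complex.exp (-(Complex.I * ((α / 2 : ℝ) : ℂ)))] : Matrix (Fin 2) (Fin 2) ℂ).map
       (starRingEnd ℂ)
    = !![Complex.exp (Complex.I * (((-α) / 2 : ℝ) : ℂ)), 0;
     0, Complex.exp (-(Complex.I * (((-α) / 2 : ℝ) : ℂ)))]
  rw [map_of227, e1, e2, map_zero]

theorem rotY_conj227 (β : ℝ) : (rotY β).map (starRingEnd ℂ) = rotY β := by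
  have h : rotY = fun β : ℝ => !![((Real.cos (β / 2) : ℝ) : ℂ), -((Real.sin (β / 2) : ℝ) : ℂ);
     ((Real.sin (β / 2) : ℝ) : ℂ), ((Real.cos (β / 2) : ℝ) : ℂ)] := rfl
  rw [h]
  show (!![((Real.cos (β / 2) : ℝ) : ℂ), -((Real.sin (β / 2) : ℝ) : ℂ);
     ((Real.sin (β / 2) : ℝ) : ℂ), ((Real.cos (β / 2) : ℝ) : ℂ)] :
       Matrix (Fin 2) (Fin 2) ℂ).map (starRingEnd ℂ)
    = !![((Real.cos (β / 2) : ℝ) : ℂ), -((Real.sin (β / 2) : ℝ) : ℂ);
     ((Real.sin (β / 2) : ℝ) : ℂ), ((Real.cos (β / 2) : ℝ) : ℂ)]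
  rw [map_of227, map_neg, Complex.conj_ofReal, Complex.conj_ofReal]

theorem torus_conj227 (d : ℝ) : (torus d).map (starRingEnd ℂ) = torus d := by
  have h : torus = fun d : ℝ => !![((Real.exp (d / 2) : ℝ) : ℂ), 0;
     0, ((Real.exp (-(d / 2)) : ℝ) : ℂ)] := rfl
  rw [h]
  show (!![((Real.exp (d / 2) : ℝ) : ℂ), 0;
     0, ((Real.exp (-(d / 2)) : ℝ) : ℂ)] : Matrix (Fin 2) (Fin 2) ℂ).map (starRingEnd ℂ)
    = !![((Real.exp (d / 2) : ℝ) : ℂ), 0;
     0, ((Real.exp (-(d / 2)) : ℝ) : ℂ)]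
  rw [map_of227, Complex.conj_ofReal, Complex.conj_ofReal, map_zero]

/-- The complex conjugation of `GL₂(ℂ)`. -/
def cGL227 : GL (Fin 2) ℂ →* GL (Fin 2) ℂ := Matrix.GeneralLinearGroup.map (starRingEnd ℂ)

theorem cGL_cGL227 (g : GL (Fin 2) ℂ) : cGL227 (cGL227 g) = g := by
  apply Units.ext
  ext i j
  simp [cGL227]

theorem cGL_sph227 {d : ℝ} {y : ℝ → ℝ → GL (Fin 2) ℂ} (hy : IsSph227 d y) (α β : ℝ) :
    cGL227 (y α β) = y (-α) β := by
  apply Units.ext
  show ((y α β : GL (Fin 2) ℂ) : Matrix (Fin 2) (Fin 2) ℂ).map (starRingEnd ℂ)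
    = ((y (-α) β : GL (Fin 2) ℂ) : Matrix (Fin 2) (Fin 2) ℂ)
  rw [hy, hy, Matrix.map_mul, Matrix.map_mul, rotZ_conj227, rotY_conj227, torus_conj227]

theorem isU_neg_one227 : IsU227 (-1) := by
  show ((-1 : GL (Fin 2) ℂ) : Matrix (Fin 2) (Fin 2) ℂ)
      * ((-1 : GL (Fin 2) ℂ) : Matrix (Fin 2) (Fin 2) ℂ).conjTranspose = 1
  rw [Units.val_neg, Units.val_one]
  simp

theorem sph_add_two_pi227 {d : ℝ} {y : ℝ → ℝ → GL (Fin 2) ℂ} (hy : IsSph227 d y) (α β : ℝ) :
    y (α + 2 * Real.pi) β = y α β * (-1) := by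
  apply Units.ext
  rw [Units.val_mul, Units.val_neg, Units.val_one, hy, hy, rotZ_add_two_pi227]
  simp

/-- The local sphere mean preserves the invariance under the complex conjugation. -/
theorem sphM_conj227 {d : ℝ} {y : ℝ → ℝ → GL (Fin 2) ℂ} (hy : IsSph227 d y)
    {Φ : GL (Fin 2) ℂ → ℂ} (hΦU : H444.IsBiU444 Φ)
    (hΦc : ∀ g : GL (Fin 2) ℂ, Φ (cGL227 g) = Φ g) (g : GL (Fin 2) ℂ) :
    sphM227 y Φ (cGL227 g) = sphM227 y Φ g := by
  let F : ℝ → ℂ := fun α => ∫ β in (0 : ℝ)..Real.pi, Φ (g * y α β) * ((Real.sin β : ℝ) : ℂ)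
  have hper : Function.Periodic F (2 * Real.pi) := by
    intro α
    show ∫ β in (0 : ℝ)..Real.pi, Φ (g * y (α + 2 * Real.pi) β) * ((Real.sin β : ℝ) : ℂ)
      = ∫ β in (0 : ℝ)..Real.pi, Φ (g * y α β) * ((Real.sin β : ℝ) : ℂ)
    have e : ∀ β : ℝ, Φ (g * y (α + 2 * Real.pi) β) = Φ (g * y α β) := by
      intro β
      rw [sph_add_two_pi227 hy, ← mul_assoc]
      exact biU_right227 hΦU isU_neg_one227 _
    simp only [e]
  have e1 : ∀ α β : ℝ, Φ (cGL227 g * y α β) = Φ (g * y (-α) β) := by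
    intro α β
    rw [← hΦc (g * y (-α) β), map_mul, ← cGL_sph227 hy, cGL_cGL227]
  show ∫ α in (0 : ℝ)..(2 * Real.pi), ∫ β in (0 : ℝ)..Real.pi,
      Φ (cGL227 g * y α β) * ((Real.sin β : ℝ) : ℂ) = ∫ α in (0 : ℝ)..(2 * Real.pi), F α
  simp only [e1]
  have e2 : ∫ α in (0 : ℝ)..(2 * Real.pi), ∫ β in (0 : ℝ)..Real.pi,
      Φ (g * y (-α) β) * ((Real.sin β : ℝ) : ℂ) = ∫ α in (0 : ℝ)..(2 * Real.pi), F (-α) := rfl
  rw [e2, intervalIntegral.integral_comp_neg (fun α => F α)]
  have e3 := hper.intervalIntegral_add_eq (-(2 * Real.pi)) 0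
  rw [neg_add_cancel, zero_add] at e3
  rw [neg_zero]
  exact e3

end Fermat.Agent.LT.T7.H227

end
end
-- ===== PACK-END LT/T7/H227/SphConvCore.lean

-- ===== PACK-BEGIN LT/T6/H22/TwLvlAbs.lean
section




/-!
# Row LT, tower T6, ADAPTER (architect helper22): twisted level change -- part 1, abstract form

OFF-MAIN.  ADDITIVE (new names only, suffix `22`).  The abstract level change of helper196
(`LT/T6/H196/GenLvlOrb.lean`, `genLvl_abs196`, ordinary conjugation) for the TWISTED conjugation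
`y ↦ g⁻¹ y s(g)` of a group `G` with an endomorphism `s`:

`U ⊂ Γ` subgroups with `Γ / U` finite, `C y` (the "compact part of the twisted centraliser of
`y`") a subgroup of the twisted centraliser of `y` containing the twisted centraliser of `y` in
`Γ`, equivariant under twisted conjugation; `ψ` invariant under twisted conjugation by `Γ`.  Then
an orbit sum of `ψ` at `h` for `U` is `[Γ : U]` times an orbit sum for `Γ`.

The counting lemma `H196.count196` is used as it is (it does not involve the conjugation).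
-/

set_option autoImplicit false

noncomputable section

namespace Fermat.Agent.LT.T6.H22

open Fermat.Agent.LT.T6 Fermat.Agent.LT.T6.H196

variable {G : Type} [Group G]

/-- Twisted conjugation `y ↦ g⁻¹ y s(g)` (a right action of `G` on itself). -/
def tc22 (s : G →* G) (y g : G) : G := g⁻¹ * y * s g

theorem tc22_def (s : G →* G) (y g : G) : tc22 s y g = g⁻¹ * y * s g := rfl

theorem tc22_one (s : G →* G) (y : G) : tc22 s y 1 = y := by
  simp [tc22]

theorem tc22_mul (s : G →* G) (y g g' : G) : tc22 s (tc22 s y g) g' = tc22 s y (g * g') := by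
  simp [tc22, mul_assoc]

theorem tc22_inv (s : G →* G) (y g : G) : tc22 s (tc22 s y g) g⁻¹ = y := by
  rw [tc22_mul, mul_inv_cancel, tc22_one]

theorem tc22_inv' (s : G →* G) (y g : G) : tc22 s (tc22 s y g⁻¹) g = y := by
  rw [tc22_mul, inv_mul_cancel, tc22_one]

/-- `cIndex` in terms of `lc196`. -/
theorem cIndex_eq22 (U : G → Prop) (C : G → G → Prop) (y : G) :
    cIndex U C y = Set.ncard {c : Set G | ∃ t, C y t ∧ c = lc196 U t} := rfl

/-- The index at a twisted conjugate `g⁻¹ y s(g)`. -/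
theorem cIndex_tc22 (s : G →* G) (U : G → Prop) (C : G → G → Prop)
    (hCconj : ∀ y x t, C (x⁻¹ * y * s x) (x⁻¹ * t * x) ↔ C y t) (y g : G) :
    cIndex U C (g⁻¹ * y * s g)
      = Set.ncard {c : Set G | ∃ t, C y t ∧ c = lc196 U (t * g)} := by
  rw [cIndex_eq22]
  have : {c : Set G | ∃ t, C (g⁻¹ * y * s g) t ∧ c = lc196 U t}
      = ltr196 g⁻¹ '' {c : Set G | ∃ t, C y t ∧ c = lc196 U (t * g)} := by
    ext c
    constructor
    · rintro ⟨t', ht', rfl⟩
      refine ⟨lc196 U (g * t' * g⁻¹ * g), ⟨g * t' * g⁻¹, ?_, rfl⟩, ?_⟩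
      · rw [← hCconj y g (g * t' * g⁻¹)]
        have : g⁻¹ * (g * t' * g⁻¹) * g = t' := by group
        rw [this]
        exact ht'
      · rw [ltr196_lc]
        congr 1
        group
    · rintro ⟨_, ⟨t, ht, rfl⟩, rfl⟩
      refine ⟨g⁻¹ * t * g, (hCconj y g t).mpr ht, ?_⟩
      rw [ltr196_lc]
      congr 1
      group
  rw [this, Set.ncard_image_of_injective _ (ltr196_injective _)]

/-- **Twisted level change, abstract form.** -/
theorem twLvl_abs22 (s : G →* G) (U Γ : G → Prop) (C : G → G → Prop)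
    (hU : IsSub196 U) (hΓ : IsSub196 Γ) (hUΓ : ∀ g, U g → Γ g)
    (hfin : {c : Set G | ∃ g, Γ g ∧ c = lc196 U g}.Finite)
    (ψ : G → ℂ) (hψ : ∀ g x, Γ g → ψ (g⁻¹ * x * s g) = ψ x)
    (h : G)
    (hCsub : ∀ y, (∃ x, y = x⁻¹ * h * s x) → IsSub196 (C y))
    (hCcent : ∀ y t, C y t → t⁻¹ * y * s t = y)
    (hCconj : ∀ y x t, C (x⁻¹ * y * s x) (x⁻¹ * t * x) ↔ C y t)
    (hCΓ : ∀ y g, Γ g → g⁻¹ * y * s g = y → C y g)
    (c' : ℂ) (hsum : IsOrbSumGen s U C ψ h c') :
    ∃ c : ℂ, IsOrbSumGen s Γ C ψ h c ∧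
      c' = ((Set.ncard {c : Set G | ∃ g, Γ g ∧ c = lc196 U g} : ℕ) : ℂ) * c := by
  classical
  obtain ⟨R', h1, h2, h3, h4⟩ := hsum
  set κ : ℕ := Set.ncard {c : Set G | ∃ g, Γ g ∧ c = lc196 U g} with hκ
  -- twisted conjugation by `Γ`
  set rel : G → G → Prop := fun y y' => ∃ g, Γ g ∧ y' = tc22 s y g with hrel
  have rel_refl : ∀ y, rel y y := fun y => ⟨1, hΓ.one, (tc22_one s y).symm⟩
  have rel_symm : ∀ y y', rel y y' → rel y' y := by
    rintro y y' ⟨g, hg, rfl⟩
    exact ⟨g⁻¹, hΓ.inv _ hg, (tc22_inv s y g).symm⟩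
  have rel_trans : ∀ y y' y'', rel y y' → rel y' y'' → rel y y'' := by
    rintro y y' y'' ⟨g, hg, rfl⟩ ⟨g', hg', rfl⟩
    exact ⟨g * g', hΓ.mul _ _ hg hg', tc22_mul s y g g'⟩
  have rel_ψ : ∀ y y', rel y y' → ψ y' = ψ y := by
    rintro y y' ⟨g, hg, rfl⟩
    exact hψ g y hg
  have rel_class : ∀ y y', rel y y' → (∃ x, y = x⁻¹ * h * s x) → ∃ x, y' = x⁻¹ * h * s x := by
    rintro y y' ⟨g, hg, rfl⟩ ⟨x, rfl⟩
    exact ⟨x * g, tc22_mul s h x g⟩
  have rel_of_U : ∀ y y' u, U u → y' = u⁻¹ * y * s u → rel y y' := fun y y' u hu h =>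
    ⟨u, hUΓ u hu, h⟩
  -- the support
  set R'' : Finset G := R'.filter (fun y => ψ y ≠ 0) with hR''
  have hR''mem : ∀ y, y ∈ R'' ↔ y ∈ R' ∧ ψ y ≠ 0 := fun y => Finset.mem_filter
  -- representatives
  set rep : G → G := fun y => Classical.epsilon (fun y₀ => y₀ ∈ R'' ∧ rel y₀ y) with hrep
  have rep_spec : ∀ y ∈ R'', rep y ∈ R'' ∧ rel (rep y) y := fun y hy =>
    Classical.epsilon_spec (p := fun y₀ => y₀ ∈ R'' ∧ rel y₀ y) ⟨y, hy, rel_refl y⟩
  have rep_congr : ∀ y y', rel y y' → rep y = rep y' := by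
    intro y y' hyy'
    have : (fun y₀ => y₀ ∈ R'' ∧ rel y₀ y) = (fun y₀ => y₀ ∈ R'' ∧ rel y₀ y') := by
      funext y₀
      apply propext
      constructor
      · rintro ⟨ha, hb⟩
        exact ⟨ha, rel_trans _ _ _ hb hyy'⟩
      · rintro ⟨ha, hb⟩
        exact ⟨ha, rel_trans _ _ _ hb (rel_symm _ _ hyy')⟩
    change Classical.epsilon (fun y₀ => y₀ ∈ R'' ∧ rel y₀ y)
      = Classical.epsilon (fun y₀ => y₀ ∈ R'' ∧ rel y₀ y')
    rw [this]
  set R : Finset G := R''.image rep with hR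
  have hRmem : ∀ y ∈ R, y ∈ R'' ∧ rep y = y := by
    intro y hy
    obtain ⟨a, ha, rfl⟩ := Finset.mem_image.mp hy
    exact ⟨(rep_spec a ha).1, rep_congr _ _ (rep_spec a ha).2⟩
  refine ⟨∑ y ∈ R, ψ y * (cIndex Γ C y : ℂ), ⟨R, ?_, ?_, ?_, rfl⟩, ?_⟩
  · intro y hy
    exact h1 y ((hR''mem y).mp (hRmem y hy).1).1
  · rintro y hy y' hy' ⟨g, hg, hgy⟩
    rw [← (hRmem y hy).2, ← (hRmem y' hy').2]
    exact rep_congr _ _ ⟨g, hg, hgy⟩
  · intro y hy hψy
    obtain ⟨y₁, hy₁, u, hu, hyu⟩ := h3 y hy hψy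
    have hrel1 : rel y₁ y := rel_of_U _ _ u hu hyu
    have hψ1 : ψ y₁ ≠ 0 := by
      rw [← rel_ψ _ _ hrel1]
      exact hψy
    have hy₁'' : y₁ ∈ R'' := (hR''mem y₁).mpr ⟨hy₁, hψ1⟩
    obtain ⟨g, hg, hgy⟩ := rel_trans _ _ _ (rep_spec y₁ hy₁'').2 hrel1
    exact ⟨rep y₁, Finset.mem_image_of_mem _ hy₁'', g, hg, hgy⟩
  · -- the value
    have e1 : c' = ∑ y ∈ R'', ψ y * (cIndex U C y : ℂ) := by
      rw [h4, hR'']
      symm
      apply Finset.sum_filter_of_ne
      intro y _ hne hz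
      apply hne
      rw [hz, zero_mul]
    have e2 : ∑ y ∈ R'', ψ y * (cIndex U C y : ℂ)
        = ∑ y ∈ R, ∑ y' ∈ R'' with rep y' = y, ψ y' * (cIndex U C y' : ℂ) :=
      (Finset.sum_fiberwise_of_maps_to (fun y hy => Finset.mem_image_of_mem rep hy) _).symm
    rw [e1, e2, Finset.mul_sum]
    apply Finset.sum_congr rfl
    intro y hy
    obtain ⟨hy'', hrepy⟩ := hRmem y hy
    have hyclass : ∃ x, y = x⁻¹ * h * s x := h1 y ((hR''mem y).mp hy'').1
    have hψy : ψ y ≠ 0 := ((hR''mem y).mp hy'').2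
    set J : Finset G := R''.filter (fun y' => rep y' = y) with hJ
    have hJmem : ∀ j, j ∈ J ↔ j ∈ R'' ∧ rep j = y := fun j => Finset.mem_filter
    have hJrel : ∀ j ∈ J, rel y j := by
      intro j hj
      obtain ⟨hj'', hrj⟩ := (hJmem j).mp hj
      have := (rep_spec j hj'').2
      rw [hrj] at this
      exact this
    -- the elements `γ j`
    have hγex : ∀ j, ∃ g, j ∈ J → (Γ g ∧ j = tc22 s y g) := by
      intro j
      by_cases hj : j ∈ J
      · obtain ⟨g, hg, hgj⟩ := hJrel j hj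
        exact ⟨g, fun _ => ⟨hg, hgj⟩⟩
      · exact ⟨1, fun h' => absurd h' hj⟩
    choose γ hγ using hγex
    have hA : IsSub196 (C y) := hCsub y hyclass
    have hcount := count196 U Γ (C y) hU hΓ hA hUΓ hfin J γ (fun j hj => (hγ j hj).1)
      (by
        rintro j hj j' hj' ⟨a, u, ha, hu, hγj'⟩
        apply h2 j ((hR''mem j).mp ((hJmem j).mp hj).1).1 j'
          ((hR''mem j').mp ((hJmem j').mp hj').1).1
        refine ⟨u, hu, ?_⟩
        have ej := (hγ j hj).2
        have ej' := (hγ j' hj').2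
        have ea : tc22 s y a = y := hCcent y a ha
        calc j' = tc22 s y (γ j') := ej'
          _ = tc22 s y (a * γ j * u) := by rw [hγj']
          _ = tc22 s (tc22 s (tc22 s y a) (γ j)) u := by simp only [tc22_mul, mul_assoc]
          _ = tc22 s (tc22 s y (γ j)) u := by rw [ea]
          _ = tc22 s j u := by rw [← ej]
          _ = u⁻¹ * j * s u := rfl)
      (by
        intro g hg
        have hrel1 : rel y (tc22 s y g) := ⟨g, hg, rfl⟩
        have hψ1 : ψ (tc22 s y g) ≠ 0 := by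
          rw [rel_ψ _ _ hrel1]
          exact hψy
        obtain ⟨y', hy', u, hu, hyu⟩ := h3 _ (rel_class _ _ hrel1 hyclass) hψ1
        have hrel2 : rel y' (tc22 s y g) := rel_of_U _ _ u hu hyu
        have hψ2 : ψ y' ≠ 0 := by
          rw [← rel_ψ _ _ hrel2]
          exact hψ1
        have hy'R : y' ∈ R'' := (hR''mem y').mpr ⟨hy', hψ2⟩
        have hrel3 : rel y y' := rel_trans _ _ _ hrel1 (rel_symm _ _ hrel2)
        have hy'J : y' ∈ J := (hJmem y').mpr ⟨hy'R, by rw [← rep_congr _ _ hrel3, hrepy]⟩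
        obtain ⟨hg', ey'⟩ := hγ y' hy'J
        refine ⟨y', hy'J, g * u⁻¹ * (γ y')⁻¹, u, ?_, hu, by group⟩
        apply hCΓ
        · exact hΓ.mul _ _ (hΓ.mul _ _ hg (hΓ.inv _ (hUΓ u hu))) (hΓ.inv _ hg')
        · -- `tc y (g u⁻¹ γ⁻¹) = y`
          have e4 : tc22 s y g = tc22 s y' u := hyu
          have e5 : tc22 s (tc22 s y g) u⁻¹ = y' := by rw [e4, tc22_inv]
          have e6 : tc22 s y' (γ y')⁻¹ = y := by
            have e7 := tc22_inv s y (γ y')
            rw [← ey'] at e7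
            exact e7
          calc (g * u⁻¹ * (γ y')⁻¹)⁻¹ * y * s (g * u⁻¹ * (γ y')⁻¹)
              = tc22 s y (g * u⁻¹ * (γ y')⁻¹) := rfl
            _ = tc22 s (tc22 s (tc22 s y g) u⁻¹) (γ y')⁻¹ := by simp only [tc22_mul, mul_assoc]
            _ = tc22 s y' (γ y')⁻¹ := by rw [e5]
            _ = y := e6)
    -- assemble
    have e5 : ∀ j ∈ J, ψ j * (cIndex U C j : ℂ)
        = ψ y * ((Set.ncard {c : Set G | ∃ t, C y t ∧ c = lc196 U (t * γ j)} : ℕ) : ℂ) := by
      intro j hj
      rw [rel_ψ _ _ (hJrel j hj)]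
      congr 2
      conv_lhs => rw [(hγ j hj).2]
      exact cIndex_tc22 s U C hCconj y (γ j)
    rw [Finset.sum_congr rfl e5, ← Finset.mul_sum, ← Nat.cast_sum, hcount, cIndex_eq22]
    push_cast
    ring

end Fermat.Agent.LT.T6.H22

end

end
-- ===== PACK-END LT/T6/H22/TwLvlAbs.lean

-- ===== PACK-BEGIN LT/T6/H22/TwLvl.lean
section






/-!
# Row LT, tower T6, ADAPTER (architect helper22): twisted level change -- part 2, `GL₂(k)`

OFF-MAIN.  ADDITIVE (new names only, suffix `22`).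

    twLvlC22 : TwLvlC22

**Twisted level change.**  `k` a local field, `s` an automorphism of `k` which preserves the
valuation, `s ^ l = 1`, `n₀ ≤ n`: there is `κ ≠ 0` (`= [U(n₀) : U(n)]`, independent of `φ`, `δ`)
with `TO^{(n)}_δ(φ) = κ · TO^{(n₀)}_δ(φ)` for every bi-`U(n₀)`-invariant `φ` and every `δ` with
regular norm.  (`s = 1`, `l = 1`: `H783.LvlC783`, closed by helper777.)

Closed inputs (byte-identical copies): the algebra of the twisted centraliser of helper846
(`LT/T6/H846/OrbAlg.lean`), the norm of a twisted conjugate of helper420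
(`LT/T6/H420/Conj2.lean`), `finSuppLvlC125` (helper125), `orbSumUniqC944` (helper944), the
counting lemma of helper196 (`LT/T6/H196/GenLvlAbs.lean`).
-/

set_option autoImplicit false

open scoped Matrix

noncomputable section

namespace Fermat.Agent.LT.T6.H22

open Fermat.Agent.LT.T6 Fermat.Agent.LT.T6.H196 Fermat.Agent.LT.T6.H846 Fermat.Agent.LT.T6.H783

/-- **Twisted level change of orbit sums.** -/
def TwLvlC22 : Prop :=
  ∀ (k : Type) [Field k] [Valued k Γ₀] (q l : ℕ) (s : k ≃+* k), IsLocalField k q →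
    (∀ y : k, Valued.v (s y) = Valued.v y) → (∀ y : k, (s ^ l) y = y) →
    ∀ n₀ n : ℕ, n₀ ≤ n → ∃ κ : ℕ, κ ≠ 0 ∧
      ∀ φ : GL (Fin 2) k → ℂ, IsBiInv (InU n₀) φ →
        ∀ (δ : GL (Fin 2) k) (c c' : ℂ), IsReg (twNorm s l δ) →
          IsTwOrbSum s n₀ φ δ c → IsTwOrbSum s n φ δ c' → c' = (κ : ℂ) * c

section Algebra

variable {k : Type} [Field k] [Valued k Γ₀]

theorem inU_mono22 {m m' : ℕ} (h : m ≤ m') {g : GL (Fin 2) k} (hg : InU m' g) : InU m g := by
  have hle : (WithZero.exp (-(m' : ℤ)) : Γ₀) ≤ WithZero.exp (-(m : ℤ)) := by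
    rw [WithZero.exp_le_exp]
    omega
  intro i j
  exact ⟨le_trans (hg i j).1 hle, le_trans (hg i j).2 hle⟩

/-- `U(m)` is a subgroup. -/
theorem isSub_inU22 (m : ℕ) : IsSub196 (InU (k := k) m) where
  one := inU_one846 m
  mul := fun a b ha hb => inU_mul846 m a b ha hb
  inv := fun a ha => inU_inv846 m a ha

omit [Valued k Γ₀] in
/-- The discriminant is invariant under conjugation. -/
theorem isReg_conj22 (h x : GL (Fin 2) k) (hreg : IsReg h) : IsReg (x⁻¹ * h * x) := by
  unfold IsReg disc at hreg ⊢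
  rw [H420.trace_conj_GL, H420.det_conj_GL]
  exact hreg

theorem valued_two_le_one22 : Valued.v (2 : k) ≤ 1 := by
  have : (2 : k) = 1 + 1 := by norm_num
  rw [this]
  exact Valuation.map_add_le _ (by simp) (by simp)

/-- `1` lies in the compact part of every twisted centraliser. -/
theorem inTwCentC_one22 (s : k ≃+* k) (y : GL (Fin 2) k) : InTwCentC s y 1 := by
  refine ⟨?_, ?_, ?_⟩
  · change (1 : GL (Fin 2) k)⁻¹ * y * glAut s 1 = y
    rw [map_one, inv_one, one_mul, mul_one]
  · rw [Units.val_one, Matrix.trace_one, Fintype.card_fin]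
    have : ((2 : ℕ) : k) = 2 := by norm_num
    rw [this]
    exact valued_two_le_one22
  · rw [Units.val_one, Matrix.det_one, map_one]

/-- The compact part of a twisted centraliser is closed under inverses. -/
theorem inTwCentC_inv22 (s : k ≃+* k) (y t : GL (Fin 2) k) (ht : InTwCentC s y t) :
    InTwCentC s y t⁻¹ := by
  obtain ⟨h1, h2, h3⟩ := ht
  have h1' : t⁻¹ * y * glAut s t = y := h1
  have hdet : (t : Matrix (Fin 2) (Fin 2) k).det
      * ((t⁻¹ : GL (Fin 2) k) : Matrix (Fin 2) (Fin 2) k).det = 1 := by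
    rw [← Matrix.det_mul, ← Units.val_mul, mul_inv_cancel]
    simp
  have hvdet : Valued.v ((t⁻¹ : GL (Fin 2) k) : Matrix (Fin 2) (Fin 2) k).det = 1 := by
    have := congrArg Valued.v hdet
    rw [map_mul, h3, one_mul, map_one] at this
    exact this
  refine ⟨?_, ?_, hvdet⟩
  · change (t⁻¹)⁻¹ * y * glAut s t⁻¹ = y
    rw [inv_inv, map_inv]
    calc t * y * (glAut s t)⁻¹ = t * (t⁻¹ * y * glAut s t) * (glAut s t)⁻¹ := by rw [h1']
      _ = y := by group
  · -- `tr t⁻¹ = tr t · det t⁻¹`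
    have hadj : ((t⁻¹ : GL (Fin 2) k) : Matrix (Fin 2) (Fin 2) k)
        = ((t⁻¹ : GL (Fin 2) k) : Matrix (Fin 2) (Fin 2) k).det
          • (t : Matrix (Fin 2) (Fin 2) k).adjugate := by
      have e1 : (t : Matrix (Fin 2) (Fin 2) k) * ((t⁻¹ : GL (Fin 2) k) : Matrix (Fin 2) (Fin 2) k)
          = 1 := by
        rw [← Units.val_mul, mul_inv_cancel]
        rfl
      calc ((t⁻¹ : GL (Fin 2) k) : Matrix (Fin 2) (Fin 2) k)
          = ((t : Matrix (Fin 2) (Fin 2) k).det
              * ((t⁻¹ : GL (Fin 2) k) : Matrix (Fin 2) (Fin 2) k).det)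
            • ((t⁻¹ : GL (Fin 2) k) : Matrix (Fin 2) (Fin 2) k) := by rw [hdet, one_smul]
        _ = ((t⁻¹ : GL (Fin 2) k) : Matrix (Fin 2) (Fin 2) k).det
            • (((t : Matrix (Fin 2) (Fin 2) k).adjugate * (t : Matrix (Fin 2) (Fin 2) k))
              * ((t⁻¹ : GL (Fin 2) k) : Matrix (Fin 2) (Fin 2) k)) := by
            rw [Matrix.adjugate_mul, Matrix.smul_mul, one_mul, smul_smul, mul_comm]
        _ = _ := by rw [mul_assoc, e1, mul_one]
    have htr : (t : Matrix (Fin 2) (Fin 2) k).adjugate.trace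
        = (t : Matrix (Fin 2) (Fin 2) k).trace := by
      rw [Matrix.adjugate_fin_two, Matrix.trace_fin_two, Matrix.trace_fin_two]
      simp only [Matrix.of_apply, Matrix.cons_val', Matrix.cons_val_zero, Matrix.cons_val_one,
        Matrix.cons_val_fin_one]
      exact add_comm _ _
    rw [hadj, Matrix.trace_smul, htr, smul_eq_mul, map_mul, hvdet, one_mul]
    exact h2

/-- The compact part of the twisted centraliser of an element with regular norm is a
subgroup. -/
theorem isSub_inTwCentC22 (s : k ≃+* k) (l : ℕ) (hl : ∀ y : k, (s ^ l) y = y)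
    (y : GL (Fin 2) k) (hreg : IsReg (twNorm s l y)) : IsSub196 (InTwCentC s y) where
  one := inTwCentC_one22 s y
  mul := fun a b ha hb => inTwCentC_mul846 s l hl y hreg a b ha hb
  inv := fun a ha => inTwCentC_inv22 s y a ha

/-- `U(n₀) / U(n)` is finite. -/
theorem finite_cosets22 {q : ℕ} (hk : IsLocalField k q) {n₀ n : ℕ} (hn : n₀ ≤ n) :
    {c : Set (GL (Fin 2) k) | ∃ g, InU n₀ g ∧ c = lc196 (InU n) g}.Finite := by
  classical
  have hU : IsSub196 (InU (k := k) n) := isSub_inU22 n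
  set f : GL (Fin 2) k → ℂ := fun g => if InU n₀ g then 1 else 0 with hf
  have hsupp : HasFinSupp (InU n₀) f := by
    refine ⟨{1}, fun g hg => ⟨1, Finset.mem_singleton_self 1, g, ?_, (one_mul g).symm⟩⟩
    by_contra hgU
    apply hg
    simp [hf, hgU]
  obtain ⟨F, hF⟩ := H125.finSuppLvlC125 k q hk n₀ n f hn hsupp
  refine (F.finite_toSet.image (lc196 (InU n))).subset ?_
  rintro c ⟨g, hg, rfl⟩
  have hfg : f g ≠ 0 := by simp [hf, hg]
  obtain ⟨x, hx, u, hu, rfl⟩ := hF g hfg
  refine ⟨x, hx, ?_⟩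
  apply lc196_eq_of hU
  have : x⁻¹ * (x * u) = u := by group
  rw [this]
  exact hu

end Algebra

/-- **The twisted level change is closed.** -/
theorem twLvlC22 : TwLvlC22 := by
  intro k _ _ q l s hk hs hl n₀ n hn
  classical
  have hU : IsSub196 (InU (k := k) n) := isSub_inU22 n
  have hΓ : IsSub196 (InU (k := k) n₀) := isSub_inU22 n₀
  have hUΓ : ∀ g : GL (Fin 2) k, InU n g → InU n₀ g := fun g hg => inU_mono22 hn hg
  have hfin := finite_cosets22 (k := k) hk hn
  refine ⟨Set.ncard {c : Set (GL (Fin 2) k) | ∃ g, InU n₀ g ∧ c = lc196 (InU n) g}, ?_, ?_⟩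
  · have hne : {c : Set (GL (Fin 2) k) | ∃ g, InU n₀ g ∧ c = lc196 (InU n) g}.Nonempty :=
      ⟨lc196 (InU n) 1, 1, hΓ.one, rfl⟩
    exact ((Set.ncard_pos hfin).mpr hne).ne'
  · intro φ hφ δ c c' hreg hc hc'
    have hsum' : IsOrbSumGen (glAut s) (InU n) (InTwCentC s) φ δ c' := hc'
    obtain ⟨c₁, hc₁, hcc⟩ := twLvl_abs22 (glAut s) (InU n) (InU n₀) (InTwCentC s) hU hΓ hUΓ hfin
      φ
      (by
        intro g x hg
        have h1 : InU n₀ g⁻¹ := hΓ.inv _ hg
        have h2 : InU n₀ (glAut s g) := inU_glAut846 s hs n₀ g hg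
        exact hφ g⁻¹ (glAut s g) x h1 h2)
      δ
      (by
        rintro y ⟨x, rfl⟩
        apply isSub_inTwCentC22 s l hl
        rw [H420.twNorm_twConj s l hl]
        exact isReg_conj22 _ x hreg)
      (by
        intro y t ht
        exact ht.1)
      (by
        intro y x t
        exact inTwCentC_conj846 s y x t)
      (by
        intro y g hg hgy
        exact inTwCentC_of_inU846 s n₀ y g hg hgy)
      c' hsum'
    have hc₁' : IsTwOrbSum s n₀ φ δ c₁ := hc₁
    have := H944.orbSumUniqC944 k s hs n₀ φ hφ δ c c₁ hc hc₁'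
    rw [hcc, this]

end Fermat.Agent.LT.T6.H22

end

end
-- ===== PACK-END LT/T6/H22/TwLvl.lean

-- ===== PACK-BEGIN LT/T6/H22/BadLevels.lean
section




/-!
# Row LT, tower T6, ADAPTER (architect helper22): the partner at ALL DEEP LEVELS

OFF-MAIN.  ADDITIVE (new names only, suffix `22`).

`T6.BadMatchC` gives, for `φ` of level `n₀` upstairs, a partner `f` of SOME level `m₀`
downstairs, with the orbit sums normalised by `vol U'(n₀) = 1`, `vol U(m₀) = 1`.  The consumers
(tower T7: `H893.LocB893b`, `H305.LocHyp305.inert`, the mirror over `ℚ`) need the partner at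
the levels `(n w, m v)` of a GLOBAL level `𝔫` and `𝔫 𝒪_{K'}`, which are tied to each other and
can only be chosen DEEP.  This is what is proved here:

    BadLevelsC22 : for `φ` bi-`U'(n₀)`-invariant of finite support there is `m₀` such that for
      ALL `n ≥ n₀` and ALL `m ≥ m₀` there is `f`, bi-`U(m)`-invariant of finite support, with
      `O^{(m)}_γ(f) = TO^{(n)}_δ(φ)` for `γ = N δ` regular and `O^{(m)}_γ(f) = 0` for `γ`
      regular, not a norm.

    badLevels_of22 : BadMatchC → OrbSumExC → OrbSumUniqC → H783.LvlC783 → H783.FinSuppLvlC783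
      → TwLvlC22 → BadLevelsC22          (PROVED here; all six inputs are closed)

Proof.  `(m₀, f₁)` from `BadMatchC` at the level `n₀`; `κ'` = the constant of the twisted level
change `n₀ → n` upstairs (`TwLvlC22`), `κ` = the constant of the level change `m₀ → m`
downstairs (`LvlC783`); `f = (κ' / κ) f₁`.
-/

set_option autoImplicit false

open scoped Matrix

noncomputable section

namespace Fermat.Agent.LT.T6.H22

open Fermat.Agent.LT.T6 Fermat.Agent.LT.T6.H783

/-- **The partner at all deep levels** (the form of `T6.BadMatchC` which the global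
construction uses). -/
def BadLevelsC22 : Prop :=
  ∀ (k k' : Type) [Field k] [Field k'] [Valued k Γ₀] [Valued k' Γ₀] (q l e : ℕ)
    (i : k →+* k') (s : k' ≃+* k'),
    IsLocalField k q → IsLocalField k' (q ^ (l / e)) → IsLocalExt k k' l e i s → l.Prime →
    ∀ (n₀ : ℕ) (φ : GL (Fin 2) k' → ℂ), IsBiInv (InU n₀) φ → HasFinSupp (InU n₀) φ →
    ∃ m₀ : ℕ, ∀ n m : ℕ, n₀ ≤ n → m₀ ≤ m →
      ∃ f : GL (Fin 2) k → ℂ, IsBiInv (InU m) f ∧ HasFinSupp (InU m) f ∧
        (∀ (δ : GL (Fin 2) k') (γ : GL (Fin 2) k) (c c' : ℂ), IsReg γ →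
          IsConj (twNorm s l δ) (Matrix.GeneralLinearGroup.map i γ) →
          IsTwOrbSum s n φ δ c → IsOrbSum m f γ c' → c = c') ∧
        ∀ (γ : GL (Fin 2) k) (c' : ℂ), IsReg γ → ¬ IsNormFrom l i s γ →
          IsOrbSum m f γ c' → c' = 0

/-- **The partner at all deep levels, from the closed leaves of T6.** -/
theorem badLevels_of22 (hBad : BadMatchC) (hEx : OrbSumExC) (hUniq : OrbSumUniqC)
    (hLvl : LvlC783) (hFin : FinSuppLvlC783) (hTw : TwLvlC22) : BadLevelsC22 := by
  intro k k' _ _ _ _ q l e i s hk hk' hext hl n₀ φ hφb hφf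
  obtain ⟨m₀, f₁, hf₁b, hf₁f, hmatch, hvan⟩ :=
    hBad k k' q l e i s hk hk' hext hl n₀ φ hφb hφf
  refine ⟨m₀, fun n m hn hm => ?_⟩
  obtain ⟨κ', hκ', hup⟩ := hTw k' (q ^ (l / e)) l s hk' hext.val_s hext.cyc.order n₀ n hn
  obtain ⟨κ, hκ, hdown⟩ := hLvl k q hk m₀ m hm
  have hκ'c : (κ' : ℂ) ≠ 0 := Nat.cast_ne_zero.mpr hκ'
  have hκc : (κ : ℂ) ≠ 0 := Nat.cast_ne_zero.mpr hκ
  set a : ℂ := (κ' : ℂ) / (κ : ℂ) with ha
  have hf₁bm : IsBiInv (InU m) f₁ := isBiInv_mono783 hm hf₁b
  have hf₁fm : HasFinSupp (InU m) f₁ := hFin k q hk m₀ m f₁ hm hf₁f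
  have hfb : IsBiInv (InU m) (a • f₁) := isBiInv_smul783 a hf₁bm
  have hff : HasFinSupp (InU m) (a • f₁) := hasFinSupp_smul783 a hf₁fm
  -- the orbit sums of `a • f₁` at the level `m`
  have key : ∀ (γ : GL (Fin 2) k) (c' d₀ : ℂ), IsReg γ → IsOrbSum m₀ f₁ γ d₀ →
      IsOrbSum m (a • f₁) γ c' → c' = (κ' : ℂ) * d₀ := by
    intro γ c' d₀ hγ hd₀ hc'
    obtain ⟨d, hd⟩ := orbEx783 hEx hk hf₁bm hf₁fm hγ
    have h1 : d = (κ : ℂ) * d₀ := hdown f₁ hf₁b γ d₀ d hγ hd₀ hd
    have h2 : IsOrbSum m (a • f₁) γ (a * d) := orbSum_smul783 a hd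
    have h3 : c' = a * d := orbUniq783 hUniq hfb hc' h2
    rw [h3, h1, ha]
    field_simp
  refine ⟨a • f₁, hfb, hff, ?_, ?_⟩
  · intro δ γ c c' hγ hconj hc hc'
    have hreg : IsReg (twNorm s l δ) := isReg_of_conj_map783 i hγ hconj
    obtain ⟨c₀, hc₀⟩ := hEx k k' q l e i s hk hk' hext n₀ φ hφb hφf δ hreg
    obtain ⟨d₀, hd₀⟩ := orbEx783 hEx hk hf₁b hf₁f hγ
    have h1 : c₀ = d₀ := hmatch δ γ c₀ d₀ hγ hconj hc₀ hd₀
    have h2 : c = (κ' : ℂ) * c₀ := hup φ hφb δ c₀ c hreg hc₀ hc
    have h3 : c' = (κ' : ℂ) * d₀ := key γ c' d₀ hγ hd₀ hc'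
    rw [h2, h3, h1]
  · intro γ c' hγ hnn hc'
    obtain ⟨d₀, hd₀⟩ := orbEx783 hEx hk hf₁b hf₁f hγ
    have h1 : d₀ = 0 := hvan γ d₀ hγ hnn hd₀
    have h3 : c' = (κ' : ℂ) * d₀ := key γ c' d₀ hγ hd₀ hc'
    rw [h3, h1, mul_zero]

end Fermat.Agent.LT.T6.H22

end

end
-- ===== PACK-END LT/T6/H22/BadLevels.lean

-- ===== PACK-BEGIN LT/T6/LocDatumUniq.lean
section




/-!
# Row LT, tower T6 (architect helper22): THE LOCAL EXTENSION DATUM IS UNIQUE

OFF-MAIN, ADDITIVE asset (new names only; `Spec.lean` is untouched).  Mathlib + `T6/Spec` +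
`T6/H116/InstSplit` (helper116: `unif_basis_h116`).

The leaves `T6.InstExtC`, `T6.BadMatchC`, `T6.FundLemmaC` are stated for ONE local datum
`(e, i, s_w)` at a place `w ∣ v` (`i : K_v → K'_w`, `s_w` the extension of `σ`), while the
consumers (T7, field `matched`: `H305.LocHyp305.inert`, `H584.NonNormLocC584`) quantify over ALL
data compatible with `K → K'` and `σ`.  This file shows that the datum is UNIQUE, so that a
property proved for the datum of `InstExtC` holds for every datum: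

* `continuous_of_val_pow22` : a ring homomorphism `i : k → k'` of valued fields (surjective
  valuations) with `v (i x) = v x ^ e`, `0 < e`, is continuous;
* `locIncl_unique22` : two such `i, i' : K_v → K'_w` which agree on `K` are equal;
* `locAut_unique22` : two valuation preserving automorphisms of `K'_w` which agree on `K'` are
  equal;
* `locRam_unique22` : the exponent `e` is determined by `i`;
* `locDatum_unique22` : `(e, i, s_w) = (e', i', s_w')`;
* `locDatum_all_of_one22` : a property of ONE compatible datum holds for ALL compatible data.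
-/

set_option autoImplicit false

open IsDedekindDomain NumberField

noncomputable section

namespace Fermat.Agent.LT.T6

section Abstract

variable {k k' : Type} [Field k] [Field k'] [Valued k Γ₀] [Valued k' Γ₀]

/-- A ring homomorphism of valued fields (surjective valuations) with `v (i x) = v x ^ e`,
`0 < e`, is continuous. -/
theorem continuous_of_val_pow22 (hs : Function.Surjective (Valued.v : k → Γ₀))
    (hs' : Function.Surjective (Valued.v : k' → Γ₀)) (i : k →+* k') (e : ℕ) (he : 0 < e)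
    (hv : ∀ x : k, Valued.v (i x) = Valued.v x ^ e) : Continuous i := by
  have hb := nhds_basis_uniformity' (x := (0 : k)) (H116.unif_basis_h116 k hs)
  have hb' := nhds_basis_uniformity' (x := (0 : k')) (H116.unif_basis_h116 k' hs')
  have h0 : ContinuousAt (i : k →+ k') 0 := by
    rw [ContinuousAt, map_zero]
    refine (hb.tendsto_iff hb').2 ?_
    intro γ' hγ'
    refine ⟨min γ' 1, ?_, ?_⟩
    · rcases min_choice γ' 1 with h | h
      · rw [h]; exact hγ'
      · rw [h]; exact one_ne_zero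
    · intro x hx
      have hx' : Valued.v (x - 0) < min γ' 1 := hx
      rw [sub_zero] at hx'
      have hx1 : Valued.v x ≤ 1 := (hx'.trans_le (min_le_right _ _)).le
      have hpow : Valued.v x ^ e ≤ Valued.v x :=
        pow_le_of_le_one zero_le hx1 (Nat.pos_iff_ne_zero.mp he)
      change Valued.v ((i : k →+ k') x - 0) < γ'
      rw [sub_zero]
      have : Valued.v (i x) < γ' := by
        rw [hv x]
        exact (hpow.trans_lt hx').trans_le (min_le_left _ _)
      exact this
  exact continuous_of_continuousAt_zero (i : k →+ k') h0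

end Abstract

section Places

variable {K K' : Type} [Field K] [NumberField K] [Field K'] [NumberField K'] [Algebra K K']

omit [Algebra K K'] in
/-- Two embeddings `K_v → K'_w` with `v (i x) = v x ^ e` which agree on `K` are equal. -/
theorem locIncl_unique22 (v : HeightOneSpectrum (𝓞 K)) (w : HeightOneSpectrum (𝓞 K'))
    (e e' : ℕ) (i i' : v.adicCompletion K →+* w.adicCompletion K') (he : 0 < e) (he' : 0 < e')
    (hv : ∀ x : v.adicCompletion K, Valued.v (i x) = Valued.v x ^ e)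
    (hv' : ∀ x : v.adicCompletion K, Valued.v (i' x) = Valued.v x ^ e')
    (h : ∀ x : K, i (algebraMap K (v.adicCompletion K) x)
      = i' (algebraMap K (v.adicCompletion K) x)) : i = i' := by
  have hc := continuous_of_val_pow22 (HeightOneSpectrum.valuedAdicCompletion_surjective K v)
    (HeightOneSpectrum.valuedAdicCompletion_surjective K' w) i e he hv
  have hc' := continuous_of_val_pow22 (HeightOneSpectrum.valuedAdicCompletion_surjective K v)
    (HeightOneSpectrum.valuedAdicCompletion_surjective K' w) i' e' he' hv'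
  have hfun : (⇑i : v.adicCompletion K → w.adicCompletion K') = ⇑i' := by
    refine (HeightOneSpectrum.denseRange_algebraMap K v).equalizer hc hc' ?_
    funext x
    exact h x
  exact RingHom.ext fun x => congrFun hfun x

/-- Two valuation preserving automorphisms of `K'_w` which agree on `K'` are equal. -/
theorem locAut_unique22 (w : HeightOneSpectrum (𝓞 K'))
    (sw sw' : w.adicCompletion K' ≃+* w.adicCompletion K')
    (hv : ∀ y : w.adicCompletion K', Valued.v (sw y) = Valued.v y)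
    (hv' : ∀ y : w.adicCompletion K', Valued.v (sw' y) = Valued.v y)
    (h : ∀ y : K', sw (algebraMap K' (w.adicCompletion K') y)
      = sw' (algebraMap K' (w.adicCompletion K') y)) : sw = sw' := by
  have hsurj := HeightOneSpectrum.valuedAdicCompletion_surjective K' w
  have hc := continuous_of_val_pow22 hsurj hsurj
    (sw : w.adicCompletion K' →+* w.adicCompletion K') 1
    Nat.one_pos (fun x => by rw [pow_one]; exact hv x)
  have hc' := continuous_of_val_pow22 hsurj hsurj
    (sw' : w.adicCompletion K' →+* w.adicCompletion K') 1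
    Nat.one_pos (fun x => by rw [pow_one]; exact hv' x)
  have hfun : (⇑sw : w.adicCompletion K' → w.adicCompletion K') = ⇑sw' := by
    refine (HeightOneSpectrum.denseRange_algebraMap K' w).equalizer hc hc' ?_
    funext y
    exact h y
  exact RingEquiv.ext fun y => congrFun hfun y

omit [Algebra K K'] in
/-- The exponent `e` with `v (i x) = v x ^ e` is determined by `i`. -/
theorem locRam_unique22 (v : HeightOneSpectrum (𝓞 K)) (w : HeightOneSpectrum (𝓞 K'))
    (e e' : ℕ) (i : v.adicCompletion K →+* w.adicCompletion K')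
    (hv : ∀ x : v.adicCompletion K, Valued.v (i x) = Valued.v x ^ e)
    (hv' : ∀ x : v.adicCompletion K, Valued.v (i x) = Valued.v x ^ e') : e = e' := by
  obtain ⟨π, hπ⟩ := v.valuation_exists_uniformizer K
  have hval : Valued.v (algebraMap K (v.adicCompletion K) π) = WithZero.exp (-1 : ℤ) := by
    have h1 : Valued.v (algebraMap K (v.adicCompletion K) π) = v.valuation K π :=
      HeightOneSpectrum.valuedAdicCompletion_eq_valuation' v π
    rw [h1, hπ]
  have h2 := (hv (algebraMap K (v.adicCompletion K) π)).symm.trans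
    (hv' (algebraMap K (v.adicCompletion K) π))
  rw [hval, ← WithZero.exp_nsmul, ← WithZero.exp_nsmul] at h2
  have h3 := WithZero.exp_injective h2
  simp only [nsmul_eq_mul, mul_neg, mul_one, neg_inj] at h3
  exact_mod_cast h3

/-- **The local extension datum is unique.** -/
theorem locDatum_unique22 (s : K' ≃+* K') (v : HeightOneSpectrum (𝓞 K))
    (w : HeightOneSpectrum (𝓞 K')) (l : ℕ)
    (e e' : ℕ) (i i' : v.adicCompletion K →+* w.adicCompletion K')
    (sw sw' : w.adicCompletion K' ≃+* w.adicCompletion K')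
    (hi : ∀ x : K, i (algebraMap K (v.adicCompletion K) x)
      = algebraMap K' (w.adicCompletion K') (algebraMap K K' x))
    (hi' : ∀ x : K, i' (algebraMap K (v.adicCompletion K) x)
      = algebraMap K' (w.adicCompletion K') (algebraMap K K' x))
    (hs : ∀ y : K', sw (algebraMap K' (w.adicCompletion K') y)
      = algebraMap K' (w.adicCompletion K') (s y))
    (hs' : ∀ y : K', sw' (algebraMap K' (w.adicCompletion K') y)
      = algebraMap K' (w.adicCompletion K') (s y))
    (hE : IsLocalExt (v.adicCompletion K) (w.adicCompletion K') l e i sw)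
    (hE' : IsLocalExt (v.adicCompletion K) (w.adicCompletion K') l e' i' sw') :
    e = e' ∧ i = i' ∧ sw = sw' := by
  have h1 : i = i' := locIncl_unique22 v w e e' i i' hE.e_pos hE'.e_pos hE.val_i hE'.val_i
    (fun x => (hi x).trans (hi' x).symm)
  have h2 : sw = sw' := locAut_unique22 w sw sw' hE.val_s hE'.val_s
    (fun y => (hs y).trans (hs' y).symm)
  subst h1
  exact ⟨locRam_unique22 v w e e' i hE.val_i hE'.val_i, rfl, h2⟩

/-- **A property of ONE compatible local datum holds for ALL compatible local data**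
(the shape of the quantifiers of `H305.LocHyp305.inert`). -/
theorem locDatum_all_of_one22 (s : K' ≃+* K') (v : HeightOneSpectrum (𝓞 K))
    (w : HeightOneSpectrum (𝓞 K')) (l : ℕ)
    (P : ℕ → (v.adicCompletion K →+* w.adicCompletion K') →
      (w.adicCompletion K' ≃+* w.adicCompletion K') → Prop)
    (e : ℕ) (i : v.adicCompletion K →+* w.adicCompletion K')
    (sw : w.adicCompletion K' ≃+* w.adicCompletion K')
    (hi : ∀ x : K, i (algebraMap K (v.adicCompletion K) x)
      = algebraMap K' (w.adicCompletion K') (algebraMap K K' x))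
    (hs : ∀ y : K', sw (algebraMap K' (w.adicCompletion K') y)
      = algebraMap K' (w.adicCompletion K') (s y))
    (hE : IsLocalExt (v.adicCompletion K) (w.adicCompletion K') l e i sw)
    (hP : P e i sw) :
    ∀ (e' : ℕ) (i' : v.adicCompletion K →+* w.adicCompletion K')
      (sw' : w.adicCompletion K' ≃+* w.adicCompletion K'),
      (∀ x : K, i' (algebraMap K (v.adicCompletion K) x)
        = algebraMap K' (w.adicCompletion K') (algebraMap K K' x)) →
      (∀ y : K', sw' (algebraMap K' (w.adicCompletion K') y)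
        = algebraMap K' (w.adicCompletion K') (s y)) →
      IsLocalExt (v.adicCompletion K) (w.adicCompletion K') l e' i' sw' → P e' i' sw' := by
  intro e' i' sw' hi' hs' hE'
  obtain ⟨h1, h2, h3⟩ := locDatum_unique22 s v w l e e' i i' sw sw' hi hi' hs hs' hE hE'
  subst h1 h2 h3
  exact hP

end Places

end Fermat.Agent.LT.T6

end

end
-- ===== PACK-END LT/T6/LocDatumUniq.lean

-- ===== PACK-BEGIN LT/T6/H22/DblCoset.lean
section


/-!
# Row LT, tower T6, ADAPTER (architect helper22): double coset functions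

OFF-MAIN.  ADDITIVE (new names only, suffix `22`).  The indicator function of a double coset
`U(n) y U(n)` of `GL₂(k)`, `k` a local field, is bi-`U(n)`-invariant and supported on FINITELY
many cosets `x U(n)` (the hypotheses of `T6.BadMatchC`, `H22.BadLevelsC22`, `H22.inertPartner22`
for the components `H893.dblFn893 n y` of the second pair at the bad places).

    IsDblInd22 n y φ       : `φ` is the indicator function of `U(n) y U(n)` (no `ite`: the form
                             does not depend on the decidability instance)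
    isBiInv_dbl22          : IsDblInd22 n y φ → IsBiInv (InU n) φ
    hasFinSupp_dbl22       : IsLocalField k q → IsDblInd22 n y φ → HasFinSupp (InU n) φ
    inU_conj_deep22        : entries of `y`, `y⁻¹` of valuation `≤ exp c`, `u ∈ U(n + 2c)`
                             ⟹ `y⁻¹ u y ∈ U(n)`
-/

set_option autoImplicit false

open scoped Matrix

noncomputable section

namespace Fermat.Agent.LT.T6.H22

open Fermat.Agent.LT.T6 Fermat.Agent.LT.T6.H846 Fermat.Agent.LT.T6.H196

variable {k : Type} [Field k] [Valued k Γ₀]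

/-- `φ` is the indicator function of the double coset `U(n) y U(n)`. -/
def IsDblInd22 (n : ℕ) (y : GL (Fin 2) k) (φ : GL (Fin 2) k → ℂ) : Prop :=
  ∀ x : GL (Fin 2) k,
    ((∃ u₁ u₂ : GL (Fin 2) k, InU n u₁ ∧ InU n u₂ ∧ x = u₁ * y * u₂) → φ x = 1) ∧
    ((¬ ∃ u₁ u₂ : GL (Fin 2) k, InU n u₁ ∧ InU n u₂ ∧ x = u₁ * y * u₂) → φ x = 0)

/-- The indicator function given by `ite` (any decidability instance) is of this form. -/
theorem isDblInd_ite22 (n : ℕ) (y : GL (Fin 2) k)
    (inst : ∀ x : GL (Fin 2) k,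
      Decidable (∃ u₁ u₂ : GL (Fin 2) k, InU n u₁ ∧ InU n u₂ ∧ x = u₁ * y * u₂)) :
    IsDblInd22 n y (fun x =>
      @ite ℂ (∃ u₁ u₂ : GL (Fin 2) k, InU n u₁ ∧ InU n u₂ ∧ x = u₁ * y * u₂) (inst x) 1 0) :=
  fun x => ⟨fun h => by simp only [h, if_true], fun h => by simp only [h, if_false]⟩

theorem dbl_ne_zero_iff22 {n : ℕ} {y : GL (Fin 2) k} {φ : GL (Fin 2) k → ℂ}
    (h : IsDblInd22 n y φ) (x : GL (Fin 2) k) :
    φ x ≠ 0 ↔ ∃ u₁ u₂ : GL (Fin 2) k, InU n u₁ ∧ InU n u₂ ∧ x = u₁ * y * u₂ := by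
  constructor
  · intro hx
    by_contra hn
    exact hx ((h x).2 hn)
  · intro hx
    rw [(h x).1 hx]
    exact one_ne_zero

/-- The double coset function is bi-invariant. -/
theorem isBiInv_dbl22 {n : ℕ} {y : GL (Fin 2) k} {φ : GL (Fin 2) k → ℂ}
    (h : IsDblInd22 n y φ) : IsBiInv (InU n) φ := by
  intro u u' g hu hu'
  by_cases hg : ∃ u₁ u₂ : GL (Fin 2) k, InU n u₁ ∧ InU n u₂ ∧ g = u₁ * y * u₂
  · rw [(h g).1 hg]
    apply (h _).1
    obtain ⟨u₁, u₂, h₁, h₂, rfl⟩ := hg
    exact ⟨u * u₁, u₂ * u', inU_mul846 n _ _ hu h₁, inU_mul846 n _ _ h₂ hu', by group⟩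
  · rw [(h g).2 hg]
    apply (h _).2
    rintro ⟨u₁, u₂, h₁, h₂, e⟩
    apply hg
    refine ⟨u⁻¹ * u₁, u₂ * u'⁻¹, inU_mul846 n _ _ (inU_inv846 n _ hu) h₁,
      inU_mul846 n _ _ h₂ (inU_inv846 n _ hu'), ?_⟩
    calc g = u⁻¹ * (u * g * u') * u'⁻¹ := by group
      _ = u⁻¹ * (u₁ * y * u₂) * u'⁻¹ := by rw [e]
      _ = u⁻¹ * u₁ * y * (u₂ * u'⁻¹) := by group

/-- Every element of the value group is bounded by some `exp c`, `c : ℕ`. -/
theorem exists_le_exp22 (γ : Γ₀) : ∃ c : ℕ, γ ≤ WithZero.exp ((c : ℕ) : ℤ) := by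
  by_cases h0 : γ = 0
  · exact ⟨0, by rw [h0]; exact zero_le'⟩
  · refine ⟨(WithZero.log γ).toNat, ?_⟩
    rw [← WithZero.exp_log h0, WithZero.exp_le_exp]
    exact Int.self_le_toNat _

/-- The entries of a matrix are bounded by some `exp c`. -/
theorem exists_entLe22 (A : Matrix (Fin 2) (Fin 2) k) :
    ∃ c : ℕ, EntLe846 (WithZero.exp ((c : ℕ) : ℤ)) A := by
  choose c hc using fun p : Fin 2 × Fin 2 => exists_le_exp22 (Valued.v (A p.1 p.2))
  refine ⟨Finset.univ.sup c, fun i j => (hc (i, j)).trans ?_⟩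
  rw [WithZero.exp_le_exp]
  exact_mod_cast Finset.le_sup (f := c) (Finset.mem_univ (i, j))

/-- Conjugation by `y` maps a deep congruence subgroup into `U(n)`. -/
theorem inU_conj_deep22 (n c : ℕ) (y u : GL (Fin 2) k)
    (hy : EntLe846 (WithZero.exp ((c : ℕ) : ℤ)) (y : Matrix (Fin 2) (Fin 2) k))
    (hy' : EntLe846 (WithZero.exp ((c : ℕ) : ℤ))
      ((y⁻¹ : GL (Fin 2) k) : Matrix (Fin 2) (Fin 2) k))
    (hu : InU (n + 2 * c) u) : InU n (y⁻¹ * u * y) := by
  have hyy : ((y⁻¹ : GL (Fin 2) k) : Matrix (Fin 2) (Fin 2) k)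
      * (y : Matrix (Fin 2) (Fin 2) k) = 1 := by
    rw [← Units.val_mul, inv_mul_cancel, Units.val_one]
  have key : ∀ g : GL (Fin 2) k,
      EntLe846 (WithZero.exp (-((n + 2 * c : ℕ) : ℤ))) ((g : Matrix (Fin 2) (Fin 2) k) - 1) →
      EntLe846 (WithZero.exp (-(n : ℤ)))
        (((y⁻¹ * g * y : GL (Fin 2) k) : Matrix (Fin 2) (Fin 2) k) - 1) := by
    intro g hg
    have e : ((y⁻¹ * g * y : GL (Fin 2) k) : Matrix (Fin 2) (Fin 2) k) - 1
        = ((y⁻¹ : GL (Fin 2) k) : Matrix (Fin 2) (Fin 2) k)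
          * ((g : Matrix (Fin 2) (Fin 2) k) - 1) * (y : Matrix (Fin 2) (Fin 2) k) := by
      rw [Units.val_mul, Units.val_mul, Matrix.mul_sub, Matrix.sub_mul, mul_one, hyy]
    rw [e]
    have h1 := (hy'.mul hg).mul hy
    refine EntLe846.mono (le_of_eq ?_) h1
    rw [← WithZero.exp_add, ← WithZero.exp_add]
    congr 1
    push_cast
    ring
  rw [inU_iff846] at hu ⊢
  refine ⟨key u hu.1, ?_⟩
  have e2 : (y⁻¹ * u * y)⁻¹ = y⁻¹ * u⁻¹ * y := by group
  rw [e2]
  exact key u⁻¹ hu.2

/-- The double coset function is supported on finitely many cosets. -/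
theorem hasFinSupp_dbl22 {q : ℕ} (hk : IsLocalField k q) {n : ℕ} {y : GL (Fin 2) k}
    {φ : GL (Fin 2) k → ℂ} (h : IsDblInd22 n y φ) : HasFinSupp (InU n) φ := by
  classical
  obtain ⟨c₁, hc₁⟩ := exists_entLe22 (y : Matrix (Fin 2) (Fin 2) k)
  obtain ⟨c₂, hc₂⟩ := exists_entLe22 ((y⁻¹ : GL (Fin 2) k) : Matrix (Fin 2) (Fin 2) k)
  set c : ℕ := max c₁ c₂ with hc
  have hle : ∀ a : ℕ, a ≤ c →
      (WithZero.exp ((a : ℕ) : ℤ) : Γ₀) ≤ WithZero.exp ((c : ℕ) : ℤ) := by
    intro a ha
    rw [WithZero.exp_le_exp]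
    exact_mod_cast ha
  have hy := EntLe846.mono (hle c₁ (le_max_left _ _)) hc₁
  have hy' := EntLe846.mono (hle c₂ (le_max_right _ _)) hc₂
  -- representatives of `U(n) / U(n + 2c)`
  set f : GL (Fin 2) k → ℂ := fun g => if InU n g then 1 else 0 with hf
  have hsupp : HasFinSupp (InU n) f := by
    refine ⟨{1}, fun g hg => ⟨1, Finset.mem_singleton_self 1, g, ?_, (one_mul g).symm⟩⟩
    by_contra hgU
    apply hg
    simp [hf, hgU]
  obtain ⟨F, hF⟩ := H125.finSuppLvlC125 k q hk n (n + 2 * c) f (Nat.le_add_right _ _) hsupp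
  refine ⟨F.image (fun x => x * y), fun g hg => ?_⟩
  obtain ⟨u₁, u₂, h₁, h₂, rfl⟩ := (dbl_ne_zero_iff22 h g).1 hg
  have hfu : f u₁ ≠ 0 := by simp [hf, h₁]
  obtain ⟨x, hx, u, hu, rfl⟩ := hF u₁ hfu
  refine ⟨x * y, Finset.mem_image.2 ⟨x, hx, rfl⟩, y⁻¹ * u * y * u₂,
    inU_mul846 n _ _ (inU_conj_deep22 n c y u hy hy' hu) h₂, by group⟩

end Fermat.Agent.LT.T6.H22

end

end
-- ===== PACK-END LT/T6/H22/DblCoset.lean

-- ===== PACK-BEGIN LT/T6/H22/ConvEx.lean
section





/-!
# Row LT, tower T6 -- adapter (helper22, architect of T6), OFF-MAIN: EXISTENCE of the convolution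
# product of bi-invariant functions of finite support

`T6.IsConv` / `T6.IsConvProd` (`T6/Spec.lean`) are RELATIONS; the split clause of
`H893.LocHyp893` / `B970.LocFin970` asks for a function `f₀ v` with
`IsConvProd (InU (m v)) l (fun j => φ₀ (w j) ∘ map (i j)) (f₀ v)` which is bi-invariant of finite
support.  Here: for ANY group `Γ`, any subgroup predicate `U` and bi-`U`-invariant functions
`φ j` of finite support modulo `U` the convolution product EXISTS and is bi-`U`-invariant of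
finite support (no compactness is needed: the support of `φ * ψ` is in the cosets `h x U`,
`h` in the representatives of the support of `φ`, `x` in those of `ψ`).

* `exists_conv22`     : two factors;
* `exists_convProd22` : `l` factors, with `IsBiInv` and `HasFinSupp` of the product.

Mathlib + `T6/Spec.lean` + `T6/H863/Reps` (helper863) + `T6/H196/GenLvlAbs` (helper196,
`IsSub196`); ADDITIVE, new names only (suffix `22`); every proof is complete.
-/

set_option autoImplicit false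

open scoped Classical

noncomputable section

namespace Fermat.Agent.LT.T6.H22

open Fermat.Agent.LT.T6 Fermat.Agent.LT.T6.H196 Fermat.Agent.LT.T6.H863

variable {Γ : Type} [Group Γ]

/-- Right equivalence modulo `U`: `h' = h u`. -/
def RRel22 (U : Γ → Prop) (h h' : Γ) : Prop := ∃ u : Γ, U u ∧ h' = h * u

theorem rRel_equiv22 {U : Γ → Prop} (hU : IsSub196 U) : Equivalence (RRel22 U) where
  refl h := ⟨1, hU.one, (mul_one h).symm⟩
  symm := by
    rintro h h' ⟨u, hu, rfl⟩
    exact ⟨u⁻¹, hU.inv _ hu, by group⟩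
  trans := by
    rintro h h' h'' ⟨u, hu, rfl⟩ ⟨w, hw, rfl⟩
    exact ⟨u * w, hU.mul _ _ hu hw, by group⟩

theorem biInv_left22 {U : Γ → Prop} (hU : IsSub196 U) {φ : Γ → ℂ} (hφ : IsBiInv U φ)
    (u g : Γ) (hu : U u) : φ (u * g) = φ g := by
  have := hφ u 1 g hu hU.one
  rwa [mul_one] at this

theorem biInv_right22 {U : Γ → Prop} (hU : IsSub196 U) {φ : Γ → ℂ} (hφ : IsBiInv U φ)
    (u g : Γ) (hu : U u) : φ (g * u) = φ g := by
  have := hφ 1 u g hU.one hu
  rwa [one_mul] at this

/-- **Existence of the convolution** of two bi-invariant functions of finite support. -/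
theorem exists_conv22 {U : Γ → Prop} (hU : IsSub196 U) (φ ψ : Γ → ℂ)
    (hφ : IsBiInv U φ) (hφs : HasFinSupp U φ) (hψ : IsBiInv U ψ) (hψs : HasFinSupp U ψ) :
    ∃ χ : Γ → ℂ, IsConv U φ ψ χ ∧ IsBiInv U χ ∧ HasFinSupp U χ := by
  obtain ⟨F, hF⟩ := hφs
  obtain ⟨F', hF'⟩ := hψs
  obtain ⟨R, -, hRi, hRc⟩ := exists_reps_863 (RRel22 U) (rRel_equiv22 hU) F
  have hcov : ∀ h : Γ, φ h ≠ 0 → ∃ h' ∈ R, ∃ u : Γ, U u ∧ h = h' * u := by
    intro h hh
    obtain ⟨x, hx, u, hu, rfl⟩ := hF h hh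
    obtain ⟨r, hr, u', hu', rfl⟩ := hRc x hx
    exact ⟨x * u', hr, u'⁻¹ * u, hU.mul _ _ (hU.inv _ hu') hu, by group⟩
  set χ : Γ → ℂ := fun g => ∑ h ∈ R, φ h * ψ (h⁻¹ * g) with hχ
  have hright : ∀ (g u : Γ), U u → χ (g * u) = χ g := by
    intro g u hu
    simp only [hχ]
    refine Finset.sum_congr rfl (fun h _ => ?_)
    rw [← mul_assoc, biInv_right22 hU hψ u _ hu]
  have hleft : ∀ (g u : Γ), U u → χ (u * g) = χ g := by
    intro g u hu
    simp only [hχ]
    set Fg : Γ → ℂ := fun h => φ h * ψ (h⁻¹ * g) with hFg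
    have hcl : ∀ a b, RRel22 U a b → Fg a = Fg b := by
      rintro a b ⟨u₁, hu₁, rfl⟩
      simp only [hFg]
      rw [biInv_right22 hU hφ u₁ a hu₁]
      have : (a * u₁)⁻¹ * g = u₁⁻¹ * (a⁻¹ * g) := by group
      rw [this, biInv_left22 hU hψ u₁⁻¹ _ (hU.inv _ hu₁)]
    have h1 : ∑ h ∈ R, φ h * ψ (h⁻¹ * (u * g)) = ∑ h ∈ R.image (fun h => u⁻¹ * h), Fg h := by
      rw [Finset.sum_image (fun a _ b _ hab => mul_left_cancel hab)]
      refine Finset.sum_congr rfl (fun h _ => ?_)
      simp only [hFg]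
      rw [biInv_left22 hU hφ u⁻¹ h (hU.inv _ hu)]
      congr 2
      group
    rw [h1]
    refine sum_reps_eq_863 (RRel22 U) (rRel_equiv22 hU) Fg hcl _ _ ?_ hRi ?_ ?_
    · intro a ha b hb hab
      obtain ⟨a', ha', rfl⟩ := Finset.mem_image.mp ha
      obtain ⟨b', hb', rfl⟩ := Finset.mem_image.mp hb
      obtain ⟨u₁, hu₁, e⟩ := hab
      have : a' = b' := hRi a' ha' b' hb' ⟨u₁, hu₁, by
        have := congrArg (fun t => u * t) e
        simpa [mul_assoc] using this⟩
      rw [this]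
    · intro a ha
      have hφa : φ a ≠ 0 := left_ne_zero_of_mul ha
      have hφua : φ (u * a) ≠ 0 := by rwa [biInv_left22 hU hφ u a hu]
      obtain ⟨r, hr, u₁, hu₁, e⟩ := hcov _ hφua
      refine ⟨u⁻¹ * r, Finset.mem_image.mpr ⟨r, hr, rfl⟩, u₁⁻¹, hU.inv _ hu₁, ?_⟩
      have : a = u⁻¹ * (r * u₁) := by rw [← e]; group
      rw [this]; group
    · intro a ha
      have hφa : φ a ≠ 0 := left_ne_zero_of_mul ha
      obtain ⟨r, hr, u₁, hu₁, e⟩ := hcov _ hφa
      exact ⟨r, hr, u₁⁻¹, hU.inv _ hu₁, by rw [e]; group⟩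
  refine ⟨χ, ?_, ?_, ?_⟩
  · intro g
    refine ⟨R, ?_, ?_, rfl⟩
    · intro h hh h' hh' hrel
      exact hRi h hh h' hh' hrel
    · intro h hne
      exact hcov h (left_ne_zero_of_mul hne)
  · intro u u' g hu hu'
    rw [hright _ _ hu', hleft _ _ hu]
  · refine ⟨(R ×ˢ F').image (fun p => p.1 * p.2), fun g hg => ?_⟩
    have hg' : ∑ h ∈ R, φ h * ψ (h⁻¹ * g) ≠ 0 := hg
    obtain ⟨h, hh, hne⟩ := Finset.exists_ne_zero_of_sum_ne_zero hg'
    have hψne : ψ (h⁻¹ * g) ≠ 0 := right_ne_zero_of_mul hne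
    obtain ⟨x, hx, u, hu, e⟩ := hF' _ hψne
    refine ⟨h * x, Finset.mem_image.mpr ⟨(h, x), Finset.mem_product.mpr ⟨hh, hx⟩, rfl⟩, u, hu, ?_⟩
    rw [mul_assoc, ← e]; group

/-- The chain of partial convolution products exists, with bi-invariance and finite support. -/
theorem exists_convChain22 {U : Γ → Prop} (hU : IsSub196 U) (φ : ℕ → Γ → ℂ)
    (hφ : ∀ j, IsBiInv U (φ j)) (hφs : ∀ j, HasFinSupp U (φ j)) (L : ℕ) :
    ∃ χ : ℕ → Γ → ℂ, χ 0 = φ 0 ∧
      (∀ m : ℕ, m < L → IsConv U (χ m) (φ (m + 1)) (χ (m + 1))) ∧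
      ∀ m : ℕ, m ≤ L → IsBiInv U (χ m) ∧ HasFinSupp U (χ m) := by
  induction L with
  | zero =>
    refine ⟨fun _ => φ 0, rfl, fun m hm => absurd hm (Nat.not_lt_zero m), fun m hm => ?_⟩
    exact ⟨hφ 0, hφs 0⟩
  | succ L ih =>
    obtain ⟨χ, h0, hc, hb⟩ := ih
    obtain ⟨χ', hc', hb', hs'⟩ :=
      exists_conv22 hU (χ L) (φ (L + 1)) (hb L le_rfl).1 (hb L le_rfl).2 (hφ _) (hφs _)
    refine ⟨fun m => if m = L + 1 then χ' else χ m, ?_, ?_, ?_⟩
    · simp only [show (0 : ℕ) ≠ L + 1 from (Nat.succ_ne_zero L).symm, if_false]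
      exact h0
    · intro m hm
      rcases Nat.lt_succ_iff_lt_or_eq.mp hm with hlt | rfl
      · have h1 : m ≠ L + 1 := by omega
        have h2 : m + 1 ≠ L + 1 := by omega
        simp only [h1, h2, if_false]
        exact hc m hlt
      · have h1 : m ≠ m + 1 := by omega
        simp only [h1, if_false, if_true]
        exact hc'
    · intro m hm
      rcases Nat.le_succ_iff.mp hm with hle | rfl
      · have h1 : m ≠ L + 1 := by omega
        simp only [h1, if_false]
        exact hb m hle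
      · simp only [if_true]
        exact ⟨hb', hs'⟩

/-- **EXISTENCE OF THE CONVOLUTION PRODUCT** `φ 0 * φ 1 * ⋯ * φ (l-1)` (relation
`T6.IsConvProd`) of bi-`U`-invariant functions of finite support; the product is bi-`U`-invariant
of finite support. -/
theorem exists_convProd22 {U : Γ → Prop} (hU : IsSub196 U) (l : ℕ) (φ : ℕ → Γ → ℂ)
    (hφ : ∀ j, IsBiInv U (φ j)) (hφs : ∀ j, HasFinSupp U (φ j)) :
    ∃ f : Γ → ℂ, IsConvProd U l φ f ∧ IsBiInv U f ∧ HasFinSupp U f := by
  obtain ⟨χ, h0, hc, hb⟩ := exists_convChain22 hU φ hφ hφs (l - 1)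
  refine ⟨χ (l - 1), ⟨χ, h0, fun m hm => hc m (by omega), rfl⟩, (hb _ le_rfl).1, (hb _ le_rfl).2⟩

end Fermat.Agent.LT.T6.H22

end

end
-- ===== PACK-END LT/T6/H22/ConvEx.lean

-- ===== PACK-BEGIN LT/T6/H22/Transport.lean
section



/-!
# Row LT, tower T6 -- adapter (helper22, architect of T6), OFF-MAIN: transport of bi-invariant
# functions of finite support along an isomorphism of valued fields

For `i : k ≃+* k'` which preserves the valuation (the identification `K_v ≃ K'_w` at a split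
place, `T6.InstSplitC`) and `φ` on `GL₂(k')` bi-`U(n)`-invariant of finite support, the function
`g ↦ φ (GL₂(i) g)` on `GL₂(k)` is bi-`U(n)`-invariant of finite support: the factors of the
convolution product in the split clause of `H893.LocHyp893` / `B970.LocFin970`.

Mathlib + `T6/Spec.lean` only; ADDITIVE, new names only (suffix `22`).
-/

set_option autoImplicit false

noncomputable section

namespace Fermat.Agent.LT.T6.H22

open Fermat.Agent.LT.T6

variable {k k' : Type} [Field k] [Field k'] [Valued k Γ₀] [Valued k' Γ₀]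

theorem glMap_apply22 (i : k →+* k') (g : GL (Fin 2) k) (a b : Fin 2) :
    (Matrix.GeneralLinearGroup.map i g : Matrix (Fin 2) (Fin 2) k') a b
      = i ((g : Matrix (Fin 2) (Fin 2) k) a b) := rfl

/-- A homomorphism which preserves the valuation maps `U(n)` into `U(n)`. -/
theorem inU_map22 (i : k →+* k') (hval : ∀ x : k, Valued.v (i x) = Valued.v x) (n : ℕ)
    (u : GL (Fin 2) k) (hu : InU n u) : InU n (Matrix.GeneralLinearGroup.map i u) := by
  have key : ∀ (g : GL (Fin 2) k) (a b : Fin 2),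
      Valued.v ((Matrix.GeneralLinearGroup.map i g : Matrix (Fin 2) (Fin 2) k') a b
          - (1 : Matrix (Fin 2) (Fin 2) k') a b)
        = Valued.v ((g : Matrix (Fin 2) (Fin 2) k) a b - (1 : Matrix (Fin 2) (Fin 2) k) a b) := by
    intro g a b
    have h1 : (1 : Matrix (Fin 2) (Fin 2) k') a b = i ((1 : Matrix (Fin 2) (Fin 2) k) a b) := by
      rw [Matrix.one_apply, Matrix.one_apply]
      split_ifs <;> simp
    rw [glMap_apply22]
    conv_lhs => rw [h1]
    rw [← map_sub, hval]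
  intro a b
  refine ⟨?_, ?_⟩
  · rw [key]
    exact (hu a b).1
  · have : (Matrix.GeneralLinearGroup.map i u)⁻¹ = Matrix.GeneralLinearGroup.map i u⁻¹ :=
      (map_inv (Matrix.GeneralLinearGroup.map i) u).symm
    rw [this, key]
    exact (hu a b).2

theorem glMap_symm22 (i : k ≃+* k') (g : GL (Fin 2) k) :
    Matrix.GeneralLinearGroup.map ((i.symm : k' ≃+* k) : k' →+* k)
      (Matrix.GeneralLinearGroup.map ((i : k ≃+* k') : k →+* k') g) = g := by
  apply Matrix.GeneralLinearGroup.ext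
  intro a b
  rw [glMap_apply22, glMap_apply22]
  exact i.symm_apply_apply _

/-- **Transport along an isomorphism which preserves the valuation.** -/
theorem transport22 (i : k ≃+* k') (hval : ∀ x : k, Valued.v (i x) = Valued.v x) (n : ℕ)
    (φ : GL (Fin 2) k' → ℂ) (hb : IsBiInv (InU n) φ) (hs : HasFinSupp (InU n) φ) :
    IsBiInv (InU n) (fun g => φ (Matrix.GeneralLinearGroup.map ((i : k ≃+* k') : k →+* k') g)) ∧
      HasFinSupp (InU n)
        (fun g => φ (Matrix.GeneralLinearGroup.map ((i : k ≃+* k') : k →+* k') g)) := by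
  classical
  have hval' : ∀ y : k', Valued.v (((i.symm : k' ≃+* k) : k' →+* k) y) = Valued.v y := by
    intro y
    have := hval (i.symm y)
    rw [i.apply_symm_apply] at this
    exact this.symm
  refine ⟨?_, ?_⟩
  · intro u u' g hu hu'
    show φ (Matrix.GeneralLinearGroup.map _ (u * g * u')) = φ (Matrix.GeneralLinearGroup.map _ g)
    rw [map_mul, map_mul]
    exact hb _ _ _ (inU_map22 _ hval n u hu) (inU_map22 _ hval n u' hu')
  · obtain ⟨F, hF⟩ := hs
    refine ⟨F.image (Matrix.GeneralLinearGroup.map ((i.symm : k' ≃+* k) : k' →+* k)),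
      fun g hg => ?_⟩
    obtain ⟨x, hx, u, hu, e⟩ := hF _ hg
    refine ⟨_, Finset.mem_image.mpr ⟨x, hx, rfl⟩,
      Matrix.GeneralLinearGroup.map ((i.symm : k' ≃+* k) : k' →+* k) u,
      inU_map22 _ hval' n u hu, ?_⟩
    rw [← map_mul, ← e, glMap_symm22]

end Fermat.Agent.LT.T6.H22

end

end
-- ===== PACK-END LT/T6/H22/Transport.lean

-- ===== PACK-BEGIN LT/T7/H756/DblAbs.lean
section


/-!
# Row LT, tower T7 (helper756, OFF-MAIN): finite systems of representatives, abstract form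

Mathlib only.  No holes, nothing assumed.

* `exists_prune756` : a finite set contains a subset of pairwise inequivalent elements which
  meets every class of the set.
* `exists_system_abs756` : in a group `Γ` with a subgroup given by a predicate `U`, if the
  relation `g⁻¹ u⁻¹ u' g ∈ U` on `U` is implied by the equality of an invariant with values in a
  finite type, then `U g U / U` has a finite system of representatives (shape of
  `T7.IsDblCosetSystem`).
-/

set_option autoImplicit false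

namespace Fermat.Agent.LT.T7.H756

/-- A finite set contains a subset of pairwise inequivalent elements which meets every class of
the set. -/
theorem exists_prune756 {α : Type*} (r : α → α → Prop) (hs : ∀ a b, r a b → r b a)
    (ht : ∀ a b c, r a b → r b c → r a c) (hr : ∀ a, r a a) (R : Finset α) :
    ∃ R' : Finset α, R' ⊆ R ∧ (∀ a ∈ R', ∀ b ∈ R', a ≠ b → ¬ r a b) ∧
      ∀ a ∈ R, ∃ b ∈ R', r b a := by
  classical
  induction R using Finset.induction_on with
  | empty => exact ⟨∅, Finset.Subset.refl _, by simp, by simp⟩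
  | insert a R _ ih =>
    obtain ⟨R', hsub, hne, hcov⟩ := ih
    by_cases h : ∃ b ∈ R', r b a
    · refine ⟨R', hsub.trans (Finset.subset_insert _ _), hne, fun x hx => ?_⟩
      rcases Finset.mem_insert.1 hx with rfl | hx
      · exact h
      · exact hcov x hx
    · refine ⟨insert a R', Finset.insert_subset_insert _ hsub, ?_, ?_⟩
      · intro x hx y hy hxy hxy'
        rcases Finset.mem_insert.1 hx with hxa | hx' <;>
          rcases Finset.mem_insert.1 hy with hya | hy'
        · exact hxy (hxa.trans hya.symm)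
        · exact h ⟨y, hy', hxa ▸ hs _ _ hxy'⟩
        · exact h ⟨x, hx', hya ▸ hxy'⟩
        · exact hne x hx' y hy' hxy hxy'
      · intro x hx
        rcases Finset.mem_insert.1 hx with rfl | hx
        · exact ⟨x, Finset.mem_insert_self _ _, hr x⟩
        · obtain ⟨b, hb, hbx⟩ := hcov x hx
          exact ⟨b, Finset.mem_insert_of_mem hb, hbx⟩

/-- **Finite systems of representatives of `U g U / U`, abstract form.** -/
theorem exists_system_abs756 {Γ : Type*} [Group Γ] (U : Γ → Prop) (hU1 : U 1)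
    (hUm : ∀ a b, U a → U b → U (a * b)) (hUi : ∀ a, U a → U a⁻¹) (g : Γ)
    {F : Type*} [Finite F] (π : Γ → F)
    (hπ : ∀ u u', U u → U u' → π u = π u' → U (g⁻¹ * (u⁻¹ * u') * g)) :
    ∃ H : Finset Γ, (∀ h ∈ H, ∃ u₁ u₂ : Γ, U u₁ ∧ U u₂ ∧ h = u₁ * g * u₂) ∧
      (∀ h ∈ H, ∀ h' ∈ H, h ≠ h' → ¬ U (h⁻¹ * h')) ∧
      ∀ u : Γ, U u → ∃ h ∈ H, U (h⁻¹ * (u * g)) := by
  classical
  have : Fintype F := Fintype.ofFinite F
  have hex : ∀ c : F, ∃ u : Γ, U u ∧ ((∃ u', U u' ∧ π u' = c) → π u = c) := by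
    intro c
    by_cases h : ∃ u', U u' ∧ π u' = c
    · obtain ⟨u', hu', hc⟩ := h
      exact ⟨u', hu', fun _ => hc⟩
    · exact ⟨1, hU1, fun h' => absurd h' h⟩
  choose rep hrepU hrep using hex
  obtain ⟨R', hsub, hne, hcov⟩ := exists_prune756 (fun a b : Γ => U (a⁻¹ * b))
    (fun a b hab => by
      have := hUi _ hab
      rwa [mul_inv_rev, inv_inv] at this)
    (fun a b c hab hbc => by
      have := hUm _ _ hab hbc
      rwa [mul_assoc, ← mul_assoc b, mul_inv_cancel, one_mul] at this)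
    (fun a => by rw [inv_mul_cancel]; exact hU1)
    (Finset.univ.image fun c : F => rep c * g)
  refine ⟨R', fun h hh => ?_, hne, fun u hu => ?_⟩
  · obtain ⟨c, -, rfl⟩ := Finset.mem_image.1 (hsub hh)
    exact ⟨rep c, 1, hrepU c, hU1, by rw [mul_one]⟩
  · have hc : π (rep (π u)) = π u := hrep (π u) ⟨u, hu, rfl⟩
    obtain ⟨b, hb, hba⟩ := hcov (rep (π u) * g)
      (Finset.mem_image.2 ⟨π u, Finset.mem_univ _, rfl⟩)
    refine ⟨b, hb, ?_⟩
    have h1 : U (g⁻¹ * ((rep (π u))⁻¹ * u) * g) := hπ _ _ (hrepU _) hu hc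
    have h2 := hUm _ _ hba h1
    have e : b⁻¹ * (rep (π u) * g) * (g⁻¹ * ((rep (π u))⁻¹ * u) * g) = b⁻¹ * (u * g) := by
      group
    rwa [e] at h2

end Fermat.Agent.LT.T7.H756

end
-- ===== PACK-END LT/T7/H756/DblAbs.lean

-- ===== PACK-BEGIN LT/T7/H388/SatInj.lean
section



/-!
# Row LT, tower T7, asset for the leaf `SphSplitC893` (helper388): THE SATAKE TRANSFORM IS INJECTIVE

OFF-MAIN.  No hole, nothing assumed.  ADDITIVE (new names only, suffix `388`).  Imports:
Mathlib + `T6/Spec.lean` only.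

    satake_linIndep388 : 0 < q → (∀ lam ∈ S, lam.2 ≤ lam.1) →
        (∀ x y ≠ 0, ∑ lam ∈ S, c lam * T6.satake q lam x y = 0) → ∀ lam ∈ S, c lam = 0
    satT_inj388 : 0 < q → T6.IsDominant A → T6.IsDominant A' →
        (∀ x y ≠ 0, A.sum (c * satake q lam x y) = A'.sum (c * satake q lam x y)) → A = A'

Proof.  On the curve `(x, y) = (s ^ N, s)`, `N ≥ 2` large: `satake q (a, b) (s ^ N) s
= s ^ ((N + 1) b) * Q_{a - b}(s)` with a polynomial `Q_n` (`satQ388`, the recursion of
`T6.satPoly`) of degree `≤ N n` whose coefficient of `X ^ (N n)` is `(√q) ^ n ≠ 0`.  So the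
term of `lam = (a, b)` has the top exponent `N a + b`, distinct for distinct `lam ∈ S`; the
coefficient of the largest one is `c lam * (√q) ^ (a - b)`.
-/

set_option autoImplicit false

noncomputable section

namespace Fermat.Agent.LT.T7.H388

open Fermat.Agent.LT Polynomial

/-! ## The recursion of the Satake polynomials in two steps -/

theorem satPoly_zero388 (q : ℕ) (x y : ℂ) : T6.satPoly q x y 0 = 1 := T6.satPoly.eq_1 q x y

theorem satPoly_one388 (q : ℕ) (x y : ℂ) :
    T6.satPoly q x y 1 = ((Real.sqrt q : ℝ) : ℂ) * (x + y) := T6.satPoly.eq_2 q x y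

theorem satPoly_two388 (q : ℕ) (x y : ℂ) :
    T6.satPoly q x y 2 = (((Real.sqrt q : ℝ) : ℂ) * (x + y)) ^ 2 - ((q : ℂ) + 1) * (x * y) :=
  T6.satPoly.eq_3 q x y

theorem satPoly_add_three388 (q : ℕ) (x y : ℂ) (n : ℕ) :
    T6.satPoly q x y (n + 3) = ((Real.sqrt q : ℝ) : ℂ) * (x + y) * T6.satPoly q x y (n + 2)
      - (q : ℂ) * (x * y) * T6.satPoly q x y (n + 1) := T6.satPoly.eq_4 q x y n

/-- The constant of the recursion: `q + 1` at the first step, `q` afterwards. -/
def recC388 (q n : ℕ) : ℂ := if n = 0 then (q : ℂ) + 1 else (q : ℂ)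

theorem satPoly_add_two388 (q : ℕ) (x y : ℂ) (n : ℕ) :
    T6.satPoly q x y (n + 2) = ((Real.sqrt q : ℝ) : ℂ) * (x + y) * T6.satPoly q x y (n + 1)
      - recC388 q n * (x * y) * T6.satPoly q x y n := by
  rcases n with _ | n
  · show T6.satPoly q x y 2 = _
    rw [satPoly_two388, show (0 : ℕ) + 1 = 1 from rfl, satPoly_one388, satPoly_zero388]
    show _ = _ - (if (0 : ℕ) = 0 then (q : ℂ) + 1 else (q : ℂ)) * (x * y) * 1
    rw [if_pos rfl]
    ring
  · show T6.satPoly q x y (n + 3) = _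
    rw [satPoly_add_three388]
    show _ = _ - (if n + 1 = 0 then (q : ℂ) + 1 else (q : ℂ)) * (x * y) * _
    rw [if_neg (Nat.succ_ne_zero n)]

/-! ## The polynomials on the curve `(X ^ N, X)` -/

/-- `Q_n = satPoly q (X ^ N) X n` as a polynomial. -/
def satQ388 (q N : ℕ) : ℕ → Polynomial ℂ
  | 0 => 1
  | 1 => C ((Real.sqrt q : ℝ) : ℂ) * (X ^ N + X)
  | (n + 2) => C ((Real.sqrt q : ℝ) : ℂ) * (X ^ N + X) * satQ388 q N (n + 1)
      - C (recC388 q n) * (X ^ N * X) * satQ388 q N n

theorem satQ_zero388 (q N : ℕ) : satQ388 q N 0 = 1 := satQ388.eq_1 q N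

theorem satQ_one388 (q N : ℕ) :
    satQ388 q N 1 = C ((Real.sqrt q : ℝ) : ℂ) * (X ^ N + X) := satQ388.eq_2 q N

theorem satQ_add_two388 (q N n : ℕ) :
    satQ388 q N (n + 2) = C ((Real.sqrt q : ℝ) : ℂ) * (X ^ N + X) * satQ388 q N (n + 1)
      - C (recC388 q n) * (X ^ N * X) * satQ388 q N n := satQ388.eq_3 q N n

theorem satQ_eval388 (q N : ℕ) (s : ℂ) :
    ∀ n : ℕ, (satQ388 q N n).eval s = T6.satPoly q (s ^ N) s n := by
  have key : ∀ n : ℕ, (satQ388 q N n).eval s = T6.satPoly q (s ^ N) s n ∧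
      (satQ388 q N (n + 1)).eval s = T6.satPoly q (s ^ N) s (n + 1) := by
    intro n
    induction n with
    | zero =>
      refine ⟨?_, ?_⟩
      · rw [satQ_zero388, satPoly_zero388, eval_one]
      · rw [show (0 : ℕ) + 1 = 1 from rfl, satQ_one388, satPoly_one388]
        simp only [eval_mul, eval_C, eval_add, eval_pow, eval_X]
    | succ n ih =>
      refine ⟨ih.2, ?_⟩
      rw [show n + 1 + 1 = n + 2 from rfl, satQ_add_two388, satPoly_add_two388]
      simp only [eval_sub, eval_mul, eval_C, eval_add, eval_pow, eval_X]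
      rw [ih.1, ih.2]
  exact fun n => (key n).1

/-- Coefficients of `X ^ k * P` above the degree. -/
theorem coeff_Xpow_mul_of_lt388 (P : Polynomial ℂ) (k D d : ℕ) (hP : P.natDegree ≤ D)
    (h : k + D < d) : (X ^ k * P).coeff d = 0 := by
  apply coeff_eq_zero_of_natDegree_lt
  calc (X ^ k * P).natDegree ≤ (X ^ k : Polynomial ℂ).natDegree + P.natDegree := natDegree_mul_le
    _ ≤ k + D := Nat.add_le_add (natDegree_X_pow_le k) hP
    _ < d := h

theorem natDegree_Xpow_mul_le388 (P : Polynomial ℂ) (k D : ℕ) (hP : P.natDegree ≤ D) :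
    (X ^ k * P).natDegree ≤ k + D :=
  calc (X ^ k * P).natDegree ≤ (X ^ k : Polynomial ℂ).natDegree + P.natDegree := natDegree_mul_le
    _ ≤ k + D := Nat.add_le_add (natDegree_X_pow_le k) hP

/-- One step of the recursion: degree and top coefficient. -/
theorem step_top388 (N : ℕ) (hN : 2 ≤ N) (r c : ℂ) (m : ℕ) (P₁ P₂ : Polynomial ℂ)
    (h₁ : P₁.natDegree ≤ N * m) (h₂ : P₂.natDegree ≤ N * (m + 1)) :
    (C r * (X ^ N + X) * P₂ - C c * (X ^ N * X) * P₁).natDegree ≤ N * (m + 2) ∧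
      (C r * (X ^ N + X) * P₂ - C c * (X ^ N * X) * P₁).coeff (N * (m + 2))
        = r * P₂.coeff (N * (m + 1)) := by
  have e1 : C r * (X ^ N + X) * P₂ = C r * (X ^ N * P₂) + C r * (X ^ 1 * P₂) := by
    rw [pow_one]; ring
  have e2 : C c * (X ^ N * X) * P₁ = C c * (X ^ (N + 1) * P₁) := by
    rw [pow_succ]; ring
  have hmul : N * (m + 2) = N + N * (m + 1) := by ring
  have hmul' : N * (m + 1) = N + N * m := by ring
  rw [e1, e2]
  refine ⟨?_, ?_⟩
  · refine (natDegree_sub_le _ _).trans (max_le ((natDegree_add_le _ _).trans (max_le ?_ ?_)) ?_)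
    · exact (natDegree_C_mul_le _ _).trans
        ((natDegree_Xpow_mul_le388 P₂ N _ h₂).trans (by omega))
    · exact (natDegree_C_mul_le _ _).trans
        ((natDegree_Xpow_mul_le388 P₂ 1 _ h₂).trans (by omega))
    · exact (natDegree_C_mul_le _ _).trans
        ((natDegree_Xpow_mul_le388 P₁ (N + 1) _ h₁).trans (by omega))
  · rw [coeff_sub, coeff_add, coeff_C_mul, coeff_C_mul, coeff_C_mul,
      coeff_Xpow_mul_of_lt388 P₂ 1 _ _ h₂ (by omega),
      coeff_Xpow_mul_of_lt388 P₁ (N + 1) _ _ h₁ (by omega), mul_zero, mul_zero, add_zero,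
      sub_zero, coeff_X_pow_mul', if_pos (by omega)]
    congr 2
    omega

theorem satQ_top388 (q N : ℕ) (hN : 2 ≤ N) :
    ∀ n : ℕ, (satQ388 q N n).natDegree ≤ N * n ∧
      (satQ388 q N n).coeff (N * n) = ((Real.sqrt q : ℝ) : ℂ) ^ n := by
  have key : ∀ n : ℕ, ((satQ388 q N n).natDegree ≤ N * n ∧
        (satQ388 q N n).coeff (N * n) = ((Real.sqrt q : ℝ) : ℂ) ^ n) ∧
      ((satQ388 q N (n + 1)).natDegree ≤ N * (n + 1) ∧
        (satQ388 q N (n + 1)).coeff (N * (n + 1)) = ((Real.sqrt q : ℝ) : ℂ) ^ (n + 1)) := by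
    intro n
    induction n with
    | zero =>
      refine ⟨⟨?_, ?_⟩, ?_, ?_⟩
      · rw [satQ_zero388, natDegree_one]
        exact Nat.zero_le _
      · rw [satQ_zero388, mul_zero, coeff_one_zero, pow_zero]
      · rw [show (0 : ℕ) + 1 = 1 from rfl, satQ_one388, mul_one]
        refine (natDegree_C_mul_le _ _).trans ((natDegree_add_le _ _).trans (max_le ?_ ?_))
        · exact natDegree_X_pow_le N
        · exact natDegree_X_le.trans (by omega)
      · rw [show (0 : ℕ) + 1 = 1 from rfl, satQ_one388, mul_one, coeff_C_mul, coeff_add,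
          coeff_X_pow, if_pos rfl, coeff_X, if_neg (by omega), add_zero, mul_one, pow_one]
    | succ n ih =>
      refine ⟨ih.2, ?_⟩
      have h := step_top388 N hN ((Real.sqrt q : ℝ) : ℂ) (recC388 q n) n (satQ388 q N n)
        (satQ388 q N (n + 1)) ih.1.1 ih.2.1
      rw [show n + 1 + 1 = n + 2 from rfl, satQ_add_two388]
      refine ⟨h.1, ?_⟩
      rw [h.2, ih.2.2, pow_succ' _ (n + 1)]
  exact fun n => (key n).1

/-! ## The Satake functions on the curve -/

theorem satake_def388 (q : ℕ) (lam : ℤ × ℤ) (x y : ℂ) :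
    T6.satake q lam x y = (x * y) ^ lam.2 * T6.satPoly q x y (lam.1 - lam.2).toNat := rfl

theorem satake_curve388 (q N : ℕ) (s : ℂ) (lam : ℤ × ℤ) :
    T6.satake q lam (s ^ N) s
      = s ^ (((N : ℤ) + 1) * lam.2) * (satQ388 q N (lam.1 - lam.2).toNat).eval s := by
  rw [satake_def388, satQ_eval388, ← pow_succ, ← zpow_natCast s (N + 1), ← zpow_mul]
  push_cast
  rfl

theorem sqrt_pow_ne_zero388 (q : ℕ) (hq : 0 < q) (n : ℕ) :
    ((Real.sqrt q : ℝ) : ℂ) ^ n ≠ 0 := by
  apply pow_ne_zero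
  rw [Ne, Complex.ofReal_eq_zero]
  exact (Real.sqrt_pos.2 (by exact_mod_cast hq)).ne'

/-- In a non-empty family of dominant weights some coefficient of a vanishing combination of
Satake functions vanishes (the one of the top exponent on the curve). -/
theorem satake_top_zero388 (q : ℕ) (hq : 0 < q) (S : Finset (ℤ × ℤ))
    (hS : ∀ lam ∈ S, lam.2 ≤ lam.1) (c : ℤ × ℤ → ℂ)
    (h : ∀ x y : ℂ, x ≠ 0 → y ≠ 0 → ∑ lam ∈ S, c lam * T6.satake q lam x y = 0)
    (hne : S.Nonempty) : ∃ lam ∈ S, c lam = 0 := by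
  classical
  -- the bound and the weight of the curve
  set B : ℤ := ∑ lam ∈ S, (|lam.1| + |lam.2|) with hB
  have hB0 : 0 ≤ B := Finset.sum_nonneg (fun lam _ => add_nonneg (abs_nonneg _) (abs_nonneg _))
  have hb : ∀ lam ∈ S, |lam.1| + |lam.2| ≤ B := fun lam hlam =>
    Finset.single_le_sum (f := fun lam : ℤ × ℤ => |lam.1| + |lam.2|)
      (fun lam _ => add_nonneg (abs_nonneg _) (abs_nonneg _)) hlam
  obtain ⟨N, hN⟩ : ∃ N : ℕ, (N : ℤ) = 2 + 2 * B := ⟨(2 + 2 * B).toNat, Int.toNat_of_nonneg (by omega)⟩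
  have hN2 : 2 ≤ N := by omega
  obtain ⟨M, hM⟩ : ∃ M : ℕ, (M : ℤ) = ((N : ℤ) + 1) * B :=
    ⟨(((N : ℤ) + 1) * B).toNat, Int.toNat_of_nonneg (by positivity)⟩
  -- the largest top exponent
  obtain ⟨top, htop, hmax⟩ := Finset.exists_max_image S
    (fun lam : ℤ × ℤ => (N : ℤ) * lam.1 + lam.2) hne
  have hlt : ∀ lam ∈ S, lam ≠ top → (N : ℤ) * lam.1 + lam.2 < (N : ℤ) * top.1 + top.2 := by
    intro lam hlam hne'
    refine lt_of_le_of_ne (hmax lam hlam) (fun heq => hne' ?_)
    have h1 := hb lam hlam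
    have h2 := hb top htop
    have hdvd : (N : ℤ) ∣ top.2 - lam.2 := ⟨lam.1 - top.1, by linarith⟩
    have habs : |top.2 - lam.2| < (N : ℤ) := by
      have := abs_sub top.2 lam.2
      have := abs_nonneg top.1
      have := abs_nonneg lam.1
      omega
    have h0 : top.2 - lam.2 = 0 := Int.eq_zero_of_abs_lt_dvd hdvd habs
    have h3 : (N : ℤ) * (lam.1 - top.1) = 0 := by linarith
    have h4 : lam.1 - top.1 = 0 := by
      rcases mul_eq_zero.1 h3 with h5 | h5
      · omega
      · exact h5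
    ext
    · omega
    · omega
  -- the exponents
  set e : ℤ × ℤ → ℕ := fun lam => ((M : ℤ) + ((N : ℤ) + 1) * lam.2).toNat with he
  set n : ℤ × ℤ → ℕ := fun lam => (lam.1 - lam.2).toNat with hn
  have hepos : ∀ lam ∈ S, 0 ≤ (M : ℤ) + ((N : ℤ) + 1) * lam.2 := by
    intro lam hlam
    have h1 := hb lam hlam
    have h2 : -B ≤ lam.2 := by
      have := neg_abs_le lam.2
      have := abs_nonneg lam.1
      omega
    rw [hM]
    nlinarith
  have hee : ∀ lam ∈ S, ((e lam : ℕ) : ℤ) = (M : ℤ) + ((N : ℤ) + 1) * lam.2 :=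
    fun lam hlam => Int.toNat_of_nonneg (hepos lam hlam)
  have hnn : ∀ lam ∈ S, ((n lam : ℕ) : ℤ) = lam.1 - lam.2 :=
    fun lam hlam => Int.toNat_of_nonneg (by have := hS lam hlam; omega)
  have hkey : ∀ lam ∈ S, ((e lam + N * n lam : ℕ) : ℤ) = (M : ℤ) + ((N : ℤ) * lam.1 + lam.2) := by
    intro lam hlam
    push_cast
    rw [hee lam hlam, hnn lam hlam]
    ring
  -- the polynomial
  set Pi0 : Polynomial ℂ := ∑ lam ∈ S, C (c lam) * (X ^ e lam * satQ388 q N (n lam)) with hPi0
  have heval : ∀ s : ℂ, s ≠ 0 → Pi0.eval s = 0 := by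
    intro s hs
    have h1 := h (s ^ N) s (pow_ne_zero N hs) hs
    have h2 : Pi0.eval s = s ^ M * ∑ lam ∈ S, c lam * T6.satake q lam (s ^ N) s := by
      rw [hPi0, eval_finsetSum, Finset.mul_sum]
      refine Finset.sum_congr rfl (fun lam hlam => ?_)
      rw [eval_mul, eval_C, eval_mul, eval_pow, eval_X, satake_curve388,
        ← zpow_natCast s (e lam), hee lam hlam, zpow_add₀ hs, zpow_natCast]
      ring
    rw [h2, h1, mul_zero]
  have hzero : Pi0 = 0 := by
    have hX : X * Pi0 = 0 := by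
      apply Polynomial.funext
      intro s
      rw [eval_mul, eval_X, eval_zero]
      by_cases hs : s = 0
      · rw [hs, zero_mul]
      · rw [heval s hs, mul_zero]
    rcases mul_eq_zero.1 hX with h1 | h1
    · exact absurd h1 X_ne_zero
    · exact h1
  -- the top coefficient
  have hcoef : Pi0.coeff (e top + N * n top) = c top * ((Real.sqrt q : ℝ) : ℂ) ^ n top := by
    rw [hPi0, finsetSum_coeff, Finset.sum_eq_single top]
    · rw [coeff_C_mul, coeff_X_pow_mul', if_pos (Nat.le_add_right _ _), Nat.add_sub_cancel_left,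
        (satQ_top388 q N hN2 (n top)).2]
    · intro lam hlam hne'
      rw [coeff_C_mul, coeff_Xpow_mul_of_lt388 _ (e lam) (N * n lam) _
        (satQ_top388 q N hN2 (n lam)).1, mul_zero]
      have h1 := hkey lam hlam
      have h2 := hkey top htop
      have h3 := hlt lam hlam hne'
      have : ((e lam + N * n lam : ℕ) : ℤ) < ((e top + N * n top : ℕ) : ℤ) := by
        rw [h1, h2]; linarith
      exact_mod_cast this
    · intro hcon
      exact absurd htop hcon
  refine ⟨top, htop, ?_⟩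
  rw [hzero, coeff_zero] at hcoef
  rcases mul_eq_zero.1 hcoef.symm with h1 | h1
  · exact h1
  · exact absurd h1 (sqrt_pow_ne_zero388 q hq _)

/-- **The Satake functions of the dominant weights are linearly independent.** -/
theorem satake_linIndep388 (q : ℕ) (hq : 0 < q) (S : Finset (ℤ × ℤ))
    (hS : ∀ lam ∈ S, lam.2 ≤ lam.1) (c : ℤ × ℤ → ℂ)
    (h : ∀ x y : ℂ, x ≠ 0 → y ≠ 0 → ∑ lam ∈ S, c lam * T6.satake q lam x y = 0) :
    ∀ lam ∈ S, c lam = 0 := by
  classical
  intro mu hmu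
  by_contra hcmu
  have hne : (S.filter (fun lam => c lam ≠ 0)).Nonempty :=
    ⟨mu, Finset.mem_filter.2 ⟨hmu, hcmu⟩⟩
  obtain ⟨lam, hlam, h0⟩ := satake_top_zero388 q hq (S.filter (fun lam => c lam ≠ 0))
    (fun lam hlam => hS lam (Finset.mem_filter.1 hlam).1) c (by
      intro x y hx hy
      rw [Finset.sum_filter_of_ne]
      · exact h x y hx hy
      · intro lam _ hne'
        exact left_ne_zero_of_mul hne') hne
  exact (Finset.mem_filter.1 hlam).2 h0

/-- **The Satake transform is injective** on the spherical functions (T6 form). -/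
theorem satT_inj388 (q : ℕ) (hq : 0 < q) (A A' : (ℤ × ℤ) →₀ ℂ) (hA : T6.IsDominant A)
    (hA' : T6.IsDominant A')
    (h : ∀ x y : ℂ, x ≠ 0 → y ≠ 0 →
      (A.sum fun lam c => c * T6.satake q lam x y)
        = A'.sum fun lam c => c * T6.satake q lam x y) : A = A' := by
  classical
  have hsum : ∀ (F : (ℤ × ℤ) →₀ ℂ) (x y : ℂ),
      (F.sum fun lam c => c * T6.satake q lam x y)
        = ∑ lam ∈ A.support ∪ A'.support ∪ F.support, F lam * T6.satake q lam x y := by
    intro F x y
    rw [Finsupp.sum]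
    refine Finset.sum_subset Finset.subset_union_right (fun lam _ hlam => ?_)
    rw [Finsupp.notMem_support_iff.1 hlam, zero_mul]
  have hSA : A.support ∪ A'.support ∪ A.support = A.support ∪ A'.support := by
    ext lam
    simp only [Finset.mem_union]
    tauto
  have hSA' : A.support ∪ A'.support ∪ A'.support = A.support ∪ A'.support := by
    ext lam
    simp only [Finset.mem_union]
    tauto
  have hlin := satake_linIndep388 q hq (A.support ∪ A'.support)
    (fun lam hlam => by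
      rcases Finset.mem_union.1 hlam with h1 | h1
      · exact hA lam h1
      · exact hA' lam h1)
    (fun lam => A lam - A' lam) (by
      intro x y hx hy
      have h1 := h x y hx hy
      rw [hsum A x y, hsum A' x y, hSA, hSA'] at h1
      simp only [sub_mul]
      rw [Finset.sum_sub_distrib, h1, sub_self])
  ext lam
  by_cases hlam : lam ∈ A.support ∪ A'.support
  · exact sub_eq_zero.1 (hlin lam hlam)
  · rw [Finset.mem_union, not_or] at hlam
    rw [Finsupp.notMem_support_iff.1 hlam.1, Finsupp.notMem_support_iff.1 hlam.2]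

/-! ## Appendix: the equation lemmas of the definitions of this module, realised once -/

theorem satQ_eqns_realised388 : True := by
  have _h0 := @satQ388.eq_def
  have _h1 := @satQ388.eq_1
  have _h2 := @satQ388.eq_2
  have _h3 := @satQ388.eq_3
  have _h4 := @recC388.eq_1
  have _h5 := @recC388.eq_def
  trivial

end Fermat.Agent.LT.T7.H388

end

end
-- ===== PACK-END LT/T7/H388/SatInj.lean

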