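import Mathlib
import Fermat.Agent.Pack.LT2.E0L2
import Fermat.Agent.Pack.LT2.E2L1
import Fermat.Agent.Pack.LT2.E5L3
import Fermat.Agent.Pack.LT3.E8L2
import Fermat.Agent.Pack.LT3.E11L0
import Fermat.Agent.Pack.LT3.E14L0
import Fermat.Agent.Pack.LT3.E17L1
import Fermat.Agent.Pack.LT3.E18L2
import Fermat.Agent.Pack.LT3.E15L3
import Fermat.Agent.Pack.LT3.E12L3
import Fermat.Agent.Pack.LT3.E11L3
import Fermat.Agent.Pack.LT3.E17L3
import Fermat.Agent.Pack.LT3.E11L2
import Fermat.Agent.Pack.LT3.E12L0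
import Fermat.Agent.Pack.LT3.E11L1
import Fermat.Agent.Pack.LT3.E18L1
import Fermat.Agent.Pack.LT3.E19L3
import Fermat.Agent.Pack.LT3.E18L3
import Fermat.Agent.Pack.LT3.E14L3
import Fermat.Agent.Pack.LT3.E19L2
import Fermat.Agent.Pack.LT3.E20L3
import Fermat.Agent.Pack.LT3.E5L0
import Fermat.Agent.Pack.LT2.E16L2
import Fermat.Agent.Pack.LT3.E21L2
import Fermat.Agent.Pack.LT3.E2L0
import Fermat.Agent.Pack.LT2.E6L1
import Fermat.Agent.Pack.LT4.E0L2
import Fermat.Agent.Pack.LT3.E21L3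
import Fermat.Agent.Pack.LT4.E0L1
import Fermat.Agent.Pack.LT4.E0L0

set_option linter.all false

-- ===== PACK-BEGIN LT/T2/H429/Closed.lean
section
























/-!
# Row LT, tower T2, leaf T2.07 (helper429): INTEGRATION of the closed sub-leaves

OFF-MAIN.  Byte-identical copies of the volunteers' files, rebuilt here against `T2/Spec.lean` v3
(sha256 b934629a), `T1/Spec.lean` v1 (sha256 e8ae48d6) and `OpsSpec.lean` v2.

| sub-leaf | closed by |
|---|---|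
| T2.07.00 `SubTransl429` (KEY LEMMA) | helper429 `subTransl429` |
| T2.07.01 `SubCentral429` | helper429 `subCentral429` |
| T2.07.02 `SubHeckePres429` | helper655 `subHeckePres655` |
| T2.07.03 `SubHeckeBdd429` | helper91 `subHeckeBdd_of_transl91` |
| T2.07.04 `SubHeckeAdj429` | helper756 `subHeckeAdj756` |
| T2.07.05 -- T2.07.07 (shifts) | helper429 `subShiftPres429`, `subShiftBdd429`, `subShiftAdj429` |
| T2.07.08 `SubConvLin429` | helper848 `subConvLin848` |
| T2.07.09 `SubConvBdd429` | helper173 `subConvBdd_of173` |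
| T2.07.10 `SubCommHeckeHecke429` | helper75 `subCommHeckeHecke75` |
| T2.07.11 `SubCommConvHecke429` | helper972 `subCommConvHecke972` |
| T2.07.13 `SubCirclePres429` | helper621 `subCirclePres621` |
| T2.07.14 `SubMeanLin429` | helper546 `subMeanLin_of_locCont_h546` |
| T2.07.15 `SubMeanBdd429` | helper322 `subMeanBdd322` |
| T2.07.16 `SubMeanAdj429` | helper770 `subMeanAdj770` |
| T2.07.17 `SubCommMeanHecke429` | helper314 `subCommMeanHecke314` |
| T2.07.19 `SubCommSphereCircle429` | helper879 `subCommSphereCircle_of_locCont879` |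
| T2.07.20 `SubCommCircleCircle429` | helper368 `subCommCircleCircle368` |
| T2.07.30 `SubLocCont429` | helper472 `subLocCont472` |

`leaf07_of_open429 : Open429 K → T2.Leaf07 K` is the state of the leaf: `Open429 K` lists the
sub-leaves still to be integrated.
-/

set_option autoImplicit false

open IsDedekindDomain NumberField MeasureTheory
open Fermat.Agent.LT.H556.A0
open Fermat.Agent.LT.T2

noncomputable section

namespace Fermat.Agent.LT.T2.H429

variable (K : Type) [Field K] [NumberField K]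

/-- THE OPEN PART of the leaf T2.07. -/
structure Open429 : Prop where
  spherePres : SubSpherePres429 K
  commSphereSphere : SubCommSphereSphere429 K
  commConvMean : SubCommConvMean429 K

variable {K}

theorem sub_of_open429 (O : Open429 K) : Sub429 K where
  central := subCentral429 K
  heckePres := Fermat.Agent.LT.T2.H655.subHeckePres655 K
  heckeBdd := Fermat.Agent.LT.T2.H91.subHeckeBdd_of_transl91 (subTransl429 K)
  heckeAdj := Fermat.Agent.LT.T2.H756.subHeckeAdj756 K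
  shiftPres := subShiftPres429 K
  shiftBdd := subShiftBdd429 K
  shiftAdj := subShiftAdj429 K
  convLin := Fermat.Agent.LT.T2.H848.subConvLin848
  convBdd := Fermat.Agent.LT.T2.H173.subConvBdd_of173 (subTransl429 K)
  commHeckeHecke := Fermat.Agent.LT.T2.H75.subCommHeckeHecke75 K
  commConvHecke := Fermat.Agent.LT.T2.H972.subCommConvHecke972 K
  spherePres := O.spherePres
  circlePres := Fermat.Agent.LT.T2.H621.subCirclePres621 K
  meanLin := Fermat.Agent.LT.T2.H546.subMeanLin_of_locCont_h546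
    (Fermat.Agent.LT.T2.H472.subLocCont472 K)
  meanBdd := Fermat.Agent.LT.T2.H322.subMeanBdd322 (subTransl429 K)
    (Fermat.Agent.LT.T2.H472.subLocCont472 K)
  meanAdj := Fermat.Agent.LT.T2.H770.subMeanAdj770 (subTransl429 K)
  commMeanHecke := Fermat.Agent.LT.T2.H314.subCommMeanHecke314 K
  commSphereSphere := O.commSphereSphere
  commSphereCircle := Fermat.Agent.LT.T2.H879.subCommSphereCircle_of_locCont879
    (Fermat.Agent.LT.T2.H472.subLocCont472 K)
  commCircleCircle := Fermat.Agent.LT.T2.H368.subCommCircleCircle368 K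
  commConvMean := O.commConvMean

/-- **STATE OF THE LEAF T2.07** (Spec v3). -/
theorem leaf07_of_open429 (O : Open429 K) : Leaf07 K := leaf07_of_sub429 (sub_of_open429 O)

end Fermat.Agent.LT.T2.H429

end

end
-- ===== PACK-END LT/T2/H429/Closed.lean

-- ===== PACK-BEGIN LT/T2/H429/Leaf07Closed.lean
section






/-!
# Row LT, tower T2, leaf T2.07 (helper429): CLOSED, UNCONDITIONAL

OFF-MAIN.  `leaf07_429 (K) : T2.Leaf07 K` against `T2/Spec.lean` v3 (sha256 b934629a): the three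
sub-leaves left open in `Closed.lean` are discharged by

| sub-leaf | closed by |
|---|---|
| T2.07.12 `SubSpherePres429` | helper90 `subSpherePresClosed_h90` |
| T2.07.18 `SubCommSphereSphere429` | helper841 `subCommSphereSphere841` |
| T2.07.21 `SubCommConvMean429` | helper878 `subCommConvMean_closed878` |
| T2.07.31 `SubS2Rot429` (tool) | helper197 `subS2Rot197` |
| T2.07.32 `SubCartanInf429` (tool) | helper555 `subCartanInf555` |

All the volunteers' files are byte-identical copies, rebuilt here.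
-/

set_option autoImplicit false

open IsDedekindDomain NumberField MeasureTheory
open Fermat.Agent.LT.H556.A0
open Fermat.Agent.LT.T2

namespace Fermat.Agent.LT.T2.H429

variable (K : Type) [Field K] [NumberField K]

/-- The open part of `Closed.lean`, closed. -/
theorem open429 : Open429 K where
  spherePres := Fermat.Agent.LT.T2.H90.subSpherePresClosed_h90 K
  commSphereSphere := Fermat.Agent.LT.T2.H841.subCommSphereSphere841
    (Fermat.Agent.LT.T2.H90.subSpherePresClosed_h90 K)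
    (Fermat.Agent.LT.T2.H472.subLocCont472 K)
    Fermat.Agent.LT.T2.H555.subCartanInf555
  commConvMean := Fermat.Agent.LT.T2.H878.subCommConvMean_closed878 K

/-- All the sub-leaves of T2.07. -/
theorem sub429 : Sub429 K := sub_of_open429 (open429 K)

/-- **LEAF T2.07, CLOSED** (Spec v3): `OpsGood K 𝔫 ∧ OpsAdj K 𝔫` for every level. -/
theorem leaf07_429 : Leaf07 K := leaf07_of_open429 (open429 K)

end Fermat.Agent.LT.T2.H429

end
-- ===== PACK-END LT/T2/H429/Leaf07Closed.lean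

-- ===== PACK-BEGIN LT/T3/R/H134/AbelReal.lean
section



/-!
# Row LT, tower T3, station T3.18R, leaf R.1 `AbelRealC` (helper134, OFF-MAIN): BY COMPOSITION

`abelRealC_of134 : AS.AbelCplxSmoothC → T6.H626.AbelExistC626 → R.AbelRealC`.

Both hypotheses are CLOSED leaves (T3: `abelCplxSmooth_closed`, tower T3 of helper14;
T6: `abelExistC626`, station T6.20 of helper626).  No new analysis:

* `AS.AbelCplxSmoothC` applied to `β₂(s, t) = β(2 s, 2 t)` gives a smooth bi-`U(2)`-invariant `F` on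
  `GL₂(ℂ)` with complex `N`-integral `|c₁| |c₂| β₂(log |c₁|, log |c₂|)`;
* `AbelExistC626` with the constant `1` gives `f₀` (weight `0`), `f₁` (weight `±1`) on `GL₂(ℝ)` with
  `∫_ℝ f(!![a, a x; 0, b]) dx = ∫_ℂ F(!![√a, √a w; 0, √b]) dw` for `a, b > 0`;
* two linear changes of variables (`y = a x` on `ℝ`, `z = √a w` on `ℂ`):
  `∫_ℝ f(!![a, y; 0, b]) dy = √a √b β₂(log √a, log √b) = √(a b) β(log a, log b)`.
-/

set_option autoImplicit false

open MeasureTheory
open scoped ContDiff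

noncomputable section

namespace Fermat.Agent.LT.T3.R.H134

open Fermat.Agent.LT.T3 Fermat.Agent.LT.T3.AS Fermat.Agent.LT.T3.R Fermat.Agent.LT.T6

/-- The dilation `β₂(p) = β(2 p)` of a symmetric bump is a symmetric bump. -/
theorem isSymBump_dilate134 {β : ℝ × ℝ → ℂ} (hβ : IsSymBump β) :
    IsSymBump (fun p : ℝ × ℝ => β ((2 : ℝ) • p)) := by
  obtain ⟨h1, h2, h3⟩ := hβ
  refine ⟨?_, ?_, ?_⟩
  · exact h1.comp (contDiff_const_smul (2 : ℝ))
  · exact h2.comp_smul (two_ne_zero)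
  · intro x y
    simpa [Prod.smul_mk] using h3 (2 * x) (2 * y)

/-- A smooth complex test function of tower T3 is an archimedean test function of tower T6. -/
theorem isArchTestC_of134 {F : GL (Fin 2) ℂ → ℂ} (h1 : IsCplxTest F) (h2 : IsCplxSmooth F) :
    T6.IsArchTestC F where
  cont := h1.cont
  supp := h1.supp
  smooth := by
    intro m h hh g
    refine h2 m (fun t => g * h t) ?_
    intro i j
    have e : (fun t : Fin m → ℝ => ((g * h t : GL (Fin 2) ℂ) : Matrix (Fin 2) (Fin 2) ℂ) i j)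
        = fun t => (g : Matrix (Fin 2) (Fin 2) ℂ) i 0
              * ((h t : GL (Fin 2) ℂ) : Matrix (Fin 2) (Fin 2) ℂ) 0 j
            + (g : Matrix (Fin 2) (Fin 2) ℂ) i 1
              * ((h t : GL (Fin 2) ℂ) : Matrix (Fin 2) (Fin 2) ℂ) 1 j := by
      funext t
      rw [Units.val_mul, Matrix.mul_apply, Fin.sum_univ_two]
    rw [e]
    exact (contDiff_const.mul (hh 0 j)).add (contDiff_const.mul (hh 1 j))
  left := by
    intro k g hk
    have h1' : IsUnitary2 (1 : GL (Fin 2) ℂ) := by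
      unfold IsUnitary2; simp
    have := h1.bi_inv k 1 g hk h1'
    simpa using this
  right := by
    intro k g hk
    have h1' : IsUnitary2 (1 : GL (Fin 2) ℂ) := by
      unfold IsUnitary2; simp
    have := h1.bi_inv 1 k g h1' hk
    simpa using this

/-- **The computation**: from the complex `N`-integral of `F` (bump `β(2 ·)`) and the Abel relation
with constant `1` to the real `N`-integral of `f` (bump `β`). -/
theorem hasAbelNR_of134 {F : GL (Fin 2) ℂ → ℂ} {β : ℝ × ℝ → ℂ}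
    (hF : HasAbelN F (fun p : ℝ × ℝ => β ((2 : ℝ) • p))) (f : GL (Fin 2) ℝ → ℂ)
    (hrel : ∀ a b : ℝ, 0 < a → 0 < b →
      ∀ (u : ℝ → GL (Fin 2) ℝ) (u' : ℂ → GL (Fin 2) ℂ),
        (∀ x : ℝ, ((u x : GL (Fin 2) ℝ) : Matrix (Fin 2) (Fin 2) ℝ) = !![a, a * x; 0, b]) →
        (∀ w : ℂ, ((u' w : GL (Fin 2) ℂ) : Matrix (Fin 2) (Fin 2) ℂ)
          = !![((Real.sqrt a : ℝ) : ℂ), ((Real.sqrt a : ℝ) : ℂ) * w; 0,
              ((Real.sqrt b : ℝ) : ℂ)]) →
        (∫ x : ℝ, f (u x)) = (1 : ℂ) * ∫ w : ℂ, F (u' w)) :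
    HasAbelNR f β := by
  intro c₁ c₂ h1 h2
  set a : ℝ := (c₁ : ℝ) with ha
  set b : ℝ := (c₂ : ℝ) with hb
  have hsa : 0 < Real.sqrt a := Real.sqrt_pos.mpr h1
  have hsb : 0 < Real.sqrt b := Real.sqrt_pos.mpr h2
  have hsa' : ((Real.sqrt a : ℝ) : ℂ) ≠ 0 := by exact_mod_cast hsa.ne'
  have hsb' : ((Real.sqrt b : ℝ) : ℂ) ≠ 0 := by exact_mod_cast hsb.ne'
  let sa : ℂˣ := Units.mk0 _ hsa'
  let sb : ℂˣ := Units.mk0 _ hsb'
  have key := hrel a b h1 h2 (fun x => upperGL c₁ c₂ (a * x))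
    (fun w => upperGL sa sb (((Real.sqrt a : ℝ) : ℂ) * w)) (fun x => rfl) (fun w => rfl)
  -- the real side
  have hL : (∫ x : ℝ, f (upperGL c₁ c₂ (a * x)))
      = |a⁻¹| • ∫ y : ℝ, f (upperGL c₁ c₂ y) :=
    MeasureTheory.Measure.integral_comp_mul_left (fun y : ℝ => f (upperGL c₁ c₂ y)) a
  -- the complex side
  have hR : (∫ w : ℂ, F (upperGL sa sb (((Real.sqrt a : ℝ) : ℂ) * w)))
      = |((Real.sqrt a) ^ 2)⁻¹| • ∫ z : ℂ, F (upperGL sa sb z) := by
    have := MeasureTheory.Measure.integral_comp_smul (volume : Measure ℂ)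
      (fun z : ℂ => F (upperGL sa sb z)) (Real.sqrt a)
    rw [Complex.finrank_real_complex] at this
    simpa [Complex.real_smul] using this
  have hN := hF sa sb
  have hna : ‖((sa : ℂˣ) : ℂ)‖ = Real.sqrt a := by
    show ‖((Real.sqrt a : ℝ) : ℂ)‖ = Real.sqrt a
    rw [Complex.norm_real, Real.norm_of_nonneg hsa.le]
  have hnb : ‖((sb : ℂˣ) : ℂ)‖ = Real.sqrt b := by
    show ‖((Real.sqrt b : ℝ) : ℂ)‖ = Real.sqrt b
    rw [Complex.norm_real, Real.norm_of_nonneg hsb.le]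
  have hlog : (2 : ℝ) • (Real.log (Real.sqrt a), Real.log (Real.sqrt b))
      = (Real.log a, Real.log b) := by
    rw [Real.log_sqrt h1.le, Real.log_sqrt h2.le, Prod.smul_mk]
    simp only [smul_eq_mul]
    congr 1 <;> ring
  simp only [hna, hnb, hlog] at hN
  rw [hL, hR, hN, one_mul] at key
  have hsq : Real.sqrt a ^ 2 = a := Real.sq_sqrt h1.le
  rw [hsq, abs_of_pos (inv_pos.mpr h1)] at key
  have ha0 : (a : ℝ) ≠ 0 := h1.ne'
  have key2 : (∫ y : ℝ, f (upperGL c₁ c₂ y))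
      = ((Real.sqrt a * Real.sqrt b : ℝ) : ℂ) * β (Real.log a, Real.log b) :=
    smul_right_injective ℂ (inv_ne_zero ha0) key
  rw [key2, Real.sqrt_mul h1.le]

/-- **R.1 `AbelRealC` from the two closed leaves** `AS.AbelCplxSmoothC` (tower T3) and
`T6.H626.AbelExistC626` (station T6.20). -/
theorem abelRealC_of134 (hC : AbelCplxSmoothC) (hE : H626.AbelExistC626) : AbelRealC := by
  intro n hn β hβ
  obtain ⟨μc, -, κc, -, hF⟩ := hC
  obtain ⟨F, hF1, hF2, hF3, -⟩ := hF (fun p : ℝ × ℝ => β ((2 : ℝ) • p)) (isSymBump_dilate134 hβ)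
  have hφ : T6.IsArchTestC F := isArchTestC_of134 hF1 hF2
  rcases hn with rfl | rfl | rfl
  · obtain ⟨f₀, f₁, hf₀, -, hrel⟩ := hE 1 1 (Or.inl rfl) F hφ
    exact ⟨f₀, hf₀, hasAbelNR_of134 hF3 f₀ fun a b ha hb u u' hu hu' =>
      (hrel a b ha hb u u' hu hu').1⟩
  · obtain ⟨f₀, f₁, -, hf₁, hrel⟩ := hE 1 1 (Or.inl rfl) F hφ
    exact ⟨f₁, hf₁, hasAbelNR_of134 hF3 f₁ fun a b ha hb u u' hu hu' =>
      (hrel a b ha hb u u' hu hu').2⟩
  · obtain ⟨f₀, f₁, -, hf₁, hrel⟩ := hE 1 (-1) (Or.inr rfl) F hφ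
    exact ⟨f₁, hf₁, hasAbelNR_of134 hF3 f₁ fun a b ha hb u u' hu hu' =>
      (hrel a b ha hb u u' hu hu').2⟩

end Fermat.Agent.LT.T3.R.H134

end

end
-- ===== PACK-END LT/T3/R/H134/AbelReal.lean

-- ===== PACK-BEGIN LT/T7/H756/EigBasic.lean
section





/-!
# Row LT, tower T7, level 2 (helper756, OFF-MAIN): BASIC KIT for the operator identities
# OP-up / OP-down -- disjoint supports, right invariance, the local part of an element

No holes, nothing assumed.  Vocabulary: A0, `T7/Level2.lean`, helper129's component maps,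
helper83's Iwahori kit.

* `comm_of_disjoint756`: two elements of `GL₂(𝔸_K)` commute if at every place one of them is
  trivial;
* `RInv756 ψ k`: `ψ` is right invariant under `k` (a group condition on `k`);
* `IsIwElt756 l o h`: `h` is an element of Iwahori type along `o 0, …, o (l-1)` (the elements
  of `T7.IsIwInv`);
* `locPart756 w k`: the element supported at `w` with the component of `k` at `w`;
* `inIwahori_of_inLevelGroup756`: `U(𝔫)` lies in the Iwahori subgroup at every `w ∣ 𝔫`;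
* `conj_inLevelGroup756`: `U(𝔫)` is normalised by the integral elements with integral inverse
  which are trivial at infinity.
-/

set_option autoImplicit false
set_option linter.unusedSectionVars false
set_option linter.unusedVariables false

open AutomorphicForm IsDedekindDomain NumberField MeasureTheory
open scoped ComplexConjugate

noncomputable section

namespace Fermat.Agent.LT.T7.H756

open Fermat.Agent.LT.H556 Fermat.Agent.LT.H556.A0 Fermat.Agent.LT.T7 Fermat.Agent.LT.H129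
open Fermat.Agent.LT.T7.H83

variable {K : Type} [Field K] [NumberField K]

/-! ## 1. Disjoint supports -/

/-- Two elements commute if at every place one of them is trivial. -/
theorem comm_of_disjoint756 {a h : G K}
    (hI : ∀ w : InfinitePlace K, TrivAtInf w a ∨ TrivAtInf w h)
    (hF : ∀ v : HeightOneSpectrum (𝓞 K), TrivAtFin v a ∨ TrivAtFin v h) : a * h = h * a := by
  apply G_ext129
  · intro w
    rw [map_mul, map_mul]
    rcases hI w with h1 | h1
    · rw [(trivAtInf_iff129 w a).1 h1, one_mul, mul_one]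
    · rw [(trivAtInf_iff129 w h).1 h1, one_mul, mul_one]
  · intro v
    rw [map_mul, map_mul]
    rcases hF v with h1 | h1
    · rw [(trivAtFin_iff129 v a).1 h1, one_mul, mul_one]
    · rw [(trivAtFin_iff129 v h).1 h1, one_mul, mul_one]

/-- An element which is trivial at the finite places commutes with an element which is trivial
at the infinite places. -/
theorem comm_inf_fin756 {a h : G K} (ha : ∀ v : HeightOneSpectrum (𝓞 K), TrivAtFin v a)
    (hh : ∀ w : InfinitePlace K, TrivAtInf w h) : a * h = h * a :=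
  comm_of_disjoint756 (fun w => Or.inr (hh w)) (fun v => Or.inl (ha v))

theorem trivAtInf_one756 (w : InfinitePlace K) : TrivAtInf w (1 : G K) :=
  (trivAtInf_iff129 w 1).2 (map_one _)

theorem trivAtInf_mul756 {w : InfinitePlace K} {a b : G K} (ha : TrivAtInf w a)
    (hb : TrivAtInf w b) : TrivAtInf w (a * b) := by
  rw [trivAtInf_iff129] at *
  rw [map_mul, ha, hb, mul_one]

theorem trivAtInf_inv756 {w : InfinitePlace K} {a : G K} (ha : TrivAtInf w a) :
    TrivAtInf w a⁻¹ := by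
  rw [trivAtInf_iff129] at *
  rw [map_inv, ha, inv_one]

theorem trivAtInf_zpow756 {w : InfinitePlace K} {a : G K} (ha : TrivAtInf w a) (k : ℤ) :
    TrivAtInf w (a ^ k) := by
  rw [trivAtInf_iff129] at *
  rw [map_zpow, ha, one_zpow]

theorem trivAtFin_one756 (v : HeightOneSpectrum (𝓞 K)) : TrivAtFin v (1 : G K) :=
  (trivAtFin_iff129 v 1).2 (map_one _)

theorem trivAtFin_mul756 {v : HeightOneSpectrum (𝓞 K)} {a b : G K} (ha : TrivAtFin v a)
    (hb : TrivAtFin v b) : TrivAtFin v (a * b) := by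
  rw [trivAtFin_iff129] at *
  rw [map_mul, ha, hb, mul_one]

theorem trivAtFin_inv756 {v : HeightOneSpectrum (𝓞 K)} {a : G K} (ha : TrivAtFin v a) :
    TrivAtFin v a⁻¹ := by
  rw [trivAtFin_iff129] at *
  rw [map_inv, ha, inv_one]

theorem trivAtFin_zpow756 {v : HeightOneSpectrum (𝓞 K)} {a : G K} (ha : TrivAtFin v a)
    (k : ℤ) : TrivAtFin v (a ^ k) := by
  rw [trivAtFin_iff129] at *
  rw [map_zpow, ha, one_zpow]

/-! ## 2. Right invariance -/

/-- `ψ` is right invariant under `k`. -/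
def RInv756 (ψ : G K → ℂ) (k : G K) : Prop := ∀ x : G K, ψ (x * k) = ψ x

theorem rinv_one756 (ψ : G K → ℂ) : RInv756 ψ 1 := fun x => by rw [mul_one]

theorem rinv_mul756 {ψ : G K → ℂ} {a b : G K} (ha : RInv756 ψ a) (hb : RInv756 ψ b) :
    RInv756 ψ (a * b) := fun x => by rw [← mul_assoc, hb, ha]

theorem rinv_inv756 {ψ : G K → ℂ} {a : G K} (ha : RInv756 ψ a) : RInv756 ψ a⁻¹ := fun x => by
  have := ha (x * a⁻¹)
  rw [inv_mul_cancel_right] at this
  exact this.symm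

/-- The elements of Iwahori type along `o 0, …, o (l-1)`. -/
def IsIwElt756 (l : ℕ) (o : ℕ → HeightOneSpectrum (𝓞 K)) (h : G K) : Prop :=
  (∀ w : InfinitePlace K, TrivAtInf w h) ∧
    (∀ v : HeightOneSpectrum (𝓞 K), (∀ j < l, v ≠ o j) → TrivAtFin v h) ∧
    ∀ j < l, T5.InIwahori (o j) h

/-- `ψ` is right invariant under `U(𝔫)` and under the elements of Iwahori type. -/
def IsKInv756 (𝔫 : Ideal (𝓞 K)) (l : ℕ) (o : ℕ → HeightOneSpectrum (𝓞 K)) (ψ : G K → ℂ) :
    Prop :=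
  (∀ u : G K, InLevelGroup 𝔫 u → RInv756 ψ u) ∧ ∀ h : G K, IsIwElt756 l o h → RInv756 ψ h

theorem isKInv_of_isWFn756 {𝔫 : Ideal (𝓞 K)} {r : G K} {l : ℕ}
    {o : ℕ → HeightOneSpectrum (𝓞 K)} {ψ : G K → ℂ} (h : IsWFn 𝔫 r l o ψ) :
    IsKInv756 𝔫 l o ψ :=
  ⟨fun u hu x => h.cusp.aut.level_inv u hu x, fun k hk x => h.iw k hk.1 hk.2.1 hk.2.2 x⟩

theorem isIwInv_of_isKInv756 {𝔫 : Ideal (𝓞 K)} {l : ℕ}
    {o : ℕ → HeightOneSpectrum (𝓞 K)} {ψ : G K → ℂ} (h : IsKInv756 𝔫 l o ψ) :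
    IsIwInv l o ψ :=
  fun k h1 h2 h3 x => h.2 k ⟨h1, h2, h3⟩ x

/-! ## 3. The local part -/

/-- The element supported at `w` with the component of `k` at `w`. -/
def locPart756 (w : HeightOneSpectrum (𝓞 K)) (k : G K) : G K :=
  locFin129 w (finCompHom129 w k)

theorem isLocalAtFin_locPart756 (w : HeightOneSpectrum (𝓞 K)) (k : G K) :
    IsLocalAtFin w (locPart756 w k) :=
  isLocalAtFin_locFin129 w _

theorem finCompHom_locPart756 (w : HeightOneSpectrum (𝓞 K)) (k : G K) :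
    finCompHom129 w (locPart756 w k) = finCompHom129 w k :=
  finCompHom129_locFin129 w _

theorem finComp_locPart756 (w : HeightOneSpectrum (𝓞 K)) (k : G K) :
    finComp w (locPart756 w k) = finComp w k := by
  rw [← coe_finCompHom129, finCompHom_locPart756, coe_finCompHom129]

/-- The rest `(locPart w k)⁻¹ * k` is trivial at `w`. -/
theorem trivAtFin_rest756 (w : HeightOneSpectrum (𝓞 K)) (k : G K) :
    TrivAtFin w ((locPart756 w k)⁻¹ * k) := by
  rw [trivAtFin_iff129, map_mul, map_inv, finCompHom_locPart756, inv_mul_cancel]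

/-- The rest has the components of `k` at the other finite places. -/
theorem finCompHom_rest756 (w : HeightOneSpectrum (𝓞 K)) (k : G K)
    {v : HeightOneSpectrum (𝓞 K)} (hv : v ≠ w) :
    finCompHom129 v ((locPart756 w k)⁻¹ * k) = finCompHom129 v k := by
  have h := ((isLocalAtFin_iff129 w _).1 (isLocalAtFin_locPart756 w k)).2 v hv
  rw [map_mul, map_inv, h, inv_one, one_mul]

theorem infCompHom_rest756 (w : HeightOneSpectrum (𝓞 K)) (k : G K) (w' : InfinitePlace K) :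
    infCompHom129 w' ((locPart756 w k)⁻¹ * k) = infCompHom129 w' k := by
  have h := ((isLocalAtFin_iff129 w _).1 (isLocalAtFin_locPart756 w k)).1 w'
  rw [map_mul, map_inv, h, inv_one, one_mul]

/-- The local part commutes with the rest. -/
theorem locPart_comm756 (w : HeightOneSpectrum (𝓞 K)) (k : G K) :
    locPart756 w k * ((locPart756 w k)⁻¹ * k) = (locPart756 w k)⁻¹ * k * locPart756 w k :=
  mul_comm_of_local83 w (isLocalAtFin_locPart756 w k) (trivAtFin_rest756 w k)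

/-- `k = rest * local part`. -/
theorem eq_rest_mul_locPart756 (w : HeightOneSpectrum (𝓞 K)) (k : G K) :
    k = (locPart756 w k)⁻¹ * k * locPart756 w k := by
  rw [← locPart_comm756, mul_inv_cancel_left]

/-! ## 4. Integrality, the Iwahori condition, the level group -/

theorem isIntegralAt_congr756 {v : HeightOneSpectrum (𝓞 K)} {g h : G K}
    (e : finCompHom129 v g = finCompHom129 v h) (hg : IsIntegralAt v g) : IsIntegralAt v h := by
  intro i j
  have := hg i j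
  rw [← coe_finCompHom129, e, coe_finCompHom129] at this
  exact this

theorem isIntegralAt_of_trivAtFin756 {v : HeightOneSpectrum (𝓞 K)} {g : G K}
    (hg : TrivAtFin v g) : IsIntegralAt v g := by
  intro i j
  have e : finComp v g = 1 := hg
  rw [e]
  by_cases hij : i = j
  · subst hij
    rw [Matrix.one_apply_eq]
    exact one_mem _
  · rw [Matrix.one_apply_ne hij]
    exact zero_mem _

/-- The closure of an ideal contained in `w` lies in the maximal ideal at `w`. -/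
theorem valued_lt_one_of_mem_idealClosure756 {𝔫 : Ideal (𝓞 K)} {w : HeightOneSpectrum (𝓞 K)}
    (hw : w.asIdeal ∣ 𝔫) {x : w.adicCompletion K} (hx : x ∈ idealClosure 𝔫 w) :
    Valued.v x < 1 := by
  have hcl : IsClosed {y : w.adicCompletion K | Valued.v y < 1} := by
    have h := Valued.isClosed_ball (w.adicCompletion K) 1
    have e : {y : w.adicCompletion K | (Valued.v : Valuation (w.adicCompletion K) _).restrict y < 1}
        = {y : w.adicCompletion K | Valued.v y < 1} := by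
      ext y
      simp only [Set.mem_ofPred_eq]
      exact Valuation.restrict_lt_one_iff _
    rw [← e]
    exact h
  have hsub : ((fun x : 𝓞 K => algebraMap K (w.adicCompletion K) (algebraMap (𝓞 K) K x)) ''
      (𝔫 : Set (𝓞 K))) ⊆ {y : w.adicCompletion K | Valued.v y < 1} := by
    rintro _ ⟨a, ha, rfl⟩
    show Valued.v (algebraMap K (w.adicCompletion K) (algebraMap (𝓞 K) K a)) < 1
    have h1 : Valued.v (algebraMap K (w.adicCompletion K) (algebraMap (𝓞 K) K a))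
        = w.valuation K (algebraMap (𝓞 K) K a) :=
      HeightOneSpectrum.valuedAdicCompletion_eq_valuation' w _
    rw [h1, HeightOneSpectrum.valuation_lt_one_iff_mem]
    exact (Ideal.dvd_iff_le.1 hw) ha
  exact closure_minimal hsub hcl hx

/-- `U(𝔫)` lies in the Iwahori subgroup at every place dividing `𝔫`. -/
theorem inIwahori_of_inLevelGroup756 {𝔫 : Ideal (𝓞 K)} {w : HeightOneSpectrum (𝓞 K)}
    (hw : w.asIdeal ∣ 𝔫) {u : G K} (hu : InLevelGroup 𝔫 u) : T5.InIwahori w u := by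
  obtain ⟨h1, h2⟩ := T2.H655.isIntegralAt_of_inLevelGroup655 hu w
  refine ⟨h1, h2, ?_⟩
  have h3 := (hu.2 w 1 0).1
  rw [Matrix.sub_apply, Matrix.one_apply_ne (by decide : (1 : Fin 2) ≠ 0), sub_zero] at h3
  exact valued_lt_one_of_mem_idealClosure756 hw h3

/-- The closure of an ideal is stable under multiplication by integers of the completion. -/
theorem idealClosure_int_mul756 (𝔫 : Ideal (𝓞 K)) (v : HeightOneSpectrum (𝓞 K))
    {a x : v.adicCompletion K} (ha : Valued.v a ≤ 1) (hx : x ∈ idealClosure 𝔫 v) :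
    a * x ∈ idealClosure 𝔫 v := by
  have ha' : a ∈ closure ((fun y : 𝓞 K =>
      algebraMap K (v.adicCompletion K) (algebraMap (𝓞 K) K y)) '' (Set.univ : Set (𝓞 K))) := by
    rw [mem_closure_iff_nhds]
    intro t ht
    obtain ⟨b, hb⟩ := exists_int_mem_nhds129 v ha ht
    exact ⟨_, hb, b, Set.mem_univ b, rfl⟩
  unfold idealClosure at hx ⊢
  refine map_mem_closure₂ continuous_mul ha' hx ?_
  rintro _ ⟨b, -, rfl⟩ _ ⟨c, hc, rfl⟩
  exact ⟨b * c, 𝔫.mul_mem_left b hc, by simp⟩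

theorem idealClosure_mul_int756 (𝔫 : Ideal (𝓞 K)) (v : HeightOneSpectrum (𝓞 K))
    {a x : v.adicCompletion K} (ha : Valued.v a ≤ 1) (hx : x ∈ idealClosure 𝔫 v) :
    x * a ∈ idealClosure 𝔫 v := by
  rw [mul_comm]
  exact idealClosure_int_mul756 𝔫 v ha hx

theorem idealClosure_add756 (𝔫 : Ideal (𝓞 K)) (v : HeightOneSpectrum (𝓞 K))
    {x y : v.adicCompletion K} (hx : x ∈ idealClosure 𝔫 v) (hy : y ∈ idealClosure 𝔫 v) :
    x + y ∈ idealClosure 𝔫 v := by
  unfold idealClosure at hx hy ⊢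
  refine map_mem_closure₂ continuous_add hx hy ?_
  rintro _ ⟨a, ha, rfl⟩ _ ⟨b, hb, rfl⟩
  exact ⟨a + b, 𝔫.add_mem ha hb, by simp⟩

end Fermat.Agent.LT.T7.H756

end

end
-- ===== PACK-END LT/T7/H756/EigBasic.lean

-- ===== PACK-BEGIN LT/T3/H773/AbelGrp.lean
section





/-!
# Row LT, tower T3, station T3.18R, leaf R.1 (helper773, SPARE): the test function on `GL₂(ℝ)`

OFF-MAIN.  `abelF773 P H g = P(g) H(ρ(g), log det g)` for `det g > 0`, `0` for `det g < 0`
(`ρ = T6.rhoR`, `P = 1`, `conj (holPart)`, `holPart` for the weights `0, 1, -1`), `H` smooth on the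
closed half plane `{ρ ≥ 1}` with bounded support: it is a test function of weight `n`
(`T6.IsArchTestR`), and its `N`-integral is computed from the Abel transform of `H`.
-/

set_option autoImplicit false

noncomputable section

namespace Fermat.Agent.LT.T3.H773

open Set Filter Topology MeasureTheory
open scoped ContDiff Matrix
open Fermat.Agent.LT.T3.H984
open Fermat.Agent.LT.T6 (InSO2 holPart wtChar IsArchTestR rhoR)
open Fermat.Agent.LT.T3.AS (upperGL IsSymBump)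

/-! ## 1. Algebra -/

/-- The sum of the squares of the entries. -/
def ssq773 (M : Matrix (Fin 2) (Fin 2) ℝ) : ℝ := M 0 0 ^ 2 + M 0 1 ^ 2 + M 1 0 ^ 2 + M 1 1 ^ 2

theorem rhoR_eq773 (g : GL (Fin 2) ℝ) :
    rhoR g = ssq773 (g : Matrix (Fin 2) (Fin 2) ℝ) / (2 * |(g : Matrix (Fin 2) (Fin 2) ℝ).det|) := by
  unfold rhoR ssq773
  congr 1
  rw [Matrix.trace_fin_two, Matrix.mul_apply, Matrix.mul_apply, Fin.sum_univ_two,
    Fin.sum_univ_two]
  simp only [Matrix.transpose_apply]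
  ring

theorem det_ne_zero773 (g : GL (Fin 2) ℝ) : (g : Matrix (Fin 2) (Fin 2) ℝ).det ≠ 0 :=
  Matrix.GeneralLinearGroup.det_ne_zero g

theorem two_abs_det_le_ssq773 (M : Matrix (Fin 2) (Fin 2) ℝ) : 2 * |M.det| ≤ ssq773 M := by
  rw [Matrix.det_fin_two]
  unfold ssq773
  rcases abs_cases (M 0 0 * M 1 1 - M 0 1 * M 1 0) with ⟨h, -⟩ | ⟨h, -⟩
  · rw [h]
    nlinarith [sq_nonneg (M 0 0 - M 1 1), sq_nonneg (M 0 1 + M 1 0)]
  · rw [h]
    nlinarith [sq_nonneg (M 0 0 + M 1 1), sq_nonneg (M 0 1 - M 1 0)]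

theorem one_le_rhoR773 (g : GL (Fin 2) ℝ) : 1 ≤ rhoR g := by
  rw [rhoR_eq773, le_div_iff₀ (by have := abs_pos.mpr (det_ne_zero773 g); positivity)]
  linarith [two_abs_det_le_ssq773 (g : Matrix (Fin 2) (Fin 2) ℝ)]

/-- The shape of the elements of `SO(2)`. -/
theorem so2_form773 (k : GL (Fin 2) ℝ) (hk : InSO2 k) :
    (k : Matrix (Fin 2) (Fin 2) ℝ) 1 1 = (k : Matrix (Fin 2) (Fin 2) ℝ) 0 0 ∧
      (k : Matrix (Fin 2) (Fin 2) ℝ) 0 1 = -(k : Matrix (Fin 2) (Fin 2) ℝ) 1 0 ∧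
      (k : Matrix (Fin 2) (Fin 2) ℝ) 0 0 ^ 2 + (k : Matrix (Fin 2) (Fin 2) ℝ) 1 0 ^ 2 = 1 := by
  obtain ⟨h1, h2⟩ := hk
  rw [Matrix.det_fin_two] at h2
  have e00 := congrFun (congrFun h1 0) 0
  have e11 := congrFun (congrFun h1 1) 1
  simp only [Matrix.mul_apply, Fin.sum_univ_two, Matrix.transpose_apply, Matrix.one_apply_eq]
    at e00 e11
  have hsq : ((k : Matrix (Fin 2) (Fin 2) ℝ) 0 0 - (k : Matrix (Fin 2) (Fin 2) ℝ) 1 1) ^ 2
      + ((k : Matrix (Fin 2) (Fin 2) ℝ) 0 1 + (k : Matrix (Fin 2) (Fin 2) ℝ) 1 0) ^ 2 = 0 := by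
    linear_combination e00 + e11 - 2 * h2
  have ha : ((k : Matrix (Fin 2) (Fin 2) ℝ) 0 0 - (k : Matrix (Fin 2) (Fin 2) ℝ) 1 1) ^ 2 = 0 :=
    le_antisymm (by nlinarith [sq_nonneg ((k : Matrix (Fin 2) (Fin 2) ℝ) 0 1
      + (k : Matrix (Fin 2) (Fin 2) ℝ) 1 0)]) (sq_nonneg _)
  have hb : ((k : Matrix (Fin 2) (Fin 2) ℝ) 0 1 + (k : Matrix (Fin 2) (Fin 2) ℝ) 1 0) ^ 2 = 0 :=
    le_antisymm (by nlinarith [sq_nonneg ((k : Matrix (Fin 2) (Fin 2) ℝ) 0 0
      - (k : Matrix (Fin 2) (Fin 2) ℝ) 1 1)]) (sq_nonneg _)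
  have ha' := pow_eq_zero_iff (two_ne_zero) |>.mp ha
  have hb' := pow_eq_zero_iff (two_ne_zero) |>.mp hb
  have h11 : (k : Matrix (Fin 2) (Fin 2) ℝ) 1 1 = (k : Matrix (Fin 2) (Fin 2) ℝ) 0 0 := by
    linarith
  have h01 : (k : Matrix (Fin 2) (Fin 2) ℝ) 0 1 = -(k : Matrix (Fin 2) (Fin 2) ℝ) 1 0 := by
    linarith
  refine ⟨h11, h01, ?_⟩
  rw [h01] at e00
  linear_combination e00

theorem mul_entry773 (a b : GL (Fin 2) ℝ) (i j : Fin 2) :
    ((a * b : GL (Fin 2) ℝ) : Matrix (Fin 2) (Fin 2) ℝ) i j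
      = (a : Matrix (Fin 2) (Fin 2) ℝ) i 0 * (b : Matrix (Fin 2) (Fin 2) ℝ) 0 j
        + (a : Matrix (Fin 2) (Fin 2) ℝ) i 1 * (b : Matrix (Fin 2) (Fin 2) ℝ) 1 j := by
  rw [Units.val_mul, Matrix.mul_apply, Fin.sum_univ_two]

theorem det_mul773 (a b : GL (Fin 2) ℝ) :
    ((a * b : GL (Fin 2) ℝ) : Matrix (Fin 2) (Fin 2) ℝ).det
      = (a : Matrix (Fin 2) (Fin 2) ℝ).det * (b : Matrix (Fin 2) (Fin 2) ℝ).det := by
  rw [Units.val_mul, Matrix.det_mul]

theorem det_so2_mul773 (k g : GL (Fin 2) ℝ) (hk : InSO2 k) :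
    ((k * g : GL (Fin 2) ℝ) : Matrix (Fin 2) (Fin 2) ℝ).det
      = (g : Matrix (Fin 2) (Fin 2) ℝ).det := by
  rw [det_mul773, hk.2, one_mul]

theorem det_mul_so2_773 (k g : GL (Fin 2) ℝ) (hk : InSO2 k) :
    ((g * k : GL (Fin 2) ℝ) : Matrix (Fin 2) (Fin 2) ℝ).det
      = (g : Matrix (Fin 2) (Fin 2) ℝ).det := by
  rw [det_mul773, hk.2, mul_one]

theorem ssq_so2_mul773 (k g : GL (Fin 2) ℝ) (hk : InSO2 k) :
    ssq773 ((k * g : GL (Fin 2) ℝ) : Matrix (Fin 2) (Fin 2) ℝ)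
      = ssq773 (g : Matrix (Fin 2) (Fin 2) ℝ) := by
  obtain ⟨h11, h01, hsq⟩ := so2_form773 k hk
  unfold ssq773
  simp only [mul_entry773, h11, h01]
  linear_combination ((g : Matrix (Fin 2) (Fin 2) ℝ) 0 0 ^ 2
    + (g : Matrix (Fin 2) (Fin 2) ℝ) 0 1 ^ 2 + (g : Matrix (Fin 2) (Fin 2) ℝ) 1 0 ^ 2
    + (g : Matrix (Fin 2) (Fin 2) ℝ) 1 1 ^ 2) * hsq

theorem ssq_mul_so2_773 (k g : GL (Fin 2) ℝ) (hk : InSO2 k) :
    ssq773 ((g * k : GL (Fin 2) ℝ) : Matrix (Fin 2) (Fin 2) ℝ)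
      = ssq773 (g : Matrix (Fin 2) (Fin 2) ℝ) := by
  obtain ⟨h11, h01, hsq⟩ := so2_form773 k hk
  unfold ssq773
  simp only [mul_entry773, h11, h01]
  linear_combination ((g : Matrix (Fin 2) (Fin 2) ℝ) 0 0 ^ 2
    + (g : Matrix (Fin 2) (Fin 2) ℝ) 0 1 ^ 2 + (g : Matrix (Fin 2) (Fin 2) ℝ) 1 0 ^ 2
    + (g : Matrix (Fin 2) (Fin 2) ℝ) 1 1 ^ 2) * hsq

theorem rhoR_so2_mul773 (k g : GL (Fin 2) ℝ) (hk : InSO2 k) : rhoR (k * g) = rhoR g := by
  rw [rhoR_eq773, rhoR_eq773, ssq_so2_mul773 k g hk, det_so2_mul773 k g hk]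

theorem rhoR_mul_so2_773 (k g : GL (Fin 2) ℝ) (hk : InSO2 k) : rhoR (g * k) = rhoR g := by
  rw [rhoR_eq773, rhoR_eq773, ssq_mul_so2_773 k g hk, det_mul_so2_773 k g hk]

theorem holPart_so2_mul773 (k g : GL (Fin 2) ℝ) (hk : InSO2 k) :
    holPart (k * g) = holPart k * holPart g := by
  obtain ⟨h11, h01, -⟩ := so2_form773 k hk
  unfold holPart
  simp only [mul_entry773, h11, h01]
  apply Complex.ext
  · simp
    ring
  · simp
    ring

theorem holPart_mul_so2_773 (k g : GL (Fin 2) ℝ) (hk : InSO2 k) :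
    holPart (g * k) = holPart k * holPart g := by
  obtain ⟨h11, h01, -⟩ := so2_form773 k hk
  unfold holPart
  simp only [mul_entry773, h11, h01]
  apply Complex.ext
  · simp
    ring
  · simp
    ring

theorem holPart_so2_conj773 (k : GL (Fin 2) ℝ) (hk : InSO2 k) :
    holPart k * (starRingEnd ℂ) (holPart k) = 1 := by
  obtain ⟨h11, h01, hsq⟩ := so2_form773 k hk
  rw [Complex.mul_conj]
  unfold holPart
  rw [h11, h01]
  rw [Complex.normSq_apply]
  simp
  norm_cast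
  linear_combination hsq

theorem holPart_so2_ne_zero773 (k : GL (Fin 2) ℝ) (hk : InSO2 k) : holPart k ≠ 0 := by
  intro h
  have := holPart_so2_conj773 k hk
  rw [h, zero_mul] at this
  exact zero_ne_one this

theorem conj_holPart_so2_773 (k : GL (Fin 2) ℝ) (hk : InSO2 k) :
    (starRingEnd ℂ) (holPart k) = (holPart k)⁻¹ :=
  eq_inv_of_mul_eq_one_right (holPart_so2_conj773 k hk)

/-! ## 2. Continuity, the function -/

theorem continuous_entry773 (i j : Fin 2) :
    Continuous fun g : GL (Fin 2) ℝ => (g : Matrix (Fin 2) (Fin 2) ℝ) i j :=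
  (Units.continuous_val (M := Matrix (Fin 2) (Fin 2) ℝ)).matrix_elem i j

theorem continuous_det773 :
    Continuous fun g : GL (Fin 2) ℝ => (g : Matrix (Fin 2) (Fin 2) ℝ).det := by
  have : (fun g : GL (Fin 2) ℝ => (g : Matrix (Fin 2) (Fin 2) ℝ).det)
      = fun g : GL (Fin 2) ℝ =>
        (g : Matrix (Fin 2) (Fin 2) ℝ) 0 0 * (g : Matrix (Fin 2) (Fin 2) ℝ) 1 1
          - (g : Matrix (Fin 2) (Fin 2) ℝ) 0 1 * (g : Matrix (Fin 2) (Fin 2) ℝ) 1 0 := by
    funext g
    rw [Matrix.det_fin_two]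
  rw [this]
  exact ((continuous_entry773 0 0).mul (continuous_entry773 1 1)).sub
    ((continuous_entry773 0 1).mul (continuous_entry773 1 0))

theorem continuous_ssq773 :
    Continuous fun g : GL (Fin 2) ℝ => ssq773 (g : Matrix (Fin 2) (Fin 2) ℝ) := by
  unfold ssq773
  exact ((((continuous_entry773 0 0).pow 2).add ((continuous_entry773 0 1).pow 2)).add
    ((continuous_entry773 1 0).pow 2)).add ((continuous_entry773 1 1).pow 2)

theorem continuous_rhoR773 : Continuous rhoR := by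
  have : rhoR = fun g : GL (Fin 2) ℝ =>
      ssq773 (g : Matrix (Fin 2) (Fin 2) ℝ) / (2 * |(g : Matrix (Fin 2) (Fin 2) ℝ).det|) :=
    funext rhoR_eq773
  rw [this]
  refine continuous_ssq773.div (continuous_const.mul continuous_det773.abs) fun g => ?_
  have := abs_pos.mpr (det_ne_zero773 g)
  positivity

/-- The coordinates `(ρ, log det)`. -/
def coord773 (g : GL (Fin 2) ℝ) : ℝ × ℝ :=
  (rhoR g, Real.log (g : Matrix (Fin 2) (Fin 2) ℝ).det)

theorem continuous_coord773 : Continuous coord773 :=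
  continuous_rhoR773.prodMk (continuous_det773.log det_ne_zero773)

theorem coord_mem773 (g : GL (Fin 2) ℝ) : coord773 g ∈ hp984 :=
  ⟨one_le_rhoR773 g, mem_univ _⟩

/-- THE TEST FUNCTION `P(g) H(ρ(g), log det g)` on `det > 0`, `0` on `det < 0`. -/
def abelF773 (P : GL (Fin 2) ℝ → ℂ) (H : ℝ × ℝ → ℂ) (g : GL (Fin 2) ℝ) : ℂ :=
  if 0 < (g : Matrix (Fin 2) (Fin 2) ℝ).det then P g * H (coord773 g) else 0

theorem abelF_pos773 (P : GL (Fin 2) ℝ → ℂ) (H : ℝ × ℝ → ℂ) (g : GL (Fin 2) ℝ)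
    (h : abelF773 P H g ≠ 0) : 0 < (g : Matrix (Fin 2) (Fin 2) ℝ).det := by
  by_contra hn
  exact h (by simp only [abelF773, if_neg hn])

theorem abelF_continuous773 {P : GL (Fin 2) ℝ → ℂ} {H : ℝ × ℝ → ℂ} (hP : Continuous P)
    (hH : ContinuousOn H hp984) : Continuous (abelF773 P H) := by
  rw [continuous_iff_continuousAt]
  intro g
  rcases lt_or_gt_of_ne (det_ne_zero773 g) with h | h
  · have hopen : IsOpen {y : GL (Fin 2) ℝ | (y : Matrix (Fin 2) (Fin 2) ℝ).det < 0} :=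
      isOpen_lt continuous_det773 continuous_const
    have hev : abelF773 P H =ᶠ[𝓝 g] fun _ => (0 : ℂ) := by
      filter_upwards [hopen.mem_nhds h] with y hy
      have hy' : ¬ 0 < (y : Matrix (Fin 2) (Fin 2) ℝ).det := not_lt.mpr (le_of_lt hy)
      simp only [abelF773, if_neg hy']
    exact continuousAt_const.congr hev.symm
  · have hopen : IsOpen {y : GL (Fin 2) ℝ | 0 < (y : Matrix (Fin 2) (Fin 2) ℝ).det} :=
      isOpen_lt continuous_const continuous_det773
    have hev : abelF773 P H =ᶠ[𝓝 g] fun y => P y * H (coord773 y) := by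
      filter_upwards [hopen.mem_nhds h] with y hy
      have hy' : 0 < (y : Matrix (Fin 2) (Fin 2) ℝ).det := hy
      simp only [abelF773, if_pos hy']
    have hc : Continuous fun y => P y * H (coord773 y) :=
      hP.mul (hH.comp_continuous continuous_coord773 coord_mem773)
    exact hc.continuousAt.congr hev.symm

theorem abelF_left773 {P : GL (Fin 2) ℝ → ℂ} {H : ℝ × ℝ → ℂ} {n : ℤ}
    (hPl : ∀ k g : GL (Fin 2) ℝ, InSO2 k → P (k * g) = (wtChar n k)⁻¹ * P g)
    (k g : GL (Fin 2) ℝ) (hk : InSO2 k) :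
    abelF773 P H (k * g) = (wtChar n k)⁻¹ * abelF773 P H g := by
  unfold abelF773 coord773
  rw [det_so2_mul773 k g hk, rhoR_so2_mul773 k g hk]
  split_ifs
  · rw [hPl k g hk]
    ring
  · simp

theorem abelF_right773 {P : GL (Fin 2) ℝ → ℂ} {H : ℝ × ℝ → ℂ} {n : ℤ}
    (hPr : ∀ k g : GL (Fin 2) ℝ, InSO2 k → P (g * k) = (wtChar n k)⁻¹ * P g)
    (k g : GL (Fin 2) ℝ) (hk : InSO2 k) :
    abelF773 P H (g * k) = (wtChar n k)⁻¹ * abelF773 P H g := by
  unfold abelF773 coord773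
  rw [det_mul_so2_773 k g hk, rhoR_mul_so2_773 k g hk]
  split_ifs
  · rw [hPr k g hk]
    ring
  · simp

/-! ## 3. Smoothness -/

theorem abelF_smooth773 {P : GL (Fin 2) ℝ → ℂ} {H : ℝ × ℝ → ℂ}
    (hPs : ∀ (m : ℕ) (h : (Fin m → ℝ) → GL (Fin 2) ℝ),
      (∀ i j : Fin 2, ContDiff ℝ ∞
        (fun t => ((h t : GL (Fin 2) ℝ) : Matrix (Fin 2) (Fin 2) ℝ) i j)) →
      ContDiff ℝ ∞ (fun t => P (h t)))
    (hH : ContDiffOn ℝ ∞ H hp984) (m : ℕ) (h : (Fin m → ℝ) → GL (Fin 2) ℝ)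
    (hh : ∀ i j : Fin 2, ContDiff ℝ ∞
      (fun t => ((h t : GL (Fin 2) ℝ) : Matrix (Fin 2) (Fin 2) ℝ) i j))
    (g : GL (Fin 2) ℝ) : ContDiff ℝ ∞ (fun t => abelF773 P H (g * h t)) := by
  have hgh : ∀ i j : Fin 2, ContDiff ℝ ∞
      (fun t => ((g * h t : GL (Fin 2) ℝ) : Matrix (Fin 2) (Fin 2) ℝ) i j) := by
    intro i j
    simp only [mul_entry773]
    exact (contDiff_const.mul (hh 0 j)).add (contDiff_const.mul (hh 1 j))
  have hdet : ContDiff ℝ ∞
      (fun t => ((g * h t : GL (Fin 2) ℝ) : Matrix (Fin 2) (Fin 2) ℝ).det) := by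
    simp only [Matrix.det_fin_two]
    exact ((hgh 0 0).mul (hgh 1 1)).sub ((hgh 0 1).mul (hgh 1 0))
  have hssq : ContDiff ℝ ∞
      (fun t => ssq773 ((g * h t : GL (Fin 2) ℝ) : Matrix (Fin 2) (Fin 2) ℝ)) := by
    unfold ssq773
    exact ((((hgh 0 0).pow 2).add ((hgh 0 1).pow 2)).add ((hgh 1 0).pow 2)).add
      ((hgh 1 1).pow 2)
  rw [contDiff_iff_contDiffAt]
  intro t₀
  rcases lt_or_gt_of_ne (det_ne_zero773 (g * h t₀)) with hneg | hpos
  · have hopen : IsOpen {t : Fin m → ℝ |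
        ((g * h t : GL (Fin 2) ℝ) : Matrix (Fin 2) (Fin 2) ℝ).det < 0} :=
      isOpen_lt hdet.continuous continuous_const
    have hev : (fun t => abelF773 P H (g * h t)) =ᶠ[𝓝 t₀] fun _ => (0 : ℂ) := by
      filter_upwards [hopen.mem_nhds hneg] with t ht
      have ht' : ¬ 0 < ((g * h t : GL (Fin 2) ℝ) : Matrix (Fin 2) (Fin 2) ℝ).det :=
        not_lt.mpr (le_of_lt ht)
      simp only [abelF773, if_neg ht']
    exact contDiffAt_const.congr_of_eventuallyEq hev
  · have hopen : IsOpen {t : Fin m → ℝ |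
        0 < ((g * h t : GL (Fin 2) ℝ) : Matrix (Fin 2) (Fin 2) ℝ).det} :=
      isOpen_lt continuous_const hdet.continuous
    have hcoord : ContDiffOn ℝ ∞
        (fun t => ((ssq773 ((g * h t : GL (Fin 2) ℝ) : Matrix (Fin 2) (Fin 2) ℝ)
            / (2 * ((g * h t : GL (Fin 2) ℝ) : Matrix (Fin 2) (Fin 2) ℝ).det),
          Real.log ((g * h t : GL (Fin 2) ℝ) : Matrix (Fin 2) (Fin 2) ℝ).det) : ℝ × ℝ))
        {t : Fin m → ℝ | 0 < ((g * h t : GL (Fin 2) ℝ) : Matrix (Fin 2) (Fin 2) ℝ).det} := by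
      refine ContDiffOn.prodMk ?_ ?_
      · refine hssq.contDiffOn.div (contDiff_const.mul hdet).contDiffOn fun t ht => ?_
        have ht' : 0 < ((g * h t : GL (Fin 2) ℝ) : Matrix (Fin 2) (Fin 2) ℝ).det := ht
        positivity
      · exact hdet.contDiffOn.log fun t ht => ne_of_gt ht
    have hcoordeq : ∀ t : Fin m → ℝ,
        0 < ((g * h t : GL (Fin 2) ℝ) : Matrix (Fin 2) (Fin 2) ℝ).det →
        ((ssq773 ((g * h t : GL (Fin 2) ℝ) : Matrix (Fin 2) (Fin 2) ℝ)
            / (2 * ((g * h t : GL (Fin 2) ℝ) : Matrix (Fin 2) (Fin 2) ℝ).det),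
          Real.log ((g * h t : GL (Fin 2) ℝ) : Matrix (Fin 2) (Fin 2) ℝ).det) : ℝ × ℝ)
          = coord773 (g * h t) := by
      intro t ht
      simp only [coord773, rhoR_eq773, abs_of_pos ht]
    have hcomp : ContDiffOn ℝ ∞
        (fun t => H ((ssq773 ((g * h t : GL (Fin 2) ℝ) : Matrix (Fin 2) (Fin 2) ℝ)
            / (2 * ((g * h t : GL (Fin 2) ℝ) : Matrix (Fin 2) (Fin 2) ℝ).det),
          Real.log ((g * h t : GL (Fin 2) ℝ) : Matrix (Fin 2) (Fin 2) ℝ).det) : ℝ × ℝ))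
        {t : Fin m → ℝ | 0 < ((g * h t : GL (Fin 2) ℝ) : Matrix (Fin 2) (Fin 2) ℝ).det} :=
      hH.comp hcoord fun t ht => by
        show _ ∈ hp984
        rw [hcoordeq t ht]
        exact coord_mem773 _
    have hF := (hPs m (fun t => g * h t) hgh).contDiffOn.mul hcomp
    have hev : (fun t => abelF773 P H (g * h t)) =ᶠ[𝓝 t₀]
        fun t => P (g * h t)
          * H ((ssq773 ((g * h t : GL (Fin 2) ℝ) : Matrix (Fin 2) (Fin 2) ℝ)
            / (2 * ((g * h t : GL (Fin 2) ℝ) : Matrix (Fin 2) (Fin 2) ℝ).det),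
          Real.log ((g * h t : GL (Fin 2) ℝ) : Matrix (Fin 2) (Fin 2) ℝ).det) : ℝ × ℝ) := by
      filter_upwards [hopen.mem_nhds hpos] with t ht
      have ht' : 0 < ((g * h t : GL (Fin 2) ℝ) : Matrix (Fin 2) (Fin 2) ℝ).det := ht
      simp only [abelF773, if_pos ht', hcoordeq t ht']
    exact (hF.contDiffAt (hopen.mem_nhds hpos)).congr_of_eventuallyEq hev

/-! ## 4. Compact support -/

theorem isCompact_box773 (C : ℝ) :
    IsCompact {A : Matrix (Fin 2) (Fin 2) ℝ | ∀ i j, |A i j| ≤ C} := by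
  have h : IsCompact (Set.pi Set.univ fun _ : Fin 2 => Set.pi Set.univ fun _ : Fin 2 =>
      Metric.closedBall (0 : ℝ) C) :=
    isCompact_univ_pi fun _ => isCompact_univ_pi fun _ => isCompact_closedBall 0 C
  have e : {A : Matrix (Fin 2) (Fin 2) ℝ | ∀ i j, |A i j| ≤ C}
      = (Set.pi Set.univ fun _ : Fin 2 => Set.pi Set.univ fun _ : Fin 2 =>
          Metric.closedBall (0 : ℝ) C) := by
    ext A
    constructor
    · intro hA i _ j _
      have := hA i j
      simpa [Real.norm_eq_abs] using this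
    · intro hA i j
      have := hA i (Set.mem_univ i) j (Set.mem_univ j)
      simpa [Real.norm_eq_abs] using this
  rw [e]
  exact h

/-- A closed subset of `GL₂(ℝ)` on which the entries of `h` and `h⁻¹` are bounded is compact. -/
theorem isCompact_of_bounded773 (K : Set (GL (Fin 2) ℝ)) (hK : IsClosed K) (C : ℝ)
    (h1 : ∀ h ∈ K, ∀ i j, |(h : Matrix (Fin 2) (Fin 2) ℝ) i j| ≤ C)
    (h2 : ∀ h ∈ K, ∀ i j, |((h⁻¹ : GL (Fin 2) ℝ) : Matrix (Fin 2) (Fin 2) ℝ) i j| ≤ C) :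
    IsCompact K := by
  have hemb := Units.isClosedEmbedding_embedProduct (α := Matrix (Fin 2) (Fin 2) ℝ)
  rw [hemb.isEmbedding.isCompact_iff]
  have hbox : IsCompact (({A : Matrix (Fin 2) (Fin 2) ℝ | ∀ i j, |A i j| ≤ C}) ×ˢ
      (MulOpposite.op '' {A : Matrix (Fin 2) (Fin 2) ℝ | ∀ i j, |A i j| ≤ C})) :=
    (isCompact_box773 C).prod ((isCompact_box773 C).image MulOpposite.continuous_op)
  refine IsCompact.of_isClosed_subset hbox (hemb.isClosedMap _ hK) ?_
  rintro _ ⟨h, hh, rfl⟩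
  refine ⟨h1 h hh, ⟨((h⁻¹ : GL (Fin 2) ℝ) : Matrix (Fin 2) (Fin 2) ℝ), h2 h hh, rfl⟩⟩

theorem sq_entry_le_ssq773 (A : Matrix (Fin 2) (Fin 2) ℝ) (i j : Fin 2) :
    A i j ^ 2 ≤ ssq773 A := by
  unfold ssq773
  fin_cases i <;> fin_cases j <;> simp <;>
    nlinarith [sq_nonneg (A 0 0), sq_nonneg (A 0 1), sq_nonneg (A 1 0), sq_nonneg (A 1 1)]

theorem abs_inv_entry773 (h : GL (Fin 2) ℝ) (i j : Fin 2) :
    ∃ i' j' : Fin 2, |((h⁻¹ : GL (Fin 2) ℝ) : Matrix (Fin 2) (Fin 2) ℝ) i j|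
      = |(h : Matrix (Fin 2) (Fin 2) ℝ).det|⁻¹ * |(h : Matrix (Fin 2) (Fin 2) ℝ) i' j'| := by
  rw [Matrix.coe_units_inv, Matrix.inv_def, Matrix.adjugate_fin_two, Ring.inverse_eq_inv']
  fin_cases i <;> fin_cases j
  · exact ⟨1, 1, by simp [abs_mul, abs_inv]⟩
  · exact ⟨0, 1, by simp [abs_mul, abs_inv]⟩
  · exact ⟨1, 0, by simp [abs_mul, abs_inv]⟩
  · exact ⟨0, 0, by simp [abs_mul, abs_inv]⟩

/-- The region `e^{-a} ≤ det ≤ e^a`, `tr(gᵀ g) ≤ B`. -/
def region773 (a B : ℝ) : Set (GL (Fin 2) ℝ) :=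
  {g | Real.exp (-a) ≤ (g : Matrix (Fin 2) (Fin 2) ℝ).det ∧
    (g : Matrix (Fin 2) (Fin 2) ℝ).det ≤ Real.exp a ∧
    ssq773 (g : Matrix (Fin 2) (Fin 2) ℝ) ≤ B}

theorem isCompact_region773 (a B : ℝ) : IsCompact (region773 a B) := by
  have hcl : IsClosed (region773 a B) :=
    (isClosed_le continuous_const continuous_det773).inter
      ((isClosed_le continuous_det773 continuous_const).inter
        (isClosed_le continuous_ssq773 continuous_const))
  have hent : ∀ g ∈ region773 a B, ∀ i j : Fin 2,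
      |(g : Matrix (Fin 2) (Fin 2) ℝ) i j| ≤ |B| + 1 := by
    intro g hg i j
    have h3 : (g : Matrix (Fin 2) (Fin 2) ℝ) i j ^ 2 ≤ B :=
      le_trans (sq_entry_le_ssq773 _ i j) hg.2.2
    nlinarith [abs_nonneg ((g : Matrix (Fin 2) (Fin 2) ℝ) i j),
      sq_abs ((g : Matrix (Fin 2) (Fin 2) ℝ) i j), le_abs_self B, abs_nonneg B]
  have hinv : ∀ g ∈ region773 a B, ∀ i j : Fin 2,
      |((g⁻¹ : GL (Fin 2) ℝ) : Matrix (Fin 2) (Fin 2) ℝ) i j| ≤ Real.exp a * (|B| + 1) := by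
    intro g hg i j
    obtain ⟨i', j', h⟩ := abs_inv_entry773 g i j
    rw [h]
    have hpos : 0 < (g : Matrix (Fin 2) (Fin 2) ℝ).det := lt_of_lt_of_le (Real.exp_pos _) hg.1
    have hd : |(g : Matrix (Fin 2) (Fin 2) ℝ).det|⁻¹ ≤ Real.exp a := by
      rw [abs_of_pos hpos, inv_le_comm₀ hpos (Real.exp_pos _), ← Real.exp_neg]
      exact hg.1
    exact mul_le_mul hd (hent g hg i' j') (abs_nonneg _) (Real.exp_pos _).le
  have hB : 0 ≤ |B| + 1 := by positivity
  have hE : 0 ≤ Real.exp a * (|B| + 1) := by positivity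
  exact isCompact_of_bounded773 _ hcl (Real.exp a * (|B| + 1) + (|B| + 1))
    (fun g hg i j => le_trans (hent g hg i j) (by linarith))
    (fun g hg i j => le_trans (hinv g hg i j) (by linarith))

theorem abelF_supp773 (P : GL (Fin 2) ℝ → ℂ) {H : ℝ × ℝ → ℂ} {Y C : ℝ}
    (hY : ∀ y c : ℝ, Y ≤ y → H (y, c) = 0)
    (hC : ∀ y c : ℝ, 1 ≤ y → C ≤ |c| → H (y, c) = 0) :
    HasCompactSupport (abelF773 P H) := by
  apply HasCompactSupport.intro (isCompact_region773 C (Y * (2 * Real.exp C)))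
  intro g hg
  by_contra hne
  apply hg
  have hpos := abelF_pos773 P H g hne
  have hH : H (coord773 g) ≠ 0 := by
    intro h0
    apply hne
    simp only [abelF773, if_pos hpos, h0, mul_zero]
  have h1 : rhoR g < Y := by
    by_contra hcon
    exact hH (hY _ _ (not_lt.mp hcon))
  have h2 : |Real.log (g : Matrix (Fin 2) (Fin 2) ℝ).det| < C := by
    by_contra hcon
    exact hH (hC _ _ (one_le_rhoR773 g) (not_lt.mp hcon))
  have h2' := abs_lt.mp h2
  have hdle : (g : Matrix (Fin 2) (Fin 2) ℝ).det ≤ Real.exp C := by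
    calc (g : Matrix (Fin 2) (Fin 2) ℝ).det
        = Real.exp (Real.log (g : Matrix (Fin 2) (Fin 2) ℝ).det) := (Real.exp_log hpos).symm
      _ ≤ Real.exp C := Real.exp_le_exp.mpr (le_of_lt h2'.2)
  refine ⟨?_, hdle, ?_⟩
  · calc Real.exp (-C) ≤ Real.exp (Real.log (g : Matrix (Fin 2) (Fin 2) ℝ).det) :=
          Real.exp_le_exp.mpr (le_of_lt h2'.1)
      _ = (g : Matrix (Fin 2) (Fin 2) ℝ).det := Real.exp_log hpos
  · have hr := rhoR_eq773 g
    rw [abs_of_pos hpos] at hr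
    have hs : ssq773 (g : Matrix (Fin 2) (Fin 2) ℝ)
        = rhoR g * (2 * (g : Matrix (Fin 2) (Fin 2) ℝ).det) := by
      rw [hr]
      field_simp
    rw [hs]
    have hY0 : 0 ≤ Y := by linarith [one_le_rhoR773 g]
    have hr0 : 0 ≤ rhoR g := by linarith [one_le_rhoR773 g]
    exact mul_le_mul (le_of_lt h1) (by linarith) (by positivity) hY0

/-! ## 5. The `N`-integral -/

theorem upper_val773 (c₁ c₂ : ℝˣ) (x : ℝ) :
    ((upperGL c₁ c₂ x : GL (Fin 2) ℝ) : Matrix (Fin 2) (Fin 2) ℝ)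
      = !![(c₁ : ℝ), x; 0, (c₂ : ℝ)] := rfl

theorem upper_det773 (c₁ c₂ : ℝˣ) (x : ℝ) :
    ((upperGL c₁ c₂ x : GL (Fin 2) ℝ) : Matrix (Fin 2) (Fin 2) ℝ).det
      = (c₁ : ℝ) * (c₂ : ℝ) := by
  rw [upper_val773, Matrix.det_fin_two_of]
  ring

theorem upper_ssq773 (c₁ c₂ : ℝˣ) (x : ℝ) :
    ssq773 ((upperGL c₁ c₂ x : GL (Fin 2) ℝ) : Matrix (Fin 2) (Fin 2) ℝ)
      = (c₁ : ℝ) ^ 2 + x ^ 2 + (c₂ : ℝ) ^ 2 := by
  rw [upper_val773]
  simp [ssq773]

theorem upper_coord773 (c₁ c₂ : ℝˣ) (hc₁ : 0 < (c₁ : ℝ)) (hc₂ : 0 < (c₂ : ℝ)) (x : ℝ) :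
    coord773 (upperGL c₁ c₂ x)
      = (Real.cosh (Real.log (c₁ : ℝ) - Real.log (c₂ : ℝ))
          + (x / Real.sqrt (2 * ((c₁ : ℝ) * (c₂ : ℝ)))) ^ 2,
        Real.log (c₁ : ℝ) + Real.log (c₂ : ℝ)) := by
  unfold coord773
  rw [rhoR_eq773, upper_det773, upper_ssq773, abs_of_pos (mul_pos hc₁ hc₂),
    Real.log_mul hc₁.ne' hc₂.ne']
  congr 1
  rw [Real.cosh_eq, neg_sub, Real.exp_sub, Real.exp_sub, Real.exp_log hc₁, Real.exp_log hc₂,
    div_pow, Real.sq_sqrt (by positivity)]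
  field_simp
  ring

theorem abelF_upper773 (P : GL (Fin 2) ℝ → ℂ) (H : ℝ × ℝ → ℂ) (c₁ c₂ : ℝˣ)
    (hc₁ : 0 < (c₁ : ℝ)) (hc₂ : 0 < (c₂ : ℝ)) (x : ℝ) :
    abelF773 P H (upperGL c₁ c₂ x)
      = P (upperGL c₁ c₂ x) * H (Real.cosh (Real.log (c₁ : ℝ) - Real.log (c₂ : ℝ))
          + (x / Real.sqrt (2 * ((c₁ : ℝ) * (c₂ : ℝ)))) ^ 2,
        Real.log (c₁ : ℝ) + Real.log (c₂ : ℝ)) := by
  have hd : 0 < ((upperGL c₁ c₂ x : GL (Fin 2) ℝ) : Matrix (Fin 2) (Fin 2) ℝ).det := by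
    rw [upper_det773]
    exact mul_pos hc₁ hc₂
  simp only [abelF773, if_pos hd, upper_coord773 c₁ c₂ hc₁ hc₂ x]

theorem continuous_profile773 {H : ℝ × ℝ → ℂ} (hH : ContinuousOn H hp984) (y₀ c : ℝ)
    (hy₀ : 1 ≤ y₀) : Continuous fun s : ℝ => H (y₀ + s ^ 2, c) := by
  have hmap : Continuous fun s : ℝ => ((y₀ + s ^ 2, c) : ℝ × ℝ) := by fun_prop
  refine hH.comp_continuous hmap fun s => ⟨?_, mem_univ _⟩
  show (1 : ℝ) ≤ y₀ + s ^ 2
  nlinarith [sq_nonneg s]

theorem profile_zero773 {H : ℝ × ℝ → ℂ} {Y : ℝ} (hY : ∀ y c : ℝ, Y ≤ y → H (y, c) = 0)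
    (y₀ c : ℝ) (hy₀ : 1 ≤ y₀) (s : ℝ) (hs : s ∉ Icc (-(|Y| + 1)) (|Y| + 1)) :
    H (y₀ + s ^ 2, c) = 0 := by
  apply hY
  have h1 : |Y| + 1 < |s| := by
    by_contra hcon
    exact hs (abs_le.mp (not_lt.mp hcon))
  have h2 : |Y| + 1 < s ^ 2 := by
    rw [← sq_abs]
    nlinarith [abs_nonneg Y]
  linarith [le_abs_self Y]

theorem integrable_profile773 {H : ℝ × ℝ → ℂ} (hH : ContinuousOn H hp984) {Y : ℝ}
    (hY : ∀ y c : ℝ, Y ≤ y → H (y, c) = 0) (y₀ c : ℝ) (hy₀ : 1 ≤ y₀) :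
    Integrable (fun s : ℝ => H (y₀ + s ^ 2, c)) ∧
      Integrable (fun s : ℝ => (s : ℂ) * H (y₀ + s ^ 2, c)) := by
  constructor
  · apply (continuous_profile773 hH y₀ c hy₀).integrable_of_hasCompactSupport
    apply HasCompactSupport.intro (K := Icc (-(|Y| + 1)) (|Y| + 1)) isCompact_Icc
    intro s hs
    exact profile_zero773 hY y₀ c hy₀ s hs
  · have hc : Continuous fun s : ℝ => (s : ℂ) * H (y₀ + s ^ 2, c) :=
      Complex.continuous_ofReal.mul (continuous_profile773 hH y₀ c hy₀)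
    apply hc.integrable_of_hasCompactSupport
    apply HasCompactSupport.intro (K := Icc (-(|Y| + 1)) (|Y| + 1)) isCompact_Icc
    intro s hs
    show (s : ℂ) * H (y₀ + s ^ 2, c) = 0
    rw [profile_zero773 hY y₀ c hy₀ s hs, mul_zero]

theorem integral_odd_profile773 (H : ℝ × ℝ → ℂ) (y₀ c : ℝ) :
    ∫ s : ℝ, (s : ℂ) * H (y₀ + s ^ 2, c) = 0 := by
  have h := integral_neg_eq_self (fun s : ℝ => (s : ℂ) * H (y₀ + s ^ 2, c)) volume
  simp only [neg_sq, Complex.ofReal_neg, neg_mul] at h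
  rw [integral_neg] at h
  have h2 : (2 : ℂ) * ∫ s : ℝ, (s : ℂ) * H (y₀ + s ^ 2, c) = 0 := by
    linear_combination -h
  exact (mul_eq_zero.mp h2).resolve_left two_ne_zero

/-- The `N`-integral of `(A₀ + B₀ x) H(y₀ + (x/b)², c)`. -/
theorem abelF_integral773 {H : ℝ × ℝ → ℂ} (hH : ContinuousOn H hp984) {Y : ℝ}
    (hY : ∀ y c : ℝ, Y ≤ y → H (y, c) = 0) (A₀ B₀ : ℂ) (b : ℝ) (hb : 0 < b) (y₀ c : ℝ)
    (hy₀ : 1 ≤ y₀) :
    ∫ x : ℝ, (A₀ + B₀ * (x : ℂ)) * H (y₀ + (x / b) ^ 2, c)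
      = A₀ * (b : ℂ) * ∫ s : ℝ, H (y₀ + s ^ 2, c) := by
  obtain ⟨hi1, hi2⟩ := integrable_profile773 hH hY y₀ c hy₀
  have hbC : (b : ℂ) ≠ 0 := Complex.ofReal_ne_zero.mpr hb.ne'
  have e : (fun x : ℝ => (A₀ + B₀ * (x : ℂ)) * H (y₀ + (x / b) ^ 2, c))
      = fun x : ℝ => (fun s : ℝ => A₀ * H (y₀ + s ^ 2, c)
          + (B₀ * (b : ℂ)) * ((s : ℂ) * H (y₀ + s ^ 2, c))) (x / b) := by
    funext x
    simp only
    push_cast
    field_simp
  rw [e, Measure.integral_comp_div (fun s : ℝ => A₀ * H (y₀ + s ^ 2, c)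
          + (B₀ * (b : ℂ)) * ((s : ℂ) * H (y₀ + s ^ 2, c))) b,
    integral_add (hi1.const_mul _) (hi2.const_mul _), integral_const_mul, integral_const_mul,
    integral_odd_profile773, abs_of_pos hb, mul_zero, add_zero, Complex.real_smul]
  ring

end Fermat.Agent.LT.T3.H773

end

end
-- ===== PACK-END LT/T3/H773/AbelGrp.lean

-- ===== PACK-BEGIN LT/T3/H773/AbelReal.lean
section



/-!
# Row LT, tower T3, station T3.18R, leaf R.1 `R.AbelRealC` (helper773, SPARE of registry 2298)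

OFF-MAIN.  `abelRealC773 : R.AbelRealC`: every symmetric `β ∈ C_c^∞(ℝ²)` is the `N`-integral of a
test function of weight `n ∈ {0, 1, -1}` on `GL₂(ℝ)`.

`F(g) = P(g) H(ρ(g), log det g)` on `det > 0` (`abelF773`), `P = 1`, `conj (holPart)`, `holPart`,
`H` the Abel inverse (`abelCore773`) of `E(u, c) = w(u, c) β((c + u)/2, (c - u)/2)`,
`w = 1/√2` (weight `0`), `w = 1 / (√2 e^{c/2} cosh (u/2))` (weights `±1`).
-/

set_option autoImplicit false

noncomputable section

namespace Fermat.Agent.LT.T3.H773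

open Set Filter Topology MeasureTheory
open scoped ContDiff Matrix
open Fermat.Agent.LT.T3.H984
open Fermat.Agent.LT.T6 (InSO2 holPart wtChar IsArchTestR rhoR)
open Fermat.Agent.LT.T3.AS (upperGL IsSymBump)

/-! ## 6. The phases -/

/-- The conjugate of the holomorphic part. -/
def holConj773 (y : GL (Fin 2) ℝ) : ℂ := (starRingEnd ℂ) (holPart y)

theorem holPart_family773 (m : ℕ) (h : (Fin m → ℝ) → GL (Fin 2) ℝ)
    (hh : ∀ i j : Fin 2, ContDiff ℝ ∞
      (fun t => ((h t : GL (Fin 2) ℝ) : Matrix (Fin 2) (Fin 2) ℝ) i j)) :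
    ContDiff ℝ ∞ (fun t => holPart (h t)) := by
  unfold holPart
  have h1 : ContDiff ℝ ∞ (fun t => ((((h t : GL (Fin 2) ℝ) : Matrix (Fin 2) (Fin 2) ℝ) 0 0
      + ((h t : GL (Fin 2) ℝ) : Matrix (Fin 2) (Fin 2) ℝ) 1 1 : ℝ) : ℂ)) :=
    Complex.ofRealCLM.contDiff.comp ((hh 0 0).add (hh 1 1))
  have h2 : ContDiff ℝ ∞ (fun t => ((((h t : GL (Fin 2) ℝ) : Matrix (Fin 2) (Fin 2) ℝ) 1 0
      - ((h t : GL (Fin 2) ℝ) : Matrix (Fin 2) (Fin 2) ℝ) 0 1 : ℝ) : ℂ)) :=
    Complex.ofRealCLM.contDiff.comp ((hh 1 0).sub (hh 0 1))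
  exact (h1.add (h2.mul contDiff_const)).div_const 2

theorem holConj_family773 (m : ℕ) (h : (Fin m → ℝ) → GL (Fin 2) ℝ)
    (hh : ∀ i j : Fin 2, ContDiff ℝ ∞
      (fun t => ((h t : GL (Fin 2) ℝ) : Matrix (Fin 2) (Fin 2) ℝ) i j)) :
    ContDiff ℝ ∞ (fun t => holConj773 (h t)) := by
  show ContDiff ℝ ∞ (fun t => Complex.conjCLE (holPart (h t)))
  exact Complex.conjCLE.contDiff.comp (holPart_family773 m h hh)

theorem continuous_holPart773 : Continuous holPart := by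
  have e : holPart = fun y : GL (Fin 2) ℝ =>
      ((((y : Matrix (Fin 2) (Fin 2) ℝ) 0 0 + (y : Matrix (Fin 2) (Fin 2) ℝ) 1 1 : ℝ) : ℂ) +
        (((y : Matrix (Fin 2) (Fin 2) ℝ) 1 0 - (y : Matrix (Fin 2) (Fin 2) ℝ) 0 1 : ℝ) : ℂ) *
          Complex.I) / 2 := rfl
  rw [e]
  have h1 : Continuous fun y : GL (Fin 2) ℝ =>
      (((y : Matrix (Fin 2) (Fin 2) ℝ) 0 0 + (y : Matrix (Fin 2) (Fin 2) ℝ) 1 1 : ℝ) : ℂ) :=
    Complex.continuous_ofReal.comp ((continuous_entry773 0 0).add (continuous_entry773 1 1))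
  have h2 : Continuous fun y : GL (Fin 2) ℝ =>
      (((y : Matrix (Fin 2) (Fin 2) ℝ) 1 0 - (y : Matrix (Fin 2) (Fin 2) ℝ) 0 1 : ℝ) : ℂ) :=
    Complex.continuous_ofReal.comp ((continuous_entry773 1 0).sub (continuous_entry773 0 1))
  exact (h1.add (h2.mul continuous_const)).div_const 2

theorem continuous_holConj773 : Continuous holConj773 :=
  Complex.continuous_conj.comp continuous_holPart773

theorem holPart_upper773 (c₁ c₂ : ℝˣ) (x : ℝ) :
    holPart (upperGL c₁ c₂ x)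
      = ((((c₁ : ℝ) + (c₂ : ℝ)) / 2 : ℝ) : ℂ) + (-(Complex.I / 2)) * (x : ℂ) := by
  unfold holPart
  rw [upper_val773]
  simp
  ring

theorem holConj_upper773 (c₁ c₂ : ℝˣ) (x : ℝ) :
    holConj773 (upperGL c₁ c₂ x)
      = ((((c₁ : ℝ) + (c₂ : ℝ)) / 2 : ℝ) : ℂ) + (Complex.I / 2) * (x : ℂ) := by
  unfold holConj773
  rw [holPart_upper773]
  simp only [map_add, map_mul, map_neg, map_div₀, Complex.conj_ofReal, Complex.conj_I,
    map_ofNat]
  ring

/-! ## 7. The functions `E` -/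

/-- `β((c + u)/2, (c - u)/2)`. -/
def slice773 (β : ℝ × ℝ → ℂ) (p : ℝ × ℝ) : ℂ := β ((p.2 + p.1) / 2, (p.2 - p.1) / 2)

/-- `w(u, c) β((c + u)/2, (c - u)/2)`. -/
def eFn773 (w : ℝ × ℝ → ℝ) (β : ℝ × ℝ → ℂ) (p : ℝ × ℝ) : ℂ := ((w p : ℝ) : ℂ) * slice773 β p

theorem exists_box773 {β : ℝ × ℝ → ℂ} (hs : HasCompactSupport β) :
    ∃ M : ℝ, 0 ≤ M ∧ ∀ p : ℝ × ℝ, M ≤ |p.1| ∨ M ≤ |p.2| → β p = 0 := by
  obtain ⟨M, hM⟩ := hs.isCompact.isBounded.subset_closedBall (0 : ℝ × ℝ)
  refine ⟨|M| + 1, by positivity, fun p hp => ?_⟩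
  by_contra hne
  have hmem : p ∈ tsupport β := subset_tsupport _ (Function.mem_support.mpr hne)
  have h0 := hM hmem
  rw [mem_closedBall_zero_iff, Prod.norm_def] at h0
  have h1 := le_trans (le_max_left _ _) h0
  have h2 := le_trans (le_max_right _ _) h0
  simp only [Real.norm_eq_abs] at h1 h2
  rcases hp with h | h <;> linarith [le_abs_self M]

theorem eFn_contDiff773 {w : ℝ × ℝ → ℝ} (hw : ContDiff ℝ ∞ w) {β : ℝ × ℝ → ℂ}
    (hβ : IsSymBump β) : ContDiff ℝ ∞ (eFn773 w β) := by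
  unfold eFn773 slice773
  have h1 : ContDiff ℝ ∞ (fun p : ℝ × ℝ => ((w p : ℝ) : ℂ)) :=
    Complex.ofRealCLM.contDiff.comp hw
  have h2 : ContDiff ℝ ∞ (fun p : ℝ × ℝ => β ((p.2 + p.1) / 2, (p.2 - p.1) / 2)) :=
    hβ.1.comp (by fun_prop)
  exact h1.mul h2

theorem eFn_even773 {w : ℝ × ℝ → ℝ} (hwe : ∀ u c : ℝ, w (-u, c) = w (u, c))
    {β : ℝ × ℝ → ℂ} (hβ : IsSymBump β) : IsEv984 (eFn773 w β) := by
  intro u c
  unfold eFn773 slice773
  simp only
  rw [hwe u c, hβ.2.2]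
  congr 3
  ring

theorem eFn_box773 (w : ℝ × ℝ → ℝ) {β : ℝ × ℝ → ℂ} {M : ℝ}
    (hM : ∀ p : ℝ × ℝ, M ≤ |p.1| ∨ M ≤ |p.2| → β p = 0) :
    IsBox773 (eFn773 w β) (2 * M) (2 * M) := by
  constructor
  · intro u c hu
    unfold eFn773 slice773
    simp only
    rw [hM, mul_zero]
    by_contra hcon
    push Not at hcon
    obtain ⟨h1, h2⟩ := hcon
    simp only at h1 h2
    have h3 : |u| ≤ |(c + u) / 2| + |(c - u) / 2| := by
      have : u = (c + u) / 2 - (c - u) / 2 := by ring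
      calc |u| = |(c + u) / 2 - (c - u) / 2| := by rw [← this]
        _ ≤ |(c + u) / 2| + |(c - u) / 2| := abs_sub _ _
    linarith
  · intro u c hc
    unfold eFn773 slice773
    simp only
    rw [hM, mul_zero]
    by_contra hcon
    push Not at hcon
    obtain ⟨h1, h2⟩ := hcon
    simp only at h1 h2
    have h3 : |c| ≤ |(c + u) / 2| + |(c - u) / 2| := by
      have : c = (c + u) / 2 + (c - u) / 2 := by ring
      calc |c| = |(c + u) / 2 + (c - u) / 2| := by rw [← this]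
        _ ≤ |(c + u) / 2| + |(c - u) / 2| := abs_add_le _ _
    linarith

/-! ## 8. The assembly -/

/-- The common part of the three weights. -/
theorem abelReal_aux773 (n : ℤ) (P : GL (Fin 2) ℝ → ℂ) (w : ℝ × ℝ → ℝ) (A₀ : ℝ → ℝ → ℝ)
    (B₀ : ℂ) (hPc : Continuous P)
    (hPs : ∀ (m : ℕ) (h : (Fin m → ℝ) → GL (Fin 2) ℝ),
      (∀ i j : Fin 2, ContDiff ℝ ∞
        (fun t => ((h t : GL (Fin 2) ℝ) : Matrix (Fin 2) (Fin 2) ℝ) i j)) →
      ContDiff ℝ ∞ (fun t => P (h t)))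
    (hPl : ∀ k g : GL (Fin 2) ℝ, InSO2 k → P (k * g) = (wtChar n k)⁻¹ * P g)
    (hPr : ∀ k g : GL (Fin 2) ℝ, InSO2 k → P (g * k) = (wtChar n k)⁻¹ * P g)
    (hPu : ∀ (c₁ c₂ : ℝˣ) (x : ℝ),
      P (upperGL c₁ c₂ x) = ((A₀ (c₁ : ℝ) (c₂ : ℝ) : ℝ) : ℂ) + B₀ * (x : ℂ))
    (hw : ContDiff ℝ ∞ w) (hwe : ∀ u c : ℝ, w (-u, c) = w (u, c))
    (hwA : ∀ c₁ c₂ : ℝ, 0 < c₁ → 0 < c₂ →
      A₀ c₁ c₂ * Real.sqrt (2 * (c₁ * c₂))
        * w (Real.log c₁ - Real.log c₂, Real.log c₁ + Real.log c₂) = Real.sqrt (c₁ * c₂))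
    (β : ℝ × ℝ → ℂ) (hβ : IsSymBump β) :
    ∃ F : GL (Fin 2) ℝ → ℂ, IsArchTestR n F ∧ R.HasAbelNR F β := by
  obtain ⟨M, hM0, hM⟩ := exists_box773 hβ.2.1
  have hE : ContDiff ℝ ∞ (eFn773 w β) := eFn_contDiff773 hw hβ
  have hev : IsEv984 (eFn773 w β) := eFn_even773 hwe hβ
  have hb : IsBox773 (eFn773 w β) (2 * M) (2 * M) := eFn_box773 w hM
  obtain ⟨H, hH, hHY, hHC, hHab⟩ := abelCore773 hE hev hb (by positivity)
  refine ⟨abelF773 P H, ⟨abelF_continuous773 hPc hH.continuousOn, abelF_supp773 P hHY hHC,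
    abelF_smooth773 hPs hH, abelF_pos773 P H, abelF_left773 hPl, abelF_right773 hPr⟩, ?_⟩
  intro c₁ c₂ hc₁ hc₂
  simp only [abelF_upper773 P H c₁ c₂ hc₁ hc₂, hPu]
  have hbpos : 0 < Real.sqrt (2 * ((c₁ : ℝ) * (c₂ : ℝ))) :=
    Real.sqrt_pos.mpr (by positivity)
  rw [abelF_integral773 hH.continuousOn hHY _ B₀ _ hbpos _ _ (Real.one_le_cosh _), hHab]
  have hs : slice773 β (Real.log (c₁ : ℝ) - Real.log (c₂ : ℝ),
      Real.log (c₁ : ℝ) + Real.log (c₂ : ℝ)) = β (Real.log (c₁ : ℝ), Real.log (c₂ : ℝ)) := by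
    unfold slice773
    congr 2
    · ring
    · ring
  show _ * _ * (((w _ : ℝ) : ℂ) * slice773 β _) = _
  rw [hs, ← mul_assoc, ← hwA (c₁ : ℝ) (c₂ : ℝ) hc₁ hc₂]
  push_cast
  ring

theorem wt1_key773 (c₁ c₂ : ℝ) (hc₁ : 0 < c₁) (hc₂ : 0 < c₂) :
    Real.exp ((Real.log c₁ + Real.log c₂) / 2) * Real.cosh ((Real.log c₁ - Real.log c₂) / 2)
      = (c₁ + c₂) / 2 := by
  rw [Real.cosh_eq, mul_div_assoc', mul_add, ← Real.exp_add, ← Real.exp_add]
  have e1 : (Real.log c₁ + Real.log c₂) / 2 + (Real.log c₁ - Real.log c₂) / 2 = Real.log c₁ := by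
    ring
  have e2 : (Real.log c₁ + Real.log c₂) / 2 + -((Real.log c₁ - Real.log c₂) / 2)
      = Real.log c₂ := by ring
  rw [e1, e2, Real.exp_log hc₁, Real.exp_log hc₂]

/-- The weight of the weights `±1`. -/
def wt1_773 (p : ℝ × ℝ) : ℝ :=
  (Real.sqrt 2 * (Real.exp (p.2 / 2) * Real.cosh (p.1 / 2)))⁻¹

theorem wt1_contDiff773 : ContDiff ℝ ∞ wt1_773 := by
  unfold wt1_773
  refine ContDiff.inv ?_ fun p => ?_
  · refine contDiff_const.mul ((Real.contDiff_exp.comp (contDiff_snd.div_const 2)).mul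
      (Real.contDiff_cosh.comp (contDiff_fst.div_const 2)))
  · have h1 : 0 < Real.sqrt 2 := Real.sqrt_pos.mpr (by norm_num)
    have h2 := Real.exp_pos (p.2 / 2)
    have h3 := Real.cosh_pos (p.1 / 2)
    positivity

theorem wt1_even773 (u c : ℝ) : wt1_773 (-u, c) = wt1_773 (u, c) := by
  unfold wt1_773
  simp only [neg_div, Real.cosh_neg]

theorem wt1_A773 (c₁ c₂ : ℝ) (hc₁ : 0 < c₁) (hc₂ : 0 < c₂) :
    (c₁ + c₂) / 2 * Real.sqrt (2 * (c₁ * c₂))
      * wt1_773 (Real.log c₁ - Real.log c₂, Real.log c₁ + Real.log c₂)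
      = Real.sqrt (c₁ * c₂) := by
  unfold wt1_773
  simp only
  rw [wt1_key773 c₁ c₂ hc₁ hc₂, Real.sqrt_mul (by norm_num : (0 : ℝ) ≤ 2)]
  have h1 : 0 < Real.sqrt 2 := Real.sqrt_pos.mpr (by norm_num)
  have h2 : 0 < c₁ + c₂ := by linarith
  field_simp

theorem wt0_A773 (c₁ c₂ : ℝ) :
    (1 : ℝ) * Real.sqrt (2 * (c₁ * c₂)) * (Real.sqrt 2)⁻¹ = Real.sqrt (c₁ * c₂) := by
  rw [Real.sqrt_mul (by norm_num : (0 : ℝ) ≤ 2)]
  have h1 : 0 < Real.sqrt 2 := Real.sqrt_pos.mpr (by norm_num)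
  field_simp

/-- **R.1 `AbelRealC`.** -/
theorem abelRealC773 : R.AbelRealC := by
  intro n hn β hβ
  rcases hn with rfl | rfl | rfl
  · refine abelReal_aux773 0 (fun _ => 1) (fun _ => (Real.sqrt 2)⁻¹) (fun _ _ => 1) 0
      continuous_const (fun _ _ _ => contDiff_const) ?_ ?_ ?_ contDiff_const (fun _ _ => rfl)
      (fun c₁ c₂ _ _ => wt0_A773 c₁ c₂) β hβ
    · intro k g _
      simp [wtChar]
    · intro k g _
      simp [wtChar]
    · intro c₁ c₂ x
      simp
  · refine abelReal_aux773 1 holConj773 wt1_773 (fun c₁ c₂ => (c₁ + c₂) / 2) (Complex.I / 2)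
      continuous_holConj773 holConj_family773 ?_ ?_ holConj_upper773 wt1_contDiff773
      wt1_even773 wt1_A773 β hβ
    · intro k g hk
      unfold holConj773
      rw [holPart_so2_mul773 k g hk, map_mul, conj_holPart_so2_773 k hk]
      simp [wtChar]
    · intro k g hk
      unfold holConj773
      rw [holPart_mul_so2_773 k g hk, map_mul, conj_holPart_so2_773 k hk]
      simp [wtChar]
  · refine abelReal_aux773 (-1) holPart wt1_773 (fun c₁ c₂ => (c₁ + c₂) / 2)
      (-(Complex.I / 2)) continuous_holPart773 holPart_family773 ?_ ?_ holPart_upper773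
      wt1_contDiff773 wt1_even773 wt1_A773 β hβ
    · intro k g hk
      rw [holPart_so2_mul773 k g hk]
      simp [wtChar]
    · intro k g hk
      rw [holPart_mul_so2_773 k g hk]
      simp [wtChar]

end Fermat.Agent.LT.T3.H773

end

end
-- ===== PACK-END LT/T3/H773/AbelReal.lean

-- ===== PACK-BEGIN LT/T3/R/H611/LocValInfR.lean
section



/-!
# Row LT, tower T3, station T3.18R, leaf R.7 `LocValInfRC` (helper611), OFF-MAIN

`locValInfRC611 : T3.R.LocValInfRC K` for every number field `K`, the Prop of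
`LT/T3/R/Spec.lean` (helper14@15de5f60f, sha256 a528b35aabb14cdc) VERBATIM, UNCONDITIONAL.

Proof (model: `T3.H800.locValInfC800`).  With `a₁ = (c₁)_w`, `a₂ = (c₂)_w`, `r = (α)_w > 0` in
`ℝˣ`: `x ↦ upperGL (a₁ rʲ) a₂ (x + t)` is continuous into `GL₂(ℝ)`, the support is contained in
a translate of the image of `tsupport F` under the entry `(0,1)`, Lebesgue measure is invariant
under translations and under `x ↦ -x`.  Signs: on the positive diagonal `HasAbelNR`; on the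
negative diagonal `upperGL (a₁ rʲ) a₂ x = (-1) * upperGL (|a₁| rʲ) |a₂| (-x)`, `-1 ∈ SO(2)`,
`wtChar n (-1) = (-1)ⁿ`; for mixed signs `det < 0` and `F = 0`.
-/

set_option autoImplicit false

open IsDedekindDomain NumberField MeasureTheory
open Fermat.Agent.LT.H556.A0

noncomputable section

namespace Fermat.Agent.LT.T3.R.H611

open Fermat.Agent.LT.T3 Fermat.Agent.LT.T3.AS Fermat.Agent.LT.T3.AS.N893 Fermat.Agent.LT.T3.M
open Fermat.Agent.LT.T3.R

/-! ## 1. `x ↦ [[d₁, x + t], [0, d₂]]` over `ℝ` -/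

theorem continuous_upperGL611 (d₁ d₂ : ℝˣ) (t : ℝ) :
    Continuous (fun x : ℝ => upperGL d₁ d₂ (x + t)) := by
  rw [Units.continuous_iff]
  constructor
  · have h : (Units.val ∘ fun x : ℝ => upperGL d₁ d₂ (x + t))
        = fun x : ℝ => (!![(d₁ : ℝ), x + t; 0, (d₂ : ℝ)] : Matrix (Fin 2) (Fin 2) ℝ) := by
      funext x
      rfl
    rw [h]
    refine continuous_matrix fun i j => ?_
    fin_cases i <;> fin_cases j
    · exact continuous_const
    · exact continuous_id.add continuous_const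
    · exact continuous_const
    · exact continuous_const
  · have h : (fun x : ℝ => (((upperGL d₁ d₂ (x + t))⁻¹ : GL (Fin 2) ℝ) :
          Matrix (Fin 2) (Fin 2) ℝ))
        = fun x : ℝ => (!![((d₁⁻¹ : ℝˣ) : ℝ), -(((d₁⁻¹ : ℝˣ) : ℝ) * (x + t) * ((d₂⁻¹ : ℝˣ) : ℝ));
            0, ((d₂⁻¹ : ℝˣ) : ℝ)] : Matrix (Fin 2) (Fin 2) ℝ) := by
      funext x
      rfl
    rw [h]
    refine continuous_matrix fun i j => ?_
    fin_cases i <;> fin_cases j
    · exact continuous_const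
    · exact ((continuous_const.mul (continuous_id.add continuous_const)).mul
        continuous_const).neg
    · exact continuous_const
    · exact continuous_const

/-- The entry `(0,1)` is continuous on `GL₂(ℝ)`. -/
theorem continuous_entry611 :
    Continuous (fun g : GL (Fin 2) ℝ => (g : Matrix (Fin 2) (Fin 2) ℝ) 0 1) :=
  Continuous.matrix_elem (Units.continuous_val (M := Matrix (Fin 2) (Fin 2) ℝ)) 0 1

theorem hasCompactSupport_upperGL611 {F : GL (Fin 2) ℝ → ℂ} (hF : HasCompactSupport F)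
    (d₁ d₂ : ℝˣ) (t : ℝ) :
    HasCompactSupport (fun x : ℝ => F (upperGL d₁ d₂ (x + t))) := by
  have hC : IsCompact ((fun g : GL (Fin 2) ℝ => (g : Matrix (Fin 2) (Fin 2) ℝ) 0 1)
      '' tsupport F) := hF.image continuous_entry611
  have hC' : IsCompact ((fun y : ℝ => y - t) ''
      ((fun g : GL (Fin 2) ℝ => (g : Matrix (Fin 2) (Fin 2) ℝ) 0 1) '' tsupport F)) :=
    hC.image (continuous_id.sub continuous_const)
  refine HasCompactSupport.intro hC' fun x hx => ?_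
  by_contra hne
  apply hx
  refine ⟨x + t, ⟨upperGL d₁ d₂ (x + t), subset_tsupport F hne, rfl⟩, ?_⟩
  simp

/-! ## 2. Elementary facts -/

theorem sqrt_zpow611 {r : ℝ} (hr : 0 ≤ r) (j : ℤ) : Real.sqrt (r ^ j) = Real.sqrt r ^ j := by
  rw [Real.sqrt_eq_iff_mul_self_eq (zpow_nonneg hr j) (zpow_nonneg (Real.sqrt_nonneg r) j),
    ← mul_zpow, Real.mul_self_sqrt hr]

theorem neg_one_zpow_inv611 (n : ℤ) : ((-1 : ℂ) ^ n)⁻¹ = (-1 : ℂ) ^ n := by
  rcases Int.even_or_odd n with h | h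
  · rw [h.neg_one_zpow, inv_one]
  · rw [h.neg_one_zpow, inv_neg, inv_one]

/-- `-1 ∈ SO(2)`. -/
theorem inSO2_neg_one611 : T6.InSO2 (-1 : GL (Fin 2) ℝ) := by
  constructor
  · ext i j
    fin_cases i <;> fin_cases j <;> simp [Matrix.mul_apply, Fin.sum_univ_two]
  · simp [Matrix.det_fin_two]

theorem wtChar_neg_one611 (n : ℤ) : T6.wtChar n (-1 : GL (Fin 2) ℝ) = (-1 : ℂ) ^ n := by
  unfold T6.wtChar T6.holPart
  congr 1
  simp

theorem upperGL_neg611 (b₁ b₂ : ℝˣ) (x : ℝ) :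
    upperGL (-b₁) (-b₂) x = (-1 : GL (Fin 2) ℝ) * upperGL b₁ b₂ (-x) := by
  apply Units.ext
  ext i j
  fin_cases i <;> fin_cases j <;> simp [upperGL_coe]

theorem det_upperGL611 (d₁ d₂ : ℝˣ) (x : ℝ) :
    ((upperGL d₁ d₂ x : GL (Fin 2) ℝ) : Matrix (Fin 2) (Fin 2) ℝ).det = (d₁ : ℝ) * (d₂ : ℝ) := by
  rw [upperGL_coe, Matrix.det_fin_two_of]
  ring

/-! ## 3. The local computation on `GL₂(ℝ)` -/

section Local

variable {n : ℤ} {F : GL (Fin 2) ℝ → ℂ} {β : ℝ × ℝ → ℂ}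

theorem integral_pos611 (hβ : HasAbelNR F β) (b₁ b₂ r : ℝˣ) (h1 : 0 < (b₁ : ℝ))
    (h2 : 0 < (b₂ : ℝ)) (hr : 0 < (r : ℝ)) (j : ℤ) :
    ∫ x : ℝ, F (upperGL (b₁ * r ^ j) b₂ x)
      = ((Real.sqrt ((b₁ : ℝ) * (b₂ : ℝ)) * Real.sqrt (r : ℝ) ^ j : ℝ) : ℂ)
        * β (Real.log (b₁ : ℝ) + j * Real.log (r : ℝ), Real.log (b₂ : ℝ)) := by
  have hval : ((b₁ * r ^ j : ℝˣ) : ℝ) = (b₁ : ℝ) * (r : ℝ) ^ j := by
    rw [Units.val_mul, Units.val_zpow_eq_zpow_val]
  have hpos : 0 < ((b₁ * r ^ j : ℝˣ) : ℝ) := by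
    rw [hval]
    exact mul_pos h1 (zpow_pos hr j)
  rw [hβ _ _ hpos h2, hval]
  have hs : Real.sqrt ((b₁ : ℝ) * (r : ℝ) ^ j * (b₂ : ℝ))
      = Real.sqrt ((b₁ : ℝ) * (b₂ : ℝ)) * Real.sqrt (r : ℝ) ^ j := by
    rw [← sqrt_zpow611 hr.le, ← Real.sqrt_mul (mul_pos h1 h2).le]
    congr 1
    ring
  have hl : Real.log ((b₁ : ℝ) * (r : ℝ) ^ j) = Real.log (b₁ : ℝ) + j * Real.log (r : ℝ) := by
    rw [Real.log_mul h1.ne' (zpow_ne_zero _ hr.ne'), Real.log_zpow]
  rw [hs, hl]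

theorem integral_core611 (hF : T6.IsArchTestR n F) (hβ : HasAbelNR F β) (a₁ a₂ r : ℝˣ)
    (hr : 0 < (r : ℝ)) (j : ℤ) :
    ∫ x : ℝ, F (upperGL (a₁ * r ^ j) a₂ x)
      = sgnR n (a₁ : ℝ) (a₂ : ℝ)
        * ((Real.sqrt (|(a₁ : ℝ)| * |(a₂ : ℝ)|) * Real.sqrt (r : ℝ) ^ j : ℝ) : ℂ)
        * β (Real.log |(a₁ : ℝ)| + j * Real.log (r : ℝ), Real.log |(a₂ : ℝ)|) := by
  have hrj : 0 < (r : ℝ) ^ j := zpow_pos hr j
  rcases lt_or_gt_of_ne (Units.ne_zero a₁) with h1 | h1
  · rcases lt_or_gt_of_ne (Units.ne_zero a₂) with h2 | h2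
    · -- both negative
      have hs : sgnR n (a₁ : ℝ) (a₂ : ℝ) = (-1 : ℂ) ^ n := by
        unfold sgnR
        rw [if_neg (fun h => absurd h.1 (not_lt.mpr h1.le)), if_pos ⟨h1, h2⟩]
      have hb1 : 0 < ((-a₁ : ℝˣ) : ℝ) := by
        rw [Units.val_neg]; exact neg_pos.mpr h1
      have hb2 : 0 < ((-a₂ : ℝˣ) : ℝ) := by
        rw [Units.val_neg]; exact neg_pos.mpr h2
      have hfun : (fun x : ℝ => F (upperGL (a₁ * r ^ j) a₂ x))
          = fun x : ℝ => (-1 : ℂ) ^ n * F (upperGL (-a₁ * r ^ j) (-a₂) (-x)) := by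
        funext x
        have h0 : upperGL (a₁ * r ^ j) a₂ x
            = (-1 : GL (Fin 2) ℝ) * upperGL (-a₁ * r ^ j) (-a₂) (-x) := by
          rw [← upperGL_neg611]
          congr 1
          · rw [neg_mul, neg_neg]
          · rw [neg_neg]
        rw [h0, hF.left _ _ inSO2_neg_one611, wtChar_neg_one611, neg_one_zpow_inv611]
      rw [hfun, integral_const_mul,
        integral_neg_eq_self (fun x : ℝ => F (upperGL (-a₁ * r ^ j) (-a₂) x)) volume,
        integral_pos611 hβ (-a₁) (-a₂) r hb1 hb2 hr j, hs, Units.val_neg, Units.val_neg,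
        abs_of_neg h1, abs_of_neg h2]
      push_cast
      ring
    · -- a₁ < 0 < a₂
      have hs : sgnR n (a₁ : ℝ) (a₂ : ℝ) = 0 := by
        unfold sgnR
        rw [if_neg (fun h => absurd h.1 (not_lt.mpr h1.le)),
          if_neg (fun h => absurd h.2 (not_lt.mpr h2.le))]
      have hz : (fun x : ℝ => F (upperGL (a₁ * r ^ j) a₂ x)) = fun _ => 0 := by
        funext x
        by_contra hne
        have hd := hF.pos _ hne
        rw [det_upperGL611, Units.val_mul, Units.val_zpow_eq_zpow_val] at hd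
        have : (a₁ : ℝ) * (r : ℝ) ^ j * (a₂ : ℝ) < 0 :=
          mul_neg_of_neg_of_pos (mul_neg_of_neg_of_pos h1 hrj) h2
        exact absurd hd (not_lt.mpr this.le)
      rw [hz, hs]
      simp
  · rcases lt_or_gt_of_ne (Units.ne_zero a₂) with h2 | h2
    · -- a₂ < 0 < a₁
      have hs : sgnR n (a₁ : ℝ) (a₂ : ℝ) = 0 := by
        unfold sgnR
        rw [if_neg (fun h => absurd h.2 (not_lt.mpr h2.le)),
          if_neg (fun h => absurd h.1 (not_lt.mpr h1.le))]
      have hz : (fun x : ℝ => F (upperGL (a₁ * r ^ j) a₂ x)) = fun _ => 0 := by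
        funext x
        by_contra hne
        have hd := hF.pos _ hne
        rw [det_upperGL611, Units.val_mul, Units.val_zpow_eq_zpow_val] at hd
        have : (a₁ : ℝ) * (r : ℝ) ^ j * (a₂ : ℝ) < 0 :=
          mul_neg_of_pos_of_neg (mul_pos h1 hrj) h2
        exact absurd hd (not_lt.mpr this.le)
      rw [hz, hs]
      simp
    · -- both positive
      have hs : sgnR n (a₁ : ℝ) (a₂ : ℝ) = 1 := by
        unfold sgnR
        rw [if_pos ⟨h1, h2⟩]
      rw [integral_pos611 hβ a₁ a₂ r h1 h2 hr j, hs, abs_of_pos h1, abs_of_pos h2, one_mul]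

end Local

/-! ## 4. The component of a rational unit at a real place -/

variable (K : Type) [Field K] [NumberField K]

theorem reHom_algebraMap611 (w : InfinitePlace K) (hw : w.IsReal) (a : K) :
    reHom K w hw (algebraMap K (Adl K) a) = InfinitePlace.embedding_of_isReal hw a := by
  change InfinitePlace.Completion.extensionEmbeddingOfIsReal hw
    ((algebraMap K (Adl K) a).1 w) = _
  rw [NumberField.AdeleRing.algebraMap_fst_apply]
  exact InfinitePlace.Completion.extensionEmbeddingOfIsReal_coe hw (WithAbs.toAbs w.1 a)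

theorem reU_ratUnit611 (w : InfinitePlace K) (hw : w.IsReal) (α : Kˣ) :
    ((reU K w hw (T1.ratUnit K α) : ℝˣ) : ℝ) = InfinitePlace.embedding_of_isReal hw (α : K) := by
  rw [reU_coe]
  exact reHom_algebraMap611 K w hw (α : K)

/-! ## 5. The leaf -/

/-- **Leaf R.7 `LocValInfRC`** (station T3.18R of helper14). -/
theorem locValInfRC611 : LocValInfRC K := by
  intro hR α hα w n F β hF hβ c₁ c₂ j t
  refine ⟨hF.cont.comp (continuous_upperGL611 _ _ t),
    hasCompactSupport_upperGL611 hF.supp _ _ t, ?_⟩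
  have hrpos : 0 < ((reU K w (hR w) (T1.ratUnit K α) : ℝˣ) : ℝ) := by
    rw [reU_ratUnit611]
    exact hα w
  have hw : w (α : K) = ((reU K w (hR w) (T1.ratUnit K α) : ℝˣ) : ℝ) := by
    rw [reU_ratUnit611, ← InfinitePlace.norm_embedding_of_isReal (hR w), Real.norm_eq_abs,
      abs_of_pos (hα w)]
  have h1 : ∫ x : ℝ, F (upperGL (reU K w (hR w) (c₁ * T1.ratUnit K α ^ j))
        (reU K w (hR w) c₂) (x + t))
      = ∫ x : ℝ, F (upperGL (reU K w (hR w) (c₁ * T1.ratUnit K α ^ j))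
        (reU K w (hR w) c₂) x) :=
    integral_add_right_eq_self
      (fun x : ℝ => F (upperGL (reU K w (hR w) (c₁ * T1.ratUnit K α ^ j))
        (reU K w (hR w) c₂) x)) t
  rw [h1, map_mul, map_zpow, hw]
  exact integral_core611 hF hβ _ _ _ hrpos j

end Fermat.Agent.LT.T3.R.H611

end

end
-- ===== PACK-END LT/T3/R/H611/LocValInfR.lean

-- ===== PACK-BEGIN LT/T3/R/H505/TypeR.lean
section


/-!
# Row LT, tower T3, station T3.18R, leaf R.9 (helper505): the type `typeR n` is a `K_∞`-type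

OFF-MAIN.  `typeRC505 (K) : Fermat.Agent.LT.T3.R.TypeRC K`, the frozen Prop of
`Fermat/Agent/LT/T3/R/Spec.lean` (architect helper14) VERBATIM.

Proof.  For `k` in the compact group at the real place `w` the components of `k` at the other
infinite places are `1`, and the component `M` at `w` is a real matrix with `M Mᵀ = 1`,
`det M = 1`, i.e. `M = !![a, -c; c, a]`, `a² + c² = 1`.  On such matrices the holomorphic part
`A(M) = a + i c` is multiplicative and of norm `1`; `A(1) = 1`.  The components are continuous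
ring homomorphisms and `z ↦ z ^ n` is continuous away from `0`.
-/

set_option autoImplicit false

open IsDedekindDomain NumberField
open Fermat.Agent.LT.H556.A0

noncomputable section

namespace Fermat.Agent.LT.T3.R.H505

open Fermat.Agent.LT.T3.R

/-! ## 1. The real place -/

/-- The four real equations of `SO(2)`. -/
theorem so2_shape505 (M : Matrix (Fin 2) (Fin 2) ℝ) (h : M * M.transpose = 1) (hd : M.det = 1) :
    M 1 1 = M 0 0 ∧ M 0 1 = -M 1 0 ∧ M 0 0 ^ 2 + M 1 0 ^ 2 = 1 := by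
  have h00 := congrFun (congrFun h 0) 0
  have h11 := congrFun (congrFun h 1) 1
  simp only [Matrix.mul_apply, Fin.sum_univ_two, Matrix.transpose_apply, Matrix.one_apply_eq]
    at h00 h11
  rw [Matrix.det_fin_two] at hd
  have hsq : (M 0 0 - M 1 1) ^ 2 + (M 0 1 + M 1 0) ^ 2 = 0 := by nlinarith
  have n1 : 0 ≤ (M 0 0 - M 1 1) ^ 2 := sq_nonneg _
  have n2 : 0 ≤ (M 0 1 + M 1 0) ^ 2 := sq_nonneg _
  have h1 : (M 0 0 - M 1 1) ^ 2 = 0 := by linarith
  have h2 : (M 0 1 + M 1 0) ^ 2 = 0 := by linarith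
  have e1 : M 0 0 - M 1 1 = 0 := by simpa using h1
  have e2 : M 0 1 + M 1 0 = 0 := by simpa using h2
  have a1 : M 1 1 = M 0 0 := by linarith
  have a2 : M 0 1 = -M 1 0 := by linarith
  refine ⟨a1, a2, ?_⟩
  rw [a2] at h00
  nlinarith

theorem holPart_one505 : T6.holPart (1 : GL (Fin 2) ℝ) = 1 := by
  simp [T6.holPart]

/-- On `SO(2)` the holomorphic part is `a + i c`. -/
theorem holPart_so2_505 (y : GL (Fin 2) ℝ) (h : T6.InSO2 y) :
    T6.holPart y = (((y : Matrix (Fin 2) (Fin 2) ℝ) 0 0 : ℝ) : ℂ)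
      + (((y : Matrix (Fin 2) (Fin 2) ℝ) 1 0 : ℝ) : ℂ) * Complex.I := by
  obtain ⟨a1, a2, -⟩ := so2_shape505 _ h.1 h.2
  unfold T6.holPart
  rw [a1, a2]
  push_cast
  ring

theorem norm_holPart_so2_505 (y : GL (Fin 2) ℝ) (h : T6.InSO2 y) : ‖T6.holPart y‖ = 1 := by
  obtain ⟨-, -, a3⟩ := so2_shape505 _ h.1 h.2
  rw [holPart_so2_505 y h]
  have hn : ‖(((y : Matrix (Fin 2) (Fin 2) ℝ) 0 0 : ℝ) : ℂ)
      + (((y : Matrix (Fin 2) (Fin 2) ℝ) 1 0 : ℝ) : ℂ) * Complex.I‖ ^ 2 = 1 := by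
    rw [← Complex.normSq_eq_norm_sq, Complex.normSq_add_mul_I]
    exact a3
  have h0 : 0 ≤ ‖(((y : Matrix (Fin 2) (Fin 2) ℝ) 0 0 : ℝ) : ℂ)
      + (((y : Matrix (Fin 2) (Fin 2) ℝ) 1 0 : ℝ) : ℂ) * Complex.I‖ := norm_nonneg _
  nlinarith

theorem holPart_mul_so2_505 (y y' : GL (Fin 2) ℝ) (h : T6.InSO2 y) (h' : T6.InSO2 y') :
    T6.holPart (y * y') = T6.holPart y * T6.holPart y' := by
  obtain ⟨a1, a2, -⟩ := so2_shape505 _ h.1 h.2
  obtain ⟨b1, b2, -⟩ := so2_shape505 _ h'.1 h'.2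
  rw [holPart_so2_505 y h, holPart_so2_505 y' h']
  unfold T6.holPart
  rw [Units.val_mul]
  simp only [Matrix.mul_apply, Fin.sum_univ_two]
  rw [a1, a2, b1, b2]
  push_cast
  linear_combination
    (-((((y : Matrix (Fin 2) (Fin 2) ℝ) 1 0 : ℝ) : ℂ)
      * (((y' : Matrix (Fin 2) (Fin 2) ℝ) 1 0 : ℝ) : ℂ))) * Complex.I_sq

/-! ## 2. The components at the real places -/

variable (K : Type) [Field K] [NumberField K]

theorem continuous_reHom505 (w : InfinitePlace K) (hw : w.IsReal) :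
    Continuous (reHom K w hw) := by
  have h : Continuous (fun x : InfiniteAdeleRing K × FiniteAdeleRing (𝓞 K) K =>
      InfinitePlace.Completion.extensionEmbeddingOfIsReal hw (x.1 w)) :=
    (InfinitePlace.Completion.isometry_extensionEmbeddingOfIsReal hw).continuous.comp
      ((continuous_apply w).comp continuous_fst)
  exact h

theorem reGL_apply505 (w : InfinitePlace K) (hw : w.IsReal) (g : G K) (i j : Fin 2) :
    ((reGL K w hw g : GL (Fin 2) ℝ) : Matrix (Fin 2) (Fin 2) ℝ) i j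
      = reHom K w hw ((g : Matrix (Fin 2) (Fin 2) (Adl K)) i j) := rfl

theorem continuous_reGL_entry505 (w : InfinitePlace K) (hw : w.IsReal) (i j : Fin 2) :
    Continuous (fun g : G K =>
      ((reGL K w hw g : GL (Fin 2) ℝ) : Matrix (Fin 2) (Fin 2) ℝ) i j) := by
  have h1 : Continuous (fun g : G K => (g : Matrix (Fin 2) (Fin 2) (Adl K)) i j) :=
    (Units.continuous_val).matrix_elem i j
  exact (continuous_reHom505 K w hw).comp h1

theorem continuous_holPart_reGL505 (w : InfinitePlace K) (hw : w.IsReal) :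
    Continuous (fun g : G K => T6.holPart (reGL K w hw g)) := by
  unfold T6.holPart
  have c00 := continuous_reGL_entry505 K w hw 0 0
  have c11 := continuous_reGL_entry505 K w hw 1 1
  have c10 := continuous_reGL_entry505 K w hw 1 0
  have c01 := continuous_reGL_entry505 K w hw 0 1
  exact ((Complex.continuous_ofReal.comp (c00.add c11)).add
    ((Complex.continuous_ofReal.comp (c10.sub c01)).mul continuous_const)).div_const _

/-- Trivial at `w'`: the real component is `1`. -/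
theorem reGL_eq_one_of_triv505 (w : InfinitePlace K) (hw : w.IsReal) (g : G K)
    (h : TrivAtInf w g) : reGL K w hw g = 1 := by
  apply Units.ext
  ext i j
  rw [reGL_apply505, Units.val_one]
  have e : reHom K w hw ((g : Matrix (Fin 2) (Fin 2) (Adl K)) i j)
      = InfinitePlace.Completion.extensionEmbeddingOfIsReal hw
        ((((g : Matrix (Fin 2) (Fin 2) (Adl K)) i j)).1 w) := rfl
  rw [e, h i j]
  by_cases hij : i = j
  · subst hij
    rw [Matrix.one_apply_eq, Matrix.one_apply_eq, map_one]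
  · rw [Matrix.one_apply_ne hij, Matrix.one_apply_ne hij, map_zero]

/-- The real component of an element of the compact group at `w` is in `SO(2)`. -/
theorem inSO2_of_archCompact505 (w : InfinitePlace K) (hw : w.IsReal) (k : G K)
    (h : IsArchCompact w k) : T6.InSO2 (reGL K w hw k) := by
  obtain ⟨-, h1, h2⟩ := h
  have hmap : infComp w k
      = ((reGL K w hw k : GL (Fin 2) ℝ) : Matrix (Fin 2) (Fin 2) ℝ).map
          (algebraMap ℝ ℂ) := by
    ext i j
    rw [infComp_eq_reGL K w hw k i j]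
    rfl
  have hinj : Function.Injective
      (fun M : Matrix (Fin 2) (Fin 2) ℝ => M.map (algebraMap ℝ ℂ)) :=
    Matrix.map_injective (algebraMap ℝ ℂ).injective
  constructor
  · apply hinj
    show (((reGL K w hw k : GL (Fin 2) ℝ) : Matrix (Fin 2) (Fin 2) ℝ)
        * ((reGL K w hw k : GL (Fin 2) ℝ) : Matrix (Fin 2) (Fin 2) ℝ).transpose).map
          (algebraMap ℝ ℂ) = (1 : Matrix (Fin 2) (Fin 2) ℝ).map (algebraMap ℝ ℂ)
    rw [Matrix.map_mul, Matrix.map_one _ (map_zero _) (map_one _)]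
    rw [hmap] at h1
    have hct : (((reGL K w hw k : GL (Fin 2) ℝ) : Matrix (Fin 2) (Fin 2) ℝ).map
        (algebraMap ℝ ℂ)).conjTranspose
        = (((reGL K w hw k : GL (Fin 2) ℝ) : Matrix (Fin 2) (Fin 2) ℝ).transpose).map
          (algebraMap ℝ ℂ) := by
      ext i j
      simp [Matrix.conjTranspose_apply, Matrix.map_apply]
    rw [hct] at h1
    exact h1
  · have hdet := h2 hw
    rw [hmap] at hdet
    have e : (((reGL K w hw k : GL (Fin 2) ℝ) : Matrix (Fin 2) (Fin 2) ℝ).map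
        (algebraMap ℝ ℂ)).det
        = algebraMap ℝ ℂ ((reGL K w hw k : GL (Fin 2) ℝ) : Matrix (Fin 2) (Fin 2) ℝ).det :=
      ((algebraMap ℝ ℂ).map_det _).symm
    rw [e] at hdet
    have : algebraMap ℝ ℂ ((reGL K w hw k : GL (Fin 2) ℝ) : Matrix (Fin 2) (Fin 2) ℝ).det
        = algebraMap ℝ ℂ 1 := by rw [hdet, map_one]
    exact (algebraMap ℝ ℂ).injective this

/-! ## 3. The type -/

variable (hR : ∀ w : InfinitePlace K, w.IsReal) (n : InfinitePlace K → ℤ)

/-- The local factor at `w'` of an element of the compact group at `w ≠ w'` is `1`. -/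
theorem wtChar_other505 (w w' : InfinitePlace K) (hne : w' ≠ w) (k : G K)
    (h : IsArchCompact w k) : T6.wtChar (n w') (reGL K w' (hR w') k) = 1 := by
  rw [reGL_eq_one_of_triv505 K w' (hR w') k (h.1.1 w' hne)]
  unfold T6.wtChar
  rw [holPart_one505, one_zpow]

theorem holPart_ne_zero505 (w w' : InfinitePlace K) (k : G K) (h : IsArchCompact w k) :
    T6.holPart (reGL K w' (hR w') k) ≠ 0 := by
  by_cases hne : w' = w
  · subst hne
    have := norm_holPart_so2_505 _ (inSO2_of_archCompact505 K w' (hR w') k h)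
    intro h0
    rw [h0, norm_zero] at this
    exact zero_ne_one this
  · rw [reGL_eq_one_of_triv505 K w' (hR w') k (h.1.1 w' hne), holPart_one505]
    exact one_ne_zero

theorem typeR_eq_single505 (w : InfinitePlace K) (k : G K) (h : IsArchCompact w k) :
    typeR K hR n k = T6.wtChar (n w) (reGL K w (hR w) k) := by
  unfold typeR
  exact Finset.prod_eq_single w (fun w' _ hne => wtChar_other505 K hR n w w' hne k h)
    (fun hw => absurd (Finset.mem_univ w) hw)

theorem typeRC505 : Fermat.Agent.LT.T3.R.TypeRC K := by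
  intro hR n
  refine ⟨?_, ?_, ?_⟩
  · intro w k hk
    rw [typeR_eq_single505 K hR n w k hk]
    unfold T6.wtChar
    rw [norm_zpow, norm_holPart_so2_505 _ (inSO2_of_archCompact505 K w (hR w) k hk), one_zpow]
  · intro w k k' hk hk'
    unfold typeR
    rw [← Finset.prod_mul_distrib]
    refine Finset.prod_congr rfl fun w' _ => ?_
    rw [map_mul]
    by_cases hne : w' = w
    · subst hne
      unfold T6.wtChar
      rw [holPart_mul_so2_505 _ _ (inSO2_of_archCompact505 K w' (hR w') k hk)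
        (inSO2_of_archCompact505 K w' (hR w') k' hk'), mul_zpow]
    · rw [reGL_eq_one_of_triv505 K w' (hR w') k (hk.1.1 w' hne),
        reGL_eq_one_of_triv505 K w' (hR w') k' (hk'.1.1 w' hne), mul_one]
      unfold T6.wtChar
      rw [holPart_one505, one_zpow, one_mul]
  · intro w
    unfold typeR
    refine continuousOn_finsetProd _ fun w' _ => ?_
    unfold T6.wtChar
    exact (continuous_holPart_reGL505 K w' (hR w')).continuousOn.zpow₀ (n w')
      (fun k hk => Or.inl (holPart_ne_zero505 K hR w w' k hk))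

end Fermat.Agent.LT.T3.R.H505

end
end
-- ===== PACK-END LT/T3/R/H505/TypeR.lean

-- ===== PACK-BEGIN LT/T7/H826/WtOneKType.lean
section



/-!
# Row LT, tower T7, row 2149 (helper826): leaf `L2Q.WtOneKTypeC` -- OFF-MAIN

`wtOneKTypeC826 : Fermat.Agent.LT.T7.L2Q.WtOneKTypeC`, i.e. `T5.IsKType L2Q.wtOne`, VERBATIM the
Prop of `LT/T7/H826/Level2Q.lean`: the weight-one character `k ↦ k₀₀ + i k₀₁` of `SO(2)` at the
real place of `ℚ` is a `K_∞`-type in the sense of `T5/Spec.lean`.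

* the components at the real place are real (`extensionEmbeddingOfIsReal_apply`);
* a real matrix `M` with `M Mᴴ = 1`, `det M = 1` is `!![a, b; -b, a]`, `a² + b² = 1`;
* `infComp` is multiplicative and continuous.
-/

set_option autoImplicit false

open AutomorphicForm IsDedekindDomain NumberField MeasureTheory
open scoped ComplexConjugate

noncomputable section

namespace Fermat.Agent.LT.T7.L2Q

open Fermat.Agent.LT.H556 Fermat.Agent.LT.H556.A0

theorem infComp_mul826 {K : Type} [Field K] [NumberField K] (w : InfinitePlace K) (g h : G K) :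
    infComp w (g * h) = infComp w g * infComp w h := by
  rw [T5.infComp_eq_map, T5.infComp_eq_map, T5.infComp_eq_map, Units.val_mul, Matrix.map_mul]

theorem infComp_real826 (k : G ℚ) (i j : Fin 2) :
    ∃ a : ℝ, infComp Rat.infinitePlace k i j = ((a : ℝ) : ℂ) :=
  ⟨InfinitePlace.Completion.extensionEmbeddingOfIsReal Rat.isReal_infinitePlace _,
    (InfinitePlace.Completion.extensionEmbeddingOfIsReal_apply Rat.isReal_infinitePlace _).symm⟩

/-- A real matrix in `SO(2)` is `!![a, b; -b, a]` with `a² + b² = 1`. -/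
theorem so2_form826 {M : Matrix (Fin 2) (Fin 2) ℂ} (hreal : ∀ i j, ∃ a : ℝ, M i j = ((a : ℝ) : ℂ))
    (h1 : M * M.conjTranspose = 1) (hdet : M.det = 1) :
    ∃ a b : ℝ, a ^ 2 + b ^ 2 = 1 ∧ M 0 0 = (a : ℂ) ∧ M 0 1 = (b : ℂ) ∧ M 1 0 = -(b : ℂ) ∧
      M 1 1 = (a : ℂ) := by
  obtain ⟨a, ha⟩ := hreal 0 0
  obtain ⟨b, hb⟩ := hreal 0 1
  obtain ⟨c, hc⟩ := hreal 1 0
  obtain ⟨d, hd⟩ := hreal 1 1
  have e00 := congrFun (congrFun h1 0) 0
  have e01 := congrFun (congrFun h1 0) 1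
  rw [Matrix.det_fin_two] at hdet
  simp only [Matrix.mul_apply, Fin.sum_univ_two, Matrix.conjTranspose_apply, ha, hb, hc, hd,
    Matrix.one_apply_eq, Matrix.one_apply_ne, ne_eq, zero_ne_one, not_false_eq_true,
    Fin.isValue, RCLike.star_def, Complex.conj_ofReal] at e00 e01
  rw [ha, hb, hc, hd] at hdet
  have r00 : a * a + b * b = 1 := by exact_mod_cast e00
  have r01 : a * c + b * d = 0 := by exact_mod_cast e01
  have rdet : a * d - b * c = 1 := by exact_mod_cast hdet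
  have hda : d = a := by
    linear_combination (-d) * r00 + a * rdet + b * r01
  have hcb : c = -b := by
    linear_combination (-c) * r00 + a * r01 - b * rdet
  refine ⟨a, b, by nlinarith [r00], ha, hb, ?_, ?_⟩
  · rw [hc, hcb]
    push_cast
    ring
  · rw [hd, hda]

theorem wtOne_form826 {k : G ℚ} (hk : IsArchCompact Rat.infinitePlace k) :
    ∃ a b : ℝ, a ^ 2 + b ^ 2 = 1 ∧ infComp Rat.infinitePlace k 0 0 = (a : ℂ) ∧
      infComp Rat.infinitePlace k 0 1 = (b : ℂ) ∧ infComp Rat.infinitePlace k 1 0 = -(b : ℂ) ∧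
      infComp Rat.infinitePlace k 1 1 = (a : ℂ) :=
  so2_form826 (infComp_real826 k) hk.2.1 (hk.2.2 Rat.isReal_infinitePlace)

theorem continuous_infEntry826 {K : Type} [Field K] [NumberField K] (w : InfinitePlace K)
    (i j : Fin 2) : Continuous fun k : G K => infComp w k i j := by
  have h1 : Continuous fun k : G K => (k : Matrix (Fin 2) (Fin 2) (Adl K)) i j :=
    (Units.continuous_val).matrix_elem i j
  have h2 : Continuous fun x : Adl K => x.1 w :=
    (continuous_apply w).comp continuous_fst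
  exact (InfinitePlace.Completion.isometry_extensionEmbedding w).continuous.comp
    (h2.comp h1)

/-- **LEAF `WtOneKTypeC`.** -/
theorem wtOneKTypeC826 : WtOneKTypeC where
  norm_one := by
    intro w k hk
    rw [Subsingleton.elim w Rat.infinitePlace] at hk
    obtain ⟨a, b, hab, h00, h01, -, -⟩ := wtOne_form826 hk
    show ‖infComp Rat.infinitePlace k 0 0 + Complex.I * infComp Rat.infinitePlace k 0 1‖ = 1
    rw [h00, h01]
    have h : ((a : ℂ) + Complex.I * (b : ℂ)) = ((⟨a, b⟩ : ℂ)) := by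
      apply Complex.ext <;> simp
    rw [h, Complex.norm_def, Complex.normSq_mk, Real.sqrt_eq_one]
    nlinarith [hab]
  mul := by
    intro w k k' hk hk'
    rw [Subsingleton.elim w Rat.infinitePlace] at hk hk'
    obtain ⟨a, b, -, h00, h01, h10, h11⟩ := wtOne_form826 hk
    obtain ⟨a', b', -, h00', h01', h10', h11'⟩ := wtOne_form826 hk'
    show infComp Rat.infinitePlace (k * k') 0 0
        + Complex.I * infComp Rat.infinitePlace (k * k') 0 1
      = (infComp Rat.infinitePlace k 0 0 + Complex.I * infComp Rat.infinitePlace k 0 1)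
        * (infComp Rat.infinitePlace k' 0 0 + Complex.I * infComp Rat.infinitePlace k' 0 1)
    rw [infComp_mul826, Matrix.mul_apply, Matrix.mul_apply, Fin.sum_univ_two, Fin.sum_univ_two,
      h00, h01, h00', h01', h10', h11']
    linear_combination (-(b : ℂ) * (b' : ℂ)) * Complex.I_sq
  cont := by
    intro w
    refine Continuous.continuousOn ?_
    show Continuous fun k : G ℚ =>
      infComp Rat.infinitePlace k 0 0 + Complex.I * infComp Rat.infinitePlace k 0 1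
    exact (continuous_infEntry826 _ 0 0).add
      (continuous_const.mul (continuous_infEntry826 _ 0 1))

end Fermat.Agent.LT.T7.L2Q

end

end
-- ===== PACK-END LT/T7/H826/WtOneKType.lean

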