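import Mathlib
import Fermat.Agent.Pack.LT3.E15L2
import Fermat.Agent.Pack.LT3.E12L0
import Fermat.Agent.Pack.LT3.E15L1
import Fermat.Agent.Pack.LT3.E17L2
import Fermat.Agent.Pack.LT3.E15L0
import Fermat.Agent.Pack.LT3.E12L2
import Fermat.Agent.Pack.LT3.E15L3
import Fermat.Agent.Pack.LT3.E12L3
import Fermat.Agent.Pack.LT3.E16L2
import Fermat.Agent.Pack.LT3.E16L0
import Fermat.Agent.Pack.LT3.E16L1
import Fermat.Agent.Pack.LT2.E16L3
import Fermat.Agent.Pack.LT4.E0L2
import Fermat.Agent.Pack.LT3.E17L3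
import Fermat.Agent.Pack.LT2.E0L3
import Fermat.Agent.Pack.LT3.E20L3
import Fermat.Agent.Pack.LT2.E10L2
import Fermat.Agent.Pack.LT3.E19L0
import Fermat.Agent.Pack.LT2.E6L1

set_option linter.all false

-- ===== PACK-BEGIN LT/T6/H626/Closed626.lean
section







/-!
# Row LT, tower T6, station T6.20 (`ArchMatchC`): INTEGRATION of the closed leaves (helper626)

OFF-MAIN.  ONE closure, byte-identical copies of the leaf files.

| Prop | owner | file | state |
|---|---|---|---|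
| `SpecRelC626` (T6.20c = T6.29) | helper830 | `T6/H830/HCClosed3.lean` | CLOSED |
| `FamSmoothC626` (T6.20a.1) | helper283 | `T6/H283/FamSmooth.lean` | CLOSED |
| `ParamIntC626` (T6.20a.2) | helper698 | `T6/H698/ParamInt.lean` | CLOSED |
| `F0SmoothOfC626` (T6.20a.3) | helper290 | `T6/H290/F0Smooth.lean` | CLOSED |
| `RadInt0C626` (T6.20a.7) | helper501 | `T6/H501/RadInt0.lean` | CLOSED |
| `famAlg626`, tops | helper626 | `T6/H626/*.lean` | CLOSED |
| `CartanCC`, `WIntOfC` | helper283, helper841 | `T6/H283`, `T6/H841` | CLOSED |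

OPEN (hypotheses of `archMatchC_open626`): `F1SmoothOfC626`, `F0SoftOfC626`, `F1SoftOfC626`,
`RadInt1C626`, `F0AbelOfC626`, `F1AbelOfC626` (T6.20a.4, 5, 6, 8, 9, 10), `H634.HypExplC634`
(T6.20d), `H634.EllValueC634` (T6.20e.2).
-/

set_option autoImplicit false

noncomputable section

namespace Fermat.Agent.LT.T6.H626

open Fermat.Agent.LT.T6

/-- The smooth field of the closed form of weight `0` (closed). -/
theorem f0Smooth_closed626 (c : ℂ) (φ : GL (Fin 2) ℂ → ℂ) (hφ : IsArchTestC φ) :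
    IsSmoothR626 (abelF0_626 c φ) :=
  H290.f0SmoothOfC290 H283.famSmoothC283 H698.paramIntC698 c φ hφ

/-- **T6.20a from the leaves still open.** -/
theorem abelExist_open626 (hS1 : F1SmoothOfC626) (hT0 : F0SoftOfC626) (hT1 : F1SoftOfC626)
    (hR1 : RadInt1C626) (hA0 : F0AbelOfC626) (hA1 : F1AbelOfC626) : AbelExistC626 :=
  abelExist_running626 H283.famSmoothC283 H698.paramIntC698 H290.f0SmoothOfC290 hS1 hT0 hT1
    Fermat.Agent.LT.H501.Rad.radInt0C501 hR1 hA0 hA1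

/-- **T6.20 from the leaves still open.** -/
theorem archMatchC_open626 (hS1 : F1SmoothOfC626) (hT0 : F0SoftOfC626) (hT1 : F1SoftOfC626)
    (hR1 : RadInt1C626) (hA0 : F0AbelOfC626) (hA1 : F1AbelOfC626)
    (hH : H634.HypExplC634) (hE : H634.EllValueC634) : ArchMatchC :=
  H634.archMatchC_of_expl634 (abelExist_open626 hS1 hT0 hT1 hR1 hA0 hA1) hH hE
    H830.specRelC626_830

end Fermat.Agent.LT.T6.H626

end

end
-- ===== PACK-END LT/T6/H626/Closed626.lean

-- ===== PACK-BEGIN LT/T6/H626/Closed626b.lean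
section




/-!
# Row LT, tower T6, station T6.20 (`ArchMatchC`): INTEGRATION v2 (helper626)

OFF-MAIN.  ONE closure, byte-identical copies.  Added to `Closed626.lean` (v1):

| Prop | owner | file |
|---|---|---|
| `F1SmoothOfC626` (T6.20a.4) | helper729 | `T6/H729/F1Smooth.lean` |
| `RadInt1C626` (T6.20a.8) | helper439 | `T6/H439/RadInt1.lean`, `RadInt1Core.lean` |

OPEN (hypotheses of `archMatchC_open626b`): `F0SoftOfC626`, `F1SoftOfC626`, `F0AbelOfC626`,
`F1AbelOfC626` (T6.20a.5, 6, 9, 10), `H634.HypExplC634` (T6.20d), `H634.EllValueC634` (T6.20e.2).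
-/

set_option autoImplicit false

noncomputable section

namespace Fermat.Agent.LT.T6.H626

open Fermat.Agent.LT.T6

/-- **T6.20a from the leaves still open (v2).** -/
theorem abelExist_open626b (hT0 : F0SoftOfC626) (hT1 : F1SoftOfC626)
    (hA0 : F0AbelOfC626) (hA1 : F1AbelOfC626) : AbelExistC626 :=
  abelExist_open626 H729.f1SmoothOf729 hT0 hT1 H439.radInt1C_h439 hA0 hA1

/-- **T6.20 from the leaves still open (v2).** -/
theorem archMatchC_open626b (hT0 : F0SoftOfC626) (hT1 : F1SoftOfC626)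
    (hA0 : F0AbelOfC626) (hA1 : F1AbelOfC626)
    (hH : H634.HypExplC634) (hE : H634.EllValueC634) : ArchMatchC :=
  archMatchC_open626 H729.f1SmoothOf729 hT0 hT1 H439.radInt1C_h439 hA0 hA1 hH hE

end Fermat.Agent.LT.T6.H626

end

end
-- ===== PACK-END LT/T6/H626/Closed626b.lean

-- ===== PACK-BEGIN LT/T6/H626/Closed626c.lean
section








/-!
# Row LT, tower T6, station T6.20 (`ArchMatchC`): INTEGRATION v3 (helper626)

OFF-MAIN.  ONE closure, byte-identical copies.  Added to `Closed626b.lean` (v2):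

| Prop | owner | file |
|---|---|---|
| `H189.ArchIntOut` (T6.23) | helper189 | `T6/H189/ArchIntClosed.lean` |
| `H781.ArchEllIdC` (T6.28) | helper781 | `T6/H781/EllId.lean` |
| `H634.EllNormC634`, `H634.BoxPosC634`, top `ellValue_of634` | helper634 | `T6/H634/*.lean` |
| adapter `hypExpl_of_iwa820` | helper820 | `T6/H820/CStar.lean` |

OPEN (hypotheses of `archMatchC_open626c`):
* T6.20a route H: `F0SoftOfC626`, `F1SoftOfC626`, `F0AbelOfC626`, `F1AbelOfC626`;
* T6.20d: `H820.HypIwaC820`;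
* T6.20e: `H634.ProfAbelC634`, `H634.EllRealC634`, `H634.EllTwC634`.
-/

set_option autoImplicit false

noncomputable section

namespace Fermat.Agent.LT.T6.H626

open Fermat.Agent.LT.T6

/-- **T6.20e.2 from the leaves still open.** -/
theorem ellValue_open626c (hP : H634.ProfAbelC634) (hR : H634.EllRealC634)
    (hT : H634.EllTwC634) : H634.EllValueC634 :=
  H634.ellValue_of634 H189.archIntOut189 H634.ellNormC634 H634.boxPosC634 hP
    H781.archEllId781 (fun _ => hR) (fun _ => hT)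

/-- **T6.20d (explicit form) from the leaf still open.** -/
theorem hypExpl_open626c (hM : H820.HypIwaC820) : H634.HypExplC634 :=
  H820.hypExpl_of_iwa820 H189.archIntOut189.iwaR H189.archIntOut189.haarU
    H189.archIntOut189.iwaC hM

/-- **T6.20 from the leaves still open (v3).** -/
theorem archMatchC_open626c (hT0 : F0SoftOfC626) (hT1 : F1SoftOfC626)
    (hA0 : F0AbelOfC626) (hA1 : F1AbelOfC626)
    (hM : H820.HypIwaC820)
    (hP : H634.ProfAbelC634) (hR : H634.EllRealC634) (hT : H634.EllTwC634) : ArchMatchC :=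
  archMatchC_open626b hT0 hT1 hA0 hA1 (hypExpl_open626c hM) (ellValue_open626c hP hR hT)

end Fermat.Agent.LT.T6.H626

end

end
-- ===== PACK-END LT/T6/H626/Closed626c.lean

-- ===== PACK-BEGIN LT/T6/H626/Closed626d.lean
section






/-!
# Row LT, tower T6, station T6.20 (`ArchMatchC`): INTEGRATION v4 (helper626)

OFF-MAIN.  ONE closure, byte-identical copies.  Added to `Closed626c.lean` (v3):

| Prop | owner | file |
|---|---|---|
| `F0SoftOfC626` (T6.20a.5) | helper3 | `T6/H3/F0Soft.lean` |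
| `F1SoftOfC626` (T6.20a.6) | helper922 | `T6/H922/F1Soft.lean` |
| `F0AbelOfC626` (T6.20a.9) | helper904 | `T6/H904/F0Abel.lean` |
| `F1AbelOfC626` (T6.20a.10) | helper944 | `T6/H944/F1Abel.lean` |

**CLOSED: T6.20a `abelExistC626_closed : AbelExistC626`** (route H, UNCONDITIONAL), and T6.20c.

OPEN (hypotheses of `archMatchC_open626d`): `H820.HypIwaC820` (T6.20d),
`H634.ProfAbelC634`, `H634.EllRealC634`, `H634.EllTwC634` (T6.20e.2c, 2d, 2e).
-/

set_option autoImplicit false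

noncomputable section

namespace Fermat.Agent.LT.T6.H626

open Fermat.Agent.LT.T6

/-- **T6.20a CLOSED (route H): existence of `f₀`, `f₁` in the Abel relation.** -/
theorem abelExistC626_closed : AbelExistC626 :=
  abelExist_open626b H3.f0SoftOf3 H922.f1SoftOfC922 H904.f0AbelOfC904 H944.f1AbelOf944

/-- **T6.20 from the leaves still open (v4).** -/
theorem archMatchC_open626d (hM : H820.HypIwaC820)
    (hP : H634.ProfAbelC634) (hR : H634.EllRealC634) (hT : H634.EllTwC634) : ArchMatchC :=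
  archMatchC_open626c H3.f0SoftOf3 H922.f1SoftOfC922 H904.f0AbelOfC904 H944.f1AbelOf944
    hM hP hR hT

end Fermat.Agent.LT.T6.H626

end

end
-- ===== PACK-END LT/T6/H626/Closed626d.lean

-- ===== PACK-BEGIN LT/T3/H681/SatPrincipal.lean
section


/-!
# Row LT, tower T3, asset `SatakeInjC` (helper681), OFF-MAIN -- part 3: principal series

Abstract nonarchimedean local field `k` with residue data `D`.  For `z₁, z₂ ≠ 0` the function

    Φ_z(g) = w^{m₂ - m₁} z₁^{m₁} z₂^{m₂},   m₂ = min ord of the lower row of g,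
                                            m₁ = ord (det g) - m₂          (w² = q)

is right invariant under `GL₂(𝒪)`, `Φ_z(1) = 1`, and it is an eigenfunction of `T` and `S` with
eigenvalues `w (z₁ + z₂)` and `z₁ z₂` (`IsEig263`); scalar matrices of valuation `-1` act by
`z₁ z₂`.
-/

set_option autoImplicit false
set_option linter.unusedSectionVars false

open scoped Classical

noncomputable section

namespace Fermat.Agent.LT.T3.H681

open Fermat.Agent.LT.T6 Fermat.Agent.LT.T6.H305 Fermat.Agent.LT.T3.H263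

variable {k : Type} [Field k] [Valued k Γ₀]

/-- The largest valuation of an entry of the lower row. -/
def bot681 (g : GL (Fin 2) k) : Γ₀ :=
  max (Valued.v ((g : Matrix (Fin 2) (Fin 2) k) 1 0))
    (Valued.v ((g : Matrix (Fin 2) (Fin 2) k) 1 1))

theorem bot_ne_zero681 (g : GL (Fin 2) k) : bot681 g ≠ 0 := by
  intro h
  have h1 : Valued.v ((g : Matrix (Fin 2) (Fin 2) k) 1 0) ≤ 0 := by
    rw [← h]
    exact le_max_left _ _
  have h2 : Valued.v ((g : Matrix (Fin 2) (Fin 2) k) 1 1) ≤ 0 := by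
    rw [← h]
    exact le_max_right _ _
  have e1 : (g : Matrix (Fin 2) (Fin 2) k) 1 0 = 0 := by simpa using h1
  have e2 : (g : Matrix (Fin 2) (Fin 2) k) 1 1 = 0 := by simpa using h2
  apply det_ne_zero g
  rw [Matrix.det_fin_two, e1, e2]
  ring

theorem bot_mul_le681 (g κ : GL (Fin 2) k) (hκ : InK κ) : bot681 (g * κ) ≤ bot681 g := by
  unfold bot681
  have key : ∀ j, Valued.v (((g * κ : GL (Fin 2) k) : Matrix (Fin 2) (Fin 2) k) 1 j)
      ≤ max (Valued.v ((g : Matrix (Fin 2) (Fin 2) k) 1 0))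
        (Valued.v ((g : Matrix (Fin 2) (Fin 2) k) 1 1)) := by
    intro j
    rw [Units.val_mul, Matrix.mul_apply, Fin.sum_univ_two]
    refine Valuation.map_add_le _ ?_ ?_
    · rw [map_mul]
      calc Valued.v ((g : Matrix (Fin 2) (Fin 2) k) 1 0)
            * Valued.v ((κ : Matrix (Fin 2) (Fin 2) k) 0 j)
          ≤ Valued.v ((g : Matrix (Fin 2) (Fin 2) k) 1 0) * 1 := mul_le_mul' le_rfl (hκ.1 0 j)
        _ = Valued.v ((g : Matrix (Fin 2) (Fin 2) k) 1 0) := mul_one _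
        _ ≤ _ := le_max_left _ _
    · rw [map_mul]
      calc Valued.v ((g : Matrix (Fin 2) (Fin 2) k) 1 1)
            * Valued.v ((κ : Matrix (Fin 2) (Fin 2) k) 1 j)
          ≤ Valued.v ((g : Matrix (Fin 2) (Fin 2) k) 1 1) * 1 := mul_le_mul' le_rfl (hκ.1 1 j)
        _ = Valued.v ((g : Matrix (Fin 2) (Fin 2) k) 1 1) := mul_one _
        _ ≤ _ := le_max_right _ _
  exact max_le (key 0) (key 1)

theorem bot_mul681 (g κ : GL (Fin 2) k) (hκ : InK κ) : bot681 (g * κ) = bot681 g := by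
  refine le_antisymm (bot_mul_le681 g κ hκ) ?_
  have := bot_mul_le681 (g * κ) κ⁻¹ (inK_inv hκ)
  simpa using this

/-- `m₂`. -/
def ordBot681 (g : GL (Fin 2) k) : ℤ := - WithZero.log (bot681 g)

/-- `m₁`. -/
def ordTop681 (g : GL (Fin 2) k) : ℤ :=
  - WithZero.log (Valued.v (g : Matrix (Fin 2) (Fin 2) k).det) - ordBot681 g

/-- The spherical vector of the unramified principal series with Satake parameters `z₁, z₂`. -/
def princ681 (w z₁ z₂ : ℂ) (g : GL (Fin 2) k) : ℂ :=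
  w ^ (ordBot681 g - ordTop681 g) * z₁ ^ ordTop681 g * z₂ ^ ordBot681 g

theorem princ_one681 (w z₁ z₂ : ℂ) : princ681 w z₁ z₂ (1 : GL (Fin 2) k) = 1 := by
  have hb : bot681 (1 : GL (Fin 2) k) = 1 := by
    unfold bot681
    simp
  have h1 : ordBot681 (1 : GL (Fin 2) k) = 0 := by
    unfold ordBot681
    rw [hb]
    simp
  have h2 : ordTop681 (1 : GL (Fin 2) k) = 0 := by
    unfold ordTop681
    rw [h1]
    simp
  unfold princ681
  rw [h1, h2]
  simp

theorem princ_rinv681 (w z₁ z₂ : ℂ) : IsRInv263 (princ681 (k := k) w z₁ z₂) := by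
  intro κ g hκ
  have h1 : ordBot681 (g * κ) = ordBot681 g := by
    unfold ordBot681
    rw [bot_mul681 g κ hκ]
  have h2 : ordTop681 (g * κ) = ordTop681 g := by
    unfold ordTop681
    rw [h1, val_det_mul g κ hκ]
  unfold princ681
  rw [h1, h2]

/-- The total order is additive. -/
theorem ord_sum681 (g h : GL (Fin 2) k) (m : ℤ)
    (hh : Valued.v (h : Matrix (Fin 2) (Fin 2) k).det = WithZero.exp (-m)) :
    ordTop681 (g * h) + ordBot681 (g * h) = ordTop681 g + ordBot681 g + m := by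
  unfold ordTop681
  rw [Units.val_mul, Matrix.det_mul, map_mul, hh,
    WithZero.log_mul (val_det_ne_zero g) WithZero.exp_ne_zero, WithZero.log_exp]
  ring

theorem princ_same681 (w z₁ z₂ : ℂ) (hw : w ≠ 0) (hz₁ : z₁ ≠ 0) (g h : GL (Fin 2) k)
    (hh : Valued.v (h : Matrix (Fin 2) (Fin 2) k).det = WithZero.exp (-(1 : ℤ)))
    (hb : bot681 (g * h) = bot681 g) :
    princ681 w z₁ z₂ (g * h) = w⁻¹ * z₁ * princ681 w z₁ z₂ g := by
  have hs := ord_sum681 g h 1 hh
  have h1 : ordBot681 (g * h) = ordBot681 g := by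
    unfold ordBot681
    rw [hb]
  have h2 : ordTop681 (g * h) = ordTop681 g + 1 := by omega
  unfold princ681
  rw [h1, h2, zpow_add_one₀ hz₁,
    show ordBot681 g - (ordTop681 g + 1) = (ordBot681 g - ordTop681 g) - 1 by ring,
    zpow_sub_one₀ hw]
  ring

theorem princ_down681 (w z₁ z₂ : ℂ) (hw : w ≠ 0) (hz₂ : z₂ ≠ 0) (g h : GL (Fin 2) k)
    (hh : Valued.v (h : Matrix (Fin 2) (Fin 2) k).det = WithZero.exp (-(1 : ℤ)))
    (hb : bot681 (g * h) = bot681 g * WithZero.exp (-(1 : ℤ))) :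
    princ681 w z₁ z₂ (g * h) = w * z₂ * princ681 w z₁ z₂ g := by
  have hs := ord_sum681 g h 1 hh
  have h1 : ordBot681 (g * h) = ordBot681 g + 1 := by
    unfold ordBot681
    rw [hb, WithZero.log_mul (bot_ne_zero681 g) WithZero.exp_ne_zero, WithZero.log_exp]
    ring
  have h2 : ordTop681 (g * h) = ordTop681 g := by omega
  unfold princ681
  rw [h1, h2, zpow_add_one₀ hz₂,
    show ordBot681 g + 1 - ordTop681 g = (ordBot681 g - ordTop681 g) + 1 by ring,
    zpow_add_one₀ hw]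
  ring

/-- Scalar matrices of valuation `-1` act by `z₁ z₂`. -/
theorem princ_scalar681 (w z₁ z₂ : ℂ) (hz₁ : z₁ ≠ 0) (hz₂ : z₂ ≠ 0) (z : GL (Fin 2) k) (c : k)
    (hc : Valued.v c = WithZero.exp (-1 : ℤ))
    (hz : (z : Matrix (Fin 2) (Fin 2) k) = Matrix.diagonal (fun _ => c)) (g : GL (Fin 2) k) :
    princ681 w z₁ z₂ (g * z) = z₁ * z₂ * princ681 w z₁ z₂ g := by
  have hent : ∀ i j, ((g * z : GL (Fin 2) k) : Matrix (Fin 2) (Fin 2) k) i j
      = (g : Matrix (Fin 2) (Fin 2) k) i j * c := by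
    intro i j
    rw [Units.val_mul, hz, Matrix.mul_diagonal]
  have hdz : Valued.v (z : Matrix (Fin 2) (Fin 2) k).det = WithZero.exp (-(2 : ℤ)) := by
    rw [hz, Matrix.det_diagonal, Fin.prod_univ_two, map_mul, hc, ← WithZero.exp_add]
    norm_num
  have hs := ord_sum681 g z 2 hdz
  have hb : bot681 (g * z) = bot681 g * WithZero.exp (-(1 : ℤ)) := by
    unfold bot681
    rw [hent, hent, map_mul, map_mul, hc, max_mul_mul_right]
  have h1 : ordBot681 (g * z) = ordBot681 g + 1 := by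
    unfold ordBot681
    rw [hb, WithZero.log_mul (bot_ne_zero681 g) WithZero.exp_ne_zero, WithZero.log_exp]
    ring
  have h2 : ordTop681 (g * z) = ordTop681 g + 1 := by omega
  unfold princ681
  rw [h1, h2, zpow_add_one₀ hz₁, zpow_add_one₀ hz₂,
    show ordBot681 g + 1 - (ordTop681 g + 1) = ordBot681 g - ordTop681 g by ring]
  ring

/-! ## Left translation of the explicit system -/

theorem entryMax_mul_left_le681 (κ g : GL (Fin 2) k) (hκ : InK κ) :
    entryMax (κ * g) ≤ entryMax g := by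
  rw [entryMax_le_iff]
  intro i j
  rw [Units.val_mul, Matrix.mul_apply]
  refine Valuation.map_sum_le _ (fun l _ => ?_)
  rw [map_mul]
  calc Valued.v ((κ : Matrix (Fin 2) (Fin 2) k) i l) * Valued.v ((g : Matrix (Fin 2) (Fin 2) k) l j)
      ≤ 1 * entryMax g := mul_le_mul' (hκ.1 i l) (le_entryMax g l j)
    _ = entryMax g := one_mul _

theorem entryMax_mul_left681 (κ g : GL (Fin 2) k) (hκ : InK κ) :
    entryMax (κ * g) = entryMax g := by
  refine le_antisymm (entryMax_mul_left_le681 κ g hκ) ?_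
  have := entryMax_mul_left_le681 κ⁻¹ (κ * g) (inK_inv hκ)
  simpa using this

theorem cartan_mul_left681 (κ g : GL (Fin 2) k) (hκ : InK κ) : cartan (κ * g) = cartan g := by
  unfold cartan
  rw [entryMax_mul_left681 κ g hκ, Units.val_mul, Matrix.det_mul, map_mul,
    ((inK_iff κ).1 hκ).2, one_mul]

theorem sum_Idx_left681 (D : ResData k) (Ψ : GL (Fin 2) k → ℂ)
    (hΨ : ∀ u g : GL (Fin 2) k, InK u → Ψ (g * u) = Ψ g) (κ : GL (Fin 2) k) (hκ : InK κ) :
    ∑ x ∈ D.Idx 1, Ψ (κ * D.fam 0 x) = ∑ x ∈ D.Idx 1, Ψ (D.fam 0 x) := by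
  refine sum_eq_of_systems (D.Idx 1) (D.Idx 1) (fun x => κ * D.fam 0 x) (D.fam 0) Ψ hΨ
    ?_ ?_ ?_ ?_
  · intro a ha
    refine D.fam_cover 0 1 (κ * D.fam 0 a) ?_
    rw [cartan_mul_left681 κ _ hκ, D.cartan_fam 0 ha]
  · intro b hb
    obtain ⟨a, ha, hK⟩ := D.fam_cover 0 1 (κ⁻¹ * D.fam 0 b) (by
      rw [cartan_mul_left681 κ⁻¹ _ (inK_inv hκ), D.cartan_fam 0 hb])
    refine ⟨a, ha, ?_⟩
    have e : (κ * D.fam 0 a)⁻¹ * D.fam 0 b = (D.fam 0 a)⁻¹ * (κ⁻¹ * D.fam 0 b) := by group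
    rw [e]
    exact hK
  · intro a ha a' ha' hK
    have e : (κ * D.fam 0 a)⁻¹ * (κ * D.fam 0 a') = (D.fam 0 a)⁻¹ * D.fam 0 a' := by group
    rw [e] at hK
    exact D.fam_inj 0 ha ha' hK
  · intro b hb b' hb' hK
    exact D.fam_inj 0 hb hb' hK

theorem explicit_eq_sum681 (D : ResData k) (Φ : GL (Fin 2) k → ℂ) (g : GL (Fin 2) k) :
    Φ (g * D.um 0 1 0) + ∑ d ∈ D.T, Φ (g * D.um 1 0 d) = ∑ x ∈ D.Idx 1, Φ (g * D.fam 0 x) := by
  rw [D.sum_Idx_fam_zero, D.Pprim_eq_Aall_of_le_one Φ 1 le_rfl, D.Aall_one]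

/-! ## The Hecke eigenvalue -/

theorem princ_hT_upper681 (D : ResData k) (w z₁ z₂ : ℂ) (hw : w ^ 2 = (D.T.card : ℂ))
    (hw0 : w ≠ 0) (hz₁ : z₁ ≠ 0) (hz₂ : z₂ ≠ 0) (b : GL (Fin 2) k)
    (hb : (b : Matrix (Fin 2) (Fin 2) k) 1 0 = 0) :
    princ681 w z₁ z₂ (b * D.um 0 1 0) + ∑ d ∈ D.T, princ681 w z₁ z₂ (b * D.um 1 0 d)
      = w * (z₁ + z₂) * princ681 w z₁ z₂ b := by
  have hbot : bot681 b = Valued.v ((b : Matrix (Fin 2) (Fin 2) k) 1 1) := by
    unfold bot681
    rw [hb, map_zero]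
    exact max_eq_right zero_le'
  have h1 : bot681 (b * D.um 0 1 0) = bot681 b * WithZero.exp (-(1 : ℤ)) := by
    rw [hbot]
    unfold bot681
    rw [Units.val_mul, D.um_val]
    simp only [Matrix.mul_apply, Fin.sum_univ_two, Matrix.of_apply, Matrix.cons_val',
      Matrix.cons_val_zero, Matrix.cons_val_one, Matrix.cons_val_fin_one, hb, zero_mul,
      mul_zero, add_zero, zero_add, map_zero, pow_one, map_mul, D.hϖ]
    exact max_eq_right zero_le'
  have h2 : ∀ d : k, bot681 (b * D.um 1 0 d) = bot681 b := by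
    intro d
    rw [hbot]
    unfold bot681
    rw [Units.val_mul, D.um_val]
    simp only [Matrix.mul_apply, Fin.sum_univ_two, Matrix.of_apply, Matrix.cons_val',
      Matrix.cons_val_zero, Matrix.cons_val_one, Matrix.cons_val_fin_one, hb, zero_mul,
      mul_zero, add_zero, zero_add, map_zero, pow_zero, mul_one]
    exact max_eq_right zero_le'
  have hd1 : Valued.v (D.um 0 1 0 : Matrix (Fin 2) (Fin 2) k).det = WithZero.exp (-(1 : ℤ)) := by
    rw [D.val_det_um]
    rfl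
  have hd2 : ∀ d : k,
      Valued.v (D.um 1 0 d : Matrix (Fin 2) (Fin 2) k).det = WithZero.exp (-(1 : ℤ)) := by
    intro d
    rw [D.val_det_um]
    rfl
  rw [princ_down681 w z₁ z₂ hw0 hz₂ b _ hd1 h1,
    Finset.sum_congr rfl (fun d _ => princ_same681 w z₁ z₂ hw0 hz₁ b _ (hd2 d) (h2 d)),
    Finset.sum_const, nsmul_eq_mul, ← hw]
  field_simp
  ring

/-- `Φ_z` is an eigenfunction of `T` and `S`. -/
theorem isEig_princ681 (D : ResData k) (w z₁ z₂ : ℂ) (hw : w ^ 2 = (D.T.card : ℂ))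
    (hw0 : w ≠ 0) (hz₁ : z₁ ≠ 0) (hz₂ : z₂ ≠ 0) :
    IsEig263 D (princ681 w z₁ z₂) (w * (z₁ + z₂)) (z₁ * z₂) := by
  refine ⟨princ_rinv681 w z₁ z₂, fun g => ?_, fun g => ?_⟩
  · refine princ_scalar681 w z₁ z₂ hz₁ hz₂ (D.sc 1) D.ϖ D.hϖ ?_ g
    rw [ResData.sc_val, zpow_one]
    ext i j
    fin_cases i <;> fin_cases j <;> simp
  · obtain ⟨κ₁, hκ₁, h10⟩ := exists_lower_zero g
    have hinv := princ_rinv681 (k := k) w z₁ z₂
    have hΨ : ∀ u h : GL (Fin 2) k, InK u →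
        (fun h => princ681 w z₁ z₂ (g * κ₁ * h)) (h * u)
          = (fun h => princ681 w z₁ z₂ (g * κ₁ * h)) h := by
      intro u h hu
      show princ681 w z₁ z₂ (g * κ₁ * (h * u)) = princ681 w z₁ z₂ (g * κ₁ * h)
      rw [← mul_assoc]
      exact hinv u _ hu
    have key := sum_Idx_left681 D (fun h => princ681 w z₁ z₂ (g * κ₁ * h)) hΨ κ₁⁻¹
      (inK_inv hκ₁)
    have e1 : ∀ x, g * κ₁ * (κ₁⁻¹ * D.fam 0 x) = g * D.fam 0 x := by
      intro x
      group
    simp only [e1] at key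
    rw [explicit_eq_sum681, key, ← explicit_eq_sum681,
      princ_hT_upper681 D w z₁ z₂ hw hw0 hz₁ hz₂ (g * κ₁) h10, hinv κ₁ g hκ₁]

end Fermat.Agent.LT.T3.H681

end

end
-- ===== PACK-END LT/T3/H681/SatPrincipal.lean

-- ===== PACK-BEGIN LT/T6/H323/AbelConvC.lean
section




/-!
# Row LT, tower T6, station T6.20x, LEAF X.2 `AbelConvCC680` (helper323), OFF-MAIN

    abelConvCC323 : H680.AbelConvCC680        (VERBATIM, UNCONDITIONAL)

The `N`-integral of a convolution on `GL₂(ℂ)`: for a Haar measure `μ'` and bi-`U(2)`-invariant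
test functions `φ`, `ψ`

    N(φ ⋆ ψ)(v) = κ ∫_{ℝ²} N(φ)(u) N(ψ)(v - u) du,     κ = the Iwasawa constant of `μ'`.

Proof.  `y ↦ φ(y) ψ(y⁻¹ z)` is continuous, compactly supported, right-`U(2)`-invariant: the CLOSED
Iwasawa integration formula `H830.iwasawaIntCC830`.  Group law of the coordinates
(`bC_mul323`), `(ζ, r, w) ↦ bC ζ r w` is continuous and proper (`isCompact_preimage_bP323`),
Fubini for continuous functions with compact support, translation invariance of `dt`.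
No hole, nothing assumed.  ADDITIVE (suffix `323`).
-/

set_option autoImplicit false

open MeasureTheory
open scoped Matrix

noncomputable section

namespace Fermat.Agent.LT.T6.H323

open Fermat.Agent.LT.T6 Fermat.Agent.LT.T6.H830 Fermat.Agent.LT.T6.H680

/-! ## 1. The coordinates -/

/-- The coordinates `(ζ, r, w) ↦ bC ζ r w` on `(ℝ × ℝ) × ℂ`. -/
def bP323 (p : (ℝ × ℝ) × ℂ) : GL (Fin 2) ℂ := bC p.1.1 p.1.2 p.2

theorem bC_mul323 (ζ r ζ' r' : ℝ) (w w' : ℂ) :
    bC ζ r w * bC ζ' r' w' = bC (ζ + ζ') (r + r') (w' + w * ((Real.exp (-r') : ℝ) : ℂ)) := by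
  apply Units.ext
  rw [Units.val_mul, coe_bC830, coe_bC830, coe_bC830]
  have e1 : Real.exp ((ζ + ζ' + (r + r')) / 2) = Real.exp ((ζ + r) / 2) * Real.exp ((ζ' + r') / 2) := by
    rw [← Real.exp_add]; congr 1; ring
  have e2 : Real.exp ((ζ + ζ' - (r + r')) / 2) = Real.exp ((ζ - r) / 2) * Real.exp ((ζ' - r') / 2) := by
    rw [← Real.exp_add]; congr 1; ring
  have e3 : Real.exp ((ζ' - r') / 2) = Real.exp ((ζ' + r') / 2) * Real.exp (-r') := by
    rw [← Real.exp_add]; congr 1; ring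
  refine Matrix.ext fun i j => ?_
  fin_cases i <;> fin_cases j
  · simp [Matrix.mul_apply, Fin.sum_univ_two, e1]
  · simp only [Matrix.mul_apply, Fin.sum_univ_two, e1, e3]
    simp
    ring
  · simp [Matrix.mul_apply, Fin.sum_univ_two]
  · simp [Matrix.mul_apply, Fin.sum_univ_two, e2]

theorem bC_zero323 : bC 0 0 0 = 1 := by
  apply Units.ext
  rw [coe_bC830]
  refine Matrix.ext fun i j => ?_
  fin_cases i <;> fin_cases j <;> simp

theorem bC_inv323 (ζ r : ℝ) (w : ℂ) :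
    (bC ζ r w)⁻¹ = bC (-ζ) (-r) (-(w * ((Real.exp r : ℝ) : ℂ))) := by
  apply inv_eq_of_mul_eq_one_right
  rw [bC_mul323]
  have h : (-(w * ((Real.exp r : ℝ) : ℂ)) + w * ((Real.exp (- -r) : ℝ) : ℂ)) = 0 := by
    rw [neg_neg]; ring
  rw [h, add_neg_cancel, add_neg_cancel, bC_zero323]

/-- `(bC ζ r w)⁻¹ · bC ζ₀ r₀ t = bC (ζ₀ - ζ) (r₀ - r) (t - w e^{r - r₀})`. -/
theorem bC_inv_mul323 (ζ r ζ₀ r₀ : ℝ) (w t : ℂ) :
    (bC ζ r w)⁻¹ * bC ζ₀ r₀ t
      = bC (ζ₀ - ζ) (r₀ - r) (t - w * ((Real.exp (r - r₀) : ℝ) : ℂ)) := by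
  rw [inv_mul_eq_iff_eq_mul, bC_mul323]
  have h1 : ζ + (ζ₀ - ζ) = ζ₀ := by ring
  have h2 : r + (r₀ - r) = r₀ := by ring
  have h3 : (t - w * ((Real.exp (r - r₀) : ℝ) : ℂ)) + w * ((Real.exp (-(r₀ - r)) : ℝ) : ℂ) = t := by
    rw [neg_sub]; ring
  rw [h1, h2, h3]

theorem continuous_coe_bP323 :
    Continuous fun p : (ℝ × ℝ) × ℂ => ((bP323 p : GL (Fin 2) ℂ) : Matrix (Fin 2) (Fin 2) ℂ) := by
  refine continuous_matrix fun i j => ?_
  fin_cases i <;> fin_cases j <;> simp [bP323, coe_bC830] <;> fun_prop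

theorem continuous_bP323 : Continuous bP323 := by
  rw [Units.continuous_iff]
  refine ⟨continuous_coe_bP323, ?_⟩
  have h : (fun p : (ℝ × ℝ) × ℂ => (((bP323 p)⁻¹ : GL (Fin 2) ℂ) : Matrix (Fin 2) (Fin 2) ℂ))
      = (fun p : (ℝ × ℝ) × ℂ => ((bP323 p : GL (Fin 2) ℂ) : Matrix (Fin 2) (Fin 2) ℂ)) ∘
        fun p : (ℝ × ℝ) × ℂ => ((-p.1.1, -p.1.2), -(p.2 * ((Real.exp p.1.2 : ℝ) : ℂ))) := by
    funext p
    simp only [bP323, Function.comp_apply, bC_inv323]
  change Continuous fun p : (ℝ × ℝ) × ℂ =>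
    (((bP323 p)⁻¹ : GL (Fin 2) ℂ) : Matrix (Fin 2) (Fin 2) ℂ)
  rw [h]
  refine continuous_coe_bP323.comp ?_
  fun_prop

/-! ## 2. The coordinates are proper -/

/-- A left inverse of the coordinates (continuous on the upper triangular matrices). -/
def lP323 (g : GL (Fin 2) ℂ) : (ℝ × ℝ) × ℂ :=
  ((Real.log ‖(g : Matrix (Fin 2) (Fin 2) ℂ) 0 0‖ + Real.log ‖(g : Matrix (Fin 2) (Fin 2) ℂ) 1 1‖,
    Real.log ‖(g : Matrix (Fin 2) (Fin 2) ℂ) 0 0‖ - Real.log ‖(g : Matrix (Fin 2) (Fin 2) ℂ) 1 1‖),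
    (g : Matrix (Fin 2) (Fin 2) ℂ) 0 1 / (g : Matrix (Fin 2) (Fin 2) ℂ) 0 0)

theorem lP_bP323 (p : (ℝ × ℝ) × ℂ) : lP323 (bP323 p) = p := by
  obtain ⟨⟨ζ, r⟩, w⟩ := p
  have h0 : ((Real.exp ((ζ + r) / 2) : ℝ) : ℂ) ≠ 0 :=
    Complex.ofReal_ne_zero.2 (Real.exp_ne_zero _)
  simp only [lP323, bP323, coe_bC830]
  refine Prod.ext (Prod.ext ?_ ?_) ?_
  · simp only [Matrix.of_apply, Matrix.cons_val', Matrix.cons_val_zero, Matrix.cons_val_one,
      Matrix.cons_val_fin_one]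
    rw [Complex.norm_real, Complex.norm_real, Real.norm_of_nonneg (Real.exp_pos _).le,
      Real.norm_of_nonneg (Real.exp_pos _).le, Real.log_exp, Real.log_exp]
    ring
  · simp only [Matrix.of_apply, Matrix.cons_val', Matrix.cons_val_zero, Matrix.cons_val_one,
      Matrix.cons_val_fin_one]
    rw [Complex.norm_real, Complex.norm_real, Real.norm_of_nonneg (Real.exp_pos _).le,
      Real.norm_of_nonneg (Real.exp_pos _).le, Real.log_exp, Real.log_exp]
    ring
  · simp only [Matrix.of_apply, Matrix.cons_val', Matrix.cons_val_zero, Matrix.cons_val_one,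
      Matrix.cons_val_fin_one]
    field_simp

theorem continuous_entry323 (i j : Fin 2) :
    Continuous fun g : GL (Fin 2) ℂ => (g : Matrix (Fin 2) (Fin 2) ℂ) i j := by
  have h1 : Continuous fun g : GL (Fin 2) ℂ => (g : Matrix (Fin 2) (Fin 2) ℂ) :=
    Units.continuous_val
  exact h1.matrix_elem i j

theorem isClosed_tri323 : IsClosed {g : GL (Fin 2) ℂ | (g : Matrix (Fin 2) (Fin 2) ℂ) 1 0 = 0} :=
  isClosed_eq (continuous_entry323 1 0) continuous_const

theorem tri_ne_zero323 {g : GL (Fin 2) ℂ} (hg : (g : Matrix (Fin 2) (Fin 2) ℂ) 1 0 = 0) :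
    (g : Matrix (Fin 2) (Fin 2) ℂ) 0 0 ≠ 0 ∧ (g : Matrix (Fin 2) (Fin 2) ℂ) 1 1 ≠ 0 := by
  have hdet : (g : Matrix (Fin 2) (Fin 2) ℂ).det ≠ 0 := by
    have := (Matrix.GeneralLinearGroup.det g).ne_zero
    simpa using this
  rw [Matrix.det_fin_two, hg, mul_zero, sub_zero] at hdet
  exact ⟨left_ne_zero_of_mul hdet, right_ne_zero_of_mul hdet⟩

theorem continuousOn_lP323 :
    ContinuousOn lP323 {g : GL (Fin 2) ℂ | (g : Matrix (Fin 2) (Fin 2) ℂ) 1 0 = 0} := by
  have hlog : ∀ i : Fin 2, (∀ g : GL (Fin 2) ℂ, (g : Matrix (Fin 2) (Fin 2) ℂ) 1 0 = 0 →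
      (g : Matrix (Fin 2) (Fin 2) ℂ) i i ≠ 0) →
      ContinuousOn (fun g : GL (Fin 2) ℂ => Real.log ‖(g : Matrix (Fin 2) (Fin 2) ℂ) i i‖)
        {g : GL (Fin 2) ℂ | (g : Matrix (Fin 2) (Fin 2) ℂ) 1 0 = 0} := by
    intro i hi
    refine ContinuousOn.log (continuous_entry323 i i).norm.continuousOn fun g hg => ?_
    exact norm_ne_zero_iff.2 (hi g hg)
  have h00 := hlog 0 fun g hg => (tri_ne_zero323 hg).1
  have h11 := hlog 1 fun g hg => (tri_ne_zero323 hg).2
  refine ContinuousOn.prodMk (ContinuousOn.prodMk (h00.add h11) (h00.sub h11)) ?_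
  exact ContinuousOn.div (continuous_entry323 0 1).continuousOn
    (continuous_entry323 0 0).continuousOn fun g hg => (tri_ne_zero323 hg).1

theorem bP_tri323 (p : (ℝ × ℝ) × ℂ) : ((bP323 p : GL (Fin 2) ℂ) : Matrix (Fin 2) (Fin 2) ℂ) 1 0 = 0 := by
  simp [bP323, coe_bC830]

/-- THE COORDINATES ARE PROPER: the preimage of a compact set is compact. -/
theorem isCompact_preimage_bP323 {C : Set (GL (Fin 2) ℂ)} (hC : IsCompact C) :
    IsCompact (bP323 ⁻¹' C) := by
  have hC' : IsCompact (C ∩ {g : GL (Fin 2) ℂ | (g : Matrix (Fin 2) (Fin 2) ℂ) 1 0 = 0}) :=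
    hC.inter_right isClosed_tri323
  have himg : IsCompact (lP323 '' (C ∩ {g : GL (Fin 2) ℂ | (g : Matrix (Fin 2) (Fin 2) ℂ) 1 0 = 0})) :=
    hC'.image_of_continuousOn (continuousOn_lP323.mono Set.inter_subset_right)
  refine himg.of_isClosed_subset (hC.isClosed.preimage continuous_bP323) fun p hp => ?_
  exact ⟨bP323 p, ⟨hp, bP_tri323 p⟩, lP_bP323 p⟩

theorem hasCompactSupport_comp_bP323 {φ : GL (Fin 2) ℂ → ℂ} (hφ : HasCompactSupport φ) :
    HasCompactSupport fun p : (ℝ × ℝ) × ℂ => φ (bP323 p) := by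
  refine HasCompactSupport.intro (isCompact_preimage_bP323 hφ) fun p hp => ?_
  exact image_eq_zero_of_notMem_tsupport hp

/-! ## 3. The integrand in four variables -/

theorem inU2_inv323 {k : GL (Fin 2) ℂ} (hk : InU2 k) : InU2 k⁻¹ := by
  unfold InU2 at hk ⊢
  have h2 : ((k⁻¹ : GL (Fin 2) ℂ) : Matrix (Fin 2) (Fin 2) ℂ) * (k : Matrix (Fin 2) (Fin 2) ℂ)
      = 1 := by
    rw [← Units.val_mul, inv_mul_cancel, Units.val_one]
  have h1 : ((k⁻¹ : GL (Fin 2) ℂ) : Matrix (Fin 2) (Fin 2) ℂ)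
      = (k : Matrix (Fin 2) (Fin 2) ℂ).conjTranspose := by
    calc ((k⁻¹ : GL (Fin 2) ℂ) : Matrix (Fin 2) (Fin 2) ℂ)
        = ((k⁻¹ : GL (Fin 2) ℂ) : Matrix (Fin 2) (Fin 2) ℂ)
            * ((k : Matrix (Fin 2) (Fin 2) ℂ) * (k : Matrix (Fin 2) (Fin 2) ℂ).conjTranspose) := by
          rw [hk, mul_one]
      _ = (k : Matrix (Fin 2) (Fin 2) ℂ).conjTranspose := by
          rw [← mul_assoc, h2, one_mul]
  rw [h1, Matrix.conjTranspose_conjTranspose]
  exact mul_eq_one_comm.mp hk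

/-- The integrand `φ(b(p)) ψ(b(p)⁻¹ b(v, t))` in the coordinates `(p, t)`. -/
def hFun323 (φ ψ : GL (Fin 2) ℂ → ℂ) (v : ℝ × ℝ) (x : ((ℝ × ℝ) × ℂ) × ℂ) : ℂ :=
  φ (bP323 x.1) *
    ψ (bP323 (v - x.1.1, x.2 - x.1.2 * ((Real.exp (x.1.1.2 - v.2) : ℝ) : ℂ)))

theorem hFun_eq323 (φ ψ : GL (Fin 2) ℂ → ℂ) (v : ℝ × ℝ) (ζ r : ℝ) (w t : ℂ) :
    hFun323 φ ψ v (((ζ, r), w), t) = φ (bC ζ r w) * ψ ((bC ζ r w)⁻¹ * bC v.1 v.2 t) := by
  rw [bC_inv_mul323]
  rfl

theorem continuous_hFun323 {φ ψ : GL (Fin 2) ℂ → ℂ} (hφ : Continuous φ) (hψ : Continuous ψ)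
    (v : ℝ × ℝ) : Continuous (hFun323 φ ψ v) := by
  unfold hFun323
  refine (hφ.comp (continuous_bP323.comp continuous_fst)).mul
    (hψ.comp (continuous_bP323.comp ?_))
  fun_prop

theorem hasCompactSupport_hFun323 {φ ψ : GL (Fin 2) ℂ → ℂ} (hφ : HasCompactSupport φ)
    (hψ : HasCompactSupport ψ) (v : ℝ × ℝ) : HasCompactSupport (hFun323 φ ψ v) := by
  have hK₁ : IsCompact (bP323 ⁻¹' tsupport φ) := isCompact_preimage_bP323 hφ
  have hK₂ : IsCompact (bP323 ⁻¹' tsupport ψ) := isCompact_preimage_bP323 hψ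
  let Ξ : ((ℝ × ℝ) × ℂ) × ((ℝ × ℝ) × ℂ) → ((ℝ × ℝ) × ℂ) × ℂ :=
    fun x => (x.1, x.2.2 + x.1.2 * ((Real.exp (x.1.1.2 - v.2) : ℝ) : ℂ))
  have hΞ : Continuous Ξ := by fun_prop
  have hcomp : IsCompact (Ξ '' ((bP323 ⁻¹' tsupport φ) ×ˢ (bP323 ⁻¹' tsupport ψ))) :=
    (hK₁.prod hK₂).image hΞ
  refine HasCompactSupport.intro hcomp fun x hx => ?_
  by_contra hne
  unfold hFun323 at hne
  have h1 : φ (bP323 x.1) ≠ 0 := left_ne_zero_of_mul hne
  have h2 : ψ (bP323 (v - x.1.1, x.2 - x.1.2 * ((Real.exp (x.1.1.2 - v.2) : ℝ) : ℂ))) ≠ 0 :=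
    right_ne_zero_of_mul hne
  apply hx
  refine ⟨(x.1, (v - x.1.1, x.2 - x.1.2 * ((Real.exp (x.1.1.2 - v.2) : ℝ) : ℂ))),
    ⟨subset_tsupport _ h1, subset_tsupport _ h2⟩, ?_⟩
  refine Prod.ext rfl ?_
  simp [Ξ]

theorem integrable_hFun323 {φ ψ : GL (Fin 2) ℂ → ℂ} (hφ : IsArchTestC φ) (hψ : IsArchTestC ψ)
    (v : ℝ × ℝ) : Integrable (hFun323 φ ψ v) :=
  (continuous_hFun323 hφ.cont hψ.cont v).integrable_of_hasCompactSupport
    (hasCompactSupport_hFun323 hφ.supp hψ.supp v)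

theorem integrable_hFun_slice323 {φ ψ : GL (Fin 2) ℂ → ℂ} (hφ : IsArchTestC φ)
    (hψ : IsArchTestC ψ) (v : ℝ × ℝ) (t : ℂ) :
    Integrable fun p : (ℝ × ℝ) × ℂ => hFun323 φ ψ v (p, t) := by
  have hc : Continuous fun p : (ℝ × ℝ) × ℂ => hFun323 φ ψ v (p, t) :=
    (continuous_hFun323 hφ.cont hψ.cont v).comp (continuous_id.prodMk continuous_const)
  refine hc.integrable_of_hasCompactSupport ?_
  refine HasCompactSupport.intro (isCompact_preimage_bP323 hφ.supp) fun p hp => ?_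
  unfold hFun323
  rw [image_eq_zero_of_notMem_tsupport (f := φ) hp, zero_mul]

/-! ## 4. Fubini -/

theorem integral_triple323 (f : (ℝ × ℝ) × ℂ → ℂ) (hf : Integrable f) :
    ∫ p, f p = ∫ ζ : ℝ, ∫ r : ℝ, ∫ w : ℂ, f ((ζ, r), w) := by
  have h1 : ∫ p, f p = ∫ u : ℝ × ℝ, ∫ w : ℂ, f (u, w) := integral_prod f hf
  have h2 : Integrable (fun u : ℝ × ℝ => ∫ w : ℂ, f (u, w)) := hf.integral_prod_left
  rw [h1]
  exact integral_prod _ h2

/-! ## 5. The leaf -/

/-- **LEAF X.2 `AbelConvCC680`.** -/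
theorem abelConvCC323 : AbelConvCC680 := by
  intro μ' hμ'
  obtain ⟨c, hc, hI⟩ := iwasawaIntCC830 μ' hμ'
  refine ⟨c, hc, fun φ ψ hφ hψ v => ?_⟩
  -- Step A: the Iwasawa formula for `y ↦ φ(y) ψ(y⁻¹ z)`
  have hA : ∀ z : GL (Fin 2) ℂ, convC680 μ' φ ψ z
      = (c : ℂ) * ∫ ζ : ℝ, ∫ r : ℝ, ∫ w : ℂ, φ (bC ζ r w) * ψ ((bC ζ r w)⁻¹ * z) := by
    intro z
    have hcont : Continuous fun y : GL (Fin 2) ℂ => φ y * ψ (y⁻¹ * z) :=
      hφ.cont.mul (hψ.cont.comp (continuous_inv.mul continuous_const))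
    have hsupp : HasCompactSupport fun y : GL (Fin 2) ℂ => φ y * ψ (y⁻¹ * z) :=
      hφ.supp.mul_right
    have hinv : ∀ k g : GL (Fin 2) ℂ, InU2 k →
        (fun y : GL (Fin 2) ℂ => φ y * ψ (y⁻¹ * z)) (g * k)
          = (fun y : GL (Fin 2) ℂ => φ y * ψ (y⁻¹ * z)) g := by
      intro k g hk
      have e : (g * k)⁻¹ * z = k⁻¹ * (g⁻¹ * z) := by rw [mul_inv_rev, mul_assoc]
      simp only [e, hφ.right k g hk, hψ.left k⁻¹ (g⁻¹ * z) (inU2_inv323 hk)]
    exact hI _ hcont hsupp hinv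
  -- Step B: in the coordinates
  have hB : ∀ t : ℂ, convC680 μ' φ ψ (bC v.1 v.2 t)
      = (c : ℂ) * ∫ p : (ℝ × ℝ) × ℂ, hFun323 φ ψ v (p, t) := by
    intro t
    rw [hA, integral_triple323 _ (integrable_hFun_slice323 hφ hψ v t)]
    simp only [hFun_eq323]
  -- Step C: the right-hand side
  have hR : ∀ u : ℝ × ℝ, nIntC680 φ u * nIntC680 ψ (v - u)
      = ∫ w : ℂ, ∫ t : ℂ, hFun323 φ ψ v ((u, w), t) := by
    intro u
    have h1 : ∀ w : ℂ, ∫ t : ℂ, hFun323 φ ψ v ((u, w), t)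
        = φ (bC u.1 u.2 w) * nIntC680 ψ (v - u) := by
      intro w
      have h0 : ∀ t : ℂ, hFun323 φ ψ v ((u, w), t)
          = φ (bC u.1 u.2 w) *
            ψ (bP323 (v - u, t - w * ((Real.exp (u.2 - v.2) : ℝ) : ℂ))) := fun t => rfl
      simp only [h0]
      rw [integral_const_mul]
      congr 1
      exact integral_sub_right_eq_self
        (fun t : ℂ => ψ (bP323 (v - u, t))) (w * ((Real.exp (u.2 - v.2) : ℝ) : ℂ))
    simp only [h1]
    rw [integral_mul_const]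
    rfl
  have hQ : Integrable fun p : (ℝ × ℝ) × ℂ => ∫ t : ℂ, hFun323 φ ψ v (p, t) :=
    (integrable_hFun323 hφ hψ v).integral_prod_left
  calc nIntC680 (convC680 μ' φ ψ) v
      = ∫ t : ℂ, (c : ℂ) * ∫ p : (ℝ × ℝ) × ℂ, hFun323 φ ψ v (p, t) := by
        unfold nIntC680
        simp only [hB]
    _ = (c : ℂ) * ∫ t : ℂ, ∫ p : (ℝ × ℝ) × ℂ, hFun323 φ ψ v (p, t) := integral_const_mul _ _
    _ = (c : ℂ) * ∫ p : (ℝ × ℝ) × ℂ, ∫ t : ℂ, hFun323 φ ψ v (p, t) := by
        congr 1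
        refine (integral_integral_swap (f := fun (p : (ℝ × ℝ) × ℂ) (t : ℂ) =>
          hFun323 φ ψ v (p, t)) ?_).symm
        exact integrable_hFun323 hφ hψ v
    _ = (c : ℂ) * ∫ u : ℝ × ℝ, ∫ w : ℂ, ∫ t : ℂ, hFun323 φ ψ v ((u, w), t) := by
        congr 1
        exact integral_prod _ hQ
    _ = (c : ℂ) * ∫ u : ℝ × ℝ, nIntC680 φ u * nIntC680 ψ (v - u) := by
        simp only [hR]

end Fermat.Agent.LT.T6.H323

end

end
-- ===== PACK-END LT/T6/H323/AbelConvC.lean

-- ===== PACK-BEGIN LT/T7/H756/IwShape.lean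
section




/-!
# The shape of the elements of `I diag(ϖ^m, 1) I` (helper756, OFF-MAIN)

Local algebra of `2 × 2` matrices over a valued field (value group `ℤᵐ⁰`); Mathlib + the local
kit of helper340 / helper129.

`IsSh756 v m M`: `M` integral, `v (det M) = exp (-m)`, `v (M 1 0) < 1`, `v (M 1 1) = 1`.
This is the double coset `I diag(c, 1) I`, `v c = exp (-m)` (`isSh_iff_dbl756`), `I` the Iwahori
subgroup (`IsSh756 v 0`, `isIwG_iff_sh756`).

* `isSh_mul756` : `Sh(m₁) Sh(m₂) ⊆ Sh(m₁ + m₂)`;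
* `exists_factor_sh756` : `Sh(m + 1) ⊆ [[π, r], [0, 1]] Sh(m)`, `r` integral;
* `val_res_of_factor756` : if `M y = M' y'` with `M, M'` of the shape of `I diag(ϖ, 1) I` and
  `y, y'` of the shape `Sh(m)` then `M`, `M'` have the same residue invariant.
-/

set_option autoImplicit false

noncomputable section

namespace Fermat.Agent.LT.T7.H756

open Fermat.Agent.LT.T7.H340 Fermat.Agent.LT.H129

variable {F : Type*} [Field F] (v : Valuation F (WithZero (Multiplicative ℤ)))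

/-- The shape of the elements of `I diag(ϖ^m, 1) I`. -/
def IsSh756 (m : ℕ) (M : Matrix (Fin 2) (Fin 2) F) : Prop :=
  (∀ i j, v (M i j) ≤ 1) ∧ v M.det = WithZero.exp (-(m : ℤ)) ∧ v (M 1 0) < 1 ∧ v (M 1 1) = 1

variable {v}

theorem isSh_mul756 {m₁ m₂ : ℕ} {M N : Matrix (Fin 2) (Fin 2) F} (hM : IsSh756 v m₁ M)
    (hN : IsSh756 v m₂ N) : IsSh756 v (m₁ + m₂) (M * N) := by
  obtain ⟨hMi, hMd, hM10, hM11⟩ := hM
  obtain ⟨hNi, hNd, hN10, hN11⟩ := hN
  refine ⟨fun i j => ?_, ?_, ?_, ?_⟩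
  · rw [Matrix.mul_apply, Fin.sum_univ_two]
    refine le_trans (Valuation.map_add _ _ _) (max_le ?_ ?_)
    · rw [map_mul]; exact mul_le_one' (hMi i 0) (hNi 0 j)
    · rw [map_mul]; exact mul_le_one' (hMi i 1) (hNi 1 j)
  · rw [Matrix.det_mul, map_mul, hMd, hNd, ← WithZero.exp_add]
    congr 1
    push_cast
    ring
  · rw [Matrix.mul_apply, Fin.sum_univ_two]
    exact lt_of_le_of_lt (Valuation.map_add _ _ _)
      (max_lt (val_mul_lt340 hM10 (hNi 0 0)) (val_mul_lt340' (hMi 1 1) hN10))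
  · rw [Matrix.mul_apply, Fin.sum_univ_two]
    have h1 : v (M 1 0 * N 0 1) < 1 := val_mul_lt340 hM10 (hNi 0 1)
    have h2 : v (M 1 1 * N 1 1) = 1 := by rw [map_mul, hM11, hN11, one_mul]
    rw [Valuation.map_add_eq_of_lt_right _ (by rw [h2]; exact h1), h2]

theorem isSh_zero_mul756 {m : ℕ} {M N : Matrix (Fin 2) (Fin 2) F} (hM : IsSh756 v 0 M)
    (hN : IsSh756 v m N) : IsSh756 v m (M * N) := by
  have := isSh_mul756 hM hN
  rwa [zero_add] at this

theorem isSh_mul_zero756 {m : ℕ} {M N : Matrix (Fin 2) (Fin 2) F} (hM : IsSh756 v m M)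
    (hN : IsSh756 v 0 N) : IsSh756 v m (M * N) := by
  have := isSh_mul756 hM hN
  rwa [add_zero] at this

/-- The shape of `diag(c, 1)`. -/
theorem isSh_diag756 {m : ℕ} {c : F} (hc : v c = WithZero.exp (-(m : ℤ))) :
    IsSh756 v m !![c, 0; 0, 1] := by
  have hc1 : v c ≤ 1 := by
    rw [hc, ← WithZero.exp_zero, WithZero.exp_le_exp]
    omega
  refine ⟨fun i j => ?_, ?_, ?_, ?_⟩
  · fin_cases i <;> fin_cases j <;> simp [hc1]
  · rw [Matrix.det_fin_two_of]
    simpa using hc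
  · simp
  · simp

/-- The Iwahori subgroup is the shape of depth `0`. -/
theorem isSh_of_isIwG756 {M : GL (Fin 2) F} (h : IsIwG340 v M) :
    IsSh756 v 0 (M : Matrix (Fin 2) (Fin 2) F) := by
  refine ⟨h.1, ?_, h.2.2, h.val_11⟩
  rw [h.val_det]
  simp

theorem isIwG_of_isSh756 {M : GL (Fin 2) F} (h : IsSh756 v 0 (M : Matrix (Fin 2) (Fin 2) F)) :
    IsIwG340 v M := by
  obtain ⟨hi, hd, h10, h11⟩ := h
  have hd1 : v (M : Matrix (Fin 2) (Fin 2) F).det = 1 := by
    rw [hd]; simp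
  refine ⟨hi, fun i j => ?_, h10⟩
  have e : ((M⁻¹ : GL (Fin 2) F) : Matrix (Fin 2) (Fin 2) F) i j
      = (Matrix.adjugate (M : Matrix (Fin 2) (Fin 2) F)) i j
        / (M : Matrix (Fin 2) (Fin 2) F).det := by
    rw [Matrix.coe_units_inv, Matrix.inv_def, Matrix.smul_apply, smul_eq_mul,
      Ring.inverse_eq_inv', div_eq_inv_mul]
  rw [e, map_div₀, hd1, div_one, Matrix.adjugate_fin_two]
  fin_cases i <;> fin_cases j <;> simp [hi]

theorem isIwG_iff_sh756 (M : GL (Fin 2) F) :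
    IsIwG340 v M ↔ IsSh756 v 0 (M : Matrix (Fin 2) (Fin 2) F) :=
  ⟨isSh_of_isIwG756, isIwG_of_isSh756⟩

/-- The shape of the elements of `I diag(ϖ, 1) I` of helper340 is the shape of depth `1`. -/
theorem isSh_of_isIwT756 {M : GL (Fin 2) F} (h : IsIwT340 v M) :
    IsSh756 v 1 (M : Matrix (Fin 2) (Fin 2) F) :=
  ⟨h.1, by rw [h.2.1]; rfl, h.2.2.2.1, h.2.2.2.2⟩

/-- **Factorisation**: an element of the shape of depth `m + 1` is `[[π, r], [0, 1]] y` with
`r` integral and `y` of the shape of depth `m`. -/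
theorem exists_factor_sh756 {m : ℕ} {π : F} (hπ : v π = WithZero.exp (-1 : ℤ))
    {x : Matrix (Fin 2) (Fin 2) F} (hx : IsSh756 v (m + 1) x) :
    ∃ (r : F) (y : Matrix (Fin 2) (Fin 2) F), v r ≤ 1 ∧ IsSh756 v m y ∧
      x = !![π, r; 0, 1] * y := by
  obtain ⟨hi, hd, h10, h11⟩ := hx
  have hπ0 : π ≠ 0 := by
    intro h; rw [h, map_zero] at hπ; exact WithZero.exp_ne_zero.symm hπ
  have hu0 : x 1 1 ≠ 0 := by
    intro h; rw [h, map_zero] at h11; exact zero_ne_one h11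
  have hdv : v (x.det / (x 1 1 * π)) = WithZero.exp (-(m : ℤ)) := by
    rw [map_div₀, map_mul, hd, h11, one_mul, hπ, ← WithZero.exp_sub]
    congr 1
    push_cast
    ring
  have hdv1 : v (x.det / (x 1 1 * π)) ≤ 1 := by
    rw [hdv, ← WithZero.exp_zero, WithZero.exp_le_exp]
    omega
  refine ⟨x 0 1 / x 1 1, !![x.det / (x 1 1 * π), 0; x 1 0, x 1 1], ?_, ⟨?_, ?_, ?_, ?_⟩, ?_⟩
  · rw [map_div₀, h11, div_one]; exact hi 0 1
  · intro i j
    fin_cases i <;> fin_cases j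
    · exact hdv1
    · simp
    · exact hi 1 0
    · exact hi 1 1
  · rw [Matrix.det_fin_two_of, zero_mul, sub_zero]
    have e : x.det / (x 1 1 * π) * x 1 1 = x.det / π := by
      field_simp
    rw [e, map_div₀, hd, hπ, ← WithZero.exp_sub]
    congr 1
    push_cast
    ring
  · simpa using h10
  · simpa using h11
  · rw [Matrix.det_fin_two]
    ext i j
    fin_cases i <;> fin_cases j <;> simp [Matrix.mul_apply, Fin.sum_univ_two] <;> field_simp <;>
      ring

/-- **Uniqueness**: the residue invariant of the first factor is determined. -/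
theorem val_res_of_factor756 {m : ℕ} {M M' : GL (Fin 2) F} (hM : IsIwT340 v M)
    (hM' : IsIwT340 v M') {y y' : Matrix (Fin 2) (Fin 2) F} (hy : IsSh756 v m y)
    (hy' : IsSh756 v m y')
    (h : (M : Matrix (Fin 2) (Fin 2) F) * y = (M' : Matrix (Fin 2) (Fin 2) F) * y') :
    v ((M : Matrix (Fin 2) (Fin 2) F) 0 1 * (M' : Matrix (Fin 2) (Fin 2) F) 1 1
      - (M' : Matrix (Fin 2) (Fin 2) F) 0 1 * (M : Matrix (Fin 2) (Fin 2) F) 1 1) < 1 := by
  obtain ⟨hint, -, h00, h10, -⟩ := hM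
  obtain ⟨hint', -, h00', h10', -⟩ := hM'
  obtain ⟨hyi, -, -, hy11⟩ := hy
  obtain ⟨hyi', -, -, hy11'⟩ := hy'
  have E1 := congrFun (congrFun h 0) 1
  have E2 := congrFun (congrFun h 1) 1
  rw [Matrix.mul_apply, Matrix.mul_apply, Fin.sum_univ_two, Fin.sum_univ_two] at E1 E2
  set A := (M : Matrix (Fin 2) (Fin 2) F) with hA
  set B := (M' : Matrix (Fin 2) (Fin 2) F) with hB
  have key : (A 0 1 * B 1 1 - B 0 1 * A 1 1) * (y 1 1 * y' 1 1)
      = A 0 1 * y 1 1 * (A 1 0 * y 0 1 - B 1 0 * y' 0 1)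
        - (A 0 0 * y 0 1 - B 0 0 * y' 0 1) * (A 1 1 * y 1 1) := by
    linear_combination (A 1 1 * y 1 1) * E1 - (A 0 1 * y 1 1) * E2
  have hv : v ((A 0 1 * B 1 1 - B 0 1 * A 1 1) * (y 1 1 * y' 1 1))
      = v (A 0 1 * B 1 1 - B 0 1 * A 1 1) := by
    rw [map_mul, map_mul, hy11, hy11', mul_one, mul_one]
  rw [← hv, key]
  have t1 : v (A 1 0 * y 0 1 - B 1 0 * y' 0 1) < 1 :=
    lt_of_le_of_lt (Valuation.map_sub _ _ _)
      (max_lt (val_mul_lt340 h10 (hyi 0 1)) (val_mul_lt340 h10' (hyi' 0 1)))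
  have t2 : v (A 0 0 * y 0 1 - B 0 0 * y' 0 1) < 1 :=
    lt_of_le_of_lt (Valuation.map_sub _ _ _)
      (max_lt (val_mul_lt340 h00 (hyi 0 1)) (val_mul_lt340 h00' (hyi' 0 1)))
  have s1 : v (A 0 1 * y 1 1) ≤ 1 := by
    rw [map_mul]; exact mul_le_one' (hint 0 1) (hyi 1 1)
  have s2 : v (A 1 1 * y 1 1) ≤ 1 := by
    rw [map_mul]; exact mul_le_one' (hint 1 1) (hyi 1 1)
  exact lt_of_le_of_lt (Valuation.map_sub _ _ _)
    (max_lt (val_mul_lt340' s1 t1) (val_mul_lt340 t2 s2))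

theorem isIwG340_upper_756 {r : F} (hr : v r ≤ 1) : IsIwG340 v (upperU129 r) := by
  apply isIwG_of_isSh756
  simp only [upperU129, coe_mkGL129]
  refine ⟨fun i j => ?_, ?_, ?_, ?_⟩
  · fin_cases i <;> fin_cases j <;> simp [hr]
  · rw [Matrix.det_fin_two_of]
    simp
  · simp
  · simp

/-- **The double coset**: the shape of depth `m` is `I diag(c, 1) I`, `v c = exp (-m)`. -/
theorem isSh_iff_dbl756 (m : ℕ) (x : Matrix (Fin 2) (Fin 2) F) :
    IsSh756 v m x ↔ ∃ (a b : GL (Fin 2) F) (c : F), IsIwG340 v a ∧ IsIwG340 v b ∧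
      v c = WithZero.exp (-(m : ℤ)) ∧
      x = (a : Matrix (Fin 2) (Fin 2) F) * !![c, 0; 0, 1] * (b : Matrix (Fin 2) (Fin 2) F) := by
  constructor
  · rintro ⟨hi, hd, h10, h11⟩
    have hu0 : x 1 1 ≠ 0 := by
      intro h; rw [h, map_zero] at h11; exact zero_ne_one h11
    have hr : v (x 0 1 / x 1 1) ≤ 1 := by
      rw [map_div₀, h11, div_one]; exact hi 0 1
    have hb : IsSh756 v 0 ((mkGL129 1 0 (x 1 0) (x 1 1) (by simpa using hu0) : GL (Fin 2) F) :
        Matrix (Fin 2) (Fin 2) F) := by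
      rw [coe_mkGL129]
      refine ⟨fun i j => ?_, ?_, ?_, ?_⟩
      · fin_cases i <;> fin_cases j <;> simp [hi 1 0, hi 1 1]
      · rw [Matrix.det_fin_two_of]
        simpa using h11
      · simpa using h10
      · simpa using h11
    refine ⟨upperU129 (x 0 1 / x 1 1), mkGL129 1 0 (x 1 0) (x 1 1) (by simpa using hu0),
      x.det / x 1 1, isIwG340_upper_756 hr, isIwG_of_isSh756 hb, ?_, ?_⟩
    · rw [map_div₀, hd, h11, div_one]
    · rw [Matrix.det_fin_two]
      simp only [upperU129, coe_mkGL129]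
      ext i j
      fin_cases i <;> fin_cases j <;> simp [Matrix.mul_apply, Fin.sum_univ_two] <;>
        field_simp <;> ring
  · rintro ⟨a, b, c, ha, hb, hc, rfl⟩
    exact isSh_mul_zero756 (isSh_zero_mul756 (isSh_of_isIwG756 ha) (isSh_diag756 hc))
      (isSh_of_isIwG756 hb)

end Fermat.Agent.LT.T7.H756

end

end
-- ===== PACK-END LT/T7/H756/IwShape.lean

-- ===== PACK-BEGIN LT/T3/R/H857/PureUpperR.lean
section



/-!
# Row LT, tower T3, station T3.18R, leaf R.5 `PureUpperRC` (helper857, OFF-MAIN)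

`pureUpperRC857 (K) : R.PureUpperRC K` = the frozen Prop of `LT/T3/R/Spec.lean`
(helper14@15de5f60f, sha256 a528b35a), VERBATIM, unconditional (registry row 2302).

The proof of the model M.5 (`pureUpperMC474`, helper474; `pureUpperC846`, helper846) with the
components at the real places in `GL₂(ℝ)`: `reGL` is multiplicative and maps `upperGL` to
`upperGL` (`reGL_upperGL857`); the component at a real place of an element of `K⁰` lies in
`SO(2)` (`inSO2_reGL857`); `F w` is of weight `n w` on both sides, which gives the type factor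
`(typeR k₁)⁻¹ (typeR k')⁻¹`.
-/

set_option autoImplicit false
set_option linter.style.haveILetI false
set_option linter.unusedSectionVars false

open IsDedekindDomain NumberField MeasureTheory
open Fermat.Agent.LT.H556.A0
open Fermat.Agent.LT.T3.AS Fermat.Agent.LT.T3.AS.N893 Fermat.Agent.LT.T3.AS.N893.H846
open Fermat.Agent.LT.T3.M

noncomputable section

namespace Fermat.Agent.LT.T3.R.H857

variable (K : Type) [Field K] [NumberField K]

/-- `reGL` maps `upperGL` to `upperGL`. -/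
theorem reGL_upperGL857 (w : InfinitePlace K) (hw : w.IsReal) (c₁ c₂ : (Adl K)ˣ) (X : Adl K) :
    reGL K w hw (upperGL c₁ c₂ X)
      = upperGL (reU K w hw c₁) (reU K w hw c₂) (reHom K w hw X) := by
  apply Units.ext
  ext i j
  fin_cases i <;> fin_cases j <;>
    simp [reGL, upperGL, reU, Matrix.GeneralLinearGroup.map]

/-- The complex component at a real place is the real component. -/
theorem infComp_eq_map857 (w : InfinitePlace K) (hw : w.IsReal) (g : G K) :
    infComp w g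
      = ((reGL K w hw g : GL (Fin 2) ℝ) : Matrix (Fin 2) (Fin 2) ℝ).map Complex.ofRealHom := by
  ext i j
  exact infComp_eq_reGL K w hw g i j

/-- The component at a real place of an element of `K⁰` lies in `SO(2)`. -/
theorem inSO2_reGL857 (w : InfinitePlace K) (hw : w.IsReal) (k : G K)
    (hk : T1.IsStdCompact K k) : T6.InSO2 (reGL K w hw k) := by
  obtain ⟨hu, hd⟩ := hk.2 w
  rw [infComp_eq_map857 K w hw k] at hu
  have hd' := hd hw
  rw [infComp_eq_map857 K w hw k] at hd'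
  set M : Matrix (Fin 2) (Fin 2) ℝ := ((reGL K w hw k : GL (Fin 2) ℝ) : Matrix (Fin 2) (Fin 2) ℝ)
    with hM
  have hinj : Function.Injective
      (fun A : Matrix (Fin 2) (Fin 2) ℝ => A.map Complex.ofRealHom) := by
    intro A B hAB
    ext i j
    have := congrFun (congrFun hAB i) j
    exact Complex.ofReal_injective this
  constructor
  · apply hinj
    show (M * M.transpose).map Complex.ofRealHom = (1 : Matrix (Fin 2) (Fin 2) ℝ).map _
    have e1 : (M.map Complex.ofRealHom).conjTranspose = M.transpose.map Complex.ofRealHom := by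
      ext i j
      simp [Matrix.conjTranspose_apply, Matrix.map_apply, Matrix.transpose_apply]
    rw [Matrix.map_mul, ← e1, hu]
    ext i j
    by_cases hij : i = j
    · subst hij
      simp
    · simp [Matrix.one_apply_ne hij]
  · have e2 : (M.map Complex.ofRealHom).det = ((M.det : ℝ) : ℂ) := by
      rw [Matrix.det_fin_two, Matrix.det_fin_two]
      simp [Matrix.map_apply]
    rw [e2] at hd'
    exact_mod_cast hd'

/-- **R.5 = N.2 real (the pure tensor on `K⁰ B K⁰`).** -/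
theorem pureUpperRC857 : R.PureUpperRC K := by
  intro hR 𝔫 P n f₀ F hf₀ hF k₁ k' hk₁ hk' c₁ c₂ X
  have h0 : ∀ v ∈ P, f₀ v (finGL K v (k₁ * upperGL c₁ c₂ X * k'))
      = f₀ v (upperGL (finU K v c₁) (finU K v c₂) (finHom K v X)) := by
    intro v hv
    rw [map_mul, map_mul, finGL_upperGL846]
    exact hf₀ v hv _ _ _ (isIntGL_finGL846 K v k₁ hk₁) (isIntGL_finGL846 K v k' hk')
  have hw : ∀ w : InfinitePlace K, F w (reGL K w (hR w) (k₁ * upperGL c₁ c₂ X * k'))
      = (T6.wtChar (n w) (reGL K w (hR w) k₁))⁻¹ * (T6.wtChar (n w) (reGL K w (hR w) k'))⁻¹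
        * F w (upperGL (reU K w (hR w) c₁) (reU K w (hR w) c₂) (reHom K w (hR w) X)) := by
    intro w
    rw [map_mul, map_mul, reGL_upperGL857,
      (hF w).right _ _ (inSO2_reGL857 K w (hR w) k' hk'),
      (hF w).left _ _ (inSO2_reGL857 K w (hR w) k₁ hk₁)]
    ring
  have hprod : ∏ w : InfinitePlace K, F w (reGL K w (hR w) (k₁ * upperGL c₁ c₂ X * k'))
      = ((typeR K hR n k₁)⁻¹ * (typeR K hR n k')⁻¹)
        * ∏ w : InfinitePlace K,
            F w (upperGL (reU K w (hR w) c₁) (reU K w (hR w) c₂) (reHom K w (hR w) X)) := by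
    rw [Finset.prod_congr rfl (fun w _ => hw w), Finset.prod_mul_distrib,
      Finset.prod_mul_distrib, Finset.prod_inv_distrib, Finset.prod_inv_distrib]
    rfl
  unfold R.pureFnR
  by_cases h : OutsideUM K 𝔫 P (k₁ * upperGL c₁ c₂ X * k')
  · rw [if_pos h, if_pos h, one_mul, Finset.prod_congr rfl h0, hprod]
    ring
  · rw [if_neg h, if_neg h, zero_mul, zero_mul, zero_mul]

example : R.PureUpperRC K := pureUpperRC857 K

end Fermat.Agent.LT.T3.R.H857

end

end
-- ===== PACK-END LT/T3/R/H857/PureUpperR.lean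

-- ===== PACK-BEGIN LT/T3/R/H129/SplitR.lean
section



/-!
# Row LT, tower T3, station T3.18R, leaf R.6 `R.SplitRC` (helper129, registry row 2303) -- OFF-MAIN

`splitRC129 K : R.SplitRC K`, VERBATIM the Prop of `LT/T3/R/Spec.lean` (helper14, sha256
`a528b35aabb14cdc`), UNCONDITIONAL.

The closed multi-place proof `M.H719.splitMC719` (helper719, on the single-place proof
`H129.splitC129`) with the real components `reHom K w (hR w) : 𝔸_K → ℝ` in place of the complex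
ones:

* `E₀ = outGrpM K 𝔫 P` is an open (and closed) additive subgroup of `𝔸_K` (lemmas of helper719,
  used as they are: they do not mention the infinite places);
* `p = projR129 : 𝔸_K → (∀ v : P, K_v) × (S_∞ → ℝ)` is continuous, additive and maps `E₀` ONTO
  the target (`surjective_extensionEmbeddingOfIsReal`);
* `E₀ ∩ p⁻¹ (∏_{v ∈ P} 𝒪_v × unit ball)` lies in the compact box `T1.H919.box919 K 1`
  (`‖infHom K w X‖ = ‖reHom K w hw X‖`);
* hence `p_* (ν|_{E₀})` is a Haar measure, and `prodHaarR129` (Mathlib only: a Haar measure of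
  `(∀ i, A i) × (ι → ℝ)` integrates the pure tensors to the product of the integrals, up to a
  constant) applies.
-/

set_option autoImplicit false
set_option linter.style.haveILetI false

open IsDedekindDomain NumberField MeasureTheory
open Fermat.Agent.LT.H556.A0 Fermat.Agent.LT.T3.AS Fermat.Agent.LT.T3.AS.N893
open Fermat.Agent.LT.T3.M Fermat.Agent.LT.T3.M.H719

noncomputable section

namespace Fermat.Agent.LT.T3.R.H129

/-! ## The generic part (Mathlib only) -/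

/-- A pure tensor of functions with compact support has compact support (real factors). -/
theorem hasCompactSupport_tensorR129 {ι₁ ι : Type} [Fintype ι₁] [Fintype ι] {A : ι₁ → Type}
    [∀ i, TopologicalSpace (A i)] [∀ i, T2Space (A i)]
    {φ₀ : ∀ i, A i → ℂ} {φ : ι → ℝ → ℂ} (h₀ : ∀ i, HasCompactSupport (φ₀ i))
    (h : ∀ w, HasCompactSupport (φ w)) :
    HasCompactSupport (fun p : (∀ i, A i) × (ι → ℝ) =>
      (∏ i, φ₀ i (p.1 i)) * ∏ w : ι, φ w (p.2 w)) := by
  have hK : IsCompact ((Set.pi Set.univ fun i => tsupport (φ₀ i)) ×ˢ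
      (Set.pi Set.univ fun w => tsupport (φ w))) :=
    (isCompact_univ_pi fun i => h₀ i).prod (isCompact_univ_pi fun w => h w)
  refine HasCompactSupport.intro hK fun p hp => ?_
  by_contra hne
  apply hp
  have h1 : ∏ i, φ₀ i (p.1 i) ≠ 0 := fun h0 => hne (by rw [h0, zero_mul])
  have h2 : ∏ w : ι, φ w (p.2 w) ≠ 0 := fun h0 => hne (by rw [h0, mul_zero])
  refine ⟨fun i _ => subset_tsupport _ ?_, fun w _ => subset_tsupport _ ?_⟩
  · exact (Finset.prod_ne_zero_iff.mp h1) i (Finset.mem_univ i)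
  · exact (Finset.prod_ne_zero_iff.mp h2) w (Finset.mem_univ w)

/-- **Multi-factor `ProdHaar`, real factors at infinity.** -/
theorem prodHaarR129 {ι₁ : Type} [Fintype ι₁] (A : ι₁ → Type) [∀ i, AddCommGroup (A i)]
    [∀ i, TopologicalSpace (A i)] [∀ i, IsTopologicalAddGroup (A i)]
    [∀ i, LocallyCompactSpace (A i)] [∀ i, T2Space (A i)]
    [∀ i, SecondCountableTopology (A i)] [∀ i, MeasurableSpace (A i)] [∀ i, BorelSpace (A i)]
    (ι : Type) [Fintype ι]
    (μ : Measure ((∀ i, A i) × (ι → ℝ))) (hμ : μ.IsAddHaarMeasure) :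
    ∃ c₀ : ℂ, ∀ (φ₀ : ∀ i, A i → ℂ) (φ : ι → ℝ → ℂ),
      (∀ i, Continuous (φ₀ i)) → (∀ i, HasCompactSupport (φ₀ i)) →
      (∀ w, Continuous (φ w)) → (∀ w, HasCompactSupport (φ w)) →
      Integrable (fun h : (∀ i, A i) × (ι → ℝ) =>
        (∏ i, φ₀ i (h.1 i)) * ∏ w : ι, φ w (h.2 w)) μ ∧
      ∫ h, (∏ i, φ₀ i (h.1 i)) * ∏ w : ι, φ w (h.2 w) ∂μ
        = c₀ * (∏ i, ∫ x, φ₀ i x ∂(Measure.addHaar : Measure (A i)))
          * ∏ w : ι, ∫ z : ℝ, φ w z := by
  set π₀ : Measure (∀ i, A i) := Measure.pi (fun i => (Measure.addHaar : Measure (A i)))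
    with hπ₀
  have hπ₀' : π₀.IsAddHaarMeasure := by rw [hπ₀]; infer_instance
  set m : Measure ((∀ i, A i) × (ι → ℝ)) := π₀.prod (volume : Measure (ι → ℝ)) with hm
  have hm' : m.IsAddHaarMeasure := Measure.prod.instIsAddHaarMeasure _ _
  have hμm : μ = Measure.addHaarScalarFactor μ m • m := Measure.isAddLeftInvariant_eq_smul μ m
  refine ⟨((Measure.addHaarScalarFactor μ m : NNReal) : ℝ), fun φ₀ φ hc₀ hs₀ hc hs => ?_⟩
  have hcont : Continuous (fun p : (∀ i, A i) × (ι → ℝ) =>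
      (∏ i, φ₀ i (p.1 i)) * ∏ w : ι, φ w (p.2 w)) :=
    (continuous_finsetProd _ fun i _ =>
        (hc₀ i).comp ((continuous_apply i).comp continuous_fst)).mul
      (continuous_finsetProd _ fun w _ => (hc w).comp ((continuous_apply w).comp continuous_snd))
  have hsupp := hasCompactSupport_tensorR129 hs₀ hs
  refine ⟨hcont.integrable_of_hasCompactSupport hsupp, ?_⟩
  have h1 : ∫ p, (∏ i, φ₀ i (p.1 i)) * ∏ w : ι, φ w (p.2 w) ∂μ
      = ((Measure.addHaarScalarFactor μ m : NNReal) : ℝ)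
        • ∫ p, (∏ i, φ₀ i (p.1 i)) * ∏ w : ι, φ w (p.2 w) ∂m := by
    conv_lhs => rw [hμm]
    rw [integral_smul_nnreal_measure]
    rfl
  have h2 : ∫ p, (∏ i, φ₀ i (p.1 i)) * ∏ w : ι, φ w (p.2 w) ∂m
      = (∫ x : (∀ i, A i), ∏ i, φ₀ i (x i) ∂π₀) * ∫ y : ι → ℝ, ∏ w : ι, φ w (y w) :=
    integral_prod_mul (fun x : (∀ i, A i) => ∏ i, φ₀ i (x i))
      (fun y : ι → ℝ => ∏ w : ι, φ w (y w))
  have h3 : ∫ y : ι → ℝ, ∏ w : ι, φ w (y w) = ∏ w : ι, ∫ z : ℝ, φ w z :=
    integral_fintype_prod_volume_eq_prod φ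
  have h4 : ∫ x : (∀ i, A i), ∏ i, φ₀ i (x i) ∂π₀
      = ∏ i, ∫ x, φ₀ i x ∂(Measure.addHaar : Measure (A i)) :=
    integral_fintype_prod_eq_prod φ₀
  rw [h1, h2, h3, h4, Complex.real_smul, mul_assoc]

variable (K : Type) [Field K] [NumberField K]

/-! ## The real components -/

theorem continuous_reHom129 (w : InfinitePlace K) (hw : w.IsReal) :
    Continuous (reHom K w hw) :=
  (InfinitePlace.Completion.isometry_extensionEmbeddingOfIsReal hw).continuous.comp
    ((continuous_apply w).comp continuous_fst)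

theorem norm_infHom_eq129 (w : InfinitePlace K) (hw : w.IsReal) (X : Adl K) :
    ‖infHom K w X‖ = ‖reHom K w hw X‖ := by
  rw [infHom_eq_reHom K w hw X, Complex.norm_real]

/-- The projection `X ↦ ((X_v)_{v ∈ P}, (X_w)_w)`, real components at infinity. -/
def projR129 (hR : ∀ w : InfinitePlace K, w.IsReal) (P : Finset (HeightOneSpectrum (𝓞 K)))
    (X : Adl K) :
    (∀ v : P, (v : HeightOneSpectrum (𝓞 K)).adicCompletion K) × (InfinitePlace K → ℝ) :=
  (fun v => finHom K v X, fun w => reHom K w (hR w) X)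

theorem continuous_projR129 (hR : ∀ w : InfinitePlace K, w.IsReal)
    (P : Finset (HeightOneSpectrum (𝓞 K))) : Continuous (projR129 K hR P) := by
  unfold projR129
  exact (continuous_pi fun v : P =>
      Fermat.Agent.LT.T3.H904.continuous_finHom904 K (v : HeightOneSpectrum (𝓞 K))).prodMk
    (continuous_pi fun w => continuous_reHom129 K w (hR w))

theorem projR_add129 (hR : ∀ w : InfinitePlace K, w.IsReal)
    (P : Finset (HeightOneSpectrum (𝓞 K))) (X Y : Adl K) :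
    projR129 K hR P (X + Y) = projR129 K hR P X + projR129 K hR P Y :=
  Prod.ext (funext fun v => map_add (finHom K v) X Y)
    (funext fun w => map_add (reHom K w (hR w)) X Y)

theorem projR_zero129 (hR : ∀ w : InfinitePlace K, w.IsReal)
    (P : Finset (HeightOneSpectrum (𝓞 K))) : projR129 K hR P 0 = 0 :=
  Prod.ext (funext fun v => map_zero (finHom K v)) (funext fun w => map_zero (reHom K w (hR w)))

/-! ## The section -/

/-- Every element of the target is the projection of an element of `E₀`. -/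
theorem exists_sectionR129 (hR : ∀ w : InfinitePlace K, w.IsReal) (𝔫 : Ideal (𝓞 K))
    (P : Finset (HeightOneSpectrum (𝓞 K)))
    (h : (∀ v : P, (v : HeightOneSpectrum (𝓞 K)).adicCompletion K) × (InfinitePlace K → ℝ)) :
    ∃ X : Adl K, X ∈ outGrpM K 𝔫 P ∧ projR129 K hR P X = h := by
  choose y hy using fun w : InfinitePlace K =>
    InfinitePlace.Completion.surjective_extensionEmbeddingOfIsReal (hR w) (h.2 w)
  refine ⟨((y : InfiniteAdeleRing K), finFamily719 K P h.1), ?_, ?_⟩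
  · intro v hv
    have h1 : finHom K v (((y : InfiniteAdeleRing K), finFamily719 K P h.1) : Adl K)
        = finFamily719 K P h.1 v := rfl
    rw [h1, finFamily719_not_mem K P h.1 hv]
    exact Fermat.Agent.LT.T3.H322.zero_mem_idealClosure322 K 𝔫 v
  · refine Prod.ext (funext fun v => ?_) (funext fun w => ?_)
    · have h1 : finHom K v (((y : InfiniteAdeleRing K), finFamily719 K P h.1) : Adl K)
          = finFamily719 K P h.1 v := rfl
      show finHom K v (((y : InfiniteAdeleRing K), finFamily719 K P h.1) : Adl K) = h.1 v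
      rw [h1, finFamily719_mem]
    · have h1 : reHom K w (hR w) (((y : InfiniteAdeleRing K), finFamily719 K P h.1) : Adl K)
          = InfinitePlace.Completion.extensionEmbeddingOfIsReal (hR w) (y w) := rfl
      show reHom K w (hR w) (((y : InfiniteAdeleRing K), finFamily719 K P h.1) : Adl K) = h.2 w
      rw [h1, hy w]

/-! ## The Haar property -/

/-- The image of `ν|_{E₀}` under the projection is a Haar measure of
`(∀ v : P, K_v) × (S_∞ → ℝ)`. -/
theorem splitHaarR129 (hR : ∀ w : InfinitePlace K, w.IsReal)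
    [MeasurableSpace (Adl K)] [BorelSpace (Adl K)]
    [∀ v : HeightOneSpectrum (𝓞 K), MeasurableSpace (v.adicCompletion K)]
    [∀ v : HeightOneSpectrum (𝓞 K), BorelSpace (v.adicCompletion K)]
    (ν : Measure (Adl K)) [ν.IsAddHaarMeasure] (𝔫 : Ideal (𝓞 K)) (h𝔫 : 𝔫 ≠ ⊥)
    (P : Finset (HeightOneSpectrum (𝓞 K))) :
    (Measure.map (projR129 K hR P) (ν.restrict (outGrpM K 𝔫 P))).IsAddHaarMeasure := by
  haveI : ∀ v : HeightOneSpectrum (𝓞 K), SecondCountableTopology (v.adicCompletion K) :=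
    fun v => Fermat.Agent.LT.H11.SC.secondCountableTopology_adicCompletion_h11 K v
  have hE₀open : IsOpen (outGrpM K 𝔫 P) := isOpen_outGrpM719 K 𝔫 h𝔫 P
  have hE₀meas : MeasurableSet (outGrpM K 𝔫 P) := hE₀open.measurableSet
  have hpc : Continuous (projR129 K hR P) := continuous_projR129 K hR P
  have hpm : Measurable (projR129 K hR P) := hpc.measurable
  -- invariance
  haveI hinv :
      (Measure.map (projR129 K hR P) (ν.restrict (outGrpM K 𝔫 P))).IsAddLeftInvariant := by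
    refine ⟨fun h => ?_⟩
    obtain ⟨Xh, hXh, hpX⟩ := exists_sectionR129 K hR 𝔫 P h
    rw [Measure.map_map (measurable_const_add h) hpm]
    have hcomp : (fun x => h + x) ∘ projR129 K hR P
        = projR129 K hR P ∘ (fun X : Adl K => Xh + X) := by
      funext X
      show h + projR129 K hR P X = projR129 K hR P (Xh + X)
      rw [projR_add129, hpX]
    rw [hcomp, ← Measure.map_map hpm (measurable_const_add Xh)]
    congr 1
    have hpre := preimage_add_outGrpM719 K 𝔫 P hXh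
    calc Measure.map (fun X : Adl K => Xh + X) (ν.restrict (outGrpM K 𝔫 P))
        = Measure.map (fun X : Adl K => Xh + X)
            (ν.restrict ((fun X : Adl K => Xh + X) ⁻¹' outGrpM K 𝔫 P)) := by rw [hpre]
      _ = (Measure.map (fun X : Adl K => Xh + X) ν).restrict (outGrpM K 𝔫 P) :=
          (Measure.restrict_map (measurable_const_add Xh) hE₀meas).symm
      _ = ν.restrict (outGrpM K 𝔫 P) := by rw [map_add_left_eq_self]
  -- the compact neighbourhood of `0`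
  set O : Set (∀ v : P, (v : HeightOneSpectrum (𝓞 K)).adicCompletion K) :=
    Set.pi Set.univ (fun v : P =>
      (((v : HeightOneSpectrum (𝓞 K)).adicCompletionIntegers K :
        Set ((v : HeightOneSpectrum (𝓞 K)).adicCompletion K)))) with hO
  have hOc : IsCompact O :=
    isCompact_univ_pi fun v : P =>
      Fermat.Agent.LT.H11.LC.isCompact_integers_h11 K (v : HeightOneSpectrum (𝓞 K))
  have hOo : IsOpen O :=
    isOpen_set_pi Set.finite_univ fun v _ =>
      Valued.isOpen_valuationSubring ((v : HeightOneSpectrum (𝓞 K)).adicCompletion K)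
  have hK0c : IsCompact (O ×ˢ Metric.closedBall (0 : InfinitePlace K → ℝ) 1) :=
    hOc.prod (isCompact_closedBall 0 1)
  have hUo : IsOpen (O ×ˢ Metric.ball (0 : InfinitePlace K → ℝ) 1) :=
    hOo.prod Metric.isOpen_ball
  have hUsub : (O ×ˢ Metric.ball (0 : InfinitePlace K → ℝ) 1) ⊆
      (O ×ˢ Metric.closedBall (0 : InfinitePlace K → ℝ) 1) :=
    Set.prod_mono le_rfl Metric.ball_subset_closedBall
  have h0O : (0 : ∀ v : P, (v : HeightOneSpectrum (𝓞 K)).adicCompletion K) ∈ O :=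
    fun v _ => zero_mem _
  have h0U : (0 : (∀ v : P, (v : HeightOneSpectrum (𝓞 K)).adicCompletion K)
      × (InfinitePlace K → ℝ)) ∈ (O ×ˢ Metric.ball (0 : InfinitePlace K → ℝ) 1) :=
    ⟨h0O, Metric.mem_ball_self one_pos⟩
  have hK0i : (interior (O ×ˢ Metric.closedBall (0 : InfinitePlace K → ℝ) 1)).Nonempty :=
    ⟨0, interior_maximal hUsub hUo h0U⟩
  -- positivity
  have hpos : Measure.map (projR129 K hR P) (ν.restrict (outGrpM K 𝔫 P))
      (O ×ˢ Metric.closedBall (0 : InfinitePlace K → ℝ) 1) ≠ 0 := by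
    have hle := measure_mono (μ := Measure.map (projR129 K hR P) (ν.restrict (outGrpM K 𝔫 P)))
      hUsub
    have hU : Measure.map (projR129 K hR P) (ν.restrict (outGrpM K 𝔫 P))
        (O ×ˢ Metric.ball (0 : InfinitePlace K → ℝ) 1) ≠ 0 := by
      rw [Measure.map_apply hpm hUo.measurableSet,
        Measure.restrict_apply (hpm hUo.measurableSet)]
      have hopen : IsOpen (projR129 K hR P ⁻¹'
          (O ×ˢ Metric.ball (0 : InfinitePlace K → ℝ) 1) ∩ outGrpM K 𝔫 P) :=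
        (hUo.preimage hpc).inter hE₀open
      have hne : (projR129 K hR P ⁻¹'
          (O ×ˢ Metric.ball (0 : InfinitePlace K → ℝ) 1) ∩ outGrpM K 𝔫 P).Nonempty := by
        refine ⟨0, ?_, zero_mem_outGrpM719 K 𝔫 P⟩
        show projR129 K hR P 0 ∈ (O ×ˢ Metric.ball (0 : InfinitePlace K → ℝ) 1)
        rw [projR_zero129]
        exact h0U
      exact (hopen.measure_pos ν hne).ne'
    intro h0
    rw [h0] at hle
    exact hU (le_antisymm hle bot_le)
  -- finiteness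
  have hfin : Measure.map (projR129 K hR P) (ν.restrict (outGrpM K 𝔫 P))
      (O ×ˢ Metric.closedBall (0 : InfinitePlace K → ℝ) 1) ≠ ⊤ := by
    have hK0m : MeasurableSet (O ×ˢ Metric.closedBall (0 : InfinitePlace K → ℝ) 1) :=
      hK0c.isClosed.measurableSet
    rw [Measure.map_apply hpm hK0m, Measure.restrict_apply (hpm hK0m)]
    refine ((measure_mono ?_).trans_lt
      (Fermat.Agent.LT.T1.H919.isCompact_box919 (K := K) 1).measure_lt_top).ne
    rintro X ⟨hX1, hX2⟩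
    have hX1' : projR129 K hR P X ∈ (O ×ˢ Metric.closedBall (0 : InfinitePlace K → ℝ) 1) := hX1
    refine mem_box_of_outGrpM719 K 𝔫 P hX2 ?_ ?_
    · intro v hv
      have hmem := hX1'.1 ⟨v, hv⟩ (Set.mem_univ _)
      exact (HeightOneSpectrum.mem_adicCompletionIntegers (R := 𝓞 K) (K := K) (v := v)).1 hmem
    · intro w
      have hb : (fun w => reHom K w (hR w) X) ∈ Metric.closedBall (0 : InfinitePlace K → ℝ) 1 :=
        hX1'.2
      rw [mem_closedBall_zero_iff] at hb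
      rw [norm_infHom_eq129 K w (hR w) X]
      exact (norm_le_pi_norm (fun w => reHom K w (hR w) X) w).trans hb
  exact Measure.isAddHaarMeasure_of_isCompact_nonempty_interior _ _ hK0c hK0i hpos hfin

/-! ## The leaf -/

/-- **T3.18R.6 = R.6 `SplitRC`**, VERBATIM, UNCONDITIONAL. -/
theorem splitRC129 : SplitRC K := by
  letI : MeasurableSpace (Adl K) := borel (Adl K)
  haveI : BorelSpace (Adl K) := ⟨rfl⟩
  intro hR ν hν 𝔫 h𝔫 P
  letI mv : ∀ v : HeightOneSpectrum (𝓞 K), MeasurableSpace (v.adicCompletion K) :=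
    fun v => borel (v.adicCompletion K)
  haveI : ∀ v : HeightOneSpectrum (𝓞 K), BorelSpace (v.adicCompletion K) := fun v => ⟨rfl⟩
  haveI : ∀ v : HeightOneSpectrum (𝓞 K), LocallyCompactSpace (v.adicCompletion K) :=
    fun v => Fermat.Agent.LT.H11.LC.locallyCompactSpace_adicCompletion_h11 K v
  haveI : ∀ v : HeightOneSpectrum (𝓞 K), SecondCountableTopology (v.adicCompletion K) :=
    fun v => Fermat.Agent.LT.H11.SC.secondCountableTopology_adicCompletion_h11 K v
  refine ⟨fun v => (Measure.addHaar : Measure (v.adicCompletion K)), fun v => inferInstance, ?_⟩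
  have hμ : (Measure.map (projR129 K hR P) (ν.restrict (outGrpM K 𝔫 P))).IsAddHaarMeasure :=
    splitHaarR129 K hR ν 𝔫 h𝔫 P
  obtain ⟨c₀, h⟩ := prodHaarR129
    (fun v : P => (v : HeightOneSpectrum (𝓞 K)).adicCompletion K) (InfinitePlace K) _ hμ
  refine ⟨c₀, ?_⟩
  intro φ₀ φ hφ₀ hφ₀c hφ hφc
  obtain ⟨hint, hval⟩ := h (fun v : P => φ₀ (v : HeightOneSpectrum (𝓞 K))) φ
    (fun v => hφ₀ v v.2) (fun v => hφ₀c v v.2) hφ hφc
  have hE : MeasurableSet (outGrpM K 𝔫 P) := (isClosed_outGrpM719 K 𝔫 P).measurableSet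
  have hp : Measurable (projR129 K hR P) := (continuous_projR129 K hR P).measurable
  have hfc : Continuous (fun h : (∀ v : P, (v : HeightOneSpectrum (𝓞 K)).adicCompletion K)
        × (InfinitePlace K → ℝ) =>
      (∏ v : P, φ₀ (v : HeightOneSpectrum (𝓞 K)) (h.1 v))
        * ∏ w : InfinitePlace K, φ w (h.2 w)) := by
    refine (continuous_finsetProd _ fun v _ => ?_).mul (continuous_finsetProd _ fun w _ => ?_)
    · exact (hφ₀ v v.2).comp ((continuous_apply v).comp continuous_fst)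
    · exact (hφ w).comp ((continuous_apply w).comp continuous_snd)
  have hfun : (fun X : Adl K => (outGrpM K 𝔫 P).indicator (fun _ => (1 : ℂ)) X
        * (∏ v ∈ P, φ₀ v (finHom K v X)) * ∏ w : InfinitePlace K, φ w (reHom K w (hR w) X))
      = (outGrpM K 𝔫 P).indicator
          ((fun h : (∀ v : P, (v : HeightOneSpectrum (𝓞 K)).adicCompletion K)
              × (InfinitePlace K → ℝ) =>
            (∏ v : P, φ₀ (v : HeightOneSpectrum (𝓞 K)) (h.1 v))
              * ∏ w : InfinitePlace K, φ w (h.2 w)) ∘ projR129 K hR P) := by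
    funext X
    have hprod : (∏ v ∈ P, φ₀ v (finHom K v X))
        = ∏ v : P, φ₀ (v : HeightOneSpectrum (𝓞 K)) (finHom K (v : HeightOneSpectrum (𝓞 K)) X) :=
      (Finset.prod_coe_sort P (fun v => φ₀ v (finHom K v X))).symm
    by_cases hX : X ∈ outGrpM K 𝔫 P
    · rw [Set.indicator_of_mem hX, Set.indicator_of_mem hX, one_mul, hprod]
      rfl
    · rw [Set.indicator_of_notMem hX, Set.indicator_of_notMem hX, zero_mul, zero_mul]
  have hprodI : (∏ v ∈ P, ∫ x, φ₀ v x ∂(Measure.addHaar : Measure (v.adicCompletion K)))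
      = ∏ v : P, ∫ x, φ₀ (v : HeightOneSpectrum (𝓞 K)) x
          ∂(Measure.addHaar : Measure ((v : HeightOneSpectrum (𝓞 K)).adicCompletion K)) :=
    (Finset.prod_coe_sort P
      (fun v => ∫ x, φ₀ v x ∂(Measure.addHaar : Measure (v.adicCompletion K)))).symm
  rw [hfun]
  constructor
  · rw [integrable_indicator_iff hE]
    exact (integrable_map_measure hfc.aestronglyMeasurable hp.aemeasurable).mp hint
  · rw [integral_indicator hE, hprodI, ← hval]
    exact (integral_map hp.aemeasurable hfc.aestronglyMeasurable).symm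

example : SplitRC K := splitRC129 K

end Fermat.Agent.LT.T3.R.H129

end

end
-- ===== PACK-END LT/T3/R/H129/SplitR.lean

-- ===== PACK-BEGIN LT/T7/H698/SphAbelCore.lean
section



/-!
# Row LT, tower T7 (quadratic step, sphere means), helper698: the `N`-integral of a right
# translate on `GL₂(ℂ)` -- core

OFF-MAIN.  Mathlib + `LT/T3/H736/ASSpec.lean` (`upperGL`, `IsUnitary2`, `HasAbelN`).

* `iwasawa_sa698`: `g = [[p₁, q], [0, ρ]] · k`, `k ∈ U(2)`, `ρ > 0`, `ρ² = |g₁₀|² + |g₁₁|²`,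
  `|p₁| ρ = |det g|` (Gram--Schmidt on the rows);
* `abelN_translate_sa698`: if `Φ` is right `U(2)`-invariant with `N`-integral `β` and
  `det g = 1`, `P = |g₁₀|² + |g₁₁|²`, then
  `∫_ℂ Φ([[c₁, x], [0, c₂]] g) dx = |c₁| |c₂| P⁻¹ β(log |c₁| - (log P)/2, log |c₂| + (log P)/2)`.
-/

set_option autoImplicit false

open MeasureTheory Matrix
open scoped ComplexConjugate

noncomputable section

namespace Fermat.Agent.LT.T7.H698

open Fermat.Agent.LT.T3.AS

/-- The product of two upper triangular matrices. -/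
theorem upperGL_mul_sa698 (c₁ c₂ p₁ p₂ : ℂˣ) (x q : ℂ) :
    upperGL c₁ c₂ x * upperGL p₁ p₂ q
      = upperGL (c₁ * p₁) (c₂ * p₂) ((c₁ : ℂ) * q + x * (p₂ : ℂ)) := by
  apply Units.ext
  rw [Units.val_mul, upperGL_coe, upperGL_coe, upperGL_coe]
  ext i j
  fin_cases i <;> fin_cases j <;> simp [Matrix.mul_apply, Fin.sum_univ_two]

/-- Gram--Schmidt: the Iwasawa decomposition of `GL₂(ℂ)`. -/
theorem iwasawa_sa698 (g : GL (Fin 2) ℂ) :
    ∃ (p₁ p₂ : ℂˣ) (q : ℂ) (k : GL (Fin 2) ℂ) (ρ : ℝ), IsUnitary2 k ∧ g = upperGL p₁ p₂ q * k ∧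
      0 < ρ ∧ (p₂ : ℂ) = ((ρ : ℝ) : ℂ) ∧
      ρ ^ 2 = ‖(g : Matrix (Fin 2) (Fin 2) ℂ) 1 0‖ ^ 2 + ‖(g : Matrix (Fin 2) (Fin 2) ℂ) 1 1‖ ^ 2 ∧
      ‖(p₁ : ℂ)‖ * ρ = ‖(g : Matrix (Fin 2) (Fin 2) ℂ).det‖ := by
  set a := (g : Matrix (Fin 2) (Fin 2) ℂ) 0 0 with ha
  set b := (g : Matrix (Fin 2) (Fin 2) ℂ) 0 1 with hb
  set c := (g : Matrix (Fin 2) (Fin 2) ℂ) 1 0 with hc
  set e := (g : Matrix (Fin 2) (Fin 2) ℂ) 1 1 with he
  have hgM : (g : Matrix (Fin 2) (Fin 2) ℂ) = !![a, b; c, e] := by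
    ext i j
    fin_cases i <;> fin_cases j <;> rfl
  have hdet : (g : Matrix (Fin 2) (Fin 2) ℂ).det = a * e - b * c := Matrix.det_fin_two _
  have hdet0 : (g : Matrix (Fin 2) (Fin 2) ℂ).det ≠ 0 :=
    ((Matrix.isUnit_iff_isUnit_det _).1 g.isUnit).ne_zero
  have hP : 0 < ‖c‖ ^ 2 + ‖e‖ ^ 2 := by
    by_contra hle
    have h0 : ‖c‖ ^ 2 + ‖e‖ ^ 2 = 0 :=
      le_antisymm (not_lt.1 hle) (add_nonneg (sq_nonneg _) (sq_nonneg _))
    have hc0 : c = 0 := by
      have : ‖c‖ ^ 2 = 0 := by nlinarith [sq_nonneg ‖c‖, sq_nonneg ‖e‖]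
      exact norm_eq_zero.1 ((pow_eq_zero_iff two_ne_zero).1 this)
    have he0 : e = 0 := by
      have : ‖e‖ ^ 2 = 0 := by nlinarith [sq_nonneg ‖c‖, sq_nonneg ‖e‖]
      exact norm_eq_zero.1 ((pow_eq_zero_iff two_ne_zero).1 this)
    apply hdet0
    rw [hdet, hc0, he0, mul_zero, mul_zero, sub_zero]
  set ρ : ℝ := Real.sqrt (‖c‖ ^ 2 + ‖e‖ ^ 2) with hρ
  have hρpos : 0 < ρ := Real.sqrt_pos.2 hP
  have hρsq : ρ ^ 2 = ‖c‖ ^ 2 + ‖e‖ ^ 2 := Real.sq_sqrt hP.le
  have hρne : ((ρ : ℝ) : ℂ) ≠ 0 := Complex.ofReal_ne_zero.2 hρpos.ne'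
  -- the complex form of `ρ²`
  have hρc : ((ρ : ℝ) : ℂ) ^ 2 = c * conj c + e * conj e := by
    rw [Complex.mul_conj, Complex.mul_conj, ← Complex.ofReal_pow, hρsq, Complex.normSq_eq_norm_sq,
      Complex.normSq_eq_norm_sq]
    push_cast
    ring
  set δ := (g : Matrix (Fin 2) (Fin 2) ℂ).det with hδ
  let p₁ : ℂˣ := Units.mk0 (δ / ((ρ : ℝ) : ℂ)) (div_ne_zero hdet0 hρne)
  let p₂ : ℂˣ := Units.mk0 ((ρ : ℝ) : ℂ) hρne
  let q : ℂ := (a * conj c + b * conj e) / ((ρ : ℝ) : ℂ)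
  let kM : Matrix (Fin 2) (Fin 2) ℂ :=
    !![conj e / ((ρ : ℝ) : ℂ), -(conj c / ((ρ : ℝ) : ℂ)); c / ((ρ : ℝ) : ℂ), e / ((ρ : ℝ) : ℂ)]
  have hconjρ : conj ((ρ : ℝ) : ℂ) = ((ρ : ℝ) : ℂ) := Complex.conj_ofReal ρ
  have hkH : kMᴴ = !![e / ((ρ : ℝ) : ℂ), conj c / ((ρ : ℝ) : ℂ);
      -(c / ((ρ : ℝ) : ℂ)), conj e / ((ρ : ℝ) : ℂ)] := by
    ext i j
    fin_cases i <;> fin_cases j <;>
      simp [kM, Matrix.conjTranspose_apply, hconjρ]
  have hkU : kM * kMᴴ = 1 := by
    rw [hkH]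
    ext i j
    fin_cases i <;> fin_cases j
    · simp only [kM, Matrix.mul_apply, Fin.sum_univ_two, Fin.zero_eta, Fin.isValue,
        Matrix.of_apply, Matrix.cons_val', Matrix.cons_val_zero, Matrix.cons_val_one,
        Matrix.cons_val_fin_one, Matrix.one_apply_eq]
      field_simp
      linear_combination -hρc
    · simp only [kM, Matrix.mul_apply, Fin.sum_univ_two, Fin.zero_eta, Fin.isValue,
        Matrix.of_apply, Matrix.cons_val', Matrix.cons_val_zero, Matrix.cons_val_one,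
        Matrix.cons_val_fin_one, Fin.mk_one, ne_eq, zero_ne_one, not_false_eq_true,
        Matrix.one_apply_ne]
      field_simp
      ring
    · simp only [kM, Matrix.mul_apply, Fin.sum_univ_two, Fin.zero_eta, Fin.isValue,
        Matrix.of_apply, Matrix.cons_val', Matrix.cons_val_zero, Matrix.cons_val_one,
        Matrix.cons_val_fin_one, Fin.mk_one, ne_eq, one_ne_zero, not_false_eq_true,
        Matrix.one_apply_ne]
      field_simp
      ring
    · simp only [kM, Matrix.mul_apply, Fin.sum_univ_two, Fin.isValue,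
        Matrix.of_apply, Matrix.cons_val', Matrix.cons_val_zero, Matrix.cons_val_one,
        Matrix.cons_val_fin_one, Fin.mk_one, Matrix.one_apply_eq]
      field_simp
      linear_combination -hρc
  let k : GL (Fin 2) ℂ := ⟨kM, kMᴴ, hkU, mul_eq_one_comm.mp hkU⟩
  refine ⟨p₁, p₂, q, k, ρ, hkU, ?_, hρpos, rfl, hρsq, ?_⟩
  · apply Units.ext
    rw [Units.val_mul, upperGL_coe, hgM]
    show !![a, b; c, e] = !![δ / ((ρ : ℝ) : ℂ), q; 0, ((ρ : ℝ) : ℂ)] * kM
    ext i j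
    fin_cases i <;> fin_cases j
    · simp only [kM, q, Matrix.mul_apply, Fin.sum_univ_two, Fin.zero_eta, Fin.isValue,
        Matrix.of_apply, Matrix.cons_val', Matrix.cons_val_zero, Matrix.cons_val_one,
        Matrix.cons_val_fin_one]
      rw [hdet]
      field_simp
      linear_combination a * hρc
    · simp only [kM, q, Matrix.mul_apply, Fin.sum_univ_two, Fin.zero_eta, Fin.isValue,
        Matrix.of_apply, Matrix.cons_val', Matrix.cons_val_zero, Matrix.cons_val_one,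
        Matrix.cons_val_fin_one, Fin.mk_one]
      rw [hdet]
      field_simp
      linear_combination b * hρc
    · simp only [kM, Matrix.mul_apply, Fin.sum_univ_two, Fin.zero_eta, Fin.isValue,
        Matrix.of_apply, Matrix.cons_val', Matrix.cons_val_zero, Matrix.cons_val_one,
        Matrix.cons_val_fin_one, Fin.mk_one, zero_mul, zero_add]
      field_simp
    · simp only [kM, Matrix.mul_apply, Fin.sum_univ_two, Fin.isValue,
        Matrix.of_apply, Matrix.cons_val', Matrix.cons_val_zero, Matrix.cons_val_one,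
        Matrix.cons_val_fin_one, Fin.mk_one, zero_mul, zero_add]
      field_simp
  · show ‖δ / ((ρ : ℝ) : ℂ)‖ * ρ = ‖δ‖
    rw [norm_div, Complex.norm_real, Real.norm_of_nonneg hρpos.le]
    field_simp

/-- The `N`-integral of a right translate by `g`, `det g = 1`. -/
theorem abelN_translate_sa698 {Φ : GL (Fin 2) ℂ → ℂ} {β : ℝ × ℝ → ℂ}
    (hΦr : ∀ k y : GL (Fin 2) ℂ, IsUnitary2 k → Φ (y * k) = Φ y) (hN : HasAbelN Φ β)
    (g : GL (Fin 2) ℂ) (hg : (g : Matrix (Fin 2) (Fin 2) ℂ).det = 1) (c₁ c₂ : ℂˣ) :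
    ∫ x : ℂ, Φ (upperGL c₁ c₂ x * g)
      = ((‖(c₁ : ℂ)‖ * ‖(c₂ : ℂ)‖ : ℝ) : ℂ) *
        ((((‖(g : Matrix (Fin 2) (Fin 2) ℂ) 1 0‖ ^ 2 +
            ‖(g : Matrix (Fin 2) (Fin 2) ℂ) 1 1‖ ^ 2)⁻¹ : ℝ) : ℂ) *
          β (Real.log ‖(c₁ : ℂ)‖ - Real.log (‖(g : Matrix (Fin 2) (Fin 2) ℂ) 1 0‖ ^ 2 +
                ‖(g : Matrix (Fin 2) (Fin 2) ℂ) 1 1‖ ^ 2) / 2,
              Real.log ‖(c₂ : ℂ)‖ + Real.log (‖(g : Matrix (Fin 2) (Fin 2) ℂ) 1 0‖ ^ 2 +
                ‖(g : Matrix (Fin 2) (Fin 2) ℂ) 1 1‖ ^ 2) / 2)) := by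
  obtain ⟨p₁, p₂, q, k, ρ, hk, hgk, hρpos, hp₂, hρsq, hp₁⟩ := iwasawa_sa698 g
  rw [← hρsq]
  rw [hg, norm_one] at hp₁
  have hnp₁ : ‖(p₁ : ℂ)‖ = ρ⁻¹ := by
    field_simp
    exact hp₁
  have hnp₂ : ‖(p₂ : ℂ)‖ = ρ := by
    rw [hp₂, Complex.norm_real, Real.norm_of_nonneg hρpos.le]
  have hc₁ : 0 < ‖(c₁ : ℂ)‖ := norm_pos_iff.2 c₁.ne_zero
  have hc₂ : 0 < ‖(c₂ : ℂ)‖ := norm_pos_iff.2 c₂.ne_zero
  have e1 : ∀ x : ℂ, Φ (upperGL c₁ c₂ x * g)
      = Φ (upperGL (c₁ * p₁) (c₂ * p₂) ((c₁ : ℂ) * q + ρ • x)) := by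
    intro x
    rw [hgk, ← mul_assoc, hΦr k _ hk, upperGL_mul_sa698, hp₂, Complex.real_smul, mul_comm x]
  simp only [e1]
  have e2 : ∫ x : ℂ, Φ (upperGL (c₁ * p₁) (c₂ * p₂) ((c₁ : ℂ) * q + ρ • x))
      = |(ρ ^ 2)⁻¹| • ∫ x : ℂ, Φ (upperGL (c₁ * p₁) (c₂ * p₂) x) := by
    have h1 := Measure.integral_comp_smul (volume : Measure ℂ)
      (fun x : ℂ => Φ (upperGL (c₁ * p₁) (c₂ * p₂) ((c₁ : ℂ) * q + x))) ρ
    rw [Complex.finrank_real_complex] at h1
    rw [h1, integral_add_left_eq_self (fun x : ℂ => Φ (upperGL (c₁ * p₁) (c₂ * p₂) x))]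
  rw [e2, hN (c₁ * p₁) (c₂ * p₂)]
  have n1 : ‖((c₁ * p₁ : ℂˣ) : ℂ)‖ = ‖(c₁ : ℂ)‖ * ρ⁻¹ := by
    rw [Units.val_mul, norm_mul, hnp₁]
  have n2 : ‖((c₂ * p₂ : ℂˣ) : ℂ)‖ = ‖(c₂ : ℂ)‖ * ρ := by
    rw [Units.val_mul, norm_mul, hnp₂]
  have l0 : Real.log (ρ ^ 2) / 2 = Real.log ρ := by
    rw [Real.log_pow]
    push_cast
    ring
  have l1 : Real.log (‖(c₁ : ℂ)‖ * ρ⁻¹) = Real.log ‖(c₁ : ℂ)‖ - Real.log (ρ ^ 2) / 2 := by
    rw [l0, Real.log_mul hc₁.ne' (inv_ne_zero hρpos.ne'), Real.log_inv]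
    ring
  have l2 : Real.log (‖(c₂ : ℂ)‖ * ρ) = Real.log ‖(c₂ : ℂ)‖ + Real.log (ρ ^ 2) / 2 := by
    rw [l0, Real.log_mul hc₂.ne' hρpos.ne']
  rw [n1, n2, l1, l2, abs_of_pos (inv_pos.2 (pow_pos hρpos 2)), Complex.real_smul]
  have hρc : ((ρ : ℝ) : ℂ) ≠ 0 := Complex.ofReal_ne_zero.2 hρpos.ne'
  push_cast
  field_simp

/-! ## Fubini with support in a box -/

section Swap

open Set Function

variable {X : Type*} [TopologicalSpace X] [T2Space X] [SecondCountableTopology X]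
  [MeasurableSpace X] [BorelSpace X]

theorem integrable_uncurry_sa698 (μ : Measure X) [IsFiniteMeasureOnCompacts μ] [SFinite μ]
    (a b : ℝ) {f : ℝ → X → ℂ} (hf : Continuous (uncurry f)) {K : Set X} (hK : IsCompact K)
    (hfK : ∀ t ∈ uIcc a b, ∀ x, x ∉ K → f t x = 0) :
    Integrable (uncurry f) ((volume.restrict (uIoc a b)).prod μ) := by
  have h1 : IntegrableOn (uncurry f) (uIcc a b ×ˢ K) (volume.prod μ) :=
    hf.continuousOn.integrableOn_compact (isCompact_uIcc.prod hK)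
  have h2 : IntegrableOn (uncurry f) (uIoc a b ×ˢ univ) (volume.prod μ) := by
    refine h1.of_forall_sdiff_eq_zero (measurableSet_uIoc.prod MeasurableSet.univ) ?_
    rintro ⟨t, x⟩ ⟨ht, hx⟩
    have ht' : t ∈ uIcc a b := uIoc_subset_uIcc ht.1
    apply hfK t ht'
    intro hxK
    exact hx ⟨ht', hxK⟩
  rwa [IntegrableOn, ← Measure.prod_restrict, Measure.restrict_univ] at h2

theorem swap1_sa698 (μ : Measure X) [IsFiniteMeasureOnCompacts μ] [SFinite μ]
    (a b : ℝ) {F : X → ℝ → ℂ} (hF : Continuous (uncurry F)) {K : Set X} (hK : IsCompact K)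
    (hFK : ∀ x, ∀ t ∈ uIcc a b, x ∉ K → F x t = 0) :
    ∫ x, (∫ t in a..b, F x t) ∂μ = ∫ t in a..b, (∫ x, F x t ∂μ) := by
  have hf : Continuous (uncurry fun (t : ℝ) (x : X) => F x t) :=
    hF.comp (continuous_snd.prodMk continuous_fst)
  exact (intervalIntegral_integral_swap
    (integrable_uncurry_sa698 μ a b hf hK fun t ht x hx => hFK x t ht hx)).symm

theorem swap2_sa698 (μ : Measure X) [IsFiniteMeasureOnCompacts μ] [SFinite μ]
    (a b c d : ℝ) {F : X → ℝ → ℝ → ℂ}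
    (hF : Continuous fun p : X × ℝ × ℝ => F p.1 p.2.1 p.2.2) {K : Set X} (hK : IsCompact K)
    (hFK : ∀ x, ∀ α ∈ uIcc a b, ∀ β ∈ uIcc c d, x ∉ K → F x α β = 0) :
    ∫ x, (∫ α in a..b, ∫ β in c..d, F x α β) ∂μ
      = ∫ α in a..b, ∫ β in c..d, (∫ x, F x α β ∂μ) := by
  have hG : Continuous (uncurry fun (x : X) (α : ℝ) => ∫ β in c..d, F x α β) := by
    have h1 : Continuous (uncurry fun (q : X × ℝ) (β : ℝ) => F q.1 q.2 β) :=
      hF.comp ((continuous_fst.comp continuous_fst).prodMk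
        ((continuous_snd.comp continuous_fst).prodMk continuous_snd))
    exact intervalIntegral.continuous_parametric_intervalIntegral_of_continuous' h1 c d
  rw [swap1_sa698 μ a b hG hK (fun x α hα hx => by
    apply intervalIntegral.integral_zero_ae
    filter_upwards with β hβ
    exact hFK x α hα β (uIoc_subset_uIcc hβ) hx)]
  apply intervalIntegral.integral_congr
  intro α hα
  have h2 : Continuous (uncurry fun (x : X) (β : ℝ) => F x α β) :=
    hF.comp (continuous_fst.prodMk (continuous_const.prodMk continuous_snd))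
  exact swap1_sa698 μ c d h2 hK (fun x β hβ hx => hFK x α hα β hβ hx)

end Swap

end Fermat.Agent.LT.T7.H698

end

end
-- ===== PACK-END LT/T7/H698/SphAbelCore.lean

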