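import Mathlib
import Fermat.Agent.Pack.LT2.E0L2
import Fermat.Agent.Pack.LT2.E2L1
import Fermat.Agent.Pack.LT2.E7L3
import Fermat.Agent.Pack.LT2.E14L3
import Fermat.Agent.Pack.LT2.E4L2
import Fermat.Agent.Pack.LT2.E6L2
import Fermat.Agent.Pack.LT2.E8L0
import Fermat.Agent.Pack.LT2.E5L1
import Fermat.Agent.Pack.LT2.E6L1
import Fermat.Agent.Pack.LT2.E5L2
import Fermat.Agent.Pack.LT2.E6L3
import Fermat.Agent.Pack.LT2.E4L1
import Fermat.Agent.Pack.LT2.E10L3
import Fermat.Agent.Pack.LT2.E5L0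
import Fermat.Agent.Pack.LT2.E8L3
import Fermat.Agent.Pack.LT2.E13L0
import Fermat.Agent.Pack.LT2.E10L1
import Fermat.Agent.Pack.LT3.E11L3
import Fermat.Agent.Pack.LT3.E11L2
import Fermat.Agent.Pack.LT3.E11L1
import Fermat.Agent.Pack.LT3.E8L0
import Fermat.Agent.Pack.LT3.E19L3
import Fermat.Agent.Pack.LT3.E19L0
import Fermat.Agent.Pack.LT4.E0L3
import Fermat.Agent.Pack.LT2.E0L1
import Fermat.Agent.Pack.LT3.E0L3
import Fermat.Agent.Pack.LT3.E0L1
import Fermat.Agent.Pack.LT3.E21L3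
import Fermat.Agent.Pack.LT3.E20L3
import Fermat.Agent.Pack.LT3.E20L2
import Fermat.Agent.Pack.LT3.E17L2
import Fermat.Agent.Pack.LT3.E8L3

set_option linter.all false

-- ===== PACK-BEGIN LT/T1/H729/Red/Closed.lean
section






/-!
# Row LT, tower T1, leaf T1.14 (helper729): REDUCTION THEORY, covering — closed form

OFF-MAIN.  `leafReduction729 K : T1.LeafReduction K`, unconditionally: the asset SCALE is
`haarScaleC671 K : HaarScaleC K` of helper671 (origin/helper671@8912ffcb3, byte-identical copies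
of `LT/H11/{LC,SC}.lean` and `LT/T1/H671/{HaarGen,HaarArch,HaarFin,HaarScale}.lean`), which has
verbatim the shape of `ScaleC729 K`.
-/

set_option autoImplicit false

open Fermat.Agent.LT.H556.A0

namespace Fermat.Agent.LT.T1.H729

variable (K : Type) [Field K] [NumberField K]

/-- The asset SCALE holds (helper671). -/
theorem scaleC729 : ScaleC729 K :=
  Fermat.Agent.LT.T1.H671.haarScaleC671 K

/-- **T1.14, closed.**  Reduction theory (covering) for `GL₂(𝔸_K)`. -/
theorem leafReduction729 : Fermat.Agent.LT.T1.LeafReduction K :=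
  leafReduction_of_scale729 K (scaleC729 K)

end Fermat.Agent.LT.T1.H729

end
-- ===== PACK-END LT/T1/H729/Red/Closed.lean

-- ===== PACK-BEGIN LT/T1/Closed.lean
section



















/-!
# Row LT, tower T1 (helper54, architect): INTEGRATION of the closed leaves

OFF-MAIN.  Imports byte-identical copies of the volunteers' files and discharges the closed leaves
of `Leaves K` (`LT/T1/Spec.lean`, v1 sha256 e8ae48d6010e):

| leaf | closed by |
|---|---|
| T1.01 `LeafLocComp` | helper11 `locCompC_h11` |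
| T1.02 `LeafAdeleDiscrete` | helper767 `discreteTopology_principal` + adapter below |
| T1.03 `LeafAdeleCocompact` | helper767 `leafAdeleCocompact767` |
| T1.04 `LeafAddFundDom` | helper848 `leafAddFundDom848` |
| T1.05 `LeafAdNorm` | helper309 `leafAdNorm309` (second proof: helper729 `adNormC729`) |
| T1.06 `LeafFujisaki` | helper629 `leafFujisaki629` |
| T1.07 `LeafDiscrete` | helper132 `discreteC_132` |
| T1.08 `LeafDiscreteModCentre` | helper62 `leafDiscreteModCentre62` |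
| T1.09 `LeafUnimod` | helper849 `adelicGL2_haar_isMulRightInvariant849` + adapter below |
| T1.10 - T1.12 (Iwasawa) | helper793 `leafIwasawaFin793`, `leafIwasawaInf793`, `leafIwasawaGlue793` (second proof: helper729) |
| T1.13 `LeafHeight` | helper793 `leafHeight793` (second proof: helper429) |
| T1.14 `LeafReduction` | helper729 `leafReduction729` (on the Haar scaling of helper671 `haarScaleC671`) |
| T1.15 `LeafSiegelSep` | helper793 `leafSiegelSep793` |
| T1.16 `LeafSiegelCompact` | helper919 `leafSiegelCompact919` |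
| T1.17 `LeafSiegelVol` | helper54 `leafSiegelVol_of_fujisaki54` (dyadic tiling; needs the Fujisaki leaf T1.06) |
| T1.18 `LeafFundDom` | helper558 `leafFundDom558` |
| T1.19 `LeafHeckeCoset` | helper129 `leafHeckeCoset129` |
| T1.20 `LeafEllipticCompact` | helper619 `leafEllipticCompact619` |

ALL 20 LEAVES ARE CLOSED: `t1Out K : T1Out K` is UNCONDITIONAL, for every number field `K`
(axioms: propext, Classical.choice, Quot.sound).  `top_of_open : Open K → T1Out K` is kept for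
the record (`Open K` = the three leaves that were closed last).
-/

set_option autoImplicit false

open IsDedekindDomain NumberField MeasureTheory
open scoped MatrixGroups

noncomputable section

namespace Fermat.Agent.LT.T1

open Fermat.Agent.LT.H556.A0

variable (K : Type) [Field K] [NumberField K]

/-- The subgroup `princ K` of the Spec is Mathlib's `AdeleRing.principalSubgroup`. -/
theorem princ_eq_principalSubgroup : princ K = AdeleRing.principalSubgroup (𝓞 K) K := by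
  ext x
  simp [princ, AdeleRing.principalSubgroup]

/-- T1.02 closed (helper767). -/
theorem leafAdeleDiscrete_closed : LeafAdeleDiscrete K := by
  unfold LeafAdeleDiscrete
  rw [princ_eq_principalSubgroup]
  exact Fermat.Agent.LT.H767.discreteTopology_principal K

/-- `UnimodC` closed (helper849). -/
theorem unimodC_closed : UnimodC K := by
  letI : MeasurableSpace (G K) := borel (G K)
  have : BorelSpace (G K) := ⟨rfl⟩
  intro μ hμ
  have := hμ
  exact Fermat.Agent.LT.T1.H849.adelicGL2_haar_isMulRightInvariant849 K μ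

/-- THE OPEN PART of tower T1: the leaves still to be proved. -/
structure Open : Prop where
  fujisaki : LeafFujisaki K
  reduction : LeafReduction K
  ellipticCompact : LeafEllipticCompact K

/-- The closed leaves are discharged. -/
theorem leaves_of_open (O : Open K) : Leaves K where
  locComp := Fermat.Agent.LT.T1.H11.locCompC_h11 K
  adeleDiscrete := leafAdeleDiscrete_closed K
  adeleCocompact := Fermat.Agent.LT.H767.leafAdeleCocompact767 K
  addFundDom := Fermat.Agent.LT.T1.H848.leafAddFundDom848 K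
  adNorm := Fermat.Agent.LT.T1.H309.leafAdNorm309 K
  fujisaki := O.fujisaki
  discrete := fun _ _ => Fermat.Agent.LT.T1.H132.discreteC_132 K
  discreteModCentre := Fermat.Agent.LT.T1.H62.leafDiscreteModCentre62 K
  unimod := fun _ => unimodC_closed K
  iwasawaFin := Fermat.Agent.LT.T1.H793.leafIwasawaFin793 K
  iwasawaInf := Fermat.Agent.LT.T1.H793.leafIwasawaInf793
  iwasawaGlue := Fermat.Agent.LT.T1.H793.leafIwasawaGlue793 K
  height := Fermat.Agent.LT.T1.H793.leafHeight793 K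
  reduction := O.reduction
  siegelSep := Fermat.Agent.LT.T1.H793.leafSiegelSep793 K
  siegelCompact := Fermat.Agent.LT.T1.H919.leafSiegelCompact919 K
  siegelVol := Fermat.Agent.LT.T1.H54.leafSiegelVol_of_fujisaki54 K O.fujisaki
  fundDom := Fermat.Agent.LT.T1.H558.leafFundDom558 K
  heckeCoset := Fermat.Agent.LT.H129.leafHeckeCoset129 K
  ellipticCompact := O.ellipticCompact

/-- STATE OF THE TOWER: the open leaves give the output of T1. -/
theorem top_of_open (O : Open K) : T1Out K := top K (leaves_of_open K O)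

/-- The three leaves that were closed last. -/
theorem open_closed : Open K where
  fujisaki := Fermat.Agent.LT.T1.H629.leafFujisaki629 K
  reduction := Fermat.Agent.LT.T1.H729.leafReduction729 K
  ellipticCompact := Fermat.Agent.LT.T1.H619.leafEllipticCompact619 K

/-- ALL LEAVES of tower T1. -/
theorem leaves : Leaves K := leaves_of_open K (open_closed K)

/-- **THE OUTPUT OF TOWER T1, UNCONDITIONAL**, for every number field `K`. -/
theorem t1Out : T1Out K := top K (leaves K)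

end Fermat.Agent.LT.T1

end

end
-- ===== PACK-END LT/T1/Closed.lean

-- ===== PACK-BEGIN LT/T2/H724/Closed.lean
section












/-!
# Row LT, tower T2, leaf T2.02d (`Leaf02d`): CLOSED (helper724, integrator of registry row 976)

OFF-MAIN.  Convolutions by spherical test functions commute on the cusp functions (the last clause
of `T2.ConvCusp`), by Gelfand's trick with the anti-involution `g ↦ adj g = det g • g⁻¹`.

All inputs are byte-identical copies of the registered files: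

| sub-leaf | registry | seat | file | theorem |
|---|---|---|---|---|
| FUBINI   | 1077 | helper323 | `LT/T2/H323/ConvKer.lean`   | `convKerC323` |
| SHAPE    | 1078 | helper833 | `LT/T2/H833/ConvShape.lean` | `convShapeC833` |
| MEASURE  | 1079 | helper286 | `LT/T2/H286/AdjMeas.lean`   | `adjMeasC286` |
| SWAP     | 1080 | helper473 | `LT/T2/H473/ConvSwap.lean`  | `convSwapC473` |
| LOC-FIN  | 1081 | helper570 | `LT/T2/H570/LocFin.lean`    | `leafLocFin570` |
| LOC-CPX  | 1082 | helper8   | `LT/T2/H8/LocCpx.lean`      | `locCpxC724_h8` |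
| LOC-REAL | 1083 | helper437 | `LT/T2/H437/LocReal.lean`   | `locRealC724_holds437` |
| GLUE     | 1084 | helper724 | `LT/T2/H724/Glue.lean`      | `glueC724` |

The only hypothesis left is `T1.T1Out K` (tower T1), exactly as in `H228.Leaf02d`.
-/

set_option autoImplicit false

open IsDedekindDomain NumberField MeasureTheory AutomorphicForm
open Fermat.Agent.LT.H556.A0

noncomputable section

namespace Fermat.Agent.LT.T2.H724

open Fermat.Agent.LT.T2

variable (K : Type) [Field K] [NumberField K]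

/-- Every unit at the bad places lies in the double coset of its adjugate, unconditionally. -/
theorem doubleCosetC724 : DoubleCosetC724 K :=
  glueC724 K (H570.leafLocFin570 K) H8.locCpxC724_h8 H437.locRealC724_holds437

/-- **T2.02d, closed**: convolutions by spherical test functions commute on the cusp functions. -/
theorem convComm724 (hT1 : T1.T1Out K) (𝔫 : Ideal (𝓞 K)) (h𝔫 : 𝔫 ≠ ⊥) (F : Frame K)
    (f₁ f₂ φ : G K → ℂ) (h₁ : IsSphTestFn 𝔫 f₁) (h₂ : IsSphTestFn 𝔫 f₂) (hφ : IsCuspFn 𝔫 φ) :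
    conv F f₁ (conv F f₂ φ) = conv F f₂ (conv F f₁ φ) :=
  convComm_of_leaves724 (H323.convKerC323 K) (H833.convShapeC833 K) (H286.adjMeasC286 K)
    (H473.convSwapC473 (K := K)) (H570.leafLocFin570 K) H8.locCpxC724_h8 H437.locRealC724_holds437
    (glueC724 K) hT1 𝔫 h𝔫 F f₁ f₂ φ h₁ h₂ hφ

/-- **Registry row 976 = `H228.Leaf02d K`**, in helper228's bytes. -/
theorem leaf02d_724 : H228.Leaf02d K :=
  fun hT1 𝔫 h𝔫 _ _ F f₁ f₂ φ h₁ h₂ hφ => convComm724 K hT1 𝔫 h𝔫 F f₁ f₂ φ h₁ h₂ hφ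

end Fermat.Agent.LT.T2.H724

end

end
-- ===== PACK-END LT/T2/H724/Closed.lean

-- ===== PACK-BEGIN LT/T2/H228/Closed.lean
section




/-!
# Row LT, tower T2, leaf T2.02 (`ConvCusp`, registry 866): CLOSED (helper228, owner)

OFF-MAIN.  `leaf02_228 (K) : T2.Leaf02 K`, VERBATIM the leaf of `T2/Spec.lean` v3
(helper130@b73350f76, sha256 b934629a); the only hypothesis is `T1.T1Out K`, inside `Leaf02`.

| part | registry | seat | file | theorem |
|---|---|---|---|---|
| T2.02a `adj` preserves (spherical) test functions | 973 | helper228 | `H228/AdjTest.lean` | `leaf02a_228` |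
| T2.02b `conv F f` preserves cusp functions | 974 | helper228 | `H228/ConvStable.lean` | `leaf02b_228` |
| T2.02c adjoint of `conv F f` is `conv F (adj f)` | 975 | helper228 (also helper981) | `H228/ConvAdj.lean` | `leaf02c_228` |
| T2.02d spherical convolutions commute | 976 | helper724 + 323, 833, 286, 473, 570, 8, 437 | `H724/Closed.lean` | `leaf02d_724` |

The files of helper724's closure are byte-identical copies of origin/helper724@670e68d67.
-/

set_option autoImplicit false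

open IsDedekindDomain NumberField MeasureTheory AutomorphicForm
open Fermat.Agent.LT.H556.A0

noncomputable section

namespace Fermat.Agent.LT.T2.H228

open Fermat.Agent.LT.T2

/-- **T2.02, closed**: the leaf `ConvCusp` of tower T2. -/
theorem leaf02_228 (K : Type) [Field K] [NumberField K] : T2.Leaf02 K :=
  leaf02_of_parts228 K leaf02a_228 leaf02b_228 leaf02c_228 (H724.leaf02d_724 K)

end Fermat.Agent.LT.T2.H228

end

end
-- ===== PACK-END LT/T2/H228/Closed.lean

-- ===== PACK-BEGIN LT/T3/Push/Spec.lean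
section


/-!
# Row LT, tower T3, station T3.19 (architect helper14): THE PUSH-FORWARD OF THE CORE -- THE CUT

OFF-MAIN.  Definitions and frozen Props only (the proofs are `Push/Top.lean`).  No hole, no
opaque constant, nothing assumed.  ADDITIVE (new names only, namespace `T3.Push`).

## Why (hint of helper797, note 18148 (2); nodes `BaseC` of helper893, `BaseQC` over `ℚ`)

For the matched pairs of tower T7 the Eisenstein-killing function DOWNSTAIRS must not be an
independent T3 function: its local factors are the `T6`-matches of the local factors upstairs.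
On the coordinate groups this is the PUSH-FORWARD of the core along the norm

    N : (ℤ²)^{ι₁'} × (ℝ²)^{ι₂'} → (ℤ²)^{ι₁} × (ℝ²)^{ι₂},
    N(m, x) = ((∑_{w | v} f_w m_w)_v, (∑_{w | v} r_w x_w)_v)

(`f_w` the residue degree; `r_w = 1` for a complex place over a complex place, `r_w = 2` for the
complex place over the real place in the coordinates `log |·|`).  The push-forward of a pure
tensor is the pure tensor of the local push-forwards:

* finite places: `A_v = D_{f_{w₀}} A'_{w₀} ⋆ ⋯ ⋆ D_{f_{w_{k-1}}} A'_{w_{k-1}}` (`convLZ`, `dilZ`;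
  inert: `A_v(m) = A'_w(m / ℓ)`, split: the convolution of the `A'_w`),
* infinite places: `β_v = D_{r_{w₀}} β'_{w₀} ⋆ ⋯ ⋆ D_{r_{w_{k-1}}} β'_{w_{k-1}}` (`convLE`, `dilE`)
  up to a constant,

LEFT NESTED along an enumeration of the fibre, in the convention
`(β ⋆ γ)(y) = ∫ β(u) γ(y - u) du` of `T6.convInt` (so that the iterated convolutions
`H305.convL305`, `T6.IsConvProd` of the local factors on the groups have these `N`-integrals).

**`PushTelC`** (THE LEAF; MATHLIB + `M/Spec.lean`): if a finite sum of pure tensors upstairs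
telescopes along `c₀(e', ℓ')`, then the sum of the pushed pure tensors telescopes along
`N c₀(e', ℓ') = c₀(∑ f_w e'_w, ∑ r_w ℓ'_w)`.  (Uniform scalars `sA v`, `sβ v` are allowed: the
constants of the `N`-integrals of convolutions.)
Proof: one merge of two coordinates at a time; `∑_j ∫ Ψ(σ_x(u) + j c) du = ∫ ∑_j … = 0`, the sum
over `j` is finite uniformly in `u` because the total degree `∑_w (m_w)₁` of a point of the
support is bounded and `∑_w f_w e'_w > 0`.

**Symmetry and regularity** (`Push/Top.lean`): the pushed factors are `IsSymFin` / `IsSymBump`,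
so the pushed family is again in `SymSpanCrd`.
-/

set_option autoImplicit false

open MeasureTheory

noncomputable section

namespace Fermat.Agent.LT.T3.Push

open Fermat.Agent.LT.T3.AS Fermat.Agent.LT.T3.M

/-! ## 1. The local push-forwards -/

/-- Convolution on `ℝ²` (Lebesgue measure), convention of `T6.convInt`:
`(β ⋆ γ)(y) = ∫ β(u) γ(y - u) du`. -/
def convE (β γ : ℝ × ℝ → ℂ) : ℝ × ℝ → ℂ :=
  fun y => ∫ u : ℝ × ℝ, β u * γ (y - u)

/-- Left nested iterated convolution on `ℝ²`: `b 0 ⋆ b 1 ⋆ ⋯ ⋆ b j`. -/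
def convLE (b : ℕ → ℝ × ℝ → ℂ) : ℕ → ℝ × ℝ → ℂ
  | 0 => b 0
  | (j + 1) => convE (convLE b j) (b (j + 1))

/-- Convolution on `ℤ²`: `(A ⋆ B)(n) = ∑_m A(m) B(n - m)`. -/
def convZ (A B : ℤ × ℤ → ℂ) : ℤ × ℤ → ℂ :=
  fun n => ∑ᶠ m : ℤ × ℤ, A m * B (n - m)

/-- Left nested iterated convolution on `ℤ²`: `b 0 ⋆ b 1 ⋆ ⋯ ⋆ b j`. -/
def convLZ (b : ℕ → ℤ × ℤ → ℂ) : ℕ → ℤ × ℤ → ℂ
  | 0 => b 0
  | (j + 1) => convZ (convLZ b j) (b (j + 1))

/-- The push-forward along `m ↦ f m` on `ℤ²`: `(D_f A)(n) = A(n / f)` if `f ∣ n`, `0` otherwise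
(the Satake coefficients of the base change at an inert place of degree `f`). -/
def dilZ (f : ℕ) (A : ℤ × ℤ → ℂ) : ℤ × ℤ → ℂ :=
  fun n => if (f : ℤ) ∣ n.1 ∧ (f : ℤ) ∣ n.2 then A (n.1 / (f : ℤ), n.2 / (f : ℤ)) else 0

/-- The push-forward along `x ↦ r x` on `ℝ²` (up to the constant `r⁻²`):
`(D_r β)(y) = β(r⁻¹ y)`. -/
def dilE (r : ℝ) (β : ℝ × ℝ → ℂ) : ℝ × ℝ → ℂ :=
  fun y => β (r⁻¹ • y)

/-! ## 2. Enumerations of the fibres -/

/-- `w i 0, …, w i (k i - 1)` enumerates the fibre of `ι' → ι` over `i`: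
`(i, j) ↦ w i j` (`j < k i`) is a bijection onto `ι'`, and no fibre is empty. -/
def IsFibEnum {ι' ι : Type} (k : ι → ℕ) (w : ι → ℕ → ι') : Prop :=
  (∀ i : ι, 0 < k i) ∧
    (∀ (i i₂ : ι) (j j₂ : ℕ), j < k i → j₂ < k i₂ → w i j = w i₂ j₂ → i = i₂ ∧ j = j₂) ∧
    ∀ i' : ι', ∃ (i : ι) (j : ℕ), j < k i ∧ w i j = i'

/-! ## 3. The leaf -/

/-- **T3.19 = PUSH-TEL (the push-forward of a telescoping sum of pure tensors telescopes;
MATHLIB + the definitions above).**  See the header. -/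
def PushTelC : Prop :=
  ∀ (ι₁' ι₁ ι₂' ι₂ I : Type) [Fintype ι₁'] [Fintype ι₁] [Fintype ι₂'] [Fintype ι₂] [Fintype I]
    (k₁ : ι₁ → ℕ) (w₁ : ι₁ → ℕ → ι₁') (k₂ : ι₂ → ℕ) (w₂ : ι₂ → ℕ → ι₂')
    (fd : ι₁' → ℕ) (rd : ι₂' → ℝ) (e' : ι₁' → ℕ) (ℓ' : ι₂' → ℝ),
    Nonempty ι₁ → IsFibEnum k₁ w₁ → IsFibEnum k₂ w₂ →
    (∀ i', 0 < fd i') → (∀ w', rd w' ≠ 0) → (∀ i', 0 < e' i') →
    ∀ (c : I → ℂ) (A' : I → ι₁' → ℤ × ℤ → ℂ) (β' : I → ι₂' → ℝ × ℝ → ℂ),
      (∀ a i', (Function.support (A' a i')).Finite) →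
      (∀ a w', Continuous (β' a w') ∧ HasCompactSupport (β' a w')) →
      (∀ Δ' : Crd ι₁' ι₂',
        HasSum (fun j : ℤ => ∑ a, c a * pureCrd (A' a) (β' a) (Δ' + j • c0 e' ℓ')) 0) →
      ∀ (sA : ι₁ → ℂ) (sβ : ι₂ → ℂ) (Δ : Crd ι₁ ι₂),
        HasSum (fun j : ℤ => ∑ a, c a *
          pureCrd
            (fun i n => sA i *
              convLZ (fun j => dilZ (fd (w₁ i j)) (A' a (w₁ i j))) (k₁ i - 1) n)
            (fun v y => sβ v *
              convLE (fun j => dilE (rd (w₂ v j)) (β' a (w₂ v j))) (k₂ v - 1) y)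
            (Δ + j • c0 (fun i => ∑ j ∈ Finset.range (k₁ i), fd (w₁ i j) * e' (w₁ i j))
              (fun v => ∑ j ∈ Finset.range (k₂ v), rd (w₂ v j) * ℓ' (w₂ v j)))) 0

/-! ## Appendix: the equation lemmas of the definitions of this file are realised HERE -/

theorem eqns_realised_pushSpec : True := by
  have _a1 := @convE.eq_1
  have _a2 := @convLE.eq_1
  have _a3 := @convLE.eq_2
  have _a4 := @convLE.eq_def
  have _a5 := @convLE.eq_unfold
  have _b1 := @convZ.eq_1
  have _b2 := @convLZ.eq_1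
  have _b3 := @convLZ.eq_2
  have _b4 := @convLZ.eq_def
  have _b5 := @convLZ.eq_unfold
  have _c1 := @dilZ.eq_1
  have _c2 := @dilE.eq_1
  have _d1 := @IsFibEnum.eq_1
  have _d2 := @PushTelC.eq_1
  trivial

end Fermat.Agent.LT.T3.Push

end

end
-- ===== PACK-END LT/T3/Push/Spec.lean

-- ===== PACK-BEGIN LT/T3/Push/Kits.lean
section



/-!
# Row LT, tower T3, station T3.19 (helper14): the push-forward of the core -- THE TWO KITS

OFF-MAIN.  Complete proofs.  ADDITIVE (new names only, namespace `T3.Push`).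

* `kitZ`: finite sums on `ℤ²` (`F = R =` finite support); `kitZ.conv = convZ`.
* `kitE`: Lebesgue integral on `ℝ²` (`F =` integrable, `R =` continuous with compact support);
  `kitE.conv = convE`.
-/

set_option autoImplicit false
set_option linter.unusedVariables false

open MeasureTheory

noncomputable section

namespace Fermat.Agent.LT.T3.Push

/-! ## 1. `ℤ²` -/

theorem finite_support_convZ (β γ : ℤ × ℤ → ℂ) (hβ : (Function.support β).Finite)
    (hγ : (Function.support γ).Finite) :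
    (Function.support fun y => ∑ᶠ u : ℤ × ℤ, β u * γ (y - u)).Finite := by
  refine ((hβ.prod hγ).image fun p : (ℤ × ℤ) × (ℤ × ℤ) => p.1 + p.2).subset ?_
  intro y hy
  rw [Function.mem_support] at hy
  have : ∃ u, β u * γ (y - u) ≠ 0 := by
    by_contra hc
    apply hy
    have : (fun u => β u * γ (y - u)) = fun _ => 0 := by
      funext u
      by_contra hu
      exact hc ⟨u, hu⟩
    rw [this, finsum_zero]
  obtain ⟨u, hu⟩ := this
  refine ⟨(u, y - u), ⟨?_, ?_⟩, by simp⟩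
  · exact fun h0 => hu (by rw [show β u = 0 from h0, zero_mul])
  · exact fun h0 => hu (by rw [show γ (y - u) = 0 from h0, mul_zero])

/-- The kit of the finite sums on `ℤ²`. -/
def kitZ : IntKit (ℤ × ℤ) where
  I := fun f => ∑ᶠ m : ℤ × ℤ, f m
  F := fun f => (Function.support f).Finite
  R := fun f => (Function.support f).Finite
  I_zero := finsum_zero
  I_add := fun f g hf hg => finsum_add_distrib hf hg
  I_smul := fun c f _ => (mul_finsum f c).symm
  I_trans := fun f h _ => finsum_comp_equiv (Equiv.addRight h) (f := f)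
  F_zero := by simp
  F_add := fun f g hf hg => (hf.union hg).subset (Function.support_add f g)
  F_smul := fun c f hf => hf.subset (by
    intro u hu
    rw [Function.mem_support] at hu ⊢
    exact fun h0 => hu (by rw [h0, mul_zero]))
  F_trans := fun f h hf => by
    have : (Function.support fun u => f (u + h)) = (fun u => u + h) ⁻¹' Function.support f := rfl
    rw [this]
    exact hf.preimage (fun a _ b _ hab => add_right_cancel hab)
  F_conv := fun β γ hβ _ y => hβ.subset (by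
    intro u hu
    rw [Function.mem_support] at hu ⊢
    exact fun h0 => hu (by rw [h0, zero_mul]))
  R_conv := fun β γ hβ hγ => finite_support_convZ β γ hβ hγ

theorem kitZ_conv (A B : ℤ × ℤ → ℂ) : kitZ.conv A B = convZ A B := rfl

theorem kitZ_convL (b : ℕ → ℤ × ℤ → ℂ) (n : ℕ) : kitZ.convL b n = convLZ b n := by
  induction n with
  | zero => rfl
  | succ n ih =>
    show kitZ.conv (kitZ.convL b n) (b (n + 1)) = convZ (convLZ b n) (b (n + 1))
    rw [ih, kitZ_conv]

/-! ## 2. `ℝ²` -/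

theorem convE_eq_convolution (β γ : ℝ × ℝ → ℂ) :
    (fun y => ∫ u : ℝ × ℝ, β u * γ (y - u))
      = convolution β γ (ContinuousLinearMap.mul ℝ ℂ) volume := by
  funext y
  rw [convolution_def]
  rfl

theorem cont_convE (β γ : ℝ × ℝ → ℂ) (hβ : Continuous β ∧ HasCompactSupport β)
    (hγ : Continuous γ ∧ HasCompactSupport γ) :
    Continuous (fun y => ∫ u : ℝ × ℝ, β u * γ (y - u)) ∧
      HasCompactSupport (fun y => ∫ u : ℝ × ℝ, β u * γ (y - u)) := by
  rw [convE_eq_convolution]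
  exact ⟨hγ.2.continuous_convolution_right _ hβ.1.locallyIntegrable hγ.1,
    hβ.2.convolution _ hγ.2⟩

theorem integrable_convE (β γ : ℝ × ℝ → ℂ) (hβ : Continuous β ∧ HasCompactSupport β)
    (hγ : Continuous γ) (y : ℝ × ℝ) : Integrable (fun u => β u * γ (y - u)) := by
  have hc : Continuous fun u => β u * γ (y - u) :=
    hβ.1.mul (hγ.comp (continuous_const.sub continuous_id))
  have hs : HasCompactSupport fun u => β u * γ (y - u) := hβ.2.mul_right
  exact hc.integrable_of_hasCompactSupport hs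

/-- The kit of the Lebesgue integral on `ℝ²`. -/
def kitE : IntKit (ℝ × ℝ) where
  I := fun f => ∫ u : ℝ × ℝ, f u
  F := fun f => Integrable f (volume : Measure (ℝ × ℝ))
  R := fun f => Continuous f ∧ HasCompactSupport f
  I_zero := integral_zero _ _
  I_add := fun f g hf hg => integral_add hf hg
  I_smul := fun c f _ => integral_const_mul c f
  I_trans := fun f h _ => integral_add_right_eq_self f h
  F_zero := integrable_zero _ _ _
  F_add := fun f g hf hg => hf.add hg
  F_smul := fun c f hf => hf.const_mul c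
  F_trans := fun f h hf => hf.comp_add_right h
  F_conv := fun β γ hβ hγ y => integrable_convE β γ hβ hγ.1 y
  R_conv := fun β γ hβ hγ => cont_convE β γ hβ hγ

theorem kitE_conv (β γ : ℝ × ℝ → ℂ) : kitE.conv β γ = convE β γ := rfl

theorem kitE_convL (b : ℕ → ℝ × ℝ → ℂ) (n : ℕ) : kitE.convL b n = convLE b n := by
  induction n with
  | zero => rfl
  | succ n ih =>
    show kitE.conv (kitE.convL b n) (b (n + 1)) = convE (convLE b n) (b (n + 1))
    rw [ih, kitE_conv]

/-! ## Appendix: the equation lemmas of the definitions of this file are realised HERE -/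

theorem eqns_realised_pushKits : True := by
  have _a1 := @kitZ.eq_1
  have _a2 := @kitE.eq_1
  trivial

end Fermat.Agent.LT.T3.Push

end

end
-- ===== PACK-END LT/T3/Push/Kits.lean

-- ===== PACK-BEGIN LT/T3/Push/Dil.lean
section


/-!
# Row LT, tower T3, station T3.19 (helper14): the push-forward of the core -- THE DILATIONS

OFF-MAIN.  Complete proofs.  ADDITIVE (new names only, namespace `T3.Push`).

The first step of the push-forward: the coordinatewise dilations `m_w ↦ f_w m_w`,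
`x_w ↦ r_w x_w` (`dil_tel`); the elementary properties of `dilZ`, `dilE`.
-/

set_option autoImplicit false

open MeasureTheory

noncomputable section

namespace Fermat.Agent.LT.T3.Push

open Fermat.Agent.LT.T3.M

theorem dilZ_one (A : ℤ × ℤ → ℂ) : dilZ 1 A = A := by
  funext n
  simp [dilZ]

theorem dilE_one (β : ℝ × ℝ → ℂ) : dilE 1 β = β := by
  funext y
  simp [dilE]

theorem dilZ_mul (f : ℕ) (hf : 0 < f) (A : ℤ × ℤ → ℂ) (m : ℤ × ℤ) :
    dilZ f A (((f : ℤ) * m.1, (f : ℤ) * m.2)) = A m := by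
  have hf' : (f : ℤ) ≠ 0 := by exact_mod_cast hf.ne'
  unfold dilZ
  rw [if_pos ⟨dvd_mul_right _ _, dvd_mul_right _ _⟩]
  simp [Int.mul_ediv_cancel_left _ hf']

theorem dilZ_of_not (f : ℕ) (A : ℤ × ℤ → ℂ) (n : ℤ × ℤ)
    (h : ¬ ((f : ℤ) ∣ n.1 ∧ (f : ℤ) ∣ n.2)) : dilZ f A n = 0 := by
  unfold dilZ
  rw [if_neg h]

/-- `dilZ` along the direction `(f e, 0)`. -/
theorem dilZ_shift (f : ℕ) (hf : 0 < f) (A : ℤ × ℤ → ℂ) (n : ℤ × ℤ) (j : ℤ) (e : ℕ) :
    dilZ f A (n + j • ((((f * e : ℕ) : ℤ), 0) : ℤ × ℤ))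
      = if (f : ℤ) ∣ n.1 ∧ (f : ℤ) ∣ n.2 then
          A ((n.1 / (f : ℤ), n.2 / (f : ℤ)) + j • (((e : ℤ), 0) : ℤ × ℤ)) else 0 := by
  have hf' : (f : ℤ) ≠ 0 := by exact_mod_cast hf.ne'
  have h1 : (n + j • ((((f * e : ℕ) : ℤ), 0) : ℤ × ℤ)).1 = n.1 + (f : ℤ) * (j * e) := by
    simp only [Prod.fst_add, Prod.smul_fst, smul_eq_mul, Nat.cast_mul]
    ring
  have h2 : (n + j • ((((f * e : ℕ) : ℤ), 0) : ℤ × ℤ)).2 = n.2 := by
    simp
  have hd : (f : ℤ) ∣ n.1 + (f : ℤ) * (j * e) ↔ (f : ℤ) ∣ n.1 :=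
    Int.dvd_add_left (dvd_mul_right _ _)
  unfold dilZ
  rw [h1, h2]
  by_cases hdiv : (f : ℤ) ∣ n.1 ∧ (f : ℤ) ∣ n.2
  · rw [if_pos ⟨hd.2 hdiv.1, hdiv.2⟩, if_pos hdiv, Int.add_mul_ediv_left _ _ hf']
    congr 1
    ext <;> simp
  · rw [if_neg fun h => hdiv ⟨hd.1 h.1, h.2⟩, if_neg hdiv]

/-- `dilE` along the direction `(r ℓ, 0)`. -/
theorem dilE_shift (r : ℝ) (hr : r ≠ 0) (β : ℝ × ℝ → ℂ) (x : ℝ × ℝ) (j : ℤ) (ℓ : ℝ) :
    dilE r β (x + j • ((r * ℓ, 0) : ℝ × ℝ)) = β (r⁻¹ • x + j • ((ℓ, 0) : ℝ × ℝ)) := by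
  unfold dilE
  congr 1
  ext
  · simp only [Prod.smul_fst, Prod.fst_add, smul_eq_mul]
    rw [zsmul_eq_mul, zsmul_eq_mul]
    field_simp
  · simp

theorem finite_support_dilZ (f : ℕ) (A : ℤ × ℤ → ℂ) (hA : (Function.support A).Finite) :
    (Function.support (dilZ f A)).Finite := by
  refine (hA.image fun m : ℤ × ℤ => ((f : ℤ) * m.1, (f : ℤ) * m.2)).subset ?_
  intro n hn
  rw [Function.mem_support] at hn
  by_cases hdiv : (f : ℤ) ∣ n.1 ∧ (f : ℤ) ∣ n.2
  · unfold dilZ at hn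
    rw [if_pos hdiv] at hn
    refine ⟨(n.1 / (f : ℤ), n.2 / (f : ℤ)), hn, ?_⟩
    ext
    · exact Int.mul_ediv_cancel' hdiv.1
    · exact Int.mul_ediv_cancel' hdiv.2
  · exact absurd (dilZ_of_not f A n hdiv) hn

theorem cont_dilE (r : ℝ) (hr : r ≠ 0) (β : ℝ × ℝ → ℂ)
    (hβ : Continuous β ∧ HasCompactSupport β) :
    Continuous (dilE r β) ∧ HasCompactSupport (dilE r β) := by
  have hr' : r⁻¹ ≠ 0 := inv_ne_zero hr
  refine ⟨hβ.1.comp (continuous_const_smul r⁻¹), ?_⟩
  exact hβ.2.comp_homeomorph (Homeomorph.smulOfNeZero r⁻¹ hr')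

/-- **THE DILATIONS**: the sum of the dilated pure tensors telescopes along the dilated
direction. -/
theorem dil_tel {ι₁' ι₂' I : Type} [Fintype ι₁'] [Fintype ι₂'] [Fintype I]
    (fd : ι₁' → ℕ) (rd : ι₂' → ℝ) (e' : ι₁' → ℕ) (ℓ' : ι₂' → ℝ)
    (hfd : ∀ i', 0 < fd i') (hrd : ∀ w', rd w' ≠ 0)
    (c : I → ℂ) (A' : I → ι₁' → ℤ × ℤ → ℂ) (β' : I → ι₂' → ℝ × ℝ → ℂ)
    (htel : ∀ Δ' : Crd ι₁' ι₂',
      HasSum (fun j : ℤ => ∑ a, c a * pureCrd (A' a) (β' a) (Δ' + j • c0 e' ℓ')) 0)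
    (m : ι₁' → ℤ × ℤ) (x : ι₂' → ℝ × ℝ) :
    HasSum (fun j : ℤ => ∑ a, c a *
      ((∏ i', dilZ (fd i') (A' a i') (m i' + j • ((((fd i' * e' i' : ℕ) : ℤ), 0) : ℤ × ℤ)))
        * ∏ w', dilE (rd w') (β' a w') (x w' + j • ((rd w' * ℓ' w', 0) : ℝ × ℝ)))) 0 := by
  by_cases hdiv : ∀ i', (fd i' : ℤ) ∣ (m i').1 ∧ (fd i' : ℤ) ∣ (m i').2
  · have := htel (fun i' => ((m i').1 / (fd i' : ℤ), (m i').2 / (fd i' : ℤ)),
      fun w' => (rd w')⁻¹ • x w')
    have e : (fun j : ℤ => ∑ a, c a *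
        ((∏ i', dilZ (fd i') (A' a i')
            (m i' + j • ((((fd i' * e' i' : ℕ) : ℤ), 0) : ℤ × ℤ)))
          * ∏ w', dilE (rd w') (β' a w') (x w' + j • ((rd w' * ℓ' w', 0) : ℝ × ℝ))))
        = fun j : ℤ => ∑ a, c a * pureCrd (A' a) (β' a)
            (((fun i' => ((m i').1 / (fd i' : ℤ), (m i').2 / (fd i' : ℤ)),
              fun w' => (rd w')⁻¹ • x w') : Crd ι₁' ι₂') + j • c0 e' ℓ') := by
      funext j
      refine Finset.sum_congr rfl fun a _ => ?_
      congr 1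
      unfold pureCrd
      congr 1
      · refine Finset.prod_congr rfl fun i' _ => ?_
        rw [dilZ_shift _ (hfd i'), if_pos (hdiv i')]
        rfl
      · refine Finset.prod_congr rfl fun w' _ => ?_
        rw [dilE_shift _ (hrd w')]
        rfl
    rw [e]; exact this
  · rw [not_forall] at hdiv
    obtain ⟨i₀, hi₀⟩ := hdiv
    have e : (fun j : ℤ => ∑ a, c a *
        ((∏ i', dilZ (fd i') (A' a i')
            (m i' + j • ((((fd i' * e' i' : ℕ) : ℤ), 0) : ℤ × ℤ)))
          * ∏ w', dilE (rd w') (β' a w') (x w' + j • ((rd w' * ℓ' w', 0) : ℝ × ℝ))))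
        = fun _ => 0 := by
      funext j
      refine Finset.sum_eq_zero fun a _ => ?_
      have : ∏ i', dilZ (fd i') (A' a i')
          (m i' + j • ((((fd i' * e' i' : ℕ) : ℤ), 0) : ℤ × ℤ)) = 0 := by
        refine Finset.prod_eq_zero (Finset.mem_univ i₀) ?_
        rw [dilZ_shift _ (hfd i₀), if_neg hi₀]
      rw [this, zero_mul, mul_zero]
    rw [e]; exact hasSum_zero

end Fermat.Agent.LT.T3.Push

end

end
-- ===== PACK-END LT/T3/Push/Dil.lean

-- ===== PACK-BEGIN LT/T7/H910/ArchComm.lean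
section







/-!
# Row LT, tower T7, ASSET ARCH-COMM (helper910): the Gelfand pair `(GL₂(ℂ), U(2))`

OFF-MAIN.  No hole, nothing assumed.  ADDITIVE (new names only, suffix `910`).  Imports:
Mathlib, `T6/Spec` (`T6.convInt`), `T7/H305/MatchSpec` (`convL305`, `conjGL305`) and three
Mathlib-only assets, byte-identical copies of the master tree: `T6/H8/Unimod.lean` (helper8:
`GL₂(ℂ)` is unimodular), `T2/H729/ThetaMeas.lean` (helper729: an involutive anti-automorphism
preserves Haar measure), `T2/H8/LocCpxCore.lean` (helper8: `Mᵀ = A M B`, `A, B` unitary).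

## Why

The clause `arch` of `H305.LocHyp305` / `H893.LocHyp893` asks
`F v = convL305 μc (fun j => Φ (w j)) (l - 1)` for ALL enumerations `w` of the places over `v`,
and the calculus of pure tensors (`H893.ProdMtCb`) needs
`convL305 (Φ¹ ∘ w) ⋆ convL305 (Φ² ∘ w) = convL305 ((Φ¹ ⋆ Φ²) ∘ w)`.  Both are the commutativity
of the convolution algebra of the bi-`U(2)`-invariant functions (`H893.ArchOk893`).
-/

set_option autoImplicit false
set_option maxHeartbeats 400000

open MeasureTheory Matrix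
open scoped Pointwise

noncomputable section

namespace Fermat.Agent.LT.T7.H910

open Fermat.Agent.LT

/-- `Φ` is bi-invariant under `U(2)` (the form of `H893.ArchOk893`). -/
def IsBiU2_910 (Φ : GL (Fin 2) ℂ → ℂ) : Prop :=
  ∀ k₁ k₂ g : GL (Fin 2) ℂ,
    (k₁ : Matrix (Fin 2) (Fin 2) ℂ) * (k₁ : Matrix (Fin 2) (Fin 2) ℂ).conjTranspose = 1 →
    (k₂ : Matrix (Fin 2) (Fin 2) ℂ) * (k₂ : Matrix (Fin 2) (Fin 2) ℂ).conjTranspose = 1 →
    Φ (k₁ * g * k₂) = Φ g

theorem IsBiU2_910.left {Φ : GL (Fin 2) ℂ → ℂ} (h : IsBiU2_910 Φ) (k g : GL (Fin 2) ℂ)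
    (hk : (k : Matrix (Fin 2) (Fin 2) ℂ) * (k : Matrix (Fin 2) (Fin 2) ℂ).conjTranspose = 1) :
    Φ (k * g) = Φ g := by
  have := h k 1 g hk (by simp)
  simpa using this

theorem IsBiU2_910.right {Φ : GL (Fin 2) ℂ → ℂ} (h : IsBiU2_910 Φ) (k g : GL (Fin 2) ℂ)
    (hk : (k : Matrix (Fin 2) (Fin 2) ℂ) * (k : Matrix (Fin 2) (Fin 2) ℂ).conjTranspose = 1) :
    Φ (g * k) = Φ g := by
  have := h 1 k g (by simp) hk
  simpa using this

/-! ## 1. Transposition -/

/-- Transposition on `GL₂(ℂ)`. -/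
def trGL910 (g : GL (Fin 2) ℂ) : GL (Fin 2) ℂ :=
  ⟨(g : Matrix (Fin 2) (Fin 2) ℂ)ᵀ, ((g⁻¹ : GL (Fin 2) ℂ) : Matrix (Fin 2) (Fin 2) ℂ)ᵀ,
    by rw [← Matrix.transpose_mul, Units.inv_mul, Matrix.transpose_one],
    by rw [← Matrix.transpose_mul, Units.mul_inv, Matrix.transpose_one]⟩

@[simp] theorem trGL910_val (g : GL (Fin 2) ℂ) :
    ((trGL910 g : GL (Fin 2) ℂ) : Matrix (Fin 2) (Fin 2) ℂ)
      = (g : Matrix (Fin 2) (Fin 2) ℂ)ᵀ := rfl

theorem trGL910_mul (g h : GL (Fin 2) ℂ) : trGL910 (g * h) = trGL910 h * trGL910 g := by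
  apply Units.ext
  simp [Matrix.transpose_mul]

theorem trGL910_trGL910 (g : GL (Fin 2) ℂ) : trGL910 (trGL910 g) = g := by
  apply Units.ext
  simp

theorem trGL910_inv (g : GL (Fin 2) ℂ) : trGL910 g⁻¹ = (trGL910 g)⁻¹ := by
  apply eq_inv_of_mul_eq_one_left
  rw [← trGL910_mul, mul_inv_cancel]
  apply Units.ext
  simp

theorem continuous_trGL910 : Continuous trGL910 := by
  rw [Units.continuous_iff]
  refine ⟨?_, ?_⟩
  · exact (Units.continuous_val).matrix_transpose
  · have h : (fun g : GL (Fin 2) ℂ => ((trGL910 g)⁻¹ : GL (Fin 2) ℂ).val)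
        = fun g => ((g⁻¹ : GL (Fin 2) ℂ) : Matrix (Fin 2) (Fin 2) ℂ)ᵀ := by
      funext g
      rw [← trGL910_inv]
      rfl
    rw [h]
    exact (Units.continuous_val.comp continuous_inv).matrix_transpose

/-- A unitary matrix as an element of `GL₂(ℂ)`. -/
def unitGL910 (A : Matrix (Fin 2) (Fin 2) ℂ) (hA : A * Aᴴ = 1) : GL (Fin 2) ℂ :=
  ⟨A, Aᴴ, hA, mul_eq_one_comm.mp hA⟩

/-- **Bi-`U(2)`-invariant functions are invariant under transposition** (Cartan
decomposition). -/
theorem IsBiU2_910.tr {Φ : GL (Fin 2) ℂ → ℂ} (h : IsBiU2_910 Φ) (g : GL (Fin 2) ℂ) :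
    Φ (trGL910 g) = Φ g := by
  have hdet : (g : Matrix (Fin 2) (Fin 2) ℂ).det ≠ 0 := by
    have := (Matrix.isUnit_iff_isUnit_det (g : Matrix (Fin 2) (Fin 2) ℂ)).mp g.isUnit
    exact this.ne_zero
  obtain ⟨A, B, hA, hB, hAB⟩ := T2.H8.exists_unitary_transpose8 (g : Matrix (Fin 2) (Fin 2) ℂ) hdet
  have e : trGL910 g = unitGL910 A hA * g * unitGL910 B hB := by
    apply Units.ext
    simpa [unitGL910] using hAB
  rw [e]
  exact h _ _ _ hA hB

/-! ## 2. Haar measure -/

section Meas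

variable [MeasurableSpace (GL (Fin 2) ℂ)] [BorelSpace (GL (Fin 2) ℂ)]
  (μ : Measure (GL (Fin 2) ℂ)) [μ.IsHaarMeasure]

theorem isMulRightInvariant910 : μ.IsMulRightInvariant :=
  ⟨(T6.H8.rightInv_GL2C8 μ).1⟩

theorem isInvInvariant910 : μ.IsInvInvariant :=
  ⟨(T6.H8.rightInv_GL2C8 μ).2⟩

/-- Transposition preserves every Haar measure of `GL₂(ℂ)`. -/
theorem measurePreserving_trGL910 : MeasurePreserving trGL910 μ μ := by
  haveI := T6.H8.locallyCompactSpace_GL2C8
  haveI := T6.H8.secondCountableTopology_GL2C8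
  haveI := isMulRightInvariant910 μ
  exact T2.H729.measurePreserving_antiInvolution729 μ trGL910 continuous_trGL910
    trGL910_trGL910 trGL910_mul

/-- Transposition as a measurable equivalence. -/
def trEquiv910 : GL (Fin 2) ℂ ≃ᵐ GL (Fin 2) ℂ where
  toFun := trGL910
  invFun := trGL910
  left_inv := trGL910_trGL910
  right_inv := trGL910_trGL910
  measurable_toFun := continuous_trGL910.measurable
  measurable_invFun := continuous_trGL910.measurable

theorem integral_comp_trGL910 (F : GL (Fin 2) ℂ → ℂ) :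
    ∫ y, F (trGL910 y) ∂μ = ∫ y, F y ∂μ :=
  (measurePreserving_trGL910 μ).integral_comp' (f := trEquiv910) F

/-- `z ↦ z⁻¹ * a` preserves every Haar measure of `GL₂(ℂ)`. -/
theorem integral_comp_inv_mul910 (a : GL (Fin 2) ℂ) (F : GL (Fin 2) ℂ → ℂ) :
    ∫ z, F (z⁻¹ * a) ∂μ = ∫ y, F y ∂μ := by
  haveI := isMulRightInvariant910 μ
  haveI := isInvInvariant910 μ
  have h1 : ∫ z, F (z⁻¹ * a) ∂μ = ∫ z, F (z * a) ∂μ := by
    have := integral_inv_eq_self (fun z => F (z * a)) μ
    simpa using this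
  rw [h1, integral_mul_right_eq_self]

end Meas

/-! ## 3. The convolution of bi-invariant functions -/

/-- The definition of `T6.convInt` (by `rfl`: no equation lemma of `T6/Spec` is realised
here). -/
theorem convInt_apply910 [MeasurableSpace (GL (Fin 2) ℂ)] (μ : Measure (GL (Fin 2) ℂ))
    (Φ Ψ : GL (Fin 2) ℂ → ℂ) (x : GL (Fin 2) ℂ) :
    T6.convInt μ Φ Ψ x = ∫ y, Φ y * Ψ (y⁻¹ * x) ∂μ := rfl

section Conv

variable [MeasurableSpace (GL (Fin 2) ℂ)] [BorelSpace (GL (Fin 2) ℂ)]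
  (μ : Measure (GL (Fin 2) ℂ)) [μ.IsHaarMeasure]

/-- The convolution of bi-`U(2)`-invariant functions is bi-`U(2)`-invariant. -/
theorem isBiU2_convInt910 {Φ Ψ : GL (Fin 2) ℂ → ℂ} (hΦ : IsBiU2_910 Φ) (hΨ : IsBiU2_910 Ψ) :
    IsBiU2_910 (T6.convInt μ Φ Ψ) := by
  intro k₁ k₂ g hk₁ hk₂
  rw [convInt_apply910, convInt_apply910]
  have h1 : ∀ y : GL (Fin 2) ℂ, Φ y * Ψ (y⁻¹ * (k₁ * g * k₂)) = Φ y * Ψ (y⁻¹ * (k₁ * g)) := by
    intro y
    have : y⁻¹ * (k₁ * g * k₂) = y⁻¹ * (k₁ * g) * k₂ := by group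
    rw [this, hΨ.right _ _ hk₂]
  simp_rw [h1]
  have h2 := integral_mul_left_eq_self (μ := μ) (fun y => Φ y * Ψ (y⁻¹ * (k₁ * g))) k₁
  rw [← h2]
  refine integral_congr_ae (Filter.Eventually.of_forall fun y => ?_)
  have : (k₁ * y)⁻¹ * (k₁ * g) = y⁻¹ * g := by group
  simp only [this, hΦ.left _ _ hk₁]

/-- **GELFAND**: the convolution of bi-`U(2)`-invariant functions on `GL₂(ℂ)` is
commutative (no integrability hypothesis). -/
theorem convInt_comm_gen910 {Φ Ψ : GL (Fin 2) ℂ → ℂ} (hΦ : IsBiU2_910 Φ) (hΨ : IsBiU2_910 Ψ)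
    (x : GL (Fin 2) ℂ) : T6.convInt μ Φ Ψ x = T6.convInt μ Ψ Φ x := by
  have hA : T6.convInt μ Φ Ψ x = T6.convInt μ Ψ Φ (trGL910 x) := by
    rw [convInt_apply910, convInt_apply910]
    have e1 : ∀ y : GL (Fin 2) ℂ,
        Φ y * Ψ (y⁻¹ * x) = (fun y' => Φ y' * Ψ (trGL910 x * y'⁻¹)) (trGL910 y) := by
      intro y
      simp only
      rw [hΦ.tr, ← trGL910_inv, ← trGL910_mul, hΨ.tr]
    simp_rw [e1]
    rw [integral_comp_trGL910 μ (fun y' => Φ y' * Ψ (trGL910 x * y'⁻¹))]
    rw [← integral_comp_inv_mul910 μ (trGL910 x) (fun y' => Φ y' * Ψ (trGL910 x * y'⁻¹))]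
    refine integral_congr_ae (Filter.Eventually.of_forall fun z => ?_)
    have : trGL910 x * (z⁻¹ * trGL910 x)⁻¹ = z := by group
    simp only [this, mul_comm]
  rw [hA, (isBiU2_convInt910 μ hΨ hΦ).tr]

end Conv

/-! ## 4. Continuity, support and associativity of the convolution -/

section Top

variable [MeasurableSpace (GL (Fin 2) ℂ)] [BorelSpace (GL (Fin 2) ℂ)]
  (μ : Measure (GL (Fin 2) ℂ)) [μ.IsHaarMeasure]

theorem convInt_eq_zero_of910 {Φ Ψ : GL (Fin 2) ℂ → ℂ} {x : GL (Fin 2) ℂ}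
    (h : x ∉ tsupport Φ * tsupport Ψ) : T6.convInt μ Φ Ψ x = 0 := by
  rw [convInt_apply910]
  have h0 : ∀ y : GL (Fin 2) ℂ, Φ y * Ψ (y⁻¹ * x) = 0 := by
    intro y
    by_contra hne
    have h1 : Φ y ≠ 0 := left_ne_zero_of_mul hne
    have h2 : Ψ (y⁻¹ * x) ≠ 0 := right_ne_zero_of_mul hne
    apply h
    exact Set.mem_mul.mpr ⟨y, subset_tsupport _ h1, y⁻¹ * x, subset_tsupport _ h2, by group⟩
  simp [h0]

theorem hasCompactSupport_convInt910 {Φ Ψ : GL (Fin 2) ℂ → ℂ} (hΦ : HasCompactSupport Φ)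
    (hΨ : HasCompactSupport Ψ) : HasCompactSupport (T6.convInt μ Φ Ψ) :=
  HasCompactSupport.intro (IsCompact.mul hΦ hΨ) (fun _ hx => convInt_eq_zero_of910 μ hx)

theorem continuous_convInt910 {Φ Ψ : GL (Fin 2) ℂ → ℂ} (hΦ : Continuous Φ)
    (hΦc : HasCompactSupport Φ) (hΨ : Continuous Ψ) : Continuous (T6.convInt μ Φ Ψ) := by
  have := T6.H8.locallyCompactSpace_GL2C8
  have := T6.H8.secondCountableTopology_GL2C8
  have h1 : T6.convInt μ Φ Ψ = fun x => ∫ y in tsupport Φ, Φ y * Ψ (y⁻¹ * x) ∂μ := by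
    funext x
    rw [convInt_apply910]
    symm
    apply setIntegral_eq_integral_of_forall_compl_eq_zero
    intro y hy
    rw [image_eq_zero_of_notMem_tsupport hy, zero_mul]
  rw [h1]
  have hc : Continuous (Function.uncurry fun (x y : GL (Fin 2) ℂ) => Φ y * Ψ (y⁻¹ * x)) :=
    (hΦ.comp continuous_snd).mul
      (hΨ.comp ((continuous_inv.comp continuous_snd).mul continuous_fst))
  exact continuous_parametric_integral_of_continuous hc hΦc

/-- **ASSOCIATIVITY** of the convolution of continuous functions with compact support. -/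
theorem convInt_assoc_gen910 {Φ Ψ Χ : GL (Fin 2) ℂ → ℂ} (hΦ : Continuous Φ)
    (hΦc : HasCompactSupport Φ) (hΨ : Continuous Ψ) (hΨc : HasCompactSupport Ψ)
    (hΧ : Continuous Χ) (x : GL (Fin 2) ℂ) :
    T6.convInt μ (T6.convInt μ Φ Ψ) Χ x = T6.convInt μ Φ (T6.convInt μ Ψ Χ) x := by
  have := T6.H8.locallyCompactSpace_GL2C8
  have := T6.H8.secondCountableTopology_GL2C8
  have hL : T6.convInt μ (T6.convInt μ Φ Ψ) Χ x
      = ∫ y, ∫ z, Φ z * Ψ (z⁻¹ * y) * Χ (y⁻¹ * x) ∂μ ∂μ := by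
    rw [convInt_apply910]
    refine integral_congr_ae (Filter.Eventually.of_forall fun y => ?_)
    simp only [convInt_apply910]
    exact (integral_mul_const _ _).symm
  have hR : T6.convInt μ Φ (T6.convInt μ Ψ Χ) x
      = ∫ z, ∫ y, Φ z * Ψ (z⁻¹ * y) * Χ (y⁻¹ * x) ∂μ ∂μ := by
    rw [convInt_apply910]
    refine integral_congr_ae (Filter.Eventually.of_forall fun z => ?_)
    simp only [convInt_apply910]
    rw [← integral_const_mul]
    rw [← integral_mul_left_eq_self (μ := μ) (fun y => Φ z * Ψ (z⁻¹ * y) * Χ (y⁻¹ * x)) z]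
    refine integral_congr_ae (Filter.Eventually.of_forall fun y => ?_)
    have e1 : z⁻¹ * (z * y) = y := by group
    have e2 : (z * y)⁻¹ * x = y⁻¹ * (z⁻¹ * x) := by group
    simp only [e1, e2, mul_assoc]
  rw [hL, hR]
  have hcont : Continuous (Function.uncurry fun (y z : GL (Fin 2) ℂ) =>
      Φ z * Ψ (z⁻¹ * y) * Χ (y⁻¹ * x)) :=
    ((hΦ.comp continuous_snd).mul
      (hΨ.comp ((continuous_inv.comp continuous_snd).mul continuous_fst))).mul
      (hΧ.comp ((continuous_inv.comp continuous_fst).mul continuous_const))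
  have hsupp : HasCompactSupport (Function.uncurry fun (y z : GL (Fin 2) ℂ) =>
      Φ z * Ψ (z⁻¹ * y) * Χ (y⁻¹ * x)) := by
    refine HasCompactSupport.intro ((IsCompact.mul hΦc hΨc).prod hΦc) ?_
    rintro ⟨y, z⟩ hyz
    simp only [Function.uncurry_apply_pair]
    by_contra hne
    have h12 : Φ z * Ψ (z⁻¹ * y) ≠ 0 := left_ne_zero_of_mul hne
    have h1 : Φ z ≠ 0 := left_ne_zero_of_mul h12
    have h2 : Ψ (z⁻¹ * y) ≠ 0 := right_ne_zero_of_mul h12
    apply hyz
    refine Set.mk_mem_prod ?_ (subset_tsupport _ h1)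
    exact Set.mem_mul.mpr ⟨z, subset_tsupport _ h1, z⁻¹ * y, subset_tsupport _ h2, by group⟩
  exact integral_integral_swap (hcont.integrable_of_hasCompactSupport hsupp)

end Top

/-! ## 5. Complex conjugation -/

theorem conjGL305_val910 (g : GL (Fin 2) ℂ) :
    ((H305.conjGL305 g : GL (Fin 2) ℂ) : Matrix (Fin 2) (Fin 2) ℂ)
      = (g : Matrix (Fin 2) (Fin 2) ℂ).map (starRingEnd ℂ) := rfl

theorem conjGL305_conjGL305_910 (g : GL (Fin 2) ℂ) :
    H305.conjGL305 (H305.conjGL305 g) = g := by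
  apply Units.ext
  ext i j
  simp [conjGL305_val910]

theorem conjGL305_trGL910 (g : GL (Fin 2) ℂ) :
    H305.conjGL305 (trGL910 g) = trGL910 (H305.conjGL305 g) := by
  apply Units.ext
  ext i j
  simp [conjGL305_val910]

theorem continuous_conjGL305_910 : Continuous (fun g : GL (Fin 2) ℂ => H305.conjGL305 g) := by
  rw [Units.continuous_iff]
  refine ⟨?_, ?_⟩
  · exact Continuous.matrix_map Units.continuous_val Complex.continuous_conj
  · have h : (fun g : GL (Fin 2) ℂ => ((H305.conjGL305 g)⁻¹ : GL (Fin 2) ℂ).val)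
        = fun g => ((g⁻¹ : GL (Fin 2) ℂ) : Matrix (Fin 2) (Fin 2) ℂ).map (starRingEnd ℂ) := by
      funext g
      rw [← map_inv]
      rfl
    rw [h]
    exact Continuous.matrix_map (Units.continuous_val.comp continuous_inv)
      Complex.continuous_conj

section ConjMeas

variable [MeasurableSpace (GL (Fin 2) ℂ)] [BorelSpace (GL (Fin 2) ℂ)]
  (μ : Measure (GL (Fin 2) ℂ)) [μ.IsHaarMeasure]

/-- Complex conjugation preserves every Haar measure of `GL₂(ℂ)`. -/
theorem measurePreserving_conjGL910 :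
    MeasurePreserving (fun g : GL (Fin 2) ℂ => H305.conjGL305 g) μ μ := by
  have := T6.H8.locallyCompactSpace_GL2C8
  have := T6.H8.secondCountableTopology_GL2C8
  have := isMulRightInvariant910 μ
  have h2 : MeasurePreserving (fun g : GL (Fin 2) ℂ => H305.conjGL305 (trGL910 g)) μ μ := by
    refine T2.H729.measurePreserving_antiInvolution729 μ _
      (continuous_conjGL305_910.comp continuous_trGL910) ?_ ?_
    · intro g
      rw [conjGL305_trGL910, conjGL305_conjGL305_910, trGL910_trGL910]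
    · intro g h
      rw [trGL910_mul, map_mul]
  have h3 := h2.comp (measurePreserving_trGL910 μ)
  have e : (fun g : GL (Fin 2) ℂ => H305.conjGL305 (trGL910 g)) ∘ trGL910
      = fun g : GL (Fin 2) ℂ => H305.conjGL305 g := by
    funext g
    simp only [Function.comp_apply, trGL910_trGL910]
  rwa [e] at h3

/-- Complex conjugation as a measurable equivalence. -/
def conjEquiv910 : GL (Fin 2) ℂ ≃ᵐ GL (Fin 2) ℂ where
  toFun := fun g => H305.conjGL305 g
  invFun := fun g => H305.conjGL305 g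
  left_inv := conjGL305_conjGL305_910
  right_inv := conjGL305_conjGL305_910
  measurable_toFun := continuous_conjGL305_910.measurable
  measurable_invFun := continuous_conjGL305_910.measurable

theorem integral_comp_conjGL910 (F : GL (Fin 2) ℂ → ℂ) :
    ∫ y, F (H305.conjGL305 y) ∂μ = ∫ y, F y ∂μ :=
  (measurePreserving_conjGL910 μ).integral_comp' (f := conjEquiv910) F

/-- The convolution of conjugation invariant functions is conjugation invariant. -/
theorem conjInv_convInt_gen910 {Φ Ψ : GL (Fin 2) ℂ → ℂ}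
    (hΦ : ∀ g : GL (Fin 2) ℂ, Φ (H305.conjGL305 g) = Φ g)
    (hΨ : ∀ g : GL (Fin 2) ℂ, Ψ (H305.conjGL305 g) = Ψ g) (g : GL (Fin 2) ℂ) :
    T6.convInt μ Φ Ψ (H305.conjGL305 g) = T6.convInt μ Φ Ψ g := by
  rw [convInt_apply910, convInt_apply910]
  rw [← integral_comp_conjGL910 μ (fun y => Φ y * Ψ (y⁻¹ * H305.conjGL305 g))]
  refine integral_congr_ae (Filter.Eventually.of_forall fun y => ?_)
  simp only
  rw [hΦ, ← map_inv, ← map_mul, hΨ]

end ConjMeas

/-! ## 6. The class of the archimedean components and its convolution algebra -/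

/-- The class of the archimedean components: continuous, compact support, bi-invariant under
`U(2)`. -/
structure IsArchFn910 (Φ : GL (Fin 2) ℂ → ℂ) : Prop where
  cont : Continuous Φ
  supp : HasCompactSupport Φ
  biInv : IsBiU2_910 Φ

theorem isArchFn_zero910 : IsArchFn910 (fun _ => (0 : ℂ)) :=
  ⟨continuous_const, HasCompactSupport.zero, fun _ _ _ _ _ => rfl⟩

section Alg

variable [MeasurableSpace (GL (Fin 2) ℂ)] [BorelSpace (GL (Fin 2) ℂ)]
  (μ : Measure (GL (Fin 2) ℂ)) [μ.IsHaarMeasure]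

theorem isArchFn_convInt_gen910 {Φ Ψ : GL (Fin 2) ℂ → ℂ} (hΦ : IsArchFn910 Φ)
    (hΨ : IsArchFn910 Ψ) : IsArchFn910 (T6.convInt μ Φ Ψ) :=
  ⟨continuous_convInt910 μ hΦ.cont hΦ.supp hΨ.cont,
    hasCompactSupport_convInt910 μ hΦ.supp hΨ.supp, isBiU2_convInt910 μ hΦ.biInv hΨ.biInv⟩

end Alg

/-- The convolution algebra of the archimedean components for the Haar measure `μ`. -/
structure ArchAlg910 [MeasurableSpace (GL (Fin 2) ℂ)] (μ : Measure (GL (Fin 2) ℂ)) : Type where
  fn : GL (Fin 2) ℂ → ℂ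
  isArch : IsArchFn910 fn

theorem ArchAlg910.ext' [MeasurableSpace (GL (Fin 2) ℂ)] {μ : Measure (GL (Fin 2) ℂ)}
    {a b : ArchAlg910 μ} (h : a.fn = b.fn) : a = b := by
  cases a; cases b; cases h; rfl

section Alg2

variable [MeasurableSpace (GL (Fin 2) ℂ)] [BorelSpace (GL (Fin 2) ℂ)]
  (μ : Measure (GL (Fin 2) ℂ)) [μ.IsHaarMeasure]

instance instMulArchAlg910 : Mul (ArchAlg910 μ) :=
  ⟨fun a b => ⟨T6.convInt μ a.fn b.fn, isArchFn_convInt_gen910 μ a.isArch b.isArch⟩⟩

theorem ArchAlg910.mul_fn (a b : ArchAlg910 μ) : (a * b).fn = T6.convInt μ a.fn b.fn := rfl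

instance instCommSemigroupArchAlg910 : CommSemigroup (ArchAlg910 μ) where
  mul_assoc a b c := ArchAlg910.ext' (funext fun x =>
    convInt_assoc_gen910 μ a.isArch.cont a.isArch.supp b.isArch.cont b.isArch.supp
      c.isArch.cont x)
  mul_comm a b := ArchAlg910.ext' (funext fun x =>
    convInt_comm_gen910 μ a.isArch.biInv b.isArch.biInv x)

/-- The left nested product in the algebra. -/
def cL910 (a : ℕ → ArchAlg910 μ) : ℕ → ArchAlg910 μ
  | 0 => a 0
  | (n + 1) => cL910 a n * a (n + 1)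

theorem cL910_zero (a : ℕ → ArchAlg910 μ) : cL910 μ a 0 = a 0 := rfl

theorem cL910_succ (a : ℕ → ArchAlg910 μ) (n : ℕ) :
    cL910 μ a (n + 1) = cL910 μ a n * a (n + 1) := rfl

theorem coe_cL910 (a : ℕ → ArchAlg910 μ) (n : ℕ) :
    ((cL910 μ a n : ArchAlg910 μ) : WithOne (ArchAlg910 μ))
      = ∏ j ∈ Finset.range (n + 1), ((a j : ArchAlg910 μ) : WithOne (ArchAlg910 μ)) := by
  induction n with
  | zero => rw [cL910_zero, zero_add, Finset.prod_range_one]
  | succ n ih => rw [cL910_succ, WithOne.coe_mul, ih, Finset.prod_range_succ _ (n + 1)]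

end Alg2

/-! ## 7. Left nested convolution products (generic measurable structure) -/

/-- The left nested convolution product `Φ 0 ⋆ Φ 1 ⋆ ⋯ ⋆ Φ n` (the shape of
`H305.convL305`, for any measurable structure). -/
def convLg910 [MeasurableSpace (GL (Fin 2) ℂ)] (μ : Measure (GL (Fin 2) ℂ))
    (Φ : ℕ → GL (Fin 2) ℂ → ℂ) : ℕ → GL (Fin 2) ℂ → ℂ
  | 0 => Φ 0
  | (n + 1) => T6.convInt μ (convLg910 μ Φ n) (Φ (n + 1))

theorem convLg910_zero [MeasurableSpace (GL (Fin 2) ℂ)] (μ : Measure (GL (Fin 2) ℂ))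
    (Φ : ℕ → GL (Fin 2) ℂ → ℂ) : convLg910 μ Φ 0 = Φ 0 := rfl

theorem convLg910_succ [MeasurableSpace (GL (Fin 2) ℂ)] (μ : Measure (GL (Fin 2) ℂ))
    (Φ : ℕ → GL (Fin 2) ℂ → ℂ) (n : ℕ) :
    convLg910 μ Φ (n + 1) = T6.convInt μ (convLg910 μ Φ n) (Φ (n + 1)) := rfl

theorem convLg910_congr [MeasurableSpace (GL (Fin 2) ℂ)] (μ : Measure (GL (Fin 2) ℂ))
    {Φ Φ' : ℕ → GL (Fin 2) ℂ → ℂ} (n : ℕ) (h : ∀ j ≤ n, Φ j = Φ' j) :
    convLg910 μ Φ n = convLg910 μ Φ' n := by
  induction n with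
  | zero => rw [convLg910_zero, convLg910_zero, h 0 le_rfl]
  | succ n ih =>
    rw [convLg910_succ, convLg910_succ, ih (fun j hj => h j (Nat.le_succ_of_le hj)),
      h (n + 1) le_rfl]

open Classical in
/-- A function as an element of the algebra (`0` outside the class). -/
def mkA910 [MeasurableSpace (GL (Fin 2) ℂ)] (μ : Measure (GL (Fin 2) ℂ))
    (Φ : GL (Fin 2) ℂ → ℂ) : ArchAlg910 μ :=
  if h : IsArchFn910 Φ then ⟨Φ, h⟩ else ⟨fun _ => 0, isArchFn_zero910⟩

theorem mkA910_fn [MeasurableSpace (GL (Fin 2) ℂ)] (μ : Measure (GL (Fin 2) ℂ))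
    {Φ : GL (Fin 2) ℂ → ℂ} (h : IsArchFn910 Φ) : (mkA910 μ Φ).fn = Φ := by
  rw [mkA910, dif_pos h]

section Gen

variable [MeasurableSpace (GL (Fin 2) ℂ)] [BorelSpace (GL (Fin 2) ℂ)]
  (μ : Measure (GL (Fin 2) ℂ)) [μ.IsHaarMeasure]

theorem cL910_fn (a : ℕ → ArchAlg910 μ) (n : ℕ) :
    (cL910 μ a n).fn = convLg910 μ (fun j => (a j).fn) n := by
  induction n with
  | zero => rfl
  | succ n ih => rw [cL910_succ, ArchAlg910.mul_fn, ih, convLg910_succ]

/-- The left nested products of functions of the class are in the class. -/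
theorem isArchFn_convLg910 {Φ : ℕ → GL (Fin 2) ℂ → ℂ} (n : ℕ)
    (hΦ : ∀ j ≤ n, IsArchFn910 (Φ j)) : IsArchFn910 (convLg910 μ Φ n) := by
  have h1 : convLg910 μ Φ n = convLg910 μ (fun j => (mkA910 μ (Φ j)).fn) n :=
    convLg910_congr μ n (fun j hj => (mkA910_fn μ (hΦ j hj)).symm)
  rw [h1, ← cL910_fn]
  exact (cL910 μ _ n).isArch

/-- **THE PRODUCT RULE**: `convL (Φ ⋆ Ψ) = convL Φ ⋆ convL Ψ` for the functions of the
class. -/
theorem convLg910_mul {Φ Ψ : ℕ → GL (Fin 2) ℂ → ℂ} (n : ℕ)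
    (hΦ : ∀ j ≤ n, IsArchFn910 (Φ j)) (hΨ : ∀ j ≤ n, IsArchFn910 (Ψ j)) :
    convLg910 μ (fun j => T6.convInt μ (Φ j) (Ψ j)) n
      = T6.convInt μ (convLg910 μ Φ n) (convLg910 μ Ψ n) := by
  set a : ℕ → ArchAlg910 μ := fun j => mkA910 μ (Φ j) with ha
  set b : ℕ → ArchAlg910 μ := fun j => mkA910 μ (Ψ j) with hb
  have h1 : convLg910 μ (fun j => T6.convInt μ (Φ j) (Ψ j)) n
      = convLg910 μ (fun j => (a j * b j).fn) n := by
    refine convLg910_congr μ n (fun j hj => ?_)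
    rw [ArchAlg910.mul_fn, ha, hb, mkA910_fn μ (hΦ j hj), mkA910_fn μ (hΨ j hj)]
  have h2 : convLg910 μ Φ n = (cL910 μ a n).fn := by
    rw [cL910_fn]
    exact convLg910_congr μ n (fun j hj => (mkA910_fn μ (hΦ j hj)).symm)
  have h3 : convLg910 μ Ψ n = (cL910 μ b n).fn := by
    rw [cL910_fn]
    exact convLg910_congr μ n (fun j hj => (mkA910_fn μ (hΨ j hj)).symm)
  have h4 : cL910 μ (fun j => a j * b j) n = cL910 μ a n * cL910 μ b n := by
    apply WithOne.coe_injective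
    rw [coe_cL910, WithOne.coe_mul, coe_cL910, coe_cL910, ← Finset.prod_mul_distrib]
    rfl
  rw [h1, ← cL910_fn μ (fun j => a j * b j), h4, ArchAlg910.mul_fn, ← h2, ← h3]

/-- **PERMUTATION INVARIANCE**: two enumerations `w`, `w'`, injective on `j < l`, with the same
set of values give the same left nested product. -/
theorem convLg910_enum {ι : Type} (Φ : ι → GL (Fin 2) ℂ → ℂ) (l : ℕ) (hl : 0 < l)
    (w w' : ℕ → ι) (hw : ∀ j j' : ℕ, j < l → j' < l → w j = w j' → j = j')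
    (hw' : ∀ j j' : ℕ, j < l → j' < l → w' j = w' j' → j = j')
    (himg : ∀ j < l, ∃ j' < l, w' j' = w j) (hΦ : ∀ j < l, IsArchFn910 (Φ (w j))) :
    convLg910 μ (fun j => Φ (w j)) (l - 1) = convLg910 μ (fun j => Φ (w' j)) (l - 1) := by
  classical
  have hsub : (Finset.range l).image w ⊆ (Finset.range l).image w' := by
    intro i hi
    obtain ⟨j, hj, rfl⟩ := Finset.mem_image.mp hi
    obtain ⟨j', hj', e⟩ := himg j (Finset.mem_range.mp hj)
    exact Finset.mem_image.mpr ⟨j', Finset.mem_range.mpr hj', e⟩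
  have hcw : ((Finset.range l).image w).card = l := by
    rw [Finset.card_image_of_injOn, Finset.card_range]
    intro j hj j' hj' e
    exact hw j j' (Finset.mem_range.mp hj) (Finset.mem_range.mp hj') e
  have hcw' : ((Finset.range l).image w').card = l := by
    rw [Finset.card_image_of_injOn, Finset.card_range]
    intro j hj j' hj' e
    exact hw' j j' (Finset.mem_range.mp hj) (Finset.mem_range.mp hj') e
  have himg_eq : (Finset.range l).image w = (Finset.range l).image w' :=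
    Finset.eq_of_subset_of_card_le hsub (by rw [hcw, hcw'])
  have hΦ' : ∀ j < l, IsArchFn910 (Φ (w' j)) := by
    intro j hj
    have : w' j ∈ (Finset.range l).image w := by
      rw [himg_eq]
      exact Finset.mem_image.mpr ⟨j, Finset.mem_range.mpr hj, rfl⟩
    obtain ⟨j₀, hj₀, e⟩ := Finset.mem_image.mp this
    rw [← e]
    exact hΦ j₀ (Finset.mem_range.mp hj₀)
  have hl1 : l - 1 + 1 = l := Nat.sub_add_cancel hl
  set a : ι → ArchAlg910 μ := fun i => mkA910 μ (Φ i) with ha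
  have h1 : convLg910 μ (fun j => Φ (w j)) (l - 1) = (cL910 μ (fun j => a (w j)) (l - 1)).fn := by
    rw [cL910_fn]
    exact convLg910_congr μ _ (fun j hj => (mkA910_fn μ (hΦ j (by omega))).symm)
  have h2 : convLg910 μ (fun j => Φ (w' j)) (l - 1)
      = (cL910 μ (fun j => a (w' j)) (l - 1)).fn := by
    rw [cL910_fn]
    exact convLg910_congr μ _ (fun j hj => (mkA910_fn μ (hΦ' j (by omega))).symm)
  have h3 : cL910 μ (fun j => a (w j)) (l - 1) = cL910 μ (fun j => a (w' j)) (l - 1) := by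
    apply WithOne.coe_injective
    rw [coe_cL910, coe_cL910, hl1]
    rw [← Finset.prod_image (s := Finset.range l) (g := w)
        (f := fun i => ((a i : ArchAlg910 μ) : WithOne (ArchAlg910 μ)))
        (fun j hj j' hj' e => hw j j' (Finset.mem_range.mp hj) (Finset.mem_range.mp hj') e),
      ← Finset.prod_image (s := Finset.range l) (g := w')
        (f := fun i => ((a i : ArchAlg910 μ) : WithOne (ArchAlg910 μ)))
        (fun j hj j' hj' e => hw' j j' (Finset.mem_range.mp hj) (Finset.mem_range.mp hj') e),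
      himg_eq]
  rw [h1, h2, h3]

/-- The left nested products of conjugation invariant functions are conjugation invariant. -/
theorem conjInv_convLg910 {Φ : ℕ → GL (Fin 2) ℂ → ℂ} (n : ℕ)
    (hΦ : ∀ j ≤ n, ∀ g : GL (Fin 2) ℂ, Φ j (H305.conjGL305 g) = Φ j g) :
    ∀ g : GL (Fin 2) ℂ, convLg910 μ Φ n (H305.conjGL305 g) = convLg910 μ Φ n g := by
  induction n with
  | zero => exact hΦ 0 le_rfl
  | succ n ih =>
    intro g
    rw [convLg910_succ]
    exact conjInv_convInt_gen910 μ (ih (fun j hj => hΦ j (Nat.le_succ_of_le hj)))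
      (hΦ (n + 1) le_rfl) g

end Gen

/-! ## 8. THE STATEMENTS IN THE FORM OF THE CONSUMERS (`borel`, `H305.convL305`) -/

/-- The Borel structure of `GL₂(ℂ)` is a Borel structure. -/
theorem borelSpace910 : @BorelSpace (GL (Fin 2) ℂ) _ (borel (GL (Fin 2) ℂ)) :=
  @BorelSpace.mk _ _ (borel (GL (Fin 2) ℂ)) rfl

/-- `H305.convL305` is the generic left nested product for the Borel structure. -/
theorem convL305_eq910 (μc : @Measure (GL (Fin 2) ℂ) (borel _))
    (Φ : ℕ → GL (Fin 2) ℂ → ℂ) (n : ℕ) :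
    H305.convL305 μc Φ n = @convLg910 (borel _) μc Φ n := by
  induction n with
  | zero => rfl
  | succ n ih =>
    show @T6.convInt _ _ (borel _) μc (H305.convL305 μc Φ n) (Φ (n + 1))
      = @T6.convInt _ _ (borel _) μc (@convLg910 (borel _) μc Φ n) (Φ (n + 1))
    rw [ih]

/-- **GELFAND (`borel` form)**: the convolution of bi-`U(2)`-invariant functions on `GL₂(ℂ)`
is commutative. -/
theorem convInt_comm910 (μc : @Measure (GL (Fin 2) ℂ) (borel _))
    (hμ : @Measure.IsHaarMeasure _ _ _ (borel _) μc) {Φ Ψ : GL (Fin 2) ℂ → ℂ}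
    (hΦ : IsBiU2_910 Φ) (hΨ : IsBiU2_910 Ψ) :
    @T6.convInt _ _ (borel _) μc Φ Ψ = @T6.convInt _ _ (borel _) μc Ψ Φ :=
  funext fun x => @convInt_comm_gen910 (borel _) borelSpace910 μc hμ Φ Ψ hΦ hΨ x

/-- **ASSOCIATIVITY (`borel` form).** -/
theorem convInt_assoc910 (μc : @Measure (GL (Fin 2) ℂ) (borel _))
    (hμ : @Measure.IsHaarMeasure _ _ _ (borel _) μc) {Φ Ψ Χ : GL (Fin 2) ℂ → ℂ}
    (hΦ : Continuous Φ) (hΦc : HasCompactSupport Φ) (hΨ : Continuous Ψ)
    (hΨc : HasCompactSupport Ψ) (hΧ : Continuous Χ) :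
    @T6.convInt _ _ (borel _) μc (@T6.convInt _ _ (borel _) μc Φ Ψ) Χ
      = @T6.convInt _ _ (borel _) μc Φ (@T6.convInt _ _ (borel _) μc Ψ Χ) :=
  funext fun x => @convInt_assoc_gen910 (borel _) borelSpace910 μc hμ Φ Ψ Χ hΦ hΦc hΨ hΨc hΧ x

/-- **CLOSURE (`borel` form)**: the convolution of two functions of the class is in the
class. -/
theorem isArchFn_convInt910 (μc : @Measure (GL (Fin 2) ℂ) (borel _))
    (hμ : @Measure.IsHaarMeasure _ _ _ (borel _) μc) {Φ Ψ : GL (Fin 2) ℂ → ℂ}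
    (hΦ : IsArchFn910 Φ) (hΨ : IsArchFn910 Ψ) :
    IsArchFn910 (@T6.convInt _ _ (borel _) μc Φ Ψ) :=
  @isArchFn_convInt_gen910 (borel _) borelSpace910 μc hμ Φ Ψ hΦ hΨ

/-- **CONJUGATION (`borel` form).** -/
theorem conjInv_convInt910 (μc : @Measure (GL (Fin 2) ℂ) (borel _))
    (hμ : @Measure.IsHaarMeasure _ _ _ (borel _) μc) {Φ Ψ : GL (Fin 2) ℂ → ℂ}
    (hΦ : ∀ g : GL (Fin 2) ℂ, Φ (H305.conjGL305 g) = Φ g)
    (hΨ : ∀ g : GL (Fin 2) ℂ, Ψ (H305.conjGL305 g) = Ψ g) (g : GL (Fin 2) ℂ) :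
    @T6.convInt _ _ (borel _) μc Φ Ψ (H305.conjGL305 g) = @T6.convInt _ _ (borel _) μc Φ Ψ g :=
  @conjInv_convInt_gen910 (borel _) borelSpace910 μc hμ Φ Ψ hΦ hΨ g

/-- **CLOSURE for `convL305`.** -/
theorem isArchFn_convL305_910 (μc : @Measure (GL (Fin 2) ℂ) (borel _))
    (hμ : @Measure.IsHaarMeasure _ _ _ (borel _) μc) {Φ : ℕ → GL (Fin 2) ℂ → ℂ} (n : ℕ)
    (hΦ : ∀ j ≤ n, IsArchFn910 (Φ j)) : IsArchFn910 (H305.convL305 μc Φ n) := by
  rw [convL305_eq910]
  exact @isArchFn_convLg910 (borel _) borelSpace910 μc hμ Φ n hΦ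

/-- **CONJUGATION for `convL305`.** -/
theorem conjInv_convL305_910 (μc : @Measure (GL (Fin 2) ℂ) (borel _))
    (hμ : @Measure.IsHaarMeasure _ _ _ (borel _) μc) {Φ : ℕ → GL (Fin 2) ℂ → ℂ} (n : ℕ)
    (hΦ : ∀ j ≤ n, ∀ g : GL (Fin 2) ℂ, Φ j (H305.conjGL305 g) = Φ j g) (g : GL (Fin 2) ℂ) :
    H305.convL305 μc Φ n (H305.conjGL305 g) = H305.convL305 μc Φ n g := by
  rw [convL305_eq910]
  exact @conjInv_convLg910 (borel _) borelSpace910 μc hμ Φ n hΦ g

/-- **THE PRODUCT RULE for `convL305`** (the archimedean step of the calculus of pure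
tensors): `convL305 (Φ ⋆ Ψ) = convL305 Φ ⋆ convL305 Ψ`. -/
theorem convL305_mul910 (μc : @Measure (GL (Fin 2) ℂ) (borel _))
    (hμ : @Measure.IsHaarMeasure _ _ _ (borel _) μc) {Φ Ψ : ℕ → GL (Fin 2) ℂ → ℂ} (n : ℕ)
    (hΦ : ∀ j ≤ n, IsArchFn910 (Φ j)) (hΨ : ∀ j ≤ n, IsArchFn910 (Ψ j)) :
    H305.convL305 μc (fun j => @T6.convInt _ _ (borel _) μc (Φ j) (Ψ j)) n
      = @T6.convInt _ _ (borel _) μc (H305.convL305 μc Φ n) (H305.convL305 μc Ψ n) := by
  rw [convL305_eq910, convL305_eq910, convL305_eq910]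
  exact @convLg910_mul (borel _) borelSpace910 μc hμ Φ Ψ n hΦ hΨ

/-- **PERMUTATION INVARIANCE for `convL305`** (the clause `arch` of `H305.LocHyp305` /
`H893.LocHyp893` for ALL enumerations from ONE enumeration): two enumerations `w`, `w'`,
injective on `j < l`, with the same values give the same product. -/
theorem convL305_enum910 (μc : @Measure (GL (Fin 2) ℂ) (borel _))
    (hμ : @Measure.IsHaarMeasure _ _ _ (borel _) μc) {ι : Type}
    (Φ : ι → GL (Fin 2) ℂ → ℂ) (l : ℕ) (hl : 0 < l) (w w' : ℕ → ι)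
    (hw : ∀ j j' : ℕ, j < l → j' < l → w j = w j' → j = j')
    (hw' : ∀ j j' : ℕ, j < l → j' < l → w' j = w' j' → j = j')
    (himg : ∀ j < l, ∃ j' < l, w' j' = w j) (hΦ : ∀ j < l, IsArchFn910 (Φ (w j))) :
    H305.convL305 μc (fun j => Φ (w j)) (l - 1)
      = H305.convL305 μc (fun j => Φ (w' j)) (l - 1) := by
  rw [convL305_eq910, convL305_eq910]
  exact @convLg910_enum (borel _) borelSpace910 μc hμ ι Φ l hl w w' hw hw' himg hΦ

/-! ## 9. The clause `arch` of `H305.LocHyp305` / `H893.LocHyp893` -/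

/-- **THE CLAUSE `arch` FOR ALL ENUMERATIONS FROM ONE.**  Let `w₀ v` enumerate the places of
`K'` over `v` (injective on `j < l`, onto the fibre) and `F v = convL305 μc (Φ ∘ w₀ v) (l - 1)`,
with components `Φ w` in the class.  Then `F v = convL305 μc (Φ ∘ w) (l - 1)` for EVERY
enumeration `w` of places over `v` which is injective on `j < l` (the clause `arch`, verbatim,
for `D.l = l`). -/
theorem arch_of_one910 (μc : @Measure (GL (Fin 2) ℂ) (borel _))
    (hμ : @Measure.IsHaarMeasure _ _ _ (borel _) μc)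
    {K K' : Type} [Field K] [NumberField K] [Field K'] [NumberField K'] [Algebra K K']
    (l : ℕ) (hl : 0 < l)
    (Φ : NumberField.InfinitePlace K' → GL (Fin 2) ℂ → ℂ)
    (F : NumberField.InfinitePlace K → GL (Fin 2) ℂ → ℂ)
    (w₀ : NumberField.InfinitePlace K → ℕ → NumberField.InfinitePlace K')
    (hinj : ∀ (v : NumberField.InfinitePlace K) (j j' : ℕ), j < l → j' < l →
      w₀ v j = w₀ v j' → j = j')
    (honto : ∀ (v : NumberField.InfinitePlace K) (w : NumberField.InfinitePlace K'),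
      w.comap (algebraMap K K') = v → ∃ j < l, w₀ v j = w)
    (hF : ∀ v : NumberField.InfinitePlace K,
      F v = H305.convL305 μc (fun j => Φ (w₀ v j)) (l - 1))
    (hΦ : ∀ w : NumberField.InfinitePlace K', IsArchFn910 (Φ w)) :
    ∀ (v : NumberField.InfinitePlace K) (w : ℕ → NumberField.InfinitePlace K'),
      (∀ j : ℕ, (w j).comap (algebraMap K K') = v) →
      (∀ j j' : ℕ, j < l → j' < l → w j = w j' → j = j') →
      F v = H305.convL305 μc (fun j => Φ (w j)) (l - 1) := by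
  intro v w hov hw
  rw [hF v]
  exact (convL305_enum910 μc hμ Φ l hl w (w₀ v) hw (hinj v)
    (fun j _ => honto v (w j) (hov j)) (fun j _ => hΦ (w j))).symm

/-- **THE CLAUSE `arch` IS MULTIPLICATIVE**: if `F¹ = convL305 (Φ¹ ∘ w)` and
`F² = convL305 (Φ² ∘ w)` with components in the class, then
`F¹ ⋆ F² = convL305 ((Φ¹ ⋆ Φ²) ∘ w)`. -/
theorem arch_mul910 (μc : @Measure (GL (Fin 2) ℂ) (borel _))
    (hμ : @Measure.IsHaarMeasure _ _ _ (borel _) μc) {ι : Type} (l : ℕ)
    (Φ₁ Φ₂ : ι → GL (Fin 2) ℂ → ℂ) (F₁ F₂ : GL (Fin 2) ℂ → ℂ) (w : ℕ → ι)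
    (h₁ : F₁ = H305.convL305 μc (fun j => Φ₁ (w j)) (l - 1))
    (h₂ : F₂ = H305.convL305 μc (fun j => Φ₂ (w j)) (l - 1))
    (hΦ₁ : ∀ j ≤ l - 1, IsArchFn910 (Φ₁ (w j))) (hΦ₂ : ∀ j ≤ l - 1, IsArchFn910 (Φ₂ (w j))) :
    @T6.convInt _ _ (borel _) μc F₁ F₂
      = H305.convL305 μc (fun j => @T6.convInt _ _ (borel _) μc (Φ₁ (w j)) (Φ₂ (w j))) (l - 1) := by
  rw [h₁, h₂]
  exact (convL305_mul910 μc hμ (Φ := fun j => Φ₁ (w j)) (Ψ := fun j => Φ₂ (w j)) (l - 1)
    hΦ₁ hΦ₂).symm

/-! ## Appendix: the equation lemmas of the definitions of this file are realised HERE -/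

theorem eqns_realised_archComm910 : True := by
  have _a1 := @IsBiU2_910.eq_1
  have _a2 := @trGL910.eq_1
  have _a3 := @unitGL910.eq_1
  have _a4 := @trEquiv910.eq_1
  have _a5 := @conjEquiv910.eq_1
  have _a6 := @cL910.eq_1
  have _a7 := @cL910.eq_2
  have _a8 := @cL910.eq_def
  have _a9 := @convLg910.eq_1
  have _a10 := @convLg910.eq_2
  have _a11 := @convLg910.eq_def
  have _a12 := @mkA910.eq_1
  have _a13 := @instMulArchAlg910.eq_1
  have _a14 := @instCommSemigroupArchAlg910.eq_1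
  trivial

end Fermat.Agent.LT.T7.H910

end

end
-- ===== PACK-END LT/T7/H910/ArchComm.lean

-- ===== PACK-BEGIN LT/T3/R/H709/PureRegR.lean
section



/-!
# Row LT, tower T3, station T3.18R, leaf R.3 `PureRegRC` (helper709)

OFF-MAIN.  `pureRegRC709 (K) : Fermat.Agent.LT.T3.R.PureRegRC K`: the pure tensor at the real
places `⊗_{v ∈ P} f₀_v ⊗ ⊗_w F_w ⊗ 1_{U^{S'}}` (`F_w` a test function of weight `n w` on
`GL₂(ℝ)`) is continuous, of compact support, smooth at infinity, bi-invariant under `U(𝔫)` of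
type `typeR n` under `K_∞`, and supported at `S' = P ∪ S_∞`.

Vocabulary: `LT/T3/R/Spec.lean` (sha256 a528b35a) of helper14, byte-identical copy.  Port of
`LT/T3/M/H709/PureRegM.lean` (leaf M.3, imported as it is: the subgroup `OutsideUM`, the common
denominator at `P`) with `GL₂(ℝ)` in place of `GL₂(ℂ)` at the infinite places.
-/

set_option autoImplicit false
set_option linter.style.haveILetI false

open IsDedekindDomain NumberField MeasureTheory
open Fermat.Agent.LT.H556.A0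
open scoped RestrictedProduct

noncomputable section

namespace Fermat.Agent.LT.T3.R.H709

open Fermat.Agent.LT.T3 Fermat.Agent.LT.T3.H245 Fermat.Agent.LT.T3.M
  Fermat.Agent.LT.T3.M.H709

variable {K : Type} [Field K] [NumberField K]

/-! ## The real components -/

theorem continuous_reHom709 (w : InfinitePlace K) (hw : w.IsReal) :
    Continuous (reHom K w hw) := by
  have h : Continuous (fun x : InfiniteAdeleRing K × FiniteAdeleRing (𝓞 K) K =>
      InfinitePlace.Completion.extensionEmbeddingOfIsReal hw (x.1 w)) :=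
    (InfinitePlace.Completion.isometry_extensionEmbeddingOfIsReal hw).continuous.comp
      ((continuous_apply w).comp continuous_fst)
  exact h

theorem continuous_reGL709 (w : InfinitePlace K) (hw : w.IsReal) :
    Continuous (reGL K w hw) := by
  refine Continuous.units_map _ ?_
  exact Continuous.matrix_map continuous_id (continuous_reHom709 w hw)

theorem reGL_eq_one709 {w : InfinitePlace K} (hw : w.IsReal) {g : G K} (h : TrivAtInf w g) :
    reGL K w hw g = 1 := by
  apply Units.ext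
  refine Matrix.ext fun i j => ?_
  show InfinitePlace.Completion.extensionEmbeddingOfIsReal hw
    (((g : Matrix (Fin 2) (Fin 2) (Adl K)) i j).1 w) = (1 : Matrix (Fin 2) (Fin 2) ℝ) i j
  rw [h i j, Matrix.one_apply, Matrix.one_apply]
  split_ifs
  · exact map_one _
  · exact map_zero _

theorem norm_infGL_eq709 (w : InfinitePlace K) (hw : w.IsReal) (g : G K) (i j : Fin 2) :
    ‖((AS.infGL K w g : GL (Fin 2) ℂ) : Matrix (Fin 2) (Fin 2) ℂ) i j‖
      = ‖((reGL K w hw g : GL (Fin 2) ℝ) : Matrix (Fin 2) (Fin 2) ℝ) i j‖ := by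
  rw [AS.infGL_coe, infComp_eq_reGL K w hw, Complex.norm_real]

/-- The component at `w` of an element of the compact group at `w` is a rotation. -/
theorem inSO2_reGL709 {w : InfinitePlace K} (hw : w.IsReal) {k : G K}
    (hk : IsArchCompact w k) : T6.InSO2 (reGL K w hw k) := by
  have hM : infComp w k
      = (((reGL K w hw k : GL (Fin 2) ℝ) : Matrix (Fin 2) (Fin 2) ℝ)).map
          (algebraMap ℝ ℂ) := by
    refine Matrix.ext fun i j => ?_
    rw [infComp_eq_reGL K w hw, Matrix.map_apply]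
    rfl
  have h1 := hk.2.1
  have h2 := hk.2.2 hw
  rw [hM] at h1 h2
  set M : Matrix (Fin 2) (Fin 2) ℝ := ((reGL K w hw k : GL (Fin 2) ℝ) :
    Matrix (Fin 2) (Fin 2) ℝ) with hMdef
  have hinj : Function.Injective (algebraMap ℝ ℂ) := (algebraMap ℝ ℂ).injective
  have hct : (M.map (algebraMap ℝ ℂ)).conjTranspose = (M.transpose).map (algebraMap ℝ ℂ) := by
    refine Matrix.ext fun i j => ?_
    rw [Matrix.conjTranspose_apply, Matrix.map_apply, Matrix.map_apply, Matrix.transpose_apply]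
    exact Complex.conj_ofReal _
  refine ⟨?_, ?_⟩
  · rw [hct, ← Matrix.map_mul] at h1
    have h1' : (M * M.transpose).map (algebraMap ℝ ℂ)
        = (1 : Matrix (Fin 2) (Fin 2) ℝ).map (algebraMap ℝ ℂ) := by
      rw [h1, Matrix.map_one _ (map_zero _) (map_one _)]
    exact Matrix.map_injective hinj h1'
  · have h2' : (algebraMap ℝ ℂ) M.det = (algebraMap ℝ ℂ) 1 := by
      rw [map_one, ← h2]
      exact (RingHom.map_det (algebraMap ℝ ℂ) M)
    exact hinj h2'

theorem wtChar_one709 (n : ℤ) : T6.wtChar n (1 : GL (Fin 2) ℝ) = 1 := by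
  have h : T6.holPart (1 : GL (Fin 2) ℝ) = 1 := by
    unfold T6.holPart
    simp
  unfold T6.wtChar
  rw [h, one_zpow]

/-- The type of an element of the compact group at `w`. -/
theorem typeR_arch709 (hR : ∀ w : InfinitePlace K, w.IsReal) (n : InfinitePlace K → ℤ)
    {w : InfinitePlace K} {k : G K} (hk : IsArchCompact w k) :
    typeR K hR n k = T6.wtChar (n w) (reGL K w (hR w) k) := by
  unfold typeR
  refine Finset.prod_eq_single w ?_ ?_
  · intro w' _ hw'
    rw [reGL_eq_one709 (hR w') (hk.1.1 w' hw'), wtChar_one709]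
  · intro h
    exact absurd (Finset.mem_univ w) h

/-! ## The pure tensor -/

section Pure

variable {hR : ∀ w : InfinitePlace K, w.IsReal} {𝔫 : Ideal (𝓞 K)}
  {P : Finset (HeightOneSpectrum (𝓞 K))}
  {f₀ : ∀ v : HeightOneSpectrum (𝓞 K), GL (Fin 2) (v.adicCompletion K) → ℂ}
  {F : InfinitePlace K → GL (Fin 2) ℝ → ℂ}

theorem pureFnR_smul709 {h h' : G K} {c : ℂ}
    (h1 : OutsideUM K 𝔫 P h ↔ OutsideUM K 𝔫 P h')
    (h2 : ∀ v ∈ P, f₀ v (AS.finGL K v h) = f₀ v (AS.finGL K v h'))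
    (h3 : ∏ w : InfinitePlace K, F w (reGL K w (hR w) h)
      = c * ∏ w : InfinitePlace K, F w (reGL K w (hR w) h')) :
    pureFnR K hR 𝔫 P f₀ F h = c * pureFnR K hR 𝔫 P f₀ F h' := by
  unfold pureFnR
  by_cases hh : OutsideUM K 𝔫 P h
  · rw [if_pos hh, if_pos (h1.1 hh), Finset.prod_congr rfl h2, h3]
    ring
  · rw [if_neg hh, if_neg (fun H => hh (h1.2 H)), mul_zero]

theorem pureFnR_congr709 {h h' : G K}
    (h1 : OutsideUM K 𝔫 P h ↔ OutsideUM K 𝔫 P h')
    (h2 : ∀ v ∈ P, f₀ v (AS.finGL K v h) = f₀ v (AS.finGL K v h'))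
    (h3 : ∀ w, F w (reGL K w (hR w) h) = F w (reGL K w (hR w) h')) :
    pureFnR K hR 𝔫 P f₀ F h = pureFnR K hR 𝔫 P f₀ F h' := by
  have := pureFnR_smul709 (hR := hR) (F := F) (c := 1) h1 h2
    (by rw [one_mul]; exact Finset.prod_congr rfl fun w _ => h3 w)
  rwa [one_mul] at this

theorem outsideUM_of_pureFnR_ne_zero709 {h : G K}
    (hh : pureFnR K hR 𝔫 P f₀ F h ≠ 0) : OutsideUM K 𝔫 P h := by
  by_contra hO
  apply hh
  unfold pureFnR
  rw [if_neg hO]

/-! ## Continuity -/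

theorem continuous_pureFnR709 (h𝔫 : 𝔫 ≠ ⊥)
    (hf₀ : ∀ v ∈ P, AS.IsBiIntInv v (f₀ v)) (hF : ∀ w, Continuous (F w)) :
    Continuous (pureFnR K hR 𝔫 P f₀ F) := by
  have hφ : Continuous (fun h : G K =>
      (∏ v ∈ P, f₀ v (AS.finGL K v h))
        * ∏ w : InfinitePlace K, F w (reGL K w (hR w) h)) :=
    (continuous_finsetProd _ fun v hv =>
        (continuous_of_biIntInv245 (hf₀ v hv)).comp (continuous_finGL245 v)).mul
      (continuous_finsetProd _ fun w _ => (hF w).comp (continuous_reGL709 w (hR w)))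
  unfold pureFnR
  classical
  refine Continuous.if ?_ hφ continuous_const
  intro a ha
  rw [(isClopen_outsideUM709 h𝔫 P).frontier_eq] at ha
  exact absurd ha (Set.notMem_empty a)

/-! ## Smoothness at infinity -/

theorem triv_mem_outUM709 {h : G K} (hh : ∀ v : HeightOneSpectrum (𝓞 K), TrivAtFin v h) :
    h ∈ outUM709 𝔫 P :=
  outsideUM_iff709.2 fun v _ => by
    rw [finGL_eq_one245 (hh v)]
    exact one_mem _

theorem pureSmoothR709 (n : InfinitePlace K → ℤ) (hF : ∀ w, T6.IsArchTestR (n w) (F w)) :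
    AS.IsSmoothInf K (pureFnR K hR 𝔫 P f₀ F) := by
  intro m h hfin hinf g
  have key : ∀ c : ℂ, ContDiff ℝ ((⊤ : ℕ∞) : WithTop ℕ∞)
      (fun t => c * ∏ w : InfinitePlace K,
        F w (reGL K w (hR w) g * reGL K w (hR w) (h t))) := by
    intro c
    refine contDiff_const.mul (contDiff_prod fun w _ => ?_)
    refine (hF w).smooth m (fun t => reGL K w (hR w) (h t)) (fun i j => ?_)
      (reGL K w (hR w) g)
    have e : (fun t => ((reGL K w (hR w) (h t) : GL (Fin 2) ℝ) :
        Matrix (Fin 2) (Fin 2) ℝ) i j) = fun t => (infComp w (h t) i j).re := by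
      funext t
      rw [infComp_eq_reGL K w (hR w), Complex.ofReal_re]
    rw [e]
    exact Complex.reCLM.contDiff.comp (hinf w i j)
  by_cases hg : OutsideUM K 𝔫 P g
  · have e : (fun t => pureFnR K hR 𝔫 P f₀ F (g * h t))
        = fun t => (∏ v ∈ P, f₀ v (AS.finGL K v g))
            * ∏ w : InfinitePlace K, F w (reGL K w (hR w) g * reGL K w (hR w) (h t)) := by
      funext t
      have ho : OutsideUM K 𝔫 P (g * h t) :=
        (Subgroup.mul_mem_cancel_right (outUM709 𝔫 P) (triv_mem_outUM709 (hfin t))).2 hg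
      unfold pureFnR
      rw [if_pos ho]
      congr 1
      · refine Finset.prod_congr rfl fun v _ => ?_
        rw [map_mul, finGL_eq_one245 (hfin t v), mul_one]
      · simp only [map_mul]
    rw [e]
    exact key _
  · have e : (fun t => pureFnR K hR 𝔫 P f₀ F (g * h t)) = fun _ => 0 := by
      funext t
      have ho : ¬ OutsideUM K 𝔫 P (g * h t) := fun h' => hg
        ((Subgroup.mul_mem_cancel_right (outUM709 𝔫 P) (triv_mem_outUM709 (hfin t))).1 h')
      unfold pureFnR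
      rw [if_neg ho]
    rw [e]
    exact contDiff_const

/-! ## Bi-invariance -/

theorem prod_arch_right709 (n : InfinitePlace K → ℤ) (hF : ∀ w, T6.IsArchTestR (n w) (F w))
    {w : InfinitePlace K} {k : G K} (hk : IsArchCompact w k) (g : G K) :
    ∏ w' : InfinitePlace K, F w' (reGL K w' (hR w') (g * k))
      = (typeR K hR n k)⁻¹ * ∏ w' : InfinitePlace K, F w' (reGL K w' (hR w') g) := by
  classical
  rw [typeR_arch709 hR n hk,
    ← Finset.mul_prod_erase Finset.univ (fun w' => F w' (reGL K w' (hR w') (g * k)))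
      (Finset.mem_univ w),
    ← Finset.mul_prod_erase Finset.univ (fun w' => F w' (reGL K w' (hR w') g))
      (Finset.mem_univ w), map_mul, (hF w).right _ _ (inSO2_reGL709 (hR w) hk), mul_assoc]
  congr 2
  refine Finset.prod_congr rfl fun w' hw' => ?_
  rw [map_mul, reGL_eq_one709 (hR w') (hk.1.1 w' (Finset.ne_of_mem_erase hw')), mul_one]

theorem prod_arch_left709 (n : InfinitePlace K → ℤ) (hF : ∀ w, T6.IsArchTestR (n w) (F w))
    {w : InfinitePlace K} {k : G K} (hk : IsArchCompact w k) (g : G K) :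
    ∏ w' : InfinitePlace K, F w' (reGL K w' (hR w') (k * g))
      = (typeR K hR n k)⁻¹ * ∏ w' : InfinitePlace K, F w' (reGL K w' (hR w') g) := by
  classical
  rw [typeR_arch709 hR n hk,
    ← Finset.mul_prod_erase Finset.univ (fun w' => F w' (reGL K w' (hR w') (k * g)))
      (Finset.mem_univ w),
    ← Finset.mul_prod_erase Finset.univ (fun w' => F w' (reGL K w' (hR w') g))
      (Finset.mem_univ w), map_mul, (hF w).left _ _ (inSO2_reGL709 (hR w) hk), mul_assoc]
  congr 2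
  refine Finset.prod_congr rfl fun w' hw' => ?_
  rw [map_mul, reGL_eq_one709 (hR w') (hk.1.1 w' (Finset.ne_of_mem_erase hw')), one_mul]

theorem isBiInvariant_pureFnR709 (n : InfinitePlace K → ℤ)
    (hf₀ : ∀ v ∈ P, AS.IsBiIntInv v (f₀ v)) (hF : ∀ w, T6.IsArchTestR (n w) (F w)) :
    T5.IsBiInvariant 𝔫 (typeR K hR n) (pureFnR K hR 𝔫 P f₀ F) := by
  have hone := fun v : HeightOneSpectrum (𝓞 K) => isIntGL_one245 v
  have hlev : ∀ u : G K, InLevelGroup 𝔫 u →
      (u ∈ outUM709 𝔫 P) ∧ (∀ v, AS.IsIntGL v (AS.finGL K v u)) ∧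
        ∀ w, reGL K w (hR w) u = 1 := fun u hu =>
    ⟨level_mem_outUM709 hu,
      fun v => isIntGL_of_mem_locU245 (finGL_mem_locU_of_level245 hu v),
      fun w => reGL_eq_one709 (hR w) (hu.1 w)⟩
  refine ⟨?_, ?_, ?_, ?_⟩
  · intro u hu g
    obtain ⟨huo, hk, hinf⟩ := hlev u hu
    refine pureFnR_congr709 ?_ ?_ ?_
    · exact Subgroup.mul_mem_cancel_right _ huo
    · intro v hv
      rw [map_mul]
      have := hf₀ v hv 1 (AS.finGL K v u) (AS.finGL K v g) (hone v) (hk v)
      rwa [one_mul] at this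
    · intro w
      rw [map_mul, hinf w, mul_one]
  · intro u hu g
    obtain ⟨huo, hk, hinf⟩ := hlev u hu
    refine pureFnR_congr709 ?_ ?_ ?_
    · exact Subgroup.mul_mem_cancel_left _ huo
    · intro v hv
      rw [map_mul]
      have := hf₀ v hv (AS.finGL K v u) 1 (AS.finGL K v g) (hk v) (hone v)
      rwa [mul_one] at this
    · intro w
      rw [map_mul, hinf w, one_mul]
  · intro w k hk g
    have hko : k ∈ outUM709 𝔫 P := arch_mem_outUM709 hk.1
    refine pureFnR_smul709 ?_ ?_ (prod_arch_right709 n hF hk g)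
    · exact Subgroup.mul_mem_cancel_right _ hko
    · intro v _
      rw [map_mul, finGL_eq_one245 (hk.1.2 v), mul_one]
  · intro w k hk g
    have hko : k ∈ outUM709 𝔫 P := arch_mem_outUM709 hk.1
    refine pureFnR_smul709 ?_ ?_ (prod_arch_left709 n hF hk g)
    · exact Subgroup.mul_mem_cancel_left _ hko
    · intro v _
      rw [map_mul, finGL_eq_one245 (hk.1.2 v), one_mul]

/-! ## Compact support -/

/-- The entries of `g` and `g⁻¹` are bounded on the support of a compactly supported function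
on `GL₂(ℝ)`. -/
theorem exists_arch_boundR709 {F₁ : GL (Fin 2) ℝ → ℂ} (hF : HasCompactSupport F₁) :
    ∃ ρ : ℝ, ∀ g : GL (Fin 2) ℝ, F₁ g ≠ 0 → ∀ i j : Fin 2,
      ‖(g : Matrix (Fin 2) (Fin 2) ℝ) i j‖ ≤ ρ ∧
      ‖((g⁻¹ : GL (Fin 2) ℝ) : Matrix (Fin 2) (Fin 2) ℝ) i j‖ ≤ ρ := by
  have h1 : ∀ i j : Fin 2, ∃ c : ℝ, ∀ g ∈ tsupport F₁,
      ‖(g : Matrix (Fin 2) (Fin 2) ℝ) i j‖ ≤ c := fun i j =>
    IsCompact.exists_bound_of_continuousOn hF
      (Units.continuous_val.matrix_elem i j).continuousOn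
  have h2 : ∀ i j : Fin 2, ∃ c : ℝ, ∀ g ∈ tsupport F₁,
      ‖((g⁻¹ : GL (Fin 2) ℝ) : Matrix (Fin 2) (Fin 2) ℝ) i j‖ ≤ c := fun i j =>
    IsCompact.exists_bound_of_continuousOn hF
      ((Units.continuous_val.comp continuous_inv).matrix_elem i j).continuousOn
  choose c1 hc1 using h1
  choose c2 hc2 using h2
  obtain ⟨ρ, hρ⟩ := Finite.bddAbove_range
    (fun p : (Fin 2 × Fin 2) ⊕ (Fin 2 × Fin 2) =>
      Sum.elim (fun q : Fin 2 × Fin 2 => c1 q.1 q.2) (fun q : Fin 2 × Fin 2 => c2 q.1 q.2) p)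
  refine ⟨ρ, fun g hg i j => ⟨?_, ?_⟩⟩
  · exact (hc1 i j g (subset_tsupport _ hg)).trans (hρ ⟨Sum.inl (i, j), rfl⟩)
  · exact (hc2 i j g (subset_tsupport _ hg)).trans (hρ ⟨Sum.inr (i, j), rfl⟩)

theorem hasCompactSupport_pureFnR709
    (hRep : ∀ v ∈ P, ∃ R : Finset (GL (Fin 2) (v.adicCompletion K)), AS.IsRepSys v (f₀ v) R)
    (hF : ∀ w, HasCompactSupport (F w)) :
    HasCompactSupport (pureFnR K hR 𝔫 P f₀ F) := by
  have := Fermat.Agent.LT.H11.LC.t2Space_GL2_adeleRing_h11 K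
  obtain ⟨a, ha0, ha⟩ := exists_fin_boundM709 P f₀ hRep
  have hρ' := fun w => exists_arch_boundR709 (hF w)
  choose ρ' hρ' using hρ'
  obtain ⟨ρ, hρ⟩ := Finite.bddAbove_range ρ'
  refine HasCompactSupport.intro (isCompact_boxG245 ρ a) ?_
  intro h hh
  by_contra hne
  apply hh
  have hO : OutsideUM K 𝔫 P h := outsideUM_of_pureFnR_ne_zero709 hne
  have hval : pureFnR K hR 𝔫 P f₀ F h
      = (∏ v ∈ P, f₀ v (AS.finGL K v h))
        * ∏ w : InfinitePlace K, F w (reGL K w (hR w) h) := by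
    unfold pureFnR
    rw [if_pos hO]
  rw [hval] at hne
  have hf : ∀ v ∈ P, f₀ v (AS.finGL K v h) ≠ 0 := fun v hv =>
    (Finset.prod_ne_zero_iff.1 (left_ne_zero_of_mul hne)) v hv
  have hFw : ∀ w, F w (reGL K w (hR w) h) ≠ 0 := fun w =>
    (Finset.prod_ne_zero_iff.1 (right_ne_zero_of_mul hne)) w (Finset.mem_univ w)
  have key : ∀ g : G K,
      (∀ (w : InfinitePlace K) (i j : Fin 2),
        ‖((AS.infGL K w g : GL (Fin 2) ℂ) : Matrix (Fin 2) (Fin 2) ℂ) i j‖ ≤ ρ) →
      (∀ (v : HeightOneSpectrum (𝓞 K)) (i j : Fin 2),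
        toCompl245 K v a * ((AS.finGL K v g : GL (Fin 2) (v.adicCompletion K)) :
          Matrix (Fin 2) (Fin 2) (v.adicCompletion K)) i j ∈ v.adicCompletionIntegers K) →
      (g : Matrix (Fin 2) (Fin 2) (Adl K)) ∈ boxMat245 K ρ a := by
    intro g h1 h2 i j
    exact ⟨fun w => h1 w i j, mem_boxFin245 ha0 fun v => h2 v i j⟩
  have hloc := outsideUM_iff709.1 hO
  refine ⟨key h ?_ ?_, key h⁻¹ ?_ ?_⟩
  · intro w i j
    rw [norm_infGL_eq709 w (hR w)]
    exact ((hρ' w _ (hFw w) i j).1).trans (hρ ⟨w, rfl⟩)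
  · intro v i j
    by_cases hv : v ∈ P
    · exact (ha v hv _ (hf v hv) i j).1
    · exact mul_mem (toCompl245_mem_integers K v a)
        ((isIntGL_of_mem_locU245 (hloc v hv)) i j).1
  · intro w i j
    rw [norm_infGL_eq709 w (hR w), map_inv]
    exact ((hρ' w _ (hFw w) i j).2).trans (hρ ⟨w, rfl⟩)
  · intro v i j
    rw [map_inv]
    by_cases hv : v ∈ P
    · exact (ha v hv _ (hf v hv) i j).2
    · exact mul_mem (toCompl245_mem_integers K v a)
        ((isIntGL_of_mem_locU245 (hloc v hv)) i j).2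

end Pure

/-! ## The leaf -/

/-- **T3.18R.3 = R.3 `PureRegRC`.** -/
theorem pureRegRC709 (K : Type) [Field K] [NumberField K] : PureRegRC K := by
  intro hR 𝔫 h𝔫 P _ n f₀ F hf₀ hRep hF
  exact ⟨continuous_pureFnR709 h𝔫 hf₀ (fun w => (hF w).cont),
    hasCompactSupport_pureFnR709 hRep (fun w => (hF w).supp),
    pureSmoothR709 n hF,
    isBiInvariant_pureFnR709 n hf₀ hF,
    fun _ hh => outsideUM_of_pureFnR_ne_zero709 hh⟩

end Fermat.Agent.LT.T3.R.H709

end

end
-- ===== PACK-END LT/T3/R/H709/PureRegR.lean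

-- ===== PACK-BEGIN LT/T3/R/H969/ProdFormR.lean
section


/-!
# Row LT, tower T3, station T3.18R, leaf R.8 `R.ProdFormRC` (helper969, registry row 2305)

OFF-MAIN.  On `LT/T3/R/Spec.lean` (helper14@15de5f60f, byte-identical copy, sha256 a528b35a...).
No hole, nothing assumed.

    prodFormRC969 (K) : Fermat.Agent.LT.T3.R.ProdFormRC K

For a totally real field `∏_w w α = |N_{K/ℚ} α|` (`InfinitePlace.prod_eq_abs_norm`,
`mult w = 1`), and `|N_{K/ℚ} a₀| = N((a₀)) = ∏_{v ∈ P} N(𝔭_v)^{e_v}`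
(`Ideal.absNorm_span_singleton`, `map_prod`, `map_pow`), hence
`∏_w √(w α) = √(∏_w w α) = ∏_{v ∈ P} N(𝔭_v)^{e_v/2}`.  Real form of `M.H793.prodFormMC793`
(helper793).
-/

set_option autoImplicit false

open IsDedekindDomain NumberField

noncomputable section

namespace Fermat.Agent.LT.T3.R.H969

open Fermat.Agent.LT.T3.M Fermat.Agent.LT.T3.R

/-- `∏_w w x = |N_{K/ℚ} x|` for a totally real field. -/
theorem prod_eq_abs_norm969 (K : Type) [Field K] [NumberField K]
    (hR : ∀ w : InfinitePlace K, w.IsReal) (x : K) :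
    ∏ w : InfinitePlace K, w x = ((|Algebra.norm ℚ x| : ℚ) : ℝ) := by
  rw [← InfinitePlace.prod_eq_abs_norm]
  refine Finset.prod_congr rfl fun w _ => ?_
  have hm : w.mult = 1 := by
    unfold InfinitePlace.mult
    rw [if_pos (hR w)]
  rw [hm, pow_one]

/-- `|N_{K/ℚ} a₀| = ∏_{v ∈ P} N(𝔭_v)^{e_v}` if `(a₀) = ∏_{v ∈ P} 𝔭_v^{e_v}`. -/
theorem abs_norm_eq_prod969 (K : Type) [Field K] [NumberField K]
    (P : Finset (HeightOneSpectrum (𝓞 K))) (e : HeightOneSpectrum (𝓞 K) → ℕ) (a₀ : 𝓞 K)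
    (hspan : Ideal.span {a₀} = ∏ v ∈ P, v.asIdeal ^ e v) :
    ((|Algebra.norm ℚ (algebraMap (𝓞 K) K a₀)| : ℚ) : ℝ)
      = ∏ v ∈ P, (Ideal.absNorm v.asIdeal : ℝ) ^ e v := by
  have h1 : Ideal.absNorm (Ideal.span {a₀}) = ∏ v ∈ P, Ideal.absNorm v.asIdeal ^ e v := by
    rw [hspan, map_prod]
    exact Finset.prod_congr rfl fun v _ => map_pow _ _ _
  rw [Ideal.absNorm_span_singleton] at h1
  have h2 : (Algebra.norm ℚ (algebraMap (𝓞 K) K a₀) : ℚ) = ((Algebra.norm ℤ a₀ : ℤ) : ℚ) :=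
    (Algebra.coe_norm_int a₀).symm
  have h3 : (|Algebra.norm ℤ a₀| : ℤ) = ((∏ v ∈ P, Ideal.absNorm v.asIdeal ^ e v : ℕ) : ℤ) := by
    rw [← h1]
    exact (Int.natCast_natAbs _).symm
  rw [h2, ← Int.cast_abs, h3]
  push_cast
  rfl

/-- **T3.18R.8 (R.8 = N.8 real, product formula).** -/
theorem prodFormRC969 (K : Type) [Field K] [NumberField K] : ProdFormRC K := by
  intro hR 𝔫 P e a₀ α hF
  have hq : ∀ v : HeightOneSpectrum (𝓞 K), (0 : ℝ) < (Ideal.absNorm v.asIdeal : ℝ) := by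
    intro v
    have hq0 : Ideal.absNorm v.asIdeal ≠ 0 := fun h =>
      v.ne_bot (Ideal.absNorm_eq_zero_iff.mp h)
    exact_mod_cast Nat.pos_of_ne_zero hq0
  -- the product of the square roots, squared
  have hS0 : 0 ≤ ∏ w : InfinitePlace K, Real.sqrt (w (α : K)) :=
    Finset.prod_nonneg fun w _ => Real.sqrt_nonneg _
  have hsq : (∏ w : InfinitePlace K, Real.sqrt (w (α : K))) ^ 2
      = ∏ v ∈ P, (Ideal.absNorm v.asIdeal : ℝ) ^ e v := by
    rw [← Finset.prod_pow]
    have h1 : ∏ w : InfinitePlace K, Real.sqrt (w (α : K)) ^ 2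
        = ∏ w : InfinitePlace K, w (α : K) :=
      Finset.prod_congr rfl fun w _ => Real.sq_sqrt (apply_nonneg w _)
    rw [h1, prod_eq_abs_norm969 K hR, hF.coe, abs_norm_eq_prod969 K P e a₀ hF.span]
  have hR0 : 0 ≤ ∏ v ∈ P, (Ideal.absNorm v.asIdeal : ℝ) ^ ((e v : ℝ) / 2) :=
    Finset.prod_nonneg fun v _ => Real.rpow_nonneg (hq v).le _
  have hP : ∏ w : InfinitePlace K, Real.sqrt (w (α : K))
      = ∏ v ∈ P, (Ideal.absNorm v.asIdeal : ℝ) ^ ((e v : ℝ) / 2) := by
    have h1 : (∏ v ∈ P, (Ideal.absNorm v.asIdeal : ℝ) ^ ((e v : ℝ) / 2)) ^ 2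
        = ∏ v ∈ P, (Ideal.absNorm v.asIdeal : ℝ) ^ e v := by
      rw [← Finset.prod_pow]
      refine Finset.prod_congr rfl fun v _ => ?_
      rw [← Real.rpow_natCast, ← Real.rpow_mul (hq v).le]
      have : (e v : ℝ) / 2 * ((2 : ℕ) : ℝ) = (e v : ℝ) := by push_cast; ring
      rw [this, Real.rpow_natCast]
    exact (pow_left_inj₀ hS0 hR0 two_ne_zero).mp (hsq.trans h1.symm)
  rw [hP, ← Finset.prod_mul_distrib]
  refine Finset.prod_eq_one fun v _ => ?_
  rw [← Real.rpow_add (hq v)]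
  have : -(e v : ℝ) / 2 + (e v : ℝ) / 2 = 0 := by ring
  rw [this, Real.rpow_zero]

end Fermat.Agent.LT.T3.R.H969

end

end
-- ===== PACK-END LT/T3/R/H969/ProdFormR.lean

-- ===== PACK-BEGIN LT/T3/R/H321/ReEmb.lean
section




/-!
# Row LT, tower T3, station T3.18R, leaf R.4 `ROpRC` (helper321, OFF-MAIN): the real embedding

Complete proofs, nothing assumed.  The real analogue of `H57/ROpEmb.lean`, `H57/ROpLoc.lean`
and of the first part of `H57/ROp.lean` (helper57), `K` totally real: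

* `secondCountable_GL2R321`, `locallyCompact_GL2R321` : `GL₂(ℝ)` (units topology);
* `reEmb321 : (InfinitePlace K → GL₂(ℝ)) →* GL₂(𝔸_K)`, continuous, with components
  `reGL_reEmb321`, `finGL_reEmb321`;
* `reEmbAt321 w : GL₂(ℝ) →* GL₂(𝔸_K)` (supported at `w`);
* `continuous_reGL321`, `reGL_finEmb321`;
* `piRe321`, `embFinR321` : the projection to `GL₂(ℝ)ⁿ` and its section;
* `inLevelGroup_ofR321` : `x ∈ G_∞ × U(𝔫)_f` implies `ι(π x)⁻¹ x ∈ U(𝔫)`;
* `measure_lt_topR321` : `U₀ ∩ π⁻¹ C` has finite Haar measure for compact `C`.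
-/

set_option autoImplicit false
set_option linter.style.haveILetI false
set_option linter.unusedSectionVars false

open IsDedekindDomain NumberField Topology MeasureTheory
open Fermat.Agent.LT.H556.A0
open Fermat.Agent.LT.T1 Fermat.Agent.LT.T1.H724 Fermat.Agent.LT.T1.H793
open Fermat.Agent.LT.T3
open Fermat.Agent.LT.T3.H57
open Fermat.Agent.LT.T3.M.H474
open scoped ENNReal

noncomputable section

namespace Fermat.Agent.LT.T3.R.H321

/-! ## `GL₂(ℝ)` -/

theorem secondCountable_matR321 : SecondCountableTopology (Matrix (Fin 2) (Fin 2) ℝ) :=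
  inferInstanceAs (SecondCountableTopology (Fin 2 → Fin 2 → ℝ))

theorem locallyCompact_matR321 : LocallyCompactSpace (Matrix (Fin 2) (Fin 2) ℝ) :=
  inferInstanceAs (LocallyCompactSpace (Fin 2 → Fin 2 → ℝ))

theorem secondCountable_GL2R321 : SecondCountableTopology (GL (Fin 2) ℝ) := by
  have := secondCountable_matR321
  have : SecondCountableTopology (Matrix (Fin 2) (Fin 2) ℝ)ᵐᵒᵖ :=
    MulOpposite.opHomeomorph.symm.secondCountableTopology
  exact (Units.isEmbedding_embedProduct (M := Matrix (Fin 2) (Fin 2) ℝ)).secondCountableTopology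

theorem locallyCompact_GL2R321 : LocallyCompactSpace (GL (Fin 2) ℝ) := by
  have := locallyCompact_matR321
  exact (Units.isClosedEmbedding_embedProduct (α := Matrix (Fin 2) (Fin 2) ℝ)).locallyCompactSpace

variable {K : Type} [Field K] [NumberField K]

/-! ## Components at a real place -/

theorem reGL_val321 (w : InfinitePlace K) (hw : w.IsReal) (g : G K) (i j : Fin 2) :
    ((reGL K w hw g : GL (Fin 2) ℝ) : Matrix (Fin 2) (Fin 2) ℝ) i j
      = InfinitePlace.Completion.extensionEmbeddingOfIsReal hw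
          (((g : Matrix (Fin 2) (Fin 2) (Adl K)) i j).1 w) := rfl

theorem reGL_inv_val321 (w : InfinitePlace K) (hw : w.IsReal) (g : G K) (i j : Fin 2) :
    (((reGL K w hw g)⁻¹ : GL (Fin 2) ℝ) : Matrix (Fin 2) (Fin 2) ℝ) i j
      = InfinitePlace.Completion.extensionEmbeddingOfIsReal hw
          ((((g⁻¹ : G K) : Matrix (Fin 2) (Fin 2) (Adl K)) i j).1 w) := by
  rw [← map_inv]
  rfl

theorem continuous_reGL321 (w : InfinitePlace K) (hw : w.IsReal) :
    Continuous (reGL K w hw) := by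
  rw [Units.continuous_iff]
  refine ⟨?_, ?_⟩
  · refine continuous_matrix fun i j => ?_
    exact (InfinitePlace.Completion.isometry_extensionEmbeddingOfIsReal hw).continuous.comp
      ((continuous_projInf793 w).comp (continuous_entry793 i j))
  · refine continuous_matrix fun i j => ?_
    have h : Continuous (fun g : G K =>
        InfinitePlace.Completion.extensionEmbeddingOfIsReal hw
          ((((g⁻¹ : G K) : Matrix (Fin 2) (Fin 2) (Adl K)) i j).1 w)) :=
      (InfinitePlace.Completion.isometry_extensionEmbeddingOfIsReal hw).continuous.comp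
        ((continuous_projInf793 w).comp (continuous_entry_inv793 i j))
    refine h.congr fun g => ?_
    exact (reGL_inv_val321 w hw g i j).symm

/-- The real component of an element which is trivial at `w`. -/
theorem reGL_eq_one_of_triv321 {w : InfinitePlace K} (hw : w.IsReal) {g : G K}
    (h : TrivAtInf w g) : reGL K w hw g = 1 := by
  apply Units.ext
  ext i j
  rw [reGL_val321, h i j, Units.val_one, Matrix.one_apply, Matrix.one_apply]
  split_ifs <;> simp

/-- An element with trivial real component at `w` is trivial at `w`. -/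
theorem trivAtInf_of_reGL_eq_one321 {w : InfinitePlace K} (hw : w.IsReal) {g : G K}
    (h : reGL K w hw g = 1) : TrivAtInf w g := by
  intro i j
  have h1 : InfinitePlace.Completion.extensionEmbeddingOfIsReal hw
      (((g : Matrix (Fin 2) (Fin 2) (Adl K)) i j).1 w) = (1 : Matrix (Fin 2) (Fin 2) ℝ) i j := by
    rw [← reGL_val321, h, Units.val_one]
  have h2 : InfinitePlace.Completion.extensionEmbeddingOfIsReal hw
      ((1 : Matrix (Fin 2) (Fin 2) w.Completion) i j) = (1 : Matrix (Fin 2) (Fin 2) ℝ) i j := by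
    rw [Matrix.one_apply, Matrix.one_apply]
    split_ifs <;> simp
  exact (InfinitePlace.Completion.extensionEmbeddingOfIsReal hw).injective (h1.trans h2.symm)

theorem reGL_finEmb321 (v₀ : HeightOneSpectrum (𝓞 K))
    (h : GL (Fin 2) (v₀.adicCompletion K)) (w : InfinitePlace K) (hw : w.IsReal) :
    reGL K w hw (finEmb57 v₀ h) = 1 :=
  reGL_eq_one_of_triv321 hw ((isLocalAtFin_finEmb57 v₀ h).1 w)

/-! ## The embedding of the real places -/

section Re

variable (hR : ∀ w : InfinitePlace K, w.IsReal)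

/-- The inverse of the embedding `K_w → ℝ` at a real place. -/
def rInv321 (w : InfinitePlace K) : ℝ →+* w.Completion :=
  ((InfinitePlace.Completion.ringEquivRealOfIsReal (hR w)).symm : ℝ ≃+* w.Completion)

theorem ext_rInv321 (w : InfinitePlace K) (z : ℝ) :
    InfinitePlace.Completion.extensionEmbeddingOfIsReal (hR w) (rInv321 hR w z) = z :=
  (InfinitePlace.Completion.ringEquivRealOfIsReal (hR w)).apply_symm_apply z

theorem continuous_rInv321 (w : InfinitePlace K) : Continuous (rInv321 hR w) :=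
  (InfinitePlace.Completion.isometryEquivRealOfIsReal (hR w)).symm.continuous

/-- The adelic matrix with components `t w` at the real places and `1` at the finite places. -/
def reMat321 (t : InfinitePlace K → Matrix (Fin 2) (Fin 2) ℝ) : Matrix (Fin 2) (Fin 2) (Adl K) :=
  fun i j => (fun w => rInv321 hR w (t w i j), ((1 : Matrix (Fin 2) (Fin 2) (Adl K)) i j).2)

theorem reMat_map_inf321 (t : InfinitePlace K → Matrix (Fin 2) (Fin 2) ℝ) (w : InfinitePlace K) :
    (reMat321 hR t).map (evInf724 w) = (t w).map (rInv321 hR w) := by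
  ext i j : 1
  rfl

theorem reMat_map_fin321 (t : InfinitePlace K → Matrix (Fin 2) (Fin 2) ℝ)
    (v : HeightOneSpectrum (𝓞 K)) : (reMat321 hR t).map (evFin724 v) = 1 := by
  ext i j : 1
  rw [Matrix.map_apply]
  change evFin724 v ((1 : Matrix (Fin 2) (Fin 2) (Adl K)) i j) = _
  rw [← Matrix.map_apply (f := evFin724 v), Matrix.map_one _ (map_zero _) (map_one _)]

theorem reMat_mul321 (s t : InfinitePlace K → Matrix (Fin 2) (Fin 2) ℝ) :
    reMat321 hR s * reMat321 hR t = reMat321 hR (fun w => s w * t w) := by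
  refine mat_ext724 (fun w => ?_) (fun v => ?_)
  · rw [Matrix.map_mul, reMat_map_inf321, reMat_map_inf321, reMat_map_inf321, Matrix.map_mul]
  · rw [Matrix.map_mul, reMat_map_fin321, reMat_map_fin321, reMat_map_fin321, mul_one]

theorem reMat_one321 :
    reMat321 hR (fun _ => (1 : Matrix (Fin 2) (Fin 2) ℝ)) = 1 := by
  refine mat_ext724 (fun w => ?_) (fun v => ?_)
  · rw [reMat_map_inf321, Matrix.map_one _ (map_zero _) (map_one _),
      Matrix.map_one _ (map_zero _) (map_one _)]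
  · rw [reMat_map_fin321, Matrix.map_one _ (map_zero _) (map_one _)]

/-- The embedding `∏_w GL₂(ℝ) → GL₂(𝔸_K)`. -/
def reEmb321 : (InfinitePlace K → GL (Fin 2) ℝ) →* G K where
  toFun t :=
    ⟨reMat321 hR (fun w => ((t w : GL (Fin 2) ℝ) : Matrix (Fin 2) (Fin 2) ℝ)),
      reMat321 hR (fun w => (((t w)⁻¹ : GL (Fin 2) ℝ) : Matrix (Fin 2) (Fin 2) ℝ)),
      by
        rw [reMat_mul321]
        simp only [← Units.val_mul, mul_inv_cancel, Units.val_one]
        exact reMat_one321 hR,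
      by
        rw [reMat_mul321]
        simp only [← Units.val_mul, inv_mul_cancel, Units.val_one]
        exact reMat_one321 hR⟩
  map_one' := by
    apply Units.ext
    exact reMat_one321 hR
  map_mul' s t := by
    apply Units.ext
    change reMat321 hR _ = reMat321 hR _ * reMat321 hR _
    rw [reMat_mul321]
    rfl

theorem reEmb_val321 (t : InfinitePlace K → GL (Fin 2) ℝ) :
    ((reEmb321 hR t : G K) : Matrix (Fin 2) (Fin 2) (Adl K))
      = reMat321 hR (fun w => ((t w : GL (Fin 2) ℝ) : Matrix (Fin 2) (Fin 2) ℝ)) := rfl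

theorem reGL_reEmb321 (t : InfinitePlace K → GL (Fin 2) ℝ) (w : InfinitePlace K) :
    reGL K w (hR w) (reEmb321 hR t) = t w := by
  apply Units.ext
  ext i j
  rw [reGL_val321]
  exact ext_rInv321 hR w _

theorem finGL_reEmb321 (t : InfinitePlace K → GL (Fin 2) ℝ) (v : HeightOneSpectrum (𝓞 K)) :
    AS.finGL K v (reEmb321 hR t) = 1 := by
  apply Units.ext
  rw [finGL_val57, Units.val_one]
  exact reMat_map_fin321 hR (fun w => ((t w : GL (Fin 2) ℝ) : Matrix (Fin 2) (Fin 2) ℝ)) v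

theorem continuous_reMat321 :
    Continuous (fun t : InfinitePlace K → GL (Fin 2) ℝ =>
      reMat321 hR (fun w => ((t w : GL (Fin 2) ℝ) : Matrix (Fin 2) (Fin 2) ℝ))) := by
  refine continuous_matrix fun i j => ?_
  refine Continuous.prodMk (continuous_pi fun w => ?_) continuous_const
  refine (continuous_rInv321 hR w).comp ?_
  exact (Units.continuous_val.comp (continuous_apply w)).matrix_elem i j

theorem continuous_reEmb321 : Continuous (reEmb321 hR) := by
  rw [Units.continuous_iff]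
  refine ⟨continuous_reMat321 hR, ?_⟩
  have h : Continuous (fun t : InfinitePlace K → GL (Fin 2) ℝ => t⁻¹) := continuous_inv
  exact (continuous_reMat321 hR).comp h

/-- The component at `w' ≠ w` of an element supported at `w`. -/
theorem trivAtInf_reEmb321 [DecidableEq (InfinitePlace K)] (w : InfinitePlace K)
    (s : GL (Fin 2) ℝ) (w' : InfinitePlace K) (hw : w' ≠ w) :
    TrivAtInf w' (reEmb321 hR (Pi.mulSingle w s)) := by
  intro i j
  rw [reEmb_val321]
  change rInv321 hR w' (((Pi.mulSingle w s : InfinitePlace K → GL (Fin 2) ℝ) w' :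
    GL (Fin 2) ℝ).1 i j) = _
  rw [Pi.mulSingle_eq_of_ne hw, Units.val_one, Matrix.one_apply, Matrix.one_apply]
  split_ifs <;> simp

theorem trivAtFin_reEmb321 (t : InfinitePlace K → GL (Fin 2) ℝ) (v : HeightOneSpectrum (𝓞 K)) :
    TrivAtFin v (reEmb321 hR t) :=
  reMat_map_fin321 hR (fun w => ((t w : GL (Fin 2) ℝ) : Matrix (Fin 2) (Fin 2) ℝ)) v

theorem isLocalAtInf_reEmb321 [DecidableEq (InfinitePlace K)] (w : InfinitePlace K)
    (s : GL (Fin 2) ℝ) : IsLocalAtInf w (reEmb321 hR (Pi.mulSingle w s)) :=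
  ⟨fun w' hw => trivAtInf_reEmb321 hR w s w' hw, fun v => trivAtFin_reEmb321 hR _ v⟩

/-- `x ∈ G_∞ × U(𝔫)_f` differs from its infinite part by an element of `U(𝔫)`. -/
theorem inLevelGroup_ofR321 (𝔫 : Ideal (𝓞 K)) (x : G K) (hx : InU057 𝔫 x) :
    InLevelGroup 𝔫 ((reEmb321 hR (fun w => reGL K w (hR w) x))⁻¹ * x) := by
  obtain ⟨u, hu⟩ : ∃ u : G K, u = (reEmb321 hR (fun w => reGL K w (hR w) x))⁻¹ * x := ⟨_, rfl⟩
  rw [← hu]
  have hinf : ∀ w, reGL K w (hR w) u = 1 := by
    intro w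
    rw [hu, map_mul, map_inv, reGL_reEmb321, inv_mul_cancel]
  have hfin : ∀ v, AS.finGL K v u = AS.finGL K v x := by
    intro v
    rw [hu, map_mul, map_inv, finGL_reEmb321, inv_one, one_mul]
  refine ⟨fun w => trivAtInf_of_reGL_eq_one321 (hR w) (hinf w), ?_⟩
  have := (inU0_iff_loc57 𝔫 x).1 hx
  have h3 : InU057 𝔫 u := (inU0_iff_loc57 𝔫 u).2 fun v => by rw [hfin v]; exact this v
  exact h3

/-! ## The embedding of one real place -/

open Classical in
/-- The embedding of `GL₂(ℝ)` at the place `w`. -/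
def reEmbAt321 (w : InfinitePlace K) : GL (Fin 2) ℝ →* G K :=
  (reEmb321 hR).comp (MonoidHom.mulSingle (fun _ : InfinitePlace K => GL (Fin 2) ℝ) w)

open Classical in
theorem reEmbAt_apply321 (w : InfinitePlace K) (s : GL (Fin 2) ℝ) :
    reEmbAt321 hR w s = reEmb321 hR (Pi.mulSingle w s) := rfl

theorem isLocalAtInf_reEmbAt321 (w : InfinitePlace K) (s : GL (Fin 2) ℝ) :
    IsLocalAtInf w (reEmbAt321 hR w s) := by
  classical
  exact isLocalAtInf_reEmb321 hR w s

theorem reGL_reEmbAt321 (w : InfinitePlace K) (s : GL (Fin 2) ℝ) :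
    reGL K w (hR w) (reEmbAt321 hR w s) = s := by
  classical
  rw [reEmbAt_apply321, reGL_reEmb321, Pi.mulSingle_eq_same]

theorem continuous_reEmbAt321 (w : InfinitePlace K) : Continuous (reEmbAt321 hR w) := by
  classical
  have h : Continuous (fun s : GL (Fin 2) ℝ =>
      (Pi.mulSingle w s : InfinitePlace K → GL (Fin 2) ℝ)) := by
    refine continuous_pi fun w' => ?_
    by_cases hw : w' = w
    · subst hw
      simp only [Pi.mulSingle_eq_same]
      exact continuous_id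
    · simp only [Pi.mulSingle_eq_of_ne hw]
      exact continuous_const
  exact (continuous_reEmb321 hR).comp h

/-! ## The projection to the real places and its section -/

/-- The projection `GL₂(𝔸_K) → GL₂(ℝ)ⁿ`. -/
def piRe321 {n : ℕ} (e : InfinitePlace K ≃ Fin n) : G K →* (Fin n → GL (Fin 2) ℝ) :=
  MonoidHom.pi fun i => reGL K (e.symm i) (hR (e.symm i))

theorem piRe_apply321 {n : ℕ} (e : InfinitePlace K ≃ Fin n) (x : G K) (i : Fin n) :
    piRe321 hR e x i = reGL K (e.symm i) (hR (e.symm i)) x := rfl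

theorem continuous_piRe321 {n : ℕ} (e : InfinitePlace K ≃ Fin n) :
    Continuous (piRe321 hR e) :=
  continuous_pi fun i => continuous_reGL321 (e.symm i) (hR (e.symm i))

/-- The section `GL₂(ℝ)ⁿ → GL₂(𝔸_K)`. -/
def embFinR321 {n : ℕ} (e : InfinitePlace K ≃ Fin n) : (Fin n → GL (Fin 2) ℝ) →* G K where
  toFun t := reEmb321 hR (fun w => t (e w))
  map_one' := (reEmb321 hR).map_one
  map_mul' s t := (reEmb321 hR).map_mul (fun w => s (e w)) (fun w => t (e w))

theorem embFinR_apply321 {n : ℕ} (e : InfinitePlace K ≃ Fin n) (t : Fin n → GL (Fin 2) ℝ) :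
    embFinR321 hR e t = reEmb321 hR (fun w => t (e w)) := rfl

theorem continuous_embFinR321 {n : ℕ} (e : InfinitePlace K ≃ Fin n) :
    Continuous (embFinR321 hR e) :=
  (continuous_reEmb321 hR).comp (continuous_pi fun w => continuous_apply (e w))

theorem piRe_embFinR321 {n : ℕ} (e : InfinitePlace K ≃ Fin n) (t : Fin n → GL (Fin 2) ℝ) :
    piRe321 hR e (embFinR321 hR e t) = t := by
  funext i
  rw [piRe_apply321, embFinR_apply321, reGL_reEmb321, Equiv.apply_symm_apply]

theorem embFinR_piRe321 {n : ℕ} (e : InfinitePlace K ≃ Fin n) (x : G K) :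
    embFinR321 hR e (piRe321 hR e x) = reEmb321 hR (fun w => reGL K w (hR w) x) := by
  rw [embFinR_apply321]
  congr 1
  funext w
  rw [piRe_apply321]
  have key : ∀ w' : InfinitePlace K, w' = w → reGL K w' (hR w') x = reGL K w (hR w) x := by
    intro w' h
    subst h
    rfl
  exact key _ (Equiv.symm_apply_apply e w)

theorem finGL_embFinR321 {n : ℕ} (e : InfinitePlace K ≃ Fin n) (t : Fin n → GL (Fin 2) ℝ)
    (v : HeightOneSpectrum (𝓞 K)) : AS.finGL K v (embFinR321 hR e t) = 1 :=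
  finGL_reEmb321 hR _ v

theorem embFinR_mulSingle321 {n : ℕ} (e : InfinitePlace K ≃ Fin n) (i : Fin n)
    (s : GL (Fin 2) ℝ) :
    embFinR321 hR e (Pi.mulSingle i s) = reEmbAt321 hR (e.symm i) s := by
  classical
  rw [embFinR_apply321, reEmbAt_apply321]
  congr 1
  funext w
  by_cases hw : w = e.symm i
  · subst hw
    simp
  · have h2 : e w ≠ i := fun h => hw (by rw [← h, Equiv.symm_apply_apply])
    rw [Pi.mulSingle_eq_of_ne h2, Pi.mulSingle_eq_of_ne hw]

theorem inU0_embFinR_mul321 {n : ℕ} (e : InfinitePlace K ≃ Fin n) (𝔫 : Ideal (𝓞 K))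
    (t : Fin n → GL (Fin 2) ℝ) (x : G K) (hx : InU057 𝔫 x) :
    InU057 𝔫 (embFinR321 hR e t * x) := by
  rw [inU0_iff_loc57] at hx ⊢
  intro v
  rw [map_mul, finGL_embFinR321, one_mul]
  exact hx v

variable [MeasurableSpace (G K)] [BorelSpace (G K)]

include hR in
/-- `U₀ ∩ π⁻¹ C` has finite measure. -/
theorem measure_lt_topR321 {n : ℕ} (e : InfinitePlace K ≃ Fin n) (𝔫 : Ideal (𝓞 K))
    (μ : Measure (G K)) [μ.IsHaarMeasure] (C : Set (Fin n → GL (Fin 2) ℝ)) (hC : IsCompact C) :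
    μ ({x : G K | InU057 𝔫 x} ∩ piRe321 hR e ⁻¹' C) < ∞ := by
  have hK0 := isCompact_stdCompact793 K
  have hcont : Continuous (fun p : (Fin n → GL (Fin 2) ℝ) × G K => embFinR321 hR e p.1 * p.2) :=
    ((continuous_embFinR321 hR e).comp continuous_fst).mul continuous_snd
  have himg : IsCompact ((fun p : (Fin n → GL (Fin 2) ℝ) × G K => embFinR321 hR e p.1 * p.2) ''
      (C ×ˢ {k : G K | IsStdCompact K k})) := (hC.prod hK0).image hcont
  refine lt_of_le_of_lt (measure_mono ?_) himg.measure_lt_top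
  rintro x ⟨hx, hxC⟩
  refine ⟨(piRe321 hR e x, (embFinR321 hR e (piRe321 hR e x))⁻¹ * x), ⟨hxC, ?_⟩, ?_⟩
  · have hu := inLevelGroup_ofR321 hR 𝔫 x hx
    rw [← embFinR_piRe321 hR e] at hu
    exact isStdCompact_of57 𝔫 _ hu
  · simp

end Re

end Fermat.Agent.LT.T3.R.H321

end

end
-- ===== PACK-END LT/T3/R/H321/ReEmb.lean

-- ===== PACK-BEGIN LT/T7/H842/SpecStepR.lean
section





/-!
# Row LT, tower T7, node T7.L2Q.1.H2a.A.0b.M `StepMDatQC87` (registry row 3188), DOWNSTAIRS: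
# THE SPECTRAL STEP AT THE REAL PLACE (helper842, ASSET)

OFF-MAIN.  Complete proofs, nothing assumed.  ADDITIVE (new names only, suffix `842`, namespace
`Fermat.Agent.LT.T7.H842S`).  LOCAL, `GL₂(ℝ)` only.  On the CLOSED machinery of tower T6:
`H830.hcTransRC830` (the spherical transform in the weights `0, ±1` is the Mellin transform of
the Harish-Chandra transform) and `H698.sphCKernelC698`.

    specStepR842 : IsArchTestR n F → IsArchTestR n F₂ → HasAbelNR F β →
        HasAbelNR F₂ (segAvg842 d β) →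
        ∀ s, sphTransR μ n F₂ s = 4π · sphC (2 s) (cosh d) · sphTransR μ n F s

`segAvg842 d β (X) = (2π / sinh d) ∫_{-d}^{d} β(X₁ + a, X₂ - a) da`: the `N`-integral downstairs
after the step `M_{w,d}` (re-synthesis), in the halfQ form `segAvg842 d (halfQ c β') =
halfQ c (sphAbel d β')`, `sphAbel d β' (X) = (4π / sinh d) ∫_{-d/2}^{d/2} β'(X₁ + a, X₂ - a) da`
the Abel transform upstairs of the sphere mean (helper132, helper288): `segAvg_half842`.

Proof.  `hcR F ζ r = e^{-r/2} β((ζ+r)/2, (ζ-r)/2)` (`hcR_of_hasAbelNR842`), so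
`melR F s = ∫∫ e^{rs} β((ζ+r)/2, (ζ-r)/2) dr dζ`; for fixed `ζ` Fubini on `ℝ × [-d, d]` and the
translation `r ↦ r - 2a`: the inner integral is multiplied by
`(2π / sinh d) ∫_{-d}^{d} e^{-2as} da = 4π sphC (2s) (cosh d)`.
-/

set_option autoImplicit false
set_option linter.style.haveILetI false
set_option linter.unusedVariables false

open MeasureTheory

noncomputable section

namespace Fermat.Agent.LT.T7.H842S

open Fermat.Agent.LT Fermat.Agent.LT.T6

/-! ## 1. The segment average -/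

/-- `(2π / sinh d) ∫_{-d}^{d} β(X₁ + a, X₂ - a) da`. -/
def segAvg842 (d : ℝ) (β : ℝ × ℝ → ℂ) : ℝ × ℝ → ℂ :=
  fun X => ((2 * Real.pi / Real.sinh d : ℝ) : ℂ) * ∫ a in (-d)..d, β (X.1 + a, X.2 - a)

/-- The halfQ form: the segment average of `c β'(·/2)` is `c · (sphAbel d β')(·/2)`, where
`sphAbel d β' (X) = (4π / sinh d) ∫_{-d/2}^{d/2} β'(X₁ + a, X₂ - a) da`. -/
theorem segAvg_half842 (d : ℝ) (c : ℂ) (β' : ℝ × ℝ → ℂ) (X : ℝ × ℝ) :
    segAvg842 d (fun p => c * β' ((2 : ℝ)⁻¹ • p)) X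
      = c * (((4 * Real.pi / Real.sinh d : ℝ) : ℂ)
          * ∫ a in (-(d / 2))..(d / 2), β' (((2 : ℝ)⁻¹ • X).1 + a, ((2 : ℝ)⁻¹ • X).2 - a)) := by
  unfold segAvg842
  have h1 : (∫ a in (-d)..d, (fun p : ℝ × ℝ => c * β' ((2 : ℝ)⁻¹ • p)) (X.1 + a, X.2 - a))
      = c * ∫ a in (-d)..d, β' ((2 : ℝ)⁻¹ * X.1 + (2 : ℝ)⁻¹ * a, (2 : ℝ)⁻¹ * X.2 - (2 : ℝ)⁻¹ * a) := by
    rw [← intervalIntegral.integral_const_mul]
    refine intervalIntegral.integral_congr fun a _ => ?_
    show c * β' ((2 : ℝ)⁻¹ • (X.1 + a, X.2 - a)) = _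
    congr 2
    ext
    · show (2 : ℝ)⁻¹ * (X.1 + a) = _
      ring
    · show (2 : ℝ)⁻¹ * (X.2 - a) = _
      ring
  have h2 : (∫ a in (-d)..d,
        β' ((2 : ℝ)⁻¹ * X.1 + (2 : ℝ)⁻¹ * a, (2 : ℝ)⁻¹ * X.2 - (2 : ℝ)⁻¹ * a))
      = (2 : ℝ) • ∫ a in (-(d / 2))..(d / 2), β' ((2 : ℝ)⁻¹ * X.1 + a, (2 : ℝ)⁻¹ * X.2 - a) := by
    have h := intervalIntegral.integral_comp_mul_left
      (a := -d) (b := d) (fun a : ℝ => β' ((2 : ℝ)⁻¹ * X.1 + a, (2 : ℝ)⁻¹ * X.2 - a))
      (c := (2 : ℝ)⁻¹) (by norm_num)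
    rw [h, inv_inv]
    congr 2 <;> ring
  rw [h1, h2, Complex.real_smul]
  show _ = c * (_ * ∫ a in (-(d / 2))..(d / 2), β' ((2 : ℝ)⁻¹ * X.1 + a, (2 : ℝ)⁻¹ * X.2 - a))
  push_cast
  ring

/-! ## 2. The Harish-Chandra transform in terms of the `N`-integral -/

theorem bR_eq_upperGL842 (ζ r x : ℝ) (c₁ c₂ : ℝˣ)
    (h1 : (c₁ : ℝ) = Real.exp ((ζ + r) / 2)) (h2 : (c₂ : ℝ) = Real.exp ((ζ - r) / 2)) :
    H830.bR ζ r x = T3.AS.upperGL c₁ c₂ (Real.exp ((ζ + r) / 2) * x) := by
  apply Units.ext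
  show (!![Real.exp ((ζ + r) / 2), Real.exp ((ζ + r) / 2) * x; 0, Real.exp ((ζ - r) / 2)] :
      Matrix (Fin 2) (Fin 2) ℝ)
    = !![(c₁ : ℝ), Real.exp ((ζ + r) / 2) * x; 0, (c₂ : ℝ)]
  rw [h1, h2]

/-- `hcR F ζ r = e^{-r/2} β((ζ + r)/2, (ζ - r)/2)`. -/
theorem hcR_of_hasAbelNR842 {F : GL (Fin 2) ℝ → ℂ} {β : ℝ × ℝ → ℂ}
    (hF : T3.R.HasAbelNR F β) (ζ r : ℝ) :
    H830.hcR F ζ r = ((Real.exp (-(r / 2)) : ℝ) : ℂ) * β ((ζ + r) / 2, (ζ - r) / 2) := by
  have ha : Real.exp ((ζ + r) / 2) ≠ 0 := Real.exp_ne_zero _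
  have hb : Real.exp ((ζ - r) / 2) ≠ 0 := Real.exp_ne_zero _
  have hN := hF (Units.mk0 _ ha) (Units.mk0 _ hb) (Real.exp_pos _) (Real.exp_pos _)
  simp only [Units.val_mk0, Real.log_exp] at hN
  unfold H830.hcR
  have e : (fun x : ℝ => F (H830.bR ζ r x))
      = fun x : ℝ => (fun y : ℝ => F (T3.AS.upperGL (Units.mk0 _ ha) (Units.mk0 _ hb) y))
          (Real.exp ((ζ + r) / 2) * x) := by
    funext x
    rw [bR_eq_upperGL842 ζ r x (Units.mk0 _ ha) (Units.mk0 _ hb) rfl rfl]
  rw [e, Measure.integral_comp_mul_left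
    (fun y : ℝ => F (T3.AS.upperGL (Units.mk0 _ ha) (Units.mk0 _ hb) y)) (Real.exp ((ζ + r) / 2)),
    hN, Complex.real_smul, ← mul_assoc, ← Complex.ofReal_mul]
  congr 2
  rw [abs_of_pos (inv_pos.2 (Real.exp_pos _)), ← Real.exp_add, Real.sqrt_eq_rpow,
    ← Real.exp_mul, ← Real.exp_neg, ← Real.exp_add]
  congr 1
  ring

/-! ## 3. Fubini on `ℝ × [-d, d]` and the translation -/

/-- Fubini for `(r, a) ↦ g(r) B(r + 2a)` on `ℝ × [-d, d]`. -/
theorem swap_seg842 (g B : ℝ → ℂ) (hg : Continuous g) (hB : Continuous B) (R : ℝ)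
    (hR : ∀ r : ℝ, R < |r| → B r = 0) (d : ℝ) (hd : 0 ≤ d) :
    (∫ r : ℝ, ∫ a in (-d)..d, g r * B (r + 2 * a))
      = ∫ a in (-d)..d, ∫ r : ℝ, g r * B (r + 2 * a) := by
  have hle : -d ≤ d := by linarith
  have hH : Continuous (fun p : ℝ × ℝ => g p.1 * B (p.1 + 2 * p.2)) := by fun_prop
  have h1 : IntegrableOn (fun p : ℝ × ℝ => g p.1 * B (p.1 + 2 * p.2))
      (Set.Icc (-(R + 2 * d)) (R + 2 * d) ×ˢ Set.Icc (-d) d)
      ((volume : Measure ℝ).prod (volume : Measure ℝ)) :=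
    hH.continuousOn.integrableOn_compact (isCompact_Icc.prod isCompact_Icc)
  have h2 : IntegrableOn (fun p : ℝ × ℝ => g p.1 * B (p.1 + 2 * p.2))
      (Set.univ ×ˢ Set.Ioc (-d) d) ((volume : Measure ℝ).prod (volume : Measure ℝ)) := by
    refine h1.of_forall_sdiff_eq_zero (MeasurableSet.univ.prod measurableSet_Ioc) ?_
    rintro ⟨r, a⟩ ⟨⟨-, ha⟩, hna⟩
    have ha' : a ∈ Set.Icc (-d) d := ⟨ha.1.le, ha.2⟩
    have hr : r ∉ Set.Icc (-(R + 2 * d)) (R + 2 * d) := fun hr => hna ⟨hr, ha'⟩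
    have hBz : B (r + 2 * a) = 0 := by
      apply hR
      by_contra hcon
      rw [not_lt] at hcon
      apply hr
      have h3 := abs_le.1 hcon
      constructor
      · linarith [ha'.1, ha'.2, h3.1, h3.2]
      · linarith [ha'.1, ha'.2, h3.1, h3.2]
    show g r * B (r + 2 * a) = 0
    rw [hBz, mul_zero]
  have h3 : ((volume : Measure ℝ).prod ((volume : Measure ℝ).restrict (Set.Ioc (-d) d)))
      = ((volume : Measure ℝ).prod (volume : Measure ℝ)).restrict
          (Set.univ ×ˢ Set.Ioc (-d) d) := by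
    rw [← Measure.prod_restrict, Measure.restrict_univ]
  have hint : Integrable (Function.uncurry fun (r a : ℝ) => g r * B (r + 2 * a))
      ((volume : Measure ℝ).prod ((volume : Measure ℝ).restrict (Set.Ioc (-d) d))) := by
    rw [h3]
    exact h2
  have hsw := integral_integral_swap (μ := (volume : Measure ℝ))
    (ν := (volume : Measure ℝ).restrict (Set.Ioc (-d) d))
    (f := fun (r a : ℝ) => g r * B (r + 2 * a)) hint
  simp only [intervalIntegral.integral_of_le hle]
  exact hsw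

/-- The translation `r ↦ r - 2a` for `g(r) = e^{rs}`. -/
theorem translate_exp842 (s : ℂ) (B : ℝ → ℂ) (a : ℝ) :
    (∫ r : ℝ, Complex.exp ((r : ℂ) * s) * B (r + 2 * a))
      = Complex.exp (-((a : ℂ) * (2 * s))) * ∫ r : ℝ, Complex.exp ((r : ℂ) * s) * B r := by
  have h := integral_add_right_eq_self (μ := (volume : Measure ℝ))
    (fun r : ℝ => Complex.exp (((r : ℂ) - 2 * (a : ℂ)) * s) * B r) (2 * a)
  have e1 : (fun r : ℝ => Complex.exp ((r : ℂ) * s) * B (r + 2 * a))
      = fun r : ℝ =>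
          (fun r : ℝ => Complex.exp (((r : ℂ) - 2 * (a : ℂ)) * s) * B r) (r + 2 * a) := by
    funext r
    show _ = Complex.exp ((((r + 2 * a : ℝ) : ℂ) - 2 * (a : ℂ)) * s) * B (r + 2 * a)
    congr 2
    push_cast
    ring
  have e2 : (fun r : ℝ => Complex.exp (((r : ℂ) - 2 * (a : ℂ)) * s) * B r)
      = fun r : ℝ => Complex.exp (-((a : ℂ) * (2 * s))) * (Complex.exp ((r : ℂ) * s) * B r) := by
    funext r
    rw [← mul_assoc, ← Complex.exp_add]
    congr 2
    ring
  rw [e1, h, e2, integral_const_mul]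

/-- `∫_{-d}^{d} e^{-a (2s)} da = 2 sphC (2s) (cosh d) sinh d`. -/
theorem integral_exp_seg842 (s : ℂ) (d : ℝ) (hd : 0 ≤ d) :
    (∫ a in (-d)..d, Complex.exp (-((a : ℂ) * (2 * s))))
      = 2 * (sphC (2 * s) (Real.cosh d) * ((Real.sinh d : ℝ) : ℂ)) := by
  have hk := H698.sphCKernelC698 (2 * s) d hd
  rw [hk]
  have h := intervalIntegral.integral_comp_neg (a := -d) (b := d)
    (fun ρ : ℝ => Complex.exp ((ρ : ℂ) * (2 * s)))
  simp only [neg_neg] at h
  have e : (∫ a in (-d)..d, Complex.exp (-((a : ℂ) * (2 * s))))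
      = ∫ x in (-d)..d, Complex.exp (((-x : ℝ) : ℂ) * (2 * s)) := by
    refine intervalIntegral.integral_congr fun x _ => ?_
    show Complex.exp (-((x : ℂ) * (2 * s))) = Complex.exp (((-x : ℝ) : ℂ) * (2 * s))
    congr 1
    push_cast
    ring
  rw [e, h]
  ring

/-! ## 4. The step -/

/-- The inner integral, for fixed `ζ`. -/
theorem inner_step842 (β : ℝ × ℝ → ℂ) (hβc : Continuous β) (hβs : HasCompactSupport β)
    (d : ℝ) (hd : 0 < d) (s : ℂ) (ζ : ℝ) :
    (∫ r : ℝ, Complex.exp ((r : ℂ) * s) * segAvg842 d β ((ζ + r) / 2, (ζ - r) / 2))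
      = 4 * (Real.pi : ℂ) * sphC (2 * s) (Real.cosh d)
          * ∫ r : ℝ, Complex.exp ((r : ℂ) * s) * β ((ζ + r) / 2, (ζ - r) / 2) := by
  have hBc : Continuous (fun r : ℝ => β ((ζ + r) / 2, (ζ - r) / 2)) :=
    hβc.comp (by fun_prop)
  obtain ⟨R, hR⟩ : ∃ R : ℝ, ∀ r : ℝ, R < |r| → (fun r : ℝ => β ((ζ + r) / 2, (ζ - r) / 2)) r = 0 := by
    obtain ⟨R0, hR0⟩ := hβs.isCompact.isBounded.subset_closedBall (0 : ℝ × ℝ)
    refine ⟨2 * R0, fun r hr => ?_⟩
    by_contra hne
    have hmem : ((ζ + r) / 2, (ζ - r) / 2) ∈ tsupport β := subset_tsupport _ hne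
    have hb := hR0 hmem
    rw [mem_closedBall_zero_iff, Prod.norm_def] at hb
    have h1 : |(ζ + r) / 2| ≤ R0 := le_trans (le_max_left _ _) hb
    have h2 : |(ζ - r) / 2| ≤ R0 := le_trans (le_max_right _ _) hb
    have h3 : |r| ≤ 2 * R0 :=
      calc |r| = |(ζ + r) / 2 - (ζ - r) / 2| := by congr 1; ring
        _ ≤ |(ζ + r) / 2| + |(ζ - r) / 2| := abs_sub _ _
        _ ≤ 2 * R0 := by linarith
    linarith
  have hsinh : Real.sinh d ≠ 0 := (Real.sinh_pos_iff.2 hd).ne'
  have e1 : (fun r : ℝ => Complex.exp ((r : ℂ) * s) * segAvg842 d β ((ζ + r) / 2, (ζ - r) / 2))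
      = fun r : ℝ => ((2 * Real.pi / Real.sinh d : ℝ) : ℂ)
          * ∫ a in (-d)..d, Complex.exp ((r : ℂ) * s)
              * (fun r : ℝ => β ((ζ + r) / 2, (ζ - r) / 2)) (r + 2 * a) := by
    funext r
    unfold segAvg842
    rw [intervalIntegral.integral_const_mul, ← mul_assoc, ← mul_assoc,
      mul_comm (Complex.exp ((r : ℂ) * s))]
    congr 1
    refine intervalIntegral.integral_congr fun a _ => ?_
    show β ((ζ + r) / 2 + a, (ζ - r) / 2 - a) = β ((ζ + (r + 2 * a)) / 2, (ζ - (r + 2 * a)) / 2)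
    congr 2 <;> ring
  rw [e1, integral_const_mul,
    swap_seg842 (fun r : ℝ => Complex.exp ((r : ℂ) * s))
      (fun r : ℝ => β ((ζ + r) / 2, (ζ - r) / 2)) (by fun_prop) hBc R hR d hd.le]
  have e2 : (∫ a in (-d)..d, ∫ r : ℝ, Complex.exp ((r : ℂ) * s)
        * (fun r : ℝ => β ((ζ + r) / 2, (ζ - r) / 2)) (r + 2 * a))
      = ∫ a in (-d)..d, Complex.exp (-((a : ℂ) * (2 * s)))
          * ∫ r : ℝ, Complex.exp ((r : ℂ) * s) * β ((ζ + r) / 2, (ζ - r) / 2) := by
    refine intervalIntegral.integral_congr fun a _ => ?_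
    exact translate_exp842 s (fun r : ℝ => β ((ζ + r) / 2, (ζ - r) / 2)) a
  rw [e2, intervalIntegral.integral_mul_const, integral_exp_seg842 s d hd.le]
  have hs : ((Real.sinh d : ℝ) : ℂ) ≠ 0 := Complex.ofReal_ne_zero.2 hsinh
  have hc : ((2 * Real.pi / Real.sinh d : ℝ) : ℂ)
      = 2 * (Real.pi : ℂ) / ((Real.sinh d : ℝ) : ℂ) := by
    rw [Complex.ofReal_div, Complex.ofReal_mul]
    norm_num
  rw [hc]
  generalize ((Real.sinh d : ℝ) : ℂ) = σ at hs ⊢
  field_simp
  ring

/-- The Mellin transform of the Harish-Chandra transform after the step. -/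
theorem melR_step842 {F F₂ : GL (Fin 2) ℝ → ℂ} {β : ℝ × ℝ → ℂ} (hβc : Continuous β)
    (hβs : HasCompactSupport β) (d : ℝ) (hd : 0 < d)
    (hF : T3.R.HasAbelNR F β) (hF₂ : T3.R.HasAbelNR F₂ (segAvg842 d β)) (s : ℂ) :
    H830.melR F₂ s
      = 4 * (Real.pi : ℂ) * sphC (2 * s) (Real.cosh d) * H830.melR F s := by
  unfold H830.melR
  rw [← integral_const_mul]
  refine integral_congr_ae (Filter.Eventually.of_forall fun ζ => ?_)
  show (∫ r : ℝ, Complex.exp ((r : ℂ) * (s + 1 / 2)) * H830.hcR F₂ ζ r)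
    = 4 * (Real.pi : ℂ) * sphC (2 * s) (Real.cosh d)
        * ∫ r : ℝ, Complex.exp ((r : ℂ) * (s + 1 / 2)) * H830.hcR F ζ r
  have e : ∀ (G : GL (Fin 2) ℝ → ℂ) (γ : ℝ × ℝ → ℂ), T3.R.HasAbelNR G γ →
      (fun r : ℝ => Complex.exp ((r : ℂ) * (s + 1 / 2)) * H830.hcR G ζ r)
        = fun r : ℝ => Complex.exp ((r : ℂ) * s) * γ ((ζ + r) / 2, (ζ - r) / 2) := by
    intro G γ hG
    funext r
    rw [hcR_of_hasAbelNR842 hG, ← mul_assoc]
    congr 1
    rw [Complex.ofReal_exp, ← Complex.exp_add]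
    congr 1
    push_cast
    ring
  rw [e F₂ _ hF₂, e F β hF]
  exact inner_step842 β hβc hβs d hd s ζ

/-- **THE SPECTRAL STEP AT THE REAL PLACE.**  If the `N`-integral of `F₂` is the segment average
of the `N`-integral of `F` (both test functions of weight `n ∈ {0, ±1}`), then the spherical
transform of `F₂` is `4π sphC (2s) (cosh d)` times the spherical transform of `F`. -/
theorem specStepR842 (μ : @Measure (GL (Fin 2) ℝ) (borel _))
    (hμ : @Measure.IsHaarMeasure _ _ _ (borel _) μ) (n : ℤ) (hn : T3.R.IsWt n)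
    {F F₂ : GL (Fin 2) ℝ → ℂ} {β : ℝ × ℝ → ℂ} (hβc : Continuous β) (hβs : HasCompactSupport β)
    (d : ℝ) (hd : 0 < d) (hFt : IsArchTestR n F) (hF₂t : IsArchTestR n F₂)
    (hF : T3.R.HasAbelNR F β) (hF₂ : T3.R.HasAbelNR F₂ (segAvg842 d β)) (s : ℂ) :
    sphTransR μ n F₂ s
      = 4 * (Real.pi : ℂ) * sphC (2 * s) (Real.cosh d) * sphTransR μ n F s := by
  obtain ⟨c, hc, h⟩ := H830.hcTransRC830 μ hμ
  rw [h n hn F₂ hF₂t s, h n hn F hFt s, melR_step842 hβc hβs d hd hF hF₂ s]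
  ring

/-! ## Appendix: the equation lemmas of the definitions of this file are realised HERE -/

theorem eqns_realised_specStepR842 : True := by
  have _a1 := @segAvg842.eq_1
  trivial

end Fermat.Agent.LT.T7.H842S

end

end
-- ===== PACK-END LT/T7/H842/SpecStepR.lean

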