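import Mathlib
import Fermat.Agent.Pack.LT3.E20L2
import Fermat.Agent.Pack.LT3.E8L0
import Fermat.Agent.Pack.LT4.E1L3
import Fermat.Agent.Pack.LT3.E19L0
import Fermat.Agent.Pack.LT3.E20L0
import Fermat.Agent.Pack.LT3.E20L3
import Fermat.Agent.Pack.LT3.E21L0
import Fermat.Agent.Pack.LT3.E21L3
import Fermat.Agent.Pack.LT3.E22L2
import Fermat.Agent.Pack.LT3.E13L0
import Fermat.Agent.Pack.LT4.E0L1
import Fermat.Agent.Pack.LT2.E6L3
import Fermat.Agent.Pack.LT2.E5L2
import Fermat.Agent.Pack.LT2.E2L2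
import Fermat.Agent.Pack.LT2.E0L1
import Fermat.Agent.Pack.LT4.E0L3
import Fermat.Agent.Pack.LT4.E1L2
import Fermat.Agent.Pack.LT4.E1L1

set_option linter.all false

-- ===== PACK-BEGIN LT/H670/D3/Closed.lean
section




/-!
# Row LT, T6inf.08 = D3 (helper670): CLOSED against the Spec of helper19, UNCONDITIONAL

OFF-MAIN.  `wtOneHolC : Fermat.Agent.LT.T6.Inf.WtOneHolC` (frozen Prop of `LT/T6/Inf/Spec.lean`,
helper19, v3 sha256 29b3285530eb; Part A identical to v2), from `wtOneHol_of_t1` (`D3/Top.lean`)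
and the closed tower T1 (`T1.t1Out`, helper54 `LT/T1/Closed.lean` sha256 81b3d248f342).
-/

set_option autoImplicit false

namespace Fermat.Agent.LT.H670.D3

open Fermat.Agent.LT

/-- **T6inf.08 from the output of T1**, against the frozen Prop. -/
theorem wtOneHolC_of_t1 (hT1 : T1.T1Out ℚ) : T6.Inf.WtOneHolC := wtOneHol_of_t1 hT1

/-- **T6inf.08 = D3, UNCONDITIONAL.** -/
theorem wtOneHolC : T6.Inf.WtOneHolC := wtOneHolC_of_t1 (T1.t1Out ℚ)

end Fermat.Agent.LT.H670.D3

end
-- ===== PACK-END LT/H670/D3/Closed.lean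

-- ===== PACK-BEGIN LT/H670/D3/Realise.lean
section



/-!
# Row LT, T7 over `ℚ`, weight-one type (helper670): REALISATION in ONE lemma

OFF-MAIN.  Proved, UNCONDITIONAL (closed tower T1 + D3 + QOUT).

`IsWtOneSph0FormFor π φ` : `φ` is a continuous bounded automorphic function on `GL₂(𝔸_ℚ)` of level
`U(π.level)`, of weight one (`φ(g k_θ) = e^{iθ} φ(g)`), not identically zero, invariant under the
positive real scalars, whose weight-one circle means have the eigenvalue function of parameter `0`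
(`T6.Inf.MeanValueWtOne`, helper19), Hecke eigen with the eigenvalues of `π` at all `v ∤ π.level`
(`A0.IsHeckeEigenAt`).  This is what the comparison over `ℚ` produces for the type `τ = weight 1`
at a class `i` with `(Ch i).IsSph0` (clause C6 of `coord/LT-T7-helper797.md`).

    IsWtOneSph0FormFor.isHol : IsWtOneSph0FormFor π φ → QOut.IsHolWtOneFormFor π φ      (D3)
    realise_wtOne : IsWtOneSph0FormFor π φ →
      ∃ π', π'.a = π.a ∧ π'.b = π.b ∧ A0.notion556.IsCusp ℚ π'                          (D3 + QOUT)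

No cuspidality hypothesis (the classical form produced by QOUT is a cusp form because `φ` is
bounded), no hypothesis on the level.
-/

set_option autoImplicit false

open IsDedekindDomain NumberField AutomorphicForm
open UpperHalfPlane
open scoped MatrixGroups Manifold

noncomputable section

namespace Fermat.Agent.LT.H670.D3

open Fermat.Agent.LT.H556 Fermat.Agent.LT.H670 Fermat.Agent.LT.H670.QOut Fermat.Agent.LT

/-- **D3 without the level**: holomorphy from weight one + mean value of parameter `0`. -/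
theorem holo_of_meanValue (e : A0.G ℚ → ℂ) (hcont : Continuous e)
    (hbdd : ∃ C : ℝ, ∀ g : A0.G ℚ, ‖e g‖ ≤ C)
    (hleft : ∀ (γ : GL (Fin 2) ℚ) (g : A0.G ℚ),
      e (Matrix.GeneralLinearGroup.map (algebraMap ℚ (A0.Adl ℚ)) γ * g) = e g)
    (hscal : ∀ (w : InfinitePlace ℚ) (z : A0.G ℚ), A0.IsArchPosScalar w z →
      ∀ g : A0.G ℚ, e (g * z) = e g)
    (hweight : ∀ (w : InfinitePlace ℚ) (θ : ℝ) (k : A0.G ℚ), A0.IsLocalAtInf w k →
      A0.infComp w k = QOut.rotC θ →
      ∀ g : A0.G ℚ, e (g * k) = Complex.exp (Complex.I * ((θ : ℝ) : ℂ)) * e g)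
    (hmean : T6.Inf.MeanValueWtOne e)
    (w : InfinitePlace ℚ) (Y : ℍ → A0.G ℚ)
    (hY : ∀ z : ℍ, A0.IsLocalAtInf w (Y z) ∧ A0.infComp w (Y z) = QOut.gzC z)
    (g : A0.G ℚ) (hg : ∀ w' : InfinitePlace ℚ, A0.TrivAtInf w' g) :
    MDifferentiable 𝓘(ℂ) 𝓘(ℂ)
      (fun z : ℍ => (((Real.sqrt z.im : ℝ) : ℂ))⁻¹ * e (Y z * g)) := by
  have hT1 := T1.t1Out ℚ
  obtain ⟨F⟩ := T2.H245.frameExists245 hT1
  have he : IsAut670 e := ⟨hcont, hbdd, hleft, hscal⟩
  have hwt : ∀ (θ : ℝ) (g : A0.G ℚ),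
      e (g * locInf (kTheta θ)) = Complex.exp (Complex.I * ((θ : ℝ) : ℂ)) * e g :=
    fun θ g => hweight w θ _ (isLocalAtInf_locInf w _) (infComp_kTheta w θ) g
  have hmv : ∀ t : ℝ, 0 < t → ∀ g : A0.G ℚ,
      (∫ θ in (0 : ℝ)..(2 * Real.pi),
        Complex.exp (-(Complex.I * ((θ : ℝ) : ℂ))) * e (g * locInf (kTheta θ * aT t)))
        = ((2 * Real.pi / Real.cosh (t / 2) : ℝ) : ℂ) * e g :=
    fun t ht g => hmean w t ht (fun θ => locInf (kTheta θ * aT t))
      (fun θ => ⟨isLocalAtInf_locInf w _, infComp_kTheta_aT w θ t⟩) g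
  have key := mdifferentiable_vF hT1.adNorm hT1.unimod F he hwt hmv g
  have hfun : (fun z : ℍ => (((Real.sqrt z.im : ℝ) : ℂ))⁻¹ * e (Y z * g))
      = fun z : ℍ => vF e z g := by
    funext z
    have hYz : Y z = locInf (gzMat z) := by
      refine eq_locInf w _ (hY z).1 ?_
      rw [(hY z).2, ← infComp_gzMat w z, infComp_locInf]
    show _ = (((Real.sqrt z.im : ℝ) : ℂ))⁻¹ * e (g * locInf (gzMat z))
    rw [hYz, locInf_comm _ hg]
  rw [hfun]
  exact key

/-- **The output of the comparison over `ℚ` in the weight-one type** (before D3). -/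
structure IsWtOneSph0FormFor (π : HeckeEigensystem ℚ ℂ) (φ : A0.G ℚ → ℂ) : Prop where
  cont : Continuous φ
  bdd : ∃ C : ℝ, ∀ g : A0.G ℚ, ‖φ g‖ ≤ C
  ne_zero : ∃ g : A0.G ℚ, φ g ≠ 0
  left_inv : ∀ (γ : GL (Fin 2) ℚ) (g : A0.G ℚ),
    φ (Matrix.GeneralLinearGroup.map (algebraMap ℚ (A0.Adl ℚ)) γ * g) = φ g
  level_inv : ∀ u : A0.G ℚ, A0.InLevelGroup π.level u → ∀ g : A0.G ℚ, φ (g * u) = φ g
  arch_scalar : ∀ (w : InfinitePlace ℚ) (z : A0.G ℚ), A0.IsArchPosScalar w z →
    ∀ g : A0.G ℚ, φ (g * z) = φ g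
  weight_one : ∀ (w : InfinitePlace ℚ) (θ : ℝ) (k : A0.G ℚ), A0.IsLocalAtInf w k →
    A0.infComp w k = QOut.rotC θ →
    ∀ g : A0.G ℚ, φ (g * k) = Complex.exp (Complex.I * ((θ : ℝ) : ℂ)) * φ g
  mean : T6.Inf.MeanValueWtOne φ
  hecke : ∀ v : HeightOneSpectrum (𝓞 ℚ), ¬ v.asIdeal ∣ π.level →
    A0.IsHeckeEigenAt φ v (π.a v) (π.b v)

/-- **D3**: the form is holomorphic. -/
theorem IsWtOneSph0FormFor.isHol {π : HeckeEigensystem ℚ ℂ} {φ : A0.G ℚ → ℂ}
    (h : IsWtOneSph0FormFor π φ) : QOut.IsHolWtOneFormFor π φ where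
  bdd := h.bdd
  ne_zero := h.ne_zero
  left_inv := h.left_inv
  level_inv := h.level_inv
  arch_scalar := h.arch_scalar
  weight_one := h.weight_one
  holo := holo_of_meanValue φ h.cont h.bdd h.left_inv h.arch_scalar h.weight_one h.mean
  hecke := h.hecke

/-- **REALISATION (D3 + QOUT), unconditional**: the eigensystem of a weight-one automorphic
eigenform with the mean-value property of parameter `0` is, away from the level, the eigensystem
of a classical holomorphic cuspidal eigenform of weight one: `A0.notion556.IsCusp ℚ π'`. -/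
theorem realise_wtOne {π : HeckeEigensystem ℚ ℂ} {φ : A0.G ℚ → ℂ}
    (h : IsWtOneSph0FormFor π φ) :
    ∃ π' : HeckeEigensystem ℚ ℂ, π'.a = π.a ∧ π'.b = π.b ∧ A0.notion556.IsCusp ℚ π' :=
  QOut.qOut_isCuspHolQ QOut.qOutC π φ h.isHol

/-- the same, with the classical datum -/
theorem classOut_wtOne {π : HeckeEigensystem ℚ ℂ} {φ : A0.G ℚ → ℂ}
    (h : IsWtOneSph0FormFor π φ) : QOut.ClassOut π :=
  QOut.qOutC π φ h.isHol

end Fermat.Agent.LT.H670.D3

end

end
-- ===== PACK-END LT/H670/D3/Realise.lean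

-- ===== PACK-BEGIN LT/T6/H60/Closed613.lean
section







/-!
# Row LT, tower T6, leaf T6.13 (`FLEllUnrC`) -- CLOSED file (helper60, integrator), OFF-MAIN

Pattern of helper54's `T1/Closed.lean`: `structure Open613` = the leaves of T6.13 STILL open,
`flEllUnr_of_open613 : Open613 → FLEllUnrC`; the closed leaves are discharged inside by
byte-identical vendored files (on `T6/Spec.lean` v3, sha256 8c5f2ae7).

CLOSED: `BCGeoC` (helper60 `BCGeo.lean`; spares helper423, helper526), the assembly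
(`EllUnrAsm.lean`, `EllUnrSpec3.lean`), `VertSumGeoC` + `VertSumTwC` (helper887
`T6/H887/VertSum.lean`, on helper340 `VertexSum.lean`, helper166 `TwCent.lean`,
helper129 `Newton.lean`), `FixGeoC` and `OrbEllUnrC` (helper277 `T6/H277/FixGeo.lean`,
`OrbEllFinal.lean`, on helper546 `PolyNF`, helper926 `DiscUnit`, helper69 `FixBall`,
helper439 `BallCount`, helper293 `BTTree`, helper338 `LatticeTree`).

OPEN: `FixTwC` (= `TwCenterC` + `TwLinkC`), or directly `TwOrbEllUnrC`.
-/

set_option autoImplicit false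

namespace Fermat.Agent.LT.T6.H60

open Fermat.Agent.LT.T6

/-- **T6.13 from the twisted orbit-sum leaf.** -/
theorem flEllUnr_of_twOrb60 (hT : TwOrbEllUnrC) : FLEllUnrC :=
  flEllUnr_of_orb60 Fermat.Agent.LT.T6.H277.orbEllUnrC277 hT

/-- **T6.13 from the twisted fixed-point count.** -/
theorem flEllUnr_of_fixTw60 (hFT : FixTwC) : FLEllUnrC :=
  flEllUnr_of_twOrb60
    (twOrbEllUnr_of60 Fermat.Agent.LT.T6.H887.vertSumTwC887
      Fermat.Agent.LT.T6.H277.fixGeoC277 hFT)

/-- The leaves of T6.13 which are still open. -/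
structure Open613 : Prop where
  twCenter : TwCenterC
  twLink : TwLinkC

/-- **T6.13 from its open leaves.** -/
theorem flEllUnr_of_open613 (h : Open613) : FLEllUnrC :=
  flEllUnr_of_fixTw60 (fixTw_of60 h.twCenter h.twLink)

end Fermat.Agent.LT.T6.H60

end
-- ===== PACK-END LT/T6/H60/Closed613.lean

-- ===== PACK-BEGIN LT/T7/H938/UnitMatch.lean
section




/-!
# Row LT, tower T7, leaf C2.7.11 `UnitMatchC305` (helper938, SPARE, OFF-MAIN)

The fundamental lemma for the unit element, in the form of the local hypotheses: if `T₀ ⊆ T ⊆ S`,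
the places outside `T₀` are unramified and the levels are `0` there, then `LocHyp305` for `T`
gives `LocHyp305` for `S` with unit components at the new places.

No hole, nothing assumed.  ADDITIVE (suffix `938`).

    unitMatchC938 (K K') : H305.UnitMatchC305 K K'

VERBATIM vs `LT/T7/H305/MatchCut.lean` (helper305@56ddcdc02, sha256 0f302b81).

Proof.  Places of `T`: the components are unchanged (a place over `v ∈ T` is in `T'`; a place over
`v ∉ T` is not in `T'`: the place under `w` is unique).  New places `v ∈ S \ T`: the levels are `0`,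
the components are the unit elements.  `inv_up`, `inv_down`: `isBiInv_unit159`,
`hasFinSupp_unit159` (helper159).  `split`: the identifications preserve the valuation, so
`unit ∘ i_j = unit`, and `unit * unit = unit` (one coset).  `inert`: `e = 1` (the valuation of the
element of `UnramOut305` is `exp (-1)` upstairs, `≤ exp (-1)` downstairs, `val_i`); the residue
fields have `q` and `q ^ l` elements (`T6.InstLocalC`, and `N w = N v ^ (l / e')` from
`T6.InstExtC` for a generator of the Galois group, `e' = 1` for the same reason);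
`T6.FundLemmaC` for the unit element (`isBC_unitFn159`).
-/

set_option autoImplicit false
set_option linter.unusedSectionVars false

open AutomorphicForm IsDedekindDomain NumberField MeasureTheory
open scoped ComplexConjugate

noncomputable section

namespace Fermat.Agent.LT.T7.H938

open Fermat.Agent.LT.H556 Fermat.Agent.LT.H556.A0 Fermat.Agent.LT.T7 Fermat.Agent.LT.T7.H305
open Fermat.Agent.LT

/-! ## 1. The unit element of an abstract local field -/

section Local

variable {k : Type} [Field k] [Valued k T6.Γ₀]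

theorem unit_eq938 :
    (unit305 : GL (Fin 2) k → ℂ) = fun g => H159.unitFn159 (T6.cartan g) := by
  classical
  funext g
  rw [H159.unitFn_apply159 g]
  unfold unit305
  congr

theorem isBiInv_unit938 : T6.IsBiInv (T6.InU 0) (unit305 : GL (Fin 2) k → ℂ) := by
  rw [unit_eq938]
  exact H159.isBiInv_unit159

theorem hasFinSupp_unit938 : T6.HasFinSupp (T6.InU 0) (unit305 : GL (Fin 2) k → ℂ) := by
  rw [unit_eq938]
  exact H159.hasFinSupp_unit159

theorem inU_one938 : T6.InU 0 (1 : GL (Fin 2) k) := by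
  intro i j
  simp

theorem unit_of_inU938 (g : GL (Fin 2) k) (h : T6.InU 0 g) : unit305 g = 1 := by
  classical
  unfold unit305
  rw [if_pos h]

theorem inU_of_unit_ne938 (g : GL (Fin 2) k) (h : unit305 g ≠ 0) : T6.InU 0 g := by
  classical
  by_contra hn
  apply h
  unfold unit305
  rw [if_neg hn]

theorem isConv_unit938 :
    T6.IsConv (T6.InU 0) (unit305 : GL (Fin 2) k → ℂ) unit305 unit305 := by
  intro g
  refine ⟨{1}, ?_, ?_, ?_⟩
  · intro h hh h' hh' _
    rw [Finset.mem_singleton] at hh hh'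
    rw [hh, hh']
  · intro h hne
    have h1 : unit305 h ≠ 0 := left_ne_zero_of_mul hne
    exact ⟨1, Finset.mem_singleton_self _, h, inU_of_unit_ne938 h h1, by simp⟩
  · rw [Finset.sum_singleton, unit_of_inU938 1 inU_one938]
    simp

theorem isConvProd_unit938 (l : ℕ) :
    T6.IsConvProd (T6.InU 0) l (fun _ => (unit305 : GL (Fin 2) k → ℂ)) unit305 :=
  ⟨fun _ => unit305, rfl, fun _ _ => isConv_unit938, rfl⟩

end Local

section LocalMap

variable {k k' : Type} [Field k] [Valued k T6.Γ₀] [Field k'] [Valued k' T6.Γ₀]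

theorem inU_map_iff938 (i : k ≃+* k') (hi : ∀ x : k, Valued.v (i x) = Valued.v x)
    (g : GL (Fin 2) k) :
    T6.InU 0 (Matrix.GeneralLinearGroup.map (i : k →+* k') g) ↔ T6.InU 0 g := by
  have e1 : ∀ (h : GL (Fin 2) k) (a b : Fin 2),
      ((Matrix.GeneralLinearGroup.map (i : k →+* k') h : GL (Fin 2) k') :
          Matrix (Fin 2) (Fin 2) k') a b - (1 : Matrix (Fin 2) (Fin 2) k') a b
        = i ((h : Matrix (Fin 2) (Fin 2) k) a b - (1 : Matrix (Fin 2) (Fin 2) k) a b) := by
    intro h a b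
    rw [map_sub]
    congr 1
    by_cases hab : a = b
    · subst hab; simp
    · simp [Matrix.one_apply_ne hab]
  have e2 : (Matrix.GeneralLinearGroup.map (i : k →+* k') g)⁻¹
      = Matrix.GeneralLinearGroup.map (i : k →+* k') g⁻¹ := (map_inv _ g).symm
  unfold T6.InU
  constructor
  · intro h a b
    have := h a b
    rw [e2, e1 g a b, e1 g⁻¹ a b, hi, hi] at this
    exact this
  · intro h a b
    rw [e2, e1 g a b, e1 g⁻¹ a b, hi, hi]
    exact h a b

theorem unit_map938 (i : k ≃+* k') (hi : ∀ x : k, Valued.v (i x) = Valued.v x)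
    (g : GL (Fin 2) k) :
    unit305 (Matrix.GeneralLinearGroup.map (i : k →+* k') g) = unit305 g := by
  classical
  unfold unit305
  by_cases h : T6.InU 0 g
  · rw [if_pos h, if_pos ((inU_map_iff938 i hi g).2 h)]
  · rw [if_neg h, if_neg (fun h' => h ((inU_map_iff938 i hi g).1 h'))]

end LocalMap

/-! ## 2. Places over a place, unramified places -/

section Global

variable {K K' : Type} [Field K] [NumberField K] [Field K'] [NumberField K'] [Algebra K K']

theorem exp_pow_le938 (a : WithZero (Multiplicative ℤ)) (ha : a ≤ WithZero.exp (-1 : ℤ)) (e : ℕ)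
    (he : 2 ≤ e) : a ^ e ≤ WithZero.exp (-(2 : ℕ) : ℤ) := by
  have h1 : a ^ e ≤ (WithZero.exp (-1 : ℤ)) ^ e := pow_le_pow_left' ha e
  refine h1.trans ?_
  rw [← WithZero.exp_nsmul, WithZero.exp_le_exp]
  simp
  omega

omit [Field K'] [NumberField K'] [Algebra K K'] in
theorem valued_alg938 (v : HeightOneSpectrum (𝓞 K)) (x : 𝓞 K) :
    Valued.v (algebraMap K (v.adicCompletion K) (x : K)) = v.intValuation x := by
  have := HeightOneSpectrum.valuedAdicCompletion_eq_valuation' (K := K) v (x : K)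
  rw [HeightOneSpectrum.valuation_of_algebraMap] at this
  exact this

theorem placeOver_mem938 {v : HeightOneSpectrum (𝓞 K)} {w : HeightOneSpectrum (𝓞 K')}
    (h : PlaceOver K K' v w) (x : 𝓞 K) :
    x ∈ v.asIdeal ↔ algebraMap (𝓞 K) (𝓞 K') x ∈ w.asIdeal :=
  h x (algebraMap (𝓞 K) (𝓞 K') x) rfl

theorem placeOver_unique938 {v v' : HeightOneSpectrum (𝓞 K)} {w : HeightOneSpectrum (𝓞 K')}
    (h : PlaceOver K K' v w) (h' : PlaceOver K K' v' w) : v = v' := by
  apply HeightOneSpectrum.ext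
  rw [(H557.placeOver_iff_557 v w).1 h, (H557.placeOver_iff_557 v' w).1 h']

theorem placeOver_of_le938 {v : HeightOneSpectrum (𝓞 K)} {w : HeightOneSpectrum (𝓞 K')}
    (h : ∀ x : 𝓞 K, x ∈ v.asIdeal → algebraMap (𝓞 K) (𝓞 K') x ∈ w.asIdeal) :
    PlaceOver K K' v w := by
  rw [H557.placeOver_iff_557]
  have hw := w.isPrime
  have hle : v.asIdeal ≤ Ideal.comap (algebraMap (𝓞 K) (𝓞 K')) w.asIdeal := fun x hx =>
    Ideal.mem_comap.2 (h x hx)
  have hprime : (Ideal.comap (algebraMap (𝓞 K) (𝓞 K')) w.asIdeal).IsPrime :=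
    Ideal.comap_isPrime _ _
  exact v.isMaximal.eq_of_le hprime.ne_top hle

/-- At an unramified place the ramification index of a local extension datum is `1`. -/
theorem e_eq_one938 {v : HeightOneSpectrum (𝓞 K)} {w : HeightOneSpectrum (𝓞 K')}
    (hun : ∃ x : 𝓞 K, x ∈ v.asIdeal ∧ algebraMap (𝓞 K) (𝓞 K') x ∉ w.asIdeal ^ 2)
    (e : ℕ) (he : 0 < e) (i : v.adicCompletion K →+* w.adicCompletion K')
    (hi : ∀ x : K, i (algebraMap K (v.adicCompletion K) x)
        = algebraMap K' (w.adicCompletion K') (algebraMap K K' x))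
    (hval : ∀ x : v.adicCompletion K, Valued.v (i x) = Valued.v x ^ e) : e = 1 := by
  obtain ⟨x, hx, hx2⟩ := hun
  by_contra hne
  have he2 : 2 ≤ e := by omega
  apply hx2
  rw [← HeightOneSpectrum.intValuation_le_pow_iff_mem]
  have h1 : Valued.v (algebraMap K (v.adicCompletion K) (x : K)) = v.intValuation x :=
    valued_alg938 v x
  have h2 : Valued.v (algebraMap K' (w.adicCompletion K')
      ((algebraMap (𝓞 K) (𝓞 K') x : 𝓞 K') : K'))
        = w.intValuation (algebraMap (𝓞 K) (𝓞 K') x) := valued_alg938 w _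
  have h3 := hval (algebraMap K (v.adicCompletion K) (x : K))
  rw [hi, h1] at h3
  have h4 : ((algebraMap (𝓞 K) (𝓞 K') x : 𝓞 K') : K') = algebraMap K K' (x : K) := rfl
  rw [h4, h3] at h2
  rw [← h2]
  apply exp_pow_le938 _ _ e he2
  have h5 := (HeightOneSpectrum.intValuation_le_pow_iff_mem v x 1).2 (by simpa using hx)
  simpa using h5

theorem exists_gen938 (l : ℕ) (hc : IsCycExt K K' l) :
    ∃ s : K' ≃ₐ[K] K', ∀ t : K' ≃ₐ[K] K', t ∈ Subgroup.zpowers s := by
  have hg := hc.galois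
  have hfd : FiniteDimensional K K' := by
    apply Module.finite_of_finrank_pos
    rw [hc.degree]
    exact hc.prime.pos
  have hp : Fact l.Prime := ⟨hc.prime⟩
  have hcard : Nat.card (K' ≃ₐ[K] K') = l := by
    rw [IsGalois.card_aut_eq_finrank, hc.degree]
  have hcyc : IsCyclic (K' ≃ₐ[K] K') := isCyclic_of_prime_card hcard
  exact IsCyclic.exists_generator

/-- The local fields at an unramified place with one place over it. -/
theorem inert_data938 (hIL : T6.InstLocalC) (hIE : T6.InstExtC) (l : ℕ) (hc : IsCycExt K K' l)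
    {v : HeightOneSpectrum (𝓞 K)} {w : HeightOneSpectrum (𝓞 K')} (hvw : PlaceOver K K' v w)
    (huniq : ∀ w' : HeightOneSpectrum (𝓞 K'), PlaceOver K K' v w' → w' = w)
    (hun : ∃ x : 𝓞 K, x ∈ v.asIdeal ∧ algebraMap (𝓞 K) (𝓞 K') x ∉ w.asIdeal ^ 2) :
    T6.IsLocalField (v.adicCompletion K) (Ideal.absNorm v.asIdeal) ∧
      T6.IsLocalField (w.adicCompletion K') (Ideal.absNorm v.asIdeal ^ l) := by
  refine ⟨hIL K v, ?_⟩
  obtain ⟨s, hs⟩ := exists_gen938 l hc
  have hg := hc.galois
  have hprime : (Module.finrank K K').Prime := by rw [hc.degree]; exact hc.prime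
  obtain ⟨e', i', sw', hi', -, hext', hN⟩ := hIE K K' s hs hprime v w (placeOver_mem938 hvw)
    (fun w' hw' => huniq w' (placeOver_of_le938 hw'))
  have he' : e' = 1 := e_eq_one938 hun e' hext'.e_pos i' hi' hext'.val_i
  rw [he', Nat.div_one, hc.degree] at hN
  rw [← hN]
  exact hIL K' w

end Global

/-! ## 3. The leaf -/

variable (K K' : Type) [Field K] [NumberField K] [Field K'] [NumberField K'] [Algebra K K']

/-- **LEAF C2.7.11 = UNIT-MATCH** (VERBATIM `H305.UnitMatchC305`). -/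
theorem unitMatchC938 : H305.UnitMatchC305 K K' := by
  intro hT6 D _ hc _ _ μc _ T₀ hun n m hlev T S T' S' hT₀T _ hTT' _ φ₀ Φ f₀ F hyp
  obtain ⟨_, _, _, _, _, hIL, hIE, _, _, _, _, _, _, hFL, _⟩ := hT6
  classical
  have hup : ∀ w, w ∈ T' → ext305 T' φ₀ w = φ₀ w := fun w hw => by
    unfold ext305; rw [if_pos hw]
  have hup' : ∀ w, w ∉ T' → ext305 T' φ₀ w = unit305 := fun w hw => by
    unfold ext305; rw [if_neg hw]
  have hdn : ∀ v, v ∈ T → ext305 T f₀ v = f₀ v := fun v hv => by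
    unfold ext305; rw [if_pos hv]
  have hdn' : ∀ v, v ∉ T → ext305 T f₀ v = unit305 := fun v hv => by
    unfold ext305; rw [if_neg hv]
  have hT'_of : ∀ v ∈ T, ∀ w, PlaceOver K K' v w → w ∈ T' := fun v hv w hvw =>
    (hTT' w).2 ⟨v, hv, hvw⟩
  have hT'_not : ∀ v, v ∉ T → ∀ w, PlaceOver K K' v w → w ∉ T' := by
    intro v hv w hvw hw
    obtain ⟨v', hv', hv'w⟩ := (hTT' w).1 hw
    exact hv (placeOver_unique938 hv'w hvw ▸ hv')
  have hm0 : ∀ v, v ∉ T → m v = 0 := fun v hv => hlev.1 v (fun h => hv (hT₀T h))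
  have hn0 : ∀ v, v ∉ T → ∀ w, PlaceOver K K' v w → n w = 0 := fun v hv w hvw =>
    hlev.2 v w (fun h => hv (hT₀T h)) hvw
  refine { inv_up := ?_, inv_down := ?_, arch_up := hyp.arch_up, arch_down := hyp.arch_down,
           inert := ?_, split := ?_, arch := hyp.arch }
  · intro v _ w hvw
    by_cases hv : v ∈ T
    · rw [hup w (hT'_of v hv w hvw)]
      exact hyp.inv_up v hv w hvw
    · rw [hup' w (hT'_not v hv w hvw), hn0 v hv w hvw]
      exact ⟨isBiInv_unit938, hasFinSupp_unit938⟩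
  · intro v _
    by_cases hv : v ∈ T
    · rw [hdn v hv]
      exact hyp.inv_down v hv
    · rw [hdn' v hv, hm0 v hv]
      exact ⟨isBiInv_unit938, hasFinSupp_unit938⟩
  · intro v _ w hvw huniq e i sw hi hsw hext
    by_cases hv : v ∈ T
    · rw [hup w (hT'_of v hv w hvw), hdn v hv]
      exact hyp.inert v hv w hvw huniq e i sw hi hsw hext
    · rw [hup' w (hT'_not v hv w hvw), hdn' v hv, hn0 v hv w hvw, hm0 v hv]
      have hunr := hun v (fun h => hv (hT₀T h)) w hvw
      have he : e = 1 := e_eq_one938 hunr e hext.e_pos i hi hext.val_i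
      subst he
      obtain ⟨hk, hk'⟩ := inert_data938 hIL hIE D.l hc hvw huniq hunr
      rw [unit_eq938, unit_eq938]
      exact ⟨fun δ γ c c' hreg hconj hc1 hc2 =>
          hFL.1 _ _ _ D.l i sw hk hk' hext hc.prime _ _ H159.isDominant_unitFn159
            H159.isDominant_unitFn159 (H159.isBC_unitFn159 _ _) δ γ c c' hreg trivial hconj
            hc1 hc2,
        fun γ c' hreg hnn hc2 =>
          hFL.2 _ _ _ D.l i sw hk hk' hext hc.prime _ _ H159.isDominant_unitFn159
            H159.isDominant_unitFn159 (H159.isBC_unitFn159 _ _) γ c' hreg hnn hc2⟩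
  · intro v _ w i hw hrel hne hi hval
    by_cases hv : v ∈ T
    · have e1 : (fun (j : ℕ) (g : GL (Fin 2) (v.adicCompletion K)) =>
          ext305 T' φ₀ (w j) (Matrix.GeneralLinearGroup.map
            ((i j : v.adicCompletion K ≃+* _) : v.adicCompletion K →+* (w j).adicCompletion K') g))
          = fun j g => φ₀ (w j) (Matrix.GeneralLinearGroup.map
            ((i j : v.adicCompletion K ≃+* _) : v.adicCompletion K →+* (w j).adicCompletion K') g) := by
        funext j g
        rw [hup (w j) (hT'_of v hv (w j) (hw j))]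
      rw [e1, hdn v hv]
      exact hyp.split v hv w i hw hrel hne hi hval
    · refine ⟨fun j => by rw [hn0 v hv (w j) (hw j), hm0 v hv], ?_⟩
      have e1 : (fun (j : ℕ) (g : GL (Fin 2) (v.adicCompletion K)) =>
          ext305 T' φ₀ (w j) (Matrix.GeneralLinearGroup.map
            ((i j : v.adicCompletion K ≃+* _) : v.adicCompletion K →+* (w j).adicCompletion K') g))
          = fun _ => unit305 := by
        funext j g
        rw [hup' (w j) (hT'_not v hv (w j) (hw j)), unit_map938 (i j) (hval j) g]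
      rw [e1, hdn' v hv, hm0 v hv]
      exact isConvProd_unit938 D.l

example : H305.UnitMatchC305 K K' := unitMatchC938 K K'

end Fermat.Agent.LT.T7.H938

end
end
-- ===== PACK-END LT/T7/H938/UnitMatch.lean

-- ===== PACK-BEGIN LT/T3/Push/Sym.lean
section


/-!
# Row LT, tower T3, station T3.19 (helper14): the push-forward of the core -- THE INFINITE
# PLACES: the pushed factors are symmetric bumps

OFF-MAIN.  Complete proofs, nothing assumed.  ADDITIVE (new names only, namespace `T3.Push`).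

`IsSymBump` (smooth, compact support, symmetric) is stable under `dilE r` (`r ≠ 0`), `convE`,
`convLE` and under multiplication by a constant; `∫ convE β γ = (∫ β) (∫ γ)`,
`∫ convLE b j = ∏_{i ≤ j} ∫ b i`.
-/

set_option autoImplicit false

open MeasureTheory

noncomputable section

namespace Fermat.Agent.LT.T3.Push

open Fermat.Agent.LT.T3.AS

theorem isSymBump_const_mul (s : ℂ) {β : ℝ × ℝ → ℂ} (hβ : IsSymBump β) :
    IsSymBump (fun y => s * β y) := by
  refine ⟨contDiff_const.mul hβ.1, ?_, fun x y => ?_⟩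
  · exact hβ.2.1.mul_left
  · show s * β (x, y) = s * β (y, x)
    rw [hβ.2.2]

theorem isSymBump_dilE (r : ℝ) (hr : r ≠ 0) {β : ℝ × ℝ → ℂ} (hβ : IsSymBump β) :
    IsSymBump (dilE r β) := by
  refine ⟨?_, (cont_dilE r hr β ⟨hβ.1.continuous, hβ.2.1⟩).2, fun x y => ?_⟩
  · exact hβ.1.comp (contDiff_const_smul r⁻¹)
  · show β (r⁻¹ • (x, y)) = β (r⁻¹ • (y, x))
    rw [Prod.smul_mk, Prod.smul_mk, hβ.2.2]

theorem convE_swap {β γ : ℝ × ℝ → ℂ} (hβ : ∀ x y : ℝ, β (x, y) = β (y, x))
    (hγ : ∀ x y : ℝ, γ (x, y) = γ (y, x)) (x y : ℝ) :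
    convE β γ (x, y) = convE β γ (y, x) := by
  unfold convE
  have h := (Measure.measurePreserving_swap (μ := (volume : Measure ℝ))
    (ν := (volume : Measure ℝ))).integral_comp
      (MeasurableEquiv.prodComm : ℝ × ℝ ≃ᵐ ℝ × ℝ).measurableEmbedding
      (fun u : ℝ × ℝ => β u * γ ((y, x) - u))
  have e : (fun u : ℝ × ℝ => β u * γ ((x, y) - u))
      = fun u : ℝ × ℝ => (fun u : ℝ × ℝ => β u * γ ((y, x) - u)) (Prod.swap u) := by
    funext u
    obtain ⟨u₁, u₂⟩ := u
    show β (u₁, u₂) * γ (x - u₁, y - u₂) = β (u₂, u₁) * γ (y - u₂, x - u₁)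
    rw [hβ u₁ u₂, hγ (x - u₁) (y - u₂)]
  rw [e]
  exact h

theorem isSymBump_convE {β γ : ℝ × ℝ → ℂ} (hβ : IsSymBump β) (hγ : IsSymBump γ) :
    IsSymBump (convE β γ) := by
  have hc := cont_convE β γ ⟨hβ.1.continuous, hβ.2.1⟩ ⟨hγ.1.continuous, hγ.2.1⟩
  refine ⟨?_, hc.2, convE_swap hβ.2.2 hγ.2.2⟩
  have e : convE β γ = convolution β γ (ContinuousLinearMap.mul ℝ ℂ) volume :=
    convE_eq_convolution β γ
  rw [e]
  exact hγ.2.1.contDiff_convolution_right _ hβ.1.continuous.locallyIntegrable hγ.1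

theorem isSymBump_convLE {b : ℕ → ℝ × ℝ → ℂ} (hb : ∀ j, IsSymBump (b j)) (j : ℕ) :
    IsSymBump (convLE b j) := by
  induction j with
  | zero => exact hb 0
  | succ j ih => exact isSymBump_convE ih (hb (j + 1))

theorem integral_convE {β γ : ℝ × ℝ → ℂ} (hβ : Continuous β ∧ HasCompactSupport β)
    (hγ : Continuous γ ∧ HasCompactSupport γ) :
    ∫ y : ℝ × ℝ, convE β γ y = (∫ y : ℝ × ℝ, β y) * ∫ y : ℝ × ℝ, γ y := by
  have e : convE β γ = convolution β γ (ContinuousLinearMap.mul ℝ ℂ) volume :=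
    convE_eq_convolution β γ
  rw [e, integral_convolution (ContinuousLinearMap.mul ℝ ℂ)
    (hβ.1.integrable_of_hasCompactSupport hβ.2) (hγ.1.integrable_of_hasCompactSupport hγ.2)]
  rfl

theorem cont_convLE {b : ℕ → ℝ × ℝ → ℂ} (hb : ∀ j, Continuous (b j) ∧ HasCompactSupport (b j))
    (j : ℕ) : Continuous (convLE b j) ∧ HasCompactSupport (convLE b j) := by
  induction j with
  | zero => exact hb 0
  | succ j ih => exact cont_convE _ _ ih (hb (j + 1))

theorem integral_convLE {b : ℕ → ℝ × ℝ → ℂ}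
    (hb : ∀ j, Continuous (b j) ∧ HasCompactSupport (b j)) (j : ℕ) :
    ∫ y : ℝ × ℝ, convLE b j y = ∏ i ∈ Finset.range (j + 1), ∫ y : ℝ × ℝ, b i y := by
  induction j with
  | zero => rw [Finset.prod_range_one]; rfl
  | succ j ih =>
    show ∫ y : ℝ × ℝ, convE (convLE b j) (b (j + 1)) y = _
    rw [integral_convE (cont_convLE hb j) (hb (j + 1)), ih, Finset.prod_range_succ _ (j + 1)]

end Fermat.Agent.LT.T3.Push

end

end
-- ===== PACK-END LT/T3/Push/Sym.lean

-- ===== PACK-BEGIN LT/T7/H627/HaarSplit.lean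
section








/-!
# Row LT, tower T7, leaf C2.7.4 `HaarSplitC305` (helper627, spare of registry row 2568)

OFF-MAIN.  `haarSplitC627 K : H305.HaarSplitC305 K`, UNCONDITIONAL.

The Haar measure of `GL₂(𝔸_K)` restricted to `Out_S` and pushed forward to
`∏_{v ∈ S} GL₂(K_v) × ∏_w GL₂(ℂ)` is `c` times the product measure, `c` the same for all
`S ⊇ T₀`.
-/

set_option autoImplicit false
set_option linter.unusedSectionVars false
set_option linter.style.haveILetI false
set_option linter.unusedVariables false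

open AutomorphicForm IsDedekindDomain NumberField MeasureTheory
open scoped ComplexConjugate ENNReal

noncomputable section

namespace Fermat.Agent.LT.T7.H627

open Fermat.Agent.LT.H556 Fermat.Agent.LT.H556.A0 Fermat.Agent.LT.T7 Fermat.Agent.LT.T7.H305
open Fermat.Agent.LT.T1.H919 Fermat.Agent.LT.T1.H724

attribute [local instance] Fermat.Agent.LT.T5.instMeasurableSpaceG

variable {K : Type} [Field K] [NumberField K]

/-! ## 1. Components -/

theorem finGL_val627 (v : HeightOneSpectrum (𝓞 K)) (g : G K) :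
    ((finGL305 v g : GL (Fin 2) (v.adicCompletion K)) : Matrix (Fin 2) (Fin 2) _) = finComp v g :=
  rfl

theorem finGL_inv_val627 (v : HeightOneSpectrum (𝓞 K)) (g : G K) :
    (((finGL305 v g)⁻¹ : GL (Fin 2) (v.adicCompletion K)) : Matrix (Fin 2) (Fin 2) _)
      = finComp v g⁻¹ := by
  rw [← map_inv]
  rfl

theorem infGL_val627 (w : InfinitePlace K) (g : G K) :
    ((infGL305 w g : GL (Fin 2) ℂ) : Matrix (Fin 2) (Fin 2) ℂ) = infComp w g :=
  rfl

theorem infGL_inv_val627 (w : InfinitePlace K) (g : G K) :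
    (((infGL305 w g)⁻¹ : GL (Fin 2) ℂ) : Matrix (Fin 2) (Fin 2) ℂ) = infComp w g⁻¹ := by
  rw [← map_inv]
  rfl

theorem continuous_finGL627 (v : HeightOneSpectrum (𝓞 K)) :
    Continuous (fun g : G K => finGL305 v g) := by
  refine Units.continuous_iff.2 ⟨?_, ?_⟩
  · exact continuous_matrix fun i j => continuous_finComp919 v i j
  · have h : (fun g : G K => (((finGL305 v g)⁻¹ : GL (Fin 2) (v.adicCompletion K)) :
        Matrix (Fin 2) (Fin 2) _)) = fun g => finComp v g⁻¹ := by
      funext g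
      exact finGL_inv_val627 v g
    rw [h]
    exact continuous_matrix fun i j => (continuous_finComp919 v i j).comp continuous_inv

theorem continuous_infGL627 (w : InfinitePlace K) :
    Continuous (fun g : G K => infGL305 w g) := by
  refine Units.continuous_iff.2 ⟨?_, ?_⟩
  · exact continuous_matrix fun i j => continuous_infComp_entry919 w i j
  · have h : (fun g : G K => (((infGL305 w g)⁻¹ : GL (Fin 2) ℂ) :
        Matrix (Fin 2) (Fin 2) _)) = fun g => infComp w g⁻¹ := by
      funext g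
      exact infGL_inv_val627 w g
    rw [h]
    exact continuous_matrix fun i j => (continuous_infComp_entry919 w i j).comp continuous_inv

theorem continuous_compS627 (S : Finset (HeightOneSpectrum (𝓞 K))) :
    Continuous (compS305 (K := K) S) := by
  unfold compS305
  exact (continuous_pi fun v => continuous_finGL627 v.1).prodMk
    (continuous_pi fun w => continuous_infGL627 w)

theorem compS_mul627 (S : Finset (HeightOneSpectrum (𝓞 K))) (x y : G K) :
    compS305 S (x * y) = compS305 S x * compS305 S y := by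
  unfold compS305
  refine Prod.ext ?_ ?_
  · funext v
    simp
  · funext w
    simp

/-! ## 2. `Out_S` -/

theorem isIntegralAt_one627 (v : HeightOneSpectrum (𝓞 K)) : IsIntegralAt v (1 : G K) := by
  intro i j
  have h : finComp v (1 : G K) = 1 := by
    rw [finComp_eq_map724, Units.val_one]
    exact Matrix.map_one _ (map_zero _) (map_one _)
  rw [h, Matrix.one_apply]
  split_ifs
  · exact one_mem _
  · exact zero_mem _

theorem isIntegralAt_mul627 (v : HeightOneSpectrum (𝓞 K)) {g h : G K}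
    (hg : IsIntegralAt v g) (hh : IsIntegralAt v h) : IsIntegralAt v (g * h) := by
  intro i j
  rw [finComp_mul724, Matrix.mul_apply]
  exact sum_mem fun k _ => mul_mem (hg i k) (hh k j)

/-- `Out_S` as a subgroup. -/
def outSub627 (S : Finset (HeightOneSpectrum (𝓞 K))) : Subgroup (G K) where
  carrier := {y | OutT305 S y}
  one_mem' := fun v _ => ⟨isIntegralAt_one627 v, by rw [inv_one]; exact isIntegralAt_one627 v⟩
  mul_mem' := fun {a b} ha hb v hv =>
    ⟨isIntegralAt_mul627 v (ha v hv).1 (hb v hv).1, by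
      rw [mul_inv_rev]; exact isIntegralAt_mul627 v (hb v hv).2 (ha v hv).2⟩
  inv_mem' := fun {a} ha v hv => ⟨(ha v hv).2, by rw [inv_inv]; exact (ha v hv).1⟩

theorem coe_outSub627 (S : Finset (HeightOneSpectrum (𝓞 K))) :
    ((outSub627 S : Subgroup (G K)) : Set (G K)) = {y | OutT305 S y} := rfl

theorem isClosed_out627 (S : Finset (HeightOneSpectrum (𝓞 K))) :
    IsClosed {y : G K | OutT305 S y} := by
  have e : {y : G K | OutT305 S y}
      = ⋂ v : HeightOneSpectrum (𝓞 K), ⋂ _ : v ∉ S,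
          ({g : G K | IsIntegralAt v g} ∩ (fun g : G K => g⁻¹) ⁻¹' {g : G K | IsIntegralAt v g}) := by
    ext y
    simp only [Set.mem_iInter, Set.mem_inter_iff, Set.mem_preimage, Set.mem_setOf_eq]
    rfl
  rw [e]
  exact isClosed_iInter fun v => isClosed_iInter fun _ =>
    (isClosed_isIntegralAt919 v).inter ((isClosed_isIntegralAt919 v).preimage continuous_inv)

/-! ## 3. Elements with prescribed components; surjectivity -/

/-- The adele with the components `xI w`, `xf v` (the latter integral outside `S`). -/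
def mkAdS627 (S : Finset (HeightOneSpectrum (𝓞 K))) (xI : ∀ w : InfinitePlace K, w.Completion)
    (xf : ∀ v : HeightOneSpectrum (𝓞 K), v.adicCompletion K)
    (h : ∀ v, v ∉ S → Valued.v (xf v) ≤ 1) : Adl K :=
  (xI, ⟨xf, by
    refine Filter.eventually_cofinite.2 (S.finite_toSet.subset fun v hv => ?_)
    by_contra hvS
    exact hv ((HeightOneSpectrum.mem_adicCompletionIntegers (𝓞 K) K v).2 (h v hvS))⟩)

/-- The adelic matrix with the components `MI w`, `Mf v` (the latter integral outside `S`). -/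
def mkMatS627 (S : Finset (HeightOneSpectrum (𝓞 K)))
    (MI : ∀ w : InfinitePlace K, Matrix (Fin 2) (Fin 2) w.Completion)
    (Mf : ∀ v : HeightOneSpectrum (𝓞 K), Matrix (Fin 2) (Fin 2) (v.adicCompletion K))
    (h : ∀ v, v ∉ S → ∀ i j, Valued.v (Mf v i j) ≤ 1) : Matrix (Fin 2) (Fin 2) (Adl K) :=
  fun i j => mkAdS627 S (fun w => MI w i j) (fun v => Mf v i j) (fun v hv => h v hv i j)

theorem mkMatS_map_inf627 (S : Finset (HeightOneSpectrum (𝓞 K)))
    (MI : ∀ w : InfinitePlace K, Matrix (Fin 2) (Fin 2) w.Completion)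
    (Mf : ∀ v : HeightOneSpectrum (𝓞 K), Matrix (Fin 2) (Fin 2) (v.adicCompletion K))
    (h : ∀ v, v ∉ S → ∀ i j, Valued.v (Mf v i j) ≤ 1) (w : InfinitePlace K) :
    (mkMatS627 S MI Mf h).map (evInf724 w) = MI w := rfl

theorem mkMatS_map_fin627 (S : Finset (HeightOneSpectrum (𝓞 K)))
    (MI : ∀ w : InfinitePlace K, Matrix (Fin 2) (Fin 2) w.Completion)
    (Mf : ∀ v : HeightOneSpectrum (𝓞 K), Matrix (Fin 2) (Fin 2) (v.adicCompletion K))
    (h : ∀ v, v ∉ S → ∀ i j, Valued.v (Mf v i j) ≤ 1) (v : HeightOneSpectrum (𝓞 K)) :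
    (mkMatS627 S MI Mf h).map (evFin724 v) = Mf v := rfl

theorem mkMatS_mul627 (S : Finset (HeightOneSpectrum (𝓞 K)))
    (MI NI : ∀ w : InfinitePlace K, Matrix (Fin 2) (Fin 2) w.Completion)
    (Mf Nf : ∀ v : HeightOneSpectrum (𝓞 K), Matrix (Fin 2) (Fin 2) (v.adicCompletion K))
    (hM : ∀ v, v ∉ S → ∀ i j, Valued.v (Mf v i j) ≤ 1)
    (hN : ∀ v, v ∉ S → ∀ i j, Valued.v (Nf v i j) ≤ 1)
    (h1 : ∀ w, MI w * NI w = 1) (h3 : ∀ v, Mf v * Nf v = 1) :
    mkMatS627 S MI Mf hM * mkMatS627 S NI Nf hN = 1 := by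
  refine mat_ext724 (fun w => ?_) (fun v => ?_)
  · rw [Matrix.map_mul, mkMatS_map_inf627, mkMatS_map_inf627, h1,
      Matrix.map_one _ (map_zero _) (map_one _)]
  · rw [Matrix.map_mul, mkMatS_map_fin627, mkMatS_map_fin627, h3,
      Matrix.map_one _ (map_zero _) (map_one _)]

/-- The element of `GL₂(𝔸_K)` with the components `MI w`, `Mf v` and inverse components
`NI w`, `Nf v`. -/
def mkGS627 (S : Finset (HeightOneSpectrum (𝓞 K)))
    (MI NI : ∀ w : InfinitePlace K, Matrix (Fin 2) (Fin 2) w.Completion)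
    (Mf Nf : ∀ v : HeightOneSpectrum (𝓞 K), Matrix (Fin 2) (Fin 2) (v.adicCompletion K))
    (hM : ∀ v, v ∉ S → ∀ i j, Valued.v (Mf v i j) ≤ 1)
    (hN : ∀ v, v ∉ S → ∀ i j, Valued.v (Nf v i j) ≤ 1)
    (h1 : ∀ w, MI w * NI w = 1) (h3 : ∀ v, Mf v * Nf v = 1) : G K :=
  ⟨mkMatS627 S MI Mf hM, mkMatS627 S NI Nf hN, mkMatS_mul627 S MI NI Mf Nf hM hN h1 h3,
    mkMatS_mul627 S NI MI Nf Mf hN hM (fun w => mul_eq_one_comm.1 (h1 w))
      (fun v => mul_eq_one_comm.1 (h3 v))⟩

theorem val_one_apply_le627 (v : HeightOneSpectrum (𝓞 K)) (i j : Fin 2) :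
    Valued.v ((1 : Matrix (Fin 2) (Fin 2) (v.adicCompletion K)) i j) ≤ 1 := by
  by_cases h : i = j
  · rw [Matrix.one_apply, if_pos h, map_one]
  · rw [Matrix.one_apply, if_neg h, map_zero]
    exact zero_le_one

open Classical in
/-- The family `a v` (`v ∈ S`), `1` (`v ∉ S`). -/
def finFam627 (S : Finset (HeightOneSpectrum (𝓞 K)))
    (a : ∀ v : S, GL (Fin 2) ((v : HeightOneSpectrum (𝓞 K)).adicCompletion K))
    (v : HeightOneSpectrum (𝓞 K)) : GL (Fin 2) (v.adicCompletion K) :=
  if h : v ∈ S then a ⟨v, h⟩ else 1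

theorem compS_surj627 (hK : TotCplx K) (S : Finset (HeightOneSpectrum (𝓞 K)))
    (h : (∀ v : S, GL (Fin 2) ((v : HeightOneSpectrum (𝓞 K)).adicCompletion K)) ×
      (InfinitePlace K → GL (Fin 2) ℂ)) :
    ∃ b ∈ outSub627 S, compS305 S b = h := by
  classical
  set e : ∀ w : InfinitePlace K, w.Completion ≃+* ℂ :=
    fun w => InfinitePlace.Completion.ringEquivComplexOfIsComplex (hK w) with he
  set MI : ∀ w : InfinitePlace K, Matrix (Fin 2) (Fin 2) w.Completion :=
    fun w => ((h.2 w : GL (Fin 2) ℂ) : Matrix (Fin 2) (Fin 2) ℂ).map (e w).symm with hMI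
  set NI : ∀ w : InfinitePlace K, Matrix (Fin 2) (Fin 2) w.Completion :=
    fun w => (((h.2 w)⁻¹ : GL (Fin 2) ℂ) : Matrix (Fin 2) (Fin 2) ℂ).map (e w).symm with hNI
  set Mf : ∀ v : HeightOneSpectrum (𝓞 K), Matrix (Fin 2) (Fin 2) (v.adicCompletion K) :=
    fun v => ((finFam627 S h.1 v : GL (Fin 2) (v.adicCompletion K)) : Matrix (Fin 2) (Fin 2) _)
    with hMf
  set Nf : ∀ v : HeightOneSpectrum (𝓞 K), Matrix (Fin 2) (Fin 2) (v.adicCompletion K) :=
    fun v => (((finFam627 S h.1 v)⁻¹ : GL (Fin 2) (v.adicCompletion K)) :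
      Matrix (Fin 2) (Fin 2) _) with hNf
  have hM : ∀ v, v ∉ S → ∀ i j, Valued.v (Mf v i j) ≤ 1 := by
    intro v hv i j
    simp only [hMf, finFam627, dif_neg hv, Units.val_one]
    exact val_one_apply_le627 v i j
  have hN : ∀ v, v ∉ S → ∀ i j, Valued.v (Nf v i j) ≤ 1 := by
    intro v hv i j
    simp only [hNf, finFam627, dif_neg hv, inv_one, Units.val_one]
    exact val_one_apply_le627 v i j
  have h1 : ∀ w, MI w * NI w = 1 := by
    intro w
    have h0 := Matrix.map_mul (L := ((h.2 w : GL (Fin 2) ℂ) : Matrix (Fin 2) (Fin 2) ℂ))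
      (M := (((h.2 w)⁻¹ : GL (Fin 2) ℂ) : Matrix (Fin 2) (Fin 2) ℂ))
      (f := ((e w).symm : ℂ →+* w.Completion))
    refine h0.symm.trans ?_
    rw [← Units.val_mul, mul_inv_cancel, Units.val_one]
    exact Matrix.map_one _ (map_zero _) (map_one _)
  have h3 : ∀ v, Mf v * Nf v = 1 := by
    intro v
    simp only [hMf, hNf]
    rw [← Units.val_mul, mul_inv_cancel, Units.val_one]
  refine ⟨mkGS627 S MI NI Mf Nf hM hN h1 h3, ?_, ?_⟩
  · intro v hv
    refine ⟨fun i j => ?_, fun i j => ?_⟩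
    · exact (HeightOneSpectrum.mem_adicCompletionIntegers (𝓞 K) K v).2 (hM v hv i j)
    · exact (HeightOneSpectrum.mem_adicCompletionIntegers (𝓞 K) K v).2 (hN v hv i j)
  · refine Prod.ext ?_ ?_
    · funext v
      refine Units.ext ?_
      show Mf v.1 = _
      simp only [hMf, finFam627, dif_pos v.2]
    · funext w
      refine Units.ext ?_
      show (MI w).map (InfinitePlace.Completion.extensionEmbedding w) = _
      ext i j
      simp only [hMI, Matrix.map_apply]
      exact (e w).apply_symm_apply _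

/-! ## 4. The local groups `U(n)` are open -/

theorem exists_val_eq_exp627 (v : HeightOneSpectrum (𝓞 K)) (n : ℕ) :
    ∃ y : v.adicCompletion K, Valued.v y = WithZero.exp (-(n : ℤ)) := by
  obtain ⟨π, hπ⟩ := v.valuation_exists_uniformizer K
  refine ⟨((π ^ n : K) : v.adicCompletion K), ?_⟩
  rw [HeightOneSpectrum.valuedAdicCompletion_eq_valuation', map_pow, hπ, ← WithZero.exp_nsmul]
  simp

theorem isOpen_ball_le627 (v : HeightOneSpectrum (𝓞 K)) (c : v.adicCompletion K) (n : ℕ) :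
    IsOpen {x : v.adicCompletion K | Valued.v (x - c) ≤ WithZero.exp (-(n : ℤ))} := by
  obtain ⟨y, hy⟩ := exists_val_eq_exp627 v n
  have hy0 : (Valued.v : Valuation (v.adicCompletion K) _).restrict y ≠ 0 := by
    rw [Ne, Valuation.restrict_eq_zero_iff, hy]
    exact WithZero.exp_ne_zero
  have h0 := Valued.isOpen_closedBall (v.adicCompletion K) hy0
  have h1 : {x : v.adicCompletion K | Valued.v (x - c) ≤ WithZero.exp (-(n : ℤ))}
      = (fun x => x - c) ⁻¹' {x | (Valued.v : Valuation (v.adicCompletion K) _).restrict x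
          ≤ (Valued.v : Valuation (v.adicCompletion K) _).restrict y} := by
    ext x
    simp only [Set.mem_preimage, Set.mem_setOf_eq, Valuation.restrict_le_iff, hy]
  rw [h1]
  exact h0.preimage (by fun_prop)

theorem isOpen_inU627 (v : HeightOneSpectrum (𝓞 K)) (n : ℕ) :
    IsOpen {g : GL (Fin 2) (v.adicCompletion K) | T6.InU n g} := by
  have e : {g : GL (Fin 2) (v.adicCompletion K) | T6.InU n g}
      = ⋂ i : Fin 2, ⋂ j : Fin 2,
        ((fun g : GL (Fin 2) (v.adicCompletion K) =>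
            (g : Matrix (Fin 2) (Fin 2) (v.adicCompletion K)) i j) ⁻¹'
          {x | Valued.v (x - (1 : Matrix (Fin 2) (Fin 2) (v.adicCompletion K)) i j)
            ≤ WithZero.exp (-(n : ℤ))}) ∩
        ((fun g : GL (Fin 2) (v.adicCompletion K) =>
            ((g⁻¹ : GL (Fin 2) (v.adicCompletion K)) :
              Matrix (Fin 2) (Fin 2) (v.adicCompletion K)) i j) ⁻¹'
          {x | Valued.v (x - (1 : Matrix (Fin 2) (Fin 2) (v.adicCompletion K)) i j)
            ≤ WithZero.exp (-(n : ℤ))}) := by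
    ext g
    simp only [Set.mem_iInter, Set.mem_inter_iff, Set.mem_preimage, Set.mem_setOf_eq]
    rfl
  rw [e]
  refine isOpen_iInter_of_finite fun i => isOpen_iInter_of_finite fun j => IsOpen.inter ?_ ?_
  · exact (isOpen_ball_le627 v _ n).preimage (Units.continuous_val.matrix_elem i j)
  · exact (isOpen_ball_le627 v _ n).preimage (Units.continuous_coe_inv.matrix_elem i j)

theorem one_mem_inU627 (v : HeightOneSpectrum (𝓞 K)) (n : ℕ) :
    T6.InU n (1 : GL (Fin 2) (v.adicCompletion K)) := by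
  intro i j
  simp

/-- `U(0)` at `v` = integrality of `y` and `y⁻¹` at `v`. -/
theorem inU_zero_iff627 (v : HeightOneSpectrum (𝓞 K)) (y : G K) :
    T6.InU 0 (finGL305 v y) ↔ IsIntegralAt v y ∧ IsIntegralAt v y⁻¹ := by
  have key : ∀ (x : v.adicCompletion K) (i j : Fin 2),
      Valued.v (x - (1 : Matrix (Fin 2) (Fin 2) (v.adicCompletion K)) i j)
          ≤ WithZero.exp (-((0 : ℕ) : ℤ)) ↔ x ∈ v.adicCompletionIntegers K := by
    intro x i j
    have h1 : (1 : Matrix (Fin 2) (Fin 2) (v.adicCompletion K)) i j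
        ∈ v.adicCompletionIntegers K :=
      (HeightOneSpectrum.mem_adicCompletionIntegers (𝓞 K) K v).2 (val_one_apply_le627 v i j)
    have h2 : WithZero.exp (-((0 : ℕ) : ℤ)) = (1 : WithZero (Multiplicative ℤ)) := by simp
    rw [h2, ← HeightOneSpectrum.mem_adicCompletionIntegers (𝓞 K) K v]
    constructor
    · intro h
      have := add_mem h h1
      simpa using this
    · intro h
      exact sub_mem h h1
  constructor
  · intro h
    refine ⟨fun i j => ?_, fun i j => ?_⟩
    · exact (key _ i j).1 (h i j).1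
    · have := (key _ i j).1 (h i j).2
      rw [finGL_inv_val627] at this
      exact this
  · intro h i j
    refine ⟨(key _ i j).2 (h.1 i j), ?_⟩
    rw [finGL_inv_val627]
    exact (key _ i j).2 (h.2 i j)

/-! ## 5. Compact boxes in `GL₂` -/

/-- Elements of `GL₂(A)` with all entries of `g`, `g⁻¹` in a compact set `B`: compact. -/
theorem isCompact_unitsBox627 {A : Type*} [CommRing A] [TopologicalSpace A] [IsTopologicalRing A]
    [T2Space A] (B : Set A) (hB : IsCompact B) :
    IsCompact {g : GL (Fin 2) A | ∀ i j, (g : Matrix (Fin 2) (Fin 2) A) i j ∈ B ∧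
      ((g⁻¹ : GL (Fin 2) A) : Matrix (Fin 2) (Fin 2) A) i j ∈ B} := by
  have : T2Space (Matrix (Fin 2) (Fin 2) A) :=
    Fermat.Agent.LT.H11.LC.t2Space_matrix_h11 (Fin 2) A
  have hM : IsCompact {M : Matrix (Fin 2) (Fin 2) A | ∀ i j, M i j ∈ B} := by
    have h : IsCompact (Set.pi Set.univ (fun _ : Fin 2 =>
        Set.pi Set.univ (fun _ : Fin 2 => B))) :=
      isCompact_univ_pi (fun _ => isCompact_univ_pi (fun _ => hB))
    have e : {M : Matrix (Fin 2) (Fin 2) A | ∀ i j, M i j ∈ B}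
        = Set.pi Set.univ (fun _ : Fin 2 => Set.pi Set.univ (fun _ : Fin 2 => B)) := by
      ext M
      constructor
      · intro hM i _ j _
        exact hM i j
      · intro hM i j
        exact hM i (Set.mem_univ i) j (Set.mem_univ j)
    rw [e]
    exact h
  have hop : IsCompact (MulOpposite.unop ⁻¹' {M : Matrix (Fin 2) (Fin 2) A | ∀ i j, M i j ∈ B} :
      Set (Matrix (Fin 2) (Fin 2) A)ᵐᵒᵖ) := by
    have := hM.image (MulOpposite.continuous_op)
    convert this using 1
    ext x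
    simp only [Set.mem_preimage, Set.mem_image]
    constructor
    · intro hx
      exact ⟨x.unop, hx, MulOpposite.op_unop x⟩
    · rintro ⟨y, hy, rfl⟩
      exact hy
  have hS : IsCompact ((Units.embedProduct (Matrix (Fin 2) (Fin 2) A)) ⁻¹'
      ({M : Matrix (Fin 2) (Fin 2) A | ∀ i j, M i j ∈ B} ×ˢ
        (MulOpposite.unop ⁻¹' {M : Matrix (Fin 2) (Fin 2) A | ∀ i j, M i j ∈ B}))) :=
    Units.isClosedEmbedding_embedProduct.isCompact_preimage (hM.prod hop)
  convert hS using 1
  ext g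
  constructor
  · intro hg
    exact ⟨fun i j => (hg i j).1, fun i j => (hg i j).2⟩
  · intro hg i j
    exact ⟨hg.1 i j, hg.2 i j⟩

/-- The compact neighbourhood `C` of `1` in `GL₂(ℂ)`. -/
def cBox627 : Set (GL (Fin 2) ℂ) :=
  {g | ∀ i j, (g : Matrix (Fin 2) (Fin 2) ℂ) i j ∈ Metric.closedBall (0 : ℂ) 2 ∧
      ((g⁻¹ : GL (Fin 2) ℂ) : Matrix (Fin 2) (Fin 2) ℂ) i j ∈ Metric.closedBall (0 : ℂ) 2}

/-- The open neighbourhood of `1` in `C`. -/
def cOpen627 : Set (GL (Fin 2) ℂ) :=
  {g | ∀ i j, (g : Matrix (Fin 2) (Fin 2) ℂ) i j ∈ Metric.ball (0 : ℂ) 2 ∧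
      ((g⁻¹ : GL (Fin 2) ℂ) : Matrix (Fin 2) (Fin 2) ℂ) i j ∈ Metric.ball (0 : ℂ) 2}

theorem isCompact_cBox627 : IsCompact cBox627 :=
  isCompact_unitsBox627 (Metric.closedBall (0 : ℂ) 2) (isCompact_closedBall 0 2)

theorem isOpen_cOpen627 : IsOpen cOpen627 := by
  have e : cOpen627 = ⋂ i : Fin 2, ⋂ j : Fin 2,
      ((fun g : GL (Fin 2) ℂ => (g : Matrix (Fin 2) (Fin 2) ℂ) i j) ⁻¹' Metric.ball (0 : ℂ) 2) ∩
      ((fun g : GL (Fin 2) ℂ => ((g⁻¹ : GL (Fin 2) ℂ) : Matrix (Fin 2) (Fin 2) ℂ) i j) ⁻¹'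
        Metric.ball (0 : ℂ) 2) := by
    ext g
    simp only [Set.mem_iInter, Set.mem_inter_iff, Set.mem_preimage]
    rfl
  rw [e]
  refine isOpen_iInter_of_finite fun i => isOpen_iInter_of_finite fun j => IsOpen.inter ?_ ?_
  · exact Metric.isOpen_ball.preimage (Units.continuous_val.matrix_elem i j)
  · exact Metric.isOpen_ball.preimage (Units.continuous_coe_inv.matrix_elem i j)

theorem one_mem_cOpen627 : (1 : GL (Fin 2) ℂ) ∈ cOpen627 := by
  intro i j
  have h : ∀ i j : Fin 2, ‖(1 : Matrix (Fin 2) (Fin 2) ℂ) i j‖ < 2 := by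
    intro i j
    rw [Matrix.one_apply]
    split_ifs <;> simp
  simp only [inv_one, Units.val_one, Metric.mem_ball, dist_zero_right]
  exact ⟨h i j, h i j⟩

theorem cOpen_subset_cBox627 : cOpen627 ⊆ cBox627 := fun g hg i j =>
  ⟨Metric.ball_subset_closedBall (hg i j).1, Metric.ball_subset_closedBall (hg i j).2⟩

/-- The compact box of `GL₂(𝔸_K)`. -/
def aBox627 (K : Type) [Field K] [NumberField K] : Set (G K) :=
  {g | ∀ i j, (g : Matrix (Fin 2) (Fin 2) (Adl K)) i j ∈ box919 K 2 ∧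
      ((g⁻¹ : G K) : Matrix (Fin 2) (Fin 2) (Adl K)) i j ∈ box919 K 2}

theorem isCompact_aBox627 : IsCompact (aBox627 K) := by
  have : T2Space (Adl K) := Fermat.Agent.LT.H11.LC.t2Space_adeleRing_h11 K
  exact isCompact_unitsBox627 (box919 K 2) (isCompact_box919 2)

/-! ## 6. `Out_S` is open; the reference sets -/

theorem isOpen_wS627 (S : Finset (HeightOneSpectrum (𝓞 K))) :
    IsOpen {x : Adl K | ∀ v : HeightOneSpectrum (𝓞 K), v ∉ S →
      x.2 v ∈ v.adicCompletionIntegers K} := by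
  have h := RestrictedProduct.isOpen_forall_imp_mem
    (R := fun v : HeightOneSpectrum (𝓞 K) => v.adicCompletion K)
    (A := fun v : HeightOneSpectrum (𝓞 K) =>
      (v.adicCompletionIntegers K : Set (v.adicCompletion K)))
    (fun v => Valued.isOpen_valuationSubring (v.adicCompletion K))
    (p := fun v => v ∉ S)
  exact h.preimage continuous_snd

theorem isOpen_out627 (S : Finset (HeightOneSpectrum (𝓞 K))) :
    IsOpen {y : G K | OutT305 S y} := by
  have e : {y : G K | OutT305 S y}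
      = ⋂ i : Fin 2, ⋂ j : Fin 2,
        ((fun g : G K => (g : Matrix (Fin 2) (Fin 2) (Adl K)) i j) ⁻¹'
          {x : Adl K | ∀ v : HeightOneSpectrum (𝓞 K), v ∉ S →
            x.2 v ∈ v.adicCompletionIntegers K}) ∩
        ((fun g : G K => ((g⁻¹ : G K) : Matrix (Fin 2) (Fin 2) (Adl K)) i j) ⁻¹'
          {x : Adl K | ∀ v : HeightOneSpectrum (𝓞 K), v ∉ S →
            x.2 v ∈ v.adicCompletionIntegers K}) := by
    ext y
    simp only [Set.mem_iInter, Set.mem_inter_iff, Set.mem_preimage, Set.mem_setOf_eq]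
    constructor
    · intro h i j
      exact ⟨fun v hv => (h v hv).1 i j, fun v hv => (h v hv).2 i j⟩
    · intro h v hv
      exact ⟨fun i j => (h i j).1 v hv, fun i j => (h i j).2 v hv⟩
  rw [e]
  refine isOpen_iInter_of_finite fun i => isOpen_iInter_of_finite fun j => IsOpen.inter ?_ ?_
  · exact (isOpen_wS627 S).preimage (Units.continuous_val.matrix_elem i j)
  · exact (isOpen_wS627 S).preimage (Units.continuous_coe_inv.matrix_elem i j)

theorem inU_mono627 (v : HeightOneSpectrum (𝓞 K)) (n : ℕ)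
    {g : GL (Fin 2) (v.adicCompletion K)} (h : T6.InU n g) : T6.InU 0 g := by
  have hle : WithZero.exp (-(n : ℤ)) ≤ (WithZero.exp (-((0 : ℕ) : ℤ)) : WithZero (Multiplicative ℤ)) := by
    rw [WithZero.exp_le_exp]
    simp
  intro i j
  exact ⟨(h i j).1.trans hle, (h i j).2.trans hle⟩

/-- The reference set of `GL₂(𝔸_K)` (closed at the infinite places). -/
def pSet627 (m : HeightOneSpectrum (𝓞 K) → ℕ) : Set (G K) :=
  {y | (∀ v : HeightOneSpectrum (𝓞 K), T6.InU (m v) (finGL305 v y)) ∧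
    ∀ w : InfinitePlace K, infGL305 w y ∈ cBox627}

/-- The reference set of `GL₂(𝔸_K)` (open at the infinite places). -/
def vSet627 (m : HeightOneSpectrum (𝓞 K) → ℕ) : Set (G K) :=
  {y | (∀ v : HeightOneSpectrum (𝓞 K), T6.InU (m v) (finGL305 v y)) ∧
    ∀ w : InfinitePlace K, infGL305 w y ∈ cOpen627}

theorem vSet_subset_pSet627 (m : HeightOneSpectrum (𝓞 K) → ℕ) : vSet627 m ⊆ pSet627 m :=
  fun _ hy => ⟨hy.1, fun w => cOpen_subset_cBox627 (hy.2 w)⟩

theorem one_mem_vSet627 (m : HeightOneSpectrum (𝓞 K) → ℕ) : (1 : G K) ∈ vSet627 m := by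
  refine ⟨fun v => ?_, fun w => ?_⟩
  · rw [map_one]
    exact one_mem_inU627 v (m v)
  · rw [map_one]
    exact one_mem_cOpen627

theorem isOpen_vSet627 (T₀ : Finset (HeightOneSpectrum (𝓞 K)))
    (m : HeightOneSpectrum (𝓞 K) → ℕ) (hm : ∀ v, v ∉ T₀ → m v = 0) :
    IsOpen (vSet627 m) := by
  have e : vSet627 m = {y : G K | OutT305 T₀ y} ∩
      (⋂ v ∈ T₀, (fun y : G K => finGL305 v y) ⁻¹' {g | T6.InU (m v) g}) ∩
      ⋂ w : InfinitePlace K, (fun y : G K => infGL305 w y) ⁻¹' cOpen627 := by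
    ext y
    simp only [vSet627, Set.mem_inter_iff, Set.mem_iInter, Set.mem_preimage, Set.mem_setOf_eq]
    constructor
    · rintro ⟨h1, h2⟩
      refine ⟨⟨fun v hv => ?_, fun v _ => h1 v⟩, h2⟩
      have := h1 v
      rw [hm v hv] at this
      exact (inU_zero_iff627 v y).1 this
    · rintro ⟨⟨h1, h2⟩, h3⟩
      refine ⟨fun v => ?_, h3⟩
      by_cases hv : v ∈ T₀
      · exact h2 v hv
      · rw [hm v hv]
        exact (inU_zero_iff627 v y).2 (h1 v hv)
  rw [e]
  refine IsOpen.inter (IsOpen.inter (isOpen_out627 T₀) ?_) ?_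
  · exact isOpen_biInter_finset fun v _ => (isOpen_inU627 v (m v)).preimage (continuous_finGL627 v)
  · exact isOpen_iInter_of_finite fun w => isOpen_cOpen627.preimage (continuous_infGL627 w)

theorem pSet_subset_aBox627 (m : HeightOneSpectrum (𝓞 K) → ℕ) : pSet627 m ⊆ aBox627 K := by
  intro y hy i j
  have hint : ∀ v : HeightOneSpectrum (𝓞 K), IsIntegralAt v y ∧ IsIntegralAt v y⁻¹ :=
    fun v => (inU_zero_iff627 v y).1 (inU_mono627 v (m v) (hy.1 v))
  refine ⟨⟨fun w => ?_, fun v => (hint v).1 i j⟩, ⟨fun w => ?_, fun v => (hint v).2 i j⟩⟩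
  · have h := (hy.2 w i j).1
    rw [infGL_val627, Metric.mem_closedBall, dist_zero_right] at h
    rw [← Fermat.Agent.LT.T1.H793.norm_extensionEmbedding793]
    exact h
  · have h := (hy.2 w i j).2
    rw [infGL_inv_val627, Metric.mem_closedBall, dist_zero_right] at h
    rw [← Fermat.Agent.LT.T1.H793.norm_extensionEmbedding793]
    exact h

/-- The reference set of the target. -/
def eSet627 (S : Finset (HeightOneSpectrum (𝓞 K))) (m : HeightOneSpectrum (𝓞 K) → ℕ) :
    Set ((∀ v : S, GL (Fin 2) ((v : HeightOneSpectrum (𝓞 K)).adicCompletion K)) ×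
      (InfinitePlace K → GL (Fin 2) ℂ)) :=
  (Set.pi Set.univ fun v : S => {g | T6.InU (m v.1) g}) ×ˢ
    (Set.pi Set.univ fun _ : InfinitePlace K => cBox627)

theorem out_inter_preimage627 (T₀ S : Finset (HeightOneSpectrum (𝓞 K))) (hS : T₀ ⊆ S)
    (m : HeightOneSpectrum (𝓞 K) → ℕ) (hm : ∀ v, v ∉ T₀ → m v = 0) :
    ((outSub627 S : Subgroup (G K)) : Set (G K)) ∩ compS305 S ⁻¹' eSet627 S m = pSet627 m := by
  ext y
  simp only [coe_outSub627, eSet627, compS305, pSet627, Set.mem_inter_iff, Set.mem_preimage,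
    Set.mem_prod, Set.mem_pi, Set.mem_univ, forall_true_left, Set.mem_setOf_eq]
  constructor
  · rintro ⟨h1, h2, h3⟩
    refine ⟨fun v => ?_, h3⟩
    by_cases hv : v ∈ S
    · exact h2 ⟨v, hv⟩
    · rw [hm v (fun h => hv (hS h))]
      exact (inU_zero_iff627 v y).2 (h1 v hv)
  · rintro ⟨h1, h2⟩
    refine ⟨fun v hv => ?_, fun v => h1 v.1, h2⟩
    have := h1 v
    rw [hm v (fun h => hv (hS h))] at this
    exact (inU_zero_iff627 v y).1 this

/-! ## 7. The leaf -/

/-- **LEAF C2.7.4 `HaarSplitC305`, UNCONDITIONAL.** -/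
theorem haarSplitC627 (K : Type) [Field K] [NumberField K] : HaarSplitC305 K := by
  intro hK μ hμ μc hμc T₀ m hm
  classical
  -- the adelic group
  haveI : BorelSpace (G K) := ⟨rfl⟩
  haveI : T2Space (G K) := Fermat.Agent.LT.H11.LC.t2Space_GL2_adeleRing_h11 K
  -- `GL₂(ℂ)`
  letI iC : MeasurableSpace (GL (Fin 2) ℂ) := borel _
  haveI : BorelSpace (GL (Fin 2) ℂ) := ⟨rfl⟩
  haveI : μc.IsHaarMeasure := hμc
  haveI : T2Space (Matrix (Fin 2) (Fin 2) ℂ) :=
    Fermat.Agent.LT.H11.LC.t2Space_matrix_h11 (Fin 2) ℂ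
  haveI : LocallyCompactSpace (Matrix (Fin 2) (Fin 2) ℂ) :=
    Fermat.Agent.LT.H11.LC.locallyCompactSpace_matrix_h11 (Fin 2) ℂ
  haveI : LocallyCompactSpace (GL (Fin 2) ℂ) := inferInstance
  haveI : SecondCountableTopology (Matrix (Fin 2) (Fin 2) ℂ) :=
    Fermat.Agent.LT.H11.SC.secondCountableTopology_matrix_h11 (Fin 2) ℂ
  haveI : SecondCountableTopology (GL (Fin 2) ℂ) :=
    Fermat.Agent.LT.H11.SC.secondCountableTopology_units_h11 _
  -- the reference volumes
  have hb0 : μc cBox627 ≠ 0 :=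
    ((isOpen_cOpen627.measure_pos μc ⟨1, one_mem_cOpen627⟩).trans_le
      (measure_mono cOpen_subset_cBox627)).ne'
  have hbtop : μc cBox627 ≠ ∞ := isCompact_cBox627.measure_lt_top.ne
  have hp0 : μ (pSet627 m) ≠ 0 :=
    (((isOpen_vSet627 T₀ m hm).measure_pos μ ⟨1, one_mem_vSet627 m⟩).trans_le
      (measure_mono (vSet_subset_pSet627 m))).ne'
  have hptop : μ (pSet627 m) ≠ ∞ :=
    ((measure_mono (pSet_subset_aBox627 m)).trans_lt isCompact_aBox627.measure_lt_top).ne
  set n : ℕ := Fintype.card (InfinitePlace K) with hn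
  have hbpos : 0 < (μc cBox627).toReal ^ n := pow_pos (ENNReal.toReal_pos hb0 hbtop) n
  refine ⟨(μ (pSet627 m)).toReal / (μc cBox627).toReal ^ n,
    div_pos (ENNReal.toReal_pos hp0 hptop) hbpos, ?_⟩
  intro S hS μv hμv
  -- the local groups
  letI iV : ∀ v : HeightOneSpectrum (𝓞 K), MeasurableSpace (GL (Fin 2) (v.adicCompletion K)) :=
    fun _ => borel _
  haveI : ∀ v : HeightOneSpectrum (𝓞 K), BorelSpace (GL (Fin 2) (v.adicCompletion K)) :=
    fun _ => ⟨rfl⟩
  haveI : ∀ v : HeightOneSpectrum (𝓞 K), (μv v).IsHaarMeasure := fun v => (hμv v).1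
  haveI : ∀ v : HeightOneSpectrum (𝓞 K), LocallyCompactSpace (GL (Fin 2) (v.adicCompletion K)) :=
    fun v => Fermat.Agent.LT.H11.LC.locallyCompactSpace_GL2_adicCompletion_h11 K v
  haveI : ∀ v : HeightOneSpectrum (𝓞 K),
      SecondCountableTopology (GL (Fin 2) (v.adicCompletion K)) := fun v => by
    haveI := Fermat.Agent.LT.H11.SC.secondCountableTopology_adicCompletion_h11 K v
    haveI := Fermat.Agent.LT.H11.SC.secondCountableTopology_matrix_h11 (Fin 2)
      (v.adicCompletion K)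
    exact Fermat.Agent.LT.H11.SC.secondCountableTopology_units_h11 _
  -- the product measure
  set ν : Measure ((∀ v : S, GL (Fin 2) ((v : HeightOneSpectrum (𝓞 K)).adicCompletion K)) ×
      (InfinitePlace K → GL (Fin 2) ℂ)) :=
    (Measure.pi fun v : S => μv v.1).prod (Measure.pi fun _ : InfinitePlace K => μc) with hν
  haveI hνH : ν.IsHaarMeasure := by
    rw [hν]
    haveI h1 : ∀ v : S, SigmaFinite (μv v.1) := fun v => inferInstance
    haveI h2 : SigmaFinite μc := inferInstance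
    haveI h3 : ∀ v : S, MeasurableMul (GL (Fin 2) ((v : HeightOneSpectrum (𝓞 K)).adicCompletion K)) :=
      fun v => inferInstance
    haveI h4 : MeasurableMul (GL (Fin 2) ℂ) := inferInstance
    haveI h5 : (Measure.pi fun v : S => μv v.1).IsHaarMeasure := inferInstance
    haveI h6 : (Measure.pi fun _ : InfinitePlace K => μc).IsHaarMeasure := inferInstance
    haveI h7 : SigmaFinite (Measure.pi fun v : S => μv v.1) := inferInstance
    haveI h8 : SigmaFinite (Measure.pi fun _ : InfinitePlace K => μc) := inferInstance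
    haveI h9 : MeasurableMul (∀ v : S, GL (Fin 2) ((v : HeightOneSpectrum (𝓞 K)).adicCompletion K)) :=
      inferInstance
    haveI h10 : MeasurableMul (InfinitePlace K → GL (Fin 2) ℂ) := inferInstance
    infer_instance
  have hνE : ν (eSet627 S m) = (μc cBox627) ^ n := by
    rw [hν, eSet627, Measure.prod_prod, Measure.pi_pi, Measure.pi_pi]
    have h1 : ∀ v : S, μv v.1 {g | T6.InU (m v.1) g} = 1 := fun v => (hμv v.1).2
    simp only [h1, Finset.prod_const_one, one_mul, Finset.prod_const, Finset.card_univ, hn]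
  have hEmeas : MeasurableSet (eSet627 S m) := by
    refine MeasurableSet.prod (MeasurableSet.univ_pi fun v => ?_) (MeasurableSet.univ_pi fun w => ?_)
    · exact (isOpen_inU627 v.1 (m v.1)).measurableSet
    · exact isCompact_cBox627.isClosed.measurableSet
  have hEint : (interior (eSet627 S m)).Nonempty := by
    refine ⟨1, mem_interior.2 ⟨(Set.pi Set.univ fun v : S => {g | T6.InU (m v.1) g}) ×ˢ
      (Set.pi Set.univ fun _ : InfinitePlace K => cOpen627), ?_, ?_, ?_⟩⟩
    · exact Set.prod_mono (le_refl _) (Set.pi_mono fun w _ => cOpen_subset_cBox627)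
    · exact (isOpen_set_pi Set.finite_univ fun v _ => isOpen_inU627 v.1 (m v.1)).prod
        (isOpen_set_pi Set.finite_univ fun w _ => isOpen_cOpen627)
    · exact ⟨fun v _ => one_mem_inU627 v.1 (m v.1), fun w _ => one_mem_cOpen627⟩
  have hpre := out_inter_preimage627 T₀ S hS m hm
  have key := map_restrict_eq_smul627 μ (outSub627 S) (isClosed_out627 S).measurableSet
    (compS305 S) (continuous_compS627 S).measurable (compS_mul627 S) (compS_surj627 hK S) ν
    (eSet627 S m) hEmeas hEint (by rw [hpre]; exact hptop)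
    (by rw [hνE]; exact pow_ne_zero n hb0) (by rw [hνE]; exact ENNReal.pow_ne_top hbtop)
  rw [hpre, hνE, coe_outSub627] at key
  rw [key]
  congr 1
  rw [ENNReal.ofReal_div_of_pos hbpos, ENNReal.ofReal_toReal hptop,
    ENNReal.ofReal_pow ENNReal.toReal_nonneg, ENNReal.ofReal_toReal hbtop]

end Fermat.Agent.LT.T7.H627

end
end
-- ===== PACK-END LT/T7/H627/HaarSplit.lean

-- ===== PACK-BEGIN LT/T7/H444/ArchConv.lean
section




/-!
# Row LT, tower T7: ASSET `ArchConv` (helper444) -- the convolution algebra at infinity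

OFF-MAIN.  For the clause `arch` of `H305.LocHyp305` / `H893.LocHyp893` under PRODUCTS
(`ProdMtCb`) and in the construction (`BaseCb`).  Vocabulary: `T6.convInt` (`T6/Spec.lean`),
`H305.convL305`, `H305.conjGL305` (`T7/H305/MatchSpec.lean`), byte-identical copies.

## Generic (a locally compact second countable group `H`, a Haar measure `μ`)

* `support_convInt444`, `hasCompactSupport_convInt444`, `continuous_convInt444`;
* `convInt_assoc444` : `(a * b) * c = a * (b * c)` (continuous, `a`, `b` of compact support);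
* `map_invol_haar444` : a Haar measure is invariant under a continuous involutive
  automorphism; `convInt_invol444`: the convolution of invariant functions is invariant.

## `GL₂(ℂ)`

* `IsArchFn444 Φ` : continuous, compact support, invariant under complex conjugation,
  bi-`U(2)`-invariant (= the clauses of `ArchOk893` on one component);
* `isArchFn_convInt444` : closed under convolution; `convInt_comm444` : commutative;
* `isArchFn_convL444`, `convL_mul444` : `convL305` of the products is the product of the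
  `convL305`; `convL_perm444` : `convL305` does not depend on the enumeration.
-/

set_option autoImplicit false
set_option linter.style.haveILetI false
set_option linter.unusedSectionVars false

open MeasureTheory MeasureTheory.Measure
open scoped NNReal ENNReal Pointwise

noncomputable section

namespace Fermat.Agent.LT.T7.H444

open Fermat.Agent.LT

/-! ## 1. Generic -/

section Generic

variable {H : Type} [Group H] [TopologicalSpace H] [IsTopologicalGroup H]
  [MeasurableSpace H] [BorelSpace H]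

/-- The support of a convolution is contained in the product of the supports. -/
theorem support_convInt444 (μ : Measure H) (φ ψ : H → ℂ) :
    Function.support (T6.convInt μ φ ψ) ⊆ Function.support φ * Function.support ψ := by
  intro g hg
  by_contra hcon
  apply hg
  show ∫ h, φ h * ψ (h⁻¹ * g) ∂μ = 0
  have h0 : (fun y => φ y * ψ (y⁻¹ * g)) = fun _ => (0 : ℂ) := by
    funext y
    by_cases h1 : φ y = 0
    · rw [h1, zero_mul]
    · by_cases h2 : ψ (y⁻¹ * g) = 0
      · rw [h2, mul_zero]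
      · exact absurd ⟨y, h1, y⁻¹ * g, h2, by simp⟩ hcon
  rw [h0]
  simp

theorem hasCompactSupport_convInt444 (μ : Measure H) {φ ψ : H → ℂ}
    (h₁s : HasCompactSupport φ) (h₂s : HasCompactSupport ψ) :
    HasCompactSupport (T6.convInt μ φ ψ) := by
  have hK : IsCompact (tsupport φ * tsupport ψ) := h₁s.isCompact.mul h₂s.isCompact
  refine HasCompactSupport.intro hK ?_
  intro g hg
  by_contra hne
  apply hg
  obtain ⟨y, hy, z, hz, hyz⟩ := support_convInt444 μ φ ψ hne
  exact ⟨y, subset_tsupport _ hy, z, subset_tsupport _ hz, hyz⟩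

theorem continuous_convInt444 [LocallyCompactSpace H] (μ : Measure H) [IsHaarMeasure μ]
    {φ ψ : H → ℂ} (h₁c : Continuous φ) (h₁s : HasCompactSupport φ) (h₂c : Continuous ψ) :
    Continuous (T6.convInt μ φ ψ) := by
  rw [← continuousOn_univ]
  show ContinuousOn (fun g => ∫ h, φ h * ψ (h⁻¹ * g) ∂μ) Set.univ
  apply continuousOn_integral_of_compact_support (k := tsupport φ) h₁s.isCompact
  · apply Continuous.continuousOn
    have c1 : Continuous fun p : H × H => φ p.2 := h₁c.comp continuous_snd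
    have c2 : Continuous fun p : H × H => ψ (p.2⁻¹ * p.1) :=
      h₂c.comp ((continuous_inv.comp continuous_snd).mul continuous_fst)
    exact c1.mul c2
  · intro p y _ hy
    rw [image_eq_zero_of_notMem_tsupport hy]
    simp

/-- **Associativity** of the convolution (Fubini). -/
theorem convInt_assoc444 [LocallyCompactSpace H] [SecondCountableTopology H]
    (μ : Measure H) [IsHaarMeasure μ] {a b c : H → ℂ}
    (hac : Continuous a) (has : HasCompactSupport a) (hbc : Continuous b)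
    (hbs : HasCompactSupport b) (hcc : Continuous c) :
    T6.convInt μ (T6.convInt μ a b) c = T6.convInt μ a (T6.convInt μ b c) := by
  funext g
  show ∫ h, (∫ x, a x * b (x⁻¹ * h) ∂μ) * c (h⁻¹ * g) ∂μ
    = ∫ x, a x * (∫ y, b y * c (y⁻¹ * (x⁻¹ * g)) ∂μ) ∂μ
  -- the integrand on the product
  set F : H → H → ℂ := fun h x => a x * b (x⁻¹ * h) * c (h⁻¹ * g) with hF
  have hFc : Continuous (Function.uncurry F) := by
    have c1 : Continuous fun p : H × H => a p.2 := hac.comp continuous_snd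
    have c2 : Continuous fun p : H × H => b (p.2⁻¹ * p.1) :=
      hbc.comp ((continuous_inv.comp continuous_snd).mul continuous_fst)
    have c3 : Continuous fun p : H × H => c (p.1⁻¹ * g) :=
      hcc.comp ((continuous_inv.comp continuous_fst).mul continuous_const)
    exact (c1.mul c2).mul c3
  have hFs : HasCompactSupport (Function.uncurry F) := by
    have hK : IsCompact ((tsupport a * tsupport b) ×ˢ tsupport a) :=
      (has.isCompact.mul hbs.isCompact).prod has.isCompact
    refine HasCompactSupport.intro hK ?_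
    rintro ⟨h, x⟩ hp
    show a x * b (x⁻¹ * h) * c (h⁻¹ * g) = 0
    by_cases h1 : a x = 0
    · rw [h1, zero_mul, zero_mul]
    · by_cases h2 : b (x⁻¹ * h) = 0
      · rw [h2, mul_zero, zero_mul]
      · exfalso
        apply hp
        refine ⟨⟨x, subset_tsupport _ h1, x⁻¹ * h, subset_tsupport _ h2, by simp⟩,
          subset_tsupport _ h1⟩
  have hFi : Integrable (Function.uncurry F) (μ.prod μ) :=
    hFc.integrable_of_hasCompactSupport hFs
  calc ∫ h, (∫ x, a x * b (x⁻¹ * h) ∂μ) * c (h⁻¹ * g) ∂μ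
      = ∫ h, ∫ x, F h x ∂μ ∂μ := by
        refine integral_congr_ae (Filter.Eventually.of_forall fun h => ?_)
        show (∫ x, a x * b (x⁻¹ * h) ∂μ) * c (h⁻¹ * g) = ∫ x, a x * b (x⁻¹ * h) * c (h⁻¹ * g) ∂μ
        rw [integral_mul_const]
    _ = ∫ x, ∫ h, F h x ∂μ ∂μ := integral_integral_swap hFi
    _ = ∫ x, a x * (∫ y, b y * c (y⁻¹ * (x⁻¹ * g)) ∂μ) ∂μ := by
        refine integral_congr_ae (Filter.Eventually.of_forall fun x => ?_)
        show ∫ h, a x * b (x⁻¹ * h) * c (h⁻¹ * g) ∂μ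
          = a x * (∫ y, b y * c (y⁻¹ * (x⁻¹ * g)) ∂μ)
        rw [← integral_const_mul]
        have h1 := integral_mul_left_eq_self (μ := μ)
          (fun h => a x * b (x⁻¹ * h) * c (h⁻¹ * g)) x
        rw [← h1]
        refine integral_congr_ae (Filter.Eventually.of_forall fun y => ?_)
        show a x * b (x⁻¹ * (x * y)) * c ((x * y)⁻¹ * g) = a x * (b y * c (y⁻¹ * (x⁻¹ * g)))
        rw [inv_mul_cancel_left, _root_.mul_inv_rev, mul_assoc, mul_assoc]

/-- A Haar measure is invariant under a continuous involutive automorphism. -/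
theorem map_invol_haar444 [LocallyCompactSpace H] [SecondCountableTopology H]
    (μ : Measure H) [IsHaarMeasure μ] (e : H ≃* H) (he : Continuous e)
    (hinv : ∀ g : H, e (e g) = g) : map (e : H → H) μ = μ := by
  have hsymm : (e.symm : H → H) = e := by
    funext g
    apply e.injective
    rw [e.apply_symm_apply, hinv]
  have hes : Continuous (e.symm : H → H) := by rw [hsymm]; exact he
  haveI : IsHaarMeasure (map (e : H → H) μ) := e.isHaarMeasure_map μ he hes
  set ν := map (e : H → H) μ with hν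
  let c : ℝ≥0∞ := haarScalarFactor ν μ
  have hc : ν = c • μ := isMulLeftInvariant_eq_smul ν μ
  have hid : (e : H → H) ∘ (e : H → H) = id := by
    funext g
    exact hinv g
  have h2 : map (e : H → H) ν = c ^ 2 • μ := by
    rw [hc, Measure.map_smul, ← hν, hc, smul_smul, pow_two]
  have μeq : μ = c ^ 2 • μ := by
    rw [hν, map_map he.measurable he.measurable, hid, Measure.map_id] at h2
    exact h2
  have K : TopologicalSpace.PositiveCompacts H := Classical.arbitrary _
  have h3 : c ^ 2 * μ K = 1 ^ 2 * μ K := by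
    conv_rhs => rw [μeq]
    simp
  have h4 : c ^ 2 = 1 ^ 2 :=
    (ENNReal.mul_left_inj (measure_pos_of_nonempty_interior _ K.interior_nonempty).ne'
          K.isCompact.measure_lt_top.ne).1 h3
  have h5 : c = 1 := (ENNReal.pow_right_strictMono two_ne_zero).injective h4
  rw [hc, h5, one_smul]

/-- The convolution of functions which are invariant under a continuous involutive
automorphism is invariant. -/
theorem convInt_invol444 [LocallyCompactSpace H] [SecondCountableTopology H]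
    (μ : Measure H) [IsHaarMeasure μ] (e : H ≃* H) (he : Continuous e)
    (hinv : ∀ g : H, e (e g) = g) {φ ψ : H → ℂ} (hφ : ∀ g, φ (e g) = φ g)
    (hψ : ∀ g, ψ (e g) = ψ g) (g : H) :
    T6.convInt μ φ ψ (e g) = T6.convInt μ φ ψ g := by
  show ∫ h, φ h * ψ (h⁻¹ * e g) ∂μ = ∫ h, φ h * ψ (h⁻¹ * g) ∂μ
  have hsymm : (e.symm : H → H) = e := by
    funext g
    apply e.injective
    rw [e.apply_symm_apply, hinv]
  have hes : Continuous (e.symm : H → H) := by rw [hsymm]; exact he
  let E : H ≃ₜ H := ⟨e.toEquiv, he, hes⟩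
  have hmp : MeasurePreserving (E.toMeasurableEquiv) μ μ :=
    ⟨E.toMeasurableEquiv.measurable, map_invol_haar444 μ e he hinv⟩
  have h1 := hmp.integral_comp' (fun h => φ h * ψ (h⁻¹ * e g))
  rw [← h1]
  refine integral_congr_ae (Filter.Eventually.of_forall fun h => ?_)
  show φ (e h) * ψ ((e h)⁻¹ * e g) = φ h * ψ (h⁻¹ * g)
  rw [hφ, ← map_inv, ← map_mul, hψ]

end Generic

/-! ## 2. `GL₂(ℂ)` -/

section GL2C

open Fermat.Agent.LT.T7.H305

theorem conjGL_val444 (g : GL (Fin 2) ℂ) :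
    ((conjGL305 g : GL (Fin 2) ℂ) : Matrix (Fin 2) (Fin 2) ℂ)
      = (g : Matrix (Fin 2) (Fin 2) ℂ).map (starRingEnd ℂ) := rfl

theorem conjGL_conjGL444 (g : GL (Fin 2) ℂ) : conjGL305 (conjGL305 g) = g := by
  apply Units.ext
  rw [conjGL_val444, conjGL_val444]
  ext i j
  show (starRingEnd ℂ) ((starRingEnd ℂ) ((g : Matrix (Fin 2) (Fin 2) ℂ) i j)) = _
  exact Complex.conj_conj _

/-- Complex conjugation as an automorphism of `GL₂(ℂ)`. -/
def conjEquiv444 : GL (Fin 2) ℂ ≃* GL (Fin 2) ℂ where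
  toFun := conjGL305
  invFun := conjGL305
  left_inv := conjGL_conjGL444
  right_inv := conjGL_conjGL444
  map_mul' := map_mul conjGL305

theorem continuous_conjGL444 : Continuous (conjGL305 : GL (Fin 2) ℂ → GL (Fin 2) ℂ) := by
  rw [Units.continuous_iff]
  constructor
  · show Continuous fun g : GL (Fin 2) ℂ =>
      (g : Matrix (Fin 2) (Fin 2) ℂ).map (starRingEnd ℂ)
    exact (Units.continuous_val).matrix_map Complex.continuous_conj
  · show Continuous fun g : GL (Fin 2) ℂ =>
      ((g⁻¹ : GL (Fin 2) ℂ) : Matrix (Fin 2) (Fin 2) ℂ).map (starRingEnd ℂ)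
    exact (Units.continuous_val.comp continuous_inv).matrix_map Complex.continuous_conj

/-- **The archimedean test functions of the local shape**: continuous, compact support,
invariant under complex conjugation, bi-`U(2)`-invariant (the clauses of `H305.LocHyp305.arch_up`
and of `H893.ArchOk893` on one component). -/
def IsArchFn444 (Φ : GL (Fin 2) ℂ → ℂ) : Prop :=
  Continuous Φ ∧ HasCompactSupport Φ ∧ (∀ g : GL (Fin 2) ℂ, Φ (conjGL305 g) = Φ g) ∧
    IsBiU444 Φ

variable (μc : @Measure (GL (Fin 2) ℂ) (borel _))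
  (hμ : @Measure.IsHaarMeasure _ _ _ (borel _) μc)

include hμ

/-- The archimedean test functions are closed under convolution. -/
theorem isArchFn_convInt444 {Φ₁ Φ₂ : GL (Fin 2) ℂ → ℂ} (h₁ : IsArchFn444 Φ₁)
    (h₂ : IsArchFn444 Φ₂) : IsArchFn444 (@T6.convInt _ _ (borel _) μc Φ₁ Φ₂) := by
  letI : MeasurableSpace (GL (Fin 2) ℂ) := borel _
  haveI : BorelSpace (GL (Fin 2) ℂ) := ⟨rfl⟩
  haveI := hμ
  haveI := Fermat.Agent.LT.T6.H8.locallyCompactSpace_GL2C8
  haveI := Fermat.Agent.LT.T6.H8.secondCountableTopology_GL2C8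
  refine ⟨continuous_convInt444 μc h₁.1 h₁.2.1 h₂.1,
    hasCompactSupport_convInt444 μc h₁.2.1 h₂.2.1, ?_, conv_biU444 μc h₁.2.2.2 h₂.2.2.2⟩
  intro g
  exact convInt_invol444 μc conjEquiv444 continuous_conjGL444 conjGL_conjGL444
    h₁.2.2.1 h₂.2.2.1 g

/-- The convolution of archimedean test functions is commutative. -/
theorem convInt_comm444 {Φ₁ Φ₂ : GL (Fin 2) ℂ → ℂ} (h₁ : IsBiU444 Φ₁) (h₂ : IsBiU444 Φ₂) :
    @T6.convInt _ _ (borel _) μc Φ₁ Φ₂ = @T6.convInt _ _ (borel _) μc Φ₂ Φ₁ := by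
  letI : MeasurableSpace (GL (Fin 2) ℂ) := borel _
  haveI : BorelSpace (GL (Fin 2) ℂ) := ⟨rfl⟩
  haveI := hμ
  funext g
  exact conv_comm_biU444 μc h₁ h₂ g

/-- The convolution of archimedean test functions is associative. -/
theorem convInt_assocA444 {a b c : GL (Fin 2) ℂ → ℂ} (ha : IsArchFn444 a)
    (hb : IsArchFn444 b) (hc : IsArchFn444 c) :
    @T6.convInt _ _ (borel _) μc (@T6.convInt _ _ (borel _) μc a b) c
      = @T6.convInt _ _ (borel _) μc a (@T6.convInt _ _ (borel _) μc b c) := by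
  letI : MeasurableSpace (GL (Fin 2) ℂ) := borel _
  haveI : BorelSpace (GL (Fin 2) ℂ) := ⟨rfl⟩
  haveI := hμ
  haveI := Fermat.Agent.LT.T6.H8.locallyCompactSpace_GL2C8
  haveI := Fermat.Agent.LT.T6.H8.secondCountableTopology_GL2C8
  exact convInt_assoc444 μc ha.1 ha.2.1 hb.1 hb.2.1 hc.1

theorem convL_zero444 (Φ : ℕ → GL (Fin 2) ℂ → ℂ) : convL305 μc Φ 0 = Φ 0 := rfl

theorem convL_succ444 (Φ : ℕ → GL (Fin 2) ℂ → ℂ) (j : ℕ) :
    convL305 μc Φ (j + 1) = @T6.convInt _ _ (borel _) μc (convL305 μc Φ j) (Φ (j + 1)) := rfl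

/-- The iterated convolution of archimedean test functions is an archimedean test function. -/
theorem isArchFn_convL444 (Φ : ℕ → GL (Fin 2) ℂ → ℂ) (n : ℕ)
    (hΦ : ∀ j ≤ n, IsArchFn444 (Φ j)) : IsArchFn444 (convL305 μc Φ n) := by
  induction n with
  | zero => exact hΦ 0 le_rfl
  | succ n ih =>
    rw [convL_succ444 μc hμ]
    exact isArchFn_convInt444 μc hμ (ih fun j hj => hΦ j (Nat.le_succ_of_le hj))
      (hΦ (n + 1) le_rfl)

/-- **THE PRODUCT RULE**: the iterated convolution of the products is the product of the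
iterated convolutions. -/
theorem convL_mul444 (Φ₁ Φ₂ : ℕ → GL (Fin 2) ℂ → ℂ) (n : ℕ)
    (h₁ : ∀ j ≤ n, IsArchFn444 (Φ₁ j)) (h₂ : ∀ j ≤ n, IsArchFn444 (Φ₂ j)) :
    convL305 μc (fun j => @T6.convInt _ _ (borel _) μc (Φ₁ j) (Φ₂ j)) n
      = @T6.convInt _ _ (borel _) μc (convL305 μc Φ₁ n) (convL305 μc Φ₂ n) := by
  induction n with
  | zero => rfl
  | succ n ih =>
    have hA := isArchFn_convL444 μc hμ Φ₁ n fun j hj => h₁ j (Nat.le_succ_of_le hj)
    have hB := isArchFn_convL444 μc hμ Φ₂ n fun j hj => h₂ j (Nat.le_succ_of_le hj)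
    have ha := h₁ (n + 1) le_rfl
    have hb := h₂ (n + 1) le_rfl
    rw [convL_succ444 μc hμ, convL_succ444 μc hμ, convL_succ444 μc hμ,
      ih (fun j hj => h₁ j (Nat.le_succ_of_le hj)) (fun j hj => h₂ j (Nat.le_succ_of_le hj))]
    -- `(A * B) * (a * b) = (A * a) * (B * b)`
    rw [convInt_assocA444 μc hμ hA hB (isArchFn_convInt444 μc hμ ha hb),
      ← convInt_assocA444 μc hμ hB ha hb,
      convInt_comm444 μc hμ hB.2.2.2 ha.2.2.2,
      convInt_assocA444 μc hμ ha hB hb,
      ← convInt_assocA444 μc hμ hA ha (isArchFn_convInt444 μc hμ hB hb)]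

/-! ## 3. The iterated convolution does not depend on the enumeration -/

/-- The archimedean test functions. -/
def ArchAlg444 : Type := {Φ : GL (Fin 2) ℂ → ℂ // IsArchFn444 Φ}

/-- The convolution on `ArchAlg444`. -/
def archMul444 (a b : ArchAlg444) : ArchAlg444 :=
  ⟨@T6.convInt _ _ (borel _) μc a.1 b.1, isArchFn_convInt444 μc hμ a.2 b.2⟩

/-- `ArchAlg444` is a commutative semigroup under convolution. -/
@[reducible] def archSemigroup444 : CommSemigroup ArchAlg444 where
  mul := archMul444 μc hμ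
  mul_assoc a b c := Subtype.ext (convInt_assocA444 μc hμ a.2 b.2 c.2)
  mul_comm a b := Subtype.ext (convInt_comm444 μc hμ a.2.2.2.2 b.2.2.2.2)

/-- The iterated convolution is the product in `WithOne ArchAlg444`. -/
theorem convL_eq_prod444 (Ψ : ℕ → ArchAlg444) (n : ℕ) :
    letI := archSemigroup444 μc hμ
    ∃ P : ArchAlg444, P.1 = convL305 μc (fun j => (Ψ j).1) n ∧
      (P : WithOne ArchAlg444) = ∏ j ∈ Finset.range (n + 1), ((Ψ j : ArchAlg444) : WithOne _) := by
  letI := archSemigroup444 μc hμ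
  induction n with
  | zero =>
    refine ⟨Ψ 0, rfl, ?_⟩
    rw [Finset.prod_range_one]
  | succ n ih =>
    obtain ⟨P, hP1, hP2⟩ := ih
    refine ⟨P * Ψ (n + 1), ?_, ?_⟩
    · show @T6.convInt _ _ (borel _) μc P.1 (Ψ (n + 1)).1 = _
      rw [hP1]
      rfl
    · rw [Finset.prod_range_succ, ← hP2, WithOne.coe_mul]

/-- **PERMUTATION INVARIANCE**: two enumerations `w`, `w'` of the same `n + 1` indices give
the same iterated convolution. -/
theorem convL_perm444 {ι : Type} (Φ : ι → GL (Fin 2) ℂ → ℂ) (hΦ : ∀ i, IsArchFn444 (Φ i))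
    (n : ℕ) (w w' : ℕ → ι)
    (hw : ∀ j j' : ℕ, j ≤ n → j' ≤ n → w j = w j' → j = j')
    (hw' : ∀ j j' : ℕ, j ≤ n → j' ≤ n → w' j = w' j' → j = j')
    (himg : ∀ i : ι, (∃ j ≤ n, w j = i) ↔ ∃ j ≤ n, w' j = i) :
    convL305 μc (fun j => Φ (w j)) n = convL305 μc (fun j => Φ (w' j)) n := by
  classical
  letI := archSemigroup444 μc hμ
  let Ψ : ι → ArchAlg444 := fun i => ⟨Φ i, hΦ i⟩
  obtain ⟨P, hP1, hP2⟩ := convL_eq_prod444 μc hμ (fun j => Ψ (w j)) n
  obtain ⟨P', hP'1, hP'2⟩ := convL_eq_prod444 μc hμ (fun j => Ψ (w' j)) n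
  have himg' : (Finset.range (n + 1)).image w = (Finset.range (n + 1)).image w' := by
    ext i
    simp only [Finset.mem_image, Finset.mem_range, Nat.lt_succ_iff]
    exact himg i
  have e1 : ∏ j ∈ Finset.range (n + 1), ((Ψ (w j) : ArchAlg444) : WithOne ArchAlg444)
      = ∏ i ∈ (Finset.range (n + 1)).image w, ((Ψ i : ArchAlg444) : WithOne ArchAlg444) := by
    rw [Finset.prod_image]
    intro j hj j' hj' h
    exact hw j j' (Nat.lt_succ_iff.mp (Finset.mem_range.mp hj))
      (Nat.lt_succ_iff.mp (Finset.mem_range.mp hj')) h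
  have e2 : ∏ j ∈ Finset.range (n + 1), ((Ψ (w' j) : ArchAlg444) : WithOne ArchAlg444)
      = ∏ i ∈ (Finset.range (n + 1)).image w', ((Ψ i : ArchAlg444) : WithOne ArchAlg444) := by
    rw [Finset.prod_image]
    intro j hj j' hj' h
    exact hw' j j' (Nat.lt_succ_iff.mp (Finset.mem_range.mp hj))
      (Nat.lt_succ_iff.mp (Finset.mem_range.mp hj')) h
  have hPP : (P : WithOne ArchAlg444) = (P' : WithOne ArchAlg444) := by
    rw [hP2, hP'2, e1, e2, himg']
  have hPP' : P = P' := WithOne.coe_inj.mp hPP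
  rw [← hP1, ← hP'1, hPP']

/-- Permutation invariance, for enumerations of a finite set with `n + 1` elements. -/
theorem convL_perm_finset444 {ι : Type} (Φ : ι → GL (Fin 2) ℂ → ℂ)
    (hΦ : ∀ i, IsArchFn444 (Φ i)) (n : ℕ) (S : Finset ι) (hS : S.card = n + 1) (w w' : ℕ → ι)
    (hwS : ∀ j ≤ n, w j ∈ S) (hw'S : ∀ j ≤ n, w' j ∈ S)
    (hw : ∀ j j' : ℕ, j ≤ n → j' ≤ n → w j = w j' → j = j')
    (hw' : ∀ j j' : ℕ, j ≤ n → j' ≤ n → w' j = w' j' → j = j') :
    convL305 μc (fun j => Φ (w j)) n = convL305 μc (fun j => Φ (w' j)) n := by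
  classical
  have key : ∀ u : ℕ → ι, (∀ j ≤ n, u j ∈ S) →
      (∀ j j' : ℕ, j ≤ n → j' ≤ n → u j = u j' → j = j') →
      (Finset.range (n + 1)).image u = S := by
    intro u huS hu
    apply Finset.eq_of_subset_of_card_le
    · intro i hi
      obtain ⟨j, hj, rfl⟩ := Finset.mem_image.mp hi
      exact huS j (Nat.lt_succ_iff.mp (Finset.mem_range.mp hj))
    · rw [Finset.card_image_of_injOn, Finset.card_range, hS]
      intro j hj j' hj' h
      exact hu j j' (Nat.lt_succ_iff.mp (Finset.mem_range.mp hj))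
        (Nat.lt_succ_iff.mp (Finset.mem_range.mp hj')) h
  refine convL_perm444 μc hμ Φ hΦ n w w' hw hw' fun i => ?_
  have h1 := key w hwS hw
  have h2 := key w' hw'S hw'
  have e : ∀ u : ℕ → ι, (∃ j ≤ n, u j = i) ↔ i ∈ (Finset.range (n + 1)).image u := by
    intro u
    simp only [Finset.mem_image, Finset.mem_range, Nat.lt_succ_iff]
  rw [e w, e w', h1, h2]

/-! ## 4. Scalars, and the clause `arch` for products -/

omit hμ in
theorem convInt_smul_left444 (c : ℂ) (Φ₁ Φ₂ : GL (Fin 2) ℂ → ℂ) :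
    @T6.convInt _ _ (borel _) μc (fun g => c * Φ₁ g) Φ₂
      = fun g => c * @T6.convInt _ _ (borel _) μc Φ₁ Φ₂ g := by
  letI : MeasurableSpace (GL (Fin 2) ℂ) := borel _
  funext g
  show ∫ h, c * Φ₁ h * Φ₂ (h⁻¹ * g) ∂μc = c * ∫ h, Φ₁ h * Φ₂ (h⁻¹ * g) ∂μc
  rw [← integral_const_mul]
  refine integral_congr_ae (Filter.Eventually.of_forall fun h => ?_)
  show c * Φ₁ h * Φ₂ (h⁻¹ * g) = c * (Φ₁ h * Φ₂ (h⁻¹ * g))
  rw [mul_assoc]

omit hμ in
theorem convInt_smul_right444 (c : ℂ) (Φ₁ Φ₂ : GL (Fin 2) ℂ → ℂ) :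
    @T6.convInt _ _ (borel _) μc Φ₁ (fun g => c * Φ₂ g)
      = fun g => c * @T6.convInt _ _ (borel _) μc Φ₁ Φ₂ g := by
  letI : MeasurableSpace (GL (Fin 2) ℂ) := borel _
  funext g
  show ∫ h, Φ₁ h * (c * Φ₂ (h⁻¹ * g)) ∂μc = c * ∫ h, Φ₁ h * Φ₂ (h⁻¹ * g) ∂μc
  rw [← integral_const_mul]
  refine integral_congr_ae (Filter.Eventually.of_forall fun h => ?_)
  show Φ₁ h * (c * Φ₂ (h⁻¹ * g)) = c * (Φ₁ h * Φ₂ (h⁻¹ * g))
  rw [mul_left_comm]

omit hμ in
theorem isArchFn_smul444 (c : ℂ) {Φ : GL (Fin 2) ℂ → ℂ} (h : IsArchFn444 Φ) :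
    IsArchFn444 (fun g => c * Φ g) := by
  refine ⟨continuous_const.mul h.1, ?_, fun g => ?_, fun k₁ k₂ g hk₁ hk₂ => ?_⟩
  · exact h.2.1.mul_left
  · show c * Φ (conjGL305 g) = c * Φ g
    rw [h.2.2.1]
  · show c * Φ (k₁ * g * k₂) = c * Φ g
    rw [h.2.2.2 k₁ k₂ g hk₁ hk₂]

/-- **THE CLAUSE `arch` FOR PRODUCTS** (shape of `H305.LocHyp305.arch` / `H893.LocHyp893.arch`
for one infinite place `v` and one enumeration `w`): if `F₁ = convL305 (Φ₁ ∘ w)` and
`F₂ = convL305 (Φ₂ ∘ w)`, then `F₁ * F₂ = convL305 ((Φ₁ * Φ₂) ∘ w)`. -/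
theorem arch_mul444 {ι : Type} (Φ₁ Φ₂ : ι → GL (Fin 2) ℂ → ℂ)
    (h₁ : ∀ i, IsArchFn444 (Φ₁ i)) (h₂ : ∀ i, IsArchFn444 (Φ₂ i))
    (F₁ F₂ : GL (Fin 2) ℂ → ℂ) (w : ℕ → ι) (n : ℕ)
    (e₁ : F₁ = convL305 μc (fun j => Φ₁ (w j)) n)
    (e₂ : F₂ = convL305 μc (fun j => Φ₂ (w j)) n) :
    @T6.convInt _ _ (borel _) μc F₁ F₂
      = convL305 μc (fun j => @T6.convInt _ _ (borel _) μc (Φ₁ (w j)) (Φ₂ (w j))) n := by
  rw [e₁, e₂]
  exact (convL_mul444 μc hμ (fun j => Φ₁ (w j)) (fun j => Φ₂ (w j)) n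
    (fun j _ => h₁ (w j)) (fun j _ => h₂ (w j))).symm

end GL2C

end Fermat.Agent.LT.T7.H444

end

end
-- ===== PACK-END LT/T7/H444/ArchConv.lean

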