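import Mathlib
import Fermat.Agent.Pack.LT3.E21L0
import Fermat.Agent.Pack.LT2.E7L3
import Fermat.Agent.Pack.LT3.E21L3
import Fermat.Agent.Pack.LT4.E0L1
import Fermat.Agent.Pack.LT3.E5L2
import Fermat.Agent.Pack.LT3.E8L2
import Fermat.Agent.Pack.LT4.E0L2
import Fermat.Agent.Pack.LT3.E8L0
import Fermat.Agent.Pack.LT3.E17L2
import Fermat.Agent.Pack.LT3.E20L3
import Fermat.Agent.Pack.LT3.E8L1
import Fermat.Agent.Pack.LT4.E0L0

set_option linter.all false

-- ===== PACK-BEGIN LT/T7/H144/TranslInv.lean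
section



/-!
# helper144 — leaf PROJ.1 `TranslInvC` of the cut of helper193 (`LT/T7/H193/ProjSpec.lean`)

VERBATIM, unconditional.  OFF-MAIN.  `F` is a fundamental domain for `GL₂(K) × ℤ`
(`isFundamentalDomain599`, helper599), so is `F h`; `IsFundamentalDomain.setIntegral_eq`.
-/

set_option autoImplicit false
set_option linter.unusedSectionVars false
set_option linter.style.haveILetI false

open IsDedekindDomain NumberField MeasureTheory

noncomputable section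

namespace Fermat.Agent.LT.T7.H144

open Fermat.Agent.LT.H556 Fermat.Agent.LT.H556.A0 Fermat.Agent.LT Fermat.Agent.LT.T5
open Fermat.Agent.LT.T5.H599

attribute [local instance] Fermat.Agent.LT.T5.instMeasurableSpaceG

variable {K : Type} [Field K] [NumberField K]

/-- Right invariance under the powers of `r`. -/
theorem right_zpow_inv144f {r : G K} {Φ : G K → ℂ} (hΦ : ∀ x : G K, Φ (x * r) = Φ x) (n : ℤ) :
    ∀ x : G K, Φ (x * r ^ n) = Φ x := by
  induction n using Int.induction_on with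
  | zero => intro x; rw [zpow_zero, mul_one]
  | succ k ih =>
    intro x
    rw [zpow_add_one, ← mul_assoc, hΦ, ih]
  | pred k ih =>
    intro x
    have h := hΦ (x * r ^ (-(k : ℤ) - 1))
    rw [mul_assoc, ← zpow_add_one, sub_add_cancel] at h
    rw [← h, ih]

/-- **LEAF PROJ.1 = TRANSL-INV**, core. -/
theorem translInv_core144f (hAN : T1.AdNormC K) {μ : Measure (G K)} {F : Set (G K)}
    (hF : IsFrame μ F) {r : G K} (hr : IsRayGen r) (Φ : G K → ℂ)
    (h1 : ∀ (γ : GL (Fin 2) K) (x : G K), Φ (ratG γ * x) = Φ x)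
    (h2 : ∀ x : G K, Φ (x * r) = Φ x) (h : G K) :
    ∫ x in F, Φ (x * h) ∂μ = ∫ x in F, Φ x ∂μ := by
  haveI := hF.haar
  haveI := countable_gam599 K
  haveI : BorelSpace (G K) := ⟨rfl⟩
  letI := act599 hr
  haveI := measurableConstSMul599 hr
  haveI := smulInvariantMeasure599 μ hr
  have hD : IsFundamentalDomain (Gam599 K) F μ := isFundamentalDomain599 hAN hF hr
  -- right translation preserves the measure
  have hmp : MeasurePreserving (fun x : G K => x * h⁻¹) μ μ :=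
    ⟨(continuous_mul_const h⁻¹).measurable, by
      ext A hA
      rw [Measure.map_apply (continuous_mul_const h⁻¹).measurable hA]
      exact hF.right_inv h⁻¹ A hA⟩
  have hD' : IsFundamentalDomain (Gam599 K) ((fun x : G K => x * h⁻¹) ⁻¹' F) μ := by
    refine hD.preimage_of_equiv hmp.quasiMeasurePreserving (e := id) Function.bijective_id ?_
    intro g x
    show iota599 hr g * x * h⁻¹ = iota599 hr g * (x * h⁻¹)
    rw [mul_assoc]
  have hinv : ∀ (g : Gam599 K) (x : G K), Φ (g • x) = Φ x := by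
    intro g x
    show Φ (iota599 hr g * x) = Φ x
    rw [iota_apply599, mul_assoc, h1, zpow_commute599 hr, right_zpow_inv144f h2]
  have hcv : ∫ x in (fun x : G K => x * h⁻¹) ⁻¹' F, Φ (x * h⁻¹ * h) ∂μ
      = ∫ x in F, Φ (x * h) ∂μ :=
    hmp.setIntegral_preimage_emb (MeasurableEquiv.mulRight h⁻¹).measurableEmbedding
      (fun x => Φ (x * h)) F
  rw [← hcv]
  simp only [inv_mul_cancel_right]
  exact hD'.setIntegral_eq hD hinv

/-- **LEAF PROJ.1 = TRANSL-INV**, verbatim. -/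
theorem translInvC144 (K : Type) [Field K] [NumberField K] : H193.TranslInvC K :=
  fun hAN R hR Φ h1 h2 h => translInv_core144f hAN hR.frame hR.ray Φ h1 h2 h

end Fermat.Agent.LT.T7.H144

end

end
-- ===== PACK-END LT/T7/H144/TranslInv.lean

-- ===== PACK-BEGIN LT/T7/H388/Enum.lean
section



/-!
# Row LT, tower T7, leaf C2.7.11.E `EnumExistsC311` (helper388, SPARE): THE CORE, PROVED

OFF-MAIN.  No hole, nothing assumed.  ADDITIVE (new names only, suffix `388`).  Imports: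
Mathlib + `T7/H305/MatchSpec.lean` v2 (helper305, sha256 0e8798b2) only.

    enumExists388 (K K') : (the body of `H311.EnumExistsC311 K K'`, VERBATIM)

`K'/K` Galois of prime degree `l` with generator `σ = D.s.σ`, `v` a finite place of `K` outside
`T₀` (unramified) with two places `w₁ ≠ w₂` of `K'` over it.  Then `w j = σ^{-j}(w₁)` is an
enumeration of places over `v` with `w j = σ(w (j+1))`, `w j ≠ w 0` for `0 < j < l`, and there
are identifications `i j : K_v ≃ K'_{w j}` which extend `K → K'` and preserve the valuation.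

Proof.  `s` = the element of `Gal(K'/K)` defined by `σ` (`σ` fixes `K`: `IsCompData.base`,
`IsCyclicOfDegree.fixed`).  `smulPlace388 g w` = the place `g • w` (pointwise action on ideals).
* over `v`: the Galois group fixes the image of `𝓞 K`;
* `PlaceRel`: `map (mapRingEquiv σ) I = s • I`, `s • (s^{j+1})⁻¹ • P = (s^j)⁻¹ • P`;
* distinct: the stabiliser of `w₁` in the group of prime order `l` is trivial (it is not the
  whole group: the Galois group acts transitively on the places over `v`,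
  `Ideal.exists_smul_eq_of_isGaloisGroup`, and `w₂ ≠ w₁`); `s^j = 1` contradicts
  `IsCyclicOfDegree.faithful`;
* `i j`: `T6.InstSplitC` (`N (w j) = N v`: `g e f = l`, `g ≠ 1`, so `f = 1`; unramified:
  `UnramOut305`).
The same statement serves the quadratic step (`K = ℚ`, `l = 2`).
-/

set_option autoImplicit false

open AutomorphicForm IsDedekindDomain NumberField MeasureTheory
open scoped Pointwise

noncomputable section

namespace Fermat.Agent.LT.T7.H388

open Fermat.Agent.LT.H556 Fermat.Agent.LT.H556.A0 Fermat.Agent.LT.T7 Fermat.Agent.LT.T7.H305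
open Fermat.Agent.LT

variable {K K' : Type} [Field K] [NumberField K] [Field K'] [NumberField K'] [Algebra K K']

theorem coe_smulE388 (g : Gal(K'/K)) (x : 𝓞 K') : ((g • x : 𝓞 K') : K') = g (x : K') := rfl

theorem smul_algebraMapE388 (g : Gal(K'/K)) (x : 𝓞 K) (y : 𝓞 K')
    (hy : (y : K') = algebraMap K K' (x : K)) : g • y = y := by
  apply RingOfIntegers.ext
  rw [coe_smulE388, hy, AlgEquiv.commutes]

/-- The image of a place under an element of the Galois group. -/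
def smulPlace388 (g : Gal(K'/K)) (w : HeightOneSpectrum (𝓞 K')) : HeightOneSpectrum (𝓞 K') where
  asIdeal := g • w.asIdeal
  isPrime := haveI := w.isPrime; Ideal.IsPrime.smul g
  ne_bot := by
    intro h
    apply w.ne_bot
    have h2 : g⁻¹ • (g • w.asIdeal) = g⁻¹ • (⊥ : Ideal (𝓞 K')) := by rw [h]
    rw [inv_smul_smul] at h2
    rw [h2]
    exact smul_zero (A := Ideal (𝓞 K')) g⁻¹

theorem smulPlace_asIdeal388 (g : Gal(K'/K)) (w : HeightOneSpectrum (𝓞 K')) :
    (smulPlace388 g w).asIdeal = g • w.asIdeal := rfl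

theorem placeOver_smul388 {v : HeightOneSpectrum (𝓞 K)} {w : HeightOneSpectrum (𝓞 K')}
    (h : PlaceOver K K' v w) (g : Gal(K'/K)) : PlaceOver K K' v (smulPlace388 g w) := by
  intro x y hy
  rw [smulPlace_asIdeal388, Ideal.mem_pointwise_smul_iff_inv_smul_mem,
    smul_algebraMapE388 g⁻¹ x y hy]
  exact h x y hy

/-- `map e I = s • I` when the ring automorphism `e` of `𝓞 K'` is the action of `s`. -/
theorem map_eq_smul388 (e : 𝓞 K' ≃+* 𝓞 K') (s : Gal(K'/K)) (he : ∀ x : 𝓞 K', e x = s • x)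
    (I : Ideal (𝓞 K')) : Ideal.map e I = s • I := by
  ext y
  rw [Ideal.mem_pointwise_smul_iff_inv_smul_mem]
  constructor
  · intro hy
    obtain ⟨x, hx, rfl⟩ := (Ideal.mem_map_of_equiv e y).1 hy
    rw [he, inv_smul_smul]
    exact hx
  · intro hy
    refine (Ideal.mem_map_of_equiv e y).2 ⟨s⁻¹ • y, hy, ?_⟩
    rw [he, smul_inv_smul]

theorem pow_apply388 (σ : K' ≃+* K') (s : Gal(K'/K)) (hs : ∀ x : K', s x = σ x) (j : ℕ)
    (x : K') : (s ^ j) x = (σ ^ j) x := by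
  induction j generalizing x with
  | zero => rfl
  | succ j ih =>
    rw [pow_succ, pow_succ, AlgEquiv.mul_apply, RingAut.mul_apply, hs, ih]

/-- Places over `v` as primes over `v`. -/
theorem liesOver_of_placeOver388 {v : HeightOneSpectrum (𝓞 K)} {w : HeightOneSpectrum (𝓞 K')}
    (h : PlaceOver K K' v w) : w.asIdeal.LiesOver v.asIdeal := by
  rw [Ideal.liesOver_iff]
  ext x
  exact h x (algebraMap (𝓞 K) (𝓞 K') x) rfl

/-- **At a place with two places over it the residue degree is one.** -/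
theorem absNorm_split388 {l : ℕ} (hcyc : IsCycExt K K' l) {v : HeightOneSpectrum (𝓞 K)}
    {w₁ w₂ w : HeightOneSpectrum (𝓞 K')} (h₁ : PlaceOver K K' v w₁) (h₂ : PlaceOver K K' v w₂)
    (hne : w₁ ≠ w₂) (hw : PlaceOver K K' v w) :
    Ideal.absNorm w.asIdeal = Ideal.absNorm v.asIdeal := by
  haveI := hcyc.galois
  haveI : v.asIdeal.IsPrime := v.isPrime
  haveI : v.asIdeal.IsMaximal := v.isMaximal
  have hfund := Ideal.ncard_primesOver_mul_ramificationIdxIn_mul_inertiaDegIn v.asIdeal (𝓞 K')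
    Gal(K'/K)
  rw [IsGalois.card_aut_eq_finrank, hcyc.degree] at hfund
  have hdvd : (Ideal.primesOver v.asIdeal (𝓞 K')).ncard ∣ l := ⟨_, hfund.symm⟩
  have hm₁ : w₁.asIdeal ∈ Ideal.primesOver v.asIdeal (𝓞 K') :=
    ⟨w₁.isPrime, liesOver_of_placeOver388 h₁⟩
  have hm₂ : w₂.asIdeal ∈ Ideal.primesOver v.asIdeal (𝓞 K') :=
    ⟨w₂.isPrime, liesOver_of_placeOver388 h₂⟩
  have hg1 : (Ideal.primesOver v.asIdeal (𝓞 K')).ncard ≠ 1 := by
    intro h1
    obtain ⟨P₀, hP₀⟩ := Set.ncard_eq_one.mp h1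
    rw [hP₀, Set.mem_singleton_iff] at hm₁ hm₂
    exact hne (HeightOneSpectrum.ext (hm₁.trans hm₂.symm))
  have hgl : (Ideal.primesOver v.asIdeal (𝓞 K')).ncard = l :=
    ((Nat.dvd_prime hcyc.prime).mp hdvd).resolve_left hg1
  rw [hgl] at hfund
  have hef : Ideal.ramificationIdxIn v.asIdeal (𝓞 K') * Ideal.inertiaDegIn v.asIdeal (𝓞 K')
      = 1 :=
    Nat.eq_of_mul_eq_mul_left hcyc.prime.pos (by rw [hfund, mul_one])
  have hf : Ideal.inertiaDegIn v.asIdeal (𝓞 K') = 1 := Nat.eq_one_of_mul_eq_one_left hef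
  haveI : w.asIdeal.IsPrime := w.isPrime
  haveI : w.asIdeal.LiesOver v.asIdeal := liesOver_of_placeOver388 hw
  rw [Ideal.inertiaDegIn_eq_inertiaDeg v.asIdeal w.asIdeal Gal(K'/K)] at hf
  have h := Ideal.absNorm_eq_pow_inertiaDeg'_of_liesOver w.asIdeal v.asIdeal v.isPrime v.ne_bot
  rw [Ideal.inertiaDeg'_eq_inertiaDeg, hf, pow_one] at h
  exact h

/-- **No non-trivial element of the Galois group fixes a place over a place with two places
over it.** -/
theorem stab_trivial388 {l : ℕ} (hcyc : IsCycExt K K' l) {v : HeightOneSpectrum (𝓞 K)}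
    {w₁ w₂ : HeightOneSpectrum (𝓞 K')} (h₁ : PlaceOver K K' v w₁) (h₂ : PlaceOver K K' v w₂)
    (hne : w₁ ≠ w₂) (g : Gal(K'/K)) (hg : g • w₁.asIdeal = w₁.asIdeal) : g = 1 := by
  haveI := hcyc.galois
  haveI : v.asIdeal.IsPrime := v.isPrime
  haveI : v.asIdeal.IsMaximal := v.isMaximal
  haveI : w₁.asIdeal.IsPrime := w₁.isPrime
  haveI : w₂.asIdeal.IsPrime := w₂.isPrime
  haveI : w₁.asIdeal.LiesOver v.asIdeal := liesOver_of_placeOver388 h₁
  haveI : w₂.asIdeal.LiesOver v.asIdeal := liesOver_of_placeOver388 h₂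
  have hcard : Nat.card Gal(K'/K) = l := by
    rw [IsGalois.card_aut_eq_finrank, hcyc.degree]
  haveI : Fact (Nat.card Gal(K'/K)).Prime := ⟨by rw [hcard]; exact hcyc.prime⟩
  obtain ⟨τ, hτ⟩ := Ideal.exists_smul_eq_of_isGaloisGroup v.asIdeal w₁.asIdeal w₂.asIdeal
    Gal(K'/K)
  rcases Subgroup.eq_bot_or_eq_top_of_prime_card (MulAction.stabilizer Gal(K'/K) w₁.asIdeal)
    with hbot | htop
  · have hmem : g ∈ MulAction.stabilizer Gal(K'/K) w₁.asIdeal := MulAction.mem_stabilizer_iff.2 hg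
    rw [hbot] at hmem
    exact Subgroup.mem_bot.1 hmem
  · exfalso
    have hmem : τ ∈ MulAction.stabilizer Gal(K'/K) w₁.asIdeal := by rw [htop]; trivial
    have := MulAction.mem_stabilizer_iff.1 hmem
    rw [hτ] at this
    exact hne (HeightOneSpectrum.ext this.symm)

/-- **ENUM-EXISTS** (the body of `H311.EnumExistsC311`, VERBATIM). -/
theorem enumExists388 (K K' : Type) [Field K] [NumberField K] [Field K'] [NumberField K']
    [Algebra K K'] :
    T6.T6Out →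
    ∀ D : CompData K K', IsCompData D → IsCycExt K K' D.l →
      ∀ T₀ : Finset (HeightOneSpectrum (𝓞 K)), UnramOut305 (K' := K') T₀ →
      ∀ v : HeightOneSpectrum (𝓞 K), v ∉ T₀ →
        (∃ w₁ w₂ : HeightOneSpectrum (𝓞 K'),
          PlaceOver K K' v w₁ ∧ PlaceOver K K' v w₂ ∧ w₁ ≠ w₂) →
        ∃ (w : ℕ → HeightOneSpectrum (𝓞 K'))
          (i : ∀ j : ℕ, v.adicCompletion K ≃+* (w j).adicCompletion K'),
          (∀ j : ℕ, PlaceOver K K' v (w j)) ∧ (∀ j : ℕ, T5.PlaceRel D.s (w (j + 1)) (w j)) ∧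
          (∀ j : ℕ, 0 < j → j < D.l → w j ≠ w 0) ∧
          (∀ (j : ℕ) (x : K), i j (algebraMap K (v.adicCompletion K) x)
            = algebraMap K' ((w j).adicCompletion K') (algebraMap K K' x)) ∧
          (∀ (j : ℕ) (x : v.adicCompletion K), Valued.v (i j x) = Valued.v x) := by
  intro hT6 D hD hcyc T₀ hun v hv hex
  obtain ⟨w₁, w₂, h₁, h₂, hne⟩ := hex
  obtain ⟨-, -, -, -, -, -, -, hIS, -⟩ := hT6
  have hfix : ∀ y : K, D.s.σ (algebraMap K K' y) = algebraMap K K' y := fun y =>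
    (hD.cyc.fixed _).1 ((hD.base _).2 ⟨y, rfl⟩)
  obtain ⟨s, hs⟩ : ∃ s : Gal(K'/K), ∀ x : K', s x = D.s.σ x :=
    ⟨AlgEquiv.ofRingEquiv (f := D.s.σ) hfix, fun _ => rfl⟩
  have hsmul : ∀ x : 𝓞 K', RingOfIntegers.mapRingEquiv D.s.σ x = s • x := by
    intro x
    apply RingOfIntegers.ext
    rw [coe_smulE388, hs]
    rfl
  have hw : ∀ j : ℕ, PlaceOver K K' v (smulPlace388 ((s ^ j)⁻¹) w₁) :=
    fun j => placeOver_smul388 h₁ _
  have hexi : ∀ j : ℕ, ∃ i : v.adicCompletion K ≃+*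
      (smulPlace388 ((s ^ j)⁻¹) w₁).adicCompletion K',
      (∀ x : K, i (algebraMap K (v.adicCompletion K) x)
        = algebraMap K' ((smulPlace388 ((s ^ j)⁻¹) w₁).adicCompletion K')
          (algebraMap K K' x)) ∧
      ∀ x : v.adicCompletion K, Valued.v (i x) = Valued.v x :=
    fun j => hIS K K' v (smulPlace388 ((s ^ j)⁻¹) w₁) (fun x => hw j x _ rfl)
      (absNorm_split388 hcyc h₁ h₂ hne (hw j)) (hun v hv _ (hw j))
  choose i hi1 hi2 using hexi
  refine ⟨fun j => smulPlace388 ((s ^ j)⁻¹) w₁, i, hw, ?_, ?_, hi1, hi2⟩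
  · intro j
    show (smulPlace388 ((s ^ j)⁻¹) w₁).asIdeal
      = Ideal.map (RingOfIntegers.mapRingEquiv D.s.σ) (smulPlace388 ((s ^ (j + 1))⁻¹) w₁).asIdeal
    rw [map_eq_smul388 (RingOfIntegers.mapRingEquiv D.s.σ) s hsmul, smulPlace_asIdeal388,
      smulPlace_asIdeal388, smul_smul]
    congr 1
    rw [pow_succ]
    group
  · intro j hj hjl heq
    have h0 : (smulPlace388 ((s ^ j)⁻¹) w₁).asIdeal = (smulPlace388 ((s ^ 0)⁻¹) w₁).asIdeal :=
      congrArg HeightOneSpectrum.asIdeal heq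
    rw [smulPlace_asIdeal388, smulPlace_asIdeal388, pow_zero, inv_one, one_smul] at h0
    have h3 : s ^ j = 1 := inv_eq_one.1 (stab_trivial388 hcyc h₁ h₂ hne _ h0)
    obtain ⟨x, hx⟩ := hD.cyc.faithful j hj hjl
    apply hx
    rw [← pow_apply388 D.s.σ s hs j x, h3]
    rfl

/-! ## Appendix: the equation lemmas of the definition of this file are realised HERE -/

theorem eqns_realised_enum388 : True := by
  have _h1 := @smulPlace388.eq_1
  have _h2 := @smulPlace388.eq_def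
  have _h3 := @smulPlace388.eq_unfold
  trivial

end Fermat.Agent.LT.T7.H388

end

end
-- ===== PACK-END LT/T7/H388/Enum.lean

-- ===== PACK-BEGIN LT/T6/H830/ConjInv.lean
section


/-!
# Row LT, tower T6, leaf T6.20d.04 `ConjInvC` (SPARE by helper830, the author of the cut)

OFF-MAIN.  `conjInvC830 : ConjInvC`: a test function of weight `n` is invariant under the
conjugation by `SO(2)`.  Imports `HypSpec.lean` only.
-/

set_option autoImplicit false

open scoped Matrix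

noncomputable section

namespace Fermat.Agent.LT.T6.H830

open Fermat.Agent.LT.T6

/-- The matrix of the inverse of `k ∈ SO(2)` is the transpose. -/
theorem coe_inv_of_inSO2_830 (k : GL (Fin 2) ℝ) (hk : InSO2 k) :
    ((k⁻¹ : GL (Fin 2) ℝ) : Matrix (Fin 2) (Fin 2) ℝ)
      = (k : Matrix (Fin 2) (Fin 2) ℝ).transpose := by
  have h1 : ((k⁻¹ : GL (Fin 2) ℝ) : Matrix (Fin 2) (Fin 2) ℝ)
      * (k : Matrix (Fin 2) (Fin 2) ℝ) = 1 := by
    rw [← Matrix.GeneralLinearGroup.coe_mul, inv_mul_cancel]; rfl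
  calc ((k⁻¹ : GL (Fin 2) ℝ) : Matrix (Fin 2) (Fin 2) ℝ)
      = ((k⁻¹ : GL (Fin 2) ℝ) : Matrix (Fin 2) (Fin 2) ℝ) *
          ((k : Matrix (Fin 2) (Fin 2) ℝ) * (k : Matrix (Fin 2) (Fin 2) ℝ).transpose) := by
        rw [hk.1, Matrix.mul_one]
    _ = (k : Matrix (Fin 2) (Fin 2) ℝ).transpose := by
        rw [← Matrix.mul_assoc, h1, Matrix.one_mul]

/-- The inverse of an element of `SO(2)` lies in `SO(2)`. -/
theorem inSO2_inv830 (k : GL (Fin 2) ℝ) (hk : InSO2 k) : InSO2 k⁻¹ := by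
  refine ⟨?_, ?_⟩
  · rw [coe_inv_of_inSO2_830 k hk, Matrix.transpose_transpose]
    exact mul_eq_one_comm.mp hk.1
  · rw [coe_inv_of_inSO2_830 k hk, Matrix.det_transpose]
    exact hk.2

/-- `holPart k · holPart k⁻¹ = 1` for `k ∈ SO(2)`. -/
theorem holPart_mul_inv830 (k : GL (Fin 2) ℝ) (hk : InSO2 k) :
    holPart k * holPart k⁻¹ = 1 := by
  have hinv := coe_inv_of_inSO2_830 k hk
  obtain ⟨h1, h2⟩ := hk
  have e00 := congrFun (congrFun h1 0) 0
  have e11 := congrFun (congrFun h1 1) 1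
  simp only [Matrix.mul_apply, Fin.sum_univ_two, Matrix.transpose_apply, Matrix.one_apply_eq]
    at e00 e11
  rw [Matrix.det_fin_two] at h2
  unfold holPart
  rw [hinv]
  simp only [Matrix.transpose_apply]
  set a := (k : Matrix (Fin 2) (Fin 2) ℝ) 0 0
  set b := (k : Matrix (Fin 2) (Fin 2) ℝ) 0 1
  set c := (k : Matrix (Fin 2) (Fin 2) ℝ) 1 0
  set d := (k : Matrix (Fin 2) (Fin 2) ℝ) 1 1
  have key : (a + d) ^ 2 + (c - b) ^ 2 = 4 := by nlinarith
  have keyC : ((a : ℂ) + d) ^ 2 + ((c : ℂ) - b) ^ 2 = 4 := by exact_mod_cast key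
  have hI : Complex.I ^ 2 = -1 := Complex.I_sq
  push_cast
  linear_combination (1 / 4 : ℂ) * keyC - (1 / 4 : ℂ) * ((c : ℂ) - b) ^ 2 * hI

/-- **T6.20d.04 CONJ-INV.** -/
theorem conjInvC830 : ConjInvC := by
  intro n f hf k g hk
  have hk' := inSO2_inv830 k hk
  rw [hf.right k (k⁻¹ * g) hk, hf.left k⁻¹ g hk', ← mul_assoc, ← mul_inv]
  have h1 : wtChar n k * wtChar n k⁻¹ = 1 := by
    unfold wtChar
    rw [← mul_zpow, holPart_mul_inv830 k hk, one_zpow]
  rw [h1, inv_one, one_mul]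

end Fermat.Agent.LT.T6.H830

end

end
-- ===== PACK-END LT/T6/H830/ConjInv.lean

-- ===== PACK-BEGIN LT/T6/H830/ConvHC.lean
section






/-!
# Row LT, tower T6, asset ARCH-CONV (helper830): the Harish-Chandra transform of a convolution

OFF-MAIN.  Complete proofs, nothing assumed.

    hcR_conv830 : IwasawaIntRC → ∀ μ Haar, ∃ c > 0, ∀ n F₁ F₂, IsArchTestR n F₁ → IsArchTestR n F₂ →
      ∀ ζ r, hcR (convInt μ F₁ F₂) ζ r = c ∫∫ hcR F₁ a b · hcR F₂ (ζ - a) (r - b) da db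
    hcC_conv830 : IwasawaIntCC → the same on `GL₂(ℂ)` (bi-`U(2)`-invariant test functions)

Proof.  The integrand `h ↦ F₁(h) F₂(h⁻¹ g)` is right `K`-invariant: Iwasawa integration formula;
`(bR a b y)⁻¹ bR ζ r x = bR (ζ - a) (r - b) (x - e^{-(r-b)} y)`; Fubini (`iterConv830`).
-/

set_option autoImplicit false
set_option linter.unusedSimpArgs false
set_option linter.unusedSectionVars false

open scoped Matrix
open MeasureTheory

noncomputable section

namespace Fermat.Agent.LT.T6.H830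

open Fermat.Agent.LT.T6

/-! ## 1. The group law of the Borel subgroup in the coordinates -/

theorem bR_mul830 (a b y ζ r x : ℝ) :
    bR a b y * bR (ζ - a) (r - b) (x - Real.exp (-(r - b)) * y) = bR ζ r x := by
  apply Units.ext
  rw [Units.val_mul]
  show ((bR a b y : GL (Fin 2) ℝ) : Matrix (Fin 2) (Fin 2) ℝ)
      * ((bR (ζ - a) (r - b) (x - Real.exp (-(r - b)) * y) : GL (Fin 2) ℝ) :
        Matrix (Fin 2) (Fin 2) ℝ) = ((bR ζ r x : GL (Fin 2) ℝ) : Matrix (Fin 2) (Fin 2) ℝ)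
  simp only [coe_bR830]
  have e1 : Real.exp ((a + b) / 2) * Real.exp ((ζ - a + (r - b)) / 2)
      = Real.exp ((ζ + r) / 2) := by
    rw [← Real.exp_add]; congr 1; ring
  have e2 : Real.exp ((a - b) / 2) * Real.exp ((ζ - a - (r - b)) / 2)
      = Real.exp ((ζ - r) / 2) := by
    rw [← Real.exp_add]; congr 1; ring
  have e3 : Real.exp ((a + b) / 2) * Real.exp ((ζ - a - (r - b)) / 2)
      = Real.exp ((ζ + r) / 2) * Real.exp (-(r - b)) := by
    rw [← Real.exp_add, ← Real.exp_add]; congr 1; ring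
  ext i j
  fin_cases i <;> fin_cases j
  · simp [Matrix.mul_apply, Fin.sum_univ_two, e1]
  · simp only [Matrix.mul_apply, Fin.sum_univ_two, Matrix.of_apply, Matrix.cons_val',
      Matrix.cons_val_zero, Matrix.cons_val_one, Matrix.cons_val_fin_one, Fin.zero_eta,
      Fin.mk_one]
    linear_combination (x - Real.exp (-(r - b)) * y) * e1 + y * e3
  · simp [Matrix.mul_apply, Fin.sum_univ_two]
  · simp [Matrix.mul_apply, Fin.sum_univ_two, e2]

theorem bR_inv_mul830 (a b y ζ r x : ℝ) :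
    (bR a b y)⁻¹ * bR ζ r x = bR (ζ - a) (r - b) (x - Real.exp (-(r - b)) * y) := by
  rw [inv_mul_eq_iff_eq_mul, bR_mul830]

theorem bC_mul830 (a b : ℝ) (y : ℂ) (ζ r : ℝ) (x : ℂ) :
    bC a b y * bC (ζ - a) (r - b) (x - Real.exp (-(r - b)) • y) = bC ζ r x := by
  apply Units.ext
  rw [Units.val_mul]
  show ((bC a b y : GL (Fin 2) ℂ) : Matrix (Fin 2) (Fin 2) ℂ)
      * ((bC (ζ - a) (r - b) (x - Real.exp (-(r - b)) • y) : GL (Fin 2) ℂ) :
        Matrix (Fin 2) (Fin 2) ℂ) = ((bC ζ r x : GL (Fin 2) ℂ) : Matrix (Fin 2) (Fin 2) ℂ)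
  simp only [coe_bC830, Complex.real_smul]
  have e1 : ((Real.exp ((a + b) / 2) : ℝ) : ℂ) * ((Real.exp ((ζ - a + (r - b)) / 2) : ℝ) : ℂ)
      = ((Real.exp ((ζ + r) / 2) : ℝ) : ℂ) := by
    rw [← Complex.ofReal_mul, ← Real.exp_add]; congr 2; ring
  have e2 : ((Real.exp ((a - b) / 2) : ℝ) : ℂ) * ((Real.exp ((ζ - a - (r - b)) / 2) : ℝ) : ℂ)
      = ((Real.exp ((ζ - r) / 2) : ℝ) : ℂ) := by
    rw [← Complex.ofReal_mul, ← Real.exp_add]; congr 2; ring
  have e3 : ((Real.exp ((a + b) / 2) : ℝ) : ℂ) * ((Real.exp ((ζ - a - (r - b)) / 2) : ℝ) : ℂ)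
      = ((Real.exp ((ζ + r) / 2) : ℝ) : ℂ) * ((Real.exp (-(r - b)) : ℝ) : ℂ) := by
    rw [← Complex.ofReal_mul, ← Complex.ofReal_mul, ← Real.exp_add, ← Real.exp_add]
    congr 2; ring
  ext i j
  fin_cases i <;> fin_cases j
  · simp only [Matrix.mul_apply, Fin.sum_univ_two, Matrix.of_apply, Matrix.cons_val',
      Matrix.cons_val_zero, Matrix.cons_val_one, Matrix.cons_val_fin_one, Fin.zero_eta,
      Fin.mk_one]
    linear_combination e1
  · simp only [Matrix.mul_apply, Fin.sum_univ_two, Matrix.of_apply, Matrix.cons_val',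
      Matrix.cons_val_zero, Matrix.cons_val_one, Matrix.cons_val_fin_one, Fin.zero_eta,
      Fin.mk_one]
    linear_combination (x - ((Real.exp (-(r - b)) : ℝ) : ℂ) * y) * e1 + y * e3
  · simp only [Matrix.mul_apply, Fin.sum_univ_two, Matrix.of_apply, Matrix.cons_val',
      Matrix.cons_val_zero, Matrix.cons_val_one, Matrix.cons_val_fin_one, Fin.zero_eta,
      Fin.mk_one]
    ring
  · simp only [Matrix.mul_apply, Fin.sum_univ_two, Matrix.of_apply, Matrix.cons_val',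
      Matrix.cons_val_zero, Matrix.cons_val_one, Matrix.cons_val_fin_one, Fin.zero_eta,
      Fin.mk_one]
    linear_combination e2

theorem bC_inv_mul830 (a b : ℝ) (y : ℂ) (ζ r : ℝ) (x : ℂ) :
    (bC a b y)⁻¹ * bC ζ r x = bC (ζ - a) (r - b) (x - Real.exp (-(r - b)) • y) := by
  rw [inv_mul_eq_iff_eq_mul, bC_mul830]

/-! ## 2. The real place -/

theorem wtChar_inv830 (n : ℤ) (k : GL (Fin 2) ℝ) (hk : InSO2 k) :
    wtChar n k⁻¹ = (wtChar n k)⁻¹ := by
  have h1 : wtChar n k * wtChar n k⁻¹ = 1 := by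
    unfold wtChar
    rw [← mul_zpow, holPart_mul_inv830 k hk, one_zpow]
  exact eq_inv_of_mul_eq_one_right h1

theorem wtChar_ne_zero830 (n : ℤ) (k : GL (Fin 2) ℝ) (hk : InSO2 k) : wtChar n k ≠ 0 := by
  have h1 : wtChar n k * wtChar n k⁻¹ = 1 := by
    unfold wtChar
    rw [← mul_zpow, holPart_mul_inv830 k hk, one_zpow]
  exact left_ne_zero_of_mul_eq_one h1

/-- The integrand of the convolution of two functions of weight `n` is right invariant. -/
theorem conv_integrand_right830 {n : ℤ} {F₁ F₂ : GL (Fin 2) ℝ → ℂ}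
    (h₁ : IsArchTestR n F₁) (h₂ : IsArchTestR n F₂) (g k h : GL (Fin 2) ℝ) (hk : InSO2 k) :
    F₁ (h * k) * F₂ ((h * k)⁻¹ * g) = F₁ h * F₂ (h⁻¹ * g) := by
  have e : (h * k)⁻¹ * g = k⁻¹ * (h⁻¹ * g) := by group
  rw [e, h₁.right k h hk, h₂.left k⁻¹ (h⁻¹ * g) (inSO2_inv830 k hk),
    wtChar_inv830 n k hk, inv_inv]
  have := wtChar_ne_zero830 n k hk
  field_simp

/-- The Iwasawa formula for the convolution of two test functions of weight `n`. -/
theorem conv_iwasawa830 {μ : @Measure (GL (Fin 2) ℝ) (borel _)} {c : ℝ}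
    (hI : ∀ F : GL (Fin 2) ℝ → ℂ, Continuous F → HasCompactSupport F →
      (∀ g : GL (Fin 2) ℝ, F g ≠ 0 → 0 < (g : Matrix (Fin 2) (Fin 2) ℝ).det) →
      (∀ k g : GL (Fin 2) ℝ, InSO2 k → F (g * k) = F g) →
      @integral _ _ _ _ (borel _) μ F = (c : ℂ) * ∫ ζ : ℝ, ∫ r : ℝ, ∫ x : ℝ, F (bR ζ r x))
    {n : ℤ} {F₁ F₂ : GL (Fin 2) ℝ → ℂ} (h₁ : IsArchTestR n F₁) (h₂ : IsArchTestR n F₂)
    (g : GL (Fin 2) ℝ) :
    @convInt _ _ (borel _) μ F₁ F₂ g
      = (c : ℂ) * ∫ a : ℝ, ∫ b : ℝ, ∫ y : ℝ, F₁ (bR a b y) * F₂ ((bR a b y)⁻¹ * g) := by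
  unfold convInt
  refine hI (fun h => F₁ h * F₂ (h⁻¹ * g)) ?_ ?_ ?_ ?_
  · exact h₁.cont.mul (h₂.cont.comp (continuous_inv.mul continuous_const))
  · exact h₁.supp.mul_right
  · intro h hh
    exact h₁.pos h (left_ne_zero_of_mul hh)
  · intro k h hk
    exact conv_integrand_right830 h₁ h₂ g k h hk

/-- **ARCH-CONV, L1**: the Harish-Chandra transform of the convolution on `GL₂(ℝ)`. -/
theorem hcR_conv830 (hIR : IwasawaIntRC) (μ : @Measure (GL (Fin 2) ℝ) (borel _))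
    (hμ : @Measure.IsHaarMeasure _ _ _ (borel _) μ) :
    ∃ c : ℝ, 0 < c ∧ ∀ (n : ℤ) (F₁ F₂ : GL (Fin 2) ℝ → ℂ), IsArchTestR n F₁ →
      IsArchTestR n F₂ → ∀ ζ r : ℝ,
        hcR (@convInt _ _ (borel _) μ F₁ F₂) ζ r
          = (c : ℂ) * ∫ a : ℝ, ∫ b : ℝ, hcR F₁ a b * hcR F₂ (ζ - a) (r - b) := by
  obtain ⟨c, hc, hI⟩ := hIR μ hμ
  refine ⟨c, hc, fun n F₁ F₂ h₁ h₂ ζ r => ?_⟩
  unfold hcR
  have e : ∀ x : ℝ, @convInt _ _ (borel _) μ F₁ F₂ (bR ζ r x)
      = (c : ℂ) * ∫ a : ℝ, ∫ b : ℝ, ∫ y : ℝ,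
          F₁ (bR a b y) * F₂ (bR (ζ - a) (r - b) (x - Real.exp (-(r - b)) • y)) := by
    intro x
    rw [conv_iwasawa830 hI h₁ h₂]
    simp only [bR_inv_mul830, smul_eq_mul]
  simp only [e]
  rw [integral_const_mul]
  congr 1
  exact iterConv830 (X := ℝ) (fun a b y => F₁ (bR a b y)) (fun a b y => F₂ (bR a b y))
    (h₁.cont.comp H372.continuous_bR372) (h₂.cont.comp H372.continuous_bR372)
    (H372.bR_bounds372 h₁.supp) (H372.bR_bounds372 h₂.supp) ζ r

/-! ## 3. The complex place -/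

/-- `(ζ, r, w) ↦ bC ζ r w` is continuous. -/
theorem continuous_bC830 : Continuous fun p : ℝ × ℝ × ℂ => bC p.1 p.2.1 p.2.2 := by
  apply continuous_toGL830
  simp only [coe_bC830]
  refine continuous_matrix fun i j => ?_
  fin_cases i <;> fin_cases j <;> simp <;> fun_prop

theorem det_bC830 (ζ r : ℝ) (w : ℂ) :
    ((bC ζ r w : GL (Fin 2) ℂ) : Matrix (Fin 2) (Fin 2) ℂ).det = ((Real.exp ζ : ℝ) : ℂ) := by
  rw [coe_bC830, Matrix.det_fin_two_of, mul_zero, sub_zero, ← Complex.ofReal_mul,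
    ← Real.exp_add]
  congr 2
  ring

/-- The coordinates `(ζ, r, w)` are bounded on the support of a compactly supported function. -/
theorem bC_bounds830 {f : GL (Fin 2) ℂ → ℂ} (hc : HasCompactSupport f) :
    BddSupp830 (fun a b y => f (bC a b y)) := by
  have hval : Continuous fun g : GL (Fin 2) ℂ => (g : Matrix (Fin 2) (Fin 2) ℂ) :=
    Units.continuous_val
  have hinv : Continuous fun g : GL (Fin 2) ℂ =>
      ((g⁻¹ : GL (Fin 2) ℂ) : Matrix (Fin 2) (Fin 2) ℂ) :=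
    Units.continuous_val.comp continuous_inv
  obtain ⟨C1, h1⟩ := hc.isCompact.exists_bound_of_continuousOn
    (f := fun g : GL (Fin 2) ℂ => (g : Matrix (Fin 2) (Fin 2) ℂ).det)
    hval.matrix_det.continuousOn
  obtain ⟨C2, h2⟩ := hc.isCompact.exists_bound_of_continuousOn
    (f := fun g : GL (Fin 2) ℂ => ((g⁻¹ : GL (Fin 2) ℂ) : Matrix (Fin 2) (Fin 2) ℂ).det)
    hinv.matrix_det.continuousOn
  obtain ⟨C3, h3⟩ := hc.isCompact.exists_bound_of_continuousOn
    (f := fun g : GL (Fin 2) ℂ => (g : Matrix (Fin 2) (Fin 2) ℂ) 0 0)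
    (hval.matrix_elem 0 0).continuousOn
  obtain ⟨C4, h4⟩ := hc.isCompact.exists_bound_of_continuousOn
    (f := fun g : GL (Fin 2) ℂ => (g : Matrix (Fin 2) (Fin 2) ℂ) 1 1)
    (hval.matrix_elem 1 1).continuousOn
  obtain ⟨C5, h5⟩ := hc.isCompact.exists_bound_of_continuousOn
    (f := fun g : GL (Fin 2) ℂ => (g : Matrix (Fin 2) (Fin 2) ℂ) 0 1)
    (hval.matrix_elem 0 1).continuousOn
  set C : ℝ := max 1 (max C1 (max C2 (max C3 (max C4 C5)))) with hC
  have hC1 : 1 ≤ C := le_max_left _ _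
  have hCpos : 0 < C := lt_of_lt_of_le one_pos hC1
  have hlog : 0 ≤ Real.log C := Real.log_nonneg hC1
  have hle1 : C1 ≤ C := le_trans (le_max_left _ _) (le_max_right _ _)
  have hle2 : C2 ≤ C :=
    le_trans (le_trans (le_max_left _ _) (le_max_right _ _)) (le_max_right _ _)
  have hle3 : C3 ≤ C :=
    le_trans (le_trans (le_trans (le_max_left _ _) (le_max_right _ _)) (le_max_right _ _))
      (le_max_right _ _)
  have hle4 : C4 ≤ C :=
    le_trans (le_trans (le_trans (le_trans (le_max_left _ _) (le_max_right _ _))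
      (le_max_right _ _)) (le_max_right _ _)) (le_max_right _ _)
  have hle5 : C5 ≤ C :=
    le_trans (le_trans (le_trans (le_trans (le_max_right _ _) (le_max_right _ _))
      (le_max_right _ _)) (le_max_right _ _)) (le_max_right _ _)
  refine ⟨3 * Real.log C + C ^ 3, fun ζ r x hne => ?_⟩
  have hmem : bC ζ r x ∈ tsupport f := subset_tsupport f hne
  have nexp : ∀ t : ℝ, ‖((Real.exp t : ℝ) : ℂ)‖ = Real.exp t := fun t => by
    rw [Complex.norm_real, Real.norm_eq_abs, abs_of_pos (Real.exp_pos t)]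
  -- the five bounds
  have b1 : Real.exp ζ ≤ C := by
    have h := h1 _ hmem
    simp only [det_bC830, nexp] at h
    exact h.trans hle1
  have b2 : Real.exp (-ζ) ≤ C := by
    have h := h2 _ hmem
    simp only [Matrix.coe_units_inv, Matrix.det_nonsing_inv, det_bC830, Ring.inverse_eq_inv',
      norm_inv, nexp, ← Real.exp_neg] at h
    exact h.trans hle2
  have b3 : Real.exp ((ζ + r) / 2) ≤ C := by
    have h := h3 _ hmem
    simp only [coe_bC830, Matrix.of_apply, Matrix.cons_val', Matrix.cons_val_zero, nexp] at h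
    exact h.trans hle3
  have b4 : Real.exp ((ζ - r) / 2) ≤ C := by
    have h := h4 _ hmem
    simp only [coe_bC830, Matrix.of_apply, Matrix.cons_val', Matrix.cons_val_one,
      Matrix.cons_val_fin_one, nexp] at h
    exact h.trans hle4
  have b5 : Real.exp ((ζ + r) / 2) * ‖x‖ ≤ C := by
    have h := h5 _ hmem
    simp only [coe_bC830, Matrix.of_apply, Matrix.cons_val', Matrix.cons_val_zero,
      Matrix.cons_val_one, norm_mul, nexp] at h
    exact h.trans hle5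
  have l1 : ζ ≤ Real.log C := (Real.le_log_iff_exp_le hCpos).mpr b1
  have l2 : -ζ ≤ Real.log C := (Real.le_log_iff_exp_le hCpos).mpr b2
  have l3 : (ζ + r) / 2 ≤ Real.log C := (Real.le_log_iff_exp_le hCpos).mpr b3
  have l4 : (ζ - r) / 2 ≤ Real.log C := (Real.le_log_iff_exp_le hCpos).mpr b4
  have hC3 : 0 ≤ C ^ 3 := by positivity
  refine ⟨abs_le.mpr ⟨by linarith, by linarith⟩, abs_le.mpr ⟨by linarith, by linarith⟩, ?_⟩
  have hx : ‖x‖ = Real.exp (-ζ) * Real.exp ((ζ - r) / 2) * (Real.exp ((ζ + r) / 2) * ‖x‖) := by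
    rw [← mul_assoc, ← Real.exp_add, ← Real.exp_add]
    have : -ζ + (ζ - r) / 2 + (ζ + r) / 2 = 0 := by ring
    rw [this, Real.exp_zero, one_mul]
  have hx2 : ‖x‖ ≤ C ^ 3 := by
    rw [hx]
    calc Real.exp (-ζ) * Real.exp ((ζ - r) / 2) * (Real.exp ((ζ + r) / 2) * ‖x‖)
        ≤ C * C * C := by
          apply mul_le_mul (mul_le_mul b2 b4 (Real.exp_pos _).le hCpos.le) b5
            (mul_nonneg (Real.exp_pos _).le (norm_nonneg _)) (mul_nonneg hCpos.le hCpos.le)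
      _ = C ^ 3 := by ring
  linarith

theorem bR_bddSupp830 {f : GL (Fin 2) ℝ → ℂ} (hc : HasCompactSupport f) :
    BddSupp830 (fun a b y => f (bR a b y)) := by
  obtain ⟨B, hB⟩ := H372.bR_bounds372 hc
  exact ⟨B, fun a b y h => by simpa using hB a b y h⟩

/-- The inverse of an element of `U(2)` lies in `U(2)`. -/
theorem inU2_inv830 (k : GL (Fin 2) ℂ) (hk : InU2 k) : InU2 k⁻¹ := by
  unfold InU2 at hk ⊢
  have h1 : ((k⁻¹ : GL (Fin 2) ℂ) : Matrix (Fin 2) (Fin 2) ℂ)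
      * (k : Matrix (Fin 2) (Fin 2) ℂ) = 1 := by
    rw [← Matrix.GeneralLinearGroup.coe_mul, inv_mul_cancel]; rfl
  have h2 : ((k⁻¹ : GL (Fin 2) ℂ) : Matrix (Fin 2) (Fin 2) ℂ)
      = (k : Matrix (Fin 2) (Fin 2) ℂ).conjTranspose := by
    calc ((k⁻¹ : GL (Fin 2) ℂ) : Matrix (Fin 2) (Fin 2) ℂ)
        = ((k⁻¹ : GL (Fin 2) ℂ) : Matrix (Fin 2) (Fin 2) ℂ) *
            ((k : Matrix (Fin 2) (Fin 2) ℂ) * (k : Matrix (Fin 2) (Fin 2) ℂ).conjTranspose) := by
          rw [hk, Matrix.mul_one]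
      _ = (k : Matrix (Fin 2) (Fin 2) ℂ).conjTranspose := by
          rw [← Matrix.mul_assoc, h1, Matrix.one_mul]
  rw [h2, Matrix.conjTranspose_conjTranspose]
  exact mul_eq_one_comm.mp hk

/-- The Iwasawa formula for the convolution of two bi-invariant test functions. -/
theorem conv_iwasawaC830 {μ : @Measure (GL (Fin 2) ℂ) (borel _)} {c : ℝ}
    (hI : ∀ F : GL (Fin 2) ℂ → ℂ, Continuous F → HasCompactSupport F →
      (∀ k g : GL (Fin 2) ℂ, InU2 k → F (g * k) = F g) →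
      @integral _ _ _ _ (borel _) μ F = (c : ℂ) * ∫ ζ : ℝ, ∫ r : ℝ, ∫ w : ℂ, F (bC ζ r w))
    {Φ₁ Φ₂ : GL (Fin 2) ℂ → ℂ} (h₁ : IsArchTestC Φ₁) (h₂ : IsArchTestC Φ₂)
    (g : GL (Fin 2) ℂ) :
    @convInt _ _ (borel _) μ Φ₁ Φ₂ g
      = (c : ℂ) * ∫ a : ℝ, ∫ b : ℝ, ∫ y : ℂ, Φ₁ (bC a b y) * Φ₂ ((bC a b y)⁻¹ * g) := by
  unfold convInt
  refine hI (fun h => Φ₁ h * Φ₂ (h⁻¹ * g)) ?_ ?_ ?_
  · exact h₁.cont.mul (h₂.cont.comp (continuous_inv.mul continuous_const))
  · exact h₁.supp.mul_right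
  · intro k h hk
    have e : (h * k)⁻¹ * g = k⁻¹ * (h⁻¹ * g) := by group
    show Φ₁ (h * k) * Φ₂ ((h * k)⁻¹ * g) = Φ₁ h * Φ₂ (h⁻¹ * g)
    rw [e, h₁.right k h hk, h₂.left k⁻¹ (h⁻¹ * g) (inU2_inv830 k hk)]

/-- **ARCH-CONV, L2**: the Harish-Chandra transform of the convolution on `GL₂(ℂ)`. -/
theorem hcC_conv830 (hIC : IwasawaIntCC) (μ : @Measure (GL (Fin 2) ℂ) (borel _))
    (hμ : @Measure.IsHaarMeasure _ _ _ (borel _) μ) :
    ∃ c : ℝ, 0 < c ∧ ∀ (Φ₁ Φ₂ : GL (Fin 2) ℂ → ℂ), IsArchTestC Φ₁ →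
      IsArchTestC Φ₂ → ∀ ζ r : ℝ,
        hcC (@convInt _ _ (borel _) μ Φ₁ Φ₂) ζ r
          = (c : ℂ) * ∫ a : ℝ, ∫ b : ℝ, hcC Φ₁ a b * hcC Φ₂ (ζ - a) (r - b) := by
  obtain ⟨c, hc, hI⟩ := hIC μ hμ
  refine ⟨c, hc, fun Φ₁ Φ₂ h₁ h₂ ζ r => ?_⟩
  unfold hcC
  have e : ∀ x : ℂ, @convInt _ _ (borel _) μ Φ₁ Φ₂ (bC ζ r x)
      = (c : ℂ) * ∫ a : ℝ, ∫ b : ℝ, ∫ y : ℂ,
          Φ₁ (bC a b y) * Φ₂ (bC (ζ - a) (r - b) (x - Real.exp (-(r - b)) • y)) := by
    intro x
    rw [conv_iwasawaC830 hI h₁ h₂]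
    simp only [bC_inv_mul830]
  simp only [e]
  rw [integral_const_mul]
  congr 1
  exact iterConv830 (X := ℂ) (fun a b y => Φ₁ (bC a b y)) (fun a b y => Φ₂ (bC a b y))
    (h₁.cont.comp continuous_bC830) (h₂.cont.comp continuous_bC830)
    (bC_bounds830 h₁.supp) (bC_bounds830 h₂.supp) ζ r

end Fermat.Agent.LT.T6.H830

end

end
-- ===== PACK-END LT/T6/H830/ConvHC.lean

-- ===== PACK-BEGIN LT/T6/H830/ConvAbel.lean
section



/-!
# Row LT, tower T6, asset ARCH-CONV (helper830): the Abel relation is multiplicative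

OFF-MAIN.  Complete proofs, nothing assumed.

    abelRel_iff_hc830 : IsAbelRel626 c φ f₀ f₁ ↔
        ∀ ζ r, hcR f₀ (2ζ) (2r) = c · hcC φ ζ r ∧ hcR f₁ (2ζ) (2r) = c · hcC φ ζ r
    abelRel_conv830 : IwasawaIntRC → IwasawaIntCC → ∀ μ μ' Haar, ∃ lam > 0, ∀ c c' n …,
        IsAbelRel626 c Φ₁ F₁ G₁ → IsAbelRel626 c' Φ₂ F₂ G₂ →
        IsAbelRel626 (lam · c · c') (Φ₁ ⋆ Φ₂) (F₁ ⋆ F₂) (G₁ ⋆ G₂)

(`lam = 4 c_I / c_I'`, the constants of the Iwasawa integration formulas of `μ`, `μ'`.)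
-/

set_option autoImplicit false
set_option linter.unusedSimpArgs false

open scoped Matrix
open MeasureTheory

noncomputable section

namespace Fermat.Agent.LT.T6.H830

open Fermat.Agent.LT.T6 Fermat.Agent.LT.T6.H626

/-- The Abel relation in the coordinates of the Harish-Chandra transforms. -/
theorem abelRel_of_hc830 {c : ℂ} {φ : GL (Fin 2) ℂ → ℂ} {f₀ f₁ : GL (Fin 2) ℝ → ℂ}
    (h : ∀ ζ r : ℝ, hcR f₀ (2 * ζ) (2 * r) = c * hcC φ ζ r ∧
      hcR f₁ (2 * ζ) (2 * r) = c * hcC φ ζ r) : IsAbelRel626 c φ f₀ f₁ := by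
  intro a b ha hb u u' hu hu'
  set ζ : ℝ := (Real.log a + Real.log b) / 2 with hζ
  set r : ℝ := (Real.log a - Real.log b) / 2 with hr
  have e1 : (2 * ζ + 2 * r) / 2 = Real.log a := by rw [hζ, hr]; ring
  have e2 : (2 * ζ - 2 * r) / 2 = Real.log b := by rw [hζ, hr]; ring
  have e3 : (ζ + r) / 2 = Real.log a / 2 := by rw [hζ, hr]; ring
  have e4 : (ζ - r) / 2 = Real.log b / 2 := by rw [hζ, hr]; ring
  have hsq : ∀ t : ℝ, 0 < t → Real.sqrt t = Real.exp (Real.log t / 2) := by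
    intro t ht
    rw [Real.sqrt_eq_iff_mul_self_eq ht.le (Real.exp_pos _).le, ← Real.exp_add]
    have : Real.log t / 2 + Real.log t / 2 = Real.log t := by ring
    rw [this, Real.exp_log ht]
  have hux : ∀ x : ℝ, u x = bR (2 * ζ) (2 * r) x := by
    intro x
    apply Units.ext
    show ((u x : GL (Fin 2) ℝ) : Matrix (Fin 2) (Fin 2) ℝ)
      = ((bR (2 * ζ) (2 * r) x : GL (Fin 2) ℝ) : Matrix (Fin 2) (Fin 2) ℝ)
    rw [hu x, coe_bR830, e1, e2, Real.exp_log ha, Real.exp_log hb]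
  have hu'w : ∀ w : ℂ, u' w = bC ζ r w := by
    intro w
    apply Units.ext
    show ((u' w : GL (Fin 2) ℂ) : Matrix (Fin 2) (Fin 2) ℂ)
      = ((bC ζ r w : GL (Fin 2) ℂ) : Matrix (Fin 2) (Fin 2) ℂ)
    rw [hu' w, coe_bC830, e3, e4, hsq a ha, hsq b hb]
  have h0 := h ζ r
  unfold hcR hcC at h0
  simp only [hux, hu'w]
  exact h0

theorem abelRel_iff_hc830 {c : ℂ} {φ : GL (Fin 2) ℂ → ℂ} {f₀ f₁ : GL (Fin 2) ℝ → ℂ} :
    IsAbelRel626 c φ f₀ f₁ ↔ ∀ ζ r : ℝ, hcR f₀ (2 * ζ) (2 * r) = c * hcC φ ζ r ∧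
      hcR f₁ (2 * ζ) (2 * r) = c * hcC φ ζ r :=
  ⟨fun h ζ r => hc_of_abelRel830 h ζ r, abelRel_of_hc830⟩

/-- Substitution `a = 2u`, `b = 2v` in a double integral. -/
theorem integral_double830 (Ψ : ℝ → ℝ → ℂ) :
    ∫ a : ℝ, ∫ b : ℝ, Ψ (a / 2) (b / 2) = 4 * ∫ u : ℝ, ∫ v : ℝ, Ψ u v := by
  have h1 : ∀ g : ℝ → ℂ, ∫ x : ℝ, g (x / 2) = 2 * ∫ y : ℝ, g y := by
    intro g
    have := Measure.integral_comp_mul_left g (2⁻¹ : ℝ)
    simp only [inv_inv, abs_two] at this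
    have e : (fun x : ℝ => g (x / 2)) = fun x : ℝ => g (2⁻¹ * x) := by
      funext x
      congr 1
      ring
    rw [e, this]
    rw [Complex.real_smul]
    norm_num
  have h2 : ∀ a : ℝ, ∫ b : ℝ, Ψ (a / 2) (b / 2) = 2 * ∫ v : ℝ, Ψ (a / 2) v :=
    fun a => h1 (fun v => Ψ (a / 2) v)
  simp only [h2]
  rw [integral_const_mul, h1 (fun u => ∫ v : ℝ, Ψ u v)]
  ring

/-- One half of the product relation. -/
theorem hc_conv_rel830 {cR cC : ℝ} (hcC0 : cC ≠ 0) {c c' : ℂ}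
    {Φ₁ Φ₂ ΦP : GL (Fin 2) ℂ → ℂ} {F₁ F₂ FP : GL (Fin 2) ℝ → ℂ}
    (hR : ∀ ζ r : ℝ, hcR FP ζ r
      = (cR : ℂ) * ∫ a : ℝ, ∫ b : ℝ, hcR F₁ a b * hcR F₂ (ζ - a) (r - b))
    (hC : ∀ ζ r : ℝ, hcC ΦP ζ r
      = (cC : ℂ) * ∫ a : ℝ, ∫ b : ℝ, hcC Φ₁ a b * hcC Φ₂ (ζ - a) (r - b))
    (h₁ : ∀ ζ r : ℝ, hcR F₁ (2 * ζ) (2 * r) = c * hcC Φ₁ ζ r)
    (h₂ : ∀ ζ r : ℝ, hcR F₂ (2 * ζ) (2 * r) = c' * hcC Φ₂ ζ r) (ζ r : ℝ) :
    hcR FP (2 * ζ) (2 * r) = ((4 * cR / cC : ℝ) : ℂ) * c * c' * hcC ΦP ζ r := by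
  rw [hR, hC]
  have e : ∀ a b : ℝ, hcR F₁ a b * hcR F₂ (2 * ζ - a) (2 * r - b)
      = (c * c') * (hcC Φ₁ (a / 2) (b / 2) * hcC Φ₂ (ζ - a / 2) (r - b / 2)) := by
    intro a b
    have ea : a = 2 * (a / 2) := by ring
    have eb : b = 2 * (b / 2) := by ring
    have ea' : 2 * ζ - a = 2 * (ζ - a / 2) := by ring
    have eb' : 2 * r - b = 2 * (r - b / 2) := by ring
    rw [ea', eb']
    conv_lhs => rw [ea, eb]
    rw [h₁, h₂]
    have ea2 : 2 * (a / 2) / 2 = a / 2 := by ring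
    have eb2 : 2 * (b / 2) / 2 = b / 2 := by ring
    rw [ea2, eb2]
    ring
  simp only [e]
  have e2 : ∀ a : ℝ, ∫ b : ℝ, c * c' * (hcC Φ₁ (a / 2) (b / 2) * hcC Φ₂ (ζ - a / 2) (r - b / 2))
      = c * c' * ∫ b : ℝ, hcC Φ₁ (a / 2) (b / 2) * hcC Φ₂ (ζ - a / 2) (r - b / 2) :=
    fun a => integral_const_mul _ _
  simp only [e2]
  rw [integral_const_mul,
    integral_double830 (fun u v => hcC Φ₁ u v * hcC Φ₂ (ζ - u) (r - v))]
  have hcC0' : (cC : ℂ) ≠ 0 := Complex.ofReal_ne_zero.2 hcC0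
  push_cast
  field_simp

/-- **ARCH-CONV, the relation**: the Abel relation is multiplicative for the convolution. -/
theorem abelRel_conv830 (hIR : IwasawaIntRC) (hIC : IwasawaIntCC)
    (μ : @Measure (GL (Fin 2) ℝ) (borel _)) (μ' : @Measure (GL (Fin 2) ℂ) (borel _))
    (hμ : @Measure.IsHaarMeasure _ _ _ (borel _) μ)
    (hμ' : @Measure.IsHaarMeasure _ _ _ (borel _) μ') :
    ∃ lam : ℝ, 0 < lam ∧
      ∀ (c c' : ℂ) (n : ℤ) (Φ₁ Φ₂ : GL (Fin 2) ℂ → ℂ) (F₁ F₂ G₁ G₂ : GL (Fin 2) ℝ → ℂ),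
        IsArchTestC Φ₁ → IsArchTestC Φ₂ → IsArchTestR 0 F₁ → IsArchTestR 0 F₂ →
        IsArchTestR n G₁ → IsArchTestR n G₂ →
        IsAbelRel626 c Φ₁ F₁ G₁ → IsAbelRel626 c' Φ₂ F₂ G₂ →
        IsAbelRel626 ((lam : ℂ) * c * c') (@convInt _ _ (borel _) μ' Φ₁ Φ₂)
          (@convInt _ _ (borel _) μ F₁ F₂) (@convInt _ _ (borel _) μ G₁ G₂) := by
  obtain ⟨cR, hcR0, hR⟩ := hcR_conv830 hIR μ hμ
  obtain ⟨cC, hcC0, hC⟩ := hcC_conv830 hIC μ' hμ'
  refine ⟨4 * cR / cC, by positivity, ?_⟩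
  intro c c' n Φ₁ Φ₂ F₁ F₂ G₁ G₂ hΦ₁ hΦ₂ hF₁ hF₂ hG₁ hG₂ h₁ h₂
  rw [abelRel_iff_hc830] at h₁ h₂ ⊢
  intro ζ r
  exact ⟨hc_conv_rel830 hcC0.ne' (hR 0 F₁ F₂ hF₁ hF₂) (hC Φ₁ Φ₂ hΦ₁ hΦ₂)
      (fun ζ r => (h₁ ζ r).1) (fun ζ r => (h₂ ζ r).1) ζ r,
    hc_conv_rel830 hcC0.ne' (hR n G₁ G₂ hG₁ hG₂) (hC Φ₁ Φ₂ hΦ₁ hΦ₂)
      (fun ζ r => (h₁ ζ r).2) (fun ζ r => (h₂ ζ r).2) ζ r⟩

end Fermat.Agent.LT.T6.H830

end

end
-- ===== PACK-END LT/T6/H830/ConvAbel.lean

-- ===== PACK-BEGIN LT/T6/H830/ConvTest.lean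
section


/-!
# Row LT, tower T6, asset ARCH-CONV (helper830): the convolution of two archimedean test functions
# is a test function

OFF-MAIN.  Complete proofs, nothing assumed.

    isArchTestR_conv830 : IwasawaIntRC → μ Haar → IsArchTestR n F₁ → IsArchTestR n F₂ →
        IsArchTestR n (convInt μ F₁ F₂)
    isArchTestC_conv830 : IwasawaIntCC → μ' Haar → IsArchTestC Φ₁ → IsArchTestC Φ₂ →
        IsArchTestC (convInt μ' Φ₁ Φ₂)

Smoothness: by the Iwasawa integration formula the convolution is the integral over the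
coordinates `(ζ, r, x)` of the Borel subgroup of a function which is smooth in the coordinates
and the parameters; `contDiff_paramInt830`.
-/

set_option autoImplicit false
set_option linter.unusedSimpArgs false
set_option linter.unusedSectionVars false
set_option linter.style.haveILetI false

open scoped Matrix ContDiff
open MeasureTheory

noncomputable section

namespace Fermat.Agent.LT.T6.H830

open Fermat.Agent.LT.T6

/-! ## 0. Topology of `GL₂` -/

theorem secondCountable_GL830 (K : Type*) [CommRing K] [TopologicalSpace K]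
    [SecondCountableTopology K] : SecondCountableTopology (GL (Fin 2) K) := by
  have h1 : SecondCountableTopology (Matrix (Fin 2) (Fin 2) K) :=
    inferInstanceAs (SecondCountableTopology (Fin 2 → Fin 2 → K))
  have : SecondCountableTopology (Matrix (Fin 2) (Fin 2) K)ᵐᵒᵖ :=
    (MulOpposite.opHomeomorph (M := (Matrix (Fin 2) (Fin 2) K))).symm.secondCountableTopology
  exact Units.isEmbedding_embedProduct.secondCountableTopology

/-! ## 1. The elementary properties (any group) -/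

section Elementary

variable {H : Type} [Group H] [TopologicalSpace H] [IsTopologicalGroup H]
  [SecondCountableTopology H] [T2Space H] [MeasurableSpace H] [BorelSpace H]
  (μ : Measure H) [μ.IsHaarMeasure]

theorem continuous_convInt830 {φ₁ φ₂ : H → ℂ} (h₁ : Continuous φ₁) (s₁ : HasCompactSupport φ₁)
    (h₂ : Continuous φ₂) (s₂ : HasCompactSupport φ₂) : Continuous (convInt μ φ₁ φ₂) := by
  obtain ⟨M, hM⟩ := h₂.bounded_above_of_compact_support s₂
  unfold convInt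
  refine continuous_of_dominated (bound := fun h => ‖φ₁ h‖ * M) ?_ ?_ ?_ ?_
  · intro g
    exact (h₁.mul (h₂.comp (continuous_inv.mul continuous_const))).aestronglyMeasurable
  · intro g
    refine Filter.Eventually.of_forall fun h => ?_
    rw [norm_mul]
    exact mul_le_mul_of_nonneg_left (hM _) (norm_nonneg _)
  · exact (h₁.norm.mul continuous_const).integrable_of_hasCompactSupport s₁.norm.mul_right
  · refine Filter.Eventually.of_forall fun h => ?_
    exact continuous_const.mul (h₂.comp (continuous_const.mul continuous_id))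

theorem hasCompactSupport_convInt830 {φ₁ φ₂ : H → ℂ} (s₁ : HasCompactSupport φ₁)
    (s₂ : HasCompactSupport φ₂) : HasCompactSupport (convInt μ φ₁ φ₂) := by
  refine HasCompactSupport.intro (s₁.isCompact.mul s₂.isCompact) (fun g hg => ?_)
  unfold convInt
  have : ∀ h : H, φ₁ h * φ₂ (h⁻¹ * g) = 0 := by
    intro h
    by_contra hne
    apply hg
    have e1 : φ₁ h ≠ 0 := left_ne_zero_of_mul hne
    have e2 : φ₂ (h⁻¹ * g) ≠ 0 := right_ne_zero_of_mul hne
    exact ⟨h, subset_tsupport _ e1, h⁻¹ * g, subset_tsupport _ e2, by group⟩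
  simp only [this, integral_zero]

theorem convInt_ne_zero830 {φ₁ φ₂ : H → ℂ} {g : H} (hg : convInt μ φ₁ φ₂ g ≠ 0) :
    ∃ h : H, φ₁ h ≠ 0 ∧ φ₂ (h⁻¹ * g) ≠ 0 := by
  by_contra hne
  apply hg
  unfold convInt
  have : ∀ h : H, φ₁ h * φ₂ (h⁻¹ * g) = 0 := by
    intro h
    by_cases e1 : φ₁ h = 0
    · rw [e1, zero_mul]
    · by_cases e2 : φ₂ (h⁻¹ * g) = 0
      · rw [e2, mul_zero]
      · exact absurd ⟨h, e1, e2⟩ hne
  simp only [this, integral_zero]

theorem convInt_left830 {φ₁ φ₂ : H → ℂ} {χ : ℂ} {k : H} (hk : ∀ h : H, φ₁ (k * h) = χ * φ₁ h)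
    (g : H) : convInt μ φ₁ φ₂ (k * g) = χ * convInt μ φ₁ φ₂ g := by
  unfold convInt
  rw [← integral_mul_left_eq_self (fun h => φ₁ h * φ₂ (h⁻¹ * (k * g))) k, ← integral_const_mul]
  refine integral_congr_ae (Filter.Eventually.of_forall fun h => ?_)
  have e : (k * h)⁻¹ * (k * g) = h⁻¹ * g := by group
  simp only [e, hk]
  ring

theorem convInt_right830 {φ₁ φ₂ : H → ℂ} {χ : ℂ} {k : H} (hk : ∀ h : H, φ₂ (h * k) = χ * φ₂ h)
    (g : H) : convInt μ φ₁ φ₂ (g * k) = χ * convInt μ φ₁ φ₂ g := by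
  unfold convInt
  rw [← integral_const_mul]
  refine integral_congr_ae (Filter.Eventually.of_forall fun h => ?_)
  have e : h⁻¹ * (g * k) = (h⁻¹ * g) * k := by group
  simp only [e, hk]
  ring

end Elementary

/-! ## 2. Smooth families in `GL₂` -/

section Families

variable {𝕜 : Type*} [RCLike 𝕜]
variable {P : Type*} [NormedAddCommGroup P] [NormedSpace ℝ P]

/-- The entries of a family in `GL₂` are smooth. -/
def SmoothFam830 (A : P → GL (Fin 2) 𝕜) : Prop :=
  ∀ i j : Fin 2, ContDiff ℝ ∞ (fun s => ((A s : GL (Fin 2) 𝕜) : Matrix (Fin 2) (Fin 2) 𝕜) i j)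

theorem smoothFam_mul830 {A B : P → GL (Fin 2) 𝕜} (hA : SmoothFam830 A) (hB : SmoothFam830 B) :
    SmoothFam830 (fun s => A s * B s) := by
  intro i j
  have e : (fun s => ((A s * B s : GL (Fin 2) 𝕜) : Matrix (Fin 2) (Fin 2) 𝕜) i j)
      = fun s => ((A s : GL (Fin 2) 𝕜) : Matrix (Fin 2) (Fin 2) 𝕜) i 0
          * ((B s : GL (Fin 2) 𝕜) : Matrix (Fin 2) (Fin 2) 𝕜) 0 j
        + ((A s : GL (Fin 2) 𝕜) : Matrix (Fin 2) (Fin 2) 𝕜) i 1
          * ((B s : GL (Fin 2) 𝕜) : Matrix (Fin 2) (Fin 2) 𝕜) 1 j := by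
    funext s
    rw [Units.val_mul, Matrix.mul_apply, Fin.sum_univ_two]
  rw [e]
  exact ((hA i 0).mul (hB 0 j)).add ((hA i 1).mul (hB 1 j))

theorem smoothFam_const830 (g : GL (Fin 2) 𝕜) : SmoothFam830 (fun _ : P => g) :=
  fun _ _ => contDiff_const

theorem smoothFam_comp830 {Q : Type*} [NormedAddCommGroup Q] [NormedSpace ℝ Q]
    {A : Q → GL (Fin 2) 𝕜} (hA : SmoothFam830 A) {L : P → Q} (hL : ContDiff ℝ ∞ L) :
    SmoothFam830 (fun s => A (L s)) :=
  fun i j => (hA i j).comp hL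

end Families

section FamR

variable {P : Type*} [NormedAddCommGroup P] [NormedSpace ℝ P]

theorem smoothFam_bR830 {l₁ l₂ l₃ : P → ℝ} (h₁ : ContDiff ℝ ∞ l₁) (h₂ : ContDiff ℝ ∞ l₂)
    (h₃ : ContDiff ℝ ∞ l₃) : SmoothFam830 (𝕜 := ℝ) (fun s => bR (l₁ s) (l₂ s) (l₃ s)) := by
  have e1 : ContDiff ℝ ∞ (fun s => Real.exp ((l₁ s + l₂ s) / 2)) :=
    Real.contDiff_exp.comp ((h₁.add h₂).div_const 2)
  have e2 : ContDiff ℝ ∞ (fun s => Real.exp ((l₁ s - l₂ s) / 2)) :=
    Real.contDiff_exp.comp ((h₁.sub h₂).div_const 2)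
  intro i j
  simp only [coe_bR830]
  fin_cases i <;> fin_cases j
  · simpa using e1
  · simpa using e1.mul h₃
  · simpa using (contDiff_const : ContDiff ℝ ∞ (fun _ : P => (0 : ℝ)))
  · simpa using e2

theorem bR_zero830 : bR 0 0 0 = 1 := by
  apply Units.ext
  show ((bR 0 0 0 : GL (Fin 2) ℝ) : Matrix (Fin 2) (Fin 2) ℝ) = 1
  rw [coe_bR830]
  ext i j
  fin_cases i <;> fin_cases j <;> simp

theorem bR_inv830 (a b y : ℝ) : (bR a b y)⁻¹ = bR (-a) (-b) (-(Real.exp b * y)) := by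
  have h := bR_inv_mul830 a b y 0 0 0
  rw [bR_zero830, mul_one] at h
  rw [h]
  congr 1
  · ring
  · ring
  · simp

theorem smoothFam_bR_inv830 {l₁ l₂ l₃ : P → ℝ} (h₁ : ContDiff ℝ ∞ l₁) (h₂ : ContDiff ℝ ∞ l₂)
    (h₃ : ContDiff ℝ ∞ l₃) : SmoothFam830 (𝕜 := ℝ) (fun s => (bR (l₁ s) (l₂ s) (l₃ s))⁻¹) := by
  simp only [bR_inv830]
  exact smoothFam_bR830 h₁.neg h₂.neg ((Real.contDiff_exp.comp h₂).mul h₃).neg

end FamR

section FamC

variable {P : Type*} [NormedAddCommGroup P] [NormedSpace ℝ P]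

theorem smoothFam_bC830 {l₁ l₂ : P → ℝ} {l₃ : P → ℂ} (h₁ : ContDiff ℝ ∞ l₁)
    (h₂ : ContDiff ℝ ∞ l₂) (h₃ : ContDiff ℝ ∞ l₃) :
    SmoothFam830 (𝕜 := ℂ) (fun s => bC (l₁ s) (l₂ s) (l₃ s)) := by
  have e1 : ContDiff ℝ ∞ (fun s => ((Real.exp ((l₁ s + l₂ s) / 2) : ℝ) : ℂ)) :=
    Complex.ofRealCLM.contDiff.comp (Real.contDiff_exp.comp ((h₁.add h₂).div_const 2))
  have e2 : ContDiff ℝ ∞ (fun s => ((Real.exp ((l₁ s - l₂ s) / 2) : ℝ) : ℂ)) :=
    Complex.ofRealCLM.contDiff.comp (Real.contDiff_exp.comp ((h₁.sub h₂).div_const 2))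
  intro i j
  simp only [coe_bC830]
  fin_cases i <;> fin_cases j
  · simpa only [Matrix.of_apply, Matrix.cons_val', Matrix.cons_val_zero, Matrix.cons_val_one,
      Matrix.cons_val_fin_one, Fin.zero_eta, Fin.mk_one] using e1
  · simpa only [Matrix.of_apply, Matrix.cons_val', Matrix.cons_val_zero, Matrix.cons_val_one,
      Matrix.cons_val_fin_one, Fin.zero_eta, Fin.mk_one] using e1.mul h₃
  · simpa only [Matrix.of_apply, Matrix.cons_val', Matrix.cons_val_zero, Matrix.cons_val_one,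
      Matrix.cons_val_fin_one, Fin.zero_eta, Fin.mk_one]
      using (contDiff_const : ContDiff ℝ ∞ (fun _ : P => (0 : ℂ)))
  · simpa only [Matrix.of_apply, Matrix.cons_val', Matrix.cons_val_zero, Matrix.cons_val_one,
      Matrix.cons_val_fin_one, Fin.zero_eta, Fin.mk_one] using e2

theorem bC_zero830 : bC 0 0 0 = 1 := by
  apply Units.ext
  show ((bC 0 0 0 : GL (Fin 2) ℂ) : Matrix (Fin 2) (Fin 2) ℂ) = 1
  rw [coe_bC830]
  ext i j
  fin_cases i <;> fin_cases j <;> simp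

theorem bC_inv830 (a b : ℝ) (y : ℂ) :
    (bC a b y)⁻¹ = bC (-a) (-b) (-(((Real.exp b : ℝ) : ℂ) * y)) := by
  have h := bC_inv_mul830 a b y 0 0 0
  rw [bC_zero830, mul_one] at h
  rw [h]
  congr 1
  · ring
  · ring
  · simp [Complex.real_smul]

theorem smoothFam_bC_inv830 {l₁ l₂ : P → ℝ} {l₃ : P → ℂ} (h₁ : ContDiff ℝ ∞ l₁)
    (h₂ : ContDiff ℝ ∞ l₂) (h₃ : ContDiff ℝ ∞ l₃) :
    SmoothFam830 (𝕜 := ℂ) (fun s => (bC (l₁ s) (l₂ s) (l₃ s))⁻¹) := by
  simp only [bC_inv830]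
  exact smoothFam_bC830 h₁.neg h₂.neg
    ((Complex.ofRealCLM.contDiff.comp (Real.contDiff_exp.comp h₂)).mul h₃).neg

end FamC

/-! ## 3. Smoothness of the convolution, real place -/

section SmoothR

/-- The coordinates and the parameters in one space. -/
def joinR830 (m : ℕ) (p : (ℝ × ℝ × ℝ) × (Fin m → ℝ)) : Fin (3 + m) → ℝ :=
  Fin.append ![p.1.1, p.1.2.1, p.1.2.2] p.2

theorem contDiff_joinR830 (m : ℕ) : ContDiff ℝ ∞ (joinR830 m) := by
  rw [contDiff_pi]
  intro i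
  refine Fin.addCases (fun j => ?_) (fun j => ?_) i
  · simp only [joinR830, Fin.append_left]
    fin_cases j
    · exact contDiff_fst.comp contDiff_fst
    · exact contDiff_fst.comp (contDiff_snd.comp contDiff_fst)
    · exact contDiff_snd.comp (contDiff_snd.comp contDiff_fst)
  · simp only [joinR830, Fin.append_right]
    exact (contDiff_apply ℝ ℝ j).comp contDiff_snd

/-- The family of the convolution. -/
def famR830 (m : ℕ) (g₀ : GL (Fin 2) ℝ) (h : (Fin m → ℝ) → GL (Fin 2) ℝ)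
    (s : Fin (3 + m) → ℝ) : GL (Fin 2) ℝ :=
  (bR (s (Fin.castAdd m 0)) (s (Fin.castAdd m 1)) (s (Fin.castAdd m 2)))⁻¹ *
    (g₀ * h (fun i => s (Fin.natAdd 3 i)))

theorem smoothFam_famR830 (m : ℕ) (g₀ : GL (Fin 2) ℝ) {h : (Fin m → ℝ) → GL (Fin 2) ℝ}
    (hh : SmoothFam830 (𝕜 := ℝ) h) : SmoothFam830 (𝕜 := ℝ) (famR830 m g₀ h) := by
  unfold famR830
  refine smoothFam_mul830 (smoothFam_bR_inv830 (contDiff_apply ℝ ℝ _) (contDiff_apply ℝ ℝ _)
    (contDiff_apply ℝ ℝ _)) (smoothFam_mul830 (smoothFam_const830 g₀)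
      (smoothFam_comp830 hh (L := fun (s : Fin (3 + m) → ℝ) (i : Fin m) => s (Fin.natAdd 3 i))
        (contDiff_pi.2 fun i => contDiff_apply ℝ ℝ _)))

theorem famR_join830 (m : ℕ) (g₀ : GL (Fin 2) ℝ) (h : (Fin m → ℝ) → GL (Fin 2) ℝ)
    (p : (ℝ × ℝ × ℝ) × (Fin m → ℝ)) :
    famR830 m g₀ h (joinR830 m p) = (bR p.1.1 p.1.2.1 p.1.2.2)⁻¹ * (g₀ * h p.2) := by
  unfold famR830 joinR830
  have e : (fun i : Fin m => (Fin.append ![p.1.1, p.1.2.1, p.1.2.2] p.2 : Fin (3 + m) → ℝ)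
      (Fin.natAdd 3 i)) = p.2 := by
    funext i
    rw [Fin.append_right]
  rw [e, Fin.append_left, Fin.append_left, Fin.append_left]
  rfl

/-- The family of the first factor. -/
def famR1_830 (m : ℕ) (s : Fin (3 + m) → ℝ) : GL (Fin 2) ℝ :=
  bR (s (Fin.castAdd m 0)) (s (Fin.castAdd m 1)) (s (Fin.castAdd m 2))

theorem smoothFam_famR1_830 (m : ℕ) : SmoothFam830 (𝕜 := ℝ) (famR1_830 m) :=
  smoothFam_bR830 (contDiff_apply ℝ ℝ _) (contDiff_apply ℝ ℝ _) (contDiff_apply ℝ ℝ _)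

theorem famR1_join830 (m : ℕ) (p : (ℝ × ℝ × ℝ) × (Fin m → ℝ)) :
    famR1_830 m (joinR830 m p) = bR p.1.1 p.1.2.1 p.1.2.2 := by
  unfold famR1_830 joinR830
  rw [Fin.append_left, Fin.append_left, Fin.append_left]
  rfl

/-- **Smoothness of the convolution along smooth families, real place.** -/
theorem smooth_convInt_R830 {μ : @Measure (GL (Fin 2) ℝ) (borel _)} {c : ℝ}
    (hI : ∀ F : GL (Fin 2) ℝ → ℂ, Continuous F → HasCompactSupport F →
      (∀ g : GL (Fin 2) ℝ, F g ≠ 0 → 0 < (g : Matrix (Fin 2) (Fin 2) ℝ).det) →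
      (∀ k g : GL (Fin 2) ℝ, InSO2 k → F (g * k) = F g) →
      @integral _ _ _ _ (borel _) μ F = (c : ℂ) * ∫ ζ : ℝ, ∫ r : ℝ, ∫ x : ℝ, F (bR ζ r x))
    {n : ℤ} {F₁ F₂ : GL (Fin 2) ℝ → ℂ} (h₁ : IsArchTestR n F₁) (h₂ : IsArchTestR n F₂)
    (m : ℕ) (h : (Fin m → ℝ) → GL (Fin 2) ℝ)
    (hh : ∀ i j : Fin 2,
      ContDiff ℝ ∞ (fun t => ((h t : GL (Fin 2) ℝ) : Matrix (Fin 2) (Fin 2) ℝ) i j))
    (g₀ : GL (Fin 2) ℝ) :
    ContDiff ℝ ∞ (fun t => @convInt _ _ (borel _) μ F₁ F₂ (g₀ * h t)) := by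
  obtain ⟨B, hB⟩ := H372.bR_bounds372 h₁.supp
  set Φ : (ℝ × ℝ × ℝ) × (Fin m → ℝ) → ℂ := fun p =>
    F₁ (bR p.1.1 p.1.2.1 p.1.2.2) * F₂ ((bR p.1.1 p.1.2.1 p.1.2.2)⁻¹ * (g₀ * h p.2)) with hΦdef
  -- smoothness of `Φ`
  have hΦ : ContDiff ℝ ∞ Φ := by
    have a1 := (h₁.smooth (3 + m) (famR1_830 m) (smoothFam_famR1_830 m) 1).comp
      (contDiff_joinR830 m)
    have a2 := (h₂.smooth (3 + m) (famR830 m g₀ h) (smoothFam_famR830 m g₀ hh) 1).comp
      (contDiff_joinR830 m)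
    have e : Φ = fun p => (F₁ (1 * famR1_830 m (joinR830 m p)))
        * (F₂ (1 * famR830 m g₀ h (joinR830 m p))) := by
      funext p
      rw [famR1_join830, famR_join830, one_mul, one_mul]
    rw [e]
    exact a1.mul a2
  -- support
  have hsupp : ∀ (t : Fin m → ℝ) (q : ℝ × ℝ × ℝ), q ∉ Metric.closedBall (0 : ℝ × ℝ × ℝ) B →
      Φ (q, t) = 0 := by
    intro t q hq
    by_contra hne
    apply hq
    have hF : F₁ (bR q.1 q.2.1 q.2.2) ≠ 0 := left_ne_zero_of_mul hne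
    obtain ⟨b1, b2, b3⟩ := hB _ _ _ hF
    rw [Metric.mem_closedBall, dist_zero_right, Prod.norm_def, Prod.norm_def]
    exact max_le b1 (max_le b2 b3)
  have hint : ∀ t : Fin m → ℝ, @convInt _ _ (borel _) μ F₁ F₂ (g₀ * h t)
      = (c : ℂ) * ∫ q, Φ (q, t) ∂(volume.restrict (Metric.closedBall (0 : ℝ × ℝ × ℝ) B)) := by
    intro t
    rw [conv_iwasawa830 hI h₁ h₂]
    congr 1
    have hc : Continuous (fun q : ℝ × ℝ × ℝ => Φ (q, t)) :=
      hΦ.continuous.comp (Continuous.prodMk_left t)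
    have hs : HasCompactSupport (fun q : ℝ × ℝ × ℝ => Φ (q, t)) :=
      HasCompactSupport.intro (isCompact_closedBall _ _) (hsupp t)
    rw [setIntegral_eq_integral_of_forall_compl_eq_zero (hsupp t), iter3_830 hc hs]
  simp only [hint]
  haveI : IsFiniteMeasure (volume.restrict (Metric.closedBall (0 : ℝ × ℝ × ℝ) B)) :=
    ⟨by
      rw [Measure.restrict_apply_univ]
      exact (isCompact_closedBall _ _).measure_lt_top⟩
  refine contDiff_const.mul ?_
  refine contDiff_paramInt830 (volume.restrict (Metric.closedBall (0 : ℝ × ℝ × ℝ) B)) Φ hΦ id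
    measurable_id B ?_
  exact ae_restrict_of_forall_mem Metric.isClosed_closedBall.measurableSet
    (fun y hy => by simpa [Metric.mem_closedBall, dist_zero_right] using hy)

end SmoothR

/-- **ARCH-CONV, L3**: the convolution of two test functions of weight `n` on `GL₂(ℝ)` is a test
function of weight `n`. -/
theorem isArchTestR_conv830 (hIR : IwasawaIntRC) (μ : @Measure (GL (Fin 2) ℝ) (borel _))
    (hμ : @Measure.IsHaarMeasure _ _ _ (borel _) μ) {n : ℤ} {F₁ F₂ : GL (Fin 2) ℝ → ℂ}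
    (h₁ : IsArchTestR n F₁) (h₂ : IsArchTestR n F₂) :
    IsArchTestR n (@convInt _ _ (borel _) μ F₁ F₂) := by
  obtain ⟨c, -, hI⟩ := hIR μ hμ
  letI : MeasurableSpace (GL (Fin 2) ℝ) := borel _
  haveI : BorelSpace (GL (Fin 2) ℝ) := ⟨rfl⟩
  haveI := secondCountable_GL830 ℝ
  haveI := hμ
  refine ⟨continuous_convInt830 μ h₁.cont h₁.supp h₂.cont h₂.supp,
    hasCompactSupport_convInt830 μ h₁.supp h₂.supp,
    fun m h hh g₀ => smooth_convInt_R830 hI h₁ h₂ m h hh g₀, ?_, ?_, ?_⟩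
  · intro g hg
    obtain ⟨h, e1, e2⟩ := convInt_ne_zero830 μ hg
    have d1 := h₁.pos h e1
    have d2 := h₂.pos _ e2
    have e : g = h * (h⁻¹ * g) := by group
    rw [e, Units.val_mul, Matrix.det_mul]
    exact mul_pos d1 d2
  · intro k g hk
    exact convInt_left830 μ (fun h => h₁.left k h hk) g
  · intro k g hk
    exact convInt_right830 μ (fun h => h₂.right k h hk) g

/-! ## 4. Smoothness of the convolution, complex place -/

section SmoothC

/-- The coordinates and the parameters in one space. -/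
def joinC830 (m : ℕ) (p : (ℝ × ℝ × ℂ) × (Fin m → ℝ)) : Fin (4 + m) → ℝ :=
  Fin.append ![p.1.1, p.1.2.1, p.1.2.2.re, p.1.2.2.im] p.2

theorem contDiff_joinC830 (m : ℕ) : ContDiff ℝ ∞ (joinC830 m) := by
  rw [contDiff_pi]
  intro i
  refine Fin.addCases (fun j => ?_) (fun j => ?_) i
  · simp only [joinC830, Fin.append_left]
    fin_cases j
    · exact contDiff_fst.comp contDiff_fst
    · exact contDiff_fst.comp (contDiff_snd.comp contDiff_fst)
    · exact Complex.reCLM.contDiff.comp (contDiff_snd.comp (contDiff_snd.comp contDiff_fst))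
    · exact Complex.imCLM.contDiff.comp (contDiff_snd.comp (contDiff_snd.comp contDiff_fst))
  · simp only [joinC830, Fin.append_right]
    exact (contDiff_apply ℝ ℝ j).comp contDiff_snd

/-- The complex coordinate. -/
def wOf830 (m : ℕ) (s : Fin (4 + m) → ℝ) : ℂ :=
  ((s (Fin.castAdd m 2) : ℝ) : ℂ) + ((s (Fin.castAdd m 3) : ℝ) : ℂ) * Complex.I

theorem contDiff_wOf830 (m : ℕ) : ContDiff ℝ ∞ (wOf830 m) := by
  unfold wOf830
  exact (Complex.ofRealCLM.contDiff.comp (contDiff_apply ℝ ℝ _)).add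
    ((Complex.ofRealCLM.contDiff.comp (contDiff_apply ℝ ℝ _)).mul contDiff_const)

/-- The family of the convolution. -/
def famC830 (m : ℕ) (g₀ : GL (Fin 2) ℂ) (h : (Fin m → ℝ) → GL (Fin 2) ℂ)
    (s : Fin (4 + m) → ℝ) : GL (Fin 2) ℂ :=
  (bC (s (Fin.castAdd m 0)) (s (Fin.castAdd m 1)) (wOf830 m s))⁻¹ *
    (g₀ * h (fun i => s (Fin.natAdd 4 i)))

theorem smoothFam_famC830 (m : ℕ) (g₀ : GL (Fin 2) ℂ) {h : (Fin m → ℝ) → GL (Fin 2) ℂ}
    (hh : SmoothFam830 (𝕜 := ℂ) h) : SmoothFam830 (𝕜 := ℂ) (famC830 m g₀ h) := by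
  unfold famC830
  refine smoothFam_mul830 (smoothFam_bC_inv830 (contDiff_apply ℝ ℝ _) (contDiff_apply ℝ ℝ _)
    (contDiff_wOf830 m)) (smoothFam_mul830 (smoothFam_const830 g₀)
      (smoothFam_comp830 hh (L := fun (s : Fin (4 + m) → ℝ) (i : Fin m) => s (Fin.natAdd 4 i))
        (contDiff_pi.2 fun i => contDiff_apply ℝ ℝ _)))

theorem wOf_join830 (m : ℕ) (p : (ℝ × ℝ × ℂ) × (Fin m → ℝ)) :
    wOf830 m (joinC830 m p) = p.1.2.2 := by
  unfold wOf830 joinC830
  rw [Fin.append_left, Fin.append_left]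
  exact Complex.re_add_im p.1.2.2

theorem famC_join830 (m : ℕ) (g₀ : GL (Fin 2) ℂ) (h : (Fin m → ℝ) → GL (Fin 2) ℂ)
    (p : (ℝ × ℝ × ℂ) × (Fin m → ℝ)) :
    famC830 m g₀ h (joinC830 m p) = (bC p.1.1 p.1.2.1 p.1.2.2)⁻¹ * (g₀ * h p.2) := by
  unfold famC830
  rw [wOf_join830]
  unfold joinC830
  have e : (fun i : Fin m =>
      (Fin.append ![p.1.1, p.1.2.1, p.1.2.2.re, p.1.2.2.im] p.2 : Fin (4 + m) → ℝ)
      (Fin.natAdd 4 i)) = p.2 := by
    funext i
    rw [Fin.append_right]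
  rw [e, Fin.append_left, Fin.append_left]
  rfl

/-- The family of the first factor. -/
def famC1_830 (m : ℕ) (s : Fin (4 + m) → ℝ) : GL (Fin 2) ℂ :=
  bC (s (Fin.castAdd m 0)) (s (Fin.castAdd m 1)) (wOf830 m s)

theorem smoothFam_famC1_830 (m : ℕ) : SmoothFam830 (𝕜 := ℂ) (famC1_830 m) :=
  smoothFam_bC830 (contDiff_apply ℝ ℝ _) (contDiff_apply ℝ ℝ _) (contDiff_wOf830 m)

theorem famC1_join830 (m : ℕ) (p : (ℝ × ℝ × ℂ) × (Fin m → ℝ)) :
    famC1_830 m (joinC830 m p) = bC p.1.1 p.1.2.1 p.1.2.2 := by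
  unfold famC1_830
  rw [wOf_join830]
  unfold joinC830
  rw [Fin.append_left, Fin.append_left]
  rfl

/-- **Smoothness of the convolution along smooth families, complex place.** -/
theorem smooth_convInt_C830 {μ : @Measure (GL (Fin 2) ℂ) (borel _)} {c : ℝ}
    (hI : ∀ F : GL (Fin 2) ℂ → ℂ, Continuous F → HasCompactSupport F →
      (∀ k g : GL (Fin 2) ℂ, InU2 k → F (g * k) = F g) →
      @integral _ _ _ _ (borel _) μ F = (c : ℂ) * ∫ ζ : ℝ, ∫ r : ℝ, ∫ w : ℂ, F (bC ζ r w))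
    {Φ₁ Φ₂ : GL (Fin 2) ℂ → ℂ} (h₁ : IsArchTestC Φ₁) (h₂ : IsArchTestC Φ₂)
    (m : ℕ) (h : (Fin m → ℝ) → GL (Fin 2) ℂ)
    (hh : ∀ i j : Fin 2,
      ContDiff ℝ ∞ (fun t => ((h t : GL (Fin 2) ℂ) : Matrix (Fin 2) (Fin 2) ℂ) i j))
    (g₀ : GL (Fin 2) ℂ) :
    ContDiff ℝ ∞ (fun t => @convInt _ _ (borel _) μ Φ₁ Φ₂ (g₀ * h t)) := by
  obtain ⟨B, hB⟩ := bC_bounds830 h₁.supp
  set Φ : (ℝ × ℝ × ℂ) × (Fin m → ℝ) → ℂ := fun p =>
    Φ₁ (bC p.1.1 p.1.2.1 p.1.2.2) * Φ₂ ((bC p.1.1 p.1.2.1 p.1.2.2)⁻¹ * (g₀ * h p.2)) with hΦdef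
  have hΦ : ContDiff ℝ ∞ Φ := by
    have a1 := (h₁.smooth (4 + m) (famC1_830 m) (smoothFam_famC1_830 m) 1).comp
      (contDiff_joinC830 m)
    have a2 := (h₂.smooth (4 + m) (famC830 m g₀ h) (smoothFam_famC830 m g₀ hh) 1).comp
      (contDiff_joinC830 m)
    have e : Φ = fun p => (Φ₁ (1 * famC1_830 m (joinC830 m p)))
        * (Φ₂ (1 * famC830 m g₀ h (joinC830 m p))) := by
      funext p
      rw [famC1_join830, famC_join830, one_mul, one_mul]
    rw [e]
    exact a1.mul a2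
  have hsupp : ∀ (t : Fin m → ℝ) (q : ℝ × ℝ × ℂ), q ∉ Metric.closedBall (0 : ℝ × ℝ × ℂ) B →
      Φ (q, t) = 0 := by
    intro t q hq
    by_contra hne
    apply hq
    have hF : Φ₁ (bC q.1 q.2.1 q.2.2) ≠ 0 := left_ne_zero_of_mul hne
    obtain ⟨b1, b2, b3⟩ := hB _ _ _ hF
    rw [Metric.mem_closedBall, dist_zero_right, Prod.norm_def, Prod.norm_def]
    exact max_le b1 (max_le b2 b3)
  have hint : ∀ t : Fin m → ℝ, @convInt _ _ (borel _) μ Φ₁ Φ₂ (g₀ * h t)
      = (c : ℂ) * ∫ q, Φ (q, t) ∂(volume.restrict (Metric.closedBall (0 : ℝ × ℝ × ℂ) B)) := by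
    intro t
    rw [conv_iwasawaC830 hI h₁ h₂]
    congr 1
    have hc : Continuous (fun q : ℝ × ℝ × ℂ => Φ (q, t)) :=
      hΦ.continuous.comp (Continuous.prodMk_left t)
    have hs : HasCompactSupport (fun q : ℝ × ℝ × ℂ => Φ (q, t)) :=
      HasCompactSupport.intro (isCompact_closedBall _ _) (hsupp t)
    rw [setIntegral_eq_integral_of_forall_compl_eq_zero (hsupp t), iter3_830 hc hs]
  simp only [hint]
  haveI : IsFiniteMeasure (volume.restrict (Metric.closedBall (0 : ℝ × ℝ × ℂ) B)) :=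
    ⟨by
      rw [Measure.restrict_apply_univ]
      exact (isCompact_closedBall _ _).measure_lt_top⟩
  refine contDiff_const.mul ?_
  refine contDiff_paramInt830 (volume.restrict (Metric.closedBall (0 : ℝ × ℝ × ℂ) B)) Φ hΦ id
    measurable_id B ?_
  exact ae_restrict_of_forall_mem Metric.isClosed_closedBall.measurableSet
    (fun y hy => by simpa [Metric.mem_closedBall, dist_zero_right] using hy)

end SmoothC

/-- **ARCH-CONV, L4**: the convolution of two bi-`U(2)`-invariant test functions on `GL₂(ℂ)` is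
a bi-`U(2)`-invariant test function. -/
theorem isArchTestC_conv830 (hIC : IwasawaIntCC) (μ : @Measure (GL (Fin 2) ℂ) (borel _))
    (hμ : @Measure.IsHaarMeasure _ _ _ (borel _) μ) {Φ₁ Φ₂ : GL (Fin 2) ℂ → ℂ}
    (h₁ : IsArchTestC Φ₁) (h₂ : IsArchTestC Φ₂) :
    IsArchTestC (@convInt _ _ (borel _) μ Φ₁ Φ₂) := by
  obtain ⟨c, -, hI⟩ := hIC μ hμ
  letI : MeasurableSpace (GL (Fin 2) ℂ) := borel _
  haveI : BorelSpace (GL (Fin 2) ℂ) := ⟨rfl⟩
  haveI := secondCountable_GL830 ℂ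
  haveI := hμ
  refine ⟨continuous_convInt830 μ h₁.cont h₁.supp h₂.cont h₂.supp,
    hasCompactSupport_convInt830 μ h₁.supp h₂.supp,
    fun m h hh g₀ => smooth_convInt_C830 hI h₁ h₂ m h hh g₀, ?_, ?_⟩
  · intro k g hk
    have := convInt_left830 μ (φ₁ := Φ₁) (φ₂ := Φ₂) (χ := 1) (k := k)
      (fun h => by rw [h₁.left k h hk, one_mul]) g
    rw [this, one_mul]
  · intro k g hk
    have := convInt_right830 μ (φ₁ := Φ₁) (φ₂ := Φ₂) (χ := 1) (k := k)
      (fun h => by rw [h₂.right k h hk, one_mul]) g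
    rw [this, one_mul]

/-! ## Appendix: the equation lemmas of the definitions of this file are realised HERE -/

theorem eqns_realised_convTest830 : True := by
  have _h0 := @SmoothFam830.eq_1.{0, 0}
  have _h1 := @SmoothFam830.eq_def.{0, 0}
  have _h2 := @joinR830.eq_1
  have _h3 := @joinR830.eq_def
  have _h4 := @famR830.eq_1
  have _h5 := @famR830.eq_def
  have _h6 := @famR1_830.eq_1
  have _h7 := @famR1_830.eq_def
  have _h8 := @joinC830.eq_1
  have _h9 := @joinC830.eq_def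
  have _h10 := @wOf830.eq_1
  have _h11 := @wOf830.eq_def
  have _h12 := @famC830.eq_1
  have _h13 := @famC830.eq_def
  have _h14 := @famC1_830.eq_1
  have _h15 := @famC1_830.eq_def
  trivial

end Fermat.Agent.LT.T6.H830

end

end
-- ===== PACK-END LT/T6/H830/ConvTest.lean

-- ===== PACK-BEGIN LT/T6/H830/ArchConv.lean
section




/-!
# Row LT, tower T6, asset ARCH-CONV (helper830, deputy F/Q "archimedean wiring"):
# THE ARCHIMEDEAN LOCAL SHAPE OF THE QUADRATIC STEP IS CLOSED UNDER CONVOLUTION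

OFF-MAIN.  Complete proofs, nothing assumed.  ADDITIVE (new names only, suffix `830`).

## The local shape

`IsArchPair830 c n Φ F G`: `Φ` is a bi-`U(2)`-invariant test function on `GL₂(ℂ)`, `F` a test
function of weight `0` and `G` a test function of weight `n` on `GL₂(ℝ)`, in the ABEL RELATION
with constant `c` (`H626.IsAbelRel626 c Φ F G`: the `N`-integrals of `F` and of `G` at
`diag(a, b)` are `c` times the `N`-integral of `Φ` at `diag(√a, √b)`).

* it is what the construction has: T3.18M upstairs, T3.18R downstairs prescribe the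
  `N`-integrals (`T3.H830.isAbelRel_iff830`: `HasAbelN Φ β'`, `HasAbelNR F (half830 c β')`,
  `HasAbelNR G (half830 c β')` ⇔ the Abel relation);
* it gives the geometric matching `T6.IsArchMatch μ μ' Φ (F + G)` for the matching constant
  `c = cM(μ, μ')` (`H626.geoMatchC626_closed`) and the spectral relations
  (`specRelC626_830`): `ArchConvMatch.lean`;
* **it is closed under convolution** (THIS FILE): the members of the families of the supply are
  convolution products.  Bare `T6.IsArchMatch` is not known to be.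

    archPair_conv830 : ∀ μ μ' Haar, ∃ lam > 0, ∀ c c' n,
        IsArchPair830 c n Φ₁ F₁ G₁ → IsArchPair830 c' n Φ₂ F₂ G₂ →
        IsArchPair830 (lam · c · c') n (Φ₁ ⋆ Φ₂) (F₁ ⋆ F₂) (G₁ ⋆ G₂)
    archPair_smul830   : IsArchPair830 c n Φ F G → IsArchPair830 (t · c) n Φ (t F) (t G)
    isArchTestR_conv_closed830, isArchTestC_conv_closed830 : convolutions of test functions
    hcR_conv_closed830, hcC_conv_closed830 : the Harish-Chandra transform of a convolution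

(`lam = 4 c_I / c_I'`, `c_I`, `c_I'` the constants of the Iwasawa integration formulas of `μ`,
`μ'`.  The cross terms `F₁ ⋆ G₂`, `G₁ ⋆ F₂` of `(F₁ + G₁) ⋆ (F₂ + G₂)` vanish for `n ≠ 0`:
different `K`-types; they do not occur in the statement.)
-/

set_option autoImplicit false

open scoped Matrix ContDiff
open MeasureTheory

noncomputable section

namespace Fermat.Agent.LT.T6.H830

open Fermat.Agent.LT.T6 Fermat.Agent.LT.T6.H626

/-- **THE ARCHIMEDEAN LOCAL SHAPE** (see the header). -/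
structure IsArchPair830 (c : ℂ) (n : ℤ) (Φ : GL (Fin 2) ℂ → ℂ) (F G : GL (Fin 2) ℝ → ℂ) :
    Prop where
  up : IsArchTestC Φ
  down0 : IsArchTestR 0 F
  down1 : IsArchTestR n G
  rel : IsAbelRel626 c Φ F G

/-! ## 1. The closed forms of the leaves -/

theorem hcR_conv_closed830 (μ : @Measure (GL (Fin 2) ℝ) (borel _))
    (hμ : @Measure.IsHaarMeasure _ _ _ (borel _) μ) :
    ∃ c : ℝ, 0 < c ∧ ∀ (n : ℤ) (F₁ F₂ : GL (Fin 2) ℝ → ℂ), IsArchTestR n F₁ →
      IsArchTestR n F₂ → ∀ ζ r : ℝ,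
        hcR (@convInt _ _ (borel _) μ F₁ F₂) ζ r
          = (c : ℂ) * ∫ a : ℝ, ∫ b : ℝ, hcR F₁ a b * hcR F₂ (ζ - a) (r - b) :=
  hcR_conv830 H673.iwasawaIntRC673 μ hμ

theorem hcC_conv_closed830 (μ : @Measure (GL (Fin 2) ℂ) (borel _))
    (hμ : @Measure.IsHaarMeasure _ _ _ (borel _) μ) :
    ∃ c : ℝ, 0 < c ∧ ∀ (Φ₁ Φ₂ : GL (Fin 2) ℂ → ℂ), IsArchTestC Φ₁ →
      IsArchTestC Φ₂ → ∀ ζ r : ℝ,
        hcC (@convInt _ _ (borel _) μ Φ₁ Φ₂) ζ r
          = (c : ℂ) * ∫ a : ℝ, ∫ b : ℝ, hcC Φ₁ a b * hcC Φ₂ (ζ - a) (r - b) :=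
  hcC_conv830 iwasawaIntCC830 μ hμ

theorem isArchTestR_conv_closed830 (μ : @Measure (GL (Fin 2) ℝ) (borel _))
    (hμ : @Measure.IsHaarMeasure _ _ _ (borel _) μ) {n : ℤ} {F₁ F₂ : GL (Fin 2) ℝ → ℂ}
    (h₁ : IsArchTestR n F₁) (h₂ : IsArchTestR n F₂) :
    IsArchTestR n (@convInt _ _ (borel _) μ F₁ F₂) :=
  isArchTestR_conv830 H673.iwasawaIntRC673 μ hμ h₁ h₂

theorem isArchTestC_conv_closed830 (μ : @Measure (GL (Fin 2) ℂ) (borel _))
    (hμ : @Measure.IsHaarMeasure _ _ _ (borel _) μ) {Φ₁ Φ₂ : GL (Fin 2) ℂ → ℂ}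
    (h₁ : IsArchTestC Φ₁) (h₂ : IsArchTestC Φ₂) :
    IsArchTestC (@convInt _ _ (borel _) μ Φ₁ Φ₂) :=
  isArchTestC_conv830 iwasawaIntCC830 μ hμ h₁ h₂

/-! ## 2. ARCH-CONV -/

/-- **ARCH-CONV**: the archimedean local shape is closed under convolution. -/
theorem archPair_conv830 (μ : @Measure (GL (Fin 2) ℝ) (borel _))
    (μ' : @Measure (GL (Fin 2) ℂ) (borel _))
    (hμ : @Measure.IsHaarMeasure _ _ _ (borel _) μ)
    (hμ' : @Measure.IsHaarMeasure _ _ _ (borel _) μ') :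
    ∃ lam : ℝ, 0 < lam ∧
      ∀ (c c' : ℂ) (n : ℤ) (Φ₁ Φ₂ : GL (Fin 2) ℂ → ℂ) (F₁ F₂ G₁ G₂ : GL (Fin 2) ℝ → ℂ),
        IsArchPair830 c n Φ₁ F₁ G₁ → IsArchPair830 c' n Φ₂ F₂ G₂ →
        IsArchPair830 ((lam : ℂ) * c * c') n (@convInt _ _ (borel _) μ' Φ₁ Φ₂)
          (@convInt _ _ (borel _) μ F₁ F₂) (@convInt _ _ (borel _) μ G₁ G₂) := by
  obtain ⟨lam, hlam, h⟩ := abelRel_conv830 H673.iwasawaIntRC673 iwasawaIntCC830 μ μ' hμ hμ'
  refine ⟨lam, hlam, fun c c' n Φ₁ Φ₂ F₁ F₂ G₁ G₂ p₁ p₂ => ?_⟩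
  exact ⟨isArchTestC_conv_closed830 μ' hμ' p₁.up p₂.up,
    isArchTestR_conv_closed830 μ hμ p₁.down0 p₂.down0,
    isArchTestR_conv_closed830 μ hμ p₁.down1 p₂.down1,
    h c c' n Φ₁ Φ₂ F₁ F₂ G₁ G₂ p₁.up p₂.up p₁.down0 p₂.down0 p₁.down1 p₂.down1 p₁.rel p₂.rel⟩

/-! ## 3. Scalars -/

theorem isArchTestR_smul830 {n : ℤ} {F : GL (Fin 2) ℝ → ℂ} (h : IsArchTestR n F) (t : ℂ) :
    IsArchTestR n (fun g => t * F g) where
  cont := continuous_const.mul h.cont
  supp := h.supp.mul_left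
  smooth := fun m fam hfam g => contDiff_const.mul (h.smooth m fam hfam g)
  pos := fun g hg => h.pos g (right_ne_zero_of_mul hg)
  left := fun k g hk => by rw [h.left k g hk]; ring
  right := fun k g hk => by rw [h.right k g hk]; ring

theorem isArchTestC_smul830 {Φ : GL (Fin 2) ℂ → ℂ} (h : IsArchTestC Φ) (t : ℂ) :
    IsArchTestC (fun g => t * Φ g) where
  cont := continuous_const.mul h.cont
  supp := h.supp.mul_left
  smooth := fun m fam hfam g => contDiff_const.mul (h.smooth m fam hfam g)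
  left := fun k g hk => by rw [h.left k g hk]
  right := fun k g hk => by rw [h.right k g hk]

/-- Scaling downstairs. -/
theorem archPair_smul830 {c : ℂ} {n : ℤ} {Φ : GL (Fin 2) ℂ → ℂ} {F G : GL (Fin 2) ℝ → ℂ}
    (p : IsArchPair830 c n Φ F G) (t : ℂ) :
    IsArchPair830 (t * c) n Φ (fun g => t * F g) (fun g => t * G g) := by
  refine ⟨p.up, isArchTestR_smul830 p.down0 t, isArchTestR_smul830 p.down1 t, ?_⟩
  intro a b ha hb u u' hu hu'
  obtain ⟨h1, h2⟩ := p.rel a b ha hb u u' hu hu'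
  rw [integral_const_mul, integral_const_mul, h1, h2]
  exact ⟨by ring, by ring⟩

/-- Scaling upstairs. -/
theorem archPair_smul_up830 {c : ℂ} {n : ℤ} {Φ : GL (Fin 2) ℂ → ℂ} {F G : GL (Fin 2) ℝ → ℂ}
    (p : IsArchPair830 c n Φ F G) {t : ℂ} (ht : t ≠ 0) :
    IsArchPair830 (c / t) n (fun g => t * Φ g) F G := by
  refine ⟨isArchTestC_smul830 p.up t, p.down0, p.down1, ?_⟩
  intro a b ha hb u u' hu hu'
  obtain ⟨h1, h2⟩ := p.rel a b ha hb u u' hu hu'
  rw [integral_const_mul, h1, h2]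
  exact ⟨by field_simp, by field_simp⟩

/-- **ARCH-CONV, normalised**: for pairs with the SAME constant `c ≠ 0` the convolution
products, scaled downstairs by `(lam c)⁻¹`, form a pair with the constant `c`. -/
theorem archPair_conv_norm830 (μ : @Measure (GL (Fin 2) ℝ) (borel _))
    (μ' : @Measure (GL (Fin 2) ℂ) (borel _))
    (hμ : @Measure.IsHaarMeasure _ _ _ (borel _) μ)
    (hμ' : @Measure.IsHaarMeasure _ _ _ (borel _) μ') :
    ∃ lam : ℝ, 0 < lam ∧
      ∀ (c : ℂ), c ≠ 0 → ∀ (n : ℤ) (Φ₁ Φ₂ : GL (Fin 2) ℂ → ℂ)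
        (F₁ F₂ G₁ G₂ : GL (Fin 2) ℝ → ℂ),
        IsArchPair830 c n Φ₁ F₁ G₁ → IsArchPair830 c n Φ₂ F₂ G₂ →
        IsArchPair830 c n (@convInt _ _ (borel _) μ' Φ₁ Φ₂)
          (fun g => ((lam : ℂ) * c)⁻¹ * @convInt _ _ (borel _) μ F₁ F₂ g)
          (fun g => ((lam : ℂ) * c)⁻¹ * @convInt _ _ (borel _) μ G₁ G₂ g) := by
  obtain ⟨lam, hlam, h⟩ := archPair_conv830 μ μ' hμ hμ'
  refine ⟨lam, hlam, fun c hc n Φ₁ Φ₂ F₁ F₂ G₁ G₂ p₁ p₂ => ?_⟩
  have hl : (lam : ℂ) ≠ 0 := Complex.ofReal_ne_zero.2 hlam.ne'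
  have key := archPair_smul830 (h c c n Φ₁ Φ₂ F₁ F₂ G₁ G₂ p₁ p₂) (((lam : ℂ) * c)⁻¹)
  have e : ((lam : ℂ) * c)⁻¹ * ((lam : ℂ) * c * c) = c := by field_simp
  rw [e] at key
  exact key

end Fermat.Agent.LT.T6.H830

end

end
-- ===== PACK-END LT/T6/H830/ArchConv.lean

-- ===== PACK-BEGIN LT/T7/H664/PlacesCore.lean
section



/-!
# Row LT, tower T7: places of `K'` over places of `K` (helper664, OFF-MAIN), core of the leaf
`B981.SS503.PlacesC503` (registry row 2873, spare)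

Mathlib + the definitions `PlaceOver`, `HasResDeg`, `IsCycExt` of `T7/Spec.lean` only.
-/

set_option autoImplicit false
set_option linter.deprecated false
set_option linter.style.haveILetI false
set_option linter.unusedSectionVars false

open IsDedekindDomain NumberField

noncomputable section

namespace Fermat.Agent.LT.T7.H664

open Fermat.Agent.LT.T7

variable {K K' : Type} [Field K] [NumberField K] [Field K'] [NumberField K'] [Algebra K K']

/-- `w` lies over `v` iff `v = w ∩ 𝓞_K`. -/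
theorem placeOver_iff664 (v : HeightOneSpectrum (𝓞 K)) (w : HeightOneSpectrum (𝓞 K')) :
    PlaceOver K K' v w ↔ v.asIdeal = Ideal.under (𝓞 K) w.asIdeal := by
  constructor
  · intro h
    ext x
    rw [Ideal.under_def, Ideal.mem_comap]
    exact h x (algebraMap (𝓞 K) (𝓞 K') x) rfl
  · intro h x y hxy
    have hy : y = algebraMap (𝓞 K) (𝓞 K') x := RingOfIntegers.ext hxy
    subst hy
    rw [h, Ideal.under_def, Ideal.mem_comap]

/-- The place of `K` under `w`. -/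
def under664 (w : HeightOneSpectrum (𝓞 K')) : HeightOneSpectrum (𝓞 K) where
  asIdeal := Ideal.under (𝓞 K) w.asIdeal
  isPrime := by
    haveI := w.isPrime
    exact Ideal.IsPrime.under (𝓞 K) w.asIdeal
  ne_bot := Ideal.under_ne_bot (𝓞 K) w.ne_bot

theorem placeOver_under664 (w : HeightOneSpectrum (𝓞 K')) :
    PlaceOver K K' (under664 (K := K) w) w :=
  (placeOver_iff664 _ w).2 rfl

theorem eq_under664 {v : HeightOneSpectrum (𝓞 K)} {w : HeightOneSpectrum (𝓞 K')}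
    (h : PlaceOver K K' v w) : v = under664 (K := K) w :=
  HeightOneSpectrum.ext ((placeOver_iff664 v w).1 h)

/-- `N w = (N v)^f`, `f` the inertia degree. -/
theorem absNorm_eq664 (v : HeightOneSpectrum (𝓞 K)) (w : HeightOneSpectrum (𝓞 K'))
    (h : PlaceOver K K' v w) :
    Ideal.absNorm w.asIdeal
      = Ideal.absNorm v.asIdeal ^ (v.asIdeal.inertiaDeg' w.asIdeal) := by
  haveI : w.asIdeal.LiesOver v.asIdeal := ⟨(placeOver_iff664 v w).1 h⟩
  haveI : v.asIdeal.IsMaximal := v.isMaximal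
  haveI : w.asIdeal.IsMaximal := w.isMaximal
  haveI : Finite (𝓞 K' ⧸ w.asIdeal) := Ideal.finiteQuotientOfFreeOfNeBot _ w.ne_bot
  rw [Ideal.inertiaDeg'_algebraMap, Ideal.absNorm_apply, Ideal.absNorm_apply,
    Submodule.cardQuot_apply, Submodule.cardQuot_apply]
  letI : Field (𝓞 K ⧸ v.asIdeal) := Ideal.Quotient.field v.asIdeal
  exact Module.natCard_eq_pow_finrank

theorem hasResDeg664 (v : HeightOneSpectrum (𝓞 K)) (w : HeightOneSpectrum (𝓞 K'))
    (h : PlaceOver K K' v w) :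
    HasResDeg K K' v w (v.asIdeal.inertiaDeg' w.asIdeal) :=
  ⟨h, absNorm_eq664 v w h⟩

/-- The ideal of a place over `v` belongs to `primesOverFinset`. -/
theorem mem_primesOverFinset664 {v : HeightOneSpectrum (𝓞 K)} {w : HeightOneSpectrum (𝓞 K')}
    (h : PlaceOver K K' v w) : w.asIdeal ∈ IsDedekindDomain.primesOverFinset v.asIdeal (𝓞 K') := by
  haveI : v.asIdeal.IsMaximal := v.isMaximal
  rw [IsDedekindDomain.mem_primesOverFinset_iff v.ne_bot (𝓞 K')]
  exact ⟨w.isPrime, ⟨(placeOver_iff664 v w).1 h⟩⟩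

/-- A member of `primesOverFinset` is the ideal of a place over `v`. -/
theorem exists_place_of_mem664 {v : HeightOneSpectrum (𝓞 K)} {Q : Ideal (𝓞 K')}
    (hQ : Q ∈ IsDedekindDomain.primesOverFinset v.asIdeal (𝓞 K')) :
    ∃ w : HeightOneSpectrum (𝓞 K'), w.asIdeal = Q ∧ PlaceOver K K' v w := by
  haveI : v.asIdeal.IsMaximal := v.isMaximal
  rw [IsDedekindDomain.mem_primesOverFinset_iff v.ne_bot (𝓞 K')] at hQ
  obtain ⟨hp, ho⟩ := hQ
  haveI := ho
  have hne : Q ≠ ⊥ := Ideal.ne_bot_of_liesOver_of_ne_bot v.ne_bot Q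
  exact ⟨⟨Q, hp, hne⟩, rfl, (placeOver_iff664 v ⟨Q, hp, hne⟩).2 ho.over⟩

/-- The places over `v` are finite in number. -/
theorem finite_over664 (v : HeightOneSpectrum (𝓞 K)) :
    {w : HeightOneSpectrum (𝓞 K') | PlaceOver K K' v w}.Finite := by
  refine Set.Finite.of_injOn (f := fun w : HeightOneSpectrum (𝓞 K') => w.asIdeal)
    (t := (↑(IsDedekindDomain.primesOverFinset v.asIdeal (𝓞 K')) : Set (Ideal (𝓞 K')))) ?_ ?_
    (Finset.finite_toSet _)
  · intro w hw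
    exact Finset.mem_coe.2 (mem_primesOverFinset664 hw)
  · intro a _ b _ hab
    exact HeightOneSpectrum.ext hab

/-- `∑ e f = [K' : K]`. -/
theorem sum_ef664 (v : HeightOneSpectrum (𝓞 K)) :
    ∑ Q ∈ IsDedekindDomain.primesOverFinset v.asIdeal (𝓞 K'),
        v.asIdeal.ramificationIdx' Q * v.asIdeal.inertiaDeg' Q = Module.finrank K K' := by
  haveI : v.asIdeal.IsMaximal := v.isMaximal
  exact Ideal.sum_ramification_inertia (𝓞 K') K K' v.ne_bot

/-- Every term of the sum is positive. -/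
theorem one_le_ef664 (v : HeightOneSpectrum (𝓞 K)) {Q : Ideal (𝓞 K')}
    (hQ : Q ∈ IsDedekindDomain.primesOverFinset v.asIdeal (𝓞 K')) :
    1 ≤ v.asIdeal.ramificationIdx' Q * v.asIdeal.inertiaDeg' Q := by
  haveI : v.asIdeal.IsMaximal := v.isMaximal
  rw [IsDedekindDomain.mem_primesOverFinset_iff v.ne_bot (𝓞 K')] at hQ
  obtain ⟨hp, ho⟩ := hQ
  haveI := ho
  have hmap : Ideal.map (algebraMap (𝓞 K) (𝓞 K')) v.asIdeal ≠ ⊥ := by
    intro h0
    rw [Ideal.map_eq_bot_iff_of_injective (FaithfulSMul.algebraMap_injective (𝓞 K) (𝓞 K'))] at h0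
    exact v.ne_bot h0
  have hle : Ideal.map (algebraMap (𝓞 K) (𝓞 K')) v.asIdeal ≤ Q :=
    Ideal.map_le_iff_le_comap.2 (le_of_eq ho.over)
  have he : v.asIdeal.ramificationIdx' Q ≠ 0 :=
    Ideal.IsDedekindDomain.ramificationIdx'_ne_zero hmap hp hle
  have hf : 0 < v.asIdeal.inertiaDeg' Q := Ideal.inertiaDeg'_pos v.asIdeal Q
  exact Nat.one_le_iff_ne_zero.2 (Nat.mul_ne_zero he hf.ne')

/-- `e = 1` if some element of `v` is not in `w²`. -/
theorem ramIdx_eq_one664 {v : HeightOneSpectrum (𝓞 K)} {w : HeightOneSpectrum (𝓞 K')}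
    (h : PlaceOver K K' v w)
    (hx : ∃ x : 𝓞 K, x ∈ v.asIdeal ∧ algebraMap (𝓞 K) (𝓞 K') x ∉ w.asIdeal ^ 2) :
    v.asIdeal.ramificationIdx' w.asIdeal = 1 := by
  obtain ⟨x, hxv, hxw⟩ := hx
  refine Ideal.ramificationIdx'_spec ?_ ?_
  · rw [pow_one]
    exact Ideal.map_le_iff_le_comap.2 (le_of_eq ((placeOver_iff664 v w).1 h))
  · intro hle
    exact hxw (hle (Ideal.mem_map_of_mem _ hxv))

/-- **ONE place over `v`, unramified: `f = [K' : K]`.** -/
theorem inertia_of_unique664 {v : HeightOneSpectrum (𝓞 K)} {w : HeightOneSpectrum (𝓞 K')}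
    (h : PlaceOver K K' v w)
    (hx : ∃ x : 𝓞 K, x ∈ v.asIdeal ∧ algebraMap (𝓞 K) (𝓞 K') x ∉ w.asIdeal ^ 2)
    (huniq : ∀ w' : HeightOneSpectrum (𝓞 K'), PlaceOver K K' v w' → w' = w) :
    v.asIdeal.inertiaDeg' w.asIdeal = Module.finrank K K' := by
  have hF : IsDedekindDomain.primesOverFinset v.asIdeal (𝓞 K') = {w.asIdeal} := by
    ext Q
    rw [Finset.mem_singleton]
    constructor
    · intro hQ
      obtain ⟨w', rfl, hw'⟩ := exists_place_of_mem664 hQ
      rw [huniq w' hw']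
    · rintro rfl
      exact mem_primesOverFinset664 h
  have hs := sum_ef664 (K' := K') v
  rw [hF, Finset.sum_singleton, ramIdx_eq_one664 h hx, one_mul] at hs
  exact hs

/-- **`ℓ = [K' : K]` distinct places over `v`: `f = 1` and `w` is one of them.** -/
theorem inertia_of_split664 {v : HeightOneSpectrum (𝓞 K)} {w : HeightOneSpectrum (𝓞 K')}
    (h : PlaceOver K K' v w) (u : ℕ → HeightOneSpectrum (𝓞 K'))
    (hu : ∀ j : ℕ, PlaceOver K K' v (u j))
    (hinj : ∀ j j' : ℕ, j < Module.finrank K K' → j' < Module.finrank K K' → u j = u j' →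
      j = j') :
    v.asIdeal.inertiaDeg' w.asIdeal = 1 ∧ ∃ j : ℕ, j < Module.finrank K K' ∧ u j = w := by
  classical
  set F := IsDedekindDomain.primesOverFinset v.asIdeal (𝓞 K') with hF
  set T : Finset (Ideal (𝓞 K')) :=
    (Finset.range (Module.finrank K K')).image (fun j => (u j).asIdeal) with hT
  have hTF : T ⊆ F := by
    intro Q hQ
    obtain ⟨j, -, rfl⟩ := Finset.mem_image.1 hQ
    exact mem_primesOverFinset664 (hu j)
  have hcardT : T.card = Module.finrank K K' := by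
    rw [hT, Finset.card_image_of_injOn, Finset.card_range]
    intro a ha b hb hab
    exact hinj a b (Finset.mem_range.1 (Finset.mem_coe.1 ha))
      (Finset.mem_range.1 (Finset.mem_coe.1 hb)) (HeightOneSpectrum.ext hab)
  have hs := sum_ef664 (K' := K') v
  have hge : F.card ≤ ∑ Q ∈ F, v.asIdeal.ramificationIdx' Q * v.asIdeal.inertiaDeg' Q := by
    calc F.card = ∑ _Q ∈ F, 1 := by simp
      _ ≤ _ := Finset.sum_le_sum (fun Q hQ => one_le_ef664 v hQ)
  have hcardF : F.card ≤ T.card := by rw [hcardT, ← hs]; exact hge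
  have hTeq : T = F := Finset.eq_of_subset_of_card_le hTF hcardF
  have hone : ∀ Q ∈ F, (1 : ℕ) = v.asIdeal.ramificationIdx' Q * v.asIdeal.inertiaDeg' Q := by
    refine (Finset.sum_eq_sum_iff_of_le (fun Q hQ => one_le_ef664 v hQ)).1 ?_
    have hcF : F.card = Module.finrank K K' := by rw [← hTeq, hcardT]
    rw [Finset.sum_const, smul_eq_mul, mul_one, hcF]
    exact hs.symm
  have hwF : w.asIdeal ∈ F := mem_primesOverFinset664 h
  refine ⟨Nat.eq_one_of_mul_eq_one_left (hone _ hwF).symm, ?_⟩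
  rw [← hTeq] at hwF
  obtain ⟨j, hj, hjw⟩ := Finset.mem_image.1 hwF
  exact ⟨j, Finset.mem_range.1 hj, HeightOneSpectrum.ext hjw⟩

/-- **The statement of the leaf, in core form** (degree `ℓ = [K' : K]`; no Galois hypothesis is
used). -/
theorem places_core664 (ℓ : ℕ) (hℓ : Module.finrank K K' = ℓ) (w : HeightOneSpectrum (𝓞 K')) :
    ∃ (v : HeightOneSpectrum (𝓞 K)) (f : ℕ) (P : Finset (HeightOneSpectrum (𝓞 K'))),
      HasResDeg K K' v w f ∧
      (∀ v' : HeightOneSpectrum (𝓞 K), PlaceOver K K' v' w → v' = v) ∧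
      (∀ w' : HeightOneSpectrum (𝓞 K'), w' ∈ P ↔ PlaceOver K K' v w') ∧
      ((∃ x : 𝓞 K, x ∈ v.asIdeal ∧ algebraMap (𝓞 K) (𝓞 K') x ∉ w.asIdeal ^ 2) →
        ((∀ w' : HeightOneSpectrum (𝓞 K'), PlaceOver K K' v w' → w' = w) → f = ℓ) ∧
        ∀ u : ℕ → HeightOneSpectrum (𝓞 K'), (∀ j : ℕ, PlaceOver K K' v (u j)) →
          (∀ j j' : ℕ, j < ℓ → j' < ℓ → u j = u j' → j = j') →
          f = 1 ∧ ∃ j : ℕ, j < ℓ ∧ u j = w) := by
  subst hℓ
  have hvw := placeOver_under664 (K := K) w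
  refine ⟨under664 (K := K) w, _, (finite_over664 (K' := K') (under664 (K := K) w)).toFinset,
    hasResDeg664 _ w hvw, fun v' hv' => eq_under664 hv', fun w' => ?_, fun hx => ⟨?_, ?_⟩⟩
  · rw [Set.Finite.mem_toFinset, Set.mem_setOf_eq]
  · intro huniq
    exact inertia_of_unique664 hvw hx huniq
  · intro u hu hinj
    exact inertia_of_split664 hvw u hu hinj

end Fermat.Agent.LT.T7.H664

end

end
-- ===== PACK-END LT/T7/H664/PlacesCore.lean

-- ===== PACK-BEGIN LT/T3/R/H96/MeanActsR.lean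
section






/-!
# Row LT, tower T3, station T3.18R, leaf R.2 `R.MeanActsRC` (helper96, registry row 2299)

OFF-MAIN.  `meanActsRC96 : R.MeanActsRC` VERBATIM (`LT/T3/R/Spec.lean`, helper14, sha256
a528b35a): a test function `F` of weight `n` on `GL₂(ℝ)` acts on the joint eigenfunctions of the
circle means (class `locClassR n m`) by a scalar.

Proof = the `K`-average, with the circle `θ ↦ k_θ = rotR θ` in place of a Haar measure of `SO(2)`:
`2π ∫ Ψ(y h) F(h) dμ = ∫₀^{2π} ∫ χ(-θ) Ψ(y k_θ h) F(h) dμ dθ = ∫ J(h) F(h) dμ` (left invariance,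
weight of `F`, Fubini on `[0, 2π] × supp F`), `J(h) = ∫₀^{2π} χ(-θ) Ψ(y k_θ h) dθ`; for
`h = k_α · e^{ζ/2} a_t · k_β` (`cartanRC_h543`, helper543) `J(h) = 2π χ(α) χ(β) m̃(t) Ψ(y)`
(weight of `Ψ`, invariance under the positive scalars, periodicity, the circle mean property for
`Y θ = k_θ a_t k_{-θ}`; `m̃ t = m t` for `t > 0`, `m̃ 0 = 1`).  `C = ∫_{supp F} φ F dμ` with
`φ(h) = χ(α) χ(β) m̃(t)` for a CHOSEN Cartan decomposition of `h` (Bochner integral; NO
measurability of `m` or of `φ` is needed: the constant `Ψ(y)` is pulled out unconditionally).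
-/

set_option autoImplicit false
set_option linter.style.haveILetI false
set_option linter.unusedSectionVars false

open MeasureTheory
open Fermat.Agent.LT.T6 Fermat.Agent.LT.T6.H830 Fermat.Agent.LT.T6.H131
open Fermat.Agent.LT.T6.H162 Fermat.Agent.LT.T6.H543

noncomputable section

namespace Fermat.Agent.LT.T3.R.H96

open Fermat.Agent.LT.T3.R

/-! ## Topology of `GL₂(ℝ)` -/

theorem secondCountable_GLR96 : SecondCountableTopology (GL (Fin 2) ℝ) := by
  haveI : SecondCountableTopology (Matrix (Fin 2) (Fin 2) ℝ) :=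
    inferInstanceAs (SecondCountableTopology (Fin 2 → Fin 2 → ℝ))
  haveI : SecondCountableTopology (Matrix (Fin 2) (Fin 2) ℝ)ᵐᵒᵖ :=
    MulOpposite.opHomeomorph.symm.secondCountableTopology
  exact Units.isEmbedding_embedProduct.secondCountableTopology

/-! ## Rotations, the torus, the scalars -/

/-- `χ_n(k_{-θ}) = χ_n(k_θ)⁻¹`. -/
theorem wtChar_rot_neg96 (n : ℤ) (θ : ℝ) :
    wtChar n (rotR (-θ)) = (wtChar n (rotR θ))⁻¹ := by
  rw [wtChar_rotR_h131, wtChar_rotR_h131, ← Complex.exp_neg]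
  congr 1
  push_cast
  ring

/-- `χ_n(k_{-θ}) = χ_n(k_α) χ_n(k_{-(θ + α)})`. -/
theorem wtChar_rot_shift96 (n : ℤ) (θ α : ℝ) :
    wtChar n (rotR (-θ)) = wtChar n (rotR α) * wtChar n (rotR (-(θ + α))) := by
  rw [wtChar_rotR_h131, wtChar_rotR_h131, wtChar_rotR_h131, ← Complex.exp_add]
  congr 1
  push_cast
  ring

theorem rotR_periodic96 : Function.Periodic rotR (2 * Real.pi) := fun θ =>
  rotR_add_two_pi162 θ

theorem rotR_neg_periodic96 : Function.Periodic (fun θ => rotR (-θ)) (2 * Real.pi) := by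
  intro θ
  show rotR (-(θ + 2 * Real.pi)) = rotR (-θ)
  rw [← rotR_add_two_pi162 (-(θ + 2 * Real.pi))]
  congr 1
  ring

/-- `e^{ζ/2} a_t = a_t · e^{ζ/2}`. -/
theorem bR_split96 (ζ t : ℝ) : bR ζ t 0 = bR 0 t 0 * bR ζ 0 0 := by
  apply Units.ext
  rw [Units.val_mul, coe_bR830, coe_bR830, coe_bR830]
  have h1 : Real.exp ((ζ + t) / 2) = Real.exp ((0 + t) / 2) * Real.exp ((ζ + 0) / 2) := by
    rw [← Real.exp_add]; congr 1; ring
  have h2 : Real.exp ((ζ - t) / 2) = Real.exp ((0 - t) / 2) * Real.exp ((ζ - 0) / 2) := by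
    rw [← Real.exp_add]; congr 1; ring
  ext i j
  fin_cases i <;> fin_cases j <;> simp [Matrix.mul_apply, Fin.sum_univ_two, h1, h2]

theorem bR_scalar96 (ζ : ℝ) :
    ((bR ζ 0 0 : GL (Fin 2) ℝ) : Matrix (Fin 2) (Fin 2) ℝ)
      = Matrix.diagonal (fun _ => Real.exp (ζ / 2)) := by
  rw [coe_bR830]
  ext i j
  fin_cases i <;> fin_cases j <;> simp

theorem bR_zero96 : bR 0 0 0 = 1 := by
  apply Units.ext
  rw [coe_bR830]
  ext i j
  fin_cases i <;> fin_cases j <;> simp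

/-- The circle `Y θ = k_θ a_t k_{-θ}` has the matrix of the mean value property. -/
theorem circle_coe96 (t θ : ℝ) :
    ((rotR θ * bR 0 t 0 * rotR (-θ) : GL (Fin 2) ℝ) : Matrix (Fin 2) (Fin 2) ℝ)
      = !![Real.cos θ, -Real.sin θ; Real.sin θ, Real.cos θ]
          * !![Real.exp (t / 2), 0; 0, Real.exp (-(t / 2))]
          * !![Real.cos θ, Real.sin θ; -Real.sin θ, Real.cos θ] := by
  rw [Units.val_mul, Units.val_mul, coe_rotR830, coe_rotR830, coe_bR830]
  have h1 : Real.exp ((0 + t) / 2) = Real.exp (t / 2) := by congr 1; ring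
  have h2 : Real.exp ((0 - t) / 2) = Real.exp (-(t / 2)) := by congr 1; ring
  rw [h1, h2, Real.cos_neg, Real.sin_neg, neg_neg, mul_zero]

/-! ## The members of the class -/

section Class

variable {n : ℤ} {m : ℝ → ℂ} {Ψ : GL (Fin 2) ℝ → ℂ}

theorem cls_cont96 (hΨ : Ψ ∈ locClassR n m) : Continuous Ψ := hΨ.1

theorem cls_rot96 (hΨ : Ψ ∈ locClassR n m) (g : GL (Fin 2) ℝ) (β : ℝ) :
    Ψ (g * rotR β) = wtChar n (rotR β) * Ψ g :=
  hΨ.2.1 (rotR β) g (inSO2_rotR_h131 β)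

theorem cls_scalar96 (hΨ : Ψ ∈ locClassR n m) (g : GL (Fin 2) ℝ) (ζ : ℝ) :
    Ψ (g * bR ζ 0 0) = Ψ g :=
  hΨ.2.2.1 (bR ζ 0 0) g (Real.exp (ζ / 2)) (Real.exp_pos _) (bR_scalar96 ζ)

theorem cls_mean96 (hΨ : Ψ ∈ locClassR n m) {t : ℝ} (ht : 0 < t) (x : GL (Fin 2) ℝ) :
    (∫ θ in (0 : ℝ)..(2 * Real.pi), Ψ (x * (rotR θ * bR 0 t 0 * rotR (-θ))))
      = ((2 * Real.pi : ℝ) : ℂ) * m t * Ψ x :=
  hΨ.2.2.2 t ht (fun θ => rotR θ * bR 0 t 0 * rotR (-θ)) (fun θ => circle_coe96 t θ) x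

/-- The value of the eigenvalue function used by the average (`1` at `t = 0`). -/
def mT96 (m : ℝ → ℂ) (t : ℝ) : ℂ := if t = 0 then 1 else m t

/-- The circle mean, `t ≥ 0`. -/
theorem cls_mean_all96 (hΨ : Ψ ∈ locClassR n m) {t : ℝ} (ht : 0 ≤ t) (x : GL (Fin 2) ℝ) :
    (∫ θ in (0 : ℝ)..(2 * Real.pi), Ψ (x * (rotR θ * bR 0 t 0 * rotR (-θ))))
      = ((2 * Real.pi : ℝ) : ℂ) * mT96 m t * Ψ x := by
  rcases ht.eq_or_lt with h0 | hpos
  · subst h0
    have h1 : ∀ θ : ℝ, Ψ (x * (rotR θ * bR 0 0 0 * rotR (-θ))) = Ψ x := by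
      intro θ
      have h2 : rotR θ * rotR (-θ) = 1 := by
        have := rotR_neg_mul_rotR_h131 (-θ)
        rwa [neg_neg] at this
      rw [bR_zero96, mul_one, h2, mul_one]
    simp_rw [h1]
    rw [intervalIntegral.integral_const, mT96, if_pos rfl]
    simp
  · rw [mT96, if_neg hpos.ne']
    exact cls_mean96 hΨ hpos x

/-- **The `K`-average at a Cartan decomposition.** -/
theorem avg_cartan96 (hΨ : Ψ ∈ locClassR n m) (y : GL (Fin 2) ℝ) (ζ α β t : ℝ) (ht : 0 ≤ t) :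
    (∫ θ in (0 : ℝ)..(2 * Real.pi),
        wtChar n (rotR (-θ)) * Ψ (y * rotR θ * (rotR α * bR ζ t 0 * rotR β)))
      = ((2 * Real.pi : ℝ) : ℂ) * (wtChar n (rotR α) * wtChar n (rotR β) * mT96 m t) * Ψ y := by
  have hpt : ∀ θ : ℝ, wtChar n (rotR (-θ)) * Ψ (y * rotR θ * (rotR α * bR ζ t 0 * rotR β))
      = wtChar n (rotR α) * wtChar n (rotR β)
        * Ψ (y * (rotR (θ + α) * bR 0 t 0 * rotR (-(θ + α)))) := by
    intro θ
    have e1 : y * rotR θ * (rotR α * bR ζ t 0 * rotR β)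
        = (y * rotR (θ + α) * bR 0 t 0 * bR ζ 0 0) * rotR β := by
      rw [bR_split96 ζ t, ← rotR_mul_rotR162 θ α]
      simp only [mul_assoc]
    have e2 : y * (rotR (θ + α) * bR 0 t 0 * rotR (-(θ + α)))
        = (y * rotR (θ + α) * bR 0 t 0) * rotR (-(θ + α)) := by
      simp only [mul_assoc]
    rw [e1, cls_rot96 hΨ, cls_scalar96 hΨ, e2, cls_rot96 hΨ, wtChar_rot_shift96 n θ α]
    ring
  simp_rw [hpt]
  rw [intervalIntegral.integral_const_mul]
  have hper : Function.Periodic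
      (fun θ : ℝ => Ψ (y * (rotR θ * bR 0 t 0 * rotR (-θ)))) (2 * Real.pi) := by
    intro θ
    show Ψ (y * (rotR (θ + 2 * Real.pi) * bR 0 t 0 * rotR (-(θ + 2 * Real.pi)))) = _
    have h1 : rotR (-(θ + 2 * Real.pi)) = rotR (-θ) := rotR_neg_periodic96 θ
    rw [rotR_periodic96 θ, h1]
  have hshift : (∫ θ in (0 : ℝ)..(2 * Real.pi),
      Ψ (y * (rotR (θ + α) * bR 0 t 0 * rotR (-(θ + α)))))
      = ∫ θ in (0 : ℝ)..(2 * Real.pi), Ψ (y * (rotR θ * bR 0 t 0 * rotR (-θ))) := by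
    rw [intervalIntegral.integral_comp_add_right
      (fun θ : ℝ => Ψ (y * (rotR θ * bR 0 t 0 * rotR (-θ)))) α]
    have := hper.intervalIntegral_add_eq (0 + α) 0
    simp only [zero_add] at this
    rw [zero_add, add_comm (2 * Real.pi) α]
    exact this
  rw [hshift, cls_mean_all96 hΨ ht y]
  ring

end Class

/-! ## The function `φ` -/

open Classical in
/-- `φ(h) = χ(α) χ(β) m̃(t)` for a chosen Cartan decomposition `h = k_α e^{ζ/2} a_t k_β`
(`0` if `det h ≤ 0`). -/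
def phiR96 (n : ℤ) (m : ℝ → ℂ) (h : GL (Fin 2) ℝ) : ℂ :=
  if hd : 0 < (h : Matrix (Fin 2) (Fin 2) ℝ).det then
    wtChar n (rotR (cartanRC_h543 h hd).choose_spec.choose)
      * wtChar n (rotR (cartanRC_h543 h hd).choose_spec.choose_spec.choose)
      * mT96 m (cartanRC_h543 h hd).choose_spec.choose_spec.choose_spec.choose
  else 0

/-- **The `K`-average**: `∫₀^{2π} χ(-θ) Ψ(y k_θ h) dθ = 2π φ(h) Ψ(y)` for `det h > 0`. -/
theorem avg_point96 {n : ℤ} {m : ℝ → ℂ} {Ψ : GL (Fin 2) ℝ → ℂ} (hΨ : Ψ ∈ locClassR n m)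
    (y h : GL (Fin 2) ℝ) (hd : 0 < (h : Matrix (Fin 2) (Fin 2) ℝ).det) :
    (∫ θ in (0 : ℝ)..(2 * Real.pi), wtChar n (rotR (-θ)) * Ψ (y * rotR θ * h))
      = ((2 * Real.pi : ℝ) : ℂ) * phiR96 n m h * Ψ y := by
  have hspec := (cartanRC_h543 h hd).choose_spec.choose_spec.choose_spec.choose_spec
  rw [phiR96, dif_pos hd]
  have key := avg_cartan96 hΨ y (cartanRC_h543 h hd).choose
    (cartanRC_h543 h hd).choose_spec.choose
    (cartanRC_h543 h hd).choose_spec.choose_spec.choose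
    (cartanRC_h543 h hd).choose_spec.choose_spec.choose_spec.choose hspec.1
  rw [← hspec.2] at key
  exact key

/-! ## The core -/

section Core

local instance borelGLR96 : MeasurableSpace (GL (Fin 2) ℝ) := borel (GL (Fin 2) ℝ)

local instance borelSpaceGLR96 : BorelSpace (GL (Fin 2) ℝ) := ⟨rfl⟩

local instance sctGLR96 : SecondCountableTopology (GL (Fin 2) ℝ) := secondCountable_GLR96

/-- **The core**: the scalar is `∫_{supp F} φ F dμ`. -/
theorem actsOnR96 (μ : Measure (GL (Fin 2) ℝ)) [μ.IsHaarMeasure] (n : ℤ)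
    (F : GL (Fin 2) ℝ → ℂ) (hF : IsArchTestR n F) (m : ℝ → ℂ) :
    ActsOnR μ F (locClassR n m) (∫ h in tsupport F, phiR96 n m h * F h ∂μ) := by
  intro Ψ hΨ y
  have hΨc : Continuous Ψ := cls_cont96 hΨ
  have hFc : Continuous F := hF.cont
  have hS : IsCompact (tsupport F) := hF.supp
  have hSm : MeasurableSet (tsupport F) := (isClosed_tsupport F).measurableSet
  haveI : IsFiniteMeasure (μ.restrict (tsupport F)) :=
    ⟨by rw [Measure.restrict_apply_univ]; exact hS.measure_lt_top⟩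
  have h2pi : (0 : ℝ) ≤ 2 * Real.pi := by positivity
  set lam : Measure ℝ := (volume : Measure ℝ).restrict (Set.Ioc 0 (2 * Real.pi)) with hlam
  haveI : IsFiniteMeasure lam :=
    ⟨by rw [hlam, Measure.restrict_apply_univ, Real.volume_Ioc]; exact ENNReal.ofReal_lt_top⟩
  have hsupp : ∀ g : GL (Fin 2) ℝ → ℂ,
      ∫ h in tsupport F, g h * F h ∂μ = ∫ h, g h * F h ∂μ := by
    intro g
    refine setIntegral_eq_integral_of_forall_compl_eq_zero fun h hh => ?_
    rw [image_eq_zero_of_notMem_tsupport hh, mul_zero]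
  -- step 1: translation by a rotation
  have htrans : ∀ θ : ℝ,
      ∫ h in tsupport F, (wtChar n (rotR (-θ)) * Ψ (y * rotR θ * h)) * F h ∂μ
        = ∫ h, Ψ (y * h) * F h ∂μ := by
    intro θ
    rw [hsupp (fun h => wtChar n (rotR (-θ)) * Ψ (y * rotR θ * h))]
    have h1 := integral_mul_left_eq_self (μ := μ) (fun h => Ψ (y * h) * F h) (rotR θ)
    rw [← h1]
    refine integral_congr_ae (Filter.Eventually.of_forall fun h => ?_)
    show wtChar n (rotR (-θ)) * Ψ (y * rotR θ * h) * F h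
      = Ψ (y * (rotR θ * h)) * F (rotR θ * h)
    rw [hF.left (rotR θ) h (inSO2_rotR_h131 θ), wtChar_rot_neg96, mul_assoc y]
    ring
  -- step 2: Fubini
  let Ff : ℝ → GL (Fin 2) ℝ → ℂ := fun θ h =>
    (wtChar n (rotR (-θ)) * Ψ (y * rotR θ * h)) * F h
  have hFfcont : Continuous (Function.uncurry Ff) := by
    have h0 : Continuous fun z : ℝ × GL (Fin 2) ℝ => wtChar n (rotR (-z.1)) := by
      have : (fun z : ℝ × GL (Fin 2) ℝ => wtChar n (rotR (-z.1)))
          = fun z : ℝ × GL (Fin 2) ℝ =>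
            Complex.exp ((n : ℂ) * ((((-z.1 : ℝ)) : ℂ) * Complex.I)) := by
        funext z
        rw [wtChar_rotR_h131]
      rw [this]
      fun_prop
    have h1 : Continuous fun z : ℝ × GL (Fin 2) ℝ => Ψ (y * rotR z.1 * z.2) :=
      hΨc.comp ((continuous_const.mul (continuous_rotR_h131.comp continuous_fst)).mul
        continuous_snd)
    exact (h0.mul h1).mul (hFc.comp continuous_snd)
  obtain ⟨C, hC⟩ := ((isCompact_Icc (a := (0 : ℝ)) (b := 2 * Real.pi)).prod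
    hS).exists_bound_of_continuousOn hFfcont.continuousOn
  have hint : Integrable (Function.uncurry Ff) (lam.prod (μ.restrict (tsupport F))) := by
    refine Integrable.of_bound hFfcont.aestronglyMeasurable C ?_
    have hmeas : MeasurableSet
        {z : ℝ × GL (Fin 2) ℝ | z.1 ∈ Set.Icc (0 : ℝ) (2 * Real.pi) ∧ z.2 ∈ tsupport F} :=
      measurableSet_Icc.prod hSm
    have hae : ∀ᵐ z ∂lam.prod (μ.restrict (tsupport F)),
        z.1 ∈ Set.Icc (0 : ℝ) (2 * Real.pi) ∧ z.2 ∈ tsupport F := by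
      rw [Measure.ae_prod_iff_ae_ae hmeas]
      have hA : ∀ᵐ a ∂lam, a ∈ Set.Icc (0 : ℝ) (2 * Real.pi) := by
        rw [hlam]
        filter_upwards [ae_restrict_mem measurableSet_Ioc] with a ha
        exact Set.Ioc_subset_Icc_self ha
      filter_upwards [hA] with a ha
      filter_upwards [ae_restrict_mem hSm] with b hb
      exact ⟨ha, hb⟩
    filter_upwards [hae] with z hz
    exact hC z ⟨hz.1, hz.2⟩
  have hswap : ∫ θ, ∫ h, Ff θ h ∂(μ.restrict (tsupport F)) ∂lam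
      = ∫ h, ∫ θ, Ff θ h ∂lam ∂(μ.restrict (tsupport F)) := integral_integral_swap hint
  have hleft : ∫ θ, ∫ h, Ff θ h ∂(μ.restrict (tsupport F)) ∂lam
      = ((2 * Real.pi : ℝ) : ℂ) * ∫ h, Ψ (y * h) * F h ∂μ := by
    have : ∀ θ : ℝ, ∫ h, Ff θ h ∂(μ.restrict (tsupport F)) = ∫ h, Ψ (y * h) * F h ∂μ :=
      fun θ => htrans θ
    simp_rw [this]
    rw [integral_const, hlam, Measure.real, Measure.restrict_apply_univ, Real.volume_Ioc,
      sub_zero, ENNReal.toReal_ofReal h2pi, Complex.real_smul]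
  have hright : ∀ h : GL (Fin 2) ℝ, ∫ θ, Ff θ h ∂lam
      = (((2 * Real.pi : ℝ) : ℂ) * Ψ y) * (phiR96 n m h * F h) := by
    intro h
    simp only [Ff]
    rw [integral_mul_const]
    by_cases hFh : F h = 0
    · rw [hFh, mul_zero, mul_zero, mul_zero]
    · have hd := hF.pos h hFh
      have := avg_point96 hΨ y h hd
      rw [intervalIntegral.integral_of_le h2pi] at this
      rw [hlam, this]
      ring
  have hpi : ((2 * Real.pi : ℝ) : ℂ) ≠ 0 := by
    exact_mod_cast (by positivity : (2 * Real.pi : ℝ) ≠ 0)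
  have hfin : ((2 * Real.pi : ℝ) : ℂ) * ∫ h, Ψ (y * h) * F h ∂μ
      = ((2 * Real.pi : ℝ) : ℂ) * ((∫ h in tsupport F, phiR96 n m h * F h ∂μ) * Ψ y) := by
    rw [← hleft, hswap]
    simp_rw [hright]
    rw [integral_const_mul]
    ring
  exact mul_left_cancel₀ hpi hfin

end Core

/-- **R.2 `MeanActsRC`** (`LT/T3/R/Spec.lean`, VERBATIM). -/
theorem meanActsRC96 : MeanActsRC := by
  intro μr hμr n _ m F hF
  haveI := hμr
  exact ⟨_, actsOnR96 μr n F hF m⟩

/-- The statement, spelled out (check against the bytes of `R/Spec.lean`). -/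
example :
    letI : MeasurableSpace (GL (Fin 2) ℝ) := borel (GL (Fin 2) ℝ)
    ∀ μr : Measure (GL (Fin 2) ℝ), μr.IsHaarMeasure →
    ∀ n : ℤ, _root_.Fermat.Agent.LT.T3.R.IsWt n → ∀ m : ℝ → ℂ, ∀ F : GL (Fin 2) ℝ → ℂ, T6.IsArchTestR n F →
      ∃ C : ℂ, ∀ Ψ ∈ locClassR n m, ∀ y : GL (Fin 2) ℝ,
        ∫ h, Ψ (y * h) * F h ∂μr = C * Ψ y :=
  meanActsRC96

end Fermat.Agent.LT.T3.R.H96

end

end
-- ===== PACK-END LT/T3/R/H96/MeanActsR.lean

-- ===== PACK-BEGIN LT/T3/R/H981/LocOfMean.lean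
section



/-!
# Row LT, tower T3, station T3.18R, leaf R.10 `LocOfMeanRC` (helper981, OFF-MAIN)

`locOfMeanRC981 (K) : R.LocOfMeanRC K` = the frozen Prop of `LT/T3/R/Spec.lean`
(helper14@15de5f60f, sha256 a528b35a), VERBATIM, unconditional, every number field.

Proof.  `reEmb981 hR : ∏_w GL₂(ℝ) →* GL₂(𝔸_K)` is the continuous embedding of the real
components (the inverse `ℝ → K_w` of `extensionEmbeddingOfIsReal` at every place, `1` at the
finite places).  An element which is local at `w` is the image of the family supported at `w`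
of its component (`eq_reEmbAt_of_local981`); so every section `Y` of `reGL` at `w` with local
values is `reEmbAt981 hR w`: unique, multiplicative and continuous.  The four clauses of
`locClassR` are then the four fields `cont`, `arch_compact`, `arch_scalar`, `mean` of
`IsMeanLevelR` (the type `typeR n` of an element supported at `w` is `wtChar (n w)` of its
component, `wtChar n 1 = 1`).
-/

set_option autoImplicit false
set_option linter.style.haveILetI false
set_option linter.unusedSectionVars false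

open IsDedekindDomain NumberField Topology MeasureTheory
open Fermat.Agent.LT.H556.A0

noncomputable section

namespace Fermat.Agent.LT.T3.R.H981

variable {K : Type} [Field K] [NumberField K]

/-! ## 0. Adeles and adelic matrices by components -/

theorem adl_ext981 {x y : Adl K} (h1 : ∀ w : InfinitePlace K, x.1 w = y.1 w)
    (h2 : ∀ v : HeightOneSpectrum (𝓞 K), x.2 v = y.2 v) : x = y := by
  refine Prod.ext (funext h1) ?_
  exact RestrictedProduct.ext _ _ h2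

/-! ## 1. The embedding of the real components -/

/-- The inverse of the embedding `K_w → ℝ` at a real place. -/
def rInv981 (w : InfinitePlace K) (hw : w.IsReal) : ℝ →+* w.Completion :=
  ((InfinitePlace.Completion.ringEquivRealOfIsReal hw).symm : ℝ ≃+* w.Completion)

theorem ext_rInv981 (w : InfinitePlace K) (hw : w.IsReal) (x : ℝ) :
    InfinitePlace.Completion.extensionEmbeddingOfIsReal hw (rInv981 w hw x) = x :=
  (InfinitePlace.Completion.ringEquivRealOfIsReal hw).apply_symm_apply x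

theorem rInv_ext981 (w : InfinitePlace K) (hw : w.IsReal) (x : w.Completion) :
    rInv981 w hw (InfinitePlace.Completion.extensionEmbeddingOfIsReal hw x) = x :=
  (InfinitePlace.Completion.ringEquivRealOfIsReal hw).symm_apply_apply x

theorem continuous_rInv981 (w : InfinitePlace K) (hw : w.IsReal) :
    Continuous (rInv981 w hw) :=
  (InfinitePlace.Completion.isometryEquivRealOfIsReal hw).symm.continuous

variable (hR : ∀ w : InfinitePlace K, w.IsReal)

/-- The adelic matrix with components `t w` at the (real) infinite places and `1` at the finite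
places. -/
def reMat981 (t : InfinitePlace K → Matrix (Fin 2) (Fin 2) ℝ) :
    Matrix (Fin 2) (Fin 2) (Adl K) :=
  fun i j => (fun w => rInv981 w (hR w) (t w i j), ((1 : Matrix (Fin 2) (Fin 2) (Adl K)) i j).2)

theorem reMat_inf981 (t : InfinitePlace K → Matrix (Fin 2) (Fin 2) ℝ) (w : InfinitePlace K)
    (i j : Fin 2) : (reMat981 hR t i j).1 w = rInv981 w (hR w) (t w i j) := rfl

theorem reMat_fin981 (t : InfinitePlace K → Matrix (Fin 2) (Fin 2) ℝ)
    (v : HeightOneSpectrum (𝓞 K)) (i j : Fin 2) :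
    (reMat981 hR t i j).2 v = (1 : Matrix (Fin 2) (Fin 2) (v.adicCompletion K)) i j := by
  change ((1 : Matrix (Fin 2) (Fin 2) (Adl K)) i j).2 v = _
  rw [Matrix.one_apply, Matrix.one_apply]
  split_ifs <;> rfl

theorem mul_inf981 (A B : Matrix (Fin 2) (Fin 2) (Adl K)) (w : InfinitePlace K) (i j : Fin 2) :
    ((A * B) i j).1 w = ∑ k : Fin 2, (A i k).1 w * (B k j).1 w := by
  rw [Matrix.mul_apply]
  simp only [Fin.sum_univ_two]
  rfl

theorem mul_fin981 (A B : Matrix (Fin 2) (Fin 2) (Adl K)) (v : HeightOneSpectrum (𝓞 K))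
    (i j : Fin 2) : ((A * B) i j).2 v = ∑ k : Fin 2, (A i k).2 v * (B k j).2 v := by
  rw [Matrix.mul_apply]
  simp only [Fin.sum_univ_two]
  rfl

theorem reMat_mul981 (s t : InfinitePlace K → Matrix (Fin 2) (Fin 2) ℝ) :
    reMat981 hR s * reMat981 hR t = reMat981 hR (fun w => s w * t w) := by
  ext i j : 2
  refine adl_ext981 (fun w => ?_) (fun v => ?_)
  · rw [mul_inf981, reMat_inf981, Matrix.mul_apply, map_sum]
    refine Finset.sum_congr rfl fun k _ => ?_
    rw [reMat_inf981, reMat_inf981, map_mul]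
  · rw [mul_fin981, reMat_fin981]
    simp only [reMat_fin981]
    rw [← Matrix.mul_apply, mul_one]

theorem reMat_one981 :
    reMat981 hR (fun _ => (1 : Matrix (Fin 2) (Fin 2) ℝ)) = 1 := by
  ext i j : 2
  refine adl_ext981 (fun w => ?_) (fun v => ?_)
  · rw [reMat_inf981, Matrix.one_apply, Matrix.one_apply]
    split_ifs
    · rw [map_one]; rfl
    · rw [map_zero]; rfl
  · rfl

/-- The embedding `∏_w GL₂(ℝ) → GL₂(𝔸_K)` (`K` totally real). -/
def reEmb981 : (InfinitePlace K → GL (Fin 2) ℝ) →* G K where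
  toFun t :=
    ⟨reMat981 hR (fun w => ((t w : GL (Fin 2) ℝ) : Matrix (Fin 2) (Fin 2) ℝ)),
      reMat981 hR (fun w => (((t w)⁻¹ : GL (Fin 2) ℝ) : Matrix (Fin 2) (Fin 2) ℝ)),
      by
        rw [reMat_mul981]
        simp only [← Units.val_mul, mul_inv_cancel, Units.val_one]
        exact reMat_one981 hR,
      by
        rw [reMat_mul981]
        simp only [← Units.val_mul, inv_mul_cancel, Units.val_one]
        exact reMat_one981 hR⟩
  map_one' := by
    apply Units.ext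
    exact reMat_one981 hR
  map_mul' s t := by
    apply Units.ext
    change reMat981 hR _ = reMat981 hR _ * reMat981 hR _
    rw [reMat_mul981]
    rfl

theorem reEmb_val981 (t : InfinitePlace K → GL (Fin 2) ℝ) :
    ((reEmb981 hR t : G K) : Matrix (Fin 2) (Fin 2) (Adl K))
      = reMat981 hR (fun w => ((t w : GL (Fin 2) ℝ) : Matrix (Fin 2) (Fin 2) ℝ)) := rfl

theorem reGL_val981 (w : InfinitePlace K) (hw : w.IsReal) (g : G K) (i j : Fin 2) :
    ((reGL K w hw g : GL (Fin 2) ℝ) : Matrix (Fin 2) (Fin 2) ℝ) i j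
      = InfinitePlace.Completion.extensionEmbeddingOfIsReal hw
          (((g : Matrix (Fin 2) (Fin 2) (Adl K)) i j).1 w) := rfl

theorem reGL_reEmb981 (t : InfinitePlace K → GL (Fin 2) ℝ) (w : InfinitePlace K) :
    reGL K w (hR w) (reEmb981 hR t) = t w := by
  apply Units.ext
  ext i j
  rw [reGL_val981, reEmb_val981, reMat_inf981]
  exact ext_rInv981 w (hR w) _

theorem continuous_reMat981 :
    Continuous (fun t : InfinitePlace K → GL (Fin 2) ℝ =>
      reMat981 hR (fun w => ((t w : GL (Fin 2) ℝ) : Matrix (Fin 2) (Fin 2) ℝ))) := by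
  refine continuous_matrix fun i j => ?_
  refine Continuous.prodMk (continuous_pi fun w => ?_) continuous_const
  refine (continuous_rInv981 w (hR w)).comp ?_
  exact (Units.continuous_val.comp (continuous_apply w)).matrix_elem i j

theorem continuous_reEmb981 : Continuous (reEmb981 hR) := by
  rw [Units.continuous_iff]
  refine ⟨continuous_reMat981 hR, ?_⟩
  have h : Continuous (fun t : InfinitePlace K → GL (Fin 2) ℝ => t⁻¹) := continuous_inv
  exact (continuous_reMat981 hR).comp h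

theorem trivAtFin_reEmb981 (t : InfinitePlace K → GL (Fin 2) ℝ)
    (v : HeightOneSpectrum (𝓞 K)) : TrivAtFin v (reEmb981 hR t) :=
  Matrix.ext fun i j => reMat_fin981 hR _ v i j

open Classical in
/-- The embedding of `GL₂(ℝ)` at the real place `w`. -/
def reEmbAt981 (w : InfinitePlace K) : GL (Fin 2) ℝ →* G K :=
  (reEmb981 hR).comp (MonoidHom.mulSingle (fun _ : InfinitePlace K => GL (Fin 2) ℝ) w)

open Classical in
theorem reEmbAt_apply981 (w : InfinitePlace K) (s : GL (Fin 2) ℝ) :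
    reEmbAt981 hR w s = reEmb981 hR (Pi.mulSingle w s) := rfl

theorem continuous_reEmbAt981 (w : InfinitePlace K) : Continuous (reEmbAt981 hR w) := by
  classical
  have h : Continuous (fun s : GL (Fin 2) ℝ =>
      (Pi.mulSingle w s : InfinitePlace K → GL (Fin 2) ℝ)) :=
    continuous_mulSingle (A := fun _ : InfinitePlace K => GL (Fin 2) ℝ) w
  exact (continuous_reEmb981 hR).comp h

theorem reGL_reEmbAt981 (w : InfinitePlace K) (s : GL (Fin 2) ℝ) :
    reGL K w (hR w) (reEmbAt981 hR w s) = s := by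
  classical
  rw [reEmbAt_apply981, reGL_reEmb981, Pi.mulSingle_eq_same]

theorem reGL_reEmbAt_ne981 (w : InfinitePlace K) (s : GL (Fin 2) ℝ) (w' : InfinitePlace K)
    (hw : w' ≠ w) : reGL K w' (hR w') (reEmbAt981 hR w s) = 1 := by
  classical
  rw [reEmbAt_apply981, reGL_reEmb981, Pi.mulSingle_eq_of_ne hw]

theorem isLocalAtInf_reEmbAt981 (w : InfinitePlace K) (s : GL (Fin 2) ℝ) :
    IsLocalAtInf w (reEmbAt981 hR w s) := by
  classical
  refine ⟨fun w' hw i j => ?_, fun v => trivAtFin_reEmb981 hR _ v⟩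
  rw [reEmbAt_apply981, reEmb_val981, reMat_inf981, Pi.mulSingle_eq_of_ne hw, Units.val_one,
    Matrix.one_apply, Matrix.one_apply]
  split_ifs
  · rw [map_one]
  · rw [map_zero]

/-- An element which is local at `w` is the image of its component at `w`. -/
theorem eq_reEmbAt_of_local981 (w : InfinitePlace K) (a : G K) (ha : IsLocalAtInf w a) :
    a = reEmbAt981 hR w (reGL K w (hR w) a) := by
  classical
  apply Units.ext
  ext i j : 2
  refine adl_ext981 (fun w' => ?_) (fun v => ?_)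
  · rw [reEmbAt_apply981, reEmb_val981, reMat_inf981]
    by_cases hw : w' = w
    · subst hw
      rw [Pi.mulSingle_eq_same, reGL_val981, rInv_ext981]
    · rw [Pi.mulSingle_eq_of_ne hw, Units.val_one, ha.1 w' hw i j, Matrix.one_apply,
        Matrix.one_apply]
      split_ifs
      · rw [map_one]
      · rw [map_zero]
  · have h1 : finComp v a i j = (1 : Matrix (Fin 2) (Fin 2) (v.adicCompletion K)) i j := by
      rw [show finComp v a = 1 from ha.2 v]
    have h2 := congrFun (congrFun (trivAtFin_reEmb981 hR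
      (Pi.mulSingle w (reGL K w (hR w) a)) v) i) j
    exact h1.trans h2.symm

/-- A section of `reGL` at `w` with local values is `reEmbAt981`. -/
theorem section_eq981 (w : InfinitePlace K) (Y : GL (Fin 2) ℝ → G K)
    (hY : ∀ y : GL (Fin 2) ℝ, IsLocalAtInf w (Y y) ∧ reGL K w (hR w) (Y y) = y) :
    Y = reEmbAt981 hR w := by
  funext y
  have := eq_reEmbAt_of_local981 hR w (Y y) (hY y).1
  rw [(hY y).2] at this
  exact this

/-! ## 2. The component at `w` in `ℂ` -/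

theorem infComp_reEmbAt981 (w : InfinitePlace K) (s : GL (Fin 2) ℝ) :
    infComp w (reEmbAt981 hR w s)
      = (s : Matrix (Fin 2) (Fin 2) ℝ).map (algebraMap ℝ ℂ) := by
  ext i j
  rw [infComp_eq_reGL K w (hR w), reGL_reEmbAt981]
  rfl

theorem holPart_one981 : T6.holPart (1 : GL (Fin 2) ℝ) = 1 := by
  unfold T6.holPart
  simp

theorem wtChar_one981 (n : ℤ) : T6.wtChar n (1 : GL (Fin 2) ℝ) = 1 := by
  unfold T6.wtChar
  rw [holPart_one981, one_zpow]

theorem typeR_reEmbAt981 (n : InfinitePlace K → ℤ) (w : InfinitePlace K) (s : GL (Fin 2) ℝ) :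
    typeR K hR n (reEmbAt981 hR w s) = T6.wtChar (n w) s := by
  unfold typeR
  rw [Finset.prod_eq_single w]
  · rw [reGL_reEmbAt981]
  · intro w' _ hw
    rw [reGL_reEmbAt_ne981 hR w s w' hw, wtChar_one981]
  · intro h
    exact absurd (Finset.mem_univ w) h

theorem isArchCompact_reEmbAt981 (w : InfinitePlace K) (k : GL (Fin 2) ℝ) (hk : T6.InSO2 k) :
    IsArchCompact w (reEmbAt981 hR w k) := by
  refine ⟨isLocalAtInf_reEmbAt981 hR w k, ?_, fun _ => ?_⟩
  · rw [infComp_reEmbAt981]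
    have h1 : ((k : Matrix (Fin 2) (Fin 2) ℝ).map (algebraMap ℝ ℂ)).conjTranspose
        = ((k : Matrix (Fin 2) (Fin 2) ℝ).transpose).map (algebraMap ℝ ℂ) := by
      ext i j
      simp [Matrix.conjTranspose_apply, Matrix.map_apply]
    rw [h1, ← Matrix.map_mul, hk.1, Matrix.map_one _ (map_zero _) (map_one _)]
  · rw [infComp_reEmbAt981]
    have h2 := (RingHom.map_det (algebraMap ℝ ℂ) (k : Matrix (Fin 2) (Fin 2) ℝ)).symm
    rw [RingHom.mapMatrix_apply] at h2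
    rw [h2, hk.2, map_one]

theorem isArchPosScalar_reEmbAt981 (w : InfinitePlace K) (z : GL (Fin 2) ℝ) (r : ℝ)
    (hr : 0 < r) (hz : (z : Matrix (Fin 2) (Fin 2) ℝ) = Matrix.diagonal (fun _ => r)) :
    IsArchPosScalar w (reEmbAt981 hR w z) := by
  refine ⟨isLocalAtInf_reEmbAt981 hR w z, r, hr, ?_⟩
  rw [infComp_reEmbAt981, hz]
  ext i j
  rw [Matrix.map_apply, Matrix.diagonal_apply, Matrix.diagonal_apply]
  split_ifs
  · rfl
  · exact map_zero _

/-! ## 3. The leaf -/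

/-- **Leaf R.10 `LocOfMeanRC`**, VERBATIM, unconditional. -/
theorem locOfMeanRC981 (K : Type) [Field K] [NumberField K] : R.LocOfMeanRC K := by
  intro hR 𝔫 n m φ hφ
  refine ⟨hφ.cont, hφ.level_inv, ?_⟩
  intro w Y hY g
  have hYe : Y = reEmbAt981 hR w := section_eq981 hR w Y hY
  subst hYe
  refine ⟨?_, ?_, ?_, ?_⟩
  · exact hφ.cont.comp (continuous_const.mul (continuous_reEmbAt981 hR w))
  · intro k y hk
    change φ (g * reEmbAt981 hR w (y * k)) = T6.wtChar (n w) k * φ (g * reEmbAt981 hR w y)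
    rw [map_mul, ← mul_assoc, hφ.arch_compact w _ (isArchCompact_reEmbAt981 hR w k hk),
      typeR_reEmbAt981]
  · intro z y r hr hz
    change φ (g * reEmbAt981 hR w (y * z)) = φ (g * reEmbAt981 hR w y)
    rw [map_mul, ← mul_assoc]
    exact hφ.arch_scalar w _ (isArchPosScalar_reEmbAt981 hR w z r hr hz) _
  · intro t ht Y' hY' x
    have h := hφ.mean w t ht (fun θ => reEmbAt981 hR w (Y' θ))
      (fun θ => ⟨isLocalAtInf_reEmbAt981 hR w _, by rw [reGL_reEmbAt981]; exact hY' θ⟩)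
      (g * reEmbAt981 hR w x)
    simp only [map_mul, ← mul_assoc]
    exact h

example (K : Type) [Field K] [NumberField K] :
    ∀ (hR : ∀ w : InfinitePlace K, w.IsReal) (𝔫 : Ideal (𝓞 K)) (n : InfinitePlace K → ℤ)
      (m : InfinitePlace K → ℝ → ℂ) (φ : G K → ℂ),
      IsMeanLevelR K hR 𝔫 n m φ →
        IsClassLevelR K hR 𝔫 (fun w => locClassR (n w) (m w)) φ :=
  locOfMeanRC981 K

end Fermat.Agent.LT.T3.R.H981

end

end
-- ===== PACK-END LT/T3/R/H981/LocOfMean.lean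

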