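import Mathlib
import Fermat.Agent.Pack.LT2.E12L2
import Fermat.Agent.Pack.LT2.E6L1
import Fermat.Agent.Pack.LT4.E1L3
import Fermat.Agent.Pack.LT2.E11L2
import Fermat.Agent.Pack.LT2.E15L1
import Fermat.Agent.Pack.LT2.E12L1
import Fermat.Agent.Pack.LT2.E13L2
import Fermat.Agent.Pack.LT2.E17L1
import Fermat.Agent.Pack.LT2.E14L0
import Fermat.Agent.Pack.LT2.E7L3
import Fermat.Agent.Pack.LT2.E7L2
import Fermat.Agent.Pack.LT3.E18L3
import Fermat.Agent.Pack.LT2.E0L2
import Fermat.Agent.Pack.LT2.E3L1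
import Fermat.Agent.Pack.LT3.E8L2
import Fermat.Agent.Pack.LT3.E8L0
import Fermat.Agent.Pack.LT2.E16L2
import Fermat.Agent.Pack.LT3.E22L3
import Fermat.Agent.Pack.LT3.E22L2
import Fermat.Agent.Pack.LT4.E1L1
import Fermat.Agent.Pack.LT3.E14L1
import Fermat.Agent.Pack.LT3.E20L3
import Fermat.Agent.Pack.LT4.E0L1
import Fermat.Agent.Pack.LT2.E8L2
import Fermat.Agent.Pack.LT2.E2L2
import Fermat.Agent.Pack.LT3.E2L3
import Fermat.Agent.Pack.LT4.E1L0

set_option linter.all false

-- ===== PACK-BEGIN LT/T7/H231/RigidClosed.lean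
section










/-!
# Row LT, tower T7, node T7.14 `RigidAll`: INTEGRATION of the closed leaves (helper231)

OFF-MAIN.  The cut is the sub-architect's (helper62: `RigidSpec.lean` a87f852b, `RigidPkg.lean`
a2b090c0, `RigidAut.lean` e1add0c1; `rigidC_of_aut`).  This file imports byte-identical copies of
the volunteers' files in ONE closure and discharges the closed leaves.

| leaf | registry | state |
|---|---|---|
| frame (`∃ μ F, T5.IsFrame μ F`) | -- | CLOSED: `T1/Closed.lean` (helper54 `t1Out`) + `T5/H62/FrameExists.lean` (helper62) |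
| T7.14.0 `PlaceSumC` | 1231 | CLOSED helper954 `placeSumC954` |
| T7.14.1 `EulerLogC` | 1357 / 1614 | CLOSED helper27 `eulerLogC27` |
| T7.14.2 `AbelC` | 1358 | CLOSED helper362 `abelC362` |
| T7.14.5 `NormPosC` | 1521 | CLOSED helper250 `normPosC250` |
| T7.14.3 `CountC` | 1519 | OPEN (helper671; sub-leaves 1656, 1657) |
| T7.14.4 `OrthC` | 1520 | CLOSED helper555 `orthC555` (15:07Z; second proof helper878 `orthC878`) |
| T7.14.6 `StripC` (node) | 1522 | OPEN (helper62) |
-/

set_option autoImplicit false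

open MeasureTheory

namespace Fermat.Agent.LT.T7.H231

open Fermat.Agent.LT.T7

attribute [local instance] Fermat.Agent.LT.T5.instMeasurableSpaceG

/-- A frame exists for every number field (T1 is closed). -/
theorem frame_exists231 (K : Type) [Field K] [NumberField K] :
    ∃ (μ : Measure (Fermat.Agent.LT.H556.A0.G K)) (F : Set (Fermat.Agent.LT.H556.A0.G K)),
      Fermat.Agent.LT.T5.IsFrame μ F := by
  obtain ⟨μ, F, _, hF, _, _⟩ :=
    Fermat.Agent.LT.T5.H62.frame_exists_of_T1Out62 K ⊤ (Fermat.Agent.LT.T1.t1Out K)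
  exact ⟨μ, F, hF⟩

/-- THE OPEN PART of node T7.14: the leaves still to be proved. -/
structure RigidOpen231 : Prop where
  /-- NODE T7.14.6: the strip identity. -/
  strip : ∀ (K : Type) [Field K] [NumberField K], Rigid.StripC K
  /-- LEAF T7.14.3: points of `ℙ¹(K)` of bounded twisted height. -/
  count : ∀ (K : Type) [Field K] [NumberField K], Rigid.CountC K
  /-- LEAF T7.14.4: Hecke orthogonality on the frame. -/
  orth : ∀ (K : Type) [Field K] [NumberField K], Rigid.OrthC K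

/-- STATE OF THE NODE: `T7.RigidAll` from its three open leaves. -/
theorem rigidAll_of_open231 (O : RigidOpen231) : RigidAll := fun K _ _ =>
  Rigid.rigidC_of_aut (frame_exists231 K) (Fermat.Agent.LT.T7.H954.placeSumC954 K)
    (Fermat.Agent.LT.T7.H27.eulerLogC27 K) (Fermat.Agent.LT.T7.H362.abelC362 K) (O.strip K)
    (O.count K) (O.orth K) (Fermat.Agent.LT.T7.H250.normPosC250 K)

/-- `OrthC` is closed (helper555). -/
theorem orthC_closed231 (K : Type) [Field K] [NumberField K] : Rigid.OrthC K :=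
  Fermat.Agent.LT.T7.H555.orthC555 K

/-- STATE OF THE NODE (15:15Z): `T7.RigidAll` from the node `StripC` and the leaf `CountC`. -/
theorem rigidAll_of231 (hStrip : ∀ (K : Type) [Field K] [NumberField K], Rigid.StripC K)
    (hCount : ∀ (K : Type) [Field K] [NumberField K], Rigid.CountC K) : RigidAll :=
  rigidAll_of_open231 ⟨hStrip, hCount, orthC_closed231⟩

end Fermat.Agent.LT.T7.H231

end
-- ===== PACK-END LT/T7/H231/RigidClosed.lean

-- ===== PACK-BEGIN LT/T7/H32/Geom.lean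
section







/-!
# Row LT, tower T7, leaf T7.G1 `GeomC` (class bijection) — SPARE of helper32, UNCONDITIONAL

OFF-MAIN.  `geomC32 : T7.GeomC K K'`, VERBATIM against `T7/Matching.lean` (helper797@cb30661f3,
sha256 0549163e), for every pair of number fields.

Proof.  Fundamental domains of the twisted centralisers exist (`GeomDom.lean`), so
`T5.GeomUnfold` writes both geometric sides as finite sums of class integrals
`I'(c') = ∫_{F_{δ}} φ'♭(x⁻¹ δ σ(x)) dx`, `I(c) = ∫_{F_γ} f♭(x⁻¹ γ x) dx`.  A class with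
`I' ≠ 0` has elliptic regular norm (σ-regularity), a class with `I ≠ 0` is elliptic (regularity).
The map `Φ : c' ↦` (class of a `K`-rational conjugate of `N δ`, `T6.NormClassC`) is a bijection
from the support of `I'` onto the support of `I`:
* `I'(c') = I(Φ c')` (matching), so `Φ` maps the support into the support;
* injective: `T6.NormInjC`;
* surjective: a class `c` with `I(c) ≠ 0` is a norm (otherwise `I(c) = 0`: `nonnorm`), say of
  `δ`; then `I'([δ]) = I(c)` and `Φ [δ] = c` because two elements of `GL₂(K)` without eigenvalue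
  in `K` which are conjugate in `GL₂(K')` are conjugate in `GL₂(K)` (companion matrix).
-/

set_option autoImplicit false

open IsDedekindDomain NumberField MeasureTheory

noncomputable section

namespace Fermat.Agent.LT.T7.H32

open Fermat.Agent.LT Fermat.Agent.LT.H556 Fermat.Agent.LT.H556.A0 Fermat.Agent.LT.T7

attribute [local instance] Fermat.Agent.LT.T5.instMeasurableSpaceG

section OneField

variable {K : Type} [Field K] [NumberField K]

/-- The powers of the ray generator lie on the central ray. -/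
theorem isCentralRay_zpow32 {r : G K} (hr : T5.IsRayGen r) (m : ℤ) : T5.IsCentralRay (r ^ m) :=
  ((T5.H655.raySlabC655 K (T1.t1Out K).adNorm).1 r hr).2.1 m

/-- A class with non-zero integral has elliptic regular norm. -/
theorem isEllRegOver_of_integral_ne_zero32 {s : T5.AdelicAut K} {l : ℕ} {k : Subfield K}
    {r : G K} (hr : T5.IsRayGen r) {φ : G K → ℂ} (hreg : T5.IsTwRegular s l k φ)
    (δ : GL (Fin 2) K) (Fδ : Set (G K)) (μ : Measure (G K))
    (h : ∫ x in Fδ, T5.twTerm r s φ δ x ∂μ ≠ 0) : T5.IsEllRegOver k (s.normUpTo l δ) := by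
  by_contra hne
  apply h
  have h0 : ∀ x : G K, T5.twTerm r s φ δ x = 0 := by
    intro x
    by_contra hx
    have hex : ∃ m : ℤ, φ (x⁻¹ * T5.ratG δ * s.onG x * r ^ m) ≠ 0 := by
      by_contra hall
      push_neg at hall
      apply hx
      show ∑' m : ℤ, φ (x⁻¹ * T5.ratG δ * s.onG x * r ^ m) = 0
      simp [hall]
    obtain ⟨m, hm⟩ := hex
    exact hne (hreg x δ (r ^ m) (isCentralRay_zpow32 hr m) hm)
  simp [h0]

theorem normUpTo_one_id32 (γ : GL (Fin 2) K) : (T5.AdelicAut.id K).normUpTo 1 γ = γ := by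
  show γ * (T5.AdelicAut.id K).onRat 1 = γ
  rw [map_one, mul_one]

/-- `T6.IsEll` only depends on the trace and the determinant. -/
theorem isEll_congr32 {γ₁ γ₂ : GL (Fin 2) K}
    (ht : (γ₁ : Matrix (Fin 2) (Fin 2) K).trace = (γ₂ : Matrix (Fin 2) (Fin 2) K).trace)
    (hd : (γ₁ : Matrix (Fin 2) (Fin 2) K).det = (γ₂ : Matrix (Fin 2) (Fin 2) K).det)
    (h : T6.IsEll γ₁) : T6.IsEll γ₂ := by
  obtain ⟨h1, h2⟩ := h
  refine ⟨?_, fun x => ?_⟩
  · unfold T6.IsReg T6.disc at h1 ⊢
    rwa [← ht, ← hd]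
  · rw [← ht, ← hd]
    exact h2 x

/-- Conjugacy in the frame of T4. -/
theorem twConj_id_iff32 (γ γ' : GL (Fin 2) K) :
    T5.TwConj (T5.AdelicAut.id K) γ γ' ↔ ∃ g : GL (Fin 2) K, γ' = g⁻¹ * γ * g := by
  constructor
  · rintro ⟨g, hg⟩
    rw [T5.onRat_id] at hg
    exact ⟨g, hg⟩
  · rintro ⟨g, hg⟩
    exact ⟨g, by rw [T5.onRat_id]; exact hg⟩

end OneField

section TwoFields

variable {K K' : Type} [Field K] [NumberField K] [Field K'] [NumberField K'] [Algebra K K']

/-- `IsNormOf` is invariant under conjugation downstairs. -/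
theorem isNormOf_conj32 (D : CompData K K') {δ : GL (Fin 2) K'} {γ γ₂ : GL (Fin 2) K}
    (h : IsNormOf D δ γ) (hc : T5.TwConj (T5.AdelicAut.id K) γ γ₂) : IsNormOf D δ γ₂ := by
  obtain ⟨g, rfl⟩ := (twConj_id_iff32 γ γ₂).1 hc
  refine IsConj.trans h ?_
  rw [isConj_iff]
  refine ⟨(Matrix.GeneralLinearGroup.map (algebraMap K K') g)⁻¹, ?_⟩
  rw [map_mul, map_mul, map_inv, inv_inv]

/-- `IsNormOf` is invariant under `σ`-conjugation upstairs. -/
theorem isNormOf_twConj32 (D : CompData K K') (hD : IsCompData D) {δ δ₂ : GL (Fin 2) K'}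
    {γ : GL (Fin 2) K} (h : IsNormOf D δ γ) (hc : T5.TwConj D.s δ δ₂) : IsNormOf D δ₂ γ :=
  IsConj.trans (isConj_normUpTo32 D.s D.l hD.cyc.pow_eq hc).symm h

/-- The trace of a norm. -/
theorem trace_isNormOf32 (D : CompData K K') {δ : GL (Fin 2) K'} {γ : GL (Fin 2) K}
    (h : IsNormOf D δ γ) :
    ((D.s.normUpTo D.l δ : GL (Fin 2) K') : Matrix (Fin 2) (Fin 2) K').trace
      = algebraMap K K' (γ : Matrix (Fin 2) (Fin 2) K).trace := by
  rw [trace_of_isConj32 h, trace_map32]

/-- The determinant of a norm. -/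
theorem det_isNormOf32 (D : CompData K K') {δ : GL (Fin 2) K'} {γ : GL (Fin 2) K}
    (h : IsNormOf D δ γ) :
    ((D.s.normUpTo D.l δ : GL (Fin 2) K') : Matrix (Fin 2) (Fin 2) K').det
      = algebraMap K K' (γ : Matrix (Fin 2) (Fin 2) K).det := by
  rw [det_of_isConj32 h, det_map32]

/-- A `K`-rational conjugate of an elliptic regular norm is elliptic. -/
theorem isEll_of_isNormOf32 (D : CompData K K') (hD : IsCompData D) {δ : GL (Fin 2) K'}
    {γ : GL (Fin 2) K} (h : IsNormOf D δ γ) (hE : T5.IsEllRegOver D.k (D.s.normUpTo D.l δ)) :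
    T6.IsEll γ := by
  refine isEll_of_no_root32 two_ne_zero γ fun x hx => ?_
  have hmem : algebraMap K K' x ∈ D.k := (hD.base _).2 ⟨x, rfl⟩
  apply no_root_of_isEllRegOver32 D.k _ hE (algebraMap K K' x) hmem
  rw [trace_isNormOf32 D h, det_isNormOf32 D h, ← map_pow, ← map_mul, ← map_sub, ← map_add, hx,
    map_zero]

/-- **T7.G1 `GeomC`**, verbatim and unconditional. -/
theorem geomC32 : GeomC K K' := by
  intro D hD hU' hU hNC hNI φ' f hφ' hreg' hf hreg hm
  classical
  have hN : T1.AdNormC K := (T1.t1Out K).adNorm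
  have hN' : T1.AdNormC K' := (T1.t1Out K').adNorm
  have hcd : T6.IsCyclicData K K' D.l (algebraMap K K') D.s.σ :=
    isCyclicData32 hD.cyc hD.base
  have hinj : Function.Injective (algebraMap K K') := (algebraMap K K').injective
  -- the domains
  have hdom' : ∀ δ : GL (Fin 2) K', ∃ Fδ : Set (G K'), T5.IsTwDomain D.s δ Fδ :=
    fun δ => exists_isTwDomain32 hN' hD.frame'.frame D.s δ
  have hdom : ∀ γ : GL (Fin 2) K, ∃ Fγ : Set (G K),
      T5.IsTwDomain (T5.AdelicAut.id K) γ Fγ :=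
    fun γ => exists_isTwDomain32 hN hD.frame.frame _ γ
  choose Dom' hDom' using hdom'
  choose Dom hDom using hdom
  -- the representatives
  set rep' : T5.TwClass D.s → GL (Fin 2) K' := fun c => Quotient.out c with hrep'
  set rep : T5.TwClass (T5.AdelicAut.id K) → GL (Fin 2) K := fun c => Quotient.out c with hrep
  have hrep'c : ∀ c, Quotient.mk (T5.twSetoid D.s) (rep' c) = c := fun c => Quotient.out_eq c
  have hrepc : ∀ c, Quotient.mk (T5.twSetoid (T5.AdelicAut.id K)) (rep c) = c :=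
    fun c => Quotient.out_eq c
  have hout' : ∀ δ : GL (Fin 2) K', T5.TwConj D.s (rep' (Quotient.mk (T5.twSetoid D.s) δ)) δ :=
    fun δ => Quotient.mk_out (s := T5.twSetoid D.s) δ
  have hout : ∀ γ : GL (Fin 2) K, T5.TwConj (T5.AdelicAut.id K)
      (rep (Quotient.mk (T5.twSetoid (T5.AdelicAut.id K)) γ)) γ :=
    fun γ => Quotient.mk_out (s := T5.twSetoid (T5.AdelicAut.id K)) γ
  -- the unfolding
  obtain ⟨-, hunf'⟩ := hU' D.R'.μ D.R'.F D.R'.r hD.frame'.frame hD.frame'.ray hD.aut φ' hφ'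
    hreg'
  obtain ⟨-, heq'⟩ := hunf' rep' (fun c => Dom' (rep' c)) hrep'c (fun c => hDom' (rep' c))
  obtain ⟨-, hunf⟩ := hU D.R.μ D.R.F D.R.r hD.frame.frame hD.frame.ray
    (T5.autPreserves_id D.𝔫 D.R.μ D.R.r) f hf hreg
  obtain ⟨-, heq⟩ := hunf rep (fun c => Dom (rep c)) hrepc (fun c => hDom (rep c))
  unfold geomSide
  rw [heq', heq]
  -- the class integrals
  set I' : T5.TwClass D.s → ℂ :=
    fun c => ∫ x in Dom' (rep' c), T5.twTerm D.R'.r D.s φ' (rep' c) x ∂D.R'.μ with hI'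
  set I : T5.TwClass (T5.AdelicAut.id K) → ℂ :=
    fun c => ∫ x in Dom (rep c), T5.twTerm D.R.r (T5.AdelicAut.id K) f (rep c) x ∂D.R.μ with hI
  show ∑ᶠ c, I' c = ∑ᶠ c, I c
  -- the norm classes
  have hΓ : ∀ δ : GL (Fin 2) K', ∃ γ : GL (Fin 2) K, IsNormOf D δ γ := by
    intro δ
    obtain ⟨γ, hγ⟩ := hNC K K' D.l (algebraMap K K') D.s.σ hcd δ
    rw [twNorm_eq_normUpTo32] at hγ
    exact ⟨γ, hγ⟩
  choose Γ hΓ using hΓ
  set Φ : T5.TwClass D.s → T5.TwClass (T5.AdelicAut.id K) :=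
    fun c' => Quotient.mk (T5.twSetoid (T5.AdelicAut.id K)) (Γ (rep' c')) with hΦ
  -- ellipticity on the supports
  have ell_up : ∀ c', I' c' ≠ 0 → ∀ γ : GL (Fin 2) K, IsNormOf D (rep' c') γ → T6.IsEll γ :=
    fun c' hc' γ hγ => isEll_of_isNormOf32 D hD hγ
      (isEllRegOver_of_integral_ne_zero32 hD.frame'.ray hreg' (rep' c') _ _ hc')
  have ell_down : ∀ c, I c ≠ 0 → T6.IsEll (rep c) := by
    intro c hc
    have hE := isEllRegOver_of_integral_ne_zero32 hD.frame.ray hreg (rep c) _ _ hc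
    rw [normUpTo_one_id32] at hE
    exact isEll_of_no_root32 two_ne_zero _
      (fun x => no_root_of_isEllRegOver32 ⊤ _ hE x (Subfield.mem_top x))
  -- matching of the class integrals
  have hmatch : ∀ c' c, T6.IsEll (rep c) → IsNormOf D (rep' c') (rep c) → I' c' = I c :=
    fun c' c hE hNm => hm.norm (rep' c') (rep c) hE hNm _ _ (hDom' (rep' c')) (hDom (rep c))
  -- the value at `Φ c'`
  have hΦval : ∀ c', I' c' ≠ 0 → I' c' = I (Φ c') := by
    intro c' hc'
    have hγ := hΓ (rep' c')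
    have hE : T6.IsEll (Γ (rep' c')) := ell_up c' hc' _ hγ
    have hconj : T5.TwConj (T5.AdelicAut.id K) (Γ (rep' c')) (rep (Φ c')) :=
      T5.twConj_symm _ (hout (Γ (rep' c')))
    have hNm : IsNormOf D (rep' c') (rep (Φ c')) := isNormOf_conj32 D hγ hconj
    have hE2 : T6.IsEll (rep (Φ c')) := by
      obtain ⟨g, hg⟩ := (twConj_id_iff32 _ _).1 hconj
      have hc2 : IsConj (Γ (rep' c')) (rep (Φ c')) := by
        rw [isConj_iff]
        exact ⟨g⁻¹, by rw [hg, inv_inv]⟩
      exact isEll_congr32 (trace_of_isConj32 hc2) (det_of_isConj32 hc2) hE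
    exact hmatch c' (Φ c') hE2 hNm
  rw [← finsum_mem_support I', ← finsum_mem_support I]
  refine finsum_mem_eq_of_bijOn Φ ⟨?_, ?_, ?_⟩ (fun c' hc' => hΦval c' hc')
  · -- maps to
    intro c' hc'
    have h := hΦval c' hc'
    show I (Φ c') ≠ 0
    rw [← h]
    exact hc'
  · -- injective
    intro c₁ hc₁ c₂ hc₂ h12
    have hconj : T5.TwConj (T5.AdelicAut.id K) (Γ (rep' c₁)) (Γ (rep' c₂)) := Quotient.exact h12
    have hN2 : IsNormOf D (rep' c₁) (Γ (rep' c₂)) := isNormOf_conj32 D (hΓ (rep' c₁)) hconj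
    have hcc : IsConj (D.s.normUpTo D.l (rep' c₁)) (D.s.normUpTo D.l (rep' c₂)) :=
      IsConj.trans hN2 (hΓ (rep' c₂)).symm
    have hE : T6.IsEll (Γ (rep' c₁)) := ell_up c₁ hc₁ _ (hΓ (rep' c₁))
    have hreg1 : T6.IsReg (T6.twNorm D.s.σ D.l (rep' c₁)) := by
      rw [twNorm_eq_normUpTo32]
      have h1 := hE.1
      unfold T6.IsReg T6.disc at h1 ⊢
      rw [trace_isNormOf32 D (hΓ (rep' c₁)), det_isNormOf32 D (hΓ (rep' c₁))]
      rw [isUnit_iff_ne_zero] at h1 ⊢
      intro h0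
      apply h1
      apply hinj
      rw [map_sub, map_pow, map_mul, map_zero, map_ofNat]
      exact h0
    have htw : T6.IsTwConj D.s.σ (rep' c₁) (rep' c₂) := by
      apply hNI K K' D.l (algebraMap K K') D.s.σ hcd (rep' c₁) (rep' c₂) hreg1
      rw [twNorm_eq_normUpTo32, twNorm_eq_normUpTo32]
      exact hcc
    have htw' : T5.TwConj D.s (rep' c₁) (rep' c₂) := htw
    rw [← hrep'c c₁, ← hrep'c c₂]
    exact Quotient.sound htw'
  · -- surjective
    intro c hc
    have hE : T6.IsEll (rep c) := ell_down c hc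
    have hnorm : ∃ δ : GL (Fin 2) K', IsNormOf D δ (rep c) := by
      by_contra hno
      exact hc (hm.nonnorm (rep c) hE hno _ (hDom (rep c)))
    obtain ⟨δ, hδ⟩ := hnorm
    set c' : T5.TwClass D.s := Quotient.mk (T5.twSetoid D.s) δ with hc'def
    have hNm : IsNormOf D (rep' c') (rep c) :=
      isNormOf_twConj32 D hD hδ (T5.twConj_symm _ (hout' δ))
    have hval : I' c' = I c := hmatch c' c hE hNm
    have hc'ne : I' c' ≠ 0 := by rw [hval]; exact hc
    refine ⟨c', hc'ne, ?_⟩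
    -- `Φ c' = c`
    have hγ₂ := hΓ (rep' c')
    have hE₂ : T6.IsEll (Γ (rep' c')) := ell_up c' hc'ne _ hγ₂
    have ht : ((Γ (rep' c') : GL (Fin 2) K) : Matrix (Fin 2) (Fin 2) K).trace
        = ((rep c : GL (Fin 2) K) : Matrix (Fin 2) (Fin 2) K).trace := by
      apply hinj
      rw [← trace_isNormOf32 D hγ₂, ← trace_isNormOf32 D hNm]
    have hd : ((Γ (rep' c') : GL (Fin 2) K) : Matrix (Fin 2) (Fin 2) K).det
        = ((rep c : GL (Fin 2) K) : Matrix (Fin 2) (Fin 2) K).det := by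
      apply hinj
      rw [← det_isNormOf32 D hγ₂, ← det_isNormOf32 D hNm]
    obtain ⟨g, hg⟩ := conj_of_no_root32 (Γ (rep' c')) (rep c) ht hd hE₂.2
    have hconj : T5.TwConj (T5.AdelicAut.id K) (Γ (rep' c')) (rep c) :=
      (twConj_id_iff32 _ _).2 ⟨g, hg⟩
    show Quotient.mk (T5.twSetoid (T5.AdelicAut.id K)) (Γ (rep' c')) = c
    rw [← hrepc c]
    exact Quotient.sound hconj

end TwoFields

end Fermat.Agent.LT.T7.H32

end

end
-- ===== PACK-END LT/T7/H32/Geom.lean

-- ===== PACK-BEGIN LT/T7/H228/AvgFub.lean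
section




/-!
# Row LT, tower T7, leaf `AvgMatchC893` (helper228 spare): the orbital integral of an AVERAGE

OFF-MAIN.  One number field `K`, an automorphism `s`, a class `P` of elements of `GL₂(K)` stable
under σ-conjugation whose members have elliptic regular norm, `δ ∈ P`, `Fδ` a strict fundamental
domain of the σ-centraliser of `δ` in the slab.  Let `φs a`, `a ∈ Ω` (compact, finite measure
`ν`), be functions on `GL₂(𝔸_K)`, jointly continuous in `(a, h)` and supported in one compact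
set.  Then

    setIntegral_twTerm_avg228 :
      ∫ x in Fδ, twTerm r s (fun h => ∫ a, φs a h ∂ν) δ x ∂μ
        = ∫ a, (∫ x in Fδ, twTerm r s (φs a) δ x ∂μ) ∂ν.

Proof.  The sums over the ray are finite sums, uniformly in `a` (`RayBoundC` for a continuous
function `ψ ≥ 0` with compact support, `ψ = 1` on the common support): `twTerm` of the average
is the average of the `twTerm`s.  Fubini on `Fδ × Ω`: the integrand is continuous and dominated
by `B · twTerm ψ`, which is integrable on `Fδ` (`integrableOn_twTermP228`).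
-/

set_option autoImplicit false

open IsDedekindDomain NumberField MeasureTheory
open scoped MatrixGroups Pointwise ENNReal

noncomputable section

namespace Fermat.Agent.LT.T7.H228

open Fermat.Agent.LT.H556.A0 Fermat.Agent.LT.T5 Fermat.Agent.LT Fermat.Agent.LT.T5.H29

attribute [local instance] Fermat.Agent.LT.T5.instMeasurableSpaceG

variable {K : Type} [Field K] [NumberField K]

/-- A jointly continuous family with a common compact support is uniformly bounded. -/
theorem fam_bound228 {Ω : Type} [TopologicalSpace Ω] [CompactSpace Ω] {φs : Ω → G K → ℂ}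
    (hc : Continuous (fun p : Ω × G K => φs p.1 p.2))
    {C : Set (G K)} (hC : IsCompact C) (hs : ∀ (a : Ω) (h : G K), φs a h ≠ 0 → h ∈ C) :
    ∃ B : ℝ, 0 ≤ B ∧ ∀ (a : Ω) (h : G K), ‖φs a h‖ ≤ B := by
  have hK : IsCompact ((Set.univ : Set Ω) ×ˢ C) := isCompact_univ.prod hC
  obtain ⟨B, hB⟩ := hK.exists_bound_of_continuousOn hc.continuousOn
  refine ⟨max B 0, le_max_right _ _, fun a h => ?_⟩
  by_cases hh : φs a h = 0
  · rw [hh, norm_zero]
    exact le_max_right _ _
  · exact (hB (a, h) ⟨Set.mem_univ _, hs a h hh⟩).trans (le_max_left _ _)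

/-- A continuous function `ψ ≥ 0` with compact support which is `1` on the compact set `C`. -/
theorem exists_dom228 (hT : T1.T1Out K) {C : Set (G K)} (hC : IsCompact C) :
    ∃ ψ : G K → ℝ, Continuous ψ ∧ HasCompactSupport ψ ∧ (∀ h ∈ C, ψ h = 1) ∧ ∀ h, 0 ≤ ψ h := by
  haveI : LocallyCompactSpace (G K) := hT.locComp.2.1
  haveI : T2Space (G K) := hT.locComp.2.2.1
  obtain ⟨f, hf1, -, hfc, hf01⟩ :=
    exists_continuous_one_zero_of_isCompact hC isClosed_empty (Set.disjoint_empty C)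
  exact ⟨f, f.continuous, hfc, fun h hh => hf1 hh, fun h => (hf01 h).1⟩

/-- **The orbital integral of an average is the average of the orbital integrals.** -/
theorem setIntegral_twTerm_avg228 (s : AdelicAut K) (l : ℕ) (k : Subfield K) (𝔫 : Ideal (𝓞 K))
    (hcyc : IsCyclicOfDegree s l k)
    (μ : Measure (G K)) (F : Set (G K)) (r : G K) (hF : IsFrame μ F) (hr : IsRayGen r)
    (hP : AutPreserves s 𝔫 μ r)
    (P : GL (Fin 2) K → Prop)
    (hPc : ∀ γ δ : GL (Fin 2) K, P δ → P (γ * δ * (s.onRat γ)⁻¹))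
    (hPr : ∀ δ : GL (Fin 2) K, P δ → IsEllRegOver k (s.normUpTo l δ))
    (δ : GL (Fin 2) K) (hδ : P δ) (Fδ : Set (G K)) (hFδ : IsTwDomain s δ Fδ)
    (Ω : Type) [TopologicalSpace Ω] [CompactSpace Ω] [SecondCountableTopology Ω]
    [MeasurableSpace Ω] [BorelSpace Ω] (ν : Measure Ω) [IsFiniteMeasure ν]
    (φs : Ω → G K → ℂ) (hc : Continuous (fun p : Ω × G K => φs p.1 p.2))
    (hs : ∃ C : Set (G K), IsCompact C ∧ ∀ (a : Ω) (h : G K), φs a h ≠ 0 → h ∈ C) :
    ∫ x in Fδ, twTerm r s (fun h => ∫ a, φs a h ∂ν) δ x ∂μ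
      = ∫ a, (∫ x in Fδ, twTerm r s (φs a) δ x ∂μ) ∂ν := by
  classical
  have hT : T1.T1Out K := T1.t1Out K
  have L : TwLeaves s l k 𝔫 := twLeaves_of_mahler29 s l k 𝔫 (Fermat.Agent.LT.H501.mahlerC501 K)
  haveI : BorelSpace (G K) := borelSpace_G29 K
  haveI : SecondCountableTopology (G K) := hT.locComp.2.2.2
  haveI : LocallyCompactSpace (G K) := hT.locComp.2.1
  haveI : T2Space (G K) := hT.locComp.2.2.1
  haveI : μ.IsHaarMeasure := hF.haar
  obtain ⟨C, hC, hsC⟩ := hs
  obtain ⟨B, hB0, hB⟩ := fam_bound228 hc hC hsC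
  obtain ⟨ψ, hψc, hψs, hψ1, hψ0⟩ := exists_dom228 hT hC
  set ψc : G K → ℂ := fun h => ((ψ h : ℝ) : ℂ) with hψcdef
  have hψcc : Continuous ψc := Complex.continuous_ofReal.comp hψc
  have hψcs : HasCompactSupport ψc := hψs.comp_left Complex.ofReal_zero
  obtain ⟨M, hMψ⟩ := L.rayBound hT.adNorm μ r hr hP ψc hψcs
  -- the uniform ray bound
  have hMa : ∀ (a : Ω) (x : G K) (δ' : GL (Fin 2) K) (m : ℤ),
      φs a (x⁻¹ * ratG δ' * s.onG x * r ^ m) ≠ 0 → m.natAbs ≤ M := by
    intro a x δ' m h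
    refine hMψ x δ' m ?_
    show ((ψ (x⁻¹ * ratG δ' * s.onG x * r ^ m) : ℝ) : ℂ) ≠ 0
    rw [hψ1 _ (hsC a _ h)]
    exact one_ne_zero
  have hMavg : ∀ (x : G K) (δ' : GL (Fin 2) K) (m : ℤ),
      (fun h => ∫ a, φs a h ∂ν) (x⁻¹ * ratG δ' * s.onG x * r ^ m) ≠ 0 → m.natAbs ≤ M := by
    intro x δ' m h
    by_contra hlt
    apply h
    have h0 : ∀ a : Ω, φs a (x⁻¹ * ratG δ' * s.onG x * r ^ m) = 0 := fun a => by
      by_contra ha
      exact hlt (hMa a x δ' m ha)
    show ∫ a, φs a (x⁻¹ * ratG δ' * s.onG x * r ^ m) ∂ν = 0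
    simp only [h0, integral_zero]
  -- integrability in the parameter
  have hinta : ∀ h : G K, Integrable (fun a => φs a h) ν := by
    intro h
    have hch : Continuous (fun a : Ω => φs a h) :=
      hc.comp (continuous_id.prodMk continuous_const)
    exact Integrable.of_bound hch.aestronglyMeasurable B (Filter.Eventually.of_forall fun a => hB a h)
  -- `twTerm` of the average
  have hterm : ∀ x : G K, twTerm r s (fun h => ∫ a, φs a h ∂ν) δ x
      = ∫ a, twTerm r s (φs a) δ x ∂ν := by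
    intro x
    rw [twTerm_eq_sum29 hMavg δ x]
    have e : (fun a => twTerm r s (φs a) δ x)
        = fun a => ∑ m ∈ Finset.Icc (-(M : ℤ)) (M : ℤ), φs a (x⁻¹ * ratG δ * s.onG x * r ^ m) :=
      funext fun a => twTerm_eq_sum29 (hMa a) δ x
    rw [e, integral_finset_sum _ fun m _ => hinta _]
  -- the dominating function
  have hψint : IntegrableOn (twTerm r s ψc δ) Fδ μ :=
    integrableOn_twTermP228 s l k 𝔫 hT L hcyc μ F r hF hr hP ψc hψcc hψcs P hPc hPr δ hδ Fδ hFδ
  have hψsum : ∀ x : G K, ‖twTerm r s ψc δ x‖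
      = ∑ m ∈ Finset.Icc (-(M : ℤ)) (M : ℤ), ψ (x⁻¹ * ratG δ * s.onG x * r ^ m) := by
    intro x
    rw [twTerm_eq_sum29 hMψ δ x]
    have : (∑ m ∈ Finset.Icc (-(M : ℤ)) (M : ℤ), ψc (x⁻¹ * ratG δ * s.onG x * r ^ m))
        = ((∑ m ∈ Finset.Icc (-(M : ℤ)) (M : ℤ), ψ (x⁻¹ * ratG δ * s.onG x * r ^ m) : ℝ) : ℂ) := by
      rw [Complex.ofReal_sum]
    rw [this, Complex.norm_real, Real.norm_eq_abs,
      abs_of_nonneg (Finset.sum_nonneg fun m _ => hψ0 _)]
  have hdom : ∀ (x : G K) (a : Ω), ‖twTerm r s (φs a) δ x‖ ≤ B * ‖twTerm r s ψc δ x‖ := by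
    intro x a
    rw [twTerm_eq_sum29 (hMa a) δ x, hψsum x, Finset.mul_sum]
    refine (norm_sum_le _ _).trans (Finset.sum_le_sum fun m _ => ?_)
    by_cases h0 : φs a (x⁻¹ * ratG δ * s.onG x * r ^ m) = 0
    · rw [h0, norm_zero]
      exact mul_nonneg hB0 (hψ0 _)
    · rw [hψ1 _ (hsC a _ h0), mul_one]
      exact hB a _
  -- joint integrability
  have hcontU : Continuous (Function.uncurry fun (x : G K) (a : Ω) => twTerm r s (φs a) δ x) := by
    have e : (Function.uncurry fun (x : G K) (a : Ω) => twTerm r s (φs a) δ x)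
        = fun p : G K × Ω => ∑ m ∈ Finset.Icc (-(M : ℤ)) (M : ℤ),
            φs p.2 (p.1⁻¹ * ratG δ * s.onG p.1 * r ^ m) :=
      funext fun p => twTerm_eq_sum29 (hMa p.2) δ p.1
    rw [e]
    refine continuous_finsetSum _ fun m _ => ?_
    have harg : Continuous fun p : G K × Ω => p.1⁻¹ * ratG δ * s.onG p.1 * r ^ m :=
      ((continuous_fst.inv.mul continuous_const).mul (hP.cont.comp continuous_fst)).mul
        continuous_const
    exact hc.comp (continuous_snd.prodMk harg)
  have hInt : Integrable (Function.uncurry fun (x : G K) (a : Ω) => twTerm r s (φs a) δ x)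
      ((μ.restrict Fδ).prod ν) := by
    have hg : Integrable (fun p : G K × Ω => B * ‖twTerm r s ψc δ p.1‖)
        ((μ.restrict Fδ).prod ν) :=
      Integrable.comp_fst (f := fun x => B * ‖twTerm r s ψc δ x‖) (hψint.norm.const_mul B) ν
    refine hg.mono' hcontU.aestronglyMeasurable (Filter.Eventually.of_forall fun p => ?_)
    exact hdom p.1 p.2
  calc ∫ x in Fδ, twTerm r s (fun h => ∫ a, φs a h ∂ν) δ x ∂μ
      = ∫ x in Fδ, (∫ a, twTerm r s (φs a) δ x ∂ν) ∂μ :=
        integral_congr_ae (Filter.Eventually.of_forall fun x => hterm x)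
    _ = ∫ a, (∫ x in Fδ, twTerm r s (φs a) δ x ∂μ) ∂ν := integral_integral_swap hInt

end Fermat.Agent.LT.T7.H228

end

end
-- ===== PACK-END LT/T7/H228/AvgFub.lean

-- ===== PACK-BEGIN LT/T7/H228/AvgGlob.lean
section






/-!
# Row LT, tower T7, leaves `AvgMatchC893` / `AvgMatchQC801` (helper228, SPARE): THE CORE

OFF-MAIN.  `isGlobMatch_avg228`: for EVERY extension `K'/K` of number fields and data `D` with
`IsCompData D`, `T7.IsGlobMatch D` is closed under averages over a compact parameter space with a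
finite measure (jointly continuous families with a common compact support).  No hypothesis on
the degree, the `K_∞`-types or the levels of the members.

Proof.  `setIntegral_twTerm_avg228` (`AvgFub.lean`): for a class of elements with elliptic
regular norm the orbital integral of an average is the average of the orbital integrals
(uniform ray bound, Fubini; the convergence of the orbital integrals of ARBITRARY continuous
functions with compact support at such classes is `integrableOn_twTermP228`, `AvgOrb.lean`, by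
the reduction theory of tower T5, leaf T5.07).  Upstairs the class is `{δ' : N δ' ∼ γ}`
(`isEllRegOver_up228`), downstairs the elliptic elements.  The identities of the members give
the identities of the averages.
-/

set_option autoImplicit false

open AutomorphicForm IsDedekindDomain NumberField MeasureTheory
open scoped ComplexConjugate

noncomputable section

namespace Fermat.Agent.LT.T7.H228

open Fermat.Agent.LT Fermat.Agent.LT.H556 Fermat.Agent.LT.H556.A0 Fermat.Agent.LT.T7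

attribute [local instance] Fermat.Agent.LT.T5.instMeasurableSpaceG

section OneField

variable {K : Type} [Field K] [NumberField K]

/-- Downstairs: an elliptic element is elliptic regular over `K` (frame of T4). -/
theorem isEllRegOver_down228 {γ : GL (Fin 2) K} (hE : T6.IsEll γ) :
    T5.IsEllRegOver ⊤ ((T5.AdelicAut.id K).normUpTo 1 γ) := by
  rw [H32.normUpTo_one_id32]
  refine T5.H942.isEllRegOver_of_no_root942 ⊤ γ
    ⟨(γ : Matrix (Fin 2) (Fin 2) K).trace, Subfield.mem_top _⟩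
    ⟨(γ : Matrix (Fin 2) (Fin 2) K).det, Subfield.mem_top _⟩ rfl rfl ?_
  intro x hx
  apply hE.2 (x : K)
  have := congrArg Subtype.val hx
  simpa using this

/-- Downstairs: the elliptic elements are stable under conjugation. -/
theorem isEll_conj228 (γ₀ γ : GL (Fin 2) K) (hE : T6.IsEll γ) :
    T6.IsEll (γ₀ * γ * ((T5.AdelicAut.id K).onRat γ₀)⁻¹) := by
  rw [T5.onRat_id]
  have hc : IsConj γ (γ₀ * γ * γ₀⁻¹) := isConj_iff.2 ⟨γ₀, rfl⟩
  exact H32.isEll_congr32 (H32.trace_of_isConj32 hc) (H32.det_of_isConj32 hc) hE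

end OneField

section TwoFields

variable {K K' : Type} [Field K] [NumberField K] [Field K'] [NumberField K'] [Algebra K K']

/-- Upstairs: an element whose norm is (conjugate to) an elliptic element of `GL₂(K)` has
elliptic regular norm over the fixed field. -/
theorem isEllRegOver_up228 (D : CompData K K') (hD : IsCompData D) {δ : GL (Fin 2) K'}
    {γ : GL (Fin 2) K} (h : IsNormOf D δ γ) (hE : T6.IsEll γ) :
    T5.IsEllRegOver D.k (D.s.normUpTo D.l δ) := by
  refine T5.H942.isEllRegOver_of_no_root942 D.k _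
    ⟨algebraMap K K' (γ : Matrix (Fin 2) (Fin 2) K).trace, (hD.base _).2 ⟨_, rfl⟩⟩
    ⟨algebraMap K K' (γ : Matrix (Fin 2) (Fin 2) K).det, (hD.base _).2 ⟨_, rfl⟩⟩
    (H32.trace_isNormOf32 D h).symm (H32.det_isNormOf32 D h).symm ?_
  intro x hx
  obtain ⟨y, hy⟩ := (hD.base (x : K')).1 x.2
  apply hE.2 y
  apply (algebraMap K K').injective
  have h1 := congrArg Subtype.val hx
  push_cast at h1
  rw [map_add, map_sub, map_mul, map_pow, hy, map_zero]
  exact h1

/-- Upstairs: the class `{δ' : N δ' ∼ γ}` is stable under σ-conjugation. -/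
theorem isNormOf_conj228 (D : CompData K K') (hD : IsCompData D) {γ : GL (Fin 2) K}
    (γ₀ δ : GL (Fin 2) K') (h : IsNormOf D δ γ) :
    IsNormOf D (γ₀ * δ * (D.s.onRat γ₀)⁻¹) γ :=
  H32.isNormOf_twConj32 D hD h ⟨γ₀⁻¹, by rw [inv_inv, map_inv]⟩

/-- **`IsGlobMatch` is closed under averages.** -/
theorem isGlobMatch_avg228 (D : CompData K K') (hD : IsCompData D)
    (Ω : Type) [TopologicalSpace Ω] [CompactSpace Ω] [SecondCountableTopology Ω]
    [MeasurableSpace Ω] [BorelSpace Ω] (ν : Measure Ω) [IsFiniteMeasure ν]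
    (φs : Ω → G K' → ℂ) (fs : Ω → G K → ℂ)
    (hφc : Continuous (fun p : Ω × G K' => φs p.1 p.2))
    (hfc : Continuous (fun p : Ω × G K => fs p.1 p.2))
    (hφs : ∃ C : Set (G K'), IsCompact C ∧ ∀ (a : Ω) (h : G K'), φs a h ≠ 0 → h ∈ C)
    (hfs : ∃ C : Set (G K), IsCompact C ∧ ∀ (a : Ω) (h : G K), fs a h ≠ 0 → h ∈ C)
    (hmatch : ∀ a : Ω, IsGlobMatch D (φs a) (fs a)) :
    IsGlobMatch D (fun h => ∫ a, φs a h ∂ν) (fun h => ∫ a, fs a h ∂ν) := by
  have hup : ∀ (δ : GL (Fin 2) K') (γ : GL (Fin 2) K), T6.IsEll γ → IsNormOf D δ γ →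
      ∀ Fδ : Set (G K'), T5.IsTwDomain D.s δ Fδ →
        ∫ x in Fδ, T5.twTerm D.R'.r D.s (fun h => ∫ a, φs a h ∂ν) δ x ∂D.R'.μ
          = ∫ a, (∫ x in Fδ, T5.twTerm D.R'.r D.s (φs a) δ x ∂D.R'.μ) ∂ν :=
    fun δ γ hE hN Fδ hFδ =>
      setIntegral_twTerm_avg228 D.s D.l D.k D.𝔑 hD.cyc D.R'.μ D.R'.F D.R'.r hD.frame'.frame
        hD.frame'.ray hD.aut (fun δ' => IsNormOf D δ' γ)
        (fun γ₀ δ' h => isNormOf_conj228 D hD γ₀ δ' h)
        (fun δ' h => isEllRegOver_up228 D hD h hE) δ hN Fδ hFδ Ω ν φs hφc hφs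
  have hdn : ∀ γ : GL (Fin 2) K, T6.IsEll γ →
      ∀ Fγ : Set (G K), T5.IsTwDomain (T5.AdelicAut.id K) γ Fγ →
        ∫ x in Fγ, T5.twTerm D.R.r (T5.AdelicAut.id K) (fun h => ∫ a, fs a h ∂ν) γ x ∂D.R.μ
          = ∫ a, (∫ x in Fγ, T5.twTerm D.R.r (T5.AdelicAut.id K) (fs a) γ x ∂D.R.μ) ∂ν :=
    fun γ hE Fγ hFγ =>
      setIntegral_twTerm_avg228 (T5.AdelicAut.id K) 1 ⊤ D.𝔫 T5.isCyclicOfDegree_id D.R.μ D.R.F
        D.R.r hD.frame.frame hD.frame.ray (T5.autPreserves_id D.𝔫 D.R.μ D.R.r)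
        (fun γ' => T6.IsEll γ') (fun γ₀ γ' h => isEll_conj228 γ₀ γ' h)
        (fun γ' h => isEllRegOver_down228 h) γ hE Fγ hFγ Ω ν fs hfc hfs
  refine ⟨?_, ?_⟩
  · intro δ γ hE hN Fδ Fγ hFδ hFγ
    rw [hup δ γ hE hN Fδ hFδ, hdn γ hE Fγ hFγ]
    exact integral_congr_ae
      (Filter.Eventually.of_forall fun a => (hmatch a).norm δ γ hE hN Fδ Fγ hFδ hFγ)
  · intro γ hE hnn Fγ hFγ
    rw [hdn γ hE Fγ hFγ]
    have h0 : ∀ a : Ω,
        ∫ x in Fγ, T5.twTerm D.R.r (T5.AdelicAut.id K) (fs a) γ x ∂D.R.μ = 0 :=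
      fun a => (hmatch a).nonnorm γ hE hnn Fγ hFγ
    simp only [h0, integral_zero]

end TwoFields

/-- A member of a jointly continuous family with a common compact support is integrable in the
parameter. -/
theorem fam_integrable228 {K : Type} [Field K] [NumberField K]
    {Ω : Type} [TopologicalSpace Ω] [CompactSpace Ω] [SecondCountableTopology Ω]
    [MeasurableSpace Ω] [BorelSpace Ω] (ν : Measure Ω) [IsFiniteMeasure ν]
    {φs : Ω → G K → ℂ} (hc : Continuous (fun p : Ω × G K => φs p.1 p.2))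
    (hs : ∃ C : Set (G K), IsCompact C ∧ ∀ (a : Ω) (h : G K), φs a h ≠ 0 → h ∈ C) (h : G K) :
    Integrable (fun a => φs a h) ν := by
  obtain ⟨C, hC, hsC⟩ := hs
  obtain ⟨B, -, hB⟩ := fam_bound228 hc hC hsC
  have hch : Continuous (fun a : Ω => φs a h) := hc.comp (continuous_id.prodMk continuous_const)
  exact Integrable.of_bound hch.aestronglyMeasurable B (Filter.Eventually.of_forall fun a => hB a h)

section TwoFieldsSum

variable {K K' : Type} [Field K] [NumberField K] [Field K'] [NumberField K'] [Algebra K K']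

/-- **`IsGlobMatch` is closed under averages, two summands downstairs** (the form of the
quadratic step). -/
theorem isGlobMatch_avg_add228 (D : CompData K K') (hD : IsCompData D)
    (Ω : Type) [TopologicalSpace Ω] [CompactSpace Ω] [SecondCountableTopology Ω]
    [MeasurableSpace Ω] [BorelSpace Ω] (ν : Measure Ω) [IsFiniteMeasure ν]
    (φs : Ω → G K' → ℂ) (fs0 fs1 : Ω → G K → ℂ)
    (hφc : Continuous (fun p : Ω × G K' => φs p.1 p.2))
    (hf0c : Continuous (fun p : Ω × G K => fs0 p.1 p.2))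
    (hf1c : Continuous (fun p : Ω × G K => fs1 p.1 p.2))
    (hφs : ∃ C : Set (G K'), IsCompact C ∧ ∀ (a : Ω) (h : G K'), φs a h ≠ 0 → h ∈ C)
    (hf0s : ∃ C : Set (G K), IsCompact C ∧ ∀ (a : Ω) (h : G K), fs0 a h ≠ 0 → h ∈ C)
    (hf1s : ∃ C : Set (G K), IsCompact C ∧ ∀ (a : Ω) (h : G K), fs1 a h ≠ 0 → h ∈ C)
    (hmatch : ∀ a : Ω, IsGlobMatch D (φs a) (fun x => fs0 a x + fs1 a x)) :
    IsGlobMatch D (fun h => ∫ a, φs a h ∂ν)
      (fun x => (∫ a, fs0 a x ∂ν) + ∫ a, fs1 a x ∂ν) := by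
  have hfc : Continuous (fun p : Ω × G K => (fun a x => fs0 a x + fs1 a x) p.1 p.2) :=
    hf0c.add hf1c
  have hfs : ∃ C : Set (G K), IsCompact C ∧
      ∀ (a : Ω) (h : G K), (fun a x => fs0 a x + fs1 a x) a h ≠ 0 → h ∈ C := by
    obtain ⟨C0, hC0, h0⟩ := hf0s
    obtain ⟨C1, hC1, h1⟩ := hf1s
    refine ⟨C0 ∪ C1, hC0.union hC1, fun a h hne => ?_⟩
    by_contra hh
    rw [Set.mem_union, not_or] at hh
    apply hne
    have e0 : fs0 a h = 0 := by
      by_contra h'
      exact hh.1 (h0 a h h')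
    have e1 : fs1 a h = 0 := by
      by_contra h'
      exact hh.2 (h1 a h h')
    show fs0 a h + fs1 a h = 0
    rw [e0, e1, add_zero]
  have havg : (fun x => (∫ a, fs0 a x ∂ν) + ∫ a, fs1 a x ∂ν)
      = fun h => ∫ a, (fun a x => fs0 a x + fs1 a x) a h ∂ν := by
    funext x
    exact (integral_add (fam_integrable228 ν hf0c hf0s x) (fam_integrable228 ν hf1c hf1s x)).symm
  rw [havg]
  exact isGlobMatch_avg228 D hD Ω ν φs (fun a x => fs0 a x + fs1 a x) hφc hfc hφs hfs hmatch

end TwoFieldsSum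

end Fermat.Agent.LT.T7.H228


end

end
-- ===== PACK-END LT/T7/H228/AvgGlob.lean

-- ===== PACK-BEGIN LT/T7/H44/ChangeAna.lean
section







/-!
# Row LT, tower T7, leaf `ChangeC561` (spare, helper44): the analytic inputs

OFF-MAIN.  ADDITIVE (new names only, all ending in `44`).  Vocabulary: A0, `T5/Spec.lean`; inputs:
the closed tower T1 (`T1.t1Out`: the topology of `GL₂(𝔸_K)`, the fundamental domain of `K` in
`𝔸_K`) and the linearity of the constant term (`isCuspidalFn_sum_h510`, helper510).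

* `continuous_onGinv44` : `σ⁻¹` is continuous on `GL₂(𝔸_K)`;
* `isCuspFn_lin44` : the cusp functions of `T5` are stable under finite linear combinations;
* `integrable_rconv44` : the integrand of `R(φ) f` is integrable (`φ` continuous with compact
  support, `f` continuous);
* `isNice_rconv44` : `R(φ) f` is continuous and bounded (`f` continuous and bounded).
-/

set_option autoImplicit false

open IsDedekindDomain NumberField MeasureTheory
open scoped ComplexConjugate

noncomputable section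

namespace Fermat.Agent.LT.T7.H44

open Fermat.Agent.LT.H556 Fermat.Agent.LT.H556.A0 Fermat.Agent.LT.T5

attribute [local instance] Fermat.Agent.LT.T5.instMeasurableSpaceG

variable {K : Type} [Field K] [NumberField K]

/-- `σ⁻¹` is continuous on `GL₂(𝔸_K)`. -/
theorem continuous_onGinv44 (s : AdelicAut K) : Continuous (s.onGinv : G K → G K) := by
  have h : Continuous ((RingHom.mapMatrix (s.σA.symm : Adl K →+* Adl K)).toMonoidHom :
      Matrix (Fin 2) (Fin 2) (Adl K) → Matrix (Fin 2) (Fin 2) (Adl K)) :=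
    Continuous.matrix_map continuous_id s.continuous_symm
  exact Continuous.units_map _ h

/-- `R(σ)` of a continuous bounded function is continuous and bounded. -/
theorem isNice_rsig44 (s : AdelicAut K) {f : G K → ℂ} (hf : IsNice44 f) :
    IsNice44 (Rsig s f) := by
  obtain ⟨C, hC⟩ := hf.2
  exact ⟨hf.1.comp (continuous_onGinv44 s), C, fun g => hC _⟩

/-- Finite linear combinations of automorphic functions. -/
theorem isAutomorphicFn_lin44 {𝔫 : Ideal (𝓞 K)} {τ : G K → ℂ} {r : G K} (e : ℕ → G K → ℂ)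
    (s : Finset ℕ) (a : ℕ → ℂ) (he : ∀ j ∈ s, IsAutomorphicFn 𝔫 τ r (e j)) :
    IsAutomorphicFn 𝔫 τ r (fun g => ∑ j ∈ s, a j * e j g) where
  left_inv := fun γ g => Finset.sum_congr rfl fun j hj => by rw [(he j hj).left_inv γ g]
  level_inv := fun u hu g => Finset.sum_congr rfl fun j hj => by rw [(he j hj).level_inv u hu g]
  arch_compact := fun w k hk g => by
    show ∑ j ∈ s, a j * e j (g * k) = τ k * ∑ j ∈ s, a j * e j g
    rw [Finset.mul_sum]
    refine Finset.sum_congr rfl fun j hj => ?_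
    rw [(he j hj).arch_compact w k hk g]
    ring
  ray := fun g => Finset.sum_congr rfl fun j hj => by rw [(he j hj).ray g]

/-- **The cusp functions are stable under finite linear combinations.** -/
theorem isCuspFn_lin44 {𝔫 : Ideal (𝓞 K)} {τ : G K → ℂ} {r : G K} (e : ℕ → G K → ℂ)
    (he : ∀ j, IsCuspFn 𝔫 τ r (e j)) (s : Finset ℕ) (a : ℕ → ℂ) :
    IsCuspFn 𝔫 τ r (fun g => ∑ j ∈ s, a j * e j g) where
  cont := continuous_finsetSum _ fun j _ => continuous_const.mul (he j).cont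
  bdd := (isNice44_sum s a e fun j _ => nice_of_cusp44 (he j)).2
  aut := isAutomorphicFn_lin44 e s a fun j _ => (he j).aut
  cuspidal := by
    have h := Fermat.Agent.LT.T2.H510.isCuspidalFn_sum_h510 (Fermat.Agent.LT.T1.t1Out K)
      (fun i : Fin s.card => a (s.equivFin.symm i)) (fun i => e (s.equivFin.symm i))
      (fun i => (he _).cont) (fun i => (he _).bdd) (fun i => (he _).cuspidal)
    have e1 : (fun g => ∑ j ∈ s, a j * e j g)
        = fun g => ∑ i : Fin s.card, a (s.equivFin.symm i) * e (s.equivFin.symm i) g := by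
      funext g
      rw [← Finset.sum_coe_sort s (fun j => a j * e j g)]
      exact (Equiv.sum_comp s.equivFin.symm (fun j : s => a j * e j g)).symm
    rw [e1]
    exact h

/-- The integrand of `R(φ) f` is integrable. -/
theorem integrable_rconv44 {μ : Measure (G K)} {F : Set (G K)} (hF : IsFrame μ F)
    {φ f : G K → ℂ} (hφ : Continuous φ) (hφs : HasCompactSupport φ) (hf : Continuous f)
    (x : G K) : Integrable (fun y => φ y * f (x * y)) μ := by
  have : BorelSpace (G K) := ⟨rfl⟩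
  have := hF.haar
  have hcont : Continuous fun y => φ y * f (x * y) :=
    hφ.mul (hf.comp (continuous_const.mul continuous_id))
  exact hcont.integrable_of_hasCompactSupport (hφs.mul_right (f' := fun y => f (x * y)))

/-- **`R(φ) f` is continuous and bounded.** -/
theorem isNice_rconv44 {μ : Measure (G K)} {F : Set (G K)} (hF : IsFrame μ F)
    {φ f : G K → ℂ} (hφ : Continuous φ) (hφs : HasCompactSupport φ) (hf : IsNice44 f) :
    IsNice44 (Rconv μ φ f) := by
  have : BorelSpace (G K) := ⟨rfl⟩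
  have := hF.haar
  have hT1 := Fermat.Agent.LT.T1.t1Out K
  have : LocallyCompactSpace (G K) := hT1.locComp.2.1
  have : T2Space (G K) := hT1.locComp.2.2.1
  have : SecondCountableTopology (G K) := hT1.locComp.2.2.2
  obtain ⟨C, hC⟩ := hf.2
  refine ⟨?_, C * ∫ y, ‖φ y‖ ∂μ, fun x => ?_⟩
  · have hu : Continuous (Function.uncurry fun (x : G K) (y : G K) => φ y * f (x * y)) :=
      (hφ.comp continuous_snd).mul (hf.1.comp (continuous_fst.mul continuous_snd))
    have h1 : Continuous fun x => ∫ y in tsupport φ, φ y * f (x * y) ∂μ :=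
      continuous_parametric_integral_of_continuous hu hφs
    have h2 : Rconv μ φ f = fun x => ∫ y in tsupport φ, φ y * f (x * y) ∂μ := by
      funext x
      show ∫ y, φ y * f (x * y) ∂μ = _
      refine (setIntegral_eq_integral_of_forall_compl_eq_zero fun y hy => ?_).symm
      rw [image_eq_zero_of_notMem_tsupport hy, zero_mul]
    rw [h2]
    exact h1
  · show ‖∫ y, φ y * f (x * y) ∂μ‖ ≤ _
    have hφi : Integrable φ μ := hφ.integrable_of_hasCompactSupport hφs
    calc ‖∫ y, φ y * f (x * y) ∂μ‖ ≤ ∫ y, ‖φ y * f (x * y)‖ ∂μ := norm_integral_le_integral_norm _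
      _ ≤ ∫ y, C * ‖φ y‖ ∂μ := by
          refine integral_mono_of_nonneg (Filter.Eventually.of_forall fun y => norm_nonneg _)
            (hφi.norm.const_mul C) (Filter.Eventually.of_forall fun y => ?_)
          show ‖φ y * f (x * y)‖ ≤ C * ‖φ y‖
          rw [norm_mul, mul_comm]
          exact mul_le_mul_of_nonneg_right (hC _) (norm_nonneg _)
      _ = C * ∫ y, ‖φ y‖ ∂μ := integral_const_mul _ _

end Fermat.Agent.LT.T7.H44

end
end
-- ===== PACK-END LT/T7/H44/ChangeAna.lean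

-- ===== PACK-BEGIN LT/T7/H16/DblSys.lean
section





/-!
# Row LT, tower T7 (helper16): full systems of representatives of `U(𝔫) g U(𝔫) / U(𝔫)` EXIST

OFF-MAIN.  UNCONDITIONAL, every number field.

    dblSys_exists16 : 𝔫 ≠ ⊥ → (∀ w, TrivAtInf w g) → ∃ H : Finset (G K), IsDblCosetSystem 𝔫 g H

(the statement of the leaf `BadSystemExistsC` of helper963, `T7/H963/Compress.lean`, and the
existence part of the leaf B4.9 `BadOpC561` of helper561).

Proof.  `a ∈ 𝓞 K`, `a ≠ 0`, with `a g_v`, `a g_v⁻¹` integral at every finite place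
(`exists_denom16`: the places where `g` or `g⁻¹` is not integral are finite in number);
`𝔐 = a² 𝔫`: `g⁻¹ U(𝔐) g ⊆ U(𝔫)` (`conj_mem16`: `𝔐 𝒪_v = a² 𝔫 𝒪_v`, `ic_span_mul16`);
`U(𝔐)` has finite index in `GL₂(Ô)` (closed leaf `FinIndexC` of helper981): finitely many
`u_τ ∈ U(𝔫)` with `U(𝔫) = ⋃ u_τ (U(𝔫) ∩ U(𝔐))`, `U(𝔫) g U(𝔫) = ⋃ u_τ g U(𝔫)`; one
representative in every class modulo `U(𝔫)` (`Quotient.out`).
-/

set_option autoImplicit false
set_option linter.unusedSectionVars false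

open IsDedekindDomain NumberField WithZero

noncomputable section

namespace Fermat.Agent.LT.T7.H16

open Fermat.Agent.LT.H556 Fermat.Agent.LT.H556.A0 Fermat.Agent.LT.T7 Fermat.Agent.LT.T7.H543

variable {K : Type} [Field K] [NumberField K]

/-! ## 1. The level group is a group -/

theorem inLevelGroup_one16 (𝔫 : Ideal (𝓞 K)) : InLevelGroup 𝔫 (1 : G K) := by
  rw [inLevelGroup_iff543]
  refine ⟨fun w => trivAtInf_one543 w, fun v => ?_⟩
  rw [inv_one, finComp_one543, sub_self]
  exact ⟨idM_zero543 𝔫, idM_zero543 𝔫⟩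

theorem inLevelGroup_mul16 {𝔫 : Ideal (𝓞 K)} {u u' : G K} (hu : InLevelGroup 𝔫 u)
    (hu' : InLevelGroup 𝔫 u') : InLevelGroup 𝔫 (u * u') := by
  rw [inLevelGroup_iff543] at *
  refine ⟨fun w => trivAtInf_mul543 (hu.1 w) (hu'.1 w), fun v => ⟨?_, ?_⟩⟩
  · rw [finComp_mul543]
    exact idM_mul_sub_one543 (hu.2 v).1 (hu'.2 v).1
  · rw [mul_inv_rev, finComp_mul543]
    exact idM_mul_sub_one543 (hu'.2 v).2 (hu.2 v).2

theorem inLevelGroup_inv16 {𝔫 : Ideal (𝓞 K)} {u : G K} (hu : InLevelGroup 𝔫 u) :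
    InLevelGroup 𝔫 u⁻¹ := by
  rw [inLevelGroup_iff543] at *
  refine ⟨fun w => trivAtInf_inv543 (hu.1 w), fun v => ⟨(hu.2 v).2, ?_⟩⟩
  rw [inv_inv]
  exact (hu.2 v).1

theorem inLevelGroup_int16 {𝔫 : Ideal (𝓞 K)} {u : G K} (hu : InLevelGroup 𝔫 u)
    (v : HeightOneSpectrum (𝓞 K)) : IsIntegralAt v u ∧ IsIntegralAt v u⁻¹ := by
  rw [inLevelGroup_iff543] at hu
  exact ⟨intM_of_idM543 (hu.2 v).1, intM_of_idM543 (hu.2 v).2⟩

/-! ## 2. `(c 𝔫) 𝒪_v = c (𝔫 𝒪_v)` -/

theorem emb_ne_zero16 (v : HeightOneSpectrum (𝓞 K)) {c : 𝓞 K} (hc : c ≠ 0) :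
    emb543 v c ≠ 0 := by
  intro h
  apply hc
  have h1 : algebraMap K (v.adicCompletion K) (algebraMap (𝓞 K) K c) = 0 := h
  have h2 : algebraMap (𝓞 K) K c = 0 :=
    (map_eq_zero_iff _ (algebraMap K (v.adicCompletion K)).injective).1 h1
  exact (map_eq_zero_iff _ (IsFractionRing.injective (𝓞 K) K)).1 h2

/-- An element of the closure of `c 𝔫` is `c` times an element of the closure of `𝔫`. -/
theorem ic_span_mul16 {𝔫 : Ideal (𝓞 K)} (v : HeightOneSpectrum (𝓞 K)) {c : 𝓞 K} (hc : c ≠ 0)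
    {x : v.adicCompletion K} (hx : x ∈ idealClosure (Ideal.span {c} * 𝔫) v) :
    ∃ y ∈ idealClosure 𝔫 v, x = emb543 v c * y := by
  have hc0 := emb_ne_zero16 v hc
  have hvc : Valued.v (emb543 v c) ≠ 0 := (Valuation.ne_zero_iff _).2 hc0
  refine ⟨(emb543 v c)⁻¹ * x, ?_, by rw [mul_inv_cancel_left₀ hc0]⟩
  rw [mem_idealClosure_iff543] at hx ⊢
  intro z hz
  obtain ⟨n', hn', hlt⟩ := hx (emb543 v c * z) (mul_ne_zero hc0 hz)
  obtain ⟨n, hn, rfl⟩ := Ideal.mem_span_singleton_mul.1 hn'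
  refine ⟨n, hn, ?_⟩
  have e : emb543 v (c * n) - x = emb543 v c * (emb543 v n - (emb543 v c)⁻¹ * x) := by
    rw [map_mul, mul_sub, mul_inv_cancel_left₀ hc0]
  rw [e, map_mul, map_mul] at hlt
  exact lt_of_mul_lt_mul_left' hlt

/-! ## 3. Denominators -/

theorem valued_emb16 (v : HeightOneSpectrum (𝓞 K)) (c : 𝓞 K) :
    Valued.v (emb543 v c) = v.intValuation c := by
  show Valued.v (algebraMap K (v.adicCompletion K) (algebraMap (𝓞 K) K c)) = _
  rw [val_algebraMap543, HeightOneSpectrum.valuation_of_algebraMap]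

/-- The powers of an element of the maximal ideal kill the denominator of `x`. -/
theorem exists_pow_int16 (v : HeightOneSpectrum (𝓞 K)) (x : v.adicCompletion K) :
    ∃ n : ℕ, ∀ π : 𝓞 K, π ∈ v.asIdeal → ∀ n' : ℕ, n ≤ n' →
      emb543 v π ^ n' * x ∈ v.adicCompletionIntegers K := by
  by_cases hx : x = 0
  · exact ⟨0, fun π _ n' _ => by rw [hx, mul_zero]; exact zero_mem _⟩
  · have hvx : Valued.v x ≠ 0 := (Valuation.ne_zero_iff _).2 hx
    refine ⟨(log (Valued.v x)).toNat, fun π hπ n' hn' => ?_⟩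
    rw [HeightOneSpectrum.mem_adicCompletionIntegers, map_mul, map_pow]
    have h1 : Valued.v (emb543 v π) ≤ exp (-1 : ℤ) := by
      rw [valued_emb16]
      have h2 : v.intValuation π < 1 := (v.intValuation_lt_one_iff_mem π).2 hπ
      have h3 := WithZero.lt_mul_exp_iff_le (x := v.intValuation π) (y := exp (-1 : ℤ))
        exp_ne_zero
      rw [← exp_add] at h3
      have h4 : exp ((-1 : ℤ) + 1) = (1 : ℤᵐ⁰) := by simp
      rw [h4] at h3
      exact h3.1 h2
    have h5 : Valued.v (emb543 v π) ^ n' ≤ exp (-1 : ℤ) ^ n' := pow_le_pow_left' h1 n'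
    calc Valued.v (emb543 v π) ^ n' * Valued.v x
        ≤ exp (-1 : ℤ) ^ n' * Valued.v x := mul_le_mul_left h5 _
      _ = exp (n' • (-1 : ℤ) + log (Valued.v x)) := by rw [exp_add, exp_nsmul, exp_log hvx]
      _ ≤ exp (0 : ℤ) := by
          rw [exp_le_exp]
          have h6 := Int.self_le_toNat (log (Valued.v x))
          have h7 : ((log (Valued.v x)).toNat : ℤ) ≤ n' := by exact_mod_cast hn'
          rw [nsmul_eq_mul]
          linarith
      _ = 1 := exp_zero

/-- The denominators of `g` and `g⁻¹` at one place. -/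
theorem exists_denom_at16 (v : HeightOneSpectrum (𝓞 K)) (g : G K) :
    ∃ c : 𝓞 K, c ≠ 0 ∧ ∀ i j, emb543 v c * finComp v g i j ∈ v.adicCompletionIntegers K ∧
      emb543 v c * finComp v g⁻¹ i j ∈ v.adicCompletionIntegers K := by
  obtain ⟨π, hπ, hπ0⟩ := Submodule.exists_mem_ne_zero_of_ne_bot v.ne_bot
  choose f hf using exists_pow_int16 v
  set N : ℕ := ∑ i : Fin 2, ∑ j : Fin 2, (f (finComp v g i j) + f (finComp v g⁻¹ i j)) with hN
  have hle : ∀ i j, f (finComp v g i j) + f (finComp v g⁻¹ i j) ≤ N := by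
    intro i j
    have h1 : ∑ j' : Fin 2, (f (finComp v g i j') + f (finComp v g⁻¹ i j')) ≤ N :=
      Finset.single_le_sum (f := fun i' : Fin 2 =>
        ∑ j' : Fin 2, (f (finComp v g i' j') + f (finComp v g⁻¹ i' j')))
        (fun _ _ => Nat.zero_le _) (Finset.mem_univ i)
    have h2 : f (finComp v g i j) + f (finComp v g⁻¹ i j)
        ≤ ∑ j' : Fin 2, (f (finComp v g i j') + f (finComp v g⁻¹ i j')) :=
      Finset.single_le_sum (f := fun j' : Fin 2 =>
        f (finComp v g i j') + f (finComp v g⁻¹ i j'))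
        (fun _ _ => Nat.zero_le _) (Finset.mem_univ j)
    exact h2.trans h1
  refine ⟨π ^ N, pow_ne_zero _ hπ0, fun i j => ?_⟩
  rw [map_pow]
  exact ⟨hf _ π hπ N (by have := hle i j; omega), hf _ π hπ N (by have := hle i j; omega)⟩

/-- The finite places where `g` or `g⁻¹` is not integral are finite in number. -/
theorem finite_nonint16 (g : G K) :
    {v : HeightOneSpectrum (𝓞 K) | ¬ ((∀ i j, finComp v g i j ∈ v.adicCompletionIntegers K) ∧
      ∀ i j, finComp v g⁻¹ i j ∈ v.adicCompletionIntegers K)}.Finite := by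
  have h : ∀ a : Adl K, {v : HeightOneSpectrum (𝓞 K) |
      ¬ a.2 v ∈ v.adicCompletionIntegers K}.Finite := fun a => a.2.2
  have hsub : {v : HeightOneSpectrum (𝓞 K) |
      ¬ ((∀ i j, finComp v g i j ∈ v.adicCompletionIntegers K) ∧
        ∀ i j, finComp v g⁻¹ i j ∈ v.adicCompletionIntegers K)}
      ⊆ (⋃ i : Fin 2, ⋃ j : Fin 2, {v : HeightOneSpectrum (𝓞 K) |
          ¬ ((g : Matrix (Fin 2) (Fin 2) (Adl K)) i j).2 v ∈ v.adicCompletionIntegers K})
        ∪ (⋃ i : Fin 2, ⋃ j : Fin 2, {v : HeightOneSpectrum (𝓞 K) |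
          ¬ (((g⁻¹ : G K) : Matrix (Fin 2) (Fin 2) (Adl K)) i j).2 v
            ∈ v.adicCompletionIntegers K}) := by
    intro v hv
    rw [Set.mem_ofPred_eq, not_and_or] at hv
    rcases hv with hv | hv
    · push Not at hv
      obtain ⟨i, j, hij⟩ := hv
      exact Or.inl (Set.mem_iUnion.2 ⟨i, Set.mem_iUnion.2 ⟨j, hij⟩⟩)
    · push Not at hv
      obtain ⟨i, j, hij⟩ := hv
      exact Or.inr (Set.mem_iUnion.2 ⟨i, Set.mem_iUnion.2 ⟨j, hij⟩⟩)
  refine Set.Finite.subset ?_ hsub
  refine Set.Finite.union ?_ ?_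
  · exact Set.finite_iUnion fun i => Set.finite_iUnion fun j => h _
  · exact Set.finite_iUnion fun i => Set.finite_iUnion fun j => h _

/-- **A global denominator**: `a ≠ 0` in `𝓞 K` with `a g`, `a g⁻¹` integral at every finite
place. -/
theorem exists_denom16 (g : G K) :
    ∃ a : 𝓞 K, a ≠ 0 ∧ ∀ (v : HeightOneSpectrum (𝓞 K)) (i j : Fin 2),
      emb543 v a * finComp v g i j ∈ v.adicCompletionIntegers K ∧
      emb543 v a * finComp v g⁻¹ i j ∈ v.adicCompletionIntegers K := by
  classical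
  choose c hc0 hc using fun v : HeightOneSpectrum (𝓞 K) => exists_denom_at16 v g
  set T : Finset (HeightOneSpectrum (𝓞 K)) := (finite_nonint16 g).toFinset with hT
  refine ⟨∏ v ∈ T, c v, Finset.prod_ne_zero_iff.2 fun v _ => hc0 v, fun v i j => ?_⟩
  by_cases hv : v ∈ T
  · have e : ∏ v' ∈ T, c v' = (∏ v' ∈ T.erase v, c v') * c v := by
      rw [mul_comm]
      exact (Finset.mul_prod_erase T c hv).symm
    rw [e, map_mul, mul_assoc, mul_assoc]
    exact ⟨mul_mem (emb_mem543 v _) (hc v i j).1, mul_mem (emb_mem543 v _) (hc v i j).2⟩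
  · have hv' : (∀ i j, finComp v g i j ∈ v.adicCompletionIntegers K) ∧
        ∀ i j, finComp v g⁻¹ i j ∈ v.adicCompletionIntegers K := by
      by_contra hcon
      exact hv ((Set.Finite.mem_toFinset _).2 hcon)
    exact ⟨mul_mem (emb_mem543 v _) (hv'.1 i j), mul_mem (emb_mem543 v _) (hv'.2 i j)⟩

/-! ## 4. Conjugation -/

/-- `g⁻¹ U(a² 𝔫) g ⊆ U(𝔫)` for a denominator `a` of `g` and `g⁻¹`. -/
theorem conj_mem16 {𝔫 : Ideal (𝓞 K)} {g : G K} (hg : ∀ w : InfinitePlace K, TrivAtInf w g)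
    {a : 𝓞 K} (ha0 : a ≠ 0)
    (ha : ∀ (v : HeightOneSpectrum (𝓞 K)) (i j : Fin 2),
      emb543 v a * finComp v g i j ∈ v.adicCompletionIntegers K ∧
      emb543 v a * finComp v g⁻¹ i j ∈ v.adicCompletionIntegers K)
    {m : G K} (hm : InLevelGroup (Ideal.span {a * a} * 𝔫) m) :
    InLevelGroup 𝔫 (g⁻¹ * m * g) := by
  have haa : a * a ≠ 0 := mul_ne_zero ha0 ha0
  have key : ∀ (v : HeightOneSpectrum (𝓞 K)) (A : Matrix (Fin 2) (Fin 2) (v.adicCompletion K)),
      IdM543 (Ideal.span {a * a} * 𝔫) v (A - 1) →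
      IdM543 𝔫 v (finComp v g⁻¹ * A * finComp v g - 1) := by
    intro v A hA
    choose Y hY hYe using fun i j => ic_span_mul16 v haa (hA i j)
    have eA : A - 1 = (emb543 v a * emb543 v a) • Matrix.of Y := by
      ext i j
      rw [hYe i j, map_mul, Matrix.smul_apply, Matrix.of_apply, smul_eq_mul]
    have e : finComp v g⁻¹ * A * finComp v g - 1
        = (emb543 v a • finComp v g⁻¹) * Matrix.of Y * (emb543 v a • finComp v g) := by
      have e1 : finComp v g⁻¹ * A * finComp v g - 1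
          = finComp v g⁻¹ * (A - 1) * finComp v g := by
        rw [mul_sub, sub_mul, mul_one, finComp_inv_mul543]
      rw [e1, eA, Matrix.mul_smul, Matrix.smul_mul, Matrix.smul_mul, Matrix.smul_mul,
        Matrix.mul_smul, smul_smul, mul_comm]
    rw [e]
    refine idM_mul_int543 (int_mul_idM543 (fun i j => ?_) (fun i j => hY i j)) (fun i j => ?_)
    · rw [Matrix.smul_apply, smul_eq_mul]
      exact (ha v i j).2
    · rw [Matrix.smul_apply, smul_eq_mul]
      exact (ha v i j).1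
  rw [inLevelGroup_iff543] at hm ⊢
  refine ⟨fun w => trivAtInf_mul543 (trivAtInf_mul543 (trivAtInf_inv543 (hg w)) (hm.1 w))
    (hg w), fun v => ⟨?_, ?_⟩⟩
  · rw [finComp_mul543, finComp_mul543]
    exact key v _ (hm.2 v).1
  · have e : (g⁻¹ * m * g)⁻¹ = g⁻¹ * m⁻¹ * g := by group
    rw [e, finComp_mul543, finComp_mul543]
    exact key v _ (hm.2 v).2

/-! ## 5. The system -/

/-- The equivalence modulo `U(𝔫)` on the right. -/
def lvlSetoid16 (𝔫 : Ideal (𝓞 K)) : Setoid (G K) where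
  r x y := InLevelGroup 𝔫 (x⁻¹ * y)
  iseqv :=
    { refl := fun x => by
        rw [inv_mul_cancel]
        exact inLevelGroup_one16 𝔫
      symm := fun {x y} h => by
        have h1 := inLevelGroup_inv16 h
        rwa [mul_inv_rev, inv_inv] at h1
      trans := fun {x y z} h1 h2 => by
        have h3 := inLevelGroup_mul16 h1 h2
        have e : x⁻¹ * y * (y⁻¹ * z) = x⁻¹ * z := by group
        rwa [e] at h3 }

/-- **Full systems of representatives of `U(𝔫) g U(𝔫) / U(𝔫)` exist**, `g` trivial at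
infinity. -/
theorem dblSys_exists16 (𝔫 : Ideal (𝓞 K)) (h𝔫 : 𝔫 ≠ ⊥) (g : G K)
    (hg : ∀ w : InfinitePlace K, TrivAtInf w g) :
    ∃ H : Finset (G K), IsDblCosetSystem 𝔫 g H := by
  classical
  obtain ⟨a, ha0, ha⟩ := exists_denom16 g
  have haa : a * a ≠ 0 := mul_ne_zero ha0 ha0
  have h𝔐0 : Ideal.span {a * a} * 𝔫 ≠ ⊥ := by
    intro h
    rcases Ideal.mul_eq_bot.1 h with h1 | h1
    · exact haa (Ideal.span_singleton_eq_bot.1 h1)
    · exact h𝔫 h1
  obtain ⟨T, hT⟩ := H981.finIndexC981 K (Ideal.span {a * a} * 𝔫) h𝔐0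
  have hex : ∀ τ : G K, ∃ u : G K, InLevelGroup 𝔫 u ∧
      ((∃ u' : G K, InLevelGroup 𝔫 u' ∧ InLevelGroup (Ideal.span {a * a} * 𝔫) (τ⁻¹ * u')) →
        InLevelGroup (Ideal.span {a * a} * 𝔫) (τ⁻¹ * u)) := by
    intro τ
    by_cases h : ∃ u' : G K, InLevelGroup 𝔫 u' ∧
        InLevelGroup (Ideal.span {a * a} * 𝔫) (τ⁻¹ * u')
    · obtain ⟨u', h1, h2⟩ := h
      exact ⟨u', h1, fun _ => h2⟩
    · exact ⟨1, inLevelGroup_one16 𝔫, fun h' => absurd h' h⟩
  choose ρ hρ1 hρ2 using hex
  have hout : ∀ c : G K,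
      InLevelGroup 𝔫 (c⁻¹ * (Quotient.mk (lvlSetoid16 𝔫) c).out) := by
    intro c
    have h1 : (lvlSetoid16 𝔫).r (Quotient.mk (lvlSetoid16 𝔫) c).out c :=
      Quotient.exact (Quotient.out_eq (Quotient.mk (lvlSetoid16 𝔫) c))
    exact (lvlSetoid16 𝔫).iseqv.symm h1
  refine ⟨T.image (fun τ => (Quotient.mk (lvlSetoid16 𝔫) (ρ τ * g)).out), ?_, ?_, ?_⟩
  · intro h hh
    obtain ⟨τ, _, rfl⟩ := Finset.mem_image.1 hh
    refine ⟨ρ τ, (ρ τ * g)⁻¹ * (Quotient.mk (lvlSetoid16 𝔫) (ρ τ * g)).out, hρ1 τ,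
      hout _, ?_⟩
    group
  · intro h hh h' hh' hne hI
    obtain ⟨τ, _, rfl⟩ := Finset.mem_image.1 hh
    obtain ⟨τ', _, rfl⟩ := Finset.mem_image.1 hh'
    apply hne
    have h1 : Quotient.mk (lvlSetoid16 𝔫) (Quotient.mk (lvlSetoid16 𝔫) (ρ τ * g)).out
        = Quotient.mk (lvlSetoid16 𝔫) (Quotient.mk (lvlSetoid16 𝔫) (ρ τ' * g)).out :=
      Quotient.sound hI
    rw [Quotient.out_eq, Quotient.out_eq] at h1
    rw [h1]
  · intro u hu
    obtain ⟨τ, hτ, hτu⟩ := hT u hu.1 (inLevelGroup_int16 hu)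
    have h1 : InLevelGroup (Ideal.span {a * a} * 𝔫) (τ⁻¹ * ρ τ) := hρ2 τ ⟨u, hu, hτu⟩
    have h2 : InLevelGroup (Ideal.span {a * a} * 𝔫) ((ρ τ)⁻¹ * u) := by
      have h3 := inLevelGroup_mul16 (inLevelGroup_inv16 h1) hτu
      have e : (τ⁻¹ * ρ τ)⁻¹ * (τ⁻¹ * u) = (ρ τ)⁻¹ * u := by group
      rwa [e] at h3
    have h3 : InLevelGroup 𝔫 (g⁻¹ * ((ρ τ)⁻¹ * u) * g) := conj_mem16 hg ha0 ha h2
    refine ⟨(Quotient.mk (lvlSetoid16 𝔫) (ρ τ * g)).out, Finset.mem_image.2 ⟨τ, hτ, rfl⟩, ?_⟩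
    have h4 := inLevelGroup_mul16 (inLevelGroup_inv16 (hout (ρ τ * g))) h3
    have e : ((ρ τ * g)⁻¹ * (Quotient.mk (lvlSetoid16 𝔫) (ρ τ * g)).out)⁻¹
        * (g⁻¹ * ((ρ τ)⁻¹ * u) * g)
        = ((Quotient.mk (lvlSetoid16 𝔫) (ρ τ * g)).out)⁻¹ * (u * g) := by group
    rwa [e] at h4

end Fermat.Agent.LT.T7.H16

end

end
-- ===== PACK-END LT/T7/H16/DblSys.lean

-- ===== PACK-BEGIN LT/T7/H756/EigInv.lean
section




/-!
# Row LT, tower T7, level 2 (helper756, OFF-MAIN): the operators `[U g U]`, `𝒰`, `Z` preserve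
# the invariance, and do not depend on the coset systems

No holes, nothing assumed.

* `inLevelGroup_one756 / mul756 / inv756`, `conj_inLevelGroup756` (normality of `U(𝔫)` under the
  integral elements);
* `rinv_cosetOp_iw756`, `isKInv_cosetOp_iw756`, `isKInv_iwOp_iterate756`: the Iwahori operator at
  `o 0 ∣ 𝔫` preserves the invariance under `U(𝔫)` and the elements of Iwahori type;
* `central_of_scalarUnif756`, `isKInv_shiftOp756`, `shiftOp_indep756`;
* `cosetOp_perm756`, `isKInv_cosetOp_dbl756`, `cosetOp_dbl_indep756`: the same for the double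
  coset operator of an element which is trivial at infinity and along the orbit.
-/

set_option autoImplicit false
set_option linter.unusedSectionVars false
set_option linter.unusedVariables false

open AutomorphicForm IsDedekindDomain NumberField MeasureTheory
open scoped ComplexConjugate

noncomputable section

namespace Fermat.Agent.LT.T7.H756

open Fermat.Agent.LT.H556 Fermat.Agent.LT.H556.A0 Fermat.Agent.LT.T7 Fermat.Agent.LT.H129
open Fermat.Agent.LT.T7.H83

variable {K : Type} [Field K] [NumberField K]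

/-! ## 1. The level group -/

theorem inLevelGroup_one756 (𝔫 : Ideal (𝓞 K)) : InLevelGroup 𝔫 (1 : G K) :=
  (H51.MS4.inLevelGroup_iff 𝔫 1).2
    ⟨fun w => map_one _, fun v => by rw [map_one]; exact H51.MS4.locLevel_one 𝔫 v⟩

theorem inLevelGroup_mul756 {𝔫 : Ideal (𝓞 K)} {a b : G K} (ha : InLevelGroup 𝔫 a)
    (hb : InLevelGroup 𝔫 b) : InLevelGroup 𝔫 (a * b) := by
  rw [H51.MS4.inLevelGroup_iff] at *
  refine ⟨fun w => by rw [map_mul, ha.1 w, hb.1 w, mul_one], fun v => ?_⟩
  rw [map_mul]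
  exact T2.H907.locLevel_mul907 (ha.2 v) (hb.2 v)

theorem inLevelGroup_inv756 {𝔫 : Ideal (𝓞 K)} {a : G K} (ha : InLevelGroup 𝔫 a) :
    InLevelGroup 𝔫 a⁻¹ := by
  rw [H51.MS4.inLevelGroup_iff] at *
  refine ⟨fun w => by rw [map_inv, ha.1 w, inv_one], fun v => ?_⟩
  rw [map_inv]
  exact T2.H907.locLevel_inv907 (ha.2 v)

theorem finComp_mul756 (v : HeightOneSpectrum (𝓞 K)) (g g' : G K) :
    finComp v (g * g') = finComp v g * finComp v g' := by
  rw [← coe_finCompHom129, map_mul]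
  rfl

theorem finComp_one756 (v : HeightOneSpectrum (𝓞 K)) : finComp v (1 : G K) = 1 := by
  rw [← coe_finCompHom129, map_one]
  rfl

/-- The key computation: conjugation by integral matrices preserves the congruence. -/
theorem conj_sub_one_mem756 (𝔫 : Ideal (𝓞 K)) (v : HeightOneSpectrum (𝓞 K))
    (A U A' : Matrix (Fin 2) (Fin 2) (v.adicCompletion K)) (hAA : A * A' = 1)
    (hA : ∀ i j, Valued.v (A i j) ≤ 1) (hA' : ∀ i j, Valued.v (A' i j) ≤ 1)
    (hU : ∀ i j, (U - 1) i j ∈ idealClosure 𝔫 v) (i j : Fin 2) :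
    (A * U * A' - 1) i j ∈ idealClosure 𝔫 v := by
  have e : A * U * A' - 1 = A * (U - 1) * A' := by
    rw [Matrix.mul_sub, Matrix.sub_mul, Matrix.mul_one, hAA]
  rw [e, Matrix.mul_apply, Fin.sum_univ_two]
  have h1 : ∀ a b : Fin 2, (A * (U - 1)) a b ∈ idealClosure 𝔫 v := by
    intro a b
    rw [Matrix.mul_apply, Fin.sum_univ_two]
    exact idealClosure_add756 𝔫 v (idealClosure_int_mul756 𝔫 v (hA a 0) (hU 0 b))
      (idealClosure_int_mul756 𝔫 v (hA a 1) (hU 1 b))
  exact idealClosure_add756 𝔫 v (idealClosure_mul_int756 𝔫 v (hA' 0 j) (h1 i 0))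
    (idealClosure_mul_int756 𝔫 v (hA' 1 j) (h1 i 1))

/-- **Normality**: `U(𝔫)` is normalised by the elements which are trivial at infinity, integral
with integral inverse at every finite place. -/
theorem conj_inLevelGroup756 {𝔫 : Ideal (𝓞 K)} {k u : G K}
    (hk1 : ∀ w : InfinitePlace K, TrivAtInf w k)
    (hk2 : ∀ v : HeightOneSpectrum (𝓞 K), IsIntegralAt v k ∧ IsIntegralAt v k⁻¹)
    (hu : InLevelGroup 𝔫 u) : InLevelGroup 𝔫 (k * u * k⁻¹) := by
  have hu' := inLevelGroup_inv756 hu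
  refine ⟨fun w => trivAtInf_mul756 (trivAtInf_mul756 (hk1 w) (hu.1 w))
    (trivAtInf_inv756 (hk1 w)), fun v i j => ⟨?_, ?_⟩⟩
  · rw [finComp_mul756, finComp_mul756]
    refine conj_sub_one_mem756 𝔫 v _ _ _ ?_ (fun a b => (hk2 v).1 a b) (fun a b => (hk2 v).2 a b)
      (fun a b => (hu.2 v a b).1) i j
    rw [← finComp_mul756, mul_inv_cancel, finComp_one756]
  · have e : (k * u * k⁻¹)⁻¹ = k * u⁻¹ * k⁻¹ := by group
    rw [e, finComp_mul756, finComp_mul756]
    refine conj_sub_one_mem756 𝔫 v _ _ _ ?_ (fun a b => (hk2 v).1 a b) (fun a b => (hk2 v).2 a b)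
      (fun a b => (hu'.2 v a b).1) i j
    rw [← finComp_mul756, mul_inv_cancel, finComp_one756]

/-- The elements of Iwahori type are integral with integral inverse. -/
theorem isIntegralAt_of_isIwElt756 {l : ℕ} {o : ℕ → HeightOneSpectrum (𝓞 K)} {k : G K}
    (hk : IsIwElt756 l o k) (v : HeightOneSpectrum (𝓞 K)) :
    IsIntegralAt v k ∧ IsIntegralAt v k⁻¹ := by
  by_cases hv : ∃ j < l, v = o j
  · obtain ⟨j, hj, rfl⟩ := hv
    exact ⟨(hk.2.2 j hj).1, (hk.2.2 j hj).2.1⟩
  · have hv' : ∀ j < l, v ≠ o j := fun j hj e => hv ⟨j, hj, e⟩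
    have ht := hk.2.1 v hv'
    exact ⟨isIntegralAt_of_trivAtFin756 ht, isIntegralAt_of_trivAtFin756 (trivAtFin_inv756 ht)⟩

theorem isIwElt_inv756 {l : ℕ} {o : ℕ → HeightOneSpectrum (𝓞 K)} {k : G K}
    (hk : IsIwElt756 l o k) : IsIwElt756 l o k⁻¹ :=
  ⟨fun w => trivAtInf_inv756 (hk.1 w), fun v hv => trivAtFin_inv756 (hk.2.1 v hv),
    fun j hj => inIwahori_inv83 (o j) (hk.2.2 j hj)⟩

/-- The local part at `o 0` of an element which is Iwahori at `o 0` is of Iwahori type. -/
theorem isIwElt_locPart756 {l : ℕ} {o : ℕ → HeightOneSpectrum (𝓞 K)} (hl : 0 < l) {k : G K}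
    (hk : T5.InIwahori (o 0) k) : IsIwElt756 l o (locPart756 (o 0) k) := by
  have hloc := isLocalAtFin_locPart756 (o 0) k
  refine ⟨hloc.1, fun v hv => hloc.2 v (hv 0 hl), fun j hj => ?_⟩
  by_cases e : o j = o 0
  · rw [e]
    exact inIwahori_congr83 (o 0) (finComp_locPart756 (o 0) k).symm hk
  · exact inIwahori_of_trivAtFin83 (o j) (hloc.2 (o j) e)

/-! ## 2. The Iwahori operator -/

/-- The Iwahori coset operator at `o 0` preserves the right invariance under an element `k`
which is Iwahori at `o 0`. -/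
theorem rinv_cosetOp_iw756 {𝔫 : Ideal (𝓞 K)} {l : ℕ} {o : ℕ → HeightOneSpectrum (𝓞 K)}
    (hl : 0 < l) {H : Finset (G K)} (hH : IsIwCosetSystem (o 0) H) {ψ : G K → ℂ}
    (hψ : IsKInv756 𝔫 l o ψ) {k : G K} (hk : RInv756 ψ k) (hkI : T5.InIwahori (o 0) k) :
    RInv756 (cosetOp H ψ) k := by
  intro x
  have hat : IsIwInvAt (o 0) ψ := isIwInvAt_of_isIwInv83 (isIwInv_of_isKInv756 hψ) hl
  have hloc : RInv756 ψ (locPart756 (o 0) k) := hψ.2 _ (isIwElt_locPart756 hl hkI)
  have hrest : RInv756 ψ ((locPart756 (o 0) k)⁻¹ * k) := rinv_mul756 (rinv_inv756 hloc) hk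
  have e1 : x * k = x * ((locPart756 (o 0) k)⁻¹ * k) * locPart756 (o 0) k := by
    rw [mul_assoc, ← eq_rest_mul_locPart756]
  rw [e1, cosetOp_isIwInvAt83 (o 0) hH hat _ (isLocalAtFin_locPart756 (o 0) k)
    (inIwahori_congr83 (o 0) (finComp_locPart756 (o 0) k).symm hkI),
    cosetOp_mul_right83 (o 0) (fun h hh => (hH.2.1 h hh).1) (trivAtFin_rest756 (o 0) k)]
  unfold cosetOp
  refine Finset.sum_congr rfl fun h _ => ?_
  exact hrest _

theorem isKInv_cosetOp_iw756 {𝔫 : Ideal (𝓞 K)} {l : ℕ} {o : ℕ → HeightOneSpectrum (𝓞 K)}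
    (hl : 0 < l) (hw : (o 0).asIdeal ∣ 𝔫) {H : Finset (G K)} (hH : IsIwCosetSystem (o 0) H)
    {ψ : G K → ℂ} (hψ : IsKInv756 𝔫 l o ψ) : IsKInv756 𝔫 l o (cosetOp H ψ) :=
  ⟨fun u hu => rinv_cosetOp_iw756 hl hH hψ (hψ.1 u hu) (inIwahori_of_inLevelGroup756 hw hu),
    fun k hk => rinv_cosetOp_iw756 hl hH hψ (hψ.2 k hk) (hk.2.2 0 hl)⟩

theorem isKInv_const_mul756 {𝔫 : Ideal (𝓞 K)} {l : ℕ} {o : ℕ → HeightOneSpectrum (𝓞 K)}
    {ψ : G K → ℂ} (hψ : IsKInv756 𝔫 l o ψ) (c : ℂ) : IsKInv756 𝔫 l o (fun x => c * ψ x) :=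
  ⟨fun u hu x => by show c * ψ (x * u) = c * ψ x; rw [hψ.1 u hu x],
    fun k hk x => by show c * ψ (x * k) = c * ψ x; rw [hψ.2 k hk x]⟩

theorem iwOp_eq756 (w : HeightOneSpectrum (𝓞 K)) (H : Finset (G K)) (ψ : G K → ℂ) :
    iwOp w H ψ = fun x => ((Real.sqrt (Ideal.absNorm w.asIdeal : ℝ) : ℝ) : ℂ)⁻¹
      * cosetOp H ψ x := rfl

theorem isKInv_iwOp756 {𝔫 : Ideal (𝓞 K)} {l : ℕ} {o : ℕ → HeightOneSpectrum (𝓞 K)}
    (hl : 0 < l) (hw : (o 0).asIdeal ∣ 𝔫) {H : Finset (G K)} (hH : IsIwCosetSystem (o 0) H)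
    {ψ : G K → ℂ} (hψ : IsKInv756 𝔫 l o ψ) : IsKInv756 𝔫 l o (iwOp (o 0) H ψ) := by
  rw [iwOp_eq756]
  exact isKInv_const_mul756 (isKInv_cosetOp_iw756 hl hw hH hψ) _

/-! ## 3. The central shift -/

/-- A scalar uniformiser is central. -/
theorem central_of_scalarUnif756 {w : HeightOneSpectrum (𝓞 K)} {z : G K}
    (hz : IsScalarUniformizerAt w z) (y : G K) : z * y = y * z := by
  obtain ⟨hloc, c, -, hc⟩ := hz
  have hloc' := (isLocalAtFin_iff129 w z).1 hloc
  apply G_ext129
  · intro w'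
    rw [map_mul, map_mul, hloc'.1 w', one_mul, mul_one]
  · intro v
    by_cases e : v = w
    · subst e
      rw [map_mul, map_mul]
      apply Units.ext
      rw [Units.val_mul, Units.val_mul, coe_finCompHom129, coe_finCompHom129, hc]
      have e1 : Matrix.diagonal (fun _ : Fin 2 => c)
          = c • (1 : Matrix (Fin 2) (Fin 2) (v.adicCompletion K)) := by
        rw [Matrix.smul_one_eq_diagonal]
      rw [e1, Matrix.smul_mul, Matrix.mul_smul, Matrix.one_mul, Matrix.mul_one]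
    · rw [map_mul, map_mul, hloc'.2 v e, one_mul, mul_one]

theorem central_zpow756 {z : G K} (hz : ∀ y : G K, z * y = y * z) (k : ℤ) (y : G K) :
    z ^ k * y = y * z ^ k :=
  ((Commute.zpow_left (show Commute z y from hz y) k)).eq

theorem isKInv_shiftOp756 {𝔫 : Ideal (𝓞 K)} {l : ℕ} {o : ℕ → HeightOneSpectrum (𝓞 K)}
    {z : G K} (hz : ∀ y : G K, z * y = y * z) (k : ℤ) {ψ : G K → ℂ}
    (hψ : IsKInv756 𝔫 l o ψ) : IsKInv756 𝔫 l o (shiftOp z k ψ) := by
  have key : ∀ n : G K, RInv756 ψ n → RInv756 (shiftOp z k ψ) n := by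
    intro n hn x
    show ψ (x * n * z ^ k) = ψ (x * z ^ k)
    rw [mul_assoc, ← central_zpow756 hz k n, ← mul_assoc, hn]
  exact ⟨fun u hu => key u (hψ.1 u hu), fun h hh => key h (hψ.2 h hh)⟩

end Fermat.Agent.LT.T7.H756

end

end
-- ===== PACK-END LT/T7/H756/EigInv.lean

-- ===== PACK-BEGIN LT/T7/H801/TypeBridgeQ.lean
section




/-!
# Row LT, quadratic step (`F = ℚ(√-3)` over `ℚ`): BRIDGE between the `K_∞`-types of station
# T3.18R (`T3.R.typeR`, weights in the convention of `T6.wtChar`) and the two types of the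
# quadratic step (`L2Q.QWt.type`: `T5.trivType`, `L2Q.wtOne`)

OFF-MAIN.  PROVED, no hole, nothing assumed.  ADDITIVE (new names only, suffix `801`, namespace
`Fermat.Agent.LT.T7.TB801`).

The Eisenstein-killing functions of station T3.18R over `ℚ` (`T3.R.ekOpExistR_c`,
`T3.R.ekOfPairR_c`, `T3.PushR801.ekPushR801`) are test functions of type
`T3.R.typeR ℚ hR n`, `n` the weight at the real place.  The families of the quadratic step are
test functions of type `t.type`, `t : L2Q.QWt` (`w0 ↦ T5.trivType`, `w1 ↦ L2Q.wtOne`), of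
weight `t.wt` (`0`, `-1`).  The types agree ON `K_∞ = SO(2)`, which is all a test function
sees:

    typeR_zero801             : typeR ℚ hR (fun _ => 0) = T5.trivType
    typeR_negOne_eq_wtOne801  : IsArchCompact w k → typeR ℚ hR (fun _ => -1) k = L2Q.wtOne k
    typeR_eq_type801          : IsArchCompact w k → typeR ℚ hR (fun _ => t.wt) k = t.type k
    isTestFn_congr801         : (types agree on `K_∞`, the second is a `K_∞`-type)
                                  → T5.IsTestFn 𝔫 τ φ → T5.IsTestFn 𝔫 τ' φ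
    isTestFn_type_of_typeR801 : T5.IsTestFn 𝔫 (typeR ℚ hR (fun _ => t.wt)) φ
                                  → T5.IsTestFn 𝔫 t.type φ
-/

set_option autoImplicit false

open AutomorphicForm IsDedekindDomain NumberField MeasureTheory
open scoped ComplexConjugate

noncomputable section

namespace Fermat.Agent.LT.T7.TB801

open Fermat.Agent.LT.H556 Fermat.Agent.LT.H556.A0 Fermat.Agent.LT.T7 Fermat.Agent.LT.T7.L2Q

/-- Over `ℚ` the type `typeR` is the character of the real component. -/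
theorem typeR_apply801 (hR : ∀ w : InfinitePlace ℚ, w.IsReal) (n : InfinitePlace ℚ → ℤ)
    (k : G ℚ) :
    T3.R.typeR ℚ hR n k
      = T6.wtChar (n Rat.infinitePlace)
          (T3.R.reGL ℚ Rat.infinitePlace (hR Rat.infinitePlace) k) := by
  unfold T3.R.typeR
  exact Fintype.prod_subsingleton _ Rat.infinitePlace

/-- Weight `0` is the trivial type. -/
theorem typeR_zero801 (hR : ∀ w : InfinitePlace ℚ, w.IsReal) :
    T3.R.typeR ℚ hR (fun _ => 0) = T5.trivType := by
  funext k
  rw [typeR_apply801]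
  simp [T6.wtChar, T5.trivType]

/-- Weight `-1` (convention of `T6.wtChar`) is the weight one of the quadratic step, on
`SO(2)`. -/
theorem typeR_negOne_eq_wtOne801 (hR : ∀ w : InfinitePlace ℚ, w.IsReal)
    {w : InfinitePlace ℚ} {k : G ℚ} (hk : IsArchCompact w k) :
    T3.R.typeR ℚ hR (fun _ => -1) k = wtOne k := by
  rw [Subsingleton.elim w Rat.infinitePlace] at hk
  obtain ⟨a, b, hab, h00, h01, h10, h11⟩ := wtOne_form826 hk
  rw [typeR_apply801]
  set r : GL (Fin 2) ℝ := T3.R.reGL ℚ Rat.infinitePlace (hR Rat.infinitePlace) k with hr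
  have e : ∀ i j : Fin 2, infComp Rat.infinitePlace k i j
      = (((r : Matrix (Fin 2) (Fin 2) ℝ) i j : ℝ) : ℂ) := fun i j =>
    T3.R.infComp_eq_reGL ℚ Rat.infinitePlace (hR Rat.infinitePlace) k i j
  have r00 : (r : Matrix (Fin 2) (Fin 2) ℝ) 0 0 = a := by
    have := (e 0 0).symm.trans h00
    exact_mod_cast this
  have r01 : (r : Matrix (Fin 2) (Fin 2) ℝ) 0 1 = b := by
    have := (e 0 1).symm.trans h01
    exact_mod_cast this
  have r10 : (r : Matrix (Fin 2) (Fin 2) ℝ) 1 0 = -b := by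
    have := (e 1 0).symm.trans h10
    exact_mod_cast this
  have r11 : (r : Matrix (Fin 2) (Fin 2) ℝ) 1 1 = a := by
    have := (e 1 1).symm.trans h11
    exact_mod_cast this
  have hhol : T6.holPart r = (a : ℂ) - (b : ℂ) * Complex.I := by
    unfold T6.holPart
    rw [r00, r01, r10, r11]
    push_cast
    ring
  have hab' : ((a : ℂ) - (b : ℂ) * Complex.I) * ((a : ℂ) + Complex.I * (b : ℂ)) = 1 := by
    have h1 : ((a : ℂ) - (b : ℂ) * Complex.I) * ((a : ℂ) + Complex.I * (b : ℂ))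
        = ((a ^ 2 + b ^ 2 : ℝ) : ℂ) := by
      push_cast
      ring_nf
      rw [Complex.I_sq]
      ring
    rw [h1, hab]
    simp
  show T6.holPart r ^ (-1 : ℤ)
    = infComp Rat.infinitePlace k 0 0 + Complex.I * infComp Rat.infinitePlace k 0 1
  rw [hhol, h00, h01, zpow_neg_one]
  exact inv_eq_of_mul_eq_one_right hab'

/-- The types of station T3.18R and of the quadratic step agree on `K_∞`. -/
theorem typeR_eq_type801 (hR : ∀ w : InfinitePlace ℚ, w.IsReal) (t : QWt)
    {w : InfinitePlace ℚ} {k : G ℚ} (hk : IsArchCompact w k) :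
    T3.R.typeR ℚ hR (fun _ => t.wt) k = t.type k := by
  cases t with
  | w0 =>
    show T3.R.typeR ℚ hR (fun _ => 0) k = T5.trivType k
    rw [typeR_zero801]
  | w1 => exact typeR_negOne_eq_wtOne801 hR hk

section Congr

variable {K : Type} [Field K] [NumberField K]

/-- Bi-invariance of type `τ` only sees `τ` on `K_∞`. -/
theorem isBiInvariant_congr801 {τ τ' : G K → ℂ}
    (h : ∀ (w : InfinitePlace K) (k : G K), IsArchCompact w k → τ k = τ' k)
    {𝔫 : Ideal (𝓞 K)} {φ : G K → ℂ} (hφ : T5.IsBiInvariant 𝔫 τ φ) :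
    T5.IsBiInvariant 𝔫 τ' φ where
  level_right := hφ.level_right
  level_left := hφ.level_left
  arch_right := fun w k hk g => by rw [← h w k hk]; exact hφ.arch_right w k hk g
  arch_left := fun w k hk g => by rw [← h w k hk]; exact hφ.arch_left w k hk g

/-- A test function of type `τ` is a test function of every `K_∞`-type which agrees with `τ`
on `K_∞`. -/
theorem isTestFn_congr801 {τ τ' : G K → ℂ} (hτ' : T5.IsKType τ')
    (h : ∀ (w : InfinitePlace K) (k : G K), IsArchCompact w k → τ k = τ' k)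
    {𝔫 : Ideal (𝓞 K)} {φ : G K → ℂ} (hφ : T5.IsTestFn 𝔫 τ φ) : T5.IsTestFn 𝔫 τ' φ where
  ktype := hτ'
  cont := hφ.cont
  supp := hφ.supp
  smooth := hφ.smooth
  inv := isBiInvariant_congr801 h hφ.inv

end Congr

/-- The two types of the quadratic step are `K_∞`-types. -/
theorem isKType_type801 (hR : ∀ w : InfinitePlace ℚ, w.IsReal) (t : QWt)
    (h0 : T5.IsKType (T3.R.typeR ℚ hR (fun _ => (0 : ℤ)))) : T5.IsKType t.type := by
  cases t with
  | w0 =>
    show T5.IsKType T5.trivType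
    rw [← typeR_zero801 hR]
    exact h0
  | w1 => exact wtOneKTypeC826

/-- **A test function of type `typeR` of weight `t.wt` over `ℚ` (station T3.18R) is a test
function of type `t.type` (quadratic step).** -/
theorem isTestFn_type_of_typeR801 (hR : ∀ w : InfinitePlace ℚ, w.IsReal) (t : QWt)
    {𝔫 : Ideal (𝓞 ℚ)} {φ : G ℚ → ℂ}
    (hφ : T5.IsTestFn 𝔫 (T3.R.typeR ℚ hR (fun _ => t.wt)) φ) : T5.IsTestFn 𝔫 t.type φ := by
  cases t with
  | w0 =>
    have h : T5.IsTestFn 𝔫 (T3.R.typeR ℚ hR (fun _ => (0 : ℤ))) φ := hφ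
    rw [typeR_zero801 hR] at h
    exact h
  | w1 =>
    exact isTestFn_congr801 wtOneKTypeC826
      (fun w k hk => typeR_negOne_eq_wtOne801 hR hk) hφ

/-- The infinite place of `ℚ` is real (the hypothesis `hR` of station T3.18R over `ℚ`). -/
theorem allReal_rat801 : ∀ w : InfinitePlace ℚ, w.IsReal := fun w => by
  rw [Subsingleton.elim w Rat.infinitePlace]
  exact Rat.isReal_infinitePlace

end Fermat.Agent.LT.T7.TB801

end

end
-- ===== PACK-END LT/T7/H801/TypeBridgeQ.lean

-- ===== PACK-BEGIN LT/T7/H317/RestrG.lean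
section






/-!
# Row LT, tower T7, node C2.7 `CutIntC305`: `GL₂(𝔸_K)` IS A RESTRICTED PRODUCT (helper317)

OFF-MAIN.  ASSET for the leaves `HaarSplitC305`, `TorSplitC305` (and the nodes `FactDownC305`,
`FactUpC305`) of `T7/H305/MatchCut.lean`.  No hole, nothing assumed.  ADDITIVE (suffix `_r317`).

For a finite set `S` of finite places let `E_S = {y : OutT305 S y}` and
`p_S = compHom_r317 S : GL₂(𝔸_K) →* ∏_{v ∈ S} GL₂(K_v) × ∏_w GL₂(ℂ)` (`= compS305 S`).

* `isOpen_outT_r317` : `E_S` is open;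
* `continuous_compHom_r317` : `p_S` is continuous;
* `exists_mem_outT_r317` : (`K` totally complex) `p_S` maps `E_S` ONTO the target;
* `proper_compHom_r317` : `p_S` is proper on `E_S`: `E_S ∩ p_S⁻¹(C)` lies in a compact set for
  every compact `C`.
-/

set_option autoImplicit false

open IsDedekindDomain NumberField MeasureTheory
open IsDedekindDomain.HeightOneSpectrum

noncomputable section

namespace Fermat.Agent.LT.T7.H317

open Fermat.Agent.LT.H556 Fermat.Agent.LT.H556.A0 Fermat.Agent.LT.T7 Fermat.Agent.LT.T7.H305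
open Fermat.Agent.LT.T1.H317

variable {K : Type} [Field K] [NumberField K]

/-! ## 1. Compact sets of adeles -/

/-- A nonzero integer of valuation `≤ exp (-n)` at every place of `S`. -/
theorem exists_den_r317 (S : Finset (HeightOneSpectrum (𝓞 K))) (n : ℕ) :
    ∃ d : 𝓞 K, d ≠ 0 ∧ ∀ v ∈ S,
      v.valuation K (algebraMap (𝓞 K) K d) ≤ WithZero.exp (-(n : ℤ)) := by
  classical
  induction S using Finset.induction_on with
  | empty => exact ⟨1, one_ne_zero, fun v hv => absurd hv (Finset.notMem_empty v)⟩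
  | insert v S hv ih =>
    obtain ⟨d, hd0, hd⟩ := ih
    obtain ⟨ϖ, hϖ, hϖ0⟩ := Submodule.exists_mem_ne_zero_of_ne_bot v.ne_bot
    refine ⟨d * ϖ ^ n, mul_ne_zero hd0 (pow_ne_zero n hϖ0), fun u hu => ?_⟩
    rw [map_mul, map_mul, map_pow, map_pow]
    rcases Finset.mem_insert.mp hu with rfl | huS
    · have h1 : u.valuation K (algebraMap (𝓞 K) K d) ≤ 1 := valuation_le_one u d
      have h2 : u.valuation K (algebraMap (𝓞 K) K ϖ) ≤ WithZero.exp (-1 : ℤ) :=
        (lt_one_iff_le_exp317 _).1 ((valuation_lt_one_iff_mem u ϖ).2 hϖ)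
      calc u.valuation K (algebraMap (𝓞 K) K d) * u.valuation K (algebraMap (𝓞 K) K ϖ) ^ n
          ≤ 1 * (WithZero.exp (-1 : ℤ)) ^ n := mul_le_mul' h1 (pow_le_pow_left' h2 n)
        _ = WithZero.exp (-(n : ℤ)) := by
            rw [one_mul, ← WithZero.exp_nsmul]
            congr 1
            simp
    · have h1 := hd u huS
      have h2 : u.valuation K (algebraMap (𝓞 K) K ϖ) ≤ 1 := valuation_le_one u ϖ
      calc u.valuation K (algebraMap (𝓞 K) K d) * u.valuation K (algebraMap (𝓞 K) K ϖ) ^ n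
          ≤ WithZero.exp (-(n : ℤ)) * 1 := mul_le_mul' h1 (pow_le_one' h2 n)
        _ = WithZero.exp (-(n : ℤ)) := mul_one _

/-- The adeles which are bounded by `n` at the infinite places, by `exp n` at the places of `S`
and integral outside `S`. -/
def bigBox_r317 (S : Finset (HeightOneSpectrum (𝓞 K))) (n : ℕ) : Set (Adl K) :=
  {x | (∀ w : InfinitePlace K, ‖x.1 w‖ ≤ n) ∧
    (∀ v ∈ S, Valued.v (x.2 v) ≤ WithZero.exp (n : ℤ)) ∧
    ∀ v : HeightOneSpectrum (𝓞 K), v ∉ S → Valued.v (x.2 v) ≤ 1}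

theorem algebraMap_snd_r317 (d : K) (v : HeightOneSpectrum (𝓞 K)) :
    (algebraMap K (Adl K) d).2 v = algebraMap K (v.adicCompletion K) d := rfl

/-- `bigBox_r317 S n` lies in a compact set. -/
theorem bigBox_subset_compact_r317 (S : Finset (HeightOneSpectrum (𝓞 K))) (n : ℕ) :
    ∃ A : Set (Adl K), IsCompact A ∧ bigBox_r317 S n ⊆ A := by
  obtain ⟨d, hd0, hd⟩ := exists_den_r317 S n
  have hdK : algebraMap (𝓞 K) K d ≠ 0 := by
    simpa using hd0
  set D : Adl K := algebraMap K (Adl K) (algebraMap (𝓞 K) K d) with hD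
  set Dinv : Adl K := algebraMap K (Adl K) (algebraMap (𝓞 K) K d)⁻¹ with hDinv
  have hDD : Dinv * D = 1 := by
    rw [hD, hDinv, ← map_mul, inv_mul_cancel₀ hdK, map_one]
  set R : ℝ := (∑ w : InfinitePlace K, ‖D.1 w‖) * n with hR
  refine ⟨(fun y => Dinv * y) '' box317 K R,
    (isCompact_box317 K R).image (continuous_const.mul continuous_id), ?_⟩
  intro x hx
  refine ⟨D * x, ⟨fun w => ?_, fun v => ?_⟩, ?_⟩
  · rw [mul_fst317, norm_mul, hR]
    refine mul_le_mul ?_ (hx.1 w) (norm_nonneg _) ?_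
    · exact Finset.single_le_sum (f := fun w : InfinitePlace K => ‖D.1 w‖)
        (fun _ _ => norm_nonneg _) (Finset.mem_univ w)
    · exact Finset.sum_nonneg fun _ _ => norm_nonneg _
  · rw [mul_snd317, mem_adicCompletionIntegers, map_mul]
    have e : Valued.v (D.2 v) = v.valuation K (algebraMap (𝓞 K) K d) :=
      valuedAdicCompletion_eq_valuation' v _
    rw [e]
    by_cases hv : v ∈ S
    · calc v.valuation K (algebraMap (𝓞 K) K d) * Valued.v (x.2 v)
          ≤ WithZero.exp (-(n : ℤ)) * WithZero.exp (n : ℤ) := mul_le_mul' (hd v hv) (hx.2.1 v hv)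
        _ = 1 := by rw [← WithZero.exp_add, neg_add_cancel, WithZero.exp_zero]
    · calc v.valuation K (algebraMap (𝓞 K) K d) * Valued.v (x.2 v)
          ≤ 1 * 1 := mul_le_mul' (valuation_le_one v d) (hx.2.2 v hv)
        _ = 1 := one_mul 1
  · show Dinv * (D * x) = x
    rw [← mul_assoc, hDD, one_mul]

/-! ## 2. Compact sets of `GL₂(𝔸_K)` -/

/-- The elements of `GL₂(𝔸_K)` whose entries and the entries of whose inverse lie in a compact
set form a compact set. -/
theorem isCompact_entries_r317 {A : Set (Adl K)} (hA : IsCompact A) :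
    IsCompact {y : G K | ∀ i j, (y : Matrix (Fin 2) (Fin 2) (Adl K)) i j ∈ A ∧
      ((y⁻¹ : G K) : Matrix (Fin 2) (Fin 2) (Adl K)) i j ∈ A} := by
  have : T2Space (Adl K) := Fermat.Agent.LT.H11.LC.t2Space_adeleRing_h11 K
  have : T2Space (Matrix (Fin 2) (Fin 2) (Adl K)) :=
    Fermat.Agent.LT.H11.LC.t2Space_matrix_h11 (Fin 2) (Adl K)
  set B : Set (Matrix (Fin 2) (Fin 2) (Adl K)) :=
    {M | ∀ i j, M i j ∈ A} with hBdef
  have hB : IsCompact B := by
    have e : B = Set.univ.pi fun _ : Fin 2 => Set.univ.pi fun _ : Fin 2 => A := by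
      ext M
      exact ⟨fun h i _ j _ => h i j, fun h i j => h i (Set.mem_univ i) j (Set.mem_univ j)⟩
    rw [e]
    exact isCompact_univ_pi fun _ => isCompact_univ_pi fun _ => hA
  have hB' : IsCompact (MulOpposite.op '' B) := hB.image MulOpposite.continuous_op
  have hemb := Units.isClosedEmbedding_embedProduct (α := Matrix (Fin 2) (Fin 2) (Adl K))
  have hc := hemb.isCompact_preimage (hB.prod hB')
  have e : {y : G K | ∀ i j, (y : Matrix (Fin 2) (Fin 2) (Adl K)) i j ∈ A ∧
      ((y⁻¹ : G K) : Matrix (Fin 2) (Fin 2) (Adl K)) i j ∈ A}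
      = (Units.embedProduct (Matrix (Fin 2) (Fin 2) (Adl K))) ⁻¹' (B ×ˢ (MulOpposite.op '' B)) := by
    ext y
    constructor
    · intro h
      refine ⟨fun i j => (h i j).1, ⟨((y⁻¹ : G K) : Matrix (Fin 2) (Fin 2) (Adl K)),
        fun i j => (h i j).2, rfl⟩⟩
    · rintro ⟨h1, M, hM, hMy⟩ i j
      refine ⟨h1 i j, ?_⟩
      have e2 : M = ((y⁻¹ : G K) : Matrix (Fin 2) (Fin 2) (Adl K)) :=
        MulOpposite.op_injective hMy
      rw [← e2]
      exact hM i j
  rw [e]
  exact hc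

/-! ## 3. `E_S` is open -/

/-- The adeles which are integral outside `S`, as an additive subgroup. -/
def intOut_r317 (S : Finset (HeightOneSpectrum (𝓞 K))) : AddSubgroup (Adl K) where
  carrier := {x | ∀ v : HeightOneSpectrum (𝓞 K), v ∉ S → x.2 v ∈ v.adicCompletionIntegers K}
  zero_mem' := fun v _ => zero_mem _
  add_mem' := fun {a b} ha hb v hv => by
    show (a + b).2 v ∈ _
    rw [add_snd317]
    exact add_mem (ha v hv) (hb v hv)
  neg_mem' := fun {a} ha v hv => by
    show (-a).2 v ∈ _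
    have : (-a).2 v = -(a.2 v) := rfl
    rw [this]
    exact neg_mem (ha v hv)

theorem isOpen_intOut_r317 (S : Finset (HeightOneSpectrum (𝓞 K))) :
    IsOpen (intOut_r317 S : Set (Adl K)) := by
  refine AddSubgroup.isOpen_of_mem_nhds (intOut_r317 S) (g := 0) ?_
  have hopen : IsOpen ((Set.univ : Set (InfiniteAdeleRing K)) ×ˢ intFin317 K) :=
    isOpen_univ.prod (isOpen_intFin317 K)
  have h0 : (0 : Adl K) ∈ (Set.univ : Set (InfiniteAdeleRing K)) ×ˢ intFin317 K :=
    ⟨Set.mem_univ _, fun v => zero_mem _⟩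
  refine Filter.mem_of_superset (hopen.mem_nhds h0) ?_
  rintro x ⟨-, hx⟩ v -
  exact hx v

theorem continuous_entry_r317 (i j : Fin 2) :
    Continuous fun y : G K => (y : Matrix (Fin 2) (Fin 2) (Adl K)) i j :=
  (Units.continuous_val).matrix_elem i j

theorem continuous_inv_entry_r317 (i j : Fin 2) :
    Continuous fun y : G K => ((y⁻¹ : G K) : Matrix (Fin 2) (Fin 2) (Adl K)) i j :=
  (Units.continuous_coe_inv).matrix_elem i j

theorem outT_iff_r317 (S : Finset (HeightOneSpectrum (𝓞 K))) (y : G K) :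
    OutT305 S y ↔ ∀ i j, (y : Matrix (Fin 2) (Fin 2) (Adl K)) i j ∈ intOut_r317 S ∧
      ((y⁻¹ : G K) : Matrix (Fin 2) (Fin 2) (Adl K)) i j ∈ intOut_r317 S := by
  constructor
  · intro h i j
    exact ⟨fun v hv => (h v hv).1 i j, fun v hv => (h v hv).2 i j⟩
  · intro h v hv
    exact ⟨fun i j => (h i j).1 v hv, fun i j => (h i j).2 v hv⟩

/-- **`E_S` is open.** -/
theorem isOpen_outT_r317 (S : Finset (HeightOneSpectrum (𝓞 K))) :
    IsOpen {y : G K | OutT305 S y} := by
  have e : {y : G K | OutT305 S y}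
      = ⋂ i : Fin 2, ⋂ j : Fin 2,
        ((fun y : G K => (y : Matrix (Fin 2) (Fin 2) (Adl K)) i j) ⁻¹' (intOut_r317 S : Set (Adl K))
          ∩ (fun y : G K => ((y⁻¹ : G K) : Matrix (Fin 2) (Fin 2) (Adl K)) i j) ⁻¹'
            (intOut_r317 S : Set (Adl K))) := by
    ext y
    simp only [Set.mem_iInter, Set.mem_inter_iff, Set.mem_preimage, SetLike.mem_coe]
    exact outT_iff_r317 S y
  rw [e]
  refine isOpen_iInter_of_finite fun i => isOpen_iInter_of_finite fun j => ?_
  exact ((isOpen_intOut_r317 S).preimage (continuous_entry_r317 i j)).inter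
    ((isOpen_intOut_r317 S).preimage (continuous_inv_entry_r317 i j))

theorem coe_finGL_r317 (v : HeightOneSpectrum (𝓞 K)) (g : G K) :
    ((finGL305 v g : GL (Fin 2) (v.adicCompletion K)) :
      Matrix (Fin 2) (Fin 2) (v.adicCompletion K)) = finComp v g := rfl

/-- `E_S` as a subgroup. -/
def outSub_r317 (S : Finset (HeightOneSpectrum (𝓞 K))) : Subgroup (G K) where
  carrier := {y | OutT305 S y}
  one_mem' := by
    intro v _
    have h1 : finComp v (1 : G K) = 1 := by
      rw [← coe_finGL_r317, map_one]; rfl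
    have h2 : finComp v (1 : G K)⁻¹ = 1 := by rw [inv_one]; exact h1
    refine ⟨fun i j => ?_, fun i j => ?_⟩
    · rw [h1, Matrix.one_apply]; split_ifs
      · exact one_mem _
      · exact zero_mem _
    · rw [h2, Matrix.one_apply]; split_ifs
      · exact one_mem _
      · exact zero_mem _
  mul_mem' := by
    intro a b ha hb v hv
    have e1 : finComp v (a * b) = finComp v a * finComp v b := by
      rw [← coe_finGL_r317, map_mul]; rfl
    have e2 : finComp v (a * b)⁻¹ = finComp v b⁻¹ * finComp v a⁻¹ := by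
      rw [mul_inv_rev, ← coe_finGL_r317, map_mul]; rfl
    refine ⟨fun i j => ?_, fun i j => ?_⟩
    · rw [e1, Matrix.mul_apply]
      exact sum_mem fun k _ => mul_mem ((ha v hv).1 i k) ((hb v hv).1 k j)
    · rw [e2, Matrix.mul_apply]
      exact sum_mem fun k _ => mul_mem ((hb v hv).2 i k) ((ha v hv).2 k j)
  inv_mem' := by
    intro a ha v hv
    refine ⟨(ha v hv).2, ?_⟩
    rw [inv_inv]
    exact (ha v hv).1

theorem coe_outSub_r317 (S : Finset (HeightOneSpectrum (𝓞 K))) :
    (outSub_r317 S : Set (G K)) = {y | OutT305 S y} := rfl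

/-! ## 4. The projection `p_S` -/

/-- The target of `p_S`. -/
abbrev Tgt_r317 (K : Type) [Field K] [NumberField K] (S : Finset (HeightOneSpectrum (𝓞 K))) :
    Type :=
  (∀ v : S, GL (Fin 2) ((v : HeightOneSpectrum (𝓞 K)).adicCompletion K)) ×
    (InfinitePlace K → GL (Fin 2) ℂ)

/-- `p_S` as a homomorphism. -/
def compHom_r317 (S : Finset (HeightOneSpectrum (𝓞 K))) : G K →* Tgt_r317 K S :=
  MonoidHom.prod (MonoidHom.pi fun v : S => finGL305 (v : HeightOneSpectrum (𝓞 K)))
    (MonoidHom.pi fun w : InfinitePlace K => infGL305 w)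

theorem compHom_eq_r317 (S : Finset (HeightOneSpectrum (𝓞 K))) (y : G K) :
    compHom_r317 S y = compS305 S y := rfl

theorem continuous_finHom_r317 (v : HeightOneSpectrum (𝓞 K)) :
    Continuous (T5.finHom v : Adl K → v.adicCompletion K) :=
  (RestrictedProduct.continuous_eval v).comp continuous_snd

theorem continuous_infHom_r317 (w : InfinitePlace K) :
    Continuous (T5.infHom w : Adl K → ℂ) :=
  (InfinitePlace.Completion.isometry_extensionEmbedding w).continuous.comp
    ((continuous_apply w).comp continuous_fst)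

theorem continuous_finGL_r317 (v : HeightOneSpectrum (𝓞 K)) :
    Continuous (finGL305 v : G K → GL (Fin 2) (v.adicCompletion K)) :=
  Fermat.Agent.LT.T5.H277.continuous_GLmap277 _ (continuous_finHom_r317 v)

theorem continuous_infGL_r317 (w : InfinitePlace K) :
    Continuous (infGL305 w : G K → GL (Fin 2) ℂ) :=
  Fermat.Agent.LT.T5.H277.continuous_GLmap277 _ (continuous_infHom_r317 w)

/-- **`p_S` is continuous.** -/
theorem continuous_compHom_r317 (S : Finset (HeightOneSpectrum (𝓞 K))) :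
    Continuous (compHom_r317 S : G K → Tgt_r317 K S) :=
  (continuous_pi fun v : S => continuous_finGL_r317 (v : HeightOneSpectrum (𝓞 K))).prodMk
    (continuous_pi fun w => continuous_infGL_r317 w)

/-! ## 5. `p_S` is proper on `E_S` -/

theorem exists_le_exp_r317 (x : WithZero (Multiplicative ℤ)) :
    ∃ n : ℕ, x ≤ WithZero.exp (n : ℤ) := by
  rcases eq_or_ne x 0 with rfl | hx
  · exact ⟨0, bot_le⟩
  · refine ⟨(WithZero.log x).toNat, ?_⟩
    conv_lhs => rw [← WithZero.exp_log hx]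
    rw [WithZero.exp_le_exp]
    exact Int.self_le_toNat _

theorem isOpen_le_exp_r317 (v : HeightOneSpectrum (𝓞 K)) (n : ℕ) :
    IsOpen {x : v.adicCompletion K | Valued.v x ≤ WithZero.exp (n : ℤ)} := by
  obtain ⟨π, hπ⟩ := valuation_exists_uniformizer K v
  set c : v.adicCompletion K := algebraMap K (v.adicCompletion K) (π ^ n) with hc
  have hcv : Valued.v c = WithZero.exp (-(n : ℤ)) := by
    have e : Valued.v c = v.valuation K (π ^ n) := valuedAdicCompletion_eq_valuation' v _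
    rw [e, map_pow, hπ, ← WithZero.exp_nsmul]
    congr 1
    simp
  have hset : {x : v.adicCompletion K | Valued.v x ≤ WithZero.exp (n : ℤ)}
      = (fun x => c * x) ⁻¹' (v.adicCompletionIntegers K : Set (v.adicCompletion K)) := by
    ext x
    show Valued.v x ≤ WithZero.exp (n : ℤ) ↔ c * x ∈ v.adicCompletionIntegers K
    rw [mem_adicCompletionIntegers, map_mul, hcv]
    constructor
    · intro h
      calc WithZero.exp (-(n : ℤ)) * Valued.v x
          ≤ WithZero.exp (-(n : ℤ)) * WithZero.exp (n : ℤ) := mul_le_mul' le_rfl h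
        _ = 1 := by rw [← WithZero.exp_add, neg_add_cancel, WithZero.exp_zero]
    · intro h
      calc Valued.v x = WithZero.exp (n : ℤ) * (WithZero.exp (-(n : ℤ)) * Valued.v x) := by
            rw [← mul_assoc, ← WithZero.exp_add, add_neg_cancel, WithZero.exp_zero, one_mul]
        _ ≤ WithZero.exp (n : ℤ) * 1 := mul_le_mul' le_rfl h
        _ = WithZero.exp (n : ℤ) := mul_one _
  rw [hset]
  exact (Valued.isOpen_valuationSubring (v.adicCompletion K)).preimage
    (continuous_const.mul continuous_id)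

/-- The elements of the target all of whose entries (and the entries of the inverses) are
bounded by `exp n` at the finite places, by `n` at the infinite places. -/
def bdd_r317 (S : Finset (HeightOneSpectrum (𝓞 K))) (n : ℕ) : Set (Tgt_r317 K S) :=
  {h | (∀ (v : S) (i j : Fin 2),
      Valued.v ((h.1 v).val i j) ≤ WithZero.exp (n : ℤ) ∧
      Valued.v ((h.1 v)⁻¹.val i j) ≤ WithZero.exp (n : ℤ)) ∧
    ∀ (w : InfinitePlace K) (i j : Fin 2),
      ‖(h.2 w).val i j‖ < n ∧ ‖(h.2 w)⁻¹.val i j‖ < n}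

theorem isOpen_bdd_r317 (S : Finset (HeightOneSpectrum (𝓞 K))) (n : ℕ) :
    IsOpen (bdd_r317 (K := K) S n) := by
  have e : bdd_r317 (K := K) S n
      = (⋂ v : S, ⋂ i : Fin 2, ⋂ j : Fin 2,
          ((fun h : Tgt_r317 K S => (h.1 v).val i j) ⁻¹'
              {x | Valued.v x ≤ WithZero.exp (n : ℤ)}
            ∩ (fun h : Tgt_r317 K S => (h.1 v)⁻¹.val i j) ⁻¹'
              {x | Valued.v x ≤ WithZero.exp (n : ℤ)}))
        ∩ ⋂ w : InfinitePlace K, ⋂ i : Fin 2, ⋂ j : Fin 2,
          ((fun h : Tgt_r317 K S => (h.2 w).val i j) ⁻¹' {x | ‖x‖ < n}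
            ∩ (fun h : Tgt_r317 K S => (h.2 w)⁻¹.val i j) ⁻¹' {x | ‖x‖ < n}) := by
    ext h
    simp only [Set.mem_inter_iff, Set.mem_iInter, Set.mem_preimage]
    exact Iff.rfl
  rw [e]
  refine IsOpen.inter ?_ ?_
  · refine isOpen_iInter_of_finite fun v => isOpen_iInter_of_finite fun i =>
      isOpen_iInter_of_finite fun j => IsOpen.inter ?_ ?_
    · refine (isOpen_le_exp_r317 (v : HeightOneSpectrum (𝓞 K)) n).preimage ?_
      exact (Units.continuous_val.comp ((continuous_apply v).comp continuous_fst)).matrix_elem i j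
    · refine (isOpen_le_exp_r317 (v : HeightOneSpectrum (𝓞 K)) n).preimage ?_
      exact (Units.continuous_coe_inv.comp
        ((continuous_apply v).comp continuous_fst)).matrix_elem i j
  · refine isOpen_iInter_of_finite fun w => isOpen_iInter_of_finite fun i =>
      isOpen_iInter_of_finite fun j => IsOpen.inter ?_ ?_
    · refine (isOpen_lt continuous_norm continuous_const).preimage ?_
      exact (Units.continuous_val.comp ((continuous_apply w).comp continuous_snd)).matrix_elem i j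
    · refine (isOpen_lt continuous_norm continuous_const).preimage ?_
      exact (Units.continuous_coe_inv.comp
        ((continuous_apply w).comp continuous_snd)).matrix_elem i j

theorem bdd_mono_r317 (S : Finset (HeightOneSpectrum (𝓞 K))) :
    Monotone (bdd_r317 (K := K) S) := by
  intro n m hnm h hh
  have h1 : WithZero.exp (n : ℤ) ≤ WithZero.exp (m : ℤ) :=
    WithZero.exp_le_exp.2 (by exact_mod_cast hnm)
  have h2 : (n : ℝ) ≤ m := by exact_mod_cast hnm
  exact ⟨fun v i j => ⟨(hh.1 v i j).1.trans h1, (hh.1 v i j).2.trans h1⟩,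
    fun w i j => ⟨(hh.2 w i j).1.trans_le h2, (hh.2 w i j).2.trans_le h2⟩⟩

theorem bdd_cover_r317 (S : Finset (HeightOneSpectrum (𝓞 K))) (h : Tgt_r317 K S) :
    ∃ n : ℕ, h ∈ bdd_r317 (K := K) S n := by
  choose a ha using fun p : S × Fin 2 × Fin 2 =>
    exists_le_exp_r317 (Valued.v ((h.1 p.1).val p.2.1 p.2.2))
  choose b hb using fun p : S × Fin 2 × Fin 2 =>
    exists_le_exp_r317 (Valued.v ((h.1 p.1)⁻¹.val p.2.1 p.2.2))
  choose c hc using fun p : InfinitePlace K × Fin 2 × Fin 2 =>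
    exists_nat_gt ‖(h.2 p.1).val p.2.1 p.2.2‖
  choose d hd using fun p : InfinitePlace K × Fin 2 × Fin 2 =>
    exists_nat_gt ‖(h.2 p.1)⁻¹.val p.2.1 p.2.2‖
  obtain ⟨A, hA⟩ := Finite.exists_le a
  obtain ⟨B, hB⟩ := Finite.exists_le b
  obtain ⟨C, hC⟩ := Finite.exists_le c
  obtain ⟨D, hD⟩ := Finite.exists_le d
  refine ⟨A + B + C + D, fun v i j => ⟨?_, ?_⟩, fun w i j => ⟨?_, ?_⟩⟩
  · refine (ha (v, i, j)).trans (WithZero.exp_le_exp.2 ?_)
    have := hA (v, i, j)
    exact_mod_cast (by omega : a (v, i, j) ≤ A + B + C + D)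
  · refine (hb (v, i, j)).trans (WithZero.exp_le_exp.2 ?_)
    have := hB (v, i, j)
    exact_mod_cast (by omega : b (v, i, j) ≤ A + B + C + D)
  · refine (hc (w, i, j)).trans_le ?_
    have := hC (w, i, j)
    exact_mod_cast (by omega : c (w, i, j) ≤ A + B + C + D)
  · refine (hd (w, i, j)).trans_le ?_
    have := hD (w, i, j)
    exact_mod_cast (by omega : d (w, i, j) ≤ A + B + C + D)

theorem norm_infHom_r317 (w : InfinitePlace K) (x : Adl K) : ‖T5.infHom w x‖ = ‖x.1 w‖ :=
  (InfinitePlace.Completion.isometry_extensionEmbedding w).norm_map_of_map_zero (map_zero _) _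

/-- The entries of the elements of `E_S ∩ p_S⁻¹(bdd n)` lie in the big box. -/
theorem entries_mem_bigBox_r317 (S : Finset (HeightOneSpectrum (𝓞 K))) (n : ℕ) {y : G K}
    (hyE : OutT305 S y) (hb : compHom_r317 S y ∈ bdd_r317 (K := K) S n) (i j : Fin 2) :
    (y : Matrix (Fin 2) (Fin 2) (Adl K)) i j ∈ bigBox_r317 S n ∧
      ((y⁻¹ : G K) : Matrix (Fin 2) (Fin 2) (Adl K)) i j ∈ bigBox_r317 S n := by
  refine ⟨⟨fun w => ?_, fun v hv => ?_, fun v hv => ?_⟩,
    ⟨fun w => ?_, fun v hv => ?_, fun v hv => ?_⟩⟩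
  · have h1 := (hb.2 w i j).1
    have e : ((compHom_r317 S y).2 w).val i j
        = T5.infHom w ((y : Matrix (Fin 2) (Fin 2) (Adl K)) i j) := rfl
    rw [e, norm_infHom_r317] at h1
    exact h1.le
  · exact (hb.1 ⟨v, hv⟩ i j).1
  · exact (mem_adicCompletionIntegers _ _ _).1 ((hyE v hv).1 i j)
  · have h1 := (hb.2 w i j).2
    have e : ((compHom_r317 S y).2 w)⁻¹.val i j
        = T5.infHom w (((y⁻¹ : G K) : Matrix (Fin 2) (Fin 2) (Adl K)) i j) := by
      have e' : ((compHom_r317 S y).2 w)⁻¹ = infGL305 w y⁻¹ := (map_inv (infGL305 w) y).symm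
      rw [e']
      rfl
    rw [e, norm_infHom_r317] at h1
    exact h1.le
  · have h1 := (hb.1 ⟨v, hv⟩ i j).2
    have e' : ((compHom_r317 S y).1 ⟨v, hv⟩)⁻¹ = finGL305 v y⁻¹ := (map_inv (finGL305 v) y).symm
    rw [e'] at h1
    exact h1
  · exact (mem_adicCompletionIntegers _ _ _).1 ((hyE v hv).2 i j)

/-- **`p_S` is proper on `E_S`.** -/
theorem proper_compHom_r317 (S : Finset (HeightOneSpectrum (𝓞 K))) (C : Set (Tgt_r317 K S))
    (hC : IsCompact C) :
    ∃ C' : Set (G K), IsCompact C' ∧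
      (compHom_r317 S) ⁻¹' C ∩ (outSub_r317 S : Set (G K)) ⊆ C' := by
  obtain ⟨n, hn⟩ := hC.elim_directed_cover (bdd_r317 (K := K) S) (isOpen_bdd_r317 S)
    (fun h _ => Set.mem_iUnion.2 (bdd_cover_r317 S h)) (bdd_mono_r317 S).directed_le
  obtain ⟨A, hA, hsub⟩ := bigBox_subset_compact_r317 S n
  refine ⟨_, isCompact_entries_r317 hA, ?_⟩
  rintro y ⟨hyC, hyE⟩ i j
  have h := entries_mem_bigBox_r317 S n hyE (hn hyC) i j
  exact ⟨hsub h.1, hsub h.2⟩

/-! ## 6. Gluing local components -/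

theorem adl_ext_r317 {x y : Adl K} (h1 : ∀ w : InfinitePlace K, x.1 w = y.1 w)
    (h2 : ∀ v : HeightOneSpectrum (𝓞 K), x.2 v = y.2 v) : x = y :=
  Prod.ext (funext h1) (RestrictedProduct.ext _ _ h2)

/-- The component at the infinite place `w`, in the completion. -/
def evI_r317 (w : InfinitePlace K) : Adl K →+* w.Completion :=
  (Pi.evalRingHom (fun v : InfinitePlace K => v.Completion) w).comp
    (RingHom.fst (InfiniteAdeleRing K) (FiniteAdeleRing (𝓞 K) K))

theorem matrix_ext_r317 {A B : Matrix (Fin 2) (Fin 2) (Adl K)}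
    (hI : ∀ w : InfinitePlace K, A.map (evI_r317 w) = B.map (evI_r317 w))
    (hF : ∀ v : HeightOneSpectrum (𝓞 K), A.map (T5.finHom v) = B.map (T5.finHom v)) :
    A = B := by
  ext i j
  refine adl_ext_r317 (fun w => ?_) (fun v => ?_)
  · exact congrFun (congrFun (hI w) i) j
  · exact congrFun (congrFun (hF v) i) j

/-- The adele with the components `a w` and `f v` (`f v` integral outside `S`). -/
def glueEntry_r317 (S : Finset (HeightOneSpectrum (𝓞 K)))
    (a : ∀ w : InfinitePlace K, w.Completion)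
    (f : ∀ v : HeightOneSpectrum (𝓞 K), v.adicCompletion K)
    (hf : ∀ v : HeightOneSpectrum (𝓞 K), v ∉ S → f v ∈ v.adicCompletionIntegers K) : Adl K :=
  (a, RestrictedProduct.mk f (by
    rw [Filter.eventually_cofinite]
    refine S.finite_toSet.subset fun v hv => ?_
    by_contra hvS
    exact hv (hf v hvS)))

theorem one_val_integral_r317 (v : HeightOneSpectrum (𝓞 K)) (i j : Fin 2) :
    (1 : GL (Fin 2) (v.adicCompletion K)).val i j ∈ v.adicCompletionIntegers K := by
  show (1 : Matrix (Fin 2) (Fin 2) (v.adicCompletion K)) i j ∈ _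
  rw [Matrix.one_apply]
  split_ifs
  · exact one_mem _
  · exact zero_mem _

/-- The matrix with the components `X v` (trivial outside `S`) and `Y w`. -/
def glueMat_r317 (S : Finset (HeightOneSpectrum (𝓞 K)))
    (X : ∀ v : HeightOneSpectrum (𝓞 K), GL (Fin 2) (v.adicCompletion K))
    (hX : ∀ v : HeightOneSpectrum (𝓞 K), v ∉ S → X v = 1)
    (Y : ∀ w : InfinitePlace K, GL (Fin 2) w.Completion) : Matrix (Fin 2) (Fin 2) (Adl K) :=
  fun i j => glueEntry_r317 S (fun w => (Y w).val i j) (fun v => (X v).val i j)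
    (fun v hv => by rw [hX v hv]; exact one_val_integral_r317 v i j)

theorem glueMat_map_fin_r317 (S : Finset (HeightOneSpectrum (𝓞 K)))
    (X : ∀ v : HeightOneSpectrum (𝓞 K), GL (Fin 2) (v.adicCompletion K))
    (hX : ∀ v : HeightOneSpectrum (𝓞 K), v ∉ S → X v = 1)
    (Y : ∀ w : InfinitePlace K, GL (Fin 2) w.Completion) (v : HeightOneSpectrum (𝓞 K)) :
    (glueMat_r317 S X hX Y).map (T5.finHom v) = (X v).val := rfl

theorem glueMat_map_inf_r317 (S : Finset (HeightOneSpectrum (𝓞 K)))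
    (X : ∀ v : HeightOneSpectrum (𝓞 K), GL (Fin 2) (v.adicCompletion K))
    (hX : ∀ v : HeightOneSpectrum (𝓞 K), v ∉ S → X v = 1)
    (Y : ∀ w : InfinitePlace K, GL (Fin 2) w.Completion) (w : InfinitePlace K) :
    (glueMat_r317 S X hX Y).map (evI_r317 w) = (Y w).val := rfl

theorem one_map_fin_r317 (v : HeightOneSpectrum (𝓞 K)) :
    (1 : Matrix (Fin 2) (Fin 2) (Adl K)).map (T5.finHom v) = 1 := by
  rw [Matrix.map_one] <;> simp

theorem one_map_inf_r317 (w : InfinitePlace K) :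
    (1 : Matrix (Fin 2) (Fin 2) (Adl K)).map (evI_r317 w) = 1 := by
  rw [Matrix.map_one] <;> simp

theorem glueMat_mul_r317 (S : Finset (HeightOneSpectrum (𝓞 K)))
    (X X' : ∀ v : HeightOneSpectrum (𝓞 K), GL (Fin 2) (v.adicCompletion K))
    (hX : ∀ v : HeightOneSpectrum (𝓞 K), v ∉ S → X v = 1)
    (hX' : ∀ v : HeightOneSpectrum (𝓞 K), v ∉ S → X' v = 1)
    (Y Y' : ∀ w : InfinitePlace K, GL (Fin 2) w.Completion)
    (h1 : ∀ v, X v * X' v = 1) (h2 : ∀ w, Y w * Y' w = 1) :
    glueMat_r317 S X hX Y * glueMat_r317 S X' hX' Y' = 1 := by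
  apply matrix_ext_r317
  · intro w
    rw [Matrix.map_mul, glueMat_map_inf_r317, glueMat_map_inf_r317, one_map_inf_r317,
      ← Units.val_mul, h2 w]
    rfl
  · intro v
    rw [Matrix.map_mul, glueMat_map_fin_r317, glueMat_map_fin_r317, one_map_fin_r317,
      ← Units.val_mul, h1 v]
    rfl

/-- **THE GLUED ELEMENT** of `GL₂(𝔸_K)` with the components `X v` (trivial outside `S`), `Y w`. -/
def glue_r317 (S : Finset (HeightOneSpectrum (𝓞 K)))
    (X : ∀ v : HeightOneSpectrum (𝓞 K), GL (Fin 2) (v.adicCompletion K))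
    (hX : ∀ v : HeightOneSpectrum (𝓞 K), v ∉ S → X v = 1)
    (Y : ∀ w : InfinitePlace K, GL (Fin 2) w.Completion) : G K where
  val := glueMat_r317 S X hX Y
  inv := glueMat_r317 S (fun v => (X v)⁻¹) (fun v hv => by rw [hX v hv, inv_one])
    (fun w => (Y w)⁻¹)
  val_inv := glueMat_mul_r317 S _ _ _ _ _ _ (fun v => mul_inv_cancel _) (fun w => mul_inv_cancel _)
  inv_val := glueMat_mul_r317 S _ _ _ _ _ _ (fun v => inv_mul_cancel _) (fun w => inv_mul_cancel _)

theorem finGL_glue_r317 (S : Finset (HeightOneSpectrum (𝓞 K)))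
    (X : ∀ v : HeightOneSpectrum (𝓞 K), GL (Fin 2) (v.adicCompletion K))
    (hX : ∀ v : HeightOneSpectrum (𝓞 K), v ∉ S → X v = 1)
    (Y : ∀ w : InfinitePlace K, GL (Fin 2) w.Completion) (v : HeightOneSpectrum (𝓞 K)) :
    finGL305 v (glue_r317 S X hX Y) = X v :=
  Units.ext rfl

theorem infGL_glue_r317 (S : Finset (HeightOneSpectrum (𝓞 K)))
    (X : ∀ v : HeightOneSpectrum (𝓞 K), GL (Fin 2) (v.adicCompletion K))
    (hX : ∀ v : HeightOneSpectrum (𝓞 K), v ∉ S → X v = 1)
    (Y : ∀ w : InfinitePlace K, GL (Fin 2) w.Completion) (w : InfinitePlace K) :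
    infGL305 w (glue_r317 S X hX Y)
      = Matrix.GeneralLinearGroup.map (InfinitePlace.Completion.extensionEmbedding w) (Y w) :=
  Units.ext rfl

theorem glue_mem_outSub_r317 (S : Finset (HeightOneSpectrum (𝓞 K)))
    (X : ∀ v : HeightOneSpectrum (𝓞 K), GL (Fin 2) (v.adicCompletion K))
    (hX : ∀ v : HeightOneSpectrum (𝓞 K), v ∉ S → X v = 1)
    (Y : ∀ w : InfinitePlace K, GL (Fin 2) w.Completion) :
    glue_r317 S X hX Y ∈ outSub_r317 S := by
  intro v hv
  have h1 : finComp v (glue_r317 S X hX Y) = 1 := by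
    rw [← coe_finGL_r317, finGL_glue_r317, hX v hv]; rfl
  have h2 : finComp v (glue_r317 S X hX Y)⁻¹ = 1 := by
    rw [← coe_finGL_r317, map_inv, finGL_glue_r317, hX v hv, inv_one]; rfl
  refine ⟨fun i j => ?_, fun i j => ?_⟩
  · rw [h1]; exact one_val_integral_r317 v i j
  · rw [h2]; exact one_val_integral_r317 v i j

/-- The prescribed finite components: `x v` for `v ∈ S`, `1` outside. -/
def compAt_r317 (S : Finset (HeightOneSpectrum (𝓞 K)))
    (x : ∀ v : S, GL (Fin 2) ((v : HeightOneSpectrum (𝓞 K)).adicCompletion K))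
    (v : HeightOneSpectrum (𝓞 K)) : GL (Fin 2) (v.adicCompletion K) :=
  open Classical in if h : v ∈ S then x ⟨v, h⟩ else 1

theorem compAt_of_mem_r317 (S : Finset (HeightOneSpectrum (𝓞 K)))
    (x : ∀ v : S, GL (Fin 2) ((v : HeightOneSpectrum (𝓞 K)).adicCompletion K)) (v : S) :
    compAt_r317 S x v = x v := by
  unfold compAt_r317
  rw [dif_pos v.2]

theorem compAt_of_notMem_r317 (S : Finset (HeightOneSpectrum (𝓞 K)))
    (x : ∀ v : S, GL (Fin 2) ((v : HeightOneSpectrum (𝓞 K)).adicCompletion K))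
    (v : HeightOneSpectrum (𝓞 K)) (hv : v ∉ S) : compAt_r317 S x v = 1 := by
  unfold compAt_r317
  rw [dif_neg hv]

/-- The preimage of `z ∈ GL₂(ℂ)` in `GL₂(K_w)` at a complex place. -/
def cplxLift_r317 {w : InfinitePlace K} (hw : w.IsComplex) (z : GL (Fin 2) ℂ) :
    GL (Fin 2) w.Completion :=
  Matrix.GeneralLinearGroup.map
    ((InfinitePlace.Completion.ringEquivComplexOfIsComplex hw).symm : ℂ →+* w.Completion) z

theorem map_cplxLift_r317 {w : InfinitePlace K} (hw : w.IsComplex) (z : GL (Fin 2) ℂ) :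
    Matrix.GeneralLinearGroup.map (InfinitePlace.Completion.extensionEmbedding w)
      (cplxLift_r317 hw z) = z := by
  apply Units.ext
  ext i j
  exact (InfinitePlace.Completion.ringEquivComplexOfIsComplex hw).apply_symm_apply (z.val i j)

/-- **`p_S` maps `E_S` ONTO the target** (`K` totally complex). -/
theorem exists_mem_outT_r317 (hK : TotCplx K) (S : Finset (HeightOneSpectrum (𝓞 K)))
    (h : Tgt_r317 K S) : ∃ y ∈ outSub_r317 S, compHom_r317 S y = h := by
  refine ⟨glue_r317 S (compAt_r317 S h.1) (compAt_of_notMem_r317 S h.1)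
    (fun w => cplxLift_r317 (hK w) (h.2 w)), glue_mem_outSub_r317 _ _ _ _, ?_⟩
  refine Prod.ext (funext fun v => ?_) (funext fun w => ?_)
  · show finGL305 (v : HeightOneSpectrum (𝓞 K)) _ = h.1 v
    rw [finGL_glue_r317, compAt_of_mem_r317]
  · show infGL305 w _ = h.2 w
    rw [infGL_glue_r317, map_cplxLift_r317]

end Fermat.Agent.LT.T7.H317

end

end
-- ===== PACK-END LT/T7/H317/RestrG.lean

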