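import Mathlib
import Fermat.Agent.Pack.LT4.E1L3
import Fermat.Agent.Pack.LT2.E6L1
import Fermat.Agent.Pack.LT2.E12L2
import Fermat.Agent.Pack.LT2.E15L1
import Fermat.Agent.Pack.LT2.E12L1
import Fermat.Agent.Pack.LT2.E13L2
import Fermat.Agent.Pack.LT2.E11L1
import Fermat.Agent.Pack.LT2.E6L2
import Fermat.Agent.Pack.LT2.E15L3
import Fermat.Agent.Pack.LT2.E3L0
import Fermat.Agent.Pack.LT2.E5L3
import Fermat.Agent.Pack.LT3.E19L1
import Fermat.Agent.Pack.LT2.E14L0
import Fermat.Agent.Pack.LT3.E17L0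
import Fermat.Agent.Pack.LT3.E21L0
import Fermat.Agent.Pack.LT3.E13L1
import Fermat.Agent.Pack.LT3.E22L1
import Fermat.Agent.Pack.LT3.E22L2
import Fermat.Agent.Pack.LT3.E5L2
import Fermat.Agent.Pack.LT2.E9L3
import Fermat.Agent.Pack.LT3.E21L1
import Fermat.Agent.Pack.LT3.E22L0
import Fermat.Agent.Pack.LT4.E1L1
import Fermat.Agent.Pack.LT4.E1L0

set_option linter.all false

-- ===== PACK-BEGIN LT/T7/H308/RigidClosed.lean
section









/-!
# Row LT, tower T7, node T7.14 `RigidC`: INTEGRATION of the DONE leaves (helper308, 2nd-box rebuild)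

OFF-MAIN.  All imported files are byte-identical copies of the owners' files:
`T1/Closed.lean` (helper54), `T5/H62/FrameExists.lean`, `T7/H62/Rigid{Spec,Pkg,Aut}.lean` (helper62),
`T7/H27/EulerLog.lean` (helper27), `T7/H362/Abel.lean` (helper362), `T7/H250/NormPos.lean`
(helper250), `T7/H308/PlaceSum.lean` (helper308).

`RigidOpen308 K` = the leaves of `T7.RigidC K` which are still open: `StripC`, `CountC`, `OrthC`.
`rigidC_of_open308 : RigidOpen308 K → T7.RigidC K`.
-/

set_option autoImplicit false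

open IsDedekindDomain NumberField MeasureTheory

namespace Fermat.Agent.LT.T7.H308

open Fermat.Agent.LT.H556.A0 Fermat.Agent.LT.T7 Fermat.Agent.LT.T7.Rigid

/-- The frame of tower T5 exists (tower T1, closed). -/
theorem frame_exists308 (K : Type) [Field K] [NumberField K] :
    ∃ (μ : @Measure (G K) Fermat.Agent.LT.T5.instMeasurableSpaceG) (F : Set (G K)),
      Fermat.Agent.LT.T5.IsFrame μ F := by
  obtain ⟨μ, F, -, hF, -, -⟩ :=
    Fermat.Agent.LT.T5.H62.frame_exists_of_T1Out62 K ⊤ (Fermat.Agent.LT.T1.t1Out K)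
  exact ⟨μ, F, hF⟩

/-- The open leaves of `T7.RigidC K`. -/
structure RigidOpen308 (K : Type) [Field K] [NumberField K] : Prop where
  strip : StripC K
  count : CountC K
  orth : OrthC K

/-- **`T7.RigidC K` from the open leaves**; closed: frame (T1), `PlaceSumC`, `EulerLogC`, `AbelC`,
`NormPosC`. -/
theorem rigidC_of_open308 (K : Type) [Field K] [NumberField K] (h : RigidOpen308 K) :
    RigidC K :=
  rigidC_of_aut (frame_exists308 K) (placeSumC308 K)
    (Fermat.Agent.LT.T7.H27.eulerLogC27 K) (Fermat.Agent.LT.T7.H362.abelC362 K)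
    h.strip h.count h.orth (Fermat.Agent.LT.T7.H250.normPosC250 K)

/-- `T7.RigidAll` from the open leaves for every number field. -/
theorem rigidAll_of_open308
    (h : ∀ (K : Type) [Field K] [NumberField K], RigidOpen308 K) : RigidAll :=
  fun K _ _ => rigidC_of_open308 K (h K)

end Fermat.Agent.LT.T7.H308

end
-- ===== PACK-END LT/T7/H308/RigidClosed.lean

-- ===== PACK-BEGIN LT/T7/H62/RigidPlug.lean
section





/-!
# Row LT, tower T7, NODE T7.14 `RigidC` -- PLUG (sub-architect helper62)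

OFF-MAIN.  `Open62 K` = the leaves of `T7.RigidC K` which are still OPEN (levels 3-5 of the
sub-spec); `rigidC_of_open62 : Open62 K → T7.RigidC K`, `rigidAll_of_open62`.

CLOSED and discharged here: the frame (tower T1, `T5/H62/FrameExists.lean`), the good additive
character (T3.01, helper276), Haar measure and fundamental domain of `𝔸_K` (tower T1), Haar
measure of the ideles (tower T1: local compactness), `PlaceSumC` (helper308 / helper954),
`EulerLogC` (helper27), `AbelC` (helper362), `NormPosC` (helper250).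

All imported files are byte-identical copies of the owners' files.
-/

set_option autoImplicit false
set_option linter.style.haveILetI false

open IsDedekindDomain NumberField MeasureTheory

namespace Fermat.Agent.LT.T7.Rigid

open Fermat.Agent.LT.H556.A0 Fermat.Agent.LT.T7

variable (K : Type) [Field K] [NumberField K]

/-- The good additive character (T3.01, helper276). -/
theorem goodChar62 : ∃ ψ : AddChar (Adl K) Circle, Fermat.Agent.LT.T3.IsStdChar K ψ ∧
    Fermat.Agent.LT.T3.IsNonDeg K ψ ∧ Fermat.Agent.LT.T3.IsUnramAE K ψ :=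
  Fermat.Agent.LT.T3.H276.goodCharExists276 K

/-- Haar measure and fundamental domain of `𝔸_K` (tower T1). -/
theorem addFund62 : letI : MeasurableSpace (Adl K) := borel (Adl K)
    ∃ (ν : Measure (Adl K)) (D : Set (Adl K)), ν.IsAddHaarMeasure ∧ MeasurableSet D ∧
      IsAddFundamentalDomain ((algebraMap K (Adl K)).toAddMonoidHom.range) D ν ∧ ν D < ⊤ := by
  letI : MeasurableSpace (Adl K) := borel (Adl K)
  haveI : BorelSpace (Adl K) := ⟨rfl⟩
  have h := Fermat.Agent.LT.T1.t1Out K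
  obtain ⟨⟨h1, h2, h3⟩, -⟩ := h.locComp
  haveI := h1
  haveI := h2
  haveI := h3
  obtain ⟨D, hDm, hDf, -, -, hfin⟩ := h.addFundDom Measure.addHaar inferInstance
  exact ⟨Measure.addHaar, D, inferInstance, hDm, hDf, hfin⟩

/-- Haar measure of the ideles (tower T1: `𝔸_K` is locally compact and Hausdorff). -/
theorem ideleHaar62 : letI : MeasurableSpace (Adl K)ˣ := borel (Adl K)ˣ
    ∃ τ : Measure (Adl K)ˣ, τ.IsHaarMeasure := by
  letI : MeasurableSpace (Adl K)ˣ := borel (Adl K)ˣ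
  haveI : BorelSpace (Adl K)ˣ := ⟨rfl⟩
  have h := Fermat.Agent.LT.T1.t1Out K
  obtain ⟨⟨h1, h2, h3⟩, -⟩ := h.locComp
  haveI := h1
  haveI := h2
  haveI := h3
  haveI : LocallyCompactSpace (Adl K)ˣ := Units.isClosedEmbedding_embedProduct.locallyCompactSpace
  exact ⟨Measure.haar, inferInstance⟩

/-- THE OPEN LEAVES of `T7.RigidC K`. -/
structure Open62 : Prop where
  /-- T7.14.3 (row 1519, helper671). -/
  count : CountC K
  /-- T7.14.4 (row 1520, helper555). -/
  orth : OrthC K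
  /-- T7.14.6a (row 1717, helper290). -/
  foldWhit : FoldWhitC K
  /-- T7.14.6c (row 1720, helper568). -/
  ideleSum : IdeleSumC K
  /-- T7.14.6d (row 1721, helper179). -/
  weight : WeightC K
  /-- T7.14.6b.0 (row 1828). -/
  mix : MixC K
  /-- T7.14.6b.1 (row 1829). -/
  loc : LocC K
  /-- T7.14.6b.2 (row 1830). -/
  heckeRec : HeckeRecC K
  /-- T7.14.6b.3 (row 1719, helper724). -/
  archUniq : ArchUniqC K
  /-- T7.14.6b.4 (row 1831). -/
  whitInherit : WhitInheritC K
  /-- T7.14.6b.5 (row 1832). -/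
  torusAsm : TorusAsmC K

/-- **`T7.RigidC K` from the open leaves.** -/
theorem rigidC_of_open62 (h : Open62 K) : RigidC K :=
  rigidC_of_whit (Fermat.Agent.LT.T7.H308.frame_exists308 K) (goodChar62 K) (addFund62 K)
    (ideleHaar62 K) (Fermat.Agent.LT.T7.H308.placeSumC308 K)
    (Fermat.Agent.LT.T7.H27.eulerLogC27 K) (Fermat.Agent.LT.T7.H362.abelC362 K)
    h.count h.orth (Fermat.Agent.LT.T7.H250.normPosC250 K) h.foldWhit h.ideleSum h.weight
    h.mix h.loc h.heckeRec h.archUniq h.whitInherit h.torusAsm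

/-- **`T7.RigidAll` from the open leaves for every number field.** -/
theorem rigidAll_of_open62
    (h : ∀ (K : Type) [Field K] [NumberField K], Open62 K) : RigidAll :=
  fun K _ _ => rigidC_of_open62 K (h K)

end Fermat.Agent.LT.T7.Rigid

end
-- ===== PACK-END LT/T7/H62/RigidPlug.lean

-- ===== PACK-BEGIN LT/T7/H878/WhitInherit.lean
section





/-!
# Row LT, tower T7, leaf T7.14.6b.4 `Rigid.WhitInheritC` (helper878, spare of row 1831)

OFF-MAIN.  The Whittaker function `W_φ(g) = ∫_D φ(n(x) g) ψ̄(x) dν(x)` of an `S`-form is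
continuous, bounded, `(N, ψ)`-equivariant on the left, right invariant under the positive scalars
and the unitary groups at the infinite places, and has the mean-value property of parameter `0`
at the complex places:

`whitInheritC878 (K) : Fermat.Agent.LT.T7.Rigid.WhitInheritC K`, unconditional.

The three analytic steps are the proofs of the leaves T2.10.08.01 (helper8, `WhEquiv.lean`),
T2.10.08.02 (helper264, `WhCont.lean`) and T2.10.08.03 (helper600, `WhMean.lean`), run again for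
a standard character without the hypotheses `IsNonDeg`, `IsUnramAE` of `H941.IsWhitData` (which
those proofs do not use).  Input: `T1.t1Out` (tower T1, helper54; only the second countability
of `GL₂(𝔸_K)`), `locCont472` (helper472).
-/

set_option autoImplicit false
set_option linter.style.haveILetI false

open AutomorphicForm IsDedekindDomain NumberField MeasureTheory
open scoped ComplexConjugate

noncomputable section

namespace Fermat.Agent.LT.T7.H878

open Fermat.Agent.LT.H556 Fermat.Agent.LT.H556.A0 Fermat.Agent.LT.T7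
open Fermat.Agent.LT

variable {K : Type} [Field K] [NumberField K]

/-! ## 1. The unipotent elements -/

/-- The rational unipotent element `n(ξ) = [[1, ξ], [0, 1]]` of `GL₂(K)`. -/
def unipK878 (ξ : K) : GL (Fin 2) K :=
  ⟨!![1, ξ; 0, 1], !![1, -ξ; 0, 1],
    by ext i j; fin_cases i <;> fin_cases j <;> simp [Matrix.mul_apply, Fin.sum_univ_two],
    by ext i j; fin_cases i <;> fin_cases j <;> simp [Matrix.mul_apply, Fin.sum_univ_two]⟩

/-- `n(emb ξ)` is the image of the rational unipotent element. -/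
theorem map_unipK878 (ξ : K) :
    Matrix.GeneralLinearGroup.map (algebraMap K (Adl K)) (unipK878 ξ)
      = T3.unip K (algebraMap K (Adl K) ξ) := by
  apply Units.ext
  ext i j
  fin_cases i <;> fin_cases j <;>
    simp [T3.unip, unipK878, Matrix.GeneralLinearGroup.map]

/-- `n(x + y) = n(x) n(y)`. -/
theorem unip_add878 (x y : Adl K) : T3.unip K (x + y) = T3.unip K x * T3.unip K y := by
  apply Units.ext
  ext i j
  fin_cases i <;> fin_cases j <;>
    simp [T3.unip, Matrix.mul_apply, Fin.sum_univ_two, add_comm]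

/-- `x ↦ n(x)` is continuous. -/
theorem continuous_unip878 : Continuous (T3.unip K) := by
  rw [Units.continuous_iff]
  constructor
  · refine continuous_matrix fun i j => ?_
    fin_cases i <;> fin_cases j
    · exact continuous_const
    · exact continuous_id
    · exact continuous_const
    · exact continuous_const
  · refine continuous_matrix fun i j => ?_
    fin_cases i <;> fin_cases j
    · exact continuous_const
    · exact continuous_neg
    · exact continuous_const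
    · exact continuous_const

/-! ## 2. An abstract Fubini lemma (helper600, `fubini_rect600`) -/

/-- Fubini for a bounded continuous function on `X × ℝ × ℝ`, finite measure on `X`, rectangle
in `ℝ × ℝ`. -/
theorem fubini_rect878 {X : Type} [TopologicalSpace X] [MeasurableSpace X]
    [OpensMeasurableSpace X] (μ : Measure X) [IsFiniteMeasure μ]
    (F : X → ℝ → ℝ → ℂ)
    (hF : Continuous fun q : (ℝ × ℝ) × X => F q.2 q.1.1 q.1.2)
    (C : ℝ) (hC : ∀ x a b, ‖F x a b‖ ≤ C) {a₁ a₂ b₁ b₂ : ℝ} (ha : a₁ ≤ a₂) (hb : b₁ ≤ b₂) :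
    (∫ α in a₁..a₂, ∫ β in b₁..b₂, ∫ x, F x α β ∂μ)
      = ∫ x, (∫ α in a₁..a₂, ∫ β in b₁..b₂, F x α β) ∂μ := by
  set μα : Measure ℝ := volume.restrict (Set.Ioc a₁ a₂) with hμα
  set μβ : Measure ℝ := volume.restrict (Set.Ioc b₁ b₂) with hμβ
  have : IsFiniteMeasure μα := ⟨by rw [hμα, Measure.restrict_apply_univ]; simp⟩
  have : IsFiniteMeasure μβ := ⟨by rw [hμβ, Measure.restrict_apply_univ]; simp⟩
  have hmeas : AEStronglyMeasurable (fun q : (ℝ × ℝ) × X => F q.2 q.1.1 q.1.2)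
      ((μα.prod μβ).prod μ) := hF.aestronglyMeasurable
  have hint : Integrable (fun q : (ℝ × ℝ) × X => F q.2 q.1.1 q.1.2) ((μα.prod μβ).prod μ) :=
    Integrable.of_bound hmeas C (Filter.Eventually.of_forall fun q => hC _ _ _)
  have hslice : ∀ x : X, Integrable (fun p : ℝ × ℝ => F x p.1 p.2) (μα.prod μβ) := by
    intro x
    have hc : Continuous fun p : ℝ × ℝ => F x p.1 p.2 :=
      hF.comp (Continuous.prodMk continuous_id continuous_const)
    exact Integrable.of_bound hc.aestronglyMeasurable C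
      (Filter.Eventually.of_forall fun p => hC _ _ _)
  have hI : Integrable (fun p : ℝ × ℝ => ∫ x, F x p.1 p.2 ∂μ) (μα.prod μβ) :=
    hint.integral_prod_left
  calc (∫ α in a₁..a₂, ∫ β in b₁..b₂, ∫ x, F x α β ∂μ)
      = ∫ α, ∫ β, (∫ x, F x α β ∂μ) ∂μβ ∂μα := by
        rw [intervalIntegral.integral_of_le ha]
        refine integral_congr_ae (Filter.Eventually.of_forall fun α => ?_)
        exact intervalIntegral.integral_of_le hb
    _ = ∫ p, (∫ x, F x p.1 p.2 ∂μ) ∂(μα.prod μβ) := (integral_prod _ hI).symm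
    _ = ∫ x, (∫ p, F x p.1 p.2 ∂(μα.prod μβ)) ∂μ :=
        integral_integral_swap (f := fun (p : ℝ × ℝ) (x : X) => F x p.1 p.2) hint
    _ = ∫ x, (∫ α in a₁..a₂, ∫ β in b₁..b₂, F x α β) ∂μ := by
        refine integral_congr_ae (Filter.Eventually.of_forall fun x => ?_)
        show (∫ p, F x p.1 p.2 ∂(μα.prod μβ)) = ∫ α in a₁..a₂, ∫ β in b₁..b₂, F x α β
        rw [integral_prod _ (hslice x), intervalIntegral.integral_of_le ha]
        refine integral_congr_ae (Filter.Eventually.of_forall fun α => ?_)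
        exact (intervalIntegral.integral_of_le hb).symm

theorem continuous_rotZ_w878 : Continuous rotZ := by
  refine continuous_matrix fun i j => ?_
  fin_cases i <;> fin_cases j <;> simp [rotZ] <;> fun_prop

theorem continuous_rotY_w878 : Continuous rotY := by
  refine continuous_matrix fun i j => ?_
  fin_cases i <;> fin_cases j <;> simp [rotY] <;> fun_prop

/-- The family `Y` of `A0.MeanValueComplex` is jointly continuous. -/
theorem continuous_family878 (w : InfinitePlace K) (d : ℝ) (Y : ℝ → ℝ → G K)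
    (hY : ∀ α β : ℝ, IsLocalAtInf w (Y α β) ∧ infComp w (Y α β) = rotZ α * rotY β * torus d) :
    Continuous fun p : ℝ × ℝ => Y p.1 p.2 := by
  refine T2.H472.locCont472 K w (ℝ × ℝ) (fun p => Y p.1 p.2) (fun p => (hY p.1 p.2).1) ?_
  intro i j
  have h1 : Continuous fun p : ℝ × ℝ => rotZ p.1 * rotY p.2 * torus d :=
    ((continuous_rotZ_w878.comp continuous_fst).matrix_mul
      (continuous_rotY_w878.comp continuous_snd)).matrix_mul continuous_const
  have h2 : (fun p : ℝ × ℝ => infComp w (Y p.1 p.2) i j)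
      = fun p : ℝ × ℝ => (rotZ p.1 * rotY p.2 * torus d) i j := by
    funext p
    rw [(hY p.1 p.2).2]
  rw [h2]
  exact h1.matrix_elem i j

/-! ## 3. The Whittaker function -/

section whit

variable [MeasurableSpace (Adl K)] [BorelSpace (Adl K)]

/-- **Equivariance** (helper8, T2.10.08.01): `W(n(a) g) = ψ(a) W(g)`. -/
theorem whit_equiv878 {ψ : AddChar (Adl K) Circle} (hψ : T3.IsStdChar K ψ)
    {ν : Measure (Adl K)} [ν.IsAddHaarMeasure] {D : Set (Adl K)}
    (hD : IsAddFundamentalDomain ((algebraMap K (Adl K)).toAddMonoidHom.range) D ν)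
    {Φ : G K → ℂ}
    (hΦ : ∀ (γ : GL (Fin 2) K) (g : G K),
      Φ (Matrix.GeneralLinearGroup.map (algebraMap K (Adl K)) γ * g) = Φ g)
    (a : Adl K) (g : G K) :
    Rigid.whit ψ ν D Φ (T3.unip K a * g) = ((ψ a : Circle) : ℂ) * Rigid.whit ψ ν D Φ g := by
  haveI : Countable ((algebraMap K (Adl K)).toAddMonoidHom.range) := by
    have : Countable K := Finsupp.Countable.of_moduleFinite (R := ℚ) (M := K)
    exact (AddMonoidHom.rangeRestrict_surjective
      ((algebraMap K (Adl K)).toAddMonoidHom)).countable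
  set F : Adl K → ℂ := fun x => Φ (T3.unip K x * g) * conj ((ψ x : Circle) : ℂ) with hF
  have hFper : ∀ (ξ : (algebraMap K (Adl K)).toAddMonoidHom.range) (x : Adl K),
      F (ξ +ᵥ x) = F x := by
    rintro ⟨ξ, k, rfl⟩ x
    have h1 : (⟨(algebraMap K (Adl K)).toAddMonoidHom k, ⟨k, rfl⟩⟩ :
        (algebraMap K (Adl K)).toAddMonoidHom.range) +ᵥ x = algebraMap K (Adl K) k + x := rfl
    show Φ (T3.unip K (_ +ᵥ x) * g) * conj ((ψ (_ +ᵥ x) : Circle) : ℂ)
      = Φ (T3.unip K x * g) * conj ((ψ x : Circle) : ℂ)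
    rw [h1, unip_add878, ← map_unipK878, mul_assoc, hΦ, AddChar.map_add_eq_mul, hψ.triv k,
      one_mul]
  have hint : ∀ x : Adl K,
      Φ (T3.unip K x * (T3.unip K a * g)) * conj ((ψ x : Circle) : ℂ)
        = ((ψ a : Circle) : ℂ) * F (x + a) := by
    intro x
    have hn : ((ψ a : Circle) : ℂ) * conj ((ψ a : Circle) : ℂ) = 1 := by
      rw [Complex.mul_conj, Complex.normSq_eq_norm_sq, Circle.norm_coe]
      simp
    simp only [hF]
    rw [unip_add878, mul_assoc, AddChar.map_add_eq_mul, Circle.coe_mul, map_mul]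
    calc Φ (T3.unip K x * (T3.unip K a * g)) * conj ((ψ x : Circle) : ℂ)
        = Φ (T3.unip K x * (T3.unip K a * g)) * conj ((ψ x : Circle) : ℂ)
            * (((ψ a : Circle) : ℂ) * conj ((ψ a : Circle) : ℂ)) := by rw [hn, mul_one]
      _ = ((ψ a : Circle) : ℂ) * (Φ (T3.unip K x * (T3.unip K a * g))
            * (conj ((ψ x : Circle) : ℂ) * conj ((ψ a : Circle) : ℂ))) := by ring
  have hmp : MeasurePreserving (fun y : Adl K => y + (-a)) ν ν :=
    measurePreserving_add_right ν (-a)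
  have hD' : IsAddFundamentalDomain ((algebraMap K (Adl K)).toAddMonoidHom.range)
      ((fun y : Adl K => y + (-a)) ⁻¹' D) ν := by
    refine hD.preimage_of_equiv hmp.quasiMeasurePreserving (e := id) Function.bijective_id ?_
    intro ξ y
    change ((ξ : Adl K) + y) + (-a) = (ξ : Adl K) + (y + (-a))
    rw [add_assoc]
  have hemb : MeasurableEmbedding (fun y : Adl K => y + (-a)) :=
    (MeasurableEquiv.addRight (-a)).measurableEmbedding
  have hcv : ∫ y in D, F (y + a) ∂ν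
      = ∫ x in (fun y : Adl K => y + (-a)) ⁻¹' D, F x ∂ν := by
    have h := hmp.setIntegral_preimage_emb hemb (fun y => F (y + a)) D
    simp only [neg_add_cancel_right] at h
    exact h.symm
  unfold Rigid.whit
  calc ∫ x in D, Φ (T3.unip K x * (T3.unip K a * g)) * conj ((ψ x : Circle) : ℂ) ∂ν
      = ∫ x in D, ((ψ a : Circle) : ℂ) * F (x + a) ∂ν :=
        integral_congr_ae (Filter.Eventually.of_forall hint)
    _ = ((ψ a : Circle) : ℂ) * ∫ x in D, F (x + a) ∂ν := integral_const_mul _ _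
    _ = ((ψ a : Circle) : ℂ) * ∫ x in (fun y : Adl K => y + (-a)) ⁻¹' D, F x ∂ν := by rw [hcv]
    _ = ((ψ a : Circle) : ℂ) * ∫ x in D, F x ∂ν := by
        rw [hD'.setIntegral_eq hD hFper]

/-- **Continuity and bound** (helper264, T2.10.08.02). -/
theorem whit_cont878 [SecondCountableTopology (G K)] {ψ : AddChar (Adl K) Circle}
    (hψ : T3.IsStdChar K ψ) {ν : Measure (Adl K)} {D : Set (Adl K)} (hfin : ν D < ⊤)
    {Φ : G K → ℂ} (hΦ : Continuous Φ) {C : ℝ} (hC : ∀ g : G K, ‖Φ g‖ ≤ C) :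
    Continuous (Rigid.whit ψ ν D Φ) ∧ ∀ g : G K, ‖Rigid.whit ψ ν D Φ g‖ ≤ C * (ν D).toReal := by
  haveI : IsFiniteMeasure (ν.restrict D) := ⟨by rw [Measure.restrict_apply_univ]; exact hfin⟩
  have hψc : Continuous fun x : Adl K => (starRingEnd ℂ) ((ψ x : Circle) : ℂ) :=
    Complex.continuous_conj.comp (continuous_subtype_val.comp hψ.cont)
  have hnorm : ∀ (g : G K) (x : Adl K),
      ‖Φ (T3.unip K x * g) * (starRingEnd ℂ) ((ψ x : Circle) : ℂ)‖ ≤ C := by
    intro g x
    rw [norm_mul, RCLike.norm_conj, Circle.norm_coe, mul_one]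
    exact hC _
  constructor
  · unfold Rigid.whit
    refine continuous_of_dominated (bound := fun _ => C) ?_ ?_ ?_ ?_
    · intro g
      refine Continuous.aestronglyMeasurable ?_
      exact (hΦ.comp (continuous_unip878.mul continuous_const)).mul hψc
    · intro g
      exact Filter.Eventually.of_forall (hnorm g)
    · exact integrable_const C
    · refine Filter.Eventually.of_forall (fun x => ?_)
      exact (hΦ.comp (continuous_const.mul continuous_id)).mul continuous_const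
  · intro g
    unfold Rigid.whit
    have h := norm_integral_le_of_norm_le_const (μ := ν.restrict D)
      (f := fun x => Φ (T3.unip K x * g) * (starRingEnd ℂ) ((ψ x : Circle) : ℂ)) (C := C)
      (Filter.Eventually.of_forall (hnorm g))
    simpa [Measure.real, Measure.restrict_apply_univ] using h

/-- **Mean value** (helper600, T2.10.08.03): the mean value property passes from `Φ` to `W`. -/
theorem whit_mean878 {ψ : AddChar (Adl K) Circle} (hψ : T3.IsStdChar K ψ)
    {ν : Measure (Adl K)} {D : Set (Adl K)} (hfin : ν D < ⊤)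
    {Φ : G K → ℂ} (hΦc : Continuous Φ) {C : ℝ} (hC : ∀ g : G K, ‖Φ g‖ ≤ C)
    {w : InfinitePlace K} (hMV : MeanValueComplex Φ w) :
    MeanValueComplex (Rigid.whit ψ ν D Φ) w := by
  intro d hd Y hY g
  have : IsFiniteMeasure (ν.restrict D) := ⟨by rw [Measure.restrict_apply_univ]; exact hfin⟩
  have hYc := continuous_family878 w d Y hY
  have hψc : Continuous fun x : Adl K => ((ψ x : Circle) : ℂ) :=
    continuous_subtype_val.comp hψ.cont
  set F : Adl K → ℝ → ℝ → ℂ := fun x α β =>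
    Φ (T3.unip K x * (g * Y α β)) * (starRingEnd ℂ) ((ψ x : Circle) : ℂ)
      * ((Real.sin β : ℝ) : ℂ) with hFdef
  have hFc : Continuous fun q : (ℝ × ℝ) × Adl K => F q.2 q.1.1 q.1.2 := by
    have h1 : Continuous fun q : (ℝ × ℝ) × Adl K => T3.unip K q.2 * (g * Y q.1.1 q.1.2) :=
      (continuous_unip878.comp continuous_snd).mul
        (continuous_const.mul (hYc.comp continuous_fst))
    have h2 : Continuous fun q : (ℝ × ℝ) × Adl K =>
        (starRingEnd ℂ) ((ψ q.2 : Circle) : ℂ) :=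
      Complex.continuous_conj.comp (hψc.comp continuous_snd)
    have h3 : Continuous fun q : (ℝ × ℝ) × Adl K => ((Real.sin q.1.2 : ℝ) : ℂ) :=
      Complex.continuous_ofReal.comp
        (Real.continuous_sin.comp (continuous_snd.comp continuous_fst))
    exact ((hΦc.comp h1).mul h2).mul h3
  have hFb : ∀ x a b, ‖F x a b‖ ≤ |C| := by
    intro x a b
    simp only [hFdef, norm_mul, RCLike.norm_conj, Circle.norm_coe, mul_one,
      Complex.norm_real, Real.norm_eq_abs]
    calc ‖Φ (T3.unip K x * (g * Y a b))‖ * |Real.sin b|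
        ≤ |C| * 1 := by
          refine mul_le_mul ((hC _).trans (le_abs_self C)) (Real.abs_sin_le_one b)
            (abs_nonneg _) (abs_nonneg _)
      _ = |C| := mul_one _
  have hswap := fubini_rect878 (ν.restrict D) F hFc |C| hFb
    (a₁ := 0) (a₂ := 2 * Real.pi) (b₁ := 0) (b₂ := Real.pi)
    (by positivity) Real.pi_pos.le
  have hL : (∫ α in (0 : ℝ)..(2 * Real.pi), ∫ β in (0 : ℝ)..Real.pi,
        Rigid.whit ψ ν D Φ (g * Y α β) * ((Real.sin β : ℝ) : ℂ))
      = ∫ α in (0 : ℝ)..(2 * Real.pi), ∫ β in (0 : ℝ)..Real.pi,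
          ∫ x, F x α β ∂(ν.restrict D) := by
    refine intervalIntegral.integral_congr fun α _ => ?_
    refine intervalIntegral.integral_congr fun β _ => ?_
    show Rigid.whit ψ ν D Φ (g * Y α β) * ((Real.sin β : ℝ) : ℂ)
      = ∫ x, F x α β ∂(ν.restrict D)
    rw [Rigid.whit, ← integral_mul_const]
  have hR : ∀ x : Adl K, (∫ α in (0 : ℝ)..(2 * Real.pi), ∫ β in (0 : ℝ)..Real.pi, F x α β)
      = ((4 * Real.pi * (d / Real.sinh d) : ℝ) : ℂ)
          * (Φ (T3.unip K x * g) * (starRingEnd ℂ) ((ψ x : Circle) : ℂ)) := by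
    intro x
    have h := hMV d hd Y hY (T3.unip K x * g)
    have h' : (∫ α in (0 : ℝ)..(2 * Real.pi), ∫ β in (0 : ℝ)..Real.pi, F x α β)
        = (∫ α in (0 : ℝ)..(2 * Real.pi), ∫ β in (0 : ℝ)..Real.pi,
            Φ (T3.unip K x * g * Y α β) * ((Real.sin β : ℝ) : ℂ))
          * (starRingEnd ℂ) ((ψ x : Circle) : ℂ) := by
      rw [← intervalIntegral.integral_mul_const]
      refine intervalIntegral.integral_congr fun α _ => ?_
      show (∫ β in (0 : ℝ)..Real.pi, F x α β) = _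
      rw [← intervalIntegral.integral_mul_const]
      refine intervalIntegral.integral_congr fun β _ => ?_
      show F x α β = _
      simp only [hFdef, mul_assoc]
      ring
    rw [h', h]
    ring
  rw [hL, hswap]
  simp only [hR]
  rw [integral_const_mul]
  rfl

end whit

/-! ## 4. The leaf -/

/-- **T7.14.6b.4** `WhitInheritC`. -/
theorem whitInheritC878 (K : Type) [Field K] [NumberField K] : Rigid.WhitInheritC K := by
  letI : MeasurableSpace (Adl K) := borel (Adl K)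
  haveI : BorelSpace (Adl K) := ⟨rfl⟩
  intro ψ hψ ν D hν hDm hD hfin π S φ hφ
  haveI := hν
  haveI : SecondCountableTopology (G K) := (T1.t1Out K).locComp.2.2.2
  obtain ⟨C, hC⟩ := hφ.bdd
  have hcb := whit_cont878 hψ hfin hφ.cont hC
  refine ⟨hcb.1, ⟨_, hcb.2⟩, fun a g => whit_equiv878 hψ hD hφ.left_inv a g, ?_, ?_,
    fun w hw => whit_mean878 hψ hfin hφ.cont hC (hφ.mean_complex w hw)⟩
  · intro w z hz g
    unfold Rigid.whit
    refine integral_congr_ae (Filter.Eventually.of_forall fun x => ?_)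
    show φ (T3.unip K x * (g * z)) * conj ((ψ x : Circle) : ℂ)
      = φ (T3.unip K x * g) * conj ((ψ x : Circle) : ℂ)
    rw [← mul_assoc, hφ.arch_scalar w z hz]
  · intro w k hk g
    unfold Rigid.whit
    refine integral_congr_ae (Filter.Eventually.of_forall fun x => ?_)
    show φ (T3.unip K x * (g * k)) * conj ((ψ x : Circle) : ℂ)
      = φ (T3.unip K x * g) * conj ((ψ x : Circle) : ℂ)
    rw [← mul_assoc, hφ.arch_compact w k hk]

/-- Type check against the frozen Prop. -/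
example (K : Type) [Field K] [NumberField K] : Fermat.Agent.LT.T7.Rigid.WhitInheritC K :=
  whitInheritC878 K

end Fermat.Agent.LT.T7.H878

end

end
-- ===== PACK-END LT/T7/H878/WhitInherit.lean

-- ===== PACK-BEGIN LT/T7/H930/RsigOps.lean
section







/-!
# Row LT, asset T7.M1 (helper930): `R(σ)` and the operators / eigenbases of tower T2

OFF-MAIN.  Vocabulary: `T2/Spec.lean` v3 (helper130), `T5/Spec.lean` v4 (helper32), A0;
byte-identical copies.  Uses the closed tower T1 (helper54), the frame adapter of helper62 and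
the matrix lemmas of helper621 (`T7/H621/ConjMean.lean`).  UNCONDITIONAL, for EVERY
`s : T5.AdelicAut K`.

## Two fields (`e : K ≃+* L`, transport `φ ↦ φ ∘ glAdeleEquiv930 e`)

* `isSphereAt_map930`, `isCircleAt_map930` : images of spheres / circles (`α ↦ ± α`);
* `sphereMean_comp_glAdeleEquiv930`, `circleMean_comp_glAdeleEquiv930` : the means commute with
  the transport (sphere means: on right `K_w`-invariant functions);
* `meanEigC_comp_glAdeleEquiv930`, `meanEigR_comp_glAdeleEquiv930` : transport of the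
  eigenfunctions of the means, ANY eigenvalue function `m`;
* `isCuspidalFn_comp_glAdeleEquiv930`, `isCuspFnT2_comp_glAdeleEquiv930` : transport of
  `A0.IsCuspidalFn` and of `T2.IsCuspFn`.

## One field (`R(σ) = T5.Rsig s`)

* `Rsig_heckeSum930`, `Rsig_shift930` : `R(σ) T_H = T_{σH} R(σ)`, `R(σ) S_z = S_{σz} R(σ)`;
  `isHeckeCosetSystem_onG930`, `isScalarUniformizerAt_onG930`;
* `isCuspFnT2_Rsig930` : `R(σ)` preserves `T2.IsCuspFn 𝔫` for a `σ`-stable level;
* `meanEigC_Rsig930`, `meanEigR_Rsig930` : `R(σ)` moves the eigenvalue functions to `σ(w)`;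
* `pair_Rsig930` : `R(σ)` is unitary for `T2.pair F`, EVERY frame `F` of T2;
* **`isCuspBasis_Rsig930`** : if `u` is a joint eigenbasis (`T2.IsCuspBasis 𝔫 F u m a b`) then so
  is `R(σ) ∘ u`, with the eigen-data `m j ∘ σ⁻¹`, `a j ∘ σ⁻¹`, `b j ∘ σ⁻¹`.
-/

set_option autoImplicit false

open IsDedekindDomain NumberField MeasureTheory
open scoped MatrixGroups ComplexConjugate

noncomputable section

namespace Fermat.Agent.LT.T7.H930

open Fermat.Agent.LT.H556 Fermat.Agent.LT.H556.A0 Fermat.Agent.LT.T1.H930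
open Fermat.Agent.LT.T7.H621

section TwoFields

variable {K L : Type} [Field K] [NumberField K] [Field L] [NumberField L]

/-! ## 1. Spheres and circles under a field isomorphism -/

omit [NumberField K] [NumberField L] in
theorem map_infConj930_mul (e : K ≃+* L) (w : InfinitePlace L)
    (A B : Matrix (Fin 2) (Fin 2) ℂ) :
    (A * B).map (infConj930 e w) = A.map (infConj930 e w) * B.map (infConj930 e w) := by
  rw [← RingHom.mapMatrix_apply, ← RingHom.mapMatrix_apply, ← RingHom.mapMatrix_apply, map_mul]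

omit [NumberField K] [NumberField L] in
theorem rotY_map_infConj930 (e : K ≃+* L) (w : InfinitePlace L) (β : ℝ) :
    (rotY β).map (infConj930 e w) = rotY β := by
  rcases infConj930_eq e w with h | h
  · rw [h]; exact Matrix.map_id _
  · rw [h]; exact rotY_map_conj621 β

omit [NumberField K] [NumberField L] in
theorem torus_map_infConj930 (e : K ≃+* L) (w : InfinitePlace L) (d : ℝ) :
    (torus d).map (infConj930 e w) = torus d := by
  rcases infConj930_eq e w with h | h
  · rw [h]; exact Matrix.map_id _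
  · rw [h]; exact torus_map_conj621 d

/-- The sign of the angle `α` under the transport. -/
def sgn930 (e : K ≃+* L) (w : InfinitePlace L) : ℝ :=
  open scoped Classical in
  if infConj930 e w = RingHom.id ℂ then 1 else -1

omit [NumberField K] [NumberField L] in
theorem rotZ_map_infConj930 (e : K ≃+* L) (w : InfinitePlace L) (α : ℝ) :
    (rotZ α).map (infConj930 e w) = rotZ (sgn930 e w * α) := by
  unfold sgn930
  split_ifs with h
  · rw [h, one_mul]; exact Matrix.map_id _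
  · rcases infConj930_eq e w with h' | h'
    · exact absurd h' h
    · rw [h', neg_one_mul]; exact rotZ_map_conj621 α

omit [NumberField K] [NumberField L] in
theorem sgn930_mul_self (e : K ≃+* L) (w : InfinitePlace L) : sgn930 e w * sgn930 e w = 1 := by
  unfold sgn930
  split_ifs <;> norm_num

omit [NumberField K] [NumberField L] in
theorem sgn930_eq (e : K ≃+* L) (w : InfinitePlace L) : sgn930 e w = 1 ∨ sgn930 e w = -1 := by
  unfold sgn930
  split_ifs
  · exact Or.inl rfl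
  · exact Or.inr rfl

/-- The image of a sphere at `e⁻¹ w` is a sphere at `w` (after `α ↦ ± α`). -/
theorem isSphereAt_map930 (e : K ≃+* L) (w : InfinitePlace L) (d : ℝ) (Y : ℝ → ℝ → G K)
    (hY : T2.IsSphereAt (infPull930 e w) d Y) :
    T2.IsSphereAt w d (fun α β => glAdeleEquiv930 e (Y (sgn930 e w * α) β)) := by
  intro α β
  refine ⟨(isLocalAtInf_glAdeleEquiv930 e w _).2 (hY _ _).1, ?_⟩
  rw [infComp_glAdeleEquiv930, (hY _ _).2, map_infConj930_mul, map_infConj930_mul,
    rotZ_map_infConj930, rotY_map_infConj930, torus_map_infConj930, ← mul_assoc,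
    sgn930_mul_self, one_mul]

/-- The image of a circle at `e⁻¹ w` is a circle at `w`. -/
theorem isCircleAt_map930 (e : K ≃+* L) (w : InfinitePlace L) (t : ℝ) (Y : ℝ → G K)
    (hY : T2.IsCircleAt (infPull930 e w) t Y) :
    T2.IsCircleAt w t (fun θ => glAdeleEquiv930 e (Y θ)) := by
  intro θ
  refine ⟨(isLocalAtInf_glAdeleEquiv930 e w _).2 (hY _).1, ?_⟩
  rw [infComp_glAdeleEquiv930, (hY _).2, map_infConj930_mul, rotY_map_infConj930,
    torus_map_infConj930]

/-- **Circle means commute with the transport** (real places; no hypothesis). -/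
theorem circleMean_comp_glAdeleEquiv930 (e : K ≃+* L) (φ : G L → ℂ) (Y : ℝ → G K) (g : G K) :
    T2.circleMean Y (fun x => φ (glAdeleEquiv930 e x)) g
      = T2.circleMean (fun θ => glAdeleEquiv930 e (Y θ)) φ (glAdeleEquiv930 e g) := by
  unfold T2.circleMean
  simp only [map_mul]

/-- A sphere is `2π`-antiperiodic in `α` up to the central element `-1` of `K_w`, so the inner
integral of a right `K_w`-invariant function is `2π`-periodic in `α`. -/
theorem sphere_periodic930 (w : InfinitePlace L) (d : ℝ) (Y : ℝ → ℝ → G L)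
    (hY : T2.IsSphereAt w d Y) (φ : G L → ℂ)
    (hinv : ∀ k : G L, IsArchCompact w k → ∀ g : G L, φ (g * k) = φ g) (g : G L) :
    Function.Periodic (fun α => ∫ β in (0 : ℝ)..Real.pi,
      φ (g * Y α β) * ((Real.sin β : ℝ) : ℂ)) (2 * Real.pi) := by
  intro α
  show (∫ β in (0 : ℝ)..Real.pi, φ (g * Y (α + 2 * Real.pi) β) * ((Real.sin β : ℝ) : ℂ))
    = ∫ β in (0 : ℝ)..Real.pi, φ (g * Y α β) * ((Real.sin β : ℝ) : ℂ)
  congr 1
  funext β
  congr 1
  set c : G L := (Y α β)⁻¹ * Y (α + 2 * Real.pi) β with hc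
  have hcloc : IsLocalAtInf w c :=
    isLocalAtInf_mul621 _ _ _ (isLocalAtInf_inv621 _ _ (hY α β).1) (hY (α + 2 * Real.pi) β).1
  have hccomp : infComp w c = -1 := by
    rw [hc, infComp_mul621, (hY (α + 2 * Real.pi) β).2, rotZ_add_two_pi621,
      Matrix.neg_mul, Matrix.neg_mul, Matrix.mul_neg, ← (hY α β).2, infComp_inv_mul621]
  have hYc : Y (α + 2 * Real.pi) β = Y α β * c := by
    rw [hc, mul_inv_cancel_left]
  rw [hYc, ← mul_assoc]
  exact hinv c (isArchCompact_of_neg_one621 _ c hcloc hccomp) _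

/-- **Sphere means commute with the transport** on right `K_w`-invariant functions. -/
theorem sphereMean_comp_glAdeleEquiv930 (e : K ≃+* L) (w : InfinitePlace L) (φ : G L → ℂ)
    (hinv : ∀ k : G L, IsArchCompact w k → ∀ g : G L, φ (g * k) = φ g)
    (d : ℝ) (Y : ℝ → ℝ → G K) (hY : T2.IsSphereAt (infPull930 e w) d Y) (g : G K) :
    T2.sphereMean Y (fun x => φ (glAdeleEquiv930 e x)) g
      = T2.sphereMean (fun α β => glAdeleEquiv930 e (Y (sgn930 e w * α) β)) φ
          (glAdeleEquiv930 e g) := by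
  have hY₁ := isSphereAt_map930 e w d Y hY
  set Y₁ : ℝ → ℝ → G L := fun α β => glAdeleEquiv930 e (Y (sgn930 e w * α) β) with hY₁def
  set F₁ : ℝ → ℂ := fun α => ∫ β in (0 : ℝ)..Real.pi,
    φ (glAdeleEquiv930 e g * Y₁ α β) * ((Real.sin β : ℝ) : ℂ) with hF₁
  have hper : Function.Periodic F₁ (2 * Real.pi) :=
    sphere_periodic930 w d Y₁ hY₁ φ hinv (glAdeleEquiv930 e g)
  have hL : T2.sphereMean Y (fun x => φ (glAdeleEquiv930 e x)) g
      = ∫ α in (0 : ℝ)..(2 * Real.pi), F₁ (sgn930 e w * α) := by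
    unfold T2.sphereMean
    congr 1
    funext α
    rw [hF₁]
    show _ = ∫ β in (0 : ℝ)..Real.pi,
      φ (glAdeleEquiv930 e g * Y₁ (sgn930 e w * α) β) * ((Real.sin β : ℝ) : ℂ)
    rw [hY₁def]
    simp only [map_mul, ← mul_assoc, sgn930_mul_self, one_mul]
  have hR : T2.sphereMean Y₁ φ (glAdeleEquiv930 e g) = ∫ α in (0 : ℝ)..(2 * Real.pi), F₁ α := rfl
  rw [hL, hR]
  rcases sgn930_eq e w with h | h
  · rw [h]
    simp only [one_mul]
  · rw [h]
    simp only [neg_one_mul]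
    rw [intervalIntegral.integral_comp_neg]
    have e2 := hper.intervalIntegral_add_eq (-(2 * Real.pi)) 0
    rw [neg_add_cancel, zero_add] at e2
    rw [neg_zero, e2]

/-! ## 2. Eigenfunctions of the sphere and circle means -/

/-- Right `K_w`-invariance passes to the transported function. -/
theorem archInv_comp_glAdeleEquiv930 (e : K ≃+* L) (w : InfinitePlace L) (φ : G L → ℂ)
    (hinv : ∀ k : G L, IsArchCompact w k → ∀ g : G L, φ (g * k) = φ g) :
    ∀ k : G K, IsArchCompact (infPull930 e w) k →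
      ∀ g : G K, (fun x => φ (glAdeleEquiv930 e x)) (g * k) = (fun x => φ (glAdeleEquiv930 e x)) g := by
  intro k hk g
  show φ (glAdeleEquiv930 e (g * k)) = φ (glAdeleEquiv930 e g)
  rw [map_mul]
  exact hinv _ ((isArchCompact_glAdeleEquiv930 e w k).2 hk) _

theorem meanEigC_comp_glAdeleEquiv930_of (e : K ≃+* L) (w : InfinitePlace L) (φ : G L → ℂ)
    (hinv : ∀ k : G L, IsArchCompact w k → ∀ g : G L, φ (g * k) = φ g) (m : ℝ → ℂ)
    (h : T2.MeanEigC φ w m) :
    T2.MeanEigC (fun x => φ (glAdeleEquiv930 e x)) (infPull930 e w) m := by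
  intro d hd Y hY g
  rw [sphereMean_comp_glAdeleEquiv930 e w φ hinv d Y hY g]
  exact h d hd _ (isSphereAt_map930 e w d Y hY) _

/-- **Transport of the eigenfunctions of the sphere means** (complex places). -/
theorem meanEigC_comp_glAdeleEquiv930 (e : K ≃+* L) (w : InfinitePlace L) (φ : G L → ℂ)
    (hinv : ∀ k : G L, IsArchCompact w k → ∀ g : G L, φ (g * k) = φ g) (m : ℝ → ℂ) :
    T2.MeanEigC (fun x => φ (glAdeleEquiv930 e x)) (infPull930 e w) m ↔ T2.MeanEigC φ w m := by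
  refine ⟨fun h => ?_, meanEigC_comp_glAdeleEquiv930_of e w φ hinv m⟩
  have h2 := meanEigC_comp_glAdeleEquiv930_of e.symm (infPull930 e w)
    (fun x => φ (glAdeleEquiv930 e x)) (archInv_comp_glAdeleEquiv930 e w φ hinv) m h
  rw [infPull930_symm'] at h2
  have e1 : (fun x => (fun y => φ (glAdeleEquiv930 e y)) (glAdeleEquiv930 e.symm x)) = φ := by
    funext x
    show φ (glAdeleEquiv930 e (glAdeleEquiv930 e.symm x)) = φ x
    rw [glAdeleEquiv930_apply_symm_apply]
  rw [e1] at h2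
  exact h2

theorem meanEigR_comp_glAdeleEquiv930_of (e : K ≃+* L) (w : InfinitePlace L) (φ : G L → ℂ)
    (m : ℝ → ℂ) (h : T2.MeanEigR φ w m) :
    T2.MeanEigR (fun x => φ (glAdeleEquiv930 e x)) (infPull930 e w) m := by
  intro t ht Y hY g
  rw [circleMean_comp_glAdeleEquiv930 e φ Y g]
  exact h t ht _ (isCircleAt_map930 e w t Y hY) _

/-- **Transport of the eigenfunctions of the circle means** (real places). -/
theorem meanEigR_comp_glAdeleEquiv930 (e : K ≃+* L) (w : InfinitePlace L) (φ : G L → ℂ)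
    (m : ℝ → ℂ) :
    T2.MeanEigR (fun x => φ (glAdeleEquiv930 e x)) (infPull930 e w) m ↔ T2.MeanEigR φ w m := by
  refine ⟨fun h => ?_, meanEigR_comp_glAdeleEquiv930_of e w φ m⟩
  have h2 := meanEigR_comp_glAdeleEquiv930_of e.symm (infPull930 e w)
    (fun x => φ (glAdeleEquiv930 e x)) m h
  rw [infPull930_symm'] at h2
  have e1 : (fun x => (fun y => φ (glAdeleEquiv930 e y)) (glAdeleEquiv930 e.symm x)) = φ := by
    funext x
    show φ (glAdeleEquiv930 e (glAdeleEquiv930 e.symm x)) = φ x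
    rw [glAdeleEquiv930_apply_symm_apply]
  rw [e1] at h2
  exact h2

/-! ## 3. Transport of the vanishing of the constant term (two fields) -/

/-- `adeleEquiv930 e` as a continuous additive equivalence. -/
def adeleCAE930 (e : K ≃+* L) : A0.Adl K ≃ₜ+ A0.Adl L where
  toAddEquiv := (adeleEquiv930 e).toAddEquiv
  continuous_toFun := continuous_adeleEquiv930 e
  continuous_invFun := continuous_adeleEquiv930 e.symm

theorem adeleCAE930_apply (e : K ≃+* L) (x : A0.Adl K) : adeleCAE930 e x = adeleEquiv930 e x := rfl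

theorem adeleCAE930_symm_apply (e : K ≃+* L) (y : A0.Adl L) :
    (adeleCAE930 e).symm y = adeleEquiv930 e.symm y := rfl

/-- The principal adeles. -/
abbrev princ930 (K : Type) [Field K] [NumberField K] : AddSubgroup (A0.Adl K) :=
  (algebraMap K (A0.Adl K)).toAddMonoidHom.range

/-- `adeleEquiv930 e.symm` maps the principal adeles of `L` onto those of `K`. -/
def princEquiv930 (e : K ≃+* L) : princ930 L ≃ princ930 K where
  toFun y := ⟨adeleEquiv930 e.symm y.1, by
    obtain ⟨k, hk⟩ := y.2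
    refine ⟨e.symm k, ?_⟩
    show algebraMap K (A0.Adl K) (e.symm k) = adeleEquiv930 e.symm y.1
    rw [← adeleEquiv930_algebraMap e.symm k]
    exact congrArg _ hk⟩
  invFun x := ⟨adeleEquiv930 e x.1, by
    obtain ⟨k, hk⟩ := x.2
    refine ⟨e k, ?_⟩
    show algebraMap L (A0.Adl L) (e k) = adeleEquiv930 e x.1
    rw [← adeleEquiv930_algebraMap e k]
    exact congrArg _ hk⟩
  left_inv y := Subtype.ext (adeleEquiv930_apply_symm_apply e y.1)
  right_inv x := Subtype.ext (adeleEquiv930_symm_apply_apply e x.1)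

theorem isCuspidalFn_comp_glAdeleEquiv930 (e : K ≃+* L) (φ : A0.G L → ℂ)
    (h : A0.IsCuspidalFn φ) : A0.IsCuspidalFn (fun g => φ (glAdeleEquiv930 e g)) := by
  let _ : MeasurableSpace (A0.Adl K) := borel (A0.Adl K)
  let _ : MeasurableSpace (A0.Adl L) := borel (A0.Adl L)
  have : BorelSpace (A0.Adl K) := ⟨rfl⟩
  have : BorelSpace (A0.Adl L) := ⟨rfl⟩
  intro μ hμ D hD n hn g
  have := hμ
  set A : A0.Adl K ≃ₜ+ A0.Adl L := adeleCAE930 e with hA
  set Am : A0.Adl K ≃ᵐ A0.Adl L := A.toHomeomorph.toMeasurableEquiv with hAm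
  have hAm_apply : ∀ x, Am x = adeleEquiv930 e x := fun _ => rfl
  have hAm_symm : ∀ y, Am.symm y = adeleEquiv930 e.symm y := fun _ => rfl
  set ν : Measure (A0.Adl L) := μ.map Am with hν
  have hνH : ν.IsAddHaarMeasure := A.isAddHaarMeasure_map μ
  have hmp : MeasurePreserving Am μ ν := Am.measurable.measurePreserving μ
  have hmp' : MeasurePreserving Am.symm ν μ := hmp.symm Am
  have hD' : IsAddFundamentalDomain (princ930 L) (Am '' D) ν := by
    refine hD.image_of_equiv Am.toEquiv hmp'.quasiMeasurePreserving (princEquiv930 e) ?_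
    intro y x
    show adeleEquiv930 e ((princEquiv930 e y : A0.Adl K) + x) = (y : A0.Adl L) + adeleEquiv930 e x
    rw [map_add]
    congr 1
    exact adeleEquiv930_apply_symm_apply e y.1
  set n' : A0.Adl L → A0.G L := fun y => glAdeleEquiv930 e (n (adeleEquiv930 e.symm y)) with hn'
  have hn'1 : ∀ y : A0.Adl L,
      (n' y : Matrix (Fin 2) (Fin 2) (A0.Adl L)) = !![1, y; 0, 1] := by
    intro y
    refine Matrix.ext fun i j => ?_
    rw [hn', glAdeleEquiv930_val, hn]
    fin_cases i <;> fin_cases j <;> simp [adeleEquiv930_apply_symm_apply]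
  have key := h ν hνH (Am '' D) hD' n' hn'1 (glAdeleEquiv930 e g)
  rw [hmp.setIntegral_image_emb Am.measurableEmbedding] at key
  rw [← key]
  refine setIntegral_congr_fun₀ ?_ ?_
  · exact hD.nullMeasurableSet
  · intro x _
    show φ (glAdeleEquiv930 e (n x * g))
      = φ (glAdeleEquiv930 e (n (adeleEquiv930 e.symm (Am x))) * glAdeleEquiv930 e g)
    rw [hAm_apply, adeleEquiv930_symm_apply_apply, map_mul]

/-! ## 4. Cusp functions of T2 -/

/-- Transport of the cusp functions of T2 (invariant under the positive scalars at every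
infinite place). -/
theorem isCuspFnT2_comp_glAdeleEquiv930 (e : K ≃+* L) (𝔫 : Ideal (𝓞 K)) (φ : G L → ℂ)
    (h : T2.IsCuspFn (𝔫.map (RingOfIntegers.mapRingEquiv e)) φ) :
    T2.IsCuspFn 𝔫 (fun x => φ (glAdeleEquiv930 e x)) where
  cont := h.cont.comp (continuous_glAdeleEquiv930 e)
  bdd := by
    obtain ⟨C, hC⟩ := h.bdd
    exact ⟨C, fun g => hC _⟩
  left_inv := by
    intro γ g
    show φ (glAdeleEquiv930 e (_ * g)) = φ (glAdeleEquiv930 e g)
    rw [map_mul, glAdeleEquiv930_map_algebraMap]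
    exact h.left_inv _ _
  level_inv := by
    intro u hu g
    show φ (glAdeleEquiv930 e (g * u)) = φ (glAdeleEquiv930 e g)
    rw [map_mul]
    exact h.level_inv _ ((inLevelGroup_glAdeleEquiv930 e 𝔫 u).2 hu) _
  arch_scalar := by
    intro w z hz g
    show φ (glAdeleEquiv930 e (g * z)) = φ (glAdeleEquiv930 e g)
    rw [map_mul]
    refine h.arch_scalar (infPull930 e.symm w) _ ?_ _
    rw [isArchPosScalar_glAdeleEquiv930, infPull930_symm]
    exact hz
  arch_compact := by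
    intro w k hk g
    show φ (glAdeleEquiv930 e (g * k)) = φ (glAdeleEquiv930 e g)
    rw [map_mul]
    refine h.arch_compact (infPull930 e.symm w) _ ?_ _
    rw [isArchCompact_glAdeleEquiv930, infPull930_symm]
    exact hk
  cuspidal := isCuspidalFn_comp_glAdeleEquiv930 e φ h.cuspidal

end TwoFields

/-! ## 5. The operator `R(σ)` and the operators of T2 -/

section OneField

open Fermat.Agent.LT.T5

variable {K : Type} [Field K] [NumberField K]

theorem Rsig_eq930 (s : AdelicAut K) (φ : G K → ℂ) :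
    Rsig s φ = fun x => φ (glAdeleEquiv930 s.σ.symm x) := by
  funext x
  show φ (s.onGinv x) = _
  rw [onGinv_eq_glAdeleEquiv930]

/-- The image `σ(w)` of an infinite place. -/
abbrev infImg930 (s : AdelicAut K) (w : InfinitePlace K) : InfinitePlace K :=
  infPull930 s.σ.symm w

/-- The image `σ(v)` of a finite place. -/
abbrev finImg930 (s : AdelicAut K) (v : HeightOneSpectrum (𝓞 K)) : HeightOneSpectrum (𝓞 K) :=
  finPull930 s.σ.symm v

theorem infImg930_pull (s : AdelicAut K) (w : InfinitePlace K) :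
    infImg930 s (infPull930 s.σ w) = w :=
  infPull930_symm s.σ.symm w

theorem finImg930_pull (s : AdelicAut K) (v : HeightOneSpectrum (𝓞 K)) :
    finImg930 s (finPull930 s.σ v) = v :=
  finPull930_symm s.σ.symm v

theorem placeRel_finPull_self930 (s : AdelicAut K) (v : HeightOneSpectrum (𝓞 K)) :
    PlaceRel s (finPull930 s.σ v) v := by
  rw [placeRel_iff930]
  exact (finImg930_pull s v).symm

/-- `R(σ) T_H = T_{σ H} R(σ)`. -/
theorem Rsig_heckeSum930 (s : AdelicAut K) (H : Finset (G K)) (φ : G K → ℂ) :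
    Rsig s (T2.heckeSum H φ)
      = T2.heckeSum (H.map (onGHomeo930 s).toEquiv.toEmbedding) (Rsig s φ) := by
  funext g
  show ∑ h ∈ H, φ (s.onGinv g * h)
    = ∑ h ∈ H.map (onGHomeo930 s).toEquiv.toEmbedding, φ (s.onGinv (g * h))
  rw [Finset.sum_map]
  refine Finset.sum_congr rfl fun h _ => ?_
  show φ (s.onGinv g * h) = φ (s.onGinv (g * s.onG h))
  rw [map_mul, onGinv_onG930]

/-- `R(σ) S_z = S_{σ z} R(σ)`. -/
theorem Rsig_shift930 (s : AdelicAut K) (z : G K) (φ : G K → ℂ) :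
    Rsig s (T2.shift z φ) = T2.shift (s.onG z) (Rsig s φ) := by
  funext g
  show φ (s.onGinv g * z) = φ (s.onGinv (g * s.onG z))
  rw [map_mul, onGinv_onG930]

/-- The image of a Hecke coset system at `v` is a Hecke coset system at `σ(v)`. -/
theorem isHeckeCosetSystem_onG930 (s : AdelicAut K) (v : HeightOneSpectrum (𝓞 K))
    (H : Finset (G K)) (hH : IsHeckeCosetSystem v H) :
    IsHeckeCosetSystem (finImg930 s v) (H.map (onGHomeo930 s).toEquiv.toEmbedding) := by
  have h1 : H.map (onGHomeo930 s).toEquiv.toEmbedding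
      = H.map (glAdeleEquiv930 s.σ).toEquiv.toEmbedding := by
    have hemb : (onGHomeo930 s).toEquiv.toEmbedding = (glAdeleEquiv930 s.σ).toEquiv.toEmbedding := by
      ext x
      exact congrArg (fun g : G K => (g : Matrix (Fin 2) (Fin 2) (Adl K)) _ _)
        (onG_eq_glAdeleEquiv930 s x)
    rw [hemb]
  rw [h1, isHeckeCosetSystem_map930]
  have h2 : finPull930 s.σ (finImg930 s v) = v := finPull930_symm s.σ v
  rw [h2]
  exact hH

/-- The image of a scalar uniformiser at `v` is a scalar uniformiser at `σ(v)`. -/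
theorem isScalarUniformizerAt_onG930 (s : AdelicAut K) (v : HeightOneSpectrum (𝓞 K))
    (z : G K) (hz : IsScalarUniformizerAt v z) :
    IsScalarUniformizerAt (finImg930 s v) (s.onG z) := by
  rw [onG_eq_glAdeleEquiv930, isScalarUniformizerAt_glAdeleEquiv930]
  have h2 : finPull930 s.σ (finImg930 s v) = v := finPull930_symm s.σ v
  rw [h2]
  exact hz

theorem map_symm_of_stable930 (s : AdelicAut K) {𝔫 : Ideal (𝓞 K)}
    (h𝔫 : 𝔫.map (RingOfIntegers.mapRingEquiv s.σ) = 𝔫) :
    𝔫.map (RingOfIntegers.mapRingEquiv s.σ.symm) = 𝔫 := by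
  have h2 : 𝔫.map ((RingOfIntegers.mapRingEquiv s.σ).symm : 𝓞 K →+* 𝓞 K)
      = 𝔫.comap (RingOfIntegers.mapRingEquiv s.σ : 𝓞 K →+* 𝓞 K) :=
    Ideal.map_symm (I := 𝔫) (f := (RingOfIntegers.mapRingEquiv s.σ))
  have h3 : 𝔫.comap (RingOfIntegers.mapRingEquiv s.σ : 𝓞 K →+* 𝓞 K) = 𝔫 := by
    conv_lhs => rw [← h𝔫]
    exact Ideal.comap_map_of_bijective _ (RingOfIntegers.mapRingEquiv s.σ).bijective
  have h4 : 𝔫.map (RingOfIntegers.mapRingEquiv s.σ.symm)
      = 𝔫.map ((RingOfIntegers.mapRingEquiv s.σ).symm : 𝓞 K →+* 𝓞 K) := rfl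
  rw [h4, h2, h3]

/-- **`R(σ)` preserves the cusp functions of T2** of a `σ`-stable level. -/
theorem isCuspFnT2_Rsig930 (s : AdelicAut K) {𝔫 : Ideal (𝓞 K)}
    (h𝔫 : 𝔫.map (RingOfIntegers.mapRingEquiv s.σ) = 𝔫) {φ : G K → ℂ}
    (h : T2.IsCuspFn 𝔫 φ) : T2.IsCuspFn 𝔫 (Rsig s φ) := by
  rw [Rsig_eq930]
  refine isCuspFnT2_comp_glAdeleEquiv930 s.σ.symm 𝔫 φ ?_
  rw [map_symm_of_stable930 s h𝔫]
  exact h

/-- **`R(σ)` moves the eigenvalue function of the sphere means at `w` to `σ(w)`.** -/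
theorem meanEigC_Rsig930 (s : AdelicAut K) (w : InfinitePlace K) (φ : G K → ℂ)
    (hinv : ∀ k : G K, IsArchCompact w k → ∀ g : G K, φ (g * k) = φ g) (m : ℝ → ℂ) :
    T2.MeanEigC (Rsig s φ) (infImg930 s w) m ↔ T2.MeanEigC φ w m := by
  rw [Rsig_eq930]
  exact meanEigC_comp_glAdeleEquiv930 s.σ.symm w φ hinv m

/-- **`R(σ)` moves the eigenvalue function of the circle means at `w` to `σ(w)`.** -/
theorem meanEigR_Rsig930 (s : AdelicAut K) (w : InfinitePlace K) (φ : G K → ℂ) (m : ℝ → ℂ) :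
    T2.MeanEigR (Rsig s φ) (infImg930 s w) m ↔ T2.MeanEigR φ w m := by
  rw [Rsig_eq930]
  exact meanEigR_comp_glAdeleEquiv930 s.σ.symm w φ m

/-! ## 6. The pairing of T2 and the joint eigenbases -/

attribute [local instance] Fermat.Agent.LT.T5.instMeasurableSpaceG

/-- A frame of T2 is a frame of T5 (tower T1 is closed). -/
theorem isFrame_of_frameT2_930 (F : T2.Frame K) : IsFrame F.μ F.D := by
  have hT := Fermat.Agent.LT.T1.t1Out K
  have : LocallyCompactSpace (G K) := hT.locComp.2.1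
  have : SecondCountableTopology (G K) := hT.locComp.2.2.2
  have := F.haar
  have : F.μ.IsMulRightInvariant := hT.unimod F.μ F.haar
  exact Fermat.Agent.LT.T5.H62.isFrame_of_haar62 F.μ F.D F.meas F.sub F.strict F.fin

/-- Every adelic automorphism preserves every frame of T2 (level `⊥`). -/
theorem exists_autPreserves_frameT2_930 (F : T2.Frame K) (s : AdelicAut K) :
    ∃ r : G K, AutPreserves s ⊥ F.μ r := by
  have hT := Fermat.Agent.LT.T1.t1Out K
  obtain ⟨r, hr⟩ := Fermat.Agent.LT.T5.H62.exists_rayGen62 K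
  exact ⟨r, autPreserves_all930 hT.locComp.2.1 hT.locComp.2.2.2 s ⊥ Ideal.map_bot F.μ F.haar
    r hr⟩

/-- **`R(σ)` is unitary for the pairing of T2** (continuous left-`GL₂(K)`-invariant functions). -/
theorem pair_Rsig930 (F : T2.Frame K) (s : AdelicAut K) {φ ψ : G K → ℂ}
    (hφc : Continuous φ) (hψc : Continuous ψ)
    (hφ : ∀ (γ : GL (Fin 2) K) (g : G K), φ (ratG γ * g) = φ g)
    (hψ : ∀ (γ : GL (Fin 2) K) (g : G K), ψ (ratG γ * g) = ψ g) :
    T2.pair F (Rsig s φ) (Rsig s ψ) = T2.pair F φ ψ := by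
  obtain ⟨r, hP⟩ := exists_autPreserves_frameT2_930 F s
  exact innerD_Rsig930 (isFrame_of_frameT2_930 F) hP hφc hψc hφ hψ

theorem pair_Rsig_cusp930 (F : T2.Frame K) (s : AdelicAut K) {𝔫 𝔫' : Ideal (𝓞 K)}
    {φ ψ : G K → ℂ} (hφ : T2.IsCuspFn 𝔫 φ) (hψ : T2.IsCuspFn 𝔫' ψ) :
    T2.pair F (Rsig s φ) (Rsig s ψ) = T2.pair F φ ψ :=
  pair_Rsig930 F s hφ.cont hψ.cont hφ.left_inv hψ.left_inv

/-- Divisibility of a `σ`-stable level by `σ⁻¹(v)` and by `v`. -/
theorem dvd_finPull930_iff (s : AdelicAut K) {𝔫 : Ideal (𝓞 K)}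
    (h𝔫 : 𝔫.map (RingOfIntegers.mapRingEquiv s.σ) = 𝔫) (v : HeightOneSpectrum (𝓞 K)) :
    (finPull930 s.σ v).asIdeal ∣ 𝔫 ↔ v.asIdeal ∣ 𝔫 := by
  rw [Ideal.dvd_iff_le, Ideal.dvd_iff_le]
  show 𝔫 ≤ v.asIdeal.comap (RingOfIntegers.mapRingEquiv s.σ : 𝓞 K →+* 𝓞 K) ↔ _
  rw [← Ideal.map_le_iff_le_comap]
  have h1 : 𝔫.map (RingOfIntegers.mapRingEquiv s.σ : 𝓞 K →+* 𝓞 K) = 𝔫 := h𝔫
  rw [h1]

theorem isComplex_infPull930 (s : AdelicAut K) (w : InfinitePlace K) :
    (infPull930 s.σ w).IsComplex ↔ w.IsComplex := by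
  rw [← InfinitePlace.not_isReal_iff_isComplex, ← InfinitePlace.not_isReal_iff_isComplex,
    isReal_infPull930]

/-- **`R(σ)` maps a joint eigenbasis of the cusp functions of a `σ`-stable level to a joint
eigenbasis, the eigen-data being moved by `σ`.** -/
theorem isCuspBasis_Rsig930 (s : AdelicAut K) {𝔫 : Ideal (𝓞 K)}
    (h𝔫 : 𝔫.map (RingOfIntegers.mapRingEquiv s.σ) = 𝔫) (F : T2.Frame K) {ι : Type}
    {u : ι → G K → ℂ} {m : ι → InfinitePlace K → ℝ → ℂ}
    {a b : ι → HeightOneSpectrum (𝓞 K) → ℂ} (h : T2.IsCuspBasis 𝔫 F u m a b) :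
    T2.IsCuspBasis 𝔫 F (fun j => Rsig s (u j)) (fun j w => m j (infPull930 s.σ w))
      (fun j v => a j (finPull930 s.σ v)) (fun j v => b j (finPull930 s.σ v)) where
  cusp j := isCuspFnT2_Rsig930 s h𝔫 (h.cusp j)
  norm_one j := by
    rw [pair_Rsig_cusp930 F s (h.cusp j) (h.cusp j)]
    exact h.norm_one j
  orth i j hij := by
    rw [pair_Rsig_cusp930 F s (h.cusp i) (h.cusp j)]
    exact h.orth i j hij
  eig_complex j w hw := by
    have h1 := (meanEigC_Rsig930 s (infPull930 s.σ w) (u j)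
      (fun k hk g => (h.cusp j).arch_compact _ k hk g) (m j (infPull930 s.σ w))).2
      (h.eig_complex j _ ((isComplex_infPull930 s w).2 hw))
    rw [infImg930_pull] at h1
    exact h1
  eig_real j w hw := by
    have h1 := (meanEigR_Rsig930 s (infPull930 s.σ w) (u j) (m j (infPull930 s.σ w))).2
      (h.eig_real j _ ((isReal_infPull930 s.σ w).2 hw))
    rw [infImg930_pull] at h1
    exact h1
  hecke j v hv :=
    (isHeckeEigenAt_Rsig930 s (placeRel_finPull_self930 s v) (u j) _ _).2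
      (h.hecke j _ (fun hd => hv ((dvd_finPull930_iff s h𝔫 v).1 hd)))
  unit_b j v hv := h.unit_b j _ (fun hd => hv ((dvd_finPull930_iff s h𝔫 v).1 hd))
  conj_a j v hv := h.conj_a j _ (fun hd => hv ((dvd_finPull930_iff s h𝔫 v).1 hd))
  bound_a j v hv := by
    have h1 := h.bound_a j _ (fun hd => hv ((dvd_finPull930_iff s h𝔫 v).1 hd))
    rw [absNorm_finPull930] at h1
    exact h1
  real_m j w d hd := h.real_m j _ d hd
  parseval φ hφ := by
    have h𝔫' : 𝔫.map (RingOfIntegers.mapRingEquiv (invAut930 s).σ) = 𝔫 :=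
      map_symm_of_stable930 s h𝔫
    have hφ' : T2.IsCuspFn 𝔫 (Rsig (invAut930 s) φ) := isCuspFnT2_Rsig930 (invAut930 s) h𝔫' hφ
    have hp := h.parseval _ hφ'
    have e1 : ∀ j, T2.pair F φ (Rsig s (u j)) = T2.pair F (Rsig (invAut930 s) φ) (u j) := by
      intro j
      have h2 := pair_Rsig_cusp930 F s hφ' (h.cusp j)
      rw [Rsig_Rsig_invAut930] at h2
      exact h2
    have e2 : T2.nsq F φ = T2.nsq F (Rsig (invAut930 s) φ) := by
      have h2 := pair_Rsig_cusp930 F s hφ' hφ'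
      rw [Rsig_Rsig_invAut930] at h2
      unfold T2.nsq
      rw [h2]
    simp only [e1, e2]
    exact hp

end OneField

end Fermat.Agent.LT.T7.H930

end
end
-- ===== PACK-END LT/T7/H930/RsigOps.lean

-- ===== PACK-BEGIN LT/T7/H930/CompDataExists.lean
section






/-!
# Row LT, tower T7, asset T7.M0 (helper930): the data of the comparison EXIST

OFF-MAIN.  Vocabulary: `T7/Matching.lean` (helper797, sha256 0549163e), byte-identical copy.

For a Galois extension `K'/K` of number fields of prime degree `ℓ` (`T7.IsCycExt K K' ℓ`) and a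
level `𝔫 ≠ 0` of `K` there is a `D : T7.CompData K K'` with `T7.IsCompData D`, `D.l = ℓ`,
`D.𝔫 = 𝔫`, whose automorphism `D.s.σ` is a generator of `Gal(K'/K)` (it fixes `K`).
UNCONDITIONAL.

Pieces: a generator `σ` of the Galois group (prime order), its adelic extension
`adelicAut930 σ` (`T1/H930/AdeleAutT5.lean`), the `σ`-stable level `𝔑 = 𝔫 𝒪_{K'}`, the frames of
helper62 (`T5/H62/FrameExists.lean`) on the closed tower T1 (helper54, `T1/Closed.lean`), and
`autPreserves_all930` (`T1/H930/AdeleAutAll.lean`) for the field `aut`.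
-/

set_option autoImplicit false

open IsDedekindDomain NumberField MeasureTheory

noncomputable section

namespace Fermat.Agent.LT.T7.H930

open Fermat.Agent.LT.H556 Fermat.Agent.LT.H556.A0 Fermat.Agent.LT.T1.H930

attribute [local instance] Fermat.Agent.LT.T5.instMeasurableSpaceG

/-! ## 1. The generator of the Galois group -/

/-- `AlgEquiv.toRingEquiv` as a monoid homomorphism into `RingAut`. -/
def toRingAutHom930 (K K' : Type*) [Field K] [Field K'] [Algebra K K'] :
    (K' ≃ₐ[K] K') →* RingAut K' where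
  toFun σ := σ.toRingEquiv
  map_one' := rfl
  map_mul' _ _ := rfl

theorem toRingEquiv_pow930 {K K' : Type*} [Field K] [Field K'] [Algebra K K']
    (σ : K' ≃ₐ[K] K') (n : ℕ) (x : K') :
    ((σ.toRingEquiv : RingAut K') ^ n) x = (σ ^ n) x := by
  have h := map_pow (toRingAutHom930 K K') σ n
  exact (congrArg (fun f : RingAut K' => f x) h).symm

/-- A Galois extension of prime degree has a generator `σ` of its Galois group: `σ^ℓ = 1`,
the fixed field of `σ` is the base field, and `σ^j ≠ 1` for `0 < j < ℓ`. -/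
theorem exists_generator930 (K K' : Type*) [Field K] [Field K'] [Algebra K K']
    [FiniteDimensional K K'] [IsGalois K K'] (ℓ : ℕ) (hℓ : ℓ.Prime)
    (hdeg : Module.finrank K K' = ℓ) :
    ∃ σ : K' ≃ₐ[K] K', (∀ x : K', (σ ^ ℓ) x = x) ∧
      (∀ x : K', (∃ y : K, algebraMap K K' y = x) ↔ σ x = x) ∧
      (∀ j : ℕ, 0 < j → j < ℓ → ∃ x : K', (σ ^ j) x ≠ x) := by
  have hcard : Nat.card (K' ≃ₐ[K] K') = ℓ := by
    rw [IsGalois.card_aut_eq_finrank, hdeg]
  have : Fact ℓ.Prime := ⟨hℓ⟩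
  have : Finite (K' ≃ₐ[K] K') := Nat.finite_of_card_ne_zero (by rw [hcard]; exact hℓ.ne_zero)
  have hnt : Nontrivial (K' ≃ₐ[K] K') := by
    rw [← Finite.one_lt_card_iff_nontrivial, hcard]
    exact hℓ.one_lt
  obtain ⟨σ, hσ⟩ := exists_ne (1 : K' ≃ₐ[K] K')
  have htop : Subgroup.zpowers σ = ⊤ := zpowers_eq_top_of_prime_card hcard hσ
  have hord : orderOf σ = ℓ := by
    rw [← Nat.card_zpowers, htop, Subgroup.card_top, hcard]
  refine ⟨σ, ?_, ?_, ?_⟩
  · intro x
    have h1 : σ ^ ℓ = 1 := by rw [← hord]; exact pow_orderOf_eq_one σ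
    rw [h1]
    rfl
  · intro x
    constructor
    · rintro ⟨y, rfl⟩
      exact σ.commutes y
    · intro hx
      have hall : ∀ f : K' ≃ₐ[K] K', f x = x := by
        intro f
        have hf : f ∈ Subgroup.zpowers σ := by rw [htop]; exact Subgroup.mem_top f
        obtain ⟨n, rfl⟩ := Subgroup.mem_zpowers_iff.1 hf
        have hfix : σ ∈ MulAction.stabilizer (K' ≃ₐ[K] K') x := hx
        exact (Subgroup.zpow_mem _ hfix n)
      exact (IsGalois.mem_range_algebraMap_iff_fixed (F := K) (E := K') x).2 hall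
  · intro j hj0 hjl
    by_contra hcon
    have hcon' : ∀ x : K', (σ ^ j) x = x := by
      intro x
      by_contra hx
      exact hcon ⟨x, hx⟩
    have h1 : σ ^ j = 1 := AlgEquiv.ext hcon'
    exact pow_ne_one_of_lt_orderOf hj0.ne' (by rw [hord]; exact hjl) h1

/-! ## 2. The level upstairs -/

section Level

variable {K K' : Type} [Field K] [NumberField K] [Field K'] [NumberField K'] [Algebra K K']

omit [NumberField K] [NumberField K'] in
/-- The level `𝔫 𝒪_{K'}` is stable under every `K`-automorphism of `K'`. -/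
theorem map_level_stable930 (σ : K' ≃ₐ[K] K') (𝔫 : Ideal (𝓞 K)) :
    (Ideal.map (algebraMap (𝓞 K) (𝓞 K')) 𝔫).map (RingOfIntegers.mapRingEquiv σ.toRingEquiv)
      = Ideal.map (algebraMap (𝓞 K) (𝓞 K')) 𝔫 := by
  have h : ((RingOfIntegers.mapRingEquiv σ.toRingEquiv : 𝓞 K' →+* 𝓞 K')).comp
      (algebraMap (𝓞 K) (𝓞 K')) = algebraMap (𝓞 K) (𝓞 K') := by
    ext x
    show (σ ((algebraMap (𝓞 K) (𝓞 K') x : 𝓞 K') : K') : K') = _
    have h1 : ((algebraMap (𝓞 K) (𝓞 K') x : 𝓞 K') : K') = algebraMap K K' (x : K) := rfl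
    rw [h1]
    exact σ.commutes _
  have h2 := Ideal.map_map (I := 𝔫) (algebraMap (𝓞 K) (𝓞 K'))
    (RingOfIntegers.mapRingEquiv σ.toRingEquiv : 𝓞 K' →+* 𝓞 K')
  rw [h] at h2
  exact h2

end Level

/-! ## 3. The data -/

section Data

variable (K K' : Type) [Field K] [NumberField K] [Field K'] [NumberField K'] [Algebra K K']

/-- **The data of the comparison exist** for every Galois extension of prime degree and every
level `𝔫 ≠ 0`; the automorphism is `adelicAut930 σ` for a generator `σ` of `Gal(K'/K)`. -/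
theorem exists_compData_gen930 (ℓ : ℕ) (h : IsCycExt K K' ℓ) (𝔫 : Ideal (𝓞 K)) (h𝔫 : 𝔫 ≠ ⊥) :
    ∃ (σ : K' ≃ₐ[K] K') (D : CompData K K'), IsCompData D ∧ D.l = ℓ ∧ D.𝔫 = 𝔫 ∧
      D.s = adelicAut930 σ.toRingEquiv ∧ D.k = (algebraMap K K').fieldRange := by
  have := h.galois
  obtain ⟨σ, hpow, hfix, hfaith⟩ := exists_generator930 K K' ℓ h.prime h.degree
  obtain ⟨μ, F, r, hF, hr, -⟩ :=
    Fermat.Agent.LT.T5.H62.frame_exists_of_T1Out62 K 𝔫 (Fermat.Agent.LT.T1.t1Out K)
  set 𝔑 : Ideal (𝓞 K') := Ideal.map (algebraMap (𝓞 K) (𝓞 K')) 𝔫 with h𝔑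
  obtain ⟨μ', F', r', hF', hr', -⟩ :=
    Fermat.Agent.LT.T5.H62.frame_exists_of_T1Out62 K' 𝔑 (Fermat.Agent.LT.T1.t1Out K')
  have hLC : LocallyCompactSpace (G K') := (Fermat.Agent.LT.T1.t1Out K').locComp.2.1
  have hSC : SecondCountableTopology (G K') := (Fermat.Agent.LT.T1.t1Out K').locComp.2.2.2
  refine ⟨σ, ⟨ℓ, adelicAut930 σ.toRingEquiv, (algebraMap K K').fieldRange, 𝔫, 𝔑,
    ⟨μ, F, r⟩, ⟨μ', F', r'⟩⟩, ?_, rfl, rfl, rfl, rfl⟩
  refine ⟨⟨h.prime.pos, ?_, ?_, ?_⟩, ?_, h𝔫, rfl, ⟨hF, hr⟩, ⟨hF', hr'⟩, ?_⟩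
  · intro x
    show ((σ.toRingEquiv : RingAut K') ^ ℓ) x = x
    rw [toRingEquiv_pow930]
    exact hpow x
  · intro x
    show x ∈ (algebraMap K K').fieldRange ↔ σ x = x
    rw [RingHom.mem_fieldRange]
    exact hfix x
  · intro j hj0 hjl
    obtain ⟨x, hx⟩ := hfaith j hj0 hjl
    refine ⟨x, ?_⟩
    show ((σ.toRingEquiv : RingAut K') ^ j) x ≠ x
    rw [toRingEquiv_pow930]
    exact hx
  · intro x
    show x ∈ (algebraMap K K').fieldRange ↔ _
    exact RingHom.mem_fieldRange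
  · exact autPreserves_all930 hLC hSC (adelicAut930 σ.toRingEquiv) 𝔑
      (map_level_stable930 σ 𝔫) μ' hF'.haar r' hr'

/-- **T7.M0: the data of the comparison exist.** -/
theorem exists_compData930 (ℓ : ℕ) (h : IsCycExt K K' ℓ) (𝔫 : Ideal (𝓞 K)) (h𝔫 : 𝔫 ≠ ⊥) :
    ∃ D : CompData K K', IsCompData D ∧ D.l = ℓ ∧ D.𝔫 = 𝔫 ∧
      ∀ x : K, D.s.σ (algebraMap K K' x) = algebraMap K K' x := by
  obtain ⟨σ, D, hD, hl, hn, hs, -⟩ := exists_compData_gen930 K K' ℓ h 𝔫 h𝔫
  refine ⟨D, hD, hl, hn, ?_⟩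
  intro x
  rw [hs]
  exact σ.commutes x

end Data

end Fermat.Agent.LT.T7.H930

end
end
-- ===== PACK-END LT/T7/H930/CompDataExists.lean

-- ===== PACK-BEGIN LT/T7/H930/RsigL2.lean
section





/-!
# Row LT, asset T7.M2 (helper930): `R(σ)` in the vocabulary of LEVEL 2

OFF-MAIN.  Vocabulary: `T7/Level2.lean` (sha256 1551664660339642) and `T7/Level2S.lean`
(sha256 01962048e7c51d57) of helper797, `T5/Spec.lean` v4, A0; byte-identical copies.  Uses the
closed tower T1 (helper54) and my assets T1.AUT, RSIG, T7.M0, T7.M1.  UNCONDITIONAL.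
For the owners of `SpecUpSC` (helper736 and the leaves of that node).

## One field (`s : T5.AdelicAut K`, every `s`)

* `Rsig_cosetOp930`, `Rsig_iwOp930`, `Rsig_shiftOp930`, `Rsig_iwOp_iterate930`, **`Rsig_word930`**:
  `R(σ) [Hg] Z_z^k 𝒰_w^m = [σ Hg] Z_{σ z}^k 𝒰_{σ w}^m R(σ)`;
* `inIwahori_glAdeleEquiv930`, `inIwahori_onG930`, `inIwahoriCoset_onG930`,
  `isIwCosetSystem_onG930`, `isDblCosetSystem_onG930` : the Iwahori subgroups / cosets and the
  systems of representatives are moved by `σ`;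
* `orbit_periodic930`, `orbit_img930`, `orbit_pull930` : an orbit `o` with
  `PlaceRel s (o j) (o (j+1))` is `l`-periodic if `σ^l = 1`, and `{o j : j < l}` is stable
  under `σ` and `σ⁻¹`;
* `isIwInv_Rsig930`, **`isWFn_Rsig930`**, **`isEigFn_Rsig930`** : `R(σ)` preserves `IsIwInv`,
  `IsWFn` (level preserved by `σ`), and maps `IsEigFn … ψ C` to
  `IsEigFn … (R(σ) ψ) (eigMove930 s C)`, `eigMove930 s C = C ∘ σ⁻¹`;
* `eigMove_iterate_eq930` : `(eigMove930 s)^[l] C = C` if `σ^l = 1`;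
  `wordEv_eigMove930` : `X(C ∘ σ⁻¹) = (σ⁻¹ X)(C)` (`genMove930`), `genMove_out930`.

## The data of level 2 (`IsL2Data ℓ Φ Dt`, `Dt.IsStable`)

* `l2_cyc930`, `l2_fixes930` : `σ` is cyclic of degree `ℓ` and fixes `K`;
* `l2_base_stable930` : `𝔑₀.map σ = 𝔑₀`; **`l2_baseAut930`** :
  `T5.AutPreserves Dt.s Dt.𝔑₀ Dt.R'.μ Dt.R'.r` (= `BaseStable` of helper736);
* **`l2_isWFn_Rsig930`**, **`l2_isEigFn_Rsig930`**, `l2_innerD_Rsig930` : `R(σ)` is a unitary
  operator of the space of the invariant cusp functions of the base level, moving the eigen-data;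
* `l2_mem_S'_pull930`, `l2_isBad_onG930`, `l2_isDblCosetSystem_onG930`, `l2_systems_onG930`,
  `l2_Rsig_word930` : `S'`, the bad elements and the systems are `σ`-stable; the conjugation
  formula at the base level (the Iwahori operator moves from `o 0` to `o 1`);
* **`l2_agreeOut_move930`** (+ converse) : the class of `Φ` is `σ`-stable
  (`C.AgreeOut S' (eigOf Φ) ↔ (C ∘ σ⁻¹).AgreeOut S' (eigOf Φ)`), from `IsL2Data.const`;
* **`l2_op_up_Rsig930`**, **`l2_diagCoeff930`** : for an eigenfunction `ψ` of the base level with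
  eigen-data `C`:
  `⟨R(φ' g X k m) R(σ) ψ, ψ⟩ = X(σC) · c_g(σC) · ⟨[U g U] Z^k 𝒰^m R(σ) ψ, ψ⟩`.
-/

set_option autoImplicit false

open AutomorphicForm IsDedekindDomain NumberField MeasureTheory
open scoped MatrixGroups ComplexConjugate

noncomputable section

namespace Fermat.Agent.LT.T7.H930

open Fermat.Agent.LT.H556 Fermat.Agent.LT.H556.A0 Fermat.Agent.LT.T1.H930
open Fermat.Agent.LT.T7

section TwoFields

variable {K L : Type} [Field K] [NumberField K] [Field L] [NumberField L]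

/-- Transport of the Iwahori condition. -/
theorem inIwahori_glAdeleEquiv930 (e : K ≃+* L) (w : HeightOneSpectrum (𝓞 L)) (g : G K) :
    T5.InIwahori w (glAdeleEquiv930 e g) ↔ T5.InIwahori (finPull930 e w) g := by
  show (IsIntegralAt w (glAdeleEquiv930 e g) ∧ IsIntegralAt w (glAdeleEquiv930 e g)⁻¹ ∧
      Valued.v (finComp w (glAdeleEquiv930 e g) 1 0) < 1) ↔
    (IsIntegralAt (finPull930 e w) g ∧ IsIntegralAt (finPull930 e w) g⁻¹ ∧
      Valued.v (finComp (finPull930 e w) g 1 0) < 1)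
  rw [← map_inv, isIntegralAt_glAdeleEquiv930, isIntegralAt_glAdeleEquiv930,
    finComp_glAdeleEquiv930]
  have h : Valued.v (((finComp (finPull930 e w) g).map (finMapEquiv930 e w)) 1 0)
      = Valued.v (finComp (finPull930 e w) g 1 0) :=
    valued_finMapEquiv930 e w _
  rw [h]

/-- Transport of the Iwahori double cosets. -/
theorem inIwahoriCoset_glAdeleEquiv930_of (e : K ≃+* L) (w : HeightOneSpectrum (𝓞 L)) (m : ℕ)
    (g : G K) (h : T5.InIwahoriCoset (finPull930 e w) m g) :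
    T5.InIwahoriCoset w m (glAdeleEquiv930 e g) := by
  obtain ⟨k₁, k₂, t, c, hk₁, hk₂, hc, ht, hg⟩ := h
  refine ⟨glAdeleEquiv930 e k₁, glAdeleEquiv930 e k₂, glAdeleEquiv930 e t,
    finMapEquiv930 e w c, (inIwahori_glAdeleEquiv930 e w k₁).2 hk₁,
    (inIwahori_glAdeleEquiv930 e w k₂).2 hk₂, ?_, ?_, ?_⟩
  · rw [valued_finMapEquiv930]
    exact hc
  · rw [finComp_glAdeleEquiv930, ht]
    ext i j
    fin_cases i <;> fin_cases j <;> simp [Matrix.map_apply]
  · rw [← map_mul, ← map_mul, finComp_glAdeleEquiv930, finComp_glAdeleEquiv930, hg]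

end TwoFields

/-! ## 2. One field: `R(σ)` and the operators of level 2 -/

section OneField

open Fermat.Agent.LT.T5

variable {K : Type} [Field K] [NumberField K]

/-- The image of a finite set of elements under `σ`. -/
abbrev imgSet930 (s : AdelicAut K) (H : Finset (G K)) : Finset (G K) :=
  H.map (onGHomeo930 s).toEquiv.toEmbedding

theorem mem_imgSet930 (s : AdelicAut K) (H : Finset (G K)) (x : G K) :
    x ∈ imgSet930 s H ↔ ∃ h ∈ H, s.onG h = x := by
  show x ∈ H.map (onGHomeo930 s).toEquiv.toEmbedding ↔ _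
  rw [Finset.mem_map]
  rfl

/-- `R(σ) [H] = [σ H] R(σ)`. -/
theorem Rsig_cosetOp930 (s : AdelicAut K) (H : Finset (G K)) (ψ : G K → ℂ) :
    Rsig s (cosetOp H ψ) = cosetOp (imgSet930 s H) (Rsig s ψ) :=
  Rsig_heckeSum930 s H ψ

/-- `R(σ) 𝒰_w = 𝒰_{σ w} R(σ)`. -/
theorem Rsig_iwOp930 (s : AdelicAut K) (w : HeightOneSpectrum (𝓞 K)) (H : Finset (G K))
    (ψ : G K → ℂ) :
    Rsig s (iwOp w H ψ) = iwOp (finImg930 s w) (imgSet930 s H) (Rsig s ψ) := by
  funext g
  show ((Real.sqrt (Ideal.absNorm w.asIdeal : ℝ) : ℝ) : ℂ)⁻¹ * ∑ h ∈ H, ψ (s.onGinv g * h)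
    = ((Real.sqrt (Ideal.absNorm (finImg930 s w).asIdeal : ℝ) : ℝ) : ℂ)⁻¹
        * ∑ h ∈ imgSet930 s H, ψ (s.onGinv (g * h))
  rw [absNorm_finPull930, Finset.sum_map]
  refine congrArg _ (Finset.sum_congr rfl fun h _ => ?_)
  show ψ (s.onGinv g * h) = ψ (s.onGinv (g * s.onG h))
  rw [map_mul, onGinv_onG930]

/-- `R(σ) Z_z^k = Z_{σ z}^k R(σ)`. -/
theorem Rsig_shiftOp930 (s : AdelicAut K) (z : G K) (k : ℤ) (ψ : G K → ℂ) :
    Rsig s (shiftOp z k ψ) = shiftOp (s.onG z) k (Rsig s ψ) := by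
  funext g
  show ψ (s.onGinv g * z ^ k) = ψ (s.onGinv (g * s.onG z ^ k))
  rw [map_mul, map_zpow, onGinv_onG930]

/-- Iterates of the Iwahori operator. -/
theorem Rsig_iwOp_iterate930 (s : AdelicAut K) (w : HeightOneSpectrum (𝓞 K)) (H : Finset (G K))
    (m : ℕ) (ψ : G K → ℂ) :
    Rsig s ((iwOp w H)^[m] ψ) = (iwOp (finImg930 s w) (imgSet930 s H))^[m] (Rsig s ψ) := by
  induction m generalizing ψ with
  | zero => rfl
  | succ m ih =>
    rw [Function.iterate_succ_apply, Function.iterate_succ_apply, ih, Rsig_iwOp930]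

/-- **The conjugation formula**: `R(σ) [Hg] Z^k 𝒰^m = [σ Hg] Z_σ^k 𝒰_σ^m R(σ)`. -/
theorem Rsig_word930 (s : AdelicAut K) (w : HeightOneSpectrum (𝓞 K)) (Hg H : Finset (G K))
    (z : G K) (k : ℤ) (m : ℕ) (ψ : G K → ℂ) :
    Rsig s (cosetOp Hg (shiftOp z k ((iwOp w H)^[m] ψ)))
      = cosetOp (imgSet930 s Hg) (shiftOp (s.onG z) k
          ((iwOp (finImg930 s w) (imgSet930 s H))^[m] (Rsig s ψ))) := by
  rw [Rsig_cosetOp930, Rsig_shiftOp930, Rsig_iwOp_iterate930]

theorem inIwahori_onG930 (s : AdelicAut K) (w : HeightOneSpectrum (𝓞 K)) (g : G K) :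
    InIwahori (finImg930 s w) (s.onG g) ↔ InIwahori w g := by
  rw [onG_eq_glAdeleEquiv930, inIwahori_glAdeleEquiv930]
  have h2 : finPull930 s.σ (finImg930 s w) = w := finPull930_symm s.σ w
  rw [h2]

theorem inIwahori_onGinv930 (s : AdelicAut K) (w : HeightOneSpectrum (𝓞 K)) (g : G K) :
    InIwahori w (s.onGinv g) ↔ InIwahori (finImg930 s w) g := by
  rw [onGinv_eq_glAdeleEquiv930, inIwahori_glAdeleEquiv930]

theorem inIwahoriCoset_onG930 (s : AdelicAut K) (w : HeightOneSpectrum (𝓞 K)) (m : ℕ) (g : G K)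
    (h : InIwahoriCoset w m g) : InIwahoriCoset (finImg930 s w) m (s.onG g) := by
  rw [onG_eq_glAdeleEquiv930]
  refine inIwahoriCoset_glAdeleEquiv930_of s.σ (finImg930 s w) m g ?_
  have h2 : finPull930 s.σ (finImg930 s w) = w := finPull930_symm s.σ w
  rw [h2]
  exact h

theorem isLocalAtFin_onG930 (s : AdelicAut K) (w : HeightOneSpectrum (𝓞 K)) (g : G K) :
    IsLocalAtFin (finImg930 s w) (s.onG g) ↔ IsLocalAtFin w g := by
  rw [onG_eq_glAdeleEquiv930, isLocalAtFin_glAdeleEquiv930]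
  have h2 : finPull930 s.σ (finImg930 s w) = w := finPull930_symm s.σ w
  rw [h2]

theorem trivAtFin_onGinv930 (s : AdelicAut K) (v : HeightOneSpectrum (𝓞 K)) (g : G K) :
    TrivAtFin v (s.onGinv g) ↔ TrivAtFin (finImg930 s v) g := by
  rw [onGinv_eq_glAdeleEquiv930, trivAtFin_glAdeleEquiv930]

theorem trivAtInf_onGinv930 (s : AdelicAut K) (w : InfinitePlace K) (g : G K) :
    TrivAtInf w (s.onGinv g) ↔ TrivAtInf (infImg930 s w) g := by
  rw [onGinv_eq_glAdeleEquiv930, trivAtInf_glAdeleEquiv930]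

theorem trivAtFin_onG930 (s : AdelicAut K) (v : HeightOneSpectrum (𝓞 K)) (g : G K) :
    TrivAtFin v (s.onG g) ↔ TrivAtFin (finPull930 s.σ v) g := by
  rw [onG_eq_glAdeleEquiv930, trivAtFin_glAdeleEquiv930]

theorem trivAtInf_onG930 (s : AdelicAut K) (w : InfinitePlace K) (g : G K) :
    TrivAtInf w (s.onG g) ↔ TrivAtInf (infPull930 s.σ w) g := by
  rw [onG_eq_glAdeleEquiv930, trivAtInf_glAdeleEquiv930]

/-- The image of an Iwahori coset system at `w` is an Iwahori coset system at `σ(w)`. -/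
theorem isIwCosetSystem_onG930 (s : AdelicAut K) (w : HeightOneSpectrum (𝓞 K))
    (H : Finset (G K)) (hH : IsIwCosetSystem w H) :
    IsIwCosetSystem (finImg930 s w) (imgSet930 s H) := by
  obtain ⟨hcard, hmem, hne⟩ := hH
  refine ⟨?_, ?_, ?_⟩
  · rw [Finset.card_map, absNorm_finPull930]
    exact hcard
  · intro x hx
    obtain ⟨h, hh, rfl⟩ := (mem_imgSet930 s H x).1 hx
    exact ⟨(isLocalAtFin_onG930 s w h).2 (hmem h hh).1, inIwahoriCoset_onG930 s w 1 h (hmem h hh).2⟩
  · intro x hx x' hx' hxx'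
    obtain ⟨h, hh, rfl⟩ := (mem_imgSet930 s H x).1 hx
    obtain ⟨h', hh', rfl⟩ := (mem_imgSet930 s H x').1 hx'
    have hne' : h ≠ h' := fun e => hxx' (by rw [e])
    rw [← map_inv, ← map_mul, inIwahori_onG930]
    exact hne h hh h' hh' hne'

/-- The image of a system of representatives of `U g U / U` is one of `U σ(g) U / U`, for a
level group preserved by `σ`. -/
theorem isDblCosetSystem_onG930 (s : AdelicAut K) {𝔫 : Ideal (𝓞 K)}
    (hL : ∀ u : G K, InLevelGroup 𝔫 u ↔ InLevelGroup 𝔫 (s.onG u)) (g : G K) (H : Finset (G K))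
    (hH : IsDblCosetSystem 𝔫 g H) : IsDblCosetSystem 𝔫 (s.onG g) (imgSet930 s H) := by
  obtain ⟨hmem, hne, hcov⟩ := hH
  refine ⟨?_, ?_, ?_⟩
  · intro x hx
    obtain ⟨h, hh, rfl⟩ := (mem_imgSet930 s H x).1 hx
    obtain ⟨u₁, u₂, hu₁, hu₂, rfl⟩ := hmem h hh
    exact ⟨s.onG u₁, s.onG u₂, (hL u₁).1 hu₁, (hL u₂).1 hu₂, by rw [map_mul, map_mul]⟩
  · intro x hx x' hx' hxx'
    obtain ⟨h, hh, rfl⟩ := (mem_imgSet930 s H x).1 hx
    obtain ⟨h', hh', rfl⟩ := (mem_imgSet930 s H x').1 hx'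
    have hne' : h ≠ h' := fun e => hxx' (by rw [e])
    rw [← map_inv, ← map_mul, ← hL]
    exact hne h hh h' hh' hne'
  · intro u hu
    have hu' : InLevelGroup 𝔫 (s.onGinv u) := by
      rw [hL, onG_onGinv930]
      exact hu
    obtain ⟨h, hh, hin⟩ := hcov _ hu'
    refine ⟨s.onG h, (mem_imgSet930 s H _).2 ⟨h, hh, rfl⟩, ?_⟩
    have e1 : (s.onG h)⁻¹ * (u * s.onG g) = s.onG (h⁻¹ * (s.onGinv u * g)) := by
      rw [map_mul, map_mul, map_inv, onG_onGinv930]
    rw [e1, ← hL]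
    exact hin

/-! ## 3. Orbits of places -/

/-- The ideal of `o (j + n)` is the image of the ideal of `o j` under `σ^n`. -/
theorem orbit_asIdeal930 (s : AdelicAut K) (o : ℕ → HeightOneSpectrum (𝓞 K))
    (ho : ∀ j : ℕ, PlaceRel s (o j) (o (j + 1))) (j n : ℕ) :
    (o (j + n)).asIdeal
      = Ideal.map (RingOfIntegers.mapRingEquiv ((s.σ : RingAut K) ^ n) : 𝓞 K →+* 𝓞 K)
          (o j).asIdeal := by
  induction n with
  | zero =>
    have h1 : (RingOfIntegers.mapRingEquiv ((s.σ : RingAut K) ^ 0) : 𝓞 K →+* 𝓞 K)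
        = RingHom.id (𝓞 K) := by
      ext x
      rfl
    rw [h1, Ideal.map_id]
    rfl
  | succ n ih =>
    have h1 : (o (j + (n + 1))).asIdeal
        = Ideal.map (RingOfIntegers.mapRingEquiv s.σ : 𝓞 K →+* 𝓞 K) (o (j + n)).asIdeal :=
      ho (j + n)
    rw [h1, ih, Ideal.map_map]
    congr 1
    ext x
    show (s.σ ((((s.σ : RingAut K) ^ n) (x : K)) : K) : K) = (((s.σ : RingAut K) ^ (n + 1)) (x : K) : K)
    rw [pow_succ']
    rfl

/-- The orbit is periodic: `o (j + l) = o j` if `σ^l = 1`. -/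
theorem orbit_periodic930 (s : AdelicAut K) (o : ℕ → HeightOneSpectrum (𝓞 K))
    (ho : ∀ j : ℕ, PlaceRel s (o j) (o (j + 1))) (l : ℕ) (hl : ∀ x : K, (s.σ ^ l) x = x)
    (j : ℕ) : o (j + l) = o j := by
  apply HeightOneSpectrum.ext
  rw [orbit_asIdeal930 s o ho j l]
  have h1 : (RingOfIntegers.mapRingEquiv ((s.σ : RingAut K) ^ l) : 𝓞 K →+* 𝓞 K)
      = RingHom.id (𝓞 K) := by
    ext x
    exact hl x
  rw [h1, Ideal.map_id]

theorem orbit_succ930 (s : AdelicAut K) (o : ℕ → HeightOneSpectrum (𝓞 K))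
    (ho : ∀ j : ℕ, PlaceRel s (o j) (o (j + 1))) (j : ℕ) : finImg930 s (o j) = o (j + 1) :=
  ((placeRel_iff930 s _ _).1 (ho j)).symm

theorem orbit_pred930 (s : AdelicAut K) (o : ℕ → HeightOneSpectrum (𝓞 K))
    (ho : ∀ j : ℕ, PlaceRel s (o j) (o (j + 1))) (j : ℕ) : finPull930 s.σ (o (j + 1)) = o j := by
  rw [← orbit_succ930 s o ho j]
  exact finPull930_symm s.σ (o j)

/-- `σ` maps the orbit `o 0, …, o (l-1)` into itself. -/
theorem orbit_img930 (s : AdelicAut K) (o : ℕ → HeightOneSpectrum (𝓞 K))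
    (ho : ∀ j : ℕ, PlaceRel s (o j) (o (j + 1))) (l : ℕ) (hl : ∀ x : K, (s.σ ^ l) x = x)
    (j : ℕ) (hj : j < l) : ∃ j' < l, finImg930 s (o j) = o j' := by
  rcases Nat.lt_or_ge (j + 1) l with h | h
  · exact ⟨j + 1, h, orbit_succ930 s o ho j⟩
  · have e : j + 1 = l := le_antisymm hj h
    refine ⟨0, lt_of_le_of_lt (Nat.zero_le j) hj, ?_⟩
    rw [orbit_succ930 s o ho j, e]
    have := orbit_periodic930 s o ho l hl 0
    rw [zero_add] at this
    exact this

/-- `σ⁻¹` maps the orbit `o 0, …, o (l-1)` into itself. -/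
theorem orbit_pull930 (s : AdelicAut K) (o : ℕ → HeightOneSpectrum (𝓞 K))
    (ho : ∀ j : ℕ, PlaceRel s (o j) (o (j + 1))) (l : ℕ) (hl : ∀ x : K, (s.σ ^ l) x = x)
    (j : ℕ) (hj : j < l) : ∃ j' < l, finPull930 s.σ (o j) = o j' := by
  rcases Nat.eq_zero_or_pos j with h | h
  · subst h
    obtain ⟨m, rfl⟩ : ∃ m, l = m + 1 := ⟨l - 1, by omega⟩
    refine ⟨m, Nat.lt_succ_self m, ?_⟩
    have h1 := orbit_periodic930 s o ho (m + 1) hl 0
    rw [zero_add] at h1
    rw [← h1]
    exact orbit_pred930 s o ho m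
  · obtain ⟨m, rfl⟩ : ∃ m, j = m + 1 := ⟨j - 1, by omega⟩
    exact ⟨m, by omega, orbit_pred930 s o ho m⟩

/-! ## 4. `R(σ)` preserves the invariant cusp functions -/

attribute [local instance] Fermat.Agent.LT.T5.instMeasurableSpaceG

/-- `R(σ)` preserves the Iwahori invariance along a `σ`-stable set of places. -/
theorem isIwInv_Rsig930 (s : AdelicAut K) (l : ℕ) (o : ℕ → HeightOneSpectrum (𝓞 K))
    (h₁ : ∀ j < l, ∃ j' < l, finImg930 s (o j) = o j')
    (h₂ : ∀ j < l, ∃ j' < l, finPull930 s.σ (o j) = o j') {ψ : G K → ℂ}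
    (h : IsIwInv l o ψ) : IsIwInv l o (Rsig s ψ) := by
  intro x hinf hfin hiw g
  show ψ (s.onGinv (g * x)) = ψ (s.onGinv g)
  rw [map_mul]
  refine h (s.onGinv x) ?_ ?_ ?_ _
  · intro w
    rw [trivAtInf_onGinv930]
    exact hinf _
  · intro v hv
    rw [trivAtFin_onGinv930]
    refine hfin _ ?_
    intro j hj e
    obtain ⟨j', hj', e'⟩ := h₂ j hj
    refine hv j' hj' ?_
    rw [← e', ← e]
    exact (finPull930_symm s.σ v).symm
  · intro j hj
    rw [inIwahori_onGinv930]
    obtain ⟨j', hj', e'⟩ := h₁ j hj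
    rw [e']
    exact hiw j' hj'

theorem isArchPosScalar_onGinv930 (s : AdelicAut K) (w : InfinitePlace K) (z : G K)
    (hz : IsArchPosScalar w z) : IsArchPosScalar (infPull930 s.σ w) (s.onGinv z) := by
  rw [onGinv_eq_glAdeleEquiv930, isArchPosScalar_glAdeleEquiv930]
  have h2 : infPull930 s.σ.symm (infPull930 s.σ w) = w := infPull930_symm s.σ.symm w
  rw [h2]
  exact hz

/-- **`R(σ)` preserves the invariant cusp functions** of a level preserved by `σ`, along a
`σ`-stable set of places. -/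
theorem isWFn_Rsig930 {s : AdelicAut K} {𝔫 : Ideal (𝓞 K)} {μ : Measure (G K)} {r : G K}
    (hP : AutPreserves s 𝔫 μ r) (l : ℕ) (o : ℕ → HeightOneSpectrum (𝓞 K))
    (h₁ : ∀ j < l, ∃ j' < l, finImg930 s (o j) = o j')
    (h₂ : ∀ j < l, ∃ j' < l, finPull930 s.σ (o j) = o j') {ψ : G K → ℂ}
    (h : IsWFn 𝔫 r l o ψ) : IsWFn 𝔫 r l o (Rsig s ψ) where
  cusp := isCuspFn_Rsig930 hP (trivType_invariant930 s) h.cusp
  arch_scalar := by
    intro w z hz g
    show ψ (s.onGinv (g * z)) = ψ (s.onGinv g)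
    rw [map_mul]
    exact h.arch_scalar _ _ (isArchPosScalar_onGinv930 s w z hz) _
  iw := isIwInv_Rsig930 s l o h₁ h₂ h.iw

/-- The eigen-data moved by `σ`. -/
def eigMove930 (s : AdelicAut K) (C : EigData K) : EigData K :=
  ⟨fun v => C.a (finPull930 s.σ v), fun v => C.b (finPull930 s.σ v),
    fun w => C.m (infPull930 s.σ w)⟩

theorem meanEig_iff930 (ψ : G K → ℂ) (w : InfinitePlace K) (m : ℝ → ℂ) :
    MeanEig ψ w m ↔ T2.MeanEigC ψ w m := Iff.rfl

/-- **`R(σ)` maps the eigenfunctions with eigen-data `C` to the eigenfunctions with eigen-data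
`C ∘ σ⁻¹`.** -/
theorem isEigFn_Rsig930 {s : AdelicAut K} {𝔫 : Ideal (𝓞 K)} {μ : Measure (G K)} {r : G K}
    (h𝔫 : 𝔫.map (RingOfIntegers.mapRingEquiv s.σ) = 𝔫)
    (hP : AutPreserves s 𝔫 μ r) (l : ℕ) (o : ℕ → HeightOneSpectrum (𝓞 K))
    (h₁ : ∀ j < l, ∃ j' < l, finImg930 s (o j) = o j')
    (h₂ : ∀ j < l, ∃ j' < l, finPull930 s.σ (o j) = o j') {ψ : G K → ℂ} {C : EigData K}
    (h : IsEigFn 𝔫 r l o ψ C) : IsEigFn 𝔫 r l o (Rsig s ψ) (eigMove930 s C) where
  inv := isWFn_Rsig930 hP l o h₁ h₂ h.inv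
  hecke v hv :=
    (isHeckeEigenAt_Rsig930 s (placeRel_finPull_self930 s v) ψ _ _).2
      (h.hecke _ (fun hd => hv ((dvd_finPull930_iff s h𝔫 v).1 hd)))
  mean w := by
    have hinv : ∀ k : G K, IsArchCompact (infPull930 s.σ w) k → ∀ g : G K, ψ (g * k) = ψ g := by
      intro k hk g
      have := h.inv.cusp.aut.arch_compact _ k hk g
      rw [this]
      exact one_mul _
    have h1 := (meanEigC_Rsig930 s (infPull930 s.σ w) ψ hinv (C.m (infPull930 s.σ w))).2
      ((meanEig_iff930 _ _ _).1 (h.mean (infPull930 s.σ w)))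
    rw [infImg930_pull] at h1
    exact (meanEig_iff930 _ _ _).2 h1

/-! ## 4b. Finite order on the places and on the eigen-data -/

theorem finImg_iterate_eq930 (s : AdelicAut K) (l : ℕ) (hl : ∀ x : K, (s.σ ^ l) x = x)
    (w : HeightOneSpectrum (𝓞 K)) : (finImg930 s)^[l] w = w := by
  have ho : ∀ j : ℕ, PlaceRel s ((finImg930 s)^[j] w) ((finImg930 s)^[j + 1] w) := by
    intro j
    rw [Function.iterate_succ_apply']
    exact placeRel_finPull930 s _
  have h := orbit_periodic930 s (fun j => (finImg930 s)^[j] w) ho l hl 0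
  rw [zero_add] at h
  exact h

theorem finPull_iterate_eq930 (s : AdelicAut K) (l : ℕ) (hl : ∀ x : K, (s.σ ^ l) x = x)
    (w : HeightOneSpectrum (𝓞 K)) : (finPull930 s.σ)^[l] w = w := by
  have h1 : ∀ x : HeightOneSpectrum (𝓞 K), (finPull930 s.σ)^[l] ((finImg930 s)^[l] x) = x :=
    Function.LeftInverse.iterate (fun x => finPull930_symm s.σ x) l
  have h2 := h1 w
  rw [finImg_iterate_eq930 s l hl] at h2
  exact h2

theorem infPull_iterate930 (s : AdelicAut K) (n : ℕ) (w : InfinitePlace K) :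
    (infPull930 s.σ)^[n] w = infPull930 ((s.σ : RingAut K) ^ n) w := by
  induction n with
  | zero =>
    refine InfinitePlace.ext _ _ fun x => ?_
    rfl
  | succ n ih =>
    rw [Function.iterate_succ_apply', ih]
    refine InfinitePlace.ext _ _ fun x => ?_
    rw [infPull930_apply, infPull930_apply, infPull930_apply, pow_succ]
    rfl

theorem infPull_iterate_eq930 (s : AdelicAut K) (l : ℕ) (hl : ∀ x : K, (s.σ ^ l) x = x)
    (w : InfinitePlace K) : (infPull930 s.σ)^[l] w = w := by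
  rw [infPull_iterate930]
  refine InfinitePlace.ext _ _ fun x => ?_
  rw [infPull930_apply, hl]

theorem eigMove_iterate930 (s : AdelicAut K) (n : ℕ) (C : EigData K) :
    (eigMove930 s)^[n] C = ⟨fun v => C.a ((finPull930 s.σ)^[n] v),
      fun v => C.b ((finPull930 s.σ)^[n] v), fun w => C.m ((infPull930 s.σ)^[n] w)⟩ := by
  induction n generalizing C with
  | zero => rfl
  | succ n ih =>
    rw [Function.iterate_succ_apply, ih]
    show (⟨fun v => C.a (finPull930 s.σ ((finPull930 s.σ)^[n] v)),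
      fun v => C.b (finPull930 s.σ ((finPull930 s.σ)^[n] v)),
      fun w => C.m (infPull930 s.σ ((infPull930 s.σ)^[n] w))⟩ : EigData K) = _
    simp only [Function.iterate_succ_apply']

/-- **The action on the eigen-data has finite order.** -/
theorem eigMove_iterate_eq930 (s : AdelicAut K) (l : ℕ) (hl : ∀ x : K, (s.σ ^ l) x = x)
    (C : EigData K) : (eigMove930 s)^[l] C = C := by
  rw [eigMove_iterate930]
  simp only [finPull_iterate_eq930 s l hl, infPull_iterate_eq930 s l hl]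

/-- The generators moved by `σ⁻¹`. -/
def genMove930 (s : AdelicAut K) (x : Gen K) : Gen K :=
  Gen.rec (motive := fun _ => Gen K) (fun w => Gen.T (finPull930 s.σ w))
    (fun w => Gen.S (finPull930 s.σ w)) (fun w => Gen.Sinv (finPull930 s.σ w))
    (fun w d => Gen.M (infPull930 s.σ w) d) x

theorem genMove_ev930 (s : AdelicAut K) (x : Gen K) (C : EigData K) :
    (genMove930 s x).ev C = x.ev (eigMove930 s C) := by
  cases x <;> rfl

/-- `X(C ∘ σ⁻¹) = (σ⁻¹ X)(C)`. -/
theorem wordEv_eigMove930 (s : AdelicAut K) (X : List (Gen K)) (C : EigData K) :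
    wordEv X (eigMove930 s C) = wordEv (X.map (genMove930 s)) C := by
  show (X.map fun g => g.ev (eigMove930 s C)).prod
    = ((X.map (genMove930 s)).map fun g => g.ev C).prod
  rw [List.map_map]
  congr 1
  refine List.map_congr_left fun x _ => ?_
  exact (genMove_ev930 s x C).symm

theorem genMove_out930 (s : AdelicAut K) (S : Finset (HeightOneSpectrum (𝓞 K)))
    (hS : ∀ w : HeightOneSpectrum (𝓞 K), finPull930 s.σ w ∈ S ↔ w ∈ S) (x : Gen K) :
    (genMove930 s x).Out S ↔ x.Out S := by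
  cases x with
  | T w => exact not_congr (hS w)
  | S w => exact not_congr (hS w)
  | Sinv w => exact not_congr (hS w)
  | M w d => exact Iff.rfl

end OneField

/-! ## 5. The data of level 2 -/

section L2

open Fermat.Agent.LT.T5

attribute [local instance] Fermat.Agent.LT.T5.instMeasurableSpaceG

variable {K K' : Type} [Field K] [NumberField K] [Field K'] [NumberField K'] [Algebra K K']

omit [NumberField K] [NumberField K'] in
/-- The level `𝔫 𝒪_{K'}` is stable under every automorphism of `K'` which fixes `K`. -/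
theorem map_level_stable_of_fixes930 (σ : K' ≃+* K')
    (hσ : ∀ x : K, σ (algebraMap K K' x) = algebraMap K K' x) (𝔫 : Ideal (𝓞 K)) :
    (Ideal.map (algebraMap (𝓞 K) (𝓞 K')) 𝔫).map (RingOfIntegers.mapRingEquiv σ)
      = Ideal.map (algebraMap (𝓞 K) (𝓞 K')) 𝔫 := by
  have h : ((RingOfIntegers.mapRingEquiv σ : 𝓞 K' →+* 𝓞 K')).comp
      (algebraMap (𝓞 K) (𝓞 K')) = algebraMap (𝓞 K) (𝓞 K') := by
    ext x
    show (σ ((algebraMap (𝓞 K) (𝓞 K') x : 𝓞 K') : K') : K') = _
    have h1 : ((algebraMap (𝓞 K) (𝓞 K') x : 𝓞 K') : K') = algebraMap K K' (x : K) := rfl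
    rw [h1]
    exact hσ _
  have h2 := Ideal.map_map (I := 𝔫) (algebraMap (𝓞 K) (𝓞 K'))
    (RingOfIntegers.mapRingEquiv σ : 𝓞 K' →+* 𝓞 K')
  rw [h] at h2
  exact h2

theorem trivAtInf_one930 (w : InfinitePlace K) : TrivAtInf w (1 : G K) := by
  intro i j
  rw [Units.val_one]
  by_cases h : i = j
  · subst h
    rw [Matrix.one_apply_eq, Matrix.one_apply_eq]
    rfl
  · rw [Matrix.one_apply_ne h, Matrix.one_apply_ne h]
    rfl

theorem trivAtFin_one930 (v : HeightOneSpectrum (𝓞 K)) : TrivAtFin v (1 : G K) := by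
  show finComp v (1 : G K) = 1
  refine Matrix.ext fun i j => ?_
  show (((1 : G K) : Matrix (Fin 2) (Fin 2) (Adl K)) i j).2 v = _
  rw [Units.val_one]
  by_cases h : i = j
  · subst h
    rw [Matrix.one_apply_eq, Matrix.one_apply_eq]
    rfl
  · rw [Matrix.one_apply_ne h, Matrix.one_apply_ne h]
    rfl

omit [Algebra K K'] in
/-- The identity is supported at the bad places. -/
theorem isBad_one930 (Dt : L2Data K K') : Dt.IsBad 1 :=
  ⟨fun w => trivAtInf_one930 w, fun v _ => trivAtFin_one930 v⟩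

variable {ℓ : ℕ} {Φ : HeckeEigensystem K' ℂ} {Dt : L2Data K K'}

theorem l2_compData930 (h : IsL2Data ℓ Φ Dt) : IsCompData (Dt.comp 1) :=
  h.comp 1 (isBad_one930 Dt)

/-- `σ` is cyclic of degree `ℓ`. -/
theorem l2_cyc930 (h : IsL2Data ℓ Φ Dt) : IsCyclicOfDegree Dt.s ℓ Dt.k := by
  have h1 : IsCyclicOfDegree Dt.s Dt.l Dt.k := (l2_compData930 h).cyc
  rw [h.deg] at h1
  exact h1

/-- `σ` fixes the elements of `K`. -/
theorem l2_fixes930 (h : IsL2Data ℓ Φ Dt) (x : K) :
    Dt.s.σ (algebraMap K K' x) = algebraMap K K' x :=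
  ((l2_cyc930 h).fixed _).1 (((l2_compData930 h).base _).2 ⟨x, rfl⟩)

theorem l2_frame930 (h : IsL2Data ℓ Φ Dt) : IsFrame5 Dt.R' := (l2_compData930 h).frame'

/-- **The base level of stable data is `σ`-stable** (ideal form). -/
theorem l2_base_stable930 (h : IsL2Data ℓ Φ Dt) (hst : Dt.IsStable) :
    Dt.𝔑₀.map (RingOfIntegers.mapRingEquiv Dt.s.σ) = Dt.𝔑₀ := by
  obtain ⟨𝔫₀, -, e⟩ := hst
  rw [e]
  exact map_level_stable_of_fixes930 Dt.s.σ (l2_fixes930 h) 𝔫₀

/-- **`σ` preserves the frame at the base level** (`BaseStable` of helper736). -/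
theorem l2_baseAut930 (h : IsL2Data ℓ Φ Dt) (hst : Dt.IsStable) :
    AutPreserves Dt.s Dt.𝔑₀ Dt.R'.μ Dt.R'.r := by
  have hT := Fermat.Agent.LT.T1.t1Out K'
  exact autPreserves_all930 hT.locComp.2.1 hT.locComp.2.2.2 Dt.s Dt.𝔑₀
    (l2_base_stable930 h hst) Dt.R'.μ (l2_frame930 h).frame.haar Dt.R'.r (l2_frame930 h).ray

theorem l2_orbit_img930 (h : IsL2Data ℓ Φ Dt) (j : ℕ) (hj : j < ℓ) :
    ∃ j' < ℓ, finImg930 Dt.s (Dt.o j) = Dt.o j' :=
  orbit_img930 Dt.s Dt.o h.orbit_rel ℓ (l2_cyc930 h).pow_eq j hj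

theorem l2_orbit_pull930 (h : IsL2Data ℓ Φ Dt) (j : ℕ) (hj : j < ℓ) :
    ∃ j' < ℓ, finPull930 Dt.s.σ (Dt.o j) = Dt.o j' :=
  orbit_pull930 Dt.s Dt.o h.orbit_rel ℓ (l2_cyc930 h).pow_eq j hj

theorem l2_orbit_periodic930 (h : IsL2Data ℓ Φ Dt) (j : ℕ) : Dt.o (j + ℓ) = Dt.o j :=
  orbit_periodic930 Dt.s Dt.o h.orbit_rel ℓ (l2_cyc930 h).pow_eq j

/-- **`R(σ)` preserves the invariant cusp functions of the base level.** -/
theorem l2_isWFn_Rsig930 (h : IsL2Data ℓ Φ Dt) (hst : Dt.IsStable) {ψ : G K' → ℂ}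
    (hψ : IsWFn Dt.𝔑₀ Dt.R'.r ℓ Dt.o ψ) : IsWFn Dt.𝔑₀ Dt.R'.r ℓ Dt.o (Rsig Dt.s ψ) :=
  isWFn_Rsig930 (l2_baseAut930 h hst) ℓ Dt.o (l2_orbit_img930 h) (l2_orbit_pull930 h) hψ

/-- **`R(σ)` moves the eigen-data of the eigenfunctions of the base level.** -/
theorem l2_isEigFn_Rsig930 (h : IsL2Data ℓ Φ Dt) (hst : Dt.IsStable) {ψ : G K' → ℂ}
    {C : EigData K'} (hψ : IsEigFn Dt.𝔑₀ Dt.R'.r ℓ Dt.o ψ C) :
    IsEigFn Dt.𝔑₀ Dt.R'.r ℓ Dt.o (Rsig Dt.s ψ) (eigMove930 Dt.s C) :=
  isEigFn_Rsig930 (l2_base_stable930 h hst) (l2_baseAut930 h hst) ℓ Dt.o (l2_orbit_img930 h)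
    (l2_orbit_pull930 h) hψ

/-- **`R(σ)` is unitary on the invariant cusp functions of the base level.** -/
theorem l2_innerD_Rsig930 (h : IsL2Data ℓ Φ Dt) (hst : Dt.IsStable) {ψ χ : G K' → ℂ}
    (hψ : IsWFn Dt.𝔑₀ Dt.R'.r ℓ Dt.o ψ) (hχ : IsWFn Dt.𝔑₀ Dt.R'.r ℓ Dt.o χ) :
    innerD Dt.R'.μ Dt.R'.F (Rsig Dt.s ψ) (Rsig Dt.s χ) = innerD Dt.R'.μ Dt.R'.F ψ χ :=
  innerD_Rsig_cusp930 (l2_frame930 h).frame (l2_baseAut930 h hst) hψ.cusp hχ.cusp

/-- The set `S'` of stable data is `σ`-stable. -/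
theorem l2_mem_S'_pull930 (h : IsL2Data ℓ Φ Dt) (hst : Dt.IsStable)
    (w : HeightOneSpectrum (𝓞 K')) : finPull930 Dt.s.σ w ∈ Dt.S' ↔ w ∈ Dt.S' := by
  rw [h.mem_S', h.mem_S']
  exact dvd_finPull930_iff Dt.s (l2_base_stable930 h hst) w

theorem l2_mem_S'_img930 (h : IsL2Data ℓ Φ Dt) (hst : Dt.IsStable)
    (w : HeightOneSpectrum (𝓞 K')) : finImg930 Dt.s w ∈ Dt.S' ↔ w ∈ Dt.S' := by
  have h1 := l2_mem_S'_pull930 h hst (finImg930 Dt.s w)
  have h2 : finPull930 Dt.s.σ (finImg930 Dt.s w) = w := finPull930_symm Dt.s.σ w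
  rw [h2] at h1
  exact h1.symm

/-- **`σ` preserves the elements supported at the bad places.** -/
theorem l2_isBad_onG930 (h : IsL2Data ℓ Φ Dt) (hst : Dt.IsStable) {g : G K'}
    (hg : Dt.IsBad g) : Dt.IsBad (Dt.s.onG g) := by
  refine ⟨fun w => ?_, fun v hv => ?_⟩
  · rw [trivAtInf_onG930]
    exact hg.1 _
  · rw [trivAtFin_onG930]
    refine hg.2 _ ?_
    rcases hv with hv | ⟨j, hj, rfl⟩
    · exact Or.inl (fun hm => hv ((l2_mem_S'_pull930 h hst v).1 hm))
    · obtain ⟨j', hj', e⟩ := l2_orbit_pull930 h j (h.deg ▸ hj)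
      exact Or.inr ⟨j', h.deg.symm ▸ hj', e⟩

/-- The double coset operator of `σ(g)`. -/
theorem l2_isDblCosetSystem_onG930 (h : IsL2Data ℓ Φ Dt) (hst : Dt.IsStable) (g : G K')
    (H : Finset (G K')) (hH : IsDblCosetSystem Dt.𝔑₀ g H) :
    IsDblCosetSystem Dt.𝔑₀ (Dt.s.onG g) (imgSet930 Dt.s H) :=
  isDblCosetSystem_onG930 Dt.s (l2_baseAut930 h hst).level g H hH

/-! ## 6. The class of `Φ` is `σ`-stable -/

omit [NumberField K] [NumberField K'] in
/-- A place of `K'` and its image under an automorphism fixing `K` lie over the same place of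
`K`. -/
theorem placeOver_finPull930 (σ : K' ≃+* K')
    (hσ : ∀ x : K, σ (algebraMap K K' x) = algebraMap K K' x) (v : HeightOneSpectrum (𝓞 K))
    (w : HeightOneSpectrum (𝓞 K')) (h : PlaceOver K K' v w) :
    PlaceOver K K' v (finPull930 σ w) := by
  intro x y hxy
  have h1 : ((RingOfIntegers.mapRingEquiv σ y : 𝓞 K') : K') = algebraMap K K' (x : K) := by
    show σ (y : K') = _
    rw [hxy]
    exact hσ _
  rw [h x (RingOfIntegers.mapRingEquiv σ y) h1]
  rfl

omit [NumberField K] [NumberField K'] in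
/-- Every place of `K'` lies over a place of `K`. -/
theorem exists_placeUnder930 (w : HeightOneSpectrum (𝓞 K')) :
    ∃ v : HeightOneSpectrum (𝓞 K), PlaceOver K K' v w := by
  refine ⟨HeightOneSpectrum.under (𝓞 K) w, ?_⟩
  intro x y hxy
  have hy : y = algebraMap (𝓞 K) (𝓞 K') x := by
    apply NumberField.RingOfIntegers.ext
    rw [hxy]
    rfl
  rw [hy]
  rfl

/-- **The class of `Φ` is `σ`-stable**: if `C` agrees with `Φ` outside `S'`, so does `C ∘ σ⁻¹`. -/
theorem l2_agreeOut_move930 (h : IsL2Data ℓ Φ Dt) (hst : Dt.IsStable) {C : EigData K'}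
    (hC : C.AgreeOut Dt.S' (eigOf Φ)) : (eigMove930 Dt.s C).AgreeOut Dt.S' (eigOf Φ) := by
  refine ⟨fun w hw => ?_, fun w d hd => hC.2 _ d hd⟩
  have hw' : finPull930 Dt.s.σ w ∉ Dt.S' := fun hm => hw ((l2_mem_S'_pull930 h hst w).1 hm)
  obtain ⟨v, hv⟩ := exists_placeUnder930 (K := K) w
  have hc := h.const (finPull930 Dt.s.σ w) hw' w hw v
    (placeOver_finPull930 Dt.s.σ (l2_fixes930 h) v w hv) hv
  have h1 := hC.1 (finPull930 Dt.s.σ w) hw'
  exact ⟨h1.1.trans hc.1, h1.2.trans hc.2⟩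

/-- The converse: `C` agrees with `Φ` outside `S'` if `C ∘ σ⁻¹` does. -/
theorem l2_agreeOut_of_move930 (h : IsL2Data ℓ Φ Dt) (hst : Dt.IsStable) {C : EigData K'}
    (hC : (eigMove930 Dt.s C).AgreeOut Dt.S' (eigOf Φ)) : C.AgreeOut Dt.S' (eigOf Φ) := by
  refine ⟨fun w hw => ?_, fun w d hd => ?_⟩
  · have hw' : finImg930 Dt.s w ∉ Dt.S' := fun hm => hw ((l2_mem_S'_img930 h hst w).1 hm)
    obtain ⟨v, hv⟩ := exists_placeUnder930 (K := K) (finImg930 Dt.s w)
    have h2 : finPull930 Dt.s.σ (finImg930 Dt.s w) = w := finPull930_symm Dt.s.σ w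
    have hv' : PlaceOver K K' v w := by
      have := placeOver_finPull930 Dt.s.σ (l2_fixes930 h) v _ hv
      rw [h2] at this
      exact this
    have hc := h.const (finImg930 Dt.s w) hw' w hw v hv hv'
    have h1 := hC.1 (finImg930 Dt.s w) hw'
    have e1 : (eigMove930 Dt.s C).a (finImg930 Dt.s w) = C.a w := by
      show C.a (finPull930 Dt.s.σ (finImg930 Dt.s w)) = C.a w
      rw [h2]
    have e2 : (eigMove930 Dt.s C).b (finImg930 Dt.s w) = C.b w := by
      show C.b (finPull930 Dt.s.σ (finImg930 Dt.s w)) = C.b w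
      rw [h2]
    rw [e1, e2] at h1
    exact ⟨h1.1.trans hc.1, h1.2.trans hc.2⟩
  · have h1 := hC.2 (infImg930 Dt.s w) d hd
    have e1 : (eigMove930 Dt.s C).m (infImg930 Dt.s w) d = C.m w d := by
      show C.m (infPull930 Dt.s.σ (infImg930 Dt.s w)) d = C.m w d
      rw [infPull930_symm]
    rw [e1] at h1
    exact h1

/-! ## 7. The diagonal coefficients on the eigenfunctions of the base level -/

theorem l2_genMove_out930 (h : IsL2Data ℓ Φ Dt) (hst : Dt.IsStable) (x : Gen K') :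
    (genMove930 Dt.s x).Out Dt.S' ↔ x.Out Dt.S' :=
  genMove_out930 Dt.s Dt.S' (l2_mem_S'_pull930 h hst) x

/-- **(OP-up) after `R(σ)`**: on an eigenfunction `ψ` of the base level with eigen-data `C`,
`R(φ' g X k m) R(σ) ψ = X(σC) · c_g(σC) · [U g U] Z^k 𝒰^m R(σ) ψ`, `σC = C ∘ σ⁻¹`. -/
theorem l2_op_up_Rsig930 (h : IsL2Data ℓ Φ Dt) (hst : Dt.IsStable) (g : G K')
    (X : List (Gen K')) (k : ℤ) (m : ℕ) (hg : Dt.IsBad g) (hX : ∀ x ∈ X, x.Out Dt.S')
    {ψ : G K' → ℂ} {C : EigData K'} (hψ : IsEigFn Dt.𝔑₀ Dt.R'.r ℓ Dt.o ψ C)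
    (Hg H : Finset (G K')) (z : G K') (hHg : IsDblCosetSystem Dt.𝔑₀ g Hg)
    (hH : IsIwCosetSystem (Dt.o 0) H) (hz : IsScalarUniformizerAt (Dt.o 0) z) (x : G K') :
    Rconv Dt.R'.μ (Dt.φ' g X k m) (Rsig Dt.s ψ) x
      = wordEv X (eigMove930 Dt.s C) * Dt.c g (eigMove930 Dt.s C)
        * cosetOp Hg (shiftOp z k ((iwOp (Dt.o 0) H)^[m] (Rsig Dt.s ψ))) x :=
  h.op_up g X k m hg hX (Rsig Dt.s ψ) (eigMove930 Dt.s C) (l2_isEigFn_Rsig930 h hst hψ) Hg H z
    hHg hH hz x

/-- **The diagonal coefficient** of an eigenfunction `ψ` of the base level with eigen-data `C`: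
`⟨R(φ' g X k m) R(σ) ψ, ψ⟩ = X(σC) · c_g(σC) · ⟨[U g U] Z^k 𝒰^m R(σ) ψ, ψ⟩`. -/
theorem l2_diagCoeff930 (h : IsL2Data ℓ Φ Dt) (hst : Dt.IsStable) (g : G K')
    (X : List (Gen K')) (k : ℤ) (m : ℕ) (hg : Dt.IsBad g) (hX : ∀ x ∈ X, x.Out Dt.S')
    {ψ : G K' → ℂ} {C : EigData K'} (hψ : IsEigFn Dt.𝔑₀ Dt.R'.r ℓ Dt.o ψ C)
    (Hg H : Finset (G K')) (z : G K') (hHg : IsDblCosetSystem Dt.𝔑₀ g Hg)
    (hH : IsIwCosetSystem (Dt.o 0) H) (hz : IsScalarUniformizerAt (Dt.o 0) z) :
    diagCoeff Dt.s Dt.R'.μ Dt.R'.F (Dt.φ' g X k m) ψ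
      = wordEv X (eigMove930 Dt.s C) * Dt.c g (eigMove930 Dt.s C)
        * innerD Dt.R'.μ Dt.R'.F
            (cosetOp Hg (shiftOp z k ((iwOp (Dt.o 0) H)^[m] (Rsig Dt.s ψ)))) ψ := by
  show (∫ x in Dt.R'.F, Rconv Dt.R'.μ (Dt.φ' g X k m) (Rsig Dt.s ψ) x * conj (ψ x) ∂Dt.R'.μ)
    = wordEv X (eigMove930 Dt.s C) * Dt.c g (eigMove930 Dt.s C)
      * ∫ x in Dt.R'.F, cosetOp Hg (shiftOp z k ((iwOp (Dt.o 0) H)^[m] (Rsig Dt.s ψ))) x
          * conj (ψ x) ∂Dt.R'.μ
  rw [← MeasureTheory.integral_const_mul]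
  refine MeasureTheory.integral_congr_ae (Filter.Eventually.of_forall fun x => ?_)
  show Rconv Dt.R'.μ (Dt.φ' g X k m) (Rsig Dt.s ψ) x * conj (ψ x) = _
  rw [l2_op_up_Rsig930 h hst g X k m hg hX hψ Hg H z hHg hH hz x]
  ring

/-- **The conjugation formula at the base level**: `R(σ) [U g U] Z^k 𝒰_{o 0}^m
= [U σ(g) U] Z_σ^k 𝒰_{o 1}^m R(σ)`, the systems of representatives being moved by `σ`. -/
theorem l2_Rsig_word930 (h : IsL2Data ℓ Φ Dt) (Hg H : Finset (G K')) (z : G K') (k : ℤ)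
    (m : ℕ) (ψ : G K' → ℂ) :
    Rsig Dt.s (cosetOp Hg (shiftOp z k ((iwOp (Dt.o 0) H)^[m] ψ)))
      = cosetOp (imgSet930 Dt.s Hg) (shiftOp (Dt.s.onG z) k
          ((iwOp (Dt.o 1) (imgSet930 Dt.s H))^[m] (Rsig Dt.s ψ))) := by
  rw [Rsig_word930, orbit_succ930 Dt.s Dt.o h.orbit_rel 0]

/-- The moved systems are systems of the same kind, at `σ(g)` and at the place `o 1`. -/
theorem l2_systems_onG930 (h : IsL2Data ℓ Φ Dt) (hst : Dt.IsStable) {g : G K'}
    {Hg H : Finset (G K')} {z : G K'} (hHg : IsDblCosetSystem Dt.𝔑₀ g Hg)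
    (hH : IsIwCosetSystem (Dt.o 0) H) (hz : IsScalarUniformizerAt (Dt.o 0) z) :
    IsDblCosetSystem Dt.𝔑₀ (Dt.s.onG g) (imgSet930 Dt.s Hg) ∧
      IsIwCosetSystem (Dt.o 1) (imgSet930 Dt.s H) ∧
      IsScalarUniformizerAt (Dt.o 1) (Dt.s.onG z) := by
  have e := orbit_succ930 Dt.s Dt.o h.orbit_rel 0
  refine ⟨l2_isDblCosetSystem_onG930 h hst g Hg hHg, ?_, ?_⟩
  · have := isIwCosetSystem_onG930 Dt.s (Dt.o 0) H hH
    rw [e] at this
    exact this
  · have := isScalarUniformizerAt_onG930 Dt.s (Dt.o 0) z hz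
    rw [e] at this
    exact this

end L2

end Fermat.Agent.LT.T7.H930

end
end
-- ===== PACK-END LT/T7/H930/RsigL2.lean

-- ===== PACK-BEGIN LT/T7/H644/Setup.lean
section





/-!
# Row LT, tower T7, leaf T7.L2.1.C0 `SetupC` (owner helper644): the proved top

OFF-MAIN.  Spec: `T7/H893/SupplySpec.lean` (helper893, sha256 c18d8efa), byte-identical copy.

    setupC_of644 : MovedPlaceC644 → GalTransC644 → H893.SetupC K K'

The common part of the data of level 2: the generator `σ` of the Galois group with its adelic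
extension and the frames (adapters of helper930, helper62 on the closed tower T1), the place `u`
with its `σ`-orbit and the levels (`SetupNT.lean`, from the two Mathlib-only leaves of
`SetupSpec.lean`).
-/

set_option autoImplicit false

open IsDedekindDomain NumberField MeasureTheory

noncomputable section

namespace Fermat.Agent.LT.T7.H644

open Fermat.Agent.LT.H556 Fermat.Agent.LT.H556.A0 Fermat.Agent.LT.T7 Fermat.Agent.LT.T1.H930
  Fermat.Agent.LT.T7.H930

attribute [local instance] Fermat.Agent.LT.T5.instMeasurableSpaceG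

variable (K K' : Type) [Field K] [NumberField K] [Field K'] [NumberField K'] [Algebra K K']

/-- **T7.L2.1.C0 = SETUP, from the two number-theoretic leaves.** -/
theorem setupC_of644 (hM : MovedPlaceC644) (hT : GalTransC644) : H893.SetupC K K' := by
  intro ℓ h _ _ Φ _ hconst
  obtain ⟨σ, hσ1, hσℓ, hgen, hfix, hfaith⟩ := exists_generator644 (K := K) (K' := K') ℓ h
  obtain ⟨S₀, hS₀⟩ := hconst
  obtain ⟨𝔫₀, S', u, o, h𝔫₀0, hle, hmem, hS₀S', hrel, hne, hover, hlev, hgood, hu1, hu2, hall,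
    hfib⟩ := exists_setupNT644 hM hT ℓ h σ hσ1 hσℓ hgen Φ.level Φ.level_ne_bot S₀
  obtain ⟨μ, F, r, hF, hr, -⟩ :=
    Fermat.Agent.LT.T5.H62.frame_exists_of_T1Out62 K 𝔫₀ (Fermat.Agent.LT.T1.t1Out K)
  obtain ⟨μ', F', r', hF', hr', -⟩ :=
    Fermat.Agent.LT.T5.H62.frame_exists_of_T1Out62 K'
      (Ideal.map (algebraMap (𝓞 K) (𝓞 K')) 𝔫₀) (Fermat.Agent.LT.T1.t1Out K')
  have hLC : LocallyCompactSpace (G K') := (Fermat.Agent.LT.T1.t1Out K').locComp.2.1
  have hSC : SecondCountableTopology (G K') := (Fermat.Agent.LT.T1.t1Out K').locComp.2.2.2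
  refine ⟨⟨ℓ, adelicAut930 σ.toRingEquiv, (algebraMap K K').fieldRange, ⟨μ, F, r⟩, ⟨μ', F', r'⟩,
    Ideal.map (algebraMap (𝓞 K) (𝓞 K')) 𝔫₀, S', u, o⟩, ?_⟩
  refine
    { deg := rfl
      cyc := ⟨h.prime.pos, ?_, ?_, ?_⟩
      base := fun x => RingHom.mem_fieldRange
      frame := ⟨hF, hr⟩
      frame' := ⟨hF', hr'⟩
      aut := fun 𝔫 => autPreserves_all930 hLC hSC (adelicAut930 σ.toRingEquiv) _
        (map_level_stable930 σ 𝔫) μ' hF'.haar r' hr'
      level_le := hle
      mem_S' := hmem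
      const := fun w hw w' hw' v hv hv' =>
        hS₀ w (fun hw0 => hw (hS₀S' w hw0)) w' (fun hw0 => hw' (hS₀S' w' hw0)) v hv hv'
      orbit_rel := hrel
      orbit_ne := hne
      orbit_over := hover
      orbit_level := hlev
      orbit_good := hgood
      base_level := ⟨𝔫₀, h𝔫₀0, rfl, hu1, hu2⟩
      orbit_all := hall
      fibre := hfib }
  · intro x
    show ((σ.toRingEquiv : RingAut K') ^ ℓ) x = x
    rw [toRingEquiv_pow930, hσℓ]
    rfl
  · intro x
    show x ∈ (algebraMap K K').fieldRange ↔ σ x = x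
    rw [RingHom.mem_fieldRange]
    exact hfix x
  · intro j hj0 hjl
    obtain ⟨x, hx⟩ := hfaith j hj0 hjl
    refine ⟨x, ?_⟩
    show ((σ.toRingEquiv : RingAut K') ^ j) x ≠ x
    rw [toRingEquiv_pow930]
    exact hx

end Fermat.Agent.LT.T7.H644

end

end
-- ===== PACK-END LT/T7/H644/Setup.lean

-- ===== PACK-BEGIN LT/T7/H416/Setup.lean
section





/-!
# Row LT, tower T7, leaf T7.L2.1.C0 `SetupC` (SPARE proof, helper416)

OFF-MAIN.  `setupC416 K K' : T7.H893.SetupC K K'`, VERBATIM against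
`LT/T7/H893/SupplySpec.lean` (helper893@09abca2c2), UNCONDITIONAL.  No `sorry`, nothing assumed.

Construction.  `σ` = a generator of `Gal(K'/K)` (`exists_generator930`), `s = adelicAut930 σ`,
frames of helper62 on the closed tower T1, `aut` for every level coming from `K`
(`autPreserves_all930`, `map_level_stable930`).  `𝔪 = (Φ.level ∩ 𝒪_K) · ∏ (the places of `K` under
the exceptional set of `ConstOnFibres`)`; `w₀` = a prime of `K'` over a prime number
`p ∤ N(𝔪)` with `σ w₀ ≠ w₀` (`exists_prime_moved416`, elementary: no Chebotarev); `u = w₀ ∩ 𝒪_K`,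
`o j = σ^j w₀`, `𝔫₀ = u 𝔪`, `𝔑₀ = 𝔫₀ 𝒪_{K'}`, `S'` = the prime divisors of `𝔑₀`.  The orbit has `ℓ`
distinct places because the stabiliser of `w₀` is a proper subgroup of a group of prime order;
it is the set of all places over `u` by the transitivity of the Galois action (Mathlib).
-/

set_option autoImplicit false
set_option linter.style.haveILetI false
set_option linter.unusedSectionVars false

open IsDedekindDomain NumberField MeasureTheory AutomorphicForm
open scoped Pointwise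

noncomputable section

namespace Fermat.Agent.LT.T7.H416

open Fermat.Agent.LT.H556 Fermat.Agent.LT.H556.A0 Fermat.Agent.LT.T7 Fermat.Agent.LT.T7.H893
open Fermat.Agent.LT.T7.H930 Fermat.Agent.LT.T1.H930

attribute [local instance] Fermat.Agent.LT.T5.instMeasurableSpaceG

variable {K K' : Type} [Field K] [NumberField K] [Field K'] [NumberField K'] [Algebra K K']

/-- The Galois group permutes the places over a place of `K` transitively. -/
theorem exists_mapPlace_eq416 [IsGalois K K'] {v : HeightOneSpectrum (𝓞 K)}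
    {w w' : HeightOneSpectrum (𝓞 K')} (h : PlaceOver K K' v w) (h' : PlaceOver K K' v w') :
    ∃ τ : K' ≃ₐ[K] K', mapPlace416 τ w = w' := by
  haveI := liesOver_of_placeOver416 h
  haveI := liesOver_of_placeOver416 h'
  haveI : IsGaloisGroup (K' ≃ₐ[K] K') (𝓞 K) (𝓞 K') :=
    IsGaloisGroup.of_isFractionRing (K' ≃ₐ[K] K') (𝓞 K) (𝓞 K') K K'
  obtain ⟨τ, hτ⟩ := Ideal.exists_smul_eq_of_isGaloisGroup v.asIdeal w.asIdeal w'.asIdeal
    (K' ≃ₐ[K] K')
  refine ⟨τ, ?_⟩
  apply HeightOneSpectrum.ext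
  rw [← hτ]
  ext y
  rw [mem_mapPlace416, Ideal.mem_pointwise_smul_iff_inv_smul_mem]
  constructor
  · rintro ⟨x, hx, rfl⟩
    have : τ⁻¹ • (oEquiv416 τ x) = x := by
      apply Subtype.ext
      show τ⁻¹ (τ (x : K')) = x
      exact τ.symm_apply_apply _
    rw [this]
    exact hx
  · intro hy
    refine ⟨τ⁻¹ • y, hy, ?_⟩
    apply Subtype.ext
    show τ (τ⁻¹ (y : K')) = y
    exact τ.apply_symm_apply _

/-- In a group of prime order `ℓ` every element is `σ ^ j`, `j < ℓ`, for every `σ ≠ 1`. -/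
theorem exists_pow_eq416 {G : Type*} [Group G] {ℓ : ℕ} (hℓ : ℓ.Prime) (hcard : Nat.card G = ℓ)
    {σ : G} (hσ : σ ≠ 1) (τ : G) : ∃ j < ℓ, τ = σ ^ j := by
  haveI : Fact ℓ.Prime := ⟨hℓ⟩
  obtain ⟨n, hn⟩ := mem_powers_of_prime_card hcard hσ (g' := τ)
  have h1 : σ ^ ℓ = 1 := by rw [← hcard]; exact pow_card_eq_one'
  refine ⟨n % ℓ, Nat.mod_lt _ hℓ.pos, ?_⟩
  have h2 : σ ^ n = σ ^ (n % ℓ) := by
    conv_lhs => rw [← Nat.div_add_mod n ℓ]
    rw [pow_add, pow_mul, h1, one_pow, one_mul]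
  rw [← h2]
  exact hn.symm

/-- A place which is moved by `σ` is moved by `σ ^ j`, `0 < j < ℓ`. -/
theorem mapPlace_pow_ne416 {ℓ : ℕ} (hℓ : ℓ.Prime) (hcard : Nat.card (K' ≃ₐ[K] K') = ℓ)
    {σ : K' ≃ₐ[K] K'} {w : HeightOneSpectrum (𝓞 K')} (hw : mapPlace416 σ w ≠ w)
    {j : ℕ} (hj0 : 0 < j) (hjl : j < ℓ) : mapPlace416 (σ ^ j) w ≠ w := by
  haveI : Fact ℓ.Prime := ⟨hℓ⟩
  intro h
  have hσ1 : σ ≠ 1 := by
    rintro rfl
    exact hw (mapPlace_one416 w)
  have h1 : σ ^ ℓ = 1 := by rw [← hcard]; exact pow_card_eq_one'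
  have hord : orderOf σ = ℓ := orderOf_eq_prime h1 hσ1
  have hj1 : σ ^ j ≠ 1 := by
    intro h2
    have := orderOf_dvd_of_pow_eq_one h2
    rw [hord] at this
    exact absurd (Nat.le_of_dvd hj0 this) (not_le.mpr hjl)
  have hmem : σ ^ j ∈ MulAction.stabilizer (K' ≃ₐ[K] K') w := h
  have hσ : σ ∈ Subgroup.zpowers (σ ^ j) := mem_zpowers_of_prime_card hcard hj1
  have hle : Subgroup.zpowers (σ ^ j) ≤ MulAction.stabilizer (K' ≃ₐ[K] K') w :=
    (Subgroup.zpowers_le).mpr hmem
  exact hw (hle hσ)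

theorem one_mem_of_coprime416 {R : Type*} [CommRing R] (w : Ideal R) {p M : ℕ}
    (hcop : Nat.Coprime p M) (hp : (p : R) ∈ w) (hM : (M : R) ∈ w) : (1 : R) ∈ w := by
  have h6 := Nat.Coprime.gcd_eq_one hcop
  have h7 : ((Nat.gcd p M : ℤ) : R) = (p : R) * ((Nat.gcdA p M : ℤ) : R)
      + (M : R) * ((Nat.gcdB p M : ℤ) : R) := by
    rw [Nat.gcd_eq_gcd_ab]
    push_cast
    ring
  rw [h6] at h7
  have h8 : (1 : R) = (p : R) * ((Nat.gcdA p M : ℤ) : R)
      + (M : R) * ((Nat.gcdB p M : ℤ) : R) := by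
    rw [← h7]; simp
  rw [h8]
  exact w.add_mem (w.mul_mem_right _ hp) (w.mul_mem_right _ hM)

/-- The contraction of a non-zero ideal of `𝓞 K'` to `𝓞 K` is not zero. -/
theorem comap_ne_bot416 {I : Ideal (𝓞 K')} (hI : I ≠ ⊥) :
    Ideal.comap (algebraMap (𝓞 K) (𝓞 K')) I ≠ ⊥ := by
  intro h
  have h1 : ((Ideal.absNorm I : ℕ) : 𝓞 K') ∈ I := Ideal.absNorm_mem _
  have h2 : ((Ideal.absNorm I : ℕ) : 𝓞 K) ∈ Ideal.comap (algebraMap (𝓞 K) (𝓞 K')) I := by
    rw [Ideal.mem_comap, map_natCast]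
    exact h1
  rw [h, Ideal.mem_bot] at h2
  have h3 : Ideal.absNorm I = 0 := by exact_mod_cast h2
  rw [Ideal.absNorm_eq_zero_iff] at h3
  exact hI h3

/-- Some element of `𝓞 K'` is moved by an automorphism `σ ≠ 1`. -/
theorem exists_moved416 {σ : K' ≃ₐ[K] K'} (hσ : ∃ x : K', σ x ≠ x) :
    ∃ θ : 𝓞 K', oEquiv416 σ θ ≠ θ := by
  by_contra hcon
  push Not at hcon
  obtain ⟨x, hx⟩ := hσ
  apply hx
  obtain ⟨a, b, -, rfl⟩ := IsFractionRing.div_surjective (A := 𝓞 K') x
  have ha : σ (a : K') = a := congrArg (fun y : 𝓞 K' => (y : K')) (hcon a)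
  have hb : σ (b : K') = b := congrArg (fun y : 𝓞 K' => (y : K')) (hcon b)
  show σ ((a : K') / (b : K')) = (a : K') / (b : K')
  rw [map_div₀, ha, hb]

section Main

variable (K K' : Type) [Field K] [NumberField K] [Field K'] [NumberField K'] [Algebra K K']

/-- **LEAF T7.L2.1.C0 `SetupC`**: the common part of the data of level 2 exists. -/
theorem setupC416 : SetupC K K' := by
  classical
  intro ℓ h _ _ Φ _ hconst
  haveI := h.galois
  have hℓ := h.prime
  have hcard : Nat.card (K' ≃ₐ[K] K') = ℓ := by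
    rw [IsGalois.card_aut_eq_finrank, h.degree]
  obtain ⟨σ, hpow, hfix, hfaith⟩ := exists_generator930 K K' ℓ hℓ h.degree
  obtain ⟨μ, F, r, hF, hr, -⟩ :=
    Fermat.Agent.LT.T5.H62.frame_exists_of_T1Out62 K ⊤ (Fermat.Agent.LT.T1.t1Out K)
  obtain ⟨μ', F', r', hF', hr', -⟩ :=
    Fermat.Agent.LT.T5.H62.frame_exists_of_T1Out62 K' ⊤ (Fermat.Agent.LT.T1.t1Out K')
  have hLC : LocallyCompactSpace (G K') := (Fermat.Agent.LT.T1.t1Out K').locComp.2.1
  have hSC : SecondCountableTopology (G K') := (Fermat.Agent.LT.T1.t1Out K').locComp.2.2.2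
  obtain ⟨Sexc, hSexc⟩ := hconst
  -- the auxiliary level
  set 𝔪 : Ideal (𝓞 K) := Ideal.comap (algebraMap (𝓞 K) (𝓞 K')) Φ.level *
    ∏ w ∈ Sexc, (below416 (K := K) w).asIdeal with h𝔪
  have h𝔪ne : 𝔪 ≠ ⊥ := by
    rw [h𝔪, ← Ideal.zero_eq_bot]
    refine mul_ne_zero (comap_ne_bot416 Φ.level_ne_bot) ?_
    rw [Finset.prod_ne_zero_iff]
    intro w _
    exact (below416 (K := K) w).ne_bot
  have hlev𝔪 : Ideal.comap (algebraMap (𝓞 K) (𝓞 K')) Φ.level ∣ 𝔪 := Dvd.intro _ rfl
  have hexc𝔪 : ∀ w ∈ Sexc, (below416 (K := K) w).asIdeal ∣ 𝔪 := fun w hw =>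
    Dvd.dvd.mul_left (Finset.dvd_prod_of_mem _ hw) _
  set M : ℕ := Ideal.absNorm 𝔪 with hM
  have hMne : M ≠ 0 := by rw [hM, Ne, Ideal.absNorm_eq_zero_iff]; exact h𝔪ne
  -- the place `w₀`
  have hσx : ∃ x : K', σ x ≠ x := by
    obtain ⟨x, hx⟩ := hfaith 1 one_pos hℓ.one_lt
    exact ⟨x, by simpa using hx⟩
  obtain ⟨θ, hθ⟩ := exists_moved416 hσx
  obtain ⟨p, w, hp, hpM, hwprime, hpw, hmoved⟩ :=
    exists_prime_moved416 K' (oEquiv416 σ) θ hθ M hMne
  have hwne : w ≠ ⊥ := by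
    rintro rfl
    rw [Ideal.mem_bot] at hpw
    have : p = 0 := by exact_mod_cast hpw
    exact hp.ne_zero this
  set w₀ : HeightOneSpectrum (𝓞 K') := ⟨w, hwprime, hwne⟩ with hw₀
  have hmoved' : mapPlace416 σ w₀ ≠ w₀ := by
    intro h1
    apply hmoved
    have := congrArg HeightOneSpectrum.asIdeal h1
    exact this
  set u : HeightOneSpectrum (𝓞 K) := below416 w₀ with hu
  have hpu : (p : 𝓞 K) ∈ u.asIdeal := by
    show (p : 𝓞 K) ∈ Ideal.comap (algebraMap (𝓞 K) (𝓞 K')) w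
    rw [Ideal.mem_comap, map_natCast]
    exact hpw
  have hu𝔪 : ¬ u.asIdeal ∣ 𝔪 := by
    intro hdvd
    have h1 : (M : 𝓞 K) ∈ u.asIdeal := (Ideal.dvd_iff_le.mp hdvd) (Ideal.absNorm_mem 𝔪)
    have h2 := one_mem_of_coprime416 u.asIdeal
      ((Nat.Prime.coprime_iff_not_dvd hp).mpr hpM) hpu h1
    exact u.isPrime.ne_top ((Ideal.eq_top_iff_one _).mpr h2)
  -- the levels
  set 𝔫₀ : Ideal (𝓞 K) := u.asIdeal * 𝔪 with h𝔫₀
  have h𝔫₀ne : 𝔫₀ ≠ ⊥ := by
    rw [h𝔫₀, ← Ideal.zero_eq_bot]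
    exact mul_ne_zero u.ne_bot h𝔪ne
  have hu𝔫₀ : u.asIdeal ∣ 𝔫₀ := Dvd.intro _ rfl
  have h𝔪𝔫₀ : 𝔪 ∣ 𝔫₀ := Dvd.intro_left _ rfl
  have hu2 : ¬ u.asIdeal ^ 2 ∣ 𝔫₀ := by
    intro h1
    rw [h𝔫₀, pow_two] at h1
    exact hu𝔪 ((mul_dvd_mul_iff_left u.ne_bot).mp h1)
  set 𝔑₀ : Ideal (𝓞 K') := upI (K' := K') 𝔫₀ with h𝔑₀
  have h𝔑₀ne : 𝔑₀ ≠ ⊥ := by
    rw [h𝔑₀, upI, Ne, Ideal.map_eq_bot_iff_of_injective
      (FaithfulSMul.algebraMap_injective (𝓞 K) (𝓞 K'))]
    exact h𝔫₀ne
  have hfin : {v : HeightOneSpectrum (𝓞 K') | v.asIdeal ∣ 𝔑₀}.Finite :=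
    Ideal.finite_factors h𝔑₀ne
  have hmemS : ∀ w' : HeightOneSpectrum (𝓞 K'), w' ∈ hfin.toFinset ↔ w'.asIdeal ∣ 𝔑₀ := by
    intro w'
    rw [Set.Finite.mem_toFinset]
    rfl
  have hmemS' : ∀ w' : HeightOneSpectrum (𝓞 K'),
      w' ∈ hfin.toFinset ↔ (below416 (K := K) w').asIdeal ∣ 𝔫₀ := by
    intro w'
    rw [hmemS, h𝔑₀, dvd_upI_iff416]
  -- the orbit
  have horb_over : ∀ j : ℕ, PlaceOver K K' u (mapPlace416 (σ ^ j) w₀) := fun j =>
    placeOver_mapPlace416 _ (placeOver_below416 w₀)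
  have horb_below : ∀ j : ℕ, below416 (K := K) (mapPlace416 (σ ^ j) w₀) = u := fun j =>
    below_eq_of_placeOver416 (horb_over j)
  refine ⟨⟨ℓ, adelicAut930 σ.toRingEquiv, (algebraMap K K').fieldRange, ⟨μ, F, r⟩,
    ⟨μ', F', r'⟩, 𝔑₀, hfin.toFinset, u, fun j => mapPlace416 (σ ^ j) w₀⟩, ?_⟩
  refine
    { deg := rfl
      cyc := ⟨hℓ.pos, ?_, ?_, ?_⟩
      base := ?_
      frame := ⟨hF, hr⟩
      frame' := ⟨hF', hr'⟩
      aut := ?_
      level_le := ?_
      mem_S' := hmemS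
      const := ?_
      orbit_rel := ?_
      orbit_ne := ?_
      orbit_over := horb_over
      orbit_level := ?_
      orbit_good := ?_
      base_level := ⟨𝔫₀, h𝔫₀ne, rfl, hu𝔫₀, hu2⟩
      orbit_all := ?_
      fibre := ?_ }
  · intro x
    show ((σ.toRingEquiv : RingAut K') ^ ℓ) x = x
    rw [toRingEquiv_pow930]
    exact hpow x
  · intro x
    show x ∈ (algebraMap K K').fieldRange ↔ σ x = x
    rw [RingHom.mem_fieldRange]
    exact hfix x
  · intro j hj0 hjl
    obtain ⟨x, hx⟩ := hfaith j hj0 hjl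
    refine ⟨x, ?_⟩
    show ((σ.toRingEquiv : RingAut K') ^ j) x ≠ x
    rw [toRingEquiv_pow930]
    exact hx
  · intro x
    show x ∈ (algebraMap K K').fieldRange ↔ _
    exact RingHom.mem_fieldRange
  · intro 𝔫
    exact autPreserves_all930 hLC hSC (adelicAut930 σ.toRingEquiv) (upI (K' := K') 𝔫)
      (map_level_stable930 σ 𝔫) μ' hF'.haar r' hr'
  · -- level_le
    show upI (K' := K') 𝔫₀ ≤ Φ.level
    rw [upI, Ideal.map_le_iff_le_comap]
    exact (Ideal.dvd_iff_le.mp h𝔪𝔫₀).trans (Ideal.dvd_iff_le.mp hlev𝔪)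
  · -- const
    intro w₁ hw₁ w₂ hw₂ v h1 h2
    have key : ∀ w' : HeightOneSpectrum (𝓞 K'), w' ∉ hfin.toFinset → w' ∉ Sexc := by
      intro w' hw' hmem
      apply hw'
      rw [hmemS']
      exact (hexc𝔪 w' hmem).trans h𝔪𝔫₀
    exact hSexc w₁ (key w₁ hw₁) w₂ (key w₂ hw₂) v h1 h2
  · -- orbit_rel
    intro j
    show (mapPlace416 (σ ^ (j + 1)) w₀).asIdeal
      = Ideal.map (RingOfIntegers.mapRingEquiv σ.toRingEquiv) (mapPlace416 (σ ^ j) w₀).asIdeal
    rw [pow_succ', mapPlace_mul416]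
    rfl
  · -- orbit_ne
    intro j hj0 hjl
    show mapPlace416 (σ ^ j) w₀ ≠ mapPlace416 (σ ^ 0) w₀
    rw [pow_zero, mapPlace_one416]
    exact mapPlace_pow_ne416 hℓ hcard hmoved' hj0 hjl
  · -- orbit_level
    intro j
    show mapPlace416 (σ ^ j) w₀ ∈ hfin.toFinset
    rw [hmemS', horb_below j]
    exact hu𝔫₀
  · -- orbit_good
    intro j hdvd
    apply hu𝔪
    have h1 : Ideal.comap (algebraMap (𝓞 K) (𝓞 K')) Φ.level
        ≤ (below416 (K := K) (mapPlace416 (σ ^ j) w₀)).asIdeal :=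
      Ideal.comap_mono (Ideal.dvd_iff_le.mp hdvd)
    rw [horb_below j] at h1
    exact (Ideal.dvd_iff_le.mpr h1).trans hlev𝔪
  · -- orbit_all
    intro w' hw'
    obtain ⟨τ, hτ⟩ := exists_mapPlace_eq416 (placeOver_below416 (K := K) w₀) hw'
    have hσ1 : σ ≠ 1 := by
      rintro rfl
      exact hmoved' (mapPlace_one416 w₀)
    obtain ⟨j, hj, rfl⟩ := exists_pow_eq416 hℓ hcard hσ1 τ
    exact ⟨j, hj, hτ.symm⟩
  · -- fibre
    intro v w₁ w₂ h1 h2 hmem
    rw [hmemS'] at hmem ⊢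
    rw [below_eq_of_placeOver416 h2]
    rwa [below_eq_of_placeOver416 h1] at hmem

end Main

end Fermat.Agent.LT.T7.H416

end

end
-- ===== PACK-END LT/T7/H416/Setup.lean

-- ===== PACK-BEGIN LT/T7/H841/OntoFin.lean
section






/-!
# Row LT, tower T7, leaf I.4 `OntoFinC816` (cut of helper816 of `IotaC305`) -- helper841, OFF-MAIN

    ontoFinC841 (K K') : Fermat.Agent.LT.T7.H816.OntoFinC816 K K'

A `σ_𝔸`-fixed adele of `K'` comes from `K_v` at the places over `v`.  VERBATIM against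
`LT/T7/H816/IotaSpec.lean` (helper816@e81f893cb, sha256 c16fad08), UNCONDITIONAL.

Proof.  Fix a place `w₀` over `v` (if there is none the statement is empty).
* base: `y_{w₀} = i_{w₀}(a)` for some `a ∈ K_v`.  If `w₀` is the only place over `v`: the closed
  leaf `T6.InstExtC` (helper267 `instExtC`): the fixed field of the local automorphism is the
  image of `K_v`; the local automorphism of `SigmaLocC305` (for `σ w₀ = w₀`) is the one of
  `InstExtC`, the local embedding of `ι` is the one of `InstExtC` (`ringHom_eqOF841`: two ring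
  homomorphisms of `K_v` which scale the valuation and agree on the dense subfield `K` are
  equal).  If there is a second place over `v`: `g e f = l` prime with `g ≥ 2` gives
  `e = f = 1`, closed leaf `T6.InstSplitC` (helper116 `instSplitC_h116`): `K_v ≃ K'_{w₀}`.
* step: if `(ι x)_w = y_w` then `(ι x)_{σ w} = y_{σ w}` (`s_w ∘ i_w = i_{σ w}`, `σ_𝔸 y = y`).
* the Galois group is generated by `σ` (prime order) and acts transitively on the places over `v`
  (`Ideal.exists_smul_eq_of_isGaloisGroup`).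
-/

set_option autoImplicit false
set_option linter.unusedSectionVars false
set_option linter.unusedVariables false
set_option linter.style.haveILetI false

open AutomorphicForm IsDedekindDomain NumberField WithZero
open scoped Pointwise

noncomputable section

namespace Fermat.Agent.LT.T7.H841

open Fermat.Agent.LT.H556 Fermat.Agent.LT.H556.A0 Fermat.Agent.LT.T7
open Fermat.Agent.LT.T7.H305 Fermat.Agent.LT.T7.H816

section OneField

variable {K : Type} [Field K] [NumberField K]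

/-- Density of `K` in `K_v`, in valuation form. -/
theorem approxOF841 (v : HeightOneSpectrum (𝓞 K)) (x : v.adicCompletion K) (γ : ℤᵐ⁰)
    (hγ : γ ≠ 0) : ∃ k : K, Valued.v (x - algebraMap K (v.adicCompletion K) k) < γ := by
  have hball : UniformSpace.ball x {p : v.adicCompletion K × v.adicCompletion K |
      Valued.v (p.2 - p.1) < γ} ∈ nhds x :=
    (nhds_basis_uniformity'
      (Fermat.Agent.LT.T6.H116.unif_basis_h116 (v.adicCompletion K)
        (HeightOneSpectrum.valuedAdicCompletion_surjective K v))).mem_of_mem hγ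
  obtain ⟨k, hk⟩ := (HeightOneSpectrum.denseRange_algebraMap (K := K) v).mem_nhds hball
  refine ⟨k, ?_⟩
  have hk' : Valued.v (algebraMap K (v.adicCompletion K) k - x) < γ := hk
  rw [← Valuation.map_neg, neg_sub]
  exact hk'

/-- Two ring homomorphisms of `K_v` into a valued field which scale the valuation by positive
powers and agree on `K` are equal. -/
theorem ringHom_eqOF841 {B : Type} [Field B] [Valued B ℤᵐ⁰] (v : HeightOneSpectrum (𝓞 K))
    (f g : v.adicCompletion K →+* B) (e e' : ℕ) (he : 0 < e) (he' : 0 < e')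
    (hf : ∀ x, Valued.v (f x) = Valued.v x ^ e) (hg : ∀ x, Valued.v (g x) = Valued.v x ^ e')
    (hfg : ∀ k : K, f (algebraMap K (v.adicCompletion K) k)
      = g (algebraMap K (v.adicCompletion K) k)) (x : v.adicCompletion K) :
    f x = g x := by
  by_contra hne
  have hγ : Valued.v (f x - g x) ≠ 0 := (Valuation.ne_zero_iff _).2 (sub_ne_zero.2 hne)
  have hmin : min (Valued.v (f x - g x)) 1 ≠ 0 := by
    rcases min_choice (Valued.v (f x - g x)) 1 with h | h
    · rw [h]; exact hγ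
    · rw [h]; exact one_ne_zero
  obtain ⟨k, hk⟩ := approxOF841 v x _ hmin
  have h1 : Valued.v (x - algebraMap K (v.adicCompletion K) k) ≤ 1 :=
    le_of_lt (lt_of_lt_of_le hk (min_le_right _ _))
  have h2 : Valued.v (x - algebraMap K (v.adicCompletion K) k) < Valued.v (f x - g x) :=
    lt_of_lt_of_le hk (min_le_left _ _)
  have e1 : f x - g x = f (x - algebraMap K (v.adicCompletion K) k)
      - g (x - algebraMap K (v.adicCompletion K) k) := by
    rw [map_sub, map_sub, hfg]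
    ring
  have hfx : Valued.v (f (x - algebraMap K (v.adicCompletion K) k)) < Valued.v (f x - g x) := by
    rw [hf]
    exact lt_of_le_of_lt (pow_le_of_le_one zero_le h1 he.ne') h2
  have hgx : Valued.v (g (x - algebraMap K (v.adicCompletion K) k)) < Valued.v (f x - g x) := by
    rw [hg]
    exact lt_of_le_of_lt (pow_le_of_le_one zero_le h1 he'.ne') h2
  have hlt : Valued.v (f x - g x) < Valued.v (f x - g x) := by
    conv_lhs => rw [e1]
    exact lt_of_le_of_lt (Valuation.map_sub _ _ _) (max_lt hfx hgx)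
  exact lt_irrefl _ hlt

open scoped Classical in
/-- An adele with a prescribed component at `v`. -/
theorem exists_adeleOF841 (v : HeightOneSpectrum (𝓞 K)) (a : v.adicCompletion K) :
    ∃ x : Adl K, T5.finHom v x = a :=
  ⟨(0, RestrictedProduct.single
      (fun v : HeightOneSpectrum (𝓞 K) => v.adicCompletionIntegers K) v a),
    RestrictedProduct.single_eq_same
      (fun v : HeightOneSpectrum (𝓞 K) => v.adicCompletionIntegers K) v a⟩

end OneField

section TwoFields

variable {K K' : Type} [Field K] [NumberField K] [Field K'] [NumberField K'] [Algebra K K']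

/-- `PlaceOver` in the form of the T6 instances. -/
theorem placeOver_iffOF841 (v : HeightOneSpectrum (𝓞 K)) (w : HeightOneSpectrum (𝓞 K')) :
    PlaceOver K K' v w ↔
      ∀ x : 𝓞 K, x ∈ v.asIdeal ↔ algebraMap (𝓞 K) (𝓞 K') x ∈ w.asIdeal := by
  rw [Fermat.Agent.LT.T7.H557.placeOver_iff_557]
  constructor
  · intro h x
    rw [h, Ideal.mem_comap]
  · intro h
    ext x
    rw [Ideal.mem_comap]
    exact h x

/-- A place containing the image of `v` lies over `v`. -/
theorem placeOver_of_leOF841 (v : HeightOneSpectrum (𝓞 K)) (w : HeightOneSpectrum (𝓞 K'))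
    (h : ∀ x : 𝓞 K, x ∈ v.asIdeal → algebraMap (𝓞 K) (𝓞 K') x ∈ w.asIdeal) :
    PlaceOver K K' v w := by
  rw [Fermat.Agent.LT.T7.H557.placeOver_iff_557]
  haveI := w.isPrime
  have hle : v.asIdeal ≤ Ideal.comap (algebraMap (𝓞 K) (𝓞 K')) w.asIdeal := fun x hx => by
    rw [Ideal.mem_comap]
    exact h x hx
  have hne : Ideal.comap (algebraMap (𝓞 K) (𝓞 K')) w.asIdeal ≠ ⊤ :=
    (Ideal.comap_isPrime (algebraMap (𝓞 K) (𝓞 K')) w.asIdeal).ne_top
  exact v.isMaximal.eq_of_le hne hle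

/-- If there are two places over `v` in a Galois extension of prime degree, then `e = f = 1`. -/
theorem split_dataOF841 (l : ℕ) (hcyc : IsCycExt K K' l) (v : HeightOneSpectrum (𝓞 K))
    (w₀ w₁ : HeightOneSpectrum (𝓞 K')) (h0 : PlaceOver K K' v w₀) (h1 : PlaceOver K K' v w₁)
    (hne : w₁ ≠ w₀) :
    Ideal.absNorm w₀.asIdeal = Ideal.absNorm v.asIdeal ∧
      ∃ x : 𝓞 K, x ∈ v.asIdeal ∧ algebraMap (𝓞 K) (𝓞 K') x ∉ w₀.asIdeal ^ 2 := by
  haveI := hcyc.galois
  haveI : w₀.asIdeal.LiesOver v.asIdeal := Fermat.Agent.LT.T7.H557.placeOver_liesOver_557 h0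
  haveI : w₁.asIdeal.LiesOver v.asIdeal := Fermat.Agent.LT.T7.H557.placeOver_liesOver_557 h1
  haveI := v.isPrime
  haveI := w₀.isPrime
  haveI := w₁.isPrime
  haveI : v.asIdeal.IsMaximal := v.isMaximal
  haveI : w₀.asIdeal.IsMaximal := w₀.isMaximal
  have h3 := Ideal.ncard_primesOver_mul_ramificationIdxIn_mul_inertiaDegIn v.asIdeal (𝓞 K')
    Gal(K'/K)
  rw [IsGalois.card_aut_eq_finrank, hcyc.degree] at h3
  have hn1 : (v.asIdeal.primesOver (𝓞 K')).ncard ≠ 1 := by
    intro h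
    obtain ⟨a, ha⟩ := Set.ncard_eq_one.1 h
    have m0 : w₀.asIdeal ∈ v.asIdeal.primesOver (𝓞 K') := ⟨inferInstance, inferInstance⟩
    have m1 : w₁.asIdeal ∈ v.asIdeal.primesOver (𝓞 K') := ⟨inferInstance, inferInstance⟩
    rw [ha, Set.mem_singleton_iff] at m0 m1
    exact hne (HeightOneSpectrum.ext (m1.trans m0.symm))
  have hdvd : (v.asIdeal.primesOver (𝓞 K')).ncard ∣ l := ⟨_, h3.symm⟩
  have hnl : (v.asIdeal.primesOver (𝓞 K')).ncard = l :=
    ((Nat.dvd_prime hcyc.prime).1 hdvd).resolve_left hn1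
  have hef : v.asIdeal.ramificationIdxIn (𝓞 K') * v.asIdeal.inertiaDegIn (𝓞 K') = 1 := by
    rw [hnl] at h3
    exact Nat.eq_of_mul_eq_mul_left hcyc.prime.pos (by rw [h3, mul_one])
  have he : v.asIdeal.ramificationIdxIn (𝓞 K') = 1 := Nat.eq_one_of_mul_eq_one_right hef
  have hf : v.asIdeal.inertiaDegIn (𝓞 K') = 1 := Nat.eq_one_of_mul_eq_one_left hef
  constructor
  · have hN := Ideal.absNorm_eq_pow_inertiaDeg'_of_liesOver w₀.asIdeal v.asIdeal v.isPrime
      v.ne_bot
    rw [Ideal.inertiaDeg'_eq_inertiaDeg v.asIdeal w₀.asIdeal,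
      ← Ideal.inertiaDegIn_eq_inertiaDeg v.asIdeal w₀.asIdeal Gal(K'/K), hf, pow_one] at hN
    exact hN
  · have he' : v.asIdeal.ramificationIdx' w₀.asIdeal = 1 := by
      rw [Ideal.ramificationIdx'_eq_ramificationIdx v.asIdeal w₀.asIdeal v.ne_bot,
        ← Ideal.ramificationIdxIn_eq_ramificationIdx v.asIdeal w₀.asIdeal Gal(K'/K), he]
    have hle : Ideal.map (algebraMap (𝓞 K) (𝓞 K')) v.asIdeal ≤ w₀.asIdeal := by
      rw [Ideal.map_le_iff_le_comap]
      intro x hx
      exact ((placeOver_iffOF841 v w₀).1 h0 x).1 hx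
    have hn2 : ¬ Ideal.map (algebraMap (𝓞 K) (𝓞 K')) v.asIdeal ≤ w₀.asIdeal ^ 2 := by
      intro h
      exact ((Ideal.ramificationIdx'_ne_one_iff hle).2 h) he'
    by_contra hcon
    apply hn2
    rw [Ideal.map_le_iff_le_comap]
    intro x hx
    rw [Ideal.mem_comap]
    by_contra hx2
    exact hcon ⟨x, hx, hx2⟩


/-- `σ` fixes `K`. -/
theorem sigma_fixOF841 (D : CompData K K') (hD : IsCompData D) (k : K) :
    D.s.σ (algebraMap K K' k) = algebraMap K K' k :=
  (hD.cyc.fixed _).1 ((hD.base _).2 ⟨k, rfl⟩)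

/-- The generator as an automorphism of `K'` over `K`. -/
def genOF841 (D : CompData K K') (hD : IsCompData D) : K' ≃ₐ[K] K' :=
  AlgEquiv.ofRingEquiv (f := D.s.σ) (sigma_fixOF841 D hD)

theorem genOF841_apply (D : CompData K K') (hD : IsCompData D) (x : K') :
    genOF841 D hD x = D.s.σ x := rfl

theorem gen_neOF841 (D : CompData K K') (hD : IsCompData D) (hcyc : IsCycExt K K' D.l) :
    genOF841 D hD ≠ 1 := by
  intro h
  obtain ⟨x, hx⟩ := hD.cyc.faithful 1 one_pos hcyc.prime.one_lt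
  apply hx
  rw [pow_one]
  have := congrArg (fun t : K' ≃ₐ[K] K' => t x) h
  exact this

theorem gen_mem_powersOF841 (D : CompData K K') (hD : IsCompData D) (hcyc : IsCycExt K K' D.l)
    (t : K' ≃ₐ[K] K') : t ∈ Submonoid.powers (genOF841 D hD) := by
  haveI := hcyc.galois
  haveI : Fact D.l.Prime := ⟨hcyc.prime⟩
  have hcard : Nat.card (K' ≃ₐ[K] K') = D.l := by
    rw [IsGalois.card_aut_eq_finrank, hcyc.degree]
  exact mem_powers_of_prime_card hcard (gen_neOF841 D hD hcyc)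

theorem gen_mem_zpowersOF841 (D : CompData K K') (hD : IsCompData D)
    (hcyc : IsCycExt K K' D.l) (t : K' ≃ₐ[K] K') : t ∈ Subgroup.zpowers (genOF841 D hD) := by
  haveI := hcyc.galois
  haveI : Fact D.l.Prime := ⟨hcyc.prime⟩
  have hcard : Nat.card (K' ≃ₐ[K] K') = D.l := by
    rw [IsGalois.card_aut_eq_finrank, hcyc.degree]
  exact mem_zpowers_of_prime_card hcard (gen_neOF841 D hD hcyc)

/-- The image of a place under `σ`. -/
theorem exists_placeRelOF841 (s : T5.AdelicAut K') (w : HeightOneSpectrum (𝓞 K')) :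
    ∃ w' : HeightOneSpectrum (𝓞 K'), T5.PlaceRel s w w' := by
  haveI := w.isPrime
  refine ⟨⟨Ideal.map (NumberField.RingOfIntegers.mapRingEquiv s.σ) w.asIdeal,
    Ideal.map_isPrime_of_equiv _, ?_⟩, rfl⟩
  intro h
  apply w.ne_bot
  exact (Ideal.map_eq_bot_iff_of_injective
    (NumberField.RingOfIntegers.mapRingEquiv s.σ).injective).1 h

/-- The action of the generator on ideals is the map of `PlaceRel`. -/
theorem smul_eq_mapOF841 (D : CompData K K') (hD : IsCompData D) (I : Ideal (𝓞 K')) :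
    genOF841 D hD • I = Ideal.map (NumberField.RingOfIntegers.mapRingEquiv D.s.σ) I := by
  rw [Ideal.pointwise_smul_def]
  rfl

/-- `σ w` lies over `v` if `w` does. -/
theorem placeOver_relOF841 (D : CompData K K') (hD : IsCompData D)
    (v : HeightOneSpectrum (𝓞 K)) (w w' : HeightOneSpectrum (𝓞 K'))
    (hw : PlaceOver K K' v w) (hr : T5.PlaceRel D.s w w') : PlaceOver K K' v w' := by
  intro x y hxy
  have hr' : w'.asIdeal = Ideal.map (NumberField.RingOfIntegers.mapRingEquiv D.s.σ) w.asIdeal :=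
    hr
  rw [hr', Ideal.mem_map_of_equiv]
  constructor
  · intro hx
    refine ⟨algebraMap (𝓞 K) (𝓞 K') x, ((Fermat.Agent.LT.T7.H841.placeOver_iffOF841 v w).1 hw x).1 hx, ?_⟩
    apply NumberField.RingOfIntegers.ext
    rw [NumberField.RingOfIntegers.mapRingEquiv_apply, hxy]
    exact sigma_fixOF841 D hD _
  · rintro ⟨z, hz, hzy⟩
    have hz' : z = algebraMap (𝓞 K) (𝓞 K') x := by
      apply (NumberField.RingOfIntegers.mapRingEquiv D.s.σ).injective
      rw [hzy]
      apply NumberField.RingOfIntegers.ext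
      rw [NumberField.RingOfIntegers.mapRingEquiv_apply, hxy]
      exact (sigma_fixOF841 D hD _).symm
    rw [hz'] at hz
    exact ((Fermat.Agent.LT.T7.H841.placeOver_iffOF841 v w).1 hw x).2 hz


/-- **The step**: from `w` to `σ w`. -/
theorem stepOF841 (D : CompData K K') (hD : IsCompData D) (hS : SigmaLocC305 K')
    (ι : Adl K →+* Adl K') (hι : IsPreBase816 ι) (y : Adl K') (hy : D.s.σA y = y)
    (v : HeightOneSpectrum (𝓞 K)) (x : Adl K) (w w' : HeightOneSpectrum (𝓞 K'))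
    (hw : PlaceOver K K' v w) (hr : T5.PlaceRel D.s w w')
    (hQ : T5.finHom w (ι x) = T5.finHom w y) :
    T5.finHom w' (ι x) = T5.finHom w' y := by
  have hw' := placeOver_relOF841 D hD v w w' hw hr
  obtain ⟨sw, hsw1, hsw2, hsw3⟩ := (hS D.s).1 w w' hr
  obtain ⟨e, i, he, hi1, hi2, hi3⟩ := hι.fin v w hw
  obtain ⟨e', i', he', hi1', hi2', hi3'⟩ := hι.fin v w' hw'
  have hkey : ∀ a : v.adicCompletion K, i' a = sw (i a) := by
    intro a
    exact ringHom_eqOF841 v i' ((sw : w.adicCompletion K' →+* w'.adicCompletion K').comp i)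
      e' e he' he hi2'
      (fun z => by
        rw [RingHom.comp_apply]
        change Valued.v (sw (i z)) = _
        rw [hsw2, hi2])
      (fun k => by
        rw [RingHom.comp_apply, hi1', hi1]
        change _ = sw _
        rw [hsw1, sigma_fixOF841 D hD]) a
  calc T5.finHom w' (ι x) = i' (T5.finHom v x) := hi3' x
    _ = sw (i (T5.finHom v x)) := hkey _
    _ = sw (T5.finHom w (ι x)) := by rw [hi3 x]
    _ = sw (T5.finHom w y) := by rw [hQ]
    _ = T5.finHom w' (D.s.σA y) := (hsw3 y).symm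
    _ = T5.finHom w' y := by rw [hy]

/-- **The base, non-split case** (`w₀` is the only place over `v`): closed leaf `T6.InstExtC`. -/
theorem base_uniqueOF841 (D : CompData K K') (hD : IsCompData D) (hcyc : IsCycExt K K' D.l)
    (hS : SigmaLocC305 K') (ι : Adl K →+* Adl K') (hι : IsPreBase816 ι) (y : Adl K')
    (hy : D.s.σA y = y) (v : HeightOneSpectrum (𝓞 K)) (w₀ : HeightOneSpectrum (𝓞 K'))
    (h0 : PlaceOver K K' v w₀) (huniq : ∀ w, PlaceOver K K' v w → w = w₀) :
    ∃ x : Adl K, T5.finHom w₀ (ι x) = T5.finHom w₀ y := by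
  haveI := hcyc.galois
  obtain ⟨e, i', sw', hi', hsw', hext, -⟩ :=
    Fermat.Agent.LT.T6.H267.instExtC K K' (genOF841 D hD)
      (gen_mem_zpowersOF841 D hD hcyc) (by rw [hcyc.degree]; exact hcyc.prime) v w₀
      ((placeOver_iffOF841 v w₀).1 h0)
      (fun w' hw' => huniq w' (placeOver_of_leOF841 v w' hw'))
  obtain ⟨w', hr⟩ := exists_placeRelOF841 D.s w₀
  have hw' := placeOver_relOF841 D hD v w₀ w' h0 hr
  have hww : w' = w₀ := huniq w' hw'
  rw [hww] at hr
  obtain ⟨sw, hsw1, hsw2, hsw3⟩ := (hS D.s).1 w₀ w₀ hr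
  have hfix : sw' (T5.finHom w₀ y) = T5.finHom w₀ y := by
    have h1 : sw (T5.finHom w₀ y) = T5.finHom w₀ y := by rw [← hsw3 y, hy]
    have h2 := ringHom_eqOF841 (K := K') w₀
      (sw' : w₀.adicCompletion K' →+* w₀.adicCompletion K')
      (sw : w₀.adicCompletion K' →+* w₀.adicCompletion K') 1 1 one_pos one_pos
      (fun z => by rw [pow_one]; exact hext.val_s z) (fun z => by rw [pow_one]; exact hsw2 z)
      (fun k => by
        change sw' _ = sw _
        rw [hsw', hsw1]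
        rfl) (T5.finHom w₀ y)
    change sw' _ = sw _ at h2
    rw [h2, h1]
  obtain ⟨a, ha⟩ := hext.cyc.fixed _ hfix
  obtain ⟨e₁, i, he₁, hi1, hi2, hi3⟩ := hι.fin v w₀ h0
  obtain ⟨x, hx⟩ := exists_adeleOF841 v a
  refine ⟨x, ?_⟩
  rw [hi3 x, hx, ← ha]
  exact ringHom_eqOF841 v i i' e₁ e he₁ hext.e_pos hi2 hext.val_i
    (fun k => by rw [hi1, hi']) a

/-- **The base, split case**: closed leaf `T6.InstSplitC`. -/
theorem base_splitOF841 (D : CompData K K') (hcyc : IsCycExt K K' D.l)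
    (ι : Adl K →+* Adl K') (hι : IsPreBase816 ι) (y : Adl K')
    (v : HeightOneSpectrum (𝓞 K)) (w₀ w₁ : HeightOneSpectrum (𝓞 K'))
    (h0 : PlaceOver K K' v w₀) (h1 : PlaceOver K K' v w₁) (hne : w₁ ≠ w₀) :
    ∃ x : Adl K, T5.finHom w₀ (ι x) = T5.finHom w₀ y := by
  obtain ⟨hN, hπ⟩ := split_dataOF841 D.l hcyc v w₀ w₁ h0 h1 hne
  obtain ⟨i', hi', hv'⟩ := Fermat.Agent.LT.T6.H116.instSplitC_h116 K K' v w₀
    ((placeOver_iffOF841 v w₀).1 h0) hN hπ
  obtain ⟨e₁, i, he₁, hi1, hi2, hi3⟩ := hι.fin v w₀ h0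
  obtain ⟨x, hx⟩ := exists_adeleOF841 v (i'.symm (T5.finHom w₀ y))
  refine ⟨x, ?_⟩
  rw [hi3 x, hx]
  have h := ringHom_eqOF841 v i (i' : v.adicCompletion K →+* w₀.adicCompletion K') e₁ 1 he₁
    one_pos hi2 (fun z => by rw [pow_one]; exact hv' z)
    (fun k => by rw [hi1]; exact (hi' k).symm) (i'.symm (T5.finHom w₀ y))
  rw [h]
  exact i'.apply_symm_apply _

/-- **The chain** `w₀, σ w₀, σ² w₀, …`. -/
theorem chainOF841 (D : CompData K K') (hD : IsCompData D) (hS : SigmaLocC305 K')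
    (ι : Adl K →+* Adl K') (hι : IsPreBase816 ι) (y : Adl K') (hy : D.s.σA y = y)
    (v : HeightOneSpectrum (𝓞 K)) (x : Adl K) (w₀ : HeightOneSpectrum (𝓞 K'))
    (h0 : PlaceOver K K' v w₀) (hQ : T5.finHom w₀ (ι x) = T5.finHom w₀ y) (k : ℕ) :
    ∃ u : HeightOneSpectrum (𝓞 K'), u.asIdeal = (genOF841 D hD ^ k) • w₀.asIdeal ∧
      PlaceOver K K' v u ∧ T5.finHom u (ι x) = T5.finHom u y := by
  induction k with
  | zero => exact ⟨w₀, by rw [pow_zero, one_smul], h0, hQ⟩
  | succ k ih =>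
    obtain ⟨u, hu, hvu, hQu⟩ := ih
    obtain ⟨u', hr⟩ := exists_placeRelOF841 D.s u
    refine ⟨u', ?_, placeOver_relOF841 D hD v u u' hvu hr,
      stepOF841 D hD hS ι hι y hy v x u u' hvu hr hQu⟩
    have hr' : u'.asIdeal
        = Ideal.map (NumberField.RingOfIntegers.mapRingEquiv D.s.σ) u.asIdeal := hr
    rw [hr', ← smul_eq_mapOF841 D hD, hu, ← mul_smul, ← pow_succ']

/-- The equation lemmas of the definition of this file are realised HERE. -/
theorem eqns_realisedOF841 : True := by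
  have _a := @genOF841.eq_1
  have _b := @genOF841.eq_def
  have _c := @genOF841.eq_unfold
  trivial

end TwoFields

/-- **LEAF I.4 `OntoFinC816`** (cut of helper816 of `H305.IotaC305`), VERBATIM, unconditional:
a `σ_𝔸`-fixed adele of `K'` comes from `K_v` at the places over `v`. -/
theorem ontoFinC841 (K K' : Type) [Field K] [NumberField K] [Field K'] [NumberField K']
    [Algebra K K'] : OntoFinC816 K K' := by
  intro D hD hcyc hT hS ι hι y hy v
  by_cases hex : ∃ w₀, PlaceOver K K' v w₀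
  swap
  · exact ⟨0, fun w hw => absurd ⟨w, hw⟩ hex⟩
  obtain ⟨w₀, h0⟩ := hex
  have hbase : ∃ x : Adl K, T5.finHom w₀ (ι x) = T5.finHom w₀ y := by
    by_cases huniq : ∀ w, PlaceOver K K' v w → w = w₀
    · exact base_uniqueOF841 D hD hcyc hS ι hι y hy v w₀ h0 huniq
    · simp only [not_forall] at huniq
      obtain ⟨w₁, h1, hne⟩ := huniq
      exact base_splitOF841 D hcyc ι hι y v w₀ w₁ h0 h1 hne
  obtain ⟨x, hx⟩ := hbase
  refine ⟨x, fun w hw => ?_⟩
  haveI := hcyc.galois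
  haveI : w₀.asIdeal.LiesOver v.asIdeal := Fermat.Agent.LT.T7.H557.placeOver_liesOver_557 h0
  haveI : w.asIdeal.LiesOver v.asIdeal := Fermat.Agent.LT.T7.H557.placeOver_liesOver_557 hw
  haveI := w₀.isPrime
  haveI := w.isPrime
  obtain ⟨τ, hτ⟩ := Ideal.exists_smul_eq_of_isGaloisGroup v.asIdeal w₀.asIdeal w.asIdeal
    (K' ≃ₐ[K] K')
  obtain ⟨k, hk⟩ := gen_mem_powersOF841 D hD hcyc τ
  obtain ⟨u, hu, -, hQu⟩ := chainOF841 D hD hS ι hι y hy v x w₀ h0 hx k
  have huw : u = w := by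
    apply HeightOneSpectrum.ext
    rw [hu, ← hτ, ← hk]
  rw [← huw]
  exact hQu

end Fermat.Agent.LT.T7.H841

end

end
-- ===== PACK-END LT/T7/H841/OntoFin.lean

-- ===== PACK-BEGIN LT/T5/H32/ShiftKit.lean
section


/-!
# Row LT, tower T5 (helper32): right translates, finite sums and right averages of test functions

OFF-MAIN, ADDITIVE.  Vocabulary of `T5/Spec.lean` only.  KIT for the STEP nodes of the first pair
(`T7/B981/PairASpec.lean`: `φ' = φ(· z)`, `φ' = ∑_h φ(· z⁻¹ h)`, `φ' = ∫∫ φ(· Y(α,β)) sin β`)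
and for every construction which replaces a test function by a combination of its right
translates.  One field, one frame `(μ, F)`; NOTHING is asked of the translating elements.

* `Rconv_shift32`, `Rconv_lshift32` : `R(φ(· h)) e = R(φ) (e(· h⁻¹))`,
  `R(ψ(h ·)) e (x) = R(ψ) e (x h⁻¹)`;
* `isEK_shift32`, `isEK_adjoint_shift32` : Eisenstein-killing (of `φ`, of the adjoint) is stable
  under right translation; `isEK_lshift32` : under left translation;
* `isEK_sum32`, `isEK_adjoint_sum32` : finite linear combinations of right translates;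
* `rightAvg32 ν k c Y φ g = ∫ a in k, c a * φ (g * Y a) ∂ν` (compact `k`, continuous `c`, `Y`):
  `continuous_rightAvg32`, `hasCompactSupport_rightAvg32`, `Rconv_rightAvg32`,
  `isEK_rightAvg32`, `isEK_adjoint_rightAvg32`, `isIwSupported_rightAvg32`;
* `isIwSupported_shift32` : Iwahori support along an orbit is stable under right translation by
  an element which is trivial at the places of the orbit.
-/

set_option autoImplicit false
set_option linter.unusedSectionVars false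
open IsDedekindDomain NumberField MeasureTheory
open scoped MatrixGroups ComplexConjugate Pointwise
open Fermat.Agent.LT.H556.A0 Fermat.Agent.LT.T5 Fermat.Agent.LT.H942 Fermat.Agent.LT.T5.H942

noncomputable section
namespace Fermat.Agent.LT.T5.H32

variable {K : Type} [Field K] [NumberField K]

attribute [local instance] Fermat.Agent.LT.T5.instMeasurableSpaceG

variable {μ : Measure (G K)} {F : Set (G K)}

/-! ## 1. Translates -/

/-- The Haar measure of a frame is right invariant (instance form). -/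
theorem isMulRightInvariant_of_frame32 (hF : IsFrame μ F) : μ.IsMulRightInvariant := by
  have : BorelSpace (G K) := H277.borelSpaceG277
  refine ⟨fun g => ?_⟩
  ext A hA
  rw [Measure.map_apply (measurable_mul_const g) hA]
  exact hF.right_inv g A hA

/-- Right translates of Borel-invariant functions are Borel-invariant (the ray generator is
central). -/
theorem isBorelInvariantFn_shift32 {Ψ : G K → ℂ} (hΨ : IsBorelInvariantFn Ψ) (h : G K) :
    IsBorelInvariantFn (fun y => Ψ (y * h)) := by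
  refine ⟨hΨ.cont.comp (continuous_id.mul continuous_const), ?_, ?_, ?_⟩
  · intro n x hn g
    show Ψ (n * g * h) = Ψ (g * h)
    rw [mul_assoc, hΨ.unip n x hn]
  · intro t a b ht g
    show Ψ (ratG t * g * h) = Ψ (g * h)
    rw [mul_assoc, hΨ.torus t a b ht]
  · obtain ⟨r, hr, hΨr⟩ := hΨ.ray
    refine ⟨r, hr, fun g => ?_⟩
    show Ψ (g * r * h) = Ψ (g * h)
    rw [mul_assoc, H277.ray_comm277 hr h, ← mul_assoc, hΨr]

/-- `R(φ(· h)) e = R(φ) (e(· h⁻¹))`. -/
theorem Rconv_shift32 (hF : IsFrame μ F) (φ e : G K → ℂ) (h x : G K) :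
    Rconv μ (fun g => φ (g * h)) e x = Rconv μ φ (fun y => e (y * h⁻¹)) x := by
  have : BorelSpace (G K) := H277.borelSpaceG277
  have := isMulRightInvariant_of_frame32 hF
  unfold Rconv
  have hh := integral_mul_right_eq_self (μ := μ) (fun y => φ y * e (x * y * h⁻¹)) h
  rw [← hh]
  congr 1
  funext y
  simp only [mul_assoc, mul_inv_cancel, mul_one]

/-- `R(ψ(h ·)) e (x) = R(ψ) e (x h⁻¹)`. -/
theorem Rconv_lshift32 (hF : IsFrame μ F) (ψ e : G K → ℂ) (h x : G K) :
    Rconv μ (fun g => ψ (h * g)) e x = Rconv μ ψ e (x * h⁻¹) := by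
  have : BorelSpace (G K) := H277.borelSpaceG277
  have := hF.haar
  unfold Rconv
  have hh := integral_mul_left_eq_self (μ := μ) (fun y => ψ y * e (x * h⁻¹ * y)) h
  rw [← hh]
  congr 1
  funext y
  simp only [mul_assoc, inv_mul_cancel_left]

/-- **Eisenstein-killing is stable under right translation.** -/
theorem isEK_shift32 (hF : IsFrame μ F) {φ : G K → ℂ} (hφ : IsEK μ φ) (h : G K) :
    IsEK μ (fun g => φ (g * h)) := by
  intro Ψ hΨ x
  rw [Rconv_shift32 hF]
  exact hφ _ (isBorelInvariantFn_shift32 hΨ h⁻¹) x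

/-- **Eisenstein-killing is stable under left translation.** -/
theorem isEK_lshift32 (hF : IsFrame μ F) {ψ : G K → ℂ} (hψ : IsEK μ ψ) (h : G K) :
    IsEK μ (fun g => ψ (h * g)) := by
  intro Ψ hΨ x
  rw [Rconv_lshift32 hF]
  exact hψ Ψ hΨ _

/-- The adjoint of a right translate is a left translate of the adjoint. -/
theorem adjointFn_shift32 (φ : G K → ℂ) (h : G K) :
    adjointFn (fun g => φ (g * h)) = fun g => adjointFn φ (h⁻¹ * g) := by
  funext g
  simp only [adjointFn, mul_inv_rev, inv_inv]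

/-- **The adjoint of a right translate is Eisenstein-killing if the adjoint is.** -/
theorem isEK_adjoint_shift32 (hF : IsFrame μ F) {φ : G K → ℂ} (hφ : IsEK μ (adjointFn φ))
    (h : G K) : IsEK μ (adjointFn (fun g => φ (g * h))) := by
  rw [adjointFn_shift32]
  exact isEK_lshift32 hF hφ h⁻¹

theorem continuous_shift32 {φ : G K → ℂ} (hφ : Continuous φ) (h : G K) :
    Continuous (fun g => φ (g * h)) :=
  hφ.comp (continuous_id.mul continuous_const)

theorem hasCompactSupport_shift32 {φ : G K → ℂ} (hφ : HasCompactSupport φ) (h : G K) :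
    HasCompactSupport (fun g => φ (g * h)) :=
  hφ.comp_homeomorph (Homeomorph.mulRight h)

/-! ## 2. Finite linear combinations -/

theorem Rconv_smul32 (c : ℂ) (φ e : G K → ℂ) (x : G K) :
    Rconv μ (fun g => c * φ g) e x = c * Rconv μ φ e x := by
  unfold Rconv
  rw [← integral_const_mul]
  congr 1
  funext y
  ring

theorem integrable_Rconv32 (hF : IsFrame μ F) {φ e : G K → ℂ} (hφc : Continuous φ)
    (hφs : HasCompactSupport φ) (he : Continuous e) (x : G K) :
    Integrable (fun y => φ y * e (x * y)) μ := by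
  have : BorelSpace (G K) := H277.borelSpaceG277
  have := hF.haar
  have hc : Continuous fun y => φ y * e (x * y) :=
    hφc.mul (he.comp (continuous_const.mul continuous_id))
  exact hc.integrable_of_hasCompactSupport hφs.mul_right

theorem Rconv_sum32 (hF : IsFrame μ F) {ι : Type} (s : Finset ι) (φ : ι → G K → ℂ)
    (hφc : ∀ i ∈ s, Continuous (φ i)) (hφs : ∀ i ∈ s, HasCompactSupport (φ i))
    {e : G K → ℂ} (he : Continuous e) (x : G K) :
    Rconv μ (fun g => ∑ i ∈ s, φ i g) e x = ∑ i ∈ s, Rconv μ (φ i) e x := by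
  unfold Rconv
  rw [← integral_finset_sum s fun i hi => integrable_Rconv32 hF (hφc i hi) (hφs i hi) he x]
  congr 1
  funext y
  rw [Finset.sum_mul]

theorem isEK_smul32 {φ : G K → ℂ} (hφ : IsEK μ φ) (c : ℂ) : IsEK μ (fun g => c * φ g) := by
  intro Ψ hΨ x
  rw [Rconv_smul32, hφ Ψ hΨ x, mul_zero]

/-- **Finite sums of Eisenstein-killing functions are Eisenstein-killing.** -/
theorem isEK_sum32 (hF : IsFrame μ F) {ι : Type} (s : Finset ι) (φ : ι → G K → ℂ)
    (hφc : ∀ i ∈ s, Continuous (φ i)) (hφs : ∀ i ∈ s, HasCompactSupport (φ i))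
    (hφ : ∀ i ∈ s, IsEK μ (φ i)) : IsEK μ (fun g => ∑ i ∈ s, φ i g) := by
  intro Ψ hΨ x
  rw [Rconv_sum32 hF s φ hφc hφs hΨ.cont x]
  exact Finset.sum_eq_zero fun i hi => hφ i hi Ψ hΨ x

theorem adjointFn_sum32 {ι : Type} (s : Finset ι) (φ : ι → G K → ℂ) :
    adjointFn (fun g => ∑ i ∈ s, φ i g) = fun g => ∑ i ∈ s, adjointFn (φ i) g := by
  funext g
  simp only [adjointFn, map_sum]

theorem adjointFn_smul32 (c : ℂ) (φ : G K → ℂ) :
    adjointFn (fun g => c * φ g) = fun g => conj c * adjointFn φ g := by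
  funext g
  simp only [adjointFn, map_mul]

/-- **Finite linear combinations of right translates**: `φ'(g) = ∑_i c_i φ(g h_i)` is
Eisenstein-killing if `φ` is. -/
theorem isEK_sum_shift32 (hF : IsFrame μ F) {ι : Type} (s : Finset ι) (c : ι → ℂ)
    (h : ι → G K) {φ : G K → ℂ} (hφc : Continuous φ) (hφs : HasCompactSupport φ)
    (hφ : IsEK μ φ) : IsEK μ (fun g => ∑ i ∈ s, c i * φ (g * h i)) := by
  refine isEK_sum32 hF s (fun i g => c i * φ (g * h i)) (fun i _ => ?_) (fun i _ => ?_)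
    (fun i _ => ?_)
  · exact continuous_const.mul (continuous_shift32 hφc (h i))
  · exact (hasCompactSupport_shift32 hφs (h i)).mul_left
  · exact isEK_smul32 (isEK_shift32 hF hφ (h i)) (c i)

/-- The adjoint of a finite linear combination of right translates is Eisenstein-killing if the
adjoint of `φ` is. -/
theorem isEK_adjoint_sum_shift32 (hF : IsFrame μ F) {ι : Type} (s : Finset ι) (c : ι → ℂ)
    (h : ι → G K) {φ : G K → ℂ} (hφc : Continuous φ) (hφs : HasCompactSupport φ)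
    (hφ : IsEK μ (adjointFn φ)) :
    IsEK μ (adjointFn (fun g => ∑ i ∈ s, c i * φ (g * h i))) := by
  have e1 : adjointFn (fun g => ∑ i ∈ s, c i * φ (g * h i))
      = fun g => ∑ i ∈ s, conj (c i) * adjointFn φ ((h i)⁻¹ * g) := by
    funext g
    simp only [adjointFn, map_sum, map_mul, mul_inv_rev, inv_inv]
  rw [e1]
  have hac : Continuous (adjointFn φ) := continuous_adjointFn32 hφc
  have has : HasCompactSupport (adjointFn φ) := hasCompactSupport_adjointFn32 hφs
  refine isEK_sum32 hF s (fun i g => conj (c i) * adjointFn φ ((h i)⁻¹ * g)) (fun i _ => ?_)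
    (fun i _ => ?_) (fun i _ => ?_)
  · exact continuous_const.mul (hac.comp (continuous_const.mul continuous_id))
  · exact (has.comp_homeomorph (Homeomorph.mulLeft (h i)⁻¹)).mul_left
  · exact isEK_smul32 (isEK_lshift32 hF hφ (h i)⁻¹) (conj (c i))

/-! ## 3. Right averages over a compact parameter set -/

section Avg

variable {Ω : Type} [TopologicalSpace Ω] [T2Space Ω] [MeasurableSpace Ω] [OpensMeasurableSpace Ω]

/-- The right average `g ↦ ∫_{a ∈ k} c(a) φ(g Y(a)) dν(a)`. -/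
def rightAvg32 (ν : Measure Ω) (k : Set Ω) (c : Ω → ℂ) (Y : Ω → G K) (φ : G K → ℂ) :
    G K → ℂ :=
  fun g => ∫ a in k, c a * φ (g * Y a) ∂ν

theorem rightAvg32_apply (ν : Measure Ω) (k : Set Ω) (c : Ω → ℂ) (Y : Ω → G K)
    (φ : G K → ℂ) (g : G K) :
    rightAvg32 ν k c Y φ g = ∫ a in k, c a * φ (g * Y a) ∂ν := rfl

/-- A point of the support of the average is a right translate of a point of the support. -/
theorem exists_of_rightAvg_ne_zero32 {ν : Measure Ω} {k : Set Ω} {c : Ω → ℂ} {Y : Ω → G K}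
    {φ : G K → ℂ} {g : G K} (hg : rightAvg32 ν k c Y φ g ≠ 0) :
    ∃ a ∈ k, φ (g * Y a) ≠ 0 := by
  by_contra hcon
  apply hg
  rw [rightAvg32_apply]
  refine setIntegral_eq_zero_of_forall_eq_zero fun a ha => ?_
  have : φ (g * Y a) = 0 := by
    by_contra h
    exact hcon ⟨a, ha, h⟩
  rw [this, mul_zero]

theorem hasCompactSupport_rightAvg32 (ν : Measure Ω) {k : Set Ω} (hk : IsCompact k)
    (c : Ω → ℂ) {Y : Ω → G K} (hY : Continuous Y) {φ : G K → ℂ} (hφs : HasCompactSupport φ) :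
    HasCompactSupport (rightAvg32 ν k c Y φ) := by
  have hK : IsCompact (tsupport φ * (Y '' k)⁻¹) :=
    hφs.isCompact.mul (hk.image hY).inv
  refine HasCompactSupport.intro hK ?_
  intro g hg
  by_contra hne
  apply hg
  obtain ⟨a, ha, hφa⟩ := exists_of_rightAvg_ne_zero32 hne
  refine ⟨g * Y a, subset_tsupport _ hφa, (Y a)⁻¹, ?_, by simp⟩
  exact Set.inv_mem_inv.mpr ⟨a, ha, rfl⟩

theorem continuous_rightAvg32 (hT : T1.T1Out K) (ν : Measure Ω) [IsLocallyFiniteMeasure ν]
    {k : Set Ω} (hk : IsCompact k) {c : Ω → ℂ} (hc : Continuous c) {Y : Ω → G K}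
    (hY : Continuous Y) {φ : G K → ℂ} (hφc : Continuous φ) :
    Continuous (rightAvg32 ν k c Y φ) := by
  have hLC : LocallyCompactSpace (G K) := hT.locComp.2.1
  have hSC : SecondCountableTopology (G K) := hT.locComp.2.2.2
  have hf : Continuous (Function.uncurry fun (g : G K) (a : Ω) => c a * φ (g * Y a)) := by
    show Continuous fun p : G K × Ω => c p.2 * φ (p.1 * Y p.2)
    exact (hc.comp continuous_snd).mul
      (hφc.comp (continuous_fst.mul (hY.comp continuous_snd)))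
  exact continuous_parametric_integral_of_continuous hf hk

/-- **`R` of a right average**: `R(avg) e (x) = ∫_{a ∈ k} c(a) R(φ) (e(· Y(a)⁻¹)) (x) dν(a)`. -/
theorem Rconv_rightAvg32 (hT : T1.T1Out K) (hF : IsFrame μ F) (ν : Measure Ω)
    [IsFiniteMeasureOnCompacts ν] {k : Set Ω} (hk : IsCompact k) {c : Ω → ℂ}
    (hc : Continuous c) {Y : Ω → G K} (hY : Continuous Y) {φ : G K → ℂ} (hφc : Continuous φ)
    (hφs : HasCompactSupport φ) {e : G K → ℂ} (he : Continuous e) (x : G K) :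
    Rconv μ (rightAvg32 ν k c Y φ) e x
      = ∫ a in k, c a * Rconv μ φ (fun y => e (y * (Y a)⁻¹)) x ∂ν := by
  classical
  have hBorel : BorelSpace (G K) := H277.borelSpaceG277
  have hLC : LocallyCompactSpace (G K) := hT.locComp.2.1
  have hT2 : T2Space (G K) := hT.locComp.2.2.1
  have hSC : SecondCountableTopology (G K) := hT.locComp.2.2.2
  have hHaar : μ.IsHaarMeasure := hF.haar
  have hνk : ν k < ⊤ := hk.measure_lt_top
  have : IsFiniteMeasure (ν.restrict k) := ⟨by rw [Measure.restrict_apply_univ]; exact hνk⟩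
  -- the compact set which carries the integrand in the variable `y`
  set C : Set (G K) := tsupport φ * (Y '' k)⁻¹ with hCdef
  have hC : IsCompact C := hφs.isCompact.mul (hk.image hY).inv
  have hCmem : ∀ (y : G K) (a : Ω), a ∈ k → φ (y * Y a) ≠ 0 → y ∈ C := by
    intro y a ha hne
    refine ⟨y * Y a, subset_tsupport _ hne, (Y a)⁻¹, Set.inv_mem_inv.mpr ⟨a, ha, rfl⟩, by simp⟩
  let f : G K → Ω → ℂ := fun y a => c a * φ (y * Y a) * e (x * y)
  have hfc : Continuous (Function.uncurry f) := by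
    show Continuous fun p : G K × Ω => c p.2 * φ (p.1 * Y p.2) * e (x * p.1)
    exact ((hc.comp continuous_snd).mul
      (hφc.comp (continuous_fst.mul (hY.comp continuous_snd)))).mul
      (he.comp (continuous_const.mul continuous_fst))
  -- a bound on `C × k`
  obtain ⟨M, hM⟩ := (hC.prod hk).exists_bound_of_continuousOn
    (f := Function.uncurry f) hfc.continuousOn
  have hdom : ∀ᵐ p ∂(μ.prod (ν.restrict k)),
      ‖Function.uncurry f p‖ ≤ (C.indicator (fun _ => max M 0) p.1 : ℝ) := by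
    have hk' : ∀ᵐ a ∂(ν.restrict k), a ∈ k := by
      have hkm : MeasurableSet k := hk.isClosed.measurableSet
      exact ae_restrict_mem hkm
    have hk'' : ∀ᵐ p ∂(μ.prod (ν.restrict k)), p.2 ∈ k := by
      have := (Measure.quasiMeasurePreserving_snd (μ := μ) (ν := ν.restrict k)).ae hk'
      exact this
    filter_upwards [hk''] with p hp
    by_cases hpC : p.1 ∈ C
    · rw [Set.indicator_of_mem hpC]
      exact (hM p ⟨hpC, hp⟩).trans (le_max_left _ _)
    · rw [Set.indicator_of_notMem hpC]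
      have h0 : φ (p.1 * Y p.2) = 0 := by
        by_contra h
        exact hpC (hCmem p.1 p.2 hp h)
      show ‖c p.2 * φ (p.1 * Y p.2) * e (x * p.1)‖ ≤ 0
      rw [h0, mul_zero, zero_mul, norm_zero]
  have hbd : Integrable (fun p : G K × Ω => (C.indicator (fun _ => max M 0) p.1 : ℝ))
      (μ.prod (ν.restrict k)) := by
    have h1 : Integrable (C.indicator fun _ : G K => max M 0) μ :=
      (integrable_indicator_iff hC.measurableSet).mpr
        (integrableOn_const hC.measure_lt_top.ne (by simp))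
    exact h1.comp_fst (ν.restrict k)
  have hint : Integrable (Function.uncurry f) (μ.prod (ν.restrict k)) :=
    hbd.mono' hfc.aestronglyMeasurable hdom
  have hswap := integral_integral_swap hint
  -- the two sides
  have hL : Rconv μ (rightAvg32 ν k c Y φ) e x = ∫ y, ∫ a, f y a ∂(ν.restrict k) ∂μ := by
    unfold Rconv
    congr 1
    funext y
    rw [rightAvg32_apply, ← integral_mul_const]
  have hR : ∀ a : Ω, ∫ y, f y a ∂μ = c a * Rconv μ φ (fun y => e (y * (Y a)⁻¹)) x := by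
    intro a
    rw [← Rconv_shift32 hF φ e (Y a) x]
    unfold Rconv
    rw [← integral_const_mul]
    congr 1
    funext y
    show c a * φ (y * Y a) * e (x * y) = c a * (φ (y * Y a) * e (x * y))
    ring
  rw [hL, hswap]
  congr 1
  funext a
  exact hR a

/-- **Right averages of Eisenstein-killing functions are Eisenstein-killing.** -/
theorem isEK_rightAvg32 (hT : T1.T1Out K) (hF : IsFrame μ F) (ν : Measure Ω)
    [IsFiniteMeasureOnCompacts ν] {k : Set Ω} (hk : IsCompact k) {c : Ω → ℂ}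
    (hc : Continuous c) {Y : Ω → G K} (hY : Continuous Y) {φ : G K → ℂ} (hφc : Continuous φ)
    (hφs : HasCompactSupport φ) (hφ : IsEK μ φ) : IsEK μ (rightAvg32 ν k c Y φ) := by
  intro Ψ hΨ x
  rw [Rconv_rightAvg32 hT hF ν hk hc hY hφc hφs hΨ.cont x]
  refine setIntegral_eq_zero_of_forall_eq_zero fun a _ => ?_
  rw [hφ _ (isBorelInvariantFn_shift32 hΨ (Y a)⁻¹) x, mul_zero]

/-- The left average `g ↦ ∫_{a ∈ k} c(a) ψ(Y(a) g) dν(a)`. -/
def leftAvg32 (ν : Measure Ω) (k : Set Ω) (c : Ω → ℂ) (Y : Ω → G K) (ψ : G K → ℂ) :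
    G K → ℂ :=
  fun g => ∫ a in k, c a * ψ (Y a * g) ∂ν

theorem leftAvg32_apply (ν : Measure Ω) (k : Set Ω) (c : Ω → ℂ) (Y : Ω → G K)
    (ψ : G K → ℂ) (g : G K) :
    leftAvg32 ν k c Y ψ g = ∫ a in k, c a * ψ (Y a * g) ∂ν := rfl

/-- The adjoint of a right average is the left average of the adjoint over the inverses. -/
theorem adjointFn_rightAvg32 (ν : Measure Ω) (k : Set Ω) (c : Ω → ℂ) (Y : Ω → G K)
    (φ : G K → ℂ) :
    adjointFn (rightAvg32 ν k c Y φ)
      = leftAvg32 ν k (fun a => conj (c a)) (fun a => (Y a)⁻¹) (adjointFn φ) := by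
  funext g
  show conj (∫ a in k, c a * φ (g⁻¹ * Y a) ∂ν)
    = ∫ a in k, conj (c a) * conj (φ (((Y a)⁻¹ * g)⁻¹)) ∂ν
  rw [← integral_conj]
  congr 1
  funext a
  simp only [map_mul, mul_inv_rev, inv_inv]

/-- **`R` of a left average**: `R(avg) e (x) = ∫_{a ∈ k} c(a) R(ψ) e (x Y(a)⁻¹) dν(a)`. -/
theorem Rconv_leftAvg32 (hT : T1.T1Out K) (hF : IsFrame μ F) (ν : Measure Ω)
    [IsFiniteMeasureOnCompacts ν] {k : Set Ω} (hk : IsCompact k) {c : Ω → ℂ}
    (hc : Continuous c) {Y : Ω → G K} (hY : Continuous Y) {ψ : G K → ℂ} (hψc : Continuous ψ)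
    (hψs : HasCompactSupport ψ) {e : G K → ℂ} (he : Continuous e) (x : G K) :
    Rconv μ (leftAvg32 ν k c Y ψ) e x
      = ∫ a in k, c a * Rconv μ ψ e (x * (Y a)⁻¹) ∂ν := by
  classical
  have hBorel : BorelSpace (G K) := H277.borelSpaceG277
  have hLC : LocallyCompactSpace (G K) := hT.locComp.2.1
  have hT2 : T2Space (G K) := hT.locComp.2.2.1
  have hSC : SecondCountableTopology (G K) := hT.locComp.2.2.2
  have hHaar : μ.IsHaarMeasure := hF.haar
  have hνk : ν k < ⊤ := hk.measure_lt_top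
  have : IsFiniteMeasure (ν.restrict k) := ⟨by rw [Measure.restrict_apply_univ]; exact hνk⟩
  set C : Set (G K) := (Y '' k)⁻¹ * tsupport ψ with hCdef
  have hC : IsCompact C := (hk.image hY).inv.mul hψs.isCompact
  have hCmem : ∀ (y : G K) (a : Ω), a ∈ k → ψ (Y a * y) ≠ 0 → y ∈ C := by
    intro y a ha hne
    refine ⟨(Y a)⁻¹, Set.inv_mem_inv.mpr ⟨a, ha, rfl⟩, Y a * y, subset_tsupport _ hne, by simp⟩
  let f : G K → Ω → ℂ := fun y a => c a * ψ (Y a * y) * e (x * y)
  have hfc : Continuous (Function.uncurry f) := by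
    show Continuous fun p : G K × Ω => c p.2 * ψ (Y p.2 * p.1) * e (x * p.1)
    exact ((hc.comp continuous_snd).mul
      (hψc.comp ((hY.comp continuous_snd).mul continuous_fst))).mul
      (he.comp (continuous_const.mul continuous_fst))
  obtain ⟨M, hM⟩ := (hC.prod hk).exists_bound_of_continuousOn
    (f := Function.uncurry f) hfc.continuousOn
  have hdom : ∀ᵐ p ∂(μ.prod (ν.restrict k)),
      ‖Function.uncurry f p‖ ≤ (C.indicator (fun _ => max M 0) p.1 : ℝ) := by
    have hk' : ∀ᵐ a ∂(ν.restrict k), a ∈ k := by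
      have hkm : MeasurableSet k := hk.isClosed.measurableSet
      exact ae_restrict_mem hkm
    have hk'' : ∀ᵐ p ∂(μ.prod (ν.restrict k)), p.2 ∈ k := by
      have := (Measure.quasiMeasurePreserving_snd (μ := μ) (ν := ν.restrict k)).ae hk'
      exact this
    filter_upwards [hk''] with p hp
    by_cases hpC : p.1 ∈ C
    · rw [Set.indicator_of_mem hpC]
      exact (hM p ⟨hpC, hp⟩).trans (le_max_left _ _)
    · rw [Set.indicator_of_notMem hpC]
      have h0 : ψ (Y p.2 * p.1) = 0 := by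
        by_contra h
        exact hpC (hCmem p.1 p.2 hp h)
      show ‖c p.2 * ψ (Y p.2 * p.1) * e (x * p.1)‖ ≤ 0
      rw [h0, mul_zero, zero_mul, norm_zero]
  have hbd : Integrable (fun p : G K × Ω => (C.indicator (fun _ => max M 0) p.1 : ℝ))
      (μ.prod (ν.restrict k)) := by
    have h1 : Integrable (C.indicator fun _ : G K => max M 0) μ :=
      (integrable_indicator_iff hC.measurableSet).mpr
        (integrableOn_const hC.measure_lt_top.ne (by simp))
    exact h1.comp_fst (ν.restrict k)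
  have hint : Integrable (Function.uncurry f) (μ.prod (ν.restrict k)) :=
    hbd.mono' hfc.aestronglyMeasurable hdom
  have hswap := integral_integral_swap hint
  have hL : Rconv μ (leftAvg32 ν k c Y ψ) e x = ∫ y, ∫ a, f y a ∂(ν.restrict k) ∂μ := by
    unfold Rconv
    congr 1
    funext y
    rw [leftAvg32_apply, ← integral_mul_const]
  have hR : ∀ a : Ω, ∫ y, f y a ∂μ = c a * Rconv μ ψ e (x * (Y a)⁻¹) := by
    intro a
    rw [← Rconv_lshift32 hF ψ e (Y a) x]
    unfold Rconv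
    rw [← integral_const_mul]
    congr 1
    funext y
    show c a * ψ (Y a * y) * e (x * y) = c a * (ψ (Y a * y) * e (x * y))
    ring
  rw [hL, hswap]
  congr 1
  funext a
  exact hR a

/-- **Left averages of Eisenstein-killing functions are Eisenstein-killing.** -/
theorem isEK_leftAvg32 (hT : T1.T1Out K) (hF : IsFrame μ F) (ν : Measure Ω)
    [IsFiniteMeasureOnCompacts ν] {k : Set Ω} (hk : IsCompact k) {c : Ω → ℂ}
    (hc : Continuous c) {Y : Ω → G K} (hY : Continuous Y) {ψ : G K → ℂ} (hψc : Continuous ψ)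
    (hψs : HasCompactSupport ψ) (hψ : IsEK μ ψ) : IsEK μ (leftAvg32 ν k c Y ψ) := by
  intro Ψ hΨ x
  rw [Rconv_leftAvg32 hT hF ν hk hc hY hψc hψs hΨ.cont x]
  refine setIntegral_eq_zero_of_forall_eq_zero fun a _ => ?_
  rw [hψ Ψ hΨ _, mul_zero]

/-- **The adjoint of a right average is Eisenstein-killing if the adjoint of `φ` is.** -/
theorem isEK_adjoint_rightAvg32 (hT : T1.T1Out K) (hF : IsFrame μ F) (ν : Measure Ω)
    [IsFiniteMeasureOnCompacts ν] {k : Set Ω} (hk : IsCompact k) {c : Ω → ℂ}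
    (hc : Continuous c) {Y : Ω → G K} (hY : Continuous Y) {φ : G K → ℂ} (hφc : Continuous φ)
    (hφs : HasCompactSupport φ) (hφ : IsEK μ (adjointFn φ)) :
    IsEK μ (adjointFn (rightAvg32 ν k c Y φ)) := by
  rw [adjointFn_rightAvg32]
  exact isEK_leftAvg32 hT hF ν hk (Complex.continuous_conj.comp hc) hY.inv
    (continuous_adjointFn32 hφc) (hasCompactSupport_adjointFn32 hφs) hφ

end Avg

/-! ## 4. Iwahori support -/

/-- An element which is trivial at `w` is Iwahori at `w`. -/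
theorem inIwahori_of_trivAtFin32 {w : HeightOneSpectrum (𝓞 K)} {h : G K} (hh : TrivAtFin w h) :
    InIwahori w h := by
  have h1 : finComp w h = 1 := hh
  have h2 : finComp w h⁻¹ = 1 := by
    have := finComp_mul942 w h h⁻¹
    rw [mul_inv_cancel, finComp_one942, h1, one_mul] at this
    exact this.symm
  refine ⟨fun i j => ?_, fun i j => ?_, ?_⟩
  · rw [h1]
    by_cases hij : i = j
    · subst hij
      rw [Matrix.one_apply_eq]
      exact Subring.one_mem _
    · rw [Matrix.one_apply_ne hij]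
      exact Subring.zero_mem _
  · rw [h2]
    by_cases hij : i = j
    · subst hij
      rw [Matrix.one_apply_eq]
      exact Subring.one_mem _
    · rw [Matrix.one_apply_ne hij]
      exact Subring.zero_mem _
  · rw [h1, Matrix.one_apply_ne (by decide : (1 : Fin 2) ≠ 0), map_zero]
    exact zero_lt_one

theorem trivAtFin_inv32 {w : HeightOneSpectrum (𝓞 K)} {h : G K} (hh : TrivAtFin w h) :
    TrivAtFin w h⁻¹ := by
  have h1 : finComp w h = 1 := hh
  have := finComp_mul942 w h h⁻¹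
  rw [mul_inv_cancel, finComp_one942, h1, one_mul] at this
  exact this.symm

/-- **Iwahori support is stable under right translation** by an element which is trivial at the
places of the orbit. -/
theorem isIwSupported_shift32 {l : ℕ} {o : ℕ → HeightOneSpectrum (𝓞 K)} {C : Set (G K)}
    {φ : G K → ℂ} (hφ : IsIwSupported32 l o C φ) {h : G K}
    (hh : ∀ j : ℕ, j < l → TrivAtFin (o j) h) :
    IsIwSupported32 l o (C * {h⁻¹}) (fun g => φ (g * h)) := by
  intro y hy
  obtain ⟨hI, c, hc, hyc⟩ := hφ (y * h) hy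
  have hy' : y = y * h * h⁻¹ := by simp
  refine ⟨fun j hj => ?_, c * h⁻¹, ⟨c, hc, h⁻¹, rfl, rfl⟩, ?_⟩
  · rw [hy']
    exact inIwahori_mul942 (o j) (hI j hj) (inIwahori_of_trivAtFin32 (trivAtFin_inv32 (hh j hj)))
  · rw [hy']
    exact agreeOutside_mul942 _ hyc (agreeOutside_refl942 _ _)

/-- **Iwahori support of a right average.** -/
theorem isIwSupported_rightAvg32 {Ω : Type} [TopologicalSpace Ω] [T2Space Ω]
    [MeasurableSpace Ω] [OpensMeasurableSpace Ω] (ν : Measure Ω) (k : Set Ω)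
    (c : Ω → ℂ) (Y : Ω → G K) {l : ℕ} {o : ℕ → HeightOneSpectrum (𝓞 K)} {C : Set (G K)}
    {φ : G K → ℂ} (hφ : IsIwSupported32 l o C φ)
    (hY : ∀ a ∈ k, ∀ j : ℕ, j < l → TrivAtFin (o j) (Y a)) :
    IsIwSupported32 l o (C * (Y '' k)⁻¹) (rightAvg32 ν k c Y φ) := by
  intro y hy
  obtain ⟨a, ha, hne⟩ := exists_of_rightAvg_ne_zero32 hy
  obtain ⟨hI, h0, hh0, hag⟩ := isIwSupported_shift32 hφ (hY a ha) y hne
  refine ⟨hI, h0, ?_, hag⟩
  obtain ⟨c₀, hc₀, z, hz, rfl⟩ := hh0
  rw [Set.mem_singleton_iff] at hz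
  subst hz
  exact ⟨c₀, hc₀, (Y a)⁻¹, Set.inv_mem_inv.mpr ⟨a, ha, rfl⟩, rfl⟩

/-- **Iwahori support of a finite linear combination of right translates.** -/
theorem isIwSupported_sum_shift32 {ι : Type} (s : Finset ι) (c : ι → ℂ) (h : ι → G K) {l : ℕ}
    {o : ℕ → HeightOneSpectrum (𝓞 K)} {C : Set (G K)} {φ : G K → ℂ}
    (hφ : IsIwSupported32 l o C φ) (hh : ∀ i ∈ s, ∀ j : ℕ, j < l → TrivAtFin (o j) (h i)) :
    IsIwSupported32 l o (C * ((fun i => (h i)⁻¹) '' (s : Set ι)))
      (fun g => ∑ i ∈ s, c i * φ (g * h i)) := by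
  intro y hy
  obtain ⟨i, hi, hne⟩ : ∃ i ∈ s, φ (y * h i) ≠ 0 := by
    by_contra hcon
    apply hy
    refine Finset.sum_eq_zero fun i hi => ?_
    have : φ (y * h i) = 0 := by
      by_contra hne
      exact hcon ⟨i, hi, hne⟩
    rw [this, mul_zero]
  obtain ⟨hI, h0, hh0, hag⟩ := isIwSupported_shift32 hφ (hh i hi) y hne
  refine ⟨hI, h0, ?_, hag⟩
  obtain ⟨c₀, hc₀, z, hz, rfl⟩ := hh0
  rw [Set.mem_singleton_iff] at hz
  subst hz
  exact ⟨c₀, hc₀, (h i)⁻¹, ⟨i, hi, rfl⟩, rfl⟩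

/-! ## 5. The sphere mean (the form of `T7.MeanEig` / `T2.sphereMean`) -/

/-- The sphere mean `∫_0^{2π} ∫_0^π φ(g Y(α,β)) sin β dβ dα` is a right average over the compact
rectangle `[0, 2π] × [0, π]`. -/
theorem sphere_eq_rightAvg32 {Y : ℝ → ℝ → G K} (hY : Continuous fun p : ℝ × ℝ => Y p.1 p.2)
    {φ : G K → ℂ} (hφ : Continuous φ) (g : G K) :
    (∫ α in (0 : ℝ)..(2 * Real.pi), ∫ β in (0 : ℝ)..Real.pi,
        φ (g * Y α β) * ((Real.sin β : ℝ) : ℂ))
      = rightAvg32 (volume : Measure (ℝ × ℝ)) (Set.Icc 0 (2 * Real.pi) ×ˢ Set.Icc 0 Real.pi)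
          (fun p => ((Real.sin p.2 : ℝ) : ℂ)) (fun p => Y p.1 p.2) φ g := by
  rw [rightAvg32_apply]
  have h2π : (0 : ℝ) ≤ 2 * Real.pi := by positivity
  have hπ : (0 : ℝ) ≤ Real.pi := Real.pi_pos.le
  rw [intervalIntegral.integral_of_le h2π]
  simp_rw [intervalIntegral.integral_of_le hπ]
  have hcont : Continuous fun p : ℝ × ℝ => ((Real.sin p.2 : ℝ) : ℂ) * φ (g * Y p.1 p.2) :=
    (Complex.continuous_ofReal.comp (Real.continuous_sin.comp continuous_snd)).mul
      (hφ.comp (continuous_const.mul hY))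
  have hint : IntegrableOn (fun p : ℝ × ℝ => ((Real.sin p.2 : ℝ) : ℂ) * φ (g * Y p.1 p.2))
      (Set.Icc 0 (2 * Real.pi) ×ˢ Set.Icc 0 Real.pi)
      ((volume : Measure ℝ).prod (volume : Measure ℝ)) :=
    hcont.continuousOn.integrableOn_compact (isCompact_Icc.prod isCompact_Icc)
  rw [Measure.volume_eq_prod, setIntegral_prod _ hint, setIntegral_congr_set Ioc_ae_eq_Icc]
  congr 1
  funext α
  rw [setIntegral_congr_set Ioc_ae_eq_Icc]
  congr 1
  funext β
  ring

/-- The sphere mean as a function. -/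
theorem sphere_fun_eq_rightAvg32 {Y : ℝ → ℝ → G K}
    (hY : Continuous fun p : ℝ × ℝ => Y p.1 p.2) {φ : G K → ℂ} (hφ : Continuous φ) :
    (fun g : G K => ∫ α in (0 : ℝ)..(2 * Real.pi), ∫ β in (0 : ℝ)..Real.pi,
        φ (g * Y α β) * ((Real.sin β : ℝ) : ℂ))
      = rightAvg32 (volume : Measure (ℝ × ℝ)) (Set.Icc 0 (2 * Real.pi) ×ˢ Set.Icc 0 Real.pi)
          (fun p => ((Real.sin p.2 : ℝ) : ℂ)) (fun p => Y p.1 p.2) φ :=
  funext fun g => sphere_eq_rightAvg32 hY hφ g

theorem continuous_sin_snd32 : Continuous fun p : ℝ × ℝ => ((Real.sin p.2 : ℝ) : ℂ) :=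
  Complex.continuous_ofReal.comp (Real.continuous_sin.comp continuous_snd)

/-- **The sphere mean of a continuous function is continuous.** -/
theorem continuous_sphere32 (hT : T1.T1Out K) {Y : ℝ → ℝ → G K}
    (hY : Continuous fun p : ℝ × ℝ => Y p.1 p.2) {φ : G K → ℂ} (hφ : Continuous φ) :
    Continuous (fun g : G K => ∫ α in (0 : ℝ)..(2 * Real.pi), ∫ β in (0 : ℝ)..Real.pi,
        φ (g * Y α β) * ((Real.sin β : ℝ) : ℂ)) := by
  rw [sphere_fun_eq_rightAvg32 hY hφ]
  exact continuous_rightAvg32 hT _ (isCompact_Icc.prod isCompact_Icc) continuous_sin_snd32 hY hφ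

/-- **The sphere mean of a continuous function of compact support has compact support.** -/
theorem hasCompactSupport_sphere32 {Y : ℝ → ℝ → G K}
    (hY : Continuous fun p : ℝ × ℝ => Y p.1 p.2) {φ : G K → ℂ} (hφ : Continuous φ)
    (hφs : HasCompactSupport φ) :
    HasCompactSupport (fun g : G K => ∫ α in (0 : ℝ)..(2 * Real.pi),
      ∫ β in (0 : ℝ)..Real.pi, φ (g * Y α β) * ((Real.sin β : ℝ) : ℂ)) := by
  rw [sphere_fun_eq_rightAvg32 hY hφ]
  exact hasCompactSupport_rightAvg32 _ (isCompact_Icc.prod isCompact_Icc) _ hY hφs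

/-- **The sphere mean of an Eisenstein-killing test function is Eisenstein-killing.** -/
theorem isEK_sphere32 (hT : T1.T1Out K) (hF : IsFrame μ F) {Y : ℝ → ℝ → G K}
    (hY : Continuous fun p : ℝ × ℝ => Y p.1 p.2) {φ : G K → ℂ} (hφc : Continuous φ)
    (hφs : HasCompactSupport φ) (hφ : IsEK μ φ) :
    IsEK μ (fun g : G K => ∫ α in (0 : ℝ)..(2 * Real.pi), ∫ β in (0 : ℝ)..Real.pi,
      φ (g * Y α β) * ((Real.sin β : ℝ) : ℂ)) := by
  rw [sphere_fun_eq_rightAvg32 hY hφc]
  exact isEK_rightAvg32 hT hF _ (isCompact_Icc.prod isCompact_Icc) continuous_sin_snd32 hY hφc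
    hφs hφ

/-- **The adjoint of the sphere mean is Eisenstein-killing if the adjoint of `φ` is.** -/
theorem isEK_adjoint_sphere32 (hT : T1.T1Out K) (hF : IsFrame μ F) {Y : ℝ → ℝ → G K}
    (hY : Continuous fun p : ℝ × ℝ => Y p.1 p.2) {φ : G K → ℂ} (hφc : Continuous φ)
    (hφs : HasCompactSupport φ) (hφ : IsEK μ (adjointFn φ)) :
    IsEK μ (adjointFn (fun g : G K => ∫ α in (0 : ℝ)..(2 * Real.pi),
      ∫ β in (0 : ℝ)..Real.pi, φ (g * Y α β) * ((Real.sin β : ℝ) : ℂ))) := by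
  rw [sphere_fun_eq_rightAvg32 hY hφc]
  exact isEK_adjoint_rightAvg32 hT hF _ (isCompact_Icc.prod isCompact_Icc) continuous_sin_snd32
    hY hφc hφs hφ

/-- **`R` of the sphere mean**: `R(M φ) e (x) = ∫∫ sin β · R(φ)(e(· Y(α,β)⁻¹))(x)`. -/
theorem Rconv_sphere32 (hT : T1.T1Out K) (hF : IsFrame μ F) {Y : ℝ → ℝ → G K}
    (hY : Continuous fun p : ℝ × ℝ => Y p.1 p.2) {φ : G K → ℂ} (hφc : Continuous φ)
    (hφs : HasCompactSupport φ) {e : G K → ℂ} (he : Continuous e) (x : G K) :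
    Rconv μ (fun g : G K => ∫ α in (0 : ℝ)..(2 * Real.pi), ∫ β in (0 : ℝ)..Real.pi,
        φ (g * Y α β) * ((Real.sin β : ℝ) : ℂ)) e x
      = ∫ p in Set.Icc (0 : ℝ) (2 * Real.pi) ×ˢ Set.Icc (0 : ℝ) Real.pi,
          ((Real.sin p.2 : ℝ) : ℂ) * Rconv μ φ (fun y => e (y * (Y p.1 p.2)⁻¹)) x := by
  rw [sphere_fun_eq_rightAvg32 hY hφc]
  exact Rconv_rightAvg32 hT hF _ (isCompact_Icc.prod isCompact_Icc) continuous_sin_snd32 hY hφc
    hφs he x

/-- **Iwahori support of the sphere mean** (the sphere lives at an infinite place). -/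
theorem isIwSupported_sphere32 {Y : ℝ → ℝ → G K}
    (hY : Continuous fun p : ℝ × ℝ => Y p.1 p.2) {l : ℕ} {o : ℕ → HeightOneSpectrum (𝓞 K)}
    {C : Set (G K)} {φ : G K → ℂ} (hφc : Continuous φ) (hφ : IsIwSupported32 l o C φ)
    (hYf : ∀ (α β : ℝ) (j : ℕ), j < l → TrivAtFin (o j) (Y α β)) :
    IsIwSupported32 l o
      (C * ((fun p : ℝ × ℝ => Y p.1 p.2) '' (Set.Icc 0 (2 * Real.pi) ×ˢ Set.Icc 0 Real.pi))⁻¹)
      (fun g : G K => ∫ α in (0 : ℝ)..(2 * Real.pi), ∫ β in (0 : ℝ)..Real.pi,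
        φ (g * Y α β) * ((Real.sin β : ℝ) : ℂ)) := by
  rw [sphere_fun_eq_rightAvg32 hY hφc]
  exact isIwSupported_rightAvg32 _ _ _ _ hφ fun a _ j hj => hYf a.1 a.2 j hj

end Fermat.Agent.LT.T5.H32

end

end
-- ===== PACK-END LT/T5/H32/ShiftKit.lean

-- ===== PACK-BEGIN LT/T7/H949/OpAvgKit.lean
section



/-!
# Row LT, tower T7, node T7.L2Q.1.H2b.4.G1 `PQ563.OpAvgQC563` (registry row 2967, helper949):
# the calculus of averages under finite combinations of left translations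

OFF-MAIN, ADDITIVE (all names end in `949`).  Nothing assumed.

* `IsFinTr949 Op` : the operator `Op` on functions on a group is a finite linear combination of
  left translations; `H893.ltr`, `H893.lsum`, `H893.iwL`, `H893.regL` and their compositions
  are of this kind.
* `IsAvgFam949 ν ψ φ` : `φ` is the average over the parameter space of the jointly continuous
  family `ψ` with a common compact support; the class is stable under the operators above.
-/

set_option autoImplicit false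
set_option linter.unusedSectionVars false

open MeasureTheory

noncomputable section

namespace Fermat.Agent.LT.T7.H949

section FinTr

variable {Γ : Type} [Group Γ]

/-- `Op` is a finite linear combination of left translations. -/
def IsFinTr949 (Op : (Γ → ℂ) → Γ → ℂ) : Prop :=
  ∃ (ι : Type) (s : Finset ι) (c : ι → ℂ) (b : ι → Γ),
    ∀ (ψ : Γ → ℂ) (y : Γ), Op ψ y = ∑ i ∈ s, c i * ψ ((b i)⁻¹ * y)

theorem isFinTr_id949 : IsFinTr949 (fun ψ : Γ → ℂ => ψ) :=
  ⟨Unit, {()}, fun _ => 1, fun _ => 1, fun ψ y => by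
    rw [Finset.sum_singleton, one_mul, inv_one, one_mul]⟩

theorem isFinTr_comp949 {A B : (Γ → ℂ) → Γ → ℂ} (hA : IsFinTr949 A) (hB : IsFinTr949 B) :
    IsFinTr949 (fun ψ => A (B ψ)) := by
  obtain ⟨ι, s, c, b, h⟩ := hA
  obtain ⟨ι', s', c', b', h'⟩ := hB
  refine ⟨ι × ι', s ×ˢ s', fun p => c p.1 * c' p.2, fun p => b p.1 * b' p.2, fun ψ y => ?_⟩
  show A (B ψ) y = _
  rw [h, Finset.sum_product]
  refine Finset.sum_congr rfl fun i _ => ?_
  rw [h', Finset.mul_sum]
  refine Finset.sum_congr rfl fun j _ => ?_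
  show c i * (c' j * ψ ((b' j)⁻¹ * ((b i)⁻¹ * y))) = c i * c' j * ψ ((b i * b' j)⁻¹ * y)
  rw [mul_inv_rev, mul_assoc, mul_assoc]

theorem isFinTr_iterate949 {A : (Γ → ℂ) → Γ → ℂ} (hA : IsFinTr949 A) (m : ℕ) :
    IsFinTr949 (A^[m]) := by
  induction m with
  | zero => exact isFinTr_id949
  | succ m ih =>
    rw [Function.iterate_succ']
    exact isFinTr_comp949 (A := A) (B := A^[m]) hA ih

/-- Operators of this kind are linear. -/
theorem isFinTr_const_mul949 {Op : (Γ → ℂ) → Γ → ℂ} (hOp : IsFinTr949 Op) (c₀ : ℂ)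
    (ψ : Γ → ℂ) (y : Γ) : Op (fun x => c₀ * ψ x) y = c₀ * Op ψ y := by
  obtain ⟨ι, s, c, b, h⟩ := hOp
  rw [h, h, Finset.mul_sum]
  refine Finset.sum_congr rfl fun i _ => ?_
  show c i * (c₀ * ψ ((b i)⁻¹ * y)) = c₀ * (c i * ψ ((b i)⁻¹ * y))
  rw [mul_left_comm]

/-- Operators of this kind act pointwise on equal functions. -/
theorem isFinTr_congr949 {Op : (Γ → ℂ) → Γ → ℂ} {ψ ψ' : Γ → ℂ} (h : ∀ y, ψ y = ψ' y) :
    Op ψ = Op ψ' := by
  have : ψ = ψ' := funext h
  rw [this]

end FinTr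

section Ops

open Fermat.Agent.LT.H556 Fermat.Agent.LT.H556.A0 Fermat.Agent.LT.T7
open IsDedekindDomain NumberField

variable {K : Type} [Field K] [NumberField K]

theorem isFinTr_ltr949 (b : G K) : IsFinTr949 (H893.ltr b) :=
  ⟨Unit, {()}, fun _ => 1, fun _ => b, fun ψ y => by
    rw [Finset.sum_singleton, one_mul]
    rfl⟩

theorem isFinTr_lsum949 (H : Finset (G K)) : IsFinTr949 (H893.lsum H) :=
  ⟨G K, H, fun _ => 1, fun h => h, fun ψ y => by
    show ∑ h ∈ H, ψ (h⁻¹ * y) = _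
    refine Finset.sum_congr rfl fun h _ => ?_
    rw [one_mul]⟩

theorem isFinTr_iwL949 (w : HeightOneSpectrum (𝓞 K)) (H : Finset (G K)) :
    IsFinTr949 (H893.iwL w H) :=
  ⟨G K, H, fun _ => ((Real.sqrt (Ideal.absNorm w.asIdeal : ℝ) : ℝ) : ℂ)⁻¹, fun h => h,
    fun ψ y => by
      show ((Real.sqrt (Ideal.absNorm w.asIdeal : ℝ) : ℝ) : ℂ)⁻¹ * ∑ h ∈ H, ψ (h⁻¹ * y) = _
      rw [Finset.mul_sum]⟩

theorem isFinTr_regL949 (w : HeightOneSpectrum (𝓞 K)) (z : G K) (H : Finset (G K)) (k : ℤ)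
    (m : ℕ) : IsFinTr949 (H893.regL w z H k m) :=
  isFinTr_comp949 (A := H893.ltr (z ^ k)) (B := (H893.iwL w H)^[m]) (isFinTr_ltr949 (z ^ k))
    (isFinTr_iterate949 (isFinTr_iwL949 w H) m)

end Ops

section Avg

variable {Ω Γ : Type} [TopologicalSpace Ω] [MeasurableSpace Ω] [TopologicalSpace Γ]

/-- `φ` is the average over `Ω` of the jointly continuous family `ψ` with a common compact
support. -/
structure IsAvgFam949 (ν : Measure Ω) (ψ : Ω → Γ → ℂ) (φ : Γ → ℂ) : Prop where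
  cont : Continuous (fun p : Ω × Γ => ψ p.1 p.2)
  supp : ∃ C : Set Γ, IsCompact C ∧ ∀ (a : Ω) (h : Γ), ψ a h ≠ 0 → h ∈ C
  int : ∀ h : Γ, φ h = ∫ a, ψ a h ∂ν

variable [CompactSpace Ω] [BorelSpace Ω] [Group Γ] [ContinuousMul Γ]

theorem isAvgFam_integrable949 {ν : Measure Ω} [IsFiniteMeasure ν] {ψ : Ω → Γ → ℂ} {φ : Γ → ℂ}
    (h : IsAvgFam949 ν ψ φ) (y : Γ) : Integrable (fun a => ψ a y) ν := by
  have hc : Continuous (fun a => ψ a y) :=
    h.cont.comp (continuous_id.prodMk continuous_const)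
  exact hc.integrable_of_hasCompactSupport (HasCompactSupport.of_compactSpace _)

theorem isAvgFam_op949 {ν : Measure Ω} [IsFiniteMeasure ν] {Op : (Γ → ℂ) → Γ → ℂ}
    (hOp : IsFinTr949 Op) {ψ : Ω → Γ → ℂ} {φ : Γ → ℂ} (h : IsAvgFam949 ν ψ φ) :
    IsAvgFam949 ν (fun a => Op (ψ a)) (Op φ) := by
  obtain ⟨ι, s, c, b, hop⟩ := hOp
  refine ⟨?_, ?_, ?_⟩
  · have e : (fun p : Ω × Γ => Op (ψ p.1) p.2)
        = fun p : Ω × Γ => ∑ i ∈ s, c i * ψ p.1 ((b i)⁻¹ * p.2) := by
      funext p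
      exact hop _ _
    rw [e]
    refine continuous_finsetSum s fun i _ => continuous_const.mul ?_
    exact h.cont.comp (continuous_fst.prodMk (continuous_const.mul continuous_snd))
  · obtain ⟨C, hC, hCs⟩ := h.supp
    refine ⟨⋃ i ∈ s, (fun y => b i * y) '' C,
      s.isCompact_biUnion fun i _ => hC.image (continuous_const.mul continuous_id), ?_⟩
    intro a y hy
    rw [hop] at hy
    obtain ⟨i, hi, hne⟩ := Finset.exists_ne_zero_of_sum_ne_zero hy
    have hne' : ψ a ((b i)⁻¹ * y) ≠ 0 := right_ne_zero_of_mul hne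
    refine Set.mem_biUnion hi ⟨(b i)⁻¹ * y, hCs a _ hne', ?_⟩
    show b i * ((b i)⁻¹ * y) = y
    rw [mul_inv_cancel_left]
  · intro y
    rw [hop]
    have e : (fun a => Op (ψ a) y) = fun a => ∑ i ∈ s, c i * ψ a ((b i)⁻¹ * y) := by
      funext a
      exact hop _ _
    rw [e, integral_finsetSum s fun i _ => (isAvgFam_integrable949 h _).const_mul (c i)]
    refine Finset.sum_congr rfl fun i _ => ?_
    rw [integral_const_mul, h.int]

/-- The class does not see pointwise equal families. -/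
theorem isAvgFam_congr949 {ν : Measure Ω} {ψ ψ' : Ω → Γ → ℂ} {φ : Γ → ℂ}
    (h : IsAvgFam949 ν ψ φ) (e : ∀ a y, ψ a y = ψ' a y) : IsAvgFam949 ν ψ' φ := by
  have : ψ = ψ' := funext fun a => funext fun y => e a y
  rw [← this]
  exact h

end Avg

end Fermat.Agent.LT.T7.H949

end

end
-- ===== PACK-END LT/T7/H949/OpAvgKit.lean

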