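import Mathlib
import Fermat.Agent.Pack.LT2.E3L1
import Fermat.Agent.Pack.LT2.E2L1
import Fermat.Agent.Pack.LT4.E1L3
import Fermat.Agent.Pack.LT2.E6L2
import Fermat.Agent.Pack.LT2.E12L2
import Fermat.Agent.Pack.LT2.E19L2
import Fermat.Agent.Pack.LT2.E7L1
import Fermat.Agent.Pack.LT2.E6L3
import Fermat.Agent.Pack.LT2.E10L0
import Fermat.Agent.Pack.LT2.E9L2
import Fermat.Agent.Pack.LT2.E6L1
import Fermat.Agent.Pack.LT2.E15L3
import Fermat.Agent.Pack.LT2.E18L3
import Fermat.Agent.Pack.LT2.E7L3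
import Fermat.Agent.Pack.LT2.E15L2
import Fermat.Agent.Pack.LT2.E15L0
import Fermat.Agent.Pack.LT2.E9L3
import Fermat.Agent.Pack.LT2.E13L0
import Fermat.Agent.Pack.LT2.E9L1
import Fermat.Agent.Pack.LT2.E15L1
import Fermat.Agent.Pack.LT2.E16L3
import Fermat.Agent.Pack.LT2.E10L1
import Fermat.Agent.Pack.LT4.E1L2
import Fermat.Agent.Pack.LT3.E25L0
import Fermat.Agent.Pack.LT3.E18L3
import Fermat.Agent.Pack.LT4.E2L1
import Fermat.Agent.Pack.LT3.E5L3
import Fermat.Agent.Pack.LT2.E19L1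
import Fermat.Agent.Pack.LT4.E0L0
import Fermat.Agent.Pack.LT4.E2L0

set_option linter.all false

-- ===== PACK-BEGIN LT/T5/Closed.lean
section






























/-!
# Row LT, tower T5: INTEGRATION of the delivered leaves (architect helper32) — Closed v9

OFF-MAIN.  Byte-identical copies of the deliveries, rebuilt on the box of helper32 against the
frozen `T5/Spec.lean` v4 (sha256 f2d97e70548fcdd7), `H556/A0.lean` (66d3374a79cab003),
`T1/Spec.lean` v1 (e8ae48d6010e5788), `T2/Spec.lean` v3 (b934629a), `T2/SpecTau.lean` (4d2b0fc2),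
`T3/Spec.lean` v2 (44de320b86211563); `#print axioms` = the three standard axioms.

## STATE: **TOWER T5 IS CLOSED** for every level `𝔫 ≠ 0` (`tower_closed`, UNCONDITIONAL)

The estimate comes from tower T2: `T2.H32.leafT03_32 K : T2.LeafT03 K` (`GPSCoreT`; cut of
helper465, proofs of helper386, 437, 8, 187, 793, 729, 988, 250, 868, 767, 465; one-to-one port
`T2/H32/USCore.lean`), then `T2.33` (helper627) and the adapters of helper873.
The doors below stay available (the direct estimate of helper40, rows 1192 + 1194, is a SPARE).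

| leaf | state | delivered by | files (sha256) |
|---|---|---|---|
| T1 `t1Out K : T1Out K` (ALL of tower T1) | closed | helper54@272e43fd2 | `T1/Closed.lean` v7 (81b3d248) + closure |
| T5.01 `LeafAbstractTrace` (v4 form) | closed | helper800@8bb214375 (on helper379) | `T5/H800/AbstractTrace 0792025f` |
| T5.02 `LeafHS0` | FRONTIER | cuts: helper40@18a792a28, helper873@ef241cdd1, helper807@bf9464df2 | `T5/H40/{HS0Spec de8bb55a, HS0Core v2 cecf36f1, HS0Top 99983489, HS0Asm v2 cd4638ef}`, `T5/H873/{HS0Top f9186572, SupOfT2 b3908163, RangeAdapt f277d0b2}`, `T5/H807/HS0OfRange 7314fa7d` |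
| T5.02c `AdjTestC` | closed | helper409@837a5fae1 | `T5/H409/AdjTest 201c2611` |
| T5.02 `CovolOneC` | closed | helper855@c1d4b52a9 | `T5/H855/CovolOne cc95a2f7` |
| T5.02d `LowBddC` | closed | helper176@d14c949d3 | `T5/H176/LowBdd 056b9383` |
| T5.02e `OnlyBorelC`, `HeightDistC` | closed | helper392@6649da194, helper904@5c7831ed0 | `T5/H392/OnlyBorel 14341d87`, `T5/H904/{HeightDist cb1200d8, Box904 aeff16f1}` |
| T5.02f2 `TorusCountC` | closed | helper800@7ae32ae62 | `T5/H800/TorusCount 4385a4ec` |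
| T5.03 `LeafHS0 → LeafHS` | closed | helper372@3b252ccc8 | `T5/H372/LeafHS 6e26b0af` |
| T5.04 `LeafRange` | FRONTIER (= the row bound) | helper74@d4d6f33ee | `T5/H74/{RangeT1 5c7d6933, KerCusp f2a306f7}` |
| T5.04b `KerCuspC74` | closed | helper74@d4d6f33ee | `T5/H74/{KerPer 8ff5d3e3, KerUnfold 54591c51, KerConst e83e1596, KerCusp f2a306f7}` |
| T5.05 `LeafCoeff` | closed | helper277@a800c230e | `T5/H277/Coeff c01cb592` |
| T5.06 `LeafDiag` | closed | helper599@5e4329745 | `T5/H599/DiagClosed 5ff99e0e` |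
| T5.07 `LeafTwFinite` | closed | helper29@7bf0ee273 (with 675, 151, 787, 472, 965, 655, 501) | `T5/H29/TwClosed 9beb1e0c` |
| T5.08 `LeafTwUnfold` | closed | helper71@3029da62e | `T5/H71/TwUnfoldClosed 7579486a` |
| T5.09 `RegularOfIwahori` | closed | helper942@1e4cf1cb6 (referees 415, 514) | `T5/H942/RegularOfIwahori 53c7b25c` |
| T5.09Z `RegularOfIwahoriZ` (`SpecZ.lean`, additive) | closed | helper32 (proof of helper942) | `T5/H32/RegularZ` |
| adapter frame (T1 → T5) | closed | helper62@61bafd143 | `T5/H62/FrameExists efe07021` |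

## THE FRONTIER = ONE ESTIMATE, five equivalent doors (take ANY ONE)

Level `𝔫 ≠ 0` wherever `h𝔫` appears.

| door | hypothesis | theorem |
|---|---|---|
| R | `H74.RowBoundC74 𝔫 τ` (uniform `L²` bound of the rows of the EK kernel) | `tower_of_rowBound` |
| S | `H873.SupBoundC 𝔫 τ` (sup bound of `R(φ) e`, `φ` EK) | `tower_of_supBound` |
| B | `H40.KerBddC K 𝔫 τ` (the EK kernel is bounded) | `tower_of_kerBdd` |
| T2 | `T2.LeafT03 K` ALONE (`𝔫 ≠ 0`), or `T2.IsKType τ → T2.GPSCoreT K 𝔫 τ`, or `T2.IsKType τ → T2.GPSKillT K 𝔫 τ` (T2.33 `LeafT13` closed by helper627@6c17e582a `T2/H627/LeafT13 9ad23b3c`) | `tower_of_leafT03`, `tower_of_gpsCore`, `tower_of_gpsKill`, `tower_of_T2` |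
| A | `Open 𝔫 τ` = `H40.EKPointC K` (v2, periodised along the ray) + `H40.PoissonTailC K 𝔫 τ` | `tower_of_open` |

and the most general form `tower_of_range : LeafRange 𝔫 τ → Tower s l k 𝔫 τ` (T5.04 ALONE;
T5.02 follows from T5.04 by Banach–Steinhaus, helper807).
-/

set_option autoImplicit false

open IsDedekindDomain NumberField MeasureTheory

noncomputable section

namespace Fermat.Agent.LT.T5

open Fermat.Agent.LT.H556.A0

variable {K : Type} [Field K] [NumberField K]

attribute [local instance] Fermat.Agent.LT.T5.instMeasurableSpaceG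

/-! ## The closed leaves -/

/-- T5.01, closed (helper800 on helper379). -/
theorem closed_abstractTrace : LeafAbstractTrace K := H800.leafAbstractTrace800 K

/-- The ray generator is central (helper74). -/
theorem closed_rayCentral : H40.RayCentralC K :=
  fun r hr g => (H74.isRayGen_central74 r hr g).symm

/-- The kernel is continuous (helper74, helper599, tower T1). -/
theorem closed_kerCont : H40.KerContC K := by
  intro r hr φ hc hs
  have hLC : LocallyCompactSpace (G K) := (T1.t1Out K).locComp.2.1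
  exact H74.continuous_ker0_74 r (H74.isRayGen_central74 r hr)
    (H74.locFinC_of_T1_74 (T1.t1Out K).adNorm (T1.t1Out K).discrete r hr) φ hc hs

/-- T5.02c, closed (helper409). -/
theorem closed_adjTest (𝔫 : Ideal (𝓞 K)) (τ : G K → ℂ) : H40.AdjTestC K 𝔫 τ :=
  H409.adjTestC409 K 𝔫 τ

/-- The covolume of `K` in `𝔸_K` for the normalised measure, closed (helper855). -/
theorem closed_covolOne : H40.CovolOneC K :=
  H855.leafCovolOne855 K (T1.t1Out K).locComp (T1.t1Out K).addFundDom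

/-- T5.04b: the kernel of an Eisenstein-killing test function is cuspidal in its first
variable, closed (helper74). -/
theorem closed_kerCusp (𝔫 : Ideal (𝓞 K)) (τ : G K → ℂ) : H74.KerCuspC74 𝔫 τ :=
  H74.kerCuspC_T1_74 𝔫 τ (T1.t1Out K)

/-- T5.03, closed relative to T5.02 (helper372). -/
theorem closed_hs (s : AdelicAut K) (𝔫 : Ideal (𝓞 K)) (τ : G K → ℂ) (h : LeafHS0 𝔫 τ) :
    LeafHS s 𝔫 τ := H372.leafHS_of372 s 𝔫 τ h

/-- T5.05, closed (helper277; `T1.AdNormC` by helper309). -/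
theorem closed_coeff (s : AdelicAut K) (𝔫 : Ideal (𝓞 K)) (τ : G K → ℂ) :
    LeafCoeff s 𝔫 τ := H277.leafCoeff277 (T1.t1Out K).adNorm s 𝔫 τ

/-- T5.06, closed (helper599). -/
theorem closed_diag (s : AdelicAut K) (𝔫 : Ideal (𝓞 K)) (τ : G K → ℂ) :
    LeafDiag s 𝔫 τ := H599.leafDiag599 s 𝔫 τ

/-- T5.07, closed (helper29 with helper675, 151, 787, 472, 965, 655, 501). -/
theorem closed_twFinite (s : AdelicAut K) (l : ℕ) (k : Subfield K) (𝔫 : Ideal (𝓞 K))
    (τ : G K → ℂ) : LeafTwFinite s l k 𝔫 τ := H29.leafTwFinite29 s l k 𝔫 τ (T1.t1Out K)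

/-- T5.08, closed (helper71). -/
theorem closed_twUnfold (s : AdelicAut K) (𝔫 : Ideal (𝓞 K)) (τ : G K → ℂ) :
    LeafTwUnfold s 𝔫 τ := H71.leafTwUnfold71 s 𝔫 τ

/-- T5.09, closed (helper942). -/
theorem closed_regular (s : AdelicAut K) (l : ℕ) (k : Subfield K) : RegularOfIwahori s l k :=
  H942.regularOfIwahori942 s l k

/-- T5.09Z (regular support up to a scalar at the regular place; `SpecZ.lean`, request of
helper797), closed (helper32, the proof of helper942). -/
theorem closed_regularZ (s : AdelicAut K) (l : ℕ) (k : Subfield K) : RegularOfIwahoriZ s l k :=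
  H32.regularOfIwahoriZ32 s l k

/-- The geometric unfolding, CLOSED (T5.07 + T5.08). -/
theorem closed_unfold (s : AdelicAut K) (l : ℕ) (k : Subfield K) (𝔫 : Ideal (𝓞 K))
    (τ : G K → ℂ) (hcyc : IsCyclicOfDegree s l k) : GeomUnfold s l k 𝔫 τ :=
  top_Unfold s l k 𝔫 τ hcyc (closed_twFinite s l k 𝔫 τ) (closed_twUnfold s 𝔫 τ)

/-- Frames exist, unconditionally (adapter of helper62 on tower T1; `σ = id`). -/
theorem closed_frame (𝔫 : Ideal (𝓞 K)) :
    ∃ (μ : Measure (G K)) (F : Set (G K)) (r : G K),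
      IsFrame μ F ∧ IsRayGen r ∧ AutPreserves (AdelicAut.id K) 𝔫 μ r :=
  H62.frame_exists_of_T1Out62 K 𝔫 (T1.t1Out K)

/-! ## The tower from T5.02 + T5.04, and from T5.04 alone -/

/-- The tower from T5.02 and T5.04 (all other leaves are closed). -/
theorem tower_of_hs0_range (s : AdelicAut K) (l : ℕ) (k : Subfield K)
    (𝔫 : Ideal (𝓞 K)) (τ : G K → ℂ) (hcyc : IsCyclicOfDegree s l k)
    (h0 : LeafHS0 𝔫 τ) (hR : LeafRange 𝔫 τ) : Tower s l k 𝔫 τ :=
  top s l k 𝔫 τ hcyc closed_abstractTrace h0 (closed_hs s 𝔫 τ h0) hR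
    (closed_coeff s 𝔫 τ) (closed_diag s 𝔫 τ) (closed_twFinite s l k 𝔫 τ)
    (closed_twUnfold s 𝔫 τ) (closed_regular s l k)

/-- T5.02 from T5.04 (Banach–Steinhaus; helper807). -/
theorem closed_hs0_of_range (𝔫 : Ideal (𝓞 K)) (τ : G K → ℂ) (hR : LeafRange 𝔫 τ) :
    LeafHS0 𝔫 τ :=
  H807.leafHS0_of_range807 (T1.t1Out K).locComp (T1.t1Out K).discrete (T1.t1Out K).adNorm
    𝔫 τ hR

/-- **The tower from T5.04 ALONE.** -/
theorem tower_of_range (s : AdelicAut K) (l : ℕ) (k : Subfield K)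
    (𝔫 : Ideal (𝓞 K)) (τ : G K → ℂ) (hcyc : IsCyclicOfDegree s l k)
    (hR : LeafRange 𝔫 τ) : Tower s l k 𝔫 τ :=
  tower_of_hs0_range s l k 𝔫 τ hcyc (closed_hs0_of_range 𝔫 τ hR) hR

/-! ## Door R: the uniform row bound -/

/-- T5.04 from the row bound (helper74). -/
theorem closed_range_of_rowBound (𝔫 : Ideal (𝓞 K)) (τ : G K → ℂ)
    (h : H74.RowBoundC74 𝔫 τ) : LeafRange 𝔫 τ :=
  H74.leafRange_rowBound74 𝔫 τ (T1.t1Out K) h

/-- **Door R: the tower from the uniform row bound of the EK kernel.** -/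
theorem tower_of_rowBound (s : AdelicAut K) (l : ℕ) (k : Subfield K)
    (𝔫 : Ideal (𝓞 K)) (τ : G K → ℂ) (hcyc : IsCyclicOfDegree s l k)
    (h : H74.RowBoundC74 𝔫 τ) : Tower s l k 𝔫 τ :=
  tower_of_range s l k 𝔫 τ hcyc (closed_range_of_rowBound 𝔫 τ h)

/-! ## Door B: the EK kernel is bounded -/

/-- The row bound from the boundedness of the kernel (helper74). -/
theorem rowBound_of_kerBdd (𝔫 : Ideal (𝓞 K)) (τ : G K → ℂ) (h : H40.KerBddC K 𝔫 τ) :
    H74.RowBoundC74 𝔫 τ := by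
  intro μ F r hF hr φ hφ hek hek'
  obtain ⟨B, hB⟩ := h μ F r hF hr φ hφ hek hek'
  exact H74.rowBound_of_bounded74 μ F hF.finite r φ ⟨B, hB⟩

/-- **Door B: the tower from the boundedness of the EK kernel.** -/
theorem tower_of_kerBdd (s : AdelicAut K) (l : ℕ) (k : Subfield K)
    (𝔫 : Ideal (𝓞 K)) (τ : G K → ℂ) (hcyc : IsCyclicOfDegree s l k)
    (h : H40.KerBddC K 𝔫 τ) : Tower s l k 𝔫 τ :=
  tower_of_rowBound s l k 𝔫 τ hcyc (rowBound_of_kerBdd 𝔫 τ h)

/-! ## Door S: the sup bound -/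

/-- The row bound from the sup bound (helper873). -/
theorem rowBound_of_supBound (𝔫 : Ideal (𝓞 K)) (τ : G K → ℂ) (h : H873.SupBoundC 𝔫 τ) :
    H74.RowBoundC74 𝔫 τ :=
  H873.rowBoundC74_of_supBound873 (T1.t1Out K).locComp (T1.t1Out K).discrete
    (T1.t1Out K).adNorm 𝔫 τ h

/-- **Door S: the tower from the sup bound of `R(φ)`, `φ` Eisenstein-killing.** -/
theorem tower_of_supBound (s : AdelicAut K) (l : ℕ) (k : Subfield K)
    (𝔫 : Ideal (𝓞 K)) (τ : G K → ℂ) (hcyc : IsCyclicOfDegree s l k)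
    (h : H873.SupBoundC 𝔫 τ) : Tower s l k 𝔫 τ :=
  tower_of_rowBound s l k 𝔫 τ hcyc (rowBound_of_supBound 𝔫 τ h)

/-! ## Door T2: `GPSKillT` of tower T2 -/

/-- The `K_∞`-types of T5 and of T2 are the same. -/
theorem isKType_T2 {τ : G K → ℂ} (h : IsKType τ) : T2.IsKType τ :=
  ⟨h.norm_one, h.mul, h.cont⟩

/-- The sup bound from `T2.GPSKillT` (helper873); the hypothesis is only used for a
`K_∞`-type `τ` (there is no test function of type `τ` otherwise). -/
theorem supBound_of_gpsKill (𝔫 : Ideal (𝓞 K)) (τ : G K → ℂ)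
    (h : T2.IsKType τ → T2.GPSKillT K 𝔫 τ) : H873.SupBoundC 𝔫 τ := by
  intro μ F r hF hr φ hφ hek
  exact H873.supBoundC_of_T2_873 (T1.t1Out K) 𝔫 τ (h (isKType_T2 hφ.ktype)) μ F r hF hr φ hφ hek

/-- **Door T2: the tower from `T2.GPSKillT`.** -/
theorem tower_of_gpsKill (s : AdelicAut K) (l : ℕ) (k : Subfield K)
    (𝔫 : Ideal (𝓞 K)) (τ : G K → ℂ) (hcyc : IsCyclicOfDegree s l k)
    (h : T2.IsKType τ → T2.GPSKillT K 𝔫 τ) : Tower s l k 𝔫 τ :=
  tower_of_supBound s l k 𝔫 τ hcyc (supBound_of_gpsKill 𝔫 τ h)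

/-- **Door T2, leaf form: the tower from the leaves T2.23 and T2.33 of tower T2.** -/
theorem tower_of_T2 (s : AdelicAut K) (l : ℕ) (k : Subfield K)
    (𝔫 : Ideal (𝓞 K)) (τ : G K → ℂ) (h𝔫 : 𝔫 ≠ ⊥) (hcyc : IsCyclicOfDegree s l k)
    (h03 : T2.LeafT03 K) (h13 : T2.LeafT13 K) : Tower s l k 𝔫 τ :=
  tower_of_gpsKill s l k 𝔫 τ hcyc fun hτ =>
    (h13 (T1.t1Out K) 𝔫 τ h𝔫 hτ (h03 (T1.t1Out K) 𝔫 τ h𝔫 hτ)).2

/-- **Door T2, core form: the tower from `T2.GPSCoreT`** (T2.33 closed by helper627). -/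
theorem tower_of_gpsCore (s : AdelicAut K) (l : ℕ) (k : Subfield K)
    (𝔫 : Ideal (𝓞 K)) (τ : G K → ℂ) (hcyc : IsCyclicOfDegree s l k)
    (h : T2.IsKType τ → T2.GPSCoreT K 𝔫 τ) : Tower s l k 𝔫 τ :=
  tower_of_gpsKill s l k 𝔫 τ hcyc fun hτ =>
    T2.H627.gpsKillT_of_core627 (T1.t1Out K) 𝔫 τ (h hτ)

/-- **Door T2, ONE leaf: the tower from the leaf T2.23 `LeafT03` of tower T2.** -/
theorem tower_of_leafT03 (s : AdelicAut K) (l : ℕ) (k : Subfield K)
    (𝔫 : Ideal (𝓞 K)) (τ : G K → ℂ) (h𝔫 : 𝔫 ≠ ⊥) (hcyc : IsCyclicOfDegree s l k)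
    (h03 : T2.LeafT03 K) : Tower s l k 𝔫 τ :=
  tower_of_T2 s l k 𝔫 τ h𝔫 hcyc h03 (T2.H627.leafT13_627 K)

/-- **TOWER T5, CLOSED**: for every number field `K`, every adelic automorphism `s` of order `l`
with fixed field `k`, every level `𝔫 ≠ 0` and every `K_∞`-type `τ`. -/
theorem tower_closed (s : AdelicAut K) (l : ℕ) (k : Subfield K)
    (𝔫 : Ideal (𝓞 K)) (τ : G K → ℂ) (h𝔫 : 𝔫 ≠ ⊥) (hcyc : IsCyclicOfDegree s l k) :
    Tower s l k 𝔫 τ :=
  tower_of_leafT03 s l k 𝔫 τ h𝔫 hcyc (T2.H32.leafT03_32 K)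

/-- T5.02, CLOSED (level `𝔫 ≠ 0`). -/
theorem closed_hs0 (𝔫 : Ideal (𝓞 K)) (τ : G K → ℂ) (h𝔫 : 𝔫 ≠ ⊥) : LeafHS0 𝔫 τ :=
  (closed_hs0_of_range 𝔫 τ (closed_range_of_rowBound 𝔫 τ (rowBound_of_supBound 𝔫 τ
    (supBound_of_gpsKill 𝔫 τ fun hτ =>
      (T2.H627.leafT13_627 K (T1.t1Out K) 𝔫 τ h𝔫 hτ
        (T2.H32.leafT03_32 K (T1.t1Out K) 𝔫 τ h𝔫 hτ)).2))))

/-- T5.04, CLOSED (level `𝔫 ≠ 0`). -/
theorem closed_range (𝔫 : Ideal (𝓞 K)) (τ : G K → ℂ) (h𝔫 : 𝔫 ≠ ⊥) : LeafRange 𝔫 τ :=
  closed_range_of_rowBound 𝔫 τ (rowBound_of_supBound 𝔫 τ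
    (supBound_of_gpsKill 𝔫 τ fun hτ =>
      (T2.H627.leafT13_627 K (T1.t1Out K) 𝔫 τ h𝔫 hτ
        (T2.H32.leafT03_32 K (T1.t1Out K) 𝔫 τ h𝔫 hτ)).2))

/-- The trace identity `STFsigma`, CLOSED (level `𝔫 ≠ 0`). -/
theorem closed_stf (s : AdelicAut K) (𝔫 : Ideal (𝓞 K)) (τ : G K → ℂ) (h𝔫 : 𝔫 ≠ ⊥) :
    STFsigma s 𝔫 τ :=
  top_STF s 𝔫 τ closed_abstractTrace (closed_hs0 𝔫 τ h𝔫)
    (closed_hs s 𝔫 τ (closed_hs0 𝔫 τ h𝔫)) (closed_range 𝔫 τ h𝔫)
    (closed_coeff s 𝔫 τ) (closed_diag s 𝔫 τ)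

/-! ## Door A: the sub-leaves of the direct estimate (helper40) -/

/-- T5.02d, closed (helper176). -/
theorem closed_lowBdd : H40.LowBddC K := H176.lowBddC_of_T1Out176 (T1.t1Out K)

/-- The height distortion under a compact set, closed (helper904). -/
theorem closed_heightDist : H40.HeightDistC K := H904.heightDist_of_T1Out904 K (T1.t1Out K)

/-- T5.02e, closed (helper392). -/
theorem closed_onlyBorel : H40.OnlyBorelC K :=
  H392.onlyBorel392 K closed_heightDist (T1.t1Out K).siegelSep (T1.t1Out K).height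
    (T1.t1Out K).iwasawa (T1.t1Out K).adNorm

/-- T5.02f2, closed (helper800). -/
theorem closed_torusCount : H40.TorusCountC K := H800.torusCountC_of_T1Out800 (T1.t1Out K)

/-- THE FRONTIER of T5 after Closed v9 in the form of the direct estimate (cut of helper40,
registry rows 1192 and 1194): the pointwise form of the Eisenstein-killing condition and THE
ANALYTIC CORE (lattice sum minus integral, bounded high in the cusp). -/
structure Open (𝔫 : Ideal (𝓞 K)) (τ : G K → ℂ) : Prop where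
  ekPoint : H40.EKPointC K
  poissonTail : H40.PoissonTailC K 𝔫 τ

/-- The open sub-leaves of helper40 from the frontier. -/
theorem closed_hs0Open {𝔫 : Ideal (𝓞 K)} {τ : G K → ℂ} (h : Open 𝔫 τ) : H40.HS0Open K 𝔫 τ :=
  ⟨closed_adjTest 𝔫 τ, closed_lowBdd, closed_onlyBorel, h.ekPoint, closed_torusCount,
    h.poissonTail, closed_covolOne⟩

/-- The kernel of an Eisenstein-killing test function is bounded (helper40). -/
theorem closed_kerBdd {𝔫 : Ideal (𝓞 K)} {τ : G K → ℂ} (h𝔫 : 𝔫 ≠ ⊥) (h : Open 𝔫 τ) :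
    H40.KerBddC K 𝔫 τ :=
  H40.kerBdd_of_open40 𝔫 τ (closed_hs0Open h) (T1.t1Out K) h𝔫

/-- **Door A: the tower from the sub-leaves of the direct estimate.** -/
theorem tower_of_open (s : AdelicAut K) (l : ℕ) (k : Subfield K)
    (𝔫 : Ideal (𝓞 K)) (τ : G K → ℂ) (h𝔫 : 𝔫 ≠ ⊥) (hcyc : IsCyclicOfDegree s l k)
    (h : Open 𝔫 τ) : Tower s l k 𝔫 τ :=
  tower_of_kerBdd s l k 𝔫 τ hcyc (closed_kerBdd h𝔫 h)

end Fermat.Agent.LT.T5

end

end
-- ===== PACK-END LT/T5/Closed.lean

-- ===== PACK-BEGIN LT/T6/H626/Closed626e.lean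
section




/-!
# Row LT, tower T6, station T6.20 (`ArchMatchC`): INTEGRATION v5 (helper626)

OFF-MAIN.  ONE closure, byte-identical copies.  Added to `Closed626d.lean` (v4):

| Prop | owner | file |
|---|---|---|
| `H634.HypExplC634` (T6.20d, explicit constant) | helper855 | `T6/H855/HypExplClosed.lean` (+ 14 files) |
| `H634.ProfAbelC634` (T6.20e.2c) | helper833 | `T6/H833/ProfAbel.lean`, `ProfBasic.lean` |

CLOSED: T6.20a (`abelExistC626_closed`), T6.20c (`H830.specRelC626_830`), T6.20d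
(`H855.hypExplC_closed855`).

OPEN (hypotheses of `archMatchC_open626e`): `H634.EllRealC634`, `H634.EllTwC634`
(T6.20e.2d, 2e).
-/

set_option autoImplicit false

noncomputable section

namespace Fermat.Agent.LT.T6.H626

open Fermat.Agent.LT.T6

/-- **T6.20b `GeoMatchC626` from the two leaves still open.** -/
theorem geoMatch_open626e (hR : H634.EllRealC634) (hT : H634.EllTwC634) : GeoMatchC626 :=
  H634.geoMatch_of_expl634 H855.hypExplC_closed855
    (ellValue_open626c H833.profAbelC833 hR hT)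

/-- **T6.20 from the leaves still open (v5).** -/
theorem archMatchC_open626e (hR : H634.EllRealC634) (hT : H634.EllTwC634) : ArchMatchC :=
  H634.archMatchC_of_expl634 abelExistC626_closed H855.hypExplC_closed855
    (ellValue_open626c H833.profAbelC833 hR hT) H830.specRelC626_830

end Fermat.Agent.LT.T6.H626

end

end
-- ===== PACK-END LT/T6/H626/Closed626e.lean

-- ===== PACK-BEGIN LT/T7/H644/SetupClosed.lean
section





/-!
# Row LT, tower T7, leaf T7.L2.1.C0 `SetupC` (owner helper644): CLOSED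

OFF-MAIN.  `setupC644 (K K') : H893.SetupC K K'`, VERBATIM the frozen Prop of
`T7/H893/SupplySpec.lean` (helper893, sha256 c18d8efa), UNCONDITIONAL:
the proved top `setupC_of644` (`Setup.lean`) on the two Mathlib-only leaves
`movedPlaceC729` (helper729) and `galTransC648` (helper648).
-/

set_option autoImplicit false

open IsDedekindDomain NumberField

noncomputable section

namespace Fermat.Agent.LT.T7.H644

variable (K K' : Type) [Field K] [NumberField K] [Field K'] [NumberField K'] [Algebra K K']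

/-- **LEAF T7.L2.1.C0 = SETUP, CLOSED.** -/
theorem setupC644 : Fermat.Agent.LT.T7.H893.SetupC K K' :=
  setupC_of644 K K' Fermat.Agent.LT.T7.H729.movedPlaceC729 Fermat.Agent.LT.T7.H648.galTransC648

end Fermat.Agent.LT.T7.H644

end

end
-- ===== PACK-END LT/T7/H644/SetupClosed.lean

-- ===== PACK-BEGIN LT/T3/H681/SatCartan.lean
section


/-!
# Row LT, tower T3, asset `SatakeInjC` (helper681), OFF-MAIN -- part 2: Cartan decomposition

Abstract nonarchimedean local field `k` with residue data `D` and compact ring of integers.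
Every function on `GL₂(k)` which is bi-invariant under `GL₂(𝒪)` and has a finite system of
representatives is a finite linear combination of the `T_{n,m}` of helper263, hence HAS a Satake
pair `(f, A')` (`IsSatAlg263` and `HasN263`):

* `ed681`                    : elementary divisors, `g = κ₁ diag(ϖ^n, 1) κ₂`;
* `const_cartan681`          : a bi-invariant function is constant on the Cartan classes;
* `tind_eq681`               : `T_{n,b} = 1{cartan = (n+b, b)} + T_{n-2,b+1}`;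
* `mem_pairSub_of_biinv681`  : the decomposition.

Imports: byte-identical copies of the closed `SatakeLocC` closure of helper263.
-/

set_option autoImplicit false
set_option linter.unusedSectionVars false

open scoped Classical

open MeasureTheory

noncomputable section

namespace Fermat.Agent.LT.T3.H681

open Fermat.Agent.LT.T6 Fermat.Agent.LT.T6.H305 Fermat.Agent.LT.T3.H263

variable {k : Type} [Field k] [Valued k Γ₀]

/-- The permutation matrix `[[0, 1], [1, 0]]`. -/
def wperm681 : GL (Fin 2) k := mk2 0 1 1 0 (by simp)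

theorem inK_wperm681 : InK (wperm681 : GL (Fin 2) k) := by
  rw [inK_iff]
  refine ⟨fun i j => ?_, ?_⟩
  · fin_cases i <;> fin_cases j <;> simp [wperm681]
  · simp [wperm681, Matrix.det_fin_two_of]

/-- Elementary divisors when the lower right entry is a unit. -/
theorem ed_unit681 (D : ResData k) {n : ℕ} (g : GL (Fin 2) k) (hS : InS263 n 0 g)
    (hd : Valued.v ((g : Matrix (Fin 2) (Fin 2) k) 1 1) = 1) :
    ∃ κ₁ κ₂ : GL (Fin 2) k, InK κ₁ ∧ InK κ₂ ∧ g = κ₁ * D.um n 0 0 * κ₂ := by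
  have hint : ∀ i j, Valued.v ((g : Matrix (Fin 2) (Fin 2) k) i j) ≤ 1 := by
    intro i j
    have := hS.1 i j
    simpa using this
  have hd0 : (g : Matrix (Fin 2) (Fin 2) k) 1 1 ≠ 0 := by
    intro h
    rw [h, map_zero] at hd
    exact zero_ne_one hd
  have hdet : (g : Matrix (Fin 2) (Fin 2) k).det
      = (g : Matrix (Fin 2) (Fin 2) k) 0 0 * (g : Matrix (Fin 2) (Fin 2) k) 1 1
        - (g : Matrix (Fin 2) (Fin 2) k) 0 1 * (g : Matrix (Fin 2) (Fin 2) k) 1 0 :=
    Matrix.det_fin_two _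
  have hdetv : Valued.v ((g : Matrix (Fin 2) (Fin 2) k) 0 0 * (g : Matrix (Fin 2) (Fin 2) k) 1 1
        - (g : Matrix (Fin 2) (Fin 2) k) 0 1 * (g : Matrix (Fin 2) (Fin 2) k) 1 0)
      = WithZero.exp (-(n : ℤ)) := by
    rw [← hdet, hS.2]
    simp
  have hπ : D.ϖ ^ n ≠ 0 := pow_ne_zero _ D.ϖ_ne_zero
  have hdet0 : (g : Matrix (Fin 2) (Fin 2) k) 0 0 * (g : Matrix (Fin 2) (Fin 2) k) 1 1
        - (g : Matrix (Fin 2) (Fin 2) k) 0 1 * (g : Matrix (Fin 2) (Fin 2) k) 1 0 ≠ 0 := by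
    rw [← hdet]
    exact det_ne_zero g
  generalize ha : (g : Matrix (Fin 2) (Fin 2) k) 0 0 = a at *
  generalize hb : (g : Matrix (Fin 2) (Fin 2) k) 0 1 = b at *
  generalize hc : (g : Matrix (Fin 2) (Fin 2) k) 1 0 = c at *
  generalize hd' : (g : Matrix (Fin 2) (Fin 2) k) 1 1 = d at *
  have hu1 : Valued.v ((a * d - b * c) / (d * D.ϖ ^ n)) = 1 := by
    rw [map_div₀, map_mul, hd, one_mul, D.val_pow, hdetv]
    exact div_self WithZero.exp_ne_zero
  have hu0 : (a * d - b * c) / (d * D.ϖ ^ n) ≠ 0 := div_ne_zero hdet0 (mul_ne_zero hd0 hπ)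
  have hbv : Valued.v b ≤ 1 := by
    have := hint 0 1
    rwa [hb] at this
  have hcv : Valued.v c ≤ 1 := by
    have := hint 1 0
    rwa [hc] at this
  refine ⟨nm (b / d), mk2 ((a * d - b * c) / (d * D.ϖ ^ n)) 0 c d (by simp [hu0, hd0]),
    inK_nm ?_, ?_, ?_⟩
  · rw [map_div₀, hd, div_one]
    exact hbv
  · rw [inK_iff]
    refine ⟨fun i j => ?_, ?_⟩
    · fin_cases i <;> fin_cases j
      · exact hu1.le
      · show Valued.v (0 : k) ≤ 1
        simp
      · exact hcv
      · exact hd.le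
    · rw [mk2_val, Matrix.det_fin_two_of, zero_mul, sub_zero, map_mul, hu1, hd, mul_one]
  · apply Units.ext
    rw [Units.val_mul, Units.val_mul, nm, mk2_val, mk2_val, ResData.um_val,
      Matrix.eta_fin_two (g : Matrix (Fin 2) (Fin 2) k), ha, hb, hc, hd']
    ext i j
    fin_cases i <;> fin_cases j
    all_goals
      simp only [Matrix.mul_apply, Fin.sum_univ_two, Matrix.of_apply, Matrix.cons_val',
        Matrix.cons_val_zero, Matrix.cons_val_one, Matrix.cons_val_fin_one, Fin.zero_eta,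
        Fin.mk_one, mul_zero, add_zero, zero_mul, zero_add, one_mul, mul_one, pow_zero]
      try field_simp
      try ring

theorem wperm_right681 (h : GL (Fin 2) k) (i : Fin 2) :
    ((h * wperm681 : GL (Fin 2) k) : Matrix (Fin 2) (Fin 2) k) i 1
      = (h : Matrix (Fin 2) (Fin 2) k) i 0 := by
  rw [Units.val_mul, Matrix.mul_apply, Fin.sum_univ_two]
  simp [wperm681]

theorem wperm_left681 (h : GL (Fin 2) k) (j : Fin 2) :
    ((wperm681 * h : GL (Fin 2) k) : Matrix (Fin 2) (Fin 2) k) 1 j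
      = (h : Matrix (Fin 2) (Fin 2) k) 0 j := by
  rw [Units.val_mul, Matrix.mul_apply, Fin.sum_univ_two]
  simp [wperm681]

/-- Elementary divisors: a primitive integral matrix of determinant `ϖ^n` (up to a unit) lies in
`GL₂(𝒪) diag(ϖ^n, 1) GL₂(𝒪)`. -/
theorem ed681 (D : ResData k) {n : ℕ} (g : GL (Fin 2) k) (hS : InS263 n 0 g)
    (hmax : entryMax g = 1) :
    ∃ κ₁ κ₂ : GL (Fin 2) k, InK κ₁ ∧ InK κ₂ ∧ g = κ₁ * D.um n 0 0 * κ₂ := by
  obtain ⟨i, j, hij⟩ := exists_entryMax g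
  rw [hmax] at hij
  have hw := inK_wperm681 (k := k)
  have hwinv : InK (wperm681⁻¹ : GL (Fin 2) k) := inK_inv hw
  have h2 : ∀ i : Fin 2, i = 0 ∨ i = 1 := by decide
  rcases h2 i with rfl | rfl <;> rcases h2 j with rfl | rfl
  · have h1 : InS263 n 0 (wperm681 * g * wperm681) :=
      inS_mul_right263 (inS_mul_left263 hS hw) hw
    obtain ⟨κ₁, κ₂, h₁, h₂, e⟩ := ed_unit681 D _ h1
      (by rw [wperm_right681, wperm_left681]; exact hij.symm)
    refine ⟨wperm681⁻¹ * κ₁, κ₂ * wperm681⁻¹, inK_mul hwinv h₁, inK_mul h₂ hwinv, ?_⟩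
    have e' : g = wperm681⁻¹ * (wperm681 * g * wperm681) * wperm681⁻¹ := by group
    rw [e', e]
    group
  · have h1 : InS263 n 0 (wperm681 * g) := inS_mul_left263 hS hw
    obtain ⟨κ₁, κ₂, h₁, h₂, e⟩ := ed_unit681 D _ h1
      (by rw [wperm_left681]; exact hij.symm)
    refine ⟨wperm681⁻¹ * κ₁, κ₂, inK_mul hwinv h₁, h₂, ?_⟩
    have e' : g = wperm681⁻¹ * (wperm681 * g) := by group
    rw [e', e]
    group
  · have h1 : InS263 n 0 (g * wperm681) := inS_mul_right263 hS hw
    obtain ⟨κ₁, κ₂, h₁, h₂, e⟩ := ed_unit681 D _ h1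
      (by rw [wperm_right681]; exact hij.symm)
    refine ⟨κ₁, κ₂ * wperm681⁻¹, h₁, inK_mul h₂ hwinv, ?_⟩
    have e' : g = (g * wperm681) * wperm681⁻¹ := by group
    rw [e', e]
    group
  · exact ed_unit681 D g hS hij.symm

/-! ## Cartan invariant in terms of logarithms -/

theorem log_det_le681 (g : GL (Fin 2) k) :
    WithZero.log (Valued.v (g : Matrix (Fin 2) (Fin 2) k).det)
      ≤ 2 * WithZero.log (entryMax g) := by
  have h : Valued.v (g : Matrix (Fin 2) (Fin 2) k).det ≤ entryMax g * entryMax g := by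
    rw [Matrix.det_fin_two]
    refine Valuation.map_sub_le _ ?_ ?_
    · rw [map_mul]
      exact mul_le_mul' (le_entryMax g 0 0) (le_entryMax g 1 1)
    · rw [map_mul]
      exact mul_le_mul' (le_entryMax g 0 1) (le_entryMax g 1 0)
  have h2 := (WithZero.log_le_log (val_det_ne_zero g)
    (mul_ne_zero (entryMax_ne_zero g) (entryMax_ne_zero g))).2 h
  rw [WithZero.log_mul (entryMax_ne_zero g) (entryMax_ne_zero g)] at h2
  omega

theorem inS_iff_log681 (n : ℕ) (b : ℤ) (g : GL (Fin 2) k) :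
    InS263 n b g ↔ WithZero.log (entryMax g) ≤ -b ∧
      WithZero.log (Valued.v (g : Matrix (Fin 2) (Fin 2) k).det) = -((n : ℤ) + 2 * b) := by
  unfold InS263
  rw [← entryMax_le_iff, ← WithZero.log_le_iff_le_exp (entryMax_ne_zero g)]
  constructor
  · rintro ⟨h1, h2⟩
    exact ⟨h1, by rw [h2, WithZero.log_exp]⟩
  · rintro ⟨h1, h2⟩
    exact ⟨h1, by rw [← WithZero.exp_log (val_det_ne_zero g), h2]⟩

theorem cartan_iff_log681 (a b : ℤ) (g : GL (Fin 2) k) :
    cartan g = (a, b) ↔ WithZero.log (entryMax g) = -b ∧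
      WithZero.log (Valued.v (g : Matrix (Fin 2) (Fin 2) k).det) = -(a + b) := by
  unfold cartan
  rw [Prod.mk.injEq]
  constructor <;> rintro ⟨h1, h2⟩ <;> constructor <;> omega

theorem cartan_le681 (g : GL (Fin 2) k) : (cartan g).2 ≤ (cartan g).1 := by
  have := log_det_le681 g
  unfold cartan
  simp only
  omega

theorem cartan_mul_right681 (g κ : GL (Fin 2) k) (hκ : InK κ) : cartan (g * κ) = cartan g := by
  unfold cartan
  rw [entryMax_mul g κ hκ, val_det_mul g κ hκ]

theorem cartan_congr681 {h g : GL (Fin 2) k} (hK : InK (h⁻¹ * g)) : cartan g = cartan h := by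
  have e : g = h * (h⁻¹ * g) := by group
  rw [e]
  exact cartan_mul_right681 h _ hK

/-- The indicator function of a Cartan class. -/
def Eind681 (lam : ℤ × ℤ) (g : GL (Fin 2) k) : ℂ := if cartan g = lam then 1 else 0

theorem tind_eq681 (n : ℕ) (b : ℤ) (g : GL (Fin 2) k) :
    Tind263 n b g = Eind681 ((n : ℤ) + b, b) g
      + (if 2 ≤ n then Tind263 (n - 2) (b + 1) g else 0) := by
  unfold Tind263 Eind681
  have hL := log_det_le681 g
  have i1 := inS_iff_log681 n b g
  have i2 := inS_iff_log681 (n - 2) (b + 1) g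
  have i3 := cartan_iff_log681 ((n : ℤ) + b) b g
  by_cases h2 : 2 ≤ n
  · rw [if_pos h2]
    by_cases hc : cartan g = ((n : ℤ) + b, b)
    · have hc' := i3.1 hc
      rw [if_pos hc, if_pos (i1.2 ⟨by omega, by omega⟩), if_neg, add_zero]
      intro hS
      have := i2.1 hS
      omega
    · by_cases hS : InS263 n b g
      · have hS' := i1.1 hS
        have hc' : ¬ (WithZero.log (entryMax g) = -b ∧
            WithZero.log (Valued.v (g : Matrix (Fin 2) (Fin 2) k).det) = -((n : ℤ) + b + b)) :=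
          fun h => hc (i3.2 h)
        rw [if_pos hS, if_neg hc, if_pos, zero_add]
        rw [i2]
        constructor
        · by_contra hcon
          apply hc'
          constructor <;> omega
        · omega
      · rw [if_neg hS, if_neg hc, if_neg, zero_add]
        intro hS2
        apply hS
        have := i2.1 hS2
        rw [i1]
        constructor <;> omega
  · rw [if_neg h2, add_zero]
    by_cases hc : cartan g = ((n : ℤ) + b, b)
    · have hc' := i3.1 hc
      rw [if_pos hc, if_pos (i1.2 ⟨by omega, by omega⟩)]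
    · rw [if_neg hc, if_neg]
      intro hS
      apply hc
      have := i1.1 hS
      rw [i3]
      constructor <;> omega

/-! ## Constancy on the Cartan classes -/

theorem const_cartan681 (D : ResData k) {f : GL (Fin 2) k → ℂ} (hl : IsLInv263 f)
    (hr : IsRInv263 f) (n : ℕ) (b : ℤ) (g : GL (Fin 2) k) (hg : cartan g = ((n : ℤ) + b, b)) :
    f g = f (D.sc b * D.um n 0 0) := by
  have h1 : cartan (D.sc (-b) * g) = ((n : ℤ), 0) := by
    rw [D.cartan_sc_mul, hg]
    simp
  obtain ⟨hmax, hdet⟩ := (cartan_eq_nat_iff _ n).1 h1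
  have hS : InS263 n 0 (D.sc (-b) * g) := by
    refine ⟨fun i j => ?_, ?_⟩
    · rw [neg_zero, WithZero.exp_zero, ← hmax]
      exact le_entryMax _ i j
    · rw [hdet]
      simp
  obtain ⟨κ₁, κ₂, h₁, h₂, e⟩ := ed681 D _ hS hmax
  have eg : g = κ₁ * (D.sc b * D.um n 0 0) * κ₂ := by
    have e0 : g = D.sc b * (D.sc (-b) * g) := by
      rw [← mul_assoc, ← D.sc_add]
      simp [D.sc_zero]
    rw [e0, e, ← mul_assoc, ← mul_assoc, D.sc_comm b κ₁]
    group
  rw [eg, hr κ₂ _ h₂, hl κ₁ _ h₁]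

/-! ## The decomposition -/

/-- The functions having a Satake pair. -/
def pairSub681 (D : ResData k) : Submodule ℂ (GL (Fin 2) k → ℂ) where
  carrier := {f | ∃ A : ℤ × ℤ → ℂ, IsSatAlg263 D f A ∧ HasN263 D f A}
  zero_mem' := ⟨fun _ => 0, isSatAlg_zero263 D, hasN_zero263 D⟩
  add_mem' := by
    rintro f g ⟨A, hA, hA'⟩ ⟨B, hB, hB'⟩
    exact ⟨_, isSatAlg_add263 D hA hB, hasN_add263 D hA' hB'⟩
  smul_mem' := by
    rintro c f ⟨A, hA, hA'⟩
    exact ⟨_, isSatAlg_smul263 D hA c, hasN_smul263 D hA' c⟩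

theorem mem_pairSub681 (D : ResData k) (f : GL (Fin 2) k → ℂ) :
    f ∈ pairSub681 D ↔ ∃ A : ℤ × ℤ → ℂ, IsSatAlg263 D f A ∧ HasN263 D f A :=
  Iff.rfl

theorem tind_mem681 (D : ResData k) (hcpt : IsCompact {x : k | Valued.v x ≤ 1})
    (n : ℕ) (m : ℤ) : Tind263 n m ∈ pairSub681 D :=
  ⟨Acoef263 D n m, isSatAlg_tind263 D n m, hasN_tind263 D hcpt n m⟩

theorem eind_mem681 (D : ResData k) (hcpt : IsCompact {x : k | Valued.v x ≤ 1})
    (n : ℕ) (b : ℤ) : Eind681 ((n : ℤ) + b, b) ∈ pairSub681 D := by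
  have e : (Eind681 ((n : ℤ) + b, b) : GL (Fin 2) k → ℂ)
      = Tind263 n b - (if 2 ≤ n then Tind263 (n - 2) (b + 1) else 0) := by
    funext g
    rw [Pi.sub_apply, tind_eq681 n b g]
    split_ifs <;> simp
  rw [e]
  refine Submodule.sub_mem _ (tind_mem681 D hcpt n b) ?_
  split_ifs
  · exact tind_mem681 D hcpt _ _
  · exact Submodule.zero_mem _

/-- **Cartan decomposition.**  A bi-invariant function with a finite system of representatives
has a Satake pair. -/
theorem mem_pairSub_of_biinv681 (D : ResData k) (hcpt : IsCompact {x : k | Valued.v x ≤ 1})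
    {f : GL (Fin 2) k → ℂ} (hl : IsLInv263 f) (hr : IsRInv263 f)
    (R : Finset (GL (Fin 2) k)) (hR : IsRep263 f R) : f ∈ pairSub681 D := by
  have hform : ∀ g : GL (Fin 2) k,
      cartan g = ((((cartan g).1 - (cartan g).2).toNat : ℤ) + (cartan g).2, (cartan g).2) := by
    intro g
    have := cartan_le681 g
    ext
    · simp only
      omega
    · rfl
  have e : f = ∑ lam ∈ R.image cartan,
      f (D.sc lam.2 * D.um (lam.1 - lam.2).toNat 0 0) • Eind681 lam := by
    funext g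
    rw [Finset.sum_apply]
    simp only [Pi.smul_apply, smul_eq_mul, Eind681, mul_ite, mul_one, mul_zero]
    rw [Finset.sum_ite_eq]
    split_ifs with hmem
    · exact const_cartan681 D hl hr _ _ g (hform g)
    · by_contra h0
      apply hmem
      obtain ⟨h, hh, hK⟩ := hR.2 g h0
      rw [Finset.mem_image]
      exact ⟨h, hh, (cartan_congr681 hK).symm⟩
  rw [e]
  refine Submodule.sum_mem _ (fun lam hlam => Submodule.smul_mem _ _ ?_)
  obtain ⟨h, _, rfl⟩ := Finset.mem_image.1 hlam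
  rw [hform h]
  exact eind_mem681 D hcpt _ _

end Fermat.Agent.LT.T3.H681

end

end
-- ===== PACK-END LT/T3/H681/SatCartan.lean

-- ===== PACK-BEGIN LT/T3/H681/SatakeInj.lean
section





/-!
# Row LT, tower T3, asset `SatakeInjC` (helper681), OFF-MAIN -- part 4: the statement

Hint #18248 of helper797 (local bridges B1 / B2 of the construction nodes `ConstrC`,
`ConstrQRC`): in the vocabulary of `LT/T3/H736/ASSpec.lean` (helper736), VERBATIM,

    satakeInj681 : (Function.support A).Finite → IsBiIntInv v f₀ → (∃ R, IsRepSys v f₀ R) →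
        HasSatakeEigen v f₀ A → IsSatakePair v f₀ A

i.e. for a bi-`GL₂(𝒪_v)`-invariant function with a finite system of representatives the EIGEN
field alone gives the whole Satake pair (the `N`-integral comes for free).  `A` need not be
symmetric in the hypothesis (it is then symmetric a posteriori).

Proof.  `f₀` is a finite linear combination of the `T_{n,m}` of helper263 (Cartan decomposition,
part 2), so it has a Satake pair `(f₀, A')`.  The spherical vector `Φ_z` of the unramified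
principal series (part 3) is an `IsLocEigen` function with `Φ_z(1) = 1` for ALL `z₁ z₂ ≠ 0`, so
the Laurent polynomials of `A` and `A'` agree on `(ℂˣ)²`, hence `A = A'` (part 1).

Also: `isLocEigen_princ681` (a non-zero `IsLocEigen` function for every pair of parameters) and
`isCosetSys_of_loc681` (every `IsLocCosetSys` is a `T6.IsCosetSys (1, 0)`).
-/

set_option autoImplicit false
set_option linter.unusedSectionVars false

open scoped Classical

open IsDedekindDomain NumberField MeasureTheory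

noncomputable section

namespace Fermat.Agent.LT.T3.H681

open Fermat.Agent.LT.T6 Fermat.Agent.LT.T6.H305 Fermat.Agent.LT.T3.AS Fermat.Agent.LT.T3.H263

variable {K : Type} [Field K] [NumberField K] (v : HeightOneSpectrum (𝓞 K))

/-- Every local Hecke coset system is a full system of representatives of
`GL₂(𝒪) diag(ϖ, 1) GL₂(𝒪) / GL₂(𝒪)`. -/
theorem isCosetSys_of_loc681 (D : ResData (v.adicCompletion K))
    (hD : D.T.card = Ideal.absNorm v.asIdeal) (H : Finset (GL (Fin 2) (v.adicCompletion K)))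
    (hH : IsLocCosetSys v H) : IsCosetSys ((1 : ℤ), (0 : ℤ)) H := by
  obtain ⟨hcard, hint, hne⟩ := hH
  have hEl := isLocCosetSys263 v D hD
  have hEc : IsCosetSys ((1 : ℤ), (0 : ℤ)) ((D.Idx 1).image (D.fam 0)) :=
    D.isCosetSys_image 0 1 _ (by simp)
  have hcart : ∀ h ∈ H, cartan h = ((1 : ℤ), (0 : ℤ)) := by
    intro h hh
    obtain ⟨h1, h2⟩ := hint h hh
    have hle : entryMax h ≤ 1 := (entryMax_le_iff h 1).2 (fun i j => h1 i j)
    have hlog := log_det_le681 h
    rw [h2, WithZero.log_exp] at hlog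
    have hle' : WithZero.log (entryMax h) ≤ 0 := by
      rw [WithZero.log_le_iff_le_exp (entryMax_ne_zero h), WithZero.exp_zero]
      exact hle
    have h0 : WithZero.log (entryMax h) = 0 := by omega
    have hmax : entryMax h = 1 := by
      rw [← WithZero.exp_log (entryMax_ne_zero h), h0, WithZero.exp_zero]
    have := (cartan_eq_nat_iff h 1).2 ⟨hmax, by rw [h2]; simp⟩
    rw [this]
    simp
  have hineq : ∀ h ∈ H, ∀ h' ∈ H, InU 0 (h⁻¹ * h') → h = h' := by
    intro h hh h' hh' hU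
    by_contra hcon
    exact hne h hh h' hh' hcon (fun i j => ((inU_zero_iff _).1 hU).1 i j)
  refine ⟨hcart, hineq, ?_⟩
  -- pigeonhole
  have hex : ∀ h : GL (Fin 2) (v.adicCompletion K), ∃ e : GL (Fin 2) (v.adicCompletion K),
      h ∈ H → e ∈ (D.Idx 1).image (D.fam 0) ∧ InK (e⁻¹ * h) := by
    intro h
    by_cases hh : h ∈ H
    · obtain ⟨e, he, hU⟩ := hEc.2.2 h (hcart h hh)
      exact ⟨e, fun _ => ⟨he, (inU_zero_iff _).1 hU⟩⟩
    · exact ⟨1, fun h' => absurd h' hh⟩
  choose φ hφ using hex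
  have hinj : Set.InjOn φ (H : Set (GL (Fin 2) (v.adicCompletion K))) := by
    intro h hh h' hh' heq
    have h1 := (hφ h hh).2
    have h2 := (hφ h' hh').2
    rw [← heq] at h2
    apply hineq h hh h' hh'
    rw [inU_zero_iff]
    exact inK_trans263 (inK_symm263 h1) h2
  have himg : H.image φ = (D.Idx 1).image (D.fam 0) := by
    apply Finset.eq_of_subset_of_card_le
    · intro e he
      obtain ⟨h, hh, rfl⟩ := Finset.mem_image.1 he
      exact (hφ h hh).1
    · rw [Finset.card_image_of_injOn hinj, hcard, hEl.1]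
  intro g hg
  obtain ⟨e, he, hU⟩ := hEc.2.2 g hg
  rw [← himg] at he
  obtain ⟨h, hh, rfl⟩ := Finset.mem_image.1 he
  refine ⟨h, hh, ?_⟩
  rw [inU_zero_iff]
  exact inK_trans263 (inK_symm263 (hφ h hh).2) ((inU_zero_iff _).1 hU)

/-- **A non-zero local eigenfunction for every pair of Satake parameters.** -/
theorem isLocEigen_princ681 (D : ResData (v.adicCompletion K))
    (hD : D.T.card = Ideal.absNorm v.asIdeal) (z₁ z₂ : ℂ) (hz₁ : z₁ ≠ 0) (hz₂ : z₂ ≠ 0) :
    IsLocEigen v (princ681 (sq263 D) z₁ z₂) (z₁ + z₂) (z₁ * z₂) := by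
  have hE := isEig_princ681 D (sq263 D) z₁ z₂ (sq_sq263 D) (sq_ne_zero263 D) hz₁ hz₂
  refine ⟨?_, ?_, ?_⟩
  · intro κ y hκ
    exact hE.inv κ y ((isIntGL_iff263 v κ).1 hκ)
  · intro H hH y
    have hc := isCosetSys_of_loc681 v D hD H hH
    have hs := D.sum_cosetSys 0 1 ((1 : ℤ), (0 : ℤ)) (by simp) H hc
      (fun h => princ681 (sq263 D) z₁ z₂ (y * h)) (by
        intro u g hu
        show princ681 (sq263 D) z₁ z₂ (y * (g * u)) = princ681 (sq263 D) z₁ z₂ (y * g)
        rw [← mul_assoc]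
        exact hE.inv u _ hu)
    rw [hs, ← explicit_eq_sum681, hE.hT y]
    unfold sq263
    rw [hD, mul_assoc]
  · intro z c hc hz y
    exact princ_scalar681 _ z₁ z₂ hz₁ hz₂ z c hc hz y

/-- **`SatakeInj`.**  Bi-invariance, a finite system of representatives and the EIGEN field give
the whole Satake pair. -/
theorem satakeInj681 (f₀ : GL (Fin 2) (v.adicCompletion K) → ℂ) (A : ℤ × ℤ → ℂ)
    (hA : (Function.support A).Finite) (hbi : IsBiIntInv v f₀)
    (hrep : ∃ R : Finset (GL (Fin 2) (v.adicCompletion K)), IsRepSys v f₀ R)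
    (he : HasSatakeEigen v f₀ A) : IsSatakePair v f₀ A := by
  obtain ⟨D, hD⟩ := exists_resData (Fermat.Agent.LT.T6.H176.instLocalC176 K v)
  obtain ⟨R, hR⟩ := hrep
  have h1K : IsIntGL v (1 : GL (Fin 2) (v.adicCompletion K)) := (isIntGL_iff263 v 1).2 inK_one
  have hl : IsLInv263 f₀ := by
    intro u g hu
    have := hbi u 1 g ((isIntGL_iff263 v u).2 hu) h1K
    rwa [mul_one] at this
  have hr : IsRInv263 f₀ := by
    intro u g hu
    have := hbi 1 u g h1K ((isIntGL_iff263 v u).2 hu)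
    rwa [one_mul] at this
  obtain ⟨A', h1, h2⟩ := (mem_pairSub681 D f₀).1
    (mem_pairSub_of_biinv681 D (isCompact_int263 v) hl hr R ((isRepSys_iff263 v f₀ R).1 hR))
  have hpair : IsSatakePair v f₀ A' := isSatakePair_of263 v D hD h1 h2
  have hAA : A = A' := by
    apply laurent2_inj681 A A' hA h1.fin
    intro z₁ z₂ hz₁ hz₂
    have hΦ := isLocEigen_princ681 v D hD z₁ z₂ hz₁ hz₂
    have e1 := he _ (z₁ + z₂) (z₁ * z₂) z₁ z₂ hΦ rfl rfl (mul_ne_zero hz₁ hz₂) R hR 1
    have e2 := hpair.eigen _ (z₁ + z₂) (z₁ * z₂) z₁ z₂ hΦ rfl rfl (mul_ne_zero hz₁ hz₂) R hR 1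
    rw [e1, princ_one681, mul_one, mul_one] at e2
    exact e2
  rw [hAA]
  exact hpair

variable (K)

/-- The Prop of hint #18248 (helper797), in the vocabulary of `ASSpec`. -/
def SatakeInjC681 : Prop :=
  ∀ (v : HeightOneSpectrum (𝓞 K)) (f₀ : GL (Fin 2) (v.adicCompletion K) → ℂ) (A : ℤ × ℤ → ℂ),
    IsSymFin A → IsBiIntInv v f₀ →
    (∃ R : Finset (GL (Fin 2) (v.adicCompletion K)), IsRepSys v f₀ R) →
    HasSatakeEigen v f₀ A → IsSatakePair v f₀ A

theorem satakeInjC681 : SatakeInjC681 K :=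
  fun v f₀ A hA hbi hrep he => satakeInj681 v f₀ A hA.1 hbi hrep he

/-- A non-zero `IsLocEigen` function for every pair of non-zero parameters (value `1` at `1`). -/
theorem exists_locEigen681 (v : HeightOneSpectrum (𝓞 K)) (z₁ z₂ : ℂ) (hz₁ : z₁ ≠ 0)
    (hz₂ : z₂ ≠ 0) :
    ∃ Φ₀ : GL (Fin 2) (v.adicCompletion K) → ℂ,
      IsLocEigen v Φ₀ (z₁ + z₂) (z₁ * z₂) ∧ Φ₀ 1 = 1 := by
  obtain ⟨D, hD⟩ := exists_resData (Fermat.Agent.LT.T6.H176.instLocalC176 K v)
  exact ⟨_, isLocEigen_princ681 v D hD z₁ z₂ hz₁ hz₂, princ_one681 _ _ _⟩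

/-- The coefficient function of a Satake pair is determined by the function: two pairs
`(f₀, A)`, `(f₀, A')` with finitely supported `A`, `A'` have `A = A'`. -/
theorem satakePair_coef_unique681 (v : HeightOneSpectrum (𝓞 K))
    (f₀ : GL (Fin 2) (v.adicCompletion K) → ℂ) (A A' : ℤ × ℤ → ℂ)
    (hA : (Function.support A).Finite) (hA' : (Function.support A').Finite)
    (hrep : ∃ R : Finset (GL (Fin 2) (v.adicCompletion K)), IsRepSys v f₀ R)
    (h : HasSatakeEigen v f₀ A) (h' : HasSatakeEigen v f₀ A') : A = A' := by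
  obtain ⟨D, hD⟩ := exists_resData (Fermat.Agent.LT.T6.H176.instLocalC176 K v)
  obtain ⟨R, hR⟩ := hrep
  apply laurent2_inj681 A A' hA hA'
  intro z₁ z₂ hz₁ hz₂
  have hΦ := isLocEigen_princ681 v D hD z₁ z₂ hz₁ hz₂
  have e1 := h _ (z₁ + z₂) (z₁ * z₂) z₁ z₂ hΦ rfl rfl (mul_ne_zero hz₁ hz₂) R hR 1
  have e2 := h' _ (z₁ + z₂) (z₁ * z₂) z₁ z₂ hΦ rfl rfl (mul_ne_zero hz₁ hz₂) R hR 1
  rw [e1, princ_one681, mul_one, mul_one] at e2
  exact e2

end Fermat.Agent.LT.T3.H681

end

end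
-- ===== PACK-END LT/T3/H681/SatakeInj.lean

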