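import Mathlib
import Fermat.Agent.Pack.LT2.E18L0
import Fermat.Agent.Pack.LT4.E1L3
import Fermat.Agent.Pack.LT2.E18L3
import Fermat.Agent.Pack.LT2.E18L2
import Fermat.Agent.Pack.LT2.E15L3
import Fermat.Agent.Pack.LT3.E11L3
import Fermat.Agent.Pack.LT3.E0L0
import Fermat.Agent.Pack.LT3.E21L0
import Fermat.Agent.Pack.LT3.E22L1
import Fermat.Agent.Pack.LT3.E22L3
import Fermat.Agent.Pack.LT3.E22L0
import Fermat.Agent.Pack.LT3.E24L0
import Fermat.Agent.Pack.LT3.E24L3
import Fermat.Agent.Pack.LT3.E25L3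
import Fermat.Agent.Pack.LT3.E24L1
import Fermat.Agent.Pack.LT3.E23L2
import Fermat.Agent.Pack.LT3.E25L1
import Fermat.Agent.Pack.LT3.E25L2
import Fermat.Agent.Pack.LT3.E22L2
import Fermat.Agent.Pack.LT2.E6L3
import Fermat.Agent.Pack.LT4.E0L1
import Fermat.Agent.Pack.LT3.E21L2
import Fermat.Agent.Pack.LT3.E20L3
import Fermat.Agent.Pack.LT3.E19L0
import Fermat.Agent.Pack.LT4.E1L2

set_option linter.all false

-- ===== PACK-BEGIN LT/T2/H941/SmoUncond.lean
section



/-!
# Row LT, tower T2, station T2.10 `SMO_AA`: the UNCONDITIONAL statements (helper941)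

OFF-MAIN.  `LT/T2/H941/SmoClosed.lean` (v5: all 14 leaves of the wall closed) on the CLOSED tower T1
(`LT/T1/Closed.lean` of helper54, `T1.t1Out K : T1.T1Out K`; byte-identical copies of helper54's
closure, rebuilt on the sub-architect's box).

For every TOTALLY COMPLEX number field `K`:
* `smoAA_uncond_totCplx : T2.SMO_AA K` (strong multiplicity one, adelic cusp forms of parameter `0`),
* `smo_uncond_totCplx : T2.SMO K` (on `notion556`: the holomorphic alternative needs `[K : ℚ] = 1`),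
* `match_uncond_totCplx : MatchC K` (a common non-zero vector of admissible translates).
For every number field: `orth_uncond : OrthC K`, `extend_uncond : ExtendC K`,
`whitDet_uncond : WhitDetC K`, `whitDataExists_uncond`, `unramTorus_uncond`, `archTorus_uncond`,
`cutoff_uncond`, `pair_uncond`, `heckeAdj_uncond`, `heckeStrip_uncond` (the Whittaker package and
the Petersson package, ready for T7).
-/

set_option autoImplicit false

open IsDedekindDomain NumberField MeasureTheory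
open Fermat.Agent.LT.H556.A0

noncomputable section

namespace Fermat.Agent.LT.T2.H941

variable (K : Type) [Field K] [NumberField K]

/-- A totally complex number field has degree `≠ 1`. -/
theorem finrank_ne_one_of_totCplx (hcx : ∀ w : InfinitePlace K, w.IsComplex) :
    Module.finrank ℚ K ≠ 1 := by
  classical
  intro h1
  have h := InfinitePlace.nrRealPlaces_eq_one_of_finrank_eq_one h1
  have hpos : 0 < Fintype.card { w : InfinitePlace K // w.IsReal } := by
    have e : Fintype.card { w : InfinitePlace K // w.IsReal } = InfinitePlace.nrRealPlaces K :=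
      Fintype.card_congr' rfl
    rw [e, h]
    exact Nat.one_pos
  obtain ⟨⟨w, hw⟩⟩ := Fintype.card_pos_iff.mp hpos
  exact InfinitePlace.not_isReal_iff_isComplex.mpr (hcx w) hw

/-! ## Every number field -/

theorem whitDataExists_uncond : WhitDataExistsC K := whitDataExists_closed K (T1.t1Out K)

theorem whitDet_uncond : WhitDetC K := whitDet_closed K (T1.t1Out K)

theorem extend_uncond : ExtendC K := extend_closed K (T1.t1Out K)

theorem unramTorus_uncond : UnramTorusC K := unramTorus_closed K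

theorem archTorus_uncond : ArchTorusC K := archTorus_closed K (T1.t1Out K)

theorem cutoff_uncond : CutoffC K := cutoff_closed K

theorem pair_uncond : PairC K := pair_closed K (T1.t1Out K)

theorem heckeAdj_uncond : HeckeAdjC K := heckeAdj_closed K (T1.t1Out K)

theorem heckeStrip_uncond : HeckeStripC K := heckeStrip_closed K (T1.t1Out K)

/-- **STAGE B**, every number field. -/
theorem orth_uncond : OrthC K := orth_closed K (T1.t1Out K)

/-- Every number field: `SMO_AA` from the two optional leaves of the real places. -/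
theorem smoAA_uncond_of_real (R : SmoOpenReal K) : T2.SMO_AA K :=
  smoAA_of_real K (T1.t1Out K) R

/-! ## Totally complex fields -/

/-- **STAGE A** for a totally complex field. -/
theorem match_uncond_totCplx (hcx : ∀ w : InfinitePlace K, w.IsComplex) : MatchC K :=
  match_totCplx K hcx (T1.t1Out K)

/-- **STRONG MULTIPLICITY ONE** for the adelic cusp forms of parameter `0` over a totally complex
number field, UNCONDITIONAL. -/
theorem smoAA_uncond_totCplx (hcx : ∀ w : InfinitePlace K, w.IsComplex) : T2.SMO_AA K :=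
  smoAA_totCplx K hcx (T1.t1Out K)

/-- **STRONG MULTIPLICITY ONE on `notion556`** over a totally complex number field,
UNCONDITIONAL (the holomorphic alternative of the notion is empty in degree `≠ 1`). -/
theorem smo_uncond_totCplx (hcx : ∀ w : InfinitePlace K, w.IsComplex) : T2.SMO K :=
  T2.top_smo K (smoAA_uncond_totCplx K hcx)
    (fun _ _ hπ _ _ _ _ _ => absurd hπ.1 (finrank_ne_one_of_totCplx K hcx))
    (fun _ _ _ hπ' _ _ _ _ => absurd hπ'.1 (finrank_ne_one_of_totCplx K hcx))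

end Fermat.Agent.LT.T2.H941

end

end
-- ===== PACK-END LT/T2/H941/SmoUncond.lean

-- ===== PACK-BEGIN LT/T7/H941/Loc.lean
section






/-!
# Row LT, tower T7, node T7.14.6b.1 `LocC` -- VERBATIM (helper941, spare of row 1829)

OFF-MAIN.  `locC941 : Rigid.LocC K`, unconditional, for every number field `K` (the hypothesis
`TotCplx K` of the Prop is used for the empty field `mean_real` only).

## The argument (the closed leaves of T2.10 in the vocabulary of `RigidWhit.lean`)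

1. `W_φ(a(y*)) ≠ 0`, `W_φ'(a(y*')) ≠ 0` for some ideles (`ExtendC`, helper439; `y*' = y*` if
   `φ = φ'`).  `y₀`, `y₁` = the parts of `y*`, `y*'` in `S`; `τ = y₁ / y₀`, `f₂ = R(a(τ)) φ'`
   (`τ = 1`, `f₂ = φ'` if `φ = φ'`).
2. `𝔪₀ = (∏_{v ∈ S} v)^k · π.level · π'.level · ∏_{v ∈ S} v` is a common level of `φ` and `f₂`
   with prime factors exactly `S` (`isLevel_rt_tor941`, `exists_scale_ideal941`), and `f₂` is an
   `S`-form of `π'` (`isSForm_lin941`).
3. The chain of cut-offs over `S` for `(𝔪₀, y₀)` (`chain941`): ONE operator `A = lin c g`, `g`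
   supported in `S`, with `W_{A f}(a(y)) = [y ∈ cell] · W_f(a(y₀ y^S))` for every `f` of level
   `𝔪₀` and EVERY idele `y`, `y^S` = the part of `y` outside `S`, cell = `y₀ (1 + 𝔪₀ 𝒪_S)`.
4. `φ₁ = A φ`, `φ₁' = A f₂`, `𝔪` = the level of the chain, `𝔠 = 𝔪₀`.
-/

set_option autoImplicit false
set_option linter.unusedSectionVars false
set_option linter.unusedVariables false
set_option linter.style.haveILetI false
set_option maxHeartbeats 1600000

open AutomorphicForm IsDedekindDomain NumberField IsDedekindDomain.HeightOneSpectrum MeasureTheory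
open Fermat.Agent.LT.H556 Fermat.Agent.LT.H556.A0

noncomputable section

namespace Fermat.Agent.LT.T7.H941

open Fermat.Agent.LT Fermat.Agent.LT.T2.H941 Fermat.Agent.LT.T2.H23 Fermat.Agent.LT.T2
open Fermat.Agent.LT.T7

variable {K : Type} [Field K] [NumberField K]

/-- A prime dividing a product of primes is one of them. -/
theorem mem_of_dvd_prod941 {S : Finset (HeightOneSpectrum (𝓞 K))} {v : HeightOneSpectrum (𝓞 K)}
    (h : v.asIdeal ∣ ∏ v' ∈ S, v'.asIdeal) : v ∈ S := by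
  obtain ⟨v', hv', hdvd⟩ := (Prime.dvd_finsetProd_iff v.prime _).1 h
  have hle : v'.asIdeal ≤ v.asIdeal := Ideal.le_of_dvd hdvd
  have heq : v'.asIdeal = v.asIdeal := v'.isMaximal.eq_of_le v.isPrime.ne_top hle
  have : v' = v := HeightOneSpectrum.ext heq
  exact this ▸ hv'

/-- The part in `S` of an idele. -/
theorem suppIn_pF941 (S : Finset (HeightOneSpectrum (𝓞 K))) (y : (Adl K)ˣ) :
    SuppIn23 S (pF23 S (fun v => cF23 v y)) :=
  ⟨fun w => cI23_pF23 _ _ w, fun v hv => cF23_pF23_of_notMem23 _ hv⟩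

/-- **NODE T7.14.6b.1 `LocC`**, verbatim, unconditional. -/
theorem locC941 : Rigid.LocC K := by
  classical
  letI : MeasurableSpace (Adl K) := borel (Adl K)
  haveI : BorelSpace (Adl K) := ⟨rfl⟩
  intro hcplx ψ hstd hnd ν D hνH hDm hDf hDfin π π' φ φ' hφ hφ' S hun hg hg'
  have hdata : IsWhitData ψ ν D := isWhitData_of941 hstd hnd hun hνH hDm hDf hDfin
  have hA : T1.AddFundDomC K := (T1.t1Out K).addFundDom
  have hS1 : Rigid.IsSForm π S φ := Rigid.isSForm_of_A0 hφ hg
  have hS2 : Rigid.IsSForm π' S φ' := Rigid.isSForm_of_A0 hφ' hg'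
  -- 1. non-vanishing on the torus
  have hne : ∀ (π₁ : HeckeEigensystem K ℂ) (f : G K → ℂ), IsSph0CuspFormFor π₁ f →
      ∃ y : (Adl K)ˣ, wh ψ ν D f (tor y) ≠ 0 := by
    intro π₁ f hf
    by_contra hcon
    push Not at hcon
    obtain ⟨g, hg⟩ := hf.ne_zero
    exact hg (extend_uncond K ψ ν D hdata π₁.level π₁.level_ne_bot f
      ⟨isCuspFn_of_sph0 hf, fun v hv => ⟨π₁.b v, (hf.hecke v hv).2⟩⟩ hcon g)
  obtain ⟨ystar, hystar⟩ := hne π φ hφ
  obtain ⟨ystar', hystar', hsame⟩ : ∃ y : (Adl K)ˣ,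
      wh ψ ν D φ' (tor y) ≠ 0 ∧ (φ = φ' → y = ystar) := by
    by_cases h : φ = φ'
    · exact ⟨ystar, by rw [← h]; exact hystar, fun _ => rfl⟩
    · obtain ⟨y, hy⟩ := hne π' φ' hφ'
      exact ⟨y, hy, fun h' => absurd h' h⟩
  -- the parts in `S`
  obtain ⟨y₀, hy₀d⟩ : ∃ y₀ : (Adl K)ˣ, y₀ = pF23 S (fun v => cF23 v ystar) := ⟨_, rfl⟩
  obtain ⟨y₁, hy₁d⟩ : ∃ y₁ : (Adl K)ˣ, y₁ = pF23 S (fun v => cF23 v ystar') := ⟨_, rfl⟩
  have hy₀S : SuppIn23 S y₀ := by rw [hy₀d]; exact suppIn_pF941 S ystar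
  have hy₁S : SuppIn23 S y₁ := by rw [hy₁d]; exact suppIn_pF941 S ystar'
  have cy₀ : ∀ v ∈ S, cF23 v y₀ = cF23 v ystar := fun v hv => by
    rw [hy₀d, cF23_pF23_of_mem23 _ hv]
  have cy₁ : ∀ v ∈ S, cF23 v y₁ = cF23 v ystar' := fun v hv => by
    rw [hy₁d, cF23_pF23_of_mem23 _ hv]
  -- the quotient `τ`
  obtain ⟨τ, hτd⟩ : ∃ τ : (Adl K)ˣ, τ = y₁ * y₀⁻¹ := ⟨_, rfl⟩
  have hτI : ∀ w : InfinitePlace K, cI23 w τ = 1 := by
    intro w
    rw [hτd, map_mul, map_inv, hy₀S.1 w, hy₁S.1 w, inv_one, mul_one]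
  have hτS : ∀ v : HeightOneSpectrum (𝓞 K), v ∉ S → cF23 v τ = 1 := by
    intro v hv
    rw [hτd, map_mul, map_inv, hy₀S.2 v hv, hy₁S.2 v hv, inv_one, mul_one]
  have hτsame : φ = φ' → τ = 1 := by
    intro h
    rw [hτd, hy₁d, hsame h, ← hy₀d, mul_inv_cancel]
  have hτG : GSuppIn23 S (tor τ) :=
    ⟨fun w => trivAtInf_tor23 (hτI w), fun v hv => trivAtFin_tor23 (hτS v hv)⟩
  -- 2. the levels
  obtain ⟨k, hk1, hk2⟩ := exists_scale_ideal941 S τ hτS
  obtain ⟨𝔫₀, h𝔫₀⟩ : ∃ 𝔫₀ : Ideal (𝓞 K),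
      𝔫₀ = π.level * π'.level * ∏ v ∈ S, v.asIdeal := ⟨_, rfl⟩
  obtain ⟨𝔪₀, h𝔪₀⟩ : ∃ 𝔪₀ : Ideal (𝓞 K), 𝔪₀ = (∏ v ∈ S, v.asIdeal) ^ k * 𝔫₀ := ⟨_, rfl⟩
  have hprod0 : (∏ v ∈ S, v.asIdeal) ≠ 0 :=
    Finset.prod_ne_zero_iff.2 fun v _ => by rw [Ideal.zero_eq_bot]; exact v.ne_bot
  have h𝔫₀ne : 𝔫₀ ≠ 0 := by
    rw [h𝔫₀]
    exact mul_ne_zero (mul_ne_zero (by rw [Ideal.zero_eq_bot]; exact π.level_ne_bot)
      (by rw [Ideal.zero_eq_bot]; exact π'.level_ne_bot)) hprod0
  have h𝔪₀ne : 𝔪₀ ≠ ⊥ := by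
    rw [h𝔪₀, ← Ideal.zero_eq_bot]
    exact mul_ne_zero (pow_ne_zero k hprod0) h𝔫₀ne
  have hle1 : 𝔫₀ ≤ π.level := by
    rw [h𝔫₀]
    exact Ideal.mul_le_left.trans Ideal.mul_le_left
  have hle2 : 𝔫₀ ≤ π'.level := by
    rw [h𝔫₀]
    exact Ideal.mul_le_left.trans Ideal.mul_le_right
  have hle0 : 𝔪₀ ≤ 𝔫₀ := by rw [h𝔪₀]; exact Ideal.mul_le_right
  have h𝔪₀supp : ∀ v : HeightOneSpectrum (𝓞 K), v.asIdeal ∣ 𝔪₀ ↔ v ∈ S := by
    intro v
    constructor
    · intro h
      rw [h𝔪₀] at h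
      rcases v.prime.dvd_or_dvd h with h1 | h1
      · exact mem_of_dvd_prod941 (v.prime.dvd_of_dvd_pow h1)
      · rw [h𝔫₀] at h1
        rcases v.prime.dvd_or_dvd h1 with h2 | h2
        · rcases v.prime.dvd_or_dvd h2 with h3 | h3
          · by_contra hv
            exact (hg v hv).1 h3
          · by_contra hv
            exact (hg' v hv).1 h3
        · exact mem_of_dvd_prod941 h2
    · intro hv
      rw [h𝔪₀, h𝔫₀]
      exact Dvd.dvd.mul_left (Dvd.dvd.mul_left (Finset.dvd_prod_of_mem _ hv) _) _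
  have hLφ : IsLevel 𝔪₀ φ := isLevel_mono23 (hle0.trans hle1) hφ.level_inv
  have hLf₂ : IsLevel 𝔪₀ (rt (tor τ) φ') := by
    rw [h𝔪₀]
    exact isLevel_rt_tor941 τ hτI hk1 hk2 (isLevel_mono23 hle2 hφ'.level_inv)
  have hS2' : Rigid.IsSForm π' S (rt (tor τ) φ') := by
    rw [rt_eq_lin941]
    refine isSForm_lin941 hcplx hA hS2 _ _ (fun _ => hτG) h𝔪₀ne
      (fun v hv => (h𝔪₀supp v).1 hv) ?_
    rw [← rt_eq_lin941]
    exact hLf₂
  have hG1 : Good23 𝔪₀ φ := ⟨hφ.cont, hφ.bdd, hφ.left_inv, hLφ⟩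
  have hG2 : Good23 𝔪₀ (rt (tor τ) φ') := ⟨hS2'.cont, hS2'.bdd, hS2'.left_inv, hLf₂⟩
  -- 3. the chain
  obtain ⟨n, c, g, 𝔪, hch, -⟩ :=
    chain941 (wh ψ ν D) (cutProp941 ψ ν D hdata) S 𝔪₀ h𝔪₀ne y₀ hy₀S
  obtain ⟨m1, m2, m3, m4, m5, m6⟩ := hch
  have h𝔪supp : ∀ v : HeightOneSpectrum (𝓞 K), v.asIdeal ∣ 𝔪 ↔ v ∈ S := by
    intro v
    constructor
    · intro h
      by_contra hv
      exact hv ((h𝔪₀supp v).1 (m3 v hv h))
    · intro hv
      exact dvd_trans ((h𝔪₀supp v).2 hv) (Ideal.dvd_iff_le.mpr m2)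
  -- the formula on the whole torus
  have hform : ∀ f : G K → ℂ, Good23 𝔪₀ f → ∀ y : (Adl K)ˣ,
      ((∀ v ∈ S, InOrbit 𝔪₀ v y y₀) →
        wh ψ ν D (lin c g f) (tor y)
          = wh ψ ν D f (tor (y₀ * (y * (pF23 S (fun v => cF23 v y))⁻¹)))) ∧
      (¬ (∀ v ∈ S, InOrbit 𝔪₀ v y y₀) → wh ψ ν D (lin c g f) (tor y) = 0) := by
    intro f hf y
    obtain ⟨yS, hySd⟩ : ∃ yS : (Adl K)ˣ, yS = pF23 S (fun v => cF23 v y) := ⟨_, rfl⟩
    rw [← hySd]
    have hyS : SuppIn23 S yS := by rw [hySd]; exact suppIn_pF941 S y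
    have hyO : ∀ v ∈ S, TrivAtFin v (tor (y * yS⁻¹)) := fun v hv =>
      trivAtFin_tor23 (by rw [map_mul, map_inv, hySd, cF23_pF23_of_mem23 _ hv, mul_inv_cancel])
    have hP : (∀ v ∈ S, InOrbit 𝔪₀ v yS y₀) ↔ (∀ v ∈ S, InOrbit 𝔪₀ v y y₀) := by
      refine forall₂_congr fun v hv => inOrbit_congr941 ?_ rfl rfl
      rw [hySd, cF23_pF23_of_mem23 _ hv]
    obtain ⟨a1, a2⟩ := (m6 f hf).2 yS hyS (tor (y * yS⁻¹)) hyO
    have e1 : tor yS * tor (y * yS⁻¹) = tor y := by
      rw [← tor_mul23, mul_comm y, mul_inv_cancel_left]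
    have e2 : tor y₀ * tor (y * yS⁻¹) = tor (y₀ * (y * yS⁻¹)) := (tor_mul23 _ _).symm
    rw [e1, e2] at a1
    rw [e1] at a2
    exact ⟨fun h => a1 (hP.2 h), fun h => a2 (fun h' => h (hP.1 h'))⟩
  -- support in the cell
  have hsuppW : ∀ f : G K → ℂ, Good23 𝔪₀ f → ∀ y : (Adl K)ˣ,
      wh ψ ν D (lin c g f) (tor y) ≠ 0 → Rigid.InCell S 𝔪₀ y₀ y := by
    intro f hf y hy
    refine inCell_of_orbit941 ?_
    by_contra hn
    exact hy ((hform f hf y).2 hn)
  -- constancy on the cell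
  have hconstW : ∀ f : G K → ℂ, Good23 𝔪₀ f → ∀ y y' : (Adl K)ˣ,
      Rigid.InCell S 𝔪₀ y₀ y → Rigid.InCell S 𝔪₀ y₀ y' → Rigid.SameOff S y y' →
      wh ψ ν D (lin c g f) (tor y) = wh ψ ν D (lin c g f) (tor y') := by
    intro f hf y y' hy hy' hoff
    have o := orbit_of_inCell941 h𝔪₀ne (fun v hv => (h𝔪₀supp v).2 hv) hy
    have o' := orbit_of_inCell941 h𝔪₀ne (fun v hv => (h𝔪₀supp v).2 hv) hy'
    rw [(hform f hf y).1 o, (hform f hf y').1 o']
    have e : y * (pF23 S (fun v => cF23 v y))⁻¹ = y' * (pF23 S (fun v => cF23 v y'))⁻¹ := by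
      refine idele_ext23 (fun v => ?_) (fun w => ?_)
      · by_cases hv : v ∈ S
        · rw [map_mul, map_inv, cF23_pF23_of_mem23 _ hv, mul_inv_cancel, map_mul, map_inv,
            cF23_pF23_of_mem23 _ hv, mul_inv_cancel]
        · rw [map_mul, map_inv, cF23_pF23_of_notMem23 _ hv, inv_one, mul_one, map_mul, map_inv,
            cF23_pF23_of_notMem23 _ hv, inv_one, mul_one]
          exact Units.ext (hoff.1 v hv)
      · rw [map_mul, map_inv, cI23_pF23, inv_one, mul_one, map_mul, map_inv, cI23_pF23, inv_one,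
          mul_one]
        exact Units.ext (hoff.2 w)
    rw [e]
  -- non-vanishing of `W₁`
  have hnz1 : wh ψ ν D (lin c g φ) (tor ystar) ≠ 0 := by
    have o : ∀ v ∈ S, InOrbit 𝔪₀ v ystar y₀ := fun v hv =>
      (inOrbit_congr941 (cy₀ v hv).symm rfl rfl).2 (inOrbit_self23 𝔪₀ v y₀)
    rw [(hform φ hG1 ystar).1 o, ← hy₀d, mul_comm ystar, mul_inv_cancel_left]
    exact hystar
  -- non-vanishing of `W₁'`
  obtain ⟨Y, hYd⟩ : ∃ Y : (Adl K)ˣ, Y = y₀ * (ystar' * y₁⁻¹) := ⟨_, rfl⟩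
  have cY : ∀ v ∈ S, cF23 v Y = cF23 v y₀ := fun v hv => by
    rw [hYd, map_mul, map_mul, map_inv, cy₁ v hv, mul_inv_cancel, mul_one]
  have hYS : pF23 S (fun v => cF23 v Y) = y₀ := by
    rw [hy₀d]
    unfold pF23
    refine Finset.prod_congr rfl fun v hv => ?_
    show iF23 v (cF23 v Y) = iF23 v (cF23 v ystar)
    rw [cY v hv, cy₀ v hv]
  have hnz2 : wh ψ ν D (lin c g (rt (tor τ) φ')) (tor Y) ≠ 0 := by
    have o : ∀ v ∈ S, InOrbit 𝔪₀ v Y y₀ := fun v hv =>
      (inOrbit_congr941 (cY v hv) rfl rfl).2 (inOrbit_self23 𝔪₀ v y₀)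
    rw [(hform _ hG2 Y).1 o, hYS, mul_comm Y, mul_inv_cancel_left, wh_rt23, ← tor_mul23]
    have e : Y * τ = ystar' := by
      rw [hYd, hτd]
      have : y₀ * (ystar' * y₁⁻¹) * (y₁ * y₀⁻¹) = ystar' := by
        rw [mul_comm y₀, mul_assoc, mul_comm y₁, ← mul_assoc y₀, mul_inv_cancel, one_mul,
          inv_mul_cancel_right]
      exact this
    rw [e]
    exact hystar'
  -- 4. the output
  refine ⟨lin c g φ, lin c g (rt (tor τ) φ'), 𝔪, 𝔪₀, y₀, ?_, ?_, ?_, ⟨m1, h𝔪supp⟩,
    ⟨h𝔪₀ne, h𝔪₀supp⟩, (m6 φ hG1).1, (m6 _ hG2).1, ⟨ystar, hnz1⟩, ⟨Y, hnz2⟩,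
    hsuppW φ hG1, hsuppW _ hG2, hconstW φ hG1, hconstW _ hG2⟩
  · exact isSForm_lin941 hcplx hA hS1 c g m4 m1 (fun v hv => (h𝔪supp v).1 hv) (m6 φ hG1).1
  · exact isSForm_lin941 hcplx hA hS2' c g m4 m1 (fun v hv => (h𝔪supp v).1 hv) (m6 _ hG2).1
  · intro h
    have e : rt (tor τ) φ' = φ := by
      rw [hτsame h, tor_one23, h]
      funext x
      simp [rt]
    rw [e]

end Fermat.Agent.LT.T7.H941

end

end
-- ===== PACK-END LT/T7/H941/Loc.lean

-- ===== PACK-BEGIN LT/H963/Cyclic.lean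
section




/-!
# Row LT (helper963, OFF-MAIN): MULTIPLICITY ONE IN MODULE FORM from `T2.H941.MatchC`

Vocabulary: A0 (helper556), `T2/Spec` (helper130), `T2/H941/SmoSpec` (helper941), byte-identical
copies.  Abstract core: `LT/H963/CyclicAbs.lean` (Mathlib only).

## Statement

`CyclicWeakC963 K`: for a frame `F`, an eigensystem `π` and two forms `φ, φ'` for `π` (same level,
same eigenvalues away from the level) there is a FINITE combination `Φ = ∑_{g ∈ s} c(g) R(g) φ` of
right translates of `φ` with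

    ⟨Φ, ψ⟩ = ⟨φ', ψ⟩      for every form `ψ` for `π`,

i.e. `φ'` is the orthogonal projection of `Φ` onto the space `V(π)` of the forms for `π`:
every non-zero vector of `V(π)` is CYCLIC for the compressions `P R(g)` (for translations which
commute with the eigen-conditions these are the operators of the Hecke algebra of level
`U(π.level)`: `V(π)` is a SIMPLE Hecke module, hence, by Burnside, every endomorphism of `V(π)` --
e.g. the inverse of the action of a field automorphism -- is such an operator).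

## Proof

`cyclicWeak_of963 : (K totally complex) → MatchC K → PairC K → FormSpaceC963 K → CyclicWeakC963 K`.
The Petersson pairing of `F` makes the class `IsAut0` a pre-Hilbert space on which the right
translations are unitary (`PairC`); `V(π)` is a finite-dimensional subspace (`FormSpaceC963`);
`MatchC` says that the spans of the translates of two non-zero vectors of `V(π)` meet;
`cyclic_of_match963`.

`FormSpaceC963` (the forms for `π`, with `0`, are a finite-dimensional vector space) is the only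
input which is not yet closed in the towers: closure under linear combinations is
`T2.H886.CuspAlg` + linearity of the mean value property; finite dimension is the
Hilbert--Schmidt bound of T2.
-/

set_option autoImplicit false
set_option linter.style.haveILetI false

open IsDedekindDomain NumberField MeasureTheory AutomorphicForm
open Fermat.Agent.LT.H556.A0
open scoped InnerProductSpace ComplexConjugate

noncomputable section

namespace Fermat.Agent.LT.H963

open Fermat.Agent.LT.T2.H941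

variable {K : Type} [Field K] [NumberField K]

attribute [local instance] Fermat.Agent.LT.T2.borelG

-- In the import closure `Inner ℂ E` is found first through `CStarModule.toInner`, which is not
-- reducibly the `InnerProductSpace.toInner` of the lemmas of Mathlib.
attribute [-instance] CStarModule.toInner

/-! ## 1. Props -/

variable (K)

/-- **FORM-SPACE**: the forms for `π`, together with `0`, are a finite-dimensional space. -/
def FormSpaceC963 : Prop :=
  ∀ π : HeckeEigensystem K ℂ, ∃ W : Submodule ℂ (G K → ℂ), Module.Finite ℂ W ∧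
    ∀ f : G K → ℂ, f ∈ W ↔ (f = 0 ∨ IsSph0CuspFormFor π f)

/-- **MULTIPLICITY ONE IN MODULE FORM (weak form).**  See the header. -/
def CyclicWeakC963 : Prop :=
  ∀ (F : T2.Frame K) (π : HeckeEigensystem K ℂ) (φ φ' : G K → ℂ),
    IsSph0CuspFormFor π φ → IsSph0CuspFormFor π φ' →
    ∀ v₀ : HeightOneSpectrum (𝓞 K), ¬ v₀.asIdeal ∣ π.level →
      ∃ (s : Finset (G K)) (c : G K → ℂ),
        ∀ ψ : G K → ℂ, IsSph0CuspFormFor π ψ →
          T2.pair F (fun x => ∑ g ∈ s, c g * φ (x * g)) ψ = T2.pair F φ' ψ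

variable {K}

/-! ## 2. The pre-Hilbert space of the class `IsAut0` -/

/-- The class `IsAut0` as a submodule of the functions on `GL₂(𝔸_K)`. -/
def aut0Sub963 (K : Type) [Field K] [NumberField K] : Submodule ℂ (G K → ℂ) where
  carrier := {f | IsAut0 f}
  zero_mem' := isAut0_zero
  add_mem' := fun ha hb => isAut0_add ha hb
  smul_mem' := fun c _ hf => isAut0_smul c hf

theorem mem_aut0Sub963 {f : G K → ℂ} : f ∈ aut0Sub963 K ↔ IsAut0 f := Iff.rfl

/-- The inner product core: `⟪x, y⟫ = ⟨y, x⟩_F` (Mathlib's inner product is conjugate linear in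
the FIRST variable, the Petersson pairing in the SECOND). -/
@[reducible] def core963 (F : T2.Frame K) (hP : PairC K) :
    InnerProductSpace.Core ℂ (aut0Sub963 K) where
  inner x y := T2.pair F y.1 x.1
  conj_inner_symm x y := (pair_conj F x.1 y.1).symm
  re_inner_nonneg x := T2.H886.nsq_nonneg886 F x.1
  add_left x y z := by
    show T2.pair F z.1 (fun g => x.1 g + y.1 g) = T2.pair F z.1 x.1 + T2.pair F z.1 y.1
    rw [pair_conj F (fun g => x.1 g + y.1 g) z.1, (hP F).1 x.1 y.1 z.1 x.2 y.2 z.2, map_add,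
      ← pair_conj, ← pair_conj]
  smul_left x y r := by
    show T2.pair F y.1 (fun g => r * x.1 g) = conj r * T2.pair F y.1 x.1
    exact pair_smul_right F r y.1 x.1
  definite x h := by
    have h0 := (hP F).2.1 x.1 x.2 h
    exact Subtype.ext (funext h0)


/-- The pre-Hilbert space: the class `IsAut0` with the Petersson pairing of the frame `F`. -/
def Sp963 (_F : T2.Frame K) (_hP : PairC K) : Type := aut0Sub963 K

section Space

variable (F : T2.Frame K) (hP : PairC K)

instance : NormedAddCommGroup (Sp963 F hP) :=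
  @InnerProductSpace.Core.toNormedAddCommGroup ℂ (aut0Sub963 K) _ _ _ (core963 F hP)

instance : InnerProductSpace ℂ (Sp963 F hP) :=
  @InnerProductSpace.ofCore ℂ (aut0Sub963 K) _ _ _ (core963 F hP).toCore

/-- The underlying function. -/
def Sp963.fn (x : Sp963 F hP) : G K → ℂ := (show aut0Sub963 K from x).1

theorem Sp963.isAut0 (x : Sp963 F hP) : IsAut0 (Sp963.fn F hP x) := (show aut0Sub963 K from x).2

/-- The vector of a function of the class. -/
def Sp963.mk {f : G K → ℂ} (hf : IsAut0 f) : Sp963 F hP := (⟨f, hf⟩ : aut0Sub963 K)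

@[simp] theorem Sp963.fn_mk {f : G K → ℂ} (hf : IsAut0 f) :
    Sp963.fn F hP (Sp963.mk F hP hf) = f := rfl

theorem Sp963.ext {x y : Sp963 F hP} (h : Sp963.fn F hP x = Sp963.fn F hP y) : x = y :=
  Subtype.ext h

theorem Sp963.inner_def (x y : Sp963 F hP) :
    ⟪x, y⟫_ℂ = T2.pair F (Sp963.fn F hP y) (Sp963.fn F hP x) := rfl

@[simp] theorem Sp963.fn_add (x y : Sp963 F hP) :
    Sp963.fn F hP (x + y) = fun g => Sp963.fn F hP x g + Sp963.fn F hP y g := rfl

@[simp] theorem Sp963.fn_smul (c : ℂ) (x : Sp963 F hP) :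
    Sp963.fn F hP (c • x) = fun g => c * Sp963.fn F hP x g := rfl

@[simp] theorem Sp963.fn_zero : Sp963.fn F hP (0 : Sp963 F hP) = fun _ => 0 := rfl

/-- The underlying function, as a linear map. -/
def Sp963.fnL : Sp963 F hP →ₗ[ℂ] (G K → ℂ) := (aut0Sub963 K).subtype

theorem Sp963.fnL_apply (x : Sp963 F hP) : Sp963.fnL F hP x = Sp963.fn F hP x := rfl

theorem Sp963.fn_sum {ι : Type} (s : Finset ι) (c : ι → ℂ) (y : ι → Sp963 F hP) :
    Sp963.fn F hP (∑ i ∈ s, c i • y i) = fun g => ∑ i ∈ s, c i * Sp963.fn F hP (y i) g := by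
  rw [← Sp963.fnL_apply, map_sum]
  funext g
  rw [Finset.sum_apply]
  refine Finset.sum_congr rfl fun i _ => ?_
  rw [map_smul]
  rfl

/-! ## 3. The unitary representation by right translations -/

/-- Right translation by `g` as a linear equivalence of the class `IsAut0`. -/
def rtEquiv963 (g : G K) : Sp963 F hP ≃ₗ[ℂ] Sp963 F hP where
  toFun x := Sp963.mk F hP (isAut0_rt g (Sp963.isAut0 F hP x))
  invFun x := Sp963.mk F hP (isAut0_rt g⁻¹ (Sp963.isAut0 F hP x))
  map_add' _ _ := rfl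
  map_smul' _ _ := rfl
  left_inv x := by
    apply Sp963.ext
    show rt g⁻¹ (rt g (Sp963.fn F hP x)) = Sp963.fn F hP x
    rw [rt_rt, inv_mul_cancel, rt_one]
  right_inv x := by
    apply Sp963.ext
    show rt g (rt g⁻¹ (Sp963.fn F hP x)) = Sp963.fn F hP x
    rw [rt_rt, mul_inv_cancel, rt_one]

/-- Right translation by `g` is unitary (`PairC`, third clause). -/
def rho963 (g : G K) : Sp963 F hP ≃ₗᵢ[ℂ] Sp963 F hP :=
  (rtEquiv963 F hP g).isometryOfInner fun x y =>
    (hP F).2.2 g (Sp963.fn F hP y) (Sp963.fn F hP x) (Sp963.isAut0 F hP y) (Sp963.isAut0 F hP x)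

theorem fn_rho963 (g : G K) (x : Sp963 F hP) :
    Sp963.fn F hP (rho963 F hP g x) = rt g (Sp963.fn F hP x) := rfl

/-- The representation. -/
def rhoHom963 : G K →* (Sp963 F hP ≃ₗᵢ[ℂ] Sp963 F hP) where
  toFun := rho963 F hP
  map_one' := by
    ext x
    apply Sp963.ext
    show rt 1 (Sp963.fn F hP x) = Sp963.fn F hP x
    exact rt_one _
  map_mul' g h := by
    ext x
    apply Sp963.ext
    show rt (g * h) (Sp963.fn F hP x) = rt g (rt h (Sp963.fn F hP x))
    rw [rt_rt]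

theorem fn_rhoHom963 (g : G K) (x : Sp963 F hP) :
    Sp963.fn F hP (rhoHom963 F hP g x) = rt g (Sp963.fn F hP x) := rfl

theorem isAut0_lin963 {n : ℕ} (c : Fin n → ℂ) (g : Fin n → G K) {f : G K → ℂ}
    (hf : IsAut0 f) : IsAut0 (lin c g f) :=
  isAut0_sum Finset.univ c (fun i => rt (g i) f) (fun i => isAut0_rt (g i) hf)

theorem mk_lin_mem_orbitSpan963 {n : ℕ} (c : Fin n → ℂ) (g : Fin n → G K) (x : Sp963 F hP) :
    Sp963.mk F hP (isAut0_lin963 c g (Sp963.isAut0 F hP x))
      ∈ orbitSpan963 (rhoHom963 F hP) x := by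
  have h : Sp963.mk F hP (isAut0_lin963 c g (Sp963.isAut0 F hP x))
      = ∑ i, c i • rhoHom963 F hP (g i) x := by
    apply Sp963.ext
    rw [Sp963.fn_sum]
    rfl
  rw [h]
  exact Submodule.sum_mem _ fun i _ =>
    Submodule.smul_mem _ _ (Submodule.subset_span ⟨g i, rfl⟩)

end Space

/-! ## 4. The theorem -/

/-- **MULTIPLICITY ONE IN MODULE FORM** (weak form) from `MatchC`, `PairC` and the
finite-dimensionality of the space of forms, for a totally complex field. -/
theorem cyclicWeak_of963 (hcx : ∀ w : InfinitePlace K, w.IsComplex) (hM : MatchC K)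
    (hP : PairC K) (hV : FormSpaceC963 K) : CyclicWeakC963 K := by
  classical
  intro F π φ φ' hφ hφ' v₀ hv₀
  obtain ⟨W, hWfin, hW⟩ := hV π
  have hA : ∀ f : G K → ℂ, IsSph0CuspFormFor π f → IsAut0 f := fun f hf => aut0_closed K π f hf
  let V : Submodule ℂ (Sp963 F hP) := W.comap (Sp963.fnL F hP)
  have hVmem : ∀ x : Sp963 F hP,
      x ∈ V ↔ (Sp963.fn F hP x = 0 ∨ IsSph0CuspFormFor π (Sp963.fn F hP x)) := fun x => hW _
  have hne0 : ∀ x : Sp963 F hP, x ≠ 0 → Sp963.fn F hP x ≠ 0 := fun x hx h =>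
    hx (Sp963.ext F hP (h.trans (Sp963.fn_zero F hP).symm))
  haveI hWfin' : Module.Finite ℂ W := hWfin
  have hVfd : FiniteDimensional ℂ V := by
    let j : V →ₗ[ℂ] W := (Sp963.fnL F hP).restrict (p := V) (q := W) (fun x hx => hx)
    have hj : Function.Injective j := by
      intro a b hab
      have h1 : ((j a : W) : G K → ℂ) = ((j b : W) : G K → ℂ) := by rw [hab]
      exact Subtype.ext (Sp963.ext F hP h1)
    exact FiniteDimensional.of_injective j hj
  haveI : FiniteDimensional ℂ V := hVfd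
  have hmatch : ∀ e ∈ V, ∀ e₂ ∈ V, e ≠ 0 → e₂ ≠ 0 →
      ∃ x : Sp963 F hP, x ∈ orbitSpan963 (rhoHom963 F hP) e ∧
        x ∈ orbitSpan963 (rhoHom963 F hP) e₂ ∧ x ≠ 0 := by
    intro e he e₂ he₂ he0 he₂0
    have hf : IsSph0CuspFormFor π (Sp963.fn F hP e) :=
      ((hVmem e).1 he).resolve_left (hne0 e he0)
    have hf₂ : IsSph0CuspFormFor π (Sp963.fn F hP e₂) :=
      ((hVmem e₂).1 he₂).resolve_left (hne0 e₂ he₂0)
    have hpar : SameParity (Sp963.fn F hP e) (Sp963.fn F hP e₂) := fun w hw =>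
      absurd hw (InfinitePlace.not_isReal_iff_isComplex.mpr (hcx w))
    have hag : HeckeEigensystem.AgreesAwayFromFinite π π := ⟨∅, fun v _ => ⟨rfl, rfl⟩⟩
    obtain ⟨n, n', c, g, c', g', -, -, heq, x0, hx0⟩ :=
      hM π π (Sp963.fn F hP e) (Sp963.fn F hP e₂) hf hf₂ hpar hag v₀ hv₀ hv₀
    refine ⟨Sp963.mk F hP (isAut0_lin963 c g (Sp963.isAut0 F hP e)),
      mk_lin_mem_orbitSpan963 F hP c g e, ?_, ?_⟩
    · have h : Sp963.mk F hP (isAut0_lin963 c g (Sp963.isAut0 F hP e))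
          = Sp963.mk F hP (isAut0_lin963 c' g' (Sp963.isAut0 F hP e₂)) := Sp963.ext F hP heq
      rw [h]
      exact mk_lin_mem_orbitSpan963 F hP c' g' e₂
    · intro h0
      apply hx0
      have h1 := congrArg (Sp963.fn F hP) h0
      exact congrFun h1 x0
  -- the vectors of `φ`, `φ'`
  set e : Sp963 F hP := Sp963.mk F hP (hA φ hφ) with he
  have heV : e ∈ V := (hVmem e).2 (Or.inr hφ)
  have he0 : e ≠ 0 := by
    obtain ⟨x, hx⟩ := hφ.ne_zero
    intro h
    exact hx (congrFun (congrArg (Sp963.fn F hP) h) x)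
  have key := cyclic_of_match963 (rhoHom963 F hP) V hmatch e heV he0
  set e' : Sp963 F hP := Sp963.mk F hP (hA φ' hφ') with he'
  have he'V : e' ∈ V := (hVmem e').2 (Or.inr hφ')
  have hspan : e' ∈ Submodule.span ℂ
      (Set.range fun g : G K => V.starProjection (rhoHom963 F hP g e)) := by
    rw [key]
    exact he'V
  obtain ⟨cf, hcf⟩ := Finsupp.mem_span_range_iff_exists_finsupp.mp hspan
  refine ⟨cf.support, cf, fun ψ hψ => ?_⟩
  set p : Sp963 F hP := Sp963.mk F hP (hA ψ hψ) with hp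
  have hpV : p ∈ V := (hVmem p).2 (Or.inr hψ)
  have hproj : ∀ g : G K,
      ⟪p, rhoHom963 F hP g e⟫_ℂ = ⟪p, V.starProjection (rhoHom963 F hP g e)⟫_ℂ := by
    intro g
    have h0 := Submodule.starProjection_inner_eq_zero (K := V) (rhoHom963 F hP g e) p hpV
    have h0' := inner_eq_zero_symm.mp h0
    rw [inner_sub_right, sub_eq_zero] at h0'
    exact h0'
  have h1 : ⟪p, ∑ g ∈ cf.support, cf g • rhoHom963 F hP g e⟫_ℂ = ⟪p, e'⟫_ℂ := by
    have hL := inner_sum (𝕜 := ℂ) cf.support (fun g => cf g • rhoHom963 F hP g e) p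
    have hR := inner_sum (𝕜 := ℂ) cf.support
      (fun g => cf g • V.starProjection (rhoHom963 F hP g e)) p
    have hE : e' = ∑ g ∈ cf.support, cf g • V.starProjection (rhoHom963 F hP g e) := hcf.symm
    rw [hE]
    refine hL.trans (Eq.trans ?_ hR.symm)
    refine Finset.sum_congr rfl fun g _ => ?_
    show ⟪p, cf g • rhoHom963 F hP g e⟫_ℂ = ⟪p, cf g • V.starProjection (rhoHom963 F hP g e)⟫_ℂ
    rw [inner_smul_right, inner_smul_right, hproj g]
  rw [Sp963.inner_def, Sp963.inner_def, Sp963.fn_sum] at h1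
  exact h1

/-- The same with `MatchC` and `PairC` discharged by the closed station T2.10 (helper941). -/
theorem cyclicWeak_of_formSpace963 (hcx : ∀ w : InfinitePlace K, w.IsComplex)
    (hV : FormSpaceC963 K) : CyclicWeakC963 K :=
  cyclicWeak_of963 hcx (match_uncond_totCplx K hcx) (pair_uncond K) hV

end Fermat.Agent.LT.H963

end
end
-- ===== PACK-END LT/H963/Cyclic.lean

-- ===== PACK-BEGIN LT/T7/H40/ProjClosed.lean
section


















/-!
# Row LT, tower T7, node T7.L2.1 `SupplyC`, part (C3) = PROJ -- INTEGRATION (helper40)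

OFF-MAIN.  The deliveries of the leaves of `ProjSpec.lean` / `ArchProjSpec.lean`, vendored
byte-identical, plugged into the proved tops.

| leaf | row | theorem | seat |
|---|---|---|---|
| `TranslInnerC` | 2105 | `H128.translInnerC128` | helper128 |
| `FinProjC` | 2104 | `H949.finProjC949` | helper949 |
| `PosFamilyC` | 2166 | `H510.posFamilyC_h510` | helper510 |
| `PosScalarC` | 2167 | `H819.posScalarC819` | helper819 |
| `UnitPeriodsC` | 2168 | `H919.unitPeriodsC919` | helper919 |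
| `RayLogC` | 2169 | `H40.H846.rayLogC846` | helper846 |
| `UnitPeriodC` | 2170 | `H175.unitPeriodC175` | helper175 |
| `AvgContC` | 2171 | `H944.avgContC944` | helper944 |
| `AvgAutC` | 2172 | `H346.avgAutC346` | helper346 |
| `AvgCuspidalC` | 2173 | `H312.avgCuspidalC312` | helper312 |
| `AvgInvC` | 2174 | `H944.avgInvC944` | helper944 |
| `AvgOrthC` | 2175 | `H40.H267.avgOrthC267` | helper267 |

NOTHING IS OPEN: `projC_closed40 : ProjC K` for every number field `K` (T1 of the closure: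
`T1/Closed.lean`, `T1.t1Out`).  Spare deliveries (not used here): `FinProjC` helper277,
`TranslInnerC` helper176 / helper277, `UnitPeriodsC` helper805 / 842 / 409 / 846 / 972 / 175,
`PosFamilyC` helper947 / 175, `AvgInvC` helper312, `AvgAutC` helper944, period family helper175.
-/

set_option autoImplicit false

open AutomorphicForm IsDedekindDomain NumberField MeasureTheory

noncomputable section

namespace Fermat.Agent.LT.T7.H40

open Fermat.Agent.LT.H556 Fermat.Agent.LT.H556.A0 Fermat.Agent.LT.T7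

variable (K : Type) [Field K] [NumberField K]

/-- `TranslInnerC`, closed (helper128). -/
theorem translInnerC_closed40 : TranslInnerC K :=
  Fermat.Agent.LT.T7.H128.translInnerC128 K

/-- `FinProjC`, closed (helper949). -/
theorem finProjC_closed40 : FinProjC K :=
  Fermat.Agent.LT.T7.H949.finProjC949 K (translInnerC_closed40 K) (T1.t1Out K)

/-- `AvgCuspC`, closed (helper944, helper346, helper312). -/
theorem avgCuspC_closed40 : AvgCuspC K :=
  avgCuspC_of40 (Fermat.Agent.LT.T7.H944.avgContC944 K) (Fermat.Agent.LT.T7.H346.avgAutC346 K)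
    (Fermat.Agent.LT.T7.H312.avgCuspidalC312 K)

/-- `PeriodFamilyC`, closed (helper510, helper819, helper919, helper846, helper175). -/
theorem periodFamilyC_closed40 : PeriodFamilyC K :=
  periodFamilyC_of40 (Fermat.Agent.LT.T7.H510.posFamilyC_h510 K)
    (Fermat.Agent.LT.T7.H819.posScalarC819 K) (Fermat.Agent.LT.T7.H919.unitPeriodsC919 K)
    (Fermat.Agent.LT.T7.H40.H846.rayLogC846 K) (Fermat.Agent.LT.T7.H175.unitPeriodC175 K)

/-- **`ArchProjC`, closed.** -/
theorem archProjC_closed40 : ArchProjC K :=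
  archProjC_of40 (T1.t1Out K) (translInnerC_closed40 K) (periodFamilyC_closed40 K)
    (avgCuspC_closed40 K) (Fermat.Agent.LT.T7.H944.avgInvC944 K)
    (Fermat.Agent.LT.T7.H40.H267.avgOrthC267 K)

/-- **`ProjC`, closed: the orthogonal projection on the invariant cusp functions, for every
number field.** -/
theorem projC_closed40 : ProjC K :=
  projC_of40 (archProjC_closed40 K) (finProjC_closed40 K)

/-- **Row 2110 (`H893.ProjC`, leaf C3a of the cut of `SupplyC`), closed.** -/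
theorem projC893_closed40 : Fermat.Agent.LT.T7.H893.ProjC K :=
  projC893_of40 (projC_closed40 K)

section Fields

variable {K}
variable {K' : Type} [Field K'] [NumberField K'] [Algebra K K']

/-- **The field `proj_up` of `T7.IsL2Data`** (for one bad element `g`), closed. -/
theorem proj_up_closed40 (Dt : L2Data K K') (ℓ : ℕ) (g : G K')
    (hcomp : IsCompData (Dt.comp g)) (hlev : Dt.𝔑 g ≤ Dt.𝔑₀) :
    ∀ ψ : G K' → ℂ, T5.IsCuspFn (Dt.𝔑 g) T5.trivType Dt.R'.r ψ →
    ∃ ψ₁ : G K' → ℂ, IsWFn Dt.𝔑₀ Dt.R'.r ℓ Dt.o ψ₁ ∧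
      ∀ χ : G K' → ℂ, IsWFn Dt.𝔑₀ Dt.R'.r ℓ Dt.o χ →
        T5.innerD Dt.R'.μ Dt.R'.F (fun x => ψ x - ψ₁ x) χ = 0 :=
  proj_up40 (projC_closed40 K') Dt ℓ g hcomp hlev

/-- **The field `proj_down` of `T7.IsL2Data`** (for one bad element `g`), closed. -/
theorem proj_down_closed40 (Dt : L2Data K K') (g : G K')
    (hcomp : IsCompData (Dt.comp g)) :
    ∀ ψ : G K → ℂ, T5.IsCuspFn (Dt.𝔫 g) T5.trivType Dt.R.r ψ →
    ∃ ψ₁ : G K → ℂ, IsWFn (Dt.𝔫 g) Dt.R.r 1 (fun _ => Dt.u) ψ₁ ∧
      ∀ χ : G K → ℂ, IsWFn (Dt.𝔫 g) Dt.R.r 1 (fun _ => Dt.u) χ →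
        T5.innerD Dt.R.μ Dt.R.F (fun x => ψ x - ψ₁ x) χ = 0 :=
  proj_down40 (projC_closed40 K) Dt g hcomp

end Fields

end Fermat.Agent.LT.T7.H40

end

end
-- ===== PACK-END LT/T7/H40/ProjClosed.lean

-- ===== PACK-BEGIN LT/T7/H938/SplitEnum.lean
section



/-!
# Row LT, tower T7, asset "SPLIT-ENUM" (helper938, OFF-MAIN)

`K'/K` cyclic of prime degree `l` with generator `σ` (`CompData`), `v` a finite place of `K` with
at least two places of `K'` over it, unramified.  Then there is an ENUMERATION `w 0, w 1, …` of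
the places over `v` in the order of the orbit of `σ` (`w j = σ(w (j+1))`, the form of
`T5.PlaceRel`), `w j ≠ w 0` for `0 < j < l`, with identifications `i j : K_v ≃ K'_{w j}` which
preserve the valuations:

    exists_enum938 : T6.InstSplitC → IsCompData D → IsCycExt K K' D.l → (two places over v) →
        (v unramified) → ∃ w i, …          (the data of the split clause of `LocHyp893`)

Proof.  `w j = σ^{-j}(w₀)` (`pull938`, `enum938`).  The stabiliser of `w₀` in the Galois group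
(prime order) is trivial or everything; it is not everything (the Galois group acts
transitively on the places over `v`: `Algebra.IsInvariant.exists_smul_of_under_eq`), so
`σ^j w₀ ≠ w₀` for `0 < j < l` (`σ^j ≠ 1`).  Residue degree: the fundamental identity
`g · e · f = l` with `g ≥ 2` gives `f = 1`, `N w = N v`
(`Ideal.absNorm_eq_pow_inertiaDeg'_of_liesOver`); `T6.InstSplitC` gives the identifications.

No hole, nothing assumed.  ADDITIVE (suffix `938`).
-/

set_option autoImplicit false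
set_option linter.unusedSectionVars false

open IsDedekindDomain NumberField
open scoped Pointwise

noncomputable section

namespace Fermat.Agent.LT.T7.H938

open Fermat.Agent.LT.H556 Fermat.Agent.LT.H556.A0 Fermat.Agent.LT.T7 Fermat.Agent.LT

/-! ## 1. The place `σ⁻¹ w` -/

section Pull

variable {K' : Type} [Field K'] [NumberField K']

/-- The place `σ⁻¹ w`. -/
def pull938 (σ : K' ≃+* K') (w : HeightOneSpectrum (𝓞 K')) : HeightOneSpectrum (𝓞 K') :=
  HeightOneSpectrum.comap (RingOfIntegers.mapRingEquiv σ : 𝓞 K' →+* 𝓞 K')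
    (RingOfIntegers.mapRingEquiv σ).surjective w

theorem mem_pull938 (σ : K' ≃+* K') (w : HeightOneSpectrum (𝓞 K')) (y : 𝓞 K') :
    y ∈ (pull938 σ w).asIdeal ↔ RingOfIntegers.mapRingEquiv σ y ∈ w.asIdeal := Iff.rfl

theorem placeRel_pull938 (s : T5.AdelicAut K') (w : HeightOneSpectrum (𝓞 K')) :
    T5.PlaceRel s (pull938 s.σ w) w := by
  unfold T5.PlaceRel
  ext x
  rw [Ideal.mem_map_of_equiv]
  constructor
  · intro hx
    refine ⟨(RingOfIntegers.mapRingEquiv s.σ).symm x, (mem_pull938 _ _ _).2 ?_, by simp⟩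
    simpa using hx
  · rintro ⟨y, hy, rfl⟩
    exact (mem_pull938 _ _ _).1 hy

/-- The enumeration `w j = σ^{-j}(w₀)`. -/
def enum938 (σ : K' ≃+* K') (w₀ : HeightOneSpectrum (𝓞 K')) (j : ℕ) :
    HeightOneSpectrum (𝓞 K') :=
  (pull938 σ)^[j] w₀

theorem enum_zero938 (σ : K' ≃+* K') (w₀ : HeightOneSpectrum (𝓞 K')) : enum938 σ w₀ 0 = w₀ := rfl

theorem enum_succ938 (σ : K' ≃+* K') (w₀ : HeightOneSpectrum (𝓞 K')) (j : ℕ) :
    enum938 σ w₀ (j + 1) = pull938 σ (enum938 σ w₀ j) := by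
  unfold enum938
  rw [Function.iterate_succ_apply']

theorem mem_enum938 (σ : K' ≃+* K') (w₀ : HeightOneSpectrum (𝓞 K')) (j : ℕ) (y : 𝓞 K') :
    y ∈ (enum938 σ w₀ j).asIdeal ↔ (⇑(RingOfIntegers.mapRingEquiv σ))^[j] y ∈ w₀.asIdeal := by
  induction j generalizing y with
  | zero => rfl
  | succ j ih =>
    rw [enum_succ938, mem_pull938, ih, Function.iterate_succ_apply]

theorem coe_iterate938 (σ : K' ≃+* K') (j : ℕ) (y : 𝓞 K') :
    (((⇑(RingOfIntegers.mapRingEquiv σ))^[j] y : 𝓞 K') : K') = (σ ^ j) (y : K') := by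
  induction j generalizing y with
  | zero => rfl
  | succ j ih =>
    rw [Function.iterate_succ_apply, ih, RingOfIntegers.mapRingEquiv_apply, pow_succ]
    rfl

end Pull

/-! ## 2. Two fields -/

section Two

variable {K K' : Type} [Field K] [NumberField K] [Field K'] [NumberField K'] [Algebra K K']

theorem placeOver_pull938 (σ : K' ≃+* K')
    (hfix : ∀ x : K, σ (algebraMap K K' x) = algebraMap K K' x)
    {v : HeightOneSpectrum (𝓞 K)} {w : HeightOneSpectrum (𝓞 K')} (h : PlaceOver K K' v w) :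
    PlaceOver K K' v (pull938 σ w) := by
  intro x y hxy
  rw [mem_pull938]
  refine h x (RingOfIntegers.mapRingEquiv σ y) ?_
  rw [RingOfIntegers.mapRingEquiv_apply, hxy, hfix]

theorem placeOver_enum938 (σ : K' ≃+* K')
    (hfix : ∀ x : K, σ (algebraMap K K' x) = algebraMap K K' x)
    {v : HeightOneSpectrum (𝓞 K)} {w₀ : HeightOneSpectrum (𝓞 K')} (h : PlaceOver K K' v w₀)
    (j : ℕ) : PlaceOver K K' v (enum938 σ w₀ j) := by
  induction j with
  | zero => exact h
  | succ j ih =>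
    rw [enum_succ938]
    exact placeOver_pull938 σ hfix ih

/-- The generator as a `K`-algebra automorphism. -/
def sigAlg938 (σ : K' ≃+* K') (hfix : ∀ x : K, σ (algebraMap K K' x) = algebraMap K K' x) :
    K' ≃ₐ[K] K' :=
  AlgEquiv.ofRingEquiv (f := σ) hfix

theorem sigAlg_pow938 (σ : K' ≃+* K')
    (hfix : ∀ x : K, σ (algebraMap K K' x) = algebraMap K K' x) (j : ℕ) (x : K') :
    (sigAlg938 σ hfix ^ j) x = (σ ^ j) x := by
  induction j generalizing x with
  | zero => rfl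
  | succ j ih =>
    rw [pow_succ, pow_succ, AlgEquiv.mul_apply, ih]
    rfl

theorem placeOver_under938 {v : HeightOneSpectrum (𝓞 K)} {w : HeightOneSpectrum (𝓞 K')}
    (h : PlaceOver K K' v w) : v.asIdeal = w.asIdeal.under (𝓞 K) := by
  rw [Ideal.under_def]
  exact (H557.placeOver_iff_557 v w).1 h

theorem card_gal938 (l : ℕ) (hc : IsCycExt K K' l) : Nat.card (K' ≃ₐ[K] K') = l := by
  have hg := hc.galois
  have hfd : FiniteDimensional K K' := by
    apply Module.finite_of_finrank_pos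
    rw [hc.degree]
    exact hc.prime.pos
  rw [IsGalois.card_aut_eq_finrank, hc.degree]

/-- `σ^j w₀ ≠ w₀` for `0 < j < l` at a place with at least two places over it. -/
theorem enum_ne938 (l : ℕ) (hc : IsCycExt K K' l) (σ : K' ≃+* K')
    (hfix : ∀ x : K, σ (algebraMap K K' x) = algebraMap K K' x)
    (hfaith : ∀ j : ℕ, 0 < j → j < l → ∃ x : K', (σ ^ j) x ≠ x)
    {v : HeightOneSpectrum (𝓞 K)} {w₀ w₁ w₂ : HeightOneSpectrum (𝓞 K')}
    (h0 : PlaceOver K K' v w₀) (h1 : PlaceOver K K' v w₁) (h2 : PlaceOver K K' v w₂)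
    (h12 : w₁ ≠ w₂) (j : ℕ) (hj0 : 0 < j) (hjl : j < l) : enum938 σ w₀ j ≠ w₀ := by
  intro heq
  have hg := hc.galois
  have hcard := card_gal938 l hc
  have hp : Fact (Nat.card (K' ≃ₐ[K] K')).Prime := ⟨by rw [hcard]; exact hc.prime⟩
  rcases Subgroup.eq_bot_or_eq_top_of_prime_card
    (MulAction.stabilizer (K' ≃ₐ[K] K') w₀.asIdeal) with hb | ht
  · have hmem : sigAlg938 σ hfix ^ j ∈ MulAction.stabilizer (K' ≃ₐ[K] K') w₀.asIdeal := by
      rw [MulAction.mem_stabilizer_iff]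
      ext x
      rw [Ideal.mem_pointwise_smul_iff_inv_smul_mem]
      have h3 := mem_enum938 σ w₀ j ((sigAlg938 σ hfix ^ j)⁻¹ • x)
      rw [heq] at h3
      rw [h3]
      have h4 : (⇑(RingOfIntegers.mapRingEquiv σ))^[j] ((sigAlg938 σ hfix ^ j)⁻¹ • x) = x := by
        apply RingOfIntegers.ext
        rw [coe_iterate938, ← sigAlg_pow938 σ hfix]
        show (sigAlg938 σ hfix ^ j) ((sigAlg938 σ hfix ^ j)⁻¹ (x : K')) = (x : K')
        rw [← AlgEquiv.mul_apply, mul_inv_cancel]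
        rfl
      rw [h4]
    rw [hb, Subgroup.mem_bot] at hmem
    obtain ⟨x, hx⟩ := hfaith j hj0 hjl
    apply hx
    rw [← sigAlg_pow938 σ hfix, hmem]
    rfl
  · have hall : ∀ g : K' ≃ₐ[K] K', g • w₀.asIdeal = w₀.asIdeal := fun g =>
      MulAction.mem_stabilizer_iff.1 (ht ▸ Subgroup.mem_top g)
    have hQ : ∀ w : HeightOneSpectrum (𝓞 K'), PlaceOver K K' v w → w = w₀ := by
      intro w hw
      have hunder : w₀.asIdeal.under (𝓞 K) = w.asIdeal.under (𝓞 K) := by
        rw [← placeOver_under938 h0, ← placeOver_under938 hw]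
      have hw0 := w₀.isPrime
      have hwp := w.isPrime
      obtain ⟨g, hg⟩ := Algebra.IsInvariant.exists_smul_of_under_eq (𝓞 K) (𝓞 K')
        (K' ≃ₐ[K] K') w₀.asIdeal w.asIdeal hunder
      apply HeightOneSpectrum.ext
      rw [hg, hall g]
    exact h12 ((hQ w₁ h1).trans (hQ w₂ h2).symm)

/-- The residue degree at a place with at least two places over it is `1`. -/
theorem absNorm_split938 (l : ℕ) (hc : IsCycExt K K' l)
    {v : HeightOneSpectrum (𝓞 K)} {w w₁ w₂ : HeightOneSpectrum (𝓞 K')}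
    (hw : PlaceOver K K' v w) (h1 : PlaceOver K K' v w₁) (h2 : PlaceOver K K' v w₂)
    (h12 : w₁ ≠ w₂) : Ideal.absNorm w.asIdeal = Ideal.absNorm v.asIdeal := by
  have hg := hc.galois
  have hcard := card_gal938 l hc
  have hvp := v.isPrime
  have hvm := v.isMaximal
  have hwp := w.isPrime
  have hwm := w.isMaximal
  have hid := Ideal.ncard_primesOver_mul_ramificationIdxIn_mul_inertiaDegIn v.asIdeal (𝓞 K')
    (K' ≃ₐ[K] K')
  rw [hcard] at hid
  have hmem : ∀ w' : HeightOneSpectrum (𝓞 K'), PlaceOver K K' v w' →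
      w'.asIdeal ∈ v.asIdeal.primesOver (𝓞 K') := fun w' hw' =>
    ⟨w'.isPrime, ⟨placeOver_under938 hw'⟩⟩
  have hn0 : (v.asIdeal.primesOver (𝓞 K')).ncard ≠ 0 := by
    intro h
    rw [h, zero_mul] at hid
    exact hc.prime.ne_zero hid.symm
  have hfin := Set.finite_of_ncard_ne_zero hn0
  have h1lt : 1 < (v.asIdeal.primesOver (𝓞 K')).ncard :=
    (Set.one_lt_ncard_iff hfin).2 ⟨w₁.asIdeal, w₂.asIdeal, hmem w₁ h1, hmem w₂ h2,
      fun h => h12 (HeightOneSpectrum.ext h)⟩
  have hdvd : (v.asIdeal.primesOver (𝓞 K')).ncard ∣ l := ⟨_, hid.symm⟩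
  have hnl : (v.asIdeal.primesOver (𝓞 K')).ncard = l :=
    ((Nat.dvd_prime hc.prime).1 hdvd).resolve_left (by omega)
  rw [hnl] at hid
  have hef : v.asIdeal.ramificationIdxIn (𝓞 K') * v.asIdeal.inertiaDegIn (𝓞 K') = 1 :=
    Nat.eq_of_mul_eq_mul_left hc.prime.pos (by rw [hid, mul_one])
  have hf : v.asIdeal.inertiaDegIn (𝓞 K') = 1 := Nat.eq_one_of_mul_eq_one_left hef
  have hlo : w.asIdeal.LiesOver v.asIdeal := ⟨placeOver_under938 hw⟩
  have h5 := Ideal.absNorm_eq_pow_inertiaDeg'_of_liesOver w.asIdeal v.asIdeal v.isPrime v.ne_bot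
  rw [Ideal.inertiaDeg'_eq_inertiaDeg,
    ← Ideal.inertiaDegIn_eq_inertiaDeg v.asIdeal w.asIdeal (K' ≃ₐ[K] K'), hf, pow_one] at h5
  exact h5

/-- **THE ENUMERATION AT A SPLIT PLACE.** -/
theorem exists_enum938 (hIS : T6.InstSplitC) (D : CompData K K') (hD : IsCompData D)
    (hc : IsCycExt K K' D.l) (v : HeightOneSpectrum (𝓞 K))
    (hsplit : ∃ w₁ w₂ : HeightOneSpectrum (𝓞 K'),
      PlaceOver K K' v w₁ ∧ PlaceOver K K' v w₂ ∧ w₁ ≠ w₂)
    (hun : ∀ w : HeightOneSpectrum (𝓞 K'), PlaceOver K K' v w →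
      ∃ x : 𝓞 K, x ∈ v.asIdeal ∧ algebraMap (𝓞 K) (𝓞 K') x ∉ w.asIdeal ^ 2) :
    ∃ (w : ℕ → HeightOneSpectrum (𝓞 K'))
      (i : ∀ j : ℕ, v.adicCompletion K ≃+* (w j).adicCompletion K'),
      (∀ j : ℕ, PlaceOver K K' v (w j)) ∧ (∀ j : ℕ, T5.PlaceRel D.s (w (j + 1)) (w j)) ∧
      (∀ j : ℕ, 0 < j → j < D.l → w j ≠ w 0) ∧
      (∀ (j : ℕ) (x : K), i j (algebraMap K (v.adicCompletion K) x)
        = algebraMap K' ((w j).adicCompletion K') (algebraMap K K' x)) ∧
      (∀ (j : ℕ) (x : v.adicCompletion K), Valued.v (i j x) = Valued.v x) := by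
  obtain ⟨w₁, w₂, h1, h2, h12⟩ := hsplit
  have hfix : ∀ x : K, D.s.σ (algebraMap K K' x) = algebraMap K K' x := fun x =>
    (hD.cyc.fixed _).1 ((hD.base _).2 ⟨x, rfl⟩)
  have hover : ∀ j : ℕ, PlaceOver K K' v (enum938 D.s.σ w₁ j) :=
    placeOver_enum938 D.s.σ hfix h1
  have hiso : ∀ j : ℕ, ∃ i : v.adicCompletion K ≃+* (enum938 D.s.σ w₁ j).adicCompletion K',
      (∀ x : K, i (algebraMap K (v.adicCompletion K) x)
        = algebraMap K' ((enum938 D.s.σ w₁ j).adicCompletion K') (algebraMap K K' x)) ∧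
      ∀ x : v.adicCompletion K, Valued.v (i x) = Valued.v x := fun j =>
    hIS K K' v (enum938 D.s.σ w₁ j) (fun x => hover j x _ rfl)
      (absNorm_split938 D.l hc (hover j) h1 h2 h12) (hun _ (hover j))
  choose i hi1 hi2 using hiso
  refine ⟨enum938 D.s.σ w₁, i, hover, fun j => ?_, fun j hj0 hjl => ?_, hi1, hi2⟩
  · rw [enum_succ938]
    exact placeRel_pull938 D.s _
  · exact enum_ne938 D.l hc D.s.σ hfix hD.cyc.faithful h1 h1 h2 h12 j hj0 hjl

end Two

end Fermat.Agent.LT.T7.H938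

end
end
-- ===== PACK-END LT/T7/H938/SplitEnum.lean

-- ===== PACK-BEGIN LT/T7/H53/HaarSplitTop.lean
section





/-!
# Row LT, tower T7, leaf C2.7.4 `HaarSplitC305` (helper53, SPARE): the adelic topology

OFF-MAIN.  For a finite set `S` of finite places of a number field `K`:
* `outSub53 S` = `{y : OutT305 S y}` is an OPEN subgroup of `GL₂(𝔸_K)`;
* `piS53 S : GL₂(𝔸_K) →* ∏_{v ∈ S} GL₂(K_v) × ∏_w GL₂(ℂ)` is a continuous homomorphism
  (`= H305.compS305 S`), and maps `outSub53 S` ONTO the target if `K` is totally complex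
  (`exists_section53`);
* the elements of `GL₂(𝔸_K)` which are in `GL₂(𝒪_v)` at all finite places and whose components
  at the infinite places have entries (and entries of the inverse) of norm `≤ 2` form a compact
  set (`isCompact_bigBox53`).
-/

set_option autoImplicit false
set_option linter.style.haveILetI false
set_option linter.unusedSectionVars false

open IsDedekindDomain NumberField WithZero Topology
open Fermat.Agent.LT.H556.A0

noncomputable section

namespace Fermat.Agent.LT.T7.H53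

open Fermat.Agent.LT Fermat.Agent.LT.T7

variable {K : Type} [Field K] [NumberField K]

/-! ## 1. Components -/

theorem finGL_coe53 (v : HeightOneSpectrum (𝓞 K)) (g : G K) :
    ((H305.finGL305 v g : GL (Fin 2) (v.adicCompletion K)) :
      Matrix (Fin 2) (Fin 2) (v.adicCompletion K)) = finComp v g := rfl

theorem infGL_coe53 (w : InfinitePlace K) (g : G K) :
    ((H305.infGL305 w g : GL (Fin 2) ℂ) : Matrix (Fin 2) (Fin 2) ℂ) = infComp w g := rfl

theorem finGL_inv_coe53 (v : HeightOneSpectrum (𝓞 K)) (g : G K) :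
    (((H305.finGL305 v g)⁻¹ : GL (Fin 2) (v.adicCompletion K)) :
      Matrix (Fin 2) (Fin 2) (v.adicCompletion K)) = finComp v g⁻¹ := by
  rw [← map_inv]
  rfl

theorem infGL_inv_coe53 (w : InfinitePlace K) (g : G K) :
    (((H305.infGL305 w g)⁻¹ : GL (Fin 2) ℂ) : Matrix (Fin 2) (Fin 2) ℂ) = infComp w g⁻¹ := by
  rw [← map_inv]
  rfl

theorem continuous_finGL53 (v : HeightOneSpectrum (𝓞 K)) :
    Continuous (H305.finGL305 (K := K) v) := by
  rw [Units.continuous_iff]
  refine ⟨continuous_matrix fun i j => T1.H919.continuous_finComp919 v i j, ?_⟩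
  have h : Continuous (fun g : G K => finComp v g⁻¹) :=
    (continuous_matrix fun i j => T1.H919.continuous_finComp919 v i j).comp continuous_inv
  refine h.congr fun g => ?_
  exact (finGL_inv_coe53 v g).symm

theorem continuous_infGL53 (w : InfinitePlace K) :
    Continuous (H305.infGL305 (K := K) w) := by
  rw [Units.continuous_iff]
  refine ⟨T1.H919.continuous_infComp919 w, ?_⟩
  have h : Continuous (fun g : G K => infComp w g⁻¹) :=
    (T1.H919.continuous_infComp919 w).comp continuous_inv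
  refine h.congr fun g => ?_
  exact (infGL_inv_coe53 w g).symm

/-- The projection to the components at `S` and at the infinite places, as a homomorphism. -/
def piS53 (S : Finset (HeightOneSpectrum (𝓞 K))) :
    G K →* ((∀ v : S, GL (Fin 2) ((v : HeightOneSpectrum (𝓞 K)).adicCompletion K)) ×
      (InfinitePlace K → GL (Fin 2) ℂ)) :=
  MonoidHom.prod (MonoidHom.pi fun v : S => H305.finGL305 v.1)
    (MonoidHom.pi fun w : InfinitePlace K => H305.infGL305 w)

theorem piS_eq53 (S : Finset (HeightOneSpectrum (𝓞 K))) :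
    (piS53 S : G K → _) = H305.compS305 S := rfl

theorem continuous_piS53 (S : Finset (HeightOneSpectrum (𝓞 K))) : Continuous (piS53 (K := K) S) :=
  (continuous_pi fun v : S => continuous_finGL53 v.1).prodMk
    (continuous_pi fun w => continuous_infGL53 w)

/-! ## 2. The open subgroup -/

theorem finComp_mul53 (v : HeightOneSpectrum (𝓞 K)) (g h : G K) :
    finComp v (g * h) = finComp v g * finComp v h := by
  rw [← finGL_coe53, ← finGL_coe53, ← finGL_coe53, map_mul]
  rfl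

theorem isIntegralAt_mul53 (v : HeightOneSpectrum (𝓞 K)) {g h : G K}
    (hg : IsIntegralAt v g) (hh : IsIntegralAt v h) : IsIntegralAt v (g * h) := by
  intro i j
  rw [finComp_mul53, Matrix.mul_apply, Fin.sum_univ_two]
  exact add_mem (mul_mem (hg i 0) (hh 0 j)) (mul_mem (hg i 1) (hh 1 j))

theorem isIntegralAt_one53 (v : HeightOneSpectrum (𝓞 K)) : IsIntegralAt v (1 : G K) := by
  intro i j
  have h : finComp v (1 : G K) = 1 := by
    rw [← finGL_coe53, map_one]
    rfl
  rw [h]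
  exact one_entry_mem_integers53 v i j

/-- `{y : y_v ∈ GL₂(𝒪_v) for v ∉ S}` as a subgroup. -/
def outSub53 (S : Finset (HeightOneSpectrum (𝓞 K))) : Subgroup (G K) where
  carrier := {y | H305.OutT305 S y}
  mul_mem' := by
    intro a b ha hb v hv
    refine ⟨isIntegralAt_mul53 v (ha v hv).1 (hb v hv).1, ?_⟩
    rw [mul_inv_rev]
    exact isIntegralAt_mul53 v (hb v hv).2 (ha v hv).2
  one_mem' := by
    intro v _
    refine ⟨isIntegralAt_one53 v, ?_⟩
    rw [inv_one]
    exact isIntegralAt_one53 v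
  inv_mem' := by
    intro a ha v hv
    refine ⟨(ha v hv).2, ?_⟩
    rw [inv_inv]
    exact (ha v hv).1

theorem coe_outSub53 (S : Finset (HeightOneSpectrum (𝓞 K))) :
    (outSub53 S : Set (G K)) = {y | H305.OutT305 S y} := rfl

/-- The adeles which are integral outside `S` form an open set. -/
theorem isOpen_intOut53 (S : Finset (HeightOneSpectrum (𝓞 K))) :
    IsOpen {x : Adl K | ∀ v : HeightOneSpectrum (𝓞 K), v ∉ S →
      x.2 v ∈ v.adicCompletionIntegers K} := by
  have h : IsOpen {f : FiniteAdeleRing (𝓞 K) K | ∀ v : HeightOneSpectrum (𝓞 K), v ∉ S →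
      f v ∈ v.adicCompletionIntegers K} :=
    RestrictedProduct.isOpen_forall_imp_mem
      (R := fun v : HeightOneSpectrum (𝓞 K) => v.adicCompletion K)
      (A := fun v => (v.adicCompletionIntegers K : Set (v.adicCompletion K)))
      (fun _ => Valued.isOpen_valuationSubring _) (p := fun v => v ∉ S)
  exact h.preimage continuous_snd

theorem isOpen_outSub53 (S : Finset (HeightOneSpectrum (𝓞 K))) :
    IsOpen (outSub53 S : Set (G K)) := by
  have e : (outSub53 S : Set (G K))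
      = ⋂ (i : Fin 2), ⋂ (j : Fin 2),
        ((fun g : G K => (g : Matrix (Fin 2) (Fin 2) (Adl K)) i j) ⁻¹'
            {x : Adl K | ∀ v : HeightOneSpectrum (𝓞 K), v ∉ S →
              x.2 v ∈ v.adicCompletionIntegers K}) ∩
          ((fun g : G K => ((g⁻¹ : G K) : Matrix (Fin 2) (Fin 2) (Adl K)) i j) ⁻¹'
            {x : Adl K | ∀ v : HeightOneSpectrum (𝓞 K), v ∉ S →
              x.2 v ∈ v.adicCompletionIntegers K}) := by
    ext g
    simp only [coe_outSub53, Set.mem_iInter, Set.mem_inter_iff, Set.mem_preimage]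
    constructor
    · intro hg i j
      exact ⟨fun v hv => (hg v hv).1 i j, fun v hv => (hg v hv).2 i j⟩
    · intro hg v hv
      exact ⟨fun i j => (hg i j).1 v hv, fun i j => (hg i j).2 v hv⟩
  rw [e]
  refine isOpen_iInter_of_finite fun i => isOpen_iInter_of_finite fun j => IsOpen.inter ?_ ?_
  · exact (isOpen_intOut53 S).preimage (continuous_entry53 i j)
  · exact (isOpen_intOut53 S).preimage (continuous_inv_entry53 i j)

/-! ## 3. The section -/

/-- The adele with the components `a w` at the infinite places and `c v` at the finite places,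
`c v` integral outside `S`. -/
def adlMkS53 (S : Finset (HeightOneSpectrum (𝓞 K))) (a : ∀ w : InfinitePlace K, w.Completion)
    (c : ∀ v : HeightOneSpectrum (𝓞 K), v.adicCompletion K)
    (hc : ∀ v, v ∉ S → c v ∈ v.adicCompletionIntegers K) : Adl K :=
  (a, ⟨c, Filter.eventually_cofinite.2
    ((S : Set (HeightOneSpectrum (𝓞 K))).toFinite.subset fun v hv => by
      by_contra h
      exact hv (hc v h))⟩)

theorem adlMkS_inf53 (S : Finset (HeightOneSpectrum (𝓞 K)))
    (a : ∀ w : InfinitePlace K, w.Completion)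
    (c : ∀ v : HeightOneSpectrum (𝓞 K), v.adicCompletion K)
    (hc : ∀ v, v ∉ S → c v ∈ v.adicCompletionIntegers K) (w : InfinitePlace K) :
    T1.H793.projInf793 w (adlMkS53 S a c hc) = a w := rfl

theorem adlMkS_fin53 (S : Finset (HeightOneSpectrum (𝓞 K)))
    (a : ∀ w : InfinitePlace K, w.Completion)
    (c : ∀ v : HeightOneSpectrum (𝓞 K), v.adicCompletion K)
    (hc : ∀ v, v ∉ S → c v ∈ v.adicCompletionIntegers K) (v : HeightOneSpectrum (𝓞 K)) :
    T1.H793.projFin793 v (adlMkS53 S a c hc) = c v := rfl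

/-- The matrix over the adeles with given components, integral outside `S`. -/
def adlMatrixMkS53 (S : Finset (HeightOneSpectrum (𝓞 K)))
    (kw : ∀ w : InfinitePlace K, Matrix (Fin 2) (Fin 2) w.Completion)
    (kv : ∀ v : HeightOneSpectrum (𝓞 K), Matrix (Fin 2) (Fin 2) (v.adicCompletion K))
    (h1 : ∀ v, v ∉ S → ∀ i j, kv v i j ∈ v.adicCompletionIntegers K) :
    Matrix (Fin 2) (Fin 2) (Adl K) :=
  Matrix.of fun i j => adlMkS53 S (fun w => kw w i j) (fun v => kv v i j)
    (fun v hv => h1 v hv i j)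

theorem adlMatrixMkS_mapInf53 (S : Finset (HeightOneSpectrum (𝓞 K)))
    (kw : ∀ w : InfinitePlace K, Matrix (Fin 2) (Fin 2) w.Completion)
    (kv : ∀ v : HeightOneSpectrum (𝓞 K), Matrix (Fin 2) (Fin 2) (v.adicCompletion K))
    (h1 : ∀ v, v ∉ S → ∀ i j, kv v i j ∈ v.adicCompletionIntegers K) (w : InfinitePlace K) :
    (adlMatrixMkS53 S kw kv h1).map (T1.H793.projInf793 w) = kw w := by
  ext i j; rfl

theorem adlMatrixMkS_mapFin53 (S : Finset (HeightOneSpectrum (𝓞 K)))
    (kw : ∀ w : InfinitePlace K, Matrix (Fin 2) (Fin 2) w.Completion)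
    (kv : ∀ v : HeightOneSpectrum (𝓞 K), Matrix (Fin 2) (Fin 2) (v.adicCompletion K))
    (h1 : ∀ v, v ∉ S → ∀ i j, kv v i j ∈ v.adicCompletionIntegers K)
    (v : HeightOneSpectrum (𝓞 K)) :
    (adlMatrixMkS53 S kw kv h1).map (T1.H793.projFin793 v) = kv v := by
  ext i j; rfl

/-- The element of `GL₂(𝔸_K)` with the components `kw w` at the infinite places and `kv v` at
the finite places, `kv v ∈ GL₂(𝒪_v)` outside `S`. -/
def glMkS53 (S : Finset (HeightOneSpectrum (𝓞 K)))
    (kw : ∀ w : InfinitePlace K, GL (Fin 2) w.Completion)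
    (kv : ∀ v : HeightOneSpectrum (𝓞 K), GL (Fin 2) (v.adicCompletion K))
    (h1 : ∀ v, v ∉ S → ∀ i j, (kv v : Matrix (Fin 2) (Fin 2) (v.adicCompletion K)) i j
      ∈ v.adicCompletionIntegers K)
    (h2 : ∀ v, v ∉ S → ∀ i j, (((kv v)⁻¹ : GL (Fin 2) (v.adicCompletion K)) :
      Matrix (Fin 2) (Fin 2) (v.adicCompletion K)) i j ∈ v.adicCompletionIntegers K) : G K where
  val := adlMatrixMkS53 S (fun w => (kw w : Matrix (Fin 2) (Fin 2) w.Completion))
    (fun v => (kv v : Matrix (Fin 2) (Fin 2) (v.adicCompletion K))) h1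
  inv := adlMatrixMkS53 S
    (fun w => (((kw w)⁻¹ : GL (Fin 2) w.Completion) : Matrix (Fin 2) (Fin 2) w.Completion))
    (fun v => (((kv v)⁻¹ : GL (Fin 2) (v.adicCompletion K)) :
      Matrix (Fin 2) (Fin 2) (v.adicCompletion K))) h2
  val_inv := by
    refine T1.H793.adlMatrix_ext793 (fun w => ?_) (fun v => ?_)
    · rw [Matrix.map_mul, Matrix.map_one _ (map_zero _) (map_one _), adlMatrixMkS_mapInf53,
        adlMatrixMkS_mapInf53, ← Units.val_mul, mul_inv_cancel, Units.val_one]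
    · rw [Matrix.map_mul, Matrix.map_one _ (map_zero _) (map_one _), adlMatrixMkS_mapFin53,
        adlMatrixMkS_mapFin53, ← Units.val_mul, mul_inv_cancel, Units.val_one]
  inv_val := by
    refine T1.H793.adlMatrix_ext793 (fun w => ?_) (fun v => ?_)
    · rw [Matrix.map_mul, Matrix.map_one _ (map_zero _) (map_one _), adlMatrixMkS_mapInf53,
        adlMatrixMkS_mapInf53, ← Units.val_mul, inv_mul_cancel, Units.val_one]
    · rw [Matrix.map_mul, Matrix.map_one _ (map_zero _) (map_one _), adlMatrixMkS_mapFin53,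
        adlMatrixMkS_mapFin53, ← Units.val_mul, inv_mul_cancel, Units.val_one]

theorem finComp_glMkS53 (S : Finset (HeightOneSpectrum (𝓞 K)))
    (kw : ∀ w : InfinitePlace K, GL (Fin 2) w.Completion)
    (kv : ∀ v : HeightOneSpectrum (𝓞 K), GL (Fin 2) (v.adicCompletion K))
    (h1 : ∀ v, v ∉ S → ∀ i j, (kv v : Matrix (Fin 2) (Fin 2) (v.adicCompletion K)) i j
      ∈ v.adicCompletionIntegers K)
    (h2 : ∀ v, v ∉ S → ∀ i j, (((kv v)⁻¹ : GL (Fin 2) (v.adicCompletion K)) :
      Matrix (Fin 2) (Fin 2) (v.adicCompletion K)) i j ∈ v.adicCompletionIntegers K)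
    (v : HeightOneSpectrum (𝓞 K)) :
    finComp v (glMkS53 S kw kv h1 h2)
      = (kv v : Matrix (Fin 2) (Fin 2) (v.adicCompletion K)) := rfl

theorem finComp_inv_glMkS53 (S : Finset (HeightOneSpectrum (𝓞 K)))
    (kw : ∀ w : InfinitePlace K, GL (Fin 2) w.Completion)
    (kv : ∀ v : HeightOneSpectrum (𝓞 K), GL (Fin 2) (v.adicCompletion K))
    (h1 : ∀ v, v ∉ S → ∀ i j, (kv v : Matrix (Fin 2) (Fin 2) (v.adicCompletion K)) i j
      ∈ v.adicCompletionIntegers K)
    (h2 : ∀ v, v ∉ S → ∀ i j, (((kv v)⁻¹ : GL (Fin 2) (v.adicCompletion K)) :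
      Matrix (Fin 2) (Fin 2) (v.adicCompletion K)) i j ∈ v.adicCompletionIntegers K)
    (v : HeightOneSpectrum (𝓞 K)) :
    finComp v (glMkS53 S kw kv h1 h2)⁻¹
      = (((kv v)⁻¹ : GL (Fin 2) (v.adicCompletion K)) :
          Matrix (Fin 2) (Fin 2) (v.adicCompletion K)) := rfl

theorem infComp_glMkS53 (S : Finset (HeightOneSpectrum (𝓞 K)))
    (kw : ∀ w : InfinitePlace K, GL (Fin 2) w.Completion)
    (kv : ∀ v : HeightOneSpectrum (𝓞 K), GL (Fin 2) (v.adicCompletion K))
    (h1 : ∀ v, v ∉ S → ∀ i j, (kv v : Matrix (Fin 2) (Fin 2) (v.adicCompletion K)) i j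
      ∈ v.adicCompletionIntegers K)
    (h2 : ∀ v, v ∉ S → ∀ i j, (((kv v)⁻¹ : GL (Fin 2) (v.adicCompletion K)) :
      Matrix (Fin 2) (Fin 2) (v.adicCompletion K)) i j ∈ v.adicCompletionIntegers K)
    (w : InfinitePlace K) :
    infComp w (glMkS53 S kw kv h1 h2)
      = (kw w : Matrix (Fin 2) (Fin 2) w.Completion).map
          (InfinitePlace.Completion.extensionEmbedding w) := rfl

/-- **The section.**  `K` totally complex: every family of local components at `S` and at the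
infinite places is the image of an element which is `1` at the finite places outside `S`. -/
theorem exists_section53 (hcx : TotCplx K) (S : Finset (HeightOneSpectrum (𝓞 K)))
    (l : (∀ v : S, GL (Fin 2) ((v : HeightOneSpectrum (𝓞 K)).adicCompletion K)) ×
      (InfinitePlace K → GL (Fin 2) ℂ)) :
    ∃ h ∈ outSub53 S, piS53 S h = l := by
  classical
  obtain ⟨a, b⟩ := l
  -- the infinite components
  have hbij : ∀ w : InfinitePlace K,
      Function.Bijective (InfinitePlace.Completion.extensionEmbedding w) := fun w =>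
    ⟨(InfinitePlace.Completion.extensionEmbedding w).injective,
      InfinitePlace.Completion.surjective_extensionEmbedding_of_isComplex (hcx w)⟩
  obtain ⟨e, he⟩ : ∃ e : ∀ w : InfinitePlace K, w.Completion ≃+* ℂ,
      ∀ w x, e w x = InfinitePlace.Completion.extensionEmbedding w x :=
    ⟨fun w => RingEquiv.ofBijective _ (hbij w), fun _ _ => rfl⟩
  obtain ⟨kw, hkw⟩ : ∃ kw : ∀ w : InfinitePlace K, GL (Fin 2) w.Completion,
      ∀ w, Matrix.GeneralLinearGroup.map (e w).toRingHom (kw w) = b w := by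
    refine ⟨fun w => Matrix.GeneralLinearGroup.map (e w).symm.toRingHom (b w), fun w => ?_⟩
    apply Units.ext
    ext i j
    simp [Matrix.GeneralLinearGroup.map]
  obtain ⟨kv, hkv⟩ : ∃ kv : ∀ v : HeightOneSpectrum (𝓞 K), GL (Fin 2) (v.adicCompletion K),
      kv = fun v => if hv : v ∈ S then a ⟨v, hv⟩ else 1 := ⟨_, rfl⟩
  have hkvS : ∀ (v : HeightOneSpectrum (𝓞 K)) (hv : v ∈ S), kv v = a ⟨v, hv⟩ := by
    intro v hv
    rw [hkv]
    simp only [dif_pos hv]
  have hkvN : ∀ v : HeightOneSpectrum (𝓞 K), v ∉ S → kv v = 1 := by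
    intro v hv
    rw [hkv]
    simp only [dif_neg hv]
  have h1 : ∀ v, v ∉ S → ∀ i j, (kv v : Matrix (Fin 2) (Fin 2) (v.adicCompletion K)) i j
      ∈ v.adicCompletionIntegers K := by
    intro v hv i j
    rw [hkvN v hv]
    exact one_entry_mem_integers53 v i j
  have h2 : ∀ v, v ∉ S → ∀ i j, (((kv v)⁻¹ : GL (Fin 2) (v.adicCompletion K)) :
      Matrix (Fin 2) (Fin 2) (v.adicCompletion K)) i j ∈ v.adicCompletionIntegers K := by
    intro v hv i j
    rw [hkvN v hv, inv_one]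
    exact one_entry_mem_integers53 v i j
  refine ⟨glMkS53 S kw kv h1 h2, ?_, ?_⟩
  · intro v hv
    refine ⟨fun i j => ?_, fun i j => ?_⟩
    · rw [finComp_glMkS53]
      exact h1 v hv i j
    · rw [finComp_inv_glMkS53]
      exact h2 v hv i j
  · refine Prod.ext (funext fun v => ?_) (funext fun w => ?_)
    · apply Units.ext
      show ((H305.finGL305 v.1 (glMkS53 S kw kv h1 h2) :
          GL (Fin 2) ((v : HeightOneSpectrum (𝓞 K)).adicCompletion K)) :
            Matrix (Fin 2) (Fin 2) ((v : HeightOneSpectrum (𝓞 K)).adicCompletion K)) = _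
      rw [finGL_coe53, finComp_glMkS53, hkvS v.1 v.2]
    · apply Units.ext
      show ((H305.infGL305 w (glMkS53 S kw kv h1 h2) : GL (Fin 2) ℂ) :
          Matrix (Fin 2) (Fin 2) ℂ) = _
      rw [infGL_coe53, infComp_glMkS53]
      show _ = ((b w : GL (Fin 2) ℂ) : Matrix (Fin 2) (Fin 2) ℂ)
      rw [← hkw w]
      ext i j
      simp [Matrix.GeneralLinearGroup.map, he]

/-! ## 4. Compactness -/

/-- The compact neighbourhood of `1` in `GL₂(ℂ)`: the entries of `g` and of `g⁻¹` have norm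
`≤ 2`. -/
def ballC53 : Set (GL (Fin 2) ℂ) :=
  {g | ∀ i j : Fin 2, ‖(g : Matrix (Fin 2) (Fin 2) ℂ) i j‖ ≤ 2 ∧
    ‖((g⁻¹ : GL (Fin 2) ℂ) : Matrix (Fin 2) (Fin 2) ℂ) i j‖ ≤ 2}

theorem isCompact_ballC53 : IsCompact ballC53 := by
  have : T2Space (Matrix (Fin 2) (Fin 2) ℂ) := H11.LC.t2Space_matrix_h11 (Fin 2) ℂ
  obtain ⟨B, hB⟩ : ∃ B : Set (Matrix (Fin 2) (Fin 2) ℂ),
      B = {M | ∀ i j, M i j ∈ Metric.closedBall (0 : ℂ) 2} := ⟨_, rfl⟩
  have hBc : IsCompact B := by
    have h : IsCompact (Set.pi Set.univ (fun _ : Fin 2 =>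
        Set.pi Set.univ (fun _ : Fin 2 => Metric.closedBall (0 : ℂ) 2))) :=
      isCompact_univ_pi (fun _ => isCompact_univ_pi (fun _ => isCompact_closedBall 0 2))
    have e : B = Set.pi Set.univ (fun _ : Fin 2 =>
        Set.pi Set.univ (fun _ : Fin 2 => Metric.closedBall (0 : ℂ) 2)) := by
      rw [hB]
      ext M
      constructor
      · intro hM i _ j _
        exact hM i j
      · intro hM i j
        exact hM i (Set.mem_univ i) j (Set.mem_univ j)
    rw [e]
    exact h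
  have hop : IsCompact (MulOpposite.unop ⁻¹' B : Set (Matrix (Fin 2) (Fin 2) ℂ)ᵐᵒᵖ) := by
    have := hBc.image (MulOpposite.continuous_op)
    convert this using 1
    ext x
    simp only [Set.mem_preimage, Set.mem_image]
    constructor
    · intro hx
      exact ⟨x.unop, hx, MulOpposite.op_unop x⟩
    · rintro ⟨y, hy, rfl⟩
      exact hy
  have hS : IsCompact ((Units.embedProduct (Matrix (Fin 2) (Fin 2) ℂ)) ⁻¹'
      (B ×ˢ (MulOpposite.unop ⁻¹' B))) :=
    Units.isClosedEmbedding_embedProduct.isCompact_preimage (hBc.prod hop)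
  have e : ballC53 = (Units.embedProduct (Matrix (Fin 2) (Fin 2) ℂ)) ⁻¹'
      (B ×ˢ (MulOpposite.unop ⁻¹' B)) := by
    rw [hB]
    ext g
    constructor
    · intro hg
      exact ⟨fun i j => mem_closedBall_zero_iff.2 (hg i j).1,
        fun i j => mem_closedBall_zero_iff.2 (hg i j).2⟩
    · rintro ⟨h1, h2⟩ i j
      exact ⟨mem_closedBall_zero_iff.1 (h1 i j), mem_closedBall_zero_iff.1 (h2 i j)⟩
  rw [e]
  exact hS

theorem ballC_mem_nhds53 : ballC53 ∈ 𝓝 (1 : GL (Fin 2) ℂ) := by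
  have hO : IsOpen (⋂ (i : Fin 2), ⋂ (j : Fin 2),
      ((fun g : GL (Fin 2) ℂ => (g : Matrix (Fin 2) (Fin 2) ℂ) i j) ⁻¹'
          Metric.ball (0 : ℂ) 2) ∩
        ((fun g : GL (Fin 2) ℂ => ((g⁻¹ : GL (Fin 2) ℂ) : Matrix (Fin 2) (Fin 2) ℂ) i j) ⁻¹'
          Metric.ball (0 : ℂ) 2)) := by
    refine isOpen_iInter_of_finite fun i => isOpen_iInter_of_finite fun j => IsOpen.inter ?_ ?_
    · exact Metric.isOpen_ball.preimage (continuous_entry53 i j)
    · exact Metric.isOpen_ball.preimage (continuous_inv_entry53 i j)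
  have h1 : ∀ i j : Fin 2, ‖(1 : Matrix (Fin 2) (Fin 2) ℂ) i j‖ < 2 := by
    intro i j
    by_cases h : i = j
    · rw [h, Matrix.one_apply_eq, norm_one]
      norm_num
    · rw [Matrix.one_apply_ne h, norm_zero]
      norm_num
  refine Filter.mem_of_superset (hO.mem_nhds ?_) ?_
  · simp only [Set.mem_iInter, Set.mem_inter_iff, Set.mem_preimage, mem_ball_zero_iff]
    intro i j
    refine ⟨h1 i j, ?_⟩
    rw [inv_one]
    exact h1 i j
  · intro g hg
    simp only [Set.mem_iInter, Set.mem_inter_iff, Set.mem_preimage, mem_ball_zero_iff] at hg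
    intro i j
    exact ⟨(hg i j).1.le, (hg i j).2.le⟩

/-- The compact set of `GL₂(𝔸_K)`: entries of `y`, `y⁻¹` in the box of radius `2`. -/
def bigBox53 (K : Type) [Field K] [NumberField K] : Set (G K) :=
  {y | ∀ i j : Fin 2, (y : Matrix (Fin 2) (Fin 2) (Adl K)) i j ∈ T1.H919.box919 K 2 ∧
    ((y⁻¹ : G K) : Matrix (Fin 2) (Fin 2) (Adl K)) i j ∈ T1.H919.box919 K 2}

theorem isCompact_bigBox53 : IsCompact (bigBox53 K) := by
  have : T2Space (Adl K) := H11.LC.t2Space_adeleRing_h11 K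
  have : T2Space (Matrix (Fin 2) (Fin 2) (Adl K)) := H11.LC.t2Space_matrix_h11 (Fin 2) (Adl K)
  obtain ⟨B, hB⟩ : ∃ B : Set (Matrix (Fin 2) (Fin 2) (Adl K)),
      B = {M | ∀ i j, M i j ∈ T1.H919.box919 K 2} := ⟨_, rfl⟩
  have hBc : IsCompact B := by
    have h : IsCompact (Set.pi Set.univ (fun _ : Fin 2 =>
        Set.pi Set.univ (fun _ : Fin 2 => T1.H919.box919 K 2))) :=
      isCompact_univ_pi (fun _ => isCompact_univ_pi (fun _ => T1.H919.isCompact_box919 2))
    have e : B = Set.pi Set.univ (fun _ : Fin 2 =>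
        Set.pi Set.univ (fun _ : Fin 2 => T1.H919.box919 K 2)) := by
      rw [hB]
      ext M
      constructor
      · intro hM i _ j _
        exact hM i j
      · intro hM i j
        exact hM i (Set.mem_univ i) j (Set.mem_univ j)
    rw [e]
    exact h
  have hop : IsCompact (MulOpposite.unop ⁻¹' B : Set (Matrix (Fin 2) (Fin 2) (Adl K))ᵐᵒᵖ) := by
    have := hBc.image (MulOpposite.continuous_op)
    convert this using 1
    ext x
    simp only [Set.mem_preimage, Set.mem_image]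
    constructor
    · intro hx
      exact ⟨x.unop, hx, MulOpposite.op_unop x⟩
    · rintro ⟨y, hy, rfl⟩
      exact hy
  have hS : IsCompact ((Units.embedProduct (Matrix (Fin 2) (Fin 2) (Adl K))) ⁻¹'
      (B ×ˢ (MulOpposite.unop ⁻¹' B))) :=
    Units.isClosedEmbedding_embedProduct.isCompact_preimage (hBc.prod hop)
  have e : bigBox53 K = (Units.embedProduct (Matrix (Fin 2) (Fin 2) (Adl K))) ⁻¹'
      (B ×ˢ (MulOpposite.unop ⁻¹' B)) := by
    rw [hB]
    ext g
    constructor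
    · intro hg
      exact ⟨fun i j => (hg i j).1, fun i j => (hg i j).2⟩
    · rintro ⟨h1, h2⟩ i j
      exact ⟨h1 i j, h2 i j⟩
  rw [e]
  exact hS

/-- THE SET `X`: in `U(m_v)` at every finite place, in `ballC53` at every infinite place. -/
def setX53 (m : HeightOneSpectrum (𝓞 K) → ℕ) : Set (G K) :=
  {y | (∀ v : HeightOneSpectrum (𝓞 K), T6.InU (m v) (H305.finGL305 v y)) ∧
    ∀ w : InfinitePlace K, H305.infGL305 w y ∈ ballC53}

theorem setX_subset_bigBox53 (m : HeightOneSpectrum (𝓞 K) → ℕ) :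
    setX53 (K := K) m ⊆ bigBox53 K := by
  intro y hy i j
  have hfin : ∀ v : HeightOneSpectrum (𝓞 K),
      (∀ i j : Fin 2, finComp v y i j ∈ v.adicCompletionIntegers K) ∧
        ∀ i j : Fin 2, finComp v y⁻¹ i j ∈ v.adicCompletionIntegers K := by
    intro v
    have h0 := (inU_zero_iff53 v _).1 (inU_zero_of_inU53 v (hy.1 v))
    rw [finGL_coe53, finGL_inv_coe53] at h0
    exact h0
  have hinf : ∀ w : InfinitePlace K,
      (∀ i j : Fin 2, ‖infComp w y i j‖ ≤ 2) ∧ ∀ i j : Fin 2, ‖infComp w y⁻¹ i j‖ ≤ 2 := by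
    intro w
    have h0 := hy.2 w
    refine ⟨fun i j => ?_, fun i j => ?_⟩
    · have := (h0 i j).1
      rwa [infGL_coe53] at this
    · have := (h0 i j).2
      rwa [infGL_inv_coe53] at this
  refine ⟨⟨fun w => ?_, fun v => (hfin v).1 i j⟩, ⟨fun w => ?_, fun v => (hfin v).2 i j⟩⟩
  · rw [← T1.H793.norm_extensionEmbedding793]
    exact (hinf w).1 i j
  · rw [← T1.H793.norm_extensionEmbedding793]
    exact (hinf w).2 i j

/-- The box of the target: `∏_{v ∈ S} U(m_v) × ∏_w ballC53`. -/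
def boxS53 (S : Finset (HeightOneSpectrum (𝓞 K))) (m : HeightOneSpectrum (𝓞 K) → ℕ) :
    Set ((∀ v : S, GL (Fin 2) ((v : HeightOneSpectrum (𝓞 K)).adicCompletion K)) ×
      (InfinitePlace K → GL (Fin 2) ℂ)) :=
  (Set.pi Set.univ fun v : S => {g | T6.InU (m v.1) g}) ×ˢ
    (Set.pi Set.univ fun _ : InfinitePlace K => ballC53)

theorem isCompact_boxS53 (S : Finset (HeightOneSpectrum (𝓞 K)))
    (m : HeightOneSpectrum (𝓞 K) → ℕ) : IsCompact (boxS53 S m) :=
  (isCompact_univ_pi fun v : S => isCompact_inU53 v.1 (m v.1)).prod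
    (isCompact_univ_pi fun _ => isCompact_ballC53)

theorem boxS_mem_nhds53 (S : Finset (HeightOneSpectrum (𝓞 K)))
    (m : HeightOneSpectrum (𝓞 K) → ℕ) : boxS53 S m ∈ 𝓝 (1 : _ × _) := by
  refine prod_mem_nhds ?_ ?_
  · exact set_pi_mem_nhds Set.finite_univ fun v _ => inU_mem_nhds53 v.1 (m v.1)
  · exact set_pi_mem_nhds Set.finite_univ fun _ _ => ballC_mem_nhds53

/-- `H_S ∩ π_S⁻¹(box) = X` for every `S ⊇ T₀` (`m = 0` outside `T₀`). -/
theorem outSub_inter_preimage53 (T₀ S : Finset (HeightOneSpectrum (𝓞 K)))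
    (m : HeightOneSpectrum (𝓞 K) → ℕ) (hm : ∀ v : HeightOneSpectrum (𝓞 K), v ∉ T₀ → m v = 0)
    (hS : T₀ ⊆ S) :
    (outSub53 S : Set (G K)) ∩ (piS53 S) ⁻¹' (boxS53 S m) = setX53 m := by
  ext y
  constructor
  · rintro ⟨hy, hb⟩
    have hb1 : ∀ v : S, T6.InU (m v.1) (H305.finGL305 v.1 y) := fun v =>
      hb.1 v (Set.mem_univ v)
    have hb2 : ∀ w : InfinitePlace K, H305.infGL305 w y ∈ ballC53 := fun w =>
      hb.2 w (Set.mem_univ w)
    refine ⟨fun v => ?_, hb2⟩
    by_cases hv : v ∈ S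
    · exact hb1 ⟨v, hv⟩
    · have hm0 : m v = 0 := hm v (fun h => hv (hS h))
      rw [hm0, inU_zero_iff53, finGL_coe53, finGL_inv_coe53]
      exact ⟨(hy v hv).1, (hy v hv).2⟩
  · intro hy
    refine ⟨fun v _ => ?_, ⟨fun v _ => hy.1 v.1, fun w _ => hy.2 w⟩⟩
    have h0 := (inU_zero_iff53 v _).1 (inU_zero_of_inU53 v (hy.1 v))
    rw [finGL_coe53, finGL_inv_coe53] at h0
    exact ⟨h0.1, h0.2⟩

end Fermat.Agent.LT.T7.H53

end

end
-- ===== PACK-END LT/T7/H53/HaarSplitTop.lean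

-- ===== PACK-BEGIN LT/T3/R/H247/InHaarR.lean
section



/-!
# Row LT, tower T3, station T3.18R, leaf T3.18R.12 `R.InHaarRC` (helper247, registry row 2345)

OFF-MAIN.  No hole, nothing assumed.  ADDITIVE (new names only).

    inHaarRC247 : Fermat.Agent.LT.T3.R.InHaarRC      (VERBATIM, unconditional)

`GL₂(ℝ)` (units of the matrix ring with the topology of units) is a locally compact group:
`Units.embedProduct` is a closed embedding into `M₂(ℝ) × M₂(ℝ)ᵐᵒᵖ`, which is locally compact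
(finite product of copies of `ℝ`).  The Haar measure is `MeasureTheory.Measure.haar` for the Borel
σ-algebra.  The same proof works for every `GL (Fin n) 𝕜`, `𝕜` a locally compact Hausdorff
topological ring (`locallyCompactSpace_GL247`, `exists_haar_GL247`).
-/

set_option autoImplicit false
set_option linter.style.haveILetI false

open MeasureTheory

noncomputable section

namespace Fermat.Agent.LT.T3.R.H247

/-- The matrix ring over a locally compact ring is locally compact (finite index types). -/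
theorem locallyCompactSpace_matrix247 (n : Type) [Finite n] (𝕜 : Type) [TopologicalSpace 𝕜]
    [LocallyCompactSpace 𝕜] : LocallyCompactSpace (Matrix n n 𝕜) :=
  inferInstanceAs (LocallyCompactSpace (n → n → 𝕜))

/-- `GL_n(𝕜)` is locally compact for a locally compact Hausdorff topological ring `𝕜`. -/
theorem locallyCompactSpace_GL247 (n : Type) [Fintype n] [DecidableEq n] (𝕜 : Type)
    [CommRing 𝕜] [TopologicalSpace 𝕜] [IsTopologicalRing 𝕜] [T2Space 𝕜]
    [LocallyCompactSpace 𝕜] : LocallyCompactSpace (GL n 𝕜) :=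
  haveI : LocallyCompactSpace (Matrix n n 𝕜) := locallyCompactSpace_matrix247 n 𝕜
  haveI : LocallyCompactSpace (Matrix n n 𝕜)ᵐᵒᵖ :=
    (MulOpposite.opHomeomorph (M := Matrix n n 𝕜)).symm.isClosedEmbedding.locallyCompactSpace
  (Units.isClosedEmbedding_embedProduct (α := Matrix n n 𝕜)).locallyCompactSpace

/-- A Haar measure exists on `GL_n(𝕜)` with the Borel σ-algebra. -/
theorem exists_haar_GL247 (n : Type) [Fintype n] [DecidableEq n] (𝕜 : Type)
    [CommRing 𝕜] [TopologicalSpace 𝕜] [IsTopologicalRing 𝕜] [T2Space 𝕜]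
    [LocallyCompactSpace 𝕜] :
    letI : MeasurableSpace (GL n 𝕜) := borel (GL n 𝕜)
    ∃ μ : Measure (GL n 𝕜), μ.IsHaarMeasure := by
  letI : MeasurableSpace (GL n 𝕜) := borel (GL n 𝕜)
  haveI : BorelSpace (GL n 𝕜) := ⟨rfl⟩
  haveI : LocallyCompactSpace (GL n 𝕜) := locallyCompactSpace_GL247 n 𝕜
  exact ⟨Measure.haar, inferInstance⟩

/-- **LEAF T3.18R.12 = `R.InHaarRC`, VERBATIM.** -/
theorem inHaarRC247 : Fermat.Agent.LT.T3.R.InHaarRC :=
  exists_haar_GL247 (Fin 2) ℝ

example : Fermat.Agent.LT.T3.R.InHaarRC := inHaarRC247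

end Fermat.Agent.LT.T3.R.H247

end

end
-- ===== PACK-END LT/T3/R/H247/InHaarR.lean

-- ===== PACK-BEGIN LT/T3/R/H321/ROpR.lean
section





/-!
# Row LT, tower T3, station T3.18R, leaf R.4 `ROpRC` (helper321, OFF-MAIN)

`rOpRC321 (K) : R.ROpRC K` = the frozen Prop of `LT/T3/R/Spec.lean` (helper14@15de5f60f,
sha256 a528b35a), VERBATIM, unconditional.  Complete proofs, nothing assumed.

Same proof as `rOpMC474` / `rOpMeanMC474` (helper474; `rOpC57`, helper57), `K` totally real: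
INDUCTION ON `P`, the constant `κ₁` is the constant `c` of `pushforward_haar57` (it does not
depend on `P`).  For every finite set `Q ⊆ P` and every `y`:

  `∫ φ(y x) pureFnR_Q(x) dμ(x) = c (∏_{v ∈ Q} laurent (A v) (z₁ v) (z₂ v)) (∏_w C_w) φ(y)`.

* `Q = ∅`: `pureFnR_∅ = pureOneR321`; `U₀ = G_∞ × U(𝔫)_f` is open, the image of `μ|_{U₀}` under
  `π = (reGL w)_w` is `c ∏_w μ_ℝ`; `φ(y x) = φ(y ι(π x))` on `U₀` (`level_inv`); the real places
  one at a time (`integral_pi_eigen57`): the local function `s ↦ φ(y ι(t) ι_w(s))` belongs to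
  `𝒞 w` (`IsClassLevelR.loc` for `Y = reEmbAt321 w`), and `ActsOnR` at `1`.
* `Q = {v₀} ∪ Q'`: `pureFnR_Q(x) = ∑_{h ∈ R_{v₀}} f₀_{v₀}(h) pureFnR_{Q'}(ι₀(h)⁻¹ x)`
  (`pureFnR_insert321`), left invariance of `μ`, the induction hypothesis at `y ι₀(h)`, and
  `AS.HasSatakeEigen` at `v₀` for the local eigenfunction `h ↦ φ(y ι₀(h))`.
-/

set_option autoImplicit false
set_option linter.style.haveILetI false
set_option linter.unusedSectionVars false

open IsDedekindDomain NumberField Topology MeasureTheory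
open Fermat.Agent.LT.H556.A0
open Fermat.Agent.LT.T1 Fermat.Agent.LT.T1.H724 Fermat.Agent.LT.T1.H793
open Fermat.Agent.LT.T3
open Fermat.Agent.LT.T3.H57
open Fermat.Agent.LT.T3.M.H474
open scoped ENNReal

noncomputable section

namespace Fermat.Agent.LT.T3.R.H321

variable {K : Type} [Field K] [NumberField K]

/-! ## The pure tensor -/

open Classical in
/-- The pure tensor without finite places: `⊗_w F_w ⊗ 1_{U(𝔫)_f}`. -/
def pureOneR321 (hR : ∀ w : InfinitePlace K, w.IsReal) (𝔫 : Ideal (𝓞 K))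
    (F : InfinitePlace K → GL (Fin 2) ℝ → ℂ) (x : G K) : ℂ :=
  if InU057 𝔫 x then ∏ w : InfinitePlace K, F w (reGL K w (hR w) x) else 0

open Classical in
theorem pureOneR_eq321 (hR : ∀ w : InfinitePlace K, w.IsReal) (𝔫 : Ideal (𝓞 K))
    (F : InfinitePlace K → GL (Fin 2) ℝ → ℂ) (x : G K) :
    pureOneR321 hR 𝔫 F x
      = if InU057 𝔫 x then ∏ w : InfinitePlace K, F w (reGL K w (hR w) x) else 0 := rfl

open Classical in
theorem pureFnR_eq321 (hR : ∀ w : InfinitePlace K, w.IsReal) (𝔫 : Ideal (𝓞 K))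
    (P : Finset (HeightOneSpectrum (𝓞 K)))
    (f₀ : ∀ v : HeightOneSpectrum (𝓞 K), GL (Fin 2) (v.adicCompletion K) → ℂ)
    (F : InfinitePlace K → GL (Fin 2) ℝ → ℂ) (x : G K) :
    pureFnR K hR 𝔫 P f₀ F x
      = if M.OutsideUM K 𝔫 P x then
          (∏ v ∈ P, f₀ v (AS.finGL K v x)) * ∏ w : InfinitePlace K, F w (reGL K w (hR w) x)
        else 0 := rfl

/-- For `P = ∅` the pure tensor is `pureOneR321`. -/
theorem pureFnR_empty321 (hR : ∀ w : InfinitePlace K, w.IsReal) (𝔫 : Ideal (𝓞 K))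
    (f₀ : ∀ v : HeightOneSpectrum (𝓞 K), GL (Fin 2) (v.adicCompletion K) → ℂ)
    (F : InfinitePlace K → GL (Fin 2) ℝ → ℂ) (x : G K) :
    pureFnR K hR 𝔫 ∅ f₀ F x = pureOneR321 hR 𝔫 F x := by
  classical
  have hiff : M.OutsideUM K 𝔫 ∅ x ↔ InU057 𝔫 x := by
    rw [outsideUM_iff_loc474, inU0_iff_loc57]
    constructor
    · intro h v
      exact h v (Finset.notMem_empty v)
    · intro h v _
      exact h v
  rw [pureFnR_eq321, pureOneR_eq321]
  by_cases hx : InU057 𝔫 x
  · rw [if_pos (hiff.2 hx), if_pos hx, Finset.prod_empty, one_mul]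
  · rw [if_neg (fun h => hx (hiff.1 h)), if_neg hx]

/-- `pureFnR_{{v₀} ∪ P} = ∑_{h ∈ R} f₀_{v₀}(h) L_{ι₀(h)} pureFnR_P`. -/
theorem pureFnR_insert321 [DecidableEq (HeightOneSpectrum (𝓞 K))]
    (hR : ∀ w : InfinitePlace K, w.IsReal)
    (𝔫 : Ideal (𝓞 K)) (P : Finset (HeightOneSpectrum (𝓞 K)))
    (v₀ : HeightOneSpectrum (𝓞 K)) (hv₀P : v₀ ∉ P) (hv₀ : ¬ v₀.asIdeal ∣ 𝔫)
    (f₀ : ∀ v : HeightOneSpectrum (𝓞 K), GL (Fin 2) (v.adicCompletion K) → ℂ)
    (F : InfinitePlace K → GL (Fin 2) ℝ → ℂ) (hf₀ : AS.IsBiIntInv v₀ (f₀ v₀))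
    (S : Finset (GL (Fin 2) (v₀.adicCompletion K))) (hS : AS.IsRepSys v₀ (f₀ v₀) S) (x : G K) :
    pureFnR K hR 𝔫 (insert v₀ P) f₀ F x
      = ∑ h ∈ S, f₀ v₀ h * pureFnR K hR 𝔫 P f₀ F ((finEmb57 v₀ h)⁻¹ * x) := by
  classical
  have hinf : ∀ (h : GL (Fin 2) (v₀.adicCompletion K)) (w : InfinitePlace K),
      reGL K w (hR w) ((finEmb57 v₀ h)⁻¹ * x) = reGL K w (hR w) x := by
    intro h w
    rw [map_mul, map_inv, reGL_finEmb321, inv_one, one_mul]
  have hfin : ∀ (h : GL (Fin 2) (v₀.adicCompletion K)),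
      ∏ v ∈ P, f₀ v (AS.finGL K v ((finEmb57 v₀ h)⁻¹ * x)) = ∏ v ∈ P, f₀ v (AS.finGL K v x) := by
    intro h
    refine Finset.prod_congr rfl fun v hv => ?_
    have hvv : v ≠ v₀ := fun hh => hv₀P (hh ▸ hv)
    rw [map_mul, map_inv, finGL_finEmb_ne57 v₀ h v hvv, inv_one, one_mul]
  obtain ⟨T, hT⟩ : ∃ T : ℂ, T = (∏ v ∈ P, f₀ v (AS.finGL K v x))
      * ∏ w : InfinitePlace K, F w (reGL K w (hR w) x) := ⟨_, rfl⟩
  have hterm : ∀ h : GL (Fin 2) (v₀.adicCompletion K),
      pureFnR K hR 𝔫 P f₀ F ((finEmb57 v₀ h)⁻¹ * x)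
        = if M.OutsideUM K 𝔫 (insert v₀ P) x ∧ AS.IsIntGL v₀ (h⁻¹ * AS.finGL K v₀ x)
          then T else 0 := by
    intro h
    rw [pureFnR_eq321]
    simp only [outsideUM_finEmb_inv_mul_iff474 𝔫 P v₀ hv₀P hv₀, hinf, hfin, hT]
  have hlhs : pureFnR K hR 𝔫 (insert v₀ P) f₀ F x
      = if M.OutsideUM K 𝔫 (insert v₀ P) x then f₀ v₀ (AS.finGL K v₀ x) * T else 0 := by
    rw [pureFnR_eq321, Finset.prod_insert hv₀P, hT, mul_assoc]
  simp only [hterm]
  rw [hlhs]
  by_cases hout : M.OutsideUM K 𝔫 (insert v₀ P) x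
  · simp only [hout, true_and, if_true]
    have hval : ∀ h : GL (Fin 2) (v₀.adicCompletion K),
        AS.IsIntGL v₀ (h⁻¹ * AS.finGL K v₀ x) → f₀ v₀ h = f₀ v₀ (AS.finGL K v₀ x) := by
      intro h hint
      have := hf₀ 1 (h⁻¹ * AS.finGL K v₀ x) h (isIntGL_one57 v₀) hint
      rw [one_mul, mul_inv_cancel_left] at this
      exact this.symm
    by_cases h0 : f₀ v₀ (AS.finGL K v₀ x) = 0
    · rw [h0, zero_mul]
      symm
      refine Finset.sum_eq_zero fun h _ => ?_
      split_ifs with hint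
      · rw [hval h hint, h0, zero_mul]
      · rw [mul_zero]
    · obtain ⟨h₀, hh₀, hint₀⟩ := hS.2 _ h0
      rw [Finset.sum_eq_single h₀]
      · rw [if_pos hint₀, hval h₀ hint₀]
      · intro h hh hne
        rw [if_neg, mul_zero]
        intro hint
        apply hne
        refine hS.1 h hh h₀ hh₀ ?_
        have := isIntGL_mul57 v₀ hint (isIntGL_inv57 v₀ hint₀)
        rwa [mul_inv_rev, inv_inv, mul_assoc, mul_inv_cancel_left] at this
      · intro hh
        exact absurd hh₀ hh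
  · simp only [hout, false_and, if_false, mul_zero, Finset.sum_const_zero]

/-! ## The local transfers -/

/-- `φ(y x) = φ(y ι(π x))` on `U₀`, for `φ` right invariant under `U(𝔫)`. -/
theorem class_eq_of_inU0R321 (hR : ∀ w : InfinitePlace K, w.IsReal) {n : ℕ}
    (e : InfinitePlace K ≃ Fin n) (𝔫 : Ideal (𝓞 K)) (φ : G K → ℂ)
    (hlev : ∀ u : G K, InLevelGroup 𝔫 u → ∀ g : G K, φ (g * u) = φ g) (y x : G K)
    (hx : InU057 𝔫 x) :
    φ (y * x) = φ (y * embFinR321 hR e (piRe321 hR e x)) := by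
  have hu := inLevelGroup_ofR321 hR 𝔫 x hx
  rw [embFinR_piRe321]
  have := hlev _ hu (y * reEmb321 hR (fun w => reGL K w (hR w) x))
  rw [mul_assoc, mul_inv_cancel_left] at this
  exact this

/-- `y ↦ φ(g ι₀(y))` is `AS.IsLocEigen` for `φ` right invariant under `U(𝔫)`, Hecke-eigen at
`v₀ ∤ 𝔫`. -/
theorem isLocEigen_ofClassR321 (𝔫 : Ideal (𝓞 K)) (v₀ : HeightOneSpectrum (𝓞 K))
    (hv₀ : ¬ v₀.asIdeal ∣ 𝔫) (φ : G K → ℂ)
    (hlev : ∀ u : G K, InLevelGroup 𝔫 u → ∀ g : G K, φ (g * u) = φ g) (a b : ℂ)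
    (he : IsHeckeEigenAt φ v₀ a b) (g : G K) :
    AS.IsLocEigen v₀ (fun y : GL (Fin 2) (v₀.adicCompletion K) => φ (g * finEmb57 v₀ y)) a b := by
  classical
  refine ⟨?_, ?_, ?_⟩
  · intro k y hk
    rw [map_mul, ← mul_assoc]
    exact hlev _ (inLevelGroup_finEmb57 𝔫 v₀ hv₀ k hk) _
  · intro H hH y
    have hsys : IsHeckeCosetSystem v₀ (H.image (finEmb57 (K := K) v₀)) := by
      refine ⟨?_, ?_, ?_⟩
      · rw [Finset.card_image_of_injective _ (finEmb_injective57 v₀)]
        exact hH.1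
      · intro h' hh'
        obtain ⟨h, hh, rfl⟩ := Finset.mem_image.1 hh'
        refine ⟨isLocalAtFin_finEmb57 v₀ h, ?_, ?_⟩
        · intro i j
          rw [finComp_finEmb57]
          exact (hH.2.1 h hh).1 i j
        · rw [finComp_finEmb57]
          exact (hH.2.1 h hh).2
      · intro h₁ hh₁ h₂ hh₂ hne hint
        obtain ⟨a₁, ha₁, rfl⟩ := Finset.mem_image.1 hh₁
        obtain ⟨a₂, ha₂, rfl⟩ := Finset.mem_image.1 hh₂
        have hne' : a₁ ≠ a₂ := fun h => hne (by rw [h])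
        refine hH.2.2 a₁ ha₁ a₂ ha₂ hne' fun i j => ?_
        have := hint i j
        rwa [← map_inv, ← map_mul, finComp_finEmb57] at this
    have := he.1 _ hsys (g * finEmb57 v₀ y)
    rw [Finset.sum_image (fun x _ y _ hxy => finEmb_injective57 v₀ hxy)] at this
    rw [← this]
    refine Finset.sum_congr rfl fun h _ => ?_
    rw [map_mul, ← mul_assoc]
  · intro z c hc hz y
    rw [map_mul, ← mul_assoc]
    refine he.2 _ ⟨isLocalAtFin_finEmb57 v₀ z, c, hc, ?_⟩ _
    rw [finComp_finEmb57]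
    exact hz

/-! ## The integral over `GL₂(𝔸_K)` without finite places -/

section Int

variable (hR : ∀ w : InfinitePlace K, w.IsReal)
variable [MeasurableSpace (G K)] [BorelSpace (G K)]

/-- The integral of `φ(y ·) f¹` over `GL₂(𝔸_K)`, abstract local classes. -/
theorem integral_pureOneR321 {n : ℕ} (e : InfinitePlace K ≃ Fin n) (𝔫 : Ideal (𝓞 K))
    (h𝔫 : 𝔫 ≠ ⊥) [MeasurableSpace (GL (Fin 2) ℝ)] [BorelSpace (GL (Fin 2) ℝ)]
    (μ : Measure (G K)) (μr : Measure (GL (Fin 2) ℝ)) [μr.IsHaarMeasure] (c : ℝ)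
    (hc : ∀ f : (Fin n → GL (Fin 2) ℝ) → ℂ, Continuous f → HasCompactSupport f →
      IntegrableOn (fun x => f (piRe321 hR e x)) {x : G K | InU057 𝔫 x} μ ∧
      ∫ x in {x : G K | InU057 𝔫 x}, f (piRe321 hR e x) ∂μ
        = c • ∫ t, f t ∂(Measure.pi fun _ : Fin n => μr))
    (F : InfinitePlace K → GL (Fin 2) ℝ → ℂ)
    (hFc : ∀ w, Continuous (F w)) (hFs : ∀ w, HasCompactSupport (F w))
    (C : InfinitePlace K → ℂ) (𝒞 : InfinitePlace K → Set (GL (Fin 2) ℝ → ℂ))
    (hC : ∀ w, ActsOnR μr (F w) (𝒞 w) (C w))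
    (φ : G K → ℂ) (hφ : IsClassLevelR K hR 𝔫 𝒞 φ) (y : G K) :
    Integrable (fun x => φ (y * x) * pureOneR321 hR 𝔫 F x) μ ∧
      ∫ x, φ (y * x) * pureOneR321 hR 𝔫 F x ∂μ = (c : ℂ) * (∏ w, C w) * φ y := by
  classical
  haveI := secondCountable_GL2R321
  haveI := locallyCompact_GL2R321
  have hUm : MeasurableSet {x : G K | InU057 𝔫 x} := (isOpen_inU057 𝔫 h𝔫).measurableSet
  obtain ⟨Φ, hΦ⟩ : ∃ Φ : (Fin n → GL (Fin 2) ℝ) → ℂ, Φ = fun t => φ (y * embFinR321 hR e t) :=
    ⟨_, rfl⟩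
  have hΦc : Continuous Φ := by
    rw [hΦ]
    exact hφ.cont.comp (continuous_const.mul (continuous_embFinR321 hR e))
  obtain ⟨Q, hQ⟩ : ∃ Q : (Fin n → GL (Fin 2) ℝ) → ℂ,
      Q = fun t => Φ t * ∏ i, F (e.symm i) (t i) := ⟨_, rfl⟩
  have hQc : Continuous Q := by
    rw [hQ]
    exact hΦc.mul (continuous_finsetProd _ fun i _ => (hFc _).comp (continuous_apply i))
  have hQs : HasCompactSupport Q := by
    rw [hQ]
    exact hasCompactSupport_mul_prod57 n Φ (fun i => F (e.symm i)) (fun i => hFs _)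
  obtain ⟨hint, hval⟩ := hc Q hQc hQs
  have hfun : (fun x => φ (y * x) * pureOneR321 hR 𝔫 F x)
      = Set.indicator {x : G K | InU057 𝔫 x} (fun x => Q (piRe321 hR e x)) := by
    funext x
    by_cases hx : InU057 𝔫 x
    · rw [Set.indicator_of_mem (show x ∈ {x : G K | InU057 𝔫 x} from hx)]
      rw [pureOneR_eq321, if_pos hx, hQ, hΦ]
      simp only
      rw [← class_eq_of_inU0R321 hR e 𝔫 φ hφ.level_inv y x hx]
      congr 1
      exact (Equiv.prod_comp e.symm (fun w => F w (reGL K w (hR w) x))).symm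
    · rw [Set.indicator_of_notMem (show x ∉ {x : G K | InU057 𝔫 x} from hx)]
      rw [pureOneR_eq321, if_neg hx, mul_zero]
  rw [hfun]
  refine ⟨(integrable_indicator_iff hUm).2 hint, ?_⟩
  rw [integral_indicator hUm, hval]
  have hpi := integral_pi_eigen57 μr n Φ hΦc (fun i => F (e.symm i)) (fun i => hFc _)
    (fun i => hFs _) (fun i => C (e.symm i)) ?_
  · have hQint : ∫ t, Q t ∂(Measure.pi fun _ : Fin n => μr)
        = ∫ t, Φ t * ∏ i, F (e.symm i) (t i) ∂(Measure.pi fun _ : Fin n => μr) := by rw [hQ]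
    rw [hQint, hpi, Complex.real_smul, Equiv.prod_comp e.symm C]
    have h1 : Φ 1 = φ y := by rw [hΦ]; simp
    rw [h1]
    ring
  · intro i t
    have hΨ := hφ.loc (e.symm i) (fun s => reEmbAt321 hR (e.symm i) s)
      (fun s => ⟨isLocalAtInf_reEmbAt321 hR (e.symm i) s, reGL_reEmbAt321 hR (e.symm i) s⟩)
      (y * embFinR321 hR e t)
    have hact := hC (e.symm i) _ hΨ 1
    simp only [one_mul, map_one, mul_one] at hact
    have hupd : ∀ s : GL (Fin 2) ℝ, Function.update t i (t i * s) = t * Pi.mulSingle i s := by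
      intro s
      funext j
      by_cases hj : j = i
      · subst hj
        simp
      · simp [Function.update_of_ne hj, Pi.mulSingle_eq_of_ne hj]
    have hΦs : ∀ s : GL (Fin 2) ℝ, Φ (Function.update t i (t i * s))
        = φ (y * embFinR321 hR e t * reEmbAt321 hR (e.symm i) s) := by
      intro s
      rw [hΦ]
      simp only
      rw [hupd, map_mul, embFinR_mulSingle321, mul_assoc]
    simp_rw [hΦs]
    rw [hact, hΦ]

end Int

/-! ## The leaf -/

/-- **R.4 `ROpRC`, unconditional.** -/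
theorem rOpRC321 (K : Type) [Field K] [NumberField K] : R.ROpRC K := by
  classical
  letI : MeasurableSpace (G K) := borel (G K)
  haveI : BorelSpace (G K) := ⟨rfl⟩
  letI : MeasurableSpace (GL (Fin 2) ℝ) := borel (GL (Fin 2) ℝ)
  haveI : BorelSpace (GL (Fin 2) ℝ) := ⟨rfl⟩
  haveI := secondCountable_GL2R321
  haveI := locallyCompact_GL2R321
  intro hR μ hμ μr hμr 𝔫 h𝔫 P hP
  haveI := hμ
  haveI := hμr
  obtain ⟨n, ⟨e⟩⟩ : ∃ n, Nonempty (InfinitePlace K ≃ Fin n) := ⟨_, ⟨Fintype.equivFin _⟩⟩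
  obtain ⟨c, hc0, hc⟩ := pushforward_haar57 μ (Measure.pi fun _ : Fin n => μr)
    {x : G K | InU057 𝔫 x} (isOpen_inU057 𝔫 h𝔫) (piRe321 hR e) (continuous_piRe321 hR e)
    (embFinR321 hR e) (piRe_embFinR321 hR e) (fun t x hx => inU0_embFinR_mul321 hR e 𝔫 t x hx)
    (inU0_one57 𝔫) (fun C hC => measure_lt_topR321 hR e 𝔫 μ C hC)
  refine ⟨(c : ℂ), by exact_mod_cast hc0.ne', ?_⟩
  intro m A C 𝒞 f₀ F hf₀ hRex hA hF hC φ hφ a b z₁ z₂ he hab hb hb0 g
  have hB := fun y => integral_pureOneR321 hR e 𝔫 h𝔫 μ μr c hc F (fun w => (hF w).cont)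
    (fun w => (hF w).supp) C 𝒞 hC φ hφ y
  have key : ∀ Q : Finset (HeightOneSpectrum (𝓞 K)), Q ⊆ P → ∀ y : G K,
      Integrable (fun x => φ (y * x) * pureFnR K hR 𝔫 Q f₀ F x) μ ∧
        ∫ x, φ (y * x) * pureFnR K hR 𝔫 Q f₀ F x ∂μ
          = (c : ℂ) * (∏ v ∈ Q, AS.laurent (A v) (z₁ v) (z₂ v)) * (∏ w, C w) * φ y := by
    intro Q
    induction Q using Finset.induction_on with
    | empty =>
      intro _ y
      have hfun : (fun x => φ (y * x) * pureFnR K hR 𝔫 ∅ f₀ F x)
          = fun x => φ (y * x) * pureOneR321 hR 𝔫 F x := by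
        funext x
        rw [pureFnR_empty321]
      rw [hfun, Finset.prod_empty, mul_one]
      exact hB y
    | insert v₀ Q hv₀Q ih =>
      intro hsub y
      have hv₀P : v₀ ∈ P := hsub (Finset.mem_insert_self v₀ Q)
      have hQP : Q ⊆ P := fun v hv => hsub (Finset.mem_insert_of_mem hv)
      have hv₀ : ¬ v₀.asIdeal ∣ 𝔫 := hP v₀ hv₀P
      obtain ⟨S, hS⟩ := hRex v₀ hv₀P
      have ihQ := ih hQP
      have hsum : ∀ x, φ (y * x) * pureFnR K hR 𝔫 (insert v₀ Q) f₀ F x
          = ∑ h ∈ S, f₀ v₀ h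
              * (φ (y * x) * pureFnR K hR 𝔫 Q f₀ F ((finEmb57 v₀ h)⁻¹ * x)) := by
        intro x
        rw [pureFnR_insert321 hR 𝔫 Q v₀ hv₀Q hv₀ f₀ F (hf₀ v₀ hv₀P) S hS x, Finset.mul_sum]
        exact Finset.sum_congr rfl fun h _ => by ring
      have hterm_int : ∀ h : GL (Fin 2) (v₀.adicCompletion K),
          Integrable (fun x => φ (y * x)
            * pureFnR K hR 𝔫 Q f₀ F ((finEmb57 v₀ h)⁻¹ * x)) μ := by
        intro h
        have := ((ihQ (y * finEmb57 v₀ h)).1).comp_mul_left (finEmb57 v₀ h)⁻¹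
        refine this.congr (Filter.Eventually.of_forall fun x => ?_)
        simp only [mul_assoc, mul_inv_cancel_left]
      have hterm : ∀ h : GL (Fin 2) (v₀.adicCompletion K),
          ∫ x, φ (y * x) * pureFnR K hR 𝔫 Q f₀ F ((finEmb57 v₀ h)⁻¹ * x) ∂μ
            = (c : ℂ) * (∏ v ∈ Q, AS.laurent (A v) (z₁ v) (z₂ v)) * (∏ w, C w)
                * φ (y * finEmb57 v₀ h) := by
        intro h
        rw [← (ihQ (y * finEmb57 v₀ h)).2,
          ← integral_mul_left_eq_self
            (fun x => φ (y * finEmb57 v₀ h * x) * pureFnR K hR 𝔫 Q f₀ F x) (finEmb57 v₀ h)⁻¹]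
        refine integral_congr_ae (Filter.Eventually.of_forall fun x => ?_)
        simp only [mul_assoc, mul_inv_cancel_left]
      have hfun : (fun x => φ (y * x) * pureFnR K hR 𝔫 (insert v₀ Q) f₀ F x)
          = fun x => ∑ h ∈ S, f₀ v₀ h
              * (φ (y * x) * pureFnR K hR 𝔫 Q f₀ F ((finEmb57 v₀ h)⁻¹ * x)) := by
        funext x
        exact hsum x
      rw [hfun]
      refine ⟨integrable_finsetSum _ fun h _ => (hterm_int h).const_mul _, ?_⟩
      rw [integral_finsetSum _ (fun h _ => (hterm_int h).const_mul _)]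
      simp_rw [integral_const_mul, hterm]
      have hSat := hA v₀ hv₀P (fun u => φ (y * finEmb57 v₀ u)) (a v₀) (b v₀) (z₁ v₀) (z₂ v₀)
        (isLocEigen_ofClassR321 𝔫 v₀ hv₀ φ hφ.level_inv (a v₀) (b v₀) (he v₀ hv₀P) y)
        (hab v₀ hv₀P) (hb v₀ hv₀P) (hb0 v₀ hv₀P) S hS 1
      simp only [one_mul, map_one, mul_one] at hSat
      rw [Finset.prod_insert hv₀Q]
      calc ∑ h ∈ S, f₀ v₀ h * ((c : ℂ) * (∏ v ∈ Q, AS.laurent (A v) (z₁ v) (z₂ v))
              * (∏ w, C w) * φ (y * finEmb57 v₀ h))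
          = (c : ℂ) * (∏ v ∈ Q, AS.laurent (A v) (z₁ v) (z₂ v)) * (∏ w, C w)
              * ∑ h ∈ S, f₀ v₀ h * φ (y * finEmb57 v₀ h) := by
            rw [Finset.mul_sum]
            exact Finset.sum_congr rfl fun h _ => by ring
        _ = (c : ℂ) * (AS.laurent (A v₀) (z₁ v₀) (z₂ v₀)
              * ∏ v ∈ Q, AS.laurent (A v) (z₁ v) (z₂ v)) * (∏ w, C w) * φ y := by
            rw [hSat]
            ring
  exact (key P (Finset.Subset.refl P) g).2

example (K : Type) [Field K] [NumberField K] : R.ROpRC K := rOpRC321 K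

end Fermat.Agent.LT.T3.R.H321

end

end
-- ===== PACK-END LT/T3/R/H321/ROpR.lean

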