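import Mathlib
import Fermat.Agent.Pack.LT4.E2L1
import Fermat.Agent.Pack.LT2.E17L1
import Fermat.Agent.Pack.LT2.E15L3
import Fermat.Agent.Pack.LT2.E16L1
import Fermat.Agent.Pack.LT2.E17L2
import Fermat.Agent.Pack.LT2.E7L1
import Fermat.Agent.Pack.LT2.E2L1
import Fermat.Agent.Pack.LT2.E5L3
import Fermat.Agent.Pack.LT2.E6L2
import Fermat.Agent.Pack.LT2.E5L1
import Fermat.Agent.Pack.LT2.E8L3
import Fermat.Agent.Pack.LT2.E12L2
import Fermat.Agent.Pack.LT2.E9L1
import Fermat.Agent.Pack.LT2.E7L2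
import Fermat.Agent.Pack.LT2.E13L0
import Fermat.Agent.Pack.LT2.E13L2
import Fermat.Agent.Pack.LT2.E19L1
import Fermat.Agent.Pack.LT2.E12L1
import Fermat.Agent.Pack.LT2.E10L3
import Fermat.Agent.Pack.LT2.E10L0
import Fermat.Agent.Pack.LT2.E10L2
import Fermat.Agent.Pack.LT3.E8L0
import Fermat.Agent.Pack.LT3.E11L2
import Fermat.Agent.Pack.LT3.E11L3
import Fermat.Agent.Pack.LT3.E11L0
import Fermat.Agent.Pack.LT3.E13L3
import Fermat.Agent.Pack.LT3.E11L1
import Fermat.Agent.Pack.LT3.E19L3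
import Fermat.Agent.Pack.LT3.E17L1
import Fermat.Agent.Pack.LT3.E21L1
import Fermat.Agent.Pack.LT3.E25L1
import Fermat.Agent.Pack.LT3.E21L0
import Fermat.Agent.Pack.LT3.E22L2
import Fermat.Agent.Pack.LT4.E2L2
import Fermat.Agent.Pack.LT4.E1L3
import Fermat.Agent.Pack.LT3.E22L0
import Fermat.Agent.Pack.LT3.E25L2
import Fermat.Agent.Pack.LT3.E23L2
import Fermat.Agent.Pack.LT4.E0L2
import Fermat.Agent.Pack.LT4.E2L3
import Fermat.Agent.Pack.LT4.E0L1
import Fermat.Agent.Pack.LT4.E1L1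
import Fermat.Agent.Pack.LT4.E1L2

set_option linter.all false

-- ===== PACK-BEGIN LT/T7/H62/RigidPlug2.lean
section









/-!
# Row LT, tower T7, NODE T7.14 `RigidC` -- PLUG, state 15:30Z (sub-architect helper62)

OFF-MAIN.  `Open62b K` = the FIVE leaves of `T7.RigidC K` which are still open:
`CountC` (row 1519), `FoldWhitC` (row 1717), `IdeleSumC` (row 1720), `LocC` (row 1829),
`TorusAsmC` (row 1832).  `rigidC_of_open62b : Open62b K → T7.RigidC K`, `rigidAll_of_open62b`.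

CLOSED since `RigidPlug.lean`: `OrthC` (helper555), `WeightC` (helper179), `MixC` (helper267),
`ArchUniqC` (helper724), `HeckeRecC` (helper941), `WhitInheritC` (helper878).

All imported files are byte-identical copies of the owners' files.
-/

set_option autoImplicit false

open IsDedekindDomain NumberField MeasureTheory

namespace Fermat.Agent.LT.T7.Rigid

open Fermat.Agent.LT.H556.A0 Fermat.Agent.LT.T7

variable (K : Type) [Field K] [NumberField K]

/-- THE OPEN LEAVES of `T7.RigidC K`, state 15:30Z. -/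
structure Open62b : Prop where
  /-- T7.14.3 (row 1519, helper671). -/
  count : CountC K
  /-- T7.14.6a (row 1717, helper290). -/
  foldWhit : FoldWhitC K
  /-- T7.14.6c (row 1720, helper568). -/
  ideleSum : IdeleSumC K
  /-- T7.14.6b.1 (row 1829, helper203). -/
  loc : LocC K
  /-- T7.14.6b.5 (row 1832, helper683). -/
  torusAsm : TorusAsmC K

/-- The leaves of `Open62` which are closed. -/
theorem open62_of_open62b (h : Open62b K) : Open62 K where
  count := h.count
  orth := Fermat.Agent.LT.T7.H555.orthC555 K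
  foldWhit := h.foldWhit
  ideleSum := h.ideleSum
  weight := Fermat.Agent.LT.T7.H179.weightC179 K
  mix := Fermat.Agent.LT.T7.Rigid.H267.mixC267 K
  loc := h.loc
  heckeRec := Fermat.Agent.LT.T7.H941.heckeRecC941
  archUniq := Fermat.Agent.LT.T7.H724.archUniqC724 K
  whitInherit := Fermat.Agent.LT.T7.H878.whitInheritC878 K
  torusAsm := h.torusAsm

/-- **`T7.RigidC K` from the five open leaves.** -/
theorem rigidC_of_open62b (h : Open62b K) : RigidC K :=
  rigidC_of_open62 K (open62_of_open62b K h)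

/-- **`T7.RigidAll` from the five open leaves for every number field.** -/
theorem rigidAll_of_open62b
    (h : ∀ (K : Type) [Field K] [NumberField K], Open62b K) : RigidAll :=
  fun K _ _ => rigidC_of_open62b K (h K)

end Fermat.Agent.LT.T7.Rigid

end
-- ===== PACK-END LT/T7/H62/RigidPlug2.lean

-- ===== PACK-BEGIN LT/T3/Closed.lean
section






























/-!
# Row LT, tower T3 (helper14, architect): INTEGRATION of the closed leaves

OFF-MAIN.  Pattern of `LT/T1/Closed.lean` (helper54).  Imports byte-identical copies of the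
volunteers' files and discharges the closed leaves of tower T3.

| leaf | Prop | closed by |
|---|---|---|
| T3.01 | `GoodCharExistsC` | helper276 `leaf_goodChar276` |
| T3.03 | `PerpNDC` | helper57 `perpND57` |
| T3.04 | `CompleteNDC` | helper57 `completeND57` (spare: helper622) |
| T3.05 | `UnfoldC` | helper59 `unfoldC59` |
| T3.06 | `PoissonNDC` | helper57 `poissonND57` (spare: helper543) |
| T3.11 | `EKKillC` | helper893 `ekKillC_of893` |
| T3.12 | `ConstTermC` | helper237 `constTerm237` |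
| T3.12b | `ConstTermTC` | helper315 `constTermT315` |
| T3.14 | `EKIdealC` | helper465 `ekIdealC465` |
| T3.15 | `EKStarC` | helper904 `ekStar_v2` |
| T3.18b | `LeafEKAlg` | helper732 `leafEKAlg732` |
| T3.21 | `HaarScaleC` | helper354 `haarScaleC_of` (spares: helper254, helper237, helper904) |

INPUT: `T1.T1Out K` (only the fields `locComp`, `adeleLattice`, `addFundDom`, `discrete`,
`heckeCoset` are used).  `IwasawaIntC` (T3.22) is NOT needed any more: helper893 proved FACT 1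
with a Bruhat function instead of the Iwasawa integration formula.

`IwasawaIntC` is nevertheless PROVED (spares: helper57, helper132, helper175, helper67).

| T3.18a top | `AbelSatakeC` from AS.1-5 | helper736 `AS.abelSatake_of` |
| AS.1 | `AS.SatakeLocC` | helper263 `satakeLocC263` (on `T6/H305` of helper305, `T6/H176` of helper176) |
| AS.2s | `AS.AbelCplxSmoothC` | helper736 `AS.abelCplxSmooth_of736` on: Whitney helper984, RegC helper811, NIntC helper157, SphContC helper166, AvgC helper694 / helper203 / helper572, IwaC helper315, CalcC helper174 (cut of helper315; spare route closed by helper893) |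
| AS.3 | `AS.PureRegC` | helper245 `pureReg245` |
| AS.4 top | `AS.NIntC` from N.1-N.8 | helper893 `AS.N893.nIntC_of893` |
| N.1, N.2, N.4, N.6, N.7, N.8 | sub-leaves of AS.4 | helper543, helper846, helper162, helper848, helper800, helper915 |
| N.3 | `AS.N893.OutsideCosetC` | helper922 `outsideCosetC922` |
| N.5 | `AS.N893.SplitC` | helper129 `splitC129` (cut: helper497, helper322, helper250, helper904, helper800) |
| AS.5 | `AS.ROpC` | helper57 `rOpC57` (cut of helper910: 6 of 7 sub-leaves) |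
| AS.3s | the pure tensor is smooth | helper736 `AS.pureSmooth` |
| T3.18a top, smooth | `AS.AbelSatakeSmoothC` from AS.1, AS.2s, AS.3-5 | helper736 `AS.abelSatakeSmooth_of` |
| T3.18b, smooth | `EKExistSmoothC` | helper14 `ekExistSmooth_of` (proof of helper732) |

STATE: **TOWER T3 IS CLOSED relative to `T1.T1Out K`** (and `T1.t1Out K` is proved: see
`ClosedT1.lean` for the unconditional statements).

* `top_closed : T1.T1Out K → T3Out K`,
* `topOp_closed : T1.T1Out K → T3OutOp K`,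
* `topOpSmooth_closed : T1.T1Out K → T3OutOpSmooth K` (test functions smooth at infinity: what
  T2 / T5 consume).
`Open K` (kept for compatibility) has no field left that is not proved: `open_closed : Open K`.
-/

set_option autoImplicit false
set_option linter.style.haveILetI false

open IsDedekindDomain NumberField MeasureTheory
open Fermat.Agent.LT.H556.A0

noncomputable section

namespace Fermat.Agent.LT.T3

variable (K : Type) [Field K] [NumberField K]

/-! ## Adapters from the interface of T1 -/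

theorem inLocComp_of_T1 (h : T1.LocCompC K) : InLocCompC K := h

theorem inLattice_of_T1 (h : T1.AdeleLatticeC K) : InLatticeC K := h

theorem inFundDom_of_T1 (h : T1.AddFundDomC K) : InFundDomC K := h

theorem inDiscrete_of_T1 (h : T1.DiscreteC K) : InDiscreteC K := h

theorem inScalarUnif_of_T1 (h : T1.HeckeCosetC K) : InScalarUnifC K :=
  fun v => (h v).2.2

/-- A Haar measure of `𝔸_K` exists. -/
theorem inAddHaar_of_T1 (h : T1.LocCompC K) : InAddHaarC K := by
  letI : MeasurableSpace (Adl K) := borel (Adl K)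
  haveI : BorelSpace (Adl K) := ⟨rfl⟩
  obtain ⟨⟨h1, h2, h3⟩, -⟩ := h
  haveI := h1
  haveI := h2
  haveI := h3
  exact ⟨Measure.addHaar, inferInstance⟩

/-! ## The state of the tower -/

/-- THE OPEN PART of tower T3: the leaves still to be proved (two sub-leaves of AS.4 `NIntC`,
cut of helper893). -/
structure Open : Prop where
  /-- N.3 (registry 1365). -/
  outsideCoset : T1.T1Out K → AS.N893.OutsideCosetC K
  /-- N.5 (registry 1367). -/
  split : T1.T1Out K → AS.N893.SplitC K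

/-- The open part is empty: N.3 (helper922) and N.5 (helper129) are proved. -/
theorem open_closed : Open K :=
  ⟨fun _ => H922.outsideCosetC922 K, fun _ => H129.splitC129 K⟩

/-- AS.1 closed (helper263). -/
theorem satakeLoc_closed : AS.SatakeLocC K := H263.satakeLocC263 K

/-- AS.2s closed (cut of helper315, smooth form of helper736, Whitney of helper984). -/
theorem abelCplxSmooth_closed : AS.AbelCplxSmoothC :=
  AS.abelCplxSmooth_of736 H984.whitneySinhC_984 H811.regC811 H157.nIntC157 H166.sphContC166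
    H315.avgC_closed315 H315.iwaC315 (H174.calcC_of_reg174 H811.regC811)

/-- AS.3 closed (helper245). -/
theorem pureReg_closed : AS.PureRegC K := H245.pureReg245 K

/-- AS.5 closed (helper57). -/
theorem rOp_closed : AS.ROpC K := H57.rOpC57 K

/-- AS.4 from its two open sub-leaves (top of helper893). -/
theorem nInt_of_open (h : T1.T1Out K) (O : Open K) : AS.NIntC K :=
  AS.N893.nIntC_of893 K (H543.iwasawaFormC_of_h543 K h.iwasawa) (AS.N893.H846.pureUpperC846 K)
    (O.outsideCoset h) (H162.affineC162 K h.locComp) (O.split h) H848.locValFinC848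
    (H800.locValInfC800 K) (H915.prodFormC915 K)

/-- The station T3.18a from the open leaves. -/
theorem abelSatake_of_open (h : T1.T1Out K) (O : Open K) : AbelSatakeC K :=
  AS.abelSatake_of K (satakeLoc_closed K) (AS.abelCplx_of_smooth abelCplxSmooth_closed)
    (pureReg_closed K) (nInt_of_open K h O) (rOp_closed K)

/-- The station T3.18a, smooth form, from the open leaves. -/
theorem abelSatakeSmooth_of_open (h : T1.T1Out K) (O : Open K) : AS.AbelSatakeSmoothC K :=
  AS.abelSatakeSmooth_of K (satakeLoc_closed K) abelCplxSmooth_closed (pureReg_closed K)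
    (nInt_of_open K h O) (rOp_closed K)

/-- `HaarScaleC` closed (helper354). -/
theorem haarScale_closed (h : T1.T1Out K) : HaarScaleC K :=
  H354.haarScaleC_of K (inLocComp_of_T1 K h.locComp) (inFundDom_of_T1 K h.addFundDom)

/-- `EKKillC` closed (helper893). -/
theorem ekKill_closed (h : T1.T1Out K) : EKKillC K :=
  H893.ekKillC_of893 K h.locComp h.adeleLattice h.addFundDom

/-- `PoissonNDC` closed (helper57, helper59). -/
theorem poissonND_closed (h : T1.T1Out K) : PoissonNDC K := by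
  have hL := inLocComp_of_T1 K h.locComp
  have hA := inLattice_of_T1 K h.adeleLattice
  have hF := inFundDom_of_T1 K h.addFundDom
  exact H57.poissonND57 K hL hA hF
    (H57.completeND57 K hL hA hF (H57.perpND57 K hL hA)) (H59.unfoldC59 K)

/-- `EKCuspC` closed (helper893, helper237). -/
theorem ekCusp_closed (h : T1.T1Out K) : EKCuspC K :=
  ekCusp_of K (ekKill_closed K h)
    (H237.constTerm237 K (inLocComp_of_T1 K h.locComp) (inLattice_of_T1 K h.adeleLattice)
      (inFundDom_of_T1 K h.addFundDom) (haarScale_closed K h))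

/-- `EKStarC` closed (helper904). -/
theorem ekStar_closed (h : T1.T1Out K) : EKStarC K :=
  H904.ekStar_v2 K (inLocComp_of_T1 K h.locComp) (inDiscrete_of_T1 K h.discrete)
    (haarScale_closed K h)

/-- STATE OF THE TOWER (integral form): the open leaves give `T3Out K`. -/
theorem top_of_open (h : T1.T1Out K) (O : Open K) : T3Out K :=
  ⟨H276.leaf_goodChar276 K (inLocComp_of_T1 K h.locComp),
    poissonND_closed K h,
    ekCusp_closed K h,
    H465.ekIdealC465 K,
    ekStar_closed K h,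
    ekExist_of K (abelSatake_of_open K h O) (H732.leafEKAlg732 K)
      (inScalarUnif_of_T1 K h.heckeCoset)⟩

/-- `ConstTermTC` closed (helper315). -/
theorem constTermT_closed (h : T1.T1Out K) : ConstTermTC K :=
  H315.constTermT315 K (inLocComp_of_T1 K h.locComp) (inLattice_of_T1 K h.adeleLattice)
    (inFundDom_of_T1 K h.addFundDom) (haarScale_closed K h)

/-- STATE OF THE TOWER (operator form): the open leaves give `T3OutOp K`. -/
theorem topOp_of_open (h : T1.T1Out K) (O : Open K) : T3OutOp K :=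
  topOp K (top_of_open K h O) (ekKill_closed K h) (constTermT_closed K h)
    (inAddHaar_of_T1 K h.locComp)

/-- STATE OF THE TOWER (operator form, SMOOTH test functions; the interface to T2 / T5 / T7):
the open leaves give `T3OutOpSmooth K`. -/
theorem topOpSmooth_of_open (h : T1.T1Out K) (O : Open K) : T3OutOpSmooth K :=
  topOpSmooth K (top_of_open K h O) (ekKill_closed K h) (constTermT_closed K h)
    (ekExistSmooth_of K (abelSatakeSmooth_of_open K h O) (inScalarUnif_of_T1 K h.heckeCoset))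
    (inAddHaar_of_T1 K h.locComp)

/-! ## THE TOWER IS CLOSED -/

/-- AS.4 closed. -/
theorem nInt_closed (h : T1.T1Out K) : AS.NIntC K := nInt_of_open K h (open_closed K)

/-- The station T3.18a, smooth form, closed. -/
theorem abelSatakeSmooth_closed (h : T1.T1Out K) : AS.AbelSatakeSmoothC K :=
  abelSatakeSmooth_of_open K h (open_closed K)

/-- TOWER T3, integral form. -/
theorem top_closed (h : T1.T1Out K) : T3Out K := top_of_open K h (open_closed K)

/-- TOWER T3, operator form. -/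
theorem topOp_closed (h : T1.T1Out K) : T3OutOp K := topOp_of_open K h (open_closed K)

/-- TOWER T3, operator form, smooth test functions. -/
theorem topOpSmooth_closed (h : T1.T1Out K) : T3OutOpSmooth K :=
  topOpSmooth_of_open K h (open_closed K)

end Fermat.Agent.LT.T3

end

end
-- ===== PACK-END LT/T3/Closed.lean

-- ===== PACK-BEGIN LT/T2/ClosedTau.lean
section














/-!
# Row LT, tower T2, class of T5: INTEGRATION of the closed leaves (helper130, architect)

OFF-MAIN.  Closed leaves are imported as byte-identical copies of the owners' files and rebuilt on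
the architect's box against `LT/T2/SpecTau.lean` (sha256 4d2b0fc2) and `LT/T2/Spec.lean` v3
(sha256 b934629a).

| leaf | owner | file | state |
|---|---|---|---|
| T2.21 `LeafT01` (`FrameRExists`, `PairDefiniteT`) | helper833 | `LT/T2/H833/LeafT01.lean` (sha256 075b29d4) | CLOSED |
| T2.22 `LeafT02` (`ConvCuspT`) | helper175 (with helper887, helper981, helper323, helper79, helper729, helper355, helper776, helper570, helper793, helper724, helper488) | `LT/T2/H175/LeafT02.lean` (sha256 eee65eab) + closure (32 files) | CLOSED |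
| T2.23 `LeafT03` (`GPSCoreT`, THE estimate) | helper465 (on helper386, helper511, helper437, helper250, helper756, helper323, helper767, helper8, helper187, helper793, helper729, helper988) | `LT/T2/H465/LeafT03Closed.lean` + closure (47 files) | CLOSED |
| T2.24 `LeafT04` (`GPST → HSBoundT`, `GPSKillT → HSKillT`) | helper8 (on helper510) | `LT/T2/H8/LeafT04.lean` (sha256 80ca4253) | CLOSED |
| T2.25 `LeafT05` (`GPST → ConvRegularT`) | helper799 | `LT/T2/H799/LeafT05.lean` (sha256 6064dd0d) | CLOSED |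
| T2.26 `LeafT06` (`ApproxIdT`) | helper354 | `LT/T2/H354/LeafT06.lean` (sha256 ece523c5) + 5 files | CLOSED |
| T2.27 `LeafT07` (`OpsGoodT`, `OpsAdjT`) | helper291 (20 sub-leaves: helper833, helper290, helper887, helper372, helper8, helper944, helper79, helper409, helper271, helper420, helper899, helper904, helper378, helper776, helper196, helper879, helper166; tools helper197, helper555, helper472, helper878) | `LT/T2/H291/LeafT07.lean` (sha256 3ab83c1c) + closure (86 files) | CLOSED |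
| T2.29 `LeafT09` (assembly) | helper560 (second proof: helper566 `LT/T2/H566/AssemblyT.lean`) | `LT/T2/H560/LeafT09.lean` (sha256 bd7af67e), `Core.lean` | CLOSED |
| T2.33 `LeafT13` (`GPSCoreT → GPST`, `GPSCoreT → GPSKillT`) | helper627 | `LT/T2/H627/LeafT13.lean` (sha256 9ad23b3c) | CLOSED |
| T2.08 `Leaf08` (`AbstractSpectral`) | helper781 | `LT/T2/H781/Leaf08.lean` | CLOSED |
| T2.34 `LeafT14` (ray generator) | helper793 | `LT/T2/H793/RayGen.lean` (sha256 4c26a355), `LT/T1/H793/AdeleProj.lean` | CLOSED |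
| T2.35 `LeafT15` (`CuspSpecT` at the trivial type `→ CuspSpec`) | helper768 | `LT/T2/H768/LeafT15.lean` (sha256 8a61b8ac) | CLOSED |

`OpenT K` = the leaves of the class which are still open: NONE (the structure has no field; it is
kept so that the consumers of `…_of_open` keep compiling); `leavesT_of_open : OpenT K → LeavesT K`.

ALL LEAVES OF `CuspSpecT` ARE CLOSED: `leavesT_closed K : LeavesT K`, and
`cuspSpecT_of_T1 : T1.T1Out K → 𝔫 ≠ ⊥ → IsKType τ → CuspSpecT K 𝔫 τ` (unconditional form: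
`LT/T2/Uncond.lean`).
-/

set_option autoImplicit false

open IsDedekindDomain NumberField
open Fermat.Agent.LT.H556.A0

namespace Fermat.Agent.LT.T2

/-- The sub-leaves of `CuspSpecT` which are still OPEN. -/
structure OpenT (K : Type) [Field K] [NumberField K] : Prop where

/-- Nothing is open in the class of T5. -/
theorem openT_closed (K : Type) [Field K] [NumberField K] : OpenT K := ⟨⟩

/-- All leaves of the class from the open ones. -/
theorem leavesT_of_open (K : Type) [Field K] [NumberField K] (_h : OpenT K) : LeavesT K :=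
  { l01 := H833.leafT01_833 K, l02 := H175.leafT02_175 K, l03 := H465.leafT03_465 K, l04 := H8.leafT04_h8 K,
    l05 := H799.leafT05_h799 K, l06 := H354.leafT06_h354 K, l07 := H291.leafT07_291 K,
    l08 := H781.leaf08_781, l09 := H560.leafT09_560 K, l13 := H627.leafT13_627 K }

/-- ALL LEAVES of `CuspSpecT` are closed. -/
theorem leavesT_closed (K : Type) [Field K] [NumberField K] : LeavesT K :=
  leavesT_of_open K (openT_closed K)

/-- The discreteness of the cuspidal spectrum of the class `(𝔫, τ, r)` from the open leaves and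
the output of T1. -/
theorem cuspSpecT_of_open (K : Type) [Field K] [NumberField K] (h : OpenT K) (hT1 : T1.T1Out K)
    (𝔫 : Ideal (𝓞 K)) (τ : G K → ℂ) (h𝔫 : 𝔫 ≠ ⊥) (hτ : IsKType τ) : CuspSpecT K 𝔫 τ :=
  top_cuspSpecT K (leavesT_of_open K h) hT1 𝔫 τ h𝔫 hτ

/-- The Hilbert--Schmidt bound of the T5 interface from the open leaves: for a test function
which kills the constant terms, `R(f)` is Hilbert--Schmidt on the automorphic functions of the
class. -/
theorem hsKillT_of_open (K : Type) [Field K] [NumberField K] (h : OpenT K) (hT1 : T1.T1Out K)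
    (𝔫 : Ideal (𝓞 K)) (τ : G K → ℂ) (h𝔫 : 𝔫 ≠ ⊥) (hτ : IsKType τ) : HSKillT K 𝔫 τ :=
  (top_gpsT K (leavesT_of_open K h) hT1 𝔫 τ h𝔫 hτ).2.2.2.2.2.2.2.2

/-- **The estimates of the class of T5 are CLOSED** (they do not need the operator package):
from the output of T1. -/
theorem gpsT_of_T1 (K : Type) [Field K] [NumberField K] (hT1 : T1.T1Out K)
    (𝔫 : Ideal (𝓞 K)) (τ : G K → ℂ) (h𝔫 : 𝔫 ≠ ⊥) (hτ : IsKType τ) :
    FrameRExists K ∧ PairDefiniteT K 𝔫 τ ∧ ConvCuspT K 𝔫 τ ∧ GPSCoreT K 𝔫 τ ∧ GPST K 𝔫 τ ∧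
      HSBoundT K 𝔫 τ ∧ ConvRegularT K 𝔫 τ ∧ GPSKillT K 𝔫 τ ∧ HSKillT K 𝔫 τ := by
  have hP : PairDefiniteT K 𝔫 τ := (H833.leafT01_833 K hT1).2 𝔫 τ h𝔫 hτ
  have hC : ConvCuspT K 𝔫 τ := H175.leafT02_175 K hT1 𝔫 τ h𝔫 hτ
  have hCore : GPSCoreT K 𝔫 τ := H465.leafT03_465 K hT1 𝔫 τ h𝔫 hτ
  have hG := H627.leafT13_627 K hT1 𝔫 τ h𝔫 hτ hCore
  have h4 := H8.leafT04_h8 K hT1 𝔫 τ h𝔫 hτ
  exact ⟨(H833.leafT01_833 K hT1).1, hP, hC, hCore, hG.1, h4.1 hG.1,
    H799.leafT05_h799 K hT1 𝔫 τ h𝔫 hτ hP hC hG.1, hG.2, h4.2 hG.2⟩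

/-- Ray generators exist and frames with a ray generator exist (CLOSED). -/
theorem frameR_closed (K : Type) [Field K] [NumberField K] (hT1 : T1.T1Out K) :
    FrameRExists K :=
  (H833.leafT01_833 K hT1).1

/-- The class of `Spec.lean` is the part `τ = 1`, `c = 1` of the class of T5 (CLOSED):
`CuspSpec` follows from `CuspSpecT` and `OpsAdjT` at the trivial type. -/
theorem cuspSpec_of_cuspSpecT (K : Type) [Field K] [NumberField K] (hT1 : T1.T1Out K)
    (𝔫 : Ideal (𝓞 K)) (h𝔫 : 𝔫 ≠ ⊥) (hA : OpsAdjT K 𝔫 trivType)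
    (hS : CuspSpecT K 𝔫 trivType) : CuspSpec K 𝔫 :=
  H768.leafT15_768 K hT1 (H793.leafT14_793 K) 𝔫 h𝔫 hA hS

/-- `GPS` of `Spec.lean` from `GPST` at the trivial type (CLOSED reduction). -/
theorem gps_of_gpsT_closed (K : Type) [Field K] [NumberField K] (𝔫 : Ideal (𝓞 K))
    (h : GPST K 𝔫 trivType) : GPS K 𝔫 :=
  gps_of_gpsT (H793.leafT14_793 K) h

/-- The whole tower of `Spec.lean` from the open leaves of the class of T5: ONE set of leaves
gives both classes. -/
theorem cuspSpec_of_openT (K : Type) [Field K] [NumberField K] (h : OpenT K) (hT1 : T1.T1Out K)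
    (𝔫 : Ideal (𝓞 K)) (h𝔫 : 𝔫 ≠ ⊥) : CuspSpec K 𝔫 := by
  have hP : PairDefiniteT K 𝔫 trivType := (H833.leafT01_833 K hT1).2 𝔫 trivType h𝔫 isKType_triv
  have hC : ConvCuspT K 𝔫 trivType := H175.leafT02_175 K hT1 𝔫 trivType h𝔫 isKType_triv
  exact cuspSpec_of_cuspSpecT K hT1 𝔫 h𝔫
    (H291.leafT07_291 K hT1 𝔫 trivType h𝔫 isKType_triv hP hC).2
    (cuspSpecT_of_open K h hT1 𝔫 trivType h𝔫 isKType_triv)

/-- The operator package of the class of T5 (CLOSED, leaf T2.27): the operators of `IsOpT` are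
bounded, preserve the cusp functions of the class, commute and are normal (`OpsGoodT`), and the
generators are closed under adjoints (`OpsAdjT`); from the output of T1. -/
theorem opsT_of_T1 (K : Type) [Field K] [NumberField K] (hT1 : T1.T1Out K)
    (𝔫 : Ideal (𝓞 K)) (τ : G K → ℂ) (h𝔫 : 𝔫 ≠ ⊥) (hτ : IsKType τ) :
    OpsGoodT K 𝔫 τ ∧ OpsAdjT K 𝔫 τ :=
  H291.leafT07_291 K hT1 𝔫 τ h𝔫 hτ ((H833.leafT01_833 K hT1).2 𝔫 τ h𝔫 hτ)
    (H175.leafT02_175 K hT1 𝔫 τ h𝔫 hτ)

/-- **THE DISCRETENESS OF THE CUSPIDAL SPECTRUM OF THE CLASS `(𝔫, τ, r)`** from the output of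
tower T1. -/
theorem cuspSpecT_of_T1 (K : Type) [Field K] [NumberField K] (hT1 : T1.T1Out K)
    (𝔫 : Ideal (𝓞 K)) (τ : G K → ℂ) (h𝔫 : 𝔫 ≠ ⊥) (hτ : IsKType τ) : CuspSpecT K 𝔫 τ :=
  top_cuspSpecT K (leavesT_closed K) hT1 𝔫 τ h𝔫 hτ

end Fermat.Agent.LT.T2

end
-- ===== PACK-END LT/T2/ClosedTau.lean

-- ===== PACK-BEGIN LT/T7/H190/RealWtOne.lean
section




/-!
# Row LT, tower T7, leaf T7.L2Q.3.6 `SDQ140.RealWtOneC` (helper190, registry row 2290)

OFF-MAIN.  PLUG of the closed `H670.D3.realise_wtOne` (helper670@c13933418,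
`LT/H670/D3/Realise.lean`, sha256 cd35e654820a7f44) against the frozen Prop of
`LT/T7/H140/SpecDownQSpec.lean` (helper140@26e3e6c54, sha256 7aa829b756fe1896): the hypotheses of
`RealWtOneC` are the fields of `H670.D3.IsWtOneSph0FormFor`, in the same order.
No definitions, nothing assumed, unconditional.
-/

set_option autoImplicit false

namespace Fermat.Agent.LT.T7.H190

/-- **Leaf T7.L2Q.3.6 `RealWtOneC`**, unconditional. -/
theorem realWtOneC190 : Fermat.Agent.LT.T7.SDQ140.RealWtOneC :=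
  fun _ _ h1 h2 h3 h4 h5 h6 h7 h8 h9 =>
    Fermat.Agent.LT.H670.D3.realise_wtOne ⟨h1, h2, h3, h4, h5, h6, h7, h8, h9⟩

end Fermat.Agent.LT.T7.H190

end
-- ===== PACK-END LT/T7/H190/RealWtOne.lean

-- ===== PACK-BEGIN LT/T7/H247/IwProjQ.lean
section






/-!
# Row LT, tower T7, leaf T7.L2Q.3.7.4.3 `WBQ341.IwProjQC341 n` (helper247, registry row 2446)

OFF-MAIN.  No hole, nothing assumed.  ADDITIVE (new names only, suffix `247`).

    iwProjQC247 (n : QWt) : WBQ341.IwProjQC341 n        (VERBATIM, UNCONDITIONAL, both types)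

`P` = the mean `H949.avg949 𝔫 𝒦` over the cosets of `U(𝔫)` in `𝒦 = ⟨U(𝔫), I_u⟩` (helper949);
the properties are those of `IwProjCore.lean`; `T1.t1Out ℚ` (closed T1) and
`H128.translInnerC128 ℚ` (helper128) are plugged.  The circle means: the family `Y` is continuous
(`A2.H751.continuous_of_local751`, helper751) and commutes with the representatives.
-/

set_option autoImplicit false
set_option linter.style.haveILetI false
set_option linter.unusedSectionVars false
set_option linter.unusedVariables false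

open AutomorphicForm IsDedekindDomain NumberField MeasureTheory
open scoped ComplexConjugate

noncomputable section

namespace Fermat.Agent.LT.T7.H247

open Fermat.Agent.LT.H556 Fermat.Agent.LT.H556.A0 Fermat.Agent.LT.H670 Fermat.Agent.LT.T7
open Fermat.Agent.LT.T7.L2Q Fermat.Agent.LT.T7.SDQ140 Fermat.Agent.LT.T7.WBQ341
open Fermat.Agent.LT.T7.H40 Fermat.Agent.LT.T7.H949

attribute [local instance] Fermat.Agent.LT.T5.instMeasurableSpaceG

/-! ## 1. The rotation families -/

theorem continuous_rotY247 : Continuous fun θ : ℝ => rotY θ := by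
  unfold rotY
  refine continuous_matrix fun i j => ?_
  fin_cases i <;> fin_cases j <;> simp <;> fun_prop

theorem det_rotY247 (θ : ℝ) : (rotY θ).det = 1 := by
  unfold rotY
  rw [Matrix.det_fin_two_of]
  have h := Real.cos_sq_add_sin_sq (θ / 2)
  have h2 : ((Real.cos (θ / 2) : ℝ) : ℂ) ^ 2 + ((Real.sin (θ / 2) : ℝ) : ℂ) ^ 2 = 1 := by
    exact_mod_cast h
  linear_combination h2

theorem continuous_rotC247 : Continuous fun θ : ℝ => QOut.rotC θ := by
  unfold QOut.rotC
  refine continuous_matrix fun i j => ?_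
  fin_cases i <;> fin_cases j <;> simp <;> fun_prop

theorem det_rotC247 (θ : ℝ) : (QOut.rotC θ).det = 1 := by
  unfold QOut.rotC
  rw [Matrix.det_fin_two_of]
  have h := Real.cos_sq_add_sin_sq θ
  have h2 : ((Real.cos θ : ℝ) : ℂ) ^ 2 + ((Real.sin θ : ℝ) : ℂ) ^ 2 = 1 := by
    exact_mod_cast h
  linear_combination h2

theorem det_torus247 (t : ℝ) : (torus t).det = 1 := by
  unfold torus
  rw [Matrix.det_fin_two_of]
  have h : Real.exp (t / 2) * Real.exp (-(t / 2)) = 1 := by
    rw [← Real.exp_add, add_neg_cancel, Real.exp_zero]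
  have h2 : ((Real.exp (t / 2) : ℝ) : ℂ) * ((Real.exp (-(t / 2)) : ℝ) : ℂ) = 1 := by
    exact_mod_cast h
  linear_combination h2

/-- A family supported at the infinite place `w` whose component is `R θ * torus t`, `R`
continuous of determinant `1`, is continuous. -/
theorem continuous_family247 {K : Type} [Field K] [NumberField K] (w : InfinitePlace K)
    (R : ℝ → Matrix (Fin 2) (Fin 2) ℂ) (hR : Continuous R) (hdet : ∀ θ, (R θ).det = 1) (t : ℝ)
    (Y : ℝ → G K) (hY : ∀ θ : ℝ, IsLocalAtInf w (Y θ) ∧ infComp w (Y θ) = R θ * torus t) :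
    Continuous Y := by
  refine Fermat.Agent.LT.A2.H751.continuous_of_local751 w Y (fun θ => (hY θ).1) ?_ ?_
  · have e : (fun θ => infComp w (Y θ)) = fun θ => R θ * torus t := funext fun θ => (hY θ).2
    rw [e]
    exact hR.matrix_mul continuous_const
  · intro θ
    rw [(hY θ).2, Matrix.det_mul, hdet, det_torus247, one_mul]

/-! ## 2. The leaf -/

/-- **LEAF T7.L2Q.3.7.4.3 = `WBQ341.IwProjQC341 n`, VERBATIM.** -/
theorem iwProjQC247 (n : QWt) : WBQ341.IwProjQC341 n := by
  intro μ F r 𝔫 u h𝔫 hτ hFr hr hu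
  have hK0 : KK949 𝔫 1 (fun _ => u) ≤ K0949 ℚ := KK_le_K0949 𝔫 1 _
  have hfinq : Finite (KK949 𝔫 1 (fun _ => u) ⧸ (U949 𝔫).subgroupOf (KK949 𝔫 1 (fun _ => u))) :=
    finite_quot949 𝔫 h𝔫 _ hK0
  letI : Fintype (KK949 𝔫 1 (fun _ => u) ⧸ (U949 𝔫).subgroupOf (KK949 𝔫 1 (fun _ => u))) :=
    Fintype.ofFinite _
  have hU0 : U949 𝔫 ≤ KK949 𝔫 1 (fun _ => u) := le_sup_left
  have hIw : iwSet949 1 (fun _ => u) ⊆ ((KK949 𝔫 1 (fun _ => u) : Subgroup (G ℚ)) : Set (G ℚ)) :=
    fun h hh => (le_sup_right : Subgroup.closure (iwSet949 1 (fun _ => u))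
      ≤ KK949 𝔫 1 (fun _ => u)) (Subgroup.subset_closure hh)
  have hT : Fermat.Agent.LT.T1.T1Out ℚ := Fermat.Agent.LT.T1.t1Out ℚ
  have hTI : TranslInnerC ℚ := Fermat.Agent.LT.T7.H128.translInnerC128 ℚ
  have hmem : ∀ ψ : G ℚ → ℂ, InV2Q341 n 𝔫 r ψ →
      IsWFnQ n 𝔫 r u (avg949 𝔫 (KK949 𝔫 1 (fun _ => u)) ψ) := fun ψ hψ =>
    ⟨isCuspFn_avg247 𝔫 _ hT hK0 hU0 hr hψ.cusp,
      fun w z hz g => posInv_avg247 𝔫 _ hK0 hψ.arch_scalar w z hz g,
      isIwInv_avg247 𝔫 _ hIw hψ.cusp.aut.level_inv⟩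
  refine ⟨avg949 𝔫 (KK949 𝔫 1 (fun _ => u)), avg_add247 𝔫 _, avg_smul247 𝔫 _, hmem, ?_, ?_⟩
  · intro ψ hψ χ hχ
    have hχ' : IsWFnQ n 𝔫 r u χ := hχ
    exact inner_avg247 𝔫 _ hTI hFr hr hψ.cusp hχ'.cusp
      (fun k hk x => KK_le_stab949 hχ'.cusp.aut.level_inv hχ'.iw hk x)
  · intro c ψ hψ
    refine (⟨hmem ψ hψ.inv, fun v hv => hecke_avg247 𝔫 _ hK0 (hψ.hecke v hv), fun w => ?_⟩ :
      IsEigFnQ n 𝔫 r u _ c)
    have hm := hψ.mean w
    cases n with
    | w0 =>
      have hm0 : MeanEigR0 ψ w (c.m w) := hm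
      show MeanEigR0 _ w (c.m w)
      intro t ht Y hY g
      have hYc : Continuous Y :=
        continuous_family247 w (fun θ => rotY θ) continuous_rotY247 det_rotY247 t Y hY
      have h1 := mean_avg247 𝔫 (KK949 𝔫 1 (fun _ => u)) hK0 hψ.inv.cusp.cont hYc
        (fun θ v => (hY θ).1.2 v) (κ := fun _ => (1 : ℂ)) continuous_const 0 (2 * Real.pi)
        (c.m w t) (fun g => by
          have := hm0 t ht Y hY g
          simpa only [one_mul] using this) g
      simpa only [one_mul] using h1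
    | w1 =>
      have hm1 : MeanEigR1 ψ w (c.m w) := hm
      show MeanEigR1 _ w (c.m w)
      intro t ht Y hY g
      have hYc : Continuous Y :=
        continuous_family247 w (fun θ => QOut.rotC θ) continuous_rotC247 det_rotC247 t Y hY
      exact mean_avg247 𝔫 (KK949 𝔫 1 (fun _ => u)) hK0 hψ.inv.cusp.cont hYc
        (fun θ v => (hY θ).1.2 v)
        (κ := fun θ : ℝ => Complex.exp (-(Complex.I * ((θ : ℝ) : ℂ)))) (by fun_prop)
        0 (2 * Real.pi) (c.m w t) (fun g => hm1 t ht Y hY g) g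

example (n : QWt) : WBQ341.IwProjQC341 n := iwProjQC247 n

end Fermat.Agent.LT.T7.H247

end

end
-- ===== PACK-END LT/T7/H247/IwProjQ.lean

-- ===== PACK-BEGIN LT/T7/H53/HaarSplit.lean
section




/-!
# Row LT, tower T7, leaf C2.7.4 `H305.HaarSplitC305` (helper53, SPARE of registry row 2568)

OFF-MAIN.  `haarSplitC53 K : H305.HaarSplitC305 K`, VERBATIM the Prop of
`LT/T7/H305/MatchCut.lean` (helper305, sha256 0f302b81), UNCONDITIONAL.

Proof.  `H_S = {y : y_v ∈ GL₂(𝒪_v), v ∉ S}` is an open subgroup (`isOpen_outSub53`),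
`π_S = compS305 S` is a continuous homomorphism which maps `H_S` onto
`L_S = ∏_{v ∈ S} GL₂(K_v) × ∏_w GL₂(ℂ)` (`exists_section53`, `K` totally complex), and
`H_S ∩ π_S⁻¹(∏_{v ∈ S} U(m_v) × ∏_w B) = X` is contained in a compact set (`B` = the compact
neighbourhood `ballC53` of `1`).  Hence `π_{S*} (μ|_{H_S})` is a Haar measure of `L_S`
(`isHaarMeasure_map_restrict53`), equal to `c_S` times the product measure, and
`c_S = μ(X) / (1 · μc(B)^{r})` by evaluation on the box (`map_restrict_eq_smul53`); `X` does not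
depend on `S ⊇ T₀` (`outSub_inter_preimage53`: `U(0) = GL₂(𝒪_v)`).
-/

set_option autoImplicit false
set_option linter.style.haveILetI false
set_option linter.unusedSectionVars false

open IsDedekindDomain NumberField WithZero Topology MeasureTheory
open Fermat.Agent.LT.H556.A0

noncomputable section

namespace Fermat.Agent.LT.T7.H53

open Fermat.Agent.LT Fermat.Agent.LT.T7

attribute [local instance] Fermat.Agent.LT.T5.instMeasurableSpaceG

variable {K : Type} [Field K] [NumberField K]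

/-- THE CONSTANT `c = μ(X) / μc(B)^r`. -/
def haarConst53 (μ : Measure (G K)) (μc : @Measure (GL (Fin 2) ℂ) (borel _))
    (m : HeightOneSpectrum (𝓞 K) → ℕ) : ℝ :=
  (μ (setX53 m)).toReal / ((μc ballC53) ^ Fintype.card (InfinitePlace K)).toReal

theorem measure_ballC_ne_zero53 (μc : @Measure (GL (Fin 2) ℂ) (borel _))
    (hμc : @Measure.IsHaarMeasure _ _ _ (borel _) μc) : μc ballC53 ≠ 0 := by
  letI : MeasurableSpace (GL (Fin 2) ℂ) := borel _
  haveI : BorelSpace (GL (Fin 2) ℂ) := ⟨rfl⟩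
  haveI := hμc
  exact (Measure.measure_pos_of_mem_nhds μc ballC_mem_nhds53).ne'

theorem measure_ballC_ne_top53 (μc : @Measure (GL (Fin 2) ℂ) (borel _))
    (hμc : @Measure.IsHaarMeasure _ _ _ (borel _) μc) : μc ballC53 ≠ ⊤ := by
  letI : MeasurableSpace (GL (Fin 2) ℂ) := borel _
  haveI : BorelSpace (GL (Fin 2) ℂ) := ⟨rfl⟩
  haveI := hμc
  exact isCompact_ballC53.measure_lt_top.ne

theorem setX_mem_nhds53 (T₀ : Finset (HeightOneSpectrum (𝓞 K)))
    (m : HeightOneSpectrum (𝓞 K) → ℕ) (hm : ∀ v : HeightOneSpectrum (𝓞 K), v ∉ T₀ → m v = 0) :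
    setX53 m ∈ 𝓝 (1 : G K) := by
  rw [← outSub_inter_preimage53 T₀ T₀ m hm (Finset.Subset.refl _)]
  refine Filter.inter_mem ((isOpen_outSub53 T₀).mem_nhds (outSub53 T₀).one_mem) ?_
  refine (continuous_piS53 T₀).continuousAt.preimage_mem_nhds ?_
  rw [map_one]
  exact boxS_mem_nhds53 T₀ m

theorem haarConst_pos53 (μ : Measure (G K)) (hμ : μ.IsHaarMeasure)
    (μc : @Measure (GL (Fin 2) ℂ) (borel _))
    (hμc : @Measure.IsHaarMeasure _ _ _ (borel _) μc)
    (T₀ : Finset (HeightOneSpectrum (𝓞 K)))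
    (m : HeightOneSpectrum (𝓞 K) → ℕ) (hm : ∀ v : HeightOneSpectrum (𝓞 K), v ∉ T₀ → m v = 0) :
    0 < haarConst53 μ μc m := by
  haveI : BorelSpace (G K) := ⟨rfl⟩
  haveI := hμ
  have h1 : μ (setX53 m) ≠ 0 := (Measure.measure_pos_of_mem_nhds μ (setX_mem_nhds53 T₀ m hm)).ne'
  have h2 : μ (setX53 m) ≠ ⊤ :=
    (lt_of_le_of_lt (measure_mono (setX_subset_bigBox53 m))
      isCompact_bigBox53.measure_lt_top).ne
  have h3 : (μc ballC53) ^ Fintype.card (InfinitePlace K) ≠ 0 :=
    pow_ne_zero _ (measure_ballC_ne_zero53 μc hμc)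
  have h4 : (μc ballC53) ^ Fintype.card (InfinitePlace K) ≠ ⊤ :=
    ENNReal.pow_ne_top (measure_ballC_ne_top53 μc hμc)
  exact div_pos (ENNReal.toReal_pos h1 h2) (ENNReal.toReal_pos h3 h4)

/-- The equation for one `S ⊇ T₀`. -/
theorem haarSplit_main53 (hcx : TotCplx K) (μ : Measure (G K)) (hμ : μ.IsHaarMeasure)
    (μc : @Measure (GL (Fin 2) ℂ) (borel _))
    (hμc : @Measure.IsHaarMeasure _ _ _ (borel _) μc)
    (T₀ S : Finset (HeightOneSpectrum (𝓞 K))) (m : HeightOneSpectrum (𝓞 K) → ℕ)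
    (hm : ∀ v : HeightOneSpectrum (𝓞 K), v ∉ T₀ → m v = 0) (hS : T₀ ⊆ S)
    (μv : ∀ v : HeightOneSpectrum (𝓞 K), @Measure (GL (Fin 2) (v.adicCompletion K)) (borel _))
    (hμv : ∀ v : HeightOneSpectrum (𝓞 K), H305.IsLocHaar305 (m v) (μv v)) :
    letI : ∀ v : HeightOneSpectrum (𝓞 K),
        MeasurableSpace (GL (Fin 2) (v.adicCompletion K)) := fun _ => borel _
    letI : MeasurableSpace (GL (Fin 2) ℂ) := borel _
    Measure.map (H305.compS305 S) (μ.restrict {y | H305.OutT305 S y})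
      = ENNReal.ofReal (haarConst53 μ μc m) •
        ((Measure.pi fun v : S => μv v.1).prod
          (Measure.pi fun _ : InfinitePlace K => μc)) := by
  letI iv : ∀ v : HeightOneSpectrum (𝓞 K),
      MeasurableSpace (GL (Fin 2) (v.adicCompletion K)) := fun _ => borel _
  letI ic : MeasurableSpace (GL (Fin 2) ℂ) := borel _
  haveI : BorelSpace (G K) := ⟨rfl⟩
  haveI : ∀ v : HeightOneSpectrum (𝓞 K), BorelSpace (GL (Fin 2) (v.adicCompletion K)) :=
    fun _ => ⟨rfl⟩
  haveI : BorelSpace (GL (Fin 2) ℂ) := ⟨rfl⟩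
  haveI : ∀ v : HeightOneSpectrum (𝓞 K), LocallyCompactSpace (GL (Fin 2) (v.adicCompletion K)) :=
    fun v => locallyCompact_GLv53 v
  haveI : ∀ v : HeightOneSpectrum (𝓞 K),
      SecondCountableTopology (GL (Fin 2) (v.adicCompletion K)) :=
    fun v => secondCountable_GLv53 v
  haveI : ∀ v : HeightOneSpectrum (𝓞 K), T2Space (GL (Fin 2) (v.adicCompletion K)) :=
    fun v => t2_GLv53 v
  haveI : LocallyCompactSpace (GL (Fin 2) ℂ) := locallyCompact_GLC53
  haveI : SecondCountableTopology (GL (Fin 2) ℂ) := secondCountable_GLC53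
  haveI : T2Space (GL (Fin 2) ℂ) := t2_GLC53
  haveI := hμ
  haveI := hμc
  haveI : ∀ v : S, (μv v.1).IsHaarMeasure := fun v => (hμv v.1).1
  haveI hsf : ∀ v : S, SigmaFinite (μv v.1) := fun v => inferInstance
  haveI hsfc : SigmaFinite μc := inferInstance
  haveI hmm : ∀ v : S, MeasurableMul (GL (Fin 2) ((v : HeightOneSpectrum (𝓞 K)).adicCompletion K)) :=
    fun v => inferInstance
  haveI hmmc : MeasurableMul (GL (Fin 2) ℂ) := inferInstance
  haveI hp1 : (Measure.pi fun v : S => μv v.1).IsHaarMeasure := inferInstance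
  haveI hp2 : (Measure.pi fun _ : InfinitePlace K => μc).IsHaarMeasure := inferInstance
  haveI hp3 : SigmaFinite (Measure.pi fun v : S => μv v.1) := inferInstance
  haveI hp4 : SigmaFinite (Measure.pi fun _ : InfinitePlace K => μc) := inferInstance
  haveI hp5 : ((Measure.pi fun v : S => μv v.1).prod
      (Measure.pi fun _ : InfinitePlace K => μc)).IsHaarMeasure := inferInstance
  have hsub : (outSub53 S : Set (G K)) ∩ (piS53 S) ⁻¹' (boxS53 S m) ⊆ bigBox53 K := by
    rw [outSub_inter_preimage53 T₀ S m hm hS]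
    exact setX_subset_bigBox53 m
  have hbox : ((Measure.pi fun v : S => μv v.1).prod
      (Measure.pi fun _ : InfinitePlace K => μc)) (boxS53 S m)
        = (μc ballC53) ^ Fintype.card (InfinitePlace K) := by
    unfold boxS53
    rw [Measure.prod_prod, Measure.pi_pi, Measure.pi_pi]
    have h1 : ∀ v : S, μv v.1 {g | T6.InU (m v.1) g} = 1 := fun v => (hμv v.1).2
    rw [Finset.prod_congr rfl (fun v _ => h1 v), Finset.prod_const_one, one_mul,
      Finset.prod_const, Finset.card_univ]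
  have h0 : ((Measure.pi fun v : S => μv v.1).prod
      (Measure.pi fun _ : InfinitePlace K => μc)) (boxS53 S m) ≠ 0 := by
    rw [hbox]
    exact pow_ne_zero _ (measure_ballC_ne_zero53 μc hμc)
  have h1 : ((Measure.pi fun v : S => μv v.1).prod
      (Measure.pi fun _ : InfinitePlace K => μc)) (boxS53 S m) ≠ ⊤ := by
    rw [hbox]
    exact ENNReal.pow_ne_top (measure_ballC_ne_top53 μc hμc)
  have key := map_restrict_eq_smul53 μ (outSub53 S) (isOpen_outSub53 S) (piS53 S)
    (continuous_piS53 S) (exists_section53 hcx S) (boxS53 S m) (isCompact_boxS53 S m)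
    (boxS_mem_nhds53 S m) (bigBox53 K) isCompact_bigBox53 hsub
    ((Measure.pi fun v : S => μv v.1).prod (Measure.pi fun _ : InfinitePlace K => μc))
    (boxS53 S m) (isCompact_boxS53 S m).isClosed.measurableSet h0 h1
  rw [outSub_inter_preimage53 T₀ S m hm hS, hbox] at key
  exact key

/-- **C2.7.4 `HaarSplitC305`, unconditional.** -/
theorem haarSplitC53 (K : Type) [Field K] [NumberField K] : H305.HaarSplitC305 K := by
  intro hcx μ hμ μc hμc T₀ m hm
  exact ⟨haarConst53 μ μc m, haarConst_pos53 μ hμ μc hμc T₀ m hm,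
    fun S hS μv hμv => haarSplit_main53 hcx μ hμ μc hμc T₀ S m hm hS μv hμv⟩

end Fermat.Agent.LT.T7.H53

end

end
-- ===== PACK-END LT/T7/H53/HaarSplit.lean

-- ===== PACK-BEGIN LT/T7/H53/ConvPureCore.lean
section




/-!
# Row LT, tower T7, leaf PT.1 `PT563.ConvPureC563` (helper53, SPARE): the core

OFF-MAIN.  `convPure_main53`: for a totally complex field `K`, Haar measures `μ` of `GL₂(𝔸_K)`
and `μc` of `GL₂(ℂ)`, levels `m` (zero outside `T₀`) and `T ⊇ T₀`:

    conv μ (pure305 T f₀ F₁) (pure305 T g₀ F₂) h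
      = haarConst53 μ μc m * pure305 T χ₀ (fun w => convInt μc (F₁ w) (F₂ w)) h

for bi-`U(m v)`-invariant components `f₀ v`, `g₀ v` with `T6.IsConv (U(m v)) (f₀ v) (g₀ v) (χ₀ v)`
(`v ∈ T`) and continuous components at infinity.  The constant is the constant of
`haarSplit_main53` (`H305.HaarSplitC305`).  Stated on the vocabulary of
`T7/H305/MatchSpec.lean`, `T5/Spec.lean`, `T6/Spec.lean` only.

Proof.  The first factor vanishes outside `Out_T = {y : y_v ∈ GL₂(𝒪_v), v ∉ T}`, a subgroup.  If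
`h ∉ Out_T` the integrand vanishes.  If `h ∈ Out_T` the integrand is `1_{Out_T} · (A ∘ π_T)`,
`A` the product of the local integrands; the image of `μ|_{Out_T}` under `π_T` is `c` times the
product of the local Haar measures (`vol U(m v) = 1`), Fubini, and the local integrals are the
finite convolutions (`integral_conv_of_isConv53`).
-/

set_option autoImplicit false
set_option linter.style.haveILetI false
set_option linter.unusedSectionVars false

open IsDedekindDomain NumberField WithZero Topology MeasureTheory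
open Fermat.Agent.LT.H556.A0

noncomputable section

namespace Fermat.Agent.LT.T7.H53

open Fermat.Agent.LT Fermat.Agent.LT.T7

attribute [local instance] Fermat.Agent.LT.T5.instMeasurableSpaceG

variable {K : Type} [Field K] [NumberField K]

/-! ## 1. The pure tensors on `Out_T` -/

theorem outT_mul53 {T : Finset (HeightOneSpectrum (𝓞 K))} {a b : G K}
    (ha : H305.OutT305 T a) (hb : H305.OutT305 T b) : H305.OutT305 T (a * b) :=
  (outSub53 T).mul_mem ha hb

theorem outT_inv53 {T : Finset (HeightOneSpectrum (𝓞 K))} {a : G K}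
    (ha : H305.OutT305 T a) : H305.OutT305 T a⁻¹ :=
  (outSub53 T).inv_mem ha

theorem outT_inv_mul_iff53 {T : Finset (HeightOneSpectrum (𝓞 K))} {y h : G K}
    (hy : H305.OutT305 T y) : H305.OutT305 T (y⁻¹ * h) ↔ H305.OutT305 T h := by
  constructor
  · intro hh
    have := outT_mul53 hy hh
    rwa [mul_inv_cancel_left] at this
  · intro hh
    exact outT_mul53 (outT_inv53 hy) hh

/-- The local integrand on the product. -/
def convA53 (T : Finset (HeightOneSpectrum (𝓞 K)))
    (f₀ g₀ : ∀ v : HeightOneSpectrum (𝓞 K), GL (Fin 2) (v.adicCompletion K) → ℂ)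
    (F₁ F₂ : InfinitePlace K → GL (Fin 2) ℂ → ℂ) (h : G K)
    (z : (∀ v : T, GL (Fin 2) ((v : HeightOneSpectrum (𝓞 K)).adicCompletion K)) ×
      (InfinitePlace K → GL (Fin 2) ℂ)) : ℂ :=
  (∏ v : T, f₀ v.1 (z.1 v) * g₀ v.1 ((z.1 v)⁻¹ * H305.finGL305 v.1 h))
    * ∏ w : InfinitePlace K, F₁ w (z.2 w) * F₂ w ((z.2 w)⁻¹ * H305.infGL305 w h)

theorem pure_mul_pure53 (T : Finset (HeightOneSpectrum (𝓞 K)))
    (f₀ g₀ : ∀ v : HeightOneSpectrum (𝓞 K), GL (Fin 2) (v.adicCompletion K) → ℂ)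
    (F₁ F₂ : InfinitePlace K → GL (Fin 2) ℂ → ℂ) (h : G K) (hh : H305.OutT305 T h) (y : G K) :
    H305.pure305 T f₀ F₁ y * H305.pure305 T g₀ F₂ (y⁻¹ * h)
      = Set.indicator {y : G K | H305.OutT305 T y}
          (fun y => convA53 T f₀ g₀ F₁ F₂ h (H305.compS305 T y)) y := by
  classical
  by_cases hy : H305.OutT305 T y
  · rw [Set.indicator_of_mem (show y ∈ {y : G K | H305.OutT305 T y} from hy)]
    have hyh : H305.OutT305 T (y⁻¹ * h) := (outT_inv_mul_iff53 hy).2 hh
    unfold H305.pure305 convA53 H305.compS305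
    rw [if_pos hy, if_pos hyh]
    simp only [map_mul, map_inv]
    rw [Finset.prod_mul_distrib, Finset.prod_mul_distrib]
    rw [Finset.prod_coe_sort T (fun v => f₀ v (H305.finGL305 v y)),
      Finset.prod_coe_sort T
        (fun v => g₀ v ((H305.finGL305 v y)⁻¹ * H305.finGL305 v h))]
    ring
  · rw [Set.indicator_of_notMem (show y ∉ {y : G K | H305.OutT305 T y} from hy)]
    unfold H305.pure305
    rw [if_neg hy, zero_mul]

theorem pure_mul_pure_zero53 (T : Finset (HeightOneSpectrum (𝓞 K)))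
    (f₀ g₀ : ∀ v : HeightOneSpectrum (𝓞 K), GL (Fin 2) (v.adicCompletion K) → ℂ)
    (F₁ F₂ : InfinitePlace K → GL (Fin 2) ℂ → ℂ) (h : G K) (hh : ¬ H305.OutT305 T h) (y : G K) :
    H305.pure305 T f₀ F₁ y * H305.pure305 T g₀ F₂ (y⁻¹ * h) = 0 := by
  classical
  by_cases hy : H305.OutT305 T y
  · have hyh : ¬ H305.OutT305 T (y⁻¹ * h) := fun hc => hh ((outT_inv_mul_iff53 hy).1 hc)
    unfold H305.pure305
    rw [if_neg hyh, mul_zero]
  · unfold H305.pure305
    rw [if_neg hy, zero_mul]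

/-! ## 2. Measurability -/

theorem measurable_convA53 (T : Finset (HeightOneSpectrum (𝓞 K)))
    (f₀ g₀ : ∀ v : HeightOneSpectrum (𝓞 K), GL (Fin 2) (v.adicCompletion K) → ℂ)
    (F₁ F₂ : InfinitePlace K → GL (Fin 2) ℂ → ℂ) (h : G K)
    (hf : ∀ v ∈ T, Continuous (f₀ v)) (hg : ∀ v ∈ T, Continuous (g₀ v))
    (hF₁ : ∀ w : InfinitePlace K, Continuous (F₁ w))
    (hF₂ : ∀ w : InfinitePlace K, Continuous (F₂ w)) :
    letI : ∀ v : HeightOneSpectrum (𝓞 K),
        MeasurableSpace (GL (Fin 2) (v.adicCompletion K)) := fun _ => borel _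
    letI : MeasurableSpace (GL (Fin 2) ℂ) := borel _
    Measurable (convA53 T f₀ g₀ F₁ F₂ h) := by
  letI iv : ∀ v : HeightOneSpectrum (𝓞 K),
      MeasurableSpace (GL (Fin 2) (v.adicCompletion K)) := fun _ => borel _
  letI ic : MeasurableSpace (GL (Fin 2) ℂ) := borel _
  haveI : ∀ v : HeightOneSpectrum (𝓞 K), BorelSpace (GL (Fin 2) (v.adicCompletion K)) :=
    fun _ => ⟨rfl⟩
  haveI : BorelSpace (GL (Fin 2) ℂ) := ⟨rfl⟩
  unfold convA53
  refine Measurable.mul ?_ ?_
  · refine Finset.measurable_prod _ fun v _ => ?_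
    have h1 : Continuous fun y : GL (Fin 2) ((v : HeightOneSpectrum (𝓞 K)).adicCompletion K) =>
        f₀ v.1 y * g₀ v.1 (y⁻¹ * H305.finGL305 v.1 h) :=
      (hf v.1 v.2).mul ((hg v.1 v.2).comp (continuous_inv.mul continuous_const))
    exact h1.measurable.comp ((measurable_pi_apply v).comp measurable_fst)
  · refine Finset.measurable_prod _ fun w _ => ?_
    have h1 : Continuous fun y : GL (Fin 2) ℂ =>
        F₁ w y * F₂ w (y⁻¹ * H305.infGL305 w h) :=
      (hF₁ w).mul ((hF₂ w).comp (continuous_inv.mul continuous_const))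
    exact h1.measurable.comp ((measurable_pi_apply w).comp measurable_snd)

theorem measurable_compS53 (T : Finset (HeightOneSpectrum (𝓞 K))) :
    letI : ∀ v : HeightOneSpectrum (𝓞 K),
        MeasurableSpace (GL (Fin 2) (v.adicCompletion K)) := fun _ => borel _
    letI : MeasurableSpace (GL (Fin 2) ℂ) := borel _
    Measurable (H305.compS305 (K := K) T) := by
  letI iv : ∀ v : HeightOneSpectrum (𝓞 K),
      MeasurableSpace (GL (Fin 2) (v.adicCompletion K)) := fun _ => borel _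
  letI ic : MeasurableSpace (GL (Fin 2) ℂ) := borel _
  haveI : BorelSpace (G K) := ⟨rfl⟩
  haveI : ∀ v : HeightOneSpectrum (𝓞 K), BorelSpace (GL (Fin 2) (v.adicCompletion K)) :=
    fun _ => ⟨rfl⟩
  haveI : BorelSpace (GL (Fin 2) ℂ) := ⟨rfl⟩
  unfold H305.compS305
  exact Measurable.prodMk (measurable_pi_lambda _ fun v => (continuous_finGL53 v.1).measurable)
    (measurable_pi_lambda _ fun w => (continuous_infGL53 w).measurable)

/-! ## 3. The main theorem -/

/-- **PT.1, core form.** -/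
theorem convPure_main53 (hcx : TotCplx K) (μ : Measure (G K)) (hμ : μ.IsHaarMeasure)
    (μc : @Measure (GL (Fin 2) ℂ) (borel _))
    (hμc : @Measure.IsHaarMeasure _ _ _ (borel _) μc)
    (T₀ T : Finset (HeightOneSpectrum (𝓞 K))) (m : HeightOneSpectrum (𝓞 K) → ℕ)
    (hm : ∀ v : HeightOneSpectrum (𝓞 K), v ∉ T₀ → m v = 0) (hT : T₀ ⊆ T)
    (f₀ g₀ χ₀ : ∀ v : HeightOneSpectrum (𝓞 K), GL (Fin 2) (v.adicCompletion K) → ℂ)
    (F₁ F₂ : InfinitePlace K → GL (Fin 2) ℂ → ℂ)
    (hf : ∀ v ∈ T, T6.IsBiInv (T6.InU (m v)) (f₀ v))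
    (hg : ∀ v ∈ T, T6.IsBiInv (T6.InU (m v)) (g₀ v))
    (hχ : ∀ v ∈ T, T6.IsConv (T6.InU (m v)) (f₀ v) (g₀ v) (χ₀ v))
    (hF₁ : ∀ w : InfinitePlace K, Continuous (F₁ w))
    (hF₂ : ∀ w : InfinitePlace K, Continuous (F₂ w)) (h : G K) :
    T5.conv μ (H305.pure305 T f₀ F₁) (H305.pure305 T g₀ F₂) h
      = (haarConst53 μ μc m : ℂ)
        * H305.pure305 T χ₀ (fun w => @T6.convInt _ _ (borel _) μc (F₁ w) (F₂ w)) h := by
  classical
  unfold T5.conv
  by_cases hh : H305.OutT305 T h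
  swap
  · rw [show H305.pure305 T χ₀ (fun w => @T6.convInt _ _ (borel _) μc (F₁ w) (F₂ w)) h = 0 from by
      unfold H305.pure305
      rw [if_neg hh], mul_zero]
    rw [integral_congr_ae (Filter.Eventually.of_forall
      (pure_mul_pure_zero53 T f₀ g₀ F₁ F₂ h hh))]
    exact integral_zero _ _
  letI iv : ∀ v : HeightOneSpectrum (𝓞 K),
      MeasurableSpace (GL (Fin 2) (v.adicCompletion K)) := fun _ => borel _
  letI ic : MeasurableSpace (GL (Fin 2) ℂ) := borel _
  haveI : BorelSpace (G K) := ⟨rfl⟩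
  haveI : ∀ v : HeightOneSpectrum (𝓞 K), BorelSpace (GL (Fin 2) (v.adicCompletion K)) :=
    fun _ => ⟨rfl⟩
  haveI : BorelSpace (GL (Fin 2) ℂ) := ⟨rfl⟩
  haveI : ∀ v : HeightOneSpectrum (𝓞 K), LocallyCompactSpace (GL (Fin 2) (v.adicCompletion K)) :=
    fun v => locallyCompact_GLv53 v
  haveI : ∀ v : HeightOneSpectrum (𝓞 K),
      SecondCountableTopology (GL (Fin 2) (v.adicCompletion K)) :=
    fun v => secondCountable_GLv53 v
  haveI : ∀ v : HeightOneSpectrum (𝓞 K), T2Space (GL (Fin 2) (v.adicCompletion K)) :=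
    fun v => t2_GLv53 v
  haveI : LocallyCompactSpace (GL (Fin 2) ℂ) := locallyCompact_GLC53
  haveI : SecondCountableTopology (GL (Fin 2) ℂ) := secondCountable_GLC53
  haveI : T2Space (GL (Fin 2) ℂ) := t2_GLC53
  haveI := hμ
  haveI := hμc
  -- the local Haar measures
  choose μv hμv using fun v : HeightOneSpectrum (𝓞 K) => exists_locHaar53 v (m v)
  haveI : ∀ v : HeightOneSpectrum (𝓞 K), (μv v).IsHaarMeasure := fun v => (hμv v).1
  haveI : ∀ v : T, (μv v.1).IsHaarMeasure := fun v => (hμv v.1).1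
  haveI hsf : ∀ v : T, SigmaFinite (μv v.1) := fun v => inferInstance
  haveI hsfc : SigmaFinite μc := inferInstance
  haveI hp3 : SigmaFinite (Measure.pi fun v : T => μv v.1) := inferInstance
  haveI hp4 : SigmaFinite (Measure.pi fun _ : InfinitePlace K => μc) := inferInstance
  have hsplit := haarSplit_main53 hcx μ hμ μc hμc T₀ T m hm hT μv hμv
  have hc0 : 0 ≤ haarConst53 μ μc m := (haarConst_pos53 μ hμ μc hμc T₀ m hm).le
  -- continuity of the components
  have hfc : ∀ v ∈ T, Continuous (f₀ v) := fun v hv => continuous_of_isBiInv53 v (m v) _ (hf v hv)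
  have hgc : ∀ v ∈ T, Continuous (g₀ v) := fun v hv => continuous_of_isBiInv53 v (m v) _ (hg v hv)
  have hAm : Measurable (convA53 T f₀ g₀ F₁ F₂ h) :=
    measurable_convA53 T f₀ g₀ F₁ F₂ h hfc hgc hF₁ hF₂
  have hOm : MeasurableSet {y : G K | H305.OutT305 T y} := by
    rw [← coe_outSub53]
    exact (isOpen_outSub53 T).measurableSet
  -- Step A + B
  rw [integral_congr_ae (Filter.Eventually.of_forall (pure_mul_pure53 T f₀ g₀ F₁ F₂ h hh))]
  rw [integral_indicator hOm]
  rw [← integral_map (measurable_compS53 T).aemeasurable hAm.aestronglyMeasurable]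
  rw [hsplit, integral_smul_measure, ENNReal.toReal_ofReal hc0]
  -- Step C: Fubini
  have hfub : ∫ z, convA53 T f₀ g₀ F₁ F₂ h z
        ∂((Measure.pi fun v : T => μv v.1).prod (Measure.pi fun _ : InfinitePlace K => μc))
      = (∏ v : T, ∫ y, f₀ v.1 y * g₀ v.1 (y⁻¹ * H305.finGL305 v.1 h) ∂(μv v.1))
        * ∏ w : InfinitePlace K, ∫ y, F₁ w y * F₂ w (y⁻¹ * H305.infGL305 w h) ∂μc := by
    unfold convA53
    rw [integral_prod_mul
      (μ := Measure.pi fun v : T => μv v.1) (ν := Measure.pi fun _ : InfinitePlace K => μc)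
      (fun a : (∀ v : T, GL (Fin 2) ((v : HeightOneSpectrum (𝓞 K)).adicCompletion K)) =>
        ∏ v : T, f₀ v.1 (a v) * g₀ v.1 ((a v)⁻¹ * H305.finGL305 v.1 h))
      (fun b : InfinitePlace K → GL (Fin 2) ℂ =>
        ∏ w : InfinitePlace K, F₁ w (b w) * F₂ w ((b w)⁻¹ * H305.infGL305 w h))]
    rw [integral_fintype_prod_eq_prod
      (fun (v : T) (y : GL (Fin 2) ((v : HeightOneSpectrum (𝓞 K)).adicCompletion K)) =>
        f₀ v.1 y * g₀ v.1 (y⁻¹ * H305.finGL305 v.1 h)),
      integral_fintype_prod_eq_prod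
      (fun (w : InfinitePlace K) (y : GL (Fin 2) ℂ) =>
        F₁ w y * F₂ w (y⁻¹ * H305.infGL305 w h))]
  rw [hfub]
  -- Step D: the local integrals
  have hloc : ∀ v : T, ∫ y, f₀ v.1 y * g₀ v.1 (y⁻¹ * H305.finGL305 v.1 h) ∂(μv v.1)
      = χ₀ v.1 (H305.finGL305 v.1 h) := by
    intro v
    exact integral_conv_of_isConv53 (μv v.1) (T6.InU (m v.1)) (inU_one'53 (m v.1))
      (fun a b ha hb => inU_mul53 ha hb) (fun a ha => inU_inv53 ha)
      (isOpen_inU53 v.1 (m v.1)).measurableSet (hμv v.1).2 (f₀ v.1) (g₀ v.1) (χ₀ v.1)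
      (hf v.1 v.2) (hg v.1 v.2) (hχ v.1 v.2) _
  rw [Finset.prod_congr rfl (fun v _ => hloc v)]
  unfold H305.pure305
  rw [if_pos hh, Finset.prod_coe_sort T (fun v => χ₀ v (H305.finGL305 v h))]
  rfl

end Fermat.Agent.LT.T7.H53

end

end
-- ===== PACK-END LT/T7/H53/ConvPureCore.lean

-- ===== PACK-BEGIN LT/T3/Push/AbelConv.lean
section




/-!
# Row LT, tower T3, station T3.19 (architect helper14): THE ABEL TRANSFORM OF A CONVOLUTION
# (complex place, vocabulary of tower T3)

OFF-MAIN.  Complete proofs, nothing assumed.  ADDITIVE (new names only, namespace `T3.Push`).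

    abelConvM_of : T6.H680.AbelConvCC680 → T6.H680.ConvTestCC680 → AbelConvMC

`AbelConvMC`: for every Haar measure `μc` of `GL₂(ℂ)` there is `κ ≠ 0` such that for smooth test
functions `F`, `G` of tower T3 (`IsCplxTest`, `IsCplxSmooth`) with `HasAbelN F β`, `HasAbelN G γ`:
`T6.convInt μc F G` is a smooth test function and

    HasAbelN (T6.convInt μc F G) (κ · convE β γ).

So the iterated convolutions `H305.convL305 μc Φ j` of the matched archimedean components have
the Abel transforms `κ^j · convLE β j` (`Push/AbelConvClosed.lean`): the infinite local factors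
of the pushed family of `pushTel` / `ekPushM`.

Proof.  The two leaves of helper680 (station T6.20x, closed) are stated in the coordinates
`b(ζ, r, w) = e^{ζ/2} [[e^{r/2}, e^{r/2} w], [0, e^{-r/2}]]`:
`N(φ)(ζ, r) = ∫ φ(b(ζ, r, w)) dw`.  For a bi-`U(2)`-invariant `F`:

    HasAbelN F β  ⟺  N(F)(ζ, r) = e^{-r} β((ζ + r)/2, (ζ - r)/2)   for all ζ, r

(`y = e^{(ζ+r)/2} w`; the rotation of `ℂ` by `c₁ / |c₁|`).  The character `e^{-r}` is
multiplicative, and `u ↦ ((ζ + r)/2, (ζ - r)/2)` is a linear automorphism of `ℝ²`, which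
multiplies the Lebesgue measure by a constant `c > 0`: `κ = κ₆₈₀ c`.
-/

set_option autoImplicit false
set_option linter.style.haveILetI false
set_option linter.unusedVariables false

open MeasureTheory

noncomputable section

namespace Fermat.Agent.LT.T3.Push

open Fermat.Agent.LT.T3.AS Fermat.Agent.LT.T6 Fermat.Agent.LT.T6.H680

/-! ## 1. Test functions of T6 and of T3 -/

/-- An archimedean test function of tower T6 on `GL₂(ℂ)` is a smooth test function of tower
T3. -/
theorem isCplxTest_of_arch {φ : GL (Fin 2) ℂ → ℂ} (h : IsArchTestC φ) :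
    IsCplxTest φ ∧ IsCplxSmooth φ := by
  refine ⟨⟨h.cont, h.supp, fun k k' g hk hk' => ?_⟩, fun n f hf => ?_⟩
  · rw [h.right k' (k * g) hk', h.left k g hk]
  · have := h.smooth n f hf 1
    simpa using this

/-! ## 2. The two coordinates of the `N`-integral -/

/-- The linear automorphism `(ζ, r) ↦ ((ζ + r)/2, (ζ - r)/2)` of `ℝ²`. -/
def halfL : (ℝ × ℝ) ≃ₗ[ℝ] (ℝ × ℝ) where
  toFun u := ((u.1 + u.2) / 2, (u.1 - u.2) / 2)
  map_add' u v := by
    ext
    · show (u.1 + v.1 + (u.2 + v.2)) / 2 = (u.1 + u.2) / 2 + (v.1 + v.2) / 2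
      ring
    · show (u.1 + v.1 - (u.2 + v.2)) / 2 = (u.1 - u.2) / 2 + (v.1 - v.2) / 2
      ring
  map_smul' c u := by
    ext
    · show (c * u.1 + c * u.2) / 2 = c * ((u.1 + u.2) / 2)
      ring
    · show (c * u.1 - c * u.2) / 2 = c * ((u.1 - u.2) / 2)
      ring
  invFun y := (y.1 + y.2, y.1 - y.2)
  left_inv u := by
    ext
    · show (u.1 + u.2) / 2 + (u.1 - u.2) / 2 = u.1
      ring
    · show (u.1 + u.2) / 2 - (u.1 - u.2) / 2 = u.2
      ring
  right_inv y := by
    ext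
    · show (y.1 + y.2 + (y.1 - y.2)) / 2 = y.1
      ring
    · show (y.1 + y.2 - (y.1 - y.2)) / 2 = y.2
      ring

theorem halfL_apply (u : ℝ × ℝ) : halfL u = ((u.1 + u.2) / 2, (u.1 - u.2) / 2) := rfl

/-- A linear automorphism of `ℝ²` multiplies the Lebesgue integral by a positive constant. -/
theorem exists_const_halfL :
    ∃ c : ℝ, 0 < c ∧ ∀ h : ℝ × ℝ → ℂ,
      ∫ u : ℝ × ℝ, h (halfL u) = (c : ℂ) * ∫ y : ℝ × ℝ, h y := by
  have hdet : LinearMap.det (halfL : (ℝ × ℝ) →ₗ[ℝ] (ℝ × ℝ)) ≠ 0 :=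
    (LinearEquiv.isUnit_det' halfL).ne_zero
  have hmap := Measure.map_linearMap_addHaar_eq_smul_addHaar (volume : Measure (ℝ × ℝ)) hdet
  refine ⟨|(LinearMap.det (halfL : (ℝ × ℝ) →ₗ[ℝ] (ℝ × ℝ)))⁻¹|,
    abs_pos.2 (inv_ne_zero hdet), fun h => ?_⟩
  let e : (ℝ × ℝ) ≃ᵐ (ℝ × ℝ) := (halfL.toContinuousLinearEquiv).toHomeomorph.toMeasurableEquiv
  have h1 : ∫ u : ℝ × ℝ, h (halfL u) = ∫ y, h y ∂(Measure.map e volume) :=
    (integral_map_equiv e h).symm
  have h2 : Measure.map e (volume : Measure (ℝ × ℝ))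
      = Measure.map (halfL : (ℝ × ℝ) →ₗ[ℝ] (ℝ × ℝ)) volume := rfl
  rw [h1, h2, hmap, integral_smul_measure, ENNReal.toReal_ofReal (abs_nonneg _)]
  rw [Complex.real_smul]

/-- The upper triangular element `b(ζ, r, w)` of tower T6 in the coordinates of tower T3. -/
theorem bC_eq_upperGL (ζ r : ℝ) (w : ℂ) (c₁ c₂ : ℂˣ)
    (h1 : (c₁ : ℂ) = ((Real.exp ((ζ + r) / 2) : ℝ) : ℂ))
    (h2 : (c₂ : ℂ) = ((Real.exp ((ζ - r) / 2) : ℝ) : ℂ)) :
    H830.bC ζ r w = upperGL c₁ c₂ ((Real.exp ((ζ + r) / 2) : ℝ) • w) := by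
  apply Units.ext
  show (!![((Real.exp ((ζ + r) / 2) : ℝ) : ℂ), ((Real.exp ((ζ + r) / 2) : ℝ) : ℂ) * w;
      0, ((Real.exp ((ζ - r) / 2) : ℝ) : ℂ)] : Matrix (Fin 2) (Fin 2) ℂ)
    = !![(c₁ : ℂ), (Real.exp ((ζ + r) / 2) : ℝ) • w; 0, (c₂ : ℂ)]
  rw [h1, h2, Complex.real_smul]

/-- The `N`-integral of tower T6 in terms of the `N`-integral of tower T3. -/
theorem nIntC_eq (F : GL (Fin 2) ℂ → ℂ) (ζ r : ℝ) (c₁ c₂ : ℂˣ)
    (h1 : (c₁ : ℂ) = ((Real.exp ((ζ + r) / 2) : ℝ) : ℂ))
    (h2 : (c₂ : ℂ) = ((Real.exp ((ζ - r) / 2) : ℝ) : ℂ)) :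
    nIntC680 F (ζ, r)
      = ((Real.exp (-(ζ + r)) : ℝ) : ℂ) * ∫ x : ℂ, F (upperGL c₁ c₂ x) := by
  unfold nIntC680
  have e : (fun w : ℂ => F (H830.bC ζ r w))
      = fun w : ℂ => F (upperGL c₁ c₂ ((Real.exp ((ζ + r) / 2) : ℝ) • w)) := by
    funext w
    rw [bC_eq_upperGL ζ r w c₁ c₂ h1 h2]
  show ∫ w : ℂ, F (H830.bC ζ r w) = _
  rw [e, Measure.integral_comp_smul (volume : Measure ℂ) (fun z : ℂ => F (upperGL c₁ c₂ z))
    (Real.exp ((ζ + r) / 2)), Complex.finrank_real_complex, Complex.real_smul]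
  congr 2
  rw [abs_of_pos (inv_pos.2 (pow_pos (Real.exp_pos _) 2)), ← Real.exp_nat_mul, ← Real.exp_neg]
  congr 1
  push_cast
  ring

/-- `HasAbelN F β` in the coordinates of tower T6. -/
theorem nIntC_of_hasAbelN {F : GL (Fin 2) ℂ → ℂ} {β : ℝ × ℝ → ℂ} (hF : HasAbelN F β)
    (u : ℝ × ℝ) :
    nIntC680 F u = ((Real.exp (-u.2) : ℝ) : ℂ) * β (halfL u) := by
  obtain ⟨ζ, r⟩ := u
  have ha : ((Real.exp ((ζ + r) / 2) : ℝ) : ℂ) ≠ 0 :=
    Complex.ofReal_ne_zero.2 (Real.exp_ne_zero _)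
  have hb : ((Real.exp ((ζ - r) / 2) : ℝ) : ℂ) ≠ 0 :=
    Complex.ofReal_ne_zero.2 (Real.exp_ne_zero _)
  have hN := hF (Units.mk0 _ ha) (Units.mk0 _ hb)
  have hna : ‖((Units.mk0 _ ha : ℂˣ) : ℂ)‖ = Real.exp ((ζ + r) / 2) := by
    show ‖((Real.exp ((ζ + r) / 2) : ℝ) : ℂ)‖ = _
    rw [Complex.norm_real, Real.norm_of_nonneg (Real.exp_pos _).le]
  have hnb : ‖((Units.mk0 _ hb : ℂˣ) : ℂ)‖ = Real.exp ((ζ - r) / 2) := by
    show ‖((Real.exp ((ζ - r) / 2) : ℝ) : ℂ)‖ = _
    rw [Complex.norm_real, Real.norm_of_nonneg (Real.exp_pos _).le]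
  rw [hna, hnb, Real.log_exp, Real.log_exp] at hN
  rw [nIntC_eq F ζ r (Units.mk0 _ ha) (Units.mk0 _ hb) rfl rfl, hN, halfL_apply, ← mul_assoc]
  congr 1
  rw [← Complex.ofReal_mul, ← Real.exp_add, ← Real.exp_add]
  congr 2
  ring

/-- The diagonal unitary element. -/
theorem inU2_diag (u₁ u₂ : ℂˣ) (h1 : ‖(u₁ : ℂ)‖ = 1) (h2 : ‖(u₂ : ℂ)‖ = 1) :
    InU2 (upperGL u₁ u₂ 0) := by
  unfold InU2
  have e1 : (u₁ : ℂ) * (starRingEnd ℂ) (u₁ : ℂ) = 1 := by
    rw [Complex.mul_conj, Complex.normSq_eq_norm_sq, h1]; simp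
  have e2 : (u₂ : ℂ) * (starRingEnd ℂ) (u₂ : ℂ) = 1 := by
    rw [Complex.mul_conj, Complex.normSq_eq_norm_sq, h2]; simp
  show (!![(u₁ : ℂ), 0; 0, (u₂ : ℂ)] : Matrix (Fin 2) (Fin 2) ℂ)
    * (!![(u₁ : ℂ), 0; 0, (u₂ : ℂ)] : Matrix (Fin 2) (Fin 2) ℂ).conjTranspose = 1
  ext i j
  fin_cases i <;> fin_cases j <;>
    simp [Matrix.mul_apply, Fin.sum_univ_two, Matrix.conjTranspose_apply, e1, e2]

theorem upperGL_mul_diag (u₁ u₂ a b : ℂˣ) (y : ℂ) :
    upperGL u₁ u₂ 0 * upperGL a b y = upperGL (u₁ * a) (u₂ * b) ((u₁ : ℂ) * y) := by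
  apply Units.ext
  show (!![(u₁ : ℂ), 0; 0, (u₂ : ℂ)] : Matrix (Fin 2) (Fin 2) ℂ) * !![(a : ℂ), y; 0, (b : ℂ)]
    = !![((u₁ * a : ℂˣ) : ℂ), (u₁ : ℂ) * y; 0, ((u₂ * b : ℂˣ) : ℂ)]
  ext i j
  fin_cases i <;> fin_cases j <;> simp [Matrix.mul_apply, Fin.sum_univ_two]

/-- The rotations of `ℂ` preserve the Lebesgue integral. -/
theorem integral_rot (g : ℂ → ℂ) (u : ℂ) (hu : ‖u‖ = 1) :
    ∫ x : ℂ, g (u * x) = ∫ x : ℂ, g x := by
  have hc : u ∈ Submonoid.unitSphere ℂ := by
    rw [Submonoid.unitSphere, Submonoid.mem_mk, Subsemigroup.mem_mk, mem_sphere_zero_iff_norm]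
    exact hu
  obtain ⟨a, ha⟩ : ∃ a : Circle, (a : ℂ) = u :=
    ⟨(⟨u, hc⟩ : Submonoid.unitSphere ℂ), rfl⟩
  have h := (rotation a).measurePreserving.integral_comp
    (rotation a).toHomeomorph.measurableEmbedding g
  have e : (fun x : ℂ => g (u * x)) = fun x : ℂ => g ((rotation a) x) := by
    funext x
    rw [rotation_apply, ha]
  rw [e]
  exact h

/-- `HasAbelN` from the coordinates of tower T6, for a left `U(2)`-invariant function. -/
theorem hasAbelN_of_nIntC {F : GL (Fin 2) ℂ → ℂ} {β : ℝ × ℝ → ℂ}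
    (hl : ∀ k g : GL (Fin 2) ℂ, InU2 k → F (k * g) = F g)
    (hN : ∀ u : ℝ × ℝ, nIntC680 F u = ((Real.exp (-u.2) : ℝ) : ℂ) * β (halfL u)) :
    HasAbelN F β := by
  intro c₁ c₂
  have hc1 : (0 : ℝ) < ‖(c₁ : ℂ)‖ := norm_pos_iff.2 c₁.ne_zero
  have hc2 : (0 : ℝ) < ‖(c₂ : ℂ)‖ := norm_pos_iff.2 c₂.ne_zero
  set a : ℝ := ‖(c₁ : ℂ)‖ with ha
  set b : ℝ := ‖(c₂ : ℂ)‖ with hb
  have ha0 : ((a : ℝ) : ℂ) ≠ 0 := Complex.ofReal_ne_zero.2 hc1.ne'
  have hb0 : ((b : ℝ) : ℂ) ≠ 0 := Complex.ofReal_ne_zero.2 hc2.ne'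
  -- the polar decomposition of `c₁`, `c₂`
  let A : ℂˣ := Units.mk0 _ ha0
  let B : ℂˣ := Units.mk0 _ hb0
  let u₁ : ℂˣ := c₁ * A⁻¹
  let u₂ : ℂˣ := c₂ * B⁻¹
  have hu1 : ‖(u₁ : ℂ)‖ = 1 := by
    show ‖(c₁ : ℂ) * ((A⁻¹ : ℂˣ) : ℂ)‖ = 1
    rw [Units.val_inv_eq_inv_val, norm_mul, norm_inv]
    show ‖(c₁ : ℂ)‖ * ‖((a : ℝ) : ℂ)‖⁻¹ = 1
    rw [Complex.norm_real, Real.norm_of_nonneg hc1.le]
    exact mul_inv_cancel₀ hc1.ne'
  have hu2 : ‖(u₂ : ℂ)‖ = 1 := by
    show ‖(c₂ : ℂ) * ((B⁻¹ : ℂˣ) : ℂ)‖ = 1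
    rw [Units.val_inv_eq_inv_val, norm_mul, norm_inv]
    show ‖(c₂ : ℂ)‖ * ‖((b : ℝ) : ℂ)‖⁻¹ = 1
    rw [Complex.norm_real, Real.norm_of_nonneg hc2.le]
    exact mul_inv_cancel₀ hc2.ne'
  have hc1' : u₁ * A = c₁ := by simp [u₁]
  have hc2' : u₂ * B = c₂ := by simp [u₂]
  -- left invariance
  have e1 : ∀ x : ℂ, F (upperGL c₁ c₂ ((u₁ : ℂ) * x)) = F (upperGL A B x) := by
    intro x
    rw [← hl (upperGL u₁ u₂ 0) (upperGL A B x) (inU2_diag u₁ u₂ hu1 hu2),
      upperGL_mul_diag, hc1', hc2']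
  have e2 : ∫ x : ℂ, F (upperGL c₁ c₂ x) = ∫ x : ℂ, F (upperGL A B x) := by
    rw [← integral_rot (fun x => F (upperGL c₁ c₂ x)) (u₁ : ℂ) hu1]
    exact integral_congr_ae (Filter.Eventually.of_forall e1)
  -- the coordinates
  set ζ : ℝ := Real.log a + Real.log b with hζ
  set r : ℝ := Real.log a - Real.log b with hr
  have h1 : (ζ + r) / 2 = Real.log a := by rw [hζ, hr]; ring
  have h2 : (ζ - r) / 2 = Real.log b := by rw [hζ, hr]; ring
  have hA : (A : ℂ) = ((Real.exp ((ζ + r) / 2) : ℝ) : ℂ) := by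
    rw [h1, Real.exp_log hc1]
    rfl
  have hB : (B : ℂ) = ((Real.exp ((ζ - r) / 2) : ℝ) : ℂ) := by
    rw [h2, Real.exp_log hc2]
    rfl
  have h3 := nIntC_eq F ζ r A B hA hB
  rw [hN (ζ, r), halfL_apply] at h3
  simp only [h1, h2] at h3
  rw [e2]
  have hexp : ((Real.exp (-(ζ + r)) : ℝ) : ℂ) ≠ 0 :=
    Complex.ofReal_ne_zero.2 (Real.exp_ne_zero _)
  have h4 : ∫ x : ℂ, F (upperGL A B x)
      = (((Real.exp (-(ζ + r)) : ℝ) : ℂ))⁻¹ * (((Real.exp (-r) : ℝ) : ℂ)
          * β (Real.log a, Real.log b)) := by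
    rw [h3]
    field_simp
  rw [h4, ← mul_assoc]
  congr 1
  rw [← Complex.ofReal_inv, ← Complex.ofReal_mul, ← Real.exp_neg, ← Real.exp_add]
  congr 1
  have : -(-(ζ + r)) + -r = Real.log a + Real.log b := by rw [hζ, hr]; ring
  rw [this, Real.exp_add, Real.exp_log hc1, Real.exp_log hc2]

/-! ## 3. The Abel transform of a convolution -/

/-- **THE ABEL TRANSFORM OF A CONVOLUTION (complex place, T3 vocabulary).**  For every Haar
measure `μc` of `GL₂(ℂ)` there is `κ ≠ 0`: the convolution of two smooth test functions is a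
smooth test function, and its `N`-integral is `κ` times the convolution on `ℝ²` of the
`N`-integrals. -/
def AbelConvMC : Prop :=
  ∀ μc : @Measure (GL (Fin 2) ℂ) (borel _), @Measure.IsHaarMeasure _ _ _ (borel _) μc →
    ∃ κ : ℂ, κ ≠ 0 ∧
      ∀ (F G : GL (Fin 2) ℂ → ℂ) (β γ : ℝ × ℝ → ℂ),
        IsCplxTest F → IsCplxSmooth F → IsCplxTest G → IsCplxSmooth G →
        HasAbelN F β → HasAbelN G γ →
        IsCplxTest (@convInt _ _ (borel _) μc F G) ∧
          IsCplxSmooth (@convInt _ _ (borel _) μc F G) ∧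
          HasAbelN (@convInt _ _ (borel _) μc F G) (fun y => κ * convE β γ y)

/-- The Abel transform of a convolution from the two leaves of station T6.20x (helper680). -/
theorem abelConvM_of (h1 : AbelConvCC680) (h2 : ConvTestCC680) : AbelConvMC := by
  intro μc hμc
  obtain ⟨κ, hκ, hconv⟩ := h1 μc hμc
  obtain ⟨c, hc, hL⟩ := exists_const_halfL
  refine ⟨(κ : ℂ) * (c : ℂ), mul_ne_zero (Complex.ofReal_ne_zero.2 hκ.ne')
    (Complex.ofReal_ne_zero.2 hc.ne'), fun F G β γ hF hFs hG hGs hNF hNG => ?_⟩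
  have hF6 : IsArchTestC F := R.H134.isArchTestC_of134 hF hFs
  have hG6 : IsArchTestC G := R.H134.isArchTestC_of134 hG hGs
  have hT := h2 μc hμc F G hF6 hG6
  have hT3 := isCplxTest_of_arch hT
  refine ⟨hT3.1, hT3.2, ?_⟩
  refine hasAbelN_of_nIntC hT.left fun v => ?_
  have h3 := hconv F G hF6 hG6 v
  have e : (fun u : ℝ × ℝ => nIntC680 F u * nIntC680 G (v - u))
      = fun u : ℝ × ℝ => ((Real.exp (-v.2) : ℝ) : ℂ)
          * (fun y : ℝ × ℝ => β y * γ (halfL v - y)) (halfL u) := by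
    funext u
    rw [nIntC_of_hasAbelN hNF u, nIntC_of_hasAbelN hNG (v - u), map_sub]
    have : ((Real.exp (-v.2) : ℝ) : ℂ)
        = ((Real.exp (-u.2) : ℝ) : ℂ) * ((Real.exp (-(v - u).2) : ℝ) : ℂ) := by
      rw [← Complex.ofReal_mul, ← Real.exp_add]
      congr 2
      show -v.2 = -u.2 + -(v.2 - u.2)
      ring
    rw [this]
    ring
  have hL' := hL (fun y : ℝ × ℝ => β y * γ (halfL v - y))
  have h5 : ∫ u : ℝ × ℝ, nIntC680 F u * nIntC680 G (v - u)
      = ((Real.exp (-v.2) : ℝ) : ℂ) * ((c : ℂ) * ∫ y : ℝ × ℝ, β y * γ (halfL v - y)) := by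
    rw [e, integral_const_mul]
    congr 1
  show nIntC680 (convC680 μc F G) v = _
  rw [h3, h5]
  unfold convE
  ring

/-! ## Appendix: the equation lemmas of the definitions of this file are realised HERE -/

theorem eqns_realised_pushAbelConv : True := by
  have _a1 := @halfL.eq_1
  have _a2 := @AbelConvMC.eq_1
  trivial

end Fermat.Agent.LT.T3.Push

end

end
-- ===== PACK-END LT/T3/Push/AbelConv.lean

-- ===== PACK-BEGIN LT/T3/Push/AbelConvClosed.lean
section




/-!
# Row LT, tower T3, station T3.19 (architect helper14): THE ABEL TRANSFORM OF A CONVOLUTION,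
# CLOSED, AND OF THE ITERATED CONVOLUTIONS

OFF-MAIN.  Complete proofs, nothing assumed.  ADDITIVE (new names only, namespace `T3.Push`).

    abelConvM_c : AbelConvMC                                    (UNCONDITIONAL)
    abelConvL_c : AbelConvLC                                    (UNCONDITIONAL)

`abelConvM_c`: `Push/AbelConv.lean` with the two leaves of station T6.20x closed by helper323
(`T6/H323/AbelConvC.lean`, `T6/H323/Conv/TestC.lean`; vendored byte-identical).

`AbelConvLC`: for every Haar measure `μc` of `GL₂(ℂ)` there is `κ ≠ 0` such that for every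
sequence `Φ j` of smooth test functions of tower T3 with `HasAbelN (Φ j) (β j)`: the left nested
iterated convolutions `convLI μc Φ j = Φ 0 ⋆ Φ 1 ⋆ ⋯ ⋆ Φ j` (the recursion of `H305.convL305`)
are smooth test functions and

    HasAbelN (convLI μc Φ j) (κ^j · convLE β j).

These are the infinite local factors downstairs of the matched pairs of tower T7 (`LocHyp305`:
`F v = convL305 μc (fun j => Φ (w j)) (l - 1)`), in the shape of `pushTel` / `ekPushM`
(`sβ v = κ^{k-1}`, `β_v = convLE (β'_{w j}) (k - 1)`).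
-/

set_option autoImplicit false
set_option linter.style.haveILetI false
set_option linter.unusedVariables false

open MeasureTheory

noncomputable section

namespace Fermat.Agent.LT.T3.Push

open Fermat.Agent.LT.T3.AS Fermat.Agent.LT.T6 Fermat.Agent.LT.T6.H680

/-- **THE ABEL TRANSFORM OF A CONVOLUTION (complex place, T3 vocabulary), UNCONDITIONAL.** -/
theorem abelConvM_c : AbelConvMC :=
  abelConvM_of H323.abelConvCC323 H323.convTestCC323

/-- Left nested iterated convolution on `GL₂(ℂ)`: `Φ 0 ⋆ Φ 1 ⋆ ⋯ ⋆ Φ j` (the recursion of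
`H305.convL305`). -/
def convLI (μc : @Measure (GL (Fin 2) ℂ) (borel _)) (Φ : ℕ → GL (Fin 2) ℂ → ℂ) :
    ℕ → GL (Fin 2) ℂ → ℂ
  | 0 => Φ 0
  | (j + 1) => @convInt _ _ (borel _) μc (convLI μc Φ j) (Φ (j + 1))

theorem convLI_zero (μc : @Measure (GL (Fin 2) ℂ) (borel _)) (Φ : ℕ → GL (Fin 2) ℂ → ℂ) :
    convLI μc Φ 0 = Φ 0 := rfl

theorem convLI_succ (μc : @Measure (GL (Fin 2) ℂ) (borel _)) (Φ : ℕ → GL (Fin 2) ℂ → ℂ)
    (j : ℕ) :
    convLI μc Φ (j + 1) = @convInt _ _ (borel _) μc (convLI μc Φ j) (Φ (j + 1)) := rfl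

theorem convLE_zero (b : ℕ → ℝ × ℝ → ℂ) : convLE b 0 = b 0 := rfl

theorem convLE_succ (b : ℕ → ℝ × ℝ → ℂ) (j : ℕ) :
    convLE b (j + 1) = convE (convLE b j) (b (j + 1)) := rfl

/-- Constants come out of the first factor of a convolution. -/
theorem convE_const_mul (c : ℂ) (β γ : ℝ × ℝ → ℂ) (y : ℝ × ℝ) :
    convE (fun u => c * β u) γ y = c * convE β γ y := by
  unfold convE
  rw [← integral_const_mul]
  congr 1
  funext u
  ring

/-- `HasAbelN` depends only on the values of the second argument. -/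
theorem hasAbelN_congr {F : GL (Fin 2) ℂ → ℂ} {β β' : ℝ × ℝ → ℂ} (h : ∀ y, β y = β' y)
    (hF : HasAbelN F β) : HasAbelN F β' := by
  intro c₁ c₂
  rw [hF c₁ c₂, h]

/-- **THE ABEL TRANSFORM OF THE ITERATED CONVOLUTIONS (complex place, T3 vocabulary).** -/
def AbelConvLC : Prop :=
  ∀ μc : @Measure (GL (Fin 2) ℂ) (borel _), @Measure.IsHaarMeasure _ _ _ (borel _) μc →
    ∃ κ : ℂ, κ ≠ 0 ∧
      ∀ (Φ : ℕ → GL (Fin 2) ℂ → ℂ) (β : ℕ → ℝ × ℝ → ℂ),
        (∀ j, IsCplxTest (Φ j) ∧ IsCplxSmooth (Φ j) ∧ HasAbelN (Φ j) (β j)) →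
        ∀ j, IsCplxTest (convLI μc Φ j) ∧ IsCplxSmooth (convLI μc Φ j) ∧
          HasAbelN (convLI μc Φ j) (fun y => κ ^ j * convLE β j y)

/-- The iterated form from the binary form. -/
theorem abelConvL_of (h : AbelConvMC) : AbelConvLC := by
  intro μc hμc
  obtain ⟨κ, hκ, hconv⟩ := h μc hμc
  refine ⟨κ, hκ, fun Φ β hΦ j => ?_⟩
  induction j with
  | zero =>
    refine ⟨(hΦ 0).1, (hΦ 0).2.1, hasAbelN_congr (fun y => ?_) (hΦ 0).2.2⟩
    rw [pow_zero, one_mul, convLE_zero]
  | succ j ih =>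
    obtain ⟨h1, h2, h3⟩ := hconv (convLI μc Φ j) (Φ (j + 1)) (fun y => κ ^ j * convLE β j y)
      (β (j + 1)) ih.1 ih.2.1 (hΦ (j + 1)).1 (hΦ (j + 1)).2.1 ih.2.2 (hΦ (j + 1)).2.2
    refine ⟨h1, h2, hasAbelN_congr (fun y => ?_) h3⟩
    rw [convE_const_mul, convLE_succ, pow_succ]
    ring

/-- **THE ABEL TRANSFORM OF THE ITERATED CONVOLUTIONS, UNCONDITIONAL.** -/
theorem abelConvL_c : AbelConvLC :=
  abelConvL_of abelConvM_c

/-! ## Appendix: the equation lemmas of the definitions of this file are realised HERE -/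

theorem eqns_realised_pushAbelConvClosed : True := by
  have _a1 := @convLI.eq_1
  have _a2 := @convLI.eq_2
  have _a3 := @convLI.eq_def
  have _a4 := @AbelConvLC.eq_1
  trivial

end Fermat.Agent.LT.T3.Push

end

end
-- ===== PACK-END LT/T3/Push/AbelConvClosed.lean

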