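import Fermat.Agent.Pack.LT4.E2L1
import Fermat.Agent.Pack.LT4.E2L0

set_option linter.all false

-- ===== PACK-BEGIN LT/T5/H32/SphereSmooth.lean
section


/-!
# Row LT, tower T5 (helper32): the sphere mean of a test function is smooth at infinity

OFF-MAIN, ADDITIVE.  Vocabulary of `T5/Spec.lean` only.  KIT for the node `B981.StepMC981`
(`φ' (g) = ∫∫ φ (g Y(α,β)) sin β dα dβ`).

* `contDiff_paramInt32` : `p ↦ ∫ t in a..b, g p t` is smooth if `g` is jointly smooth (any normed
  parameter space; from `contDiffOn_convolution_right_with_param`, after helper984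
  `T3/H984/ParamInt.lean`);
* `isSmoothAtInf_sphere32` : `T5.IsSmoothAtInf φ` ⟹ `T5.IsSmoothAtInf` of the sphere mean, for
  every family `Y` which is trivial at the finite places and has smooth components at infinity;
* `isSmoothAtInf_sphereAt32` : the same for a parametrisation of the geodesic sphere
  (`IsLocalAtInf w (Y α β)`, `infComp w (Y α β) = rotZ α * rotY β * torus d`: the hypothesis of
  `T7.MeanEig` / `T2.IsSphereAt`);
* the components of the sphere: `contDiff_rotZ32`, `contDiff_rotY32`, `infComp_of_trivAtInf32`.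
-/

set_option autoImplicit false
open IsDedekindDomain NumberField MeasureTheory
open scoped MatrixGroups ComplexConjugate Pointwise ContDiff Convolution
open Fermat.Agent.LT.H556.A0 Fermat.Agent.LT.T5 Fermat.Agent.LT.H942 Fermat.Agent.LT.T5.H942

noncomputable section
namespace Fermat.Agent.LT.T5.H32

/-! ## 1. Smooth parametric integrals -/

/-- **The parametric integral over `[a, b]` of a jointly smooth function is smooth.** -/
theorem contDiff_paramInt32 {P : Type} [NormedAddCommGroup P] [NormedSpace ℝ P] {g : P → ℝ → ℂ}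
    (hg : ContDiff ℝ ∞ (fun q : P × ℝ => g q.1 q.2)) {a b : ℝ} (hab : a ≤ b) :
    ContDiff ℝ ∞ (fun p : P => ∫ t in a..b, g p t) := by
  let χ : ContDiffBump (-((a + b) / 2) : ℝ) :=
    ⟨(b - a) / 2 + 1, (b - a) / 2 + 2, by linarith, by linarith⟩
  have hχin : χ.rIn = (b - a) / 2 + 1 := rfl
  have hχout : χ.rOut = (b - a) / 2 + 2 := rfl
  let ind : ℝ → ℝ := Set.indicator (Set.Ioc a b) (fun _ => (1 : ℝ))
  let cut : P → ℝ → ℂ := fun p x => (χ x : ℝ) • g p (-x)
  have hind : LocallyIntegrable ind volume := by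
    apply Integrable.locallyIntegrable
    exact (integrable_indicator_iff measurableSet_Ioc).mpr (by simp)
  have hcut0 : ∀ (p : P) (x : ℝ), x ∉ Metric.closedBall (-((a + b) / 2) : ℝ) ((b - a) / 2 + 2) →
      cut p x = 0 := by
    intro p x hx
    have : (χ x : ℝ) = 0 := by
      apply χ.zero_of_le_dist
      rw [Metric.mem_closedBall, not_le] at hx
      rw [hχout]
      exact hx.le
    simp only [cut, this, zero_smul]
  have hcutsm : ContDiff ℝ ∞ (fun q : P × ℝ => cut q.1 q.2) := by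
    have h1 : ContDiff ℝ ∞ (fun q : P × ℝ => (χ q.2 : ℝ)) :=
      (χ.contDiff (n := (⊤ : ℕ∞))).comp contDiff_snd
    have h2 : ContDiff ℝ ∞ (fun q : P × ℝ => g q.1 (-q.2)) :=
      hg.comp (contDiff_fst.prodMk contDiff_snd.neg)
    exact h1.smul h2
  have hconv : ∀ p : P,
      (ind ⋆[(ContinuousLinearMap.lsmul ℝ ℝ : ℝ →L[ℝ] ℂ →L[ℝ] ℂ), volume] cut p) 0
        = ∫ t in a..b, g p t := by
    intro p
    rw [MeasureTheory.convolution_def, intervalIntegral.integral_of_le hab,
      ← integral_indicator measurableSet_Ioc]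
    congr 1
    funext t
    by_cases ht : t ∈ Set.Ioc a b
    · have hχ1 : (χ (-t) : ℝ) = 1 := by
        apply χ.one_of_mem_closedBall
        rw [Metric.mem_closedBall, Real.dist_eq, abs_le, hχin]
        obtain ⟨h0, h1⟩ := ht
        constructor <;> linarith
      simp only [ind, cut, Set.indicator_of_mem ht, ContinuousLinearMap.lsmul_apply,
        one_smul, zero_sub, neg_neg, hχ1]
    · simp only [ind, Set.indicator_of_notMem ht, ContinuousLinearMap.lsmul_apply, zero_smul]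
  have hg' : ContDiffOn ℝ ((⊤ : ℕ∞) : WithTop ℕ∞) (Function.uncurry cut)
      (Set.univ ×ˢ Set.univ) := hcutsm.contDiffOn
  have key : ContDiffOn ℝ ((⊤ : ℕ∞) : WithTop ℕ∞)
      (fun q : P × ℝ =>
        (ind ⋆[(ContinuousLinearMap.lsmul ℝ ℝ : ℝ →L[ℝ] ℂ →L[ℝ] ℂ), volume] cut q.1) q.2)
      (Set.univ ×ˢ Set.univ) :=
    contDiffOn_convolution_right_with_param (μ := volume)
      (ContinuousLinearMap.lsmul ℝ ℝ : ℝ →L[ℝ] ℂ →L[ℝ] ℂ) (f := ind) (g := cut)
      (s := Set.univ) (k := Metric.closedBall (-((a + b) / 2) : ℝ) ((b - a) / 2 + 2))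
      isOpen_univ (isCompact_closedBall _ _) (fun p x _ hx => hcut0 p x hx) hind hg'
  rw [Set.univ_prod_univ] at key
  have key1 : ContDiff ℝ ∞ (fun q : P × ℝ =>
      (ind ⋆[(ContinuousLinearMap.lsmul ℝ ℝ : ℝ →L[ℝ] ℂ →L[ℝ] ℂ), volume] cut q.1) q.2) :=
    contDiffOn_univ.mp key
  have key2 : ContDiff ℝ ∞ (fun p : P =>
      (ind ⋆[(ContinuousLinearMap.lsmul ℝ ℝ : ℝ →L[ℝ] ℂ →L[ℝ] ℂ), volume] cut p) 0) :=
    key1.comp (contDiff_id.prodMk contDiff_const)
  have e : (fun p : P => ∫ t in a..b, g p t) = fun p : P =>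
      (ind ⋆[(ContinuousLinearMap.lsmul ℝ ℝ : ℝ →L[ℝ] ℂ →L[ℝ] ℂ), volume] cut p) 0 := by
    funext p
    exact (hconv p).symm
  rw [e]
  exact key2

/-- The double parametric integral. -/
theorem contDiff_paramInt2_32 {P : Type} [NormedAddCommGroup P] [NormedSpace ℝ P]
    {g : P → ℝ → ℝ → ℂ} (hg : ContDiff ℝ ∞ (fun q : (P × ℝ) × ℝ => g q.1.1 q.1.2 q.2))
    {a b a' b' : ℝ} (hab : a ≤ b) (hab' : a' ≤ b') :
    ContDiff ℝ ∞ (fun p : P => ∫ x in a..b, ∫ y in a'..b', g p x y) := by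
  have h1 : ContDiff ℝ ∞ (fun q : P × ℝ => ∫ y in a'..b', g q.1 q.2 y) :=
    contDiff_paramInt32 (P := P × ℝ) (g := fun q y => g q.1 q.2 y) hg hab'
  exact contDiff_paramInt32 (P := P) (g := fun p x => ∫ y in a'..b', g p x y) h1 hab

/-! ## 2. Smoothness at infinity -/

variable {K : Type} [Field K] [NumberField K]

/-- The glueing map `(t, α, β) ↦ (t, α, β)` from `ℝⁿ × ℝ × ℝ` to `ℝ^{n+2}` is smooth. -/
theorem contDiff_append32 (n : ℕ) :
    ContDiff ℝ ∞ (fun q : ((Fin n → ℝ) × ℝ) × ℝ =>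
      (Fin.append q.1.1 ![q.1.2, q.2] : Fin (n + 2) → ℝ)) := by
  rw [contDiff_pi]
  intro i
  refine Fin.addCases (fun i' => ?_) (fun j => ?_) i
  · simp only [Fin.append_left]
    exact (contDiff_apply ℝ ℝ i').comp (contDiff_fst.comp contDiff_fst)
  · simp only [Fin.append_right]
    fin_cases j
    · exact contDiff_snd.comp contDiff_fst
    · exact contDiff_snd

/-- **THE SPHERE MEAN IS SMOOTH AT INFINITY** (general family `Y`: trivial at the finite places,
smooth components at the infinite places). -/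
theorem isSmoothAtInf_sphere32 {φ : G K → ℂ} (hφ : IsSmoothAtInf φ) {Y : ℝ → ℝ → G K}
    (hYfin : ∀ (α β : ℝ) (v : HeightOneSpectrum (𝓞 K)), TrivAtFin v (Y α β))
    (hYsm : ∀ (w : InfinitePlace K) (i j : Fin 2),
      ContDiff ℝ ∞ (fun p : ℝ × ℝ => infComp w (Y p.1 p.2) i j)) :
    IsSmoothAtInf (fun g : G K => ∫ α in (0 : ℝ)..(2 * Real.pi), ∫ β in (0 : ℝ)..Real.pi,
      φ (g * Y α β) * ((Real.sin β : ℝ) : ℂ)) := by
  intro n h hfin hsm g
  -- the family in `n + 2` variables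
  let H : (Fin (n + 2) → ℝ) → G K := fun s =>
    h (fun i => s (Fin.castAdd 2 i)) * Y (s (Fin.natAdd n 0)) (s (Fin.natAdd n 1))
  have hHfin : ∀ (s : Fin (n + 2) → ℝ) (v : HeightOneSpectrum (𝓞 K)), TrivAtFin v (H s) := by
    intro s v
    show finComp v (h _ * Y _ _) = 1
    rw [finComp_mul942, (hfin _ v : finComp v (h _) = 1), (hYfin _ _ v : finComp v (Y _ _) = 1),
      one_mul]
  have hHsm : ∀ (w : InfinitePlace K) (i j : Fin 2),
      ContDiff ℝ ∞ (fun s : Fin (n + 2) → ℝ => infComp w (H s) i j) := by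
    intro w i j
    have e : (fun s : Fin (n + 2) → ℝ => infComp w (H s) i j)
        = fun s => ∑ k : Fin 2, infComp w (h (fun i => s (Fin.castAdd 2 i))) i k
            * infComp w (Y (s (Fin.natAdd n 0)) (s (Fin.natAdd n 1))) k j := by
      funext s
      show infComp w (h _ * Y _ _) i j = _
      rw [infComp_mul942, Matrix.mul_apply]
    rw [e]
    refine ContDiff.sum fun k _ => ContDiff.mul ?_ ?_
    · have hp : ContDiff ℝ ∞ (fun s : Fin (n + 2) → ℝ => (fun i : Fin n => s (Fin.castAdd 2 i))) := by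
        rw [contDiff_pi]
        intro i'
        exact contDiff_apply ℝ ℝ (Fin.castAdd 2 i')
      exact (hsm w i k).comp hp
    · have hp : ContDiff ℝ ∞ (fun s : Fin (n + 2) → ℝ =>
          ((s (Fin.natAdd n 0), s (Fin.natAdd n 1)) : ℝ × ℝ)) :=
        (contDiff_apply ℝ ℝ (Fin.natAdd n 0)).prodMk (contDiff_apply ℝ ℝ (Fin.natAdd n 1))
      exact (hYsm w k j).comp hp
  have hΨ : ContDiff ℝ ∞ (fun s : Fin (n + 2) → ℝ => φ (g * H s)) := hφ (n + 2) H hHfin hHsm g
  -- the integrand as a function of `(t, α, β)`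
  have hHapp : ∀ (t : Fin n → ℝ) (α β : ℝ), H (Fin.append t ![α, β]) = h t * Y α β := by
    intro t α β
    show h (fun i => Fin.append t ![α, β] (Fin.castAdd 2 i))
        * Y (Fin.append t ![α, β] (Fin.natAdd n 0)) (Fin.append t ![α, β] (Fin.natAdd n 1)) = _
    simp only [Fin.append_left, Fin.append_right]
    rfl
  have hint : ContDiff ℝ ∞ (fun q : ((Fin n → ℝ) × ℝ) × ℝ =>
      φ (g * h q.1.1 * Y q.1.2 q.2) * ((Real.sin q.2 : ℝ) : ℂ)) := by
    have h1 : ContDiff ℝ ∞ (fun q : ((Fin n → ℝ) × ℝ) × ℝ =>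
        φ (g * H (Fin.append q.1.1 ![q.1.2, q.2]))) := hΨ.comp (contDiff_append32 n)
    have h2 : ContDiff ℝ ∞ (fun q : ((Fin n → ℝ) × ℝ) × ℝ => ((Real.sin q.2 : ℝ) : ℂ)) :=
      Complex.ofRealCLM.contDiff.comp (Real.contDiff_sin.comp contDiff_snd)
    have e : (fun q : ((Fin n → ℝ) × ℝ) × ℝ =>
        φ (g * h q.1.1 * Y q.1.2 q.2) * ((Real.sin q.2 : ℝ) : ℂ))
        = fun q => φ (g * H (Fin.append q.1.1 ![q.1.2, q.2])) * ((Real.sin q.2 : ℝ) : ℂ) := by
      funext q
      rw [hHapp, mul_assoc]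
    rw [e]
    exact h1.mul h2
  exact contDiff_paramInt2_32 (P := Fin n → ℝ)
    (g := fun t α β => φ (g * h t * Y α β) * ((Real.sin β : ℝ) : ℂ)) hint
    (by positivity) Real.pi_pos.le

/-- The components of an element which is trivial at `w`. -/
theorem infComp_of_trivAtInf32 {w : InfinitePlace K} {y : G K} (hy : TrivAtInf w y) :
    infComp w y = 1 := by
  ext i j
  show InfinitePlace.Completion.extensionEmbedding w
    (((y : Matrix (Fin 2) (Fin 2) (Adl K)) i j).1 w) = _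
  rw [hy i j]
  by_cases hij : i = j
  · subst hij
    rw [Matrix.one_apply_eq, Matrix.one_apply_eq, map_one]
  · rw [Matrix.one_apply_ne hij, Matrix.one_apply_ne hij, map_zero]

theorem contDiff_rotZ32 (i j : Fin 2) : ContDiff ℝ ∞ (fun α : ℝ => rotZ α i j) := by
  have hc : ContDiff ℝ ∞ (fun α : ℝ => Complex.I * ((α / 2 : ℝ) : ℂ)) :=
    contDiff_const.mul (Complex.ofRealCLM.contDiff.comp (contDiff_id.div_const 2))
  fin_cases i <;> fin_cases j
  · show ContDiff ℝ ∞ (fun α : ℝ => Complex.exp (Complex.I * ((α / 2 : ℝ) : ℂ)))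
    exact Complex.contDiff_exp.comp hc
  · show ContDiff ℝ ∞ (fun _ : ℝ => (0 : ℂ))
    exact contDiff_const
  · show ContDiff ℝ ∞ (fun _ : ℝ => (0 : ℂ))
    exact contDiff_const
  · show ContDiff ℝ ∞ (fun α : ℝ => Complex.exp (-(Complex.I * ((α / 2 : ℝ) : ℂ))))
    exact Complex.contDiff_exp.comp hc.neg

theorem contDiff_rotY32 (i j : Fin 2) : ContDiff ℝ ∞ (fun β : ℝ => rotY β i j) := by
  have hcos : ContDiff ℝ ∞ (fun β : ℝ => ((Real.cos (β / 2) : ℝ) : ℂ)) :=
    Complex.ofRealCLM.contDiff.comp (Real.contDiff_cos.comp (contDiff_id.div_const 2))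
  have hsin : ContDiff ℝ ∞ (fun β : ℝ => ((Real.sin (β / 2) : ℝ) : ℂ)) :=
    Complex.ofRealCLM.contDiff.comp (Real.contDiff_sin.comp (contDiff_id.div_const 2))
  fin_cases i <;> fin_cases j
  · exact hcos
  · exact hsin.neg
  · exact hsin
  · exact hcos

/-- **THE SPHERE MEAN IS SMOOTH AT INFINITY** (parametrisation of the geodesic sphere of radius
`d` at the place `w`: the hypothesis of `T7.MeanEig`). -/
theorem isSmoothAtInf_sphereAt32 {φ : G K → ℂ} (hφ : IsSmoothAtInf φ) (w : InfinitePlace K)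
    (d : ℝ) {Y : ℝ → ℝ → G K}
    (hY : ∀ α β : ℝ, IsLocalAtInf w (Y α β) ∧ infComp w (Y α β) = rotZ α * rotY β * torus d) :
    IsSmoothAtInf (fun g : G K => ∫ α in (0 : ℝ)..(2 * Real.pi), ∫ β in (0 : ℝ)..Real.pi,
      φ (g * Y α β) * ((Real.sin β : ℝ) : ℂ)) := by
  refine isSmoothAtInf_sphere32 hφ (fun α β v => (hY α β).1.2 v) ?_
  intro w' i j
  by_cases hw : w' = w
  · subst hw
    have e : (fun p : ℝ × ℝ => infComp w' (Y p.1 p.2) i j)
        = fun p => ∑ k : Fin 2, (∑ k' : Fin 2, rotZ p.1 i k' * rotY p.2 k' k) * torus d k j := by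
      funext p
      rw [(hY p.1 p.2).2, Matrix.mul_apply]
      refine Finset.sum_congr rfl fun k _ => ?_
      rw [Matrix.mul_apply]
    rw [e]
    refine ContDiff.sum fun k _ => ContDiff.mul (ContDiff.sum fun k' _ => ContDiff.mul ?_ ?_)
      contDiff_const
    · exact (contDiff_rotZ32 i k').comp contDiff_fst
    · exact (contDiff_rotY32 k' k).comp contDiff_snd
  · have e : (fun p : ℝ × ℝ => infComp w' (Y p.1 p.2) i j)
        = fun _ => (1 : Matrix (Fin 2) (Fin 2) ℂ) i j := by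
      funext p
      rw [infComp_of_trivAtInf32 ((hY p.1 p.2).1.1 w' hw)]
    rw [e]
    exact contDiff_const

end Fermat.Agent.LT.T5.H32

end

end
-- ===== PACK-END LT/T5/H32/SphereSmooth.lean

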