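import Fermat.Agent.Pack.LT4.E3L3
import Fermat.Agent.Pack.LT2.E12L2
import Fermat.Agent.Pack.LT2.E8L1
import Fermat.Agent.Pack.LT2.E3L0
import Fermat.Agent.Pack.LT3.E17L3
import Fermat.Agent.Pack.LT2.E9L3
import Fermat.Agent.Pack.LT4.E3L0

set_option linter.all false

-- ===== PACK-BEGIN LT/T7/H963/Compress.lean
section


/-!
# Row LT, tower T7, node `SimpleC`, leaf-node `CompressC` (helper963, OFF-MAIN): THE CUT

ADDITIVE.  `CompressC K ⊤` (`T7/H963/Simple.lean`): `ψ`, `χ` in the class, `χ` orthogonal to every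
function reached from `ψ`; then `⟨R(g) ψ, χ⟩ = 0` for EVERY `g ∈ GL₂(𝔸_K)`.

## The cut (PROVED top `compressC_of`)

    compressC_of : DecompC K → BadSystemExistsC K → IwSystemExistsC K → StepBadC K → StepIwC K →
        StepSphC K → StepArchC K → ClassLinC K → ClassOpC K → CompressC K ⊤

* `DecompC` (`Peel`): every `g` is a product `h₁ ⋯ h_m k`, `hᵢ` supported at ONE place (finite or
  infinite), the places pairwise distinct, `k ∈ U(𝔫)` (`g_v ∈ GL₂(𝒪_v)` for almost all `v`).
  In the inductive form `Peel`: `1`; `a h` with `a` peelable and trivial at the place of `h`;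
  `a k`.
* `BadSystemExistsC`, `IwSystemExistsC`: full systems of representatives exist (finite index).
* `StepBadC` (averaging at a bad place `v`): `a` trivial at `v`, `h` supported at `v`, `H` a system
  for `U(𝔫) h U(𝔫) / U(𝔫)`: `⟨R(a) [U h U] f, χ⟩ = |H| ⟨R(a h) f, χ⟩`.
  (`y = u₁ h u₂`, `u₁ = u_v u'`: `R(a y) f = R(u_v) R(a h) f`, `χ` is invariant; `PairC`.)
* `StepIwC`: the same along the orbit.
* `StepSphC` (unramified place `v ∤ 𝔫`): `⟨R(a) f, χ⟩ = 0 ⟹ ⟨R(a h) f, χ⟩ = 0`.
  (`F(h) = ⟨R(a h) f, χ⟩` is bi-invariant under `GL₂(𝒪_v)`, `∑_t F(h t) = √q a_v F(h)`,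
  `F(h z) = b_v F(h)`: with `F_d = F(diag(ϖ^d, 1))`, `(q + 1) F_1 = √q a F_0` and
  `q F_{d+1} = √q a F_d - b F_{d-1}`; Cartan decomposition.)
* `StepArchC` (complex place `w`): the same.  (`F(k₁ torus(d) k₂ z) = F(torus d)` and the mean
  value property under the pairing (Fubini): `4π F(torus d) = 4π (d / sinh d) F(1)`.)
-/

set_option autoImplicit false
set_option linter.unusedSectionVars false
set_option linter.unusedVariables false

open IsDedekindDomain NumberField MeasureTheory AutomorphicForm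
open Fermat.Agent.LT.H556.A0

noncomputable section

namespace Fermat.Agent.LT.T7.H963

open Fermat.Agent.LT.T2.H941

variable {K : Type} [Field K] [NumberField K]

attribute [local instance] Fermat.Agent.LT.T2.borelG

/-! ## 1. Vocabulary and leaves -/

/-- **PEELABLE** elements for the level `𝔫`. -/
inductive Peel (𝔫 : Ideal (𝓞 K)) : G K → Prop
  | one : Peel 𝔫 1
  | fin {a : G K} (h : G K) (v : HeightOneSpectrum (𝓞 K)) : Peel 𝔫 a → TrivAtFin v a →
      IsLocalAtFin v h → Peel 𝔫 (a * h)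
  | inf {a : G K} (h : G K) (w : InfinitePlace K) : Peel 𝔫 a → TrivAtInf w a →
      IsLocalAtInf w h → Peel 𝔫 (a * h)
  | lvl {a : G K} (k : G K) : Peel 𝔫 a → InLevelGroup 𝔫 k → Peel 𝔫 (a * k)

variable (K)

/-- **LEAF: DECOMPOSITION.**  Every element is peelable. -/
def DecompC : Prop := ∀ 𝔫 : Ideal (𝓞 K), 𝔫 ≠ ⊥ → ∀ g : G K, Peel 𝔫 g

/-- **LEAF: systems of representatives of `U(𝔫) h U(𝔫) / U(𝔫)` exist** (`h` trivial at
infinity). -/
def BadSystemExistsC : Prop :=
  ∀ 𝔫 : Ideal (𝓞 K), 𝔫 ≠ ⊥ → ∀ h : G K, (∀ w : InfinitePlace K, TrivAtInf w h) →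
    ∃ H : Finset (G K), IsDblCosetSystem 𝔫 h H

/-- **LEAF: systems of representatives of `I_w h I_w / I_w` exist.** -/
def IwSystemExistsC : Prop :=
  ∀ (w : HeightOneSpectrum (𝓞 K)) (h : G K), IsLocalAtFin w h →
    ∃ H : Finset (G K), IsIwDblSystem w h H

/-- **LEAF: AVERAGING at a bad place.** -/
def StepBadC : Prop :=
  (∀ w : InfinitePlace K, w.IsComplex) →
  ∀ (F : T2.Frame K) (𝔫 : Ideal (𝓞 K)) (r : G K) (l : ℕ) (o : ℕ → HeightOneSpectrum (𝓞 K))
    (C : EigData K), 𝔫 ≠ ⊥ → T5.IsRayGen r → (∀ j < l, (o j).asIdeal ∣ 𝔫) → C.IsSph0 →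
    ∀ v : HeightOneSpectrum (𝓞 K), v.asIdeal ∣ 𝔫 → (∀ j < l, v ≠ o j) →
    ∀ a h : G K, TrivAtFin v a → IsLocalAtFin v h →
    ∀ H : Finset (G K), IsDblCosetSystem 𝔫 h H →
    ∀ f χ : G K → ℂ, IsEigFn 𝔫 r l o f C → IsEigFn 𝔫 r l o χ C →
      T2.pair F (rt a (cosetOp H f)) χ = (H.card : ℂ) * T2.pair F (rt (a * h) f) χ

/-- **LEAF: AVERAGING along the orbit.** -/
def StepIwC : Prop :=
  (∀ w : InfinitePlace K, w.IsComplex) →
  ∀ (F : T2.Frame K) (𝔫 : Ideal (𝓞 K)) (r : G K) (l : ℕ) (o : ℕ → HeightOneSpectrum (𝓞 K))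
    (C : EigData K), 𝔫 ≠ ⊥ → T5.IsRayGen r → (∀ j < l, (o j).asIdeal ∣ 𝔫) → C.IsSph0 →
    ∀ j < l, ∀ a h : G K, TrivAtFin (o j) a → IsLocalAtFin (o j) h →
    ∀ H : Finset (G K), IsIwDblSystem (o j) h H →
    ∀ f χ : G K → ℂ, IsEigFn 𝔫 r l o f C → IsEigFn 𝔫 r l o χ C →
      T2.pair F (rt a (cosetOp H f)) χ = (H.card : ℂ) * T2.pair F (rt (a * h) f) χ

/-- **LEAF: the spherical function at an unramified place.** -/
def StepSphC : Prop :=
  (∀ w : InfinitePlace K, w.IsComplex) →
  ∀ (F : T2.Frame K) (𝔫 : Ideal (𝓞 K)) (r : G K) (l : ℕ) (o : ℕ → HeightOneSpectrum (𝓞 K))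
    (C : EigData K), 𝔫 ≠ ⊥ → T5.IsRayGen r → (∀ j < l, (o j).asIdeal ∣ 𝔫) → C.IsSph0 →
    ∀ v : HeightOneSpectrum (𝓞 K), ¬ v.asIdeal ∣ 𝔫 →
    ∀ a h : G K, TrivAtFin v a → IsLocalAtFin v h →
    ∀ f χ : G K → ℂ, IsEigFn 𝔫 r l o f C → IsEigFn 𝔫 r l o χ C →
      T2.pair F (rt a f) χ = 0 → T2.pair F (rt (a * h) f) χ = 0

/-- **LEAF: the spherical function at an infinite place.** -/
def StepArchC : Prop :=
  (∀ w : InfinitePlace K, w.IsComplex) →
  ∀ (F : T2.Frame K) (𝔫 : Ideal (𝓞 K)) (r : G K) (l : ℕ) (o : ℕ → HeightOneSpectrum (𝓞 K))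
    (C : EigData K), 𝔫 ≠ ⊥ → T5.IsRayGen r → (∀ j < l, (o j).asIdeal ∣ 𝔫) → C.IsSph0 →
    ∀ w : InfinitePlace K, ∀ a h : G K, TrivAtInf w a → IsLocalAtInf w h →
    ∀ f χ : G K → ℂ, IsEigFn 𝔫 r l o f C → IsEigFn 𝔫 r l o χ C →
      T2.pair F (rt a f) χ = 0 → T2.pair F (rt (a * h) f) χ = 0

variable {K}

/-! ## 2. The assembly -/

/-- The reached functions lie in the class. -/
theorem isEigFn_of_reach (hlin : ClassLinC K) (hop : ClassOpC K) {𝔫 : Ideal (𝓞 K)} (h𝔫 : 𝔫 ≠ ⊥)
    {r : G K} (hr : T5.IsRayGen r) {l : ℕ} {o : ℕ → HeightOneSpectrum (𝓞 K)}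
    (ho : ∀ j < l, (o j).asIdeal ∣ 𝔫) {C : EigData K} {ψ : G K → ℂ}
    (hψ : IsEigFn 𝔫 r l o ψ C) {f : G K → ℂ} (hf : Reach 𝔫 l o ψ f) : IsEigFn 𝔫 r l o f C := by
  induction hf with
  | base => exact hψ
  | add _ _ ih ih' => exact (hlin 𝔫 r l o C).1 _ _ ih ih'
  | smul c _ ih => exact (hlin 𝔫 r l o C).2 c _ ih
  | bad g H hg hH _ ih => exact (hop 𝔫 r l o C h𝔫 hr ho _ ih).1 g H hg hH
  | iw j h H hj hh hH _ ih => exact (hop 𝔫 r l o C h𝔫 hr ho _ ih).2 j h H hj hh hH

/-- A full system of representatives is not empty. -/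
theorem card_ne_zero_of_dbl {𝔫 : Ideal (𝓞 K)} {h : G K} {H : Finset (G K)}
    (hH : IsDblCosetSystem 𝔫 h H) (h1 : InLevelGroup 𝔫 (1 : G K)) : (H.card : ℂ) ≠ 0 := by
  obtain ⟨x, hx, -⟩ := hH.2.2 1 h1
  exact Nat.cast_ne_zero.mpr (Finset.card_ne_zero.mpr ⟨x, hx⟩)

/-- A full system of representatives is not empty. -/
theorem card_ne_zero_of_iw {w : HeightOneSpectrum (𝓞 K)} {h : G K} {H : Finset (G K)}
    (hH : IsIwDblSystem w h H) (h1 : IsIwElt w (1 : G K)) : (H.card : ℂ) ≠ 0 := by
  obtain ⟨x, hx, -⟩ := hH.2.2 1 h1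
  exact Nat.cast_ne_zero.mpr (Finset.card_ne_zero.mpr ⟨x, hx⟩)

/-- **LEAF: the unit element** lies in the level group and in the Iwahori subgroups. -/
def UnitC (K : Type) [Field K] [NumberField K] : Prop :=
  (∀ 𝔫 : Ideal (𝓞 K), InLevelGroup 𝔫 (1 : G K)) ∧
    ∀ w : HeightOneSpectrum (𝓞 K), IsIwElt w (1 : G K)

/-- **THE TOP OF THE LEAF-NODE `CompressC`.** -/
theorem compressC_of (hU : UnitC K) (hD : DecompC K) (hBE : BadSystemExistsC K)
    (hIE : IwSystemExistsC K) (hBad : StepBadC K) (hIw : StepIwC K) (hSph : StepSphC K)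
    (hArch : StepArchC K) (hlin : ClassLinC K) (hop : ClassOpC K) :
    CompressC K (fun _ => True) := by
  classical
  intro hcx F 𝔫 r l o C h𝔫 hr ho hC ψ χ hψ hχ hyp g _
  have hcl : ∀ f : G K → ℂ, Reach 𝔫 l o ψ f → IsEigFn 𝔫 r l o f C :=
    fun f hf => isEigFn_of_reach hlin hop h𝔫 hr ho hψ hf
  have key : ∀ a : G K, Peel 𝔫 a → ∀ f : G K → ℂ, Reach 𝔫 l o ψ f →
      T2.pair F (rt a f) χ = 0 := by
    intro a ha
    induction ha with
    | one =>
      intro f hf
      rw [rt_one]
      exact hyp f hf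
    | @fin a h v _ hav hh ih =>
      intro f hf
      by_cases hv : v.asIdeal ∣ 𝔫
      · by_cases horb : ∃ j < l, v = o j
        · obtain ⟨j, hj, rfl⟩ := horb
          obtain ⟨H, hH⟩ := hIE (o j) h hh
          have h1 := hIw hcx F 𝔫 r l o C h𝔫 hr ho hC j hj a h hav hh H hH f χ (hcl f hf) hχ
          have h2 := ih (cosetOp H f) (Reach.iw j h H hj hh hH hf)
          rw [h1] at h2
          exact (mul_eq_zero.mp h2).resolve_left (card_ne_zero_of_iw hH (hU.2 (o j)))
        · have horb' : ∀ j < l, v ≠ o j := fun j hj hvj => horb ⟨j, hj, hvj⟩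
          obtain ⟨H, hH⟩ := hBE 𝔫 h𝔫 h hh.1
          have hbad : IsBadAt 𝔫 l o h := by
            refine ⟨hh.1, fun v' hv' => hh.2 v' ?_⟩
            rintro rfl
            rcases hv' with hv' | ⟨j, hj, hvj⟩
            · exact hv' hv
            · exact horb' j hj hvj
          have h1 := hBad hcx F 𝔫 r l o C h𝔫 hr ho hC v hv horb' a h hav hh H hH f χ
            (hcl f hf) hχ
          have h2 := ih (cosetOp H f) (Reach.bad h H hbad hH hf)
          rw [h1] at h2
          exact (mul_eq_zero.mp h2).resolve_left (card_ne_zero_of_dbl hH (hU.1 𝔫))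
      · exact hSph hcx F 𝔫 r l o C h𝔫 hr ho hC v hv a h hav hh f χ (hcl f hf) hχ (ih f hf)
    | @inf a h w _ haw hh ih =>
      intro f hf
      exact hArch hcx F 𝔫 r l o C h𝔫 hr ho hC w a h haw hh f χ (hcl f hf) hχ (ih f hf)
    | @lvl a k _ hk ih =>
      intro f hf
      have hinv : rt k f = f := by
        funext x
        exact (hcl f hf).inv.cusp.aut.level_inv k hk x
      rw [← rt_rt, hinv]
      exact ih f hf
  exact key g (hD 𝔫 h𝔫 g) ψ Reach.base

end Fermat.Agent.LT.T7.H963

end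
end
-- ===== PACK-END LT/T7/H963/Compress.lean

-- ===== PACK-BEGIN LT/T7/H963/Avg.lean
section





/-!
# Row LT, tower T7, node `SimpleC`, leaves `UnitC`, `StepBadC`, `StepIwC` (helper963, OFF-MAIN):
PROVED

* `unitC : UnitC K`.
* `stepBadC : StepBadC K`, `stepIwC : StepIwC K` (averaging at a place of the level):
  `⟨R(a) [U h U] f, χ⟩ = |H| ⟨R(a h) f, χ⟩` for `a` trivial at the place of `h`.
  For `y = u₁ h u₂`: `u₁ = p q`, `p` the local part of `u₁` at `v`, `q` trivial at `v`, both in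
  `U(𝔫)`; `a y = p (a h) q u₂`; `f` is invariant under `q u₂`, `χ` under `p`, and the pairing is
  invariant under right translations (`PairC`, CLOSED by helper941).

Assets (byte-identical): `H129/Local` (helper129), `T2/H333/Book` (helper333),
`T2/H879/StripGlobal` (helper879).
-/

set_option autoImplicit false
set_option linter.unusedSectionVars false
set_option linter.unusedVariables false

open IsDedekindDomain NumberField MeasureTheory AutomorphicForm
open Fermat.Agent.LT.H556.A0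

noncomputable section

namespace Fermat.Agent.LT.T7.H963

open Fermat.Agent.LT.T2.H941 Fermat.Agent.LT.H129 Fermat.Agent.LT.T2.H333
  Fermat.Agent.LT.T2.H879

variable {K : Type} [Field K] [NumberField K]

attribute [local instance] Fermat.Agent.LT.T2.borelG

/-! ## 1. Book-keeping -/

theorem finComp_eq_coe963 (v : HeightOneSpectrum (𝓞 K)) (g : G K) :
    finComp v g = ((finCompHom129 v g : GL (Fin 2) (v.adicCompletion K)) :
      Matrix (Fin 2) (Fin 2) (v.adicCompletion K)) := rfl

/-- An element which is trivial at `v` lies in the Iwahori subgroup at `v`. -/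
theorem inIwahori_of_triv963 {v : HeightOneSpectrum (𝓞 K)} {k : G K} (hk : TrivAtFin v k) :
    T5.InIwahori v k := by
  have h1 : finComp v k = 1 := hk
  have h2 : finComp v k⁻¹ = 1 := trivAtFin_inv333 hk
  refine ⟨fun i j => ?_, fun i j => ?_, ?_⟩
  · show Valued.v (finComp v k i j) ≤ 1
    rw [h1]
    exact val_one_entry_le333 v i j
  · show Valued.v (finComp v k⁻¹ i j) ≤ 1
    rw [h2]
    exact val_one_entry_le333 v i j
  · rw [h1]
    simp

theorem trivAtInf_mul963 {w : InfinitePlace K} {g h : G K} (hg : TrivAtInf w g)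
    (hh : TrivAtInf w h) : TrivAtInf w (g * h) := by
  rw [trivAtInf_iff129] at *
  rw [map_mul, hg, hh, mul_one]

theorem trivAtInf_inv963 {w : InfinitePlace K} {g : G K} (hg : TrivAtInf w g) :
    TrivAtInf w g⁻¹ := by
  rw [trivAtInf_iff129] at *
  rw [map_inv, hg, inv_one]

/-- **LEAF `UnitC`, PROVED.** -/
theorem unitC (K : Type) [Field K] [NumberField K] : UnitC K := by
  refine ⟨fun 𝔫 => ⟨fun w => (trivAtInf_iff129 w 1).2 (map_one _), fun v i j => ?_⟩,
    fun w => ⟨isLocalAtFin_one129 w, inIwahori_of_triv963 (finComp_one333 w)⟩⟩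
  rw [inv_one, finComp_one333, sub_self]
  exact ⟨zero_mem_idealClosure333 𝔫 v, zero_mem_idealClosure333 𝔫 v⟩

/-- The local part at `v`. -/
def localPart963 (v : HeightOneSpectrum (𝓞 K)) (u : G K) : G K :=
  locFin129 v (finCompHom129 v u)

theorem isLocalAtFin_localPart963 (v : HeightOneSpectrum (𝓞 K)) (u : G K) :
    IsLocalAtFin v (localPart963 v u) := isLocalAtFin_locFin129 v _

theorem finCompHom_localPart963 (v : HeightOneSpectrum (𝓞 K)) (u : G K) :
    finCompHom129 v (localPart963 v u) = finCompHom129 v u := finCompHom129_locFin129 v _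

theorem finCompHom_localPart_of_ne963 (v : HeightOneSpectrum (𝓞 K)) (u : G K)
    {v' : HeightOneSpectrum (𝓞 K)} (h : v' ≠ v) :
    finCompHom129 v' (localPart963 v u) = 1 := finCompHom129_locFin129_of_ne v _ h

/-- The local part of an element of the level group lies in the level group. -/
theorem inLevelGroup_localPart963 {𝔫 : Ideal (𝓞 K)} (v : HeightOneSpectrum (𝓞 K)) {u : G K}
    (hu : InLevelGroup 𝔫 u) : InLevelGroup 𝔫 (localPart963 v u) := by
  refine ⟨(isLocalAtFin_localPart963 v u).1, fun v' i j => ?_⟩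
  by_cases h : v' = v
  · subst h
    have e1 : finComp v' (localPart963 v' u) = finComp v' u := by
      rw [finComp_eq_coe963, finCompHom_localPart963]
      rfl
    have e2 : finComp v' (localPart963 v' u)⁻¹ = finComp v' u⁻¹ := by
      rw [finComp_eq_coe963, map_inv, finCompHom_localPart963, ← map_inv]
      rfl
    rw [e1, e2]
    exact hu.2 v' i j
  · have e1 : finComp v' (localPart963 v u) = 1 := by
      rw [finComp_eq_coe963, finCompHom_localPart_of_ne963 v u h]
      rfl
    have e2 : finComp v' (localPart963 v u)⁻¹ = 1 := by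
      rw [finComp_eq_coe963, map_inv, finCompHom_localPart_of_ne963 v u h, inv_one]
      rfl
    rw [e1, e2, sub_self]
    exact ⟨zero_mem_idealClosure333 𝔫 v', zero_mem_idealClosure333 𝔫 v'⟩

/-- The rest of an element: trivial at `v`. -/
theorem trivAtFin_rest963 (v : HeightOneSpectrum (𝓞 K)) (u : G K) :
    TrivAtFin v ((localPart963 v u)⁻¹ * u) := by
  rw [trivAtFin_iff129, map_mul, map_inv, finCompHom_localPart963, inv_mul_cancel]

/-- The rest of an element of the level group lies in the level group. -/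
theorem inLevelGroup_rest963 {𝔫 : Ideal (𝓞 K)} (v : HeightOneSpectrum (𝓞 K)) {u : G K}
    (hu : InLevelGroup 𝔫 u) : InLevelGroup 𝔫 ((localPart963 v u)⁻¹ * u) := by
  refine ⟨fun w => trivAtInf_mul963 (trivAtInf_inv963 ((isLocalAtFin_localPart963 v u).1 w))
    (hu.1 w), fun v' i j => ?_⟩
  by_cases h : v' = v
  · subst h
    have e1 : finComp v' ((localPart963 v' u)⁻¹ * u) = 1 := by
      rw [finComp_eq_coe963, map_mul, map_inv, finCompHom_localPart963, inv_mul_cancel]
      rfl
    have e2 : finComp v' ((localPart963 v' u)⁻¹ * u)⁻¹ = 1 := by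
      rw [finComp_eq_coe963, map_inv, map_mul, map_inv, finCompHom_localPart963, inv_mul_cancel,
        inv_one]
      rfl
    rw [e1, e2, sub_self]
    exact ⟨zero_mem_idealClosure333 𝔫 v', zero_mem_idealClosure333 𝔫 v'⟩
  · have e1 : finComp v' ((localPart963 v u)⁻¹ * u) = finComp v' u := by
      rw [finComp_eq_coe963, map_mul, map_inv, finCompHom_localPart_of_ne963 v u h, inv_one,
        one_mul]
      rfl
    have e2 : finComp v' ((localPart963 v u)⁻¹ * u)⁻¹ = finComp v' u⁻¹ := by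
      rw [finComp_eq_coe963, map_inv, map_mul, map_inv, finCompHom_localPart_of_ne963 v u h,
        inv_one, one_mul, ← map_inv]
      rfl
    rw [e1, e2]
    exact hu.2 v' i j

/-! ## 2. The averaging -/

/-- The averaging identity: if every term of the system gives the same pairing. -/
theorem pair_cosetOp963 (hP : PairC K) (F : T2.Frame K) (a h : G K) (H : Finset (G K))
    {f χ : G K → ℂ} (hf : IsAut0 f) (hχ : IsAut0 χ)
    (hterm : ∀ y ∈ H, T2.pair F (rt (a * y) f) χ = T2.pair F (rt (a * h) f) χ) :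
    T2.pair F (rt a (cosetOp H f)) χ = (H.card : ℂ) * T2.pair F (rt (a * h) f) χ := by
  have e : rt a (cosetOp H f) = fun x => ∑ y ∈ H, rt (a * y) f x := by
    funext x
    show ∑ y ∈ H, f (x * a * y) = ∑ y ∈ H, f (x * (a * y))
    refine Finset.sum_congr rfl fun y _ => ?_
    rw [mul_assoc]
  rw [e, pair_sum879 hP F H (fun y => rt (a * y) f) (fun y _ => isAut0_rt (a * y) hf) χ hχ,
    Finset.sum_congr rfl hterm, Finset.sum_const, nsmul_eq_mul]

/-- One term: `y = p (a h) q` with `f` invariant under `q` and `χ` under `p`. -/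
theorem pair_term963 (hP : PairC K) (F : T2.Frame K) {a h p q y : G K} {f χ : G K → ℂ}
    (hf : IsAut0 f) (hχ : IsAut0 χ) (hy : a * y = p * (a * h) * q)
    (hq : ∀ x : G K, f (x * q) = f x) (hp : ∀ x : G K, χ (x * p) = χ x) :
    T2.pair F (rt (a * y) f) χ = T2.pair F (rt (a * h) f) χ := by
  have e1 : rt (a * y) f = rt p (rt (a * h) f) := by
    rw [hy, rt_rt]
    funext x
    show f (x * (p * (a * h) * q)) = f (x * (p * (a * h)))
    rw [← mul_assoc]
    exact hq _
  have e2 : rt p χ = χ := funext fun x => hp x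
  have h3 := (hP F).2.2 p (rt (a * h) f) χ (isAut0_rt (a * h) hf) hχ
  rw [e2] at h3
  rw [e1, h3]

/-- **LEAF `StepBadC`, PROVED** (from `PairC`). -/
theorem stepBadC_of (hP : PairC K) : StepBadC K := by
  intro hcx F 𝔫 r l o C h𝔫 hr ho hC v hv horb a h hav hh H hH f χ hf hχ
  have hfA : IsAut0 f := isAut0_of_isEigFn hcx h𝔫 hC hf
  have hχA : IsAut0 χ := isAut0_of_isEigFn hcx h𝔫 hC hχ
  refine pair_cosetOp963 hP F a h H hfA hχA fun y hy => ?_
  obtain ⟨u₁, u₂, hu₁, hu₂, rfl⟩ := hH.1 y hy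
  have hp := isLocalAtFin_localPart963 v u₁
  have hq := trivAtFin_rest963 v u₁
  have c1 : localPart963 v u₁ * a = a * localPart963 v u₁ := comm_of_local_triv333 hp hav
  have c2 : h * ((localPart963 v u₁)⁻¹ * u₁) = (localPart963 v u₁)⁻¹ * u₁ * h :=
    comm_of_local_triv333 hh hq
  refine pair_term963 hP F (p := localPart963 v u₁)
    (q := (localPart963 v u₁)⁻¹ * u₁ * u₂) hfA hχA ?_ ?_ ?_
  · calc a * (u₁ * h * u₂)
        = a * (localPart963 v u₁ * ((localPart963 v u₁)⁻¹ * u₁ * h) * u₂) := by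
          rw [mul_assoc (localPart963 v u₁)⁻¹ u₁ h, mul_inv_cancel_left]
      _ = a * (localPart963 v u₁ * (h * ((localPart963 v u₁)⁻¹ * u₁)) * u₂) := by rw [c2]
      _ = (a * localPart963 v u₁) * h * ((localPart963 v u₁)⁻¹ * u₁ * u₂) := by
          simp only [mul_assoc]
      _ = (localPart963 v u₁ * a) * h * ((localPart963 v u₁)⁻¹ * u₁ * u₂) := by rw [c1]
      _ = localPart963 v u₁ * (a * h) * ((localPart963 v u₁)⁻¹ * u₁ * u₂) := by
          simp only [mul_assoc]
  · intro x
    rw [← mul_assoc, hf.inv.cusp.aut.level_inv u₂ hu₂,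
      hf.inv.cusp.aut.level_inv _ (inLevelGroup_rest963 v hu₁)]
  · intro x
    exact hχ.inv.cusp.aut.level_inv _ (inLevelGroup_localPart963 v hu₁) x

/-- An Iwahori element at a place of the orbit acts trivially on the class. -/
theorem iw_inv963 {𝔫 : Ideal (𝓞 K)} {r : G K} {l : ℕ} {o : ℕ → HeightOneSpectrum (𝓞 K)}
    {C : EigData K} {f : G K → ℂ} (hf : IsEigFn 𝔫 r l o f C) {j : ℕ} (hj : j < l) {k : G K}
    (hk : IsIwElt (o j) k) (x : G K) : f (x * k) = f x := by
  refine hf.inv.iw k hk.1.1 (fun v hv => hk.1.2 v (hv j hj)) (fun j' hj' => ?_) x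
  by_cases h : o j' = o j
  · rw [h]
    exact hk.2
  · exact inIwahori_of_triv963 (hk.1.2 (o j') h)

/-- **LEAF `StepIwC`, PROVED** (from `PairC`). -/
theorem stepIwC_of (hP : PairC K) : StepIwC K := by
  intro hcx F 𝔫 r l o C h𝔫 hr ho hC j hj a h hav hh H hH f χ hf hχ
  have hfA : IsAut0 f := isAut0_of_isEigFn hcx h𝔫 hC hf
  have hχA : IsAut0 χ := isAut0_of_isEigFn hcx h𝔫 hC hχ
  refine pair_cosetOp963 hP F a h H hfA hχA fun y hy => ?_
  obtain ⟨k₁, k₂, hk₁, hk₂, rfl⟩ := hH.1 y hy
  have c1 : k₁ * a = a * k₁ := comm_of_local_triv333 hk₁.1 hav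
  refine pair_term963 hP F (p := k₁) (q := k₂) hfA hχA ?_ (iw_inv963 hf hj hk₂)
    (iw_inv963 hχ hj hk₁)
  calc a * (k₁ * h * k₂) = (a * k₁) * h * k₂ := by simp only [mul_assoc]
    _ = (k₁ * a) * h * k₂ := by rw [c1]
    _ = k₁ * (a * h) * k₂ := by simp only [mul_assoc]

/-- `StepBadC`, `StepIwC` on the closed station T2.10. -/
theorem stepBadC (K : Type) [Field K] [NumberField K] : StepBadC K := stepBadC_of (pair_uncond K)

theorem stepIwC (K : Type) [Field K] [NumberField K] : StepIwC K := stepIwC_of (pair_uncond K)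

end Fermat.Agent.LT.T7.H963

end
end
-- ===== PACK-END LT/T7/H963/Avg.lean

-- ===== PACK-BEGIN LT/T7/H142/StepSph.lean
section




/-!
# Row LT, tower T7, node `SimpleC`, leaf `StepSphC` of the cut of helper963 (helper142)

OFF-MAIN.  `stepSphC142 K : H963.StepSphC K`, VERBATIM against `LT/T7/H963/Compress.lean`
(helper963), UNCONDITIONAL.

`Φ(x) = ⟨R(a x) f, χ⟩` for `x ∈ GL₂(K_v)` (embedded at `v`, `a` trivial at `v`) is bi-invariant
under `GL₂(𝒪_v)` (`f`, `χ` are invariant under the level group, the pairing is invariant under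
right translations, `a` commutes with the elements supported at `v`), satisfies the Hecke
relation for the standard coset system of helper129 and `Φ(x ϖ) = b_v Φ(x)`.  The local core
`sph_vanish142` (`SphLocal.lean`: Cartan decomposition + recursion) gives `Φ = 0` from `Φ(1) = 0`.
-/

set_option autoImplicit false
set_option linter.unusedSectionVars false
set_option linter.unusedVariables false

open IsDedekindDomain NumberField MeasureTheory AutomorphicForm
open Fermat.Agent.LT.H556.A0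

noncomputable section

namespace Fermat.Agent.LT.T7.H142

open Fermat.Agent.LT.T2.H941 Fermat.Agent.LT.H129 Fermat.Agent.LT.T7.H963 Fermat.Agent.LT.T7

variable {K : Type} [Field K] [NumberField K]

attribute [local instance] Fermat.Agent.LT.T2.borelG

/-- An element which is trivial at `v` commutes with the elements supported at `v`. -/
theorem commute_locFin142 {v : HeightOneSpectrum (𝓞 K)} {a : G K} (ha : TrivAtFin v a)
    (x : GL (Fin 2) (v.adicCompletion K)) : a * locFin129 v x = locFin129 v x * a := by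
  apply G_ext129
  · intro w
    rw [map_mul, map_mul, infCompHom129_locFin129, mul_one, one_mul]
  · intro v'
    by_cases h : v' = v
    · subst h
      rw [map_mul, map_mul, (trivAtFin_iff129 _ a).1 ha, one_mul, mul_one]
    · rw [map_mul, map_mul, finCompHom129_locFin129_of_ne v x h, mul_one, one_mul]

theorem finite_residue142 (v : HeightOneSpectrum (𝓞 K)) : Finite (𝓞 K ⧸ v.asIdeal) := by
  apply Nat.finite_of_card_ne_zero
  rw [← Submodule.cardQuot_apply, ← Ideal.absNorm_apply]
  exact ne_of_gt (lt_trans Nat.zero_lt_one (NumberField.HeightOneSpectrum.one_lt_absNorm v))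

open Classical in
/-- The standard Hecke coset system of helper129, as an explicit finset. -/
theorem isHeckeCosetSystem_std142 (v : HeightOneSpectrum (𝓞 K)) [Fintype (𝓞 K ⧸ v.asIdeal)]
    {π : v.adicCompletion K} (hπ : Valued.v π = WithZero.exp (-1 : ℤ)) :
    Function.Injective (stdHecke129 v π (unif_ne_zero129 v hπ)) ∧
      IsHeckeCosetSystem v (Finset.univ.image (stdHecke129 v π (unif_ne_zero129 v hπ))) := by
  have hinj : Function.Injective (stdHecke129 v π (unif_ne_zero129 v hπ)) := by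
    intro a b hab
    by_contra hne
    apply stdHecke129_not_int v hπ hne
    rw [hab, inv_mul_cancel]
    intro i j
    have : finComp v (1 : G K) = 1 := by
      rw [← coe_finCompHom129, map_one]; rfl
    rw [this]
    by_cases hij : i = j
    · subst hij; simpa using (v.adicCompletionIntegers K).one_mem
    · simpa [hij] using (v.adicCompletionIntegers K).zero_mem
  refine ⟨hinj, ?_, ?_, ?_⟩
  · rw [Finset.card_image_of_injective _ hinj, Finset.card_univ, Fintype.card_option,
      Ideal.absNorm_apply, Submodule.cardQuot_apply, Nat.card_eq_fintype_card]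
  · intro h hh
    obtain ⟨a, -, rfl⟩ := Finset.mem_image.mp hh
    exact stdHecke129_props v hπ a
  · intro h hh h' hh' hne
    obtain ⟨a, -, rfl⟩ := Finset.mem_image.mp hh
    obtain ⟨b, -, rfl⟩ := Finset.mem_image.mp hh'
    exact stdHecke129_not_int v hπ (fun e => hne (by rw [e]))

variable (K)

/-- **LEAF `StepSphC`** (the spherical function at an unramified place). -/
theorem stepSphC142 : StepSphC K := by
  classical
  intro hcx F 𝔫 r l o C h𝔫 hr ho hC v hv a h hav hh f χ hf hχ h0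
  obtain ⟨π, hπ⟩ := exists_unif129 v
  have hπ0 := unif_ne_zero129 v hπ
  haveI : Finite (𝓞 K ⧸ v.asIdeal) := finite_residue142 v
  letI : Fintype (𝓞 K ⧸ v.asIdeal) := Fintype.ofFinite _
  obtain ⟨hadd, -, hinv⟩ := pair_uncond K F
  have hfA : IsAut0 f := isAut0_of_isEigFn hcx h𝔫 hC hf
  have hχA : IsAut0 χ := isAut0_of_isEigFn hcx h𝔫 hC hχ
  have hflev : ∀ u : G K, InLevelGroup 𝔫 u → ∀ g : G K, f (g * u) = f g :=
    hf.inv.cusp.aut.level_inv
  have hχlev : ∀ u : G K, InLevelGroup 𝔫 u → ∀ g : G K, χ (g * u) = χ g :=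
    hχ.inv.cusp.aut.level_inv
  -- `GL₂(𝒪_v)` lies in the level group
  have hK : ∀ k : GL (Fin 2) (v.adicCompletion K),
      IsMaxCpt129 (v.adicCompletionIntegers K) k → InLevelGroup 𝔫 (locFin129 v k) := by
    intro k hk
    apply inLevelGroup_of_localMaxCpt129 hv
    refine ⟨isLocalAtFin_locFin129 v k, ?_, ?_⟩
    · rw [← isInt129_finCompHom_iff, finCompHom129_locFin129]
      exact hk.1
    · rw [← map_inv, ← isInt129_finCompHom_iff, finCompHom129_locFin129]
      exact hk.2
  set Φ : GL (Fin 2) (v.adicCompletion K) → ℂ :=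
    fun x => T2.pair F (rt (a * locFin129 v x) f) χ with hΦ
  have hR : ∀ x k, IsMaxCpt129 (v.adicCompletionIntegers K) k → Φ (x * k) = Φ x := by
    intro x k hk
    have e : rt (a * locFin129 v (x * k)) f = rt (a * locFin129 v x) f := by
      funext y
      simp only [rt, map_mul]
      have h1 := hflev _ (hK k hk) (y * (a * locFin129 v x))
      rw [← h1]
      congr 1
      group
    simp only [hΦ, e]
  have hL : ∀ x k, IsMaxCpt129 (v.adicCompletionIntegers K) k → Φ (k * x) = Φ x := by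
    intro x k hk
    have e : a * locFin129 v (k * x) = locFin129 v k * (a * locFin129 v x) := by
      rw [map_mul, ← mul_assoc, commute_locFin142 hav k, mul_assoc]
    have hχ' : rt (locFin129 v k) χ = χ := by
      funext y
      exact hχlev _ (hK k hk) y
    have h1 := hinv (locFin129 v k) (rt (a * locFin129 v x) f) χ (isAut0_rt _ hfA) hχA
    rw [hχ', rt_rt] at h1
    simp only [hΦ, e]
    exact h1
  obtain ⟨hinj, hH⟩ := isHeckeCosetSystem_std142 v hπ
  set A : ℂ := ((Real.sqrt (Ideal.absNorm v.asIdeal : ℝ) : ℝ) : ℂ) * C.a v with hA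
  have hT : ∀ x, (∑ c : 𝓞 K ⧸ v.asIdeal, Φ (x * up142 v π (rep129 v c) hπ0))
      + Φ (x * dg142 v 1 π one_ne_zero hπ0) = A * Φ x := by
    intro x
    have hfun : (fun y => A * rt (a * locFin129 v x) f y)
        = fun y => ∑ o ∈ (Finset.univ : Finset (Option (𝓞 K ⧸ v.asIdeal))),
            (1 : ℂ) * rt (a * locFin129 v x * stdHecke129 v π hπ0 o) f y := by
      funext y
      simp only [rt, one_mul]
      have h1 := (hf.hecke v hv).1 _ hH (y * (a * locFin129 v x))
      rw [Finset.sum_image (fun o _ o' _ h => hinj h)] at h1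
      rw [← h1]
      refine Finset.sum_congr rfl fun o _ => ?_
      rw [mul_assoc]
    have h2 : A * Φ x = T2.pair F (fun y => A * rt (a * locFin129 v x) f y) χ :=
      (pair_smul_left F A _ χ).symm
    rw [h2, hfun, pair_sum_left F hadd Finset.univ (fun _ => 1) _ (fun o => isAut0_rt _ hfA)
      χ hχA]
    simp only [one_mul]
    rw [Fintype.sum_option, add_comm]
    congr 1
    · simp only [hΦ, map_mul, mul_assoc]
      rfl
    · refine Finset.sum_congr rfl fun c _ => ?_
      simp only [hΦ, map_mul, mul_assoc]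
      rfl
  have hS : ∀ x, Φ (x * dg142 v π π hπ0 hπ0) = C.b v * Φ x := by
    intro x
    have hz : IsScalarUniformizerAt v (locFin129 v (dg142 v π π hπ0 hπ0)) := by
      refine ⟨isLocalAtFin_locFin129 v _, π, hπ, ?_⟩
      rw [finComp_locFin129, coe_dg142]
      ext i j
      fin_cases i <;> fin_cases j <;> simp
    have e : rt (a * locFin129 v (x * dg142 v π π hπ0 hπ0)) f
        = fun y => C.b v * rt (a * locFin129 v x) f y := by
      funext y
      simp only [rt, map_mul]
      have h1 := (hf.hecke v hv).2 _ hz (y * (a * locFin129 v x))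
      rw [← h1]
      congr 1
      group
    simp only [hΦ, e]
    exact pair_smul_left F (C.b v) _ χ
  have h1 : Φ 1 = 0 := by
    simp only [hΦ, map_one, mul_one]
    exact h0
  have key := sph_vanish142 hπ Φ A (C.b v) hR hL hT hS h1 (finCompHom129 v h)
  simp only [hΦ] at key
  rw [← eq_locFin129_of_isLocalAtFin hh] at key
  exact key

end Fermat.Agent.LT.T7.H142

end

end
-- ===== PACK-END LT/T7/H142/StepSph.lean

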