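import Mathlib
import Fermat.Agent.Pack.LT4.E2L1
import Fermat.Agent.Pack.LT3.E21L3
import Fermat.Agent.Pack.LT2.E16L2
import Fermat.Agent.Pack.LT4.E2L3
import Fermat.Agent.Pack.LT3.E3L0
import Fermat.Agent.Pack.LT3.E22L1
import Fermat.Agent.Pack.LT4.E2L2
import Fermat.Agent.Pack.LT3.E25L3
import Fermat.Agent.Pack.LT3.E21L0
import Fermat.Agent.Pack.LT3.E2L2
import Fermat.Agent.Pack.LT4.E0L3
import Fermat.Agent.Pack.LT4.E2L0
import Fermat.Agent.Pack.LT2.E2L0
import Fermat.Agent.Pack.LT2.E7L3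
import Fermat.Agent.Pack.LT4.E1L0
import Fermat.Agent.Pack.LT4.E1L3
import Fermat.Agent.Pack.LT3.E22L0
import Fermat.Agent.Pack.LT3.E24L1
import Fermat.Agent.Pack.LT3.E22L3
import Fermat.Agent.Pack.LT3.E22L2

set_option linter.all false

-- ===== PACK-BEGIN LT/T7/H930/RsigL2B.lean
section




/-!
# Row LT, asset T7.M3 (helper930): `R(σ)` for BASE-STABLE data (vocabulary of helper736)

OFF-MAIN.  ADDITIVE to `T7/H930/RsigL2.lean` (asset T7.M2, unchanged).  Vocabulary: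
`T7/H736/SpecUp.lean` (helper736@c1525b2e3, sha256 faf14765e064a5d6: `BaseStable`, `SupplyCS`,
`SpecUpCS`, `ExpUpC`, `NonVanC`), `T7/Level2.lean`, `T7/Level2S.lean` (helper797); byte-identical
copies.  UNCONDITIONAL.

## For ALL data of level 2 (no stability hypothesis)

* `l2_dvd_pull930`, `l2_mem_S'_pull_all930` : the prime divisors of `𝔑₀` (= the set `S'`) are
  `σ`-stable (because `S'` is also the set of the prime divisors of `𝔑_1 = (𝔫 1) 𝒪_{K'}`);
* `l2_isBad_onG_all930` : `σ` preserves the elements supported at the bad places;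
* **`l2_agreeOut_move_all930`** : the class of `Φ` is `σ`-stable;
* `l2_isCuspFn_Rsig930` : `R(σ)` preserves the cusp functions of level `𝔑_g`.

## For base-stable data (`hB : SU736.BaseStable Dt`)

* `l2B_isWFn_Rsig930`, `l2B_isWFn_RsigInv930` : `R(σ)`, `R(σ)⁻¹` preserve `W₀ = IsWFn 𝔑₀`;
* `l2B_isEigFn_Rsig930` : eigen-data `C ↦ C ∘ σ⁻¹`; **`l2B_class_Rsig930`** : `R(σ)` preserves
  the class space of `Φ` (`IsEigFn … ψ (eigOf Φ) → IsEigFn … (R(σ) ψ) (eigOf Φ)`);
* `l2B_innerD_Rsig930` : `R(σ)` is unitary on `W₀`;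
* **`l2B_orth_Rsig930`** : `R(σ)` preserves `W₀^⊥`; **`l2B_zero_out930`** : THE FIELD `zero_out`
  of `SU736.IsUpBasis`: `ψ ⊥ W₀ ⇒ diagCoeff (φ' g X k m) ψ = 0` (`kill_up`);
* `l2B_op_up_Rsig930`, `l2B_diagCoeff930` :
  `⟨R(φ' g X k m) R(σ) ψ, ψ⟩ = X(σC) · c_g(σC) · ⟨[U g U] Z^k 𝒰^m R(σ) ψ, ψ⟩`;
* `l2B_systems_onG930` : the systems of representatives moved by `σ`.

## Bridges (helper797 `Level2S.lean` ↔ helper736 `SpecUp.lean`)

* `baseStable_of_isStable930 : IsL2Data ℓ Φ Dt → Dt.IsStable → BaseStable Dt`;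
* `supplyCS_of_supplySC930 : SupplySC P K K' → SupplyCS P K K'`;
* `specUpSC_of_specUpCS930 : SpecUpCS K K' → SpecUpSC K K'`;
* `traceWordsRegP_of_nodes930 : SupplySC → ExpUpC → NonVanC → SpecDownC → SpecIdC
  → TraceWordsRegP P K K'`.
-/

set_option autoImplicit false

open AutomorphicForm IsDedekindDomain NumberField MeasureTheory
open scoped MatrixGroups ComplexConjugate

noncomputable section

namespace Fermat.Agent.LT.T7.H930

open Fermat.Agent.LT.H556 Fermat.Agent.LT.H556.A0 Fermat.Agent.LT.T1.H930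
open Fermat.Agent.LT.T7 Fermat.Agent.LT.T5

attribute [local instance] Fermat.Agent.LT.T5.instMeasurableSpaceG

/-! ## 1. One field -/

section OneField

variable {K : Type} [Field K] [NumberField K]

/-- `IsEigFn` only depends on the eigen-data at the places prime to the level and at the
positive radii. -/
theorem isEigFn_congr930 {𝔫 : Ideal (𝓞 K)} {r : G K} {l : ℕ} {o : ℕ → HeightOneSpectrum (𝓞 K)}
    {ψ : G K → ℂ} {C C' : EigData K} (h : IsEigFn 𝔫 r l o ψ C)
    (hab : ∀ v : HeightOneSpectrum (𝓞 K), ¬ v.asIdeal ∣ 𝔫 → C.a v = C'.a v ∧ C.b v = C'.b v)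
    (hm : ∀ (w : InfinitePlace K) (d : ℝ), 0 < d → C.m w d = C'.m w d) :
    IsEigFn 𝔫 r l o ψ C' where
  inv := h.inv
  hecke v hv := by
    rw [← (hab v hv).1, ← (hab v hv).2]
    exact h.hecke v hv
  mean w := by
    intro d hd Y hY g
    rw [← hm w d hd]
    exact h.mean w d hd Y hY g

/-- `isEigFn_Rsig930` with the stability of the divisors of the level as hypothesis. -/
theorem isEigFn_Rsig_of_dvd930 {s : AdelicAut K} {𝔫 : Ideal (𝓞 K)} {μ : Measure (G K)}
    {r : G K}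
    (hdvd : ∀ v : HeightOneSpectrum (𝓞 K), (finPull930 s.σ v).asIdeal ∣ 𝔫 ↔ v.asIdeal ∣ 𝔫)
    (hP : AutPreserves s 𝔫 μ r) (l : ℕ) (o : ℕ → HeightOneSpectrum (𝓞 K))
    (h₁ : ∀ j < l, ∃ j' < l, finImg930 s (o j) = o j')
    (h₂ : ∀ j < l, ∃ j' < l, finPull930 s.σ (o j) = o j') {ψ : G K → ℂ} {C : EigData K}
    (h : IsEigFn 𝔫 r l o ψ C) : IsEigFn 𝔫 r l o (Rsig s ψ) (eigMove930 s C) where
  inv := isWFn_Rsig930 hP l o h₁ h₂ h.inv
  hecke v hv :=
    (isHeckeEigenAt_Rsig930 s (placeRel_finPull_self930 s v) ψ _ _).2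
      (h.hecke _ (fun hd => hv ((hdvd v).1 hd)))
  mean w := by
    have hinv : ∀ k : G K, IsArchCompact (infPull930 s.σ w) k → ∀ g : G K, ψ (g * k) = ψ g := by
      intro k hk g
      have := h.inv.cusp.aut.arch_compact _ k hk g
      rw [this]
      exact one_mul _
    have h1 := (meanEigC_Rsig930 s (infPull930 s.σ w) ψ hinv (C.m (infPull930 s.σ w))).2
      ((meanEig_iff930 _ _ _).1 (h.mean (infPull930 s.σ w)))
    rw [infImg930_pull] at h1
    exact (meanEig_iff930 _ _ _).2 h1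

/-- `R(σ)⁻¹` preserves the invariant cusp functions. -/
theorem isWFn_RsigInv930 {s : AdelicAut K} {𝔫 : Ideal (𝓞 K)} {μ : Measure (G K)} {r : G K}
    (hP : AutPreserves s 𝔫 μ r) (l : ℕ) (o : ℕ → HeightOneSpectrum (𝓞 K))
    (h₁ : ∀ j < l, ∃ j' < l, finImg930 s (o j) = o j')
    (h₂ : ∀ j < l, ∃ j' < l, finPull930 s.σ (o j) = o j') {ψ : G K → ℂ}
    (h : IsWFn 𝔫 r l o ψ) : IsWFn 𝔫 r l o (Rsig (invAut930 s) ψ) :=
  isWFn_Rsig930 (autPreserves_invAut930 hP) l o h₂ h₁ h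

end OneField

/-! ## 2. The data of level 2 with `BaseStable` (vocabulary of helper736) -/

section L2

open Fermat.Agent.LT.T7.SU736

variable {K K' : Type} [Field K] [NumberField K] [Field K'] [NumberField K'] [Algebra K K']
variable {ℓ : ℕ} {Φ : HeckeEigensystem K' ℂ} {Dt : L2Data K K'}

/-- The level `𝔑_1 = (𝔫 1) 𝒪_{K'}` is `σ`-stable. -/
theorem l2_level_one_stable930 (h : IsL2Data ℓ Φ Dt) :
    (Dt.𝔑 1).map (RingOfIntegers.mapRingEquiv Dt.s.σ) = Dt.𝔑 1 :=
  map_level_stable_of_fixes930 Dt.s.σ (l2_fixes930 h) (Dt.𝔫 1)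

/-- **The set of the prime divisors of the base level is `σ`-stable**, for ALL data of level 2
(no stability hypothesis: `S'` is also the set of the prime divisors of `𝔑_1`). -/
theorem l2_dvd_pull930 (h : IsL2Data ℓ Φ Dt) (v : HeightOneSpectrum (𝓞 K')) :
    (finPull930 Dt.s.σ v).asIdeal ∣ Dt.𝔑₀ ↔ v.asIdeal ∣ Dt.𝔑₀ := by
  rw [← h.mem_S', ← h.mem_S', h.mem_S'_g 1 (isBad_one930 Dt), h.mem_S'_g 1 (isBad_one930 Dt)]
  exact dvd_finPull930_iff Dt.s (l2_level_one_stable930 h) v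

/-- The set `S'` is `σ`-stable, for ALL data of level 2. -/
theorem l2_mem_S'_pull_all930 (h : IsL2Data ℓ Φ Dt) (w : HeightOneSpectrum (𝓞 K')) :
    finPull930 Dt.s.σ w ∈ Dt.S' ↔ w ∈ Dt.S' := by
  rw [h.mem_S', h.mem_S']
  exact l2_dvd_pull930 h w

theorem l2_mem_S'_img_all930 (h : IsL2Data ℓ Φ Dt) (w : HeightOneSpectrum (𝓞 K')) :
    finImg930 Dt.s w ∈ Dt.S' ↔ w ∈ Dt.S' := by
  have h1 := l2_mem_S'_pull_all930 h (finImg930 Dt.s w)
  have h2 : finPull930 Dt.s.σ (finImg930 Dt.s w) = w := finPull930_symm Dt.s.σ w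
  rw [h2] at h1
  exact h1.symm

/-- `σ` preserves the elements supported at the bad places, for ALL data of level 2. -/
theorem l2_isBad_onG_all930 (h : IsL2Data ℓ Φ Dt) {g : G K'} (hg : Dt.IsBad g) :
    Dt.IsBad (Dt.s.onG g) := by
  refine ⟨fun w => ?_, fun v hv => ?_⟩
  · rw [trivAtInf_onG930]
    exact hg.1 _
  · rw [trivAtFin_onG930]
    refine hg.2 _ ?_
    rcases hv with hv | ⟨j, hj, rfl⟩
    · exact Or.inl (fun hm => hv ((l2_mem_S'_pull_all930 h v).1 hm))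
    · obtain ⟨j', hj', e⟩ := l2_orbit_pull930 h j (h.deg ▸ hj)
      exact Or.inr ⟨j', h.deg.symm ▸ hj', e⟩

/-- `Dt.IsStable` (helper797) implies `BaseStable` (helper736). -/
theorem baseStable_of_isStable930 (h : IsL2Data ℓ Φ Dt) (hst : Dt.IsStable) : BaseStable Dt :=
  l2_baseAut930 h hst

/-- **`R(σ)` preserves the invariant cusp functions of the base level.** -/
theorem l2B_isWFn_Rsig930 (h : IsL2Data ℓ Φ Dt) (hB : BaseStable Dt) {ψ : G K' → ℂ}
    (hψ : IsWFn Dt.𝔑₀ Dt.R'.r ℓ Dt.o ψ) : IsWFn Dt.𝔑₀ Dt.R'.r ℓ Dt.o (Rsig Dt.s ψ) :=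
  isWFn_Rsig930 hB ℓ Dt.o (l2_orbit_img930 h) (l2_orbit_pull930 h) hψ

/-- **`R(σ)⁻¹` preserves the invariant cusp functions of the base level.** -/
theorem l2B_isWFn_RsigInv930 (h : IsL2Data ℓ Φ Dt) (hB : BaseStable Dt) {ψ : G K' → ℂ}
    (hψ : IsWFn Dt.𝔑₀ Dt.R'.r ℓ Dt.o ψ) :
    IsWFn Dt.𝔑₀ Dt.R'.r ℓ Dt.o (Rsig (invAut930 Dt.s) ψ) :=
  isWFn_RsigInv930 hB ℓ Dt.o (l2_orbit_img930 h) (l2_orbit_pull930 h) hψ

/-- **`R(σ)` moves the eigen-data of the eigenfunctions of the base level.** -/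
theorem l2B_isEigFn_Rsig930 (h : IsL2Data ℓ Φ Dt) (hB : BaseStable Dt) {ψ : G K' → ℂ}
    {C : EigData K'} (hψ : IsEigFn Dt.𝔑₀ Dt.R'.r ℓ Dt.o ψ C) :
    IsEigFn Dt.𝔑₀ Dt.R'.r ℓ Dt.o (Rsig Dt.s ψ) (eigMove930 Dt.s C) :=
  isEigFn_Rsig_of_dvd930 (l2_dvd_pull930 h) hB ℓ Dt.o (l2_orbit_img930 h) (l2_orbit_pull930 h)
    hψ

/-- **`R(σ)` is unitary on the invariant cusp functions of the base level.** -/
theorem l2B_innerD_Rsig930 (h : IsL2Data ℓ Φ Dt) (hB : BaseStable Dt) {ψ χ : G K' → ℂ}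
    (hψ : IsWFn Dt.𝔑₀ Dt.R'.r ℓ Dt.o ψ) (hχ : IsWFn Dt.𝔑₀ Dt.R'.r ℓ Dt.o χ) :
    innerD Dt.R'.μ Dt.R'.F (Rsig Dt.s ψ) (Rsig Dt.s χ) = innerD Dt.R'.μ Dt.R'.F ψ χ :=
  innerD_Rsig_cusp930 (l2_frame930 h).frame hB hψ.cusp hχ.cusp

/-- **The class of `Φ` is `σ`-stable**, for ALL data of level 2. -/
theorem l2_agreeOut_move_all930 (h : IsL2Data ℓ Φ Dt) {C : EigData K'}
    (hC : C.AgreeOut Dt.S' (eigOf Φ)) : (eigMove930 Dt.s C).AgreeOut Dt.S' (eigOf Φ) := by
  refine ⟨fun w hw => ?_, fun w d hd => hC.2 _ d hd⟩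
  have hw' : finPull930 Dt.s.σ w ∉ Dt.S' := fun hm => hw ((l2_mem_S'_pull_all930 h w).1 hm)
  obtain ⟨v, hv⟩ := exists_placeUnder930 (K := K) w
  have hc := h.const (finPull930 Dt.s.σ w) hw' w hw v
    (placeOver_finPull930 Dt.s.σ (l2_fixes930 h) v w hv) hv
  have h1 := hC.1 (finPull930 Dt.s.σ w) hw'
  exact ⟨h1.1.trans hc.1, h1.2.trans hc.2⟩

/-- **`R(σ)` preserves the class space of `Φ` at the base level.** -/
theorem l2B_class_Rsig930 (h : IsL2Data ℓ Φ Dt) (hB : BaseStable Dt) {ψ : G K' → ℂ}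
    (hψ : IsEigFn Dt.𝔑₀ Dt.R'.r ℓ Dt.o ψ (eigOf Φ)) :
    IsEigFn Dt.𝔑₀ Dt.R'.r ℓ Dt.o (Rsig Dt.s ψ) (eigOf Φ) := by
  have h1 := l2B_isEigFn_Rsig930 h hB hψ
  have h2 : (eigMove930 Dt.s (eigOf Φ)).AgreeOut Dt.S' (eigOf Φ) :=
    l2_agreeOut_move_all930 h ⟨fun _ _ => ⟨rfl, rfl⟩, fun _ _ _ => rfl⟩
  refine isEigFn_congr930 h1 (fun v hv => ?_) (fun w d hd => h2.2 w d hd)
  exact h2.1 v (fun hm => hv ((h.mem_S' v).1 hm))

/-- **(OP-up) after `R(σ)`**, for base-stable data. -/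
theorem l2B_op_up_Rsig930 (h : IsL2Data ℓ Φ Dt) (hB : BaseStable Dt) (g : G K')
    (X : List (Gen K')) (k : ℤ) (m : ℕ) (hg : Dt.IsBad g) (hX : ∀ x ∈ X, x.Out Dt.S')
    {ψ : G K' → ℂ} {C : EigData K'} (hψ : IsEigFn Dt.𝔑₀ Dt.R'.r ℓ Dt.o ψ C)
    (Hg H : Finset (G K')) (z : G K') (hHg : IsDblCosetSystem Dt.𝔑₀ g Hg)
    (hH : IsIwCosetSystem (Dt.o 0) H) (hz : IsScalarUniformizerAt (Dt.o 0) z) (x : G K') :
    Rconv Dt.R'.μ (Dt.φ' g X k m) (Rsig Dt.s ψ) x
      = wordEv X (eigMove930 Dt.s C) * Dt.c g (eigMove930 Dt.s C)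
        * cosetOp Hg (shiftOp z k ((iwOp (Dt.o 0) H)^[m] (Rsig Dt.s ψ))) x :=
  h.op_up g X k m hg hX (Rsig Dt.s ψ) (eigMove930 Dt.s C) (l2B_isEigFn_Rsig930 h hB hψ) Hg H z
    hHg hH hz x

/-- **The diagonal coefficient** of an eigenfunction of the base level, for base-stable data:
`⟨R(φ' g X k m) R(σ) ψ, ψ⟩ = X(σC) · c_g(σC) · ⟨[U g U] Z^k 𝒰^m R(σ) ψ, ψ⟩`. -/
theorem l2B_diagCoeff930 (h : IsL2Data ℓ Φ Dt) (hB : BaseStable Dt) (g : G K')
    (X : List (Gen K')) (k : ℤ) (m : ℕ) (hg : Dt.IsBad g) (hX : ∀ x ∈ X, x.Out Dt.S')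
    {ψ : G K' → ℂ} {C : EigData K'} (hψ : IsEigFn Dt.𝔑₀ Dt.R'.r ℓ Dt.o ψ C)
    (Hg H : Finset (G K')) (z : G K') (hHg : IsDblCosetSystem Dt.𝔑₀ g Hg)
    (hH : IsIwCosetSystem (Dt.o 0) H) (hz : IsScalarUniformizerAt (Dt.o 0) z) :
    diagCoeff Dt.s Dt.R'.μ Dt.R'.F (Dt.φ' g X k m) ψ
      = wordEv X (eigMove930 Dt.s C) * Dt.c g (eigMove930 Dt.s C)
        * innerD Dt.R'.μ Dt.R'.F
            (cosetOp Hg (shiftOp z k ((iwOp (Dt.o 0) H)^[m] (Rsig Dt.s ψ)))) ψ := by
  show (∫ x in Dt.R'.F, Rconv Dt.R'.μ (Dt.φ' g X k m) (Rsig Dt.s ψ) x * conj (ψ x) ∂Dt.R'.μ)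
    = wordEv X (eigMove930 Dt.s C) * Dt.c g (eigMove930 Dt.s C)
      * ∫ x in Dt.R'.F, cosetOp Hg (shiftOp z k ((iwOp (Dt.o 0) H)^[m] (Rsig Dt.s ψ))) x
          * conj (ψ x) ∂Dt.R'.μ
  rw [← MeasureTheory.integral_const_mul]
  refine MeasureTheory.integral_congr_ae (Filter.Eventually.of_forall fun x => ?_)
  show Rconv Dt.R'.μ (Dt.φ' g X k m) (Rsig Dt.s ψ) x * conj (ψ x) = _
  rw [l2B_op_up_Rsig930 h hB g X k m hg hX hψ Hg H z hHg hH hz x]
  ring

/-- `R(σ)` preserves the cusp functions of the level `𝔑_g`, `g` bad. -/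
theorem l2_isCuspFn_Rsig930 (h : IsL2Data ℓ Φ Dt) {g : G K'} (hg : Dt.IsBad g)
    {ψ : G K' → ℂ} (hψ : IsCuspFn (Dt.𝔑 g) trivType Dt.R'.r ψ) :
    IsCuspFn (Dt.𝔑 g) trivType Dt.R'.r (Rsig Dt.s ψ) :=
  isCuspFn_Rsig930 (h.comp g hg).aut (trivType_invariant930 Dt.s) hψ

/-- **`R(σ)` preserves the orthogonal complement of the invariant cusp functions.** -/
theorem l2B_orth_Rsig930 (h : IsL2Data ℓ Φ Dt) (hB : BaseStable Dt) {g : G K'}
    {ψ : G K' → ℂ} (hψ : IsCuspFn (Dt.𝔑 g) trivType Dt.R'.r ψ)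
    (horth : ∀ χ : G K' → ℂ, IsWFn Dt.𝔑₀ Dt.R'.r ℓ Dt.o χ →
      innerD Dt.R'.μ Dt.R'.F ψ χ = 0)
    (χ : G K' → ℂ) (hχ : IsWFn Dt.𝔑₀ Dt.R'.r ℓ Dt.o χ) :
    innerD Dt.R'.μ Dt.R'.F (Rsig Dt.s ψ) χ = 0 := by
  have hχ' := l2B_isWFn_RsigInv930 h hB hχ
  have h1 := innerD_Rsig930 (l2_frame930 h).frame hB hψ.cont hχ'.cusp.cont hψ.aut.left_inv
    hχ'.cusp.aut.left_inv
  rw [Rsig_Rsig_invAut930] at h1
  rw [h1]
  exact horth _ hχ'

/-- **The field `zero_out` of `IsUpBasis`**: the diagonal coefficient of a cusp function of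
level `𝔑_g` orthogonal to the invariant cusp functions of the base level vanishes. -/
theorem l2B_zero_out930 (h : IsL2Data ℓ Φ Dt) (hB : BaseStable Dt) {g : G K'}
    (hg : Dt.IsBad g) (X : List (Gen K')) (k : ℤ) (m : ℕ) (hX : ∀ x ∈ X, x.Out Dt.S')
    {ψ : G K' → ℂ} (hψ : IsCuspFn (Dt.𝔑 g) trivType Dt.R'.r ψ)
    (horth : ∀ χ : G K' → ℂ, IsWFn Dt.𝔑₀ Dt.R'.r ℓ Dt.o χ →
      innerD Dt.R'.μ Dt.R'.F ψ χ = 0) :
    diagCoeff Dt.s Dt.R'.μ Dt.R'.F (Dt.φ' g X k m) ψ = 0 := by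
  have hk := h.kill_up g X k m hg hX (Rsig Dt.s ψ) (l2_isCuspFn_Rsig930 h hg hψ)
    (l2B_orth_Rsig930 h hB hψ horth)
  show (∫ x in Dt.R'.F, Rconv Dt.R'.μ (Dt.φ' g X k m) (Rsig Dt.s ψ) x * conj (ψ x) ∂Dt.R'.μ) = 0
  have h0 : (fun x => Rconv Dt.R'.μ (Dt.φ' g X k m) (Rsig Dt.s ψ) x * conj (ψ x))
      = fun _ => (0 : ℂ) := by
    funext x
    rw [hk x, zero_mul]
  rw [h0, MeasureTheory.integral_zero]

/-- The moved systems, for base-stable data. -/
theorem l2B_systems_onG930 (h : IsL2Data ℓ Φ Dt) (hB : BaseStable Dt) {g : G K'}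
    {Hg H : Finset (G K')} {z : G K'} (hHg : IsDblCosetSystem Dt.𝔑₀ g Hg)
    (hH : IsIwCosetSystem (Dt.o 0) H) (hz : IsScalarUniformizerAt (Dt.o 0) z) :
    IsDblCosetSystem Dt.𝔑₀ (Dt.s.onG g) (imgSet930 Dt.s Hg) ∧
      IsIwCosetSystem (Dt.o 1) (imgSet930 Dt.s H) ∧
      IsScalarUniformizerAt (Dt.o 1) (Dt.s.onG z) := by
  have e := orbit_succ930 Dt.s Dt.o h.orbit_rel 0
  refine ⟨isDblCosetSystem_onG930 Dt.s hB.level g Hg hHg, ?_, ?_⟩
  · have := isIwCosetSystem_onG930 Dt.s (Dt.o 0) H hH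
    rw [e] at this
    exact this
  · have := isScalarUniformizerAt_onG930 Dt.s (Dt.o 0) z hz
    rw [e] at this
    exact this

end L2

/-! ## 3. Bridges between the stable forms of helper797 and of helper736 -/

section Bridges

open Fermat.Agent.LT.T7.SU736

variable {P : EKCond}
variable {K K' : Type} [Field K] [NumberField K] [Field K'] [NumberField K'] [Algebra K K']

/-- `SupplySC` (helper797, `Level2S.lean`) implies `SupplyCS` (helper736, `SpecUp.lean`). -/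
theorem supplyCS_of_supplySC930 (h : SupplySC P K K') : SupplyCS P K K' :=
  fun ℓ hcyc hℓ hcplx Φ hΦ hconst hP =>
    let ⟨Dt, hDt, hst⟩ := h ℓ hcyc hℓ hcplx Φ hΦ hconst hP
    ⟨Dt, hDt, baseStable_of_isStable930 hDt hst⟩

/-- `SpecUpCS` (helper736) implies `SpecUpSC` (helper797). -/
theorem specUpSC_of_specUpCS930 (h : SpecUpCS K K') : SpecUpSC K K' :=
  fun ℓ hcyc hℓ hcplx Φ hΦ hconst Dt hDt hst =>
    h ℓ hcyc hℓ hcplx Φ hΦ hconst Dt hDt (baseStable_of_isStable930 hDt hst)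

/-- **The assembly of level 2 from the stable supply of helper797 and the nodes of helper736.** -/
theorem traceWordsRegP_of_nodes930 (hS : SupplySC P K K') (hE : ExpUpC K K')
    (hN : NonVanC K K') (hD : SpecDownC K K') (hI : SpecIdC K K') : TraceWordsRegP P K K' :=
  Fermat.Agent.LT.T7.traceWordsRegP_ofS hS (specUpSC_of_specUpCS930 (specUpCS_of hE hN)) hD hI

end Bridges

end Fermat.Agent.LT.T7.H930

end
end
-- ===== PACK-END LT/T7/H930/RsigL2B.lean

-- ===== PACK-BEGIN LT/T7/H963/Simple.lean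
section




/-!
# Row LT, tower T7, node T7.L2.2 SPEC-UP: MULTIPLICITY ONE IN MODULE FORM (helper963, OFF-MAIN)

ADDITIVE.  Vocabulary: A0, `T7/Level2.lean` (helper797@819237e8b), `T2/H941` (helper941@0e890d1ec),
byte-identical copies.  Consumer: `T7/H616/RegTrace3.lean` (hypothesis `hirr`), leaf-node
`NonVanC` of the cut of helper736.

## The statement

`SimpleC K`: `K` totally complex, `𝔫 ≠ ⊥` a level, `r` the generator of the discrete ray,
`o 0, …, o (l-1)` places dividing `𝔫`, `C` eigen-data which are spherical of parameter `0` at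
infinity.  (All leaves carry these hypotheses: for a field with a real place `MeanEig` is vacuous
at the real place and `ClassFinC`, `CompressC` would be false; for an arbitrary `r` the operators
need not preserve the invariance under `r`.)  The CLASS `V_C` = the functions `ψ` with
`IsEigFn 𝔫 r l o ψ C` (cusp functions of level `U(𝔫)`, Iwahori-invariant along the orbit, joint
eigenfunctions outside `𝔫` and at infinity).  For `ψ ≠ 0` and `ψ'` in the class, `ψ'` is REACHED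
from `ψ` (`Reach`): it is obtained from `ψ` by finitely many linear combinations and operators

* `cosetOp H`, `H` a full system of representatives of `U(𝔫) g U(𝔫) / U(𝔫)`, `g` BAD
  (`IsBadAt`: trivial at infinity, outside `𝔫` and along the orbit);
* `cosetOp H`, `H` a full system of representatives of `I h I / I` at a place `o j` of the orbit
  (`IsIwDblSystem`; ALL double cosets of the Iwahori subgroup: the commutative algebra generated
  by `𝒰` and `Z` does not act irreducibly on the Iwahori invariants).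

So a set of functions which contains a non-zero function of the class and is stable under linear
combinations and these operators contains the class: `hirr` of `RegTrace3`.

TRUE: the class is `π^{U♮}` for ONE cuspidal representation `π = ⊗ π_v` (strong multiplicity one
and multiplicity one), `U♮ = ∏_{v bad} U(𝔫)_v × ∏_j I_{o j}`, and `π_v^{U_v}` is a simple module
of the Hecke algebra of `(GL₂(K_v), U_v)` for an irreducible `π_v`.

## The cut (PROVED top `simpleC_of`)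

    simpleC_of : (K totally complex) → T2.FrameExists K → PairC K → ClassFinC K → ClassLinC K →
        ClassOpC K → MatchPC K P → CompressC K P → SimpleC K

for ANY set `P` of elements of `GL₂(𝔸_K)`.  Two instances:

* `P = everything`: `MatchPC` is `T2.H941.MatchC` (CLOSED, helper941) + a prime outside the level
  (`GoodPrimeC`): `simpleC_of_compress`; the leaf `CompressC K ⊤` then needs the spherical functions
  at the unramified AND at the infinite places and the decomposition of an arbitrary adelic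
  element;
* `P = IsFinSupp` (trivial at infinity and outside a finite set of finite places): `MatchPC` is
  what the proof of T2.10 gives (all its translations are unipotent or diagonal elements at
  finitely many finite places) but not what `MatchC` states; `CompressC K IsFinSupp` needs the
  finite places only.

Leaves:
* `ClassFinC`: the class lies in a finite-dimensional space (T2: Hilbert--Schmidt bound).
* `ClassLinC`: the class is stable under sums and scalar multiples (linearity of the mean value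
  property: `T2/H546/MeanLin`, `T2/H886/CuspAlg`).
* `ClassOpC`: the class is stable under the two kinds of operators.
* `CompressC P` (the adjunction): if `χ` in the class is orthogonal to every function reached
  from `ψ` then `⟨R(g) ψ, χ⟩ = 0` for `g ∈ P`.  Proof: peel the local components of `g` one at a
  time from the right.  At a place of `S`: `⟨R(a h) f, χ⟩ = |H|⁻¹ ⟨R(a) (cosetOp H f), χ⟩` for `a`
  trivial at the place (`χ`, `f` invariant; `PairC`), `cosetOp H f` is reached.  At an unramified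
  place `v`: `F(h) = ⟨R(a h) f, χ⟩` is bi-invariant under `GL₂(𝒪_v)` and an eigenfunction of
  `T_v`, `S_v`: `F(h) = ω_v(h) F(1)` (Cartan decomposition + the recursion
  `q F_{d+1} = √q a F_d - b F_{d-1}`).  At an infinite place: `F(k₁ torus(d) k₂ z) = F(torus d)
  = (d / sinh d) F(1)` by the mean value property (Fubini).
-/

set_option autoImplicit false
set_option linter.style.haveILetI false
set_option linter.unusedSectionVars false
set_option linter.unusedVariables false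

open IsDedekindDomain NumberField MeasureTheory AutomorphicForm
open Fermat.Agent.LT.H556.A0
open scoped InnerProductSpace ComplexConjugate

noncomputable section

namespace Fermat.Agent.LT.T7.H963

open Fermat.Agent.LT.T2.H941 Fermat.Agent.LT.H963

variable {K : Type} [Field K] [NumberField K]

attribute [local instance] Fermat.Agent.LT.T2.borelG

attribute [-instance] CStarModule.toInner

/-! ## 1. Vocabulary -/

/-- `g` is supported at the BAD places of the level `𝔫` for the orbit `o 0, …, o (l-1)`: trivial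
at the infinite places, at the finite places prime to `𝔫` and along the orbit
(`L2Data.IsBad` for `𝔫 = 𝔑₀`, `isBadAt_of_isBad`). -/
def IsBadAt (𝔫 : Ideal (𝓞 K)) (l : ℕ) (o : ℕ → HeightOneSpectrum (𝓞 K)) (g : G K) : Prop :=
  (∀ w : InfinitePlace K, TrivAtInf w g) ∧
    ∀ v : HeightOneSpectrum (𝓞 K), (¬ v.asIdeal ∣ 𝔫 ∨ ∃ j < l, v = o j) → TrivAtFin v g

/-- An element of the Iwahori subgroup at `w` (supported at `w`). -/
def IsIwElt (w : HeightOneSpectrum (𝓞 K)) (k : G K) : Prop :=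
  IsLocalAtFin w k ∧ T5.InIwahori w k

/-- A full system of representatives of `I_w h I_w / I_w`. -/
def IsIwDblSystem (w : HeightOneSpectrum (𝓞 K)) (h : G K) (H : Finset (G K)) : Prop :=
  (∀ x ∈ H, ∃ k₁ k₂ : G K, IsIwElt w k₁ ∧ IsIwElt w k₂ ∧ x = k₁ * h * k₂) ∧
    (∀ x ∈ H, ∀ x' ∈ H, x ≠ x' → ¬ T5.InIwahori w (x⁻¹ * x')) ∧
    ∀ k : G K, IsIwElt w k → ∃ x ∈ H, T5.InIwahori w (x⁻¹ * (k * h))

/-- `g` is trivial at the infinite places and outside a finite set of finite places. -/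
def IsFinSupp (g : G K) : Prop :=
  (∀ w : InfinitePlace K, TrivAtInf w g) ∧
    ∃ T : Finset (HeightOneSpectrum (𝓞 K)), ∀ v : HeightOneSpectrum (𝓞 K), v ∉ T → TrivAtFin v g

/-- **REACHED**: the functions obtained from `ψ` by linear combinations and the Hecke operators
of the level at the bad places and along the orbit. -/
inductive Reach (𝔫 : Ideal (𝓞 K)) (l : ℕ) (o : ℕ → HeightOneSpectrum (𝓞 K)) (ψ : G K → ℂ) :
    (G K → ℂ) → Prop
  | base : Reach 𝔫 l o ψ ψ
  | add {f f' : G K → ℂ} : Reach 𝔫 l o ψ f → Reach 𝔫 l o ψ f' →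
      Reach 𝔫 l o ψ (fun x => f x + f' x)
  | smul (c : ℂ) {f : G K → ℂ} : Reach 𝔫 l o ψ f → Reach 𝔫 l o ψ (fun x => c * f x)
  | bad {f : G K → ℂ} (g : G K) (H : Finset (G K)) : IsBadAt 𝔫 l o g →
      IsDblCosetSystem 𝔫 g H → Reach 𝔫 l o ψ f → Reach 𝔫 l o ψ (cosetOp H f)
  | iw {f : G K → ℂ} (j : ℕ) (h : G K) (H : Finset (G K)) : j < l → IsLocalAtFin (o j) h →
      IsIwDblSystem (o j) h H → Reach 𝔫 l o ψ f → Reach 𝔫 l o ψ (cosetOp H f)

/-- The bad elements of the data of level 2 are bad for the base level. -/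
theorem isBadAt_of_isBad {K₀ : Type} [Field K₀] [NumberField K₀] [Algebra K₀ K] {ℓ : ℕ}
    {Φ : HeckeEigensystem K ℂ} {Dt : L2Data K₀ K} (hDt : IsL2Data ℓ Φ Dt) {g : G K}
    (hg : Dt.IsBad g) : IsBadAt Dt.𝔑₀ ℓ Dt.o g := by
  refine ⟨hg.1, fun v hv => hg.2 v ?_⟩
  rcases hv with hv | ⟨j, hj, rfl⟩
  · exact Or.inl fun hmem => hv ((hDt.mem_S' v).1 hmem)
  · exact Or.inr ⟨j, by rw [hDt.deg]; exact hj, rfl⟩

/-! ## 2. The node and its leaves -/

variable (K)

/-- **NODE: MULTIPLICITY ONE IN MODULE FORM.**  See the header. -/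
def SimpleC : Prop :=
  (∀ w : InfinitePlace K, w.IsComplex) →
  ∀ (𝔫 : Ideal (𝓞 K)) (r : G K) (l : ℕ) (o : ℕ → HeightOneSpectrum (𝓞 K)) (C : EigData K),
    𝔫 ≠ ⊥ → T5.IsRayGen r → (∀ j < l, (o j).asIdeal ∣ 𝔫) → C.IsSph0 →
    ∀ ψ ψ' : G K → ℂ, IsEigFn 𝔫 r l o ψ C → IsEigFn 𝔫 r l o ψ' C → (∃ x : G K, ψ x ≠ 0) →
      Reach 𝔫 l o ψ ψ'

/-- **LEAF: the class is contained in a finite-dimensional space.** -/
def ClassFinC : Prop :=
  (∀ w : InfinitePlace K, w.IsComplex) →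
  ∀ (𝔫 : Ideal (𝓞 K)) (r : G K) (l : ℕ) (o : ℕ → HeightOneSpectrum (𝓞 K)) (C : EigData K),
    𝔫 ≠ ⊥ → T5.IsRayGen r → C.IsSph0 →
    ∃ W : Submodule ℂ (G K → ℂ), Module.Finite ℂ W ∧
      ∀ ψ : G K → ℂ, IsEigFn 𝔫 r l o ψ C → ψ ∈ W

/-- **LEAF: the class is stable under sums and scalar multiples.** -/
def ClassLinC : Prop :=
  ∀ (𝔫 : Ideal (𝓞 K)) (r : G K) (l : ℕ) (o : ℕ → HeightOneSpectrum (𝓞 K)) (C : EigData K),
    (∀ ψ ψ' : G K → ℂ, IsEigFn 𝔫 r l o ψ C → IsEigFn 𝔫 r l o ψ' C →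
      IsEigFn 𝔫 r l o (fun x => ψ x + ψ' x) C) ∧
    ∀ (c : ℂ) (ψ : G K → ℂ), IsEigFn 𝔫 r l o ψ C → IsEigFn 𝔫 r l o (fun x => c * ψ x) C

/-- **LEAF: the class is stable under the Hecke operators at the bad places and along the
orbit.** -/
def ClassOpC : Prop :=
  ∀ (𝔫 : Ideal (𝓞 K)) (r : G K) (l : ℕ) (o : ℕ → HeightOneSpectrum (𝓞 K)) (C : EigData K),
    𝔫 ≠ ⊥ → T5.IsRayGen r → (∀ j < l, (o j).asIdeal ∣ 𝔫) →
    ∀ ψ : G K → ℂ, IsEigFn 𝔫 r l o ψ C →
      (∀ (g : G K) (H : Finset (G K)), IsBadAt 𝔫 l o g → IsDblCosetSystem 𝔫 g H →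
        IsEigFn 𝔫 r l o (cosetOp H ψ) C) ∧
      ∀ (j : ℕ) (h : G K) (H : Finset (G K)), j < l → IsLocalAtFin (o j) h →
        IsIwDblSystem (o j) h H → IsEigFn 𝔫 r l o (cosetOp H ψ) C

/-- **LEAF: MATCH with translations in `P`** (for `P = everything`: `T2.H941.MatchC`). -/
def MatchPC (P : G K → Prop) : Prop :=
  ∀ (π : HeckeEigensystem K ℂ) (φ φ' : G K → ℂ),
    IsSph0CuspFormFor π φ → IsSph0CuspFormFor π φ' →
    ∃ (n n' : ℕ) (c : Fin n → ℂ) (g : Fin n → G K) (c' : Fin n' → ℂ) (g' : Fin n' → G K),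
      (∀ i j, P ((g' j)⁻¹ * g i)) ∧ lin c g φ = lin c' g' φ' ∧ ∃ x : G K, lin c g φ x ≠ 0

/-- **LEAF: COMPRESSION (the adjunction).**  See the header. -/
def CompressC (P : G K → Prop) : Prop :=
  (∀ w : InfinitePlace K, w.IsComplex) →
  ∀ (F : T2.Frame K) (𝔫 : Ideal (𝓞 K)) (r : G K) (l : ℕ) (o : ℕ → HeightOneSpectrum (𝓞 K))
    (C : EigData K), 𝔫 ≠ ⊥ → T5.IsRayGen r → (∀ j < l, (o j).asIdeal ∣ 𝔫) → C.IsSph0 →
    ∀ ψ χ : G K → ℂ, IsEigFn 𝔫 r l o ψ C → IsEigFn 𝔫 r l o χ C →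
      (∀ f : G K → ℂ, Reach 𝔫 l o ψ f → T2.pair F f χ = 0) →
      ∀ g : G K, P g → T2.pair F (rt g ψ) χ = 0

/-- **LEAF: a prime outside the level.** -/
def GoodPrimeC : Prop :=
  ∀ 𝔫 : Ideal (𝓞 K), 𝔫 ≠ ⊥ → ∃ v : HeightOneSpectrum (𝓞 K), ¬ v.asIdeal ∣ 𝔫

variable {K}

/-! ## 3. The class and the forms of A0 -/

/-- The eigensystem of the level `𝔫` with the eigenvalues of `C`. -/
def eigSys (𝔫 : Ideal (𝓞 K)) (h𝔫 : 𝔫 ≠ ⊥) (C : EigData K) : HeckeEigensystem K ℂ where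
  level := 𝔫
  level_ne_bot := h𝔫
  a := C.a
  b := C.b

/-- A non-zero function of the class is a form of A0 for the eigensystem of the level. -/
theorem isSph0_of_isEigFn (hcx : ∀ w : InfinitePlace K, w.IsComplex) {𝔫 : Ideal (𝓞 K)}
    (h𝔫 : 𝔫 ≠ ⊥) {r : G K} {l : ℕ} {o : ℕ → HeightOneSpectrum (𝓞 K)} {C : EigData K}
    (hC : C.IsSph0) {ψ : G K → ℂ} (hψ : IsEigFn 𝔫 r l o ψ C) (hne : ∃ x : G K, ψ x ≠ 0) :
    IsSph0CuspFormFor (eigSys 𝔫 h𝔫 C) ψ where
  cont := hψ.inv.cusp.cont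
  bdd := hψ.inv.cusp.bdd
  ne_zero := hne
  left_inv := hψ.inv.cusp.aut.left_inv
  level_inv := hψ.inv.cusp.aut.level_inv
  arch_scalar := hψ.inv.arch_scalar
  arch_compact := fun w k hk g => by
    have h := hψ.inv.cusp.aut.arch_compact w k hk g
    rw [h]
    show (1 : ℂ) * ψ g = ψ g
    rw [one_mul]
  mean_complex := fun w _ d hd Y hY g => by
    rw [hψ.mean w d hd Y hY g, hC w d hd]
    rfl
  mean_real := fun w hw => absurd hw (InfinitePlace.not_isReal_iff_isComplex.mpr (hcx w))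
  cuspidal := hψ.inv.cusp.cuspidal
  hecke := fun v hv => hψ.hecke v hv

/-- The functions of the class lie in `IsAut0`. -/
theorem isAut0_of_isEigFn (hcx : ∀ w : InfinitePlace K, w.IsComplex) {𝔫 : Ideal (𝓞 K)}
    (h𝔫 : 𝔫 ≠ ⊥) {r : G K} {l : ℕ} {o : ℕ → HeightOneSpectrum (𝓞 K)} {C : EigData K}
    (hC : C.IsSph0) {ψ : G K → ℂ} (hψ : IsEigFn 𝔫 r l o ψ C) : IsAut0 ψ := by
  classical
  by_cases hne : ∃ x : G K, ψ x ≠ 0
  · exact aut0_closed K _ ψ (isSph0_of_isEigFn hcx h𝔫 hC hψ hne)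
  · have h0 : ψ = fun _ => 0 := by
      funext x
      by_contra hx
      exact hne ⟨x, hx⟩
    rw [h0]
    exact isAut0_zero

/-! ## 4. The assembly -/

/-- **THE TOP OF THE NODE**: multiplicity one in module form from its leaves, for any set `P` of
translations. -/
theorem simpleC_of (P : G K → Prop) (hF : T2.FrameExists K) (hP : PairC K)
    (hfin : ClassFinC K) (hlin : ClassLinC K) (hop : ClassOpC K)
    (hM : MatchPC K P) (hCp : CompressC K P) : SimpleC K := by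
  classical
  intro hcx 𝔫 r l o C h𝔫 hr ho hC ψ ψ' hψ hψ' hne
  obtain ⟨F⟩ := hF
  obtain ⟨W, hWfin, hW⟩ := hfin hcx 𝔫 r l o C h𝔫 hr hC
  obtain ⟨hadd, hsmul⟩ := hlin 𝔫 r l o C
  have hA : ∀ f : G K → ℂ, IsEigFn 𝔫 r l o f C → IsAut0 f :=
    fun f hf => isAut0_of_isEigFn hcx h𝔫 hC hf
  have hreach : ∀ f : G K → ℂ, Reach 𝔫 l o ψ f → IsEigFn 𝔫 r l o f C := by
    intro f hf
    induction hf with
    | base => exact hψ
    | add _ _ ih ih' => exact hadd _ _ ih ih'
    | smul c _ ih => exact hsmul c _ ih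
    | bad g H hg hH _ ih => exact (hop 𝔫 r l o C h𝔫 hr ho _ ih).1 g H hg hH
    | iw j h H hj hh hH _ ih => exact (hop 𝔫 r l o C h𝔫 hr ho _ ih).2 j h H hj hh hH
  have hzero : (fun x : G K => (0 : ℂ) * ψ x) = fun _ => (0 : ℂ) := by
    funext x
    rw [zero_mul]
  -- the class and the reached functions as subspaces of the pre-Hilbert space
  let V : Submodule ℂ (Sp963 F hP) :=
    { carrier := {x | IsEigFn 𝔫 r l o (Sp963.fn F hP x) C}
      zero_mem' := by
        show IsEigFn 𝔫 r l o (fun _ : G K => (0 : ℂ)) C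
        rw [← hzero]
        exact hsmul 0 ψ hψ
      add_mem' := fun {a b} ha hb => hadd _ _ ha hb
      smul_mem' := fun c a ha => hsmul c _ ha }
  let A : Submodule ℂ (Sp963 F hP) :=
    { carrier := {x | Reach 𝔫 l o ψ (Sp963.fn F hP x)}
      zero_mem' := by
        show Reach 𝔫 l o ψ (fun _ : G K => (0 : ℂ))
        rw [← hzero]
        exact Reach.smul 0 Reach.base
      add_mem' := fun {a b} ha hb => Reach.add ha hb
      smul_mem' := fun c a ha => Reach.smul c ha }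
  have hVmem : ∀ x : Sp963 F hP, x ∈ V ↔ IsEigFn 𝔫 r l o (Sp963.fn F hP x) C := fun _ => Iff.rfl
  have hAmem : ∀ x : Sp963 F hP, x ∈ A ↔ Reach 𝔫 l o ψ (Sp963.fn F hP x) := fun _ => Iff.rfl
  have hAV : A ≤ V := fun x hx => hreach _ hx
  haveI hWfin' : Module.Finite ℂ W := hWfin
  have hVfd : FiniteDimensional ℂ V := by
    let j : V →ₗ[ℂ] W := (Sp963.fnL F hP).restrict (p := V) (q := W) (fun x hx => hW _ hx)
    have hj : Function.Injective j := by
      intro a b hab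
      have h1 : ((j a : W) : G K → ℂ) = ((j b : W) : G K → ℂ) := by rw [hab]
      exact Subtype.ext (Sp963.ext F hP h1)
    exact FiniteDimensional.of_injective j hj
  haveI : FiniteDimensional ℂ V := hVfd
  have hne0 : ∀ x : Sp963 F hP, x ≠ 0 → ∃ y : G K, Sp963.fn F hP x y ≠ 0 := by
    intro x hx
    by_contra h
    apply hx
    apply Sp963.ext F hP
    funext y
    by_contra hy
    exact h ⟨y, hy⟩
  set e : Sp963 F hP := Sp963.mk F hP (hA ψ hψ) with he
  have hlin : ∀ {n : ℕ} (c : Fin n → ℂ) (g : Fin n → G K) (x : Sp963 F hP),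
      Sp963.fn F hP (∑ i, c i • rhoHom963 F hP (g i) x) = lin c g (Sp963.fn F hP x) := by
    intro n c g x
    rw [Sp963.fn_sum]
    rfl
  have key : A = V := by
    refine simple_of_match963 (rhoHom963 F hP) P V A hAV e ?_ ?_
    · intro e₂ he₂V he₂0
      have hf₂ : IsSph0CuspFormFor (eigSys 𝔫 h𝔫 C) (Sp963.fn F hP e₂) :=
        isSph0_of_isEigFn hcx h𝔫 hC ((hVmem e₂).1 he₂V) (hne0 e₂ he₂0)
      obtain ⟨n, n', c, g, c', g', hPij, heq, x0, hx0⟩ :=
        hM (eigSys 𝔫 h𝔫 C) ψ (Sp963.fn F hP e₂) (isSph0_of_isEigFn hcx h𝔫 hC hψ hne) hf₂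
      refine ⟨n, n', c, g, c', g', hPij, ?_, ?_⟩
      · apply Sp963.ext F hP
        rw [hlin c g e, hlin c' g' e₂]
        exact heq
      · intro h0
        apply hx0
        have h1 := congrArg (Sp963.fn F hP) h0
        rw [hlin c g e] at h1
        exact congrFun h1 x0
    · intro e₂ he₂V he₂A g hg
      refine (Sp963.inner_def F hP e₂ (rhoHom963 F hP g e)).trans ?_
      refine hCp hcx F 𝔫 r l o C h𝔫 hr ho hC ψ (Sp963.fn F hP e₂) hψ ((hVmem e₂).1 he₂V) ?_ g hg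
      intro f hf
      have h1 := he₂A (Sp963.mk F hP (hA f (hreach f hf))) ((hAmem _).2 hf)
      exact (Sp963.inner_def F hP e₂ (Sp963.mk F hP (hA f (hreach f hf)))).symm.trans h1
  have h' : Sp963.mk F hP (hA ψ' hψ') ∈ V := (hVmem _).2 hψ'
  rw [← key] at h'
  exact (hAmem _).1 h'

/-- `MatchC` (T2.10, CLOSED) gives `MatchPC` for `P = everything`, given a prime outside the
level. -/
theorem matchPC_of_matchC (hcx : ∀ w : InfinitePlace K, w.IsComplex) (hG : GoodPrimeC K)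
    (hM : MatchC K) : MatchPC K (fun _ => True) := by
  intro π φ φ' hφ hφ'
  obtain ⟨v₀, hv₀⟩ := hG π.level π.level_ne_bot
  have hpar : SameParity φ φ' := fun w hw =>
    absurd hw (InfinitePlace.not_isReal_iff_isComplex.mpr (hcx w))
  have hag : HeckeEigensystem.AgreesAwayFromFinite π π := ⟨∅, fun v _ => ⟨rfl, rfl⟩⟩
  obtain ⟨n, n', c, g, c', g', -, -, heq, hx⟩ := hM π π φ φ' hφ hφ' hpar hag v₀ hv₀ hv₀
  exact ⟨n, n', c, g, c', g', fun _ _ => trivial, heq, hx⟩

/-- **The node on the closed station T2.10**: multiplicity one in module form from the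
finiteness, the stability and the compression leaves. -/
theorem simpleC_of_compress (hG : GoodPrimeC K) (hfin : ClassFinC K) (hlin : ClassLinC K)
    (hop : ClassOpC K) (hCp : CompressC K (fun _ => True)) : SimpleC K := fun hcx =>
  simpleC_of (fun _ => True) (frameExists_closed K (T1.t1Out K)) (pair_uncond K) hfin hlin hop
    (matchPC_of_matchC hcx hG (match_uncond_totCplx K hcx)) hCp hcx

end Fermat.Agent.LT.T7.H963

end
end
-- ===== PACK-END LT/T7/H963/Simple.lean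

-- ===== PACK-BEGIN LT/T7/H389/Sigma.lean
section




/-!
# Row LT, tower T7, leaf T7.L2.2.B3 = `SigmaC561` (helper389): PROVED

OFF-MAIN.  Every proof is complete, nothing assumed.  ADDITIVE (new names only, all ending in
`389`).  Spec: `T7/H561/BlocksSpec.lean` of helper561 (sha256 5ceeaa4d32439a1f), byte-identical
copy.  Assets: helper930 `T7/H930/RsigL2.lean`, `T7/H930/RsigOps.lean` (byte-identical copies of
origin/helper930@3635087a8).

    sigmaC389 (K K') : H561.SigmaC561 K K'        (UNCONDITIONAL)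

`σC = eigMove930 Dt.s` (`C ↦ C ∘ σ⁻¹`).  The hypothesis `BaseStable561 Dt` replaces the field
`level` of `T5.AutPreserves` for the level `𝔑_1` (`IsCompData.aut` for the bad element `1`; no
other field depends on the level), and the set of the prime divisors of `𝔑₀` is `σ`-stable
because it is the set of the prime divisors of the extended ideal `𝔑_1` (`mem_S'`, `mem_S'_g`).
-/

set_option autoImplicit false

open AutomorphicForm IsDedekindDomain NumberField MeasureTheory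
open scoped MatrixGroups ComplexConjugate

noncomputable section

namespace Fermat.Agent.LT.T7.H389

open Fermat.Agent.LT.H556 Fermat.Agent.LT.H556.A0 Fermat.Agent.LT.T1.H930
open Fermat.Agent.LT.T7 Fermat.Agent.LT.T7.H930 Fermat.Agent.LT.T7.H561 Fermat.Agent.LT.T5

attribute [local instance] Fermat.Agent.LT.T5.instMeasurableSpaceG

variable {K K' : Type} [Field K] [NumberField K] [Field K'] [NumberField K'] [Algebra K K']
variable {ℓ : ℕ} {Φ : HeckeEigensystem K' ℂ} {Dt : L2Data K K'}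

/-- `σ` preserves the frame at the base level: `IsCompData.aut` for the bad element `1`, the
field `level` replaced by `BaseStable561`. -/
theorem baseAut389 (h : IsL2Data ℓ Φ Dt) (hst : BaseStable561 Dt) :
    AutPreserves Dt.s Dt.𝔑₀ Dt.R'.μ Dt.R'.r := by
  have hP : AutPreserves Dt.s (Dt.comp 1).𝔑 Dt.R'.μ Dt.R'.r := (l2_compData930 h).aut
  exact ⟨hP.left_inverse, hP.right_inverse, hP.rat, hP.cont, hP.measure, hP.ray, hP.slab, hst,
    hP.arch⟩

/-- The set `S'` is `σ`-stable: it is the set of the prime divisors of the extended ideal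
`𝔑_1`. -/
theorem mem_S'_pull389 (h : IsL2Data ℓ Φ Dt) (w : HeightOneSpectrum (𝓞 K')) :
    finPull930 Dt.s.σ w ∈ Dt.S' ↔ w ∈ Dt.S' := by
  rw [h.mem_S'_g 1 (isBad_one930 Dt), h.mem_S'_g 1 (isBad_one930 Dt)]
  exact dvd_finPull930_iff Dt.s
    (map_level_stable_of_fixes930 Dt.s.σ (l2_fixes930 h) (Dt.𝔫 1)) w

/-- The set of the prime divisors of the base level is `σ`-stable. -/
theorem dvd_base_pull389 (h : IsL2Data ℓ Φ Dt) (v : HeightOneSpectrum (𝓞 K')) :
    (finPull930 Dt.s.σ v).asIdeal ∣ Dt.𝔑₀ ↔ v.asIdeal ∣ Dt.𝔑₀ := by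
  rw [← h.mem_S', ← h.mem_S']
  exact mem_S'_pull389 h v

/-- **`R(σ)` preserves the invariant cusp functions of the base level.** -/
theorem isWFn_Rsig389 (h : IsL2Data ℓ Φ Dt) (hst : BaseStable561 Dt) {ψ : G K' → ℂ}
    (hψ : IsWFn Dt.𝔑₀ Dt.R'.r ℓ Dt.o ψ) : IsWFn Dt.𝔑₀ Dt.R'.r ℓ Dt.o (Rsig Dt.s ψ) :=
  isWFn_Rsig930 (baseAut389 h hst) ℓ Dt.o (l2_orbit_img930 h) (l2_orbit_pull930 h) hψ

/-- **`R(σ)` moves the eigen-data of the eigenfunctions of the base level.** -/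
theorem isEigFn_Rsig389 (h : IsL2Data ℓ Φ Dt) (hst : BaseStable561 Dt) {ψ : G K' → ℂ}
    {C : EigData K'} (hψ : IsEigFn Dt.𝔑₀ Dt.R'.r ℓ Dt.o ψ C) :
    IsEigFn Dt.𝔑₀ Dt.R'.r ℓ Dt.o (Rsig Dt.s ψ) (eigMove930 Dt.s C) where
  inv := isWFn_Rsig389 h hst hψ.inv
  hecke v hv :=
    (isHeckeEigenAt_Rsig930 Dt.s (placeRel_finPull_self930 Dt.s v) ψ _ _).2
      (hψ.hecke _ (fun hd => hv ((dvd_base_pull389 h v).1 hd)))
  mean w := by
    have hinv : ∀ k : G K', IsArchCompact (infPull930 Dt.s.σ w) k →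
        ∀ g : G K', ψ (g * k) = ψ g := by
      intro k hk g
      have := hψ.inv.cusp.aut.arch_compact _ k hk g
      rw [this]
      exact one_mul _
    have h1 := (meanEigC_Rsig930 Dt.s (infPull930 Dt.s.σ w) ψ hinv
      (C.m (infPull930 Dt.s.σ w))).2
      ((meanEig_iff930 _ _ _).1 (hψ.mean (infPull930 Dt.s.σ w)))
    rw [infImg930_pull] at h1
    exact (meanEig_iff930 _ _ _).2 h1

/-- The move of the eigen-data is compatible with the agreement outside `S'`. -/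
theorem agreeOut_move389 (h : IsL2Data ℓ Φ Dt) {C C' : EigData K'}
    (hC : C.AgreeOut Dt.S' C') : (eigMove930 Dt.s C).AgreeOut Dt.S' (eigMove930 Dt.s C') :=
  ⟨fun w hw => hC.1 (finPull930 Dt.s.σ w) (fun hm => hw ((mem_S'_pull389 h w).1 hm)),
    fun w d hd => hC.2 (infPull930 Dt.s.σ w) d hd⟩

/-- **The class of `Φ` is `σ`-stable.** -/
theorem agreeOut_phi389 (h : IsL2Data ℓ Φ Dt) :
    (eigMove930 Dt.s (eigOf Φ)).AgreeOut Dt.S' (eigOf Φ) := by
  refine ⟨fun w hw => ?_, fun w d _ => rfl⟩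
  have hw' : finPull930 Dt.s.σ w ∉ Dt.S' := fun hm => hw ((mem_S'_pull389 h w).1 hm)
  obtain ⟨v, hv⟩ := exists_placeUnder930 (K := K) w
  exact h.const (finPull930 Dt.s.σ w) hw' w hw v
    (placeOver_finPull930 Dt.s.σ (l2_fixes930 h) v w hv) hv

variable (K K')

/-- **LEAF T7.L2.2.B3 = SIGMA** (statement of helper561, `T7/H561/BlocksSpec.lean`). -/
theorem sigmaC389 : SigmaC561 K K' := by
  intro ℓ _ _ _ Φ _ _ Dt hDt hst
  exact ⟨eigMove930 Dt.s, fun _ _ hC => agreeOut_move389 hDt hC,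
    fun _ _ hψ => isEigFn_Rsig389 hDt hst hψ, agreeOut_phi389 hDt⟩

end Fermat.Agent.LT.T7.H389

end

end
-- ===== PACK-END LT/T7/H389/Sigma.lean

-- ===== PACK-BEGIN LT/T6/H60/FLEllUnr.lean
section




/-!
# Row LT, tower T6, leaf T6.13 `FLEllUnrC` -- CLOSED, UNCONDITIONAL (helper60, integrator), OFF-MAIN

`flEllUnrC60 : Fermat.Agent.LT.T6.FLEllUnrC` (the Prop of `T6/Spec.lean`, v3 sha256 8c5f2ae7,
byte-unchanged since v1): the fundamental lemma for base change at an elliptic element whose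
torus is unramified, for the unit element of the Hecke algebra.

Assembly (`Closed613.lean`): `FLEllUnrC ⇐ BCGeoC + OrbEllUnrC + TwOrbEllUnrC`,
`TwOrbEllUnrC ⇐ VertSumTwC + FixGeoC + FixTwC`; closed leaves, all vendored byte-identical:
* `BCGeoC` : helper60 `BCGeo.lean`;
* `OrbEllUnrC`, `FixGeoC` : helper277 (`T6/H277/OrbEllFinal.lean`, `FixGeo.lean`);
* `VertSumGeoC`, `VertSumTwC` : helper887 (`T6/H887/VertSum.lean`);
* `FixTwC` : helper865 (`T6/H865/FixTwClosed.lean`), with the leaves of helper811 (`NFExistsC865`),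
  helper264 (`LatSumC865`), helper820 (`H90rC865`), helper241 (`FixSigmaC865`), helper426
  (`OutsideC865`), helper864 (`CongFixC865`), helper439 (`BallCountC`).
-/

set_option autoImplicit false

namespace Fermat.Agent.LT.T6.H60

open Fermat.Agent.LT.T6

/-- **T6.13 (`FLEllUnrC`), closed.** -/
theorem flEllUnrC60 : FLEllUnrC :=
  flEllUnr_of_fixTw60 Fermat.Agent.LT.T6.H865.fixTwC865

end Fermat.Agent.LT.T6.H60

end
-- ===== PACK-END LT/T6/H60/FLEllUnr.lean

-- ===== PACK-BEGIN LT/T7/H666/SetupR.lean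
section





/-!
# Row LT, tower T7, leaf T7.L2.1.C0 with UNRAMIFIED COMPLEMENT (helper666)

OFF-MAIN.  ADDITIVE (new names only).  No hole, nothing assumed.  Against
`LT/T7/H893/SupplySpec.lean` (helper893, sha256 c18d8efa) and the proof of `SetupC` by helper416
(`LT/T7/H416/Setup.lean`, byte-identical copies of helper416's closure).

`IsL2Base` does not say that the places of `K'` which are ramified over `K` lie in `S'`, and the
matching outside `S'` (`T6.FundLemmaC`: `e = 1`; `T6.SplitMatchC`) needs it (`coord/RAM666.md`).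
This file delivers the common part WITH that property:

* `IsUnramOut666 B` : every place `w ∉ B.S'` is unramified over `K` (`¬ w² ∣ v 𝒪_{K'}`, `v` the
  place below `w`);
* `SetupRC666 K K'` : `SetupC K K'` with `∃ B, IsL2Base ℓ Φ B ∧ IsUnramOut666 B`;
* PROVED `setupRC666 K K' : SetupRC666 K K'` (UNCONDITIONAL; the construction of helper416 with
  the auxiliary level multiplied by the contraction of the relative different, `Ram.lean`);
* `setupC_of_R666 : SetupRC666 K K' → H893.SetupC K K'`.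
-/

set_option autoImplicit false
set_option linter.style.haveILetI false
set_option linter.unusedSectionVars false

open IsDedekindDomain NumberField MeasureTheory AutomorphicForm
open scoped Pointwise

noncomputable section

namespace Fermat.Agent.LT.T7.H666

open Fermat.Agent.LT.H556 Fermat.Agent.LT.H556.A0 Fermat.Agent.LT.T7 Fermat.Agent.LT.T7.H893
open Fermat.Agent.LT.T7.H930 Fermat.Agent.LT.T1.H930 Fermat.Agent.LT.T7.H416

attribute [local instance] Fermat.Agent.LT.T5.instMeasurableSpaceG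

section Defs

variable {K K' : Type} [Field K] [NumberField K] [Field K'] [NumberField K'] [Algebra K K']

/-- The places of `K'` outside `S'` are UNRAMIFIED over `K`. -/
def IsUnramOut666 (B : L2Base K K') : Prop :=
  ∀ (v : HeightOneSpectrum (𝓞 K)) (w : HeightOneSpectrum (𝓞 K')), PlaceOver K K' v w →
    w ∉ B.S' → ¬ w.asIdeal ^ 2 ∣ upI (K' := K') v.asIdeal

end Defs

section Main

variable (K K' : Type) [Field K] [NumberField K] [Field K'] [NumberField K'] [Algebra K K']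

/-- **LEAF T7.L2.1.C0 with unramified complement.** -/
def SetupRC666 : Prop :=
  ∀ ℓ : ℕ, IsCycExt K K' ℓ → ℓ ≠ 2 → TotCplx K →
    ∀ Φ : HeckeEigensystem K' ℂ, A0.IsCuspAdelicSph0 K' Φ → ConstOnFibres K Φ →
      ∃ B : L2Base K K', IsL2Base ℓ Φ B ∧ IsUnramOut666 B

variable {K K'} in
theorem setupC_of_R666 (h : SetupRC666 K K') : SetupC K K' :=
  fun ℓ hcyc hℓ hcplx Φ hΦ hconst =>
    let ⟨B, hB, _⟩ := h ℓ hcyc hℓ hcplx Φ hΦ hconst
    ⟨B, hB⟩

/-- **The common part of the data of level 2 exists, with all ramified places in `S'`.** -/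
theorem setupRC666 : SetupRC666 K K' := by
  classical
  intro ℓ h _ _ Φ _ hconst
  haveI := h.galois
  have hℓ := h.prime
  have hcard : Nat.card (K' ≃ₐ[K] K') = ℓ := by
    rw [IsGalois.card_aut_eq_finrank, h.degree]
  obtain ⟨σ, hpow, hfix, hfaith⟩ := exists_generator930 K K' ℓ hℓ h.degree
  obtain ⟨μ, F, r, hF, hr, -⟩ :=
    Fermat.Agent.LT.T5.H62.frame_exists_of_T1Out62 K ⊤ (Fermat.Agent.LT.T1.t1Out K)
  obtain ⟨μ', F', r', hF', hr', -⟩ :=
    Fermat.Agent.LT.T5.H62.frame_exists_of_T1Out62 K' ⊤ (Fermat.Agent.LT.T1.t1Out K')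
  have hLC : LocallyCompactSpace (G K') := (Fermat.Agent.LT.T1.t1Out K').locComp.2.1
  have hSC : SecondCountableTopology (G K') := (Fermat.Agent.LT.T1.t1Out K').locComp.2.2.2
  obtain ⟨Sexc, hSexc⟩ := hconst
  -- the auxiliary level
  set 𝔪 : Ideal (𝓞 K) := Ideal.comap (algebraMap (𝓞 K) (𝓞 K')) Φ.level *
    (∏ w ∈ Sexc, (below416 (K := K) w).asIdeal) * ramIdeal666 K K' with h𝔪
  have h𝔪ne : 𝔪 ≠ ⊥ := by
    rw [h𝔪, ← Ideal.zero_eq_bot]
    refine mul_ne_zero (mul_ne_zero (comap_ne_bot416 Φ.level_ne_bot) ?_) ?_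
    · rw [Finset.prod_ne_zero_iff]
      intro w _
      exact (below416 (K := K) w).ne_bot
    · rw [Ideal.zero_eq_bot]
      exact ramIdeal_ne_bot666
  have hlev𝔪 : Ideal.comap (algebraMap (𝓞 K) (𝓞 K')) Φ.level ∣ 𝔪 :=
    (Dvd.intro _ rfl : _ ∣ Ideal.comap (algebraMap (𝓞 K) (𝓞 K')) Φ.level *
      (∏ w ∈ Sexc, (below416 (K := K) w).asIdeal)).mul_right _
  have hexc𝔪 : ∀ w ∈ Sexc, (below416 (K := K) w).asIdeal ∣ 𝔪 := fun w hw =>
    (Dvd.dvd.mul_left (Finset.dvd_prod_of_mem _ hw) _).mul_right _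
  have hram𝔪 : ramIdeal666 K K' ∣ 𝔪 := Dvd.intro_left _ rfl
  set M : ℕ := Ideal.absNorm 𝔪 with hM
  have hMne : M ≠ 0 := by rw [hM, Ne, Ideal.absNorm_eq_zero_iff]; exact h𝔪ne
  -- the place `w₀`
  have hσx : ∃ x : K', σ x ≠ x := by
    obtain ⟨x, hx⟩ := hfaith 1 one_pos hℓ.one_lt
    exact ⟨x, by simpa using hx⟩
  obtain ⟨θ, hθ⟩ := exists_moved416 hσx
  obtain ⟨p, w, hp, hpM, hwprime, hpw, hmoved⟩ :=
    exists_prime_moved416 K' (oEquiv416 σ) θ hθ M hMne
  have hwne : w ≠ ⊥ := by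
    rintro rfl
    rw [Ideal.mem_bot] at hpw
    have : p = 0 := by exact_mod_cast hpw
    exact hp.ne_zero this
  set w₀ : HeightOneSpectrum (𝓞 K') := ⟨w, hwprime, hwne⟩ with hw₀
  have hmoved' : mapPlace416 σ w₀ ≠ w₀ := by
    intro h1
    apply hmoved
    have := congrArg HeightOneSpectrum.asIdeal h1
    exact this
  set u : HeightOneSpectrum (𝓞 K) := below416 w₀ with hu
  have hpu : (p : 𝓞 K) ∈ u.asIdeal := by
    show (p : 𝓞 K) ∈ Ideal.comap (algebraMap (𝓞 K) (𝓞 K')) w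
    rw [Ideal.mem_comap, map_natCast]
    exact hpw
  have hu𝔪 : ¬ u.asIdeal ∣ 𝔪 := by
    intro hdvd
    have h1 : (M : 𝓞 K) ∈ u.asIdeal := (Ideal.dvd_iff_le.mp hdvd) (Ideal.absNorm_mem 𝔪)
    have h2 := one_mem_of_coprime416 u.asIdeal
      ((Nat.Prime.coprime_iff_not_dvd hp).mpr hpM) hpu h1
    exact u.isPrime.ne_top ((Ideal.eq_top_iff_one _).mpr h2)
  -- the levels
  set 𝔫₀ : Ideal (𝓞 K) := u.asIdeal * 𝔪 with h𝔫₀
  have h𝔫₀ne : 𝔫₀ ≠ ⊥ := by
    rw [h𝔫₀, ← Ideal.zero_eq_bot]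
    exact mul_ne_zero u.ne_bot h𝔪ne
  have hu𝔫₀ : u.asIdeal ∣ 𝔫₀ := Dvd.intro _ rfl
  have h𝔪𝔫₀ : 𝔪 ∣ 𝔫₀ := Dvd.intro_left _ rfl
  have hu2 : ¬ u.asIdeal ^ 2 ∣ 𝔫₀ := by
    intro h1
    rw [h𝔫₀, pow_two] at h1
    exact hu𝔪 ((mul_dvd_mul_iff_left u.ne_bot).mp h1)
  set 𝔑₀ : Ideal (𝓞 K') := upI (K' := K') 𝔫₀ with h𝔑₀
  have h𝔑₀ne : 𝔑₀ ≠ ⊥ := by
    rw [h𝔑₀, upI, Ne, Ideal.map_eq_bot_iff_of_injective
      (FaithfulSMul.algebraMap_injective (𝓞 K) (𝓞 K'))]
    exact h𝔫₀ne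
  have hfin : {v : HeightOneSpectrum (𝓞 K') | v.asIdeal ∣ 𝔑₀}.Finite :=
    Ideal.finite_factors h𝔑₀ne
  have hmemS : ∀ w' : HeightOneSpectrum (𝓞 K'), w' ∈ hfin.toFinset ↔ w'.asIdeal ∣ 𝔑₀ := by
    intro w'
    rw [Set.Finite.mem_toFinset]
    rfl
  have hmemS' : ∀ w' : HeightOneSpectrum (𝓞 K'),
      w' ∈ hfin.toFinset ↔ (below416 (K := K) w').asIdeal ∣ 𝔫₀ := by
    intro w'
    rw [hmemS, h𝔑₀, dvd_upI_iff416]
  -- the orbit
  have horb_over : ∀ j : ℕ, PlaceOver K K' u (mapPlace416 (σ ^ j) w₀) := fun j =>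
    placeOver_mapPlace416 _ (placeOver_below416 w₀)
  have horb_below : ∀ j : ℕ, below416 (K := K) (mapPlace416 (σ ^ j) w₀) = u := fun j =>
    below_eq_of_placeOver416 (horb_over j)
  refine ⟨⟨ℓ, adelicAut930 σ.toRingEquiv, (algebraMap K K').fieldRange, ⟨μ, F, r⟩,
    ⟨μ', F', r'⟩, 𝔑₀, hfin.toFinset, u, fun j => mapPlace416 (σ ^ j) w₀⟩, ?_, ?_⟩
  · refine
      { deg := rfl
        cyc := ⟨hℓ.pos, ?_, ?_, ?_⟩
        base := ?_
        frame := ⟨hF, hr⟩
        frame' := ⟨hF', hr'⟩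
        aut := ?_
        level_le := ?_
        mem_S' := hmemS
        const := ?_
        orbit_rel := ?_
        orbit_ne := ?_
        orbit_over := horb_over
        orbit_level := ?_
        orbit_good := ?_
        base_level := ⟨𝔫₀, h𝔫₀ne, rfl, hu𝔫₀, hu2⟩
        orbit_all := ?_
        fibre := ?_ }
    · intro x
      show ((σ.toRingEquiv : RingAut K') ^ ℓ) x = x
      rw [toRingEquiv_pow930]
      exact hpow x
    · intro x
      show x ∈ (algebraMap K K').fieldRange ↔ σ x = x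
      rw [RingHom.mem_fieldRange]
      exact hfix x
    · intro j hj0 hjl
      obtain ⟨x, hx⟩ := hfaith j hj0 hjl
      refine ⟨x, ?_⟩
      show ((σ.toRingEquiv : RingAut K') ^ j) x ≠ x
      rw [toRingEquiv_pow930]
      exact hx
    · intro x
      show x ∈ (algebraMap K K').fieldRange ↔ _
      exact RingHom.mem_fieldRange
    · intro 𝔫
      exact autPreserves_all930 hLC hSC (adelicAut930 σ.toRingEquiv) (upI (K' := K') 𝔫)
        (map_level_stable930 σ 𝔫) μ' hF'.haar r' hr'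
    · -- level_le
      show upI (K' := K') 𝔫₀ ≤ Φ.level
      rw [upI, Ideal.map_le_iff_le_comap]
      exact (Ideal.dvd_iff_le.mp h𝔪𝔫₀).trans (Ideal.dvd_iff_le.mp hlev𝔪)
    · -- const
      intro w₁ hw₁ w₂ hw₂ v h1 h2
      have key : ∀ w' : HeightOneSpectrum (𝓞 K'), w' ∉ hfin.toFinset → w' ∉ Sexc := by
        intro w' hw' hmem
        apply hw'
        rw [hmemS']
        exact (hexc𝔪 w' hmem).trans h𝔪𝔫₀
      exact hSexc w₁ (key w₁ hw₁) w₂ (key w₂ hw₂) v h1 h2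
    · -- orbit_rel
      intro j
      show (mapPlace416 (σ ^ (j + 1)) w₀).asIdeal
        = Ideal.map (RingOfIntegers.mapRingEquiv σ.toRingEquiv) (mapPlace416 (σ ^ j) w₀).asIdeal
      rw [pow_succ', mapPlace_mul416]
      rfl
    · -- orbit_ne
      intro j hj0 hjl
      show mapPlace416 (σ ^ j) w₀ ≠ mapPlace416 (σ ^ 0) w₀
      rw [pow_zero, mapPlace_one416]
      exact mapPlace_pow_ne416 hℓ hcard hmoved' hj0 hjl
    · -- orbit_level
      intro j
      show mapPlace416 (σ ^ j) w₀ ∈ hfin.toFinset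
      rw [hmemS', horb_below j]
      exact hu𝔫₀
    · -- orbit_good
      intro j hdvd
      apply hu𝔪
      have h1 : Ideal.comap (algebraMap (𝓞 K) (𝓞 K')) Φ.level
          ≤ (below416 (K := K) (mapPlace416 (σ ^ j) w₀)).asIdeal :=
        Ideal.comap_mono (Ideal.dvd_iff_le.mp hdvd)
      rw [horb_below j] at h1
      exact (Ideal.dvd_iff_le.mpr h1).trans hlev𝔪
    · -- orbit_all
      intro w' hw'
      obtain ⟨τ, hτ⟩ := exists_mapPlace_eq416 (placeOver_below416 (K := K) w₀) hw'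
      have hσ1 : σ ≠ 1 := by
        rintro rfl
        exact hmoved' (mapPlace_one416 w₀)
      obtain ⟨j, hj, rfl⟩ := exists_pow_eq416 hℓ hcard hσ1 τ
      exact ⟨j, hj, hτ.symm⟩
    · -- fibre
      intro v w₁ w₂ h1 h2 hmem
      rw [hmemS'] at hmem ⊢
      rw [below_eq_of_placeOver416 h2]
      rwa [below_eq_of_placeOver416 h1] at hmem
  · -- the places outside `S'` are unramified
    intro v w' hvw hw' hdiv
    apply hw'
    show w' ∈ hfin.toFinset
    rw [hmemS', below_eq_of_placeOver416 hvw]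
    have hcomap : Ideal.comap (algebraMap (𝓞 K) (𝓞 K')) w'.asIdeal = v.asIdeal :=
      congrArg HeightOneSpectrum.asIdeal (below_eq_of_placeOver416 hvw)
    exact ((dvd_ramIdeal666 v w' hcomap hdiv).trans hram𝔪).trans h𝔪𝔫₀

end Main

end Fermat.Agent.LT.T7.H666

end

end
-- ===== PACK-END LT/T7/H666/SetupR.lean

-- ===== PACK-BEGIN LT/T7/H756/DblExists.lean
section






/-!
# Row LT, tower T7 (helper756, OFF-MAIN): the double cosets `U(𝔫) g U(𝔫)` are finite

No holes, nothing assumed.  For EVERY number field `K`, EVERY ideal `𝔫` and EVERY element `g` of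
`GL₂(𝔸_K)` which is trivial at the infinite places:

* `exists_dblCosetSystem756 : ∃ H : Finset (G K), IsDblCosetSystem 𝔫 g H`.

Route (no topology): `e = d' d n₀` with `n₀ ∈ 𝔫`, `d g` and `d' g⁻¹` integral
(`H767.exists_denominator`); for `w` trivial at infinity with `w ≡ 1`, `w⁻¹ ≡ 1` modulo `e` the
conjugate `g⁻¹ w g` is in `U(𝔫)` (`conj_level756`); the entries of the elements of `U(𝔫)` are
integral adeles and an integral adele is congruent modulo `e` to an element of `𝓞 K`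
(`H767.exists_sub_mem_integers`), which gives an invariant with values in the finite set
`Fin 2 → Fin 2 → 𝓞 K ⧸ (e)` (`exists_finite_inv756`); `exists_system_abs756` concludes.
-/

set_option autoImplicit false
set_option linter.unusedSectionVars false
set_option linter.unusedVariables false

open AutomorphicForm IsDedekindDomain NumberField
open scoped WithZero

noncomputable section

namespace Fermat.Agent.LT.T7.H756

open Fermat.Agent.LT.H556 Fermat.Agent.LT.H556.A0 Fermat.Agent.LT.T7 Fermat.Agent.LT.H129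

variable {K : Type} [Field K] [NumberField K]

/-- The valuation at `v` of the image of `e : 𝓞 K`. -/
def vInt756 (v : HeightOneSpectrum (𝓞 K)) (e : 𝓞 K) : ℤᵐ⁰ :=
  Valued.v (algebraMap K (v.adicCompletion K) (algebraMap (𝓞 K) K e))

theorem vInt_le_one756 (v : HeightOneSpectrum (𝓞 K)) (e : 𝓞 K) : vInt756 v e ≤ 1 :=
  H767.valued_algebraMap_int_le_one K v e

theorem vInt_mul756 (v : HeightOneSpectrum (𝓞 K)) (e e' : 𝓞 K) :
    vInt756 v (e * e') = vInt756 v e * vInt756 v e' := by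
  unfold vInt756
  rw [map_mul, map_mul, map_mul]

theorem vInt_eq756 (v : HeightOneSpectrum (𝓞 K)) (e : 𝓞 K) :
    vInt756 v e = v.valuation K (algebraMap (𝓞 K) K e) :=
  H767.valued_algebraMap K v _

theorem vInt_ne_zero756 (v : HeightOneSpectrum (𝓞 K)) {e : 𝓞 K} (he : e ≠ 0) :
    vInt756 v e ≠ 0 := by
  unfold vInt756
  rw [Valuation.ne_zero_iff]
  simpa using he

/-! ## 1. Conjugation into the level group -/

/-- Common denominators of the entries of a matrix of adeles. -/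
theorem exists_denominator_mat756 (M : Matrix (Fin 2) (Fin 2) (Adl K)) :
    ∃ d : 𝓞 K, d ≠ 0 ∧ ∀ (v : HeightOneSpectrum (𝓞 K)) (i j : Fin 2),
      vInt756 v d * Valued.v ((M i j).2 v) ≤ 1 := by
  classical
  choose δ hδ0 hδ using fun p : Fin 2 × Fin 2 => H767.exists_denominator K (M p.1 p.2).2
  refine ⟨∏ p : Fin 2 × Fin 2, δ p, Finset.prod_ne_zero_iff.mpr fun p _ => hδ0 p,
    fun v i j => ?_⟩
  rw [← Finset.mul_prod_erase _ _ (Finset.mem_univ (i, j)), vInt_mul756]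
  have h1 : vInt756 v (δ (i, j)) * Valued.v ((M i j).2 v) ≤ 1 := by
    have := hδ (i, j) v
    rwa [map_mul] at this
  calc vInt756 v (δ (i, j)) * vInt756 v (∏ x ∈ Finset.univ.erase (i, j), δ x)
        * Valued.v ((M i j).2 v)
      = vInt756 v (∏ x ∈ Finset.univ.erase (i, j), δ x)
        * (vInt756 v (δ (i, j)) * Valued.v ((M i j).2 v)) := by ac_rfl
    _ ≤ 1 * 1 := mul_le_mul' (vInt_le_one756 v _) h1
    _ = 1 := one_mul 1

/-- The local computation. -/
theorem conj_val_le756 (v : HeightOneSpectrum (𝓞 K))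
    (A W A' : Matrix (Fin 2) (Fin 2) (v.adicCompletion K)) (hAA : A' * A = 1) {α α' ν : ℤᵐ⁰}
    (hA : ∀ i j, α * Valued.v (A i j) ≤ 1) (hA' : ∀ i j, α' * Valued.v (A' i j) ≤ 1)
    (hW : ∀ i j, Valued.v ((W - 1) i j) ≤ α' * α * ν) (i j : Fin 2) :
    Valued.v ((A' * W * A - 1) i j) ≤ ν := by
  have e : A' * W * A - 1 = A' * (W - 1) * A := by
    rw [Matrix.mul_sub, Matrix.sub_mul, Matrix.mul_one, hAA]
  have key : ∀ a b : Fin 2, Valued.v (A' i a * (W - 1) a b * A b j) ≤ ν := by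
    intro a b
    rw [map_mul, map_mul]
    calc Valued.v (A' i a) * Valued.v ((W - 1) a b) * Valued.v (A b j)
        ≤ Valued.v (A' i a) * (α' * α * ν) * Valued.v (A b j) :=
          mul_le_mul' (mul_le_mul' le_rfl (hW a b)) le_rfl
      _ = (α' * Valued.v (A' i a)) * (α * Valued.v (A b j)) * ν := by ac_rfl
      _ ≤ 1 * 1 * ν := mul_le_mul' (mul_le_mul' (hA' i a) (hA b j)) le_rfl
      _ = ν := by rw [one_mul, one_mul]
  rw [e, Matrix.mul_apply, Fin.sum_univ_two, Matrix.mul_apply, Matrix.mul_apply,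
    Fin.sum_univ_two, Fin.sum_univ_two, add_mul, add_mul]
  exact Valuation.map_add_le _
    (Valuation.map_add_le _ (key 0 0) (key 1 0))
    (Valuation.map_add_le _ (key 0 1) (key 1 1))

theorem finComp_inv_mul756 (v : HeightOneSpectrum (𝓞 K)) (g : G K) :
    finComp v g⁻¹ * finComp v g = 1 := by
  rw [← finComp_mul756, inv_mul_cancel, finComp_one756]

/-- **Conjugation into the level group.** -/
theorem conj_level756 (𝔫 : Ideal (𝓞 K)) (h𝔫 : 𝔫 ≠ ⊥) (g : G K)
    (hg : ∀ w : InfinitePlace K, TrivAtInf w g) :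
    ∃ e : 𝓞 K, e ≠ 0 ∧ ∀ w : G K, (∀ w' : InfinitePlace K, TrivAtInf w' w) →
      (∀ (v : HeightOneSpectrum (𝓞 K)) (i j : Fin 2),
        Valued.v ((finComp v w - 1) i j) ≤ vInt756 v e) →
      (∀ (v : HeightOneSpectrum (𝓞 K)) (i j : Fin 2),
        Valued.v ((finComp v w⁻¹ - 1) i j) ≤ vInt756 v e) →
      InLevelGroup 𝔫 (g⁻¹ * w * g) := by
  obtain ⟨n₀, hn₀, hn₀0⟩ := Submodule.exists_mem_ne_zero_of_ne_bot h𝔫
  obtain ⟨d, hd0, hd⟩ := exists_denominator_mat756 (g : Matrix (Fin 2) (Fin 2) (Adl K))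
  obtain ⟨d', hd'0, hd'⟩ :=
    exists_denominator_mat756 ((g⁻¹ : G K) : Matrix (Fin 2) (Fin 2) (Adl K))
  refine ⟨d' * d * n₀, mul_ne_zero (mul_ne_zero hd'0 hd0) hn₀0, fun w hw h1 h2 => ?_⟩
  have hval : ∀ (W : G K), (∀ (v : HeightOneSpectrum (𝓞 K)) (i j : Fin 2),
        Valued.v ((finComp v W - 1) i j) ≤ vInt756 v (d' * d * n₀)) →
      ∀ (v : HeightOneSpectrum (𝓞 K)) (i j : Fin 2),
        (finComp v (g⁻¹ * W * g) - 1) i j ∈ idealClosure 𝔫 v := by
    intro W hW v i j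
    refine H51.MS4.mem_idealClosure_of_le v hn₀ ?_
    rw [← vInt_eq756, finComp_mul756, finComp_mul756]
    refine conj_val_le756 v (finComp v g) (finComp v W) (finComp v g⁻¹)
      (finComp_inv_mul756 v g) (α := vInt756 v d) (α' := vInt756 v d')
      (fun a b => hd v a b) (fun a b => hd' v a b) (fun a b => ?_) i j
    have := hW v a b
    rwa [vInt_mul756, vInt_mul756] at this
  refine ⟨fun w' => trivAtInf_mul756 (trivAtInf_mul756 (trivAtInf_inv756 (hg w')) (hw w'))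
    (hg w'), fun v i j => ⟨hval w h1 v i j, ?_⟩⟩
  have e : (g⁻¹ * w * g)⁻¹ = g⁻¹ * w⁻¹ * g := by group
  rw [e]
  exact hval w⁻¹ h2 v i j

/-! ## 2. The finite invariant -/

/-- An integral finite adele is congruent modulo `e ≠ 0` to an element of `𝓞 K`. -/
theorem exists_int_approx756 (e : 𝓞 K) (he : e ≠ 0) (a : FiniteAdeleRing (𝓞 K) K)
    (ha : ∀ v : HeightOneSpectrum (𝓞 K), Valued.v (a v) ≤ 1) :
    ∃ r : 𝓞 K, ∀ v : HeightOneSpectrum (𝓞 K),
      Valued.v (a v - algebraMap K (v.adicCompletion K) (algebraMap (𝓞 K) K r))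
        ≤ vInt756 v e := by
  have heK : (algebraMap (𝓞 K) K e) ≠ 0 := by simpa using he
  obtain ⟨k, hk⟩ := H767.exists_sub_mem_integers K
    (algebraMap K (FiniteAdeleRing (𝓞 K) K) (algebraMap (𝓞 K) K e)⁻¹ * a)
  have hy : ∀ v : HeightOneSpectrum (𝓞 K),
      Valued.v (a v - algebraMap K (v.adicCompletion K) (algebraMap (𝓞 K) K e * k))
        ≤ vInt756 v e := by
    intro v
    have h1 := hk v
    rw [HeightOneSpectrum.mem_adicCompletionIntegers] at h1
    have e2 : (algebraMap K (FiniteAdeleRing (𝓞 K) K) (algebraMap (𝓞 K) K e)⁻¹ * a) v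
        = algebraMap K (v.adicCompletion K) (algebraMap (𝓞 K) K e)⁻¹ * a v := rfl
    rw [e2] at h1
    have hE : algebraMap K (v.adicCompletion K) (algebraMap (𝓞 K) K e) ≠ 0 := by
      simpa using he
    have e3 : a v - algebraMap K (v.adicCompletion K) (algebraMap (𝓞 K) K e * k)
        = algebraMap K (v.adicCompletion K) (algebraMap (𝓞 K) K e)
          * (algebraMap K (v.adicCompletion K) (algebraMap (𝓞 K) K e)⁻¹ * a v
            - algebraMap K (v.adicCompletion K) k) := by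
      rw [map_mul, map_inv₀]
      field_simp
    rw [e3, map_mul]
    calc Valued.v (algebraMap K (v.adicCompletion K) (algebraMap (𝓞 K) K e)) * _
        ≤ vInt756 v e * 1 := mul_le_mul' le_rfl h1
      _ = vInt756 v e := mul_one _
  have hint : ∀ v : HeightOneSpectrum (𝓞 K),
      v.valuation K (algebraMap (𝓞 K) K e * k) ≤ 1 := by
    intro v
    rw [← H767.valued_algebraMap K v]
    have e4 : algebraMap K (v.adicCompletion K) (algebraMap (𝓞 K) K e * k)
        = a v + -(a v - algebraMap K (v.adicCompletion K) (algebraMap (𝓞 K) K e * k)) := by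
      ring
    rw [e4]
    refine Valuation.map_add_le _ (ha v) ?_
    rw [Valuation.map_neg]
    exact (hy v).trans (vInt_le_one756 v e)
  obtain ⟨r, hr⟩ := HeightOneSpectrum.mem_integers_of_valuation_le_one K _ hint
  refine ⟨r, fun v => ?_⟩
  rw [hr]
  exact hy v

/-- **The finite invariant** on the integral finite adeles. -/
theorem exists_finite_inv756 (e : 𝓞 K) (he : e ≠ 0) :
    ∃ π : FiniteAdeleRing (𝓞 K) K → (𝓞 K ⧸ Ideal.span {e}),
      ∀ a a' : FiniteAdeleRing (𝓞 K) K,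
        (∀ v : HeightOneSpectrum (𝓞 K), Valued.v (a v) ≤ 1) →
        (∀ v : HeightOneSpectrum (𝓞 K), Valued.v (a' v) ≤ 1) → π a = π a' →
        ∀ v : HeightOneSpectrum (𝓞 K), Valued.v (a v - a' v) ≤ vInt756 v e := by
  classical
  have hex : ∀ a : FiniteAdeleRing (𝓞 K) K, ∃ r : 𝓞 K,
      (∀ v : HeightOneSpectrum (𝓞 K), Valued.v (a v) ≤ 1) →
      ∀ v : HeightOneSpectrum (𝓞 K),
        Valued.v (a v - algebraMap K (v.adicCompletion K) (algebraMap (𝓞 K) K r))
          ≤ vInt756 v e := by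
    intro a
    by_cases ha : ∀ v : HeightOneSpectrum (𝓞 K), Valued.v (a v) ≤ 1
    · obtain ⟨r, hr⟩ := exists_int_approx756 e he a ha
      exact ⟨r, fun _ => hr⟩
    · exact ⟨0, fun h => absurd h ha⟩
  choose ρ hρ using hex
  refine ⟨fun a => Ideal.Quotient.mk _ (ρ a), fun a a' ha ha' h v => ?_⟩
  have hmem : ρ a - ρ a' ∈ Ideal.span {e} := (Ideal.Quotient.eq).1 h
  obtain ⟨s, hs⟩ := Ideal.mem_span_singleton'.1 hmem
  have h3 : Valued.v (algebraMap K (v.adicCompletion K) (algebraMap (𝓞 K) K (ρ a - ρ a')))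
      ≤ vInt756 v e := by
    rw [← hs]
    show vInt756 v (s * e) ≤ vInt756 v e
    rw [vInt_mul756]
    calc vInt756 v s * vInt756 v e ≤ 1 * vInt756 v e := mul_le_mul' (vInt_le_one756 v s) le_rfl
      _ = vInt756 v e := one_mul _
  have e5 : a v - a' v
      = (a v - algebraMap K (v.adicCompletion K) (algebraMap (𝓞 K) K (ρ a)))
        + (-(a' v - algebraMap K (v.adicCompletion K) (algebraMap (𝓞 K) K (ρ a')))
          + algebraMap K (v.adicCompletion K) (algebraMap (𝓞 K) K (ρ a - ρ a'))) := by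
    rw [map_sub, map_sub]
    ring
  rw [e5]
  refine Valuation.map_add_le _ (hρ a ha v) (Valuation.map_add_le _ ?_ h3)
  rw [Valuation.map_neg]
  exact hρ a' ha' v

/-! ## 3. The systems exist -/

theorem integral_of_inLevelGroup756 {𝔫 : Ideal (𝓞 K)} {u : G K} (hu : InLevelGroup 𝔫 u)
    (v : HeightOneSpectrum (𝓞 K)) (i j : Fin 2) : Valued.v (finComp v u i j) ≤ 1 := by
  have h := T2.H907.idealClosure_subset_integers907 𝔫 v (hu.2 v i j).1
  rw [HeightOneSpectrum.mem_adicCompletionIntegers] at h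
  have e : finComp v u i j = (finComp v u - 1) i j + (1 : Matrix (Fin 2) (Fin 2) _) i j := by
    rw [Matrix.sub_apply]; ring
  rw [e]
  refine Valuation.map_add_le _ h ?_
  by_cases hij : i = j
  · subst hij
    rw [Matrix.one_apply_eq, Valuation.map_one]
  · rw [Matrix.one_apply_ne hij, Valuation.map_zero]
    exact zero_le

/-- `u⁻¹ u' ≡ 1` if `u ≡ u'`, for integral `u⁻¹`. -/
theorem inv_mul_sub_one_val756 (v : HeightOneSpectrum (𝓞 K)) {u u' : G K} {ν : ℤᵐ⁰}
    (hu : ∀ i j, Valued.v (finComp v u⁻¹ i j) ≤ 1)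
    (h : ∀ i j, Valued.v (finComp v u i j - finComp v u' i j) ≤ ν) (i j : Fin 2) :
    Valued.v ((finComp v (u⁻¹ * u') - 1) i j) ≤ ν := by
  have e : finComp v (u⁻¹ * u') - 1 = finComp v u⁻¹ * (finComp v u' - finComp v u) := by
    rw [Matrix.mul_sub, finComp_inv_mul756, finComp_mul756]
  have key : ∀ a : Fin 2,
      Valued.v (finComp v u⁻¹ i a * (finComp v u' - finComp v u) a j) ≤ ν := by
    intro a
    rw [map_mul, Matrix.sub_apply, Valuation.map_sub_swap]
    calc Valued.v (finComp v u⁻¹ i a) * Valued.v (finComp v u a j - finComp v u' a j)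
        ≤ 1 * ν := mul_le_mul' (hu i a) (h a j)
      _ = ν := one_mul _
  rw [e, Matrix.mul_apply, Fin.sum_univ_two]
  exact Valuation.map_add_le _ (key 0) (key 1)

/-- **THE DOUBLE COSETS `U(𝔫) g U(𝔫)` ARE FINITE** (`𝔫 ≠ 0`). -/
theorem exists_dblCosetSystem_of_ne_bot756 (𝔫 : Ideal (𝓞 K)) (h𝔫 : 𝔫 ≠ ⊥) (g : G K)
    (hg : ∀ w : InfinitePlace K, TrivAtInf w g) :
    ∃ H : Finset (G K), IsDblCosetSystem 𝔫 g H := by
  obtain ⟨e, he, hconj⟩ := conj_level756 𝔫 h𝔫 g hg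
  obtain ⟨π, hπ⟩ := exists_finite_inv756 e he
  have : Finite (𝓞 K ⧸ Ideal.span {e}) :=
    Ideal.finiteQuotientOfFreeOfNeBot _ (by simpa using he)
  refine exists_system_abs756 (InLevelGroup 𝔫) (inLevelGroup_one756 𝔫)
    (fun a b ha hb => inLevelGroup_mul756 ha hb) (fun a ha => inLevelGroup_inv756 ha) g
    (F := Fin 2 → Fin 2 → 𝓞 K ⧸ Ideal.span {e})
    (fun u i j => π ((u : Matrix (Fin 2) (Fin 2) (Adl K)) i j).2) ?_
  intro u u' hu hu' hπu
  have hd : ∀ (v : HeightOneSpectrum (𝓞 K)) (i j : Fin 2),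
      Valued.v (finComp v u i j - finComp v u' i j) ≤ vInt756 v e := by
    intro v i j
    exact hπ _ _ (fun v' => integral_of_inLevelGroup756 hu v' i j)
      (fun v' => integral_of_inLevelGroup756 hu' v' i j) (congrFun (congrFun hπu i) j) v
  have hd' : ∀ (v : HeightOneSpectrum (𝓞 K)) (i j : Fin 2),
      Valued.v (finComp v u' i j - finComp v u i j) ≤ vInt756 v e := by
    intro v i j
    rw [← Valuation.map_neg, neg_sub]
    exact hd v i j
  have hui := inLevelGroup_inv756 hu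
  have hui' := inLevelGroup_inv756 hu'
  refine hconj (u⁻¹ * u')
    (fun w' => trivAtInf_mul756 (trivAtInf_inv756 (hu.1 w')) (hu'.1 w'))
    (fun v i j => inv_mul_sub_one_val756 v
      (fun a b => integral_of_inLevelGroup756 hui v a b) (hd v) i j)
    (fun v i j => ?_)
  have e2 : (u⁻¹ * u')⁻¹ = u'⁻¹ * u := by group
  rw [e2]
  exact inv_mul_sub_one_val756 v (fun a b => integral_of_inLevelGroup756 hui' v a b) (hd' v) i j

end Fermat.Agent.LT.T7.H756

end
end
-- ===== PACK-END LT/T7/H756/DblExists.lean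

-- ===== PACK-BEGIN LT/T7/H801/EigBridgeQ.lean
section





/-!
# Row LT, quadratic step (`F = ℚ(√-3)` over `ℚ`): BRIDGE between the eigenfunctions of the
# quadratic step (`L2Q.IsEigFnQ`, circle means `L2Q.MeanEigR0` / `L2Q.MeanEigR1`) and the
# classes of station T3.18R (`T3.R.IsMeanLevelR`, `T3.R.MeanEigR`, `T3.R.IsClassLevelR`)

OFF-MAIN.  PROVED, no hole, nothing assumed.  ADDITIVE (new names only, suffix `801`, namespace
`Fermat.Agent.LT.T7.EB801`).

    meanEigR_w0_801           : IsEigFnQ w0 𝔫 r u χ c → T3.R.MeanEigR ℚ hR χ w (c.m w / 2π)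
    meanEigR_w1_801           : IsEigFnQ w1 𝔫 r u χ c → T3.R.MeanEigR ℚ hR χ w (c.m w / 2π)
    isMeanLevelR_of_eigFnQ801 : IsEigFnQ t 𝔫 r u χ c
                                  → T3.R.IsMeanLevelR ℚ hR 𝔫 (fun _ => t.wt) (c.m · / 2π) χ
    isClassLevelR_of_eigFnQ801: IsEigFnQ t 𝔫 r u χ c
                                  → T3.R.IsClassLevelR ℚ hR 𝔫 (locClassR t.wt (c.m w / 2π)) χ

so that the operator scalars of `T3.R.ekOfPairR_c` (and of `T3.PushR801.ekPushR801`,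
`T7.EQ801.ekPushQ801`) are available on the eigenfunctions of the quadratic step.

## The conventions

* `T3.R.MeanEigR`: the circle `Y θ = k_θ a_s k_θ⁻¹` (`k_θ = !![cos θ, -sin θ; sin θ, cos θ]`,
  `a_s = diag(e^{s/2}, e^{-s/2})`), `∫₀^{2π} φ(g Y θ) dθ = 2π m(s) φ(g)`.
* `L2Q.MeanEigR0` (weight `0`): `Y θ = rotY θ · torus s = k_{θ/2} a_s`,
  `∫₀^{2π} ψ(g Y θ) dθ = m(s) ψ(g)`.
* `L2Q.MeanEigR1` (weight one, `T6` weight `-1`): `Y θ = rotC θ · torus s = k_{-θ} a_s`,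
  `∫₀^{2π} e^{-iθ} ψ(g Y θ) dθ = m(s) ψ(g)`.

An eigenfunction of type `t` satisfies `χ(g k_θ a_s k_θ⁻¹) = χ_t(k_{-θ}) χ(g k_θ a_s)`,
`χ_t(k_{-θ}) = e^{-i t.wt θ}` (`= 1`, resp. `e^{iθ}`).  Weight `0`: `θ ↦ χ(g k_θ a_s)` is
`π`-periodic (`k_π = -1` is central and in `SO(2)`), so its integral over `[0, 2π]` is the
integral of `θ ↦ χ(g k_{θ/2} a_s)` over `[0, 2π]`.  Weight one: the substitution `θ ↦ -θ` and
the `2π`-periodicity.  In both cases `m_{T3.R} = m_{L2Q} / 2π`.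
-/

set_option autoImplicit false
set_option linter.unusedSectionVars false

open AutomorphicForm IsDedekindDomain NumberField MeasureTheory

noncomputable section

namespace Fermat.Agent.LT.T7.EB801

open Fermat.Agent.LT Fermat.Agent.LT.H556 Fermat.Agent.LT.H556.A0 Fermat.Agent.LT.T7
  Fermat.Agent.LT.T7.L2Q Fermat.Agent.LT.T7.TB801
  Fermat.Agent.LT.T6 Fermat.Agent.LT.T6.H830 Fermat.Agent.LT.T6.H131 Fermat.Agent.LT.T6.H162
  Fermat.Agent.LT.T3.R.H981 Fermat.Agent.LT.T3.R.H96 Fermat.Agent.LT.H670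

variable (hR : ∀ w : InfinitePlace ℚ, w.IsReal)

/-! ## 1. The circle of `T3.R.MeanEigR` -/

/-- The circle of `T3.R.MeanEigR`: `Y θ = E(k_θ a_s) E(k_{-θ})`. -/
theorem circle_eq801 (w : InfinitePlace ℚ) {s : ℝ} {Y : ℝ → G ℚ}
    (hY : ∀ θ : ℝ, IsLocalAtInf w (Y θ) ∧
      ((T3.R.reGL ℚ w (hR w) (Y θ) : GL (Fin 2) ℝ) : Matrix (Fin 2) (Fin 2) ℝ)
        = !![Real.cos θ, -Real.sin θ; Real.sin θ, Real.cos θ]
          * !![Real.exp (s / 2), 0; 0, Real.exp (-(s / 2))]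
          * !![Real.cos θ, Real.sin θ; -Real.sin θ, Real.cos θ]) (θ : ℝ) :
    Y θ = reEmbAt981 hR w (rotR θ * bR 0 s 0) * reEmbAt981 hR w (rotR (-θ)) := by
  rw [← map_mul]
  refine (eq_reEmbAt_of_local981 hR w (Y θ) (hY θ).1).trans ?_
  congr 1
  apply Units.ext
  rw [(hY θ).2, circle_coe96]

/-- The type of a rotation. -/
theorem type_rot801 (t : QWt) (w : InfinitePlace ℚ) (θ : ℝ) :
    t.type (reEmbAt981 hR w (rotR θ))
      = Complex.exp ((t.wt : ℂ) * ((θ : ℂ) * Complex.I)) := by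
  rw [← typeR_eq_type801 hR t (isArchCompact_reEmbAt981 hR w _ (inSO2_rotR_h131 θ)),
    typeR_reEmbAt981, wtChar_rotR_h131]

/-- An eigenfunction of type `t` on the circle of `T3.R.MeanEigR`. -/
theorem eig_circle801 (t : QWt) {𝔫 : Ideal (𝓞 ℚ)} {r : G ℚ} {u : HeightOneSpectrum (𝓞 ℚ)}
    {χ : G ℚ → ℂ} {c : EigData ℚ} (hχ : IsEigFnQ t 𝔫 r u χ c)
    (w : InfinitePlace ℚ) {s : ℝ} {Y : ℝ → G ℚ}
    (hY : ∀ θ : ℝ, IsLocalAtInf w (Y θ) ∧
      ((T3.R.reGL ℚ w (hR w) (Y θ) : GL (Fin 2) ℝ) : Matrix (Fin 2) (Fin 2) ℝ)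
        = !![Real.cos θ, -Real.sin θ; Real.sin θ, Real.cos θ]
          * !![Real.exp (s / 2), 0; 0, Real.exp (-(s / 2))]
          * !![Real.cos θ, Real.sin θ; -Real.sin θ, Real.cos θ]) (g : G ℚ) (θ : ℝ) :
    χ (g * Y θ) = Complex.exp ((t.wt : ℂ) * (((-θ : ℝ) : ℂ) * Complex.I))
      * χ (g * reEmbAt981 hR w (rotR θ * bR 0 s 0)) := by
  rw [circle_eq801 hR w hY θ, ← mul_assoc,
    hχ.inv.cusp.aut.arch_compact w _
      (isArchCompact_reEmbAt981 hR w _ (inSO2_rotR_h131 (-θ))), type_rot801]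

/-- `θ ↦ E(k_θ a_s)` is continuous. -/
theorem continuous_circ801 (w : InfinitePlace ℚ) (s : ℝ) :
    Continuous (fun θ : ℝ => reEmbAt981 hR w (rotR θ * bR 0 s 0)) :=
  (continuous_reEmbAt981 hR w).comp (continuous_rotR_h131.mul continuous_const)

/-- `k_π` commutes with the torus. -/
theorem rotR_pi_comm801 (s : ℝ) : rotR Real.pi * bR 0 s 0 = bR 0 s 0 * rotR Real.pi := by
  apply Units.ext
  rw [Units.val_mul, Units.val_mul, coe_rotR830, coe_bR830, Real.cos_pi, Real.sin_pi]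
  ext i j
  fin_cases i <;> fin_cases j <;> simp

/-- The matrix of `E(k_{θ/2} a_s)`: the circle of `L2Q.MeanEigR0`. -/
theorem infComp_circ0_801 (w : InfinitePlace ℚ) (s θ : ℝ) :
    infComp w (reEmbAt981 hR w (rotR (θ / 2) * bR 0 s 0)) = rotY θ * torus s := by
  rw [infComp_reEmbAt981, Units.val_mul, coe_rotR830, coe_bR830]
  have h1 : Real.exp ((0 + s) / 2) = Real.exp (s / 2) := by congr 1; ring
  have h2 : Real.exp ((0 - s) / 2) = Real.exp (-(s / 2)) := by congr 1; ring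
  rw [h1, h2]
  unfold rotY torus
  ext i j
  fin_cases i <;> fin_cases j <;> simp [Matrix.mul_apply, Fin.sum_univ_two]

/-- The matrix of `E(k_{-θ} a_s)`: the circle of `L2Q.MeanEigR1`. -/
theorem infComp_circ1_801 (w : InfinitePlace ℚ) (s θ : ℝ) :
    infComp w (reEmbAt981 hR w (rotR (-θ) * bR 0 s 0)) = QOut.rotC θ * torus s := by
  rw [infComp_reEmbAt981, Units.val_mul, coe_rotR830, coe_bR830]
  have h1 : Real.exp ((0 + s) / 2) = Real.exp (s / 2) := by congr 1; ring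
  have h2 : Real.exp ((0 - s) / 2) = Real.exp (-(s / 2)) := by congr 1; ring
  rw [h1, h2, Real.cos_neg, Real.sin_neg, neg_neg]
  unfold QOut.rotC torus
  ext i j
  fin_cases i <;> fin_cases j <;> simp [Matrix.mul_apply, Fin.sum_univ_two]

/-! ## 2. The circle means -/

/-- **WEIGHT `0`**: an eigenfunction of the circle means `L2Q.MeanEigR0` is an eigenfunction of
the circle means of station T3.18R, with eigenvalue function `m / 2π`. -/
theorem meanEigR_w0_801 {𝔫 : Ideal (𝓞 ℚ)} {r : G ℚ} {u : HeightOneSpectrum (𝓞 ℚ)}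
    {χ : G ℚ → ℂ} {c : EigData ℚ} (hχ : IsEigFnQ QWt.w0 𝔫 r u χ c) (w : InfinitePlace ℚ) :
    T3.R.MeanEigR ℚ hR χ w (fun s => c.m w s / ((2 * Real.pi : ℝ) : ℂ)) := by
  intro s hs Y hY g
  have hm : MeanEigR0 χ w (c.m w) := hχ.mean w
  have hcont : Continuous (fun θ : ℝ => χ (g * reEmbAt981 hR w (rotR θ * bR 0 s 0))) :=
    hχ.inv.cusp.cont.comp (continuous_const.mul (continuous_circ801 hR w s))
  have hper : Function.Periodic
      (fun θ : ℝ => χ (g * reEmbAt981 hR w (rotR θ * bR 0 s 0))) Real.pi := by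
    intro θ
    show χ (g * reEmbAt981 hR w (rotR (θ + Real.pi) * bR 0 s 0))
      = χ (g * reEmbAt981 hR w (rotR θ * bR 0 s 0))
    have e1 : rotR (θ + Real.pi) * bR 0 s 0 = rotR θ * bR 0 s 0 * rotR Real.pi := by
      rw [← rotR_mul_rotR162, mul_assoc, rotR_pi_comm801, ← mul_assoc]
    rw [e1, map_mul, ← mul_assoc,
      hχ.inv.cusp.aut.arch_compact w _
        (isArchCompact_reEmbAt981 hR w _ (inSO2_rotR_h131 Real.pi))]
    show (1 : ℂ) * _ = _
    rw [one_mul]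
  have e0 : ∀ θ : ℝ, χ (g * Y θ) = χ (g * reEmbAt981 hR w (rotR θ * bR 0 s 0)) := by
    intro θ
    rw [eig_circle801 hR QWt.w0 hχ w hY g θ]
    show Complex.exp (((0 : ℤ) : ℂ) * _) * _ = _
    rw [Int.cast_zero, zero_mul, Complex.exp_zero, one_mul]
  have hmean := hm s hs (fun θ => reEmbAt981 hR w (rotR (θ / 2) * bR 0 s 0))
    (fun θ => ⟨isLocalAtInf_reEmbAt981 hR w _, infComp_circ0_801 hR w s θ⟩) g
  have hdiv := intervalIntegral.integral_comp_div (a := (0 : ℝ)) (b := 2 * Real.pi)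
    (fun θ : ℝ => χ (g * reEmbAt981 hR w (rotR θ * bR 0 s 0))) (two_ne_zero (α := ℝ))
  have h02 : (0 : ℝ) / 2 = 0 := zero_div _
  have h2p : 2 * Real.pi / 2 = Real.pi := by ring
  rw [h02, h2p] at hdiv
  have hadj := intervalIntegral.integral_add_adjacent_intervals
    (hcont.intervalIntegrable (μ := volume) 0 Real.pi)
    (hcont.intervalIntegrable (μ := volume) Real.pi (2 * Real.pi))
  have hsh := hper.intervalIntegral_add_eq Real.pi 0
  have hpp : Real.pi + Real.pi = 2 * Real.pi := by ring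
  rw [hpp, zero_add] at hsh
  simp only [e0]
  rw [← hadj, hsh]
  have h3 : (∫ θ in (0 : ℝ)..Real.pi, χ (g * reEmbAt981 hR w (rotR θ * bR 0 s 0)))
      + (∫ θ in (0 : ℝ)..Real.pi, χ (g * reEmbAt981 hR w (rotR θ * bR 0 s 0)))
      = c.m w s * χ g := by
    rw [← hmean, hdiv, two_smul]
  rw [h3]
  have hpi : ((2 * Real.pi : ℝ) : ℂ) ≠ 0 :=
    Complex.ofReal_ne_zero.2 (mul_ne_zero two_ne_zero Real.pi_ne_zero)
  field_simp

/-- **WEIGHT ONE**: an eigenfunction of the circle means `L2Q.MeanEigR1` is an eigenfunction of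
the circle means of station T3.18R, with eigenvalue function `m / 2π`. -/
theorem meanEigR_w1_801 {𝔫 : Ideal (𝓞 ℚ)} {r : G ℚ} {u : HeightOneSpectrum (𝓞 ℚ)}
    {χ : G ℚ → ℂ} {c : EigData ℚ} (hχ : IsEigFnQ QWt.w1 𝔫 r u χ c) (w : InfinitePlace ℚ) :
    T3.R.MeanEigR ℚ hR χ w (fun s => c.m w s / ((2 * Real.pi : ℝ) : ℂ)) := by
  intro s hs Y hY g
  have hm : MeanEigR1 χ w (c.m w) := hχ.mean w
  have hper : Function.Periodic
      (fun θ : ℝ => Complex.exp (-(Complex.I * ((θ : ℝ) : ℂ)))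
        * χ (g * reEmbAt981 hR w (rotR (-θ) * bR 0 s 0))) (2 * Real.pi) := by
    intro θ
    show Complex.exp (-(Complex.I * (((θ + 2 * Real.pi : ℝ)) : ℂ)))
        * χ (g * reEmbAt981 hR w (rotR (-(θ + 2 * Real.pi)) * bR 0 s 0))
      = Complex.exp (-(Complex.I * ((θ : ℝ) : ℂ)))
        * χ (g * reEmbAt981 hR w (rotR (-θ) * bR 0 s 0))
    have hr : rotR (-(θ + 2 * Real.pi)) = rotR (-θ) := rotR_neg_periodic96 θ
    rw [hr]
    congr 1
    have h : -(Complex.I * (((θ + 2 * Real.pi : ℝ)) : ℂ))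
        = -(Complex.I * ((θ : ℝ) : ℂ)) + ((-1 : ℤ) : ℂ) * (2 * (Real.pi : ℂ) * Complex.I) := by
      push_cast
      ring
    rw [h, Complex.exp_add, Complex.exp_int_mul_two_pi_mul_I, mul_one]
  have e0 : ∀ θ : ℝ, χ (g * Y θ)
      = (fun θ' : ℝ => Complex.exp (-(Complex.I * ((θ' : ℝ) : ℂ)))
        * χ (g * reEmbAt981 hR w (rotR (-θ') * bR 0 s 0))) (-θ) := by
    intro θ
    rw [eig_circle801 hR QWt.w1 hχ w hY g θ]
    show Complex.exp (((-1 : ℤ) : ℂ) * _) * _
      = Complex.exp (-(Complex.I * (((-θ : ℝ)) : ℂ)))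
        * χ (g * reEmbAt981 hR w (rotR (- -θ) * bR 0 s 0))
    rw [neg_neg]
    congr 2
    push_cast
    ring
  have hmean := hm s hs (fun θ => reEmbAt981 hR w (rotR (-θ) * bR 0 s 0))
    (fun θ => ⟨isLocalAtInf_reEmbAt981 hR w _, infComp_circ1_801 hR w s θ⟩) g
  have hneg := intervalIntegral.integral_comp_neg (a := (0 : ℝ)) (b := 2 * Real.pi)
    (fun θ' : ℝ => Complex.exp (-(Complex.I * ((θ' : ℝ) : ℂ)))
      * χ (g * reEmbAt981 hR w (rotR (-θ') * bR 0 s 0)))
  have hsh := hper.intervalIntegral_add_eq (-(2 * Real.pi)) 0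
  rw [neg_add_cancel, zero_add] at hsh
  rw [neg_zero] at hneg
  simp only [e0]
  rw [hneg, hsh, hmean]
  have hpi : ((2 * Real.pi : ℝ) : ℂ) ≠ 0 :=
    Complex.ofReal_ne_zero.2 (mul_ne_zero two_ne_zero Real.pi_ne_zero)
  field_simp

/-! ## 3. The classes of station T3.18R -/

/-- **THE BRIDGE**: an eigenfunction of the quadratic step of type `t` is of the class
`T3.R.IsMeanLevelR` of weight `t.wt`, with the eigenvalue functions `m / 2π`. -/
theorem isMeanLevelR_of_eigFnQ801 (t : QWt) {𝔫 : Ideal (𝓞 ℚ)} {r : G ℚ}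
    {u : HeightOneSpectrum (𝓞 ℚ)} {χ : G ℚ → ℂ} {c : EigData ℚ}
    (hχ : IsEigFnQ t 𝔫 r u χ c) :
    T3.R.IsMeanLevelR ℚ hR 𝔫 (fun _ => t.wt)
      (fun w s => c.m w s / ((2 * Real.pi : ℝ) : ℂ)) χ where
  cont := hχ.inv.cusp.cont
  level_inv := fun u hu g => hχ.inv.cusp.aut.level_inv u hu g
  arch_scalar := hχ.inv.arch_scalar
  arch_compact := fun w k hk g => by
    rw [hχ.inv.cusp.aut.arch_compact w k hk g, typeR_eq_type801 hR t hk]
  mean := fun w => by
    cases t with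
    | w0 => exact meanEigR_w0_801 hR hχ w
    | w1 => exact meanEigR_w1_801 hR hχ w

/-- **THE BRIDGE, classes**: an eigenfunction of the quadratic step of type `t` belongs to the
global class of the concrete local classes `T3.R.locClassR t.wt (m / 2π)`. -/
theorem isClassLevelR_of_eigFnQ801 (t : QWt) {𝔫 : Ideal (𝓞 ℚ)} {r : G ℚ}
    {u : HeightOneSpectrum (𝓞 ℚ)} {χ : G ℚ → ℂ} {c : EigData ℚ}
    (hχ : IsEigFnQ t 𝔫 r u χ c) :
    T3.R.IsClassLevelR ℚ hR 𝔫
      (fun w => T3.R.locClassR t.wt (fun s => c.m w s / ((2 * Real.pi : ℝ) : ℂ))) χ :=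
  locOfMeanRC981 ℚ hR 𝔫 (fun _ => t.wt) (fun w s => c.m w s / ((2 * Real.pi : ℝ) : ℂ)) χ
    (isMeanLevelR_of_eigFnQ801 hR t hχ)

end Fermat.Agent.LT.T7.EB801

end

end
-- ===== PACK-END LT/T7/H801/EigBridgeQ.lean

-- ===== PACK-BEGIN LT/T7/H820/ProjQ.lean
section











/-!
# Row LT, tower T7, node T7.L2Q.1 `SupplyQC`, leaf C3a `ProjQC962 w1` (registry row 2261)
# -- CLOSED, UNCONDITIONAL (helper820)

OFF-MAIN.  No hole, nothing assumed.  ADDITIVE (new names only, all suffixed `820`).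
Spec: `T7/H962/SupplyQSpec.lean` (helper962@39bd27364, sha256 8375a60b), byte-identical copy.

    projQC_820 (n : QWt) : H962.ProjQC962 n          (BOTH types)
    projQC_w1_820 : H962.ProjQC962 QWt.w1            (the leaf, VERBATIM)

Proof.  `ProjQGen.lean` (`exists_projT820`: the averaging of helper193's cut for an arbitrary
`K_∞`-type `τ`) with
* `T1.t1Out ℚ` (`T1/Closed.lean`, closure of helper40@9a1249af2),
* `TranslInvC` = `H453.translInvC453`, `FinDataC` = `H454.finDataAsmC454` + `H543.hGroupC543`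
  + `H981.finIndexC981` (type-agnostic leaves of helper193's cut, byte-identical copies),
* the torus data over `ℚ` (`torusData_of_subsingleton820`): `a` = the positive scalars
  (`H195.posScalC195`), the lattice of periods is generated by the constant vector `log t₀`
  ALONE (there is one infinite place, no unit is needed), `D` from `H563.torusMeanC563`; the mean
  is translation invariant for EVERY `r`-invariant function, whatever its `K_∞`-type.
-/

set_option autoImplicit false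
set_option linter.unusedSectionVars false
set_option linter.style.haveILetI false

open IsDedekindDomain NumberField MeasureTheory
open scoped ComplexConjugate

noncomputable section

namespace Fermat.Agent.LT.T7.H820

open Fermat.Agent.LT.H556 Fermat.Agent.LT.H556.A0 Fermat.Agent.LT Fermat.Agent.LT.T7
open Fermat.Agent.LT.T7.H193 Fermat.Agent.LT.T7.L2Q

attribute [local instance] Fermat.Agent.LT.T5.instMeasurableSpaceG

/-- **The torus data of a field with ONE infinite place** (`ℚ`, imaginary quadratic fields): the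
lattice of periods is generated by `log r`; the mean over the fundamental domain is translation
invariant for every function which is right invariant under `r`. -/
theorem torusData_of_subsingleton820 (K : Type) [Field K] [NumberField K]
    [Subsingleton (InfinitePlace K)] (hPos : PosScalC K) (hMean : TorusMeanC)
    (𝔑 : Ideal (𝓞 K)) (r : G K) (hr : T5.IsRayGen r) :
    ∃ (a : (InfinitePlace K → ℝ) → G K) (D : Set (InfinitePlace K → ℝ)),
      IsTorusData 𝔑 r a D ∧ MeanRay820 r a D := by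
  classical
  obtain ⟨a, ha_cont, ha_mul, ha_inf, ha_fin, ha_central⟩ := hPos
  obtain ⟨hrfin, t₀, ht₀pos, ht₀pow, hrinf⟩ := hr
  have hc : Real.log t₀ ≠ 0 := by
    intro h0
    rcases Real.log_eq_zero.mp h0 with h | h | h
    · linarith
    · rw [h, one_pow] at ht₀pow
      norm_num at ht₀pow
    · linarith
  have hu : ∀ _ : InfinitePlace K, IsUnit (Real.log t₀) := fun _ => IsUnit.mk0 _ hc
  obtain ⟨b, hb⟩ : ∃ b : Module.Basis (InfinitePlace K) ℝ (InfinitePlace K → ℝ),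
      ∀ i : InfinitePlace K, b i = fun _ => Real.log t₀ := by
    refine ⟨(Pi.basisFun ℝ (InfinitePlace K)).isUnitSMul hu, fun i => ?_⟩
    rw [Module.Basis.isUnitSMul_apply]
    funext w
    rw [Subsingleton.elim w i]
    simp
  obtain ⟨D, hDm, hDb, hDp, hDmean⟩ := hMean (InfinitePlace K) b
  have hr' : a (fun _ => Real.log t₀) = r := by
    apply H865.g_ext865
    · intro w
      rw [ha_inf, hrinf, Real.exp_log ht₀pos]
    · intro v
      rw [show finComp v (a fun _ => Real.log t₀) = 1 from ha_fin _ v,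
        show finComp v r = 1 from hrfin v]
  have hM : MeanRay820 r a D := by
    intro e he g s
    refine hDmean (fun t => e (g * a t)) (fun i t => ?_) s
    show e (g * a (t + b i)) = e (g * a t)
    rw [ha_mul, ← mul_assoc, hb i, hr']
    exact he _
  exact ⟨a, D, ⟨ha_cont, ha_mul, ha_inf, ha_fin, ha_central, hDm, hDb, hDp,
    fun e he _ g s => hM e he.ray g s⟩, hM⟩

/-- The invariant cusp functions of `L2Q` are those of `ProjQGen.lean` for `K = ℚ`, `l = 1`. -/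
theorem isWFnQ_iff820 (n : QWt) (𝔫 : Ideal (𝓞 ℚ)) (r : G ℚ) (u : HeightOneSpectrum (𝓞 ℚ))
    (ψ : G ℚ → ℂ) : IsWFnQ n 𝔫 r u ψ ↔ IsWFnT820 n.type 𝔫 r 1 (fun _ => u) ψ :=
  ⟨fun h => ⟨h.cusp, h.arch_scalar, h.iw⟩, fun h => ⟨h.cusp, h.arch_scalar, h.iw⟩⟩

/-- **`ProjQC962 n` for BOTH types.** -/
theorem projQC_820 (n : QWt) : H962.ProjQC962 n := by
  intro R hR 𝔫₀ 𝔫 h𝔫 hle u _ ψ hψ
  obtain ⟨a, D, hD, hM⟩ := torusData_of_subsingleton820 ℚ (H195.posScalC195 ℚ)
    H563.torusMeanC563 𝔫₀ R.r hR.ray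
  obtain ⟨ψ₁, h1, h2⟩ := exists_projT820 (T1.t1Out ℚ) (H453.translInvC453 ℚ)
    (H454.finDataAsmC454 ℚ (H543.hGroupC543 ℚ) (H981.finIndexC981 ℚ)) n.type R hR 𝔫 𝔫₀ h𝔫 hle
    1 (fun _ => u) a D hD hM ψ hψ
  exact ⟨ψ₁, (isWFnQ_iff820 n 𝔫₀ R.r u ψ₁).2 h1,
    fun χ hχ => h2 χ ((isWFnQ_iff820 n 𝔫₀ R.r u χ).1 hχ)⟩

/-- **LEAF T7.L2Q.1.C3a, type `w1` (registry row 2261), CLOSED.** -/
theorem projQC_w1_820 : H962.ProjQC962 QWt.w1 := projQC_820 QWt.w1

/-- The frozen Prop, VERBATIM. -/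
example : Fermat.Agent.LT.T7.H962.ProjQC962 Fermat.Agent.LT.T7.L2Q.QWt.w1 := projQC_w1_820

end Fermat.Agent.LT.T7.H820

end

end
-- ===== PACK-END LT/T7/H820/ProjQ.lean

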