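import Mathlib
import Fermat.Agent.Pack.LT2.E20L1
import Fermat.Agent.Pack.LT2.E13L2
import Fermat.Agent.Pack.LT2.E5L2
import Fermat.Agent.Pack.LT4.E3L1
import Fermat.Agent.Pack.LT2.E14L0
import Fermat.Agent.Pack.LT2.E19L0
import Fermat.Agent.Pack.LT2.E20L3
import Fermat.Agent.Pack.LT2.E17L3
import Fermat.Agent.Pack.LT4.E1L3
import Fermat.Agent.Pack.LT4.E3L3
import Fermat.Agent.Pack.LT3.E21L2
import Fermat.Agent.Pack.LT2.E8L3
import Fermat.Agent.Pack.LT2.E3L0
import Fermat.Agent.Pack.LT3.E27L3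
import Fermat.Agent.Pack.LT3.E26L1
import Fermat.Agent.Pack.LT3.E26L2
import Fermat.Agent.Pack.LT3.E21L3
import Fermat.Agent.Pack.LT4.E3L0
import Fermat.Agent.Pack.LT3.E15L3
import Fermat.Agent.Pack.LT3.E12L1
import Fermat.Agent.Pack.LT3.E11L1
import Fermat.Agent.Pack.LT3.E26L3
import Fermat.Agent.Pack.LT3.E28L2
import Fermat.Agent.Pack.LT4.E1L0
import Fermat.Agent.Pack.LT2.E6L1
import Fermat.Agent.Pack.LT4.E3L2

set_option linter.all false

-- ===== PACK-BEGIN LT/A2/H293/Closed.lean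
section




/-!
# Row LT, tower A2, leaf A2.03.1.1.09 `WX467.LocBadOfRepC` (helper293) -- CLOSED

OFF-MAIN.  `locBadOfRepC_closed293 : WX467.LocBadOfRepC`, UNCONDITIONAL: the top
`locBadOfRepC293` (`Top.lean`) with its only hypothesis `LocNontrivC293` discharged by the asset
`locNontriv_fin352` of helper352 (registry 1608: the local components of an adele character are
nontrivial; strong approximation).
-/

set_option autoImplicit false

noncomputable section

namespace Fermat.Agent.LT.A2.H293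

open Fermat.Agent.LT.A2

/-- The sub-leaf `LocNontrivC293`, by helper352's `locNontriv_fin352`. -/
theorem locNontrivC293 : LocNontrivC293 :=
  fun _ _ _ _ v _ hψ => Fermat.Agent.LT.A2.H352.locNontriv_fin352 hψ v

/-- **A2.03.1.1.09 / .12 `WX467.LocBadOfRepC`, VERBATIM and UNCONDITIONAL.** -/
theorem locBadOfRepC_closed293 : WX467.LocBadOfRepC :=
  locBadOfRepC293 locNontrivC293

end Fermat.Agent.LT.A2.H293

end

end
-- ===== PACK-END LT/A2/H293/Closed.lean

-- ===== PACK-BEGIN LT/T4/Closed.lean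
section



/-!
# Row LT, tower T4: the tower from the frontier of T5 (architect of T5 helper32) — Closed v3

OFF-MAIN.  `T4.Tower K 𝔫 τ = T5.Tower (AdelicAut.id K) 1 ⊤ 𝔫 τ` (`T4/Spec.lean`, helper797,
byte-identical copy): every door of `T5/Closed.lean` (v9) at `σ = id`, `l = 1`, fixed field `⊤`.
No new mathematics.  `#print axioms` = the three standard axioms.
-/

set_option autoImplicit false

open IsDedekindDomain NumberField MeasureTheory

noncomputable section

namespace Fermat.Agent.LT.T4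

open Fermat.Agent.LT.H556.A0 Fermat.Agent.LT

variable (K : Type) [Field K] [NumberField K]

attribute [local instance] Fermat.Agent.LT.T5.instMeasurableSpaceG

/-- The geometric unfolding of T4, CLOSED. -/
theorem closed_unfold (𝔫 : Ideal (𝓞 K)) (τ : G K → ℂ) :
    T5.GeomUnfold (T5.AdelicAut.id K) 1 ⊤ 𝔫 τ :=
  T5.closed_unfold (T5.AdelicAut.id K) 1 ⊤ 𝔫 τ T5.isCyclicOfDegree_id

/-- **TOWER T4, CLOSED**: for every number field `K`, every level `𝔫 ≠ 0` and every
`K_∞`-type `τ`. -/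
theorem tower_closed (𝔫 : Ideal (𝓞 K)) (τ : G K → ℂ) (h𝔫 : 𝔫 ≠ ⊥) : Tower K 𝔫 τ :=
  T5.tower_closed (T5.AdelicAut.id K) 1 ⊤ 𝔫 τ h𝔫 T5.isCyclicOfDegree_id

/-- The trace identity of T4, CLOSED. -/
theorem stf_closed (𝔫 : Ideal (𝓞 K)) (τ : G K → ℂ) (h𝔫 : 𝔫 ≠ ⊥) : STF K 𝔫 τ :=
  T5.closed_stf (T5.AdelicAut.id K) 𝔫 τ h𝔫

/-- T5.09Z at `σ = id`: regular support up to a scalar at the regular place. -/
theorem closed_regularZ : T5.RegularOfIwahoriZ (T5.AdelicAut.id K) 1 ⊤ :=
  T5.closed_regularZ (T5.AdelicAut.id K) 1 ⊤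

/-- The tower of T4 from T5.04 ALONE. -/
theorem tower_of_range (𝔫 : Ideal (𝓞 K)) (τ : G K → ℂ) (hR : T5.LeafRange 𝔫 τ) :
    Tower K 𝔫 τ :=
  T5.tower_of_range (T5.AdelicAut.id K) 1 ⊤ 𝔫 τ T5.isCyclicOfDegree_id hR

/-- Door R. -/
theorem tower_of_rowBound (𝔫 : Ideal (𝓞 K)) (τ : G K → ℂ) (h : T5.H74.RowBoundC74 𝔫 τ) :
    Tower K 𝔫 τ :=
  T5.tower_of_rowBound (T5.AdelicAut.id K) 1 ⊤ 𝔫 τ T5.isCyclicOfDegree_id h

/-- Door S. -/
theorem tower_of_supBound (𝔫 : Ideal (𝓞 K)) (τ : G K → ℂ) (h : T5.H873.SupBoundC 𝔫 τ) :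
    Tower K 𝔫 τ :=
  T5.tower_of_supBound (T5.AdelicAut.id K) 1 ⊤ 𝔫 τ T5.isCyclicOfDegree_id h

/-- Door B. -/
theorem tower_of_kerBdd (𝔫 : Ideal (𝓞 K)) (τ : G K → ℂ) (h : T5.H40.KerBddC K 𝔫 τ) :
    Tower K 𝔫 τ :=
  T5.tower_of_kerBdd (T5.AdelicAut.id K) 1 ⊤ 𝔫 τ T5.isCyclicOfDegree_id h

/-- Door T2 (`GPSKillT`). -/
theorem tower_of_gpsKill (𝔫 : Ideal (𝓞 K)) (τ : G K → ℂ)
    (h : T2.IsKType τ → T2.GPSKillT K 𝔫 τ) : Tower K 𝔫 τ :=
  T5.tower_of_gpsKill (T5.AdelicAut.id K) 1 ⊤ 𝔫 τ T5.isCyclicOfDegree_id h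

/-- Door T2 (`GPSCoreT`). -/
theorem tower_of_gpsCore (𝔫 : Ideal (𝓞 K)) (τ : G K → ℂ)
    (h : T2.IsKType τ → T2.GPSCoreT K 𝔫 τ) : Tower K 𝔫 τ :=
  T5.tower_of_gpsCore (T5.AdelicAut.id K) 1 ⊤ 𝔫 τ T5.isCyclicOfDegree_id h

/-- Door T2, ONE leaf of tower T2. -/
theorem tower_of_leafT03 (𝔫 : Ideal (𝓞 K)) (τ : G K → ℂ) (h𝔫 : 𝔫 ≠ ⊥)
    (h03 : T2.LeafT03 K) : Tower K 𝔫 τ :=
  T5.tower_of_leafT03 (T5.AdelicAut.id K) 1 ⊤ 𝔫 τ h𝔫 T5.isCyclicOfDegree_id h03

/-- Door A. -/
theorem tower_of_open (𝔫 : Ideal (𝓞 K)) (τ : G K → ℂ) (h𝔫 : 𝔫 ≠ ⊥) (h : T5.Open 𝔫 τ) :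
    Tower K 𝔫 τ :=
  T5.tower_of_open (T5.AdelicAut.id K) 1 ⊤ 𝔫 τ h𝔫 T5.isCyclicOfDegree_id h

end Fermat.Agent.LT.T4

end

end
-- ===== PACK-END LT/T4/Closed.lean

-- ===== PACK-BEGIN LT/T7/H32/SpecIdPlug.lean
section




/-!
# Row LT, tower T7, `SpecIdC` with the towers T5 and T4 PLUGGED IN (helper32, architect of T5)

OFF-MAIN.  `T7/Matching.lean` (helper797@cb30661f3, sha256 0549163e, byte-identical copy) proves

    specIdC_of : (∀ D, IsCompData D → T5.Tower D.s D.l D.k D.𝔑 trivType) →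
                 (∀ 𝔫 ≠ ⊥, T5.Tower (AdelicAut.id K) 1 ⊤ 𝔫 trivType) →
                 T6.NormClassC → T6.NormInjC → GeomC K K' → SpecIdC K K'.

The two towers are CLOSED (`T5.tower_closed`, `T4.tower_closed`; `T5/Closed.lean` v9,
`T4/Closed.lean` v3), so

    specIdC_of_geom32 : T6.NormClassC → T6.NormInjC → GeomC K K' → SpecIdC K K'.

Also the two hypotheses of `GeomC` on the geometric unfolding are closed:
`geomUnfold_up32`, `geomUnfold_down32`.
-/

set_option autoImplicit false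

open IsDedekindDomain NumberField MeasureTheory

noncomputable section

namespace Fermat.Agent.LT.T7.H32

open Fermat.Agent.LT Fermat.Agent.LT.H556 Fermat.Agent.LT.H556.A0 Fermat.Agent.LT.T7

attribute [local instance] Fermat.Agent.LT.T5.instMeasurableSpaceG

variable {K K' : Type} [Field K] [NumberField K] [Field K'] [NumberField K'] [Algebra K K']

/-- The level upstairs is not zero. -/
theorem level_ne32 {D : CompData K K'} (hD : IsCompData D) : D.𝔑 ≠ ⊥ := by
  rw [hD.level]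
  intro h
  apply hD.level_ne
  have hinj : Function.Injective (algebraMap (𝓞 K) (𝓞 K')) :=
    FaithfulSMul.algebraMap_injective (𝓞 K) (𝓞 K')
  exact (Ideal.map_eq_bot_iff_of_injective hinj).1 h

/-- The tower of T5 for the data of the comparison, CLOSED. -/
theorem tower_up32 (D : CompData K K') (hD : IsCompData D) :
    T5.Tower D.s D.l D.k D.𝔑 T5.trivType :=
  T5.tower_closed D.s D.l D.k D.𝔑 T5.trivType (level_ne32 hD) hD.cyc

/-- The tower of T4 downstairs, CLOSED. -/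
theorem tower_down32 (𝔫 : Ideal (𝓞 K)) (h𝔫 : 𝔫 ≠ ⊥) :
    T5.Tower (T5.AdelicAut.id K) 1 ⊤ 𝔫 T5.trivType :=
  T4.tower_closed K 𝔫 T5.trivType h𝔫

/-- The geometric unfolding upstairs (no hypothesis on the level). -/
theorem geomUnfold_up32 (D : CompData K K') (hD : IsCompData D) :
    T5.GeomUnfold D.s D.l D.k D.𝔑 T5.trivType :=
  T5.closed_unfold D.s D.l D.k D.𝔑 T5.trivType hD.cyc

/-- The geometric unfolding downstairs (no hypothesis on the level). -/
theorem geomUnfold_down32 (𝔫 : Ideal (𝓞 K)) :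
    T5.GeomUnfold (T5.AdelicAut.id K) 1 ⊤ 𝔫 T5.trivType :=
  T4.closed_unfold K 𝔫 T5.trivType

/-- **`SpecIdC` from the class bijection ALONE** (towers T5 and T4 plugged in). -/
theorem specIdC_of_geom32 (hN : T6.NormClassC) (hI : T6.NormInjC) (hG : GeomC K K') :
    SpecIdC K K' :=
  specIdC_of (fun D hD => tower_up32 D hD) (fun 𝔫 h𝔫 => tower_down32 𝔫 h𝔫) hN hI hG

end Fermat.Agent.LT.T7.H32

end

end
-- ===== PACK-END LT/T7/H32/SpecIdPlug.lean

-- ===== PACK-BEGIN LT/T7/H57/WeightExAd.lean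
section








/-!
# Row LT, tower T7, LEAF `FoldWhitC`, leaf `WeightExC57` (helper57): ADAPTER

OFF-MAIN.  `WeightExC57 K` from the twin leaves of the cut of helper290 (byte-identical copies):
`ThetaSetC290` (helper793 `thetaSetC793`), `CellCoordC290` (helper360 `cellCoordC360`),
`MeasIotaC57` (helper607), measurability of the heights (helper724), closed T1.

`weightExC57 K : WeightExC57 K`, UNCONDITIONAL; `β = 1_V`.
-/

set_option autoImplicit false
set_option linter.style.haveILetI false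

open AutomorphicForm IsDedekindDomain NumberField Filter Topology MeasureTheory
open scoped ComplexConjugate ENNReal

noncomputable section

namespace Fermat.Agent.LT.T7.H57

open Fermat.Agent.LT.H556 Fermat.Agent.LT.H556.A0 Fermat.Agent.LT.T7 Fermat.Agent.LT.T7.Rigid
open Fermat.Agent.LT Fermat.Agent.LT.T7.Rigid.H290

attribute [local instance] Fermat.Agent.LT.T5.instMeasurableSpaceG

variable {K : Type} [Field K] [NumberField K]

/-! ## The generators lie in `𝒰(𝔪)` -/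

theorem infComp_eq_one_of_triv57 {w : InfinitePlace K} {u : G K} (h : TrivAtInf w u) :
    infComp w u = 1 := by
  ext i j
  unfold infComp
  rw [h i j]
  by_cases hij : i = j
  · subst hij
    simp
  · simp [Matrix.one_apply_ne hij]

theorem unitary_of_triv57 {w : InfinitePlace K} {u : G K} (h : TrivAtInf w u) :
    infComp w u * (infComp w u).conjTranspose = 1 ∧ (w.IsReal → (infComp w u).det = 1) := by
  rw [infComp_eq_one_of_triv57 h]
  simp

theorem isCpt_of_level57 {𝔪 : Ideal (𝓞 K)} {u : G K} (hu : InLevelGroup 𝔪 u) :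
    IsCpt290 𝔪 u :=
  ⟨hu.2, fun w => unitary_of_triv57 (hu.1 w)⟩

theorem finComp_inv_eq_one57 {v : HeightOneSpectrum (𝓞 K)} {k : G K} (h : finComp v k = 1) :
    finComp v k⁻¹ = 1 := by
  have h1 := Fermat.Agent.LT.T7.Rigid.H360.finComp_mul360 v k k⁻¹
  rw [mul_inv_cancel, Fermat.Agent.LT.T7.Rigid.H360.finComp_one360, h, one_mul] at h1
  exact h1.symm

theorem isCpt_of_arch57 (𝔪 : Ideal (𝓞 K)) {w : InfinitePlace K} {k : G K}
    (hk : IsArchCompact w k) : IsCpt290 𝔪 k := by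
  obtain ⟨⟨hinf, hfin⟩, hun, hdet⟩ := hk
  refine ⟨fun v i j => ?_, fun w' => ?_⟩
  · have h1 : finComp v k = 1 := hfin v
    have h2 : finComp v k⁻¹ = 1 := finComp_inv_eq_one57 h1
    rw [h1, h2, sub_self]
    exact ⟨Fermat.Agent.LT.T3.H57.zero_mem_idealClosure57 𝔪 v,
      Fermat.Agent.LT.T3.H57.zero_mem_idealClosure57 𝔪 v⟩
  · by_cases hw : w' = w
    · subst hw
      exact ⟨hun, hdet⟩
    · exact unitary_of_triv57 (hinf w' hw)

/-! ## Measurability of the height -/

theorem measurable_hgt57 : Measurable (hgt57 K) := by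
  have h1 : Measurable (fun g : G K => rowNorm (botRow57 K g)) := by
    have e : (fun g : G K => rowNorm (botRow57 K g))
        = fun g : G K => rowNorm (rowOf ![0, 1] g) := by
      funext g
      rw [Fermat.Agent.LT.T7.H555.rowOf_std555]
      rfl
    rw [e]
    exact Fermat.Agent.LT.T7.H724.measurable_rowNorm724 _
  unfold hgt57
  exact Fermat.Agent.LT.T7.H724.measurable_adNormDet724.div (h1.pow_const 2)

/-! ## The adapter -/

/-- **`WeightExC57`.** -/
theorem weightExC57 (K : Type) [Field K] [NumberField K] : WeightExC57 K := by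
  letI : MeasurableSpace (Adl K) := borel (Adl K)
  letI : MeasurableSpace (Adl K)ˣ := borel (Adl K)ˣ
  intro hT μ hμ ν hν τ hτ S 𝔪 hS
  have h𝔪 : 𝔪 ≠ ⊥ := hS.1
  have hN : T1.AdNormC K := (T1.t1Out K).adNorm
  have hMI : MeasIotaC57 K := Fermat.Agent.LT.T7.H607.measIotaC607 K (T1.t1Out K).locComp
  obtain ⟨V, hVm, hVcell, hVinv, hV0, hVtop, ⟨M, hM⟩, hW0, hWtop⟩ :=
    Fermat.Agent.LT.T7.H793.thetaSetC793 K hT (T1.t1Out K) μ hμ ν hν τ hτ 𝔪 h𝔪
  obtain ⟨hcoord, -⟩ := Fermat.Agent.LT.T7.Rigid.H360.cellCoordC360 K hT (T1.t1Out K) 𝔪 h𝔪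
  -- the height on `V`
  have hhV : ∀ g ∈ V, 0 < hgt57 K g ∧ hgt57 K g ≤ M ∧ g ∈ Om57 K 𝔪 := by
    intro g hg
    obtain ⟨p, κ, hκ, rfl⟩ := hVcell g hg
    obtain ⟨hc1, hc2, -⟩ := hcoord p κ hκ
    have hpos : 0 < nrm57 K p.2.1 := nrm57_pos hN p.2.1
    have hh : hgt57 K (iota57 K p * κ) = nrm57 K p.2.1 := hc2
    refine ⟨by rw [hh]; exact hpos, by rw [hh]; exact hM p κ hκ hg, ?_⟩
    exact ((hc1 _ hpos).2 le_rfl).2
  -- the set `W`
  have hWm : MeasurableSet {q : PB57 K | (iota57 K q)⁻¹ ∈ V} := hMI.2 hVm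
  have hw : wB57 K ν τ (V.indicator (1 : G K → ℝ≥0∞)) 1
      = lamB290 ν τ {q : PB57 K | (iota57 K q)⁻¹ ∈ V} := by
    unfold wB57 lamB290
    rw [withDensity_apply _ hWm, ← lintegral_indicator hWm]
    apply lintegral_congr
    intro p
    by_cases hp : (iota57 K p)⁻¹ ∈ V
    · have hp' : p ∈ {q : PB57 K | (iota57 K q)⁻¹ ∈ V} := hp
      rw [mul_one, Set.indicator_of_mem hp, Set.indicator_of_mem hp', Pi.one_apply, one_mul]
      rfl
    · have hp' : p ∉ {q : PB57 K | (iota57 K q)⁻¹ ∈ V} := hp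
      rw [mul_one, Set.indicator_of_notMem hp, Set.indicator_of_notMem hp', zero_mul]
  have hmeas : Measurable (fun g : G K =>
      ENNReal.ofReal (hgt57 K g) * V.indicator (1 : G K → ℝ≥0∞) g) :=
    (ENNReal.measurable_ofReal.comp measurable_hgt57).mul (measurable_one.indicator hVm)
  refine ⟨V.indicator (1 : G K → ℝ≥0∞), measurable_one.indicator hVm, ?_, ?_, ?_, ?_, hmeas,
    ?_, ?_⟩
  · -- right invariance
    apply isRightCE_indicator57
    · intro u hu g
      constructor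
      · intro h
        have := hVinv _ h u⁻¹ (Fermat.Agent.LT.T7.H793.isCpt_inv793 (isCpt_of_level57 hu))
        rwa [mul_inv_cancel_right] at this
      · intro h
        exact hVinv g h u (isCpt_of_level57 hu)
    · intro w k hk g
      constructor
      · intro h
        have := hVinv _ h k⁻¹ (Fermat.Agent.LT.T7.H793.isCpt_inv793 (isCpt_of_arch57 𝔪 hk))
        rwa [mul_inv_cancel_right] at this
      · intro h
        exact hVinv g h k (isCpt_of_arch57 𝔪 hk)
  · -- zero outside `Ω`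
    intro g hg
    exact Set.indicator_of_notMem (fun h => hg (hhV g h).2.2) _
  · rw [hw]
    exact pos_iff_ne_zero.2 hW0
  · rw [hw]
    exact lt_top_iff_ne_top.2 hWtop
  · -- positivity of the integral
    rw [pos_iff_ne_zero]
    intro h0
    rw [lintegral_eq_zero_iff hmeas] at h0
    apply hV0
    refine measure_mono_null ?_ h0
    intro g hg
    show ¬ (ENNReal.ofReal (hgt57 K g) * V.indicator (1 : G K → ℝ≥0∞) g = 0)
    rw [Set.indicator_of_mem hg, Pi.one_apply, mul_one]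
    exact (ENNReal.ofReal_pos.2 (hhV g hg).1).ne'
  · -- finiteness of the integral
    calc ∫⁻ g, ENNReal.ofReal (hgt57 K g) * V.indicator (1 : G K → ℝ≥0∞) g ∂μ
        ≤ ∫⁻ g, V.indicator (fun _ => ENNReal.ofReal M) g ∂μ := by
          apply lintegral_mono
          intro g
          show ENNReal.ofReal (hgt57 K g) * V.indicator (1 : G K → ℝ≥0∞) g
            ≤ V.indicator (fun _ => ENNReal.ofReal M) g
          by_cases hg : g ∈ V
          · rw [Set.indicator_of_mem hg, Set.indicator_of_mem hg, Pi.one_apply, mul_one]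
            exact ENNReal.ofReal_le_ofReal (hhV g hg).2.1
          · rw [Set.indicator_of_notMem hg, Set.indicator_of_notMem hg, mul_zero]
      _ = ENNReal.ofReal M * μ V := lintegral_indicator_const hVm _
      _ < ⊤ := ENNReal.mul_lt_top ENNReal.ofReal_lt_top (lt_top_iff_ne_top.2 hVtop)

end Fermat.Agent.LT.T7.H57

end

end
-- ===== PACK-END LT/T7/H57/WeightExAd.lean

-- ===== PACK-BEGIN LT/T7/H930/RsigUp.lean
section






/-!
# Row LT, asset T7.M4 (helper930): `R(σ)` on the UPSTAIRS CORE (`H29.UpData`, `H29.IsUpData`)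

OFF-MAIN.  ADDITIVE (new names only).  Vocabulary of record of the node SPEC-UP (ruling of
helper797, 15:58Z): `T7/H29/UpCore.lean` (helper29@1eabae2de, sha256 c2d817fc09fbdbab) and
`T7/H736/SpecUp.lean` (helper736, faf14765e064a5d6); byte-identical copies.  The hypothesis
`hB : T5.AutPreserves U.s U.𝔑₀ U.R'.μ U.R'.r` IS `H29.BaseStableU U` (definitionally; the file
`UpCore2.lean` is not imported).  Uses `T2/H724/IdealCl.lean` (helper724) and `H129/Local.lean`
(helper129).  UNCONDITIONAL.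

## One field

* **`dvd_pull_of_level930`** : if `σ` preserves the level group `U(𝔫)` then the set of the prime
  divisors of `𝔫` is `σ`-stable (`detect_iff930`: `v ∤ 𝔫` iff some `u ∈ U(𝔫)` has a unit as upper
  right entry at `v`);
* `RsigInv_cosetOp_Rsig930`, `RsigInv_iwOp_Rsig930` : `R(σ)⁻¹ [H] R(σ) = [σ⁻¹ H]`,
  `R(σ)⁻¹ 𝒰_w R(σ) = 𝒰_{σ⁻¹ w}` (the relations `hdown`, `hwrap` of `SU736.IsClassModel`).

## For ALL upstairs data (`h : IsUpData ℓ Φ U`)

* `up_mem_S'_pull930`, `up_dvd_pull930` : `S'` is `σ`-stable; `up_isBad_onG930`;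
* `up_orbit_periodic930`, `up_orbit_img930`, `up_orbit_pull930`;
* **`up_agreeOut_move930`**, `up_agreeOut_moveInv930` : the class of `Φ` is stable under
  `σ`, `σ⁻¹`;
* `up_isCuspFn_Rsig930`, `up_isCuspONB_Rsig930` : `R(σ)` at the level `𝔑 g`.

## For base-stable upstairs data (`hB`)

* `up_isWFn_Rsig930`, `up_isWFn_RsigInv930`, `up_isEigFn_Rsig930`, `up_innerD_Rsig930`;
* **`up_class_Rsig930`**, `up_class_RsigInv930`, **`up_isClassBasisOn_Rsig930`** : `R(σ)` is a
  unitary automorphism of the class space of `Φ` (it maps `SU736.IsClassBasisOn` to itself);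
* **`up_orth_Rsig930`**, **`up_zero_out930`** : `ψ ⊥ W₀ ⇒ diagCoeff (φ' g X k m) ψ = 0`;
* `up_op_up_Rsig930`, **`up_diagCoeff930`** :
  `⟨R(φ' g X k m) R(σ) ψ, ψ⟩ = X(σC) · c_g(σC) · ⟨[U g U] Z^k 𝒰^m R(σ) ψ, ψ⟩`;
* `up_systems_onG930`.
-/

set_option autoImplicit false

open AutomorphicForm IsDedekindDomain NumberField MeasureTheory
open scoped MatrixGroups ComplexConjugate

noncomputable section

namespace Fermat.Agent.LT.T7.H930

open Fermat.Agent.LT.H556 Fermat.Agent.LT.H556.A0 Fermat.Agent.LT.T1.H930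
open Fermat.Agent.LT.T7 Fermat.Agent.LT.T5

attribute [local instance] Fermat.Agent.LT.T5.instMeasurableSpaceG

/-! ## 1. The level group detects the prime divisors of the level -/

section Detect

variable {K : Type} [Field K] [NumberField K]

/-- The elements of `𝔫 𝒪_v` have valuation `< 1` if `v ∣ 𝔫`. -/
theorem val_lt_one_of_mem_idealClosure930 {𝔫 : Ideal (𝓞 K)} {v : HeightOneSpectrum (𝓞 K)}
    (hv : v.asIdeal ∣ 𝔫) {x : v.adicCompletion K} (hx : x ∈ idealClosure 𝔫 v) :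
    Valued.v x < 1 := by
  have hcl : IsClosed {y : v.adicCompletion K | Valued.v y < 1} := by
    have h1 := Valued.isClosed_ball (v.adicCompletion K)
      (1 : MonoidWithZeroHom.ValueGroup₀ (.ofClass (Valued.v : Valuation (v.adicCompletion K) _)))
    have e : {y : v.adicCompletion K | Valued.v y < 1}
        = {y : v.adicCompletion K | Valued.v.restrict y < 1} := by
      ext y
      exact (Valuation.restrict_lt_one_iff (Valued.v : Valuation (v.adicCompletion K) _)).symm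
    rw [e]
    exact h1
  have hsub : ((fun a : 𝓞 K => algebraMap K (v.adicCompletion K) (algebraMap (𝓞 K) K a)) ''
      (𝔫 : Set (𝓞 K))) ⊆ {y : v.adicCompletion K | Valued.v y < 1} := by
    rintro _ ⟨a, ha, rfl⟩
    show Valued.v (algebraMap K (v.adicCompletion K) (algebraMap (𝓞 K) K a)) < 1
    have h2 : Valued.v ((algebraMap (𝓞 K) K a : K) : v.adicCompletion K)
        = v.valuation K (algebraMap (𝓞 K) K a) :=
      HeightOneSpectrum.valuedAdicCompletion_eq_valuation' v _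
    have h3 : Valued.v (algebraMap K (v.adicCompletion K) (algebraMap (𝓞 K) K a))
        = v.valuation K (algebraMap (𝓞 K) K a) := h2
    rw [h3, v.valuation_lt_one_iff_mem]
    exact (Ideal.dvd_iff_le.1 hv) ha
  exact closure_minimal hsub hcl hx

/-- The upper unipotent matrix with entry `1`. -/
def unipGL930 (R : Type*) [CommRing R] : GL (Fin 2) R where
  val := !![1, 1; 0, 1]
  inv := !![1, -1; 0, 1]
  val_inv := by
    ext i j
    fin_cases i <;> fin_cases j <;> simp [Matrix.mul_apply, Fin.sum_univ_two]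
  inv_val := by
    ext i j
    fin_cases i <;> fin_cases j <;> simp [Matrix.mul_apply, Fin.sum_univ_two]

open Fermat.Agent.LT.H129 in
/-- The unipotent element at `v` lies in `U(𝔫)` if `v ∤ 𝔫`. -/
theorem inLevelGroup_unip930 {𝔫 : Ideal (𝓞 K)} {v : HeightOneSpectrum (𝓞 K)}
    (hv : ¬ v.asIdeal ∣ 𝔫) : InLevelGroup 𝔫 (locFin129 v (unipGL930 (v.adicCompletion K))) := by
  have hloc := isLocalAtFin_locFin129 v (unipGL930 (v.adicCompletion K))
  have hloc' : IsLocalAtFin v (locFin129 v (unipGL930 (v.adicCompletion K)))⁻¹ :=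
    isLocalAtFin_inv129 hloc
  refine ⟨hloc.1, fun v' i j => ?_⟩
  by_cases h : v' = v
  · subst h
    refine ⟨Fermat.Agent.LT.T2.H724.mem_idealClosure_of_not_dvd724 v' 𝔫 hv ?_,
      Fermat.Agent.LT.T2.H724.mem_idealClosure_of_not_dvd724 v' 𝔫 hv ?_⟩
    · rw [finComp_locFin129]
      show Valued.v (((!![1, 1; 0, 1] : Matrix (Fin 2) (Fin 2) (v'.adicCompletion K)) - 1) i j) ≤ 1
      fin_cases i <;> fin_cases j <;> simp
    · rw [← map_inv, finComp_locFin129]
      show Valued.v (((!![1, -1; 0, 1] : Matrix (Fin 2) (Fin 2) (v'.adicCompletion K)) - 1) i j) ≤ 1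
      fin_cases i <;> fin_cases j <;> simp
  · have e1 : finComp v' (locFin129 v (unipGL930 (v.adicCompletion K))) = 1 := hloc.2 v' h
    have e2 : finComp v' (locFin129 v (unipGL930 (v.adicCompletion K)))⁻¹ = 1 := hloc'.2 v' h
    rw [e1, e2, sub_self]
    exact ⟨Fermat.Agent.LT.T2.H724.zero_mem_idealClosure724 v' 𝔫,
      Fermat.Agent.LT.T2.H724.zero_mem_idealClosure724 v' 𝔫⟩

/-- `v ∤ 𝔫` iff some element of `U(𝔫)` has a unit as upper right entry at `v`. -/
def Detect930 (𝔫 : Ideal (𝓞 K)) (v : HeightOneSpectrum (𝓞 K)) : Prop :=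
  ∃ u : G K, InLevelGroup 𝔫 u ∧ ¬ Valued.v (finComp v u 0 1) < 1

open Fermat.Agent.LT.H129 in
theorem detect_iff930 (𝔫 : Ideal (𝓞 K)) (v : HeightOneSpectrum (𝓞 K)) :
    Detect930 𝔫 v ↔ ¬ v.asIdeal ∣ 𝔫 := by
  constructor
  · rintro ⟨u, hu, hval⟩ hdvd
    apply hval
    have h1 := (hu.2 v 0 1).1
    have h2 : (finComp v u - 1) 0 1 = finComp v u 0 1 := by
      rw [Matrix.sub_apply, Matrix.one_apply_ne (by decide), sub_zero]
    rw [h2] at h1
    exact val_lt_one_of_mem_idealClosure930 hdvd h1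
  · intro hv
    refine ⟨locFin129 v (unipGL930 (v.adicCompletion K)), inLevelGroup_unip930 hv, ?_⟩
    rw [finComp_locFin129]
    show ¬ Valued.v ((!![1, 1; 0, 1] : Matrix (Fin 2) (Fin 2) (v.adicCompletion K)) 0 1) < 1
    simp

/-- Transport of the detection by an automorphism preserving the level group. -/
theorem detect_pull930 (s : AdelicAut K) {𝔫 : Ideal (𝓞 K)}
    (hL : ∀ u : G K, InLevelGroup 𝔫 u ↔ InLevelGroup 𝔫 (s.onG u))
    (v : HeightOneSpectrum (𝓞 K)) (h : Detect930 𝔫 (finPull930 s.σ v)) : Detect930 𝔫 v := by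
  obtain ⟨u, hu, hval⟩ := h
  refine ⟨s.onG u, (hL u).1 hu, ?_⟩
  rw [onG_eq_glAdeleEquiv930, finComp_glAdeleEquiv930]
  have e : Valued.v (((finComp (finPull930 s.σ v) u).map (finMapEquiv930 s.σ v)) 0 1)
      = Valued.v (finComp (finPull930 s.σ v) u 0 1) := valued_finMapEquiv930 s.σ v _
  rw [e]
  exact hval

theorem detect_img930 (s : AdelicAut K) {𝔫 : Ideal (𝓞 K)}
    (hL : ∀ u : G K, InLevelGroup 𝔫 u ↔ InLevelGroup 𝔫 (s.onG u))
    (v : HeightOneSpectrum (𝓞 K)) (h : Detect930 𝔫 v) : Detect930 𝔫 (finPull930 s.σ v) := by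
  have hL' : ∀ u : G K, InLevelGroup 𝔫 u ↔ InLevelGroup 𝔫 ((invAut930 s).onG u) := by
    intro u
    show InLevelGroup 𝔫 u ↔ InLevelGroup 𝔫 (s.onGinv u)
    have := hL (s.onGinv u)
    rw [onG_onGinv930] at this
    exact this.symm
  have h' : Detect930 𝔫 (finPull930 (invAut930 s).σ (finPull930 s.σ v)) := by
    have e : finPull930 (invAut930 s).σ (finPull930 s.σ v) = v := finPull930_symm' s.σ v
    rw [e]
    exact h
  exact detect_pull930 (invAut930 s) hL' _ h'

/-- **The set of the prime divisors of a level whose level group is preserved by `σ` is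
`σ`-stable.** -/
theorem dvd_pull_of_level930 (s : AdelicAut K) {𝔫 : Ideal (𝓞 K)}
    (hL : ∀ u : G K, InLevelGroup 𝔫 u ↔ InLevelGroup 𝔫 (s.onG u))
    (v : HeightOneSpectrum (𝓞 K)) :
    (finPull930 s.σ v).asIdeal ∣ 𝔫 ↔ v.asIdeal ∣ 𝔫 := by
  have h1 := detect_iff930 𝔫 v
  have h2 := detect_iff930 𝔫 (finPull930 s.σ v)
  constructor
  · intro h
    by_contra hn
    exact (h2.1 (detect_img930 s hL v (h1.2 hn))) h
  · intro h
    by_contra hn
    exact (h1.1 (detect_pull930 s hL v (h2.2 hn))) h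

/-- `R(σ)⁻¹ [H] R(σ) = [σ⁻¹ H]`. -/
theorem RsigInv_cosetOp_Rsig930 (s : AdelicAut K) (H : Finset (G K)) (ψ : G K → ℂ) :
    Rsig (invAut930 s) (cosetOp H (Rsig s ψ)) = cosetOp (imgSet930 (invAut930 s) H) ψ := by
  rw [Rsig_cosetOp930, Rsig_invAut_Rsig930]

/-- `R(σ)⁻¹ 𝒰_w R(σ) = 𝒰_{σ⁻¹ w}`. -/
theorem RsigInv_iwOp_Rsig930 (s : AdelicAut K) (w : HeightOneSpectrum (𝓞 K)) (H : Finset (G K))
    (ψ : G K → ℂ) :
    Rsig (invAut930 s) (iwOp w H (Rsig s ψ))
      = iwOp (finPull930 s.σ w) (imgSet930 (invAut930 s) H) ψ := by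
  rw [Rsig_iwOp930, Rsig_invAut_Rsig930]
  rfl

/-- The stability of the prime divisors passes to the inverse automorphism. -/
theorem dvd_pull_invAut930 (s : AdelicAut K) {𝔫 : Ideal (𝓞 K)}
    (hdvd : ∀ v : HeightOneSpectrum (𝓞 K), (finPull930 s.σ v).asIdeal ∣ 𝔫 ↔ v.asIdeal ∣ 𝔫)
    (v : HeightOneSpectrum (𝓞 K)) :
    (finPull930 (invAut930 s).σ v).asIdeal ∣ 𝔫 ↔ v.asIdeal ∣ 𝔫 := by
  have h := hdvd (finPull930 (invAut930 s).σ v)
  have e : finPull930 s.σ (finPull930 (invAut930 s).σ v) = v := finPull930_symm s.σ v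
  rw [e] at h
  exact h.symm

end Detect

/-! ## 2. The upstairs data (core form of helper29) -/

section Up

open Fermat.Agent.LT.T7.H29

variable {K' : Type} [Field K'] [NumberField K']
variable {ℓ : ℕ} {Φ : HeckeEigensystem K' ℂ} {U : UpData K'}

/-- The identity is supported at the bad places. -/
theorem up_isBad_one930 (U : UpData K') : U.IsBad 1 :=
  ⟨fun w => trivAtInf_one930 w, fun v _ => trivAtFin_one930 v⟩

/-- `σ` is cyclic of degree `ℓ`. -/
theorem up_cyc930 (h : IsUpData ℓ Φ U) : IsCyclicOfDegree U.s ℓ U.k := by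
  have h1 := h.cyc
  rw [h.deg] at h1
  exact h1

theorem up_orbit_img930 (h : IsUpData ℓ Φ U) (j : ℕ) (hj : j < ℓ) :
    ∃ j' < ℓ, finImg930 U.s (U.o j) = U.o j' :=
  orbit_img930 U.s U.o h.orbit_rel ℓ (up_cyc930 h).pow_eq j hj

theorem up_orbit_pull930 (h : IsUpData ℓ Φ U) (j : ℕ) (hj : j < ℓ) :
    ∃ j' < ℓ, finPull930 U.s.σ (U.o j) = U.o j' :=
  orbit_pull930 U.s U.o h.orbit_rel ℓ (up_cyc930 h).pow_eq j hj

theorem up_orbit_periodic930 (h : IsUpData ℓ Φ U) (j : ℕ) : U.o (j + ℓ) = U.o j :=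
  orbit_periodic930 U.s U.o h.orbit_rel ℓ (up_cyc930 h).pow_eq j

/-- **The set `S'` is `σ`-stable**, for ALL upstairs data (`S'` is the set of the prime divisors
of `𝔑 1`, whose level group is preserved by `σ`). -/
theorem up_mem_S'_pull930 (h : IsUpData ℓ Φ U) (w : HeightOneSpectrum (𝓞 K')) :
    finPull930 U.s.σ w ∈ U.S' ↔ w ∈ U.S' := by
  rw [h.mem_S'_g 1 (up_isBad_one930 U), h.mem_S'_g 1 (up_isBad_one930 U)]
  exact dvd_pull_of_level930 U.s (h.aut 1 (up_isBad_one930 U)).level w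

theorem up_mem_S'_img930 (h : IsUpData ℓ Φ U) (w : HeightOneSpectrum (𝓞 K')) :
    finImg930 U.s w ∈ U.S' ↔ w ∈ U.S' := by
  have h1 := up_mem_S'_pull930 h (finImg930 U.s w)
  have h2 : finPull930 U.s.σ (finImg930 U.s w) = w := finPull930_symm U.s.σ w
  rw [h2] at h1
  exact h1.symm

/-- The set of the prime divisors of the base level is `σ`-stable, for ALL upstairs data. -/
theorem up_dvd_pull930 (h : IsUpData ℓ Φ U) (v : HeightOneSpectrum (𝓞 K')) :
    (finPull930 U.s.σ v).asIdeal ∣ U.𝔑₀ ↔ v.asIdeal ∣ U.𝔑₀ := by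
  rw [← h.mem_S', ← h.mem_S']
  exact up_mem_S'_pull930 h v

/-- `σ` preserves the elements supported at the bad places, for ALL upstairs data. -/
theorem up_isBad_onG930 (h : IsUpData ℓ Φ U) {g : G K'} (hg : U.IsBad g) :
    U.IsBad (U.s.onG g) := by
  refine ⟨fun w => ?_, fun v hv => ?_⟩
  · rw [trivAtInf_onG930]
    exact hg.1 _
  · rw [trivAtFin_onG930]
    refine hg.2 _ ?_
    rcases hv with hv | ⟨j, hj, rfl⟩
    · exact Or.inl (fun hm => hv ((up_mem_S'_pull930 h v).1 hm))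
    · obtain ⟨j', hj', e⟩ := up_orbit_pull930 h j (h.deg ▸ hj)
      exact Or.inr ⟨j', h.deg.symm ▸ hj', e⟩

/-- **The class of `Φ` is `σ`-stable**, for ALL upstairs data. -/
theorem up_agreeOut_move930 (h : IsUpData ℓ Φ U) {C : EigData K'}
    (hC : C.AgreeOut U.S' (eigOf Φ)) : (eigMove930 U.s C).AgreeOut U.S' (eigOf Φ) := by
  refine ⟨fun w hw => ?_, fun w d hd => hC.2 _ d hd⟩
  have hw' : finPull930 U.s.σ w ∉ U.S' := fun hm => hw ((up_mem_S'_pull930 h w).1 hm)
  have hc := h.const (finPull930 U.s.σ w) hw' w hw (placeRel_finPull_self930 U.s w)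
  have h1 := hC.1 (finPull930 U.s.σ w) hw'
  exact ⟨h1.1.trans hc.1, h1.2.trans hc.2⟩

/-- `R(σ)` preserves the cusp functions of level `𝔑 g`, `g` bad. -/
theorem up_isCuspFn_Rsig930 (h : IsUpData ℓ Φ U) {g : G K'} (hg : U.IsBad g)
    {ψ : G K' → ℂ} (hψ : IsCuspFn (U.𝔑 g) trivType U.R'.r ψ) :
    IsCuspFn (U.𝔑 g) trivType U.R'.r (Rsig U.s ψ) :=
  isCuspFn_Rsig930 (h.aut g hg) (trivType_invariant930 U.s) hψ

/-- `R(σ)` permutes the complete orthonormal sequences of cusp functions of level `𝔑 g`. -/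
theorem up_isCuspONB_Rsig930 (h : IsUpData ℓ Φ U) {g : G K'} (hg : U.IsBad g)
    {e : ℕ → G K' → ℂ} (he : IsCuspONB (U.𝔑 g) trivType U.R'.r U.R'.μ U.R'.F e) :
    IsCuspONB (U.𝔑 g) trivType U.R'.r U.R'.μ U.R'.F (fun i => Rsig U.s (e i)) :=
  isCuspONB_Rsig930 h.frame'.frame (h.aut g hg) (trivType_invariant930 U.s) he

variable (hB : AutPreserves U.s U.𝔑₀ U.R'.μ U.R'.r)

include hB

/-- **`R(σ)` preserves the invariant cusp functions of the base level** (`hB` = `BaseStableU`). -/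
theorem up_isWFn_Rsig930 (h : IsUpData ℓ Φ U) {ψ : G K' → ℂ}
    (hψ : IsWFn U.𝔑₀ U.R'.r ℓ U.o ψ) : IsWFn U.𝔑₀ U.R'.r ℓ U.o (Rsig U.s ψ) :=
  isWFn_Rsig930 hB ℓ U.o (up_orbit_img930 h) (up_orbit_pull930 h) hψ

/-- **`R(σ)⁻¹` preserves the invariant cusp functions of the base level.** -/
theorem up_isWFn_RsigInv930 (h : IsUpData ℓ Φ U) {ψ : G K' → ℂ}
    (hψ : IsWFn U.𝔑₀ U.R'.r ℓ U.o ψ) : IsWFn U.𝔑₀ U.R'.r ℓ U.o (Rsig (invAut930 U.s) ψ) :=
  isWFn_RsigInv930 hB ℓ U.o (up_orbit_img930 h) (up_orbit_pull930 h) hψ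

/-- **`R(σ)` moves the eigen-data of the eigenfunctions of the base level.** -/
theorem up_isEigFn_Rsig930 (h : IsUpData ℓ Φ U) {ψ : G K' → ℂ} {C : EigData K'}
    (hψ : IsEigFn U.𝔑₀ U.R'.r ℓ U.o ψ C) :
    IsEigFn U.𝔑₀ U.R'.r ℓ U.o (Rsig U.s ψ) (eigMove930 U.s C) :=
  isEigFn_Rsig_of_dvd930 (up_dvd_pull930 h) hB ℓ U.o (up_orbit_img930 h) (up_orbit_pull930 h)
    hψ

/-- **`R(σ)` is unitary on the invariant cusp functions of the base level.** -/
theorem up_innerD_Rsig930 (h : IsUpData ℓ Φ U) {ψ χ : G K' → ℂ}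
    (hψ : IsWFn U.𝔑₀ U.R'.r ℓ U.o ψ) (hχ : IsWFn U.𝔑₀ U.R'.r ℓ U.o χ) :
    innerD U.R'.μ U.R'.F (Rsig U.s ψ) (Rsig U.s χ) = innerD U.R'.μ U.R'.F ψ χ :=
  innerD_Rsig_cusp930 h.frame'.frame hB hψ.cusp hχ.cusp

/-- **`R(σ)` preserves the class space of `Φ` at the base level.** -/
theorem up_class_Rsig930 (h : IsUpData ℓ Φ U) {ψ : G K' → ℂ}
    (hψ : IsEigFn U.𝔑₀ U.R'.r ℓ U.o ψ (eigOf Φ)) :
    IsEigFn U.𝔑₀ U.R'.r ℓ U.o (Rsig U.s ψ) (eigOf Φ) := by
  have h1 := up_isEigFn_Rsig930 hB h hψ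
  have h2 : (eigMove930 U.s (eigOf Φ)).AgreeOut U.S' (eigOf Φ) :=
    up_agreeOut_move930 h ⟨fun _ _ => ⟨rfl, rfl⟩, fun _ _ _ => rfl⟩
  refine isEigFn_congr930 h1 (fun v hv => ?_) (fun w d hd => h2.2 w d hd)
  exact h2.1 v (fun hm => hv ((h.mem_S' v).1 hm))

/-- **(OP-up) after `R(σ)`.** -/
theorem up_op_up_Rsig930 (h : IsUpData ℓ Φ U) (g : G K') (X : List (Gen K')) (k : ℤ) (m : ℕ)
    (hg : U.IsBad g) (hX : ∀ x ∈ X, x.Out U.S') {ψ : G K' → ℂ} {C : EigData K'}
    (hψ : IsEigFn U.𝔑₀ U.R'.r ℓ U.o ψ C) (Hg H : Finset (G K')) (z : G K')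
    (hHg : IsDblCosetSystem U.𝔑₀ g Hg) (hH : IsIwCosetSystem (U.o 0) H)
    (hz : IsScalarUniformizerAt (U.o 0) z) (x : G K') :
    Rconv U.R'.μ (U.φ' g X k m) (Rsig U.s ψ) x
      = wordEv X (eigMove930 U.s C) * U.c g (eigMove930 U.s C)
        * cosetOp Hg (shiftOp z k ((iwOp (U.o 0) H)^[m] (Rsig U.s ψ))) x :=
  h.op_up g X k m hg hX (Rsig U.s ψ) (eigMove930 U.s C) (up_isEigFn_Rsig930 hB h hψ) Hg H z
    hHg hH hz x

/-- **The diagonal coefficient** of an eigenfunction of the base level: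
`⟨R(φ' g X k m) R(σ) ψ, ψ⟩ = X(σC) · c_g(σC) · ⟨[U g U] Z^k 𝒰^m R(σ) ψ, ψ⟩`. -/
theorem up_diagCoeff930 (h : IsUpData ℓ Φ U) (g : G K') (X : List (Gen K')) (k : ℤ) (m : ℕ)
    (hg : U.IsBad g) (hX : ∀ x ∈ X, x.Out U.S') {ψ : G K' → ℂ} {C : EigData K'}
    (hψ : IsEigFn U.𝔑₀ U.R'.r ℓ U.o ψ C) (Hg H : Finset (G K')) (z : G K')
    (hHg : IsDblCosetSystem U.𝔑₀ g Hg) (hH : IsIwCosetSystem (U.o 0) H)
    (hz : IsScalarUniformizerAt (U.o 0) z) :
    diagCoeff U.s U.R'.μ U.R'.F (U.φ' g X k m) ψ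
      = wordEv X (eigMove930 U.s C) * U.c g (eigMove930 U.s C)
        * innerD U.R'.μ U.R'.F
            (cosetOp Hg (shiftOp z k ((iwOp (U.o 0) H)^[m] (Rsig U.s ψ)))) ψ := by
  show (∫ x in U.R'.F, Rconv U.R'.μ (U.φ' g X k m) (Rsig U.s ψ) x * conj (ψ x) ∂U.R'.μ)
    = wordEv X (eigMove930 U.s C) * U.c g (eigMove930 U.s C)
      * ∫ x in U.R'.F, cosetOp Hg (shiftOp z k ((iwOp (U.o 0) H)^[m] (Rsig U.s ψ))) x
          * conj (ψ x) ∂U.R'.μ
  rw [← MeasureTheory.integral_const_mul]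
  refine MeasureTheory.integral_congr_ae (Filter.Eventually.of_forall fun x => ?_)
  show Rconv U.R'.μ (U.φ' g X k m) (Rsig U.s ψ) x * conj (ψ x) = _
  rw [up_op_up_Rsig930 hB h g X k m hg hX hψ Hg H z hHg hH hz x]
  ring

/-- **`R(σ)` preserves the orthogonal complement of the invariant cusp functions.** -/
theorem up_orth_Rsig930 (h : IsUpData ℓ Φ U) {g : G K'}
    {ψ : G K' → ℂ} (hψ : IsCuspFn (U.𝔑 g) trivType U.R'.r ψ)
    (horth : ∀ χ : G K' → ℂ, IsWFn U.𝔑₀ U.R'.r ℓ U.o χ → innerD U.R'.μ U.R'.F ψ χ = 0)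
    (χ : G K' → ℂ) (hχ : IsWFn U.𝔑₀ U.R'.r ℓ U.o χ) :
    innerD U.R'.μ U.R'.F (Rsig U.s ψ) χ = 0 := by
  have hχ' := up_isWFn_RsigInv930 hB h hχ
  have h1 := innerD_Rsig930 h.frame'.frame hB hψ.cont hχ'.cusp.cont hψ.aut.left_inv
    hχ'.cusp.aut.left_inv
  rw [Rsig_Rsig_invAut930] at h1
  rw [h1]
  exact horth _ hχ'

/-- **The vanishing of the diagonal coefficients outside the invariant part**: the diagonal
coefficient of a cusp function of level `𝔑 g` orthogonal to the invariant cusp functions of the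
base level vanishes (`kill_up`). -/
theorem up_zero_out930 (h : IsUpData ℓ Φ U) {g : G K'} (hg : U.IsBad g) (X : List (Gen K'))
    (k : ℤ) (m : ℕ) (hX : ∀ x ∈ X, x.Out U.S') {ψ : G K' → ℂ}
    (hψ : IsCuspFn (U.𝔑 g) trivType U.R'.r ψ)
    (horth : ∀ χ : G K' → ℂ, IsWFn U.𝔑₀ U.R'.r ℓ U.o χ → innerD U.R'.μ U.R'.F ψ χ = 0) :
    diagCoeff U.s U.R'.μ U.R'.F (U.φ' g X k m) ψ = 0 := by
  have hk := h.kill_up g X k m hg hX (Rsig U.s ψ) (up_isCuspFn_Rsig930 h hg hψ)
    (up_orth_Rsig930 hB h hψ horth)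
  show (∫ x in U.R'.F, Rconv U.R'.μ (U.φ' g X k m) (Rsig U.s ψ) x * conj (ψ x) ∂U.R'.μ) = 0
  have h0 : (fun x => Rconv U.R'.μ (U.φ' g X k m) (Rsig U.s ψ) x * conj (ψ x))
      = fun _ => (0 : ℂ) := by
    funext x
    rw [hk x, zero_mul]
  rw [h0, MeasureTheory.integral_zero]

/-- The systems of representatives moved by `σ`. -/
theorem up_systems_onG930 (h : IsUpData ℓ Φ U) {g : G K'} {Hg H : Finset (G K')} {z : G K'}
    (hHg : IsDblCosetSystem U.𝔑₀ g Hg) (hH : IsIwCosetSystem (U.o 0) H)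
    (hz : IsScalarUniformizerAt (U.o 0) z) :
    IsDblCosetSystem U.𝔑₀ (U.s.onG g) (imgSet930 U.s Hg) ∧
      IsIwCosetSystem (U.o 1) (imgSet930 U.s H) ∧
      IsScalarUniformizerAt (U.o 1) (U.s.onG z) := by
  have e := orbit_succ930 U.s U.o h.orbit_rel 0
  refine ⟨isDblCosetSystem_onG930 U.s hB.level g Hg hHg, ?_, ?_⟩
  · have := isIwCosetSystem_onG930 U.s (U.o 0) H hH
    rw [e] at this
    exact this
  · have := isScalarUniformizerAt_onG930 U.s (U.o 0) z hz
    rw [e] at this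
    exact this

omit hB in
/-- The class of `Φ` is stable under `σ⁻¹`, for ALL upstairs data. -/
theorem up_agreeOut_moveInv930 (h : IsUpData ℓ Φ U) {C : EigData K'}
    (hC : C.AgreeOut U.S' (eigOf Φ)) :
    (eigMove930 (invAut930 U.s) C).AgreeOut U.S' (eigOf Φ) := by
  refine ⟨fun w hw => ?_, fun w d hd => hC.2 _ d hd⟩
  have hw' : finImg930 U.s w ∉ U.S' := fun hm => hw ((up_mem_S'_img930 h w).1 hm)
  have hc := h.const w hw (finImg930 U.s w) hw' (placeRel_finPull930 U.s w)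
  have h1 := hC.1 (finImg930 U.s w) hw'
  exact ⟨h1.1.trans hc.1.symm, h1.2.trans hc.2.symm⟩

/-- **`R(σ)⁻¹` preserves the class space of `Φ` at the base level.** -/
theorem up_class_RsigInv930 (h : IsUpData ℓ Φ U) {ψ : G K' → ℂ}
    (hψ : IsEigFn U.𝔑₀ U.R'.r ℓ U.o ψ (eigOf Φ)) :
    IsEigFn U.𝔑₀ U.R'.r ℓ U.o (Rsig (invAut930 U.s) ψ) (eigOf Φ) := by
  have h1 : IsEigFn U.𝔑₀ U.R'.r ℓ U.o (Rsig (invAut930 U.s) ψ)
      (eigMove930 (invAut930 U.s) (eigOf Φ)) :=
    isEigFn_Rsig_of_dvd930 (dvd_pull_invAut930 U.s (up_dvd_pull930 h))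
      (autPreserves_invAut930 hB) ℓ U.o (up_orbit_pull930 h) (up_orbit_img930 h) hψ
  have h2 : (eigMove930 (invAut930 U.s) (eigOf Φ)).AgreeOut U.S' (eigOf Φ) :=
    up_agreeOut_moveInv930 h ⟨fun _ _ => ⟨rfl, rfl⟩, fun _ _ _ => rfl⟩
  refine isEigFn_congr930 h1 (fun v hv => ?_) (fun w d hd => h2.2 w d hd)
  exact h2.1 v (fun hm => hv ((h.mem_S' v).1 hm))

/-- **`R(σ)` maps an orthonormal basis of the class space of `Φ` to an orthonormal basis of the
class space of `Φ`.** -/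
theorem up_isClassBasisOn_Rsig930 (h : IsUpData ℓ Φ U) {q : ℕ → G K' → ℂ} {J : Finset ℕ}
    (hq : SU736.IsClassBasisOn U.𝔑₀ U.R' ℓ U.o (eigOf Φ) q J) :
    SU736.IsClassBasisOn U.𝔑₀ U.R' ℓ U.o (eigOf Φ) (fun j => Rsig U.s (q j)) J where
  eig j hj := up_class_Rsig930 hB h (hq.eig j hj)
  orth i hi j hj hij := by
    rw [up_innerD_Rsig930 hB h (hq.eig i hi).inv (hq.eig j hj).inv]
    exact hq.orth i hi j hj hij
  norm j hj := by
    rw [up_innerD_Rsig930 hB h (hq.eig j hj).inv (hq.eig j hj).inv]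
    exact hq.norm j hj
  span ψ hψ := by
    obtain ⟨a, ha⟩ := hq.span _ (up_class_RsigInv930 hB h hψ)
    refine ⟨a, fun x => ?_⟩
    have h1 := ha (U.s.onGinv x)
    have h2 : Rsig (invAut930 U.s) ψ (U.s.onGinv x) = ψ x := by
      show ψ (U.s.onG (U.s.onGinv x)) = ψ x
      rw [onG_onGinv930]
    rw [h2] at h1
    exact h1

end Up

end Fermat.Agent.LT.T7.H930

end
end
-- ===== PACK-END LT/T7/H930/RsigUp.lean

-- ===== PACK-BEGIN LT/T7/H817/ClassModelUCore.lean
section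






/-!
# Row LT, tower T7, node `ClassModelUC` (CORE form): leaves CM.04, CM.05, CM.11 (helper817)

OFF-MAIN.  ADDITIVE.  Statements: `T7/H675/ClassModelU.lean` (helper675, sha256 9a359011),
byte-identical copy.  VERBATIM, in the core form over `K'` alone (`H29.UpData`):

* `stabSUC817  : CMU675.StabSUC675 K'`  (CM.04, UNCONDITIONAL: `up_class_Rsig930`,
  `up_class_RsigInv930` of helper930);
* `commGIUC817 : CMU675.CommGIUC675 K'` (CM.05, UNCONDITIONAL: port of `commGIC887`, helper887,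
  with its local lemmas);
* `dictUC_of817 : CMU675.StabGUC675 K' → CMU675.DictUC675 K'` (CM.11: port of `dictC_of440`,
  helper440, with its abstract trace formula; CM.04 is plugged).

Nothing is assumed; no hole.
-/

set_option autoImplicit false

open AutomorphicForm IsDedekindDomain NumberField MeasureTheory
open scoped ComplexConjugate

noncomputable section

namespace Fermat.Agent.LT.T7.H817

open Fermat.Agent.LT.H556 Fermat.Agent.LT.H556.A0 Fermat.Agent.LT Fermat.Agent.LT.T7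
  Fermat.Agent.LT.T7.CM616 Fermat.Agent.LT.T7.CMU675 Fermat.Agent.LT.H129

attribute [local instance] Fermat.Agent.LT.T5.instMeasurableSpaceG

variable (K' : Type) [Field K'] [NumberField K']

/-- **LEAF CM.04 = STAB-S, core form.** -/
theorem stabSUC817 : StabSUC675 K' := by
  intro ℓ Φ U hctx ψ hψ
  have hB : T5.AutPreserves U.s U.𝔑₀ U.R'.μ U.R'.r := hctx.stable
  exact ⟨H930.up_class_Rsig930 hB hctx.data hψ, H930.up_class_RsigInv930 hB hctx.data hψ⟩

/-- **LEAF CM.05 = COMM-GI, core form** (the proof of helper887). -/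
theorem commGIUC817 : CommGIUC675 K' := by
  intro ℓ Φ U hctx g Hg hbad hsys j hj H hH ψ hψ hHψ x
  have hjl : j < U.l := by rw [hctx.data.deg]; exact hj
  have hgv : TrivAtFin (U.o j) g := hbad.2 (U.o j) (Or.inr ⟨j, hjl, rfl⟩)
  have hred : ∀ h ∈ Hg, ∃ h₀ : G K', finCompHom129 (U.o j) h₀ = 1 ∧
      ∀ f : G K' → ℂ, IsLevelInv616 U.𝔑₀ f → ∀ y : G K', f (y * h) = f (y * h₀) := by
    intro h hh
    obtain ⟨u₁, u₂, hu₁, hu₂, rfl⟩ := hsys.1 h hh
    obtain ⟨h₀, u'', h1, hu'', heq⟩ := H887.exists_reduction887 (u₂ := u₂) hgv hu₁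
    refine ⟨h₀, h1, fun f hf y => ?_⟩
    rw [heq, ← mul_assoc, ← mul_assoc, hf u₂ hu₂, hf u'' hu'']
  show (∑ h ∈ Hg, ∑ k ∈ H, ψ (x * h * k)) = ∑ k ∈ H, ∑ h ∈ Hg, ψ (x * k * h)
  conv_rhs => rw [Finset.sum_comm]
  refine Finset.sum_congr rfl fun h hh => ?_
  obtain ⟨h₀, h1, hinv⟩ := hred h hh
  have e1 : ∑ k ∈ H, ψ (x * h * k) = ∑ k ∈ H, ψ (x * h₀ * k) := hinv (cosetOp H ψ) hHψ x
  rw [e1]
  refine Finset.sum_congr rfl fun k hk => ?_
  have hcomm : h₀ * k = k * h₀ := H887.commute_of_triv_of_local887 h1 (hH k hk)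
  rw [hinv ψ hψ (x * k), mul_assoc x h₀ k, hcomm, ← mul_assoc]

/-- **LEAF CM.11 = DICT, core form**, from the stability leaf CM.03 (the proof of helper440;
CM.04 is `stabSUC817`). -/
theorem dictUC_of817 (hG : StabGUC675 K') : DictUC675 K' := by
  intro ℓ Φ U hctx g Hg hbad hsys q J hq
  have hS := stabSUC817 K'
  have hF : T5.IsFrame U.R'.μ U.R'.F := hctx.data.frame'.frame
  have hGp : ∀ ψ ∈ clsU675 U ℓ Φ, cosetLin616 Hg ψ ∈ clsU675 U ℓ Φ :=
    H440.mem_cls_of_map440 (cosetLin616 Hg) (fun ψ hψ => hG ℓ Φ U hctx g Hg hbad hsys ψ hψ)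
  have hSp : ∀ ψ ∈ clsU675 U ℓ Φ, rsigLin616 U.s ψ ∈ clsU675 U ℓ Φ :=
    H440.mem_cls_of_map440 (rsigLin616 U.s) (fun ψ hψ => (hS ℓ Φ U hctx ψ hψ).1)
  have hmem : ∀ j : J, q j ∈ clsU675 U ℓ Φ := fun j =>
    Submodule.subset_span (hq.eig j j.2)
  have hcont : ∀ j : J, Continuous (q j) := fun j => (hq.eig j j.2).inv.cusp.cont
  have hbdd : ∀ j : J, ∃ C : ℝ, ∀ x, ‖q j x‖ ≤ C := fun j => (hq.eig j j.2).inv.cusp.bdd
  -- the family spans
  have hle : clsU675 U ℓ Φ ≤ Submodule.span ℂ (Set.range (fun j : J => q j)) := by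
    show Submodule.span ℂ {ψ | IsEigFn U.𝔑₀ U.R'.r ℓ U.o ψ (eigOf Φ)}
      ≤ Submodule.span ℂ (Set.range (fun j : J => q j))
    rw [Submodule.span_le]
    intro ψ hψ
    obtain ⟨a, ha⟩ := hq.span ψ hψ
    rw [SetLike.mem_coe, Submodule.mem_span_range_iff_exists_fun]
    refine ⟨fun j => a j, ?_⟩
    funext x
    rw [ha x, Finset.sum_apply, ← Finset.sum_coe_sort J (fun j => a j * q j x)]
    rfl
  -- the operator of the model
  have hval : ∀ v : clsU675 U ℓ Φ,
      (((restr616 (clsU675 U ℓ Φ) (cosetLin616 Hg) * sOpU675 U ℓ Φ) v : clsU675 U ℓ Φ) :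
        G K' → ℂ) = cosetOp Hg (T5.Rsig U.s v) := by
    intro v
    rw [Module.End.mul_apply]
    have e1 : sOpU675 U ℓ Φ = (rsigLin616 U.s).restrict hSp := by
      show restr616 (clsU675 U ℓ Φ) (rsigLin616 U.s) = _
      exact restr616_eq (clsU675 U ℓ Φ) (rsigLin616 U.s) hSp
    have e2 : restr616 (clsU675 U ℓ Φ) (cosetLin616 Hg) = (cosetLin616 Hg).restrict hGp :=
      restr616_eq (clsU675 U ℓ Φ) (cosetLin616 Hg) hGp
    rw [e1, e2]
    rfl
  -- the abstract trace formula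
  have key := H440.trace_eq_sum_dual440 (V := clsU675 U ℓ Φ) (ι := J)
    (fun j => (⟨q j, hmem j⟩ : clsU675 U ℓ Φ))
    (fun j v => T5.innerD U.R'.μ U.R'.F (v : G K' → ℂ) (q j)) ?_ ?_
    (restr616 (clsU675 U ℓ Φ) (cosetLin616 Hg) * sOpU675 U ℓ Φ)
  · rw [key]
    show (∑ j ∈ J, T5.innerD U.R'.μ U.R'.F (cosetOp Hg (T5.Rsig U.s (q j))) (q j)) = _
    rw [← Finset.sum_coe_sort]
    refine Finset.sum_congr rfl fun j _ => ?_
    rw [hval]
  · intro a j
    have h1 : ((∑ i, a i • (⟨q i, hmem i⟩ : clsU675 U ℓ Φ) : clsU675 U ℓ Φ) : G K' → ℂ)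
        = fun x => ∑ i : J, a i * q i x := by
      funext x
      rw [Submodule.coe_sum, Finset.sum_apply]
      rfl
    simp only [h1]
    rw [H440.innerD_sum440 hF (fun i : J => q i) hcont hbdd (hcont j) (hbdd j) a]
    rw [Finset.sum_eq_single j]
    · rw [hq.norm j j.2, mul_one]
    · intro i _ hij
      rw [hq.orth i i.2 j j.2 (fun h => hij (Subtype.ext h)), mul_zero]
    · intro h
      exact absurd (Finset.mem_univ j) h
  · intro v
    obtain ⟨a, ha⟩ := (Submodule.mem_span_range_iff_exists_fun ℂ).1 (hle v.2)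
    refine ⟨a, Subtype.ext ?_⟩
    rw [← ha, Submodule.coe_sum]
    rfl

end Fermat.Agent.LT.T7.H817

end

end
-- ===== PACK-END LT/T7/H817/ClassModelUCore.lean

-- ===== PACK-BEGIN LT/T7/H837/ClassOpBasic.lean
section




/-!
# Row LT, tower T7, node T7.L2.2 SPEC-UP, leaf T7.L2.2.N.S3 `ClassOpC` (helper837, OFF-MAIN)

Basic kit: the level group and the Iwahori subgroups are groups, conjugation of Hecke coset
systems, finite sums of sphere means, the permutation lemma for sums over coset systems.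
-/

set_option autoImplicit false
set_option linter.style.haveILetI false
set_option linter.unusedSectionVars false
set_option linter.unusedVariables false

open IsDedekindDomain NumberField MeasureTheory AutomorphicForm
open Fermat.Agent.LT.H556.A0

noncomputable section

namespace Fermat.Agent.LT.T7.H837

open Fermat.Agent.LT Fermat.Agent.LT.H129 Fermat.Agent.LT.T2.H333 Fermat.Agent.LT.T2.H429

variable {K : Type} [Field K] [NumberField K]

/-! ## 1. Components -/

theorem finComp_conj837 (v : HeightOneSpectrum (𝓞 K)) (h t : G K) :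
    finComp v (h⁻¹ * t * h) = finComp v h⁻¹ * finComp v t * finComp v h := by
  rw [finComp_mul333, finComp_mul333]

theorem finComp_inv_mul837 (v : HeightOneSpectrum (𝓞 K)) (h : G K) :
    finComp v h⁻¹ * finComp v h = 1 := by
  rw [← finComp_mul333, inv_mul_cancel, finComp_one333]

theorem finComp_mul_inv837 (v : HeightOneSpectrum (𝓞 K)) (h : G K) :
    finComp v h * finComp v h⁻¹ = 1 := by
  rw [← finComp_mul333, mul_inv_cancel, finComp_one333]

theorem trivAtInf_one837 (w : InfinitePlace K) : TrivAtInf w (1 : G K) := by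
  rw [trivAtInf_iff129, map_one]

theorem trivAtFin_one837 (v : HeightOneSpectrum (𝓞 K)) : TrivAtFin v (1 : G K) := by
  rw [trivAtFin_iff129, map_one]

theorem trivAtInf_mul837 {w : InfinitePlace K} {g h : G K} (hg : TrivAtInf w g)
    (hh : TrivAtInf w h) : TrivAtInf w (g * h) := by
  rw [trivAtInf_iff129] at hg hh ⊢
  rw [map_mul, hg, hh, mul_one]

theorem trivAtInf_inv837 {w : InfinitePlace K} {g : G K} (hg : TrivAtInf w g) :
    TrivAtInf w g⁻¹ := by
  rw [trivAtInf_iff129] at hg ⊢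
  rw [map_inv, hg, inv_one]

theorem trivAtFin_mul837 {v : HeightOneSpectrum (𝓞 K)} {g h : G K} (hg : TrivAtFin v g)
    (hh : TrivAtFin v h) : TrivAtFin v (g * h) := by
  rw [trivAtFin_iff129] at hg hh ⊢
  rw [map_mul, hg, hh, mul_one]

theorem trivAtFin_inv837 {v : HeightOneSpectrum (𝓞 K)} {g : G K} (hg : TrivAtFin v g) :
    TrivAtFin v g⁻¹ := by
  rw [trivAtFin_iff129] at hg ⊢
  rw [map_inv, hg, inv_one]

/-- Conjugation of an element which is trivial at `w` (infinite). -/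
theorem trivAtInf_conj837 {w : InfinitePlace K} (h : G K) {t : G K} (ht : TrivAtInf w t) :
    TrivAtInf w (h⁻¹ * t * h) := by
  rw [trivAtInf_iff129] at ht ⊢
  rw [map_mul, map_mul, map_inv, ht, mul_one, inv_mul_cancel]

/-- Conjugation of an element which is trivial at `v` (finite). -/
theorem trivAtFin_conj837 {v : HeightOneSpectrum (𝓞 K)} (h : G K) {t : G K}
    (ht : TrivAtFin v t) : TrivAtFin v (h⁻¹ * t * h) := by
  rw [trivAtFin_iff129] at ht ⊢
  rw [map_mul, map_mul, map_inv, ht, mul_one, inv_mul_cancel]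

theorem isLocalAtFin_conj837 {v : HeightOneSpectrum (𝓞 K)} (h : G K) {t : G K}
    (ht : IsLocalAtFin v t) : IsLocalAtFin v (h⁻¹ * t * h) :=
  ⟨fun w => trivAtInf_conj837 h (ht.1 w), fun v' hv' => trivAtFin_conj837 h (ht.2 v' hv')⟩

theorem isLocalAtInf_conj837 {w : InfinitePlace K} (h : G K) {t : G K}
    (ht : IsLocalAtInf w t) : IsLocalAtInf w (h⁻¹ * t * h) :=
  ⟨fun w' hw' => trivAtInf_conj837 h (ht.1 w' hw'), fun v => trivAtFin_conj837 h (ht.2 v)⟩

/-- An element which is trivial at infinity commutes with an element supported at infinity. -/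
theorem comm_inf837 {w : InfinitePlace K} {k h : G K} (hk : IsLocalAtInf w k)
    (hh : ∀ w' : InfinitePlace K, TrivAtInf w' h) : k * h = h * k := by
  apply commute_of_disjoint429
  · intro w'
    exact Or.inr ((trivAtInf_iff129 w' h).1 (hh w'))
  · intro v
    exact Or.inl ((trivAtFin_iff129 v k).1 (hk.2 v))

/-! ## 2. Integrality -/

theorem isIntegralAt_one837 (v : HeightOneSpectrum (𝓞 K)) : IsIntegralAt v (1 : G K) := by
  intro i j
  rw [finComp_one333]
  by_cases hij : i = j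
  · subst hij
    simp only [Matrix.one_apply_eq]
    exact (v.adicCompletionIntegers K).one_mem
  · simp only [Matrix.one_apply_ne hij]
    exact (v.adicCompletionIntegers K).zero_mem

theorem isIntegralAt_mul837 {v : HeightOneSpectrum (𝓞 K)} {g h : G K} (hg : IsIntegralAt v g)
    (hh : IsIntegralAt v h) : IsIntegralAt v (g * h) := by
  intro i j
  rw [finComp_mul333, Matrix.mul_apply]
  exact Subring.sum_mem _ fun k _ => Subring.mul_mem _ (hg i k) (hh k j)

theorem isIntegralAt_of_trivAtFin837 {v : HeightOneSpectrum (𝓞 K)} {g : G K}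
    (hg : TrivAtFin v g) : IsIntegralAt v g := by
  intro i j
  have := isIntegralAt_one837 (K := K) v i j
  rw [finComp_one333] at this
  rw [show finComp v g = 1 from hg]
  exact this


/-! ## 3. The level group is a group -/

theorem add_mem_idealClosure837 {𝔫 : Ideal (𝓞 K)} {v : HeightOneSpectrum (𝓞 K)}
    {a b : v.adicCompletion K} (ha : a ∈ idealClosure 𝔫 v) (hb : b ∈ idealClosure 𝔫 v) :
    a + b ∈ idealClosure 𝔫 v := by
  unfold idealClosure at *
  refine map_mem_closure₂ continuous_add ha hb ?_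
  rintro _ ⟨x, hx, rfl⟩ _ ⟨y, hy, rfl⟩
  refine ⟨x + y, 𝔫.add_mem hx hy, ?_⟩
  simp only [map_add]

theorem mul_mem_idealClosure837 {𝔫 : Ideal (𝓞 K)} {v : HeightOneSpectrum (𝓞 K)}
    {a b : v.adicCompletion K} (ha : a ∈ idealClosure 𝔫 v) (hb : b ∈ idealClosure 𝔫 v) :
    a * b ∈ idealClosure 𝔫 v := by
  unfold idealClosure at *
  refine map_mem_closure₂ continuous_mul ha hb ?_
  rintro _ ⟨x, hx, rfl⟩ _ ⟨y, hy, rfl⟩
  refine ⟨x * y, 𝔫.mul_mem_left x hy, ?_⟩
  simp only [map_mul]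

theorem sum_mem_idealClosure837 {𝔫 : Ideal (𝓞 K)} {v : HeightOneSpectrum (𝓞 K)}
    {ι : Type*} (s : Finset ι) (f : ι → v.adicCompletion K)
    (h : ∀ i ∈ s, f i ∈ idealClosure 𝔫 v) : ∑ i ∈ s, f i ∈ idealClosure 𝔫 v :=
  Finset.sum_induction f (fun x => x ∈ idealClosure 𝔫 v)
    (fun _ _ ha hb => add_mem_idealClosure837 ha hb) (zero_mem_idealClosure333 𝔫 v) h

/-- `M, N ≡ 1` modulo the closure of `𝔫` implies `M N ≡ 1`. -/
theorem mul_sub_one_mem837 {𝔫 : Ideal (𝓞 K)} {v : HeightOneSpectrum (𝓞 K)}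
    {M N : Matrix (Fin 2) (Fin 2) (v.adicCompletion K)}
    (hM : ∀ i j, (M - 1) i j ∈ idealClosure 𝔫 v) (hN : ∀ i j, (N - 1) i j ∈ idealClosure 𝔫 v)
    (i j : Fin 2) : (M * N - 1) i j ∈ idealClosure 𝔫 v := by
  have e : M * N - 1 = (M - 1) * (N - 1) + (M - 1) + (N - 1) := by noncomm_ring
  rw [e, Matrix.add_apply, Matrix.add_apply, Matrix.mul_apply]
  refine add_mem_idealClosure837 (add_mem_idealClosure837 ?_ (hM i j)) (hN i j)
  exact sum_mem_idealClosure837 _ _ fun k _ => mul_mem_idealClosure837 (hM i k) (hN k j)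

theorem inLevelGroup_one837 (𝔫 : Ideal (𝓞 K)) : InLevelGroup 𝔫 (1 : G K) := by
  refine ⟨fun w => trivAtInf_one837 w, fun v i j => ?_⟩
  rw [inv_one, finComp_one333, sub_self]
  exact ⟨zero_mem_idealClosure333 𝔫 v, zero_mem_idealClosure333 𝔫 v⟩

theorem inLevelGroup_inv837 {𝔫 : Ideal (𝓞 K)} {u : G K} (hu : InLevelGroup 𝔫 u) :
    InLevelGroup 𝔫 u⁻¹ := by
  refine ⟨fun w => trivAtInf_inv837 (hu.1 w), fun v i j => ⟨(hu.2 v i j).2, ?_⟩⟩
  rw [inv_inv]
  exact (hu.2 v i j).1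

theorem inLevelGroup_mul837 {𝔫 : Ideal (𝓞 K)} {u u' : G K} (hu : InLevelGroup 𝔫 u)
    (hu' : InLevelGroup 𝔫 u') : InLevelGroup 𝔫 (u * u') := by
  refine ⟨fun w => trivAtInf_mul837 (hu.1 w) (hu'.1 w), fun v i j => ⟨?_, ?_⟩⟩
  · rw [finComp_mul333]
    exact mul_sub_one_mem837 (fun i j => (hu.2 v i j).1) (fun i j => (hu'.2 v i j).1) i j
  · rw [mul_inv_rev, finComp_mul333]
    exact mul_sub_one_mem837 (fun i j => (hu'.2 v i j).2) (fun i j => (hu.2 v i j).2) i j

theorem isIntegralAt_of_inLevelGroup837 {𝔫 : Ideal (𝓞 K)} {u : G K} (hu : InLevelGroup 𝔫 u)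
    (v : HeightOneSpectrum (𝓞 K)) : IsIntegralAt v u := fun i j =>
  T2.H439.int_of_sub_one439 𝔫 v (finComp v u) (fun i j => (hu.2 v i j).1) i j

/-- At a place dividing the level the closure of the level lies in the maximal ideal. -/
theorem val_lt_one_of_mem_idealClosure837 {𝔫 : Ideal (𝓞 K)} {w : HeightOneSpectrum (𝓞 K)}
    (hw : w.asIdeal ∣ 𝔫) {x : w.adicCompletion K} (hx : x ∈ idealClosure 𝔫 w) :
    Valued.v x < 1 := by
  have hsub : ((fun a : 𝓞 K => algebraMap K (w.adicCompletion K) (algebraMap (𝓞 K) K a)) ''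
      (𝔫 : Set (𝓞 K))) ⊆ {x : w.adicCompletion K | Valued.v x < 1} := by
    rintro _ ⟨a, ha, rfl⟩
    show Valued.v (algebraMap K (w.adicCompletion K) (algebraMap (𝓞 K) K a)) < 1
    have h1 : Valued.v (algebraMap K (w.adicCompletion K) (algebraMap (𝓞 K) K a))
        = w.valuation K (algebraMap (𝓞 K) K a) :=
      HeightOneSpectrum.valuedAdicCompletion_eq_valuation' w _
    rw [h1, HeightOneSpectrum.valuation_of_algebraMap]
    exact (w.intValuation_lt_one_iff_mem a).2 (Ideal.le_of_dvd hw ha)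
  have hcl : IsClosed {x : w.adicCompletion K | Valued.v x < 1} := by
    have h := Valued.isClosed_ball (w.adicCompletion K) 1
    simp only [Valuation.restrict_lt_one_iff] at h
    exact h
  exact closure_minimal hsub hcl hx

theorem inIwahori_of_inLevelGroup837 {𝔫 : Ideal (𝓞 K)} {w : HeightOneSpectrum (𝓞 K)}
    (hw : w.asIdeal ∣ 𝔫) {u : G K} (hu : InLevelGroup 𝔫 u) : T5.InIwahori w u := by
  refine ⟨isIntegralAt_of_inLevelGroup837 hu w,
    isIntegralAt_of_inLevelGroup837 (inLevelGroup_inv837 hu) w, ?_⟩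
  have h := (hu.2 w 1 0).1
  rw [Matrix.sub_apply, Matrix.one_apply_ne (by decide : (1 : Fin 2) ≠ 0), sub_zero] at h
  exact val_lt_one_of_mem_idealClosure837 hw h

end Fermat.Agent.LT.T7.H837

end

end
-- ===== PACK-END LT/T7/H837/ClassOpBasic.lean

-- ===== PACK-BEGIN LT/T7/H666/UnramBridge.lean
section




/-!
# Row LT, tower T7 (helper666): BRIDGE `IsUnramOut666` (common part) → `UnramOut305` (matching)

OFF-MAIN.  ADDITIVE.  No hole, nothing assumed.  Against `LT/T7/H305/MatchSpec.lean`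
(helper305, sha256 541c6ac7) and `LT/T7/H666/SetupR.lean`.

The node `GlobMatchC305` (global matching from local matching) has the hypothesis
`UnramOut305 T₀`: every place of `K` outside `T₀` is unramified in `K'`.  The common part
delivered by `setupRC666` has `IsUnramOut666 B`: every place of `K'` outside `B.S'` is unramified
over `K`.  For every finite set `T₀` of places of `K` which contains the places under `B.S'` the
first follows from the second (`unramOut305_of666`); the set of the places under `B.S'` is such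
a set (`exists_below_finset666`).
-/

set_option autoImplicit false
set_option linter.unusedSectionVars false

open IsDedekindDomain NumberField AutomorphicForm

noncomputable section

namespace Fermat.Agent.LT.T7.H666

open Fermat.Agent.LT.H556 Fermat.Agent.LT.H556.A0 Fermat.Agent.LT.T7 Fermat.Agent.LT.T7.H893
open Fermat.Agent.LT.T7.H305 Fermat.Agent.LT.T7.H416

variable {K K' : Type} [Field K] [NumberField K] [Field K'] [NumberField K'] [Algebra K K']

/-- `¬ w² ∣ v 𝒪_{K'}` in the form of `T6.InstSplitC`: some element of `v` is not in `w²`. -/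
theorem exists_not_mem_sq666 {v : HeightOneSpectrum (𝓞 K)} {w : HeightOneSpectrum (𝓞 K')}
    (h : ¬ w.asIdeal ^ 2 ∣ upI (K' := K') v.asIdeal) :
    ∃ x : 𝓞 K, x ∈ v.asIdeal ∧ algebraMap (𝓞 K) (𝓞 K') x ∉ w.asIdeal ^ 2 := by
  by_contra hcon
  push Not at hcon
  apply h
  rw [Ideal.dvd_iff_le, upI, Ideal.map_le_iff_le_comap]
  intro x hx
  exact hcon x hx

/-- The converse. -/
theorem not_sq_dvd_of_exists666 {v : HeightOneSpectrum (𝓞 K)} {w : HeightOneSpectrum (𝓞 K')}
    (h : ∃ x : 𝓞 K, x ∈ v.asIdeal ∧ algebraMap (𝓞 K) (𝓞 K') x ∉ w.asIdeal ^ 2) :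
    ¬ w.asIdeal ^ 2 ∣ upI (K' := K') v.asIdeal := by
  obtain ⟨x, hx, hxw⟩ := h
  intro hdvd
  rw [Ideal.dvd_iff_le, upI, Ideal.map_le_iff_le_comap] at hdvd
  exact hxw (hdvd hx)

/-- **The bridge.**  If the common part is unramified outside `S'` and `T₀` contains the places
of `K` under `S'`, then every place of `K` outside `T₀` is unramified in `K'`. -/
theorem unramOut305_of666 {B : L2Base K K'} (hB : IsUnramOut666 B)
    (T₀ : Finset (HeightOneSpectrum (𝓞 K)))
    (hT₀ : ∀ (v : HeightOneSpectrum (𝓞 K)) (w : HeightOneSpectrum (𝓞 K')),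
      PlaceOver K K' v w → w ∈ B.S' → v ∈ T₀) :
    UnramOut305 (K' := K') T₀ := by
  intro v hv w hvw
  exact exists_not_mem_sq666 (hB v w hvw (fun hw => hv (hT₀ v w hvw hw)))

open Classical in
/-- The finite set of the places of `K` under the places of `S'`. -/
def belowSet666 (S' : Finset (HeightOneSpectrum (𝓞 K'))) : Finset (HeightOneSpectrum (𝓞 K)) :=
  S'.image (below416 (K := K))

theorem mem_belowSet666 (S' : Finset (HeightOneSpectrum (𝓞 K')))
    {v : HeightOneSpectrum (𝓞 K)} {w : HeightOneSpectrum (𝓞 K')}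
    (hvw : PlaceOver K K' v w) (hw : w ∈ S') : v ∈ belowSet666 (K := K) S' := by
  classical
  rw [belowSet666, Finset.mem_image]
  exact ⟨w, hw, below_eq_of_placeOver416 hvw⟩

theorem exists_over_of_mem_belowSet666 (S' : Finset (HeightOneSpectrum (𝓞 K')))
    {v : HeightOneSpectrum (𝓞 K)} (hv : v ∈ belowSet666 (K := K) S') :
    ∃ w ∈ S', PlaceOver K K' v w := by
  classical
  rw [belowSet666, Finset.mem_image] at hv
  obtain ⟨w, hw, rfl⟩ := hv
  exact ⟨w, hw, placeOver_below416 w⟩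

/-- **The bridge for the set of the places under `S'`.** -/
theorem unramOut305_belowSet666 {B : L2Base K K'} (hB : IsUnramOut666 B) :
    UnramOut305 (K' := K') (belowSet666 (K := K) B.S') :=
  unramOut305_of666 hB _ (fun _ _ hvw hw => mem_belowSet666 B.S' hvw hw)

/-- If `S'` is a union of fibres (`IsL2Base.fibre`), the places of `K'` over `belowSet666 S'`
are the places of `S'` (`IsOver305`). -/
theorem isOver305_belowSet666 {ℓ : ℕ} {Φ : HeckeEigensystem K' ℂ} {B : L2Base K K'}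
    (hB : IsL2Base ℓ Φ B) : IsOver305 (belowSet666 (K := K) B.S') B.S' := by
  intro w
  constructor
  · intro hw
    exact ⟨below416 w, mem_belowSet666 B.S' (placeOver_below416 w) hw, placeOver_below416 w⟩
  · rintro ⟨v, hv, hvw⟩
    obtain ⟨w', hw', hvw'⟩ := exists_over_of_mem_belowSet666 B.S' hv
    exact hB.fibre v w' w hvw' hvw hw'

end Fermat.Agent.LT.T7.H666

end

end
-- ===== PACK-END LT/T7/H666/UnramBridge.lean

-- ===== PACK-BEGIN LT/T3/H681/SatakeSph.lean
section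


/-!
# Row LT, tower T3, asset `SatakeInjC` (helper681), OFF-MAIN -- part 5: spherical functions

Bridge between the T6 form of a spherical function, `fun g => φ (cartan g)` with
`φ : (ℤ × ℤ) →₀ ℂ` dominant, and the T3 form (`IsBiIntInv` + `IsRepSys`):

* `exists_sph_of_biinv681` : a bi-invariant function with a finite system of representatives IS
  `fun g => φ (cartan g)` for a dominant `φ`;
* `sph_biinv681`, `sph_rep681` : conversely;
* `sph_acts681` : `fun g => φ (cartan g)` acts on an `IsLocEigen` function with parameters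
  `z₁, z₂` by `φ.sum fun lam c => c * satake q lam z₁ z₂` (closed `T6.SatakeEigenC`).
-/

set_option autoImplicit false
set_option linter.unusedSectionVars false

open scoped Classical

open IsDedekindDomain NumberField MeasureTheory

noncomputable section

namespace Fermat.Agent.LT.T3.H681

open Fermat.Agent.LT.T6 Fermat.Agent.LT.T6.H305 Fermat.Agent.LT.T3.AS Fermat.Agent.LT.T3.H263

section Abstract

variable {k : Type} [Field k] [Valued k Γ₀]

theorem cartan_form681 (g : GL (Fin 2) k) :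
    cartan g = ((((cartan g).1 - (cartan g).2).toNat : ℤ) + (cartan g).2, (cartan g).2) := by
  have := cartan_le681 g
  ext
  · simp only
    omega
  · rfl

theorem dominant_form681 (lam : ℤ × ℤ) (h : lam.2 ≤ lam.1) :
    lam = (((lam.1 - lam.2).toNat : ℤ) + lam.2, lam.2) := by
  ext
  · simp only
    omega
  · rfl

/-- A bi-invariant function with a finite system of representatives is a function of the Cartan
invariant. -/
theorem exists_sph_of_biinv681 (D : ResData k) {f : GL (Fin 2) k → ℂ} (hl : IsLInv263 f)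
    (hr : IsRInv263 f) (R : Finset (GL (Fin 2) k)) (hR : IsRep263 f R) :
    ∃ φ : (ℤ × ℤ) →₀ ℂ, IsDominant φ ∧ f = fun g => φ (cartan g) := by
  let val : ℤ × ℤ → ℂ := fun lam =>
    if lam ∈ R.image cartan then f (D.sc lam.2 * D.um (lam.1 - lam.2).toNat 0 0) else 0
  have hval : ∀ lam, val lam ≠ 0 → lam ∈ R.image cartan := by
    intro lam h
    by_contra hcon
    apply h
    show (if lam ∈ R.image cartan then _ else (0 : ℂ)) = 0
    rw [if_neg hcon]
  refine ⟨Finsupp.onFinset (R.image cartan) val hval, ?_, ?_⟩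
  · intro lam hlam
    rw [Finsupp.mem_support_iff, Finsupp.onFinset_apply] at hlam
    obtain ⟨h, _, rfl⟩ := Finset.mem_image.1 (hval lam hlam)
    exact cartan_le681 h
  · funext g
    rw [Finsupp.onFinset_apply]
    show f g = if cartan g ∈ R.image cartan then _ else (0 : ℂ)
    split_ifs with hmem
    · exact const_cartan681 D hl hr _ _ g (cartan_form681 g)
    · by_contra h0
      apply hmem
      obtain ⟨h, hh, hK⟩ := hR.2 g h0
      rw [Finset.mem_image]
      exact ⟨h, hh, (cartan_congr681 hK).symm⟩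

theorem sph_rinv681 (φ : (ℤ × ℤ) →₀ ℂ) : IsRInv263 (fun g : GL (Fin 2) k => φ (cartan g)) := by
  intro u g hu
  show φ (cartan (g * u)) = φ (cartan g)
  rw [cartan_mul_right681 g u hu]

theorem sph_linv681 (φ : (ℤ × ℤ) →₀ ℂ) : IsLInv263 (fun g : GL (Fin 2) k => φ (cartan g)) := by
  intro u g hu
  show φ (cartan (u * g)) = φ (cartan g)
  rw [cartan_mul_left681 u g hu]

/-- The explicit system of representatives of the support of a spherical function. -/
def sphSys681 (D : ResData k) (φ : (ℤ × ℤ) →₀ ℂ) : Finset (GL (Fin 2) k) :=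
  φ.support.biUnion (fun lam => (D.Idx (lam.1 - lam.2).toNat).image (D.fam lam.2))

theorem cartan_of_mem_sys681 (D : ResData k) (lam : ℤ × ℤ) (hlam : lam.2 ≤ lam.1)
    {h : GL (Fin 2) k} (hh : h ∈ (D.Idx (lam.1 - lam.2).toNat).image (D.fam lam.2)) :
    cartan h = lam := by
  obtain ⟨x, hx, rfl⟩ := Finset.mem_image.1 hh
  rw [D.cartan_fam lam.2 hx]
  exact (dominant_form681 lam hlam).symm

theorem sph_rep681 (D : ResData k) (φ : (ℤ × ℤ) →₀ ℂ) (hφ : IsDominant φ) :
    IsRep263 (fun g : GL (Fin 2) k => φ (cartan g)) (sphSys681 D φ) := by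
  refine ⟨?_, ?_⟩
  · intro h hh h' hh' hK
    obtain ⟨lam, hlam, hm⟩ := Finset.mem_biUnion.1 hh
    obtain ⟨mu, hmu, hm'⟩ := Finset.mem_biUnion.1 hh'
    have e1 := cartan_of_mem_sys681 D lam (hφ lam hlam) hm
    have e2 := cartan_of_mem_sys681 D mu (hφ mu hmu) hm'
    have e3 := cartan_congr681 hK
    have e : lam = mu := by rw [← e1, ← e2, e3]
    subst e
    obtain ⟨x, hx, rfl⟩ := Finset.mem_image.1 hm
    obtain ⟨x', hx', rfl⟩ := Finset.mem_image.1 hm'
    rw [D.fam_inj lam.2 hx hx' hK]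
  · intro g hg
    have hmem : cartan g ∈ φ.support := Finsupp.mem_support_iff.2 hg
    obtain ⟨x, hx, hK⟩ := D.fam_cover (cartan g).2 ((cartan g).1 - (cartan g).2).toNat g
      (cartan_form681 g)
    exact ⟨_, Finset.mem_biUnion.2 ⟨cartan g, hmem, Finset.mem_image.2 ⟨x, hx, rfl⟩⟩, hK⟩

/-- The sum over the explicit system. -/
theorem sum_sphSys681 (D : ResData k) (φ : (ℤ × ℤ) →₀ ℂ) (hφ : IsDominant φ)
    (F : GL (Fin 2) k → ℂ) :
    ∑ h ∈ sphSys681 D φ, φ (cartan h) * F h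
      = ∑ lam ∈ φ.support, φ lam
          * ∑ h ∈ (D.Idx (lam.1 - lam.2).toNat).image (D.fam lam.2), F h := by
  unfold sphSys681
  rw [Finset.sum_biUnion]
  · refine Finset.sum_congr rfl (fun lam hlam => ?_)
    rw [Finset.mul_sum]
    refine Finset.sum_congr rfl (fun h hh => ?_)
    rw [cartan_of_mem_sys681 D lam (hφ lam hlam) hh]
  · intro lam hlam mu hmu hne
    rw [Function.onFun, Finset.disjoint_left]
    intro h hh hh'
    apply hne
    rw [← cartan_of_mem_sys681 D lam (hφ lam hlam) hh,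
      ← cartan_of_mem_sys681 D mu (hφ mu hmu) hh']

end Abstract

variable {K : Type} [Field K] [NumberField K] (v : HeightOneSpectrum (𝓞 K))

/-- An `IsLocEigen` function satisfies the hypotheses of `T6.SatakeEigenC`: it is an
eigenfunction of every sphere, with eigenvalue the Satake polynomial. -/
theorem locEigen_satake681 {Φ₀ : GL (Fin 2) (v.adicCompletion K) → ℂ} {a b z₁ z₂ : ℂ}
    (hΦ : IsLocEigen v Φ₀ a b) (hz₁ : z₁ + z₂ = a) (hz₂ : z₁ * z₂ = b) (hb : b ≠ 0)
    (lam : ℤ × ℤ) (hlam : lam.2 ≤ lam.1) (H : Finset (GL (Fin 2) (v.adicCompletion K)))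
    (hH : IsCosetSys lam H) (g : GL (Fin 2) (v.adicCompletion K)) :
    ∑ h ∈ H, Φ₀ (g * h) = satake (Ideal.absNorm v.asIdeal) lam z₁ z₂ * Φ₀ g := by
  obtain ⟨D, hD⟩ := exists_resData (Fermat.Agent.LT.T6.H176.instLocalC176 K v)
  have hE := isEig_of_locEigen263 v D hD hΦ
  have hz₁0 : z₁ ≠ 0 := by
    intro h
    apply hb
    rw [← hz₂, h, zero_mul]
  have hz₂0 : z₂ ≠ 0 := by
    intro h
    apply hb
    rw [← hz₂, h, mul_zero]
  have hinv : ∀ u g : GL (Fin 2) (v.adicCompletion K), InU 0 u → Φ₀ (g * u) = Φ₀ g :=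
    fun u g hu => hE.inv u g ((inU_zero_iff u).1 hu)
  have hinvK : ∀ (y : GL (Fin 2) (v.adicCompletion K)) (u g : GL (Fin 2) (v.adicCompletion K)),
      InK u → (fun h => Φ₀ (y * h)) (g * u) = (fun h => Φ₀ (y * h)) g := by
    intro y u g hu
    show Φ₀ (y * (g * u)) = Φ₀ (y * g)
    rw [← mul_assoc]
    exact hE.inv u _ hu
  refine satakeEigenC305 (v.adicCompletion K) (Ideal.absNorm v.asIdeal)
    (Fermat.Agent.LT.T6.H176.instLocalC176 K v) Φ₀ z₁ z₂ hz₁0 hz₂0 hinv ?_ lam hlam H hH g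
  intro mu hmu H' hH' y
  rcases hmu with rfl | rfl
  · rw [D.sum_cosetSys 0 1 ((1 : ℤ), (0 : ℤ)) (by simp) H' hH' (fun h => Φ₀ (y * h)) (hinvK y),
      ← explicit_eq_sum681, hE.hT y, ← hz₁]
    unfold satake sq263
    rw [hD]
    simp [satPoly]
  · rw [D.sum_cosetSys 1 0 ((1 : ℤ), (1 : ℤ)) (by simp) H' hH' (fun h => Φ₀ (y * h)) (hinvK y),
      D.sum_Idx_fam Φ₀ b hb hE.hS 1 0 y, D.Pprim_eq_Aall_of_le_one Φ₀ 0 (Nat.zero_le _),
      D.Aall_zero, ← hz₂]
    unfold satake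
    simp [satPoly]

/-- **The action of a spherical function on the local eigenfunctions.** -/
theorem sph_acts681 (φ : (ℤ × ℤ) →₀ ℂ) (hφ : IsDominant φ)
    {Φ₀ : GL (Fin 2) (v.adicCompletion K) → ℂ} {a b z₁ z₂ : ℂ}
    (hΦ : IsLocEigen v Φ₀ a b) (hz₁ : z₁ + z₂ = a) (hz₂ : z₁ * z₂ = b) (hb : b ≠ 0)
    (R : Finset (GL (Fin 2) (v.adicCompletion K)))
    (hR : IsRepSys v (fun g => φ (cartan g)) R) (y : GL (Fin 2) (v.adicCompletion K)) :
    ∑ h ∈ R, φ (cartan h) * Φ₀ (y * h)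
      = (φ.sum fun lam c => c * satake (Ideal.absNorm v.asIdeal) lam z₁ z₂) * Φ₀ y := by
  obtain ⟨D, hD⟩ := exists_resData (Fermat.Agent.LT.T6.H176.instLocalC176 K v)
  have hE := isEig_of_locEigen263 v D hD hΦ
  have h1 := sum_rep_eq263 (sph_rinv681 φ) hE.inv ((isRepSys_iff263 v _ R).1 hR)
    (sph_rep681 D φ hφ) y
  rw [h1, sum_sphSys681 D φ hφ (fun h => Φ₀ (y * h)), Finsupp.sum, Finset.sum_mul]
  refine Finset.sum_congr rfl (fun lam hlam => ?_)
  rw [locEigen_satake681 v hΦ hz₁ hz₂ hb lam (hφ lam hlam) _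
    (D.isCosetSys_image lam.2 (lam.1 - lam.2).toNat lam (dominant_form681 lam (hφ lam hlam))) y]
  ring

end Fermat.Agent.LT.T3.H681

end

end
-- ===== PACK-END LT/T3/H681/SatakeSph.lean

-- ===== PACK-BEGIN LT/T5/H32/SphereTest.lean
section





/-!
# Row LT, tower T5 (helper32): the sphere mean of a test function is a test function

OFF-MAIN, ADDITIVE.  KIT for the node `B981.StepMC981`.  For a test function `φ` of level `𝔫`
and trivial type and a parametrisation `Y` of the geodesic sphere of radius `d` at the complex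
place `w` (the hypothesis of `T7.MeanEig`),

    φ' (g) = ∫_0^{2π} ∫_0^π φ (g Y(α,β)) sin β dβ dα

is a test function of level `𝔫` and trivial type (`isTestFn_sphere32`), Eisenstein-killing with
Eisenstein-killing adjoint if `φ` is (`isEKPair_sphere32`), Iwahori-supported if `φ` is
(`exists_isIwSupported_sphere32`).  Inputs: `T5/H32/SphereSmooth.lean` (smoothness),
`T5/H32/ShiftKit.lean` (right averages), the closed T2 leaves `T2.H197.subS2Rot197` (rotation
invariance of `sin β dβ dα`), `T2.H472.subLocCont472`, `T2.H90.sphereMean_unitary_h90`;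
`hT : T1.T1Out K` is `T1.t1Out K` (`T1/Closed.lean`), kept as a hypothesis (small closure).

Also: `G_ext32` (an element of `GL₂(𝔸_K)` is determined by its components) and
`comm_of_disjoint32` (elements with disjoint supports commute).
-/

set_option autoImplicit false
open IsDedekindDomain NumberField MeasureTheory
open scoped MatrixGroups ComplexConjugate Pointwise ContDiff
open Fermat.Agent.LT.H556.A0 Fermat.Agent.LT.T5 Fermat.Agent.LT.H942 Fermat.Agent.LT.T5.H942

noncomputable section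
namespace Fermat.Agent.LT.T5.H32

variable {K : Type} [Field K] [NumberField K]

attribute [local instance] Fermat.Agent.LT.T5.instMeasurableSpaceG

/-! ## 1. Components -/

/-- An element of `GL₂(𝔸_K)` is determined by its components. -/
theorem G_ext32 {a b : G K} (hinf : ∀ w : InfinitePlace K, infComp w a = infComp w b)
    (hfin : ∀ v : HeightOneSpectrum (𝓞 K), finComp v a = finComp v b) : a = b := by
  apply Units.ext
  ext i j
  refine H277.adl_ext277 (fun w => ?_) (fun v => ?_)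
  · exact congrFun (congrFun (hinf w) i) j
  · exact congrFun (congrFun (hfin v) i) j

/-- Elements with disjoint supports commute. -/
theorem comm_of_disjoint32 {a b : G K}
    (hinf : ∀ w : InfinitePlace K, infComp w a = 1 ∨ infComp w b = 1)
    (hfin : ∀ v : HeightOneSpectrum (𝓞 K), finComp v a = 1 ∨ finComp v b = 1) :
    a * b = b * a := by
  refine G_ext32 (fun w => ?_) (fun v => ?_)
  · rw [infComp_mul942, infComp_mul942]
    rcases hinf w with h | h <;> rw [h, one_mul, mul_one]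
  · rw [finComp_mul942, finComp_mul942]
    rcases hfin v with h | h <;> rw [h, one_mul, mul_one]

/-- An element of the level group commutes with an element supported at an infinite place. -/
theorem comm_level_local32 {𝔫 : Ideal (𝓞 K)} {u y : G K} (hu : InLevelGroup 𝔫 u)
    {w : InfinitePlace K} (hy : IsLocalAtInf w y) : u * y = y * u :=
  comm_of_disjoint32 (fun w' => Or.inl (infComp_of_trivAtInf32 (hu.1 w')))
    (fun v => Or.inr (hy.2 v))

/-- Elements supported at different infinite places commute. -/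
theorem comm_local_local32 {w w' : InfinitePlace K} (hww : w' ≠ w) {k y : G K}
    (hk : IsLocalAtInf w' k) (hy : IsLocalAtInf w y) : k * y = y * k := by
  refine comm_of_disjoint32 (fun w'' => ?_) (fun v => Or.inr (hy.2 v))
  by_cases h : w'' = w'
  · subst h
    exact Or.inr (infComp_of_trivAtInf32 (hy.1 w'' hww))
  · exact Or.inl (infComp_of_trivAtInf32 (hk.1 w'' h))

/-- The components of a parametrisation of the sphere are smooth. -/
theorem contDiff_infComp_sphere32 (w : InfinitePlace K) (d : ℝ) {Y : ℝ → ℝ → G K}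
    (hY : ∀ α β : ℝ, IsLocalAtInf w (Y α β) ∧ infComp w (Y α β) = rotZ α * rotY β * torus d)
    (w' : InfinitePlace K) (i j : Fin 2) :
    ContDiff ℝ ∞ (fun p : ℝ × ℝ => infComp w' (Y p.1 p.2) i j) := by
  by_cases hw : w' = w
  · subst hw
    have e : (fun p : ℝ × ℝ => infComp w' (Y p.1 p.2) i j)
        = fun p => ∑ k : Fin 2, (∑ k' : Fin 2, rotZ p.1 i k' * rotY p.2 k' k) * torus d k j := by
      funext p
      rw [(hY p.1 p.2).2, Matrix.mul_apply]
      refine Finset.sum_congr rfl fun k _ => ?_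
      rw [Matrix.mul_apply]
    rw [e]
    refine ContDiff.sum fun k _ => ContDiff.mul (ContDiff.sum fun k' _ => ContDiff.mul ?_ ?_)
      contDiff_const
    · exact (contDiff_rotZ32 i k').comp contDiff_fst
    · exact (contDiff_rotY32 k' k).comp contDiff_snd
  · have e : (fun p : ℝ × ℝ => infComp w' (Y p.1 p.2) i j)
        = fun _ => (1 : Matrix (Fin 2) (Fin 2) ℂ) i j := by
      funext p
      rw [infComp_of_trivAtInf32 ((hY p.1 p.2).1.1 w' hw)]
    rw [e]
    exact contDiff_const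

/-- A parametrisation of the sphere is continuous. -/
theorem continuous_sphereParam32 (w : InfinitePlace K) (d : ℝ) {Y : ℝ → ℝ → G K}
    (hY : ∀ α β : ℝ, IsLocalAtInf w (Y α β) ∧ infComp w (Y α β) = rotZ α * rotY β * torus d) :
    Continuous fun p : ℝ × ℝ => Y p.1 p.2 :=
  T2.H472.subLocCont472 K w (ℝ × ℝ) (fun p => Y p.1 p.2) (fun p => (hY p.1 p.2).1)
    (fun i j => (contDiff_infComp_sphere32 w d hY w i j).continuous)

/-! ## 2. The sphere mean of a test function -/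

/-- **THE SPHERE MEAN OF A TEST FUNCTION IS A TEST FUNCTION** (trivial type, same level). -/
theorem isTestFn_sphere32 (hT : T1.T1Out K) {𝔫 : Ideal (𝓞 K)} {φ : G K → ℂ}
    (hφ : IsTestFn 𝔫 trivType φ) {w : InfinitePlace K} (hw : w.IsComplex) (d : ℝ) {Y : ℝ → ℝ → G K}
    (hY : ∀ α β : ℝ, IsLocalAtInf w (Y α β) ∧ infComp w (Y α β) = rotZ α * rotY β * torus d) :
    IsTestFn 𝔫 trivType (fun g : G K => ∫ α in (0 : ℝ)..(2 * Real.pi),
      ∫ β in (0 : ℝ)..Real.pi, φ (g * Y α β) * ((Real.sin β : ℝ) : ℂ)) := by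
  have hYc := continuous_sphereParam32 w d hY
  have htriv : ∀ k : G K, (trivType k : ℂ)⁻¹ = 1 := fun k => by
    show ((1 : ℂ))⁻¹ = 1
    exact inv_one
  refine ⟨hφ.ktype, continuous_sphere32 hT hYc hφ.cont,
    hasCompactSupport_sphere32 hYc hφ.cont hφ.supp, isSmoothAtInf_sphereAt32 hφ.smooth w d hY,
    ?_, ?_, ?_, ?_⟩
  · -- level, right
    intro u hu g
    show (∫ α in (0 : ℝ)..(2 * Real.pi), ∫ β in (0 : ℝ)..Real.pi,
        φ (g * u * Y α β) * ((Real.sin β : ℝ) : ℂ)) = _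
    congr 1
    funext α
    congr 1
    funext β
    rw [mul_assoc, comm_level_local32 hu (hY α β).1, ← mul_assoc, hφ.inv.level_right u hu]
  · -- level, left
    intro u hu g
    show (∫ α in (0 : ℝ)..(2 * Real.pi), ∫ β in (0 : ℝ)..Real.pi,
        φ (u * g * Y α β) * ((Real.sin β : ℝ) : ℂ)) = _
    congr 1
    funext α
    congr 1
    funext β
    rw [mul_assoc, hφ.inv.level_left u hu]
  · -- arch, right
    intro w' k hk g
    rw [htriv, one_mul]
    by_cases hww : w' = w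
    · subst hww
      have hinv : ∀ k' : G K, IsArchCompact w' k' → ∀ g' : G K, φ (g' * k') = φ g' := by
        intro k' hk' g'
        rw [hφ.inv.arch_right w' k' hk' g', htriv, one_mul]
      exact T2.H90.sphereMean_unitary_h90 T2.H197.subS2Rot197 (T2.H472.subLocCont472 K) hw
        (d := d) (Y := Y) hY hφ.cont hinv k hk g
    · show (∫ α in (0 : ℝ)..(2 * Real.pi), ∫ β in (0 : ℝ)..Real.pi,
          φ (g * k * Y α β) * ((Real.sin β : ℝ) : ℂ)) = _
      congr 1
      funext α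
      congr 1
      funext β
      rw [mul_assoc, comm_local_local32 hww hk.1 (hY α β).1, ← mul_assoc,
        hφ.inv.arch_right w' k hk, htriv, one_mul]
  · -- arch, left
    intro w' k hk g
    rw [htriv, one_mul]
    show (∫ α in (0 : ℝ)..(2 * Real.pi), ∫ β in (0 : ℝ)..Real.pi,
        φ (k * g * Y α β) * ((Real.sin β : ℝ) : ℂ)) = _
    congr 1
    funext α
    congr 1
    funext β
    rw [mul_assoc, hφ.inv.arch_left w' k hk, htriv, one_mul]

/-- **The sphere mean of an Eisenstein-killing pair is an Eisenstein-killing pair.** -/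
theorem isEKPair_sphere32 (hT : T1.T1Out K) {μ : Measure (G K)} {F : Set (G K)}
    (hF : IsFrame μ F) {φ : G K → ℂ} (hφc : Continuous φ) (hφs : HasCompactSupport φ)
    (hφ : IsEK μ φ ∧ IsEK μ (adjointFn φ)) (w : InfinitePlace K) (d : ℝ) {Y : ℝ → ℝ → G K}
    (hY : ∀ α β : ℝ, IsLocalAtInf w (Y α β) ∧ infComp w (Y α β) = rotZ α * rotY β * torus d) :
    IsEK μ (fun g : G K => ∫ α in (0 : ℝ)..(2 * Real.pi), ∫ β in (0 : ℝ)..Real.pi,
        φ (g * Y α β) * ((Real.sin β : ℝ) : ℂ)) ∧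
      IsEK μ (adjointFn (fun g : G K => ∫ α in (0 : ℝ)..(2 * Real.pi),
        ∫ β in (0 : ℝ)..Real.pi, φ (g * Y α β) * ((Real.sin β : ℝ) : ℂ))) := by
  have hYc := continuous_sphereParam32 w d hY
  exact ⟨isEK_sphere32 hT hF hYc hφc hφs hφ.1, isEK_adjoint_sphere32 hT hF hYc hφc hφs hφ.2⟩

/-- **Iwahori support of the sphere mean** (existence form of `T7.IsL2PreSupp`). -/
theorem exists_isIwSupported_sphere32 {l : ℕ} {o : ℕ → HeightOneSpectrum (𝓞 K)} {φ : G K → ℂ}
    (hφc : Continuous φ) (hφ : ∃ C : Set (G K), IsCompact C ∧ IsIwSupported32 l o C φ)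
    (w : InfinitePlace K) (d : ℝ) {Y : ℝ → ℝ → G K}
    (hY : ∀ α β : ℝ, IsLocalAtInf w (Y α β) ∧ infComp w (Y α β) = rotZ α * rotY β * torus d) :
    ∃ C : Set (G K), IsCompact C ∧ IsIwSupported32 l o C
      (fun g : G K => ∫ α in (0 : ℝ)..(2 * Real.pi), ∫ β in (0 : ℝ)..Real.pi,
        φ (g * Y α β) * ((Real.sin β : ℝ) : ℂ)) := by
  have hYc := continuous_sphereParam32 w d hY
  obtain ⟨C, hC, hCφ⟩ := hφ
  exact ⟨_, hC.mul ((isCompact_Icc.prod isCompact_Icc).image hYc).inv,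
    isIwSupported_sphere32 hYc hφc hCφ fun α β j _ => (hY α β).1.2 (o j)⟩

end Fermat.Agent.LT.T5.H32

end

end
-- ===== PACK-END LT/T5/H32/SphereTest.lean

-- ===== PACK-BEGIN LT/T7/H420/IwTranslCore.lean
section






/-!
# Row LT, tower T7, leaf T7.L2.2.B1.W3 `IwTranslC144` (helper420, SPARE of registry row 2450): core

OFF-MAIN.  `iwTransl_core420 K` = the body of `H144W.IwTranslC144 K` (cut of helper144,
`LT/T7/H144/WSpecCut.lean` b4ddb868), stated on the vocabulary of `T7/Level2.lean` only, so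
that the core does not import the tower T2.  No hole, nothing assumed.  ADDITIVE (new names
only, all ending in `420`, namespace `Fermat.Agent.LT.T7.H420W`).

Proof.
* eigenfunctions: `translEigC281` (helper281, closed) for the one-element family `{i}`, `c = 1`;
  the translate is right invariant under `U(𝔫)` because `i` normalises `U(𝔫)`
  (`inLevelGroup_conj420`: `i⁻¹ u i - 1 = i⁻¹ (u - 1) i`, `i` and `i⁻¹` are integral at every
  finite place and the closure of `𝔫` in `𝒪_v` is an ideal, helper439);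
* inner product: `translInv_core144f` (helper144, closed) for `Φ = ψ conj χ`, with the closed
  leaf `adNormC309` of T1;
* inverse: components (`inIwahori_inv340`, helper340).
-/

set_option autoImplicit false
set_option linter.unusedSectionVars false
set_option linter.unusedVariables false
set_option linter.style.haveILetI false

open AutomorphicForm IsDedekindDomain NumberField MeasureTheory
open scoped ComplexConjugate

noncomputable section

namespace Fermat.Agent.LT.T7.H420W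

open Fermat.Agent.LT.H556 Fermat.Agent.LT.H556.A0 Fermat.Agent.LT Fermat.Agent.LT.T7
open Fermat.Agent.LT.H129

attribute [local instance] Fermat.Agent.LT.T5.instMeasurableSpaceG

variable {K : Type} [Field K] [NumberField K]

/-! ## 1. Components -/

theorem finComp_one420 (v : HeightOneSpectrum (𝓞 K)) :
    finComp v (1 : G K) = 1 := by
  rw [← coe_finCompHom129, map_one]
  rfl

theorem finComp_inv_mul420 (v : HeightOneSpectrum (𝓞 K)) (i : G K) :
    finComp v i⁻¹ * finComp v i = 1 := by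
  rw [← H271.finComp_mul271, inv_mul_cancel, finComp_one420]

/-- `i⁻¹ (u - 1) i` has its entries in the closure of `𝔫` if `u - 1` has and `i`, `i⁻¹` are
integral. -/
theorem conj_entry420 {𝔫 : Ideal (𝓞 K)} (v : HeightOneSpectrum (𝓞 K)) {i u : G K}
    (hi : IsIntegralAt v i) (hi' : IsIntegralAt v i⁻¹)
    (hu : ∀ a b, (finComp v u - 1) a b ∈ idealClosure 𝔫 v) (a b : Fin 2) :
    (finComp v (i⁻¹ * u * i) - 1) a b ∈ idealClosure 𝔫 v := by
  have e : finComp v (i⁻¹ * u * i) - 1 = finComp v i⁻¹ * (finComp v u - 1) * finComp v i := by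
    rw [H271.finComp_mul271, H271.finComp_mul271, Matrix.mul_sub, Matrix.sub_mul, Matrix.mul_one,
      finComp_inv_mul420]
  have hI : ∀ a b, Valued.v (finComp v i a b) ≤ 1 := fun a b =>
    (HeightOneSpectrum.mem_adicCompletionIntegers _ _ _).1 (hi a b)
  have hI' : ∀ a b, Valued.v (finComp v i⁻¹ a b) ≤ 1 := fun a b =>
    (HeightOneSpectrum.mem_adicCompletionIntegers _ _ _).1 (hi' a b)
  have hterm : ∀ j k : Fin 2,
      finComp v i⁻¹ a j * (finComp v u - 1) j k * finComp v i k b ∈ idealClosure 𝔫 v := by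
    intro j k
    have h1 := H439.ic_mul_int439 𝔫 v (hI' a j) (hu j k)
    have h2 := H439.ic_mul_int439 𝔫 v (hI k b) h1
    rwa [mul_comm] at h2
  rw [e, Matrix.mul_apply, Fin.sum_univ_two, Matrix.mul_apply, Matrix.mul_apply,
    Fin.sum_univ_two, Fin.sum_univ_two, add_mul, add_mul]
  exact H439.ic_add439 𝔫 v
    (H439.ic_add439 𝔫 v (hterm 0 0) (hterm 1 0))
    (H439.ic_add439 𝔫 v (hterm 0 1) (hterm 1 1))

/-- An element which is trivial at infinity and integral with integral inverse at every finite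
place normalises `U(𝔫)`. -/
theorem inLevelGroup_conj420 {𝔫 : Ideal (𝓞 K)} {i u : G K}
    (hinf : ∀ w : InfinitePlace K, TrivAtInf w i)
    (hint : ∀ v : HeightOneSpectrum (𝓞 K), IsIntegralAt v i ∧ IsIntegralAt v i⁻¹)
    (hu : InLevelGroup 𝔫 u) : InLevelGroup 𝔫 (i⁻¹ * u * i) := by
  refine ⟨fun w => ?_, fun v a b => ⟨?_, ?_⟩⟩
  · rw [trivAtInf_iff129, map_mul, map_mul, map_inv, (trivAtInf_iff129 w i).1 (hinf w),
      (trivAtInf_iff129 w u).1 (hu.1 w), inv_one, one_mul, one_mul]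
  · exact conj_entry420 v (hint v).1 (hint v).2 (fun a b => (hu.2 v a b).1) a b
  · have e : (i⁻¹ * u * i)⁻¹ = i⁻¹ * u⁻¹ * i := by group
    rw [e]
    exact conj_entry420 v (hint v).1 (hint v).2 (fun a b => (hu.2 v a b).2) a b

/-! ## 2. The hypotheses of `IwTranslC144` on `i` -/

section Iw

variable {𝔫 : Ideal (𝓞 K)} {l : ℕ} {o : ℕ → HeightOneSpectrum (𝓞 K)} {i : G K}

/-- `i` is integral with integral inverse at every finite place. -/
theorem integral_of_iw420
    (h2 : ∀ v : HeightOneSpectrum (𝓞 K), (∀ j < l, v ≠ o j) → TrivAtFin v i)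
    (h3 : ∀ j < l, T5.InIwahori (o j) i) (v : HeightOneSpectrum (𝓞 K)) :
    IsIntegralAt v i ∧ IsIntegralAt v i⁻¹ := by
  by_cases hv : ∀ j < l, v ≠ o j
  · exact H281.isIntegralAt_of_triv281 (h2 v hv)
  · obtain ⟨j, hj, hjv⟩ : ∃ j, j < l ∧ v = o j := by
      by_contra hcon
      exact hv (fun j hj hvj => hcon ⟨j, hj, hvj⟩)
    subst hjv
    exact ⟨(h3 j hj).1, (h3 j hj).2.1⟩

/-- `i` is a good translation for the level `𝔫`. -/
theorem good_of_iw420 (h1 : ∀ w : InfinitePlace K, TrivAtInf w i)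
    (h2 : ∀ v : HeightOneSpectrum (𝓞 K), (∀ j < l, v ≠ o j) → TrivAtFin v i)
    (h3 : ∀ j < l, T5.InIwahori (o j) i) : H281.IsGoodTransl281 𝔫 i :=
  ⟨h1, fun v _ => integral_of_iw420 h2 h3 v⟩

/-- The three conditions are stable under inversion. -/
theorem inv_of_iw420 (h1 : ∀ w : InfinitePlace K, TrivAtInf w i)
    (h2 : ∀ v : HeightOneSpectrum (𝓞 K), (∀ j < l, v ≠ o j) → TrivAtFin v i)
    (h3 : ∀ j < l, T5.InIwahori (o j) i) :
    (∀ w : InfinitePlace K, TrivAtInf w i⁻¹) ∧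
      (∀ v : HeightOneSpectrum (𝓞 K), (∀ j < l, v ≠ o j) → TrivAtFin v i⁻¹) ∧
      ∀ j < l, T5.InIwahori (o j) i⁻¹ := by
  refine ⟨fun w => ?_, fun v hv => ?_, fun j hj => H340.inIwahori_inv340 (h3 j hj)⟩
  · rw [trivAtInf_iff129, map_inv, (trivAtInf_iff129 w i).1 (h1 w), inv_one]
  · rw [trivAtFin_iff129, map_inv, (trivAtFin_iff129 v i).1 (h2 v hv), inv_one]

end Iw

/-! ## 3. The translate of an eigenfunction -/

theorem translOp_single420 [DecidableEq (G K)] (i : G K) (ψ : G K → ℂ) :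
    H281.translOp281 {i} 1 ψ = fun x => ψ (x * i) := by
  funext x
  simp only [H281.translOp281, one_mul, Finset.sum_singleton]

/-- An element which is trivial at every place is `1`. -/
theorem eq_one_of_triv420 {h : G K} (hinf : ∀ w : InfinitePlace K, TrivAtInf w h)
    (hfin : ∀ v : HeightOneSpectrum (𝓞 K), TrivAtFin v h) : h = 1 := by
  apply G_ext129
  · intro w
    rw [(trivAtInf_iff129 w h).1 (hinf w), map_one]
  · intro v
    rw [(trivAtFin_iff129 v h).1 (hfin v), map_one]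

/-- The Iwahori condition along the empty orbit is empty. -/
theorem isIwInv_zero420 (o : ℕ → HeightOneSpectrum (𝓞 K)) (φ : G K → ℂ) : IsIwInv 0 o φ := by
  intro h hinf hfin _ x
  have e : h = 1 := eq_one_of_triv420 hinf (fun v => hfin v (fun j hj => absurd hj (Nat.not_lt_zero j)))
  rw [e, mul_one]

theorem isEigFn_transl420 {𝔫 : Ideal (𝓞 K)} {r : G K} (hr : T5.IsRayGen r) {l : ℕ}
    {o : ℕ → HeightOneSpectrum (𝓞 K)} {i : G K}
    (h1 : ∀ w : InfinitePlace K, TrivAtInf w i)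
    (h2 : ∀ v : HeightOneSpectrum (𝓞 K), (∀ j < l, v ≠ o j) → TrivAtFin v i)
    (h3 : ∀ j < l, T5.InIwahori (o j) i)
    {ψ : G K → ℂ} {C : EigData K} (hψ : IsEigFn 𝔫 r 0 o ψ C) :
    IsEigFn 𝔫 r 0 o (fun x => ψ (x * i)) C := by
  classical
  have key := H281.translEigC281 K 𝔫 r 0 o hr {i} 1
    (fun t ht => by
      rw [Finset.mem_singleton] at ht
      rw [ht]
      exact good_of_iw420 h1 h2 h3) ψ C hψ
  rw [translOp_single420] at key
  refine key ?_ (isIwInv_zero420 o _)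
  intro u hu x
  show ψ (x * u * i) = ψ (x * i)
  have e : x * u * i = x * i * (i⁻¹ * u * i) := by group
  rw [e]
  exact hψ.inv.cusp.aut.level_inv _
    (inLevelGroup_conj420 h1 (integral_of_iw420 h2 h3) hu) _

/-! ## 4. The inner product -/

theorem innerD_transl420 {μ : Measure (G K)} {F : Set (G K)} (hF : T5.IsFrame μ F) {r : G K}
    (hr : T5.IsRayGen r) {𝔫 : Ideal (𝓞 K)} {o : ℕ → HeightOneSpectrum (𝓞 K)} {ψ χ : G K → ℂ}
    (hψ : IsWFn 𝔫 r 0 o ψ) (hχ : IsWFn 𝔫 r 0 o χ) (i : G K) :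
    T5.innerD μ F (fun x => ψ (x * i)) (fun x => χ (x * i)) = T5.innerD μ F ψ χ := by
  unfold T5.innerD
  exact H144.translInv_core144f (T1.H309.adNormC309 K) hF hr (fun x => ψ x * conj (χ x))
    (fun γ x => by
      show ψ (T5.ratG γ * x) * conj (χ (T5.ratG γ * x)) = ψ x * conj (χ x)
      rw [hψ.cusp.aut.left_inv, hχ.cusp.aut.left_inv])
    (fun x => by
      show ψ (x * r) * conj (χ (x * r)) = ψ x * conj (χ x)
      rw [hψ.cusp.aut.ray, hχ.cusp.aut.ray]) i

/-! ## 5. The leaf, on the vocabulary of `T7/Level2.lean` -/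

/-- **LEAF W3 = IW-TRANSL**, the body of `H144W.IwTranslC144 K`. -/
theorem iwTransl_core420 (K : Type) [Field K] [NumberField K] :
    ∀ 𝔫 : Ideal (𝓞 K), 𝔫 ≠ ⊥ → ∀ R : Frame5 K, IsFrame5 R →
    ∀ (l : ℕ) (o : ℕ → HeightOneSpectrum (𝓞 K)), (∀ j < l, (o j).asIdeal ∣ 𝔫) →
    ∀ i : G K, (∀ w : InfinitePlace K, TrivAtInf w i) →
      (∀ v : HeightOneSpectrum (𝓞 K), (∀ j < l, v ≠ o j) → TrivAtFin v i) →
      (∀ j < l, T5.InIwahori (o j) i) →
      (∀ (ψ : G K → ℂ) (C : EigData K), IsEigFn 𝔫 R.r 0 o ψ C →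
        IsEigFn 𝔫 R.r 0 o (fun x => ψ (x * i)) C) ∧
      (∀ ψ χ : G K → ℂ, IsWFn 𝔫 R.r 0 o ψ → IsWFn 𝔫 R.r 0 o χ →
        T5.innerD R.μ R.F (fun x => ψ (x * i)) (fun x => χ (x * i))
          = T5.innerD R.μ R.F ψ χ) ∧
      ((∀ w : InfinitePlace K, TrivAtInf w i⁻¹) ∧
        (∀ v : HeightOneSpectrum (𝓞 K), (∀ j < l, v ≠ o j) → TrivAtFin v i⁻¹) ∧
        ∀ j < l, T5.InIwahori (o j) i⁻¹) := by
  intro 𝔫 _ R hR l o _ i h1 h2 h3
  exact ⟨fun ψ C hψ => isEigFn_transl420 hR.ray h1 h2 h3 hψ,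
    fun ψ χ hψ hχ => innerD_transl420 hR.frame hR.ray hψ hχ i,
    inv_of_iw420 h1 h2 h3⟩

end Fermat.Agent.LT.T7.H420W

end

end
-- ===== PACK-END LT/T7/H420/IwTranslCore.lean

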