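import Mathlib
import Fermat.Agent.Pack.LT4.E3L2
import Fermat.Agent.Pack.LT2.E19L2
import Fermat.Agent.Pack.LT4.E3L3
import Fermat.Agent.Pack.LT4.E3L1
import Fermat.Agent.Pack.LT3.E19L3
import Fermat.Agent.Pack.LT3.E28L1
import Fermat.Agent.Pack.LT4.E2L3
import Fermat.Agent.Pack.LT3.E25L2
import Fermat.Agent.Pack.LT2.E10L1
import Fermat.Agent.Pack.LT3.E27L1
import Fermat.Agent.Pack.LT3.E22L0
import Fermat.Agent.Pack.LT4.E2L1
import Fermat.Agent.Pack.LT3.E24L3
import Fermat.Agent.Pack.LT3.E25L1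
import Fermat.Agent.Pack.LT3.E25L0
import Fermat.Agent.Pack.LT4.E0L3
import Fermat.Agent.Pack.LT2.E2L3
import Fermat.Agent.Pack.LT4.E3L0

set_option linter.all false

-- ===== PACK-BEGIN LT/T7/H231/RigidState.lean
section




/-!
# Row LT, tower T7, node T7.14 `RigidAll`: STATE on the cut of helper62 (helper231, integration)

OFF-MAIN, ADDITIVE.  The plug is the sub-architect's (`LT/T7/H62/RigidPlug2.lean`, sha256
dec298db74c9d3d2, helper62@714b82ce7: `rigidAll_of_open62b`, five open leaves).  This file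
discharges `TorusAsmC` (helper550 `torusAsmC550`) in the same closure.

OPEN = the four leaves `CountC` (row 1519), `FoldWhitC` (row 1717), `IdeleSumC` (row 1720),
`LocC` (row 1829).
-/

set_option autoImplicit false

namespace Fermat.Agent.LT.T7.H231

open Fermat.Agent.LT.T7

/-- The open leaves of node T7.14 on the cut of helper62 (levels 4 and 5), for one field. -/
structure RigidState231 (K : Type) [Field K] [NumberField K] : Prop where
  /-- T7.14.3 (row 1519): points of `ℙ¹(K)` of bounded twisted height. -/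
  count : Rigid.CountC K
  /-- T7.14.6a (row 1717): folding and Whittaker expansion. -/
  foldWhit : Rigid.FoldWhitC K
  /-- T7.14.6c (row 1720): the integral over the ideles as a smoothed sum over ideals. -/
  ideleSum : Rigid.IdeleSumC K
  /-- T7.14.6b.1 (row 1829): localisation at `S`. -/
  loc : Rigid.LocC K

/-- `T7.RigidC K` from the four open leaves. -/
theorem rigidC_of_state231 (K : Type) [Field K] [NumberField K] (h : RigidState231 K) :
    RigidC K :=
  Rigid.rigidC_of_open62b K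
    ⟨h.count, h.foldWhit, h.ideleSum, h.loc, Fermat.Agent.LT.T7.H550.torusAsmC550 K⟩

/-- **`T7.RigidAll` from the four open leaves, for every number field.** -/
theorem rigidAll_of_state231
    (h : ∀ (K : Type) [Field K] [NumberField K], RigidState231 K) : RigidAll :=
  fun K _ _ => rigidC_of_state231 K (h K)

end Fermat.Agent.LT.T7.H231

end
-- ===== PACK-END LT/T7/H231/RigidState.lean

-- ===== PACK-BEGIN LT/T7/H963/GoodPrime.lean
section


/-!
# Row LT, tower T7, node `SimpleC`, leaf `GoodPrimeC` (helper963, OFF-MAIN): PROVED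

A non-zero ideal of `𝓞 K` is prime to some prime: take a rational prime `p > N(𝔫)` and a prime
`Q` of `𝓞 K` over `p`; if `Q ∣ 𝔫` then `N(𝔫) ∈ 𝔫 ⊆ Q`, so `p ∣ N(𝔫)`.
-/

set_option autoImplicit false

open IsDedekindDomain NumberField

namespace Fermat.Agent.LT.T7.H963

variable (K : Type) [Field K] [NumberField K]

/-- **LEAF `GoodPrimeC`, PROVED.** -/
theorem goodPrimeC : GoodPrimeC K := by
  intro 𝔫 h𝔫
  have hN : Ideal.absNorm 𝔫 ≠ 0 := by
    rw [Ne, Ideal.absNorm_eq_zero_iff]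
    exact h𝔫
  obtain ⟨p, hpN, hp⟩ := Nat.exists_infinite_primes (Ideal.absNorm 𝔫 + 1)
  have hp' : Prime (p : ℤ) := Nat.prime_iff_prime_int.mp hp
  have hp0 : (p : ℤ) ≠ 0 := hp'.ne_zero
  haveI hP0 : (Ideal.span {(p : ℤ)}).IsPrime := (Ideal.span_singleton_prime hp0).2 hp'
  obtain ⟨Q, -, hQprime, hQover⟩ :=
    Ideal.exists_ideal_over_prime_of_isIntegral (S := 𝓞 K) (Ideal.span {(p : ℤ)}) (⊥ : Ideal (𝓞 K))
      (by
        intro x hx
        rw [Ideal.mem_comap, Ideal.mem_bot] at hx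
        have hx0 : x = 0 := by
          have hinj : Function.Injective (algebraMap ℤ (𝓞 K)) :=
            FaithfulSMul.algebraMap_injective ℤ (𝓞 K)
          exact hinj (by rw [hx, map_zero])
        rw [hx0]
        exact Ideal.zero_mem _)
  have hQne : Q ≠ ⊥ := by
    intro h
    have h1 : (p : ℤ) ∈ Q.comap (algebraMap ℤ (𝓞 K)) := by
      rw [hQover]
      exact Ideal.mem_span_singleton_self _
    rw [h, Ideal.mem_comap, Ideal.mem_bot] at h1
    have hinj : Function.Injective (algebraMap ℤ (𝓞 K)) :=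
      FaithfulSMul.algebraMap_injective ℤ (𝓞 K)
    exact hp0 (hinj (by rw [h1, map_zero]))
  refine ⟨⟨Q, hQprime, hQne⟩, ?_⟩
  intro hdvd
  have hle : 𝔫 ≤ Q := Ideal.le_of_dvd hdvd
  have hmem : ((Ideal.absNorm 𝔫 : ℕ) : 𝓞 K) ∈ Q := hle (Ideal.absNorm_mem 𝔫)
  have hmem' : ((Ideal.absNorm 𝔫 : ℕ) : ℤ) ∈ Q.comap (algebraMap ℤ (𝓞 K)) := by
    rw [Ideal.mem_comap]
    have e : algebraMap ℤ (𝓞 K) ((Ideal.absNorm 𝔫 : ℕ) : ℤ) = ((Ideal.absNorm 𝔫 : ℕ) : 𝓞 K) := by
      simp
    rw [e]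
    exact hmem
  rw [hQover, Ideal.mem_span_singleton] at hmem'
  have hdvdN : p ∣ Ideal.absNorm 𝔫 := Int.natCast_dvd_natCast.mp hmem'
  have hle' : p ≤ Ideal.absNorm 𝔫 := Nat.le_of_dvd (Nat.pos_of_ne_zero hN) hdvdN
  omega

end Fermat.Agent.LT.T7.H963

end
-- ===== PACK-END LT/T7/H963/GoodPrime.lean

-- ===== PACK-BEGIN LT/T7/H963/Hirr.lean
section


/-!
# Row LT, tower T7, node `ClassModelC` (helper736 / helper616): the field `hirr` from `SimpleC`
(helper963, OFF-MAIN, ADDITIVE)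

`hirr_of_simpleC`: for ANY model `ι : V →ₗ[ℂ] (GL₂(𝔸_K) → ℂ)` of the class (`ι` injective with
range the class of `IsEigFn 𝔫 r l o · C`) and ANY sets of operators `𝒢`, `ℐ j` on `V` which
contain models of the operators of `Reach` (`cosetOp H` for the systems of the bad elements in
`𝒢`, `cosetOp H` for the Iwahori double coset systems at `o j` in `ℐ j`), a subspace of `V`
stable under `𝒢` and the `ℐ j` is `⊥` or `⊤`: the hypothesis `hirr` of
`H616.exists_gen_twisted_trace_ne_zero616` and of `SU736.IsClassModel`.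
-/

set_option autoImplicit false
set_option linter.unusedSectionVars false
set_option linter.unusedVariables false

open IsDedekindDomain NumberField MeasureTheory AutomorphicForm
open Fermat.Agent.LT.H556.A0

noncomputable section

namespace Fermat.Agent.LT.T7.H963

variable {K : Type} [Field K] [NumberField K]

/-- **`hirr` from `SimpleC`.** -/
theorem hirr_of_simpleC (hS : SimpleC K) (hcx : ∀ w : InfinitePlace K, w.IsComplex)
    {𝔫 : Ideal (𝓞 K)} (h𝔫 : 𝔫 ≠ ⊥) {r : G K} (hr : T5.IsRayGen r) {l : ℕ}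
    {o : ℕ → HeightOneSpectrum (𝓞 K)} (ho : ∀ j < l, (o j).asIdeal ∣ 𝔫) {C : EigData K}
    (hC : C.IsSph0) {V : Type} [AddCommGroup V] [Module ℂ V] (ι : V →ₗ[ℂ] (G K → ℂ))
    (hι : Function.Injective ι) (hcl : ∀ x : V, IsEigFn 𝔫 r l o (ι x) C)
    (𝒢 : Set (Module.End ℂ V)) (ℐ : ℕ → Set (Module.End ℂ V))
    (hG : ∀ (g : G K) (H : Finset (G K)), IsBadAt 𝔫 l o g → IsDblCosetSystem 𝔫 g H →
      ∃ T ∈ 𝒢, ∀ x : V, ι (T x) = cosetOp H (ι x))
    (hI : ∀ (j : ℕ) (h : G K) (H : Finset (G K)), j < l → IsLocalAtFin (o j) h →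
      IsIwDblSystem (o j) h H → ∃ T ∈ ℐ j, ∀ x : V, ι (T x) = cosetOp H (ι x)) :
    ∀ W : Submodule ℂ V, (∀ g ∈ 𝒢, W ≤ W.comap g) →
      (∀ j < l, ∀ h ∈ ℐ j, W ≤ W.comap h) → W = ⊥ ∨ W = ⊤ := by
  classical
  intro W hWG hWI
  by_cases hbot : W = ⊥
  · exact Or.inl hbot
  right
  obtain ⟨x, hxW, hx0⟩ := (Submodule.ne_bot_iff W).1 hbot
  have hne : ∃ y : G K, ι x y ≠ 0 := by
    by_contra h
    apply hx0
    apply hι
    rw [map_zero]
    funext y
    by_contra hy
    exact h ⟨y, hy⟩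
  have key : ∀ f : G K → ℂ, Reach 𝔫 l o (ι x) f → ∃ w ∈ W, ι w = f := by
    intro f hf
    induction hf with
    | base => exact ⟨x, hxW, rfl⟩
    | add _ _ ih ih' =>
      obtain ⟨w, hw, rfl⟩ := ih
      obtain ⟨w', hw', rfl⟩ := ih'
      exact ⟨w + w', W.add_mem hw hw', by rw [map_add]; rfl⟩
    | smul c _ ih =>
      obtain ⟨w, hw, rfl⟩ := ih
      exact ⟨c • w, W.smul_mem c hw, by rw [map_smul]; rfl⟩
    | bad g H hg hH _ ih =>
      obtain ⟨w, hw, rfl⟩ := ih
      obtain ⟨T, hT, hTι⟩ := hG g H hg hH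
      exact ⟨T w, hWG T hT hw, hTι w⟩
    | iw j h H hj hh hH _ ih =>
      obtain ⟨w, hw, rfl⟩ := ih
      obtain ⟨T, hT, hTι⟩ := hI j h H hj hh hH
      exact ⟨T w, hWI j hj T hT hw, hTι w⟩
  rw [eq_top_iff]
  intro x' _
  obtain ⟨w, hw, hwι⟩ := key (ι x') (hS hcx 𝔫 r l o C h𝔫 hr ho hC (ι x) (ι x') (hcl x) (hcl x') hne)
  have : w = x' := hι hwι
  rw [← this]
  exact hw

end Fermat.Agent.LT.T7.H963

end
end
-- ===== PACK-END LT/T7/H963/Hirr.lean

-- ===== PACK-BEGIN LT/T6/H626/Closed626f.lean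
section



/-!
# Row LT, tower T6, station T6.20 (`ArchMatchC`): INTEGRATION v6 (helper626)

OFF-MAIN.  ONE closure, byte-identical copies.  Added to `Closed626e.lean` (v5):

| Prop | owner | file |
|---|---|---|
| `H634.EllTwC634` (T6.20e.2e) | helper75 | `T6/H75/EllTwClosed.lean` (+ leaves of 967 379 820 771 142 559) |

OPEN (hypothesis of `archMatchC_open626f`): `H634.EllRealC634` (T6.20e.2d) ONLY.
-/

set_option autoImplicit false

noncomputable section

namespace Fermat.Agent.LT.T6.H626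

open Fermat.Agent.LT.T6

/-- **T6.20 from the ONE leaf still open (v6).** -/
theorem archMatchC_open626f (hR : H634.EllRealC634) : ArchMatchC :=
  archMatchC_open626e hR H75.ellTwC634_75

end Fermat.Agent.LT.T6.H626

end

end
-- ===== PACK-END LT/T6/H626/Closed626f.lean

-- ===== PACK-BEGIN LT/T7/H893/SupplyClosed.lean
section





/-!
# Row LT, tower T7, node T7.L2.1 `SupplySC` (sub-architect helper893): INTEGRATION v1

OFF-MAIN.  No `sorry`, nothing assumed.  ADDITIVE.

CLOSED leaves (vendored byte-identical, in ONE closure with the four cuts):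

* `ProjC K`, `ProjC K'` : helper40, `LT/T7/H40/ProjClosed.lean`, `projC893_closed40`;
* `KillUpC`, `KillDownC`, `ClassDownC`, `CommDownC` : helper277, `LT/T7/H277/FamSmall.lean`.

OPEN (the structure `OpenSupply893`): `SetupC`, `GlobC Mt`, `ConstrC P Mt`, `RegSuppC K'`,
`RegSupp0C K`, `EkProdUpOpC`, `EkProdDownOpC`, `OpUpC`, `OpDownC`.

    supplySC_of_open893 : OpenSupply893 P K K' Mt → T7.SupplySC P K K'
-/

set_option autoImplicit false

open AutomorphicForm IsDedekindDomain NumberField MeasureTheory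
open scoped ComplexConjugate

noncomputable section

namespace Fermat.Agent.LT.T7.H893

open Fermat.Agent.LT.H556 Fermat.Agent.LT.H556.A0 Fermat.Agent.LT.T7

attribute [local instance] Fermat.Agent.LT.T5.instMeasurableSpaceG

section Closed

variable (P : EKCond)
variable (K K' : Type) [Field K] [NumberField K] [Field K'] [NumberField K'] [Algebra K K']
variable (Mt : MtRel K K')

/-- **THE OPEN WALL of `SupplySC`** (integration v1). -/
structure OpenSupply893 : Prop where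
  setup : SetupC K K'
  glob : GlobC K K' Mt
  constr : ConstrC P K K' Mt
  regSupp : RegSuppC K'
  regSupp0 : RegSupp0C K
  ekUp : EkProdUpOpC K K'
  ekDown : EkProdDownOpC K K'
  opUp : OpUpC K K'
  opDown : OpDownC K K'

variable {P K K' Mt}

/-- **THE STABLE SUPPLY from the open wall** (the closed leaves are discharged). -/
theorem supplySC_of_open893 (h : OpenSupply893 P K K' Mt) : SupplySC P K K' :=
  supplySC_of_constr893 h.setup (Fermat.Agent.LT.T7.H40.projC893_closed40 K')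
    (Fermat.Agent.LT.T7.H40.projC893_closed40 K) h.glob h.constr h.regSupp h.regSupp0
    h.ekUp h.ekDown h.opUp (Fermat.Agent.LT.T7.H277.killUpC277 K K') h.opDown
    (Fermat.Agent.LT.T7.H277.classDownC277 K K') (Fermat.Agent.LT.T7.H277.commDownC277 K K')
    (Fermat.Agent.LT.T7.H277.killDownC277 K K')

end Closed

end Fermat.Agent.LT.T7.H893

end

end
-- ===== PACK-END LT/T7/H893/SupplyClosed.lean

-- ===== PACK-BEGIN LT/T3/H681/SatakeConv.lean
section


/-!
# Row LT, tower T3, asset (helper681), OFF-MAIN -- part 7: bridge B2 (split place)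

Bridge B2 of hint #18148 (helper797): the T3 pair relation of a CONVOLUTION.  `φ, ψ`
bi-`GL₂(𝒪_v)`-invariant with finite systems of representatives and eigen relations for `A₁, A₂`,
`χ = φ * ψ` in the sense of `T6.IsConv (InU 0)`, `A` finitely supported with
`laurent A = laurent A₁ · laurent A₂` on `(ℂˣ)²` (e.g. `A = convCoef681 A₁ A₂`):

    conv_pair681 : IsSatakePair v χ A.

Abstract part (any valued field): `conv_eq_sum681` (the convolution is the sum over ANY system of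
representatives of `φ`), `conv_rinv681`, `conv_linv681`, `conv_rep681`, `conv_acts681` (Fubini).
-/

set_option autoImplicit false
set_option linter.unusedSectionVars false

open scoped Classical

open IsDedekindDomain NumberField MeasureTheory

noncomputable section

namespace Fermat.Agent.LT.T3.H681

open Fermat.Agent.LT.T6 Fermat.Agent.LT.T6.H305 Fermat.Agent.LT.T3.AS Fermat.Agent.LT.T3.H263

section Abstract

variable {k : Type} [Field k] [Valued k Γ₀]

/-- Every finite set of cosets has a system of pairwise inequivalent representatives. -/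
theorem exists_ineq_cover681 (P : Finset (GL (Fin 2) k)) :
    ∃ R : Finset (GL (Fin 2) k), IsIneq263 R ∧
      ∀ g : GL (Fin 2) k, (∃ p ∈ P, InK (p⁻¹ * g)) → ∃ h ∈ R, InK (h⁻¹ * g) := by
  induction P using Finset.induction_on with
  | empty =>
    refine ⟨∅, ?_, ?_⟩
    · intro h hh
      simp at hh
    · rintro g ⟨p, hp, _⟩
      simp at hp
  | insert a s _ ih =>
    obtain ⟨R₀, hR₀, hcov₀⟩ := ih
    have hsing : IsIneq263 ({a} : Finset (GL (Fin 2) k)) := by
      intro h hh h' hh' _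
      rw [Finset.mem_singleton] at hh hh'
      rw [hh, hh']
    obtain ⟨R, hR, hcov⟩ := exists_rep_merge263 R₀ {a} hR₀ hsing
    refine ⟨R, hR, ?_⟩
    rintro g ⟨p, hp, hK⟩
    rw [Finset.mem_insert] at hp
    rcases hp with rfl | hp
    · exact hcov g (Or.inr ⟨p, Finset.mem_singleton_self p, hK⟩)
    · exact hcov g (Or.inl (hcov₀ g ⟨p, hp, hK⟩))

/-- The integrand of the convolution. -/
def convInt681 (φ ψ : GL (Fin 2) k → ℂ) (g h : GL (Fin 2) k) : ℂ := φ h * ψ (h⁻¹ * g)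

theorem convInt_rinv681 {φ ψ : GL (Fin 2) k → ℂ} (hφ : IsRInv263 φ) (hψ : IsLInv263 ψ)
    (g : GL (Fin 2) k) : IsRInv263 (convInt681 φ ψ g) := by
  intro u h hu
  unfold convInt681
  rw [hφ u h hu]
  have e : (h * u)⁻¹ * g = u⁻¹ * (h⁻¹ * g) := by group
  rw [e, hψ u⁻¹ _ (inK_inv hu)]

theorem sum_filter_ne681 (R : Finset (GL (Fin 2) k)) (F : GL (Fin 2) k → ℂ) :
    ∑ h ∈ R, F h = ∑ h ∈ R.filter (fun h => F h ≠ 0), F h :=
  (Finset.sum_filter_of_ne (fun _ _ hne => hne)).symm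

/-- The sum of a right invariant function over two systems of representatives covering its
support. -/
theorem sum_sys_eq681 {F : GL (Fin 2) k → ℂ} (hF : IsRInv263 F) {R R' : Finset (GL (Fin 2) k)}
    (hR : IsRep263 F R) (hR' : IsRep263 F R') : ∑ h ∈ R, F h = ∑ h ∈ R', F h := by
  have h1 : IsRInv263 (fun _ : GL (Fin 2) k => (1 : ℂ)) := fun _ _ _ => rfl
  have := sum_rep_eq263 hF h1 hR hR' 1
  simpa using this

/-- The convolution is the sum over any system of representatives of `φ`. -/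
theorem conv_eq_sum681 {φ ψ χ : GL (Fin 2) k → ℂ} (hφ : IsRInv263 φ) (hψ : IsLInv263 ψ)
    (hconv : IsConv (InU 0) φ ψ χ) (R : Finset (GL (Fin 2) k)) (hR : IsRep263 φ R)
    (g : GL (Fin 2) k) : χ g = ∑ h ∈ R, convInt681 φ ψ g h := by
  obtain ⟨R₀, h1, h2, h3⟩ := hconv g
  rw [h3]
  have hR₀ : IsRep263 (convInt681 φ ψ g) R₀ := by
    refine ⟨?_, ?_⟩
    · intro h hh h' hh' hK
      refine h1 h hh h' hh' ⟨h⁻¹ * h', (inU_zero_iff _).2 hK, ?_⟩
      group
    · intro h hne
      obtain ⟨h', hh', u, hu, e⟩ := h2 h hne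
      refine ⟨h', hh', ?_⟩
      have : h'⁻¹ * h = u := by
        rw [e]
        group
      rw [this]
      exact (inU_zero_iff _).1 hu
  have hR' : IsRep263 (convInt681 φ ψ g) R :=
    ⟨hR.1, fun h hne => hR.2 h (left_ne_zero_of_mul hne)⟩
  exact sum_sys_eq681 (convInt_rinv681 hφ hψ g) hR₀ hR'

theorem conv_rinv681 {φ ψ χ : GL (Fin 2) k → ℂ} (hφ : IsRInv263 φ) (hψl : IsLInv263 ψ)
    (hψr : IsRInv263 ψ) (hconv : IsConv (InU 0) φ ψ χ) (R : Finset (GL (Fin 2) k))
    (hR : IsRep263 φ R) : IsRInv263 χ := by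
  intro u g hu
  rw [conv_eq_sum681 hφ hψl hconv R hR, conv_eq_sum681 hφ hψl hconv R hR]
  refine Finset.sum_congr rfl (fun h _ => ?_)
  unfold convInt681
  rw [← mul_assoc, hψr u _ hu]

/-- Left translation of a system of representatives of `φ` (left invariant). -/
theorem rep_left681 {φ : GL (Fin 2) k → ℂ} (hφl : IsLInv263 φ) (R : Finset (GL (Fin 2) k))
    (hR : IsRep263 φ R) (κ : GL (Fin 2) k) (hκ : InK κ) :
    IsRep263 φ (R.image (fun h => κ * h)) := by
  refine ⟨?_, ?_⟩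
  · intro h hh h' hh' hK
    obtain ⟨a, ha, rfl⟩ := Finset.mem_image.1 hh
    obtain ⟨a', ha', rfl⟩ := Finset.mem_image.1 hh'
    have e : (κ * a)⁻¹ * (κ * a') = a⁻¹ * a' := by group
    rw [e] at hK
    rw [hR.1 a ha a' ha' hK]
  · intro g hg
    have hg' : φ (κ⁻¹ * g) ≠ 0 := by
      rw [hφl κ⁻¹ g (inK_inv hκ)]
      exact hg
    obtain ⟨a, ha, hK⟩ := hR.2 _ hg'
    refine ⟨κ * a, Finset.mem_image.2 ⟨a, ha, rfl⟩, ?_⟩
    have e : (κ * a)⁻¹ * g = a⁻¹ * (κ⁻¹ * g) := by group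
    rw [e]
    exact hK

theorem conv_linv681 {φ ψ χ : GL (Fin 2) k → ℂ} (hφl : IsLInv263 φ) (hφ : IsRInv263 φ)
    (hψl : IsLInv263 ψ) (hconv : IsConv (InU 0) φ ψ χ) (R : Finset (GL (Fin 2) k))
    (hR : IsRep263 φ R) : IsLInv263 χ := by
  intro κ g hκ
  rw [conv_eq_sum681 hφ hψl hconv _ (rep_left681 hφl R hR κ hκ) (κ * g),
    conv_eq_sum681 hφ hψl hconv R hR g, Finset.sum_image]
  · refine Finset.sum_congr rfl (fun h _ => ?_)
    unfold convInt681
    rw [hφl κ h hκ]
    congr 2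
    group
  · intro a _ a' _ h
    exact mul_left_cancel h

/-- A system of representatives covering the products `h g'`, `h ∈ R₁`, `g' ∈ R₂`. -/
theorem exists_prod_sys681 (R₁ R₂ : Finset (GL (Fin 2) k)) :
    ∃ R : Finset (GL (Fin 2) k), IsIneq263 R ∧
      ∀ h ∈ R₁, ∀ g' ∈ R₂, ∀ g : GL (Fin 2) k, InK ((h * g')⁻¹ * g) → ∃ a ∈ R, InK (a⁻¹ * g) := by
  obtain ⟨R, hR, hcov⟩ := exists_ineq_cover681 (Finset.image₂ (fun h g' => h * g') R₁ R₂)
  refine ⟨R, hR, fun h hh g' hg' g hK => hcov g ⟨h * g', ?_, hK⟩⟩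
  exact Finset.mem_image₂.2 ⟨h, hh, g', hg', rfl⟩

theorem conv_rep_of_prod681 {φ ψ χ : GL (Fin 2) k → ℂ} (hφ : IsRInv263 φ) (hψl : IsLInv263 ψ)
    (hconv : IsConv (InU 0) φ ψ χ) (R₁ R₂ R : Finset (GL (Fin 2) k)) (hR₁ : IsRep263 φ R₁)
    (hR₂ : IsRep263 ψ R₂) (hR : IsIneq263 R)
    (hcov : ∀ h ∈ R₁, ∀ g' ∈ R₂, ∀ g : GL (Fin 2) k, InK ((h * g')⁻¹ * g) →
      ∃ a ∈ R, InK (a⁻¹ * g)) : IsRep263 χ R := by
  refine ⟨hR, fun g hg => ?_⟩
  rw [conv_eq_sum681 hφ hψl hconv R₁ hR₁ g] at hg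
  obtain ⟨h, hh, hne⟩ := Finset.exists_ne_zero_of_sum_ne_zero hg
  have hne' : ψ (h⁻¹ * g) ≠ 0 := right_ne_zero_of_mul hne
  obtain ⟨g', hg', hK⟩ := hR₂.2 _ hne'
  refine hcov h hh g' hg' g ?_
  have e : (h * g')⁻¹ * g = g'⁻¹ * (h⁻¹ * g) := by group
  rw [e]
  exact hK

/-- **Fubini.**  The convolution acts by the product of the scalars. -/
theorem conv_acts681 {φ ψ χ Φ : GL (Fin 2) k → ℂ} (hφ : IsRInv263 φ) (hψl : IsLInv263 ψ)
    (hψr : IsRInv263 ψ) (hΦ : IsRInv263 Φ) (hconv : IsConv (InU 0) φ ψ χ)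
    (R₁ R₂ R : Finset (GL (Fin 2) k)) (hR₁ : IsRep263 φ R₁) (hR₂ : IsRep263 ψ R₂)
    (hR : IsIneq263 R)
    (hcov : ∀ h ∈ R₁, ∀ g' ∈ R₂, ∀ g : GL (Fin 2) k, InK ((h * g')⁻¹ * g) →
      ∃ a ∈ R, InK (a⁻¹ * g))
    (c₁ c₂ : ℂ) (y : GL (Fin 2) k)
    (E₁ : ∑ h ∈ R₁, φ h * Φ (y * h) = c₁ * Φ y)
    (E₂ : ∀ y' : GL (Fin 2) k, ∑ g' ∈ R₂, ψ g' * Φ (y' * g') = c₂ * Φ y') :
    ∑ g ∈ R, χ g * Φ (y * g) = c₁ * c₂ * Φ y := by
  have inner : ∀ h ∈ R₁, ∑ g ∈ R, ψ (h⁻¹ * g) * Φ (y * g) = c₂ * Φ (y * h) := by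
    intro h hh
    have hΨ : IsRInv263 (fun g => ψ (h⁻¹ * g) * Φ (y * g)) := by
      intro u g hu
      show ψ (h⁻¹ * (g * u)) * Φ (y * (g * u)) = ψ (h⁻¹ * g) * Φ (y * g)
      rw [← mul_assoc, hψr u _ hu, ← mul_assoc, hΦ u _ hu]
    rw [← E₂ (y * h), sum_filter_ne681 R, sum_filter_ne681 R₂]
    have key := sum_eq_of_systems
      (R.filter (fun g => ψ (h⁻¹ * g) * Φ (y * g) ≠ 0))
      (R₂.filter (fun g' => ψ g' * Φ (y * h * g') ≠ 0))
      id (fun g' => h * g') (fun g => ψ (h⁻¹ * g) * Φ (y * g)) hΨ ?_ ?_ ?_ ?_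
    · rw [show (∑ g ∈ R.filter (fun g => ψ (h⁻¹ * g) * Φ (y * g) ≠ 0),
          ψ (h⁻¹ * g) * Φ (y * g))
        = ∑ a ∈ R.filter (fun g => ψ (h⁻¹ * g) * Φ (y * g) ≠ 0),
          (fun g => ψ (h⁻¹ * g) * Φ (y * g)) (id a) from rfl, key]
      refine Finset.sum_congr rfl (fun g' _ => ?_)
      show ψ (h⁻¹ * (h * g')) * Φ (y * (h * g')) = ψ g' * Φ (y * h * g')
      rw [inv_mul_cancel_left, mul_assoc]
    · intro a ha
      rw [Finset.mem_filter] at ha
      have hne : ψ (h⁻¹ * a) ≠ 0 := left_ne_zero_of_mul ha.2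
      obtain ⟨b, hb, hK⟩ := hR₂.2 _ hne
      have hK' : InK ((h * b)⁻¹ * id a) := by
        have e : (h * b)⁻¹ * id a = b⁻¹ * (h⁻¹ * a) := by
          show (h * b)⁻¹ * a = b⁻¹ * (h⁻¹ * a)
          group
        rw [e]
        exact hK
      refine ⟨b, Finset.mem_filter.2 ⟨hb, ?_⟩, hK'⟩
      have e1 : ψ (h⁻¹ * a) * Φ (y * a) = ψ (h⁻¹ * (h * b)) * Φ (y * (h * b)) :=
        rinv_of_coset263 hΨ hK'
      have e2 : ψ (h⁻¹ * (h * b)) * Φ (y * (h * b)) = ψ b * Φ (y * h * b) := by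
        rw [inv_mul_cancel_left, mul_assoc]
      rw [← e2, ← e1]
      exact ha.2
    · intro b hb
      rw [Finset.mem_filter] at hb
      obtain ⟨a, ha, hK⟩ := hcov h hh b hb.1 (h * b) (by
        rw [inv_mul_cancel]
        exact inK_one)
      have hK' : InK ((h * b)⁻¹ * a) := inK_symm263 hK
      refine ⟨a, Finset.mem_filter.2 ⟨ha, ?_⟩, hK⟩
      have e1 : ψ (h⁻¹ * a) * Φ (y * a) = ψ (h⁻¹ * (h * b)) * Φ (y * (h * b)) :=
        rinv_of_coset263 hΨ hK'
      have e2 : ψ (h⁻¹ * (h * b)) * Φ (y * (h * b)) = ψ b * Φ (y * h * b) := by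
        rw [inv_mul_cancel_left, mul_assoc]
      show ψ (h⁻¹ * a) * Φ (y * a) ≠ 0
      rw [e1, e2]
      exact hb.2
    · intro a ha a' ha' hK
      exact hR a (Finset.mem_filter.1 ha).1 a' (Finset.mem_filter.1 ha').1 hK
    · intro b hb b' hb' hK
      have e : (h * b)⁻¹ * (h * b') = b⁻¹ * b' := by group
      rw [e] at hK
      exact hR₂.1 b (Finset.mem_filter.1 hb).1 b' (Finset.mem_filter.1 hb').1 hK
  have step : ∀ g ∈ R, χ g * Φ (y * g) = ∑ h ∈ R₁, φ h * (ψ (h⁻¹ * g) * Φ (y * g)) := by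
    intro g _
    rw [conv_eq_sum681 hφ hψl hconv R₁ hR₁ g, Finset.sum_mul]
    refine Finset.sum_congr rfl (fun h _ => ?_)
    unfold convInt681
    ring
  rw [Finset.sum_congr rfl step, Finset.sum_comm]
  have step2 : ∀ h ∈ R₁, ∑ g ∈ R, φ h * (ψ (h⁻¹ * g) * Φ (y * g)) = c₂ * (φ h * Φ (y * h)) := by
    intro h hh
    rw [← Finset.mul_sum, inner h hh]
    ring
  rw [Finset.sum_congr rfl step2, ← Finset.mul_sum, E₁]
  ring

end Abstract

section Pair

variable {K : Type} [Field K] [NumberField K] (v : HeightOneSpectrum (𝓞 K))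

theorem linv_of_biInt681 {f : GL (Fin 2) (v.adicCompletion K) → ℂ} (h : IsBiIntInv v f) :
    IsLInv263 f := by
  intro u g hu
  have := h u 1 g ((isIntGL_iff263 v u).2 hu) ((isIntGL_iff263 v 1).2 inK_one)
  rwa [mul_one] at this

theorem rinv_of_biInt681 {f : GL (Fin 2) (v.adicCompletion K) → ℂ} (h : IsBiIntInv v f) :
    IsRInv263 f := by
  intro u g hu
  have := h 1 u g ((isIntGL_iff263 v 1).2 inK_one) ((isIntGL_iff263 v u).2 hu)
  rwa [one_mul] at this

theorem biInt_of_inv681 {f : GL (Fin 2) (v.adicCompletion K) → ℂ} (hl : IsLInv263 f)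
    (hr : IsRInv263 f) : IsBiIntInv v f := by
  intro κ κ' g hκ hκ'
  rw [hr κ' _ ((isIntGL_iff263 v κ').1 hκ'), hl κ g ((isIntGL_iff263 v κ).1 hκ)]

/-- **Bridge B2 (convolution).** -/
theorem conv_pair681 (φ ψ χ : GL (Fin 2) (v.adicCompletion K) → ℂ) (A₁ A₂ A : ℤ × ℤ → ℂ)
    (hA : (Function.support A).Finite)
    (hφ : IsBiIntInv v φ) (hφrep : ∃ R, IsRepSys v φ R) (hφe : HasSatakeEigen v φ A₁)
    (hψ : IsBiIntInv v ψ) (hψrep : ∃ R, IsRepSys v ψ R) (hψe : HasSatakeEigen v ψ A₂)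
    (hconv : IsConv (InU 0) φ ψ χ)
    (hL : ∀ z₁ z₂ : ℂ, z₁ ≠ 0 → z₂ ≠ 0 →
      laurent A z₁ z₂ = laurent A₁ z₁ z₂ * laurent A₂ z₁ z₂) :
    IsSatakePair v χ A := by
  obtain ⟨R₁, hR₁'⟩ := hφrep
  obtain ⟨R₂, hR₂'⟩ := hψrep
  have hR₁ := (isRepSys_iff263 v φ R₁).1 hR₁'
  have hR₂ := (isRepSys_iff263 v ψ R₂).1 hR₂'
  have hφl := linv_of_biInt681 v hφ
  have hφr := rinv_of_biInt681 v hφ
  have hψl := linv_of_biInt681 v hψ
  have hψr := rinv_of_biInt681 v hψ
  obtain ⟨R, hR, hcov⟩ := exists_prod_sys681 R₁ R₂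
  have hχrep : IsRep263 χ R := conv_rep_of_prod681 hφr hψl hconv R₁ R₂ R hR₁ hR₂ hR hcov
  have hχr : IsRInv263 χ := conv_rinv681 hφr hψl hψr hconv R₁ hR₁
  have hχl : IsLInv263 χ := conv_linv681 hφl hφr hψl hconv R₁ hR₁
  refine satakeInj681 v χ A hA (biInt_of_inv681 v hχl hχr)
    ⟨R, (isRepSys_iff263 v χ R).2 hχrep⟩ ?_
  intro Φ₀ a b z₁ z₂ hΦ hz₁ hz₂ hb R' hR' y
  have hz₁0 : z₁ ≠ 0 := by
    intro h
    apply hb
    rw [← hz₂, h, zero_mul]
  have hz₂0 : z₂ ≠ 0 := by
    intro h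
    apply hb
    rw [← hz₂, h, mul_zero]
  have hΦr : IsRInv263 Φ₀ := fun u g hu => hΦ.right_inv u g ((isIntGL_iff263 v u).2 hu)
  rw [sum_rep_eq263 hχr hΦr ((isRepSys_iff263 v χ R').1 hR') hχrep y,
    conv_acts681 hφr hψl hψr hΦr hconv R₁ R₂ R hR₁ hR₂ hR hcov (laurent A₁ z₁ z₂)
      (laurent A₂ z₁ z₂) y (hφe Φ₀ a b z₁ z₂ hΦ hz₁ hz₂ hb R₁ hR₁' y)
      (fun y' => hψe Φ₀ a b z₁ z₂ hΦ hz₁ hz₂ hb R₂ hR₂' y'),
    hL z₁ z₂ hz₁0 hz₂0]

end Pair

end Fermat.Agent.LT.T3.H681

end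

end
-- ===== PACK-END LT/T3/H681/SatakeConv.lean

-- ===== PACK-BEGIN LT/T7/H528/SphCount.lean
section




/-!
# Row LT, tower T7: ASSET for the step `T_w` of the first pair (`B981.StepTC981`), part 1: the count

OFF-MAIN (helper528).  LOCAL, one valued field.  The Hecke operator `T = 1_{K diag(ϖ,1) K}` on the
spherical functions in the Cartan form `H893.IsSphFn893`:

* `cartan_count528`: for `x` of Cartan type `(a, b)` and the `q + 1` cosets `h K` of
  `K diag(ϖ,1) K`, the element `x c⁻¹ h` (`c` a scalar uniformiser) has the type `(a, b - 1)`,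
  except for exactly one coset if `a > b`, where the type is `(a - 1, b)`.
* `isSphFn_hecke528`: `x ↦ ∑_{h ∈ H} φ (x c⁻¹ h)` is spherical with the values `tA528 q A`.
* `satT_tA528`: the Satake transform of `tA528 q A` is `√q (x + y)` times the one of `A`.

New names only, suffix `528`, namespace `Fermat.Agent.LT.T7.H528S`.  On the closed toolkit of
helper305 (`T6/H305/{Basic,Digits,Mat,Hnf,Sys}.lean`, master bytes).
-/

set_option autoImplicit false
set_option linter.unusedSectionVars false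
set_option linter.unusedSimpArgs false
set_option linter.unnecessarySeqFocus false
set_option linter.deprecated false

open scoped Matrix
open scoped Classical

noncomputable section

namespace Fermat.Agent.LT.T7.H528S

open Fermat.Agent.LT.T6 Fermat.Agent.LT.T6.H305 Fermat.Agent.LT.T7.H893

variable {k : Type} [Field k] [Valued k Γ₀]

/-! ## 1. Valuations of the entries -/

theorem val_det_le_sq528 (g : GL (Fin 2) k) :
    Valued.v (g : Matrix (Fin 2) (Fin 2) k).det ≤ entryMax g * entryMax g := by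
  rw [Matrix.det_fin_two]
  refine Valuation.map_sub_le _ ?_ ?_
  · rw [map_mul]; exact mul_le_mul' (le_entryMax g 0 0) (le_entryMax g 1 1)
  · rw [map_mul]; exact mul_le_mul' (le_entryMax g 0 1) (le_entryMax g 1 0)

theorem cartan_dominant528 (g : GL (Fin 2) k) : (cartan g).2 ≤ (cartan g).1 := by
  have h := val_det_le_sq528 g
  have h1 := entryMax_ne_zero g
  have h2 := val_det_ne_zero g
  rw [← WithZero.log_le_log h2 (mul_ne_zero h1 h1), WithZero.log_mul h1 h1] at h
  unfold cartan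
  simp only
  omega

/-- The Cartan invariant from the two valuations. -/
theorem cartan_eq_of528 (g : GL (Fin 2) k) (e d : ℤ) (he : entryMax g = WithZero.exp e)
    (hd : Valued.v (g : Matrix (Fin 2) (Fin 2) k).det = WithZero.exp d) :
    cartan g = (e - d, -e) := by
  unfold cartan
  rw [he, hd, WithZero.log_exp, WithZero.log_exp]

theorem entryMax_eq_exp528 (g : GL (Fin 2) k) :
    entryMax g = WithZero.exp (-(cartan g).2) := by
  unfold cartan
  simp only [neg_neg]
  exact (WithZero.exp_log (entryMax_ne_zero g)).symm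

theorem val_det_eq_exp528 (g : GL (Fin 2) k) :
    Valued.v (g : Matrix (Fin 2) (Fin 2) k).det
      = WithZero.exp (-((cartan g).1 + (cartan g).2)) := by
  unfold cartan
  simp only
  rw [show -(WithZero.log (entryMax g)
      - WithZero.log (Valued.v (g : Matrix (Fin 2) (Fin 2) k).det) + -WithZero.log (entryMax g))
      = WithZero.log (Valued.v (g : Matrix (Fin 2) (Fin 2) k).det) by ring]
  exact (WithZero.exp_log (val_det_ne_zero g)).symm

/-! ## 2. The standard representatives, special cosets -/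

theorem entryMax_lt_iff528 (g : GL (Fin 2) k) (c : Γ₀) :
    entryMax g < c ↔ ∀ i j, Valued.v ((g : Matrix (Fin 2) (Fin 2) k) i j) < c := by
  unfold entryMax
  rw [Finset.sup'_lt_iff]
  constructor
  · intro h i j; exact h (i, j) (Finset.mem_univ _)
  · intro h p _; exact h p.1 p.2

/-- `h` is an integral matrix with determinant of valuation `exp (-1)`. -/
def IsT528 (h : GL (Fin 2) k) : Prop :=
  (∀ i j, Valued.v ((h : Matrix (Fin 2) (Fin 2) k) i j) ≤ 1) ∧
    Valued.v (h : Matrix (Fin 2) (Fin 2) k).det = WithZero.exp (-1 : ℤ)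

theorem entryMax_mul_le528 (x h : GL (Fin 2) k)
    (hh : ∀ i j, Valued.v ((h : Matrix (Fin 2) (Fin 2) k) i j) ≤ 1) :
    entryMax (x * h) ≤ entryMax x := by
  rw [entryMax_le_iff]
  intro i j
  rw [Units.val_mul, Matrix.mul_apply]
  refine Valuation.map_sum_le _ (fun l _ => ?_)
  rw [map_mul]
  calc Valued.v ((x : Matrix (Fin 2) (Fin 2) k) i l) * Valued.v ((h : Matrix (Fin 2) (Fin 2) k) l j)
      ≤ entryMax x * 1 := mul_le_mul' (le_entryMax x i l) (hh l j)
    _ = entryMax x := mul_one _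

theorem inv_entry_le528 (h : GL (Fin 2) k) (hh : IsT528 h) (i j : Fin 2) :
    Valued.v (((h⁻¹ : GL (Fin 2) k) : Matrix (Fin 2) (Fin 2) k) i j) ≤ WithZero.exp (1 : ℤ) := by
  have hd : Valued.v ((h : Matrix (Fin 2) (Fin 2) k).det)⁻¹ = WithZero.exp (1 : ℤ) := by
    rw [map_inv₀, hh.2, ← WithZero.exp_neg]; simp
  have key : ∀ a : k, Valued.v a ≤ 1 →
      Valued.v (a / (h : Matrix (Fin 2) (Fin 2) k).det) ≤ WithZero.exp (1 : ℤ) := by
    intro a ha
    rw [div_eq_mul_inv, map_mul, hd]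
    calc Valued.v a * WithZero.exp (1 : ℤ) ≤ 1 * WithZero.exp (1 : ℤ) := mul_le_mul' ha le_rfl
      _ = _ := one_mul _
  rw [inv_val_eq]
  fin_cases i <;> fin_cases j
  · simpa using key _ (hh.1 1 1)
  · simpa [neg_div] using key _ (hh.1 0 1)
  · simpa [neg_div] using key _ (hh.1 1 0)
  · simpa using key _ (hh.1 0 0)

theorem entryMax_le_mul528 (x h : GL (Fin 2) k) (hh : IsT528 h) :
    entryMax x ≤ WithZero.exp (1 : ℤ) * entryMax (x * h) := by
  rw [entryMax_le_iff]
  intro i j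
  have hx : (x : Matrix (Fin 2) (Fin 2) k)
      = ((x * h : GL (Fin 2) k) : Matrix (Fin 2) (Fin 2) k)
        * ((h⁻¹ : GL (Fin 2) k) : Matrix (Fin 2) (Fin 2) k) := by
    rw [← Units.val_mul, mul_inv_cancel_right]
  rw [hx, Matrix.mul_apply]
  refine Valuation.map_sum_le _ (fun l _ => ?_)
  rw [map_mul, mul_comm]
  exact mul_le_mul' (inv_entry_le528 h hh l j) (le_entryMax (x * h) i l)

/-- `h` is SPECIAL for `x`: the product `x h` is divisible by `ϖ` more than `x`. -/
def IsSpec528 (x h : GL (Fin 2) k) : Prop := entryMax (x * h) < entryMax x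

theorem entryMax_of_not_spec528 (x h : GL (Fin 2) k) (hh : IsT528 h) (hs : ¬ IsSpec528 x h) :
    entryMax (x * h) = entryMax x :=
  le_antisymm (entryMax_mul_le528 x h hh.1) (not_lt.1 hs)

theorem entryMax_of_spec528 (x h : GL (Fin 2) k) (hh : IsT528 h) (hs : IsSpec528 x h) :
    entryMax (x * h) = WithZero.exp (-1 : ℤ) * entryMax x := by
  have h1 := entryMax_le_mul528 x h hh
  have hx := entryMax_ne_zero x
  have hxh := entryMax_ne_zero (x * h)
  unfold IsSpec528 at hs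
  rw [← WithZero.exp_log hx, ← WithZero.exp_log hxh] at hs h1 ⊢
  rw [← WithZero.exp_add] at h1 ⊢
  rw [WithZero.exp_lt_exp] at hs
  rw [WithZero.exp_le_exp] at h1
  congr 1
  omega

theorem val_det_mul528 (x h : GL (Fin 2) k) (hh : IsT528 h) :
    Valued.v ((x * h : GL (Fin 2) k) : Matrix (Fin 2) (Fin 2) k).det
      = Valued.v (x : Matrix (Fin 2) (Fin 2) k).det * WithZero.exp (-1 : ℤ) := by
  rw [Units.val_mul, Matrix.det_mul, map_mul, hh.2]

/-- A special coset exists only if `a > b`. -/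
theorem lt_of_spec528 (x h : GL (Fin 2) k) (hh : IsT528 h) (hs : IsSpec528 x h) :
    (cartan x).2 < (cartan x).1 := by
  have h1 := val_det_le_sq528 (x * h)
  rw [val_det_mul528 x h hh, entryMax_of_spec528 x h hh hs, val_det_eq_exp528 x,
    entryMax_eq_exp528 x, ← WithZero.exp_add, ← WithZero.exp_add, ← WithZero.exp_add,
    WithZero.exp_le_exp] at h1
  omega

/-! ## 3. The Cartan invariant of `x h` -/

theorem cartan_mul_of_not_spec528 (x h : GL (Fin 2) k) (hh : IsT528 h) (hs : ¬ IsSpec528 x h) :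
    cartan (x * h) = ((cartan x).1 + 1, (cartan x).2) := by
  rw [cartan_eq_of528 (x * h) (-(cartan x).2) (-((cartan x).1 + (cartan x).2) + -1)
    (by rw [entryMax_of_not_spec528 x h hh hs, entryMax_eq_exp528 x])
    (by rw [val_det_mul528 x h hh, val_det_eq_exp528 x, ← WithZero.exp_add])]
  ext <;> simp <;> ring

theorem cartan_mul_of_spec528 (x h : GL (Fin 2) k) (hh : IsT528 h) (hs : IsSpec528 x h) :
    cartan (x * h) = ((cartan x).1, (cartan x).2 + 1) := by
  rw [cartan_eq_of528 (x * h) (-1 + -(cartan x).2) (-((cartan x).1 + (cartan x).2) + -1)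
    (by rw [entryMax_of_spec528 x h hh hs, entryMax_eq_exp528 x, ← WithZero.exp_add])
    (by rw [val_det_mul528 x h hh, val_det_eq_exp528 x, ← WithZero.exp_add])]
  ext <;> simp <;> ring

/-! ## 4. Counting in the standard system -/

section Count

variable (D : ResData k)

theorem isT_um_one528 (r : k) (hr : Valued.v r ≤ 1) : IsT528 (D.um 1 0 r) := by
  refine ⟨fun i j => ?_, ?_⟩
  · fin_cases i <;> fin_cases j <;> simp [hr, D.hϖ]
    exact (WithZero.exp_le_exp.2 (by norm_num : (-1 : ℤ) ≤ 0))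
  · rw [D.um_val, Matrix.det_fin_two_of]
    simp [D.hϖ]

theorem isT_um_inf528 : IsT528 (D.um 0 1 0) := by
  refine ⟨fun i j => ?_, ?_⟩
  · fin_cases i <;> fin_cases j <;> simp [D.hϖ]
    exact (WithZero.exp_le_exp.2 (by norm_num : (-1 : ℤ) ≤ 0))
  · rw [D.um_val, Matrix.det_fin_two_of]
    simp [D.hϖ]

theorem mul_um_one_apply528 (x : GL (Fin 2) k) (r : k) (i : Fin 2) :
    ((x * D.um 1 0 r : GL (Fin 2) k) : Matrix (Fin 2) (Fin 2) k) i 0
        = D.ϖ * (x : Matrix (Fin 2) (Fin 2) k) i 0 ∧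
      ((x * D.um 1 0 r : GL (Fin 2) k) : Matrix (Fin 2) (Fin 2) k) i 1
        = r * (x : Matrix (Fin 2) (Fin 2) k) i 0 + (x : Matrix (Fin 2) (Fin 2) k) i 1 := by
  rw [Units.val_mul, D.um_val, Matrix.mul_apply, Matrix.mul_apply, Fin.sum_univ_two,
    Fin.sum_univ_two]
  constructor
  · simp; ring
  · simp; ring

theorem mul_um_inf_apply528 (x : GL (Fin 2) k) (i : Fin 2) :
    ((x * D.um 0 1 0 : GL (Fin 2) k) : Matrix (Fin 2) (Fin 2) k) i 0
        = (x : Matrix (Fin 2) (Fin 2) k) i 0 ∧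
      ((x * D.um 0 1 0 : GL (Fin 2) k) : Matrix (Fin 2) (Fin 2) k) i 1
        = D.ϖ * (x : Matrix (Fin 2) (Fin 2) k) i 1 := by
  rw [Units.val_mul, D.um_val, Matrix.mul_apply, Matrix.mul_apply, Fin.sum_univ_two,
    Fin.sum_univ_two]
  constructor
  · simp
  · simp; ring

theorem val_ϖ_mul_lt528 (x : GL (Fin 2) k) (i j : Fin 2) :
    Valued.v (D.ϖ * (x : Matrix (Fin 2) (Fin 2) k) i j) < entryMax x := by
  rw [map_mul, D.hϖ]
  have hx := entryMax_ne_zero x
  have hle := le_entryMax x i j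
  calc WithZero.exp (-1 : ℤ) * Valued.v ((x : Matrix (Fin 2) (Fin 2) k) i j)
      ≤ WithZero.exp (-1 : ℤ) * entryMax x := mul_le_mul' le_rfl hle
    _ < 1 * entryMax x := by
        have h1 : (WithZero.exp (-1 : ℤ) : Γ₀) < 1 := by
          rw [show (1 : Γ₀) = WithZero.exp (0 : ℤ) from rfl, WithZero.exp_lt_exp]; norm_num
        exact mul_lt_mul_of_pos_right h1 (zero_lt_iff.2 hx)
    _ = entryMax x := one_mul _

theorem spec_inf_iff528 (x : GL (Fin 2) k) :
    IsSpec528 x (D.um 0 1 0) ↔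
      Valued.v ((x : Matrix (Fin 2) (Fin 2) k) 0 0) < entryMax x ∧
        Valued.v ((x : Matrix (Fin 2) (Fin 2) k) 1 0) < entryMax x := by
  unfold IsSpec528
  rw [entryMax_lt_iff528]
  constructor
  · intro h
    have h0 := h 0 0
    have h1 := h 1 0
    rw [(mul_um_inf_apply528 D x 0).1] at h0
    rw [(mul_um_inf_apply528 D x 1).1] at h1
    exact ⟨h0, h1⟩
  · rintro ⟨h0, h1⟩ i j
    fin_cases i <;> fin_cases j
    · show Valued.v (((x * D.um 0 1 0 : GL (Fin 2) k) : Matrix (Fin 2) (Fin 2) k) 0 0) < _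
      rw [(mul_um_inf_apply528 D x 0).1]; exact h0
    · show Valued.v (((x * D.um 0 1 0 : GL (Fin 2) k) : Matrix (Fin 2) (Fin 2) k) 0 1) < _
      rw [(mul_um_inf_apply528 D x 0).2]; exact val_ϖ_mul_lt528 D x 0 1
    · show Valued.v (((x * D.um 0 1 0 : GL (Fin 2) k) : Matrix (Fin 2) (Fin 2) k) 1 0) < _
      rw [(mul_um_inf_apply528 D x 1).1]; exact h1
    · show Valued.v (((x * D.um 0 1 0 : GL (Fin 2) k) : Matrix (Fin 2) (Fin 2) k) 1 1) < _
      rw [(mul_um_inf_apply528 D x 1).2]; exact val_ϖ_mul_lt528 D x 1 1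

theorem spec_one_iff528 (x : GL (Fin 2) k) (r : k) :
    IsSpec528 x (D.um 1 0 r) ↔
      Valued.v (r * (x : Matrix (Fin 2) (Fin 2) k) 0 0 + (x : Matrix (Fin 2) (Fin 2) k) 0 1)
          < entryMax x ∧
        Valued.v (r * (x : Matrix (Fin 2) (Fin 2) k) 1 0 + (x : Matrix (Fin 2) (Fin 2) k) 1 1)
          < entryMax x := by
  unfold IsSpec528
  rw [entryMax_lt_iff528]
  constructor
  · intro h
    have h0 := h 0 1
    have h1 := h 1 1
    rw [(mul_um_one_apply528 D x r 0).2] at h0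
    rw [(mul_um_one_apply528 D x r 1).2] at h1
    exact ⟨h0, h1⟩
  · rintro ⟨h0, h1⟩ i j
    fin_cases i <;> fin_cases j
    · show Valued.v (((x * D.um 1 0 r : GL (Fin 2) k) : Matrix (Fin 2) (Fin 2) k) 0 0) < _
      rw [(mul_um_one_apply528 D x r 0).1]; exact val_ϖ_mul_lt528 D x 0 0
    · show Valued.v (((x * D.um 1 0 r : GL (Fin 2) k) : Matrix (Fin 2) (Fin 2) k) 0 1) < _
      rw [(mul_um_one_apply528 D x r 0).2]; exact h0
    · show Valued.v (((x * D.um 1 0 r : GL (Fin 2) k) : Matrix (Fin 2) (Fin 2) k) 1 0) < _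
      rw [(mul_um_one_apply528 D x r 1).1]; exact val_ϖ_mul_lt528 D x 1 0
    · show Valued.v (((x * D.um 1 0 r : GL (Fin 2) k) : Matrix (Fin 2) (Fin 2) k) 1 1) < _
      rw [(mul_um_one_apply528 D x r 1).2]; exact h1

theorem not_all_lt528 (x : GL (Fin 2) k)
    (h : ∀ i j, Valued.v ((x : Matrix (Fin 2) (Fin 2) k) i j) < entryMax x) : False := by
  obtain ⟨i, j, hij⟩ := exists_entryMax x
  have := h i j
  rw [← hij] at this
  exact lt_irrefl _ this

theorem val_mul_lt528 {E : Γ₀} {r a : k} (hr : Valued.v r ≤ 1) (ha : Valued.v a < E) :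
    Valued.v (r * a) < E := by
  rw [map_mul]
  calc Valued.v r * Valued.v a ≤ 1 * Valued.v a := mul_le_mul' hr le_rfl
    _ = Valued.v a := one_mul _
    _ < E := ha

/-- The second column is small if the first column and the combinations are small. -/
theorem col_lt528 {E : Γ₀} {r a b : k} (hr : Valued.v r ≤ 1) (ha : Valued.v a < E)
    (hab : Valued.v (r * a + b) < E) : Valued.v b < E := by
  have : b = (r * a + b) - r * a := by ring
  rw [this]
  exact Valuation.map_sub_lt _ hab (val_mul_lt528 hr ha)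

theorem spec_inf_one_false528 (x : GL (Fin 2) k) (r : k) (hr : Valued.v r ≤ 1)
    (h1 : IsSpec528 x (D.um 0 1 0)) (h2 : IsSpec528 x (D.um 1 0 r)) : False := by
  obtain ⟨hp, ht⟩ := (spec_inf_iff528 D x).1 h1
  obtain ⟨hs, hu⟩ := (spec_one_iff528 D x r).1 h2
  apply not_all_lt528 x
  intro i j
  fin_cases i <;> fin_cases j
  · exact hp
  · exact col_lt528 hr hp hs
  · exact ht
  · exact col_lt528 hr ht hu

theorem spec_one_unique528 (x : GL (Fin 2) k) (r r' : k) (hr : r ∈ D.T) (hr' : r' ∈ D.T)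
    (h1 : IsSpec528 x (D.um 1 0 r)) (h2 : IsSpec528 x (D.um 1 0 r')) : r = r' := by
  by_contra hne
  obtain ⟨hs, hu⟩ := (spec_one_iff528 D x r).1 h1
  obtain ⟨hs', hu'⟩ := (spec_one_iff528 D x r').1 h2
  have hsep := D.sep r hr r' hr' hne
  have key : ∀ a b : k, Valued.v (r * a + b) < entryMax x → Valued.v (r' * a + b) < entryMax x →
      Valued.v a < entryMax x := by
    intro a b h h'
    have e : (r - r') * a = (r * a + b) - (r' * a + b) := by ring
    have := Valuation.map_sub_lt _ h h'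
    rw [← e, map_mul, hsep, one_mul] at this
    exact this
  have hp := key _ _ hs hs'
  have ht := key _ _ hu hu'
  apply not_all_lt528 x
  intro i j
  fin_cases i <;> fin_cases j
  · exact hp
  · exact col_lt528 (D.int r hr) hp hs
  · exact ht
  · exact col_lt528 (D.int r hr) ht hu

/-- The digit which kills the row with a maximal first entry. -/
theorem exists_digit528 {E : Γ₀} (hE : E ≠ 0) (a b c d : k) (ha : Valued.v a = E)
    (hb : Valued.v b ≤ E) (hc : Valued.v c ≤ E)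
    (hdet : Valued.v (a * d - b * c) < E * E) :
    ∃ r ∈ D.T, Valued.v (r * a + b) < E ∧ Valued.v (r * c + d) < E := by
  have ha0 : a ≠ 0 := by
    intro h
    rw [h, map_zero] at ha
    exact hE ha.symm
  have hz : Valued.v (-b / a) ≤ 1 := by
    rw [map_div₀, Valuation.map_neg, ha]
    exact div_le_one_of_le₀ hb zero_le'
  obtain ⟨r, hr, hrz⟩ := D.cov (-b / a) hz
  have hrz' : Valued.v (r - -b / a) < 1 := by
    rw [← Valuation.map_neg]
    have : -(r - -b / a) = -b / a - r := by ring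
    rw [this]
    exact hrz
  have h1 : Valued.v (r * a + b) < E := by
    have e : r * a + b = (r - -b / a) * a := by field_simp; ring
    rw [e, map_mul, ha]
    calc Valued.v (r - -b / a) * E < 1 * E := mul_lt_mul_of_pos_right hrz' (zero_lt_iff.2 hE)
      _ = E := one_mul _
  refine ⟨r, hr, h1, ?_⟩
  have e : a * (r * c + d) = c * (r * a + b) + (a * d - b * c) := by ring
  have h2 : Valued.v (a * (r * c + d)) < E * E := by
    rw [e]
    refine Valuation.map_add_lt _ ?_ hdet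
    rw [map_mul]
    calc Valued.v c * Valued.v (r * a + b) ≤ E * Valued.v (r * a + b) := mul_le_mul' hc le_rfl
      _ < E * E := mul_lt_mul_of_pos_left h1 (zero_lt_iff.2 hE)
  rw [map_mul, ha] at h2
  exact lt_of_mul_lt_mul_left' h2

theorem exists_spec528 (x : GL (Fin 2) k) (hlt : (cartan x).2 < (cartan x).1) :
    IsSpec528 x (D.um 0 1 0) ∨ ∃ r ∈ D.T, IsSpec528 x (D.um 1 0 r) := by
  have hE := entryMax_ne_zero x
  have hdet : Valued.v (x : Matrix (Fin 2) (Fin 2) k).det < entryMax x * entryMax x := by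
    rw [val_det_eq_exp528 x, entryMax_eq_exp528 x, ← WithZero.exp_add, WithZero.exp_lt_exp]
    omega
  rw [Matrix.det_fin_two] at hdet
  by_cases hp : Valued.v ((x : Matrix (Fin 2) (Fin 2) k) 0 0) < entryMax x
  · by_cases ht : Valued.v ((x : Matrix (Fin 2) (Fin 2) k) 1 0) < entryMax x
    · exact Or.inl ((spec_inf_iff528 D x).2 ⟨hp, ht⟩)
    · have ht' : Valued.v ((x : Matrix (Fin 2) (Fin 2) k) 1 0) = entryMax x :=
        le_antisymm (le_entryMax x 1 0) (not_lt.1 ht)
      have hdet' : Valued.v ((x : Matrix (Fin 2) (Fin 2) k) 1 0 * (x : Matrix (Fin 2) (Fin 2) k) 0 1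
          - (x : Matrix (Fin 2) (Fin 2) k) 1 1 * (x : Matrix (Fin 2) (Fin 2) k) 0 0)
          < entryMax x * entryMax x := by
        rw [← Valuation.map_neg]
        have e : -((x : Matrix (Fin 2) (Fin 2) k) 1 0 * (x : Matrix (Fin 2) (Fin 2) k) 0 1
          - (x : Matrix (Fin 2) (Fin 2) k) 1 1 * (x : Matrix (Fin 2) (Fin 2) k) 0 0)
          = (x : Matrix (Fin 2) (Fin 2) k) 0 0 * (x : Matrix (Fin 2) (Fin 2) k) 1 1
            - (x : Matrix (Fin 2) (Fin 2) k) 0 1 * (x : Matrix (Fin 2) (Fin 2) k) 1 0 := by ring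
        rw [e]; exact hdet
      obtain ⟨r, hr, h1, h2⟩ := exists_digit528 D hE _ _ _ _ ht' (le_entryMax x 1 1)
        (le_entryMax x 0 0) hdet'
      exact Or.inr ⟨r, hr, (spec_one_iff528 D x r).2 ⟨h2, h1⟩⟩
  · have hp' : Valued.v ((x : Matrix (Fin 2) (Fin 2) k) 0 0) = entryMax x :=
      le_antisymm (le_entryMax x 0 0) (not_lt.1 hp)
    obtain ⟨r, hr, h1, h2⟩ := exists_digit528 D hE _ _ _ _ hp' (le_entryMax x 0 1)
      (le_entryMax x 1 0) hdet
    exact Or.inr ⟨r, hr, (spec_one_iff528 D x r).2 ⟨h1, h2⟩⟩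

/-- **THE COUNT** in the standard system. -/
theorem sum_cartan_std528 (x : GL (Fin 2) k) (G : ℤ × ℤ → ℂ) :
    ∑ r ∈ D.T, G (cartan (x * D.um 1 0 r)) + G (cartan (x * D.um 0 1 0))
      = if (cartan x).2 < (cartan x).1 then
          (D.T.card : ℂ) * G ((cartan x).1 + 1, (cartan x).2) + G ((cartan x).1, (cartan x).2 + 1)
        else ((D.T.card : ℂ) + 1) * G ((cartan x).1 + 1, (cartan x).2) := by
  have hT : ∀ r ∈ D.T, IsT528 (D.um 1 0 r) := fun r hr => isT_um_one528 D r (D.int r hr)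
  have hI : IsT528 (D.um 0 1 0) := isT_um_inf528 D
  by_cases hlt : (cartan x).2 < (cartan x).1
  · rw [if_pos hlt]
    rcases exists_spec528 D x hlt with hinf | ⟨r₀, hr₀, hs₀⟩
    · rw [cartan_mul_of_spec528 x _ hI hinf]
      have : ∀ r ∈ D.T, G (cartan (x * D.um 1 0 r)) = G ((cartan x).1 + 1, (cartan x).2) := by
        intro r hr
        rw [cartan_mul_of_not_spec528 x _ (hT r hr)
          (fun h => spec_inf_one_false528 D x r (D.int r hr) hinf h)]
      rw [Finset.sum_congr rfl this, Finset.sum_const, nsmul_eq_mul]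
    · have hninf : ¬ IsSpec528 x (D.um 0 1 0) :=
        fun h => spec_inf_one_false528 D x r₀ (D.int r₀ hr₀) h hs₀
      rw [cartan_mul_of_not_spec528 x _ hI hninf, ← Finset.add_sum_erase _ _ hr₀,
        cartan_mul_of_spec528 x _ (hT r₀ hr₀) hs₀]
      have : ∀ r ∈ D.T.erase r₀,
          G (cartan (x * D.um 1 0 r)) = G ((cartan x).1 + 1, (cartan x).2) := by
        intro r hr
        obtain ⟨hne, hrT⟩ := Finset.mem_erase.1 hr
        rw [cartan_mul_of_not_spec528 x _ (hT r hrT)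
          (fun h => hne (spec_one_unique528 D x r r₀ hrT hr₀ h hs₀))]
      rw [Finset.sum_congr rfl this, Finset.sum_const, nsmul_eq_mul,
        Finset.card_erase_of_mem hr₀]
      have hpos : 1 ≤ D.T.card := Finset.card_pos.2 ⟨r₀, hr₀⟩
      rw [Nat.cast_sub hpos]
      push_cast
      ring
  · rw [if_neg hlt]
    have hn : ∀ h : GL (Fin 2) k, IsT528 h → ¬ IsSpec528 x h :=
      fun h hh hs => hlt (lt_of_spec528 x h hh hs)
    rw [cartan_mul_of_not_spec528 x _ hI (hn _ hI)]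
    have : ∀ r ∈ D.T, G (cartan (x * D.um 1 0 r)) = G ((cartan x).1 + 1, (cartan x).2) := by
      intro r hr
      rw [cartan_mul_of_not_spec528 x _ (hT r hr) (hn _ (hT r hr))]
    rw [Finset.sum_congr rfl this, Finset.sum_const, nsmul_eq_mul]
    ring

theorem R_one528 : D.R 1 = D.T := by
  ext r
  rw [show (1 : ℕ) = 0 + 1 from rfl, D.mem_R_succ]
  constructor
  · rintro ⟨r', hr', d, hd, rfl⟩
    rw [D.mem_R_zero.1 hr']
    simpa using hd
  · intro hr
    exact ⟨0, D.mem_R_zero.2 rfl, r, hr, by simp⟩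

/-- The sum over the explicit system of type `(1, 0)`. -/
theorem sum_std528 (F : GL (Fin 2) k → ℂ) :
    ∑ x ∈ D.Idx 1, F (D.fam 0 x) = ∑ r ∈ D.T, F (D.um 1 0 r) + F (D.um 0 1 0) := by
  rw [D.sum_Idx 1 (fun x => F (D.fam 0 x))]
  have hanti : (Finset.HasAntidiagonal.antidiagonal 1 : Finset (ℕ × ℕ)) = {(0, 1), (1, 0)} := by
    decide
  rw [hanti, Finset.sum_pair (by decide)]
  have h0 : (D.R 0).filter (fun r => Prim 0 1 r) = {0} := by
    ext r
    simp only [Finset.mem_filter, Finset.mem_singleton, D.mem_R_zero]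
    constructor
    · exact fun h => h.1
    · exact fun h => ⟨h, Or.inl rfl⟩
  have h1 : (D.R 1).filter (fun r => Prim 1 0 r) = D.T := by
    rw [R_one528 D]
    ext r
    simp only [Finset.mem_filter]
    constructor
    · exact fun h => h.1
    · exact fun h => ⟨h, Or.inr (Or.inl rfl)⟩
  simp only [h0, h1, Finset.sum_singleton]
  simp only [ResData.fam, D.sc_zero, one_mul]
  ring

end Count

end Fermat.Agent.LT.T7.H528S

end

end
-- ===== PACK-END LT/T7/H528/SphCount.lean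

-- ===== PACK-BEGIN LT/T7/H546/SetupQCore.lean
section




/-!
# Row LT, tower T7, leaf T7.L2Q.1.C0: THE COMMON PART over `ℚ`, CORE FORM (helper546)

OFF-MAIN.  No hole, nothing assumed.  Mathlib, the spec of helper962 (`T7/H962/SupplyQSpec.lean`
8375a60b) and the lemmas of helper416 (`LT/T7/H416/Setup.lean`), helper930, helper62 (closed
tower T1); byte-identical copies.

    exists_base546c F hIQ Φ hconst T :
      ∃ B : H962.L2QBase962 F, H962.IsL2QBase962 Φ B
        ∧ (∀ p prime, p ∈ B.S → every place of F over p is in B.S')        -- `H60.IsFullQ60`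
        ∧ (∀ p ∈ B.S, p prime ∧ some place of B.S' is over p)               -- `under_exact`
        ∧ (∀ p ∈ T, p prime → p ∈ B.S)                                      -- prescribed primes

for EVERY finite set `T` of prime numbers which one wants in `S` (the ramified prime `3`, the
primes of a discriminant, ...): the adapters to the leaves of record (`H60.SetupQSC60`, and any
later form with a field for the ramified primes) are one-liners.

Construction.  `σ` = the generator of `Gal(F/ℚ)` (`exists_generator930`), `s = adelicAut930 σ`,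
frames of helper62 on the closed tower T1, `aut` for every level coming from `ℚ`.
`𝔪 = (Φ.level ∩ 𝒪_ℚ) · ∏ (p)`, the product over the prime numbers of the exceptional set of
`ConstOnFibresQ` and of `T`; `w₀` = a prime of `F` over a prime number `p ∤ N(𝔪)` with
`σ w₀ ≠ w₀` (`exists_prime_moved416`); `u = w₀ ∩ 𝒪_ℚ`, `o j = σ^j w₀`, `𝔫₀ = u 𝔪`,
`𝔑₀ = 𝔫₀ 𝒪_F`, `S'` = the prime divisors of `𝔑₀`, `S` = the prime numbers under `S'`.
-/

set_option autoImplicit false
set_option linter.style.haveILetI false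
set_option linter.unusedSectionVars false

open IsDedekindDomain NumberField MeasureTheory AutomorphicForm
open scoped Pointwise

noncomputable section

namespace Fermat.Agent.LT.T7.H546

open Fermat.Agent.LT.H556 Fermat.Agent.LT.H556.A0 Fermat.Agent.LT.T7 Fermat.Agent.LT.T7.L2Q
  Fermat.Agent.LT.T7.H893 Fermat.Agent.LT.T7.H962 Fermat.Agent.LT.T7.H416
open Fermat.Agent.LT.T7.H930 Fermat.Agent.LT.T1.H930

attribute [local instance] Fermat.Agent.LT.T5.instMeasurableSpaceG

/-- An imaginary quadratic field (one infinite place, complex) has degree `2` over `ℚ`. -/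
theorem finrank_of_isImagQuad546c (F : Type) [Field F] [NumberField F] (h : IsImagQuad F) :
    Module.finrank ℚ F = 2 := by
  classical
  haveI : IsTotallyComplex F := ⟨h.2⟩
  have h1 := InfinitePlace.card_eq_nrRealPlaces_add_nrComplexPlaces F
  have h2 : InfinitePlace.nrRealPlaces F = 0 := IsTotallyComplex.nrRealPlaces_eq_zero F
  have h3 : Fintype.card (InfinitePlace F) = 1 := by
    rw [← Nat.card_eq_fintype_card]
    exact h.1
  rw [IsTotallyComplex.finrank]
  omega

/-- An imaginary quadratic field is a cyclic extension of `ℚ` of degree `2`. -/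
theorem isCycExt_of_isImagQuad546c (F : Type) [Field F] [NumberField F] (h : IsImagQuad F) :
    IsCycExt ℚ F 2 := by
  have hd := finrank_of_isImagQuad546c F h
  haveI : Algebra.IsQuadraticExtension ℚ F := { finrank_eq_two' := hd }
  exact ⟨Nat.prime_two, inferInstance, hd⟩

/-- A proper ideal of `𝓞 ℚ` which contains the prime number `p` is the set of the multiples of
`p`. -/
theorem mem_iff_dvd546c {v : Ideal (𝓞 ℚ)} (hv : v ≠ ⊤) {p : ℕ} (hp : p.Prime)
    (hpv : ((p : ℕ) : 𝓞 ℚ) ∈ v) (x : 𝓞 ℚ) :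
    x ∈ v ↔ (p : ℤ) ∣ Rat.ringOfIntegersEquiv x := by
  obtain ⟨n, hn⟩ : ∃ n : ℤ, x = ((n : ℤ) : 𝓞 ℚ) := by
    refine ⟨Rat.ringOfIntegersEquiv x, ?_⟩
    have h := map_intCast Rat.ringOfIntegersEquiv.symm (Rat.ringOfIntegersEquiv x)
    rw [Int.cast_id, RingEquiv.symm_apply_apply] at h
    exact h
  have hen : Rat.ringOfIntegersEquiv x = n := by rw [hn, map_intCast, Int.cast_id]
  rw [hen]
  subst hn
  constructor
  · intro hxv
    by_contra hnd
    have hcop : IsCoprime (p : ℤ) n :=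
      (Nat.prime_iff_prime_int.mp hp).coprime_iff_not_dvd.mpr hnd
    obtain ⟨a, b, hab⟩ := hcop
    apply hv
    rw [Ideal.eq_top_iff_one]
    have h1 : (1 : 𝓞 ℚ) = ((a : ℤ) : 𝓞 ℚ) * ((p : ℕ) : 𝓞 ℚ)
        + ((b : ℤ) : 𝓞 ℚ) * ((n : ℤ) : 𝓞 ℚ) := by
      have := congrArg (Int.cast : ℤ → 𝓞 ℚ) hab
      push_cast at this
      exact this.symm
    rw [h1]
    exact v.add_mem (v.mul_mem_left _ hpv) (v.mul_mem_left _ hxv)
  · rintro ⟨c, rfl⟩
    push_cast
    exact v.mul_mem_right _ hpv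

/-- Two places of `ℚ` which contain the same prime number are equal. -/
theorem place_eq_of_prime_mem546c {v v' : HeightOneSpectrum (𝓞 ℚ)} {p : ℕ} (hp : p.Prime)
    (hpv : ((p : ℕ) : 𝓞 ℚ) ∈ v.asIdeal) (hpv' : ((p : ℕ) : 𝓞 ℚ) ∈ v'.asIdeal) : v = v' := by
  apply HeightOneSpectrum.ext
  ext x
  rw [mem_iff_dvd546c v.isPrime.ne_top hp hpv, mem_iff_dvd546c v'.isPrime.ne_top hp hpv']

/-- There is a place of `F` over every prime number. -/
theorem exists_place_over_prime546c (F : Type) [Field F] [NumberField F] {p : ℕ}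
    (hp : p.Prime) : ∃ w : HeightOneSpectrum (𝓞 F), ((p : ℕ) : 𝓞 F) ∈ w.asIdeal := by
  haveI : (Ideal.span {(p : ℤ)}).IsPrime :=
    (Ideal.span_singleton_prime (by exact_mod_cast hp.ne_zero)).mpr
      (Nat.prime_iff_prime_int.mp hp)
  obtain ⟨Q, -, hQ, hQc⟩ := Ideal.exists_ideal_over_prime_of_isIntegral
    (Ideal.span {(p : ℤ)}) (⊥ : Ideal (𝓞 F)) (by
      rw [← RingHom.ker_eq_comap_bot, (RingHom.injective_iff_ker_eq_bot _).mp
        (FaithfulSMul.algebraMap_injective ℤ (𝓞 F))]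
      exact bot_le)
  have hpQ : ((p : ℕ) : 𝓞 F) ∈ Q := by
    have h1 : (p : ℤ) ∈ Q.comap (algebraMap ℤ (𝓞 F)) := by
      rw [hQc]
      exact Ideal.mem_span_singleton_self _
    rw [Ideal.mem_comap] at h1
    simpa using h1
  refine ⟨⟨Q, hQ, ?_⟩, hpQ⟩
  rintro rfl
  rw [Ideal.mem_bot] at hpQ
  exact hp.ne_zero (by exact_mod_cast hpQ)

section Main

variable (F : Type) [Field F] [NumberField F]

/-- **THE COMMON PART over `ℚ`, core form**: a common part with `S` = exactly the prime numbers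
under `S'`, `S'` = all the places over the prime numbers of `S`, and `S` contains the prime
numbers of a prescribed finite set `T`. -/
theorem exists_base546c (hIQ : IsImagQuad F) (Φ : HeckeEigensystem F ℂ)
    (hconst : ConstOnFibresQ Φ) (T : Finset ℕ) :
    ∃ B : L2QBase962 F, IsL2QBase962 Φ B ∧
      (∀ p : ℕ, p.Prime → p ∈ B.S → ∀ w : HeightOneSpectrum (𝓞 F),
        ((p : ℕ) : 𝓞 F) ∈ w.asIdeal → w ∈ B.S') ∧
      (∀ p ∈ B.S, p.Prime ∧
        ∃ w : HeightOneSpectrum (𝓞 F), w ∈ B.S' ∧ ((p : ℕ) : 𝓞 F) ∈ w.asIdeal) ∧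
      (∀ p ∈ T, p.Prime → p ∈ B.S) := by
  classical
  have h := isCycExt_of_isImagQuad546c F hIQ
  haveI := h.galois
  have hℓ := h.prime
  have hcard : Nat.card (F ≃ₐ[ℚ] F) = 2 := by
    rw [IsGalois.card_aut_eq_finrank, h.degree]
  obtain ⟨σ, hpow, hfix, hfaith⟩ := exists_generator930 ℚ F 2 hℓ h.degree
  obtain ⟨μ, D, r, hF, hr, -⟩ :=
    Fermat.Agent.LT.T5.H62.frame_exists_of_T1Out62 ℚ ⊤ (Fermat.Agent.LT.T1.t1Out ℚ)
  obtain ⟨μ', D', r', hF', hr', -⟩ :=
    Fermat.Agent.LT.T5.H62.frame_exists_of_T1Out62 F ⊤ (Fermat.Agent.LT.T1.t1Out F)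
  have hLC : LocallyCompactSpace (G F) := (Fermat.Agent.LT.T1.t1Out F).locComp.2.1
  have hSC : SecondCountableTopology (G F) := (Fermat.Agent.LT.T1.t1Out F).locComp.2.2.2
  obtain ⟨Sexc, hSexc⟩ := hconst
  -- the auxiliary level
  set 𝔪 : Ideal (𝓞 ℚ) := Ideal.comap (algebraMap (𝓞 ℚ) (𝓞 F)) Φ.level *
    ∏ p ∈ (Sexc ∪ T).filter Nat.Prime, Ideal.span {((p : ℕ) : 𝓞 ℚ)} with h𝔪
  have h𝔪ne : 𝔪 ≠ ⊥ := by
    rw [h𝔪, ← Ideal.zero_eq_bot]
    refine mul_ne_zero (comap_ne_bot416 Φ.level_ne_bot) ?_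
    rw [Finset.prod_ne_zero_iff]
    intro p hp
    rw [Ideal.zero_eq_bot, Ne, Ideal.span_singleton_eq_bot]
    have hp' : p.Prime := (Finset.mem_filter.mp hp).2
    exact_mod_cast hp'.ne_zero
  have hlev𝔪 : Ideal.comap (algebraMap (𝓞 ℚ) (𝓞 F)) Φ.level ∣ 𝔪 := Dvd.intro _ rfl
  have hexc𝔪 : ∀ q ∈ Sexc ∪ T, q.Prime → Ideal.span {((q : ℕ) : 𝓞 ℚ)} ∣ 𝔪 := fun q hq hqp =>
    Dvd.dvd.mul_left (Finset.dvd_prod_of_mem (fun p : ℕ => Ideal.span {((p : ℕ) : 𝓞 ℚ)})
      (Finset.mem_filter.mpr ⟨hq, hqp⟩)) _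
  set M : ℕ := Ideal.absNorm 𝔪 with hM
  have hMne : M ≠ 0 := by rw [hM, Ne, Ideal.absNorm_eq_zero_iff]; exact h𝔪ne
  -- the place `w₀`
  have hσx : ∃ x : F, σ x ≠ x := by
    obtain ⟨x, hx⟩ := hfaith 1 one_pos hℓ.one_lt
    exact ⟨x, by simpa using hx⟩
  obtain ⟨θ, hθ⟩ := exists_moved416 hσx
  obtain ⟨p, w, hp, hpM, hwprime, hpw, hmoved⟩ :=
    exists_prime_moved416 F (oEquiv416 σ) θ hθ M hMne
  have hwne : w ≠ ⊥ := by
    rintro rfl
    rw [Ideal.mem_bot] at hpw
    have : p = 0 := by exact_mod_cast hpw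
    exact hp.ne_zero this
  set w₀ : HeightOneSpectrum (𝓞 F) := ⟨w, hwprime, hwne⟩ with hw₀
  have hmoved' : mapPlace416 σ w₀ ≠ w₀ := by
    intro h1
    apply hmoved
    have := congrArg HeightOneSpectrum.asIdeal h1
    exact this
  set u : HeightOneSpectrum (𝓞 ℚ) := below416 w₀ with hu
  have hpu : (p : 𝓞 ℚ) ∈ u.asIdeal := by
    show (p : 𝓞 ℚ) ∈ Ideal.comap (algebraMap (𝓞 ℚ) (𝓞 F)) w
    rw [Ideal.mem_comap, map_natCast]
    exact hpw
  have hu𝔪 : ¬ u.asIdeal ∣ 𝔪 := by
    intro hdvd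
    have h1 : (M : 𝓞 ℚ) ∈ u.asIdeal := (Ideal.dvd_iff_le.mp hdvd) (Ideal.absNorm_mem 𝔪)
    have h2 := one_mem_of_coprime416 u.asIdeal
      ((Nat.Prime.coprime_iff_not_dvd hp).mpr hpM) hpu h1
    exact u.isPrime.ne_top ((Ideal.eq_top_iff_one _).mpr h2)
  -- the levels
  set 𝔫₀ : Ideal (𝓞 ℚ) := u.asIdeal * 𝔪 with h𝔫₀
  have h𝔫₀ne : 𝔫₀ ≠ ⊥ := by
    rw [h𝔫₀, ← Ideal.zero_eq_bot]
    exact mul_ne_zero u.ne_bot h𝔪ne
  have hu𝔫₀ : u.asIdeal ∣ 𝔫₀ := Dvd.intro _ rfl
  have h𝔪𝔫₀ : 𝔪 ∣ 𝔫₀ := Dvd.intro_left _ rfl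
  have hu2 : ¬ u.asIdeal ^ 2 ∣ 𝔫₀ := by
    intro h1
    rw [h𝔫₀, pow_two] at h1
    exact hu𝔪 ((mul_dvd_mul_iff_left u.ne_bot).mp h1)
  set 𝔑₀ : Ideal (𝓞 F) := upI (K' := F) 𝔫₀ with h𝔑₀
  have h𝔑₀ne : 𝔑₀ ≠ ⊥ := by
    rw [h𝔑₀, upI, Ne, Ideal.map_eq_bot_iff_of_injective
      (FaithfulSMul.algebraMap_injective (𝓞 ℚ) (𝓞 F))]
    exact h𝔫₀ne
  have hfin : {v : HeightOneSpectrum (𝓞 F) | v.asIdeal ∣ 𝔑₀}.Finite :=
    Ideal.finite_factors h𝔑₀ne
  have hmemS : ∀ w' : HeightOneSpectrum (𝓞 F), w' ∈ hfin.toFinset ↔ w'.asIdeal ∣ 𝔑₀ := by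
    intro w'
    rw [Set.Finite.mem_toFinset]
    rfl
  have hmemS' : ∀ w' : HeightOneSpectrum (𝓞 F),
      w' ∈ hfin.toFinset ↔ (below416 (K := ℚ) w').asIdeal ∣ 𝔫₀ := by
    intro w'
    rw [hmemS, h𝔑₀, dvd_upI_iff416]
  -- the prime numbers
  set N₀ : ℕ := Ideal.absNorm 𝔫₀ with hN₀
  have hN₀ne : N₀ ≠ 0 := by rw [hN₀, Ne, Ideal.absNorm_eq_zero_iff]; exact h𝔫₀ne
  set Sset : Finset ℕ := (Finset.range (N₀ + 1)).filter
    (fun q => q.Prime ∧ ∃ w' ∈ hfin.toFinset, ((q : ℕ) : 𝓞 F) ∈ w'.asIdeal) with hSset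
  have hunder : ∀ q : ℕ, q.Prime → ∀ w' : HeightOneSpectrum (𝓞 F),
      ((q : ℕ) : 𝓞 F) ∈ w'.asIdeal → w' ∈ hfin.toFinset → q ∈ Sset := by
    intro q hq w' hqw' hw'
    refine Finset.mem_filter.mpr ⟨?_, hq, w', hw', hqw'⟩
    rw [Finset.mem_range, Nat.lt_succ_iff]
    refine Nat.le_of_dvd (Nat.pos_of_ne_zero hN₀ne) ?_
    by_contra hnd
    have h1 : (below416 (K := ℚ) w').asIdeal ∣ 𝔫₀ := (hmemS' w').mp hw'
    have h2 : ((N₀ : ℕ) : 𝓞 ℚ) ∈ (below416 (K := ℚ) w').asIdeal :=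
      (Ideal.dvd_iff_le.mp h1) (Ideal.absNorm_mem 𝔫₀)
    have h3 : ((N₀ : ℕ) : 𝓞 F) ∈ w'.asIdeal := by
      have h4 : algebraMap (𝓞 ℚ) (𝓞 F) ((N₀ : ℕ) : 𝓞 ℚ) ∈ w'.asIdeal := h2
      rwa [map_natCast] at h4
    have h5 := one_mem_of_coprime416 w'.asIdeal
      ((Nat.Prime.coprime_iff_not_dvd hq).mpr hnd) hqw' h3
    exact w'.isPrime.ne_top ((Ideal.eq_top_iff_one _).mpr h5)
  have hbelow_mem : ∀ (q : ℕ) (w' : HeightOneSpectrum (𝓞 F)), ((q : ℕ) : 𝓞 F) ∈ w'.asIdeal →
      ((q : ℕ) : 𝓞 ℚ) ∈ (below416 (K := ℚ) w').asIdeal := by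
    intro q w' hqw'
    show ((q : ℕ) : 𝓞 ℚ) ∈ Ideal.comap (algebraMap (𝓞 ℚ) (𝓞 F)) w'.asIdeal
    rw [Ideal.mem_comap, map_natCast]
    exact hqw'
  -- the orbit
  have horb_over : ∀ j : ℕ, PlaceOver ℚ F u (mapPlace416 (σ ^ j) w₀) := fun j =>
    placeOver_mapPlace416 _ (placeOver_below416 w₀)
  have horb_below : ∀ j : ℕ, below416 (K := ℚ) (mapPlace416 (σ ^ j) w₀) = u := fun j =>
    below_eq_of_placeOver416 (horb_over j)
  -- a prime number of the exceptional set or of `T` is under `S'`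
  have hmem_of : ∀ q ∈ Sexc ∪ T, q.Prime → q ∈ Sset := by
    intro q hmem hq
    obtain ⟨w', hw'⟩ := exists_place_over_prime546c F hq
    refine hunder q hq w' hw' ?_
    rw [hmemS']
    have h3 : (below416 (K := ℚ) w').asIdeal ∣ Ideal.span {((q : ℕ) : 𝓞 ℚ)} := by
      rw [Ideal.dvd_iff_le, Ideal.span_singleton_le_iff_mem]
      exact hbelow_mem q w' hw'
    exact (h3.trans (hexc𝔪 q hmem hq)).trans h𝔪𝔫₀
  refine ⟨⟨adelicAut930 σ.toRingEquiv, (algebraMap ℚ F).fieldRange, ⟨μ, D, r⟩,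
    ⟨μ', D', r'⟩, 𝔑₀, hfin.toFinset, Sset, u,
    fun j => mapPlace416 (σ ^ j) w₀⟩, ?_, ?_, ?_, ?_⟩
  · refine
      { cyc := ⟨hℓ.pos, ?_, ?_, ?_⟩
        base := ?_
        frame := ⟨hF, hr⟩
        frame' := ⟨hF', hr'⟩
        aut := ?_
        level_le := ?_
        mem_S' := hmemS
        under := hunder
        const := ?_
        orbit_rel := ?_
        orbit_ne := ?_
        orbit_over := horb_over
        orbit_level := ?_
        orbit_good := ?_
        base_level := ⟨𝔫₀, h𝔫₀ne, rfl, hu𝔫₀, hu2⟩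
        orbit_all := ?_
        fibre := ?_ }
    · intro x
      show ((σ.toRingEquiv : RingAut F) ^ 2) x = x
      rw [toRingEquiv_pow930]
      exact hpow x
    · intro x
      show x ∈ (algebraMap ℚ F).fieldRange ↔ σ x = x
      rw [RingHom.mem_fieldRange]
      exact hfix x
    · intro j hj0 hjl
      obtain ⟨x, hx⟩ := hfaith j hj0 hjl
      refine ⟨x, ?_⟩
      show ((σ.toRingEquiv : RingAut F) ^ j) x ≠ x
      rw [toRingEquiv_pow930]
      exact hx
    · intro x
      show x ∈ (algebraMap ℚ F).fieldRange ↔ _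
      exact RingHom.mem_fieldRange
    · intro 𝔫
      exact autPreserves_all930 hLC hSC (adelicAut930 σ.toRingEquiv) (upI (K' := F) 𝔫)
        (map_level_stable930 σ 𝔫) μ' hF'.haar r' hr'
    · -- level_le
      show upI (K' := F) 𝔫₀ ≤ Φ.level
      rw [upI, Ideal.map_le_iff_le_comap]
      exact (Ideal.dvd_iff_le.mp h𝔪𝔫₀).trans (Ideal.dvd_iff_le.mp hlev𝔪)
    · -- const
      intro q hq hqS w₁ w₂ h1 h2
      refine hSexc q hq ?_ w₁ w₂ h1 h2
      intro hmem
      exact hqS (hmem_of q (Finset.mem_union_left _ hmem) hq)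
    · -- orbit_rel
      intro j
      show (mapPlace416 (σ ^ (j + 1)) w₀).asIdeal
        = Ideal.map (RingOfIntegers.mapRingEquiv σ.toRingEquiv) (mapPlace416 (σ ^ j) w₀).asIdeal
      rw [pow_succ', mapPlace_mul416]
      rfl
    · -- orbit_ne
      intro j hj0 hjl
      show mapPlace416 (σ ^ j) w₀ ≠ mapPlace416 (σ ^ 0) w₀
      rw [pow_zero, mapPlace_one416]
      exact mapPlace_pow_ne416 hℓ hcard hmoved' hj0 hjl
    · -- orbit_level
      intro j
      show mapPlace416 (σ ^ j) w₀ ∈ hfin.toFinset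
      rw [hmemS', horb_below j]
      exact hu𝔫₀
    · -- orbit_good
      intro j hdvd
      apply hu𝔪
      have h1 : Ideal.comap (algebraMap (𝓞 ℚ) (𝓞 F)) Φ.level
          ≤ (below416 (K := ℚ) (mapPlace416 (σ ^ j) w₀)).asIdeal :=
        Ideal.comap_mono (Ideal.dvd_iff_le.mp hdvd)
      rw [horb_below j] at h1
      exact (Ideal.dvd_iff_le.mpr h1).trans hlev𝔪
    · -- orbit_all
      intro w' hw'
      obtain ⟨τ, hτ⟩ := exists_mapPlace_eq416 (placeOver_below416 (K := ℚ) w₀) hw'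
      have hσ1 : σ ≠ 1 := by
        rintro rfl
        exact hmoved' (mapPlace_one416 w₀)
      obtain ⟨j, hj, rfl⟩ := exists_pow_eq416 hℓ hcard hσ1 τ
      exact ⟨j, hj, hτ.symm⟩
    · -- fibre
      intro v w₁ w₂ h1 h2 hmem
      rw [hmemS'] at hmem ⊢
      rw [below_eq_of_placeOver416 h2]
      rwa [below_eq_of_placeOver416 h1] at hmem
  · -- full: `S'` contains every place over a prime number of `S`
    intro q hq hqS w₂ h2
    obtain ⟨-, -, w₁, hw₁, h1⟩ := Finset.mem_filter.mp hqS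
    show w₂ ∈ hfin.toFinset
    rw [hmemS'] at hw₁ ⊢
    rw [place_eq_of_prime_mem546c hq (hbelow_mem q w₂ h2) (hbelow_mem q w₁ h1)]
    exact hw₁
  · -- exact: `S` consists of prime numbers under `S'`
    intro q hq
    obtain ⟨-, hqp, w₁, hw₁, h1⟩ := Finset.mem_filter.mp hq
    exact ⟨hqp, w₁, hw₁, h1⟩
  · -- the prescribed prime numbers
    intro q hq hqp
    exact hmem_of q (Finset.mem_union_right _ hq) hqp

end Main

end Fermat.Agent.LT.T7.H546

end

end
-- ===== PACK-END LT/T7/H546/SetupQCore.lean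

-- ===== PACK-BEGIN LT/T7/H878/PureConv.lean
section






/-!
# Row LT, tower T7, node T7.L2.1.H2b `ProdMtCb` (calculus of pure tensors): ASSET `PureConv`

OFF-MAIN (helper878).  Complete proofs, nothing assumed.  ADDITIVE (new names only, suffix `878`).

THE CONVOLUTION OF TWO PURE TENSORS IS A CONSTANT TIMES THE PURE TENSOR OF THE LOCAL
CONVOLUTIONS.  The constant is THE constant of `H305.HaarSplitC305` (it depends on the Haar
measure `μ` of `GL₂(𝔸_K)`, on `μc` and on the levels `m` only, not on `S`, not on the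
components).

    pureConv_of_split878 : (the splitting of `μ` on `Out_S` for ONE `S`, constant `c`) →
        T5.conv μ (pure305 S f₀ F) (pure305 S g₀ G) h
          = c * pure305 S (fun v => convInt (μv v) (f₀ v) (g₀ v))
                          (fun w => convInt μc (F w) (G w)) h
    pureConvC878 K : PureConvC878 K                           (K totally complex, closed form)
    integral_indicator_pullback878 : the abstract core (Mathlib only; serves the mirror over Q)

The components are CONTINUOUS (the components of test functions are: locally constant at the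
finite places, continuous at the infinite places); no integrability is needed (Fubini for
products of functions of the coordinates holds without it).

Ingredients (vendored byte-identical): `H159.haarSplitC159` (helper159), `OutOpen729.outOpenC729`
(helper729), `H409.compContC409` (helper409), `H505.haarSigmaC505` (helper505).
-/

set_option autoImplicit false

open AutomorphicForm IsDedekindDomain NumberField MeasureTheory
open scoped ComplexConjugate

noncomputable section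

namespace Fermat.Agent.LT.T7.H878

open Fermat.Agent.LT.H556 Fermat.Agent.LT.H556.A0 Fermat.Agent.LT.T7 Fermat.Agent.LT.T7.H305

attribute [local instance] Fermat.Agent.LT.T5.instMeasurableSpaceG

/-! ## 1. The abstract core (Mathlib only) -/

/-- **Integral of a pull-back of a product of functions of the coordinates** over a set on which
the measure splits: if the image of `μ` restricted to `O` under `p` is `c` times a product
measure, then the integral over `O` of `∏ a i ((p x).1 i) * ∏ b w ((p x).2 w)` is `c` times the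
product of the integrals.  No integrability is needed. -/
theorem integral_indicator_pullback878 {X ι κ : Type} [Fintype ι] [Fintype κ] {E : ι → Type}
    {H : Type} [MeasurableSpace X] [∀ i, MeasurableSpace (E i)] [MeasurableSpace H]
    (μ : Measure X) (μi : ∀ i, Measure (E i)) [∀ i, SigmaFinite (μi i)] (ν : Measure H)
    [SigmaFinite ν] (O : Set X) (hO : MeasurableSet O) (p : X → (∀ i, E i) × (κ → H))
    (hp : Measurable p) (c : ℝ) (hc : 0 ≤ c)
    (hsp : Measure.map p (μ.restrict O)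
      = ENNReal.ofReal c • ((Measure.pi μi).prod (Measure.pi fun _ : κ => ν)))
    (a : ∀ i, E i → ℂ) (b : κ → H → ℂ) (ha : ∀ i, Measurable (a i))
    (hb : ∀ w, Measurable (b w)) :
    ∫ x, O.indicator (fun x => (∏ i, a i ((p x).1 i)) * ∏ w, b w ((p x).2 w)) x ∂μ
      = (c : ℂ) * ((∏ i, ∫ x, a i x ∂μi i) * ∏ w, ∫ x, b w x ∂ν) := by
  have hΦ : Measurable fun q : (∀ i, E i) × (κ → H) => (∏ i, a i (q.1 i)) * ∏ w, b w (q.2 w) := by
    refine Measurable.mul (Finset.measurable_prod _ fun i _ => ?_)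
      (Finset.measurable_prod _ fun w _ => ?_)
    · exact (ha i).comp ((measurable_pi_apply i).comp measurable_fst)
    · exact (hb w).comp ((measurable_pi_apply w).comp measurable_snd)
  rw [integral_indicator hO]
  have h1 : ∫ x in O, (∏ i, a i ((p x).1 i)) * ∏ w, b w ((p x).2 w) ∂μ
      = ∫ q, (∏ i, a i (q.1 i)) * ∏ w, b w (q.2 w) ∂(Measure.map p (μ.restrict O)) :=
    (integral_map hp.aemeasurable hΦ.aestronglyMeasurable).symm
  rw [h1, hsp, integral_smul_measure, ENNReal.toReal_ofReal hc]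
  rw [integral_prod_mul (μ := Measure.pi μi) (ν := Measure.pi fun _ : κ => ν)
    (fun x : ∀ i, E i => ∏ i, a i (x i)) (fun y : κ → H => ∏ w, b w (y w))]
  rw [integral_fintype_prod_eq_prod, integral_fintype_prod_eq_prod (μ := fun _ : κ => ν) b]
  rw [Complex.real_smul]

/-! ## 2. `Out_S` is a subgroup; the components of a product -/

section OneField

variable {K : Type} [Field K] [NumberField K]

/-- Integrality at `v` is stable under products. -/
theorem isIntegralAt_mul878 (v : HeightOneSpectrum (𝓞 K)) (g h : G K)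
    (hg : IsIntegralAt v g) (hh : IsIntegralAt v h) : IsIntegralAt v (g * h) := by
  intro i j
  have h1 : finComp v (g * h) i j = ∑ k, finComp v g i k * finComp v h k j := by
    rw [T5.finComp_eq_map, T5.finComp_eq_map, T5.finComp_eq_map]
    simp only [Matrix.map_apply, Matrix.GeneralLinearGroup.coe_mul, Matrix.mul_apply, map_sum,
      map_mul]
  rw [h1]
  exact sum_mem fun k _ => mul_mem (hg i k) (hh k j)

/-- `Out_S` is stable under `(y, h) ↦ y⁻¹ h`. -/
theorem outT_inv_mul878 (S : Finset (HeightOneSpectrum (𝓞 K))) (y h : G K)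
    (hy : OutT305 S y) (hh : OutT305 S h) : OutT305 S (y⁻¹ * h) := by
  intro v hv
  refine ⟨isIntegralAt_mul878 v _ _ (hy v hv).2 (hh v hv).1, ?_⟩
  rw [mul_inv_rev, inv_inv]
  exact isIntegralAt_mul878 v _ _ (hh v hv).2 (hy v hv).1

/-- `Out_S` is stable under products. -/
theorem outT_mul878 (S : Finset (HeightOneSpectrum (𝓞 K))) (y h : G K)
    (hy : OutT305 S y) (hh : OutT305 S h) : OutT305 S (y * h) := by
  intro v hv
  refine ⟨isIntegralAt_mul878 v _ _ (hy v hv).1 (hh v hv).1, ?_⟩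
  rw [mul_inv_rev]
  exact isIntegralAt_mul878 v _ _ (hh v hv).2 (hy v hv).2

/-- `Out_S` is stable under inverses. -/
theorem outT_inv878 (S : Finset (HeightOneSpectrum (𝓞 K))) (y : G K) (hy : OutT305 S y) :
    OutT305 S y⁻¹ := by
  intro v hv
  refine ⟨(hy v hv).2, ?_⟩
  rw [inv_inv]
  exact (hy v hv).1

/-- If `y` and `y⁻¹ h` are in `Out_S`, so is `h`. -/
theorem outT_of_inv_mul878 (S : Finset (HeightOneSpectrum (𝓞 K))) (y h : G K)
    (hy : OutT305 S y) (hyh : OutT305 S (y⁻¹ * h)) : OutT305 S h := by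
  have h1 := outT_mul878 S y (y⁻¹ * h) hy hyh
  rwa [mul_inv_cancel_left] at h1

/-- A pure tensor vanishes outside `Out_S`. -/
theorem pure_eq_zero878 (S : Finset (HeightOneSpectrum (𝓞 K)))
    (f₀ : ∀ v : HeightOneSpectrum (𝓞 K), GL (Fin 2) (v.adicCompletion K) → ℂ)
    (F : InfinitePlace K → GL (Fin 2) ℂ → ℂ) (h : G K) (hh : ¬ OutT305 S h) :
    pure305 S f₀ F h = 0 := by
  classical
  change (if OutT305 S h then _ else _) = _
  rw [if_neg hh]

/-- The value of a pure tensor on `Out_S`. -/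
theorem pure_eq878 (S : Finset (HeightOneSpectrum (𝓞 K)))
    (f₀ : ∀ v : HeightOneSpectrum (𝓞 K), GL (Fin 2) (v.adicCompletion K) → ℂ)
    (F : InfinitePlace K → GL (Fin 2) ℂ → ℂ) (h : G K) (hh : OutT305 S h) :
    pure305 S f₀ F h
      = (∏ v ∈ S, f₀ v (finGL305 v h)) * ∏ w : InfinitePlace K, F w (infGL305 w h) := by
  classical
  change (if OutT305 S h then _ else _) = _
  rw [if_pos hh]

/-! ## 3. The integrand of the convolution of two pure tensors -/

/-- The local integrand of the convolution at the point `x`. -/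
def convFn878 {H : Type} [Group H] (φ ψ : H → ℂ) (x : H) : H → ℂ :=
  fun y => φ y * ψ (y⁻¹ * x)

theorem continuous_convFn878 {H : Type} [Group H] [TopologicalSpace H] [IsTopologicalGroup H]
    (φ ψ : H → ℂ) (x : H) (hφ : Continuous φ) (hψ : Continuous ψ) :
    Continuous (convFn878 φ ψ x) := by
  change Continuous fun y : H => φ y * ψ (y⁻¹ * x)
  exact hφ.mul (hψ.comp (continuous_inv.mul continuous_const))

/-- **The integrand of the convolution of two pure tensors** at a point `h ∈ Out_S` is the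
pull-back of the product of the local integrands, cut off by `Out_S`. -/
theorem conv_integrand_eq878 (S : Finset (HeightOneSpectrum (𝓞 K)))
    (f₀ g₀ : ∀ v : HeightOneSpectrum (𝓞 K), GL (Fin 2) (v.adicCompletion K) → ℂ)
    (F Gc : InfinitePlace K → GL (Fin 2) ℂ → ℂ) (h : G K) (hh : OutT305 S h) (y : G K) :
    pure305 S f₀ F y * pure305 S g₀ Gc (y⁻¹ * h)
      = Set.indicator {y : G K | OutT305 S y}
          (fun y => (∏ v : S, convFn878 (f₀ v.1) (g₀ v.1) (finGL305 v.1 h)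
              ((compS305 S y).1 v)) *
            ∏ w : InfinitePlace K, convFn878 (F w) (Gc w) (infGL305 w h)
              ((compS305 S y).2 w)) y := by
  classical
  by_cases hy : OutT305 S y
  · rw [Set.indicator_of_mem (show y ∈ {y : G K | OutT305 S y} from hy)]
    rw [pure_eq878 S f₀ F y hy, pure_eq878 S g₀ Gc (y⁻¹ * h) (outT_inv_mul878 S y h hy hh)]
    change _ = (∏ v : S, (f₀ v.1 (finGL305 v.1 y) * g₀ v.1 ((finGL305 v.1 y)⁻¹
        * finGL305 v.1 h))) *
      ∏ w : InfinitePlace K, (F w (infGL305 w y) * Gc w ((infGL305 w y)⁻¹ * infGL305 w h))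
    rw [Finset.prod_coe_sort S (fun v => f₀ v (finGL305 v y) * g₀ v ((finGL305 v y)⁻¹
        * finGL305 v h))]
    rw [Finset.prod_mul_distrib, Finset.prod_mul_distrib]
    simp only [map_mul, map_inv]
    ring
  · rw [Set.indicator_of_notMem (show y ∉ {y : G K | OutT305 S y} from hy),
      pure_eq_zero878 S f₀ F y hy, zero_mul]

/-- The convolution of two pure tensors vanishes outside `Out_S`. -/
theorem conv_pure_eq_zero878 (μ : Measure (G K)) (S : Finset (HeightOneSpectrum (𝓞 K)))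
    (f₀ g₀ : ∀ v : HeightOneSpectrum (𝓞 K), GL (Fin 2) (v.adicCompletion K) → ℂ)
    (F Gc : InfinitePlace K → GL (Fin 2) ℂ → ℂ) (h : G K) (hh : ¬ OutT305 S h) :
    T5.conv μ (pure305 S f₀ F) (pure305 S g₀ Gc) h = 0 := by
  change (∫ y, pure305 S f₀ F y * pure305 S g₀ Gc (y⁻¹ * h) ∂μ) = 0
  have h0 : (fun y : G K => pure305 S f₀ F y * pure305 S g₀ Gc (y⁻¹ * h)) = fun _ => 0 := by
    funext y
    by_cases hy : OutT305 S y
    · have hyh : ¬ OutT305 S (y⁻¹ * h) := fun hyh => hh (outT_of_inv_mul878 S y h hy hyh)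
      rw [pure_eq_zero878 S g₀ Gc _ hyh, mul_zero]
    · rw [pure_eq_zero878 S f₀ F y hy, zero_mul]
  rw [h0, integral_zero]

/-! ## 4. The convolution of two pure tensors -/

/-- **PURE-CONV from the splitting of the Haar measure on `Out_S`** (ONE set `S`).  If the image
of `μ` restricted to `Out_S` under the components is `c` times the product of the local
measures, then the convolution of two pure tensors with continuous components is `c` times the
pure tensor of the local convolutions. -/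
theorem pureConv_of_split878 (μ : Measure (G K))
    (μc : @Measure (GL (Fin 2) ℂ) (borel _)) (hμc : @Measure.IsHaarMeasure _ _ _ (borel _) μc)
    (S : Finset (HeightOneSpectrum (𝓞 K)))
    (μv : ∀ v : HeightOneSpectrum (𝓞 K), @Measure (GL (Fin 2) (v.adicCompletion K)) (borel _))
    (hμv : ∀ v : HeightOneSpectrum (𝓞 K), @Measure.IsHaarMeasure _ _ _ (borel _) (μv v))
    (c : ℝ) (hc : 0 ≤ c)
    (hsp : letI : ∀ v : HeightOneSpectrum (𝓞 K),
          MeasurableSpace (GL (Fin 2) (v.adicCompletion K)) := fun _ => borel _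
      letI : MeasurableSpace (GL (Fin 2) ℂ) := borel _
      Measure.map (compS305 S) (μ.restrict {y | OutT305 S y})
        = ENNReal.ofReal c •
          ((Measure.pi fun v : S => μv v.1).prod
            (Measure.pi fun _ : InfinitePlace K => μc)))
    (f₀ g₀ : ∀ v : HeightOneSpectrum (𝓞 K), GL (Fin 2) (v.adicCompletion K) → ℂ)
    (F Gc : InfinitePlace K → GL (Fin 2) ℂ → ℂ)
    (hf₀ : ∀ v ∈ S, Continuous (f₀ v)) (hg₀ : ∀ v ∈ S, Continuous (g₀ v))
    (hF : ∀ w, Continuous (F w)) (hG : ∀ w, Continuous (Gc w)) (h : G K) :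
    T5.conv μ (pure305 S f₀ F) (pure305 S g₀ Gc) h
      = (c : ℂ) * pure305 S (fun v => @T6.convInt _ _ (borel _) (μv v) (f₀ v) (g₀ v))
          (fun w => @T6.convInt _ _ (borel _) μc (F w) (Gc w)) h := by
  classical
  letI iv : ∀ v : HeightOneSpectrum (𝓞 K),
      MeasurableSpace (GL (Fin 2) (v.adicCompletion K)) := fun _ => borel _
  letI ic : MeasurableSpace (GL (Fin 2) ℂ) := borel _
  haveI : ∀ v : HeightOneSpectrum (𝓞 K), BorelSpace (GL (Fin 2) (v.adicCompletion K)) :=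
    fun _ => ⟨rfl⟩
  haveI : BorelSpace (GL (Fin 2) ℂ) := ⟨rfl⟩
  haveI : BorelSpace (G K) := ⟨rfl⟩
  by_cases hh : OutT305 S h
  · have hσ := H505.haarSigmaC505 (K := K)
    haveI hσv : ∀ v : S, SigmaFinite (μv v.1) := fun v => hσ.1 v.1 (μv v.1) (hμv v.1)
    haveI hσc : SigmaFinite μc := hσ.2.1 μc hμc
    have hCont := H409.compContC409 (K := K)
    have hcomp : Measurable (compS305 (K := K) S) := by
      change Measurable fun y : G K =>
        ((fun v : S => finGL305 v.1 y), (fun w : InfinitePlace K => infGL305 w y))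
      exact Measurable.prodMk (measurable_pi_lambda _ fun v => (hCont.1 v.1).measurable)
        (measurable_pi_lambda _ fun w => (hCont.2 w).measurable)
    have hO : MeasurableSet {y : G K | OutT305 S y} :=
      (OutOpen729.outOpenC729 K S).measurableSet
    have ha : ∀ v : S, Measurable (convFn878 (f₀ v.1) (g₀ v.1) (finGL305 v.1 h)) := fun v =>
      (continuous_convFn878 _ _ _ (hf₀ v.1 v.2) (hg₀ v.1 v.2)).measurable
    have hb : ∀ w : InfinitePlace K, Measurable (convFn878 (F w) (Gc w) (infGL305 w h)) :=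
      fun w => (continuous_convFn878 _ _ _ (hF w) (hG w)).measurable
    change (∫ y, pure305 S f₀ F y * pure305 S g₀ Gc (y⁻¹ * h) ∂μ) = _
    rw [integral_congr_ae (Filter.Eventually.of_forall
      (conv_integrand_eq878 S f₀ g₀ F Gc h hh))]
    rw [integral_indicator_pullback878 μ (fun v : S => μv v.1) μc {y : G K | OutT305 S y} hO
      (compS305 S) hcomp c hc hsp
      (fun v : S => convFn878 (f₀ v.1) (g₀ v.1) (finGL305 v.1 h))
      (fun w => convFn878 (F w) (Gc w) (infGL305 w h)) ha hb]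
    rw [pure_eq878 S _ _ h hh]
    rw [← Finset.prod_coe_sort S (fun v => @T6.convInt _ _ (borel _) (μv v) (f₀ v) (g₀ v)
      (finGL305 v h))]
    rfl
  · rw [conv_pure_eq_zero878 μ S f₀ g₀ F Gc h hh, pure_eq_zero878 S _ _ h hh, mul_zero]

/-! ## 5. The closed form (`K` totally complex) -/

variable (K)

/-- **ASSET `PureConv`** (ONE field, totally complex).  There is a constant `c > 0` (THE constant
of `H305.HaarSplitC305` for `(μ, μc, T₀, m)`) such that for EVERY finite `S ⊇ T₀`, all local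
Haar measures with `μ_v(U(m_v)) = 1` and all continuous components: the convolution of two pure
tensors is `c` times the pure tensor of the local convolutions. -/
def PureConvC878 : Prop :=
  TotCplx K → ∀ μ : Measure (G K), μ.IsHaarMeasure →
    ∀ μc : @Measure (GL (Fin 2) ℂ) (borel _), @Measure.IsHaarMeasure _ _ _ (borel _) μc →
    ∀ (T₀ : Finset (HeightOneSpectrum (𝓞 K))) (m : HeightOneSpectrum (𝓞 K) → ℕ),
      (∀ v : HeightOneSpectrum (𝓞 K), v ∉ T₀ → m v = 0) →
    ∃ c : ℝ, 0 < c ∧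
      ∀ S : Finset (HeightOneSpectrum (𝓞 K)), T₀ ⊆ S →
      ∀ μv : ∀ v : HeightOneSpectrum (𝓞 K), @Measure (GL (Fin 2) (v.adicCompletion K)) (borel _),
        (∀ v : HeightOneSpectrum (𝓞 K), IsLocHaar305 (m v) (μv v)) →
      ∀ (f₀ g₀ : ∀ v : HeightOneSpectrum (𝓞 K), GL (Fin 2) (v.adicCompletion K) → ℂ)
        (F Gc : InfinitePlace K → GL (Fin 2) ℂ → ℂ),
        (∀ v ∈ S, Continuous (f₀ v)) → (∀ v ∈ S, Continuous (g₀ v)) →
        (∀ w, Continuous (F w)) → (∀ w, Continuous (Gc w)) →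
        ∀ h : G K, T5.conv μ (pure305 S f₀ F) (pure305 S g₀ Gc) h
          = (c : ℂ) * pure305 S (fun v => @T6.convInt _ _ (borel _) (μv v) (f₀ v) (g₀ v))
              (fun w => @T6.convInt _ _ (borel _) μc (F w) (Gc w)) h

/-- `PureConv` from `HaarSplit` (same constant). -/
theorem pureConvC_of878 (hHS : HaarSplitC305 K) : PureConvC878 K := by
  intro hK μ hμ μc hμc T₀ m hm
  obtain ⟨c, hc, hsplit⟩ := hHS hK μ hμ μc hμc T₀ m hm
  refine ⟨c, hc, ?_⟩
  intro S hS μv hμv f₀ g₀ F Gc hf₀ hg₀ hF hG h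
  exact pureConv_of_split878 μ μc hμc S μv (fun v => (hμv v).1) c hc.le (hsplit S hS μv hμv)
    f₀ g₀ F Gc hf₀ hg₀ hF hG h

/-- **ASSET `PureConv`, CLOSED** (`HaarSplitC305` by helper159). -/
theorem pureConvC878 : PureConvC878 K :=
  pureConvC_of878 K (H159.haarSplitC159 (K := K))

end OneField

end Fermat.Agent.LT.T7.H878

end

end
-- ===== PACK-END LT/T7/H878/PureConv.lean

-- ===== PACK-BEGIN LT/T7/H616/IwLocal.lean
section





/-!
# Row LT, tower T7, node `PairBC797` (BaseCb): ASSET -- THE LOCAL COMPONENTS OF THE SECOND PAIR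
# ARE BI-INVARIANT WITH FINITE SUPPORT (helper616, deputy of row 2729)

OFF-MAIN.  Complete proofs, nothing assumed.  ADDITIVE (new names only, suffix `616`).

The components of the shape `H893.LocB893b` at the places of the level: the unit `unitFn893 n₀`,
the Iwahori function `iwFn893`, the double coset function `dblFn893 n₀ y`.  Each of them
satisfies the hypotheses of `PB616.isTestFn_pure305_616` (= the clauses `inv_up`, `inv_down` of
`H893.LocHyp893`) at every deeper level: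

    unit_inv616 : IsLocalField k q → n₀ ≤ n → IsBiInv (InU n) (unitFn893 n₀) ∧ HasFinSupp (InU n) (unitFn893 n₀)
    iw_inv616   : IsLocalField k q → 1 ≤ n  → IsBiInv (InU n) iwFn893 ∧ HasFinSupp (InU n) iwFn893
    dbl_inv616  : IsLocalField k q → n₀ ≤ n → IsBiInv (InU n) (dblFn893 n₀ y) ∧ HasFinSupp (InU n) (dblFn893 n₀ y)
    unit_inv_at616, iw_inv_at616, dbl_inv_at616 : the same for the completions of a number field
-/

set_option autoImplicit false

open AutomorphicForm IsDedekindDomain NumberField MeasureTheory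

noncomputable section

namespace Fermat.Agent.LT.T7.PB616

open Fermat.Agent.LT.H556 Fermat.Agent.LT.H556.A0 Fermat.Agent.LT.T7
open Fermat.Agent.LT.T7.H893 Fermat.Agent.LT.T6

section Local

variable {k : Type} [Field k] [Valued k T6.Γ₀]

/-! ## 1. The unit -/

theorem unitFn_eq_one616 {n : ℕ} {x : GL (Fin 2) k} (h : InU n x) : unitFn893 n x = 1 := by
  classical
  unfold unitFn893
  exact if_pos h

theorem unitFn_eq_zero616 {n : ℕ} {x : GL (Fin 2) k} (h : ¬ InU n x) : unitFn893 n x = 0 := by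
  classical
  unfold unitFn893
  exact if_neg h

theorem inU_of_unitFn_ne_zero616 {n : ℕ} {x : GL (Fin 2) k} (h : unitFn893 n x ≠ 0) :
    InU n x := by
  by_contra hn
  exact h (unitFn_eq_zero616 hn)

theorem isBiInv_unit616 {n₀ n : ℕ} (h : n₀ ≤ n) :
    IsBiInv (InU n) (unitFn893 (k := k) n₀) := by
  intro u u' g hu hu'
  have hu0 : InU n₀ u := H125.inU_mono125 h hu
  have hu0' : InU n₀ u' := H125.inU_mono125 h hu'
  by_cases hg : InU n₀ g
  · rw [unitFn_eq_one616 hg,
      unitFn_eq_one616 (H846.inU_mul846 n₀ _ _ (H846.inU_mul846 n₀ _ _ hu0 hg) hu0')]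
  · rw [unitFn_eq_zero616 hg]
    refine unitFn_eq_zero616 fun hc => hg ?_
    have e : g = u⁻¹ * (u * g * u') * u'⁻¹ := by group
    rw [e]
    exact H846.inU_mul846 n₀ _ _
      (H846.inU_mul846 n₀ _ _ (H846.inU_inv846 n₀ _ hu0) hc) (H846.inU_inv846 n₀ _ hu0')

theorem hasFinSupp_unit616 {q : ℕ} (hk : IsLocalField k q) {n₀ n : ℕ} (h : n₀ ≤ n) :
    HasFinSupp (InU n) (unitFn893 (k := k) n₀) := by
  refine H125.finSuppLvlC125 k q hk n₀ n _ h ⟨{1}, fun g hg => ?_⟩
  exact ⟨1, Finset.mem_singleton_self _, g, inU_of_unitFn_ne_zero616 hg, (one_mul g).symm⟩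

theorem unit_inv616 {q : ℕ} (hk : IsLocalField k q) {n₀ n : ℕ} (h : n₀ ≤ n) :
    IsBiInv (InU n) (unitFn893 (k := k) n₀) ∧ HasFinSupp (InU n) (unitFn893 (k := k) n₀) :=
  ⟨isBiInv_unit616 h, hasFinSupp_unit616 hk h⟩

/-! ## 2. The Iwahori function -/

theorem iwFn_eq_one616 {x : GL (Fin 2) k} (h : InIw893 x) : iwFn893 x = 1 := by
  classical
  unfold iwFn893
  exact if_pos h

theorem iwFn_eq_zero616 {x : GL (Fin 2) k} (h : ¬ InIw893 x) : iwFn893 x = 0 := by
  classical
  unfold iwFn893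
  exact if_neg h

theorem inIw_of_iwFn_ne_zero616 {x : GL (Fin 2) k} (h : iwFn893 x ≠ 0) : InIw893 x := by
  by_contra hn
  exact h (iwFn_eq_zero616 hn)

theorem exp_neg_lt_one616 {n : ℕ} (hn : 1 ≤ n) :
    (WithZero.exp (-(n : ℤ)) : T6.Γ₀) < 1 := by
  have : (WithZero.exp (-(n : ℤ)) : T6.Γ₀) < WithZero.exp (0 : ℤ) :=
    WithZero.exp_lt_exp.2 (by omega)
  simpa using this

/-- `U(n) ⊆ I` for `n ≥ 1`. -/
theorem inIw_of_inU616 {n : ℕ} (hn : 1 ≤ n) {u : GL (Fin 2) k} (hu : InU n u) : InIw893 u := by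
  refine ⟨fun i j => H125.inU_entry125 hu i j, fun i j => H125.inU_inv_entry125 hu i j, ?_⟩
  have h1 := (hu 1 0).1
  have e : (1 : Matrix (Fin 2) (Fin 2) k) 1 0 = 0 := by simp
  rw [e, sub_zero] at h1
  exact lt_of_le_of_lt h1 (exp_neg_lt_one616 hn)

/-- The Iwahori subgroup is closed under multiplication. -/
theorem inIw_mul616 {x y : GL (Fin 2) k} (hx : InIw893 x) (hy : InIw893 y) :
    InIw893 (x * y) := by
  refine ⟨fun i j => ?_, fun i j => ?_, ?_⟩
  · rw [Units.val_mul]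
    have := H125.v_mul_entry125 (a := 1) (b := 1) hx.1 hy.1 i j
    simpa using this
  · rw [mul_inv_rev, Units.val_mul]
    have := H125.v_mul_entry125 (a := 1) (b := 1) hy.2.1 hx.2.1 i j
    simpa using this
  · rw [Units.val_mul, Matrix.mul_apply, Fin.sum_univ_two]
    have h1 : Valued.v ((x : Matrix (Fin 2) (Fin 2) k) 1 0 * (y : Matrix (Fin 2) (Fin 2) k) 0 0)
        < 1 := by
      rw [map_mul]
      exact lt_of_le_of_lt ((mul_le_mul' le_rfl (hy.1 0 0)).trans (mul_one _).le) hx.2.2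
    have h2 : Valued.v ((x : Matrix (Fin 2) (Fin 2) k) 1 1 * (y : Matrix (Fin 2) (Fin 2) k) 1 0)
        < 1 := by
      rw [map_mul]
      exact lt_of_le_of_lt ((mul_le_mul' (hx.1 1 1) le_rfl).trans (one_mul _).le) hy.2.2
    exact lt_of_le_of_lt (Valuation.map_add _ _ _) (max_lt h1 h2)

theorem isBiInv_iw616 {n : ℕ} (hn : 1 ≤ n) : IsBiInv (InU n) (iwFn893 (k := k)) := by
  intro u u' g hu hu'
  have hI : InIw893 u := inIw_of_inU616 hn hu
  have hI' : InIw893 u' := inIw_of_inU616 hn hu'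
  by_cases hg : InIw893 g
  · rw [iwFn_eq_one616 hg, iwFn_eq_one616 (inIw_mul616 (inIw_mul616 hI hg) hI')]
  · rw [iwFn_eq_zero616 hg]
    refine iwFn_eq_zero616 fun hc => hg ?_
    have e : g = u⁻¹ * (u * g * u') * u'⁻¹ := by group
    rw [e]
    exact inIw_mul616 (inIw_mul616 (inIw_of_inU616 hn (H846.inU_inv846 n _ hu)) hc)
      (inIw_of_inU616 hn (H846.inU_inv846 n _ hu'))

/-- The Iwahori subgroup lies in `U(0) = GL₂(𝒪)`. -/
theorem inU_zero_of_inIw616 {x : GL (Fin 2) k} (hx : InIw893 x) : InU 0 x := by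
  intro i j
  have h1 : Valued.v ((1 : Matrix (Fin 2) (Fin 2) k) i j) ≤ 1 := by
    by_cases hij : i = j
    · subst hij; simp
    · simp [Matrix.one_apply_ne hij]
  have e0 : (WithZero.exp (-((0 : ℕ) : ℤ)) : T6.Γ₀) = 1 := by simp
  rw [e0]
  exact ⟨Valuation.map_sub_le (Valued.v : Valuation k _) (hx.1 i j) h1,
    Valuation.map_sub_le (Valued.v : Valuation k _) (hx.2.1 i j) h1⟩

theorem hasFinSupp_iw616 {q : ℕ} (hk : IsLocalField k q) (n : ℕ) :
    HasFinSupp (InU n) (iwFn893 (k := k)) := by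
  refine H125.finSuppLvlC125 k q hk 0 n _ (Nat.zero_le n) ⟨{1}, fun g hg => ?_⟩
  exact ⟨1, Finset.mem_singleton_self _, g,
    inU_zero_of_inIw616 (inIw_of_iwFn_ne_zero616 hg), (one_mul g).symm⟩

theorem iw_inv616 {q : ℕ} (hk : IsLocalField k q) {n : ℕ} (hn : 1 ≤ n) :
    IsBiInv (InU n) (iwFn893 (k := k)) ∧ HasFinSupp (InU n) (iwFn893 (k := k)) :=
  ⟨isBiInv_iw616 hn, hasFinSupp_iw616 hk n⟩

/-! ## 3. The double coset function -/

theorem isDblInd_dblFn616 (n : ℕ) (y : GL (Fin 2) k) : H22.IsDblInd22 n y (dblFn893 n y) := by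
  classical
  unfold dblFn893
  exact H22.isDblInd_ite22 n y _

theorem dbl_inv616 {q : ℕ} (hk : IsLocalField k q) {n₀ n : ℕ} (h : n₀ ≤ n)
    (y : GL (Fin 2) k) :
    IsBiInv (InU n) (dblFn893 n₀ y) ∧ HasFinSupp (InU n) (dblFn893 n₀ y) :=
  ⟨fun u u' g hu hu' => H22.isBiInv_dbl22 (isDblInd_dblFn616 n₀ y) u u' g
      (H125.inU_mono125 h hu) (H125.inU_mono125 h hu'),
    H125.finSuppLvlC125 k q hk n₀ n _ h (H22.hasFinSupp_dbl22 hk (isDblInd_dblFn616 n₀ y))⟩

end Local

/-! ## 4. The completions of a number field -/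

section Global

variable {K : Type} [Field K] [NumberField K]

theorem unit_inv_at616 (v : HeightOneSpectrum (𝓞 K)) {n₀ n : ℕ} (h : n₀ ≤ n) :
    IsBiInv (InU n) (unitFn893 (k := v.adicCompletion K) n₀) ∧
      HasFinSupp (InU n) (unitFn893 (k := v.adicCompletion K) n₀) :=
  unit_inv616 (H176.instLocalC176 K v) h

theorem iw_inv_at616 (v : HeightOneSpectrum (𝓞 K)) {n : ℕ} (hn : 1 ≤ n) :
    IsBiInv (InU n) (iwFn893 (k := v.adicCompletion K)) ∧
      HasFinSupp (InU n) (iwFn893 (k := v.adicCompletion K)) :=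
  iw_inv616 (H176.instLocalC176 K v) hn

theorem dbl_inv_at616 (v : HeightOneSpectrum (𝓞 K)) {n₀ n : ℕ} (h : n₀ ≤ n)
    (y : GL (Fin 2) (v.adicCompletion K)) :
    IsBiInv (InU n) (dblFn893 n₀ y) ∧ HasFinSupp (InU n) (dblFn893 n₀ y) :=
  dbl_inv616 (H176.instLocalC176 K v) h y

end Global

end Fermat.Agent.LT.T7.PB616

end

end
-- ===== PACK-END LT/T7/H616/IwLocal.lean

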