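import Mathlib
import Fermat.Agent.Pack.LT4.E4L1
import Fermat.Agent.Pack.LT4.E2L0
import Fermat.Agent.Pack.LT2.E16L2
import Fermat.Agent.Pack.LT2.E3L2
import Fermat.Agent.Pack.LT2.E3L1
import Fermat.Agent.Pack.LT2.E20L1
import Fermat.Agent.Pack.LT2.E19L0
import Fermat.Agent.Pack.LT4.E1L3
import Fermat.Agent.Pack.LT4.E3L2
import Fermat.Agent.Pack.LT2.E17L1
import Fermat.Agent.Pack.LT2.E16L3
import Fermat.Agent.Pack.LT2.E17L2
import Fermat.Agent.Pack.LT2.E18L1
import Fermat.Agent.Pack.LT2.E18L3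
import Fermat.Agent.Pack.LT2.E19L3
import Fermat.Agent.Pack.LT2.E20L2
import Fermat.Agent.Pack.LT4.E4L0
import Fermat.Agent.Pack.LT2.E6L0
import Fermat.Agent.Pack.LT2.E8L1
import Fermat.Agent.Pack.LT4.E4L3
import Fermat.Agent.Pack.LT4.E3L1
import Fermat.Agent.Pack.LT3.E27L2
import Fermat.Agent.Pack.LT3.E26L3
import Fermat.Agent.Pack.LT3.E28L1
import Fermat.Agent.Pack.LT3.E29L1
import Fermat.Agent.Pack.LT3.E28L2
import Fermat.Agent.Pack.LT3.E28L0
import Fermat.Agent.Pack.LT3.E29L3
import Fermat.Agent.Pack.LT4.E4L2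
import Fermat.Agent.Pack.LT3.E28L3
import Fermat.Agent.Pack.LT3.E23L1
import Fermat.Agent.Pack.LT2.E3L0
import Fermat.Agent.Pack.LT3.E22L2
import Fermat.Agent.Pack.LT3.E24L0
import Fermat.Agent.Pack.LT3.E21L1
import Fermat.Agent.Pack.LT3.E8L2
import Fermat.Agent.Pack.LT3.E6L1

set_option linter.all false

-- ===== PACK-BEGIN LT/T7/H32/SpecIdClosed.lean
section




/-!
# Row LT, tower T7: `SpecIdC` CLOSED modulo the two norm lemmas of T6 (helper32)

OFF-MAIN.  `specIdC32 : T6.NormClassC → T6.NormInjC → T7.SpecIdC K K'`: the SPECTRAL IDENTITY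
for matched admissible pairs (`T7/Matching.lean`, helper797@cb30661f3, sha256 0549163e), from
the closed towers T5 and T4 (`T5/Closed.lean` v9, `T4/Closed.lean` v3) and the class bijection
`geomC32`.  `T6.NormClassC` and `T6.NormInjC` are closed in `T6/Closed.lean` (helper22).
-/

set_option autoImplicit false

open IsDedekindDomain NumberField

noncomputable section

namespace Fermat.Agent.LT.T7.H32

open Fermat.Agent.LT Fermat.Agent.LT.T7

variable {K K' : Type} [Field K] [NumberField K] [Field K'] [NumberField K'] [Algebra K K']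

/-- **The spectral identity for matched admissible pairs.** -/
theorem specIdC32 (hN : T6.NormClassC) (hI : T6.NormInjC) : SpecIdC K K' :=
  specIdC_of_geom32 hN hI geomC32

end Fermat.Agent.LT.T7.H32

end

end
-- ===== PACK-END LT/T7/H32/SpecIdClosed.lean

-- ===== PACK-BEGIN LT/T7/H231/Level2Closed.lean
section






/-!
# Row LT, tower T7, node T7.C3-REG `TraceWordsRegP`: INTEGRATION of level 2 (helper231)

OFF-MAIN.  The cut is the architect's (`LT/T7/Level2.lean`, sha256 1551664660339642,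
helper797@819237e8b; `LT/T7/Matching.lean`, sha256 0549163ecb1ee5a4).  This file imports
byte-identical copies of the volunteers' files in ONE closure.

| item | state |
|---|---|
| `SpecIdC K K'` (spectral identity for matched pairs) | CLOSED: helper32 `specIdC32` (T5 closed tower + `GeomC` = T7.G1) with `T6.NormClassC` (helper981 `normClassC_h981`) and `T6.NormInjC` (helper848 `normInjC848`) |
| T7.L2.1 `SupplyC P K K'` | OPEN (node: geometric half) |
| T7.L2.2 `SpecUpC K K'` | OPEN (node: spectral half upstairs + non-vanishing) |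
| T7.L2.3 `SpecDownC K K'` | OPEN (node: spectral half downstairs + realisation) |
-/

set_option autoImplicit false

namespace Fermat.Agent.LT.T7.H231

open Fermat.Agent.LT.T7

/-- The spectral identity for matched admissible pairs is closed. -/
theorem specIdC_closed231 (K K' : Type) [Field K] [NumberField K] [Field K'] [NumberField K']
    [Algebra K K'] : SpecIdC K K' :=
  Fermat.Agent.LT.T7.H32.specIdC32 Fermat.Agent.LT.T6.H981.normClassC_h981
    Fermat.Agent.LT.T6.H848.normInjC848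

/-- The node `TraceWordsRegP P K K'` from the three nodes of level 2. -/
theorem traceWordsRegP_of_level2_231 (P : EKCond) (K K' : Type) [Field K] [NumberField K]
    [Field K'] [NumberField K'] [Algebra K K'] (hS : SupplyC P K K') (hU : SpecUpC K K')
    (hD : SpecDownC K K') : TraceWordsRegP P K K' :=
  traceWordsRegP_of hS hU hD (specIdC_closed231 K K')

/-- The three nodes of level 2 of the cyclic case, for all cyclic extensions. -/
structure Level2Open231 (P : EKCond) : Prop where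
  /-- NODE T7.L2.1: supply of matched regular families (geometric half). -/
  supply : ∀ (K K' : Type) [Field K] [NumberField K] [Field K'] [NumberField K']
    [Algebra K K'], SupplyC P K K'
  /-- NODE T7.L2.2: spectral expansion upstairs and non-vanishing. -/
  specUp : ∀ (K K' : Type) [Field K] [NumberField K] [Field K'] [NumberField K']
    [Algebra K K'], SpecUpC K K'
  /-- NODE T7.L2.3: spectral expansion downstairs and realisation. -/
  specDown : ∀ (K K' : Type) [Field K] [NumberField K] [Field K'] [NumberField K']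
    [Algebra K K'], SpecDownC K K'

/-- **`TraceWordsRegPAll P` from the three nodes of level 2.** -/
theorem traceWordsRegPAll_of_level2_231 (P : EKCond) (h : Level2Open231 P) :
    TraceWordsRegPAll P :=
  fun K K' _ _ _ _ _ =>
    traceWordsRegP_of_level2_231 P K K' (h.supply K K') (h.specUp K K') (h.specDown K K')

end Fermat.Agent.LT.T7.H231

end
-- ===== PACK-END LT/T7/H231/Level2Closed.lean

-- ===== PACK-BEGIN LT/T7/H57/FoldClosed.lean
section
























/-!
# Row LT, tower T7, LEAF T7.14.6a `FoldWhitC` -- CLOSED (helper57, integration)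

OFF-MAIN.  `foldWhitC_closed57 (K) : Rigid.FoldWhitC K`, UNCONDITIONAL, every number field.

The cut (helper57, levels 1-5, `FoldSpec..FoldSpec5`, tops `FoldTop..FoldTop5`, `FoldAll`) and
the 19 leaves (byte-identical copies of the deliveries):

| leaf | by |
|---|---|
| `ParsevalC57` | helper91 |
| `ParsBddC57` | helper189 |
| `WhitMeasC57` | helper385 |
| `UnfoldXC57`, `WeightIdC57` | helper811 |
| `FundXC57` | helper293 |
| `BoxIntC57` | helper216 (+ helper171, helper420, helper729) |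
| `ZInvC57` | helper816 |
| `CoreOfPosC57` | helper346 |
| `CntSumC57` | helper69 (helper724) |
| `OmDecompC57` | helper704 |
| `RowInvC57` | helper553 |
| `BorelUnfC57` | helper290 |
| `BruhatSumC57` | helper57 (on helper555 `Fold`, `FoldIwa`) |
| `PRTransC57` | helper389 |
| `PLTransC57` | helper317 |
| `MeasIotaC57` | helper607 |
| `IotaCoordC57` | helper786 |
| `WeightExC57` | helper57 adapter on helper793 `ThetaSetC290`, helper360 `CellCoordC290` |
-/

set_option autoImplicit false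

noncomputable section

namespace Fermat.Agent.LT.T7.H57

open Fermat.Agent.LT Fermat.Agent.LT.T7 Fermat.Agent.LT.T7.Rigid

variable (K : Type) [Field K] [NumberField K]

/-- `T3.CompleteNDC` closed. -/
theorem completeND_closed57 : T3.CompleteNDC K := by
  have h := T1.t1Out K
  have hL := T3.inLocComp_of_T1 K h.locComp
  have hA := T3.inLattice_of_T1 K h.adeleLattice
  have hF := T3.inFundDom_of_T1 K h.addFundDom
  exact T3.H57.completeND57 K hL hA hF (T3.H57.perpND57 K hL hA)

/-- The leaves of the cut of `FoldWhitC`, all closed. -/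
theorem foldLeaves_closed57 : FoldLeaves57 K := by
  have h := T1.t1Out K
  have hP : ParsevalC57 K := H91.parsevalC57_of_t1_91 K h (completeND_closed57 K)
  exact
    { parseval := hP
      parsBdd := H189.parsBddC_of_parseval189 K hP
      whitMeas := H385.whitMeasC385 K h.locComp
      unfoldX := H811.unfoldXC811 K
      fundX := H293.fundXC293 K h
      boxInt := H216.boxIntC57_closed216 K h
      zInv := H816.zInvC816 K
      coreOfPos := H346.coreOfPosC346 K
      weightId := H811.weightIdC_of_t1_811 K h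
      weightEx := weightExC57 K
      cntSum := H69.cntSumC69 K h
      omDecomp := Fermat.Agent.LT.H704.omDecompC704 h
      rowInv := H553.rowInvC553 K h
      borelUnf := Rigid.H290.borelUnfC_of290 K h.adNorm h.locComp (T3.haarScale_closed K h)
      bruhatSum := bruhatSumC57 K
      pRTrans := H389.pRTransC389 K h.adNorm h.locComp
      pLTrans := H317.plTransC317 K h.adNorm h.locComp
      measIota := H607.measIotaC607 K h.locComp
      iotaCoord := H786.iotaCoordC786 K h.adNorm }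

/-- **LEAF T7.14.6a `FoldWhitC`, CLOSED.** -/
theorem foldWhitC_closed57 : Rigid.FoldWhitC K :=
  foldWhitC_of_leaves57 (T1.t1Out K).adNorm (foldLeaves_closed57 K)

end Fermat.Agent.LT.T7.H57

end

end
-- ===== PACK-END LT/T7/H57/FoldClosed.lean

-- ===== PACK-BEGIN LT/T7/H227/Decomp.lean
section





/-!
# Row LT, tower T7, node T7.L2.2 `SimpleC`, leaf `DecompC` (helper963, `Compress.lean`)

OFF-MAIN (helper227, spare of registry row 2371).  `decompC227 K : H963.DecompC K`, UNCONDITIONAL,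
every number field: every `g ∈ GL₂(𝔸_K)` is peelable for every level `𝔫 ≠ 0`.

`T` = the finite places which divide `𝔫` or where `g` or `g⁻¹` is not integral (finite).
`a` = the product of the local components of `g` at the infinite places and at the places of `T`
(`locInf429`, `locFin129`; induction on the finite sets, `Peel.inf`, `Peel.fin`);
`k = a⁻¹ g` is trivial at infinity and at `T` and equal to `g` elsewhere: `k ∈ U(𝔫)` (`Peel.lvl`).
-/

set_option autoImplicit false
set_option maxHeartbeats 400000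

open IsDedekindDomain NumberField
open Fermat.Agent.LT.H556.A0 Fermat.Agent.LT.H129 Fermat.Agent.LT.T2.H429

noncomputable section

namespace Fermat.Agent.LT.T7.H227

open Fermat.Agent.LT.T7.H963

variable {K : Type} [Field K] [NumberField K]

/-- The finite places where `g` or `g⁻¹` is not integral are finite in number. -/
theorem finite_nonint227 (g : G K) :
    {v : HeightOneSpectrum (𝓞 K) | ¬ ((∀ i j, finComp v g i j ∈ v.adicCompletionIntegers K) ∧
      ∀ i j, finComp v g⁻¹ i j ∈ v.adicCompletionIntegers K)}.Finite := by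
  have h : ∀ a : Adl K, {v : HeightOneSpectrum (𝓞 K) |
      ¬ a.2 v ∈ v.adicCompletionIntegers K}.Finite := fun a => a.2.2
  have hsub : {v : HeightOneSpectrum (𝓞 K) |
      ¬ ((∀ i j, finComp v g i j ∈ v.adicCompletionIntegers K) ∧
        ∀ i j, finComp v g⁻¹ i j ∈ v.adicCompletionIntegers K)}
      ⊆ (⋃ i : Fin 2, ⋃ j : Fin 2, {v : HeightOneSpectrum (𝓞 K) |
          ¬ ((g : Matrix (Fin 2) (Fin 2) (Adl K)) i j).2 v ∈ v.adicCompletionIntegers K})
        ∪ (⋃ i : Fin 2, ⋃ j : Fin 2, {v : HeightOneSpectrum (𝓞 K) |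
          ¬ (((g⁻¹ : G K) : Matrix (Fin 2) (Fin 2) (Adl K)) i j).2 v
            ∈ v.adicCompletionIntegers K}) := by
    intro v hv
    simp only [Set.mem_ofPred_eq, not_and_or, not_forall] at hv
    rcases hv with ⟨i, j, hij⟩ | ⟨i, j, hij⟩
    · exact Or.inl (Set.mem_iUnion.2 ⟨i, Set.mem_iUnion.2 ⟨j, hij⟩⟩)
    · exact Or.inr (Set.mem_iUnion.2 ⟨i, Set.mem_iUnion.2 ⟨j, hij⟩⟩)
  refine Set.Finite.subset ?_ hsub
  refine Set.Finite.union ?_ ?_
  · exact Set.finite_iUnion fun i => Set.finite_iUnion fun j => h _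
  · exact Set.finite_iUnion fun i => Set.finite_iUnion fun j => h _

open scoped Classical in
/-- Peelable elements with prescribed components at the infinite places. -/
theorem exists_peel_inf227 (𝔫 : Ideal (𝓞 K)) (g : G K) (W : Finset (InfinitePlace K)) :
    ∃ a : G K, Peel 𝔫 a ∧
      (∀ w, infCompHom129 w a = if w ∈ W then infCompHom129 w g else 1) ∧
      ∀ v, finCompHom129 v a = 1 := by
  induction W using Finset.induction_on with
  | empty => exact ⟨1, Peel.one, fun w => by simp, fun v => map_one _⟩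
  | insert w W hw ih =>
    obtain ⟨a, ha, haI, haF⟩ := ih
    refine ⟨a * locInf429 w (infCompHom129 w g),
      Peel.inf _ w ha ?_ (isLocalAtInf_locInf429 w _), ?_, ?_⟩
    · rw [trivAtInf_iff129, haI w, if_neg hw]
    · intro w'
      rw [map_mul, haI w']
      by_cases hww : w' = w
      · subst hww
        rw [if_neg hw, one_mul, infCompHom_locInf429, if_pos (Finset.mem_insert_self _ _)]
      · rw [infCompHom_locInf429_of_ne w _ hww, mul_one]
        by_cases hW : w' ∈ W
        · rw [if_pos hW, if_pos (Finset.mem_insert_of_mem hW)]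
        · rw [if_neg hW, if_neg]
          rw [Finset.mem_insert]
          tauto
    · intro v
      rw [map_mul, haF v, finCompHom_locInf429, mul_one]

open scoped Classical in
/-- Peelable elements with prescribed components. -/
theorem exists_peel_fin227 (𝔫 : Ideal (𝓞 K)) (g : G K) (T : Finset (HeightOneSpectrum (𝓞 K))) :
    ∃ a : G K, Peel 𝔫 a ∧ (∀ w, infCompHom129 w a = infCompHom129 w g) ∧
      ∀ v, finCompHom129 v a = if v ∈ T then finCompHom129 v g else 1 := by
  induction T using Finset.induction_on with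
  | empty =>
    obtain ⟨a, ha, haI, haF⟩ := exists_peel_inf227 𝔫 g Finset.univ
    exact ⟨a, ha, fun w => by rw [haI w, if_pos (Finset.mem_univ w)], fun v => by simpa using haF v⟩
  | insert v T hv ih =>
    obtain ⟨a, ha, haI, haF⟩ := ih
    refine ⟨a * locFin129 v (finCompHom129 v g),
      Peel.fin _ v ha ?_ (isLocalAtFin_locFin129 v _), ?_, ?_⟩
    · rw [trivAtFin_iff129, haF v, if_neg hv]
    · intro w
      rw [map_mul, haI w, infCompHom129_locFin129, mul_one]
    · intro v'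
      rw [map_mul, haF v']
      by_cases hvv : v' = v
      · subst hvv
        rw [if_neg hv, one_mul, finCompHom129_locFin129, if_pos (Finset.mem_insert_self _ _)]
      · rw [finCompHom129_locFin129_of_ne v _ hvv, mul_one]
        by_cases hT : v' ∈ T
        · rw [if_pos hT, if_pos (Finset.mem_insert_of_mem hT)]
        · rw [if_neg hT, if_neg]
          rw [Finset.mem_insert]
          tauto

/-- Membership in the closure of `𝔫` at `v ∤ 𝔫` of the entries of `x - 1`, `x` integral. -/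
theorem sub_one_mem227 {𝔫 : Ideal (𝓞 K)} {v : HeightOneSpectrum (𝓞 K)} (hv : ¬ v.asIdeal ∣ 𝔫)
    (M : Matrix (Fin 2) (Fin 2) (v.adicCompletion K))
    (hM : ∀ i j, M i j ∈ v.adicCompletionIntegers K) (i j : Fin 2) :
    (M - 1) i j ∈ idealClosure 𝔫 v := by
  refine Fermat.Agent.LT.T2.H333.mem_idealClosure_of_int333 hv ?_
  have h1 : (1 : Matrix (Fin 2) (Fin 2) (v.adicCompletion K)) i j
      ∈ v.adicCompletionIntegers K :=
    (HeightOneSpectrum.mem_adicCompletionIntegers (𝓞 K) K v).2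
      (Fermat.Agent.LT.T2.H333.val_one_entry_le333 v i j)
  have h2 : M i j - (1 : Matrix (Fin 2) (Fin 2) (v.adicCompletion K)) i j
      ∈ v.adicCompletionIntegers K := sub_mem (hM i j) h1
  exact (HeightOneSpectrum.mem_adicCompletionIntegers (𝓞 K) K v).1 h2

/-- **LEAF `DecompC`** (helper963, `Compress.lean`): every element of `GL₂(𝔸_K)` is peelable. -/
theorem decompC227 (K : Type) [Field K] [NumberField K] : DecompC K := by
  classical
  intro 𝔫 h𝔫 g
  have hfin1 := finite_nonint227 g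
  have hfin2 : {v : HeightOneSpectrum (𝓞 K) | v.asIdeal ∣ 𝔫}.Finite := Ideal.finite_factors h𝔫
  set T : Finset (HeightOneSpectrum (𝓞 K)) := hfin1.toFinset ∪ hfin2.toFinset with hT
  have hT1 : ∀ v, v ∉ T → (∀ i j, finComp v g i j ∈ v.adicCompletionIntegers K) ∧
      ∀ i j, finComp v g⁻¹ i j ∈ v.adicCompletionIntegers K := fun v hv => by
    by_contra hcon
    exact hv (Finset.mem_union_left _ ((Set.Finite.mem_toFinset hfin1).2 hcon))
  have hT2 : ∀ v, v ∉ T → ¬ v.asIdeal ∣ 𝔫 := fun v hv hdvd =>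
    hv (Finset.mem_union_right _ ((Set.Finite.mem_toFinset hfin2).2 hdvd))
  obtain ⟨a, ha, haI, haF⟩ := exists_peel_fin227 𝔫 g T
  have hkF : ∀ v, finCompHom129 v (a⁻¹ * g) = if v ∈ T then 1 else finCompHom129 v g := fun v => by
    rw [map_mul, map_inv, haF v]
    split_ifs
    · rw [inv_mul_cancel]
    · rw [inv_one, one_mul]
  have hk : InLevelGroup 𝔫 (a⁻¹ * g) := by
    refine ⟨fun w => ?_, fun v i j => ⟨?_, ?_⟩⟩
    · rw [trivAtInf_iff129, map_mul, map_inv, haI w, inv_mul_cancel]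
    · rw [← coe_finCompHom129, hkF v]
      by_cases hv : v ∈ T
      · rw [if_pos hv, Units.val_one, sub_self]
        exact Fermat.Agent.LT.T2.H333.zero_mem_idealClosure333 𝔫 v
      · rw [if_neg hv, coe_finCompHom129]
        exact sub_one_mem227 (hT2 v hv) _ (hT1 v hv).1 i j
    · rw [← coe_finCompHom129, map_inv, hkF v]
      by_cases hv : v ∈ T
      · rw [if_pos hv, inv_one, Units.val_one, sub_self]
        exact Fermat.Agent.LT.T2.H333.zero_mem_idealClosure333 𝔫 v
      · rw [if_neg hv, ← map_inv, coe_finCompHom129]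
        exact sub_one_mem227 (hT2 v hv) _ (hT1 v hv).2 i j
  have h := Peel.lvl (a⁻¹ * g) ha hk
  rwa [mul_inv_cancel_left] at h

end Fermat.Agent.LT.T7.H227

end
end
-- ===== PACK-END LT/T7/H227/Decomp.lean

-- ===== PACK-BEGIN LT/T7/H963/SimpleTop.lean
section






/-!
# Row LT, tower T7, node `SimpleC` (helper963, OFF-MAIN): THE STATE OF THE NODE

    simpleC_of_leaves : ClassFinC K → ClassLinC K → ClassOpC K → DecompC K →
        BadSystemExistsC K → IwSystemExistsC K → StepSphC K → StepArchC K → SimpleC K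

CLOSED here: `GoodPrimeC` (`goodPrimeC`), `UnitC` (`unitC`), `StepBadC` (`stepBadC`), `StepIwC`
(`stepIwC`), `MatchC` / `PairC` / frame (station T2.10, helper941).
OPEN (registry rows 2368-2374): the eight hypotheses.

v2 (16:30Z): `StepSphC` CLOSED by helper142 (`T7/H142/StepSph.lean`, `stepSphC142`), `DecompC`
CLOSED by helper227 (`T7/H227/Decomp.lean`, `decompC227`), byte-identical copies, rebuilt:

    simpleC_of_open : ClassFinC K → ClassLinC K → ClassOpC K → BadSystemExistsC K →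
        IwSystemExistsC K → StepArchC K → SimpleC K
-/

set_option autoImplicit false

open IsDedekindDomain NumberField

namespace Fermat.Agent.LT.T7.H963

variable {K : Type} [Field K] [NumberField K]

/-- **The node `SimpleC` from its open leaves.** -/
theorem simpleC_of_leaves (hfin : ClassFinC K) (hlin : ClassLinC K) (hop : ClassOpC K)
    (hD : DecompC K) (hBE : BadSystemExistsC K) (hIE : IwSystemExistsC K) (hSph : StepSphC K)
    (hArch : StepArchC K) : SimpleC K :=
  simpleC_of_compress (goodPrimeC K) hfin hlin hop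
    (compressC_of (unitC K) hD hBE hIE (stepBadC K) (stepIwC K) hSph hArch hlin hop)

/-- **The node `SimpleC` from the leaves which are still open** (v2). -/
theorem simpleC_of_open (hfin : ClassFinC K) (hlin : ClassLinC K) (hop : ClassOpC K)
    (hBE : BadSystemExistsC K) (hIE : IwSystemExistsC K) (hArch : StepArchC K) : SimpleC K :=
  simpleC_of_leaves hfin hlin hop (H227.decompC227 K) hBE hIE (H142.stepSphC142 K) hArch

end Fermat.Agent.LT.T7.H963

end
-- ===== PACK-END LT/T7/H963/SimpleTop.lean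

-- ===== PACK-BEGIN LT/T7/H893/SupplyClosed2.lean
section






/-!
# Row LT, tower T7, node T7.L2.1 `SupplySC` (sub-architect helper893): INTEGRATION v2

OFF-MAIN.  No `sorry`, nothing assumed.  ADDITIVE.

CLOSED leaves (vendored byte-identical, in ONE closure with the four cuts):

* `SetupC K K'` : helper644 (+ helper729, helper648), `LT/T7/H644/SetupClosed.lean`;
* `ProjC K`, `ProjC K'` : helper40, `LT/T7/H40/ProjClosed.lean`;
* `EkProdDownOpC K K'` : the proof of helper311 (`LT/T7/H311/EkProdDown.lean`, which uses the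
  operator fields only), repeated here for `IsL2PreOp`;
* `RegSupp0C K` : helper771, `LT/T7/H771/RegSupp0.lean`;
* `KillUpC`, `KillDownC`, `ClassDownC`, `CommDownC` : helper277, `LT/T7/H277/FamSmall.lean`.

OPEN (the structure `OpenSupply893b`): `GlobC Mt`, `ConstrC P Mt`, `RegSuppC K'`,
`EkProdUpOpC`, `OpUpC`, `OpDownC`.

    supplySC_of_open893b : OpenSupply893b P K K' Mt → T7.SupplySC P K K'
-/

set_option autoImplicit false

open AutomorphicForm IsDedekindDomain NumberField MeasureTheory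
open scoped ComplexConjugate

noncomputable section

namespace Fermat.Agent.LT.T7.H893

open Fermat.Agent.LT Fermat.Agent.LT.H556 Fermat.Agent.LT.H556.A0 Fermat.Agent.LT.T7

attribute [local instance] Fermat.Agent.LT.T5.instMeasurableSpaceG

section Closed

variable (P : EKCond)
variable (K K' : Type) [Field K] [NumberField K] [Field K'] [NumberField K'] [Algebra K K']
variable (Mt : MtRel K K')

/-- **LEAF F2 in the operator form, CLOSED** (the proof of helper311, `ekProdDownC311`, for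
`IsL2PreOp`). -/
theorem ekProdDownOpC_closed893 : EkProdDownOpC K K' := by
  intro ℓ Φ B hB g hg E hE X k m hX
  have hF : IsFrame5 B.R := hB.frame
  have hT : H32.ConvTestC32 E.𝔫 B.R.μ := fun a b ha hb =>
    H872.isTestFn_conv872 hF.frame.haar hE.level_ne ha hb
  have h1 : H32.IsEKTest32 E.𝔫 B.R.μ (E.F₁ X) :=
    ⟨hE.dn1_test X hX, (hE.dn1_ek X hX).1, (hE.dn1_ek X hX).2⟩
  have hpre : H311.IsPre311 E.𝔫 B.R.μ E.f₂ :=
    H311.isPre_of_test311 hE.dn2_test hE.dn2_ek.1 hE.dn2_ek.2
  have hL : H311.IsLInv311 E.𝔫 B.u E.f₂ :=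
    ⟨fun x hx y => (hE.dn2_inv.1 x hx y).1,
      fun h hl hI y => (hE.dn2_inv.2 h hl.1 (fun v hv => hl.2 v (hv 0 Nat.zero_lt_one))
        (fun _ _ => hI) y).1⟩
  have h2 := H311.isEKTest_regL311 hF.frame hpre hL hE.u_level hE.sys hE.unif k m
  exact H32.isEKProd_mk32 hT h1 h2

/-- **THE OPEN WALL of `SupplySC`** (integration v2). -/
structure OpenSupply893b : Prop where
  glob : GlobC K K' Mt
  constr : ConstrC P K K' Mt
  regSupp : RegSuppC K'
  ekUp : EkProdUpOpC K K'
  opUp : OpUpC K K'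
  opDown : OpDownC K K'

variable {P K K' Mt}

/-- **THE STABLE SUPPLY from the open wall** (the closed leaves are discharged). -/
theorem supplySC_of_open893b (h : OpenSupply893b P K K' Mt) : SupplySC P K K' :=
  supplySC_of_open893
    { setup := Fermat.Agent.LT.T7.H644.setupC644 K K'
      glob := h.glob
      constr := h.constr
      regSupp := h.regSupp
      regSupp0 := Fermat.Agent.LT.T7.H771.regSupp0C771 K
      ekUp := h.ekUp
      ekDown := ekProdDownOpC_closed893 K K'
      opUp := h.opUp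
      opDown := h.opDown }

end Closed

end Fermat.Agent.LT.T7.H893

end

end
-- ===== PACK-END LT/T7/H893/SupplyClosed2.lean

-- ===== PACK-BEGIN LT/T7/H893/SupplyClosed3.lean
section




/-!
# Row LT, tower T7, node T7.L2.1 `SupplySC` (sub-architect helper893): INTEGRATION v3

OFF-MAIN.  No `sorry`, nothing assumed.  ADDITIVE.  The five cuts with the closed leaves
discharged (ONE closure):

* closed: `ProjC` (helper40), `EkProdDownOpC` (proof of helper311), `RegSupp0C` (helper771),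
  `KillUpC`, `KillDownC`, `ClassDownC`, `CommDownC` (helper277);
* OPEN (the structure `OpenSupply893c`): `SetupRC` (setup WITH the ramified places),
  `GlobMatchC305` (helper305), `AvgMatchC893`, `BaseC P`, `ProdMtC κ` (for every nowhere zero
  `κ`), `RegSuppC K'`, `EkProdUpOpC`, `OpUpC`, `OpDownC`.

    supplySC_of_open893c : OpenSupply893c P K K' → T7.SupplySC P K K'
-/

set_option autoImplicit false

open AutomorphicForm IsDedekindDomain NumberField MeasureTheory
open scoped ComplexConjugate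

noncomputable section

namespace Fermat.Agent.LT.T7.H893

open Fermat.Agent.LT Fermat.Agent.LT.H556 Fermat.Agent.LT.H556.A0 Fermat.Agent.LT.T7

attribute [local instance] Fermat.Agent.LT.T5.instMeasurableSpaceG

section Closed

variable (P : EKCond)
variable (K K' : Type) [Field K] [NumberField K] [Field K'] [NumberField K'] [Algebra K K']

/-- **THE OPEN WALL of `SupplySC`** (integration v3, after the fifth cut). -/
structure OpenSupply893c : Prop where
  setupR : SetupRC K K'
  globMatch : Fermat.Agent.LT.T7.H305.GlobMatchC305 K K'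
  avgMatch : AvgMatchC893 K K'
  base : BaseC P K K'
  prodMt : ∀ κ : KapFn K K', (∀ D μc T₀ n m, κ D μc T₀ n m ≠ 0) → ProdMtC K K' κ
  regSupp : RegSuppC K'
  ekUp : EkProdUpOpC K K'
  opUp : OpUpC K K'
  opDown : OpDownC K K'

variable {P K K'}

/-- **THE STABLE SUPPLY from the open wall** (the closed leaves are discharged). -/
theorem supplySC_of_open893c (h : OpenSupply893c P K K') : SupplySC P K K' :=
  supplySC_of_fifth893 h.setupR (Fermat.Agent.LT.T7.H40.projC893_closed40 K')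
    (Fermat.Agent.LT.T7.H40.projC893_closed40 K) h.globMatch h.avgMatch h.base h.prodMt
    h.regSupp (Fermat.Agent.LT.T7.H771.regSupp0C771 K) h.ekUp (ekProdDownOpC_closed893 K K')
    h.opUp (Fermat.Agent.LT.T7.H277.killUpC277 K K') h.opDown
    (Fermat.Agent.LT.T7.H277.classDownC277 K K') (Fermat.Agent.LT.T7.H277.commDownC277 K K')
    (Fermat.Agent.LT.T7.H277.killDownC277 K K')

end Closed

end Fermat.Agent.LT.T7.H893

end

end
-- ===== PACK-END LT/T7/H893/SupplyClosed3.lean

-- ===== PACK-BEGIN LT/T7/H893/SupplyClosed4.lean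
section








/-!
# Row LT, tower T7, node T7.L2.1 `SupplySC` (sub-architect helper893): INTEGRATION v4

OFF-MAIN.  No `sorry`, nothing assumed.  ADDITIVE.  The five cuts with ALL bookkeeping leaves
discharged (ONE closure, byte-identical copies):

* `SetupRC` : helper666 (`T7/H666/SetupR.lean` `setupRC666`, `UnramBridge.lean`);
* `ProjC` : helper40;  `EkProdUpOpC` : helper83;  `EkProdDownOpC` : proof of helper311;
* `OpUpC` : helper281 (+ 439, 646, 510, 271);  `OpDownC` : helper267;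
* `KillUpC`, `KillDownC`, `ClassDownC`, `CommDownC` : helper277;
* `RegSupp0C` : helper771;  `RegSuppC` is FALSE AS TYPED (referee helper771,
  `regSuppC_false771`: `orbit_ne` was missing); the corrected leaf `RegSuppNeC771` is PROVED by
  helper771 and the chain is repeated here with it (`exists_depth_up771`).

OPEN (the structure `OpenSupply893d`) = THE GEOMETRIC CORE ONLY:
`H305.GlobMatchC305` (helper305), `AvgMatchC893`, `BaseC P`, `ProdMtC κ` (every nowhere zero `κ`).

    supplySC_of_open893d : OpenSupply893d P K K' → T7.SupplySC P K K'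
-/

set_option autoImplicit false

open AutomorphicForm IsDedekindDomain NumberField MeasureTheory
open scoped ComplexConjugate

noncomputable section

namespace Fermat.Agent.LT.T7.H893

open Fermat.Agent.LT Fermat.Agent.LT.H556 Fermat.Agent.LT.H556.A0 Fermat.Agent.LT.T7
open Fermat.Agent.LT.T7.H305

attribute [local instance] Fermat.Agent.LT.T5.instMeasurableSpaceG

section Closed

variable {P : EKCond}
variable {K K' : Type} [Field K] [NumberField K] [Field K'] [NumberField K'] [Algebra K K']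
variable {Mt : MtRel K K'}

/-- **LEAF C0R, CLOSED** (helper666). -/
theorem setupRC_closed893 : SetupRC K K' := fun ℓ hcyc hℓ hcplx Φ hΦ hconst =>
  let ⟨B, hB, hU⟩ := Fermat.Agent.LT.T7.H666.setupRC666 K K' ℓ hcyc hℓ hcplx Φ hΦ hconst
  ⟨B, hB, fun v w hvw hw => Fermat.Agent.LT.T7.H666.exists_not_mem_sq666 (hU v w hvw hw)⟩

/-- **The pre-data with regularity and matching, for ONE common part and ONE bad element**,
with the corrected support leaf of helper771 (closed). -/
theorem exists_isL2Pre_of893d {ℓ : ℕ} {Φ : HeckeEigensystem K' ℂ} {B : L2Base K K'}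
    (hcyc : IsCycExt K K' ℓ) (hℓ : ℓ ≠ 2) (hcplx : TotCplx K) (hB : IsL2Base ℓ Φ B)
    {g : G K'} (hg : B.IsBad g) {E : L2Pre K K'} (hOp : IsL2PreOp ℓ Φ B g E)
    (hSupp : IsL2PreSupp ℓ B E)
    (hMt : ∀ (X : List (Gen K')) (k : ℤ) (m : ℕ), (∀ x ∈ X, x.Out B.S') →
      Mt B E.𝔫 (E.up B X k m) (E.down B X k m))
    (hG : GlobC K K' Mt) :
    ∃ E' : L2Pre K K', IsL2Pre ℓ Φ B g E' := by
  obtain ⟨mu, hmu⟩ := Fermat.Agent.LT.T7.H771.exists_depth_up771 hB hg hOp hSupp
    (Fermat.Agent.LT.T7.H771.regSuppNeC771 K') hcyc.prime.pos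
  obtain ⟨md, hmd⟩ := exists_depth_down893 hOp hSupp (Fermat.Agent.LT.T7.H771.regSupp0C771 K)
  refine ⟨{ E with m₀ := fun X => max (mu X) (md X) }, ?_⟩
  exact
    { level_ne := hOp.level_ne
      level_g := hOp.level_g
      mem_S'_g := hOp.mem_S'_g
      u_level := hOp.u_level
      sysg := hOp.sysg
      sys' := hOp.sys'
      unif' := hOp.unif'
      sys := hOp.sys
      unif := hOp.unif
      up1_test := hOp.up1_test
      up1_ek := hOp.up1_ek
      up1_op := hOp.up1_op
      up2_test := hOp.up2_test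
      up2_ek := hOp.up2_ek
      up2_inv := hOp.up2_inv
      up2_op := hOp.up2_op
      up2_kill := hOp.up2_kill
      up_ne := hOp.up_ne
      dn1_test := hOp.dn1_test
      dn1_ek := hOp.dn1_ek
      dn1_op := hOp.dn1_op
      dn1_wfn := hOp.dn1_wfn
      dn1_class := hOp.dn1_class
      dn1_comm := hOp.dn1_comm
      dn2_test := hOp.dn2_test
      dn2_ek := hOp.dn2_ek
      dn2_inv := hOp.dn2_inv
      dn2_wfn := hOp.dn2_wfn
      dn2_class := hOp.dn2_class
      dn2_comm := hOp.dn2_comm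
      dn2_kill := hOp.dn2_kill
      reg_up := fun X k m hX hm => hmu X k m hX (le_trans (le_max_left _ _) hm)
      reg_down := fun X k m hX hm => hmd X k m hX (le_trans (le_max_right _ _) hm)
      matched := fun X k m hX hm =>
        hG ℓ Φ hcyc hℓ hcplx B hB E.𝔫 hOp.level_ne _ _ (hMt X k m hX)
          (Fermat.Agent.LT.T7.H83.ekProdUpOpC83 K K' ℓ Φ B hB g hg E hOp X k m hX).1
          (hmu X k m hX (le_trans (le_max_left _ _) hm))
          (ekProdDownOpC_closed893 K K' ℓ Φ B hB g hg E hOp X k m hX).1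
          (hmd X k m hX (le_trans (le_max_right _ _) hm)) }

/-- **THE STABLE SUPPLY from the matching theorem and the construction** (every relation `Mt`;
all bookkeeping leaves discharged). -/
theorem supplySC_of_core893 (hG : GlobC K K' Mt) (hC : ConstrRC P K K' Mt) :
    SupplySC P K K' := by
  intro ℓ hcyc hℓ hcplx Φ hΦ hconst hPΦ
  obtain ⟨B, hB, hRam⟩ := setupRC_closed893 (K := K) (K' := K') ℓ hcyc hℓ hcplx Φ hΦ hconst
  have hex : ∀ g : G K', ∃ Fm : L2Fam K K', B.IsBad g → IsL2Fam ℓ Φ B g Fm := by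
    intro g
    by_cases hg : B.IsBad g
    · obtain ⟨E, hOp, hSupp, hMt⟩ := hC ℓ hcyc hℓ hcplx Φ hΦ hconst hPΦ B hB hRam g hg
      obtain ⟨E', hE'⟩ := exists_isL2Pre_of893d hcyc hℓ hcplx hB hg hOp hSupp hMt hG
      exact ⟨E'.toFam B, fun _ => isL2Fam_toFam893 hB hg hE'
        (ekProdUpC_of_op893 (Fermat.Agent.LT.T7.H83.ekProdUpOpC83 K K'))
        (ekProdDownC_of_op893 (ekProdDownOpC_closed893 K K'))
        (Fermat.Agent.LT.T7.H281.opUpC281 K K') (Fermat.Agent.LT.T7.H277.killUpC277 K K')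
        (Fermat.Agent.LT.T7.H893.H267.opDownC267 K K')
        (Fermat.Agent.LT.T7.H277.classDownC277 K K')
        (Fermat.Agent.LT.T7.H277.commDownC277 K K')
        (Fermat.Agent.LT.T7.H277.killDownC277 K K')⟩
    · exact ⟨⟨⊥, fun _ => 0, fun _ _ _ _ => 0, fun _ _ _ _ => 0, fun _ => 0⟩,
        fun h => absurd h hg⟩
  choose Fm hFm using hex
  exact ⟨B.toData Fm,
    isL2Data_toData893 hB (Fermat.Agent.LT.T7.H40.projC893_closed40 K')
      (Fermat.Agent.LT.T7.H40.projC893_closed40 K) Fm hFm,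
    isStable_toData893 hB Fm⟩

variable (P K K')

/-- **THE OPEN WALL of `SupplySC`** (integration v4): the geometric core. -/
structure OpenSupply893d : Prop where
  globMatch : GlobMatchC305 K K'
  avgMatch : AvgMatchC893 K K'
  base : BaseC P K K'
  prodMt : ∀ κ : KapFn K K', (∀ D μc T₀ n m, κ D μc T₀ n m ≠ 0) → ProdMtC K K' κ

variable {P K K'}

/-- **THE STABLE SUPPLY from the open wall.** -/
theorem supplySC_of_open893d (h : OpenSupply893d P K K') : SupplySC P K K' := by
  obtain ⟨κ, hκ0, hκ⟩ := exists_goodKap893 h.globMatch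
  exact supplySC_of_core893 (globC_of893 hκ h.avgMatch)
    (constrRC_of893 h.base (h.prodMt κ hκ0))

end Closed

end Fermat.Agent.LT.T7.H893

end

end
-- ===== PACK-END LT/T7/H893/SupplyClosed4.lean

-- ===== PACK-BEGIN LT/T7/H561/RegArch.lean
section



/-!
# Row LT, tower T7, node T7.L2.1.H2b `ProdMtCb`, LEAF P.L3 = `RegArchC51` (helper561): PROVED

OFF-MAIN.  Every proof is complete, nothing assumed.  ADDITIVE (new names only, ending in `561`).
Statement of record: `T7/P51/ProdMtSpec.lean` (helper51, sha256 4b4a6c6c), byte-identical copy.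

    regArchC561 (K K') : P51.RegArchC51 K K'

Proof.  The components at infinity of the product are `T6.convInt μc (Φ₁ w) (Φ₂ w)` and
`T6.convInt μc (F₁ v) (F₂ v)` (shape `LocProd51`); the factors are continuous with compact
support and invariant under the complex conjugation (`ArchOk893` of the two pairs: the clauses
`arch_up`, `arch_down` of the local hypotheses).  For a Haar measure `μ` of a locally compact
second countable Hausdorff group: the convolution of two continuous functions with compact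
support is continuous (`continuousOn_integral_of_compact_support`) with support in the product
of the supports; a Haar measure is invariant under a continuous involutive automorphism
(`mulEquivHaarChar`: the scalar is a positive square root of `1`), so the convolution of two
invariant functions is invariant.
-/

set_option autoImplicit false
set_option linter.unusedSectionVars false
set_option linter.style.haveILetI false

open AutomorphicForm IsDedekindDomain NumberField MeasureTheory Topology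
open scoped ComplexConjugate Pointwise

noncomputable section

namespace Fermat.Agent.LT.T7.H561

open Fermat.Agent.LT.H556 Fermat.Agent.LT.H556.A0 Fermat.Agent.LT.T7
open Fermat.Agent.LT.T7.H305 Fermat.Agent.LT.T7.H893

/-! ## 1. Convolution on a locally compact group (Mathlib only) -/

section General

variable {H : Type} [Group H] [TopologicalSpace H] [IsTopologicalGroup H]
  [MeasurableSpace H] [BorelSpace H]

theorem continuous_convInt561 (μ : Measure H) [IsFiniteMeasureOnCompacts μ] {f g : H → ℂ}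
    (hf : Continuous f) (hfs : HasCompactSupport f) (hg : Continuous g) :
    Continuous (T6.convInt μ f g) := by
  have h1 : ContinuousOn (Function.uncurry fun (x : H) (h : H) => f h * g (h⁻¹ * x))
      (Set.univ ×ˢ Set.univ) := by
    apply Continuous.continuousOn
    exact (hf.comp continuous_snd).mul
      (hg.comp ((continuous_snd.inv).mul continuous_fst))
  have h2 := continuousOn_integral_of_compact_support (μ := μ) (s := Set.univ) hfs h1
    (fun p x _ hx => by
      have : f x = 0 := image_eq_zero_of_notMem_tsupport hx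
      simp [this])
  exact continuousOn_univ.1 h2

theorem hasCompactSupport_convInt561 (μ : Measure H) {f g : H → ℂ}
    (hfs : HasCompactSupport f) (hgs : HasCompactSupport g) :
    HasCompactSupport (T6.convInt μ f g) := by
  have hK : IsCompact (tsupport f * tsupport g) := hfs.isCompact.mul hgs.isCompact
  refine HasCompactSupport.intro hK fun x hx => ?_
  show ∫ h, f h * g (h⁻¹ * x) ∂μ = 0
  refine integral_eq_zero_of_ae (Filter.Eventually.of_forall fun h => ?_)
  by_cases h1 : h ∈ tsupport f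
  · by_cases h2 : h⁻¹ * x ∈ tsupport g
    · exact absurd ⟨h, h1, h⁻¹ * x, h2, by simp⟩ hx
    · have : g (h⁻¹ * x) = 0 := image_eq_zero_of_notMem_tsupport h2
      simp [this]
  · have : f h = 0 := image_eq_zero_of_notMem_tsupport h1
    simp [this]

/-- A regular Haar measure is invariant under a continuous involutive automorphism. -/
theorem map_invol_eq561 [LocallyCompactSpace H] (μ : Measure H) [μ.IsHaarMeasure] [μ.Regular]
    (c : H ≃ₜ* H) (hc : ∀ x, c (c x) = x) : μ.map c = μ := by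
  have h1 : mulEquivHaarChar (c.trans c) = 1 := by
    have : c.trans c = ContinuousMulEquiv.refl H := by
      ext x
      exact hc x
    rw [this, mulEquivHaarChar_refl]
  rw [mulEquivHaarChar_trans] at h1
  have h2 : mulEquivHaarChar c = 1 := by
    have h3 : (mulEquivHaarChar c) ^ 2 = 1 := by rw [pow_two]; exact h1
    exact (pow_eq_one_iff_of_nonneg zero_le two_ne_zero).1 h3
  have h4 := mulEquivHaarChar_smul_map μ c
  rw [h2, one_smul] at h4
  exact h4

theorem convInt_invol561 [LocallyCompactSpace H] (μ : Measure H) [μ.IsHaarMeasure] [μ.Regular]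
    (c : H ≃ₜ* H) (hc : ∀ x, c (c x) = x) {f g : H → ℂ}
    (hfc : ∀ x, f (c x) = f x) (hgc : ∀ x, g (c x) = g x) (x : H) :
    T6.convInt μ f g (c x) = T6.convInt μ f g x := by
  have hm := map_invol_eq561 μ c hc
  show ∫ h, f h * g (h⁻¹ * c x) ∂μ = ∫ h, f h * g (h⁻¹ * x) ∂μ
  calc ∫ h, f h * g (h⁻¹ * c x) ∂μ
      = ∫ h, f h * g (h⁻¹ * c x) ∂(μ.map c) := by rw [hm]
    _ = ∫ h, f (c h) * g ((c h)⁻¹ * c x) ∂μ :=
        integral_map_equiv c.toHomeomorph.toMeasurableEquiv _
    _ = ∫ h, f h * g (h⁻¹ * x) ∂μ := by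
        refine integral_congr_ae (Filter.Eventually.of_forall fun h => ?_)
        simp only
        rw [hfc, ← map_inv, ← map_mul, hgc]

end General

/-! ## 2. The group `GL₂(ℂ)` -/

section GL2C

theorem secondCountable_GL2C561 : SecondCountableTopology (GL (Fin 2) ℂ) := by
  have : SecondCountableTopology (Matrix (Fin 2) (Fin 2) ℂ) :=
    inferInstanceAs (SecondCountableTopology (Fin 2 → Fin 2 → ℂ))
  have : SecondCountableTopology (Matrix (Fin 2) (Fin 2) ℂ)ᵐᵒᵖ :=
    MulOpposite.opHomeomorph.symm.secondCountableTopology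
  exact (Units.isEmbedding_embedProduct (M := Matrix (Fin 2) (Fin 2) ℂ)).secondCountableTopology

theorem locallyCompact_GL2C561 : LocallyCompactSpace (GL (Fin 2) ℂ) := by
  have : LocallyCompactSpace (Matrix (Fin 2) (Fin 2) ℂ) :=
    inferInstanceAs (LocallyCompactSpace (Fin 2 → Fin 2 → ℂ))
  exact (Units.isClosedEmbedding_embedProduct (α := Matrix (Fin 2) (Fin 2) ℂ)).locallyCompactSpace

theorem continuous_conjGL561 : Continuous (conjGL305 : GL (Fin 2) ℂ → GL (Fin 2) ℂ) := by
  have h : Continuous (fun M : Matrix (Fin 2) (Fin 2) ℂ => M.map (starRingEnd ℂ)) :=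
    Continuous.matrix_map continuous_id Complex.continuous_conj
  have h' : Continuous ((RingHom.mapMatrix (starRingEnd ℂ)).toMonoidHom :
      Matrix (Fin 2) (Fin 2) ℂ →* Matrix (Fin 2) (Fin 2) ℂ) := h
  exact Continuous.units_map _ h'

theorem conjGL_conjGL561 (x : GL (Fin 2) ℂ) : conjGL305 (conjGL305 x) = x := by
  apply Units.ext
  ext i j
  simp [conjGL305, Matrix.GeneralLinearGroup.map]

/-- The complex conjugation of `GL₂(ℂ)` as a continuous automorphism. -/
def conjEquiv561 : GL (Fin 2) ℂ ≃ₜ* GL (Fin 2) ℂ where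
  toFun := conjGL305
  invFun := conjGL305
  left_inv := conjGL_conjGL561
  right_inv := conjGL_conjGL561
  map_mul' := map_mul conjGL305
  continuous_toFun := continuous_conjGL561
  continuous_invFun := continuous_conjGL561

/-- **Convolution of two continuous functions with compact support on `GL₂(ℂ)` which are
invariant under the complex conjugation.** -/
theorem regArch_conv561 (μc : @Measure (GL (Fin 2) ℂ) (borel _))
    (hμ : @Measure.IsHaarMeasure _ _ _ (borel _) μc) {f g : GL (Fin 2) ℂ → ℂ}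
    (hf : Continuous f ∧ HasCompactSupport f ∧ ∀ x : GL (Fin 2) ℂ, f (conjGL305 x) = f x)
    (hg : Continuous g ∧ HasCompactSupport g ∧ ∀ x : GL (Fin 2) ℂ, g (conjGL305 x) = g x) :
    Continuous (@T6.convInt _ _ (borel _) μc f g) ∧
      HasCompactSupport (@T6.convInt _ _ (borel _) μc f g) ∧
      ∀ x : GL (Fin 2) ℂ,
        @T6.convInt _ _ (borel _) μc f g (conjGL305 x) = @T6.convInt _ _ (borel _) μc f g x := by
  letI : MeasurableSpace (GL (Fin 2) ℂ) := borel _
  haveI : BorelSpace (GL (Fin 2) ℂ) := ⟨rfl⟩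
  haveI := secondCountable_GL2C561
  haveI := locallyCompact_GL2C561
  haveI : μc.IsHaarMeasure := hμ
  haveI : μc.Regular := inferInstance
  exact ⟨continuous_convInt561 μc hf.1 hf.2.1 hg.1, hasCompactSupport_convInt561 μc hf.2.1 hg.2.1,
    fun x => convInt_invol561 μc conjEquiv561 conjGL_conjGL561 hf.2.2 hg.2.2 x⟩

end GL2C

/-! ## 3. The leaf -/

section Leaf

variable (K K' : Type) [Field K] [NumberField K] [Field K'] [NumberField K'] [Algebra K K']

/-- **LEAF P.L3 = REG-ARCH** of the cut of `H893.ProdMtCb` (helper51), VERBATIM,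
UNCONDITIONAL. -/
theorem regArchC561 : Fermat.Agent.LT.T7.P51.RegArchC51 K K' := by
  intro ℓ Φ B g 𝔫 μc T₀ n n₀ m H' z' H z t k j T φ₀ Φ' f₀ F hloc
  obtain ⟨hctx, -, -, hprod⟩ := hloc
  obtain ⟨T₁, T₂, φ₁, Φ₁, f₁, F₁, φ₂, Φ₂, f₂, F₂, -, -, -, hA, hB, -, -, -, -, -, hinfU, hinfD⟩ :=
    hprod
  have hA' : ArchOk893 (B.comp 𝔫) μc n m φ₁ Φ₁ f₁ F₁ := hA.2.2.2
  have hB' : ArchOk893 (B.comp 𝔫) μc n m φ₂ Φ₂ f₂ F₂ := hB.2.2.2.2.2
  refine ⟨fun w => ?_, fun v => ?_⟩
  · rw [hinfU w]
    exact regArch_conv561 μc hctx.haar (hA'.1.arch_up w) (hB'.1.arch_up w)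
  · rw [hinfD v]
    exact regArch_conv561 μc hctx.haar (hA'.1.arch_down v) (hB'.1.arch_down v)

end Leaf

end Fermat.Agent.LT.T7.H561

end

end
-- ===== PACK-END LT/T7/H561/RegArch.lean

-- ===== PACK-BEGIN LT/T7/H57/PreBSpec.lean
section



/-!
# Row LT, tower T7, node T7.L2.1.H2a.B.0 `PB57.PreBC57` (registry row 2791, owner helper57):
# THE UN-AVERAGED SECOND PAIR -- SECOND CUT, Spec

OFF-MAIN.  Definitions and frozen Props only (the proved top is `PreBTop.lean`).  No hole,
nothing assumed.  ADDITIVE (new names only, all suffixed `57`, namespace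
`Fermat.Agent.LT.T7.PB57`).  Vocabulary, byte-identical copies: `T7/H57/PairBSpec.lean`
(40309edd) and its closure (`Q797.PairAC797`, `Q797.IsPairA797`, `H893.LocA893`,
`H893.LocB893b`, `H893.LocHyp893`, `H893.IsAvgPure`).

    preBC_of57 : (∃ μc, Haar μc) → Q797.PairAC797 P K K' LocA893 → BadPartC57 K K'
        → OpenSwap57 K K' → PreBC57 P K K' H893.LocB893b

## The cut: THE SECOND PAIR IS THE FIRST PAIR WITH THE COMPONENTS AT THE LEVEL SWAPPED

The first pair of the empty word `(Φ₁ [], F₁ [])` (node `Q797.PairAC797`, registry row 2728,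
helper981) is an average of pure tensors with UNIT components `1_{U(n w)}`, `1_{U(m v)}` at the
places of the level (`H893.LocA893`), for EVERY level.  The un-averaged second pair is the
average of the SAME pure tensors with the components at the places of the level replaced:

* upstairs (`swUp57`): the Iwahori function at the places over `u`, the unit `1_{U(n₀ w)}` of
  the BASE level at the other places of the level;
* downstairs (`swDn57`): the Iwahori function at `u`, a PARTNER `fb v` of the double coset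
  function of the bad element at the other places of the level (`IsBadPart57`; T6).

`φ° = swapUpFn57 …`, `f° = swapDnFn57 … a …` (explicit functions of the data of the average of
the first pair).  The swapped pure tensor upstairs is the sum of the right translates of the
pure tensor by representatives of `H / U(𝔫 𝒪_{K'})`, `H = U(𝔑₀) ∩ ⋂ I_{o j}` (elements of the
maximal compact subgroup at the places of the level, `1` elsewhere); downstairs it is a finite
linear combination of left translates by elements supported at the places of the level.  So ALL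
properties of the second pair are SOFT consequences of the properties of the first pair (T3 and
T6 base change enter only through `Q797.PairAC797`), and the partner is the only new input
(T6: `T6.BadMatchC` at the levels of record, adapter of helper22; convolution products in ONE
enumeration at the split bad places).

* **`BadPartC57 K K'`** (LEAF, [L], T6): the level `𝔫` and the partner family.
* **`SwapUpSumC57`**, **`SwapDnSumC57`** (LEAVES, [M]; pure tensor calculus): THE KEY
  IDENTITIES (sums of translates).  The other swap leaves may be delivered CONDITIONAL on them.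
* **`SwapUpTestC57`, `SwapUpEKC57`, `SwapUpInvC57`, `SwapUpOpC57`, `SwapUpSuppC57`,
  `SwapMemUpC57`** (LEAVES, one per field of `IsPreB57` upstairs + the members of the average).
* **`SwapDnTestC57`, `SwapDnEKC57`, `SwapDnInvC57`, `SwapDnOpC57`, `SwapDnSuppC57`,
  `SwapMemDnC57`** (the same downstairs).
* **`SwapLocC57`** (LEAF, [S]): the swapped components satisfy `H893.LocB893b`.

FALSITY CHECKS (helper57).
(a) `R(φ(· h⁻¹)) ψ = R(φ) (ψ(· h))` (right invariance of the Haar measure, `IsFrame.right_inv`)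
and `ψ(· h) = ψ` for `h ∈ H` and `ψ` an eigenfunction of the base level (`IsCuspFn.aut.level_inv`
at the bad places, `IsWFn.iw` along the orbit): `c₂ = [H : U(𝔫 𝒪_{K'})] · c₁ ≠ 0` on the class.
(b) `T5.IsEK` is `R(φ) Ψ = 0` for the Borel-invariant `Ψ`: stable under left and right
translations and finite sums (continuous functions of compact support are integrable against
continuous functions).  The adjoint of a right translate is a left translate of the adjoint.
(c) The principal congruence subgroups are NORMAL in `GL₂(𝒪)`: the right translate of a test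
function of level `𝔫 𝒪_{K'}` by an element of the maximal compact subgroup (finite places) is a
test function of the same level.  Downstairs the single left translates are not
bi-invariant, the SUM is (the partner is bi-`U(m v)`-invariant: `IsBadPart57.inv_down`).
(d) `R(f(x⁻¹ ·)) χ (g) = (R(f) χ)(g x)` (left invariance of the Haar measure).  So
`R(f°) χ = a ∑ₓ cₓ (R(f) χ)(· x)`, a Hecke operator at the places of the level applied to
`R(f) χ`; it preserves `IsWFn`, `IsEigFn` (it commutes with the Hecke operators outside the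
level and with the sphere means) and commutes with `iwOp`, `shiftOp` at `u` (the elements `x`
are products of an element supported at the bad places `≠ u` and an Iwahori element at `u`;
`iwOp` preserves the Iwahori invariance).  With `dn1_wfn`, `dn1_class`, `dn1_comm` of the first
pair this gives `dn_wfn`, `dn_class`, `dn_comm`.
(e) The leaves hold for EVERY constant `a` (also `a = 0`) and for an empty parameter space.
(f) The data of the average are universally quantified: the leaves hold for every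
presentation of the first pair as an average of pure tensors with the condition `LocA893`.
(g) `n w ≥ n₀ w` (`IsLevel797.level_g`) and `n w ≥ 1` at the places over `u`
(`IsLevel797.u_level`): `U(n w) ⊆ U(n₀ w)`, `U(n w) ⊆ I_w`, finite index.
(h) The place of `K` under a place of `K'` is unique (`PlaceOver`), so the two swaps touch the
components at the places of the level only and `H893.SphOut893` is unchanged.
-/

set_option autoImplicit false

open AutomorphicForm IsDedekindDomain NumberField MeasureTheory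
open scoped ComplexConjugate

noncomputable section

namespace Fermat.Agent.LT.T7.PB57

open Fermat.Agent.LT.H556 Fermat.Agent.LT.H556.A0 Fermat.Agent.LT.T7
open Fermat.Agent.LT.T7.H893 Fermat.Agent.LT.T7.H305 Fermat.Agent.LT.T7.Q797

attribute [local instance] Fermat.Agent.LT.T5.instMeasurableSpaceG

/-! ## 1. Vocabulary -/

section Defs

variable {K K' : Type} [Field K] [NumberField K] [Field K'] [NumberField K'] [Algebra K K']

open Classical in
/-- **THE PARTNER FAMILY** `fb` of the double coset functions `1_{U₀ g_w U₀}` of the bad element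
`g` at the bad places `v ∈ T₀`, `v ≠ u`, at the levels `(n, m)`: bi-`U(m v)`-invariant of finite
support, and the four non-archimedean clauses of `H893.LocHyp893` hold (stated as: `LocHyp893`
holds for all archimedean components which satisfy the three archimedean clauses). -/
structure IsBadPart57 (B : L2Base K K') (g : G K') (𝔫 : Ideal (𝓞 K))
    (T₀ : Finset (HeightOneSpectrum (𝓞 K)))
    (n n₀ : HeightOneSpectrum (𝓞 K') → ℕ) (m : HeightOneSpectrum (𝓞 K) → ℕ)
    (fb : ∀ v : HeightOneSpectrum (𝓞 K), GL (Fin 2) (v.adicCompletion K) → ℂ) : Prop where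
  inv_down : ∀ v ∈ T₀.erase B.u,
    T6.IsBiInv (T6.InU (m v)) (fb v) ∧ T6.HasFinSupp (T6.InU (m v)) (fb v)
  hyp : ∀ (μc : @Measure (GL (Fin 2) ℂ) (borel _)) (Φ : InfinitePlace K' → GL (Fin 2) ℂ → ℂ)
    (F : InfinitePlace K → GL (Fin 2) ℂ → ℂ),
    (∀ w : InfinitePlace K', Continuous (Φ w) ∧ HasCompactSupport (Φ w) ∧
      ∀ x : GL (Fin 2) ℂ, Φ w (conjGL305 x) = Φ w x) →
    (∀ v : InfinitePlace K, Continuous (F v) ∧ HasCompactSupport (F v) ∧
      ∀ x : GL (Fin 2) ℂ, F v (conjGL305 x) = F v x) →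
    (∀ (v : InfinitePlace K) (w : ℕ → InfinitePlace K'),
      (∀ j : ℕ, (w j).comap (algebraMap K K') = v) →
      (∀ j j' : ℕ, j < (B.comp 𝔫).l → j' < (B.comp 𝔫).l → w j = w j' → j = j') →
      F v = convL305 μc (fun j => Φ (w j)) ((B.comp 𝔫).l - 1)) →
    LocHyp893 (B.comp 𝔫) μc (T₀.erase B.u) n m
      (fun w => dblFn893 (n₀ w) (finGL305 w g)) Φ fb F

open Classical in
/-- **THE SWAP UPSTAIRS**: the Iwahori function at the places over `u`, the unit of the base
level at the other places over `T₀`, the given component elsewhere. -/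
def swUp57 (B : L2Base K K') (T₀ : Finset (HeightOneSpectrum (𝓞 K)))
    (n₀ : HeightOneSpectrum (𝓞 K') → ℕ)
    (φ₀ : ∀ w : HeightOneSpectrum (𝓞 K'), GL (Fin 2) (w.adicCompletion K') → ℂ) :
    ∀ w : HeightOneSpectrum (𝓞 K'), GL (Fin 2) (w.adicCompletion K') → ℂ :=
  fun w => if PlaceOver K K' B.u w then iwFn893
    else if ∃ v ∈ T₀, PlaceOver K K' v w then unitFn893 (n₀ w) else φ₀ w

open Classical in
/-- **THE SWAP DOWNSTAIRS**: the Iwahori function at `u`, the partner at the other places of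
`T₀`, the given component elsewhere. -/
def swDn57 (B : L2Base K K') (T₀ : Finset (HeightOneSpectrum (𝓞 K)))
    (fb : ∀ v : HeightOneSpectrum (𝓞 K), GL (Fin 2) (v.adicCompletion K) → ℂ)
    (f₀ : ∀ v : HeightOneSpectrum (𝓞 K), GL (Fin 2) (v.adicCompletion K) → ℂ) :
    ∀ v : HeightOneSpectrum (𝓞 K), GL (Fin 2) (v.adicCompletion K) → ℂ :=
  fun v => if v = B.u then iwFn893 else if v ∈ T₀ then fb v else f₀ v

/-- **THE FUNCTION UPSTAIRS OF THE UN-AVERAGED SECOND PAIR**: the average of the pure tensors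
with the swapped components. -/
def swapUpFn57 (B : L2Base K K') (T₀ : Finset (HeightOneSpectrum (𝓞 K)))
    (n₀ : HeightOneSpectrum (𝓞 K') → ℕ) {Ω : Type} [MeasurableSpace Ω] (ν : Measure Ω)
    (T' : Ω → Finset (HeightOneSpectrum (𝓞 K')))
    (φ₀ : Ω → ∀ w : HeightOneSpectrum (𝓞 K'), GL (Fin 2) (w.adicCompletion K') → ℂ)
    (Φ : Ω → InfinitePlace K' → GL (Fin 2) ℂ → ℂ) : G K' → ℂ :=
  fun h => ∫ ω, pure305 (T' ω) (swUp57 B T₀ n₀ (φ₀ ω)) (Φ ω) h ∂ν

/-- **THE FUNCTION DOWNSTAIRS OF THE UN-AVERAGED SECOND PAIR**: the average of `a ·` the pure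
tensors with the swapped components. -/
def swapDnFn57 (B : L2Base K K') (T₀ : Finset (HeightOneSpectrum (𝓞 K)))
    (fb : ∀ v : HeightOneSpectrum (𝓞 K), GL (Fin 2) (v.adicCompletion K) → ℂ) (a : ℂ)
    {Ω : Type} [MeasurableSpace Ω] (ν : Measure Ω)
    (T : Ω → Finset (HeightOneSpectrum (𝓞 K)))
    (f₀ : Ω → ∀ v : HeightOneSpectrum (𝓞 K), GL (Fin 2) (v.adicCompletion K) → ℂ)
    (F : Ω → InfinitePlace K → GL (Fin 2) ℂ → ℂ) : G K → ℂ :=
  fun h => ∫ ω, a * pure305 (T ω) (swDn57 B T₀ fb (f₀ ω)) (F ω) h ∂ν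

/-- **THE DATA OF AN AVERAGE OF PURE TENSORS**: the body of `H893.IsAvgPure` for given data
(`H893.IsAvgPure … φ' f` is `∃ data, IsAvgDat57 … φ' f data`, by definition). -/
def IsAvgDat57 (𝔑 : Ideal (𝓞 K')) (𝔫 : Ideal (𝓞 K)) (T₀ : Finset (HeightOneSpectrum (𝓞 K)))
    (L : LocCond K K') (c : ℂ) (φ' : G K' → ℂ) (f : G K → ℂ)
    (Ω : Type) (_ : TopologicalSpace Ω) (_ : MeasurableSpace Ω) (ν : Measure Ω)
    (T : Ω → Finset (HeightOneSpectrum (𝓞 K))) (T' : Ω → Finset (HeightOneSpectrum (𝓞 K')))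
    (φ₀ : Ω → ∀ w : HeightOneSpectrum (𝓞 K'), GL (Fin 2) (w.adicCompletion K') → ℂ)
    (Φ : Ω → InfinitePlace K' → GL (Fin 2) ℂ → ℂ)
    (f₀ : Ω → ∀ v : HeightOneSpectrum (𝓞 K), GL (Fin 2) (v.adicCompletion K) → ℂ)
    (F : Ω → InfinitePlace K → GL (Fin 2) ℂ → ℂ) : Prop :=
    (∀ a : Ω, T₀ ⊆ T a ∧ IsOver305 (T a) (T' a) ∧ L (T a) (φ₀ a) (Φ a) (f₀ a) (F a)) ∧
    (∀ a : Ω, T5.IsTestFn 𝔑 T5.trivType (pure305 (T' a) (φ₀ a) (Φ a))) ∧
    (∀ a : Ω, T5.IsTestFn 𝔫 T5.trivType (fun h => c * pure305 (T a) (f₀ a) (F a) h)) ∧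
    Continuous (fun p : Ω × G K' => pure305 (T' p.1) (φ₀ p.1) (Φ p.1) p.2) ∧
    Continuous (fun p : Ω × G K => c * pure305 (T p.1) (f₀ p.1) (F p.1) p.2) ∧
    (∃ C : Set (G K'), IsCompact C ∧
      ∀ (a : Ω) (h : G K'), pure305 (T' a) (φ₀ a) (Φ a) h ≠ 0 → h ∈ C) ∧
    (∃ C : Set (G K), IsCompact C ∧
      ∀ (a : Ω) (h : G K), pure305 (T a) (f₀ a) (F a) h ≠ 0 → h ∈ C) ∧
    (∀ h : G K', φ' h = ∫ a, pure305 (T' a) (φ₀ a) (Φ a) h ∂ν) ∧
    ∀ h : G K, f h = ∫ a, c * pure305 (T a) (f₀ a) (F a) h ∂ν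

/-- **THE CONTEXT OF THE SWAP LEAVES**: `Q` holds for the common part, every level, every Haar
measure, the exponents, EVERY first pair with the properties `Q797.IsPairA797` for the shape
`LocA893`, EVERY partner family and EVERY presentation of the first pair of the empty word as an
average of pure tensors. -/
def SwapCtx57 (K K' : Type) [Field K] [NumberField K] [Field K'] [NumberField K'] [Algebra K K']
    (Q : ∀ (_ : ℕ) (_ : HeckeEigensystem K' ℂ) (_ : L2Base K K') (_ : G K') (_ : Ideal (𝓞 K))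
      (_ : @Measure (GL (Fin 2) ℂ) (borel _)) (_ : Finset (HeightOneSpectrum (𝓞 K)))
      (_ _ : HeightOneSpectrum (𝓞 K') → ℕ) (_ : HeightOneSpectrum (𝓞 K) → ℕ)
      (_ : EigData K' → ℂ)
      (_ : ∀ v : HeightOneSpectrum (𝓞 K), GL (Fin 2) (v.adicCompletion K) → ℂ)
      (Ω : Type) (_ : TopologicalSpace Ω) (_ : MeasurableSpace Ω) (_ : Measure Ω)
      (_ : Ω → Finset (HeightOneSpectrum (𝓞 K))) (_ : Ω → Finset (HeightOneSpectrum (𝓞 K')))
      (_ : Ω → ∀ w : HeightOneSpectrum (𝓞 K'), GL (Fin 2) (w.adicCompletion K') → ℂ)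
      (_ : Ω → InfinitePlace K' → GL (Fin 2) ℂ → ℂ)
      (_ : Ω → ∀ v : HeightOneSpectrum (𝓞 K), GL (Fin 2) (v.adicCompletion K) → ℂ)
      (_ : Ω → InfinitePlace K → GL (Fin 2) ℂ → ℂ), Prop) : Prop :=
  ∀ ℓ : ℕ, IsCycExt K K' ℓ → ℓ ≠ 2 → TotCplx K →
    ∀ (Φe : HeckeEigensystem K' ℂ) (B : L2Base K K'), IsL2Base ℓ Φe B → B.RamIn →
    ∀ g : G K', B.IsBad g →
    ∀ 𝔫 : Ideal (𝓞 K), IsLevel797 B 𝔫 →
    ∀ μc : @Measure (GL (Fin 2) ℂ) (borel _), @Measure.IsHaarMeasure _ _ _ (borel _) μc →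
    ∀ (T₀ : Finset (HeightOneSpectrum (𝓞 K)))
      (n n₀ : HeightOneSpectrum (𝓞 K') → ℕ) (m : HeightOneSpectrum (𝓞 K) → ℕ),
      IsExp797 B 𝔫 T₀ n n₀ m →
    ∀ (c₁ : EigData K' → ℂ) (Φ₁ : List (Gen K') → G K' → ℂ) (F₁ : List (Gen K') → G K → ℂ),
      IsPairA797 LocA893 ℓ Φe B 𝔫 μc T₀ n m c₁ Φ₁ F₁ →
    ∀ fb : ∀ v : HeightOneSpectrum (𝓞 K), GL (Fin 2) (v.adicCompletion K) → ℂ,
      IsBadPart57 B g 𝔫 T₀ n n₀ m fb →
    ∀ (Ω : Type) (iT : TopologicalSpace Ω) (_ : CompactSpace Ω) (_ : T2Space Ω)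
      (_ : SecondCountableTopology Ω) (iM : MeasurableSpace Ω)
      (_ : BorelSpace Ω) (ν : Measure Ω) (_ : IsFiniteMeasure ν)
      (T : Ω → Finset (HeightOneSpectrum (𝓞 K))) (T' : Ω → Finset (HeightOneSpectrum (𝓞 K')))
      (φ₀ : Ω → ∀ w : HeightOneSpectrum (𝓞 K'), GL (Fin 2) (w.adicCompletion K') → ℂ)
      (Φ : Ω → InfinitePlace K' → GL (Fin 2) ℂ → ℂ)
      (f₀ : Ω → ∀ v : HeightOneSpectrum (𝓞 K), GL (Fin 2) (v.adicCompletion K) → ℂ)
      (F : Ω → InfinitePlace K → GL (Fin 2) ℂ → ℂ),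
      IsAvgDat57 (upI (K' := K') 𝔫) 𝔫 T₀ (LocA893 B 𝔫 μc T₀ n m) 1 (Φ₁ []) (F₁ [])
        Ω iT iM ν T T' φ₀ Φ f₀ F →
      Q ℓ Φe B g 𝔫 μc T₀ n n₀ m c₁ fb Ω iT iM ν T T' φ₀ Φ f₀ F

end Defs

/-! ## 2. The leaves -/

section Leaves

variable (K K' : Type) [Field K] [NumberField K] [Field K'] [NumberField K'] [Algebra K K']

/-- **LEAF PB.0.1 = BAD-PART ([L]; T6).**  For a common part which contains the ramified places
and a bad element `g`: a level `𝔫` with the level properties such that for the exponents of the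
level there is a partner family.
Construction.  `𝔫 = 𝔫₀ ^ d` (`𝔫₀` of `IsL2Base.base_level`; `IsLevel797`: `upI (𝔫₀ ^ d) = 𝔑₀ ^ d`),
`d` so large that at every bad place `v ≠ u` with ONE place `w` over it the double coset
function `1_{U(n₀ w) g_w U(n₀ w)}` has a partner at the levels `(n w, m v) = (d · n₀ w, d · m₀ v)`
(`T6.BadMatchC` + the level changes: adapter `T6/BadLevels22` of helper22; the local fields and
the local extension data: the instances of T6.01; the identifications `i`, `sw` are unique).  At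
a bad place which splits: ONE `σ`-ordered enumeration of the fibre (`H311.EnumExistsC311`,
closed), `n (w j) = m v`, `fb v` = the convolution product of the transported double coset
functions (`T6.IsConv` of bi-invariant functions of finite support exists). -/
def BadPartC57 : Prop :=
  ∀ ℓ : ℕ, IsCycExt K K' ℓ → ℓ ≠ 2 → TotCplx K →
    ∀ (Φe : HeckeEigensystem K' ℂ) (B : L2Base K K'), IsL2Base ℓ Φe B → B.RamIn →
    ∀ g : G K', B.IsBad g →
      ∃ 𝔫 : Ideal (𝓞 K), IsLevel797 B 𝔫 ∧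
        ∀ (T₀ : Finset (HeightOneSpectrum (𝓞 K)))
          (n n₀ : HeightOneSpectrum (𝓞 K') → ℕ) (m : HeightOneSpectrum (𝓞 K) → ℕ),
          IsExp797 B 𝔫 T₀ n n₀ m →
          ∃ fb : ∀ v : HeightOneSpectrum (𝓞 K), GL (Fin 2) (v.adicCompletion K) → ℂ,
            IsBadPart57 B g 𝔫 T₀ n n₀ m fb

/-- **LEAF PB.0.U0 = SWAP-UP-SUM ([M]; THE KEY IDENTITY upstairs).**  The swapped pure tensor
is the sum of the right translates (and of the left translates) of the pure tensor by a finite
set `HU` of elements of `H` (representatives of `H / U(𝔫 𝒪_{K'})`): trivial at infinity and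
outside `S'`, integral with integral inverse, congruent to `1` modulo `𝔑₀` outside the orbit,
Iwahori along the orbit. -/
def SwapUpSumC57 : Prop :=
  SwapCtx57 K K' fun ℓ _ B _ _ _ T₀ _ n₀ _ _ _ Ω _ _ _ _ T' φ₀ Φ _ _ =>
    ∃ HU : Finset (G K'), HU.Nonempty ∧
      (∀ h ∈ HU, (∀ w : InfinitePlace K', TrivAtInf w h) ∧
        (∀ w : HeightOneSpectrum (𝓞 K'), w ∉ B.S' → TrivAtFin w h) ∧
        (∀ w : HeightOneSpectrum (𝓞 K'), IsIntegralAt w h ∧ IsIntegralAt w h⁻¹) ∧
        (∀ w : HeightOneSpectrum (𝓞 K'), (∀ j < ℓ, w ≠ B.o j) → ∀ i j : Fin 2,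
          (finComp w h - 1) i j ∈ idealClosure B.𝔑₀ w ∧
            (finComp w h⁻¹ - 1) i j ∈ idealClosure B.𝔑₀ w) ∧
        ∀ j < ℓ, T5.InIwahori (B.o j) h) ∧
      ∀ (ω : Ω) (x : G K'),
        pure305 (T' ω) (swUp57 B T₀ n₀ (φ₀ ω)) (Φ ω) x
            = ∑ h ∈ HU, pure305 (T' ω) (φ₀ ω) (Φ ω) (x * h⁻¹) ∧
          pure305 (T' ω) (swUp57 B T₀ n₀ (φ₀ ω)) (Φ ω) x
            = ∑ h ∈ HU, pure305 (T' ω) (φ₀ ω) (Φ ω) (h⁻¹ * x)

/-- **LEAF PB.0.D0 = SWAP-DOWN-SUM ([M]; THE KEY IDENTITY downstairs).**  The swapped pure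
tensor is a finite linear combination of left translates of the pure tensor by elements which
are trivial at infinity and outside `T₀` and Iwahori at `u`. -/
def SwapDnSumC57 : Prop :=
  SwapCtx57 K K' fun _ _ B _ _ _ T₀ _ _ _ _ fb Ω _ _ _ T _ _ _ f₀ F =>
    ∃ (X : Finset (G K)) (c : G K → ℂ),
      (∀ x ∈ X, (∀ w : InfinitePlace K, TrivAtInf w x) ∧
        (∀ v : HeightOneSpectrum (𝓞 K), v ∉ T₀ → TrivAtFin v x) ∧ T5.InIwahori B.u x) ∧
      ∀ (ω : Ω) (y : G K),
        pure305 (T ω) (swDn57 B T₀ fb (f₀ ω)) (F ω) y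
          = ∑ x ∈ X, c x * pure305 (T ω) (f₀ ω) (F ω) (x⁻¹ * y)

/-- **LEAF PB.0.U1 = SWAP-UP-TEST** (field `up_test`). -/
def SwapUpTestC57 : Prop :=
  SwapCtx57 K K' fun _ _ B _ 𝔫 _ T₀ _ n₀ _ _ _ _ _ _ ν _ T' φ₀ Φ _ _ =>
    T5.IsTestFn (upI (K' := K') 𝔫) T5.trivType (swapUpFn57 B T₀ n₀ ν T' φ₀ Φ)

/-- **LEAF PB.0.U2 = SWAP-UP-EK** (field `up_ek`). -/
def SwapUpEKC57 : Prop :=
  SwapCtx57 K K' fun _ _ B _ _ _ T₀ _ n₀ _ _ _ _ _ _ ν _ T' φ₀ Φ _ _ =>
    T5.IsEK B.R'.μ (swapUpFn57 B T₀ n₀ ν T' φ₀ Φ) ∧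
      T5.IsEK B.R'.μ (T5.adjointFn (swapUpFn57 B T₀ n₀ ν T' φ₀ Φ))

/-- **LEAF PB.0.U3 = SWAP-UP-INV** (field `up_inv`). -/
def SwapUpInvC57 : Prop :=
  SwapCtx57 K K' fun ℓ _ B _ _ _ T₀ _ n₀ _ _ _ _ _ _ ν _ T' φ₀ Φ _ _ =>
    H193.IsBiHInv B.𝔑₀ ℓ B.o (swapUpFn57 B T₀ n₀ ν T' φ₀ Φ)

/-- **LEAF PB.0.U4 = SWAP-UP-OP** (fields `up_op`, `up_ne`): `c₂ = [H : U] · c₁`. -/
def SwapUpOpC57 : Prop :=
  SwapCtx57 K K' fun ℓ Φe B _ _ _ T₀ _ n₀ _ _ _ _ _ _ ν _ T' φ₀ Φ _ _ =>
    ∃ c₂ : EigData K' → ℂ,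
      (∀ (ψ : G K' → ℂ) (C : EigData K'), IsEigFn B.𝔑₀ B.R'.r ℓ B.o ψ C →
        ∀ x : G K', T5.Rconv B.R'.μ (swapUpFn57 B T₀ n₀ ν T' φ₀ Φ) ψ x = c₂ C * ψ x) ∧
      ∀ C : EigData K', C.AgreeOut B.S' (eigOf Φe) → c₂ C ≠ 0

/-- **LEAF PB.0.U5 = SWAP-UP-SUPP** (field `up_supp`). -/
def SwapUpSuppC57 : Prop :=
  SwapCtx57 K K' fun ℓ _ B _ _ _ T₀ _ n₀ _ _ _ _ _ _ ν _ T' φ₀ Φ _ _ =>
    ∃ C : Set (G K'), IsCompact C ∧
      T5.H32.IsIwSupported32 ℓ B.o C (swapUpFn57 B T₀ n₀ ν T' φ₀ Φ)

/-- **LEAF PB.0.U6 = SWAP-MEM-UP** (the members of the average upstairs: test functions,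
jointly continuous, supported in one compact set). -/
def SwapMemUpC57 : Prop :=
  SwapCtx57 K K' fun _ _ B _ 𝔫 _ T₀ _ n₀ _ _ _ Ω _ _ _ _ T' φ₀ Φ _ _ =>
    (∀ ω : Ω, T5.IsTestFn (upI (K' := K') 𝔫) T5.trivType
      (pure305 (T' ω) (swUp57 B T₀ n₀ (φ₀ ω)) (Φ ω))) ∧
    Continuous (fun p : Ω × G K' => pure305 (T' p.1) (swUp57 B T₀ n₀ (φ₀ p.1)) (Φ p.1) p.2) ∧
    ∃ C : Set (G K'), IsCompact C ∧
      ∀ (ω : Ω) (h : G K'), pure305 (T' ω) (swUp57 B T₀ n₀ (φ₀ ω)) (Φ ω) h ≠ 0 → h ∈ C

/-- **LEAF PB.0.D1 = SWAP-DOWN-TEST** (field `dn_test`). -/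
def SwapDnTestC57 : Prop :=
  SwapCtx57 K K' fun _ _ B _ 𝔫 _ T₀ _ _ _ _ fb _ _ _ ν T _ _ _ f₀ F =>
    ∀ a : ℂ, T5.IsTestFn 𝔫 T5.trivType (swapDnFn57 B T₀ fb a ν T f₀ F)

/-- **LEAF PB.0.D2 = SWAP-DOWN-EK** (field `dn_ek`). -/
def SwapDnEKC57 : Prop :=
  SwapCtx57 K K' fun _ _ B _ _ _ T₀ _ _ _ _ fb _ _ _ ν T _ _ _ f₀ F =>
    ∀ a : ℂ, T5.IsEK B.R.μ (swapDnFn57 B T₀ fb a ν T f₀ F) ∧
      T5.IsEK B.R.μ (T5.adjointFn (swapDnFn57 B T₀ fb a ν T f₀ F))

/-- **LEAF PB.0.D3 = SWAP-DOWN-INV** (field `dn_inv`). -/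
def SwapDnInvC57 : Prop :=
  SwapCtx57 K K' fun _ _ B _ 𝔫 _ T₀ _ _ _ _ fb _ _ _ ν T _ _ _ f₀ F =>
    ∀ a : ℂ, H193.IsBiHInv 𝔫 1 (fun _ => B.u) (swapDnFn57 B T₀ fb a ν T f₀ F)

/-- **LEAF PB.0.D4 = SWAP-DOWN-OP** (fields `dn_wfn`, `dn_class`, `dn_comm`). -/
def SwapDnOpC57 : Prop :=
  SwapCtx57 K K' fun _ _ B _ 𝔫 _ T₀ _ _ _ _ fb _ _ _ ν T _ _ _ f₀ F =>
    ∀ a : ℂ,
      (∀ ψ : G K → ℂ, IsWFn 𝔫 B.R.r 1 (fun _ => B.u) ψ →
        IsWFn 𝔫 B.R.r 1 (fun _ => B.u)
          (T5.Rconv B.R.μ (swapDnFn57 B T₀ fb a ν T f₀ F) ψ)) ∧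
      (∀ (ψ : G K → ℂ) (c : EigData K), IsEigFn 𝔫 B.R.r 1 (fun _ => B.u) ψ c →
        IsEigFn 𝔫 B.R.r 1 (fun _ => B.u)
          (T5.Rconv B.R.μ (swapDnFn57 B T₀ fb a ν T f₀ F) ψ) c) ∧
      ∀ ψ : G K → ℂ, IsWFn 𝔫 B.R.r 1 (fun _ => B.u) ψ →
        ∀ (H : Finset (G K)) (z : G K), IsIwCosetSystem B.u H → IsScalarUniformizerAt B.u z →
          (∀ x : G K, T5.Rconv B.R.μ (swapDnFn57 B T₀ fb a ν T f₀ F) (iwOp B.u H ψ) x
            = iwOp B.u H (T5.Rconv B.R.μ (swapDnFn57 B T₀ fb a ν T f₀ F) ψ) x) ∧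
          ∀ (k : ℤ) (x : G K),
            T5.Rconv B.R.μ (swapDnFn57 B T₀ fb a ν T f₀ F) (shiftOp z k ψ) x
              = shiftOp z k (T5.Rconv B.R.μ (swapDnFn57 B T₀ fb a ν T f₀ F) ψ) x

/-- **LEAF PB.0.D5 = SWAP-DOWN-SUPP** (field `dn_supp`). -/
def SwapDnSuppC57 : Prop :=
  SwapCtx57 K K' fun _ _ B _ _ _ T₀ _ _ _ _ fb _ _ _ ν T _ _ _ f₀ F =>
    ∀ a : ℂ, ∃ C : Set (G K), IsCompact C ∧
      T5.H32.IsIwSupported32 1 (fun _ => B.u) C (swapDnFn57 B T₀ fb a ν T f₀ F)

/-- **LEAF PB.0.D6 = SWAP-MEM-DOWN** (the members of the average downstairs). -/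
def SwapMemDnC57 : Prop :=
  SwapCtx57 K K' fun _ _ B _ 𝔫 _ T₀ _ _ _ _ fb Ω _ _ _ T _ _ _ f₀ F =>
    ∀ a : ℂ,
      (∀ ω : Ω, T5.IsTestFn 𝔫 T5.trivType
        (fun h => a * pure305 (T ω) (swDn57 B T₀ fb (f₀ ω)) (F ω) h)) ∧
      Continuous (fun p : Ω × G K =>
        a * pure305 (T p.1) (swDn57 B T₀ fb (f₀ p.1)) (F p.1) p.2) ∧
      ∃ C : Set (G K), IsCompact C ∧
        ∀ (ω : Ω) (h : G K), pure305 (T ω) (swDn57 B T₀ fb (f₀ ω)) (F ω) h ≠ 0 → h ∈ C

/-- **LEAF PB.0.L = SWAP-LOC ([S]).**  The swapped components satisfy the local condition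
`H893.LocB893b` of the second pair: `LocHyp893` at the bad places from the partner family
(`IsBadPart57.hyp`, archimedean clauses from `ArchOk893` of the first pair), the values of the
swaps (the place under a place of `K'` is unique), `SphOut893` and `ArchOk893` unchanged. -/
def SwapLocC57 : Prop :=
  SwapCtx57 K K' fun _ _ B g 𝔫 μc T₀ n n₀ m _ fb Ω _ _ _ T _ φ₀ Φ f₀ F =>
    ∀ ω : Ω, LocB893b B g 𝔫 μc T₀ n n₀ m (T ω) (swUp57 B T₀ n₀ (φ₀ ω)) (Φ ω)
      (swDn57 B T₀ fb (f₀ ω)) (F ω)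

/-- **THE OPEN LEAVES OF THE SWAP** (the key identities `SwapUpSumC57`, `SwapDnSumC57` are
tools for the provers and do not enter the top). -/
structure OpenSwap57 : Prop where
  upTest : SwapUpTestC57 K K'
  upEK : SwapUpEKC57 K K'
  upInv : SwapUpInvC57 K K'
  upOp : SwapUpOpC57 K K'
  upSupp : SwapUpSuppC57 K K'
  memUp : SwapMemUpC57 K K'
  dnTest : SwapDnTestC57 K K'
  dnEK : SwapDnEKC57 K K'
  dnInv : SwapDnInvC57 K K'
  dnOp : SwapDnOpC57 K K'
  dnSupp : SwapDnSuppC57 K K'
  memDn : SwapMemDnC57 K K'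
  loc : SwapLocC57 K K'

end Leaves

/-! ## Appendix: the equation lemmas of the definitions of this file are realised HERE -/

theorem eqns_realised_preBSpec57 : True := by
  have _h0_0 := @swUp57.eq_1
  have _h0_1 := @swUp57.eq_def
  have _h0_2 := @swUp57.eq_unfold
  have _h1_0 := @swDn57.eq_1
  have _h1_1 := @swDn57.eq_def
  have _h1_2 := @swDn57.eq_unfold
  have _h2_0 := @swapUpFn57.eq_1
  have _h2_1 := @swapUpFn57.eq_def
  have _h2_2 := @swapUpFn57.eq_unfold
  have _h3_0 := @swapDnFn57.eq_1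
  have _h3_1 := @swapDnFn57.eq_def
  have _h3_2 := @swapDnFn57.eq_unfold
  have _h4_0 := @IsAvgDat57.eq_1
  have _h4_1 := @IsAvgDat57.eq_def
  have _h4_2 := @IsAvgDat57.eq_unfold
  have _h5_0 := @SwapCtx57.eq_1
  have _h5_1 := @SwapCtx57.eq_def
  have _h5_2 := @SwapCtx57.eq_unfold
  have _h6_0 := @BadPartC57.eq_1
  have _h6_1 := @BadPartC57.eq_def
  have _h6_2 := @BadPartC57.eq_unfold
  have _h7_0 := @SwapUpSumC57.eq_1
  have _h7_1 := @SwapUpSumC57.eq_def
  have _h7_2 := @SwapUpSumC57.eq_unfold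
  have _h8_0 := @SwapDnSumC57.eq_1
  have _h8_1 := @SwapDnSumC57.eq_def
  have _h8_2 := @SwapDnSumC57.eq_unfold
  have _h9_0 := @SwapUpTestC57.eq_1
  have _h9_1 := @SwapUpTestC57.eq_def
  have _h9_2 := @SwapUpTestC57.eq_unfold
  have _h10_0 := @SwapUpEKC57.eq_1
  have _h10_1 := @SwapUpEKC57.eq_def
  have _h10_2 := @SwapUpEKC57.eq_unfold
  have _h11_0 := @SwapUpInvC57.eq_1
  have _h11_1 := @SwapUpInvC57.eq_def
  have _h11_2 := @SwapUpInvC57.eq_unfold
  have _h12_0 := @SwapUpOpC57.eq_1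
  have _h12_1 := @SwapUpOpC57.eq_def
  have _h12_2 := @SwapUpOpC57.eq_unfold
  have _h13_0 := @SwapUpSuppC57.eq_1
  have _h13_1 := @SwapUpSuppC57.eq_def
  have _h13_2 := @SwapUpSuppC57.eq_unfold
  have _h14_0 := @SwapMemUpC57.eq_1
  have _h14_1 := @SwapMemUpC57.eq_def
  have _h14_2 := @SwapMemUpC57.eq_unfold
  have _h15_0 := @SwapDnTestC57.eq_1
  have _h15_1 := @SwapDnTestC57.eq_def
  have _h15_2 := @SwapDnTestC57.eq_unfold
  have _h16_0 := @SwapDnEKC57.eq_1
  have _h16_1 := @SwapDnEKC57.eq_def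
  have _h16_2 := @SwapDnEKC57.eq_unfold
  have _h17_0 := @SwapDnInvC57.eq_1
  have _h17_1 := @SwapDnInvC57.eq_def
  have _h17_2 := @SwapDnInvC57.eq_unfold
  have _h18_0 := @SwapDnOpC57.eq_1
  have _h18_1 := @SwapDnOpC57.eq_def
  have _h18_2 := @SwapDnOpC57.eq_unfold
  have _h19_0 := @SwapDnSuppC57.eq_1
  have _h19_1 := @SwapDnSuppC57.eq_def
  have _h19_2 := @SwapDnSuppC57.eq_unfold
  have _h20_0 := @SwapMemDnC57.eq_1
  have _h20_1 := @SwapMemDnC57.eq_def
  have _h20_2 := @SwapMemDnC57.eq_unfold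
  have _h21_0 := @SwapLocC57.eq_1
  have _h21_1 := @SwapLocC57.eq_def
  have _h21_2 := @SwapLocC57.eq_unfold
  trivial

end Fermat.Agent.LT.T7.PB57

end

end
-- ===== PACK-END LT/T7/H57/PreBSpec.lean

-- ===== PACK-BEGIN LT/T7/B981/BaseTop.lean
section



/-!
# Row LT, tower T7, node T7.L2.1.H2a `BaseC` (sub-architect helper981, registry 2597):
# FIRST CUT -- the proved top

OFF-MAIN.  Every proof is complete, nothing assumed.

    baseC_of981 : HaarCplxC981 → LvlC981 K K' → SysC981 K K' → Pair1C981 P K K'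
                    → Pair2C981 P K K' → H893.BaseC P K K'                       (VERBATIM)
-/

set_option autoImplicit false

open AutomorphicForm IsDedekindDomain NumberField MeasureTheory
open scoped ComplexConjugate

noncomputable section

namespace Fermat.Agent.LT.T7.B981

open Fermat.Agent.LT.H556 Fermat.Agent.LT.H556.A0 Fermat.Agent.LT.T7
open Fermat.Agent.LT.T7.H305 Fermat.Agent.LT.T7.H893

attribute [local instance] Fermat.Agent.LT.T5.instMeasurableSpaceG

section Top

variable {P : EKCond}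
variable {K K' : Type} [Field K] [NumberField K] [Field K'] [NumberField K'] [Algebra K K']

/-- The pre-data assembled from the four parts. -/
def mkPre981 (𝔫 : Ideal (𝓞 K)) (c₁ c₂ : EigData K' → ℂ) (Φ₁ : List (Gen K') → G K' → ℂ)
    (φ₂ : G K' → ℂ) (F₁ : List (Gen K') → G K → ℂ) (f₂ : G K → ℂ) (Hg H' : Finset (G K'))
    (z' : G K') (H : Finset (G K)) (z : G K) : L2Pre K K' where
  𝔫 := 𝔫
  c₁ := c₁
  c₂ := c₂
  Φ₁ := Φ₁
  φ₂ := φ₂
  F₁ := F₁
  f₂ := f₂
  Hg := Hg
  H' := H'
  z' := z'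
  H := H
  z := z
  m₀ := fun _ => 0

/-- The operator properties of the assembled pre-data. -/
theorem isL2PreOp_mk981 {ℓ : ℕ} {Φ : HeckeEigensystem K' ℂ} {B : L2Base K K'} {g : G K'}
    {𝔫 : Ideal (𝓞 K)} {c₁ c₂ : EigData K' → ℂ} {Φ₁ : List (Gen K') → G K' → ℂ}
    {φ₂ : G K' → ℂ} {F₁ : List (Gen K') → G K → ℂ} {f₂ : G K → ℂ} {Hg H' : Finset (G K')}
    {z' : G K'} {H : Finset (G K)} {z : G K}
    (hL : IsLvl981 B 𝔫) (hS : IsSys981 B g Hg H' z' H z)
    (h1 : IsPair1_981 ℓ Φ B 𝔫 c₁ Φ₁ F₁) (h2 : IsPair2_981 ℓ Φ B 𝔫 c₂ φ₂ f₂) :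
    IsL2PreOp ℓ Φ B g (mkPre981 𝔫 c₁ c₂ Φ₁ φ₂ F₁ f₂ Hg H' z' H z) where
  level_ne := hL.level_ne
  level_g := hL.level_g
  mem_S'_g := hL.mem_S'_g
  u_level := hL.u_level
  sysg := hS.sysg
  sys' := hS.sys'
  unif' := hS.unif'
  sys := hS.sys
  unif := hS.unif
  up1_test := h1.up1_test
  up1_ek := h1.up1_ek
  up1_op := h1.up1_op
  up2_test := h2.up2_test
  up2_ek := h2.up2_ek
  up2_inv := h2.up2_inv
  up2_op := h2.up2_op
  up2_kill := h2.up2_kill
  up_ne := fun C hC => ⟨h1.up1_ne C hC, h2.up2_ne C hC⟩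
  dn1_test := h1.dn1_test
  dn1_ek := h1.dn1_ek
  dn1_op := h1.dn1_op
  dn1_wfn := h1.dn1_wfn
  dn1_class := h1.dn1_class
  dn1_comm := h1.dn1_comm
  dn2_test := h2.dn2_test
  dn2_ek := h2.dn2_ek
  dn2_inv := h2.dn2_inv
  dn2_wfn := h2.dn2_wfn
  dn2_class := h2.dn2_class
  dn2_comm := h2.dn2_comm
  dn2_kill := h2.dn2_kill

/-- The supports of the assembled pre-data. -/
theorem isL2PreSupp_mk981 {ℓ : ℕ} {Φ : HeckeEigensystem K' ℂ} {B : L2Base K K'}
    {𝔫 : Ideal (𝓞 K)} {c₁ c₂ : EigData K' → ℂ} {Φ₁ : List (Gen K') → G K' → ℂ}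
    {φ₂ : G K' → ℂ} {F₁ : List (Gen K') → G K → ℂ} {f₂ : G K → ℂ} (Hg H' : Finset (G K'))
    (z' : G K') (H : Finset (G K)) (z : G K)
    (h1 : IsPair1_981 ℓ Φ B 𝔫 c₁ Φ₁ F₁) (h2 : IsPair2_981 ℓ Φ B 𝔫 c₂ φ₂ f₂) :
    IsL2PreSupp ℓ B (mkPre981 𝔫 c₁ c₂ Φ₁ φ₂ F₁ f₂ Hg H' z' H z) where
  up1_supp := h1.up1_supp
  up2_supp := h2.up2_supp
  dn1_supp := h1.dn1_supp
  dn2_supp := h2.dn2_supp

/-- **THE TOP OF THE FIRST CUT OF `BaseC`** (VERBATIM the node of helper893). -/
theorem baseC_of981 (hH : HaarCplxC981) (hL : LvlC981 K K') (hS : SysC981 K K')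
    (h1 : Pair1C981 P K K') (h2 : Pair2C981 P K K') : H893.BaseC P K K' := by
  intro ℓ hcyc hℓ hcplx Φ hΦ hconst hP B hB hram g hg
  obtain ⟨μc, hμc⟩ := hH
  obtain ⟨M, hM⟩ := h2 ℓ hcyc hℓ hcplx Φ hΦ hconst hP B hB hram g hg
  obtain ⟨𝔫, T₀, n, n₀, m, hlvl, hexp, hbd⟩ := hL ℓ Φ B hB M
  obtain ⟨Hg, H', z', H, z, hsys⟩ := hS ℓ Φ B hB g hg
  obtain ⟨c₁, Φ₁, F₁, hp1, hsh1⟩ :=
    h1 ℓ hcyc hℓ hcplx Φ hΦ hconst hP B hB hram 𝔫 hlvl μc hμc T₀ n n₀ m hexp
  refine ⟨𝔫, μc, hμc, fun a ha => ?_⟩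
  obtain ⟨c₂, φ₂, f₂, hp2, hsh2⟩ := hM 𝔫 hlvl μc hμc T₀ n n₀ m hexp hbd a ha
  refine ⟨mkPre981 𝔫 c₁ c₂ Φ₁ φ₂ F₁ f₂ Hg H' z' H z, rfl,
    isL2PreOp_mk981 hlvl hsys hp1 hp2, isL2PreSupp_mk981 Hg H' z' H z hp1 hp2, ?_⟩
  exact ⟨T₀, n, n₀, m, hexp.mem, hexp.lvl, hexp.lvl_up, hexp.lvl_base, hsh1, hsh2⟩

end Top

end Fermat.Agent.LT.T7.B981

end

end
-- ===== PACK-END LT/T7/B981/BaseTop.lean

-- ===== PACK-BEGIN LT/T7/H165/LevelAt.lean
section



/-!
# Row LT, tower T7, leaves P.1 `UnramC51`, P.2 `LevelAtC51` (cut of helper51; helper165)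

OFF-MAIN.  VERBATIM, unconditional:

    unramC165 K K' : P51.UnramC51 K K'
    levelAtC165 K K' : P51.LevelAtC51 K K'

`UnramC51`: a place `w` over `v ∤ 𝔫` does not divide `𝔫 𝒪_{K'}` (`w ∩ 𝒪_K = v`), so it is outside
`S'` and `RamIn` applies.  `LevelAtC51`: if `v ∤ 𝔫` there is `x ∈ 𝔫` which is a unit at `v` (and
at every `w` over `v`); it lies in the closure of the level, so the exponent is `0`.
-/

set_option autoImplicit false
set_option linter.unusedSectionVars false

open AutomorphicForm IsDedekindDomain NumberField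

noncomputable section

namespace Fermat.Agent.LT.T7.H165

open Fermat.Agent.LT.H556 Fermat.Agent.LT.H556.A0 Fermat.Agent.LT.T7
open Fermat.Agent.LT.T7.H305 Fermat.Agent.LT.T7.H893

section OneField

variable {F : Type} [Field F] [NumberField F]

/-- An integer outside `v` has valuation one in the completion. -/
theorem val_eq_one_of_not_mem165 (v : HeightOneSpectrum (𝓞 F)) (x : 𝓞 F)
    (hx : x ∉ v.asIdeal) :
    Valued.v (algebraMap F (v.adicCompletion F) (algebraMap (𝓞 F) F x)) = 1 := by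
  have h3 : Valued.v (algebraMap F (v.adicCompletion F) (algebraMap (𝓞 F) F x))
      = v.valuation F (algebraMap (𝓞 F) F x) :=
    v.valuedAdicCompletion_eq_valuation' _
  rw [h3, HeightOneSpectrum.valuation_of_algebraMap]
  apply le_antisymm (v.intValuation_le_one x)
  by_contra hlt
  exact hx ((v.intValuation_lt_one_iff_mem x).1 (not_le.1 hlt))

/-- If `v ∤ 𝔫` there is an element of `𝔫` outside `v`. -/
theorem exists_mem_not_mem165 (𝔫 : Ideal (𝓞 F)) (v : HeightOneSpectrum (𝓞 F))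
    (h : ¬ v.asIdeal ∣ 𝔫) : ∃ x : 𝓞 F, x ∈ 𝔫 ∧ x ∉ v.asIdeal := by
  by_contra hcon
  push Not at hcon
  exact h (Ideal.dvd_iff_le.2 fun x hx => hcon x hx)

/-- The exponent of a level at a place which does not divide it is `0`, given a unit of the
level. -/
theorem level_zero165 (𝔫 : Ideal (𝓞 F)) (m : HeightOneSpectrum (𝓞 F) → ℕ)
    (hm : IsLevelOf893 𝔫 m) (v : HeightOneSpectrum (𝓞 F)) (x : 𝓞 F) (hx : x ∈ 𝔫)
    (hxv : x ∉ v.asIdeal) : m v = 0 := by
  have h1 : algebraMap F (v.adicCompletion F) (algebraMap (𝓞 F) F x) ∈ idealClosure 𝔫 v :=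
    subset_closure ⟨x, hx, rfl⟩
  have h2 := (hm v _).1 h1
  rw [val_eq_one_of_not_mem165 v x hxv, ← WithZero.exp_zero, WithZero.exp_le_exp] at h2
  omega

end OneField

section TwoFields

variable (K K' : Type) [Field K] [NumberField K] [Field K'] [NumberField K'] [Algebra K K']

/-- **LEAF P.1 = UNRAM**, VERBATIM. -/
theorem unramC165 : P51.UnramC51 K K' := by
  intro B 𝔫 T₀ hram hS' hT₀ v hv w hvw
  refine hram v w hvw ?_
  intro hw
  apply hv
  rw [hT₀]
  have h1 : upI (K' := K') 𝔫 ≤ w.asIdeal := Ideal.dvd_iff_le.1 ((hS' w).1 hw)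
  refine Ideal.dvd_iff_le.2 fun x hx => ?_
  have h2 : algebraMap (𝓞 K) (𝓞 K') x ∈ w.asIdeal := h1 (Ideal.mem_map_of_mem _ hx)
  exact (hvw x (algebraMap (𝓞 K) (𝓞 K') x) rfl).2 h2

/-- **LEAF P.2 = LEVEL-AT**, VERBATIM. -/
theorem levelAtC165 : P51.LevelAtC51 K K' := by
  intro 𝔫 T₀ n m hT₀ hm hn
  refine ⟨fun v hv => ?_, fun v w hv hvw => ?_⟩
  · obtain ⟨x, hx, hxv⟩ := exists_mem_not_mem165 𝔫 v (fun h => hv ((hT₀ v).2 h))
    exact level_zero165 𝔫 m hm v x hx hxv
  · obtain ⟨x, hx, hxv⟩ := exists_mem_not_mem165 𝔫 v (fun h => hv ((hT₀ v).2 h))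
    refine level_zero165 (upI (K' := K') 𝔫) n hn w (algebraMap (𝓞 K) (𝓞 K') x)
      (Ideal.mem_map_of_mem _ hx) ?_
    intro h
    exact hxv ((hvw x (algebraMap (𝓞 K) (𝓞 K') x) rfl).2 h)

end TwoFields

end Fermat.Agent.LT.T7.H165

end

end
-- ===== PACK-END LT/T7/H165/LevelAt.lean

-- ===== PACK-BEGIN LT/T7/B970/Pair2Spec.lean
section





/-!
# Row LT, tower T7, node T7.L2.1.H2a.4 `Pair2C` (sub-architect helper970, registry 2688):
# FIRST CUT -- Spec

OFF-MAIN.  Definitions and frozen Props only (the proved tops are `Pair2Top.lean`).  No hole,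
nothing assumed.  ADDITIVE (new names only, suffix `970`).  Vocabulary: `T7/B981/BaseSpec`
(helper981, sha256 3ab0d96c), `T7/H893/SupplyConstrSpec2` (helper893, v2 of the fifth cut),
`T7/H193/NatMatchSpec` + `KillSpec` (helper193: `nat193`, `IsRelTorus`, `RelTorusC`),
byte-identical copies.

## 0. v2: the node of record is `Pair2Cb970`

`B981.Pair2C981` asks for the local shape `H893.LocB893` (v1), which is UNSATISFIABLE at a bad
place which splits (helper893, `SupplyConstrSpec2`: the split clause of `H305.LocHyp305` for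
ALL rotations).  `Pair2Cb970` = `Pair2C981` with `H893.LocB893b` (v2, ONE enumeration), and

    baseCb_of970 : HaarCplxC981 → LvlC981 K K' → SysC981 K K' → Pair1C981 P K K'
                     → Pair2Cb970 P K K' → H893.BaseCb P K K'                      (VERBATIM)

(`Pair1C981` is about `LocA893`, whose only clause of `LocHyp305` is for the EMPTY set of finite
places: it is the same in v1 and v2.)

## 1. The construction: the second pair FROM THE FIRST PAIR (no new analysis)

Let `(c₁, Φ₁, F₁)` be a first pair (`Pair1C981`) for the SAME level and exponents, `Φ₁0 = Φ₁ []`,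
`F₁0 = F₁ []`: Eisenstein-killing test functions with Eisenstein-killing adjoints, `R(Φ₁0) = c₁(C)`
on the invariant eigenfunctions of the base level, averages of pure tensors with UNIT components
`1_{U(n_w)}`, `1_{U(m_v)}` at the places of the level (`LocA893`).  Then

    φ₂ = nat193 a' D' (lsum s' Φ₁0)                 c₂ = #s' · c₁
    f₂ = a · nat193 a D (wsum970 s β F₁0)

* `s'` = a full system of representatives of `H'/U(𝔫 𝒪_{K'})` SUPPORTED AT THE PLACES OF THE
  LEVEL, `H' = ∏_{bad w} U(n₀ w) × ∏_{orbit} I_w` (`IsWtUp970`): for a pure tensor `p` with unit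
  components at the level `∑_{x ∈ s'} p(x⁻¹ ·)` is the pure tensor with the components
  `1_{U(n₀ w)}` (bad places), `1_{I_w}` (orbit): the shape of `LocB893b` upstairs.
* `(s, β)` = weights downstairs, supported at the places of the level (`IsWtDown970`):
  `∑_{x ∈ s} β(x) p(x⁻¹ ·)` is the pure tensor with the components `b_v` (bad places) and
  `1_{I_u}`; `b_v` = a PARTNER of the double coset functions `1_{U₀ g_w U₀}`, `w ∣ v`
  (`LocFin970`: the four clauses of `LocHyp893` at the finite places; `T6.BadMatchC` at the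
  base level + change of level of the orbit sums at a place with one place over it, the
  convolution product in ONE order at a split place).  `b_v` is bi-invariant under `U(m_v)`
  only if `m_v ≥ M`: this is the bound `M` of the node.
* `(a, D, a', D')` = COMPATIBLE torus data (`H193.IsRelTorus`, station REL-TORUS of helper193).

Why this works.  Left translates by elements which are trivial at infinity, finite sums and
`♮` preserve "Eisenstein-killing with Eisenstein-killing adjoint" and everything in `IsTestFn`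
except the left invariance (kit `T7/H311/EkProdTools` `IsPre311`, `H193.natLeaves193`); the
operator identities are `R(ltr x φ) ψ = (R(φ) ψ)(· x)` (`T7/H267/RconvOps`, `T7/H277/ROps`),
`R(φ♮) = R(φ)` on the functions invariant under the positive scalars, KILL is
`H193.kill193` / `killing_of_torus193`; the invariance and the supports are read off the
components.  NO convolution of pure tensors, NO new Eisenstein-killing argument, NO new base
change: all of this is in the first pair.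

## 2. The leaves (ALL provable NOW, in parallel; `Pair1C981` is used as a black box)

| leaf | content | size |
|---|---|---|
| `WtUpC970`   | the representatives `s'` exist (local → adelic, finite products) | M |
| `BadLocC970` | the bound `M` and the partners `b_v` (T6.BadMatchC + level change + split) | L |
| `WtDownC970` | the weights `(s, β)` for given bi-invariant `b_v` of finite support | M |
| `H193.RelTorusC` | compatible torus data (station of helper193, rows 2583 ff.) | -- |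
| `Up2C970`    | the 7 fields upstairs of `IsPair2_981` for `φ₂` | L |
| `Dn2C970`    | the 9 fields downstairs of `IsPair2_981` for `f₂` | L-XL |
| `ShapeC970`  | `IsAvgPure … (LocB893b …) a φ₂ f₂` (parameter space `Ω₁ × closure D'`) | XL |

    pair2Cb_of970 : Pair1C981 P K K' → H193.RelTorusC K K' → WtUpC970 K K' → BadLocC970 K K'
        → WtDownC970 K K' → Up2C970 K K' → Dn2C970 K K' → ShapeC970 K K' → Pair2Cb970 P K K'

FALSITY CHECKS (helper970).  (a) `s'`, `s` must be SUPPORTED at the places of the level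
(trivial elsewhere): the clause `rep` is asked for arbitrary components outside the level.
(b) `m_u ≥ 1` (`u ∣ 𝔫`), so `1_{I_u}` is a sum of left translates of `1_{U(m_u)}`; `n₀ w ≥ 1` at
the orbit.  (c) `lsum s' Φ₁0` is RIGHT invariant under `H'` because of the SHAPE of `Φ₁0` (unit
components), not because of `IsTestFn`: `Up2C970` and `Dn2C970` have the shape of the first
pair among their hypotheses.  (d) At infinity the components upstairs at the parameter
`(ω, t')` are the translates by `a'(t')` and downstairs by `a(N t')`, `N = fibSum193`; the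
convolution of translates by central elements is the translate of the convolution by the
product, and `exp (∑_{w ∣ v} t'_w) = ∏ exp t'_w`; every infinite place of `K` has exactly `ℓ`
places over it (`K` totally complex, `H193.FibCardC`).  (e) `wordEv [] C = 1`.  (f) `c₂ C ≠ 0`
on the class of `Φ`: `#s' ≠ 0` and `up1_ne`.  (g) `dn2_comm`: `f₂` is supported in the Iwahori
subgroup at `u` and the functions of `IsWFn` are right invariant under it, the Iwahori operator
does not depend on the coset system (`T7/H271/Indep`); `z` is central.  (h) the constant `a` is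
the constant `c` of `IsAvgPure` downstairs; `a = 0` is not excluded by the proofs.
-/

set_option autoImplicit false

open AutomorphicForm IsDedekindDomain NumberField MeasureTheory
open scoped ComplexConjugate

noncomputable section

namespace Fermat.Agent.LT.T7.B970

open Fermat.Agent.LT.H556 Fermat.Agent.LT.H556.A0 Fermat.Agent.LT.T7
open Fermat.Agent.LT.T7.H305 Fermat.Agent.LT.T7.H893 Fermat.Agent.LT.T7.B981

attribute [local instance] Fermat.Agent.LT.T5.instMeasurableSpaceG

/-! ## 1. Weighted sums of left translates, replaced components -/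

section OneField

variable {F : Type} [Field F] [NumberField F]

/-- The weighted sum of left translates `∑_{x ∈ s} β(x) φ(x⁻¹ ·)` (`H893.lsum` is the case
`β = 1`). -/
def wsum970 (s : Finset (G F)) (β : G F → ℂ) (φ : G F → ℂ) : G F → ℂ :=
  fun y => ∑ x ∈ s, β x * φ (x⁻¹ * y)

end OneField

section Defs

variable {K K' : Type} [Field K] [NumberField K] [Field K'] [NumberField K'] [Algebra K K']

open Classical in
/-- The components upstairs with the components at the places of the level replaced: the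
Iwahori function along the orbit, the unit of the BASE level at the other places over `T₀`. -/
def repUp970 (B : L2Base K K') (T₀ : Finset (HeightOneSpectrum (𝓞 K)))
    (n₀ : HeightOneSpectrum (𝓞 K') → ℕ)
    (φ₀ : ∀ w : HeightOneSpectrum (𝓞 K'), GL (Fin 2) (w.adicCompletion K') → ℂ) :
    ∀ w : HeightOneSpectrum (𝓞 K'), GL (Fin 2) (w.adicCompletion K') → ℂ :=
  fun w => if PlaceOver K K' B.u w then iwFn893
    else if ∃ v ∈ T₀, PlaceOver K K' v w then unitFn893 (n₀ w) else φ₀ w

open Classical in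
/-- The components downstairs with the components at the places of the level replaced: the
Iwahori function at `u`, the functions `b v` at the other places of `T₀`. -/
def repDn970 (B : L2Base K K') (T₀ : Finset (HeightOneSpectrum (𝓞 K)))
    (b : ∀ v : HeightOneSpectrum (𝓞 K), GL (Fin 2) (v.adicCompletion K) → ℂ)
    (f₀ : ∀ v : HeightOneSpectrum (𝓞 K), GL (Fin 2) (v.adicCompletion K) → ℂ) :
    ∀ v : HeightOneSpectrum (𝓞 K), GL (Fin 2) (v.adicCompletion K) → ℂ :=
  fun v => if v = B.u then iwFn893 else if v ∈ T₀ then b v else f₀ v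

/-- **THE LOCAL HYPOTHESES AT THE FINITE PLACES**: the clauses `inv_up`, `inv_down`, `inert`,
`split` of `H893.LocHyp893` (verbatim; they do not mention the components at infinity). -/
structure LocFin970 (D : CompData K K') (T : Finset (HeightOneSpectrum (𝓞 K)))
    (n : HeightOneSpectrum (𝓞 K') → ℕ) (m : HeightOneSpectrum (𝓞 K) → ℕ)
    (φ₀ : ∀ w : HeightOneSpectrum (𝓞 K'), GL (Fin 2) (w.adicCompletion K') → ℂ)
    (f₀ : ∀ v : HeightOneSpectrum (𝓞 K), GL (Fin 2) (v.adicCompletion K) → ℂ) : Prop where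
  inv_up : ∀ v ∈ T, ∀ w : HeightOneSpectrum (𝓞 K'), PlaceOver K K' v w →
    T6.IsBiInv (T6.InU (n w)) (φ₀ w) ∧ T6.HasFinSupp (T6.InU (n w)) (φ₀ w)
  inv_down : ∀ v ∈ T, T6.IsBiInv (T6.InU (m v)) (f₀ v) ∧ T6.HasFinSupp (T6.InU (m v)) (f₀ v)
  inert : ∀ v ∈ T, ∀ w : HeightOneSpectrum (𝓞 K'), PlaceOver K K' v w →
    (∀ w' : HeightOneSpectrum (𝓞 K'), PlaceOver K K' v w' → w' = w) →
    ∀ (e : ℕ) (i : v.adicCompletion K →+* w.adicCompletion K')
      (sw : w.adicCompletion K' ≃+* w.adicCompletion K'),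
      (∀ x : K, i (algebraMap K (v.adicCompletion K) x)
        = algebraMap K' (w.adicCompletion K') (algebraMap K K' x)) →
      (∀ y : K', sw (algebraMap K' (w.adicCompletion K') y)
        = algebraMap K' (w.adicCompletion K') (D.s.σ y)) →
      T6.IsLocalExt (v.adicCompletion K) (w.adicCompletion K') D.l e i sw →
      (∀ (δ : GL (Fin 2) (w.adicCompletion K')) (γ : GL (Fin 2) (v.adicCompletion K))
          (c c' : ℂ), T6.IsReg γ →
          IsConj (T6.twNorm sw D.l δ) (Matrix.GeneralLinearGroup.map i γ) →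
          T6.IsTwOrbSum sw (n w) (φ₀ w) δ c → T6.IsOrbSum (m v) (f₀ v) γ c' → c = c') ∧
        ∀ (γ : GL (Fin 2) (v.adicCompletion K)) (c' : ℂ), T6.IsReg γ →
          ¬ T6.IsNormFrom D.l i sw γ → T6.IsOrbSum (m v) (f₀ v) γ c' → c' = 0
  split : ∀ v ∈ T, (∃ w₁ w₂ : HeightOneSpectrum (𝓞 K'),
      PlaceOver K K' v w₁ ∧ PlaceOver K K' v w₂ ∧ w₁ ≠ w₂) →
    ∃ (w : ℕ → HeightOneSpectrum (𝓞 K'))
      (i : ∀ j : ℕ, v.adicCompletion K ≃+* (w j).adicCompletion K'),
      (∀ j : ℕ, PlaceOver K K' v (w j)) ∧ (∀ j : ℕ, T5.PlaceRel D.s (w (j + 1)) (w j)) ∧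
      (∀ j : ℕ, 0 < j → j < D.l → w j ≠ w 0) ∧
      (∀ (j : ℕ) (x : K), i j (algebraMap K (v.adicCompletion K) x)
        = algebraMap K' ((w j).adicCompletion K') (algebraMap K K' x)) ∧
      (∀ (j : ℕ) (x : v.adicCompletion K), Valued.v (i j x) = Valued.v x) ∧
      (∀ j : ℕ, n (w j) = m v) ∧
        T6.IsConvProd (T6.InU (m v)) D.l
          (fun j g => φ₀ (w j)
            (Matrix.GeneralLinearGroup.map ((i j : v.adicCompletion K ≃+* _) :
              v.adicCompletion K →+* (w j).adicCompletion K') g))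
          (f₀ v)

/-- **THE REPRESENTATIVES UPSTAIRS**: `s'` is a non-empty finite set of elements of
`H' = I_o · U(𝔑₀)` which are supported at the places over `T₀`, and the sum of the left
translates over `s'` of a pure tensor with the unit components of the level `𝔫 𝒪_{K'}` at the
places over `T₀` is the pure tensor with the replaced components. -/
structure IsWtUp970 (ℓ : ℕ) (B : L2Base K K') (T₀ : Finset (HeightOneSpectrum (𝓞 K)))
    (n n₀ : HeightOneSpectrum (𝓞 K') → ℕ) (s' : Finset (G K')) : Prop where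
  nonempty : s'.Nonempty
  mem : ∀ x ∈ s', ∃ i u : G K', H193.IsIwElt ℓ B.o i ∧ InLevelGroup B.𝔑₀ u ∧ x = i * u
  supp : ∀ x ∈ s', (∀ w : InfinitePlace K', TrivAtInf w x) ∧
    ∀ w : HeightOneSpectrum (𝓞 K'), (¬ ∃ v ∈ T₀, PlaceOver K K' v w) → TrivAtFin w x
  rep : ∀ (T' : Finset (HeightOneSpectrum (𝓞 K')))
    (φ₀ : ∀ w : HeightOneSpectrum (𝓞 K'), GL (Fin 2) (w.adicCompletion K') → ℂ)
    (Φ : InfinitePlace K' → GL (Fin 2) ℂ → ℂ),
    (∀ v ∈ T₀, ∀ w : HeightOneSpectrum (𝓞 K'), PlaceOver K K' v w →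
      w ∈ T' ∧ φ₀ w = unitFn893 (n w)) →
    ∀ y : G K', ∑ x ∈ s', pure305 T' φ₀ Φ (x⁻¹ * y) = pure305 T' (repUp970 B T₀ n₀ φ₀) Φ y

/-- **THE WEIGHTS DOWNSTAIRS** for the components `b`: `s` is a finite set of elements
supported at the places of `T₀`, and the weighted sum of the left translates of a pure tensor
with the unit components of the level `𝔫` at the places of `T₀` is the pure tensor with the
replaced components. -/
structure IsWtDown970 (B : L2Base K K') (T₀ : Finset (HeightOneSpectrum (𝓞 K)))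
    (m : HeightOneSpectrum (𝓞 K) → ℕ) (s : Finset (G K)) (β : G K → ℂ)
    (b : ∀ v : HeightOneSpectrum (𝓞 K), GL (Fin 2) (v.adicCompletion K) → ℂ) : Prop where
  supp : ∀ x ∈ s, (∀ w : InfinitePlace K, TrivAtInf w x) ∧
    ∀ v : HeightOneSpectrum (𝓞 K), v ∉ T₀ → TrivAtFin v x
  rep : ∀ (T : Finset (HeightOneSpectrum (𝓞 K)))
    (f₀ : ∀ v : HeightOneSpectrum (𝓞 K), GL (Fin 2) (v.adicCompletion K) → ℂ)
    (F : InfinitePlace K → GL (Fin 2) ℂ → ℂ), T₀ ⊆ T → (∀ v ∈ T₀, f₀ v = unitFn893 (m v)) →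
    ∀ y : G K, ∑ x ∈ s, β x * pure305 T f₀ F (x⁻¹ * y) = pure305 T (repDn970 B T₀ b f₀) F y

/-- **THE FIELDS UPSTAIRS** of `B981.IsPair2_981` (same names, same statements). -/
structure IsUp2_970 (ℓ : ℕ) (Φ : HeckeEigensystem K' ℂ) (B : L2Base K K')
    (𝔫 : Ideal (𝓞 K)) (c₂ : EigData K' → ℂ) (φ₂ : G K' → ℂ) : Prop where
  up2_test : T5.IsTestFn (upI (K' := K') 𝔫) T5.trivType φ₂
  up2_ek : T5.IsEK B.R'.μ φ₂ ∧ T5.IsEK B.R'.μ (T5.adjointFn φ₂)
  up2_inv : IsUInv B.𝔑₀ ℓ B.o φ₂
  up2_op : ∀ (ψ : G K' → ℂ) (C : EigData K'), IsEigFn B.𝔑₀ B.R'.r ℓ B.o ψ C →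
    ∀ x : G K', T5.Rconv B.R'.μ φ₂ ψ x = c₂ C * ψ x
  up2_kill : ∀ ψ : G K' → ℂ, T5.IsCuspFn (upI (K' := K') 𝔫) T5.trivType B.R'.r ψ →
    (∀ χ : G K' → ℂ, IsWFn B.𝔑₀ B.R'.r ℓ B.o χ → T5.innerD B.R'.μ B.R'.F ψ χ = 0) →
    ∀ x : G K', T5.Rconv B.R'.μ φ₂ ψ x = 0
  up2_ne : ∀ C : EigData K', C.AgreeOut B.S' (eigOf Φ) → c₂ C ≠ 0
  up2_supp : ∃ C : Set (G K'), IsCompact C ∧ T5.H32.IsIwSupported32 ℓ B.o C φ₂

/-- **THE FIELDS DOWNSTAIRS** of `B981.IsPair2_981` (same names, same statements). -/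
structure IsDn2_970 (B : L2Base K K') (𝔫 : Ideal (𝓞 K)) (f₂ : G K → ℂ) : Prop where
  dn2_test : T5.IsTestFn 𝔫 T5.trivType f₂
  dn2_ek : T5.IsEK B.R.μ f₂ ∧ T5.IsEK B.R.μ (T5.adjointFn f₂)
  dn2_inv : IsUInv 𝔫 1 (fun _ => B.u) f₂
  dn2_wfn : ∀ ψ : G K → ℂ, IsWFn 𝔫 B.R.r 1 (fun _ => B.u) ψ →
    IsWFn 𝔫 B.R.r 1 (fun _ => B.u) (T5.Rconv B.R.μ f₂ ψ)
  dn2_class : ∀ (ψ : G K → ℂ) (c : EigData K), IsEigFn 𝔫 B.R.r 1 (fun _ => B.u) ψ c →
    IsEigFn 𝔫 B.R.r 1 (fun _ => B.u) (T5.Rconv B.R.μ f₂ ψ) c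
  dn2_comm : ∀ ψ : G K → ℂ, IsWFn 𝔫 B.R.r 1 (fun _ => B.u) ψ →
    ∀ (H : Finset (G K)) (z : G K), IsIwCosetSystem B.u H → IsScalarUniformizerAt B.u z →
      (∀ x : G K, T5.Rconv B.R.μ f₂ (iwOp B.u H ψ) x
        = iwOp B.u H (T5.Rconv B.R.μ f₂ ψ) x) ∧
      ∀ (k : ℤ) (x : G K), T5.Rconv B.R.μ f₂ (shiftOp z k ψ) x
        = shiftOp z k (T5.Rconv B.R.μ f₂ ψ) x
  dn2_kill : ∀ ψ : G K → ℂ, T5.IsCuspFn 𝔫 T5.trivType B.R.r ψ →
    (∀ χ : G K → ℂ, IsWFn 𝔫 B.R.r 1 (fun _ => B.u) χ → T5.innerD B.R.μ B.R.F ψ χ = 0) →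
    ∀ x : G K, T5.Rconv B.R.μ f₂ ψ x = 0
  dn2_supp : ∃ C : Set (G K), IsCompact C ∧ T5.H32.IsIwSupported32 1 (fun _ => B.u) C f₂

end Defs

/-! ## 2. The node of record (v2) -/

section Node

variable (P : EKCond)
variable (K K' : Type) [Field K] [NumberField K] [Field K'] [NumberField K'] [Algebra K K']

/-- **NODE T7.L2.1.H2a.4, v2 = SECOND PAIR**: `B981.Pair2C981` with the local shape
`H893.LocB893b` (ONE enumeration at the bad split places). -/
def Pair2Cb970 : Prop :=
  ∀ ℓ : ℕ, IsCycExt K K' ℓ → ℓ ≠ 2 → TotCplx K →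
    ∀ Φ : HeckeEigensystem K' ℂ, A0.IsCuspAdelicSph0 K' Φ → ConstOnFibres K Φ → P K' Φ →
      ∀ B : L2Base K K', IsL2Base ℓ Φ B → B.RamIn → ∀ g : G K', B.IsBad g →
      ∃ M : ℕ,
      ∀ 𝔫 : Ideal (𝓞 K), IsLvl981 B 𝔫 →
      ∀ μc : @Measure (GL (Fin 2) ℂ) (borel _), @Measure.IsHaarMeasure _ _ _ (borel _) μc →
      ∀ (T₀ : Finset (HeightOneSpectrum (𝓞 K)))
        (n n₀ : HeightOneSpectrum (𝓞 K') → ℕ) (m : HeightOneSpectrum (𝓞 K) → ℕ),
        IsExp981 B 𝔫 T₀ n n₀ m → (∀ v ∈ T₀, M ≤ m v) →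
        ∀ a : ℂ, a ≠ 0 →
        ∃ (c₂ : EigData K' → ℂ) (φ₂ : G K' → ℂ) (f₂ : G K → ℂ),
          IsPair2_981 ℓ Φ B 𝔫 c₂ φ₂ f₂ ∧
          IsAvgPure (upI (K' := K') 𝔫) 𝔫 T₀ (LocB893b B g 𝔫 μc T₀ n n₀ m) a φ₂ f₂

end Node

/-! ## 3. The leaves -/

section Leaves

variable (K K' : Type) [Field K] [NumberField K] [Field K'] [NumberField K'] [Algebra K K']

/-- **LEAF T7.L2.1.H2a.4.1 = WT-UP [M] (local → adelic; finite products).**  The
representatives upstairs exist, for every level with the four level properties and all its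
exponents.
Proof.  For `w` over `T₀`: `H_w = I_w` (orbit; `n w ≥ 1`) resp. `U(n₀ w)` (`n w ≥ n₀ w`:
`𝔫 𝒪_{K'} ⊆ 𝔑₀`), `R_w` = representatives of `H_w / U(n w)` (finite: `U(n w)` is open in the
compact group `GL₂(𝒪_w)`), `s'` = the products over the finitely many places of the adelic
elements with ONE non-trivial component (kits: helper340 / helper701 Iwahori systems,
helper593 `DblSys`, helper981 `FinIndex`, helper293 `LocEmb`).  `rep`: `finGL305 w` is a
homomorphism, `x` is trivial outside the places over `T₀ ⊆ T'`, so `OutT305`, the components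
outside and the components at infinity do not change, and
`∑_{x_w ∈ R_w} 1_{U(n w)}(x_w⁻¹ y) = 1_{H_w}(y)`. -/
def WtUpC970 : Prop :=
  ∀ (ℓ : ℕ) (Φ : HeckeEigensystem K' ℂ) (B : L2Base K K'), IsL2Base ℓ Φ B →
    ∀ 𝔫 : Ideal (𝓞 K), IsLvl981 B 𝔫 →
    ∀ (T₀ : Finset (HeightOneSpectrum (𝓞 K)))
      (n n₀ : HeightOneSpectrum (𝓞 K') → ℕ) (m : HeightOneSpectrum (𝓞 K) → ℕ),
      IsExp981 B 𝔫 T₀ n n₀ m →
      ∃ s' : Finset (G K'), IsWtUp970 ℓ B T₀ n n₀ s'

open Classical in
/-- **LEAF T7.L2.1.H2a.4.2 = BAD-LOC [L] (T6: the partners at the bad places; THE BOUND `M`).**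
For a common part which contains the ramified places and a bad element `g` there is `M` such
that for every level with the four level properties and exponents `≥ M` on `T₀` there are
functions `b v` which are partners of the double coset functions of `g` in the sense of the
four finite clauses of `LocHyp893`, at the places of `T₀` other than `u`.
Proof.  A place `v ∈ T₀`, `v ≠ u`, with ONE place `w` over it: `T6.BadMatchC` (closed) for
`φ = 1_{U(n₀ w) g_w U(n₀ w)}` at the level `n₀ w` gives `(m_v, f_v)`; `M = max m_v`; for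
`n w ≥ n₀ w`, `m v ≥ m_v` the orbit sums change by the indices (`[U(n₀ w) : U(n w)]` upstairs,
`[U(m_v) : U(m v)]` downstairs: every class modulo `U(m_v)` splits, the centraliser in `U` is in
the compact part; helper777 `lvlC777`), `b v` = the multiple of `f_v` by the quotient.  A place
which splits: `b v` = the convolution product at the level `m v = n (w j)` of the double coset
functions in ONE order (`T6.InstSplitC` for the enumeration and the identifications).
`inv_up`: a double coset of `U(n₀ w)` is a finite union of cosets of `U(n w)`. -/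
def BadLocC970 : Prop :=
  ∀ ℓ : ℕ, IsCycExt K K' ℓ → ℓ ≠ 2 → TotCplx K →
    ∀ (Φ : HeckeEigensystem K' ℂ) (B : L2Base K K'), IsL2Base ℓ Φ B → B.RamIn →
    ∀ g : G K', B.IsBad g →
    ∃ M : ℕ,
      ∀ 𝔫 : Ideal (𝓞 K), IsLvl981 B 𝔫 →
      ∀ (T₀ : Finset (HeightOneSpectrum (𝓞 K)))
        (n n₀ : HeightOneSpectrum (𝓞 K') → ℕ) (m : HeightOneSpectrum (𝓞 K) → ℕ),
        IsExp981 B 𝔫 T₀ n n₀ m → (∀ v ∈ T₀, M ≤ m v) →
        ∃ b : ∀ v : HeightOneSpectrum (𝓞 K), GL (Fin 2) (v.adicCompletion K) → ℂ,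
          LocFin970 (B.comp 𝔫) (T₀.erase B.u) n m
            (fun w => dblFn893 (n₀ w) (finGL305 w g)) b

open Classical in
/-- **LEAF T7.L2.1.H2a.4.3 = WT-DOWN [M] (local → adelic; finite products).**  For components
`b v` which are bi-invariant under `U(m v)` of finite support at the places of `T₀` other than
`u` the weights exist.
Proof.  `b v = ∑_k b_v(x_k) 1_{x_k U(m v)}`, `1_{I_u} = ∑_{h ∈ I_u / U(m u)} 1_{h U(m u)}`
(`m u ≥ 1`: `u ∣ 𝔫`); `s` = the products of the adelic elements with one non-trivial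
component, `β` = the product of the local weights; `rep` as for `WtUpC970`. -/
def WtDownC970 : Prop :=
  ∀ (ℓ : ℕ) (Φ : HeckeEigensystem K' ℂ) (B : L2Base K K'), IsL2Base ℓ Φ B →
    ∀ 𝔫 : Ideal (𝓞 K), IsLvl981 B 𝔫 →
    ∀ (T₀ : Finset (HeightOneSpectrum (𝓞 K)))
      (n n₀ : HeightOneSpectrum (𝓞 K') → ℕ) (m : HeightOneSpectrum (𝓞 K) → ℕ),
      IsExp981 B 𝔫 T₀ n n₀ m →
      ∀ b : ∀ v : HeightOneSpectrum (𝓞 K), GL (Fin 2) (v.adicCompletion K) → ℂ,
        (∀ v ∈ T₀.erase B.u,
          T6.IsBiInv (T6.InU (m v)) (b v) ∧ T6.HasFinSupp (T6.InU (m v)) (b v)) →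
        ∃ (s : Finset (G K)) (β : G K → ℂ), IsWtDown970 B T₀ m s β b

/-- **LEAF T7.L2.1.H2a.4.4 = UP-2 [L] (the 7 fields upstairs).**  For a first pair with its
shape, representatives `s'` and compatible torus data: `φ₂ = nat193 a' D' (lsum s' (Φ₁ []))`
has the fields upstairs of the second pair with `c₂ = #s' · c₁`.
Proof.  `lsum s' Φ₁0`: `IsPre311` (kit helper311: left translates by elements trivial at
infinity, finite sums), left invariant under `U(𝔫 𝒪_{K'})` (`s'` normalises it) and bi-invariant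
under `H'` (shape + `rep`: the components are `1_{H_w}`, spherical outside); `♮`:
`H193.killing_of_torus193` (test function, Eisenstein-killing with adjoint, `R(φ♮) = R(φ)` on the
functions invariant under the positive scalars, KILL) for the torus data
`isTorusData_mono193 level_g hrel.up`; `up2_op`: `R(lsum s' φ) = cosetOp s' ∘ R(φ)`
(`rconv_lsum267`), `up1_op` with `wordEv [] C = 1`, `ψ(x h) = ψ(x)` for `h ∈ s' ⊆ H'`;
`up2_ne`: `up1_ne`, `s'` non-empty; `up2_supp`: `up1_supp`, `C = s' · C₁ · a'(closure D')⁻¹`. -/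
def Up2C970 : Prop :=
  ∀ ℓ : ℕ, IsCycExt K K' ℓ → ℓ ≠ 2 → TotCplx K →
    ∀ Φ : HeckeEigensystem K' ℂ, A0.IsCuspAdelicSph0 K' Φ → ConstOnFibres K Φ →
      ∀ B : L2Base K K', IsL2Base ℓ Φ B → B.RamIn →
      ∀ 𝔫 : Ideal (𝓞 K), IsLvl981 B 𝔫 →
      ∀ μc : @Measure (GL (Fin 2) ℂ) (borel _), @Measure.IsHaarMeasure _ _ _ (borel _) μc →
      ∀ (T₀ : Finset (HeightOneSpectrum (𝓞 K)))
        (n n₀ : HeightOneSpectrum (𝓞 K') → ℕ) (m : HeightOneSpectrum (𝓞 K) → ℕ),
        IsExp981 B 𝔫 T₀ n n₀ m →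
      ∀ (a : (InfinitePlace K → ℝ) → G K) (D : Set (InfinitePlace K → ℝ))
        (a' : (InfinitePlace K' → ℝ) → G K') (D' : Set (InfinitePlace K' → ℝ)),
        H193.IsRelTorus 𝔫 B.R.r B.R'.r a D a' D' →
      ∀ s' : Finset (G K'), IsWtUp970 ℓ B T₀ n n₀ s' →
      ∀ (c₁ : EigData K' → ℂ) (Φ₁ : List (Gen K') → G K' → ℂ) (F₁ : List (Gen K') → G K → ℂ),
        IsPair1_981 ℓ Φ B 𝔫 c₁ Φ₁ F₁ →
        IsAvgPure (upI (K' := K') 𝔫) 𝔫 T₀ (LocA893 B 𝔫 μc T₀ n m) 1 (Φ₁ []) (F₁ []) →
        IsUp2_970 ℓ Φ B 𝔫 (fun C => (s'.card : ℂ) * c₁ C)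
          (H193.nat193 a' D' (lsum s' (Φ₁ [])))

open Classical in
/-- **LEAF T7.L2.1.H2a.4.5 = DOWN-2 [L-XL] (the 9 fields downstairs).**  For a first pair with
its shape, weights `(s, β)` for components `b` which are bi-invariant of finite support, and
compatible torus data: `f₂ = c · nat193 a D (wsum970 s β (F₁ []))` has the fields downstairs
of the second pair.
Proof.  `wsum970 s β F₁0`: `IsPre311`, bi-invariant under `U(𝔫)` and the Iwahori subgroup at
`u` (shape + `rep`: components `b v` bi-invariant under `U(m v)`, `1_{I_u}`, spherical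
outside), hence a test function; `♮`: `killing_of_torus193` (`hrel.down`); multiples.
`R(f₂) ψ = c ∑_x β(x) (R(F₁0) ψ)(· x)` on the functions invariant under the positive scalars.
`dn2_wfn`: `R(f)` of a test function which is left invariant under the Iwahori subgroup at `u`
preserves `IsWFn` (continuous, bounded, automorphic, cuspidal by Fubini, central scalars).
`dn2_class`: `dn1_class`, and the translations at the places of `T₀` commute with the Hecke
operators outside the level and with the sphere means (kit helper281 `TranslEig`).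
`dn2_comm`: see the header, (g).  `dn2_supp`: components. -/
def Dn2C970 : Prop :=
  ∀ ℓ : ℕ, IsCycExt K K' ℓ → ℓ ≠ 2 → TotCplx K →
    ∀ Φ : HeckeEigensystem K' ℂ, A0.IsCuspAdelicSph0 K' Φ → ConstOnFibres K Φ →
      ∀ B : L2Base K K', IsL2Base ℓ Φ B → B.RamIn →
      ∀ 𝔫 : Ideal (𝓞 K), IsLvl981 B 𝔫 →
      ∀ μc : @Measure (GL (Fin 2) ℂ) (borel _), @Measure.IsHaarMeasure _ _ _ (borel _) μc →
      ∀ (T₀ : Finset (HeightOneSpectrum (𝓞 K)))
        (n n₀ : HeightOneSpectrum (𝓞 K') → ℕ) (m : HeightOneSpectrum (𝓞 K) → ℕ),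
        IsExp981 B 𝔫 T₀ n n₀ m →
      ∀ (a : (InfinitePlace K → ℝ) → G K) (D : Set (InfinitePlace K → ℝ))
        (a' : (InfinitePlace K' → ℝ) → G K') (D' : Set (InfinitePlace K' → ℝ)),
        H193.IsRelTorus 𝔫 B.R.r B.R'.r a D a' D' →
      ∀ (s : Finset (G K)) (β : G K → ℂ)
        (b : ∀ v : HeightOneSpectrum (𝓞 K), GL (Fin 2) (v.adicCompletion K) → ℂ),
        (∀ v ∈ T₀.erase B.u,
          T6.IsBiInv (T6.InU (m v)) (b v) ∧ T6.HasFinSupp (T6.InU (m v)) (b v)) →
        IsWtDown970 B T₀ m s β b →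
      ∀ (c₁ : EigData K' → ℂ) (Φ₁ : List (Gen K') → G K' → ℂ) (F₁ : List (Gen K') → G K → ℂ),
        IsPair1_981 ℓ Φ B 𝔫 c₁ Φ₁ F₁ →
        IsAvgPure (upI (K' := K') 𝔫) 𝔫 T₀ (LocA893 B 𝔫 μc T₀ n m) 1 (Φ₁ []) (F₁ []) →
        ∀ c : ℂ,
          IsDn2_970 B 𝔫 (fun h => c * H193.nat193 a D (wsum970 s β (F₁ [])) h)

open Classical in
/-- **LEAF T7.L2.1.H2a.4.6 = SHAPE [XL] (the local shape `LocB893b`).**  For a first pair
with its shape, representatives, weights for partners `b` of the double coset functions of the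
bad element, and compatible torus data: `(φ₂, f₂)` is an average of pure tensors with the
local shape `LocB893b` and the constant `c` downstairs.
Proof.  Parameter space `Ω₁ × closure D'` (`Ω₁` the parameter space of the first pair; compact,
Hausdorff, second countable), measure `ν₁ ⊗ vol(D')⁻¹ vol|_{D'}`; at the parameter `(ω, t')`:
the sets `T ω`, `T' ω`, the components `repUp970 … (φ₀ ω)`, `repDn970 … b (f₀ ω)` at the finite
places, the translates `Φ ω w (· ρ_w(t')⁻¹)`, `F ω v (· ρ_v(N t')⁻¹)` at infinity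
(`ρ = exp`).  Members: `rep` of `IsWtUp970`, `IsWtDown970`, `pure305 T f₀ F (h a(t)⁻¹)` = the
pure tensor with the translated components at infinity; test functions (kit `IsPre311` +
invariance of the components), joint continuity, supports `s' · C · a'(closure D')`.  The
integrals: Fubini for continuous functions of compact support and `H193.nat_eq_push193`.
`LocB893b`: `LocFin970` for the four finite clauses at `T₀ ∖ {u}`; the clauses at infinity
from `ArchOk893` of the first pair (header, (d)); `SphOut893` and bi-`U(2)`-invariance are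
those of the first pair. -/
def ShapeC970 : Prop :=
  ∀ ℓ : ℕ, IsCycExt K K' ℓ → ℓ ≠ 2 → TotCplx K →
    ∀ Φ : HeckeEigensystem K' ℂ, A0.IsCuspAdelicSph0 K' Φ → ConstOnFibres K Φ →
      ∀ B : L2Base K K', IsL2Base ℓ Φ B → B.RamIn → ∀ g : G K', B.IsBad g →
      ∀ 𝔫 : Ideal (𝓞 K), IsLvl981 B 𝔫 →
      ∀ μc : @Measure (GL (Fin 2) ℂ) (borel _), @Measure.IsHaarMeasure _ _ _ (borel _) μc →
      ∀ (T₀ : Finset (HeightOneSpectrum (𝓞 K)))
        (n n₀ : HeightOneSpectrum (𝓞 K') → ℕ) (m : HeightOneSpectrum (𝓞 K) → ℕ),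
        IsExp981 B 𝔫 T₀ n n₀ m →
      ∀ (a : (InfinitePlace K → ℝ) → G K) (D : Set (InfinitePlace K → ℝ))
        (a' : (InfinitePlace K' → ℝ) → G K') (D' : Set (InfinitePlace K' → ℝ)),
        H193.IsRelTorus 𝔫 B.R.r B.R'.r a D a' D' →
      ∀ s' : Finset (G K'), IsWtUp970 ℓ B T₀ n n₀ s' →
      ∀ (s : Finset (G K)) (β : G K → ℂ)
        (b : ∀ v : HeightOneSpectrum (𝓞 K), GL (Fin 2) (v.adicCompletion K) → ℂ),
        LocFin970 (B.comp 𝔫) (T₀.erase B.u) n m
          (fun w => dblFn893 (n₀ w) (finGL305 w g)) b →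
        IsWtDown970 B T₀ m s β b →
      ∀ (c₁ : EigData K' → ℂ) (Φ₁ : List (Gen K') → G K' → ℂ) (F₁ : List (Gen K') → G K → ℂ),
        IsPair1_981 ℓ Φ B 𝔫 c₁ Φ₁ F₁ →
        IsAvgPure (upI (K' := K') 𝔫) 𝔫 T₀ (LocA893 B 𝔫 μc T₀ n m) 1 (Φ₁ []) (F₁ []) →
        ∀ c : ℂ,
          IsAvgPure (upI (K' := K') 𝔫) 𝔫 T₀ (LocB893b B g 𝔫 μc T₀ n n₀ m) c
            (H193.nat193 a' D' (lsum s' (Φ₁ [])))
            (fun h => c * H193.nat193 a D (wsum970 s β (F₁ [])) h)

end Leaves

end Fermat.Agent.LT.T7.B970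

end

end
-- ===== PACK-END LT/T7/B970/Pair2Spec.lean

-- ===== PACK-BEGIN LT/T7/B970/Pair2Top.lean
section




/-!
# Row LT, tower T7, node T7.L2.1.H2a.4 `Pair2C` (sub-architect helper970, registry 2688):
# FIRST CUT -- the proved tops

OFF-MAIN.  Every proof is complete, nothing assumed.

    baseCb_of970  : HaarCplxC981 → LvlC981 K K' → SysC981 K K' → Pair1C981 P K K'
                      → Pair2Cb970 P K K' → H893.BaseCb P K K'                     (VERBATIM)
    pair2Cb_of970 : Pair1C981 P K K' → H193.RelTorusC K K' → WtUpC970 K K' → BadLocC970 K K'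
                      → WtDownC970 K K' → Up2C970 K K' → Dn2C970 K K' → ShapeC970 K K'
                      → Pair2Cb970 P K K'
    baseCb_of_leaves970 : the two together (the open leaves of `BaseCb` after this cut)
-/

set_option autoImplicit false

open AutomorphicForm IsDedekindDomain NumberField MeasureTheory
open scoped ComplexConjugate

noncomputable section

namespace Fermat.Agent.LT.T7.B970

open Fermat.Agent.LT.H556 Fermat.Agent.LT.H556.A0 Fermat.Agent.LT.T7
open Fermat.Agent.LT.T7.H305 Fermat.Agent.LT.T7.H893 Fermat.Agent.LT.T7.B981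

attribute [local instance] Fermat.Agent.LT.T5.instMeasurableSpaceG

section Top

variable {P : EKCond}
variable {K K' : Type} [Field K] [NumberField K] [Field K'] [NumberField K'] [Algebra K K']

/-- The second pair from its two halves. -/
theorem isPair2_of970 {ℓ : ℕ} {Φ : HeckeEigensystem K' ℂ} {B : L2Base K K'}
    {𝔫 : Ideal (𝓞 K)} {c₂ : EigData K' → ℂ} {φ₂ : G K' → ℂ} {f₂ : G K → ℂ}
    (hu : IsUp2_970 ℓ Φ B 𝔫 c₂ φ₂) (hd : IsDn2_970 B 𝔫 f₂) :
    IsPair2_981 ℓ Φ B 𝔫 c₂ φ₂ f₂ where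
  up2_test := hu.up2_test
  up2_ek := hu.up2_ek
  up2_inv := hu.up2_inv
  up2_op := hu.up2_op
  up2_kill := hu.up2_kill
  up2_ne := hu.up2_ne
  dn2_test := hd.dn2_test
  dn2_ek := hd.dn2_ek
  dn2_inv := hd.dn2_inv
  dn2_wfn := hd.dn2_wfn
  dn2_class := hd.dn2_class
  dn2_comm := hd.dn2_comm
  dn2_kill := hd.dn2_kill
  up2_supp := hu.up2_supp
  dn2_supp := hd.dn2_supp

/-- The two halves of a second pair. -/
theorem isUp2_of_pair970 {ℓ : ℕ} {Φ : HeckeEigensystem K' ℂ} {B : L2Base K K'}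
    {𝔫 : Ideal (𝓞 K)} {c₂ : EigData K' → ℂ} {φ₂ : G K' → ℂ} {f₂ : G K → ℂ}
    (h : IsPair2_981 ℓ Φ B 𝔫 c₂ φ₂ f₂) : IsUp2_970 ℓ Φ B 𝔫 c₂ φ₂ :=
  ⟨h.up2_test, h.up2_ek, h.up2_inv, h.up2_op, h.up2_kill, h.up2_ne, h.up2_supp⟩

theorem isDn2_of_pair970 {ℓ : ℕ} {Φ : HeckeEigensystem K' ℂ} {B : L2Base K K'}
    {𝔫 : Ideal (𝓞 K)} {c₂ : EigData K' → ℂ} {φ₂ : G K' → ℂ} {f₂ : G K → ℂ}
    (h : IsPair2_981 ℓ Φ B 𝔫 c₂ φ₂ f₂) : IsDn2_970 B 𝔫 f₂ :=
  ⟨h.dn2_test, h.dn2_ek, h.dn2_inv, h.dn2_wfn, h.dn2_class, h.dn2_comm, h.dn2_kill,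
    h.dn2_supp⟩

/-- `LocHyp893` from its finite clauses and the three clauses at infinity. -/
theorem locHyp893_of_fin970 {D : CompData K K'} {μc : @Measure (GL (Fin 2) ℂ) (borel _)}
    {T : Finset (HeightOneSpectrum (𝓞 K))}
    {n : HeightOneSpectrum (𝓞 K') → ℕ} {m : HeightOneSpectrum (𝓞 K) → ℕ}
    {φ₀ : ∀ w : HeightOneSpectrum (𝓞 K'), GL (Fin 2) (w.adicCompletion K') → ℂ}
    {Φ : InfinitePlace K' → GL (Fin 2) ℂ → ℂ}
    {f₀ : ∀ v : HeightOneSpectrum (𝓞 K), GL (Fin 2) (v.adicCompletion K) → ℂ}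
    {F : InfinitePlace K → GL (Fin 2) ℂ → ℂ}
    (hfin : LocFin970 D T n m φ₀ f₀)
    (hup : ∀ w : InfinitePlace K', Continuous (Φ w) ∧ HasCompactSupport (Φ w) ∧
      ∀ g : GL (Fin 2) ℂ, Φ w (conjGL305 g) = Φ w g)
    (hdn : ∀ v : InfinitePlace K, Continuous (F v) ∧ HasCompactSupport (F v) ∧
      ∀ g : GL (Fin 2) ℂ, F v (conjGL305 g) = F v g)
    (harch : ∀ (v : InfinitePlace K) (w : ℕ → InfinitePlace K'),
      (∀ j : ℕ, (w j).comap (algebraMap K K') = v) →
      (∀ j j' : ℕ, j < D.l → j' < D.l → w j = w j' → j = j') →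
      F v = convL305 μc (fun j => Φ (w j)) (D.l - 1)) :
    LocHyp893 D μc T n m φ₀ Φ f₀ F where
  inv_up := hfin.inv_up
  inv_down := hfin.inv_down
  arch_up := hup
  arch_down := hdn
  inert := hfin.inert
  split := hfin.split
  arch := harch

/-- The finite clauses of `LocHyp893`. -/
theorem locFin_of_hyp970 {D : CompData K K'} {μc : @Measure (GL (Fin 2) ℂ) (borel _)}
    {T : Finset (HeightOneSpectrum (𝓞 K))}
    {n : HeightOneSpectrum (𝓞 K') → ℕ} {m : HeightOneSpectrum (𝓞 K) → ℕ}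
    {φ₀ : ∀ w : HeightOneSpectrum (𝓞 K'), GL (Fin 2) (w.adicCompletion K') → ℂ}
    {Φ : InfinitePlace K' → GL (Fin 2) ℂ → ℂ}
    {f₀ : ∀ v : HeightOneSpectrum (𝓞 K), GL (Fin 2) (v.adicCompletion K) → ℂ}
    {F : InfinitePlace K → GL (Fin 2) ℂ → ℂ}
    (h : LocHyp893 D μc T n m φ₀ Φ f₀ F) : LocFin970 D T n m φ₀ f₀ :=
  ⟨h.inv_up, h.inv_down, h.inert, h.split⟩

/-- The finite clauses depend on the components downstairs at the places of `T` only. -/
theorem LocFin970.congr {D : CompData K K'} {T : Finset (HeightOneSpectrum (𝓞 K))}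
    {n : HeightOneSpectrum (𝓞 K') → ℕ} {m : HeightOneSpectrum (𝓞 K) → ℕ}
    {φ₀ : ∀ w : HeightOneSpectrum (𝓞 K'), GL (Fin 2) (w.adicCompletion K') → ℂ}
    {f₀ f₀' : ∀ v : HeightOneSpectrum (𝓞 K), GL (Fin 2) (v.adicCompletion K) → ℂ}
    (h : LocFin970 D T n m φ₀ f₀) (he : ∀ v ∈ T, f₀' v = f₀ v) :
    LocFin970 D T n m φ₀ f₀' where
  inv_up := h.inv_up
  inv_down := fun v hv => by
    rw [he v hv]
    exact h.inv_down v hv
  inert := fun v hv => by
    rw [he v hv]
    exact h.inert v hv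
  split := fun v hv => by
    rw [he v hv]
    exact h.split v hv

/-- **THE TOP OF THE FIRST CUT OF `BaseCb`, v2** (the proof of `B981.baseC_of981` with the
local shape `IsDecomp893b`). -/
theorem baseCb_of970 (hH : HaarCplxC981) (hL : LvlC981 K K') (hS : SysC981 K K')
    (h1 : Pair1C981 P K K') (h2 : Pair2Cb970 P K K') : H893.BaseCb P K K' := by
  intro ℓ hcyc hℓ hcplx Φ hΦ hconst hP B hB hram g hg
  obtain ⟨μc, hμc⟩ := hH
  obtain ⟨M, hM⟩ := h2 ℓ hcyc hℓ hcplx Φ hΦ hconst hP B hB hram g hg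
  obtain ⟨𝔫, T₀, n, n₀, m, hlvl, hexp, hbd⟩ := hL ℓ Φ B hB M
  obtain ⟨Hg, H', z', H, z, hsys⟩ := hS ℓ Φ B hB g hg
  obtain ⟨c₁, Φ₁, F₁, hp1, hsh1⟩ :=
    h1 ℓ hcyc hℓ hcplx Φ hΦ hconst hP B hB hram 𝔫 hlvl μc hμc T₀ n n₀ m hexp
  refine ⟨𝔫, μc, hμc, fun a ha => ?_⟩
  obtain ⟨c₂, φ₂, f₂, hp2, hsh2⟩ := hM 𝔫 hlvl μc hμc T₀ n n₀ m hexp hbd a ha
  refine ⟨mkPre981 𝔫 c₁ c₂ Φ₁ φ₂ F₁ f₂ Hg H' z' H z, rfl,
    isL2PreOp_mk981 hlvl hsys hp1 hp2, isL2PreSupp_mk981 Hg H' z' H z hp1 hp2, ?_⟩
  exact ⟨T₀, n, n₀, m, hexp.mem, hexp.lvl, hexp.lvl_up, hexp.lvl_base, hsh1, hsh2⟩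

/-- **THE TOP OF THE FIRST CUT OF `Pair2Cb970`**: the second pair from the first pair, the
compatible torus data, the weights and the three property leaves. -/
theorem pair2Cb_of970 (h1 : Pair1C981 P K K') (hT : H193.RelTorusC K K')
    (hWu : WtUpC970 K K') (hBl : BadLocC970 K K') (hWd : WtDownC970 K K')
    (hU : Up2C970 K K') (hD : Dn2C970 K K') (hSh : ShapeC970 K K') :
    Pair2Cb970 P K K' := by
  classical
  intro ℓ hcyc hℓ hcplx Φ hΦ hconst hP B hB hram g hg
  obtain ⟨M, hM⟩ := hBl ℓ hcyc hℓ hcplx Φ B hB hram g hg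
  refine ⟨M, fun 𝔫 hlvl μc hμc T₀ n n₀ m hexp hbd c _ => ?_⟩
  -- the first pair, for the same level and exponents
  obtain ⟨c₁, Φ₁, F₁, hp1, hsh1⟩ :=
    h1 ℓ hcyc hℓ hcplx Φ hΦ hconst hP B hB hram 𝔫 hlvl μc hμc T₀ n n₀ m hexp
  have hsh0 := hsh1 [] (fun x hx => absurd hx (List.not_mem_nil))
  -- compatible torus data
  obtain ⟨a, D, a', D', hrel⟩ :=
    hT ℓ hcyc hcplx 𝔫 hlvl.level_ne B.R.r B.R'.r hB.frame.ray hB.frame'.ray
  -- the representatives upstairs, the partners, the weights downstairs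
  obtain ⟨s', hs'⟩ := hWu ℓ Φ B hB 𝔫 hlvl T₀ n n₀ m hexp
  obtain ⟨b, hb⟩ := hM 𝔫 hlvl T₀ n n₀ m hexp hbd
  obtain ⟨s, β, hsβ⟩ := hWd ℓ Φ B hB 𝔫 hlvl T₀ n n₀ m hexp b hb.inv_down
  refine ⟨fun C => (s'.card : ℂ) * c₁ C, H193.nat193 a' D' (lsum s' (Φ₁ [])),
    fun h => c * H193.nat193 a D (wsum970 s β (F₁ [])) h, ?_, ?_⟩
  · exact isPair2_of970
      (hU ℓ hcyc hℓ hcplx Φ hΦ hconst B hB hram 𝔫 hlvl μc hμc T₀ n n₀ m hexp a D a' D' hrel
        s' hs' c₁ Φ₁ F₁ hp1 hsh0)
      (hD ℓ hcyc hℓ hcplx Φ hΦ hconst B hB hram 𝔫 hlvl μc hμc T₀ n n₀ m hexp a D a' D' hrel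
        s β b hb.inv_down hsβ c₁ Φ₁ F₁ hp1 hsh0 c)
  · exact hSh ℓ hcyc hℓ hcplx Φ hΦ hconst B hB hram g hg 𝔫 hlvl μc hμc T₀ n n₀ m hexp
      a D a' D' hrel s' hs' s β b hb hsβ c₁ Φ₁ F₁ hp1 hsh0 c

/-- **`BaseCb` FROM THE OPEN LEAVES after the cut of the second pair.** -/
theorem baseCb_of_leaves970 (hH : HaarCplxC981) (hL : LvlC981 K K') (hS : SysC981 K K')
    (h1 : Pair1C981 P K K') (hT : H193.RelTorusC K K')
    (hWu : WtUpC970 K K') (hBl : BadLocC970 K K') (hWd : WtDownC970 K K')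
    (hU : Up2C970 K K') (hD : Dn2C970 K K') (hSh : ShapeC970 K K') :
    H893.BaseCb P K K' :=
  baseCb_of970 hH hL hS h1 (pair2Cb_of970 h1 hT hWu hBl hWd hU hD hSh)

end Top

end Fermat.Agent.LT.T7.B970

end

end
-- ===== PACK-END LT/T7/B970/Pair2Top.lean

-- ===== PACK-BEGIN LT/T7/B970/Pair2KfSpec.lean
section



/-!
# Row LT, tower T7, node T7.L2.1.H2a.4 `Pair2C` (sub-architect helper970, registry 2688):
# THE KILL-FREE FORM OF THE THREE PROPERTY LEAVES -- Spec

OFF-MAIN.  Definitions and frozen Props only (the proved tops are `Pair2KfTop.lean`).  No hole,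
nothing assumed.  ADDITIVE (new names only, suffix `970`).

## Why

The natural-average step is CLOSED in general (helper193, `T7/H193/NatStep.lean`):

    H193.pairBCb_of_pairB0C193 : T1.T1Out K → T1.T1Out K' →
        H193.PairB0C193 P K K' LocB893b → Q797.PairBC797 P K K' LocB893b

(`PairB0C193` = the second pair WITHOUT the killing fields: no torus, no natural average).  So
the three property leaves of the first cut (`Up2C970`, `Dn2C970`, `ShapeC970`) are needed in
their KILL-FREE form only, i.e. for the pair BEFORE the natural average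

    φ₀ = lsum s' (Φ₁ [])                 c₂ = #s' · c₁
    f₀ = c · wsum970 s β (F₁ [])

| leaf | content | size |
|---|---|---|
| `Up0C970`    | the 6 fields upstairs of `H193.IsPairB0_193` for `φ₀` | M-L |
| `Dn0C970`    | the 7 fields downstairs of `H193.IsPairB0_193` for `f₀` | L |
| `Shape0C970` | `IsAvgPure … (LocB893b …) c φ₀ f₀`, parameter space = the one of the first pair | L |

Each of them is the part of the proof of the corresponding leaf of the first cut which comes
BEFORE the torus mean (the proofs written in `Pair2Spec.lean` apply verbatim, the sentences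
about `♮`, `killing_of_torus193`, `nat_eq_push193`, Fubini are dropped; NO hypothesis on torus
data).  The leaves `WtUpC970`, `BadLocC970`, `WtDownC970` do not change.

    pairB0C_of970 : HaarCplxC981 → LvlC981 K K' → Pair1C981 P K K' → WtUpC970 K K'
        → BadLocC970 K K' → WtDownC970 K K' → Up0C970 K K' → Dn0C970 K K' → Shape0C970 K K'
        → H193.PairB0C193 P K K' LocB893b                                   (`Pair2KfTop.lean`)

FALSITY CHECKS (helper970).  (a) The constant: `c ≠ 0` is a HYPOTHESIS of `Dn0C970` and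
`Shape0C970` (the node gives it; not needed by the proofs in the notes).  (b) `Shape0C970`: the
members at the parameter `ω` are `pure305 (T' ω) (repUp970 … (φ₀ ω)) (Φ ω)` and
`c · pure305 (T ω) (repDn970 … b (f₀ ω)) (F ω)`, the SAME parameter space, measure, sets of
places and components at infinity as the first pair; `LocB893b` asks `LocHyp893` for the set
`T₀ ∖ {u}` with the DOUBLE COSET functions upstairs (`LocFin970` of the partners `b` + the
three clauses at infinity of `ArchOk893` of the first pair, `locHyp893_of_fin970`), the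
equalities of the replaced components (`repUp970`, `repDn970` by definition; `u ∈ T₀`:
`IsLvl981.u_level` + `IsExp981.mem`), `SphOut893` (outside `T₀` nothing is replaced: a place
`w` over `v ∉ T₀` is over no place of `T₀`), `ArchOk893` (for the EMPTY set of finite places the
finite clauses of `LocHyp305` are void, the components at infinity do not change).  (c) The
members are test functions: finite sums of left translates by elements trivial at infinity
(`IsPre311`) + the left invariance under the level from the components.  (d) `up_inv`,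
`dn_inv` (`IsUInv`): from the SHAPE of the first pair (`rep` of `IsWtUp970` / `IsWtDown970`
under the integral), as in the first cut.
-/

set_option autoImplicit false

open AutomorphicForm IsDedekindDomain NumberField MeasureTheory
open scoped ComplexConjugate

noncomputable section

namespace Fermat.Agent.LT.T7.B970

open Fermat.Agent.LT.H556 Fermat.Agent.LT.H556.A0 Fermat.Agent.LT.T7
open Fermat.Agent.LT.T7.H305 Fermat.Agent.LT.T7.H893 Fermat.Agent.LT.T7.B981

attribute [local instance] Fermat.Agent.LT.T5.instMeasurableSpaceG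

section Defs

variable {K K' : Type} [Field K] [NumberField K] [Field K'] [NumberField K'] [Algebra K K']

/-- **THE FIELDS UPSTAIRS of the kill-free pair** (`H193.IsPairB0_193`: same names, same
statements; = `IsUp2_970` without `up2_kill`). -/
structure IsUp0_970 (ℓ : ℕ) (Φ : HeckeEigensystem K' ℂ) (B : L2Base K K')
    (𝔫 : Ideal (𝓞 K)) (c₂ : EigData K' → ℂ) (φ₀ : G K' → ℂ) : Prop where
  up_test : T5.IsTestFn (upI (K' := K') 𝔫) T5.trivType φ₀
  up_ek : T5.IsEK B.R'.μ φ₀ ∧ T5.IsEK B.R'.μ (T5.adjointFn φ₀)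
  up_inv : IsUInv B.𝔑₀ ℓ B.o φ₀
  up_op : ∀ (ψ : G K' → ℂ) (C : EigData K'), IsEigFn B.𝔑₀ B.R'.r ℓ B.o ψ C →
    ∀ x : G K', T5.Rconv B.R'.μ φ₀ ψ x = c₂ C * ψ x
  up_ne : ∀ C : EigData K', C.AgreeOut B.S' (eigOf Φ) → c₂ C ≠ 0
  up_supp : ∃ C : Set (G K'), IsCompact C ∧ T5.H32.IsIwSupported32 ℓ B.o C φ₀

/-- **THE FIELDS DOWNSTAIRS of the kill-free pair** (`H193.IsPairB0_193`: same names, same
statements; = `IsDn2_970` without `dn2_kill`). -/
structure IsDn0_970 (B : L2Base K K') (𝔫 : Ideal (𝓞 K)) (f₀ : G K → ℂ) : Prop where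
  dn_test : T5.IsTestFn 𝔫 T5.trivType f₀
  dn_ek : T5.IsEK B.R.μ f₀ ∧ T5.IsEK B.R.μ (T5.adjointFn f₀)
  dn_inv : IsUInv 𝔫 1 (fun _ => B.u) f₀
  dn_wfn : ∀ ψ : G K → ℂ, IsWFn 𝔫 B.R.r 1 (fun _ => B.u) ψ →
    IsWFn 𝔫 B.R.r 1 (fun _ => B.u) (T5.Rconv B.R.μ f₀ ψ)
  dn_class : ∀ (ψ : G K → ℂ) (c : EigData K), IsEigFn 𝔫 B.R.r 1 (fun _ => B.u) ψ c →
    IsEigFn 𝔫 B.R.r 1 (fun _ => B.u) (T5.Rconv B.R.μ f₀ ψ) c
  dn_comm : ∀ ψ : G K → ℂ, IsWFn 𝔫 B.R.r 1 (fun _ => B.u) ψ →
    ∀ (H : Finset (G K)) (z : G K), IsIwCosetSystem B.u H → IsScalarUniformizerAt B.u z →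
      (∀ x : G K, T5.Rconv B.R.μ f₀ (iwOp B.u H ψ) x
        = iwOp B.u H (T5.Rconv B.R.μ f₀ ψ) x) ∧
      ∀ (k : ℤ) (x : G K), T5.Rconv B.R.μ f₀ (shiftOp z k ψ) x
        = shiftOp z k (T5.Rconv B.R.μ f₀ ψ) x
  dn_supp : ∃ C : Set (G K), IsCompact C ∧ T5.H32.IsIwSupported32 1 (fun _ => B.u) C f₀

end Defs

section Leaves

variable (K K' : Type) [Field K] [NumberField K] [Field K'] [NumberField K'] [Algebra K K']

/-- **LEAF T7.L2.1.H2a.4.4' = UP-0 [M-L] (the 6 fields upstairs, kill-free).**  For a first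
pair with its shape and representatives `s'`: `φ₀ = lsum s' (Φ₁ [])` has the fields upstairs of
the kill-free second pair with `c₂ = #s' · c₁`.
Proof.  = the proof of `Up2C970` before the torus mean: `IsPre311` (left translates by elements
trivial at infinity, finite sums), left invariant under `U(𝔫 𝒪_{K'})` and bi-invariant under
`H'` (shape + `rep`: the components are `1_{H_w}`, spherical outside); `up_op`:
`R(lsum s' φ) = cosetOp s' ∘ R(φ)` (`rconv_lsum267`), `up1_op` with `wordEv [] C = 1`,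
`ψ(x h) = ψ(x)` for `h ∈ s' ⊆ H'`; `up_ne`: `up1_ne`, `s'` non-empty; `up_supp`: `up1_supp`,
`C = s' · C₁`. -/
def Up0C970 : Prop :=
  ∀ ℓ : ℕ, IsCycExt K K' ℓ → ℓ ≠ 2 → TotCplx K →
    ∀ Φ : HeckeEigensystem K' ℂ, A0.IsCuspAdelicSph0 K' Φ → ConstOnFibres K Φ →
      ∀ B : L2Base K K', IsL2Base ℓ Φ B → B.RamIn →
      ∀ 𝔫 : Ideal (𝓞 K), IsLvl981 B 𝔫 →
      ∀ μc : @Measure (GL (Fin 2) ℂ) (borel _), @Measure.IsHaarMeasure _ _ _ (borel _) μc →
      ∀ (T₀ : Finset (HeightOneSpectrum (𝓞 K)))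
        (n n₀ : HeightOneSpectrum (𝓞 K') → ℕ) (m : HeightOneSpectrum (𝓞 K) → ℕ),
        IsExp981 B 𝔫 T₀ n n₀ m →
      ∀ s' : Finset (G K'), IsWtUp970 ℓ B T₀ n n₀ s' →
      ∀ (c₁ : EigData K' → ℂ) (Φ₁ : List (Gen K') → G K' → ℂ) (F₁ : List (Gen K') → G K → ℂ),
        IsPair1_981 ℓ Φ B 𝔫 c₁ Φ₁ F₁ →
        IsAvgPure (upI (K' := K') 𝔫) 𝔫 T₀ (LocA893 B 𝔫 μc T₀ n m) 1 (Φ₁ []) (F₁ []) →
        IsUp0_970 ℓ Φ B 𝔫 (fun C => (s'.card : ℂ) * c₁ C) (lsum s' (Φ₁ []))

open Classical in
/-- **LEAF T7.L2.1.H2a.4.5' = DOWN-0 [L] (the 7 fields downstairs, kill-free).**  For a first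
pair with its shape and weights `(s, β)` for components `b` which are bi-invariant of finite
support: `f₀ = c · wsum970 s β (F₁ [])` has the fields downstairs of the kill-free second
pair.
Proof.  = the proof of `Dn2C970` before the torus mean. -/
def Dn0C970 : Prop :=
  ∀ ℓ : ℕ, IsCycExt K K' ℓ → ℓ ≠ 2 → TotCplx K →
    ∀ Φ : HeckeEigensystem K' ℂ, A0.IsCuspAdelicSph0 K' Φ → ConstOnFibres K Φ →
      ∀ B : L2Base K K', IsL2Base ℓ Φ B → B.RamIn →
      ∀ 𝔫 : Ideal (𝓞 K), IsLvl981 B 𝔫 →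
      ∀ μc : @Measure (GL (Fin 2) ℂ) (borel _), @Measure.IsHaarMeasure _ _ _ (borel _) μc →
      ∀ (T₀ : Finset (HeightOneSpectrum (𝓞 K)))
        (n n₀ : HeightOneSpectrum (𝓞 K') → ℕ) (m : HeightOneSpectrum (𝓞 K) → ℕ),
        IsExp981 B 𝔫 T₀ n n₀ m →
      ∀ (s : Finset (G K)) (β : G K → ℂ)
        (b : ∀ v : HeightOneSpectrum (𝓞 K), GL (Fin 2) (v.adicCompletion K) → ℂ),
        (∀ v ∈ T₀.erase B.u,
          T6.IsBiInv (T6.InU (m v)) (b v) ∧ T6.HasFinSupp (T6.InU (m v)) (b v)) →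
        IsWtDown970 B T₀ m s β b →
      ∀ (c₁ : EigData K' → ℂ) (Φ₁ : List (Gen K') → G K' → ℂ) (F₁ : List (Gen K') → G K → ℂ),
        IsPair1_981 ℓ Φ B 𝔫 c₁ Φ₁ F₁ →
        IsAvgPure (upI (K' := K') 𝔫) 𝔫 T₀ (LocA893 B 𝔫 μc T₀ n m) 1 (Φ₁ []) (F₁ []) →
        ∀ c : ℂ, c ≠ 0 →
          IsDn0_970 B 𝔫 (fun h => c * wsum970 s β (F₁ []) h)

open Classical in
/-- **LEAF T7.L2.1.H2a.4.6' = SHAPE-0 [L] (the local shape `LocB893b`, kill-free).**  For a
first pair with its shape, representatives and weights for partners `b` of the double coset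
functions of the bad element: `(φ₀, f₀)` is an average of pure tensors with the local shape
`LocB893b` and the constant `c` downstairs.
Proof.  The parameter space, the measure, the sets of places and the components at infinity
of the first pair; the components `repUp970 … (φ₀ ω)`, `repDn970 … b (f₀ ω)` at the finite
places.  Members: `rep` of `IsWtUp970`, `IsWtDown970`; the integrals: finite sums commute with
the integral.  See the header, (b), (c). -/
def Shape0C970 : Prop :=
  ∀ ℓ : ℕ, IsCycExt K K' ℓ → ℓ ≠ 2 → TotCplx K →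
    ∀ Φ : HeckeEigensystem K' ℂ, A0.IsCuspAdelicSph0 K' Φ → ConstOnFibres K Φ →
      ∀ B : L2Base K K', IsL2Base ℓ Φ B → B.RamIn → ∀ g : G K', B.IsBad g →
      ∀ 𝔫 : Ideal (𝓞 K), IsLvl981 B 𝔫 →
      ∀ μc : @Measure (GL (Fin 2) ℂ) (borel _), @Measure.IsHaarMeasure _ _ _ (borel _) μc →
      ∀ (T₀ : Finset (HeightOneSpectrum (𝓞 K)))
        (n n₀ : HeightOneSpectrum (𝓞 K') → ℕ) (m : HeightOneSpectrum (𝓞 K) → ℕ),
        IsExp981 B 𝔫 T₀ n n₀ m →
      ∀ s' : Finset (G K'), IsWtUp970 ℓ B T₀ n n₀ s' →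
      ∀ (s : Finset (G K)) (β : G K → ℂ)
        (b : ∀ v : HeightOneSpectrum (𝓞 K), GL (Fin 2) (v.adicCompletion K) → ℂ),
        LocFin970 (B.comp 𝔫) (T₀.erase B.u) n m
          (fun w => dblFn893 (n₀ w) (finGL305 w g)) b →
        IsWtDown970 B T₀ m s β b →
      ∀ (c₁ : EigData K' → ℂ) (Φ₁ : List (Gen K') → G K' → ℂ) (F₁ : List (Gen K') → G K → ℂ),
        IsPair1_981 ℓ Φ B 𝔫 c₁ Φ₁ F₁ →
        IsAvgPure (upI (K' := K') 𝔫) 𝔫 T₀ (LocA893 B 𝔫 μc T₀ n m) 1 (Φ₁ []) (F₁ []) →
        ∀ c : ℂ, c ≠ 0 →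
          IsAvgPure (upI (K' := K') 𝔫) 𝔫 T₀ (LocB893b B g 𝔫 μc T₀ n n₀ m) c
            (lsum s' (Φ₁ [])) (fun h => c * wsum970 s β (F₁ []) h)

end Leaves

/-! ## Appendix: the equation lemmas of the definitions of this file are realised HERE -/

theorem eqns_realised_pair2Kf970 : True := by
  have _h0_0 := @Up0C970.eq_1
  have _h0_1 := @Up0C970.eq_def
  have _h0_2 := @Up0C970.eq_unfold
  have _h1_0 := @Dn0C970.eq_1
  have _h1_1 := @Dn0C970.eq_def
  have _h1_2 := @Dn0C970.eq_unfold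
  have _h2_0 := @Shape0C970.eq_1
  have _h2_1 := @Shape0C970.eq_def
  have _h2_2 := @Shape0C970.eq_unfold
  trivial

end Fermat.Agent.LT.T7.B970

end

end
-- ===== PACK-END LT/T7/B970/Pair2KfSpec.lean

-- ===== PACK-BEGIN LT/T7/H470/WtDown.lean
section





/-!
# Row LT, tower T7, node T7.L2.1.H2a.4 `Pair2Cb970`, leaf T7.L2.1.H2a.4.3 `WtDownC970`
# (helper470, registry 2864)

OFF-MAIN.  `wtDownC470 (K K') : B970.WtDownC970 K K'`, VERBATIM against
`LT/T7/B970/Pair2Spec.lean` (helper970@c68ed6767).  Imports: Mathlib + the spec closure + the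
kits `LT/H129/{Comp,Local}` (helper129, local embedding) and `LT/T7/H981/FinIndex` (helper981,
finite index of `U(𝔑)`), byte-identical copies.  ADDITIVE (new names only, suffix `470`).

Route.  (1) `U(n)` is a subgroup of `GL₂(k)`; the Iwahori subgroup is stable under right
multiplication by `U(n)`, `n ≥ 1`.  (2) A function which is right invariant under `U(n)` and
supported on finitely many cosets is the sum of `φ(r) 1_{U(n)}(r⁻¹ ·)` over a finite set `R`
of representatives (the values of `Quotient.out`).  (3) `m_u ≥ 1` for `u ∣ 𝔫`, and the Iwahori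
subgroup is covered by finitely many cosets of `U(m_u)` (`finIndexC981` for the local
embedding of an element of the Iwahori subgroup).  (4) Induction over the finite set of
places: the weighted sum over `s × R` of the left translates by `x · loc_{v₀}(r)`; the
translate of a pure tensor by `loc_{v₀}(r)` is the pure tensor with the translated component
at `v₀`, and a pure tensor is linear in the component at `v₀`.
-/

set_option autoImplicit false

open IsDedekindDomain NumberField

noncomputable section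

namespace Fermat.Agent.LT.T7.H470

open Fermat.Agent.LT.H556 Fermat.Agent.LT.H556.A0 Fermat.Agent.LT
open Fermat.Agent.LT.T7.H305 Fermat.Agent.LT.T7.H893 Fermat.Agent.LT.T7.B981
open Fermat.Agent.LT.T7.B970 Fermat.Agent.LT.H129

/-! ## 1. The local groups -/

section Local

variable {k : Type} [Field k] [Valued k T6.Γ₀]

theorem exp_neg_le_one470 (n : ℕ) : (WithZero.exp (-(n : ℤ)) : T6.Γ₀) ≤ 1 := by
  rw [← WithZero.exp_zero]
  exact WithZero.exp_le_exp.mpr (by omega)

theorem exp_neg_lt_one470 {n : ℕ} (hn : 1 ≤ n) : (WithZero.exp (-(n : ℤ)) : T6.Γ₀) < 1 := by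
  rw [← WithZero.exp_zero]
  exact WithZero.exp_lt_exp.mpr (by omega)

/-- The entries of `A - 1` have valuation `≤ ε`. -/
def Near470 (ε : T6.Γ₀) (A : Matrix (Fin 2) (Fin 2) k) : Prop :=
  ∀ i j : Fin 2, Valued.v (A i j - (1 : Matrix (Fin 2) (Fin 2) k) i j) ≤ ε

/-- The entries of `A` are integral. -/
def Intg470 (A : Matrix (Fin 2) (Fin 2) k) : Prop :=
  ∀ i j : Fin 2, Valued.v (A i j) ≤ 1

theorem val_one_entry470 (i j : Fin 2) :
    Valued.v ((1 : Matrix (Fin 2) (Fin 2) k) i j) ≤ (1 : T6.Γ₀) := by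
  rw [Matrix.one_apply]
  split_ifs
  · rw [map_one]
  · rw [map_zero]; exact zero_le_one

theorem near_one470 (ε : T6.Γ₀) : Near470 ε (1 : Matrix (Fin 2) (Fin 2) k) := by
  intro i j
  rw [sub_self, map_zero]
  exact zero_le

theorem intg_of_near470 {ε : T6.Γ₀} (hε : ε ≤ 1) {A : Matrix (Fin 2) (Fin 2) k}
    (hA : Near470 ε A) : Intg470 A := by
  intro i j
  have e : A i j = (A i j - (1 : Matrix (Fin 2) (Fin 2) k) i j)
      + (1 : Matrix (Fin 2) (Fin 2) k) i j := by ring
  rw [e]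
  exact Valuation.map_add_le _ ((hA i j).trans hε) (val_one_entry470 i j)

theorem intg_mul470 {A B : Matrix (Fin 2) (Fin 2) k} (hA : Intg470 A) (hB : Intg470 B) :
    Intg470 (A * B) := by
  intro i j
  rw [Matrix.mul_apply, Fin.sum_univ_two]
  refine Valuation.map_add_le _ ?_ ?_
  · rw [map_mul]; exact mul_le_one' (hA i 0) (hB 0 j)
  · rw [map_mul]; exact mul_le_one' (hA i 1) (hB 1 j)

theorem near_mul470 {ε : T6.Γ₀} (hε : ε ≤ 1) {A B : Matrix (Fin 2) (Fin 2) k}
    (hA : Near470 ε A) (hB : Near470 ε B) : Near470 ε (A * B) := by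
  intro i j
  have e : (A * B) i j - (1 : Matrix (Fin 2) (Fin 2) k) i j
      = (A i j - (1 : Matrix (Fin 2) (Fin 2) k) i j)
        + (B i j - (1 : Matrix (Fin 2) (Fin 2) k) i j)
        + ((A i 0 - (1 : Matrix (Fin 2) (Fin 2) k) i 0)
              * (B 0 j - (1 : Matrix (Fin 2) (Fin 2) k) 0 j)
            + (A i 1 - (1 : Matrix (Fin 2) (Fin 2) k) i 1)
              * (B 1 j - (1 : Matrix (Fin 2) (Fin 2) k) 1 j)) := by
    have hmat : A * B - 1 = (A - 1) + (B - 1) + (A - 1) * (B - 1) := by noncomm_ring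
    have h2 := congrFun (congrFun hmat i) j
    simp only [Matrix.sub_apply, Matrix.add_apply, Matrix.mul_apply, Fin.sum_univ_two] at h2
    rw [Matrix.mul_apply, Fin.sum_univ_two]
    exact h2
  rw [e]
  have hm : ∀ a b : k, Valued.v a ≤ ε → Valued.v b ≤ ε → Valued.v (a * b) ≤ ε := by
    intro a b ha hb
    rw [map_mul]
    calc Valued.v a * Valued.v b ≤ ε * 1 := mul_le_mul' ha (hb.trans hε)
      _ = ε := mul_one ε
  refine Valuation.map_add_le _ (Valuation.map_add_le _ (hA i j) (hB i j))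
    (Valuation.map_add_le _ (hm _ _ (hA i 0) (hB 0 j)) (hm _ _ (hA i 1) (hB 1 j)))

theorem inU_iff470 (n : ℕ) (g : GL (Fin 2) k) :
    T6.InU n g ↔ Near470 (WithZero.exp (-(n : ℤ))) (g : Matrix (Fin 2) (Fin 2) k)
      ∧ Near470 (WithZero.exp (-(n : ℤ))) ((g⁻¹ : GL (Fin 2) k) : Matrix (Fin 2) (Fin 2) k) :=
  ⟨fun h => ⟨fun i j => (h i j).1, fun i j => (h i j).2⟩, fun h i j => ⟨h.1 i j, h.2 i j⟩⟩

theorem inU_one470 (n : ℕ) : T6.InU n (1 : GL (Fin 2) k) := by
  rw [inU_iff470, inv_one]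
  exact ⟨near_one470 _, near_one470 _⟩

theorem inU_inv470 {n : ℕ} {g : GL (Fin 2) k} (hg : T6.InU n g) : T6.InU n g⁻¹ := by
  rw [inU_iff470] at hg ⊢
  rw [inv_inv]
  exact ⟨hg.2, hg.1⟩

theorem inU_mul470 {n : ℕ} {g h : GL (Fin 2) k} (hg : T6.InU n g) (hh : T6.InU n h) :
    T6.InU n (g * h) := by
  rw [inU_iff470] at hg hh ⊢
  refine ⟨?_, ?_⟩
  · rw [Matrix.GeneralLinearGroup.coe_mul]
    exact near_mul470 (exp_neg_le_one470 n) hg.1 hh.1
  · rw [mul_inv_rev, Matrix.GeneralLinearGroup.coe_mul]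
    exact near_mul470 (exp_neg_le_one470 n) hh.2 hg.2

/-- `U(n)` as a subgroup. -/
def uSub470 (n : ℕ) : Subgroup (GL (Fin 2) k) where
  carrier := {g | T6.InU n g}
  mul_mem' := fun hg hh => inU_mul470 hg hh
  one_mem' := inU_one470 n
  inv_mem' := fun hg => inU_inv470 hg

theorem mem_uSub470 (n : ℕ) (g : GL (Fin 2) k) : g ∈ uSub470 (k := k) n ↔ T6.InU n g :=
  Iff.rfl

/-- The Iwahori subgroup is stable under right multiplication by `U(n)`, `n ≥ 1`. -/
theorem inIw_mul470 {n : ℕ} (hn : 1 ≤ n) {g u : GL (Fin 2) k} (hg : InIw893 g)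
    (hu : T6.InU n u) : InIw893 (g * u) := by
  rw [inU_iff470] at hu
  have hu1 : Intg470 (u : Matrix (Fin 2) (Fin 2) k) :=
    intg_of_near470 (exp_neg_le_one470 n) hu.1
  have hu2 : Intg470 ((u⁻¹ : GL (Fin 2) k) : Matrix (Fin 2) (Fin 2) k) :=
    intg_of_near470 (exp_neg_le_one470 n) hu.2
  refine ⟨?_, ?_, ?_⟩
  · rw [Matrix.GeneralLinearGroup.coe_mul]
    exact intg_mul470 hg.1 hu1
  · rw [mul_inv_rev, Matrix.GeneralLinearGroup.coe_mul]
    exact intg_mul470 hu2 hg.2.1
  · rw [Matrix.GeneralLinearGroup.coe_mul, Matrix.mul_apply, Fin.sum_univ_two]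
    refine Valuation.map_add_lt _ ?_ ?_
    · rw [map_mul]
      calc Valued.v ((g : Matrix (Fin 2) (Fin 2) k) 1 0)
              * Valued.v ((u : Matrix (Fin 2) (Fin 2) k) 0 0)
            ≤ Valued.v ((g : Matrix (Fin 2) (Fin 2) k) 1 0) * 1 :=
              mul_le_mul' le_rfl (hu1 0 0)
        _ = Valued.v ((g : Matrix (Fin 2) (Fin 2) k) 1 0) := mul_one _
        _ < 1 := hg.2.2
    · rw [map_mul]
      have h10 : Valued.v ((u : Matrix (Fin 2) (Fin 2) k) 1 0)
          ≤ WithZero.exp (-(n : ℤ)) := by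
        have := hu.1 1 0
        rwa [Matrix.one_apply_ne (by decide), sub_zero] at this
      calc Valued.v ((g : Matrix (Fin 2) (Fin 2) k) 1 1)
              * Valued.v ((u : Matrix (Fin 2) (Fin 2) k) 1 0)
            ≤ 1 * WithZero.exp (-(n : ℤ)) := mul_le_mul' (hg.1 1 1) h10
        _ = WithZero.exp (-(n : ℤ)) := one_mul _
        _ < 1 := exp_neg_lt_one470 hn

theorem iwFn_mul470 {n : ℕ} (hn : 1 ≤ n) (g u : GL (Fin 2) k) (hu : T6.InU n u) :
    iwFn893 (g * u) = iwFn893 g := by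
  have h : InIw893 (g * u) ↔ InIw893 g := by
    constructor
    · intro h
      have := inIw_mul470 hn h (inU_inv470 hu)
      rwa [mul_assoc, mul_inv_cancel, mul_one] at this
    · intro h
      exact inIw_mul470 hn h hu
  by_cases hg : InIw893 g
  · have h1 : iwFn893 (g * u) = 1 := if_pos (h.2 hg)
    have h2 : iwFn893 g = 1 := if_pos hg
    rw [h1, h2]
  · have h1 : iwFn893 (g * u) = 0 := if_neg (fun e => hg (h.1 e))
    have h2 : iwFn893 g = 0 := if_neg hg
    rw [h1, h2]

/-- **The local decomposition**: a function which is right invariant under `U(n)` and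
supported on finitely many cosets is a finite sum of multiples of left translates of the unit
function. -/
theorem local_decomp470 (n : ℕ) (φ : GL (Fin 2) k → ℂ)
    (hinv : ∀ g u : GL (Fin 2) k, T6.InU n u → φ (g * u) = φ g)
    (hfin : T6.HasFinSupp (T6.InU n) φ) :
    ∃ R : Finset (GL (Fin 2) k), ∀ g : GL (Fin 2) k,
      ∑ r ∈ R, φ r * unitFn893 n (r⁻¹ * g) = φ g := by
  classical
  obtain ⟨F, hF⟩ := hfin
  let rep : GL (Fin 2) k → GL (Fin 2) k :=
    fun x => (QuotientGroup.mk x : GL (Fin 2) k ⧸ uSub470 (k := k) n).out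
  have hmk : ∀ x : GL (Fin 2) k,
      (QuotientGroup.mk (rep x) : GL (Fin 2) k ⧸ uSub470 (k := k) n) = QuotientGroup.mk x :=
    fun x => QuotientGroup.out_eq' _
  have hkey : ∀ x g : GL (Fin 2) k, T6.InU n ((rep x)⁻¹ * g) → rep x = rep g := by
    intro x g h
    have h2 : (QuotientGroup.mk (rep x) : GL (Fin 2) k ⧸ uSub470 (k := k) n)
        = QuotientGroup.mk g := QuotientGroup.eq.mpr h
    have h3 : (QuotientGroup.mk x : GL (Fin 2) k ⧸ uSub470 (k := k) n)
        = QuotientGroup.mk g := (hmk x).symm.trans h2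
    show (QuotientGroup.mk x : GL (Fin 2) k ⧸ uSub470 (k := k) n).out
      = (QuotientGroup.mk g : GL (Fin 2) k ⧸ uSub470 (k := k) n).out
    rw [h3]
  have hself : ∀ g : GL (Fin 2) k, T6.InU n ((rep g)⁻¹ * g) := fun g =>
    QuotientGroup.eq.mp (hmk g)
  have hval : ∀ g : GL (Fin 2) k, φ (rep g) = φ g := by
    intro g
    have h1 : T6.InU n (g⁻¹ * rep g) := by
      have := inU_inv470 (hself g)
      rwa [mul_inv_rev, inv_inv] at this
    have := hinv g (g⁻¹ * rep g) h1
    rwa [mul_inv_cancel_left] at this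
  refine ⟨F.image rep, fun g => ?_⟩
  by_cases hg : rep g ∈ F.image rep
  · rw [Finset.sum_eq_single (rep g)]
    · unfold unitFn893
      rw [if_pos (hself g), mul_one, hval]
    · intro r hr hne
      obtain ⟨x, _, rfl⟩ := Finset.mem_image.mp hr
      have hn : ¬ T6.InU n ((rep x)⁻¹ * g) := fun h => hne (hkey x g h)
      unfold unitFn893
      rw [if_neg hn, mul_zero]
    · intro h
      exact absurd hg h
  · have hφ : φ g = 0 := by
      by_contra hne
      obtain ⟨x, hx, u, hu, rfl⟩ := hF g hne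
      apply hg
      refine Finset.mem_image.mpr ⟨x, hx, ?_⟩
      have h1 : T6.InU n ((rep x)⁻¹ * (x * u)) := by
        have := inU_mul470 (hself x) hu
        rwa [mul_assoc] at this
      exact hkey x (x * u) h1
    rw [hφ]
    refine Finset.sum_eq_zero fun r hr => ?_
    obtain ⟨x, _, rfl⟩ := Finset.mem_image.mp hr
    have hn : ¬ T6.InU n ((rep x)⁻¹ * g) := by
      intro h
      apply hg
      rw [← hkey x g h]
      exact hr
    unfold unitFn893
    rw [if_neg hn, mul_zero]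

end Local

/-! ## 2. The place `u`: `m_u ≥ 1`, the Iwahori subgroup is covered by finitely many cosets -/

section Global

variable {K : Type} [Field K] [NumberField K]

theorem one_le_of_dvd470 {𝔫 : Ideal (𝓞 K)} {m : HeightOneSpectrum (𝓞 K) → ℕ}
    (hm : IsLevelOf893 𝔫 m) {u : HeightOneSpectrum (𝓞 K)} (hu : u.asIdeal ∣ 𝔫) :
    1 ≤ m u := by
  by_contra h
  have h0 : m u = 0 := by omega
  have h1 : (1 : u.adicCompletion K) ∈ idealClosure 𝔫 u := by
    rw [hm u 1, h0, map_one]
    simp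
  have hcl : IsClosed {z : u.adicCompletion K | Valued.v z < 1} := by
    have := Valued.isClosed_ball (u.adicCompletion K) (1 : _)
    simpa only [Valuation.restrict_lt_one_iff] using this
  have hsub : idealClosure 𝔫 u ⊆ {z : u.adicCompletion K | Valued.v z < 1} := by
    refine closure_minimal ?_ hcl
    rintro _ ⟨a, ha, rfl⟩
    show Valued.v (H981.toC981 u a) < 1
    rw [H981.valued_toC981]
    exact (u.intValuation_lt_one_iff_mem a).2 (Ideal.le_of_dvd hu ha)
  have h2 : Valued.v (1 : u.adicCompletion K) < 1 := hsub h1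
  rw [map_one] at h2
  exact lt_irrefl _ h2

theorem one_entry_mem470 (v : HeightOneSpectrum (𝓞 K)) (i j : Fin 2) :
    (1 : Matrix (Fin 2) (Fin 2) (v.adicCompletion K)) i j ∈ v.adicCompletionIntegers K := by
  rw [Matrix.one_apply]
  split_ifs
  · exact one_mem _
  · exact zero_mem _

/-- The local embedding of an element with integral entries is integral everywhere. -/
theorem isIntegralAt_locFin470 (u : HeightOneSpectrum (𝓞 K))
    (g : GL (Fin 2) (u.adicCompletion K))
    (hg : ∀ i j : Fin 2, Valued.v ((g : Matrix (Fin 2) (Fin 2) (u.adicCompletion K)) i j) ≤ 1)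
    (v : HeightOneSpectrum (𝓞 K)) : IsIntegralAt v (locFin129 u g) := by
  rw [isIntegralAt_iff129]
  intro i j
  by_cases hv : v = u
  · subst hv
    rw [finCompHom129_locFin129, HeightOneSpectrum.mem_adicCompletionIntegers]
    exact hg i j
  · rw [finCompHom129_locFin129_of_ne u g hv]
    exact one_entry_mem470 v i j

theorem trivAtInf_locFin470 (u : HeightOneSpectrum (𝓞 K))
    (g : GL (Fin 2) (u.adicCompletion K)) (w : InfinitePlace K) :
    TrivAtInf w (locFin129 u g) :=
  (trivAtInf_iff129 w _).2 (infCompHom129_locFin129 u g w)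

theorem iw_finSupp470 {𝔫 : Ideal (𝓞 K)} (h𝔫 : 𝔫 ≠ ⊥) {m : HeightOneSpectrum (𝓞 K) → ℕ}
    (hm : IsLevelOf893 𝔫 m) (u : HeightOneSpectrum (𝓞 K)) :
    T6.HasFinSupp (T6.InU (m u)) (iwFn893 : GL (Fin 2) (u.adicCompletion K) → ℂ) := by
  classical
  obtain ⟨T, hT⟩ := H981.finIndexC981 K 𝔫 h𝔫
  refine ⟨T.image (finCompHom129 u), fun g hg => ?_⟩
  have hgI : InIw893 g := by
    by_contra h
    apply hg
    unfold iwFn893
    rw [if_neg h]
  obtain ⟨τ, hτ, hlev⟩ := hT (locFin129 u g) (fun w => trivAtInf_locFin470 u g w)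
    (fun v => ⟨isIntegralAt_locFin470 u g hgI.1 v, by
      rw [← map_inv]
      exact isIntegralAt_locFin470 u g⁻¹ hgI.2.1 v⟩)
  refine ⟨finCompHom129 u τ, Finset.mem_image_of_mem _ hτ, (finCompHom129 u τ)⁻¹ * g, ?_,
    (mul_inv_cancel_left _ _).symm⟩
  have e : (finCompHom129 u τ)⁻¹ * g = finCompHom129 u (τ⁻¹ * locFin129 u g) := by
    rw [map_mul, map_inv, finCompHom129_locFin129]
  rw [e]
  intro i j
  have h := hlev.2 u i j
  refine ⟨(hm u _).1 h.1, ?_⟩
  rw [← map_inv]
  exact (hm u _).1 h.2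

/-! ## 3. Pure tensors: translation by a local element, linearity in one component -/

theorem infGL305_of_triv470 {w : InfinitePlace K} {x : G K} (h : TrivAtInf w x) :
    infGL305 w x = 1 := by
  apply Units.ext
  ext i j
  show InfinitePlace.Completion.extensionEmbedding w
      (((x : Matrix (Fin 2) (Fin 2) (Adl K)) i j).1 w)
    = (1 : Matrix (Fin 2) (Fin 2) ℂ) i j
  rw [h i j, Matrix.one_apply, Matrix.one_apply]
  split_ifs
  · rw [map_one]
  · rw [map_zero]

theorem finGL305_eq470 (v : HeightOneSpectrum (𝓞 K)) (x : G K) :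
    finGL305 v x = finCompHom129 v x := rfl

theorem outT_transl470 (T : Finset (HeightOneSpectrum (𝓞 K))) {x : G K}
    (hx : ∀ v : HeightOneSpectrum (𝓞 K), v ∉ T → finCompHom129 v x = 1) (h : G K) :
    OutT305 T (x⁻¹ * h) ↔ OutT305 T h := by
  unfold OutT305
  refine forall_congr' fun v => forall_congr' fun hv => ?_
  rw [isIntegralAt_iff129, isIntegralAt_iff129, isIntegralAt_iff129, isIntegralAt_iff129,
    mul_inv_rev, inv_inv, map_mul, map_mul, map_inv, hx v hv, inv_one, one_mul, mul_one]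

open Classical in
theorem pure_transl470 (T : Finset (HeightOneSpectrum (𝓞 K)))
    (f₀ : ∀ v : HeightOneSpectrum (𝓞 K), GL (Fin 2) (v.adicCompletion K) → ℂ)
    (F : InfinitePlace K → GL (Fin 2) ℂ → ℂ) {v₀ : HeightOneSpectrum (𝓞 K)} (hv₀ : v₀ ∈ T)
    (r : GL (Fin 2) (v₀.adicCompletion K)) (h : G K) :
    pure305 T f₀ F ((locFin129 v₀ r)⁻¹ * h)
      = pure305 T (Function.update f₀ v₀ (fun g => f₀ v₀ (r⁻¹ * g))) F h := by
  classical
  have hO : OutT305 T ((locFin129 v₀ r)⁻¹ * h) ↔ OutT305 T h :=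
    outT_transl470 T (fun v hv => finCompHom129_locFin129_of_ne v₀ r
      (fun e => hv (e ▸ hv₀))) h
  have hinf : ∀ w : InfinitePlace K,
      infGL305 w ((locFin129 v₀ r)⁻¹ * h) = infGL305 w h := by
    intro w
    rw [map_mul, map_inv, infGL305_of_triv470 (trivAtInf_locFin470 v₀ r w), inv_one, one_mul]
  have hfin : ∀ v ∈ T, f₀ v (finGL305 v ((locFin129 v₀ r)⁻¹ * h))
      = Function.update f₀ v₀ (fun g => f₀ v₀ (r⁻¹ * g)) v (finGL305 v h) := by
    intro v _
    by_cases hv : v = v₀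
    · subst hv
      rw [Function.update_self, map_mul, map_inv, finGL305_eq470 v (locFin129 v r),
        finCompHom129_locFin129]
    · rw [Function.update_of_ne hv, map_mul, map_inv, finGL305_eq470 v (locFin129 v₀ r),
        finCompHom129_locFin129_of_ne v₀ r hv, inv_one, one_mul]
  unfold pure305
  simp only [hO, hinf]
  rw [Finset.prod_congr rfl hfin]

open Classical in
/-- The pure tensor without the component at `v₀`. -/
def rest470 (T : Finset (HeightOneSpectrum (𝓞 K)))
    (f₀ : ∀ v : HeightOneSpectrum (𝓞 K), GL (Fin 2) (v.adicCompletion K) → ℂ)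
    (F : InfinitePlace K → GL (Fin 2) ℂ → ℂ) (v₀ : HeightOneSpectrum (𝓞 K)) (y : G K) : ℂ :=
  if OutT305 T y then
    (∏ v ∈ T.erase v₀, f₀ v (finGL305 v y)) * ∏ w : InfinitePlace K, F w (infGL305 w y)
  else 0

open Classical in
theorem pure_update470 (T : Finset (HeightOneSpectrum (𝓞 K)))
    (f₀ : ∀ v : HeightOneSpectrum (𝓞 K), GL (Fin 2) (v.adicCompletion K) → ℂ)
    (F : InfinitePlace K → GL (Fin 2) ℂ → ℂ) {v₀ : HeightOneSpectrum (𝓞 K)} (hv₀ : v₀ ∈ T)
    (ψ : GL (Fin 2) (v₀.adicCompletion K) → ℂ) (y : G K) :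
    pure305 T (Function.update f₀ v₀ ψ) F y = ψ (finGL305 v₀ y) * rest470 T f₀ F v₀ y := by
  classical
  unfold pure305 rest470
  by_cases hO : OutT305 T y
  · rw [if_pos hO, if_pos hO, ← Finset.mul_prod_erase T _ hv₀, Function.update_self, mul_assoc]
    congr 2
    refine Finset.prod_congr rfl fun v hv => ?_
    rw [Function.update_of_ne (Finset.ne_of_mem_erase hv)]
  · rw [if_neg hO, if_neg hO, mul_zero]

/-! ## 4. The induction over the places -/

open Classical in
theorem wt_induct470 (m : HeightOneSpectrum (𝓞 K) → ℕ)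
    (c : ∀ v : HeightOneSpectrum (𝓞 K), GL (Fin 2) (v.adicCompletion K) → ℂ)
    (A : Finset (HeightOneSpectrum (𝓞 K)))
    (hL : ∀ v ∈ A, ∃ R : Finset (GL (Fin 2) (v.adicCompletion K)),
      ∀ g : GL (Fin 2) (v.adicCompletion K),
        ∑ r ∈ R, c v r * unitFn893 (m v) (r⁻¹ * g) = c v g) :
    ∃ (s : Finset (G K)) (β : G K → ℂ),
      (∀ x ∈ s, (∀ w : InfinitePlace K, TrivAtInf w x) ∧
        ∀ v : HeightOneSpectrum (𝓞 K), v ∉ A → TrivAtFin v x) ∧
      ∀ (T : Finset (HeightOneSpectrum (𝓞 K)))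
        (f₀ : ∀ v : HeightOneSpectrum (𝓞 K), GL (Fin 2) (v.adicCompletion K) → ℂ)
        (F : InfinitePlace K → GL (Fin 2) ℂ → ℂ), A ⊆ T →
        (∀ v ∈ A, f₀ v = unitFn893 (m v)) →
        ∀ y : G K, ∑ x ∈ s, β x * pure305 T f₀ F (x⁻¹ * y)
          = pure305 T (fun v => if v ∈ A then c v else f₀ v) F y := by
  induction A using Finset.induction_on with
  | empty =>
    refine ⟨{1}, fun _ => 1, ?_, ?_⟩
    · intro x hx
      rw [Finset.mem_singleton] at hx
      subst hx
      exact ⟨fun w => (trivAtInf_iff129 w 1).2 (map_one _),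
        fun v _ => (trivAtFin_iff129 v 1).2 (map_one _)⟩
    · intro T f₀ F _ _ y
      simp
  | insert v₀ A hv₀ ih =>
    obtain ⟨s, β, hsupp, hrep⟩ := ih (fun v hv => hL v (Finset.mem_insert_of_mem hv))
    obtain ⟨R, hR⟩ := hL v₀ (Finset.mem_insert_self _ _)
    let X : G K × GL (Fin 2) (v₀.adicCompletion K) → G K := fun p => p.1 * locFin129 v₀ p.2
    refine ⟨(s ×ˢ R).image X,
      fun z => ∑ p ∈ (s ×ˢ R) with X p = z, β p.1 * c v₀ p.2, ?_, ?_⟩
    · intro z hz
      obtain ⟨p, hp, rfl⟩ := Finset.mem_image.mp hz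
      have hp1 : p.1 ∈ s := (Finset.mem_product.mp hp).1
      refine ⟨fun w => ?_, fun v hv => ?_⟩
      · rw [trivAtInf_iff129]
        show infCompHom129 w (p.1 * locFin129 v₀ p.2) = 1
        rw [map_mul, infCompHom129_locFin129, mul_one]
        exact (trivAtInf_iff129 w _).1 ((hsupp p.1 hp1).1 w)
      · rw [trivAtFin_iff129]
        show finCompHom129 v (p.1 * locFin129 v₀ p.2) = 1
        have hv1 : v ≠ v₀ := fun e => hv (e ▸ Finset.mem_insert_self _ _)
        have hv2 : v ∉ A := fun e => hv (Finset.mem_insert_of_mem e)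
        rw [map_mul, finCompHom129_locFin129_of_ne v₀ p.2 hv1, mul_one]
        exact (trivAtFin_iff129 v _).1 ((hsupp p.1 hp1).2 v hv2)
    · intro T f₀ F hT hf₀ y
      have hv₀T : v₀ ∈ T := hT (Finset.mem_insert_self _ _)
      have hAT : A ⊆ T := fun v hv => hT (Finset.mem_insert_of_mem hv)
      rw [Finset.sum_image' (fun p => β p.1 * c v₀ p.2 * pure305 T f₀ F ((X p)⁻¹ * y))]
      swap
      · intro p _
        rw [Finset.sum_mul]
        refine Finset.sum_congr rfl fun q hq => ?_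
        rw [(Finset.mem_filter.mp hq).2]
      rw [Finset.sum_product]
      have e1 : ∀ (x : G K) (r : GL (Fin 2) (v₀.adicCompletion K)),
          pure305 T f₀ F ((X (x, r))⁻¹ * y)
            = pure305 T (Function.update f₀ v₀ (fun g => f₀ v₀ (r⁻¹ * g))) F (x⁻¹ * y) := by
        intro x r
        rw [← pure_transl470 T f₀ F hv₀T r (x⁻¹ * y)]
        congr 1
        simp only [X, mul_inv_rev, mul_assoc]
      simp only [e1]
      rw [Finset.sum_comm]
      have e2 : ∀ r : GL (Fin 2) (v₀.adicCompletion K),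
          ∑ x ∈ s, β x * c v₀ r
              * pure305 T (Function.update f₀ v₀ (fun g => f₀ v₀ (r⁻¹ * g))) F (x⁻¹ * y)
            = c v₀ r * (unitFn893 (m v₀) (r⁻¹ * finGL305 v₀ y)
                * rest470 T (fun v => if v ∈ A then c v else f₀ v) F v₀ y) := by
        intro r
        have hf : ∀ v ∈ A, Function.update f₀ v₀ (fun g => f₀ v₀ (r⁻¹ * g)) v
            = unitFn893 (m v) := by
          intro v hv
          rw [Function.update_of_ne (ne_of_mem_of_not_mem hv hv₀),
            hf₀ v (Finset.mem_insert_of_mem hv)]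
        have e3 : (fun v => if v ∈ A then c v
              else Function.update f₀ v₀ (fun g => f₀ v₀ (r⁻¹ * g)) v)
            = Function.update (fun v => if v ∈ A then c v else f₀ v) v₀
                (fun g => unitFn893 (m v₀) (r⁻¹ * g)) := by
          funext v
          by_cases hv : v = v₀
          · subst hv
            rw [if_neg hv₀, Function.update_self, Function.update_self,
              hf₀ v (Finset.mem_insert_self _ _)]
          · rw [Function.update_of_ne hv, Function.update_of_ne hv]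
        calc ∑ x ∈ s, β x * c v₀ r
              * pure305 T (Function.update f₀ v₀ (fun g => f₀ v₀ (r⁻¹ * g))) F (x⁻¹ * y)
            = c v₀ r * ∑ x ∈ s, β x
                * pure305 T (Function.update f₀ v₀ (fun g => f₀ v₀ (r⁻¹ * g))) F (x⁻¹ * y) := by
              rw [Finset.mul_sum]
              refine Finset.sum_congr rfl fun x _ => ?_
              ring
          _ = c v₀ r * pure305 T (fun v => if v ∈ A then c v
                else Function.update f₀ v₀ (fun g => f₀ v₀ (r⁻¹ * g)) v) F y := by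
              rw [hrep T _ F hAT hf y]
          _ = c v₀ r * pure305 T (Function.update (fun v => if v ∈ A then c v else f₀ v) v₀
                (fun g => unitFn893 (m v₀) (r⁻¹ * g))) F y := by
              rw [e3]
          _ = c v₀ r * (unitFn893 (m v₀) (r⁻¹ * finGL305 v₀ y)
                * rest470 T (fun v => if v ∈ A then c v else f₀ v) F v₀ y) := by
              rw [pure_update470 T _ F hv₀T]
      simp only [e2]
      have e4 : (fun v => if v ∈ insert v₀ A then c v else f₀ v)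
          = Function.update (fun v => if v ∈ A then c v else f₀ v) v₀ (c v₀) := by
        funext v
        by_cases hv : v = v₀
        · subst hv
          rw [if_pos (Finset.mem_insert_self _ _), Function.update_self]
        · rw [Function.update_of_ne hv]
          by_cases hvA : v ∈ A
          · rw [if_pos (Finset.mem_insert_of_mem hvA), if_pos hvA]
          · rw [if_neg hvA, if_neg (fun e => (Finset.mem_insert.mp e).elim hv hvA)]
      rw [e4, pure_update470 T _ F hv₀T, ← hR (finGL305 v₀ y), Finset.sum_mul]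
      refine Finset.sum_congr rfl fun r _ => ?_
      ring

end Global

/-! ## 5. The leaf -/

/-- **LEAF T7.L2.1.H2a.4.3 = WT-DOWN**, VERBATIM. -/
theorem wtDownC470 (K K' : Type) [Field K] [NumberField K] [Field K'] [NumberField K']
    [Algebra K K'] : B970.WtDownC970 K K' := by
  intro ℓ Φ B _ 𝔫 hlvl T₀ n n₀ m hexp b hb
  classical
  have huT₀ : B.u ∈ T₀ := (hexp.mem B.u).2 hlvl.u_level
  have hmu : 1 ≤ m B.u := one_le_of_dvd470 hexp.lvl hlvl.u_level
  have hL : ∀ v ∈ T₀, ∃ R : Finset (GL (Fin 2) (v.adicCompletion K)),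
      ∀ g : GL (Fin 2) (v.adicCompletion K),
        ∑ r ∈ R, (if v = B.u then iwFn893 else b v) r * unitFn893 (m v) (r⁻¹ * g)
          = (if v = B.u then iwFn893 else b v) g := by
    intro v hv
    by_cases hvu : v = B.u
    · simp only [if_pos hvu]
      have hm1 : 1 ≤ m v := hvu ▸ hmu
      exact local_decomp470 (m v) iwFn893 (fun g u hu => iwFn_mul470 hm1 g u hu)
        (iw_finSupp470 hlvl.level_ne hexp.lvl v)
    · simp only [if_neg hvu]
      obtain ⟨hbi, hfs⟩ := hb v (Finset.mem_erase.mpr ⟨hvu, hv⟩)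
      refine local_decomp470 (m v) (b v) (fun g u hu => ?_) hfs
      have := hbi 1 u g (inU_one470 _) hu
      rwa [one_mul] at this
  obtain ⟨s, β, hsupp, hrep⟩ := wt_induct470 m (fun v => if v = B.u then iwFn893 else b v) T₀ hL
  refine ⟨s, β, ⟨hsupp, ?_⟩⟩
  intro T f₀ F hT hf₀ y
  rw [hrep T f₀ F hT hf₀ y]
  congr 1
  funext v
  unfold repDn970
  by_cases hvu : v = B.u
  · rw [if_pos hvu, if_pos hvu, if_pos (hvu ▸ huT₀)]
  · rw [if_neg hvu, if_neg hvu]

end Fermat.Agent.LT.T7.H470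

end

end
-- ===== PACK-END LT/T7/H470/WtDown.lean

-- ===== PACK-BEGIN LT/T7/H236/ShapeFinA.lean
section
/-
Row LT, tower T7, node T7.L2.1.H2a.4 `Pair2Cb970` (sub-architect helper970), leaf 4.6 `ShapeC970`
(registry 2867) -- helper236, SPARE.  OFF-MAIN.  Part A: weighted sums of left translates of a
test function (everything in `T5.IsTestFn` except the left invariance under the level group).
Complete proofs, nothing assumed.
-/




set_option autoImplicit false
set_option linter.unusedSectionVars false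
set_option linter.unusedVariables false
set_option linter.style.haveILetI false

open AutomorphicForm IsDedekindDomain NumberField MeasureTheory
open scoped ComplexConjugate ContDiff

noncomputable section

namespace Fermat.Agent.LT.T7.H236

open Fermat.Agent.LT.H556 Fermat.Agent.LT.H556.A0 Fermat.Agent.LT Fermat.Agent.LT.T7
open Fermat.Agent.LT.T7.H305 Fermat.Agent.LT.T7.H893 Fermat.Agent.LT.T7.B981
open Fermat.Agent.LT.T7.B970

attribute [local instance] Fermat.Agent.LT.T5.instMeasurableSpaceG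

section OneField

variable {F : Type} [Field F] [NumberField F]

/-- Everything in `T5.IsTestFn 𝔫 T5.trivType` except the left invariance under the level
group. -/
structure IsPreT236 (𝔫 : Ideal (𝓞 F)) (φ : G F → ℂ) : Prop where
  cont : Continuous φ
  supp : HasCompactSupport φ
  smooth : T5.IsSmoothAtInf φ
  level_right : ∀ u : G F, InLevelGroup 𝔫 u → ∀ g : G F, φ (g * u) = φ g
  arch_right : ∀ (w : InfinitePlace F) (k : G F), IsArchCompact w k →
    ∀ g : G F, φ (g * k) = φ g
  arch_left : ∀ (w : InfinitePlace F) (k : G F), IsArchCompact w k →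
    ∀ g : G F, φ (k * g) = φ g

variable {𝔫 : Ideal (𝓞 F)}

theorem isPreT_of_test236 {φ : G F → ℂ} (h : T5.IsTestFn 𝔫 T5.trivType φ) : IsPreT236 𝔫 φ where
  cont := h.cont
  supp := h.supp
  smooth := h.smooth
  level_right := h.inv.level_right
  arch_right := fun w k hk g => by
    have := h.inv.arch_right w k hk g
    simpa [T5.trivType] using this
  arch_left := fun w k hk g => by
    have := h.inv.arch_left w k hk g
    simpa [T5.trivType] using this

theorem isTestFn_of_preT236 {φ : G F → ℂ} (hk : T5.IsKType (T5.trivType (K := F)))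
    (h : IsPreT236 𝔫 φ)
    (hl : ∀ u : G F, InLevelGroup 𝔫 u → ∀ g : G F, φ (u * g) = φ g) :
    T5.IsTestFn 𝔫 T5.trivType φ where
  ktype := hk
  cont := h.cont
  supp := h.supp
  smooth := h.smooth
  inv :=
    { level_right := h.level_right
      level_left := hl
      arch_right := fun w k hk g => by
        rw [h.arch_right w k hk g]
        simp [T5.trivType]
      arch_left := fun w k hk g => by
        rw [h.arch_left w k hk g]
        simp [T5.trivType] }

theorem IsPreT236.ltr {φ : G F → ℂ} (h : IsPreT236 𝔫 φ) {b : G F}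
    (hb : ∀ w : InfinitePlace F, TrivAtInf w b) : IsPreT236 𝔫 (fun y => φ (b⁻¹ * y)) where
  cont := h.cont.comp (continuous_const_mul b⁻¹)
  supp := h.supp.comp_homeomorph (Homeomorph.mulLeft b⁻¹)
  smooth := fun n fam h1 h2 g => by
    have := h.smooth n fam h1 h2 (b⁻¹ * g)
    simpa only [mul_assoc] using this
  level_right := fun u hu g => by
    show φ (b⁻¹ * (g * u)) = φ (b⁻¹ * g)
    rw [← mul_assoc]
    exact h.level_right u hu _
  arch_right := fun w k hk g => by
    show φ (b⁻¹ * (g * k)) = φ (b⁻¹ * g)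
    rw [← mul_assoc]
    exact h.arch_right w k hk _
  arch_left := fun w k hk g => by
    show φ (b⁻¹ * (k * g)) = φ (b⁻¹ * g)
    have hc : b⁻¹ * k = k * b⁻¹ := H311.commute_fin_inf311 (H311.trivAtInf_inv311 hb) hk.1.2
    rw [← mul_assoc, hc, mul_assoc]
    exact h.arch_left w k hk _

theorem IsPreT236.add {φ₁ φ₂ : G F → ℂ} (h₁ : IsPreT236 𝔫 φ₁) (h₂ : IsPreT236 𝔫 φ₂) :
    IsPreT236 𝔫 (fun y => φ₁ y + φ₂ y) where
  cont := h₁.cont.add h₂.cont
  supp := h₁.supp.add h₂.supp
  smooth := fun n fam h1 h2 g => (h₁.smooth n fam h1 h2 g).add (h₂.smooth n fam h1 h2 g)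
  level_right := fun u hu g => by
    show φ₁ (g * u) + φ₂ (g * u) = φ₁ g + φ₂ g
    rw [h₁.level_right u hu, h₂.level_right u hu]
  arch_right := fun w k hk g => by
    show φ₁ (g * k) + φ₂ (g * k) = φ₁ g + φ₂ g
    rw [h₁.arch_right w k hk, h₂.arch_right w k hk]
  arch_left := fun w k hk g => by
    show φ₁ (k * g) + φ₂ (k * g) = φ₁ g + φ₂ g
    rw [h₁.arch_left w k hk, h₂.arch_left w k hk]

theorem IsPreT236.smul (c : ℂ) {φ : G F → ℂ} (h : IsPreT236 𝔫 φ) :
    IsPreT236 𝔫 (fun y => c * φ y) where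
  cont := continuous_const.mul h.cont
  supp := h.supp.mul_left
  smooth := fun n fam h1 h2 g => contDiff_const.mul (h.smooth n fam h1 h2 g)
  level_right := fun u hu g => by
    show c * φ (g * u) = c * φ g
    rw [h.level_right u hu]
  arch_right := fun w k hk g => by
    show c * φ (g * k) = c * φ g
    rw [h.arch_right w k hk]
  arch_left := fun w k hk g => by
    show c * φ (k * g) = c * φ g
    rw [h.arch_left w k hk]

theorem isPreT_zero236 : IsPreT236 𝔫 (fun _ : G F => (0 : ℂ)) where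
  cont := continuous_const
  supp := HasCompactSupport.zero
  smooth := fun n fam h1 h2 g => contDiff_const
  level_right := fun u hu g => rfl
  arch_right := fun w k hk g => rfl
  arch_left := fun w k hk g => rfl

theorem isPreT_sum236 {ι : Type} (s : Finset ι) (f : ι → G F → ℂ)
    (h : ∀ i ∈ s, IsPreT236 𝔫 (f i)) : IsPreT236 𝔫 (fun y => ∑ i ∈ s, f i y) := by
  classical
  induction s using Finset.induction_on with
  | empty =>
    simp only [Finset.sum_empty]
    exact isPreT_zero236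
  | insert a s ha ih =>
    have h1 : (fun y => ∑ i ∈ insert a s, f i y) = fun y => f a y + ∑ i ∈ s, f i y := by
      funext y
      rw [Finset.sum_insert ha]
    rw [h1]
    exact (h a (Finset.mem_insert_self a s)).add
      (ih fun i hi => h i (Finset.mem_insert_of_mem hi))

/-- The weighted sum of left translates by elements which are trivial at infinity. -/
theorem isPreT_wsum236 {φ : G F → ℂ} (h : IsPreT236 𝔫 φ) (s : Finset (G F)) (β : G F → ℂ)
    (hs : ∀ x ∈ s, ∀ w : InfinitePlace F, TrivAtInf w x) :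
    IsPreT236 𝔫 (wsum970 s β φ) := by
  have e : wsum970 s β φ = fun y => ∑ x ∈ s, (fun y => β x * (fun y => φ (x⁻¹ * y)) y) y := rfl
  rw [e]
  exact isPreT_sum236 s _ fun x hx => IsPreT236.smul (β x) (h.ltr (hs x hx))

theorem isPreT_lsum236 {φ : G F → ℂ} (h : IsPreT236 𝔫 φ) (s : Finset (G F))
    (hs : ∀ x ∈ s, ∀ w : InfinitePlace F, TrivAtInf w x) :
    IsPreT236 𝔫 (lsum s φ) := by
  have e : lsum s φ = fun y => ∑ x ∈ s, (fun y => φ (x⁻¹ * y)) y := rfl
  rw [e]
  exact isPreT_sum236 s _ fun x hx => h.ltr (hs x hx)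

theorem lsum_eq_wsum236 (s : Finset (G F)) (φ : G F → ℂ) :
    lsum s φ = wsum970 s (fun _ => 1) φ := by
  funext y
  simp [lsum, wsum970]

end OneField

end Fermat.Agent.LT.T7.H236

end
end
-- ===== PACK-END LT/T7/H236/ShapeFinA.lean

-- ===== PACK-BEGIN LT/T7/H218/Up2Pure.lean
section







/-!
# Row LT, tower T7, leaf T7.L2.1.H2a.4.4 `Up2C970` (helper218, registry row 2865): pure tensors

OFF-MAIN.  Invariance of a pure tensor `H305.pure305 T f₀ F` under an adelic element whose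
components stabilise the components of the tensor; the three local stabilisers (Iwahori
function, unit of a level, spherical function).  Mathlib + byte-identical kits only.
-/

set_option autoImplicit false
set_option linter.unusedSectionVars false
set_option linter.unusedVariables false

open IsDedekindDomain NumberField MeasureTheory IsDedekindDomain.HeightOneSpectrum
open Fermat.Agent.LT.H556 Fermat.Agent.LT.H556.A0 Fermat.Agent.LT.H129

noncomputable section

namespace Fermat.Agent.LT.T7.H218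

open Fermat.Agent.LT Fermat.Agent.LT.T7 Fermat.Agent.LT.T7.H893 Fermat.Agent.LT.T7.H305
open Fermat.Agent.LT.T7.H340

/-! ## 1. Components -/

section Comp

variable {K : Type} [Field K] [NumberField K]

theorem finGL_eq218 (v : HeightOneSpectrum (𝓞 K)) (g : G K) :
    finGL305 v g = finCompHom129 v g := rfl

theorem coe_finGL218 (v : HeightOneSpectrum (𝓞 K)) (g : G K) :
    ((finGL305 v g : GL (Fin 2) (v.adicCompletion K)) :
      Matrix (Fin 2) (Fin 2) (v.adicCompletion K)) = finComp v g := rfl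

theorem infGL_one_of_triv218 {w : InfinitePlace K} {h : G K} (hh : TrivAtInf w h) :
    infGL305 w h = 1 := by
  apply Units.ext
  ext i j
  show InfinitePlace.Completion.extensionEmbedding w
      (((h : Matrix (Fin 2) (Fin 2) (Adl K)) i j).1 w) = (1 : Matrix (Fin 2) (Fin 2) ℂ) i j
  rw [hh i j]
  by_cases hij : i = j
  · subst hij
    rw [Matrix.one_apply_eq, Matrix.one_apply_eq, map_one]
  · rw [Matrix.one_apply_ne hij, Matrix.one_apply_ne hij, map_zero]

theorem finGL_one_of_triv218 {v : HeightOneSpectrum (𝓞 K)} {h : G K} (hh : TrivAtFin v h) :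
    finGL305 v h = 1 := (trivAtFin_iff129 v h).1 hh

/-- `h` is in `GL₂(𝒪_v)` at every finite place. -/
def IsHatG218 (h : G K) : Prop :=
  ∀ v : HeightOneSpectrum (𝓞 K), IsIntegralAt v h ∧ IsIntegralAt v h⁻¹

theorem isIntegralAt_mul218 {v : HeightOneSpectrum (𝓞 K)} {g h : G K}
    (hg : IsIntegralAt v g) (hh : IsIntegralAt v h) : IsIntegralAt v (g * h) := by
  intro i j
  have e : finComp v (g * h) = finComp v g * finComp v h := by
    rw [← coe_finCompHom129, map_mul]
    rfl
  rw [e, Matrix.mul_apply]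
  exact Subring.sum_mem _ fun k _ => Subring.mul_mem _ (hg i k) (hh k j)

theorem outT_mul_left218 {T : Finset (HeightOneSpectrum (𝓞 K))} {h y : G K}
    (hh : IsHatG218 h) : OutT305 T (h * y) ↔ OutT305 T y := by
  constructor
  · intro H v hv
    obtain ⟨h1, h2⟩ := H v hv
    refine ⟨?_, ?_⟩
    · have : y = h⁻¹ * (h * y) := by group
      rw [this]
      exact isIntegralAt_mul218 (hh v).2 h1
    · have : y⁻¹ = (h * y)⁻¹ * h := by group
      rw [this]
      exact isIntegralAt_mul218 h2 (hh v).1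
  · intro H v hv
    obtain ⟨h1, h2⟩ := H v hv
    refine ⟨isIntegralAt_mul218 (hh v).1 h1, ?_⟩
    rw [mul_inv_rev]
    exact isIntegralAt_mul218 h2 (hh v).2

theorem outT_mul_right218 {T : Finset (HeightOneSpectrum (𝓞 K))} {h y : G K}
    (hh : IsHatG218 h) : OutT305 T (y * h) ↔ OutT305 T y := by
  constructor
  · intro H v hv
    obtain ⟨h1, h2⟩ := H v hv
    refine ⟨?_, ?_⟩
    · have : y = (y * h) * h⁻¹ := by group
      rw [this]
      exact isIntegralAt_mul218 h1 (hh v).2
    · have : y⁻¹ = h * (y * h)⁻¹ := by group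
      rw [this]
      exact isIntegralAt_mul218 (hh v).1 h2
  · intro H v hv
    obtain ⟨h1, h2⟩ := H v hv
    refine ⟨isIntegralAt_mul218 h1 (hh v).1, ?_⟩
    rw [mul_inv_rev]
    exact isIntegralAt_mul218 (hh v).2 h2

/-- **Invariance of a pure tensor** under an element which is trivial at infinity, integral at
all finite places and stabilises the components at the places of `T`. -/
theorem pure_inv218 {T : Finset (HeightOneSpectrum (𝓞 K))}
    {f₀ : ∀ v : HeightOneSpectrum (𝓞 K), GL (Fin 2) (v.adicCompletion K) → ℂ}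
    {F : InfinitePlace K → GL (Fin 2) ℂ → ℂ} {h : G K}
    (hinf : ∀ w : InfinitePlace K, TrivAtInf w h) (hint : IsHatG218 h)
    (hloc : ∀ v ∈ T, ∀ x : GL (Fin 2) (v.adicCompletion K),
      f₀ v (finGL305 v h * x) = f₀ v x ∧ f₀ v (x * finGL305 v h) = f₀ v x) (y : G K) :
    pure305 T f₀ F (h * y) = pure305 T f₀ F y ∧ pure305 T f₀ F (y * h) = pure305 T f₀ F y := by
  classical
  constructor
  · unfold pure305
    simp only [outT_mul_left218 hint]
    split_ifs with hy
    · congr 1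
      · refine Finset.prod_congr rfl fun v hv => ?_
        rw [map_mul]
        exact (hloc v hv _).1
      · refine Finset.prod_congr rfl fun w _ => ?_
        rw [map_mul, infGL_one_of_triv218 (hinf w), one_mul]
    · rfl
  · unfold pure305
    simp only [outT_mul_right218 hint]
    split_ifs with hy
    · congr 1
      · refine Finset.prod_congr rfl fun v hv => ?_
        rw [map_mul]
        exact (hloc v hv _).2
      · refine Finset.prod_congr rfl fun w _ => ?_
        rw [map_mul, infGL_one_of_triv218 (hinf w), mul_one]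
    · rfl

end Comp

/-! ## 2. The local stabilisers -/

section Local

variable {k : Type} [Field k] [Valued k T6.Γ₀]

theorem inIw_iff218 (x : GL (Fin 2) k) : InIw893 x ↔ IsIwG340 (Valued.v : Valuation k _) x :=
  Iff.rfl

theorem iwFn_inv218 {u : GL (Fin 2) k} (hu : InIw893 u) (x : GL (Fin 2) k) :
    iwFn893 (u * x) = iwFn893 x ∧ iwFn893 (x * u) = iwFn893 x := by
  classical
  have hu' : IsIwG340 (Valued.v : Valuation k _) u := hu
  have e1 : InIw893 (u * x) ↔ InIw893 x := by
    constructor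
    · intro H
      have : x = u⁻¹ * (u * x) := by group
      rw [this]
      exact isIwG340_mul (isIwG340_inv hu') H
    · intro H
      exact isIwG340_mul hu' H
  have e2 : InIw893 (x * u) ↔ InIw893 x := by
    constructor
    · intro H
      have : x = (x * u) * u⁻¹ := by group
      rw [this]
      exact isIwG340_mul H (isIwG340_inv hu')
    · intro H
      exact isIwG340_mul H hu'
  unfold iwFn893
  simp only [e1, e2, and_self]

theorem unitFn_inv218 {n : ℕ} {u : GL (Fin 2) k} (hu : T6.InU n u) (x : GL (Fin 2) k) :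
    unitFn893 n (u * x) = unitFn893 n x ∧ unitFn893 n (x * u) = unitFn893 n x := by
  classical
  have e1 : T6.InU n (u * x) ↔ T6.InU n x := by
    constructor
    · intro H
      have : x = u⁻¹ * (u * x) := by group
      rw [this]
      exact T6.H777.inU_mul777 (T6.H777.inU_inv777 hu) H
    · intro H
      exact T6.H777.inU_mul777 hu H
  have e2 : T6.InU n (x * u) ↔ T6.InU n x := by
    constructor
    · intro H
      have : x = (x * u) * u⁻¹ := by group
      rw [this]
      exact T6.H777.inU_mul777 H (T6.H777.inU_inv777 hu)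
    · intro H
      exact T6.H777.inU_mul777 H hu
  unfold unitFn893
  simp only [e1, e2, and_self]

theorem sphFn_inv218 {φ : GL (Fin 2) k → ℂ} {A : (ℤ × ℤ) →₀ ℂ} (hφ : IsSphFn893 φ A)
    {u : GL (Fin 2) k} (hu : T6.InU 0 u) (x : GL (Fin 2) k) :
    φ (u * x) = φ x ∧ φ (x * u) = φ x := by
  have h1 : T6.InU 0 (1 : GL (Fin 2) k) := T6.H777.inU_one777 0
  constructor
  · rw [hφ.2, hφ.2]
    have := cartan_mul129 (g := x) hu h1
    rw [mul_one] at this
    rw [this]
  · rw [hφ.2, hφ.2]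
    have := cartan_mul129 (g := x) h1 hu
    rw [one_mul] at this
    rw [this]

end Local

end Fermat.Agent.LT.T7.H218

end

end
-- ===== PACK-END LT/T7/H218/Up2Pure.lean

-- ===== PACK-BEGIN LT/T7/H309/Dn2Spec.lean
section



/-!
# Row LT, tower T7, leaf T7.L2.1.H2a.4.5 `Dn2C970` (helper309, registry 2866): CUT BY FIELDS -- Spec

OFF-MAIN.  Definitions and frozen Props only (the proved top is `Dn2Top.lean`).  No hole,
nothing assumed.  ADDITIVE (new names only, suffix `309`).  Vocabulary: `T7/B970/Pair2Spec`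
(helper970, sha256 fab97cea), byte-identical copy.

    dn2C_of309 : Dn2NatC309 K K' → Dn2WfnC309 K K' → Dn2ClassC309 K K' → Dn2CommC309 K K'
                   → Dn2SuppC309 K K' → B970.Dn2C970 K K'                          (VERBATIM)

`IsDn2Hyp309` = the hypotheses of `B970.Dn2C970`, bundled (same statements, same order).  Every
leaf has ALL the hypotheses of `Dn2C970`, so a leaf is true as soon as the field of `Dn2C970` is.

Notation: `F₁0 = F₁ []`, `W = wsum970 s β F₁0`, `f₂ = c · nat193 a D W`.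

| leaf | fields of `IsDn2_970` | content | size |
|---|---|---|---|
| `Dn2NatC309`   | `dn2_test`, `dn2_ek`, `dn2_inv`, `dn2_kill` | `W` is a bi-`H`-invariant EK test function (`IsPre311` + shape + `rep`), `H193.killing_of_torus193`, multiples | L |
| `Dn2WfnC309`   | `dn2_wfn`  | `R(f₂) ψ = c ∑ β(x) (R(F₁0) ψ)(· x)` + left invariance of `f₂` | M-L |
| `Dn2ClassC309` | `dn2_class` minus `inv` | Hecke operators outside the level and sphere means commute with the translations at `T₀` (kit helper281 `TranslEig`) | M-L |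
| `Dn2CommC309`  | `dn2_comm` | `z` central; `f₂` supported in the Iwahori subgroup at `u`, independence of the coset system (kit helper271 `Indep`) | L |
| `Dn2SuppC309`  | `dn2_supp` | `T5.H32.isIwSupported_of_support32`: `f₂ y ≠ 0 → InIwahori u y` (component `1_{I_u}` at `u`) | M |
-/

set_option autoImplicit false

open AutomorphicForm IsDedekindDomain NumberField MeasureTheory
open scoped ComplexConjugate

noncomputable section

namespace Fermat.Agent.LT.T7.H309.Dn2

open Fermat.Agent.LT.H556 Fermat.Agent.LT.H556.A0 Fermat.Agent.LT.T7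
open Fermat.Agent.LT.T7.H305 Fermat.Agent.LT.T7.H893 Fermat.Agent.LT.T7.B981
open Fermat.Agent.LT.T7.B970

attribute [local instance] Fermat.Agent.LT.T5.instMeasurableSpaceG

section Hyp

variable {K K' : Type} [Field K] [NumberField K] [Field K'] [NumberField K'] [Algebra K K']

open Classical in
/-- **THE HYPOTHESES OF `B970.Dn2C970`**, bundled (same statements, same order). -/
structure IsDn2Hyp309 (ℓ : ℕ) (Φ : HeckeEigensystem K' ℂ) (B : L2Base K K')
    (𝔫 : Ideal (𝓞 K)) (μc : @Measure (GL (Fin 2) ℂ) (borel _))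
    (T₀ : Finset (HeightOneSpectrum (𝓞 K)))
    (n n₀ : HeightOneSpectrum (𝓞 K') → ℕ) (m : HeightOneSpectrum (𝓞 K) → ℕ)
    (a : (InfinitePlace K → ℝ) → G K) (D : Set (InfinitePlace K → ℝ))
    (a' : (InfinitePlace K' → ℝ) → G K') (D' : Set (InfinitePlace K' → ℝ))
    (s : Finset (G K)) (β : G K → ℂ)
    (b : ∀ v : HeightOneSpectrum (𝓞 K), GL (Fin 2) (v.adicCompletion K) → ℂ)
    (c₁ : EigData K' → ℂ) (Φ₁ : List (Gen K') → G K' → ℂ) (F₁ : List (Gen K') → G K → ℂ) :
    Prop where
  cyc : IsCycExt K K' ℓ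
  ne_two : ℓ ≠ 2
  tot : TotCplx K
  cusp : A0.IsCuspAdelicSph0 K' Φ
  fib : ConstOnFibres K Φ
  base : IsL2Base ℓ Φ B
  ram : B.RamIn
  lvl : IsLvl981 B 𝔫
  haar : @Measure.IsHaarMeasure _ _ _ (borel _) μc
  exp : IsExp981 B 𝔫 T₀ n n₀ m
  rel : H193.IsRelTorus 𝔫 B.R.r B.R'.r a D a' D'
  binv : ∀ v ∈ T₀.erase B.u,
    T6.IsBiInv (T6.InU (m v)) (b v) ∧ T6.HasFinSupp (T6.InU (m v)) (b v)
  wt : IsWtDown970 B T₀ m s β b
  pair : IsPair1_981 ℓ Φ B 𝔫 c₁ Φ₁ F₁
  shape : IsAvgPure (upI (K' := K') 𝔫) 𝔫 T₀ (LocA893 B 𝔫 μc T₀ n m) 1 (Φ₁ []) (F₁ [])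

end Hyp

section Leaves

variable (K K' : Type) [Field K] [NumberField K] [Field K'] [NumberField K'] [Algebra K K']

/-- **LEAF D2.A = NAT [L]** (fields `dn2_test`, `dn2_ek`, `dn2_inv`, `dn2_kill`).
Proof.  `W = wsum970 s β F₁0` is `H311.IsPre311` (translates by elements trivial at infinity,
multiples, finite sums); `W y = ∫ pure305 (T ω) (repDn970 B T₀ b (f₀ ω)) (F ω) y dν` (shape of
the first pair + `rep`), and every member is left invariant under `U(𝔫)` (components
bi-invariant under `U(m v)`: `b v`, `1_{I_u}` with `m u ≥ 1`, spherical outside `T₀`) and under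
the Iwahori subgroup at `u`; so `W` is a test function with `H193.IsBiHInv 𝔫 1 (fun _ => u)`;
`H193.killing_of_torus193` for the torus data `hrel.down`; multiples by `c`. -/
def Dn2NatC309 : Prop :=
  ∀ (ℓ : ℕ) (Φ : HeckeEigensystem K' ℂ) (B : L2Base K K') (𝔫 : Ideal (𝓞 K))
    (μc : @Measure (GL (Fin 2) ℂ) (borel _)) (T₀ : Finset (HeightOneSpectrum (𝓞 K)))
    (n n₀ : HeightOneSpectrum (𝓞 K') → ℕ) (m : HeightOneSpectrum (𝓞 K) → ℕ)
    (a : (InfinitePlace K → ℝ) → G K) (D : Set (InfinitePlace K → ℝ))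
    (a' : (InfinitePlace K' → ℝ) → G K') (D' : Set (InfinitePlace K' → ℝ))
    (s : Finset (G K)) (β : G K → ℂ)
    (b : ∀ v : HeightOneSpectrum (𝓞 K), GL (Fin 2) (v.adicCompletion K) → ℂ)
    (c₁ : EigData K' → ℂ) (Φ₁ : List (Gen K') → G K' → ℂ) (F₁ : List (Gen K') → G K → ℂ),
    IsDn2Hyp309 ℓ Φ B 𝔫 μc T₀ n n₀ m a D a' D' s β b c₁ Φ₁ F₁ → ∀ c : ℂ,
      T5.IsTestFn 𝔫 T5.trivType (fun h => c * H193.nat193 a D (wsum970 s β (F₁ [])) h) ∧
      (T5.IsEK B.R.μ (fun h => c * H193.nat193 a D (wsum970 s β (F₁ [])) h) ∧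
        T5.IsEK B.R.μ
          (T5.adjointFn (fun h => c * H193.nat193 a D (wsum970 s β (F₁ [])) h))) ∧
      IsUInv 𝔫 1 (fun _ => B.u) (fun h => c * H193.nat193 a D (wsum970 s β (F₁ [])) h) ∧
      ∀ ψ : G K → ℂ, T5.IsCuspFn 𝔫 T5.trivType B.R.r ψ →
        (∀ χ : G K → ℂ, IsWFn 𝔫 B.R.r 1 (fun _ => B.u) χ → T5.innerD B.R.μ B.R.F ψ χ = 0) →
        ∀ x : G K,
          T5.Rconv B.R.μ (fun h => c * H193.nat193 a D (wsum970 s β (F₁ [])) h) ψ x = 0

/-- **LEAF D2.B = WFN [M-L]** (field `dn2_wfn`).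
Proof.  `R(f₂) ψ = c ∑_{x ∈ s} β(x) (R(F₁0) ψ)(· x)` on the continuous functions invariant under
the positive scalars (`killing_of_torus193`, fifth clause; `R(ltr x φ) ψ = (R(φ) ψ)(· x)`);
`dn1_wfn`; the right translates by elements trivial at infinity of a cusp function are
continuous, bounded, left `GL₂(K)`-invariant, cuspidal, invariant under the ray, the compact
groups and the positive scalars at infinity; the right invariance under `U(𝔫)` and the Iwahori
subgroup at `u` comes from the LEFT invariance of `f₂` (`dn2_inv`) and the left invariance of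
the Haar measure. -/
def Dn2WfnC309 : Prop :=
  ∀ (ℓ : ℕ) (Φ : HeckeEigensystem K' ℂ) (B : L2Base K K') (𝔫 : Ideal (𝓞 K))
    (μc : @Measure (GL (Fin 2) ℂ) (borel _)) (T₀ : Finset (HeightOneSpectrum (𝓞 K)))
    (n n₀ : HeightOneSpectrum (𝓞 K') → ℕ) (m : HeightOneSpectrum (𝓞 K) → ℕ)
    (a : (InfinitePlace K → ℝ) → G K) (D : Set (InfinitePlace K → ℝ))
    (a' : (InfinitePlace K' → ℝ) → G K') (D' : Set (InfinitePlace K' → ℝ))
    (s : Finset (G K)) (β : G K → ℂ)
    (b : ∀ v : HeightOneSpectrum (𝓞 K), GL (Fin 2) (v.adicCompletion K) → ℂ)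
    (c₁ : EigData K' → ℂ) (Φ₁ : List (Gen K') → G K' → ℂ) (F₁ : List (Gen K') → G K → ℂ),
    IsDn2Hyp309 ℓ Φ B 𝔫 μc T₀ n n₀ m a D a' D' s β b c₁ Φ₁ F₁ → ∀ c : ℂ,
      ∀ ψ : G K → ℂ, IsWFn 𝔫 B.R.r 1 (fun _ => B.u) ψ →
        IsWFn 𝔫 B.R.r 1 (fun _ => B.u)
          (T5.Rconv B.R.μ (fun h => c * H193.nat193 a D (wsum970 s β (F₁ [])) h) ψ)

/-- **LEAF D2.C = CLASS [M-L]** (field `dn2_class` without its part `inv`, which is `dn2_wfn`).
Proof.  `R(f₂) ψ = c ∑_{x ∈ s} β(x) (R(F₁0) ψ)(· x)`, `dn1_class`; `x` is trivial at infinity and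
outside `T₀` = the prime divisors of `𝔫`, so the right translation by `x` commutes with the
Hecke operators at the places prime to `𝔫` and with the sphere means (kit helper281
`T7/H281/TranslEig`); linear combinations. -/
def Dn2ClassC309 : Prop :=
  ∀ (ℓ : ℕ) (Φ : HeckeEigensystem K' ℂ) (B : L2Base K K') (𝔫 : Ideal (𝓞 K))
    (μc : @Measure (GL (Fin 2) ℂ) (borel _)) (T₀ : Finset (HeightOneSpectrum (𝓞 K)))
    (n n₀ : HeightOneSpectrum (𝓞 K') → ℕ) (m : HeightOneSpectrum (𝓞 K) → ℕ)
    (a : (InfinitePlace K → ℝ) → G K) (D : Set (InfinitePlace K → ℝ))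
    (a' : (InfinitePlace K' → ℝ) → G K') (D' : Set (InfinitePlace K' → ℝ))
    (s : Finset (G K)) (β : G K → ℂ)
    (b : ∀ v : HeightOneSpectrum (𝓞 K), GL (Fin 2) (v.adicCompletion K) → ℂ)
    (c₁ : EigData K' → ℂ) (Φ₁ : List (Gen K') → G K' → ℂ) (F₁ : List (Gen K') → G K → ℂ),
    IsDn2Hyp309 ℓ Φ B 𝔫 μc T₀ n n₀ m a D a' D' s β b c₁ Φ₁ F₁ → ∀ c : ℂ,
      ∀ (ψ : G K → ℂ) (e : EigData K), IsEigFn 𝔫 B.R.r 1 (fun _ => B.u) ψ e →
        (∀ v : HeightOneSpectrum (𝓞 K), ¬ v.asIdeal ∣ 𝔫 →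
          IsHeckeEigenAt
            (T5.Rconv B.R.μ (fun h => c * H193.nat193 a D (wsum970 s β (F₁ [])) h) ψ)
            v (e.a v) (e.b v)) ∧
        ∀ w : InfinitePlace K,
          MeanEig (T5.Rconv B.R.μ (fun h => c * H193.nat193 a D (wsum970 s β (F₁ [])) h) ψ)
            w (e.m w)

/-- **LEAF D2.D = COMM [L]** (field `dn2_comm`).
Proof.  Shift: `z` is central (`H311.central_scalar311`).  Iwahori operator: `f₂` vanishes
outside `{y : y_u ∈ I_u}` (component `1_{I_u}` at `u`, `a t` trivial at the finite places);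
for such `y = y^u y_u`: `ψ(x h y) = ψ(x y^u h)` (`h` is supported at `u`, `ψ` is right invariant
under `I_u`) and `∑_h ψ(x y^u y_u h) = ∑_h ψ(x y^u h)` (the Iwahori operator does not depend on
the coset system, kit helper271 `T7/H271/Indep`). -/
def Dn2CommC309 : Prop :=
  ∀ (ℓ : ℕ) (Φ : HeckeEigensystem K' ℂ) (B : L2Base K K') (𝔫 : Ideal (𝓞 K))
    (μc : @Measure (GL (Fin 2) ℂ) (borel _)) (T₀ : Finset (HeightOneSpectrum (𝓞 K)))
    (n n₀ : HeightOneSpectrum (𝓞 K') → ℕ) (m : HeightOneSpectrum (𝓞 K) → ℕ)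
    (a : (InfinitePlace K → ℝ) → G K) (D : Set (InfinitePlace K → ℝ))
    (a' : (InfinitePlace K' → ℝ) → G K') (D' : Set (InfinitePlace K' → ℝ))
    (s : Finset (G K)) (β : G K → ℂ)
    (b : ∀ v : HeightOneSpectrum (𝓞 K), GL (Fin 2) (v.adicCompletion K) → ℂ)
    (c₁ : EigData K' → ℂ) (Φ₁ : List (Gen K') → G K' → ℂ) (F₁ : List (Gen K') → G K → ℂ),
    IsDn2Hyp309 ℓ Φ B 𝔫 μc T₀ n n₀ m a D a' D' s β b c₁ Φ₁ F₁ → ∀ c : ℂ,
      ∀ ψ : G K → ℂ, IsWFn 𝔫 B.R.r 1 (fun _ => B.u) ψ →
        ∀ (H : Finset (G K)) (z : G K), IsIwCosetSystem B.u H →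
          IsScalarUniformizerAt B.u z →
          (∀ x : G K,
            T5.Rconv B.R.μ (fun h => c * H193.nat193 a D (wsum970 s β (F₁ [])) h)
                (iwOp B.u H ψ) x
              = iwOp B.u H
                (T5.Rconv B.R.μ (fun h => c * H193.nat193 a D (wsum970 s β (F₁ [])) h) ψ)
                x) ∧
          ∀ (k : ℤ) (x : G K),
            T5.Rconv B.R.μ (fun h => c * H193.nat193 a D (wsum970 s β (F₁ [])) h)
                (shiftOp z k ψ) x
              = shiftOp z k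
                (T5.Rconv B.R.μ (fun h => c * H193.nat193 a D (wsum970 s β (F₁ [])) h) ψ)
                x

/-- **LEAF D2.E = SUPP [M]** (field `dn2_supp`).
Proof.  `f₂` has compact support (`dn2_test`); `f₂ y ≠ 0` ⟹ `W (y a(t)⁻¹) ≠ 0` for some `t`
⟹ a member `pure305 (T ω) (repDn970 …) (F ω)` does not vanish at `y a(t)⁻¹` ⟹ its component
`1_{I_u}` at `u ∈ T₀ ⊆ T ω` does not vanish ⟹ `InIwahori u y` (`a t` is trivial at the finite
places); `T5.H32.isIwSupported_of_support32` with `C = tsupport f₂`. -/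
def Dn2SuppC309 : Prop :=
  ∀ (ℓ : ℕ) (Φ : HeckeEigensystem K' ℂ) (B : L2Base K K') (𝔫 : Ideal (𝓞 K))
    (μc : @Measure (GL (Fin 2) ℂ) (borel _)) (T₀ : Finset (HeightOneSpectrum (𝓞 K)))
    (n n₀ : HeightOneSpectrum (𝓞 K') → ℕ) (m : HeightOneSpectrum (𝓞 K) → ℕ)
    (a : (InfinitePlace K → ℝ) → G K) (D : Set (InfinitePlace K → ℝ))
    (a' : (InfinitePlace K' → ℝ) → G K') (D' : Set (InfinitePlace K' → ℝ))
    (s : Finset (G K)) (β : G K → ℂ)
    (b : ∀ v : HeightOneSpectrum (𝓞 K), GL (Fin 2) (v.adicCompletion K) → ℂ)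
    (c₁ : EigData K' → ℂ) (Φ₁ : List (Gen K') → G K' → ℂ) (F₁ : List (Gen K') → G K → ℂ),
    IsDn2Hyp309 ℓ Φ B 𝔫 μc T₀ n n₀ m a D a' D' s β b c₁ Φ₁ F₁ → ∀ c : ℂ,
      ∃ C : Set (G K), IsCompact C ∧
        T5.H32.IsIwSupported32 1 (fun _ => B.u) C
          (fun h => c * H193.nat193 a D (wsum970 s β (F₁ [])) h)

end Leaves

end Fermat.Agent.LT.T7.H309.Dn2

end

end
-- ===== PACK-END LT/T7/H309/Dn2Spec.lean

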