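import Mathlib
import Fermat.Agent.Pack.LT4.E3L2
import Fermat.Agent.Pack.LT2.E19L1
import Fermat.Agent.Pack.LT4.E3L1
import Fermat.Agent.Pack.LT3.E21L1
import Fermat.Agent.Pack.LT3.E26L0
import Fermat.Agent.Pack.LT3.E26L2
import Fermat.Agent.Pack.LT3.E23L1
import Fermat.Agent.Pack.LT3.E23L0
import Fermat.Agent.Pack.LT3.E22L3
import Fermat.Agent.Pack.LT3.E24L1
import Fermat.Agent.Pack.LT3.E27L1
import Fermat.Agent.Pack.LT3.E23L2
import Fermat.Agent.Pack.LT3.E26L1
import Fermat.Agent.Pack.LT2.E5L3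
import Fermat.Agent.Pack.LT2.E6L1
import Fermat.Agent.Pack.LT4.E1L3
import Fermat.Agent.Pack.LT3.E8L2
import Fermat.Agent.Pack.LT3.E8L0
import Fermat.Agent.Pack.LT3.E17L0
import Fermat.Agent.Pack.LT2.E10L1
import Fermat.Agent.Pack.LT3.E20L2
import Fermat.Agent.Pack.LT4.E1L1
import Fermat.Agent.Pack.LT3.E22L2
import Fermat.Agent.Pack.LT3.E26L3
import Fermat.Agent.Pack.LT3.E24L2
import Fermat.Agent.Pack.LT3.E24L0
import Fermat.Agent.Pack.LT3.E25L0
import Fermat.Agent.Pack.LT3.E28L1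
import Fermat.Agent.Pack.LT3.E27L0
import Fermat.Agent.Pack.LT3.E13L1
import Fermat.Agent.Pack.LT3.E16L2
import Fermat.Agent.Pack.LT3.E28L3
import Fermat.Agent.Pack.LT4.E3L3
import Fermat.Agent.Pack.LT3.E11L3
import Fermat.Agent.Pack.LT2.E3L0
import Fermat.Agent.Pack.LT4.E2L0
import Fermat.Agent.Pack.LT3.E19L1
import Fermat.Agent.Pack.LT4.E2L3
import Fermat.Agent.Pack.LT3.E22L0
import Fermat.Agent.Pack.LT3.E25L1
import Fermat.Agent.Pack.LT3.E7L3
import Fermat.Agent.Pack.LT2.E0L1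
import Fermat.Agent.Pack.LT3.E25L2

set_option linter.all false

-- ===== PACK-BEGIN LT/T7/H62/RigidPlug3.lean
section




/-!
# Row LT, tower T7, NODE T7.14 `RigidC` -- PLUG, state 15:35Z (sub-architect helper62)

OFF-MAIN.  `Open62c K` = the FOUR leaves of `T7.RigidC K` which are still open:
`CountC` (row 1519), `FoldWhitC` (row 1717), `IdeleSumC` (row 1720), `LocC` (row 1829).
`rigidC_of_open62c : Open62c K → T7.RigidC K`, `rigidAll_of_open62c`.

CLOSED since `RigidPlug2.lean`: `TorusAsmC` (helper683), hence the node `TorusC` (`torusC62`).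

All imported files are byte-identical copies of the owners' files.
-/

set_option autoImplicit false

open IsDedekindDomain NumberField MeasureTheory

namespace Fermat.Agent.LT.T7.Rigid

open Fermat.Agent.LT.H556.A0 Fermat.Agent.LT.T7

variable (K : Type) [Field K] [NumberField K]

/-- **The node `TorusC` is closed**: the Whittaker function of an `S`-form on the torus is
`f(y) · kirOut(y)`, `f` depending only on the components at `S`. -/
theorem torusC62 : TorusC K :=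
  Fermat.Agent.LT.T7.H683.torusAsmC_683 Fermat.Agent.LT.T7.H941.heckeRecC941
    (Fermat.Agent.LT.T7.H724.archUniqC724 K) (Fermat.Agent.LT.T7.H878.whitInheritC878 K)
    (Fermat.Agent.LT.T7.Rigid.H267.mixC267 K)

/-- THE OPEN LEAVES of `T7.RigidC K`, state 15:35Z. -/
structure Open62c : Prop where
  /-- T7.14.3 (row 1519, helper671). -/
  count : CountC K
  /-- T7.14.6a (row 1717, helper290). -/
  foldWhit : FoldWhitC K
  /-- T7.14.6c (row 1720, helper568). -/
  ideleSum : IdeleSumC K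
  /-- T7.14.6b.1 (row 1829, helper203). -/
  loc : LocC K

/-- **`T7.RigidC K` from the four open leaves.** -/
theorem rigidC_of_open62c (h : Open62c K) : RigidC K :=
  rigidC_of_open62b K
    { count := h.count
      foldWhit := h.foldWhit
      ideleSum := h.ideleSum
      loc := h.loc
      torusAsm := Fermat.Agent.LT.T7.H683.torusAsmC_683 }

/-- **`T7.RigidAll` from the four open leaves for every number field.** -/
theorem rigidAll_of_open62c
    (h : ∀ (K : Type) [Field K] [NumberField K], Open62c K) : RigidAll :=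
  fun K _ _ => rigidC_of_open62c K (h K)

end Fermat.Agent.LT.T7.Rigid

end
-- ===== PACK-END LT/T7/H62/RigidPlug3.lean

-- ===== PACK-BEGIN LT/T7/H62/RigidPlug4.lean
section




/-!
# Row LT, tower T7, NODE T7.14 `RigidC` -- PLUG, state 15:40Z (sub-architect helper62)

OFF-MAIN.  `Open62d K` = the THREE leaves of `T7.RigidC K` which are still open:
`CountC` (row 1519), `FoldWhitC` (row 1717), `LocC` (row 1829).
`rigidC_of_open62d : Open62d K → T7.RigidC K`, `rigidAll_of_open62d`.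

CLOSED since `RigidPlug3.lean`: `IdeleSumC` (helper568, integrator).

All imported files are byte-identical copies of the owners' files.
-/

set_option autoImplicit false

open IsDedekindDomain NumberField MeasureTheory

namespace Fermat.Agent.LT.T7.Rigid

open Fermat.Agent.LT.H556.A0 Fermat.Agent.LT.T7

variable (K : Type) [Field K] [NumberField K]

/-- THE OPEN LEAVES of `T7.RigidC K`, state 15:40Z. -/
structure Open62d : Prop where
  /-- T7.14.3 (row 1519, helper671). -/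
  count : CountC K
  /-- T7.14.6a (row 1717, helper290). -/
  foldWhit : FoldWhitC K
  /-- T7.14.6b.1 (row 1829, helper203). -/
  loc : LocC K

/-- **`T7.RigidC K` from the three open leaves.** -/
theorem rigidC_of_open62d (h : Open62d K) : RigidC K :=
  rigidC_of_open62c K
    { count := h.count
      foldWhit := h.foldWhit
      ideleSum := Fermat.Agent.LT.T7.H568.ideleSumC568 K
      loc := h.loc }

/-- **`T7.RigidAll` from the three open leaves for every number field.** -/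
theorem rigidAll_of_open62d
    (h : ∀ (K : Type) [Field K] [NumberField K], Open62d K) : RigidAll :=
  fun K _ _ => rigidC_of_open62d K (h K)

end Fermat.Agent.LT.T7.Rigid

end
-- ===== PACK-END LT/T7/H62/RigidPlug4.lean

-- ===== PACK-BEGIN LT/T7/H296/StfId.lean
section




/-!
# Row LT, tower T7, leaf T7.L2.3.1 `SD534.StfIdC` (registry row 2126) -- helper296, OFF-MAIN

PLUG of the closed tower T5 (`T5/Closed.lean` v9 of helper32, `closed_stf`) into the cut
`LT/T7/H534/SpecDownSpec.lean` (helper534@756e78a11, sha256 3f1c4f486c3ea8a9):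
the trace identity `T5.STFsigma` for `σ = id`, trivial `K_∞`-type, every level `𝔫 ≠ 0`,
for EVERY number field `K` (no hypothesis on `K`).
-/

set_option autoImplicit false

open IsDedekindDomain NumberField

noncomputable section

namespace Fermat.Agent.LT.T7.H296

open Fermat.Agent.LT

/-- **T7.L2.3.1 `StfIdC`**, VERBATIM, unconditional, for every number field `K`. -/
theorem stfIdC296 (K : Type) [Field K] [NumberField K] : T7.SD534.StfIdC K :=
  fun 𝔫 h𝔫 => T5.closed_stf (T5.AdelicAut.id K) 𝔫 T5.trivType h𝔫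

end Fermat.Agent.LT.T7.H296

end

end
-- ===== PACK-END LT/T7/H296/StfId.lean

-- ===== PACK-BEGIN LT/T7/H534/SpecDownPart.lean
section
















/-!
# Row LT, tower T7, NODE T7.L2.3 `SpecDownC` -- INTEGRATION of the delivered leaves (helper534)

OFF-MAIN.  The thirteen delivered leaves (registry rows 2122-2126, 2179-2181, 2183-2185, 2354,
2357; the files of their owners are vendored byte-identical) are plugged in the proved
assemblies `specDownC_of_leaves534`, `specDownC_of_leaves3_534`.  What is left: the node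
`WBasisC` (row 2182), i.e. the two open leaves `V2BasisC` (2355), `IwProjC` (2356) of the cut of
helper534, or the cut of helper776.
No hole, nothing assumed.  ADDITIVE.
-/

set_option autoImplicit false

open AutomorphicForm IsDedekindDomain NumberField MeasureTheory

noncomputable section

namespace Fermat.Agent.LT.T7.SD534

/-- **`SpecDownC` FROM THE NODE `WBasisC`.** -/
theorem specDownC_of_wBasis534 (K K' : Type) [Field K] [NumberField K] [Field K']
    [NumberField K'] [Algebra K K'] (hWB : WBasisC K) : Fermat.Agent.LT.T7.SpecDownC K K' :=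
  specDownC_of_leaves534 (Fermat.Agent.LT.T7.H296.stfIdC296 K)
    (Fermat.Agent.LT.T7.H510.iwSysC_h510 K) (Fermat.Agent.LT.T7.H966.bcDataC966 K K')
    (Fermat.Agent.LT.T7.H269.resDegC269 K K') (Fermat.Agent.LT.T7.H936.bcUnitC936 K K')
    (Fermat.Agent.LT.T7.H76.cuspFormC76 K) (Fermat.Agent.LT.T7.H863.wSubC_863 K)
    (Fermat.Agent.LT.T7.H468.opsClassC468 K) hWB
    Fermat.Agent.LT.T7.H228.schurSeqC228 (Fermat.Agent.LT.T7.H16.regParamFnC16 K)
    (Fermat.Agent.LT.T7.H190.subSeqC190 K)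

/-- **`WBasisC` FROM ITS TWO OPEN LEAVES.** -/
theorem wBasisC_of_open534 (K : Type) [Field K] [NumberField K]
    (hV2B : V2BasisC K) (hProj : IwProjC K) : WBasisC K :=
  wBasisC_of534 (Fermat.Agent.LT.T7.H76.cuspFormC76 K) (Fermat.Agent.LT.T7.H863.wSubC_863 K)
    (v2SubC534 K) hV2B hProj Fermat.Agent.LT.T7.H582.projBasisC582

/-- **`SpecDownC` FROM THE TWO OPEN LEAVES.** -/
theorem specDownC_of_open534 (K K' : Type) [Field K] [NumberField K] [Field K']
    [NumberField K'] [Algebra K K'] (hV2B : V2BasisC K) (hProj : IwProjC K) :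
    Fermat.Agent.LT.T7.SpecDownC K K' :=
  specDownC_of_wBasis534 K K' (wBasisC_of_open534 K hV2B hProj)

end Fermat.Agent.LT.T7.SD534

end

end
-- ===== PACK-END LT/T7/H534/SpecDownPart.lean

-- ===== PACK-BEGIN LT/T2/Closed.lean
section












/-!
# Row LT, tower T2: INTEGRATION of the closed leaves (helper130, architect)

OFF-MAIN.  Closed leaves are imported as byte-identical copies of the owners' files and rebuilt on
the architect's box against `LT/T2/Spec.lean` v3 (sha256 b934629a).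

| leaf | owner | file | state |
|---|---|---|---|
| T2.01 `Leaf01` (`FrameExists`, `PairDefinite`) | helper245 | `LT/T2/H245/Leaf01.lean` (sha256 63cfff4c) | CLOSED |
| T2.02 `Leaf02` (`ConvCusp`) | helper228 (02a, 02b, 02c; 02c second proof helper981; 02d helper724 with helper323, helper833, helper286, helper473, helper570, helper8, helper437, helper673) | `LT/T2/H228/Closed.lean` (sha256 1888613c) + closure (24 files) | CLOSED |
| T2.03 `Leaf03` (`GPSCore`, THE estimate) | helper386 (cut and soft part; FDBound: helper511 with helper729, helper988, helper793, helper437, helper8, helper187, helper724; LocalL2: helper767 with helper323, helper868) | `LT/T2/H386/Leaf03Closed.lean` (sha256 26fb9047) + closure (48 files) | CLOSED |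
| T2.04 `Leaf04` (`GPS → HSBound`, `GPSKill → HSKill`) | helper510 | `LT/T2/H510/Leaf04.lean` (sha256 c2c039c1) | CLOSED |
| T2.05 `Leaf05` (`GPS → ConvRegular`) | helper131 | `LT/T2/H131/Leaf05.lean` (sha256 d8c05139) | CLOSED |
| T2.06 `Leaf06` (`ApproxId`) | helper907 (assets helper11 `LT/H11/LC.lean`, helper864 `LT/T8/H864/Local.lean`, helper51 `LT/H51/MS4A.lean`, `MS4B.lean`) | `LT/T2/H907/Leaf06.lean` (sha256 f86c6070), `Mat2`, `Defect`, `Smooth`, `Level`, `Stab`, `Compact`, `TestFn` | CLOSED |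
| T2.07 `Leaf07` (`OpsGood`, `OpsAdj`) | helper429 (sub-leaves T2.07.01 -- T2.07.32: registry rows 995 -- 1019, about 25 volunteers; `OpsAdj`: helper82) | `LT/T2/H429/Leaf07Closed.lean` (sha256 9e8943cb) + closure (71 files) | CLOSED |
| T2.08 `Leaf08` (`AbstractSpectral`) | helper781 (asset helper751) | `LT/T2/H781/Leaf08.lean`, `AbsSpec.lean`, `LT/H751/JointSpec.lean` | CLOSED |
| T2.09 `Leaf09` (assembly) | helper566 (asset helper793 `LT/T1/H793/AdeleProj.lean`) | `LT/T2/H566/Assembly.lean` (sha256 eafa5fec), `JointEig`, `HeckeIndep`, `CuspSub`, `CuspInner`, `Local` | CLOSED |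
| T2.13 `Leaf13` (`GPSCore → GPS`, `GPSCore → GPSKill`) | helper627 | `LT/T2/H627/Leaf13.lean` (sha256 86709a7c), `Adelic`, `Meas`, `Conv`, `ConstTerm` | CLOSED |

(T2.11 `SMO_HH`, helper894: `LT/T2/ClosedSmo.lean`.)

ALL LEAVES OF `CuspSpec` ARE CLOSED: `leaves_closed K : Leaves K`, and
`cuspSpec_of_T1 : T1.T1Out K → 𝔫 ≠ ⊥ → CuspSpec K 𝔫` (unconditional form: `LT/T2/Uncond.lean`).
-/

set_option autoImplicit false

open IsDedekindDomain NumberField

namespace Fermat.Agent.LT.T2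

/-- The sub-leaves of `CuspSpec` which are still OPEN: NONE (kept for the seats which call
`leaves_of_open`, `cuspSpec_of_open`). -/
structure Open (K : Type) [Field K] [NumberField K] : Prop where

/-- Nothing is open. -/
theorem open_closed (K : Type) [Field K] [NumberField K] : Open K := ⟨⟩

/-- All leaves from the open ones. -/
theorem leaves_of_open (K : Type) [Field K] [NumberField K] (_h : Open K) : Leaves K :=
  { l01 := H245.leaf01_245 K, l02 := H228.leaf02_228 K, l03 := H386.leaf03_386 K, l04 := H510.leaf04_h510 K,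
    l05 := H131.leaf05_h131 K, l06 := H907.leaf06_h907 K, l07 := H429.leaf07_429 K, l08 := H781.leaf08_781,
    l09 := H566.leaf09_566, l13 := H627.leaf13_627 K }

/-- The discreteness of the cuspidal spectrum from the open leaves and the output of T1. -/
theorem cuspSpec_of_open (K : Type) [Field K] [NumberField K] (h : Open K) (hT1 : T1.T1Out K)
    (𝔫 : Ideal (𝓞 K)) (h𝔫 : 𝔫 ≠ ⊥) : CuspSpec K 𝔫 :=
  top_cuspSpec K (leaves_of_open K h) hT1 𝔫 h𝔫

/-- ALL LEAVES of `CuspSpec` are closed. -/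
theorem leaves_closed (K : Type) [Field K] [NumberField K] : Leaves K :=
  leaves_of_open K (open_closed K)

/-- **THE DISCRETENESS OF THE CUSPIDAL SPECTRUM** from the output of tower T1. -/
theorem cuspSpec_of_T1 (K : Type) [Field K] [NumberField K] (hT1 : T1.T1Out K)
    (𝔫 : Ideal (𝓞 K)) (h𝔫 : 𝔫 ≠ ⊥) : CuspSpec K 𝔫 :=
  top_cuspSpec K (leaves_closed K) hT1 𝔫 h𝔫

/-- The estimates from the output of tower T1. -/
theorem gps_of_T1 (K : Type) [Field K] [NumberField K] (hT1 : T1.T1Out K)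
    (𝔫 : Ideal (𝓞 K)) (h𝔫 : 𝔫 ≠ ⊥) :
    FrameExists K ∧ PairDefinite K 𝔫 ∧ ConvCusp K 𝔫 ∧ GPSCore K 𝔫 ∧ GPS K 𝔫 ∧ HSBound K 𝔫 ∧
      ConvRegular K 𝔫 ∧ GPSKill K 𝔫 ∧ HSKill K 𝔫 :=
  top_gps K (leaves_closed K) hT1 𝔫 h𝔫

/-- Frames exist and the pairing is definite on the cusp functions (CLOSED, from the output of
T1). -/
theorem frame_pairDefinite_closed (K : Type) [Field K] [NumberField K] (hT1 : T1.T1Out K) :
    FrameExists K ∧ ∀ 𝔫 : Ideal (𝓞 K), 𝔫 ≠ ⊥ → PairDefinite K 𝔫 :=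
  H245.leaf01_245 K hT1

/-- The estimates from the ONE open estimate `GPSCore` (leaf T2.03): `GPS`, `GPSKill`, `HSBound`,
`HSKill`, `ConvRegular` need nothing else, except `ConvCusp` and `PairDefinite` for
`ConvRegular`. -/
theorem estimates_of_core (K : Type) [Field K] [NumberField K] (hT1 : T1.T1Out K)
    (𝔫 : Ideal (𝓞 K)) (h𝔫 : 𝔫 ≠ ⊥) (hCore : GPSCore K 𝔫) :
    GPS K 𝔫 ∧ GPSKill K 𝔫 ∧ HSBound K 𝔫 ∧ HSKill K 𝔫 ∧
      (ConvCusp K 𝔫 → ConvRegular K 𝔫) := by
  have h13 := H627.leaf13_627 K hT1 𝔫 h𝔫 hCore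
  have h4 := H510.leaf04_h510 K hT1 𝔫 h𝔫
  exact ⟨h13.1, h13.2, h4.1 h13.1, h4.2 h13.2,
    fun hC => H131.leaf05_h131 K hT1 𝔫 h𝔫 ((H245.leaf01_245 K hT1).2 𝔫 h𝔫) hC h13.1⟩

end Fermat.Agent.LT.T2

end
-- ===== PACK-END LT/T2/Closed.lean

-- ===== PACK-BEGIN LT/T2/Uncond.lean
section




/-!
# Row LT, tower T2 on the CLOSED tower T1 (helper130, architect)

OFF-MAIN.  Tower T1 is closed (helper54, `LT/T1/Closed.lean`, `t1Out K : T1Out K` for every
number field, byte-identical copy of helper54@272e43fd2 rebuilt on this box).  So the hypothesis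
`T1.T1Out K` of every leaf of T2 is discharged here.

* `frame_closed`, `frameR_uncond`, `pairDefinite_closed`, `pairDefiniteT_closed`, `approxId_of`:
  UNCONDITIONAL outputs.
* `estimates_uncond`: everything from the ONE estimate `GPSCore`.
* `convCusp_closed`, `convCuspT_closed`, `approxId_closed`: UNCONDITIONAL.
* **`cuspSpec_closed K 𝔫 h𝔫 : CuspSpec K 𝔫`, `estimates_closed`: TOWER T2 IS CLOSED.**
* **`estimatesT_closed`: the estimates of the class of T5 are CLOSED** (`GPSKillT`, `HSKillT`);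
  `approxIdT_closed`; `cuspSpecT_of_ops : OpsGoodT ∧ OpsAdjT → CuspSpecT`.
* `ops_closed`, `gpsCore_closed` UNCONDITIONAL; `cuspSpec_of_core : GPSCore K 𝔫 → CuspSpec K 𝔫` (THE STATE).
* `cuspSpec_of_two : GPSCore K 𝔫 → OpsGood K 𝔫 ∧ OpsAdj K 𝔫 → CuspSpec K 𝔫`.
* `cuspSpec_uncond : Open K → CuspSpec K 𝔫`, `cuspSpecT_uncond : OpenT K → CuspSpecT K 𝔫 τ`.
* **`opsT_closed`, `cuspSpecT_closed K 𝔫 τ h𝔫 hτ : CuspSpecT K 𝔫 τ`: THE CLASS OF T5 IS CLOSED**
  (leaf T2.27 of helper291); `towerT_closed` = estimates + operators + spectrum in one statement.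
-/

set_option autoImplicit false

open IsDedekindDomain NumberField
open Fermat.Agent.LT.H556.A0

namespace Fermat.Agent.LT.T2

/-- Frames exist (UNCONDITIONAL). -/
theorem frame_closed (K : Type) [Field K] [NumberField K] : FrameExists K :=
  (frame_pairDefinite_closed K (T1.t1Out K)).1

/-- Frames with a ray generator exist (UNCONDITIONAL). -/
theorem frameR_uncond (K : Type) [Field K] [NumberField K] : FrameRExists K :=
  frameR_closed K (T1.t1Out K)

/-- The Petersson pairing is definite on the cusp functions (UNCONDITIONAL). -/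
theorem pairDefinite_closed (K : Type) [Field K] [NumberField K] (𝔫 : Ideal (𝓞 K))
    (h𝔫 : 𝔫 ≠ ⊥) : PairDefinite K 𝔫 :=
  (frame_pairDefinite_closed K (T1.t1Out K)).2 𝔫 h𝔫

/-- The Petersson pairing is definite on the cusp functions of the class of T5
(UNCONDITIONAL). -/
theorem pairDefiniteT_closed (K : Type) [Field K] [NumberField K] (𝔫 : Ideal (𝓞 K))
    (τ : G K → ℂ) (h𝔫 : 𝔫 ≠ ⊥) (hτ : IsKType τ) : PairDefiniteT K 𝔫 τ :=
  (H833.leafT01_833 K (T1.t1Out K)).2 𝔫 τ h𝔫 hτ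

/-- The approximate identity from `ConvCusp`. -/
theorem approxId_of (K : Type) [Field K] [NumberField K] (𝔫 : Ideal (𝓞 K)) (h𝔫 : 𝔫 ≠ ⊥)
    (hC : ConvCusp K 𝔫) : ApproxId K 𝔫 :=
  H907.leaf06_h907 K (T1.t1Out K) 𝔫 h𝔫 (pairDefinite_closed K 𝔫 h𝔫) hC

/-- Everything from the ONE open estimate `GPSCore`. -/
theorem estimates_uncond (K : Type) [Field K] [NumberField K] (𝔫 : Ideal (𝓞 K)) (h𝔫 : 𝔫 ≠ ⊥)
    (hCore : GPSCore K 𝔫) :
    GPS K 𝔫 ∧ GPSKill K 𝔫 ∧ HSBound K 𝔫 ∧ HSKill K 𝔫 ∧ (ConvCusp K 𝔫 → ConvRegular K 𝔫) :=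
  estimates_of_core K (T1.t1Out K) 𝔫 h𝔫 hCore

/-- The discreteness of the cuspidal spectrum from the open leaves of T2 ALONE. -/
theorem cuspSpec_uncond (K : Type) [Field K] [NumberField K] (h : Open K) (𝔫 : Ideal (𝓞 K))
    (h𝔫 : 𝔫 ≠ ⊥) : CuspSpec K 𝔫 :=
  cuspSpec_of_open K h (T1.t1Out K) 𝔫 h𝔫

/-- `ConvCusp` (UNCONDITIONAL). -/
theorem convCusp_closed (K : Type) [Field K] [NumberField K] (𝔫 : Ideal (𝓞 K)) (h𝔫 : 𝔫 ≠ ⊥) :
    ConvCusp K 𝔫 :=
  H228.leaf02_228 K (T1.t1Out K) 𝔫 h𝔫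

/-- `ConvCuspT` (UNCONDITIONAL). -/
theorem convCuspT_closed (K : Type) [Field K] [NumberField K] (𝔫 : Ideal (𝓞 K)) (τ : G K → ℂ)
    (h𝔫 : 𝔫 ≠ ⊥) (hτ : IsKType τ) : ConvCuspT K 𝔫 τ :=
  H175.leafT02_175 K (T1.t1Out K) 𝔫 τ h𝔫 hτ

/-- The approximate identity (UNCONDITIONAL). -/
theorem approxId_closed (K : Type) [Field K] [NumberField K] (𝔫 : Ideal (𝓞 K)) (h𝔫 : 𝔫 ≠ ⊥) :
    ApproxId K 𝔫 :=
  approxId_of K 𝔫 h𝔫 (convCusp_closed K 𝔫 h𝔫)

/-- The discreteness of the cuspidal spectrum from the TWO open Props at ONE level: the estimate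
`GPSCore` and the operator package `OpsGood`, `OpsAdj`. -/
theorem cuspSpec_of_two (K : Type) [Field K] [NumberField K] (𝔫 : Ideal (𝓞 K)) (h𝔫 : 𝔫 ≠ ⊥)
    (hCore : GPSCore K 𝔫) (hO : OpsGood K 𝔫 ∧ OpsAdj K 𝔫) : CuspSpec K 𝔫 := by
  have hT1 := T1.t1Out K
  have hP := pairDefinite_closed K 𝔫 h𝔫
  have hC := convCusp_closed K 𝔫 h𝔫
  have hE := estimates_uncond K 𝔫 h𝔫 hCore
  exact H566.leaf09_566 hT1 H781.leaf08_781 𝔫 h𝔫 hP hC hE.2.2.1 (hE.2.2.2.2 hC)
    (approxId_closed K 𝔫 h𝔫) hO.1 hO.2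

/-- The operator package (UNCONDITIONAL). -/
theorem ops_closed (K : Type) [Field K] [NumberField K] (𝔫 : Ideal (𝓞 K)) (h𝔫 : 𝔫 ≠ ⊥) :
    OpsGood K 𝔫 ∧ OpsAdj K 𝔫 :=
  H429.leaf07_429 K (T1.t1Out K) 𝔫 h𝔫 (pairDefinite_closed K 𝔫 h𝔫) (convCusp_closed K 𝔫 h𝔫)

/-- **THE STATE OF TOWER T2**: the discreteness of the cuspidal spectrum from the ONE open
estimate `GPSCore` at the level `𝔫` (leaf T2.03). -/
theorem cuspSpec_of_core (K : Type) [Field K] [NumberField K] (𝔫 : Ideal (𝓞 K)) (h𝔫 : 𝔫 ≠ ⊥)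
    (hCore : GPSCore K 𝔫) : CuspSpec K 𝔫 :=
  cuspSpec_of_two K 𝔫 h𝔫 hCore (ops_closed K 𝔫 h𝔫)

/-- THE estimate (UNCONDITIONAL). -/
theorem gpsCore_closed (K : Type) [Field K] [NumberField K] (𝔫 : Ideal (𝓞 K)) (h𝔫 : 𝔫 ≠ ⊥) :
    GPSCore K 𝔫 :=
  H386.leaf03_386 K (T1.t1Out K) 𝔫 h𝔫

/-- **TOWER T2 IS CLOSED**: the cuspidal spectrum of level `U(𝔫)` is discrete, with an
orthonormal complete family of joint eigen-cusp-functions, for every number field `K` and every
level `𝔫 ≠ 0`.  UNCONDITIONAL. -/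
theorem cuspSpec_closed (K : Type) [Field K] [NumberField K] (𝔫 : Ideal (𝓞 K)) (h𝔫 : 𝔫 ≠ ⊥) :
    CuspSpec K 𝔫 :=
  cuspSpec_of_core K 𝔫 h𝔫 (gpsCore_closed K 𝔫 h𝔫)

/-- **TOWER T2 IS CLOSED**: the estimates.  UNCONDITIONAL. -/
theorem estimates_closed (K : Type) [Field K] [NumberField K] (𝔫 : Ideal (𝓞 K)) (h𝔫 : 𝔫 ≠ ⊥) :
    FrameExists K ∧ PairDefinite K 𝔫 ∧ ConvCusp K 𝔫 ∧ GPSCore K 𝔫 ∧ GPS K 𝔫 ∧ HSBound K 𝔫 ∧
      ConvRegular K 𝔫 ∧ GPSKill K 𝔫 ∧ HSKill K 𝔫 :=
  gps_of_T1 K (T1.t1Out K) 𝔫 h𝔫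

/-- **The estimates of the class of T5 are CLOSED.**  UNCONDITIONAL: for every number field `K`,
every level `𝔫 ≠ 0` and every `K_∞`-type `τ`; in particular `GPSKillT` and `HSKillT`
(= `EK_HilbertSchmidt` of the T5 interface). -/
theorem estimatesT_closed (K : Type) [Field K] [NumberField K] (𝔫 : Ideal (𝓞 K)) (τ : G K → ℂ)
    (h𝔫 : 𝔫 ≠ ⊥) (hτ : IsKType τ) :
    FrameRExists K ∧ PairDefiniteT K 𝔫 τ ∧ ConvCuspT K 𝔫 τ ∧ GPSCoreT K 𝔫 τ ∧ GPST K 𝔫 τ ∧
      HSBoundT K 𝔫 τ ∧ ConvRegularT K 𝔫 τ ∧ GPSKillT K 𝔫 τ ∧ HSKillT K 𝔫 τ :=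
  gpsT_of_T1 K (T1.t1Out K) 𝔫 τ h𝔫 hτ

/-- The approximate identity of the class of T5 (UNCONDITIONAL). -/
theorem approxIdT_closed (K : Type) [Field K] [NumberField K] (𝔫 : Ideal (𝓞 K)) (τ : G K → ℂ)
    (h𝔫 : 𝔫 ≠ ⊥) (hτ : IsKType τ) : ApproxIdT K 𝔫 τ :=
  H354.leafT06_h354 K (T1.t1Out K) 𝔫 τ h𝔫 hτ (pairDefiniteT_closed K 𝔫 τ h𝔫 hτ)
    (convCuspT_closed K 𝔫 τ h𝔫 hτ)

/-- The discreteness of the cuspidal spectrum of the class of T5 from the ONE open leaf of the
class, the operator package `OpsGoodT`, `OpsAdjT` (T2.27). -/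
theorem cuspSpecT_of_ops (K : Type) [Field K] [NumberField K] (𝔫 : Ideal (𝓞 K)) (τ : G K → ℂ)
    (h𝔫 : 𝔫 ≠ ⊥) (hτ : IsKType τ) (hO : OpsGoodT K 𝔫 τ ∧ OpsAdjT K 𝔫 τ) : CuspSpecT K 𝔫 τ := by
  have hE := estimatesT_closed K 𝔫 τ h𝔫 hτ
  exact H560.leafT09_560 K (T1.t1Out K) H781.leaf08_781 𝔫 τ h𝔫 hτ hE.2.1 hE.2.2.1
    hE.2.2.2.2.2.1 hE.2.2.2.2.2.2.1 (approxIdT_closed K 𝔫 τ h𝔫 hτ) hO.1 hO.2

/-- The discreteness of the cuspidal spectrum from the three open Props at ONE level. -/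
theorem cuspSpec_of_three (K : Type) [Field K] [NumberField K] (𝔫 : Ideal (𝓞 K)) (h𝔫 : 𝔫 ≠ ⊥)
    (hC : ConvCusp K 𝔫) (hCore : GPSCore K 𝔫) (hO : OpsGood K 𝔫 ∧ OpsAdj K 𝔫) :
    CuspSpec K 𝔫 := by
  have hT1 := T1.t1Out K
  have hP := pairDefinite_closed K 𝔫 h𝔫
  have hE := estimates_uncond K 𝔫 h𝔫 hCore
  exact H566.leaf09_566 hT1 H781.leaf08_781 𝔫 h𝔫 hP hC hE.2.2.1 (hE.2.2.2.2 hC)
    (approxId_of K 𝔫 h𝔫 hC) hO.1 hO.2

/-- The discreteness of the cuspidal spectrum of the class of T5 from the open leaves of the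
class ALONE. -/
theorem cuspSpecT_uncond (K : Type) [Field K] [NumberField K] (h : OpenT K) (𝔫 : Ideal (𝓞 K))
    (τ : G K → ℂ) (h𝔫 : 𝔫 ≠ ⊥) (hτ : IsKType τ) : CuspSpecT K 𝔫 τ :=
  cuspSpecT_of_open K h (T1.t1Out K) 𝔫 τ h𝔫 hτ

/-- The Hilbert--Schmidt bound of the T5 interface from the open leaves of the class ALONE. -/
theorem hsKillT_uncond (K : Type) [Field K] [NumberField K] (h : OpenT K) (𝔫 : Ideal (𝓞 K))
    (τ : G K → ℂ) (h𝔫 : 𝔫 ≠ ⊥) (hτ : IsKType τ) : HSKillT K 𝔫 τ :=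
  hsKillT_of_open K h (T1.t1Out K) 𝔫 τ h𝔫 hτ

/-- Both classes from the open leaves of the class of T5 ALONE. -/
theorem cuspSpec_of_openT_uncond (K : Type) [Field K] [NumberField K] (h : OpenT K)
    (𝔫 : Ideal (𝓞 K)) (h𝔫 : 𝔫 ≠ ⊥) : CuspSpec K 𝔫 :=
  cuspSpec_of_openT K h (T1.t1Out K) 𝔫 h𝔫

/-- The operator package of the class of T5 (UNCONDITIONAL, leaf T2.27): `OpsGoodT` and
`OpsAdjT` for every number field, every level `𝔫 ≠ 0` and every `K_∞`-type `τ`. -/
theorem opsT_closed (K : Type) [Field K] [NumberField K] (𝔫 : Ideal (𝓞 K)) (τ : G K → ℂ)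
    (h𝔫 : 𝔫 ≠ ⊥) (hτ : IsKType τ) : OpsGoodT K 𝔫 τ ∧ OpsAdjT K 𝔫 τ :=
  opsT_of_T1 K (T1.t1Out K) 𝔫 τ h𝔫 hτ

/-- **THE CLASS OF T5 IS CLOSED**: the cuspidal spectrum of level `U(𝔫)`, `K_∞`-type `τ` and
ray generator `r` is discrete, with an orthonormal basis of joint eigenfunctions of the
operators of `IsOpT`.  UNCONDITIONAL: for every number field `K`, every level `𝔫 ≠ 0` and every
`K_∞`-type `τ`. -/
theorem cuspSpecT_closed (K : Type) [Field K] [NumberField K] (𝔫 : Ideal (𝓞 K)) (τ : G K → ℂ)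
    (h𝔫 : 𝔫 ≠ ⊥) (hτ : IsKType τ) : CuspSpecT K 𝔫 τ :=
  cuspSpecT_of_T1 K (T1.t1Out K) 𝔫 τ h𝔫 hτ

/-- The whole class of T5 in one statement (UNCONDITIONAL): the estimates, the approximate
identity, the operator package and the discreteness of the cuspidal spectrum. -/
theorem towerT_closed (K : Type) [Field K] [NumberField K] (𝔫 : Ideal (𝓞 K)) (τ : G K → ℂ)
    (h𝔫 : 𝔫 ≠ ⊥) (hτ : IsKType τ) :
    (FrameRExists K ∧ PairDefiniteT K 𝔫 τ ∧ ConvCuspT K 𝔫 τ ∧ GPSCoreT K 𝔫 τ ∧ GPST K 𝔫 τ ∧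
      HSBoundT K 𝔫 τ ∧ ConvRegularT K 𝔫 τ ∧ GPSKillT K 𝔫 τ ∧ HSKillT K 𝔫 τ) ∧
      ApproxIdT K 𝔫 τ ∧ (OpsGoodT K 𝔫 τ ∧ OpsAdjT K 𝔫 τ) ∧ CuspSpecT K 𝔫 τ :=
  ⟨estimatesT_closed K 𝔫 τ h𝔫 hτ, approxIdT_closed K 𝔫 τ h𝔫 hτ, opsT_closed K 𝔫 τ h𝔫 hτ,
    cuspSpecT_closed K 𝔫 τ h𝔫 hτ⟩

end Fermat.Agent.LT.T2

end
-- ===== PACK-END LT/T2/Uncond.lean

-- ===== PACK-BEGIN LT/T7/H413/StfQ.lean
section



/-!
# Row LT, tower T7, node T7.L2Q.3 `SpecDownQC`, leaf T7.L2Q.3.1 `SDQ140.StfQC` (helper413)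

OFF-MAIN, never land.  Registry row 2286.  PLUG of the closed tower T5.

`SDQ140.StfQC n` (frozen in `LT/T7/H140/SpecDownQSpec.lean`, helper140@26e3e6c54, sha256 7aa829b7)
is the trace identity `T5.STFsigma` over `ℚ` for `σ = id`, the `K_∞`-type of `n`
(`w0` = trivial type, `w1` = weight one) and every level `𝔫 ≠ 0`.  The closed tower T5
(`LT/T5/Closed.lean` v9, helper32@5a6a5cf2e) proves `T5.closed_stf` for EVERY number field, every
adelic automorphism, every level `𝔫 ≠ 0` and every function `τ`; the leaf is its instance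
`K = ℚ`, `s = AdelicAut.id ℚ`, `τ = n.type`.

    stfQC413 : ∀ n : L2Q.QWt, SDQ140.StfQC n          (VERBATIM, UNCONDITIONAL)
-/

set_option autoImplicit false

namespace Fermat.Agent.LT.T7.H413

open Fermat.Agent.LT Fermat.Agent.LT.T7

/-- **Leaf T7.L2Q.3.1 = SDQ.1** (`SDQ140.StfQC n`, VERBATIM): the trace identity of tower T5 over
`ℚ` for `σ = id`, the `K_∞`-type of `n`, every level `𝔫 ≠ 0`. -/
theorem stfQC413 (n : L2Q.QWt) : SDQ140.StfQC n :=
  fun 𝔫 h𝔫 => T5.closed_stf (T5.AdelicAut.id ℚ) 𝔫 n.type h𝔫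

/-- The same for the two types at once (the form used by `SDQ140.specDownQC_of140`). -/
theorem stfQC_all413 : ∀ n : L2Q.QWt, SDQ140.StfQC n := stfQC413

end Fermat.Agent.LT.T7.H413

end
-- ===== PACK-END LT/T7/H413/StfQ.lean

-- ===== PACK-BEGIN LT/T7/H140/SpecDownQPlug.lean
section
























/-!
# Row LT, tower T7, quadratic step, registry row 2153 = NODE `L2Q.SpecDownQC`:
# the INTEGRATION of the delivered leaves (helper140)

OFF-MAIN.  Additive, new names only (suffix `140`), no definition, no hole, nothing assumed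
except the ONE node which is still open.

`specDownQC_of_v2basis140 : (∀ n, WBQ341.V2BasisQC341 n) → ∀ F, L2Q.SpecDownQC F`.

Plugged (each one VERBATIM, by the theorem of its owner; this file compiles = the check):

* level 1 (`H140/SpecDownQSpec.lean`): `StfQC` = `H413.stfQC_all413`; `SD534.IwSysC ℚ` =
  `H510.iwSysC_h510 ℚ`; `SphFormQC` = `SphQ729.sphFormQC729` on `T6.H888.archClassC_closed888`;
  `BCDataQC` = `H476.bcDataQC476`; `BCUnitQC` = `H69.bcUnitQC69`; `RealQC` = `H587.realQC587`;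
  `RealWtOneC` = `H190.realWtOneC190`; `T6.Inf.UpUnitaryC` = `T6.Inf.H502.upUnitaryC502`;
  `T6.Inf.SphValuesC` = `T6.Inf.H19.sphValuesC19`; `T6.Inf.Sph0ParamC` =
  `T6.Inf.H19.sph0ParamC19`;
* level 2 (`H140/DownBasisQSpec.lean`): `CuspFormQC` = `H122.cuspFormQC122`; `WSubQC` =
  `H250.wSubQC250`; `OpsClassQC` = `H802.opsClassQC802`; `SD534.SchurSeqC` =
  `H228.schurSeqC228`; `RegParamFnQC` = `H16.regParamFnQC16`; `SubSeqQC` = `H886.subSeqQC886`;
* level 3 (`H341/WBasisQSpec.lean`, the cut of record of the node `WBasisQC`, helper341):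
  `V2SubQC341` = `H157.v2SubQC157`; `IwProjQC341` = `H247.iwProjQC247`; `SD534.ProjBasisC` =
  `H582.projBasisC582`; assembly `WBQ341.wBasisQC_of341`.

STILL OPEN: the node `WBQ341.V2BasisQC341 n` (registry row 2445).
-/

set_option autoImplicit false

namespace Fermat.Agent.LT.T7.SDQ140

open Fermat.Agent.LT

/-- The node `WBasisQC n` from the ONE node which is still open. -/
theorem wBasisQC_of_v2basis140 (n : L2Q.QWt) (hV2B : WBQ341.V2BasisQC341 n) : WBasisQC n :=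
  WBQ341.wBasisQC_of341 n (H122.cuspFormQC122 n) (H250.wSubQC250 n) (H157.v2SubQC157 n) hV2B
    (H247.iwProjQC247 n) H582.projBasisC582

/-- The node `DownBasisQC F n` from the ONE node which is still open. -/
theorem downBasisQC_of_v2basis140 (F : Type) [Field F] [NumberField F] (n : L2Q.QWt)
    (hV2B : WBQ341.V2BasisQC341 n) : DownBasisQC F n :=
  downBasisQC_of140 n (H122.cuspFormQC122 n) (H250.wSubQC250 n) (H802.opsClassQC802 n)
    (wBasisQC_of_v2basis140 n hV2B) H228.schurSeqC228 (H16.regParamFnQC16 n)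
    (H886.subSeqQC886 n)

/-- **Registry row 2153, `L2Q.SpecDownQC F`, from the ONE node which is still open.** -/
theorem specDownQC_of_v2basis140 (hV2B : ∀ n : L2Q.QWt, WBQ341.V2BasisQC341 n)
    (F : Type) [Field F] [NumberField F] : L2Q.SpecDownQC F :=
  specDownQC_of140 H413.stfQC_all413 (H510.iwSysC_h510 ℚ)
    (SphQ729.sphFormQC729 T6.H888.archClassC_closed888)
    (fun n => H476.bcDataQC476 F n) (fun n => H69.bcUnitQC69 F n) H587.realQC587
    T6.Inf.H502.upUnitaryC502 T6.Inf.H19.sphValuesC19 T6.Inf.H19.sph0ParamC19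
    H190.realWtOneC190 (fun n => downBasisQC_of_v2basis140 F n (hV2B n))

end Fermat.Agent.LT.T7.SDQ140

end
-- ===== PACK-END LT/T7/H140/SpecDownQPlug.lean

-- ===== PACK-BEGIN LT/T7/H454/ClassLin.lean
section





/-!
# Row LT, tower T7, node T7.L2.2.N, leaf S2 `ClassLinC` (helper454)

OFF-MAIN.  No `sorry`, nothing assumed.  Spec: `T7/H963/Simple.lean` (sha256 1da7252d, helper963),
byte-identical copy.  Assets (byte-identical copies): `T2/H886/CuspAlg.lean` (cuspidality is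
additive: the fundamental domains of `K` in `𝔸_K` have finite measure), `T2/H472/LocCont.lean`
(a family supported at an infinite place with continuous components is continuous).

    classLinC454 (K) : H963.ClassLinC K

The class `IsEigFn 𝔫 r l o · C` is stable under sums and scalar multiples: every condition is a
linear identity; the two integrals (constant term, sphere mean) are additive because the
integrands are continuous (and bounded, on a set of finite measure, for the constant term).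
-/

set_option autoImplicit false

open IsDedekindDomain NumberField MeasureTheory

noncomputable section

namespace Fermat.Agent.LT.T7.H454

open Fermat.Agent.LT.H556 Fermat.Agent.LT.H556.A0 Fermat.Agent.LT Fermat.Agent.LT.T7

variable {K : Type} [Field K] [NumberField K]

/-! ## 1. The sphere mean is linear on the continuous functions -/

/-- The entries of `rotZ α * rotY β * torus d` are continuous in `(α, β)`. -/
theorem continuous_sphere_entry454 (d : ℝ) (i j : Fin 2) :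
    Continuous fun p : ℝ × ℝ => (rotZ p.1 * rotY p.2 * torus d) i j := by
  have h1 : Continuous fun p : ℝ × ℝ => rotZ p.1 := by
    unfold rotZ
    apply continuous_matrix
    intro i j
    fin_cases i <;> fin_cases j <;> simp <;> fun_prop
  have h2 : Continuous fun p : ℝ × ℝ => rotY p.2 := by
    unfold rotY
    apply continuous_matrix
    intro i j
    fin_cases i <;> fin_cases j <;> simp <;> fun_prop
  have h3 : Continuous fun p : ℝ × ℝ => rotZ p.1 * rotY p.2 * torus d :=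
    (h1.matrix_mul h2).matrix_mul continuous_const
  exact h3.matrix_elem i j

/-- The parametrisation of a sphere is continuous. -/
theorem continuous_sphere454 {w : InfinitePlace K} {d : ℝ} {Y : ℝ → ℝ → G K}
    (hY : ∀ α β : ℝ, IsLocalAtInf w (Y α β) ∧ infComp w (Y α β) = rotZ α * rotY β * torus d) :
    Continuous fun p : ℝ × ℝ => Y p.1 p.2 := by
  apply T2.H472.locCont472 K w (ℝ × ℝ) (fun p : ℝ × ℝ => Y p.1 p.2) (fun p => (hY p.1 p.2).1)
  intro i j
  have : (fun p : ℝ × ℝ => infComp w (Y p.1 p.2) i j)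
      = fun p : ℝ × ℝ => (rotZ p.1 * rotY p.2 * torus d) i j := by
    funext p
    rw [(hY p.1 p.2).2]
  rw [this]
  exact continuous_sphere_entry454 d i j

/-- The integrand of the sphere mean is continuous in `(α, β)`. -/
theorem continuous_sphere_integrand454 {Y : ℝ → ℝ → G K}
    (hY : Continuous fun p : ℝ × ℝ => Y p.1 p.2) {φ : G K → ℂ} (hφ : Continuous φ) (g : G K) :
    Continuous (Function.uncurry fun α β : ℝ => φ (g * Y α β) * ((Real.sin β : ℝ) : ℂ)) := by
  have h1 : Continuous fun p : ℝ × ℝ => φ (g * Y p.1 p.2) :=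
    hφ.comp (continuous_const.mul hY)
  have h2 : Continuous fun p : ℝ × ℝ => ((Real.sin p.2 : ℝ) : ℂ) := by fun_prop
  exact h1.mul h2

/-- The sphere mean is additive on the continuous functions. -/
theorem sphere_add454 {Y : ℝ → ℝ → G K} (hY : Continuous fun p : ℝ × ℝ => Y p.1 p.2)
    {φ ψ : G K → ℂ} (hφ : Continuous φ) (hψ : Continuous ψ) (g : G K) :
    (∫ α in (0 : ℝ)..(2 * Real.pi), ∫ β in (0 : ℝ)..Real.pi,
        (φ (g * Y α β) + ψ (g * Y α β)) * ((Real.sin β : ℝ) : ℂ))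
      = (∫ α in (0 : ℝ)..(2 * Real.pi), ∫ β in (0 : ℝ)..Real.pi,
          φ (g * Y α β) * ((Real.sin β : ℝ) : ℂ))
        + ∫ α in (0 : ℝ)..(2 * Real.pi), ∫ β in (0 : ℝ)..Real.pi,
          ψ (g * Y α β) * ((Real.sin β : ℝ) : ℂ) := by
  have hcφ := continuous_sphere_integrand454 hY hφ g
  have hcψ := continuous_sphere_integrand454 hY hψ g
  obtain ⟨Fφ, hFφ⟩ : ∃ F : ℝ → ℝ → ℂ,
      F = fun α β : ℝ => φ (g * Y α β) * ((Real.sin β : ℝ) : ℂ) := ⟨_, rfl⟩
  obtain ⟨Fψ, hFψ⟩ : ∃ F : ℝ → ℝ → ℂ,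
      F = fun α β : ℝ => ψ (g * Y α β) * ((Real.sin β : ℝ) : ℂ) := ⟨_, rfl⟩
  rw [← hFφ] at hcφ
  rw [← hFψ] at hcψ
  have e1 : (∫ α in (0 : ℝ)..(2 * Real.pi), ∫ β in (0 : ℝ)..Real.pi,
        (φ (g * Y α β) + ψ (g * Y α β)) * ((Real.sin β : ℝ) : ℂ))
      = ∫ α in (0 : ℝ)..(2 * Real.pi), ∫ β in (0 : ℝ)..Real.pi, (Fφ α β + Fψ α β) := by
    rw [hFφ, hFψ]
    congr 1
    funext α
    congr 1
    funext β
    ring
  have e2 : (∫ α in (0 : ℝ)..(2 * Real.pi), ∫ β in (0 : ℝ)..Real.pi,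
        φ (g * Y α β) * ((Real.sin β : ℝ) : ℂ))
      = ∫ α in (0 : ℝ)..(2 * Real.pi), ∫ β in (0 : ℝ)..Real.pi, Fφ α β := by
    rw [hFφ]
  have e3 : (∫ α in (0 : ℝ)..(2 * Real.pi), ∫ β in (0 : ℝ)..Real.pi,
        ψ (g * Y α β) * ((Real.sin β : ℝ) : ℂ))
      = ∫ α in (0 : ℝ)..(2 * Real.pi), ∫ β in (0 : ℝ)..Real.pi, Fψ α β := by
    rw [hFψ]
  rw [e1, e2, e3]
  have hin : ∀ α : ℝ, (∫ β in (0 : ℝ)..Real.pi, (Fφ α β + Fψ α β))
      = (∫ β in (0 : ℝ)..Real.pi, Fφ α β) + ∫ β in (0 : ℝ)..Real.pi, Fψ α β := by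
    intro α
    have c1 : Continuous fun β : ℝ => Fφ α β := hcφ.comp (Continuous.prodMk_right α)
    have c2 : Continuous fun β : ℝ => Fψ α β := hcψ.comp (Continuous.prodMk_right α)
    exact intervalIntegral.integral_add (c1.intervalIntegrable 0 Real.pi)
      (c2.intervalIntegrable 0 Real.pi)
  have hin' : (fun α : ℝ => ∫ β in (0 : ℝ)..Real.pi, (Fφ α β + Fψ α β))
      = fun α : ℝ => (∫ β in (0 : ℝ)..Real.pi, Fφ α β) + ∫ β in (0 : ℝ)..Real.pi, Fψ α β :=
    funext hin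
  rw [hin']
  have hoφ : Continuous fun α : ℝ => ∫ β in (0 : ℝ)..Real.pi, Fφ α β :=
    intervalIntegral.continuous_parametric_intervalIntegral_of_continuous' hcφ 0 Real.pi
  have hoψ : Continuous fun α : ℝ => ∫ β in (0 : ℝ)..Real.pi, Fψ α β :=
    intervalIntegral.continuous_parametric_intervalIntegral_of_continuous' hcψ 0 Real.pi
  exact intervalIntegral.integral_add (hoφ.intervalIntegrable 0 (2 * Real.pi))
    (hoψ.intervalIntegrable 0 (2 * Real.pi))

/-- The sphere mean is homogeneous. -/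
theorem sphere_smul454 (Y : ℝ → ℝ → G K) (c : ℂ) (φ : G K → ℂ) (g : G K) :
    (∫ α in (0 : ℝ)..(2 * Real.pi), ∫ β in (0 : ℝ)..Real.pi,
        (c * φ (g * Y α β)) * ((Real.sin β : ℝ) : ℂ))
      = c * ∫ α in (0 : ℝ)..(2 * Real.pi), ∫ β in (0 : ℝ)..Real.pi,
          φ (g * Y α β) * ((Real.sin β : ℝ) : ℂ) := by
  rw [← intervalIntegral.integral_const_mul]
  congr 1
  funext α
  rw [← intervalIntegral.integral_const_mul]
  congr 1
  funext β
  ring

/-! ## 2. The conditions, one at a time -/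

theorem meanEig_add454 {ψ ψ' : G K → ℂ} (hψ : Continuous ψ) (hψ' : Continuous ψ')
    {w : InfinitePlace K} {m : ℝ → ℂ} (h : MeanEig ψ w m) (h' : MeanEig ψ' w m) :
    MeanEig (fun x => ψ x + ψ' x) w m := by
  intro d hd Y hY g
  have hYc := continuous_sphere454 hY
  show (∫ α in (0 : ℝ)..(2 * Real.pi), ∫ β in (0 : ℝ)..Real.pi,
        (ψ (g * Y α β) + ψ' (g * Y α β)) * ((Real.sin β : ℝ) : ℂ)) = m d * (ψ g + ψ' g)
  rw [sphere_add454 hYc hψ hψ' g, h d hd Y hY g, h' d hd Y hY g, mul_add]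

theorem meanEig_smul454 (c : ℂ) {ψ : G K → ℂ} {w : InfinitePlace K} {m : ℝ → ℂ}
    (h : MeanEig ψ w m) : MeanEig (fun x => c * ψ x) w m := by
  intro d hd Y hY g
  show (∫ α in (0 : ℝ)..(2 * Real.pi), ∫ β in (0 : ℝ)..Real.pi,
        (c * ψ (g * Y α β)) * ((Real.sin β : ℝ) : ℂ)) = m d * (c * ψ g)
  rw [sphere_smul454 Y c ψ g, h d hd Y hY g, mul_left_comm]

theorem heckeEigen_add454 {ψ ψ' : G K → ℂ} {v : HeightOneSpectrum (𝓞 K)} {a b : ℂ}
    (h : IsHeckeEigenAt ψ v a b) (h' : IsHeckeEigenAt ψ' v a b) :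
    IsHeckeEigenAt (fun x => ψ x + ψ' x) v a b := by
  refine ⟨fun H hH g => ?_, fun z hz g => ?_⟩
  · show ∑ x ∈ H, (ψ (g * x) + ψ' (g * x)) = _ * a * (ψ g + ψ' g)
    rw [Finset.sum_add_distrib, h.1 H hH g, h'.1 H hH g, mul_add]
  · show ψ (g * z) + ψ' (g * z) = b * (ψ g + ψ' g)
    rw [h.2 z hz g, h'.2 z hz g, mul_add]

theorem heckeEigen_smul454 (c : ℂ) {ψ : G K → ℂ} {v : HeightOneSpectrum (𝓞 K)} {a b : ℂ}
    (h : IsHeckeEigenAt ψ v a b) : IsHeckeEigenAt (fun x => c * ψ x) v a b := by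
  refine ⟨fun H hH g => ?_, fun z hz g => ?_⟩
  · show ∑ x ∈ H, c * ψ (g * x) = _ * a * (c * ψ g)
    rw [← Finset.mul_sum, h.1 H hH g, mul_left_comm]
  · show c * ψ (g * z) = b * (c * ψ g)
    rw [h.2 z hz g, mul_left_comm]

theorem isAutomorphicFn_add454 {𝔫 : Ideal (𝓞 K)} {τ : G K → ℂ} {r : G K} {ψ ψ' : G K → ℂ}
    (h : T5.IsAutomorphicFn 𝔫 τ r ψ) (h' : T5.IsAutomorphicFn 𝔫 τ r ψ') :
    T5.IsAutomorphicFn 𝔫 τ r (fun x => ψ x + ψ' x) where
  left_inv := fun γ g => by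
    show ψ (T5.ratG γ * g) + ψ' (T5.ratG γ * g) = ψ g + ψ' g
    rw [h.left_inv γ g, h'.left_inv γ g]
  level_inv := fun u hu g => by
    show ψ (g * u) + ψ' (g * u) = ψ g + ψ' g
    rw [h.level_inv u hu g, h'.level_inv u hu g]
  arch_compact := fun w k hk g => by
    show ψ (g * k) + ψ' (g * k) = τ k * (ψ g + ψ' g)
    rw [h.arch_compact w k hk g, h'.arch_compact w k hk g, mul_add]
  ray := fun g => by
    show ψ (g * r) + ψ' (g * r) = ψ g + ψ' g
    rw [h.ray g, h'.ray g]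

theorem isAutomorphicFn_smul454 (c : ℂ) {𝔫 : Ideal (𝓞 K)} {τ : G K → ℂ} {r : G K}
    {ψ : G K → ℂ} (h : T5.IsAutomorphicFn 𝔫 τ r ψ) :
    T5.IsAutomorphicFn 𝔫 τ r (fun x => c * ψ x) where
  left_inv := fun γ g => by
    show c * ψ (T5.ratG γ * g) = c * ψ g
    rw [h.left_inv γ g]
  level_inv := fun u hu g => by
    show c * ψ (g * u) = c * ψ g
    rw [h.level_inv u hu g]
  arch_compact := fun w k hk g => by
    show c * ψ (g * k) = τ k * (c * ψ g)
    rw [h.arch_compact w k hk g, mul_left_comm]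
  ray := fun g => by
    show c * ψ (g * r) = c * ψ g
    rw [h.ray g]

theorem isCuspFn_add454 {𝔫 : Ideal (𝓞 K)} {τ : G K → ℂ} {r : G K} {ψ ψ' : G K → ℂ}
    (h : T5.IsCuspFn 𝔫 τ r ψ) (h' : T5.IsCuspFn 𝔫 τ r ψ') :
    T5.IsCuspFn 𝔫 τ r (fun x => ψ x + ψ' x) := by
  obtain ⟨C, hC⟩ := h.bdd
  obtain ⟨C', hC'⟩ := h'.bdd
  refine ⟨h.cont.add h'.cont, ⟨C + C', fun g => ?_⟩, isAutomorphicFn_add454 h.aut h'.aut, ?_⟩
  · exact (norm_add_le _ _).trans (add_le_add (hC g) (hC' g))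
  · exact T2.H886.isCuspidalFn_add886 h.cont hC h'.cont hC' h.cuspidal h'.cuspidal

theorem isCuspFn_smul454 (c : ℂ) {𝔫 : Ideal (𝓞 K)} {τ : G K → ℂ} {r : G K} {ψ : G K → ℂ}
    (h : T5.IsCuspFn 𝔫 τ r ψ) : T5.IsCuspFn 𝔫 τ r (fun x => c * ψ x) := by
  obtain ⟨C, hC⟩ := h.bdd
  refine ⟨continuous_const.mul h.cont, ⟨‖c‖ * C, fun g => ?_⟩, isAutomorphicFn_smul454 c h.aut,
    T2.H886.isCuspidalFn_const_mul886 c h.cuspidal⟩
  rw [norm_mul]
  exact mul_le_mul_of_nonneg_left (hC g) (norm_nonneg c)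

theorem isWFn_add454 {𝔫 : Ideal (𝓞 K)} {r : G K} {l : ℕ} {o : ℕ → HeightOneSpectrum (𝓞 K)}
    {ψ ψ' : G K → ℂ} (h : IsWFn 𝔫 r l o ψ) (h' : IsWFn 𝔫 r l o ψ') :
    IsWFn 𝔫 r l o (fun x => ψ x + ψ' x) where
  cusp := isCuspFn_add454 h.cusp h'.cusp
  arch_scalar := fun w z hz g => by
    show ψ (g * z) + ψ' (g * z) = ψ g + ψ' g
    rw [h.arch_scalar w z hz g, h'.arch_scalar w z hz g]
  iw := fun k h1 h2 h3 x => by
    show ψ (x * k) + ψ' (x * k) = ψ x + ψ' x
    rw [h.iw k h1 h2 h3 x, h'.iw k h1 h2 h3 x]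

theorem isWFn_smul454 (c : ℂ) {𝔫 : Ideal (𝓞 K)} {r : G K} {l : ℕ}
    {o : ℕ → HeightOneSpectrum (𝓞 K)} {ψ : G K → ℂ} (h : IsWFn 𝔫 r l o ψ) :
    IsWFn 𝔫 r l o (fun x => c * ψ x) where
  cusp := isCuspFn_smul454 c h.cusp
  arch_scalar := fun w z hz g => by
    show c * ψ (g * z) = c * ψ g
    rw [h.arch_scalar w z hz g]
  iw := fun k h1 h2 h3 x => by
    show c * ψ (x * k) = c * ψ x
    rw [h.iw k h1 h2 h3 x]

/-! ## 3. The leaf -/

/-- **LEAF T7.L2.2.N.S2: the class is stable under sums and scalar multiples.** -/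
theorem classLinC454 (K : Type) [Field K] [NumberField K] :
    Fermat.Agent.LT.T7.H963.ClassLinC K := by
  intro 𝔫 r l o C
  refine ⟨fun ψ ψ' h h' => ?_, fun c ψ h => ?_⟩
  · exact ⟨isWFn_add454 h.inv h'.inv, fun v hv => heckeEigen_add454 (h.hecke v hv) (h'.hecke v hv),
      fun w => meanEig_add454 h.inv.cusp.cont h'.inv.cusp.cont (h.mean w) (h'.mean w)⟩
  · exact ⟨isWFn_smul454 c h.inv, fun v hv => heckeEigen_smul454 c (h.hecke v hv),
      fun w => meanEig_smul454 c (h.mean w)⟩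

end Fermat.Agent.LT.T7.H454

end
end
-- ===== PACK-END LT/T7/H454/ClassLin.lean

-- ===== PACK-BEGIN LT/T7/H228/AvgMatch.lean
section




/-!
# Row LT, tower T7, node T7.L2.1 `SupplySC`, leaf T7.L2.1.H1b `AvgMatchC893` (helper228, SPARE)

OFF-MAIN.  `avgMatchC228 K K' : H893.AvgMatchC893 K K'`, VERBATIM vs helper893
`SupplyConstrSpec.lean` (sha256 feb0f69771ab), UNCONDITIONAL: `T7.IsGlobMatch` is closed under
averages over a compact parameter space with a finite measure.  The proof is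
`isGlobMatch_avg228` (`AvgGlob.lean`; v2 of this file: the core moved there, so that the mirror
over `ℚ`, `CQ801.AvgMatchQC801`, is the same proof, `AvgMatchQ.lean`).
-/

set_option autoImplicit false

open AutomorphicForm IsDedekindDomain NumberField MeasureTheory

noncomputable section

namespace Fermat.Agent.LT.T7.H228

open Fermat.Agent.LT Fermat.Agent.LT.H556 Fermat.Agent.LT.H556.A0 Fermat.Agent.LT.T7
open Fermat.Agent.LT.T7.H893

attribute [local instance] Fermat.Agent.LT.T5.instMeasurableSpaceG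

variable (K K' : Type) [Field K] [NumberField K] [Field K'] [NumberField K'] [Algebra K K']

/-- **LEAF T7.L2.1.H1b = AVG-MATCH**, VERBATIM and UNCONDITIONAL. -/
theorem avgMatchC228 : AvgMatchC893 K K' := by
  intro D hD _ _ _ Ω iT iC iT2 iS iM iB ν iF φs fs _ _ hφc hfc hφs hfs hmatch
  exact isGlobMatch_avg228 D hD Ω ν φs fs hφc hfc hφs hfs hmatch

end Fermat.Agent.LT.T7.H228

end

end
-- ===== PACK-END LT/T7/H228/AvgMatch.lean

-- ===== PACK-BEGIN LT/T7/B981/BaseSpec.lean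
section



/-!
# Row LT, tower T7, node T7.L2.1.H2a `BaseC` (sub-architect helper981, registry 2597):
# FIRST CUT -- Spec

OFF-MAIN.  Definitions and frozen Props only (the proved top is `BaseTop.lean`).  No hole,
nothing assumed.  ADDITIVE (new names only, suffix `981`).  Vocabulary: the five cuts of
helper893 (`T7/H893/Supply*Spec.lean`, `SupplyConstrSpec` sha256 feb0f697), `T7/H305/MatchSpec`
(helper305), byte-identical copies.

    baseC_of981 : HaarCplxC981 → LvlC981 K K' → SysC981 K K' → Pair1C981 P K K'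
                    → Pair2C981 P K K' → H893.BaseC P K K'                       (VERBATIM)

## The cut

The pre-data `E : L2Pre K K'` consist of FOUR independent parts, and every field of
`IsL2PreOp`, `IsL2PreSupp`, `IsDecomp893` is about ONE of them:

* the LEVEL `𝔫` with its exponents `(T₀, n, n₀, m)` (`IsLvl981`, `IsExp981`): leaf `LvlC981`
  (`𝔫 = 𝔫₀ ^ d`; the exponents at the places of the level are as large as we like);
* the COSET SYSTEMS `Hg, H', z', H, z` (`IsSys981`): leaf `SysC981` (closed assets: helper593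
  `exists_isDblCosetSystem593`, helper340 / helper701 Iwahori systems);
* the FIRST PAIR `(c₁, Φ₁, F₁)` (`IsPair1_981` + the local shape `LocA893`, constant `1`):
  NODE `Pair1C981`, for EVERY level with `IsLvl981` (no bad element);
* the SECOND PAIR `(c₂, φ₂, f₂)` (`IsPair2_981` + the local shape `LocB893`, constant `a`):
  NODE `Pair2C981`, for the bad element `g`, for every level whose exponents at the places of
  the level are at least a bound `M` depending on `g` (the partners of `1_{U₀ g_w U₀}` at the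
  bad places are bi-invariant under `U(M)`; `T6.BadMatchC` at the base level and the change of
  level of the orbit sums);
* a Haar measure of `GL₂(ℂ)`: leaf `HaarCplxC981` (MATHLIB ONLY); the two pairs are asked for
  EVERY Haar measure `μc` (the archimedean components downstairs are the `μc`-convolution
  products of the components upstairs).

The exponents `(T₀, n, n₀, m)` are determined by the level; the two nodes are asked for ALL
exponents of the level, so that the top can use the same ones in both shapes.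
-/

set_option autoImplicit false

open AutomorphicForm IsDedekindDomain NumberField MeasureTheory
open scoped ComplexConjugate

noncomputable section

namespace Fermat.Agent.LT.T7.B981

open Fermat.Agent.LT.H556 Fermat.Agent.LT.H556.A0 Fermat.Agent.LT.T7
open Fermat.Agent.LT.T7.H305 Fermat.Agent.LT.T7.H893

attribute [local instance] Fermat.Agent.LT.T5.instMeasurableSpaceG

/-! ## 1. The four parts of the pre-data -/

section Parts

variable {K K' : Type} [Field K] [NumberField K] [Field K'] [NumberField K'] [Algebra K K']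

/-- **THE LEVEL**: the four level fields of `IsL2PreOp`. -/
structure IsLvl981 (B : L2Base K K') (𝔫 : Ideal (𝓞 K)) : Prop where
  level_ne : 𝔫 ≠ ⊥
  level_g : upI (K' := K') 𝔫 ≤ B.𝔑₀
  mem_S'_g : ∀ w : HeightOneSpectrum (𝓞 K'), w ∈ B.S' ↔ w.asIdeal ∣ upI (K' := K') 𝔫
  u_level : B.u.asIdeal ∣ 𝔫

/-- **THE EXPONENTS OF THE LEVEL**: the first four clauses of `IsDecomp893`. -/
structure IsExp981 (B : L2Base K K') (𝔫 : Ideal (𝓞 K))
    (T₀ : Finset (HeightOneSpectrum (𝓞 K)))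
    (n n₀ : HeightOneSpectrum (𝓞 K') → ℕ) (m : HeightOneSpectrum (𝓞 K) → ℕ) : Prop where
  mem : ∀ v : HeightOneSpectrum (𝓞 K), v ∈ T₀ ↔ v.asIdeal ∣ 𝔫
  lvl : IsLevelOf893 𝔫 m
  lvl_up : IsLevelOf893 (upI (K' := K') 𝔫) n
  lvl_base : IsLevelOf893 B.𝔑₀ n₀

/-- **THE COSET SYSTEMS**: the five coset fields of `IsL2PreOp`. -/
structure IsSys981 (B : L2Base K K') (g : G K') (Hg H' : Finset (G K')) (z' : G K')
    (H : Finset (G K)) (z : G K) : Prop where
  sysg : IsDblCosetSystem B.𝔑₀ g Hg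
  sys' : IsIwCosetSystem (B.o 0) H'
  unif' : IsScalarUniformizerAt (B.o 0) z'
  sys : IsIwCosetSystem B.u H
  unif : IsScalarUniformizerAt B.u z

/-- **THE FIRST PAIR** `(c₁, Φ₁, F₁)`: the fields `up1_*`, `dn1_*` of `IsL2PreOp` and
`IsL2PreSupp` and the first half of `up_ne` (same statements). -/
structure IsPair1_981 (ℓ : ℕ) (Φ : HeckeEigensystem K' ℂ) (B : L2Base K K')
    (𝔫 : Ideal (𝓞 K)) (c₁ : EigData K' → ℂ) (Φ₁ : List (Gen K') → G K' → ℂ)
    (F₁ : List (Gen K') → G K → ℂ) : Prop where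
  up1_test : ∀ X : List (Gen K'), (∀ x ∈ X, x.Out B.S') →
    T5.IsTestFn (upI (K' := K') 𝔫) T5.trivType (Φ₁ X)
  up1_ek : ∀ X : List (Gen K'), (∀ x ∈ X, x.Out B.S') →
    T5.IsEK B.R'.μ (Φ₁ X) ∧ T5.IsEK B.R'.μ (T5.adjointFn (Φ₁ X))
  up1_op : ∀ X : List (Gen K'), (∀ x ∈ X, x.Out B.S') →
    ∀ (χ : G K' → ℂ) (C : EigData K'), IsEigFn B.𝔑₀ B.R'.r ℓ B.o χ C →
      ∀ x : G K', T5.Rconv B.R'.μ (Φ₁ X) χ x = wordEv X C * c₁ C * χ x
  up1_ne : ∀ C : EigData K', C.AgreeOut B.S' (eigOf Φ) → c₁ C ≠ 0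
  dn1_test : ∀ X : List (Gen K'), (∀ x ∈ X, x.Out B.S') →
    T5.IsTestFn 𝔫 T5.trivType (F₁ X)
  dn1_ek : ∀ X : List (Gen K'), (∀ x ∈ X, x.Out B.S') →
    T5.IsEK B.R.μ (F₁ X) ∧ T5.IsEK B.R.μ (T5.adjointFn (F₁ X))
  dn1_op : ∀ X : List (Gen K'), (∀ x ∈ X, x.Out B.S') →
    ∀ (χ : G K → ℂ) (c : EigData K) (C : EigData K'),
      IsEigFn 𝔫 B.R.r 1 (fun _ => B.u) χ c → IsBCData c C B.S' →
      ∀ x : G K, T5.Rconv B.R.μ (F₁ X) χ x = wordEv X C * T5.Rconv B.R.μ (F₁ []) χ x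
  dn1_wfn : ∀ ψ : G K → ℂ, IsWFn 𝔫 B.R.r 1 (fun _ => B.u) ψ →
    IsWFn 𝔫 B.R.r 1 (fun _ => B.u) (T5.Rconv B.R.μ (F₁ []) ψ)
  dn1_class : ∀ (ψ : G K → ℂ) (c : EigData K), IsEigFn 𝔫 B.R.r 1 (fun _ => B.u) ψ c →
    IsEigFn 𝔫 B.R.r 1 (fun _ => B.u) (T5.Rconv B.R.μ (F₁ []) ψ) c
  dn1_comm : ∀ ψ : G K → ℂ, IsWFn 𝔫 B.R.r 1 (fun _ => B.u) ψ →
    ∀ (H : Finset (G K)) (z : G K), IsIwCosetSystem B.u H → IsScalarUniformizerAt B.u z →
      (∀ x : G K, T5.Rconv B.R.μ (F₁ []) (iwOp B.u H ψ) x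
        = iwOp B.u H (T5.Rconv B.R.μ (F₁ []) ψ) x) ∧
      ∀ (k : ℤ) (x : G K), T5.Rconv B.R.μ (F₁ []) (shiftOp z k ψ) x
        = shiftOp z k (T5.Rconv B.R.μ (F₁ []) ψ) x
  up1_supp : ∀ X : List (Gen K'), (∀ x ∈ X, x.Out B.S') →
    ∃ C : Set (G K'), IsCompact C ∧ T5.H32.IsIwSupported32 ℓ B.o C (Φ₁ X)
  dn1_supp : ∀ X : List (Gen K'), (∀ x ∈ X, x.Out B.S') →
    ∃ C : Set (G K), IsCompact C ∧ T5.H32.IsIwSupported32 1 (fun _ => B.u) C (F₁ X)

/-- **THE SECOND PAIR** `(c₂, φ₂, f₂)`: the fields `up2_*`, `dn2_*` of `IsL2PreOp` and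
`IsL2PreSupp` and the second half of `up_ne` (same statements). -/
structure IsPair2_981 (ℓ : ℕ) (Φ : HeckeEigensystem K' ℂ) (B : L2Base K K')
    (𝔫 : Ideal (𝓞 K)) (c₂ : EigData K' → ℂ) (φ₂ : G K' → ℂ) (f₂ : G K → ℂ) : Prop where
  up2_test : T5.IsTestFn (upI (K' := K') 𝔫) T5.trivType φ₂
  up2_ek : T5.IsEK B.R'.μ φ₂ ∧ T5.IsEK B.R'.μ (T5.adjointFn φ₂)
  up2_inv : IsUInv B.𝔑₀ ℓ B.o φ₂
  up2_op : ∀ (ψ : G K' → ℂ) (C : EigData K'), IsEigFn B.𝔑₀ B.R'.r ℓ B.o ψ C →
    ∀ x : G K', T5.Rconv B.R'.μ φ₂ ψ x = c₂ C * ψ x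
  up2_kill : ∀ ψ : G K' → ℂ, T5.IsCuspFn (upI (K' := K') 𝔫) T5.trivType B.R'.r ψ →
    (∀ χ : G K' → ℂ, IsWFn B.𝔑₀ B.R'.r ℓ B.o χ → T5.innerD B.R'.μ B.R'.F ψ χ = 0) →
    ∀ x : G K', T5.Rconv B.R'.μ φ₂ ψ x = 0
  up2_ne : ∀ C : EigData K', C.AgreeOut B.S' (eigOf Φ) → c₂ C ≠ 0
  dn2_test : T5.IsTestFn 𝔫 T5.trivType f₂
  dn2_ek : T5.IsEK B.R.μ f₂ ∧ T5.IsEK B.R.μ (T5.adjointFn f₂)
  dn2_inv : IsUInv 𝔫 1 (fun _ => B.u) f₂
  dn2_wfn : ∀ ψ : G K → ℂ, IsWFn 𝔫 B.R.r 1 (fun _ => B.u) ψ →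
    IsWFn 𝔫 B.R.r 1 (fun _ => B.u) (T5.Rconv B.R.μ f₂ ψ)
  dn2_class : ∀ (ψ : G K → ℂ) (c : EigData K), IsEigFn 𝔫 B.R.r 1 (fun _ => B.u) ψ c →
    IsEigFn 𝔫 B.R.r 1 (fun _ => B.u) (T5.Rconv B.R.μ f₂ ψ) c
  dn2_comm : ∀ ψ : G K → ℂ, IsWFn 𝔫 B.R.r 1 (fun _ => B.u) ψ →
    ∀ (H : Finset (G K)) (z : G K), IsIwCosetSystem B.u H → IsScalarUniformizerAt B.u z →
      (∀ x : G K, T5.Rconv B.R.μ f₂ (iwOp B.u H ψ) x
        = iwOp B.u H (T5.Rconv B.R.μ f₂ ψ) x) ∧
      ∀ (k : ℤ) (x : G K), T5.Rconv B.R.μ f₂ (shiftOp z k ψ) x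
        = shiftOp z k (T5.Rconv B.R.μ f₂ ψ) x
  dn2_kill : ∀ ψ : G K → ℂ, T5.IsCuspFn 𝔫 T5.trivType B.R.r ψ →
    (∀ χ : G K → ℂ, IsWFn 𝔫 B.R.r 1 (fun _ => B.u) χ → T5.innerD B.R.μ B.R.F ψ χ = 0) →
    ∀ x : G K, T5.Rconv B.R.μ f₂ ψ x = 0
  up2_supp : ∃ C : Set (G K'), IsCompact C ∧ T5.H32.IsIwSupported32 ℓ B.o C φ₂
  dn2_supp : ∃ C : Set (G K), IsCompact C ∧ T5.H32.IsIwSupported32 1 (fun _ => B.u) C f₂

end Parts

/-! ## 2. The leaves and the nodes -/

/-- **LEAF T7.L2.1.H2a.0 = HAAR (MATHLIB ONLY).**  `GL₂(ℂ)` (the units of the matrix ring, a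
locally compact second countable group) has a Haar measure on its Borel `σ`-algebra. -/
def HaarCplxC981 : Prop :=
  ∃ μc : @Measure (GL (Fin 2) ℂ) (borel _), @Measure.IsHaarMeasure _ _ _ (borel _) μc

section Nodes

variable (P : EKCond)
variable (K K' : Type) [Field K] [NumberField K] [Field K'] [NumberField K'] [Algebra K K']

/-- **LEAF T7.L2.1.H2a.1 = LEVEL.**  For a common part and every bound `M` there are a level
with the four level properties and exponents `(T₀, n, n₀, m)` of it with `M ≤ m v` at the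
places `v ∈ T₀`.
Proof.  `𝔫₀` of `IsL2Base.base_level` (`𝔑₀ = 𝔫₀ 𝒪_{K'}`, `u ∣ 𝔫₀`), `𝔫 = 𝔫₀ ^ d`, `d = max M 1`:
`𝔫 ≠ ⊥`, `𝔫 𝒪_{K'} = 𝔑₀ ^ d ≤ 𝔑₀`, a prime divides `𝔑₀ ^ d` iff it divides `𝔑₀` (`mem_S'`),
`u ∣ 𝔫`.  Exponents: `m v` = the multiplicity of `v` in `𝔫` (`≥ d` at the prime divisors), the
closure of an ideal in `K_v` is the ball of radius `exp (- m v)` (kit: `idealClosure`, helper981
`T7/H981/FinIndex.lean`, helper305 `GenLvl`); `T₀` = the prime divisors of `𝔫`. -/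
def LvlC981 : Prop :=
  ∀ (ℓ : ℕ) (Φ : HeckeEigensystem K' ℂ) (B : L2Base K K'), IsL2Base ℓ Φ B → ∀ M : ℕ,
    ∃ (𝔫 : Ideal (𝓞 K)) (T₀ : Finset (HeightOneSpectrum (𝓞 K)))
      (n n₀ : HeightOneSpectrum (𝓞 K') → ℕ) (m : HeightOneSpectrum (𝓞 K) → ℕ),
      IsLvl981 B 𝔫 ∧ IsExp981 B 𝔫 T₀ n n₀ m ∧ ∀ v ∈ T₀, M ≤ m v

/-- **LEAF T7.L2.1.H2a.2 = SYSTEMS.**  The coset systems exist.
Proof.  `Hg`: `exists_isDblCosetSystem593` (helper593, `T7/H593/DblSys.lean`; `𝔑₀ ≠ ⊥` from
`base_level`, `g` trivial at infinity); `H'`, `H`: Iwahori coset systems (helper340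
`exists_iwCosetSystem340`, helper701 `exists_iwCosetSystem701`); `z'`, `z`: the idele with a
uniformiser at the place and `1` elsewhere, as a scalar matrix. -/
def SysC981 : Prop :=
  ∀ (ℓ : ℕ) (Φ : HeckeEigensystem K' ℂ) (B : L2Base K K'), IsL2Base ℓ Φ B →
    ∀ g : G K', B.IsBad g →
      ∃ (Hg H' : Finset (G K')) (z' : G K') (H : Finset (G K)) (z : G K),
        IsSys981 B g Hg H' z' H z

/-- **NODE T7.L2.1.H2a.3 = FIRST PAIR** (T3 + Hecke algebra outside `S'` + base change).  For a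
common part which contains the ramified places, EVERY level with the four level properties,
every Haar measure of `GL₂(ℂ)` and all exponents of the level: there are `c₁`, `Φ₁`, `F₁` with
the operator properties and the supports of the first pair and the local shape `LocA893`
(constant `1`).  See the docstring of `H893.BaseC` (construction of `Φ₁ X`, `F₁ X`). -/
def Pair1C981 : Prop :=
  ∀ ℓ : ℕ, IsCycExt K K' ℓ → ℓ ≠ 2 → TotCplx K →
    ∀ Φ : HeckeEigensystem K' ℂ, A0.IsCuspAdelicSph0 K' Φ → ConstOnFibres K Φ → P K' Φ →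
      ∀ B : L2Base K K', IsL2Base ℓ Φ B → B.RamIn →
      ∀ 𝔫 : Ideal (𝓞 K), IsLvl981 B 𝔫 →
      ∀ μc : @Measure (GL (Fin 2) ℂ) (borel _), @Measure.IsHaarMeasure _ _ _ (borel _) μc →
      ∀ (T₀ : Finset (HeightOneSpectrum (𝓞 K)))
        (n n₀ : HeightOneSpectrum (𝓞 K') → ℕ) (m : HeightOneSpectrum (𝓞 K) → ℕ),
        IsExp981 B 𝔫 T₀ n n₀ m →
        ∃ (c₁ : EigData K' → ℂ) (Φ₁ : List (Gen K') → G K' → ℂ)
          (F₁ : List (Gen K') → G K → ℂ),
          IsPair1_981 ℓ Φ B 𝔫 c₁ Φ₁ F₁ ∧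
          ∀ X : List (Gen K'), (∀ x ∈ X, x.Out B.S') →
            IsAvgPure (upI (K' := K') 𝔫) 𝔫 T₀ (LocA893 B 𝔫 μc T₀ n m) 1 (Φ₁ X) (F₁ X)

/-- **NODE T7.L2.1.H2a.4 = SECOND PAIR** (T3 + `♮` + `T6.BadMatchC`).  For a common part which
contains the ramified places and one bad element `g` there is a bound `M` such that for every
level with the four level properties whose exponents at the places of the level are at least
`M`, every Haar measure of `GL₂(ℂ)`, all exponents of the level and EVERY constant `a ≠ 0`: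
there are `c₂`, `φ₂`, `f₂` with the operator properties and the supports of the second pair and
the local shape `LocB893` with the constant `a`.  See the docstring of `H893.BaseC`
(construction of `φ₂`, `f₂`). -/
def Pair2C981 : Prop :=
  ∀ ℓ : ℕ, IsCycExt K K' ℓ → ℓ ≠ 2 → TotCplx K →
    ∀ Φ : HeckeEigensystem K' ℂ, A0.IsCuspAdelicSph0 K' Φ → ConstOnFibres K Φ → P K' Φ →
      ∀ B : L2Base K K', IsL2Base ℓ Φ B → B.RamIn → ∀ g : G K', B.IsBad g →
      ∃ M : ℕ,
      ∀ 𝔫 : Ideal (𝓞 K), IsLvl981 B 𝔫 →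
      ∀ μc : @Measure (GL (Fin 2) ℂ) (borel _), @Measure.IsHaarMeasure _ _ _ (borel _) μc →
      ∀ (T₀ : Finset (HeightOneSpectrum (𝓞 K)))
        (n n₀ : HeightOneSpectrum (𝓞 K') → ℕ) (m : HeightOneSpectrum (𝓞 K) → ℕ),
        IsExp981 B 𝔫 T₀ n n₀ m → (∀ v ∈ T₀, M ≤ m v) →
        ∀ a : ℂ, a ≠ 0 →
        ∃ (c₂ : EigData K' → ℂ) (φ₂ : G K' → ℂ) (f₂ : G K → ℂ),
          IsPair2_981 ℓ Φ B 𝔫 c₂ φ₂ f₂ ∧
          IsAvgPure (upI (K' := K') 𝔫) 𝔫 T₀ (LocB893 B g 𝔫 μc T₀ n n₀ m) a φ₂ f₂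

end Nodes

end Fermat.Agent.LT.T7.B981

end

end
-- ===== PACK-END LT/T7/B981/BaseSpec.lean

-- ===== PACK-BEGIN LT/T3/ClosedT1.lean
section




/-!
# Row LT, tower T3 (helper14, architect): the state of T3 on the CLOSED tower T1

OFF-MAIN.  Complete proofs, nothing assumed.  Imports `LT/T1/Closed.lean` of helper54
(origin/helper54@272e43fd2, `T1.t1Out K : T1.T1Out K` UNCONDITIONAL; byte-identical copies of the
72 files, rebuilt here) and discharges the hypothesis `T1.T1Out K` of `T3/Closed.lean`.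

UNCONDITIONAL (every number field `K`): `goodChar_u`, `poissonND_u`, `ekKill_u`, `ekCusp_u`,
`ekIdeal_u`, `ekStar_u`, `constTermT_u`, `ekCuspOp_u`, `haarScale_u`.

**TOWER T3 IS CLOSED, UNCONDITIONALLY** (every number field `K`):
`t3Out K : T3Out K`, `t3OutOp K : T3OutOp K`, `t3OutOpSmooth K : T3OutOpSmooth K`,
`ekExistSmooth_c K : EKExistSmoothC K`, `abelSatakeSmooth_c K : AS.AbelSatakeSmoothC K`, and
`exists_testFn_T5_c` (the Eisenstein-killing test function in the vocabulary of T5 Spec v4).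
(`OpenU K`, `t3Out_u`, … are kept for compatibility; `openU_closed : OpenU K`.)
-/

set_option autoImplicit false

open IsDedekindDomain NumberField MeasureTheory
open Fermat.Agent.LT.H556.A0

noncomputable section

namespace Fermat.Agent.LT.T3

variable (K : Type) [Field K] [NumberField K]

/-! ## Unconditional -/

theorem goodChar_u : GoodCharExistsC K :=
  H276.leaf_goodChar276 K (inLocComp_of_T1 K (T1.t1Out K).locComp)

theorem haarScale_u : HaarScaleC K := haarScale_closed K (T1.t1Out K)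

theorem poissonND_u : PoissonNDC K := poissonND_closed K (T1.t1Out K)

theorem ekKill_u : EKKillC K := ekKill_closed K (T1.t1Out K)

theorem ekCusp_u : EKCuspC K := ekCusp_closed K (T1.t1Out K)

theorem ekIdeal_u : EKIdealC K := H465.ekIdealC465 K

theorem ekStar_u : EKStarC K := ekStar_closed K (T1.t1Out K)

theorem constTermT_u : ConstTermTC K := constTermT_closed K (T1.t1Out K)

theorem ekCuspOp_u : EKCuspOpC K := ekCuspOp_of K (constTermT_u K)

theorem inScalarUnif_u : InScalarUnifC K := inScalarUnif_of_T1 K (T1.t1Out K).heckeCoset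

theorem inAddHaar_u : InAddHaarC K := inAddHaar_of_T1 K (T1.t1Out K).locComp

/-! ## Relative to the two open sub-leaves of AS.4 -/

/-- THE OPEN PART of tower T3, unconditional form. -/
structure OpenU : Prop where
  /-- N.3 (registry 1365). -/
  outsideCoset : AS.N893.OutsideCosetC K
  /-- N.5 (registry 1367). -/
  split : AS.N893.SplitC K

theorem OpenU.toOpen {K : Type} [Field K] [NumberField K] (O : OpenU K) : Open K :=
  ⟨fun _ => O.outsideCoset, fun _ => O.split⟩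

theorem Open.toOpenU {K : Type} [Field K] [NumberField K] (O : Open K) : OpenU K :=
  ⟨O.outsideCoset (T1.t1Out K), O.split (T1.t1Out K)⟩

theorem nInt_u (O : OpenU K) : AS.NIntC K := nInt_of_open K (T1.t1Out K) O.toOpen

theorem abelSatakeSmooth_u (O : OpenU K) : AS.AbelSatakeSmoothC K :=
  abelSatakeSmooth_of_open K (T1.t1Out K) O.toOpen

theorem ekExistSmooth_u (O : OpenU K) : EKExistSmoothC K :=
  ekExistSmooth_of K (abelSatakeSmooth_u K O) (inScalarUnif_u K)

theorem t3Out_u (O : OpenU K) : T3Out K := top_of_open K (T1.t1Out K) O.toOpen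

theorem t3OutOp_u (O : OpenU K) : T3OutOp K := topOp_of_open K (T1.t1Out K) O.toOpen

theorem t3OutOpSmooth_u (O : OpenU K) : T3OutOpSmooth K :=
  topOpSmooth_of_open K (T1.t1Out K) O.toOpen

/-- The Eisenstein-killing test function in the vocabulary of T5 (Spec v4). -/
theorem exists_testFn_T5_u (O : OpenU K) (hK : ∀ w : InfinitePlace K, w.IsComplex)
    (μ : @Measure (G K) (borel (G K)))
    (hμ : @Measure.IsHaarMeasure (G K) _ _ (borel (G K)) μ)
    (𝔫 : Ideal (𝓞 K)) (h𝔫 : 𝔫 ≠ ⊥) (v₀ : HeightOneSpectrum (𝓞 K)) (hv₀ : ¬ v₀.asIdeal ∣ 𝔫)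
    (a₀ : 𝓞 K) (n : ℕ) (hn : 0 < n) (hspan : Ideal.span {a₀} = v₀.asIdeal ^ n)
    (hmem : a₀ - 1 ∈ 𝔫) :
    ∃ f : G K → ℂ, T5.IsTestFn 𝔫 T5.trivType f ∧ T5.IsEK μ f ∧ T5.IsEK μ (T5.adjointFn f) ∧
      IsSuppAt K 𝔫 v₀ f ∧
      ∃ c : ℂ → ℂ → ℂ,
        (∀ a b z₁ z₂ : ℂ, z₁ + z₂ = a → z₁ * z₂ = b → z₁ ^ n ≠ 1 → z₂ ^ n ≠ 1 → c a b ≠ 0) ∧
        ∀ φ : G K → ℂ, IsSph0Level K 𝔫 φ → ∀ a b : ℂ, IsHeckeEigenAt φ v₀ a b →
          ∀ g : G K, T5.Rconv μ f φ g = c a b * φ g :=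
  exists_testFn_T5 K (t3OutOpSmooth_u K O).2.2.2 hK μ hμ 𝔫 h𝔫 v₀ hv₀ a₀ n hn hspan hmem

/-! ## THE TOWER IS CLOSED -/

theorem openU_closed : OpenU K := (open_closed K).toOpenU

/-- **TOWER T3 (integral form), UNCONDITIONAL.** -/
theorem t3Out : T3Out K := t3Out_u K (openU_closed K)

/-- **TOWER T3 (operator form), UNCONDITIONAL.** -/
theorem t3OutOp : T3OutOp K := t3OutOp_u K (openU_closed K)

/-- **TOWER T3 (operator form, smooth test functions), UNCONDITIONAL.** -/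
theorem t3OutOpSmooth : T3OutOpSmooth K := t3OutOpSmooth_u K (openU_closed K)

/-- The station T3.18a in the smooth form, UNCONDITIONAL. -/
theorem abelSatakeSmooth_c : AS.AbelSatakeSmoothC K := abelSatakeSmooth_u K (openU_closed K)

/-- T3.18 in the smooth form, UNCONDITIONAL. -/
theorem ekExistSmooth_c : EKExistSmoothC K := ekExistSmooth_u K (openU_closed K)

/-- T3.18, UNCONDITIONAL. -/
theorem ekExist_c : EKExistC K := ekExist_of_smooth K (ekExistSmooth_c K)

/-- **The Eisenstein-killing test function in the vocabulary of T5 (Spec v4), UNCONDITIONAL.** -/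
theorem exists_testFn_T5_c (hK : ∀ w : InfinitePlace K, w.IsComplex)
    (μ : @Measure (G K) (borel (G K)))
    (hμ : @Measure.IsHaarMeasure (G K) _ _ (borel (G K)) μ)
    (𝔫 : Ideal (𝓞 K)) (h𝔫 : 𝔫 ≠ ⊥) (v₀ : HeightOneSpectrum (𝓞 K)) (hv₀ : ¬ v₀.asIdeal ∣ 𝔫)
    (a₀ : 𝓞 K) (n : ℕ) (hn : 0 < n) (hspan : Ideal.span {a₀} = v₀.asIdeal ^ n)
    (hmem : a₀ - 1 ∈ 𝔫) :
    ∃ f : G K → ℂ, T5.IsTestFn 𝔫 T5.trivType f ∧ T5.IsEK μ f ∧ T5.IsEK μ (T5.adjointFn f) ∧
      IsSuppAt K 𝔫 v₀ f ∧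
      ∃ c : ℂ → ℂ → ℂ,
        (∀ a b z₁ z₂ : ℂ, z₁ + z₂ = a → z₁ * z₂ = b → z₁ ^ n ≠ 1 → z₂ ^ n ≠ 1 → c a b ≠ 0) ∧
        ∀ φ : G K → ℂ, IsSph0Level K 𝔫 φ → ∀ a b : ℂ, IsHeckeEigenAt φ v₀ a b →
          ∀ g : G K, T5.Rconv μ f φ g = c a b * φ g :=
  exists_testFn_T5_u K (openU_closed K) hK μ hμ 𝔫 h𝔫 v₀ hv₀ a₀ n hn hspan hmem

end Fermat.Agent.LT.T3

end

end
-- ===== PACK-END LT/T3/ClosedT1.lean

-- ===== PACK-BEGIN LT/T7/H40/ProjT.lean
section



/-!
# Row LT, tower T7: the orthogonal projection on the invariant cusp functions for an ARBITRARY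
# `K_∞`-type `τ` (helper40)

OFF-MAIN, additive.  `ProjC K` (`ProjSpec.lean`, closed in `ProjClosed.lean`) is the case
`τ = T5.trivType`.  The type only enters in the equivariance `ψ (g k) = τ k · ψ g` under the
compact groups at infinity and in the PERIODS of the automorphic functions of type `τ`
(`PeriodFamilyTC K τ`: for the trivial type Dirichlet's unit theorem, `periodFamilyC_closed40`;
over `ℚ` every type has the period family of the ray generator, `periodFamilyTC_rat40`).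

    projTC_of_period40 : PeriodFamilyTC K τ → ProjTC K τ                       (PROVED)
    projTC_rat40 (τ) : ProjTC ℚ τ                                               (PROVED)

The proofs are the proofs of the leaves of `ArchProjSpec.lean` / `ProjSpec.lean` (helper346
`AvgAut`, helper312 `AvgCuspidal`, helper944 `AvgCont` / `AvgInv`, helper267 `AvgOrth`,
helper949 `FinProj`, helper128 `TranslInner`), whose abstract lemmas are used as they are; only
the final assemblies are repeated for the type `τ`.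
-/

set_option autoImplicit false
set_option linter.style.haveILetI false

open AutomorphicForm IsDedekindDomain NumberField MeasureTheory
open scoped ComplexConjugate

noncomputable section

namespace Fermat.Agent.LT.T7.H40

open Fermat.Agent.LT.H556 Fermat.Agent.LT.H556.A0 Fermat.Agent.LT.T7

attribute [local instance] Fermat.Agent.LT.T5.instMeasurableSpaceG

/-! ## 1. Vocabulary and Props -/

section Defs

variable {K : Type} [Field K] [NumberField K]

/-- A period family for the level `𝔑`, the type `τ` and the ray generator `r`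
(`IsPeriodFamily40` is the case of the trivial type). -/
structure IsPeriodFamilyT40 (𝔑 : Ideal (𝓞 K)) (τ : G K → ℂ) (r : G K)
    (Y : (InfinitePlace K → ℝ) → G K) : Prop where
  cont : Continuous Y
  mul : ∀ s t : InfinitePlace K → ℝ, Y (s + t) = Y s * Y t
  central : ∀ (t : InfinitePlace K → ℝ) (g : G K), Y t * g = g * Y t
  pos_inv : ∀ χ : G K → ℂ, IsPosInv χ → ∀ (t : InfinitePlace K → ℝ) (g : G K),
    χ (g * Y t) = χ g
  surj : ∀ (w : InfinitePlace K) (z : G K), IsArchPosScalar w z →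
    ∃ t : InfinitePlace K → ℝ, z = Y t
  period : ∀ ψ : G K → ℂ, T5.IsAutomorphicFn 𝔑 τ r ψ →
    ∀ (n : InfinitePlace K → ℤ) (g : G K), ψ (g * Y (fun w => (n w : ℝ))) = ψ g

end Defs

section Props

variable (K : Type) [Field K] [NumberField K] (τ : G K → ℂ)

/-- A period family exists for every level `𝔑 ≠ 0` and every ray generator. -/
def PeriodFamilyTC : Prop :=
  ∀ 𝔑 : Ideal (𝓞 K), 𝔑 ≠ ⊥ → ∀ r : G K, T5.IsRayGen r →
    ∃ Y : (InfinitePlace K → ℝ) → G K, IsPeriodFamilyT40 𝔑 τ r Y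

/-- The projection on the cusp functions of type `τ` invariant under the positive scalars. -/
def ArchProjTC : Prop :=
  ∀ (μ : Measure (G K)) (F : Set (G K)) (r : G K), T5.IsFrame μ F → T5.IsRayGen r →
  ∀ 𝔑 : Ideal (𝓞 K), 𝔑 ≠ ⊥ →
  ∀ ψ : G K → ℂ, T5.IsCuspFn 𝔑 τ r ψ →
    ∃ ψ₂ : G K → ℂ, T5.IsCuspFn 𝔑 τ r ψ₂ ∧ IsPosInv ψ₂ ∧
      ∀ χ : G K → ℂ, T5.IsCuspFn 𝔑 τ r χ → IsPosInv χ →
        T5.innerD μ F (fun x => ψ x - ψ₂ x) χ = 0

/-- The projection on the cusp functions of type `τ` and level `𝔑₀` invariant under the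
Iwahori subgroups at the `o j`. -/
def FinProjTC : Prop :=
  ∀ (μ : Measure (G K)) (F : Set (G K)) (r : G K), T5.IsFrame μ F → T5.IsRayGen r →
  ∀ 𝔑 𝔑₀ : Ideal (𝓞 K), 𝔑 ≠ ⊥ → 𝔑 ≤ 𝔑₀ →
  ∀ (l : ℕ) (o : ℕ → HeightOneSpectrum (𝓞 K)) (ψ : G K → ℂ),
    T5.IsCuspFn 𝔑 τ r ψ →
    ∃ ψ₁ : G K → ℂ, T5.IsCuspFn 𝔑₀ τ r ψ₁ ∧ IsIwInv l o ψ₁ ∧
      (IsPosInv ψ → IsPosInv ψ₁) ∧
      ∀ χ : G K → ℂ, T5.IsCuspFn 𝔑₀ τ r χ → IsIwInv l o χ →
        T5.innerD μ F (fun x => ψ x - ψ₁ x) χ = 0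

/-- **The orthogonal projection on the invariant cusp functions of type `τ`.** -/
def ProjTC : Prop :=
  ∀ (μ : Measure (G K)) (F : Set (G K)) (r : G K), T5.IsFrame μ F → T5.IsRayGen r →
  ∀ 𝔑 𝔑₀ : Ideal (𝓞 K), 𝔑 ≠ ⊥ → 𝔑 ≤ 𝔑₀ →
  ∀ (l : ℕ) (o : ℕ → HeightOneSpectrum (𝓞 K)) (ψ : G K → ℂ),
    T5.IsCuspFn 𝔑 τ r ψ →
    ∃ ψ₁ : G K → ℂ, (T5.IsCuspFn 𝔑₀ τ r ψ₁ ∧ IsPosInv ψ₁ ∧ IsIwInv l o ψ₁) ∧
      ∀ χ : G K → ℂ, T5.IsCuspFn 𝔑₀ τ r χ → IsPosInv χ → IsIwInv l o χ →
        T5.innerD μ F (fun x => ψ x - ψ₁ x) χ = 0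

end Props

/-! ## 2. The mean over the torus -/

section Arch

variable {K : Type} [Field K] [NumberField K] {τ : G K → ℂ}

/-- The mean of a cusp function of type `τ` is a cusp function of type `τ`
(helper944, helper346, helper312). -/
theorem avgCuspT40 {𝔑 : Ideal (𝓞 K)} {r : G K} {Y : (InfinitePlace K → ℝ) → G K}
    (hY : IsPeriodFamilyT40 𝔑 τ r Y) {ψ : G K → ℂ} (hψ : T5.IsCuspFn 𝔑 τ r ψ) :
    T5.IsCuspFn 𝔑 τ r (archAvg40 Y ψ) := by
  have hT := T1.t1Out K
  obtain ⟨C, hC⟩ := hψ.bdd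
  refine ⟨Fermat.Agent.LT.T7.H944.avgContC944 K hT Y hY.cont ψ hψ.cont hψ.bdd,
    ⟨C, fun g => ?_⟩, ⟨fun γ g => ?_, fun u hu g => ?_, fun w k hk g => ?_, fun g => ?_⟩, ?_⟩
  · have h := norm_setIntegral_le_of_norm_le_const (μ := volume) (s := cube40 K)
      (f := fun t => ψ (g * Y t)) (C := C)
      (by rw [Fermat.Agent.LT.T7.H346.volume_cube346]; exact ENNReal.one_lt_top)
      (fun t _ => hC _)
    have h1 : (volume : Measure (InfinitePlace K → ℝ)).real (cube40 K) = 1 := by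
      rw [Measure.real, Fermat.Agent.LT.T7.H346.volume_cube346]
      simp
    rw [h1, mul_one] at h
    exact h
  · refine Fermat.Agent.LT.T7.H346.archAvg_congr346 Y ψ g _ fun t => ?_
    rw [mul_assoc]
    exact hψ.aut.left_inv γ (g * Y t)
  · refine Fermat.Agent.LT.T7.H346.archAvg_congr346 Y ψ g _ fun t => ?_
    rw [mul_assoc, ← hY.central t u, ← mul_assoc]
    exact hψ.aut.level_inv u hu (g * Y t)
  · show (∫ t in cube40 K, ψ (g * k * Y t)) = τ k * ∫ t in cube40 K, ψ (g * Y t)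
    rw [← integral_const_mul]
    refine integral_congr_ae (Filter.Eventually.of_forall fun t => ?_)
    show ψ (g * k * Y t) = τ k * ψ (g * Y t)
    rw [mul_assoc, ← hY.central t k, ← mul_assoc, hψ.aut.arch_compact w k hk (g * Y t)]
  · refine Fermat.Agent.LT.T7.H346.archAvg_congr346 Y ψ g _ fun t => ?_
    rw [mul_assoc, ← hY.central t r, ← mul_assoc]
    exact hψ.aut.ray (g * Y t)
  · -- cuspidality (helper312)
    letI : MeasurableSpace (Adl K) := borel (Adl K)
    haveI : BorelSpace (Adl K) := ⟨rfl⟩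
    obtain ⟨⟨_, _, hsc⟩, _, _, _⟩ := hT.locComp
    haveI := hsc
    intro μ hμ D hD n hn g
    haveI := hμ
    obtain ⟨D0, -, hD0, -, -, hD0fin⟩ := hT.addFundDom μ hμ
    haveI : Countable K := Fermat.Agent.LT.T7.H312.countable_numberField312 K
    haveI : Countable ↥((algebraMap K (Adl K)).toAddMonoidHom.range) :=
      (Set.countable_range (algebraMap K (Adl K))).to_subtype
    have hDfin : μ D < ⊤ := by
      have h := hD.measure_eq hD0
      rw [h]
      exact hD0fin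
    haveI : IsFiniteMeasure (μ.restrict D) :=
      ⟨by rw [Measure.restrict_apply_univ]; exact hDfin⟩
    haveI : IsFiniteMeasure ((volume : Measure (InfinitePlace K → ℝ)).restrict (cube40 K)) :=
      ⟨by rw [Measure.restrict_apply_univ, Fermat.Agent.LT.T7.H312.volume_cube312]
          exact ENNReal.one_lt_top⟩
    have hcont : Continuous
        (fun p : Adl K × (InfinitePlace K → ℝ) => ψ (n p.1 * g * Y p.2)) :=
      hψ.cont.comp
        ((((Fermat.Agent.LT.T7.H312.continuous_unip312 n hn).comp continuous_fst).mul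
          continuous_const).mul (hY.cont.comp continuous_snd))
    have hint : Integrable (Function.uncurry fun (x : Adl K) (t : InfinitePlace K → ℝ) =>
        ψ (n x * g * Y t)) ((μ.restrict D).prod (volume.restrict (cube40 K))) :=
      Integrable.of_bound hcont.aestronglyMeasurable C
        (Filter.Eventually.of_forall fun p => hC _)
    show ∫ x in D, archAvg40 Y ψ (n x * g) ∂μ = 0
    have h1 : (fun x : Adl K => archAvg40 Y ψ (n x * g))
        = fun x : Adl K => ∫ t in cube40 K, ψ (n x * g * Y t) := rfl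
    rw [h1, integral_integral_swap hint]
    have h2 : ∀ t : InfinitePlace K → ℝ, ∫ x in D, ψ (n x * g * Y t) ∂μ = 0 := by
      intro t
      have h := hψ.cuspidal μ hμ D hD n hn (g * Y t)
      simpa only [mul_assoc] using h
    simp only [h2, integral_zero]

/-- The mean is invariant under the positive scalars (helper944). -/
theorem avgInvT40 {𝔑 : Ideal (𝓞 K)} {r : G K} {Y : (InfinitePlace K → ℝ) → G K}
    (hY : IsPeriodFamilyT40 𝔑 τ r Y) {ψ : G K → ℂ} (hψ : T5.IsCuspFn 𝔑 τ r ψ) :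
    IsPosInv (archAvg40 Y ψ) := by
  intro w z hz g
  obtain ⟨t₀, rfl⟩ := hY.surj w z hz
  have hF : ∀ (s : InfinitePlace K → ℝ) (n : InfinitePlace K → ℤ),
      ψ (g * Y (s + fun i => (n i : ℝ))) = ψ (g * Y s) := by
    intro s n
    rw [hY.mul, ← mul_assoc]
    exact hY.period ψ hψ.aut n (g * Y s)
  have key := Fermat.Agent.LT.T7.H944.integral_cube_periodic944 (InfinitePlace K)
    (fun s => ψ (g * Y s)) hF t₀
  show (∫ t in cube40 K, ψ (g * Y t₀ * Y t)) = ∫ t in cube40 K, ψ (g * Y t)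
  rw [cube40, ← key]
  refine integral_congr_ae (Filter.Eventually.of_forall fun t => ?_)
  show ψ (g * Y t₀ * Y t) = ψ (g * Y (t₀ + t))
  rw [hY.mul, mul_assoc]

/-- `ψ - mean ψ` is orthogonal to the invariant cusp functions (helper267). -/
theorem avgOrthT40 {μ : Measure (G K)} {F : Set (G K)} {r : G K} (hFr : T5.IsFrame μ F)
    (hr : T5.IsRayGen r) {𝔑 : Ideal (𝓞 K)} {Y : (InfinitePlace K → ℝ) → G K}
    (hY : IsPeriodFamilyT40 𝔑 τ r Y) {ψ : G K → ℂ} (hψ : T5.IsCuspFn 𝔑 τ r ψ)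
    {χ : G K → ℂ} (hχ : T5.IsCuspFn 𝔑 τ r χ) (hχinv : IsPosInv χ) :
    T5.innerD μ F (fun x => ψ x - archAvg40 Y ψ x) χ = 0 := by
  have hTI := translInnerC_closed40 K
  have hB : BorelSpace (G K) := ⟨rfl⟩
  have hfinF : IsFiniteMeasure (μ.restrict F) :=
    ⟨by rw [Measure.restrict_apply_univ]; exact hFr.finite⟩
  have hfinC : IsFiniteMeasure ((volume : Measure (InfinitePlace K → ℝ)).restrict (cube40 K)) :=
    ⟨by rw [Measure.restrict_apply_univ, Fermat.Agent.LT.T7.H40.H267.volume_cube267]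
        exact ENNReal.one_lt_top⟩
  obtain ⟨Cψ, hCψ⟩ := hψ.bdd
  obtain ⟨Cχ, hCχ⟩ := hχ.bdd
  have hCψ0 : 0 ≤ Cψ := (norm_nonneg _).trans (hCψ 1)
  have hA := avgCuspT40 hY hψ
  obtain ⟨CA, hCA⟩ := hA.bdd
  set Ψ : G K → ℂ := fun x => ψ x * conj (χ x) with hΨ
  have hΨcont : Continuous Ψ := hψ.cont.mul (Complex.continuous_conj.comp hχ.cont)
  have hΨbdd : ∀ g : G K, ‖Ψ g‖ ≤ Cψ * Cχ := by
    intro g
    rw [hΨ]
    simp only
    rw [norm_mul, RCLike.norm_conj]
    exact mul_le_mul (hCψ g) (hCχ g) (norm_nonneg _) hCψ0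
  have hΨleft : ∀ (γ : GL (Fin 2) K) (g : G K), Ψ (T5.ratG γ * g) = Ψ g := by
    intro γ g
    rw [hΨ]
    simp only
    rw [hψ.aut.left_inv, hχ.aut.left_inv]
  have hΨray : ∀ g : G K, Ψ (g * r) = Ψ g := by
    intro g
    rw [hΨ]
    simp only
    rw [hψ.aut.ray, hχ.aut.ray]
  have htransl : ∀ t : InfinitePlace K → ℝ,
      ∫ x in F, ψ (x * Y t) * conj (χ x) ∂μ = ∫ x in F, Ψ x ∂μ := by
    intro t
    rw [← hTI μ F r hFr hr Ψ hΨcont ⟨_, hΨbdd⟩ hΨleft hΨray (Y t)]
    refine integral_congr_ae (Filter.Eventually.of_forall fun x => ?_)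
    rw [hΨ]
    simp only
    rw [hY.pos_inv χ hχinv t x]
  set f : G K → (InfinitePlace K → ℝ) → ℂ := fun x t => ψ (x * Y t) * conj (χ x) with hf
  have hfcont : Continuous (Function.uncurry f) := by
    rw [hf]
    have h1 : Continuous (fun p : G K × (InfinitePlace K → ℝ) => p.1 * Y p.2) :=
      continuous_fst.mul (hY.cont.comp continuous_snd)
    exact (hψ.cont.comp h1).mul (Complex.continuous_conj.comp (hχ.cont.comp continuous_fst))
  have hfbdd : ∀ p : G K × (InfinitePlace K → ℝ), ‖Function.uncurry f p‖ ≤ Cψ * Cχ := by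
    rintro ⟨x, t⟩
    show ‖ψ (x * Y t) * conj (χ x)‖ ≤ Cψ * Cχ
    rw [norm_mul, RCLike.norm_conj]
    exact mul_le_mul (hCψ _) (hCχ x) (norm_nonneg _) hCψ0
  have hfint : Integrable (Function.uncurry f)
      ((μ.restrict F).prod ((volume : Measure (InfinitePlace K → ℝ)).restrict (cube40 K))) :=
    Fermat.Agent.LT.T7.H40.H267.integrable_of_cont_bdd267 _ _ hfcont _ hfbdd
  have hint1 : Integrable Ψ (μ.restrict F) :=
    Fermat.Agent.LT.T7.H40.H267.integrable_of_cont_bdd267 _ _ hΨcont _ hΨbdd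
  have hint2 : Integrable (fun x => archAvg40 Y ψ x * conj (χ x)) (μ.restrict F) := by
    refine Fermat.Agent.LT.T7.H40.H267.integrable_of_cont_bdd267 _ _
      (hA.cont.mul (Complex.continuous_conj.comp hχ.cont)) (CA * Cχ) fun x => ?_
    rw [norm_mul, RCLike.norm_conj]
    exact mul_le_mul (hCA x) (hCχ x) (norm_nonneg _) ((norm_nonneg _).trans (hCA 1))
  have hmean : ∫ x in F, archAvg40 Y ψ x * conj (χ x) ∂μ = ∫ x in F, Ψ x ∂μ := by
    have e1 : ∀ x : G K, archAvg40 Y ψ x * conj (χ x) = ∫ t in cube40 K, f x t := by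
      intro x
      rw [hf]
      simp only
      unfold archAvg40
      rw [integral_mul_const]
    simp_rw [e1]
    rw [integral_integral_swap hfint]
    simp_rw [hf, htransl]
    rw [setIntegral_const]
    simp [Measure.real, Fermat.Agent.LT.T7.H40.H267.volume_cube267]
  unfold T5.innerD
  have e2 : ∀ x : G K, (ψ x - archAvg40 Y ψ x) * conj (χ x)
      = Ψ x - archAvg40 Y ψ x * conj (χ x) := by
    intro x
    rw [hΨ]
    ring
  simp_rw [e2]
  rw [integral_sub hint1 hint2, hmean, sub_self]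

/-- **The projection on the functions invariant under the positive scalars, type `τ`.** -/
theorem archProjTC_of_period40 (hP : PeriodFamilyTC K τ) : ArchProjTC K τ := by
  intro μ F r hFr hr 𝔑 h𝔑 ψ hψ
  obtain ⟨Y, hY⟩ := hP 𝔑 h𝔑 r hr
  exact ⟨archAvg40 Y ψ, avgCuspT40 hY hψ, avgInvT40 hY hψ,
    fun χ hχ hχinv => avgOrthT40 hFr hr hY hψ hχ hχinv⟩

end Arch

/-! ## 3. The mean over the finite group -/

section Fin

open Fermat.Agent.LT.T7.H949

variable (K : Type) [Field K] [NumberField K] (τ : G K → ℂ)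

/-- **The projection on the functions invariant under the Iwahori subgroups, type `τ`**
(helper949). -/
theorem finProjTC40 : FinProjTC K τ := by
  have hTI := translInnerC_closed40 K
  have hT := T1.t1Out K
  intro μ F r hFr hr 𝔑 𝔑₀ h𝔑 hle l o ψ hψ
  set 𝒦 : Subgroup (G K) := KK949 𝔑₀ l o with h𝒦
  have hK0 : 𝒦 ≤ K0949 K := KK_le_K0949 𝔑₀ l o
  have hfinq : Finite (𝒦 ⧸ (U949 𝔑).subgroupOf 𝒦) := finite_quot949 𝔑 h𝔑 𝒦 hK0
  letI : Fintype (𝒦 ⧸ (U949 𝔑).subgroupOf 𝒦) := Fintype.ofFinite _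
  have hU0 : U949 𝔑₀ ≤ 𝒦 := le_sup_left
  have hIw : iwSet949 l o ⊆ (𝒦 : Set (G K)) := fun h hh =>
    (le_sup_right : Subgroup.closure (iwSet949 l o) ≤ 𝒦) (Subgroup.subset_closure hh)
  have hψU : U949 𝔑 ≤ stab949 ψ := fun u hu => hψ.aut.level_inv u hu
  have htriv : ∀ h ∈ 𝒦, ∀ w : InfinitePlace K, TrivAtInf w h := fun h hh => (hK0 hh).1
  set ψ₁ : G K → ℂ := avg949 𝔑 𝒦 ψ with hψ₁
  have hstab : 𝒦 ≤ stab949 ψ₁ := KK_le_stab_avg949 𝔑 𝒦 hψU
  have hcomm : ∀ z : G K, (∀ v : HeightOneSpectrum (𝓞 K), TrivAtFin v z) →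
      ∀ h ∈ 𝒦, h * z = z * h := fun z hz h hh => commute_of_triv949 (htriv h hh) hz
  have hcusp₁ : T5.IsCuspFn 𝔑₀ τ r ψ₁ := by
    refine ⟨continuous_avg949 𝔑 𝒦 hψ.cont, bdd_avg949 𝔑 𝒦 hψ.bdd, ⟨?_, ?_, ?_, ?_⟩, ?_⟩
    · intro γ g
      show avg949 𝔑 𝒦 ψ _ = avg949 𝔑 𝒦 ψ _
      unfold avg949 sumT949
      congr 1
      refine Finset.sum_congr rfl fun q _ => ?_
      rw [mul_assoc, hψ.aut.left_inv]
    · intro u hu g
      exact hstab (hU0 hu) g
    · intro w k hk g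
      have hsum : ∑ q, ψ (g * k * rep949 𝔑 𝒦 q) = τ k * ∑ q, ψ (g * rep949 𝔑 𝒦 q) := by
        rw [Finset.mul_sum]
        refine Finset.sum_congr rfl fun q _ => ?_
        rw [mul_assoc, ← hcomm k hk.1.2 _ (rep_mem949 𝔑 𝒦 q), ← mul_assoc,
          hψ.aut.arch_compact w k hk]
      show avg949 𝔑 𝒦 ψ (g * k) = τ k * avg949 𝔑 𝒦 ψ g
      unfold avg949 sumT949
      rw [hsum]
      ring
    · intro g
      exact avg_comm949 𝔑 𝒦 (hcomm r hr.1) hψ.aut.ray g
    · intro μ' hμ' D hD n hn g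
      have hint := integrableOn_unip949 hT hψ.cont hψ.bdd μ' hμ' D hD n hn
      have e : (fun x => ψ₁ (n x * g))
          = fun x => ((Fintype.card (𝒦 ⧸ (U949 𝔑).subgroupOf 𝒦) : ℂ))⁻¹
              * ∑ q, ψ (n x * (g * rep949 𝔑 𝒦 q)) := by
        funext x
        show avg949 𝔑 𝒦 ψ _ = _
        unfold avg949 sumT949
        congr 1
        refine Finset.sum_congr rfl fun q _ => ?_
        rw [mul_assoc]
      rw [e, integral_const_mul, integral_finsetSum _ (fun q _ => hint _)]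
      rw [Finset.sum_eq_zero (fun q _ => hψ.cuspidal μ' hμ' D hD n hn _), mul_zero]
  refine ⟨ψ₁, hcusp₁, ?_, ?_, ?_⟩
  · intro h ha hb hc x
    exact hstab (hIw ⟨ha, hb, hc⟩) x
  · intro hpos w z hz g
    exact avg_comm949 𝔑 𝒦 (hcomm z hz.1.2) (hpos w z hz) g
  · intro χ hχ hχiw
    have hχstab : 𝒦 ≤ stab949 χ := KK_le_stab949 hχ.aut.level_inv hχiw
    have : BorelSpace (G K) := ⟨rfl⟩
    have : IsFiniteMeasure (μ.restrict F) := ⟨by simpa using hFr.finite⟩
    obtain ⟨Cψ, hCψ⟩ := hψ.bdd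
    obtain ⟨Cχ, hCχ⟩ := hχ.bdd
    have hCψ0 : 0 ≤ Cψ := (norm_nonneg _).trans (hCψ 1)
    have hint : ∀ h : G K, Integrable (fun x => ψ (x * h) * conj (χ x)) (μ.restrict F) := by
      intro h
      refine Integrable.of_bound (C := Cψ * Cχ) ?_ (Filter.Eventually.of_forall fun x => ?_)
      · exact ((hψ.cont.comp (continuous_mul_const h)).mul
          (Complex.continuous_conj.comp hχ.cont)).aestronglyMeasurable
      · rw [norm_mul, RCLike.norm_conj]
        exact mul_le_mul (hCψ _) (hCχ _) (norm_nonneg _) hCψ0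
    have htr : ∀ q : 𝒦 ⧸ (U949 𝔑).subgroupOf 𝒦,
        ∫ x in F, ψ (x * rep949 𝔑 𝒦 q) * conj (χ x) ∂μ = ∫ x in F, ψ x * conj (χ x) ∂μ := by
      intro q
      have h1 := hTI μ F r hFr hr (fun x => ψ x * conj (χ x))
        (hψ.cont.mul (Complex.continuous_conj.comp hχ.cont))
        ⟨Cψ * Cχ, fun g => by
          rw [norm_mul, RCLike.norm_conj]
          exact mul_le_mul (hCψ _) (hCχ _) (norm_nonneg _) hCψ0⟩
        (fun γ g => by
          show ψ _ * conj (χ _) = _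
          rw [hψ.aut.left_inv, hχ.aut.left_inv])
        (fun g => by
          show ψ _ * conj (χ _) = _
          rw [hψ.aut.ray, hχ.aut.ray])
        (rep949 𝔑 𝒦 q)
      rw [← h1]
      refine integral_congr_ae (Filter.Eventually.of_forall fun x => ?_)
      show ψ _ * conj (χ x) = ψ _ * conj (χ _)
      rw [hχstab (rep_mem949 𝔑 𝒦 q) x]
    have e1 : ∫ x in F, ψ₁ x * conj (χ x) ∂μ = ∫ x in F, ψ x * conj (χ x) ∂μ := by
      have e : (fun x => ψ₁ x * conj (χ x))
          = fun x => ((Fintype.card (𝒦 ⧸ (U949 𝔑).subgroupOf 𝒦) : ℂ))⁻¹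
              * ∑ q, ψ (x * rep949 𝔑 𝒦 q) * conj (χ x) := by
        funext x
        show avg949 𝔑 𝒦 ψ _ * _ = _
        unfold avg949 sumT949
        rw [mul_assoc, Finset.sum_mul]
      rw [e, integral_const_mul, integral_finsetSum _ (fun q _ => hint _),
        Finset.sum_congr rfl (fun q _ => htr q), Finset.sum_const, Finset.card_univ,
        nsmul_eq_mul, ← mul_assoc, inv_mul_cancel₀ (card_ne_zero949 𝔑 𝒦), one_mul]
    unfold T5.innerD
    have e2 : (fun x => (ψ x - ψ₁ x) * conj (χ x))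
        = fun x => ψ x * conj (χ x) - ψ₁ x * conj (χ x) := by
      funext x
      ring
    have hint1 : Integrable (fun x => ψ x * conj (χ x)) (μ.restrict F) := by
      have := hint 1
      simpa using this
    have hint2 : Integrable (fun x => ψ₁ x * conj (χ x)) (μ.restrict F) := by
      obtain ⟨C₁, hC₁⟩ := hcusp₁.bdd
      have hC₁0 : 0 ≤ C₁ := (norm_nonneg _).trans (hC₁ 1)
      refine Integrable.of_bound (C := C₁ * Cχ) ?_ (Filter.Eventually.of_forall fun x => ?_)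
      · exact (hcusp₁.cont.mul (Complex.continuous_conj.comp hχ.cont)).aestronglyMeasurable
      · rw [norm_mul, RCLike.norm_conj]
        exact mul_le_mul (hC₁ _) (hCχ _) (norm_nonneg _) hC₁0
    rw [e2, integral_sub hint1 hint2, e1, sub_self]

end Fin

/-! ## 4. The tops -/

section Tops

variable {K : Type} [Field K] [NumberField K] {τ : G K → ℂ}

/-- **The top.** -/
theorem projTC_of40 (hA : ArchProjTC K τ) (hF : FinProjTC K τ) : ProjTC K τ := by
  intro μ F r hFr hr 𝔑 𝔑₀ h𝔑 hle l o ψ hψ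
  obtain ⟨ψ₂, hψ₂, hinv₂, horth₂⟩ := hA μ F r hFr hr 𝔑 h𝔑 ψ hψ
  obtain ⟨ψ₁, hψ₁, hiw₁, hpos₁, horth₁⟩ := hF μ F r hFr hr 𝔑 𝔑₀ h𝔑 hle l o ψ₂ hψ₂
  refine ⟨ψ₁, ⟨hψ₁, hpos₁ hinv₂, hiw₁⟩, fun χ hχ hχpos hχiw => ?_⟩
  have e1 := horth₂ χ (isCuspFn_mono40 hle hχ) hχpos
  have e2 := horth₁ χ hχ hχiw
  have : BorelSpace (G K) := ⟨rfl⟩
  have : IsFiniteMeasure (μ.restrict F) := ⟨by simpa using hFr.finite⟩
  unfold T5.innerD at e1 e2 ⊢
  rw [integral_sub_split40 (μ.restrict F) ψ ψ₂ ψ₁ χ hψ.cont.aestronglyMeasurable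
    hψ₂.cont.aestronglyMeasurable hψ₁.cont.aestronglyMeasurable hχ.cont.aestronglyMeasurable
    hψ.bdd hψ₂.bdd hψ₁.bdd hχ.bdd, e1, e2, add_zero]

/-- **The projection for the type `τ` from a period family.** -/
theorem projTC_of_period40 (hP : PeriodFamilyTC K τ) : ProjTC K τ :=
  projTC_of40 (archProjTC_of_period40 hP) (finProjTC40 K τ)

end Tops

/-! ## 5. Period families from the units: a general criterion, and the field `ℚ` -/

section Period

variable {K : Type} [Field K] [NumberField K] {τ : G K → ℂ}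

/-- The period family of the type `τ` from the invariance of the automorphic functions of
type `τ` under the absolute values of the units (the proof of `periodFamilyC_of40`). -/
theorem periodFamilyTC_of40
    (hU : ∀ Z : (InfinitePlace K → ℝ) → G K, IsPosFamily40 Z →
      ∀ (𝔑 : Ideal (𝓞 K)) (r : G K) (ψ : G K → ℂ), T5.IsAutomorphicFn 𝔑 τ r ψ →
      ∀ ε : (𝓞 K)ˣ, ((ε : 𝓞 K) - 1 ∈ 𝔑) →
      ∀ g : G K, ψ (g * Z (fun w : InfinitePlace K => Real.log (w (((ε : 𝓞 K) : K))))) = ψ g) :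
    PeriodFamilyTC K τ := by
  intro 𝔑 h𝔑 r hr
  obtain ⟨Z, hZ⟩ := Fermat.Agent.LT.T7.H510.posFamilyC_h510 K
  obtain ⟨hsurj, hinv⟩ := Fermat.Agent.LT.T7.H819.posScalarC819 K Z hZ
  obtain ⟨c, hc, hcr⟩ := Fermat.Agent.LT.T7.H40.H846.rayLogC846 K Z hZ r hr
  obtain ⟨b, hb, hbper⟩ := Fermat.Agent.LT.T7.H919.unitPeriodsC919 K 𝔑 h𝔑 c hc
  set Λ : (InfinitePlace K → ℝ) →ₗ[ℝ] (InfinitePlace K → ℝ) := Fintype.linearCombination ℝ b
    with hΛ
  have hΛcont : Continuous Λ := LinearMap.continuous_of_finiteDimensional Λ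
  have hΛsurj : Function.Surjective Λ := by
    rw [← LinearMap.range_eq_top, hΛ, Fintype.range_linearCombination]
    exact hb.span_eq_top_of_card_eq_finrank' (Module.finrank_fintype_fun_eq_card ℝ).symm
  refine ⟨fun t => Z (Λ t), ⟨hZ.cont.comp hΛcont, fun s t => ?_, fun t g => hZ.central _ g,
    fun χ hχ t g => hinv χ hχ _ g, fun w z hz => ?_, fun ψ hψ n g => ?_⟩⟩
  · show Z (Λ (s + t)) = Z (Λ s) * Z (Λ t)
    rw [map_add, hZ.mul]
  · obtain ⟨t', ht'⟩ := hsurj w z hz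
    obtain ⟨t, ht⟩ := hΛsurj t'
    exact ⟨t, by rw [ht, ht']⟩
  · obtain ⟨S, hS⟩ := period_subgroup40 hZ ψ
    have hbS : ∀ i, b i ∈ S := by
      intro i
      rw [hS]
      rcases hbper i with h | ⟨ε, hε, h⟩
      · intro g'
        rw [h, hcr]
        exact hψ.ray g'
      · intro g'
        rw [h]
        exact hU Z hZ 𝔑 r ψ hψ ε hε g'
    have hmem : Λ (fun w => (n w : ℝ)) ∈ S := by
      rw [hΛ, Fintype.linearCombination_apply]
      refine S.sum_mem fun i _ => ?_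
      rw [Int.cast_smul_eq_zsmul]
      exact S.zsmul_mem (hbS i) _
    exact (hS _).1 hmem g

/-- The units of `ℤ` have absolute value `1`. -/
theorem log_unit_rat40 (ε : (𝓞 ℚ)ˣ) :
    (fun w : InfinitePlace ℚ => Real.log (w (((ε : 𝓞 ℚ) : ℚ)))) = 0 := by
  funext w
  have h := NumberField.Units.sum_mult_mul_log ε
  rw [Fintype.sum_subsingleton _ w] at h
  rcases mul_eq_zero.1 h with h0 | h0
  · exfalso
    have : (0 : ℝ) < (w.mult : ℝ) := by exact_mod_cast InfinitePlace.mult_pos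
    exact this.ne' h0
  · exact h0

/-- **Over `ℚ` every type has a period family.** -/
theorem periodFamilyTC_rat40 (τ : G ℚ → ℂ) : PeriodFamilyTC ℚ τ := by
  refine periodFamilyTC_of40 fun Z hZ 𝔑 r ψ _ ε _ g => ?_
  have h0 : Z 0 = 1 := by
    have := hZ.mul 0 0
    rw [add_zero] at this
    exact (mul_eq_left (a := Z 0) (b := Z 0)).1 this.symm
  rw [log_unit_rat40 ε, h0, mul_one]

/-- **The orthogonal projection on the invariant cusp functions over `ℚ`, every type.** -/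
theorem projTC_rat40 (τ : G ℚ → ℂ) : ProjTC ℚ τ :=
  projTC_of_period40 (periodFamilyTC_rat40 τ)

end Period

end Fermat.Agent.LT.T7.H40

end

end
-- ===== PACK-END LT/T7/H40/ProjT.lean

-- ===== PACK-BEGIN LT/T7/H40/ProjQ.lean
section




/-!
# Row LT, tower T7, node T7.L2Q.1 `SupplyQC`, leaf C3a (row 2261): the projections
# over `ℚ` for the two types (helper40)

OFF-MAIN, additive.  `H962.ProjQC962 n` (`LT/T7/H962/SupplyQSpec.lean` 8375a60b) for `n = w0`
(trivial type) and `n = w1` (weight one), from `projTC_rat40` (`ProjT.lean`): over `ℚ` every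
`K_∞`-type has the period family of the ray generator.  Also `H893.ProjC ℚ`.
-/

set_option autoImplicit false

open AutomorphicForm IsDedekindDomain NumberField MeasureTheory

noncomputable section

namespace Fermat.Agent.LT.T7.H40

open Fermat.Agent.LT.H556 Fermat.Agent.LT.H556.A0 Fermat.Agent.LT.T7

/-- **Row 2261: the projection over `ℚ`, both types (`w0` trivial, `w1` weight one), closed.** -/
theorem projQC962_closed40 (n : Fermat.Agent.LT.T7.L2Q.QWt) :
    Fermat.Agent.LT.T7.H962.ProjQC962 n := by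
  intro R hR 𝔫₀ 𝔫 h𝔫 hle u _ ψ hψ
  obtain ⟨ψ₁, ⟨h1, h2, h3⟩, horth⟩ := projTC_rat40 n.type R.μ R.F R.r hR.frame hR.ray 𝔫 𝔫₀
    h𝔫 hle 1 (fun _ => u) ψ hψ
  exact ⟨ψ₁, ⟨h1, h2, h3⟩, fun χ hχ => horth χ hχ.cusp hχ.arch_scalar hχ.iw⟩

end Fermat.Agent.LT.T7.H40

end

end
-- ===== PACK-END LT/T7/H40/ProjQ.lean

-- ===== PACK-BEGIN LT/T7/H165/IsoCont.lean
section



/-!
# Row LT, tower T7, asset leaf UF.A4 `IsoContC340` (cut of helper340; helper165, spare)

OFF-MAIN.  `isoContC165 : H340.IsoContC340` VERBATIM, unconditional, Mathlib only: a ring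
homomorphism of valued fields with `v(i x) = v(x)^e`, `e > 0`, is continuous, and so is `GL₂(i)`
(`Continuous.generalLinearGroup_map`).  No uniformiser is assumed: if the valuation of `k` is
trivial, `k` is discrete.
-/

set_option autoImplicit false

open Topology Filter

noncomputable section

namespace Fermat.Agent.LT.T7.H165

/-- Below every non-zero element of `ℤᵐ⁰` there is an `exp (-m)`. -/
theorem exists_exp_neg_lt165 (g : WithZero (Multiplicative ℤ)) (hg : g ≠ 0) :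
    ∃ m : ℕ, WithZero.exp (-(m : ℤ)) < g := by
  obtain ⟨a, rfl⟩ : ∃ a : ℤ, g = WithZero.exp a := ⟨_, (WithZero.exp_log hg).symm⟩
  refine ⟨(1 - a).toNat, ?_⟩
  rw [WithZero.exp_lt_exp]
  have := Int.self_le_toNat (1 - a)
  omega

/-- A ring homomorphism of valued fields with `v(i x) = v(x)^e`, `e > 0`, is continuous. -/
theorem continuous_of_val_pow165 {k k' : Type} [Field k] [Field k']
    [Valued k (WithZero (Multiplicative ℤ))] [Valued k' (WithZero (Multiplicative ℤ))] (e : ℕ)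
    (i : k →+* k') (he : 0 < e) (hi : ∀ x : k, Valued.v (i x) = Valued.v x ^ e) :
    Continuous i := by
  refine continuous_of_continuousAt_zero (i : k →+ k') ?_
  show Tendsto i (𝓝 0) (𝓝 (i 0))
  rw [map_zero, Filter.tendsto_def]
  intro t ht
  rw [Valued.mem_nhds_zero] at ht ⊢
  obtain ⟨γ, hγ⟩ := ht
  have hg0 : MonoidWithZeroHom.ValueGroup₀.embedding γ.1 ≠ 0 := (map_ne_zero _).2 γ.ne_zero
  obtain ⟨m, hm⟩ := exists_exp_neg_lt165 _ hg0
  by_cases h : ∃ x₀ : k, x₀ ≠ 0 ∧ Valued.v x₀ < 1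
  · obtain ⟨x₀, hx₀, hv₀⟩ := h
    have hv0 : (Valued.v x₀ : WithZero (Multiplicative ℤ)) ≠ 0 :=
      (Valuation.ne_zero_iff _).2 hx₀
    -- `v x₀ ≤ exp (-1)`
    have hle : Valued.v x₀ ≤ WithZero.exp (-1 : ℤ) := by
      rw [← WithZero.exp_log hv0, WithZero.exp_le_exp]
      have h1 : WithZero.exp (WithZero.log (Valued.v x₀)) < WithZero.exp (0 : ℤ) := by
        rw [WithZero.exp_log hv0, WithZero.exp_zero]
        exact hv₀
      rw [WithZero.exp_lt_exp] at h1
      omega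
    have h0 : (Valued.v : Valuation k (WithZero (Multiplicative ℤ))).restrict (x₀ ^ m) ≠ 0 := by
      rw [Ne, Valuation.restrict_eq_zero_iff, map_pow]
      exact pow_ne_zero _ hv0
    refine ⟨Units.mk0 _ h0, fun x hx => hγ ?_⟩
    have h1 : (Valued.v : Valuation k (WithZero (Multiplicative ℤ))).restrict x
        < (Valued.v : Valuation k (WithZero (Multiplicative ℤ))).restrict (x₀ ^ m) := hx
    rw [Valuation.restrict_lt_iff, map_pow] at h1
    show (Valued.v : Valuation k' (WithZero (Multiplicative ℤ))).restrict (i x) < γ.1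
    rw [Valuation.restrict_lt_iff_lt_embedding, hi]
    refine lt_of_le_of_lt ?_ hm
    -- `v x < (v x₀)^m ≤ exp (-m) ≤ 1`
    have h2 : Valued.v x₀ ^ m ≤ WithZero.exp (-(m : ℤ)) := by
      calc Valued.v x₀ ^ m ≤ WithZero.exp (-1 : ℤ) ^ m := pow_le_pow_left₀ zero_le hle m
        _ = WithZero.exp (-(m : ℤ)) := by
          rw [← WithZero.exp_nsmul]
          simp
    have h3 : Valued.v x ≤ WithZero.exp (-(m : ℤ)) := (h1.trans_le h2).le
    have h4 : (WithZero.exp (-(m : ℤ)) : WithZero (Multiplicative ℤ)) ≤ 1 := by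
      rw [← WithZero.exp_zero, WithZero.exp_le_exp]
      omega
    obtain ⟨n, rfl⟩ : ∃ n, e = n + 1 := ⟨e - 1, by omega⟩
    rw [pow_succ]
    calc Valued.v x ^ n * Valued.v x ≤ 1 * Valued.v x :=
          mul_le_mul_left (pow_le_one₀ zero_le (h3.trans h4)) _
      _ = Valued.v x := one_mul _
      _ ≤ _ := h3
  · refine ⟨1, fun x hx => hγ ?_⟩
    have h1 : (Valued.v : Valuation k (WithZero (Multiplicative ℤ))).restrict x
        < ((1 : (MonoidWithZeroHom.ValueGroup₀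
          (MonoidWithZeroHom.ofClass (Valued.v : Valuation k (WithZero (Multiplicative ℤ)))))ˣ) :
          MonoidWithZeroHom.ValueGroup₀ _) := hx
    rw [Valuation.restrict_lt_iff_lt_embedding, Units.val_one, map_one] at h1
    have hx0 : x = 0 := by
      by_contra hne
      exact h ⟨x, hne, h1⟩
    show (Valued.v : Valuation k' (WithZero (Multiplicative ℤ))).restrict (i x) < γ.1
    rw [hx0, map_zero, map_zero]
    exact zero_lt_iff.2 γ.ne_zero

/-- **ASSET LEAF UF.A4 = ISO-CONT**, VERBATIM. -/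
theorem isoContC165 : H340.IsoContC340 := by
  intro k k' _ _ _ _ e i he hi
  have hc : Continuous i := continuous_of_val_pow165 e i he hi
  exact ⟨hc, hc.generalLinearGroup_map⟩

end Fermat.Agent.LT.T7.H165

end

end
-- ===== PACK-END LT/T7/H165/IsoCont.lean

-- ===== PACK-BEGIN LT/T7/H534/FinPartLoc.lean
section






/-!
# Row LT, tower T7, node `H1U.FinPartUpQC` (registry row 2861; helper534, spare): local kit

OFF-MAIN.  No hole, nothing assumed.  ADDITIVE (suffix `534`).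

* `isLocHaar_unique534`: the normalised Haar measure of `GL₂(K_v)` (level `n`) is unique;
* `glEquiv534 i`: the homeomorphism `GL₂(k) ≃ GL₂(k')` of a valuation preserving isomorphism;
* `isLocHaar_map534`: it maps normalised Haar measures to normalised Haar measures.
-/

set_option autoImplicit false
set_option linter.style.haveILetI false
set_option linter.unusedSectionVars false

open AutomorphicForm IsDedekindDomain NumberField MeasureTheory

noncomputable section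

namespace Fermat.Agent.LT.T7.FPU534

open Fermat.Agent.LT.H556 Fermat.Agent.LT.H556.A0 Fermat.Agent.LT.T7 Fermat.Agent.LT

variable {K : Type} [Field K] [NumberField K]

theorem t2_GLv534 (v : HeightOneSpectrum (𝓞 K)) :
    T2Space (GL (Fin 2) (v.adicCompletion K)) := by
  have := H11.LC.t2Space_matrix_h11 (Fin 2) (v.adicCompletion K)
  infer_instance

/-- The normalised Haar measure of `GL₂(K_v)` is unique. -/
theorem isLocHaar_unique534 (v : HeightOneSpectrum (𝓞 K)) (n : ℕ)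
    (μ₁ μ₂ : @Measure (GL (Fin 2) (v.adicCompletion K)) (borel _))
    (h₁ : H305.IsLocHaar305 n μ₁) (h₂ : H305.IsLocHaar305 n μ₂) : μ₁ = μ₂ := by
  letI : MeasurableSpace (GL (Fin 2) (v.adicCompletion K)) := borel _
  haveI : BorelSpace (GL (Fin 2) (v.adicCompletion K)) := ⟨rfl⟩
  haveI := t2_GLv534 (K := K) v
  haveI := H11.LC.locallyCompactSpace_GL2_adicCompletion_h11 K v
  haveI := H159.secondCountable_GLv159 K v
  haveI : μ₁.IsHaarMeasure := h₁.1
  haveI : μ₂.IsHaarMeasure := h₂.1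
  have e := Measure.isMulLeftInvariant_eq_smul μ₁ μ₂
  have e1 : μ₁ {g | T6.InU n g} = (Measure.haarScalarFactor μ₁ μ₂ • μ₂) {g | T6.InU n g} := by
    rw [← e]
  rw [Measure.smul_apply, h₁.2, h₂.2] at e1
  have e2 : (Measure.haarScalarFactor μ₁ μ₂ : ENNReal) = 1 := by
    rw [ENNReal.smul_def, smul_eq_mul, mul_one] at e1
    exact e1.symm
  have e3 : Measure.haarScalarFactor μ₁ μ₂ = 1 := by exact_mod_cast e2
  rw [e, e3, one_smul]

section Iso

variable {k k' : Type} [Field k] [Field k'] [Valued k T6.Γ₀] [Valued k' T6.Γ₀]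

theorem val_symm534 (i : k ≃+* k') (hi : ∀ x : k, Valued.v (i x) = Valued.v x) (y : k') :
    Valued.v (i.symm y) = Valued.v y := by
  rw [← hi (i.symm y), RingEquiv.apply_symm_apply]

theorem continuous_glMap534 (i : k →+* k') (hi : ∀ x : k, Valued.v (i x) = Valued.v x) :
    Continuous (Matrix.GeneralLinearGroup.map (n := Fin 2) i) :=
  (H165.isoContC165 k k' 1 i one_pos (fun x => by rw [hi, pow_one])).2

/-- The isomorphism `GL₂(k) ≃* GL₂(k')`. -/
def glMulEquiv534 (i : k ≃+* k') : GL (Fin 2) k ≃* GL (Fin 2) k' where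
  toFun := Matrix.GeneralLinearGroup.map (n := Fin 2) (i : k →+* k')
  invFun := Matrix.GeneralLinearGroup.map (n := Fin 2) (i.symm : k' →+* k)
  left_inv g := by
    apply Units.ext
    ext a b
    simp [Matrix.GeneralLinearGroup.map_apply]
  right_inv g := by
    apply Units.ext
    ext a b
    simp [Matrix.GeneralLinearGroup.map_apply]
  map_mul' := map_mul _

theorem glMulEquiv_apply534 (i : k ≃+* k') (g : GL (Fin 2) k) :
    glMulEquiv534 i g = Matrix.GeneralLinearGroup.map (n := Fin 2) (i : k →+* k') g := rfl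

theorem glMulEquiv_symm_apply534 (i : k ≃+* k') (g : GL (Fin 2) k') :
    (glMulEquiv534 i).symm g
      = Matrix.GeneralLinearGroup.map (n := Fin 2) (i.symm : k' →+* k) g := rfl

/-- The homeomorphism `GL₂(k) ≃ GL₂(k')` of a valuation preserving isomorphism. -/
def glHomeo534 (i : k ≃+* k') (hi : ∀ x : k, Valued.v (i x) = Valued.v x) :
    GL (Fin 2) k ≃ₜ GL (Fin 2) k' where
  toEquiv := (glMulEquiv534 i).toEquiv
  continuous_toFun := continuous_glMap534 (i : k →+* k') hi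
  continuous_invFun := continuous_glMap534 (i.symm : k' →+* k) (val_symm534 i hi)

theorem inU_glMap534 (i : k →+* k') (hi : ∀ x : k, Valued.v (i x) = Valued.v x) (n : ℕ)
    (g : GL (Fin 2) k) :
    T6.InU n (Matrix.GeneralLinearGroup.map (n := Fin 2) i g) ↔ T6.InU n g := by
  have key : ∀ (h : GL (Fin 2) k) (a b : Fin 2),
      Valued.v ((Matrix.GeneralLinearGroup.map (n := Fin 2) i h :
          Matrix (Fin 2) (Fin 2) k') a b - (1 : Matrix (Fin 2) (Fin 2) k') a b)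
        = Valued.v ((h : Matrix (Fin 2) (Fin 2) k) a b - (1 : Matrix (Fin 2) (Fin 2) k) a b) := by
    intro h a b
    rw [← hi]
    congr 1
    rw [map_sub]
    congr 1
    by_cases hab : a = b
    · subst hab
      simp
    · simp [Matrix.one_apply_ne hab]
  have hinv : (Matrix.GeneralLinearGroup.map (n := Fin 2) i g)⁻¹
      = Matrix.GeneralLinearGroup.map (n := Fin 2) i g⁻¹ := (map_inv _ g).symm
  unfold T6.InU
  constructor
  · intro h a b
    have := h a b
    rw [hinv, key, key] at this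
    exact this
  · intro h a b
    rw [hinv, key, key]
    exact h a b

end Iso

/-- A valuation preserving isomorphism maps normalised Haar measures to normalised Haar
measures. -/
theorem isLocHaar_map534 {k k' : Type} [Field k] [Field k'] [Valued k T6.Γ₀] [Valued k' T6.Γ₀]
    (i : k ≃+* k') (hi : ∀ x : k, Valued.v (i x) = Valued.v x) (n : ℕ)
    (μ : @Measure (GL (Fin 2) k) (borel _)) (hμ : H305.IsLocHaar305 n μ) :
    H305.IsLocHaar305 n
      (@Measure.map _ _ (borel _) (borel _)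
        (Matrix.GeneralLinearGroup.map (n := Fin 2) (i : k →+* k')) μ) := by
  letI : MeasurableSpace (GL (Fin 2) k) := borel _
  haveI : BorelSpace (GL (Fin 2) k) := ⟨rfl⟩
  letI : MeasurableSpace (GL (Fin 2) k') := borel _
  haveI : BorelSpace (GL (Fin 2) k') := ⟨rfl⟩
  haveI : μ.IsHaarMeasure := hμ.1
  have hc := continuous_glMap534 (i : k →+* k') hi
  have hc' := continuous_glMap534 (i.symm : k' →+* k) (val_symm534 i hi)
  refine ⟨?_, ?_⟩
  · exact (glMulEquiv534 i).isHaarMeasure_map μ hc hc'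
  · have hemb : MeasurableEmbedding (Matrix.GeneralLinearGroup.map (n := Fin 2) (i : k →+* k')) :=
      (glHomeo534 i hi).measurableEmbedding
    rw [hemb.map_apply]
    have hset : (Matrix.GeneralLinearGroup.map (n := Fin 2) (i : k →+* k')) ⁻¹'
        {g | T6.InU n g} = {g | T6.InU n g} := by
      ext g
      exact inU_glMap534 (i : k →+* k') hi n g
    rw [hset]
    exact hμ.2

end Fermat.Agent.LT.T7.FPU534

end
end
-- ===== PACK-END LT/T7/H534/FinPartLoc.lean

-- ===== PACK-BEGIN LT/T7/H729/HaarSigmaR.lean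
section



/-!
# Row LT, tower T7, leaf T7.L2Q.1.H1.5.7.9 `H751.HaarSigmaRC751` (helper729, SPARE of row 2703)

OFF-MAIN.  PROVED, UNCONDITIONAL (no hole, nothing assumed).  ADDITIVE (new names only).
Spec: `LT/T7/H751/FactDownQSpec.lean` (helper751@9f5415940, sha256 aa280353), byte-identical
copy.  Mathlib only besides the Spec.

    haarSigmaRC729 : H751.HaarSigmaRC751

Route (docstring of the leaf): `GL₂(ℝ)` is `σ`-compact (closed in `M₂ × M₂ᵐᵒᵖ`), a Haar measure
is finite on compact sets; a closed subgroup is `σ`-compact and the inclusion is a measurable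
embedding.
-/

set_option autoImplicit false
set_option linter.style.haveILetI false

open AutomorphicForm IsDedekindDomain NumberField MeasureTheory

noncomputable section

namespace Fermat.Agent.LT.T7.HaarSigmaR729

open Fermat.Agent.LT.T6 Fermat.Agent.LT.T7 Fermat.Agent.LT.T7.H305

/-- A Haar measure (Borel) of a `σ`-compact group is `σ`-finite. -/
theorem sigmaFinite_haarR729 {G : Type} [Group G] [TopologicalSpace G] [IsTopologicalGroup G]
    [SigmaCompactSpace G] (μ : @Measure G (borel G))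
    (hμ : @Measure.IsHaarMeasure G _ _ (borel G) μ) : @SigmaFinite G (borel G) μ := by
  letI : MeasurableSpace G := borel G
  haveI : BorelSpace G := ⟨rfl⟩
  haveI := hμ
  infer_instance

/-- The image in the group of a Haar measure of a closed subgroup of a `σ`-compact group is
`σ`-finite. -/
theorem sigmaFinite_map_valR729 {G : Type} [Group G] [TopologicalSpace G]
    [IsTopologicalGroup G] [SigmaCompactSpace G] (T : Subgroup G) (hT : IsClosed (T : Set G))
    (μT : @Measure T (borel T)) (hμ : @Measure.IsHaarMeasure T _ _ (borel T) μT) :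
    @SigmaFinite G (borel G) (@Measure.map T G (borel T) (borel G) Subtype.val μT) := by
  letI : MeasurableSpace G := borel G
  haveI : BorelSpace G := ⟨rfl⟩
  letI : MeasurableSpace T := borel T
  haveI : BorelSpace T := ⟨rfl⟩
  haveI : SigmaCompactSpace T := hT.isClosedEmbedding_subtypeVal.sigmaCompactSpace
  haveI := hμ
  exact (hT.isClosedEmbedding_subtypeVal.measurableEmbedding).sigmaFinite_map

theorem sigmaCompact_GL2R729 : SigmaCompactSpace (GL (Fin 2) ℝ) := by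
  haveI : SigmaCompactSpace (Matrix (Fin 2) (Fin 2) ℝ) :=
    inferInstanceAs (SigmaCompactSpace (Fin 2 → Fin 2 → ℝ))
  haveI : SigmaCompactSpace (Matrix (Fin 2) (Fin 2) ℝ)ᵐᵒᵖ :=
    MulOpposite.opHomeomorph.symm.isClosedEmbedding.sigmaCompactSpace
  exact Units.isClosedEmbedding_embedProduct.sigmaCompactSpace

theorem isClosed_centR729 {H : Type} [Group H] [TopologicalSpace H] [IsTopologicalGroup H]
    [T2Space H] (γ : H) : IsClosed ((cent305 γ : Subgroup H) : Set H) := by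
  have h : ((cent305 γ : Subgroup H) : Set H) = {x : H | x⁻¹ * γ * x = γ} := rfl
  rw [h]
  exact isClosed_eq ((continuous_inv.mul continuous_const).mul continuous_id) continuous_const

/-- **LEAF T7.L2Q.1.H1.5.7.9 `H751.HaarSigmaRC751`.** -/
theorem haarSigmaRC729 : H751.HaarSigmaRC751 := by
  haveI := sigmaCompact_GL2R729
  exact ⟨fun μ hμ => sigmaFinite_haarR729 μ hμ,
    fun γ₀ μT hμT => sigmaFinite_map_valR729 _ (isClosed_centR729 γ₀) μT hμT⟩

end Fermat.Agent.LT.T7.HaarSigmaR729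

end

end
-- ===== PACK-END LT/T7/H729/HaarSigmaR.lean

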