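import Mathlib
import Fermat.Agent.Pack.LT4.E4L0
import Fermat.Agent.Pack.LT3.E23L1
import Fermat.Agent.Pack.LT3.E27L3
import Fermat.Agent.Pack.LT4.E4L1
import Fermat.Agent.Pack.LT3.E24L2
import Fermat.Agent.Pack.LT3.E25L2
import Fermat.Agent.Pack.LT3.E26L1
import Fermat.Agent.Pack.LT3.E26L2
import Fermat.Agent.Pack.LT4.E3L3
import Fermat.Agent.Pack.LT3.E22L2
import Fermat.Agent.Pack.LT3.E24L0
import Fermat.Agent.Pack.LT3.E29L3
import Fermat.Agent.Pack.LT3.E28L1
import Fermat.Agent.Pack.LT3.E28L0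
import Fermat.Agent.Pack.LT3.E26L0
import Fermat.Agent.Pack.LT4.E1L3
import Fermat.Agent.Pack.LT3.E6L1
import Fermat.Agent.Pack.LT2.E2L3
import Fermat.Agent.Pack.LT2.E13L0
import Fermat.Agent.Pack.LT3.E29L2
import Fermat.Agent.Pack.LT4.E4L2
import Fermat.Agent.Pack.LT4.E0L2
import Fermat.Agent.Pack.LT3.E28L3
import Fermat.Agent.Pack.LT3.E24L3
import Fermat.Agent.Pack.LT3.E7L3
import Fermat.Agent.Pack.LT3.E22L0
import Fermat.Agent.Pack.LT2.E9L3
import Fermat.Agent.Pack.LT4.E0L1
import Fermat.Agent.Pack.LT3.E26L3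
import Fermat.Agent.Pack.LT3.E23L3
import Fermat.Agent.Pack.LT4.E4L3

set_option linter.all false

-- ===== PACK-BEGIN LT/T7/H963/Bridge616.lean
section



/-!
# Row LT, tower T7, node `ClassModelC` (helper616): the leaves CM.01 `FinDimC616`, CM.03
`StabGC616`, CM.09 `SimpleC616` from the leaves of the node `SimpleC` (helper963, OFF-MAIN,
ADDITIVE)

    finDimC616_of  : H963.ClassFinC K' → CM616.FinDimC616 K K'
    stabGC616_of   : H963.ClassOpC K'  → CM616.StabGC616 K K'
    simpleC616_of  : H963.SimpleC K' → H963.ClassLinC K' → H963.ClassOpC K' → CM616.SimpleC616 K K'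

The context `Ctx616` gives the hypotheses of the core statements: `K'` is totally complex
(`IsReal.comap`), `𝔑₀ ≠ ⊥` (`𝔑₀ ≥ (𝔫 1) 𝒪_{K'}`, `𝔫 1 ≠ ⊥`), `r` is the generator of the
discrete ray (`frame'`), the orbit divides `𝔑₀` (`orbit_level`, `mem_S'`), `eigOf Φ` is spherical
of parameter `0`.
-/

set_option autoImplicit false
set_option linter.unusedSectionVars false
set_option linter.unusedVariables false

open IsDedekindDomain NumberField MeasureTheory AutomorphicForm
open Fermat.Agent.LT.H556.A0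

noncomputable section

namespace Fermat.Agent.LT.T7.H963

open Fermat.Agent.LT.T7.SU736 Fermat.Agent.LT.T7.CM616 Fermat.Agent.LT.H129
  Fermat.Agent.LT.T2.H333

variable {K K' : Type} [Field K] [NumberField K] [Field K'] [NumberField K'] [Algebra K K']

/-! ## 1. The context -/

theorem totCplx_up963 (h : TotCplx K) : ∀ w : InfinitePlace K', w.IsComplex := by
  intro w
  rw [← InfinitePlace.not_isReal_iff_isComplex]
  intro hw
  have h1 := InfinitePlace.IsReal.comap (algebraMap K K') hw
  exact InfinitePlace.not_isReal_iff_isComplex.mpr (h _) h1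

theorem isBad_one963 (Dt : L2Data K K') : Dt.IsBad (1 : G K') :=
  ⟨fun w => (trivAtInf_iff129 w 1).2 (map_one _), fun v _ => finComp_one333 v⟩

theorem eigOf_isSph0963 (Φ : HeckeEigensystem K' ℂ) : (eigOf Φ).IsSph0 := fun _ _ _ => rfl

theorem level_ne_bot963 {ℓ : ℕ} {Φ : HeckeEigensystem K' ℂ} {Dt : L2Data K K'}
    (hDt : IsL2Data ℓ Φ Dt) : Dt.𝔑₀ ≠ ⊥ := by
  intro h0
  have h1 := hDt.level_g 1 (isBad_one963 Dt)
  rw [h0, le_bot_iff] at h1
  have h2 : Dt.𝔫 1 ≠ ⊥ := (hDt.comp 1 (isBad_one963 Dt)).level_ne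
  apply h2
  have hinj : Function.Injective (algebraMap (𝓞 K) (𝓞 K')) :=
    FaithfulSMul.algebraMap_injective (𝓞 K) (𝓞 K')
  exact (Ideal.map_eq_bot_iff_of_injective hinj).1 h1

theorem rayGen963 {ℓ : ℕ} {Φ : HeckeEigensystem K' ℂ} {Dt : L2Data K K'}
    (hDt : IsL2Data ℓ Φ Dt) : T5.IsRayGen Dt.R'.r :=
  (hDt.comp 1 (isBad_one963 Dt)).frame'.ray

theorem orbit_dvd963 {ℓ : ℕ} {Φ : HeckeEigensystem K' ℂ} {Dt : L2Data K K'}
    (hDt : IsL2Data ℓ Φ Dt) : ∀ j < ℓ, (Dt.o j).asIdeal ∣ Dt.𝔑₀ :=
  fun j _ => (hDt.mem_S' (Dt.o j)).1 (hDt.orbit_level j)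

/-- `IsBadAt` for the base level is `IsBad`. -/
theorem isBad_of_isBadAt963 {ℓ : ℕ} {Φ : HeckeEigensystem K' ℂ} {Dt : L2Data K K'}
    (hDt : IsL2Data ℓ Φ Dt) {g : G K'} (hg : IsBadAt Dt.𝔑₀ ℓ Dt.o g) : Dt.IsBad g := by
  refine ⟨hg.1, fun v hv => hg.2 v ?_⟩
  rcases hv with hv | ⟨j, hj, rfl⟩
  · exact Or.inl fun hdvd => hv ((hDt.mem_S' v).2 hdvd)
  · exact Or.inr ⟨j, by rw [← hDt.deg]; exact hj, rfl⟩

/-! ## 2. The leaves of `ClassModelC` -/

/-- **CM.01 `FinDimC616`** from `ClassFinC`. -/
theorem finDimC616_of (h : ClassFinC K') : FinDimC616 K K' := by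
  intro ℓ Φ Dt hctx
  obtain ⟨W, hWfin, hW⟩ := h (totCplx_up963 hctx.cplx) Dt.𝔑₀ Dt.R'.r ℓ Dt.o (eigOf Φ)
    (level_ne_bot963 hctx.data) (rayGen963 hctx.data) (eigOf_isSph0963 Φ)
  haveI : Module.Finite ℂ W := hWfin
  have hle : cls616 Dt ℓ Φ ≤ W := Submodule.span_le.2 fun ψ hψ => hW ψ hψ
  exact Submodule.finiteDimensional_of_le hle

/-- **CM.03 `StabGC616`** from `ClassOpC`. -/
theorem stabGC616_of (h : ClassOpC K') : StabGC616 K K' := by
  intro ℓ Φ Dt hctx g Hg hg hHg ψ hψ
  exact (h Dt.𝔑₀ Dt.R'.r ℓ Dt.o (eigOf Φ) (level_ne_bot963 hctx.data) (rayGen963 hctx.data)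
    (orbit_dvd963 hctx.data) ψ hψ).1 g Hg (isBadAt_of_isBad hctx.data hg) hHg

/-- The class is a subspace: the span adds nothing. -/
theorem mem_cls616_iff (hlin : ClassLinC K') (ℓ : ℕ) (Φ : HeckeEigensystem K' ℂ)
    (Dt : L2Data K K') (hne : ∃ ψ₀ : G K' → ℂ, IsEigFn Dt.𝔑₀ Dt.R'.r ℓ Dt.o ψ₀ (eigOf Φ))
    (ψ : G K' → ℂ) : ψ ∈ cls616 Dt ℓ Φ ↔ IsEigFn Dt.𝔑₀ Dt.R'.r ℓ Dt.o ψ (eigOf Φ) := by
  obtain ⟨hadd, hsmul⟩ := hlin Dt.𝔑₀ Dt.R'.r ℓ Dt.o (eigOf Φ)
  constructor
  · intro h
    refine Submodule.span_induction (p := fun ψ _ => IsEigFn Dt.𝔑₀ Dt.R'.r ℓ Dt.o ψ (eigOf Φ))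
      (fun x hx => hx) ?_ (fun x y _ _ hx hy => hadd x y hx hy) (fun c x _ hx => hsmul c x hx) h
    obtain ⟨ψ₀, hψ₀⟩ := hne
    have h0 := hsmul 0 ψ₀ hψ₀
    have e : (fun x => (0 : ℂ) * ψ₀ x) = (0 : G K' → ℂ) := by
      funext x
      simp
    rw [e] at h0
    exact h0
  · intro h
    exact Submodule.subset_span h

/-- **CM.09 `SimpleC616`** from `SimpleC`, `ClassLinC`, `ClassOpC`. -/
theorem simpleC616_of (hS : SimpleC K') (hlin : ClassLinC K') (hop : ClassOpC K') :
    SimpleC616 K K' := by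
  classical
  intro ℓ Φ Dt hctx W hWle hWG hWI
  have hcx := totCplx_up963 (K' := K') hctx.cplx
  have h𝔫 := level_ne_bot963 hctx.data
  have hr := rayGen963 hctx.data
  have ho := orbit_dvd963 hctx.data
  have hC := eigOf_isSph0963 Φ
  by_cases hbot : W = ⊥
  · exact Or.inl hbot
  right
  obtain ⟨ψ, hψW, hψ0⟩ := (Submodule.ne_bot_iff W).1 hbot
  have hmem := mem_cls616_iff hlin ℓ Φ Dt
  -- `ψ` is in the class; the class is not empty
  have hψcl : ψ ∈ cls616 Dt ℓ Φ := hWle hψW
  have hne : ∃ ψ₀ : G K' → ℂ, IsEigFn Dt.𝔑₀ Dt.R'.r ℓ Dt.o ψ₀ (eigOf Φ) := by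
    by_contra hemp
    have hspan : cls616 Dt ℓ Φ = ⊥ := by
      rw [eq_bot_iff]
      refine Submodule.span_le.2 fun x hx => ?_
      exact absurd ⟨x, hx⟩ hemp
    rw [hspan, Submodule.mem_bot] at hψcl
    exact hψ0 hψcl
  have hψE : IsEigFn Dt.𝔑₀ Dt.R'.r ℓ Dt.o ψ (eigOf Φ) := (hmem hne ψ).1 hψcl
  have hψne : ∃ x : G K', ψ x ≠ 0 := by
    by_contra h
    apply hψ0
    funext x
    by_contra hx
    exact h ⟨x, hx⟩
  have key : ∀ f : G K' → ℂ, Reach Dt.𝔑₀ ℓ Dt.o ψ f → f ∈ W := by
    intro f hf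
    induction hf with
    | base => exact hψW
    | add _ _ ih ih' => exact W.add_mem ih ih'
    | smul c _ ih => exact W.smul_mem c ih
    | bad g H hg hH _ ih => exact hWG g H (isBad_of_isBadAt963 hctx.data hg) hH _ ih
    | iw j h H hj hh hH _ ih =>
      refine hWI j hj H (fun x hx => ?_) (fun χ hχ => ?_) _ ih
      · obtain ⟨k₁, k₂, hk₁, hk₂, rfl⟩ := hH.1 x hx
        exact isLocalAtFin_mul129 (isLocalAtFin_mul129 hk₁.1 hh) hk₂.1
      · exact (hmem hne _).2
          ((hop Dt.𝔑₀ Dt.R'.r ℓ Dt.o (eigOf Φ) h𝔫 hr ho χ ((hmem hne χ).1 hχ)).2 j h H hj hh hH)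
  refine le_antisymm hWle ?_
  refine Submodule.span_le.2 fun ψ' hψ' => ?_
  exact key ψ' (hS hcx Dt.𝔑₀ Dt.R'.r ℓ Dt.o (eigOf Φ) h𝔫 hr ho hC ψ ψ' hψE hψ' hψne)

end Fermat.Agent.LT.T7.H963

end
end
-- ===== PACK-END LT/T7/H963/Bridge616.lean

-- ===== PACK-BEGIN LT/T7/H963/BridgeU675.lean
section



/-!
# Row LT, tower T7, node `ClassModelUC` (core form, helper675 on `H29.UpData K'`): the leaves
CM.01 `FinDimUC675`, CM.03 `StabGUC675`, CM.09 `SimpleUC675` from the leaves of the node `SimpleC`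
(helper963, OFF-MAIN, ADDITIVE)

    finDimUC675_of  : H963.ClassFinC K' → CMU675.FinDimUC675 K'
    stabGUC675_of   : H963.ClassOpC K'  → CMU675.StabGUC675 K'
    simpleUC675_of  : H963.SimpleC K' → H963.ClassLinC K' → H963.ClassOpC K' → CMU675.SimpleUC675 K'

The same proofs as `Bridge616.lean` after the renaming `Dt ↦ U`: the context `CtxU675` gives
`K'` totally complex, `𝔑₀ ≠ ⊥` (`𝔑₀ ≥ 𝔑 1 ≠ ⊥`), `r` the generator of the discrete ray
(`frame'`), the orbit divides `𝔑₀` (`orbit_level`, `mem_S'`); `eigOf Φ` is spherical of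
parameter `0`.
-/

set_option autoImplicit false
set_option linter.unusedSectionVars false
set_option linter.unusedVariables false

open IsDedekindDomain NumberField MeasureTheory AutomorphicForm
open Fermat.Agent.LT.H556.A0

noncomputable section

namespace Fermat.Agent.LT.T7.H963

open Fermat.Agent.LT.T7.SU736 Fermat.Agent.LT.T7.CM616 Fermat.Agent.LT.T7.CMU675
  Fermat.Agent.LT.H129 Fermat.Agent.LT.T2.H333

variable {K' : Type} [Field K'] [NumberField K']

/-! ## 1. The context, core form -/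

theorem isBad_oneU963 (U : H29.UpData K') : U.IsBad (1 : G K') :=
  ⟨fun w => (trivAtInf_iff129 w 1).2 (map_one _), fun v _ => finComp_one333 v⟩

theorem level_ne_botU963 {ℓ : ℕ} {Φ : HeckeEigensystem K' ℂ} {U : H29.UpData K'}
    (hU : H29.IsUpData ℓ Φ U) : U.𝔑₀ ≠ ⊥ := by
  intro h0
  have h1 := hU.level_g 1 (isBad_oneU963 U)
  rw [h0, le_bot_iff] at h1
  exact hU.level_ne 1 (isBad_oneU963 U) h1

theorem rayGenU963 {ℓ : ℕ} {Φ : HeckeEigensystem K' ℂ} {U : H29.UpData K'}
    (hU : H29.IsUpData ℓ Φ U) : T5.IsRayGen U.R'.r :=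
  hU.frame'.ray

theorem orbit_dvdU963 {ℓ : ℕ} {Φ : HeckeEigensystem K' ℂ} {U : H29.UpData K'}
    (hU : H29.IsUpData ℓ Φ U) : ∀ j < ℓ, (U.o j).asIdeal ∣ U.𝔑₀ :=
  fun j _ => (hU.mem_S' (U.o j)).1 (hU.orbit_level j)

/-- `IsBadAt` for the base level is `IsBad`. -/
theorem isBad_of_isBadAtU963 {ℓ : ℕ} {Φ : HeckeEigensystem K' ℂ} {U : H29.UpData K'}
    (hU : H29.IsUpData ℓ Φ U) {g : G K'} (hg : IsBadAt U.𝔑₀ ℓ U.o g) : U.IsBad g := by
  refine ⟨hg.1, fun v hv => hg.2 v ?_⟩
  rcases hv with hv | ⟨j, hj, rfl⟩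
  · exact Or.inl fun hdvd => hv ((hU.mem_S' v).2 hdvd)
  · exact Or.inr ⟨j, by rw [← hU.deg]; exact hj, rfl⟩

/-- `IsBad` is `IsBadAt` for the base level. -/
theorem isBadAt_of_isBadU963 {ℓ : ℕ} {Φ : HeckeEigensystem K' ℂ} {U : H29.UpData K'}
    (hU : H29.IsUpData ℓ Φ U) {g : G K'} (hg : U.IsBad g) : IsBadAt U.𝔑₀ ℓ U.o g := by
  refine ⟨hg.1, fun v hv => hg.2 v ?_⟩
  rcases hv with hv | ⟨j, hj, rfl⟩
  · exact Or.inl fun hmem => hv ((hU.mem_S' v).1 hmem)
  · exact Or.inr ⟨j, by rw [hU.deg]; exact hj, rfl⟩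

/-! ## 2. The leaves of `ClassModelUC` -/

/-- **CM.01 `FinDimUC675`** from `ClassFinC`. -/
theorem finDimUC675_of (h : ClassFinC K') : FinDimUC675 K' := by
  intro ℓ Φ U hctx
  obtain ⟨W, hWfin, hW⟩ := h hctx.cplx U.𝔑₀ U.R'.r ℓ U.o (eigOf Φ)
    (level_ne_botU963 hctx.data) (rayGenU963 hctx.data) (eigOf_isSph0963 Φ)
  haveI : Module.Finite ℂ W := hWfin
  have hle : clsU675 U ℓ Φ ≤ W := Submodule.span_le.2 fun ψ hψ => hW ψ hψ
  exact Submodule.finiteDimensional_of_le hle

/-- **CM.03 `StabGUC675`** from `ClassOpC`. -/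
theorem stabGUC675_of (h : ClassOpC K') : StabGUC675 K' := by
  intro ℓ Φ U hctx g Hg hg hHg ψ hψ
  exact (h U.𝔑₀ U.R'.r ℓ U.o (eigOf Φ) (level_ne_botU963 hctx.data) (rayGenU963 hctx.data)
    (orbit_dvdU963 hctx.data) ψ hψ).1 g Hg (isBadAt_of_isBadU963 hctx.data hg) hHg

/-- The class is a subspace: the span adds nothing. -/
theorem mem_classSp_iff963 (hlin : ClassLinC K') (𝔫 : Ideal (𝓞 K')) (r : G K') (ℓ : ℕ)
    (o : ℕ → HeightOneSpectrum (𝓞 K')) (C : EigData K')
    (hne : ∃ ψ₀ : G K' → ℂ, IsEigFn 𝔫 r ℓ o ψ₀ C)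
    (ψ : G K' → ℂ) : ψ ∈ classSp616 𝔫 r ℓ o C ↔ IsEigFn 𝔫 r ℓ o ψ C := by
  obtain ⟨hadd, hsmul⟩ := hlin 𝔫 r ℓ o C
  constructor
  · intro h
    refine Submodule.span_induction (p := fun ψ _ => IsEigFn 𝔫 r ℓ o ψ C)
      (fun x hx => hx) ?_ (fun x y _ _ hx hy => hadd x y hx hy) (fun c x _ hx => hsmul c x hx) h
    obtain ⟨ψ₀, hψ₀⟩ := hne
    have h0 := hsmul 0 ψ₀ hψ₀
    have e : (fun x => (0 : ℂ) * ψ₀ x) = (0 : G K' → ℂ) := by
      funext x
      simp
    rw [e] at h0
    exact h0
  · intro h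
    exact Submodule.subset_span h

/-- **CM.09 `SimpleUC675`** from `SimpleC`, `ClassLinC`, `ClassOpC`. -/
theorem simpleUC675_of (hS : SimpleC K') (hlin : ClassLinC K') (hop : ClassOpC K') :
    SimpleUC675 K' := by
  classical
  intro ℓ Φ U hctx W hWle hWG hWI
  have hcx := hctx.cplx
  have h𝔫 := level_ne_botU963 hctx.data
  have hr := rayGenU963 hctx.data
  have ho := orbit_dvdU963 hctx.data
  have hC := eigOf_isSph0963 Φ
  by_cases hbot : W = ⊥
  · exact Or.inl hbot
  right
  obtain ⟨ψ, hψW, hψ0⟩ := (Submodule.ne_bot_iff W).1 hbot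
  have hmem := mem_classSp_iff963 hlin U.𝔑₀ U.R'.r ℓ U.o (eigOf Φ)
  -- `ψ` is in the class; the class is not empty
  have hψcl : ψ ∈ clsU675 U ℓ Φ := hWle hψW
  have hne : ∃ ψ₀ : G K' → ℂ, IsEigFn U.𝔑₀ U.R'.r ℓ U.o ψ₀ (eigOf Φ) := by
    by_contra hemp
    have hspan : clsU675 U ℓ Φ = ⊥ := by
      rw [eq_bot_iff]
      refine Submodule.span_le.2 fun x hx => ?_
      exact absurd ⟨x, hx⟩ hemp
    rw [hspan, Submodule.mem_bot] at hψcl
    exact hψ0 hψcl
  have hψE : IsEigFn U.𝔑₀ U.R'.r ℓ U.o ψ (eigOf Φ) := (hmem hne ψ).1 hψcl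
  have hψne : ∃ x : G K', ψ x ≠ 0 := by
    by_contra h
    apply hψ0
    funext x
    by_contra hx
    exact h ⟨x, hx⟩
  have key : ∀ f : G K' → ℂ, Reach U.𝔑₀ ℓ U.o ψ f → f ∈ W := by
    intro f hf
    induction hf with
    | base => exact hψW
    | add _ _ ih ih' => exact W.add_mem ih ih'
    | smul c _ ih => exact W.smul_mem c ih
    | bad g H hg hH _ ih => exact hWG g H (isBad_of_isBadAtU963 hctx.data hg) hH _ ih
    | iw j h H hj hh hH _ ih =>
      refine hWI j hj H (fun x hx => ?_) (fun χ hχ => ?_) _ ih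
      · obtain ⟨k₁, k₂, hk₁, hk₂, rfl⟩ := hH.1 x hx
        exact isLocalAtFin_mul129 (isLocalAtFin_mul129 hk₁.1 hh) hk₂.1
      · exact (hmem hne _).2
          ((hop U.𝔑₀ U.R'.r ℓ U.o (eigOf Φ) h𝔫 hr ho χ ((hmem hne χ).1 hχ)).2 j h H hj hh hH)
  refine le_antisymm hWle ?_
  refine Submodule.span_le.2 fun ψ' hψ' => ?_
  exact key ψ' (hS hcx U.𝔑₀ U.R'.r ℓ U.o (eigOf Φ) h𝔫 hr ho hC ψ ψ' hψE hψ' hψne)

end Fermat.Agent.LT.T7.H963

end
end
-- ===== PACK-END LT/T7/H963/BridgeU675.lean

-- ===== PACK-BEGIN LT/T7/H930/CMLeaves.lean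
section




/-!
# Row LT, asset T7.M5 (helper930): four leaves of the cut `ClassModelC` of helper616

OFF-MAIN.  ADDITIVE.  Statements: `T7/H616/ClassModelSpec.lean` (helper616@6a81e5a09, sha256
8568bae74116f37c), byte-identical copy; on `T7/H736/{SpecUp faf14765, NonVan 9144a159}.lean`
(helper736@c1525b2e3).  UNCONDITIONAL, VERBATIM:

* `stabSC930   : CM616.StabSC616 K K'`   (CM.04: `R(σ)`, `R(σ)⁻¹` preserve the class space);
* `locCommC930 : CM616.LocCommC616 K K'` (CM.06: elements local at `o i ≠ o j` commute);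
* `locMoveC930 : CM616.LocMoveC616 K K'` (CM.07: `σ⁻¹` moves `o (j+1)` to `o j`, `o 0` to
  `o (ℓ-1)`);
* `powC930     : CM616.PowC616 K K'`     (CM.08: `σ⁻ℓ = 1` on `GL₂(𝔸_{K'})`).

One-field lemmas: `commute_of_isLocalAtFin930`, `isLocalAtFin_onGinv930`, `orbit_injOn930`
(the places `o 0, …, o (l-1)` of an orbit are pairwise different).
-/

set_option autoImplicit false

open AutomorphicForm IsDedekindDomain NumberField MeasureTheory
open scoped MatrixGroups ComplexConjugate

noncomputable section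

namespace Fermat.Agent.LT.T7.H930

open Fermat.Agent.LT.H556 Fermat.Agent.LT.H556.A0 Fermat.Agent.LT.T1.H930
open Fermat.Agent.LT.T7 Fermat.Agent.LT.T5 Fermat.Agent.LT.T7.SU736 Fermat.Agent.LT.T7.CM616

attribute [local instance] Fermat.Agent.LT.T5.instMeasurableSpaceG

section OneField

variable {K : Type} [Field K] [NumberField K]

open Fermat.Agent.LT.H129 in
/-- Elements supported at two different finite places commute. -/
theorem commute_of_isLocalAtFin930 {v v' : HeightOneSpectrum (𝓞 K)} (hvv' : v ≠ v') {h h' : G K}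
    (hh : IsLocalAtFin v h) (hh' : IsLocalAtFin v' h') : h * h' = h' * h := by
  rw [isLocalAtFin_iff129] at hh hh'
  apply G_ext129
  · intro w
    rw [map_mul, map_mul, hh.1 w, hh'.1 w]
  · intro u
    rw [map_mul, map_mul]
    by_cases hu : u = v
    · have hu' : u ≠ v' := fun e => hvv' (hu.symm.trans e)
      rw [hh'.2 u hu', mul_one, one_mul]
    · rw [hh.2 u hu, mul_one, one_mul]

theorem isLocalAtFin_onGinv930 (s : AdelicAut K) (w : HeightOneSpectrum (𝓞 K)) (g : G K) :
    IsLocalAtFin w (s.onGinv g) ↔ IsLocalAtFin (finImg930 s w) g := by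
  rw [onGinv_eq_glAdeleEquiv930, isLocalAtFin_glAdeleEquiv930]

/-- The places of an orbit are pairwise different. -/
theorem orbit_injOn930 (s : AdelicAut K) (o : ℕ → HeightOneSpectrum (𝓞 K))
    (ho : ∀ j : ℕ, PlaceRel s (o j) (o (j + 1))) (l : ℕ)
    (hne : ∀ j : ℕ, 0 < j → j < l → o j ≠ o 0) :
    ∀ i j : ℕ, i < j → j < l → o i ≠ o j := by
  intro i
  induction i with
  | zero =>
    intro j hij hj e
    exact hne j hij hj e.symm
  | succ i ih =>
    intro j hij hj e
    obtain ⟨m, rfl⟩ : ∃ m, j = m + 1 := ⟨j - 1, by omega⟩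
    have h1 : finPull930 s.σ (o (i + 1)) = o i := orbit_pred930 s o ho i
    have h2 : finPull930 s.σ (o (m + 1)) = o m := orbit_pred930 s o ho m
    have e' : o i = o m := by rw [← h1, ← h2, e]
    exact ih m (by omega) (by omega) e'

end OneField

section Leaves

variable {K K' : Type} [Field K] [NumberField K] [Field K'] [NumberField K'] [Algebra K K']

/-- **LEAF CM.04 = STAB-S.** -/
theorem stabSC930 : StabSC616 K K' := by
  intro ℓ Φ Dt hctx ψ hψ
  have hU := H29.isUpData_upOf hctx.data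
  have hB : AutPreserves (H29.upOf Dt).s (H29.upOf Dt).𝔑₀ (H29.upOf Dt).R'.μ (H29.upOf Dt).R'.r :=
    hctx.stable
  exact ⟨up_class_Rsig930 hB hU hψ, up_class_RsigInv930 hB hU hψ⟩

/-- **LEAF CM.06 = LOC-COMM.** -/
theorem locCommC930 : LocCommC616 K K' := by
  intro ℓ Φ Dt hctx i hi j hj hij h h' hh hh'
  have hinj := orbit_injOn930 Dt.s Dt.o hctx.data.orbit_rel ℓ hctx.data.orbit_ne
  have hne : Dt.o i ≠ Dt.o j := by
    rcases Nat.lt_or_gt_of_ne hij with h1 | h1
    · exact hinj i j h1 hj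
    · exact fun e => hinj j i h1 hi e.symm
  exact commute_of_isLocalAtFin930 hne hh hh'

/-- **LEAF CM.07 = LOC-MOVE.** -/
theorem locMoveC930 : LocMoveC616 K K' := by
  intro ℓ Φ Dt hctx
  refine ⟨fun j _ h hh => ?_, fun h hh => ?_⟩
  · rw [isLocalAtFin_onGinv930, orbit_succ930 Dt.s Dt.o hctx.data.orbit_rel j]
    exact hh
  · rw [isLocalAtFin_onGinv930, orbit_succ930 Dt.s Dt.o hctx.data.orbit_rel (ℓ - 1)]
    have hpos : 0 < ℓ := hctx.cyc.prime.pos
    have e : ℓ - 1 + 1 = 0 + ℓ := by omega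
    rw [e, l2_orbit_periodic930 hctx.data 0]
    exact hh

/-- **LEAF CM.08 = POW.** -/
theorem powC930 : PowC616 K K' := by
  intro ℓ Φ Dt hctx x
  exact onGinv_iterate_eq930 Dt.s ℓ (l2_cyc930 hctx.data).pow_eq x

example : StabSC616 K K' := stabSC930
example : LocCommC616 K K' := locCommC930
example : LocMoveC616 K K' := locMoveC930
example : PowC616 K K' := powC930

end Leaves

end Fermat.Agent.LT.T7.H930

end
end
-- ===== PACK-END LT/T7/H930/CMLeaves.lean

-- ===== PACK-BEGIN LT/T7/H817/NonVanOpen.lean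
section









/-!
# Row LT, tower T7, node T7.L2.2.N `NonVanC561` (helper817, registry row 2191, OFF-MAIN)

THE STATE OF THE NODE: everything which is published and proved is plugged in ONE import closure;
what remains are the open leaves of the cut of helper616 (`ClassModelSpec.lean`, sha 8568bae7) in
the form of helper963 (`Simple.lean`).

    classModelC_open817 : H963.ClassFinC K' → H963.ClassLinC K' → H963.ClassOpC K'
        → H963.SimpleC K' → CM616.NontrivC616 K K' → CM616.MulGC616 K K' → SU736.ClassModelC K K'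
    nonVanC_open817     : (the same six) → SU736.NonVanC K K'
    nonVanC561_open817  : (the same six) → H561.NonVanC561 K K'

Plugged: CM.04, CM.06, CM.07, CM.08 (helper930 `CMLeaves.lean`), CM.05 (helper887 `CommGI.lean`),
CM.11 (helper440 `Dict.lean`), the bridges CM.01, CM.03, CM.09 (helper963 `Bridge616.lean`), the top
`classModelC_of616` (helper616), `SU736.nonVanC_of` (helper736), `sigmaC389` (helper389),
`iwSysC701` (helper701), the adapter `nonVanC561_of817`.  Nothing is assumed; no hole.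
-/

set_option autoImplicit false

namespace Fermat.Agent.LT.T7.H817

open Fermat.Agent.LT.T7

variable (K K' : Type) [Field K] [NumberField K] [Field K'] [NumberField K'] [Algebra K K']

/-- The node `ClassModelC` of helper736 from its six open leaves. -/
theorem classModelC_open817 (hFin : H963.ClassFinC K') (hLin : H963.ClassLinC K')
    (hOp : H963.ClassOpC K') (hSim : H963.SimpleC K') (hNon : CM616.NontrivC616 K K')
    (hMul : CM616.MulGC616 K K') : SU736.ClassModelC K K' :=
  CM616.classModelC_of616 (H963.finDimC616_of hFin) hNon (H963.stabGC616_of hOp)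
    H930.stabSC930 (H887.commGIC887 K K') H930.locCommC930 H930.locMoveC930 H930.powC930
    (H963.simpleC616_of hSim hLin hOp) hMul
    (H440.dictC_of440 K K' (H963.stabGC616_of hOp) H930.stabSC930)

/-- The node `NonVanC` of helper736 from the six open leaves. -/
theorem nonVanC_open817 (hFin : H963.ClassFinC K') (hLin : H963.ClassLinC K')
    (hOp : H963.ClassOpC K') (hSim : H963.SimpleC K') (hNon : CM616.NontrivC616 K K')
    (hMul : CM616.MulGC616 K K') : SU736.NonVanC K K' :=
  SU736.nonVanC_of (classModelC_open817 K K' hFin hLin hOp hSim hNon hMul)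

/-- **Registry row 2191**: the node `NonVanC561` of helper561 from the six open leaves. -/
theorem nonVanC561_open817 (hFin : H963.ClassFinC K') (hLin : H963.ClassLinC K')
    (hOp : H963.ClassOpC K') (hSim : H963.SimpleC K') (hNon : CM616.NontrivC616 K K')
    (hMul : CM616.MulGC616 K K') : H561.NonVanC561 K K' :=
  nonVanC561_of817 K K' (nonVanC_open817 K K' hFin hLin hOp hSim hNon hMul)
    (H389.sigmaC389 K K') (H701.iwSysC701 K')

end Fermat.Agent.LT.T7.H817

end
-- ===== PACK-END LT/T7/H817/NonVanOpen.lean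

-- ===== PACK-BEGIN LT/T7/H736/Port/Rsig.lean
section




/-!
# Row LT, tower T7, node T7.L2.2 `SpecUpC`: the leaves `SigmaC561` (B3) and `StabSC616` (CM.04)
# IN CORE FORM (helper736, from the core asset of helper930)

OFF-MAIN.  PROVED, UNCONDITIONAL, no hole, nothing assumed.  ADDITIVE (namespace
`Fermat.Agent.LT.T7.PU736`).

    sigmaC_core : CU736.SigmaC561 K'        stabSC_core : CU736.StabSC616 K'

Both are the lemmas of helper930 for the upstairs data (`T7/H930/RsigUp.lean` aa7b3d43: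
`up_isEigFn_Rsig930`, `up_agreeOut_move930`, `up_mem_S'_pull930`, `up_class_Rsig930`,
`up_class_RsigInv930`); the cyclic proofs are those of helper389 (`sigmaC389`) and helper930
(`stabSC930`).  The stability of the level group of the base level gives `T5.AutPreserves` at the
base level (the other fields at the level of the bad element `1`).  The forms of record
(`UB675.SigmaUC675`, `CMU675.StabSUC675`) follow by `T7/H736/Core/Glue.lean`.
-/

set_option autoImplicit false

open AutomorphicForm IsDedekindDomain NumberField MeasureTheory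
open scoped ComplexConjugate

noncomputable section

namespace Fermat.Agent.LT.T7.PU736

open Fermat.Agent.LT.H556 Fermat.Agent.LT.H556.A0 Fermat.Agent.LT.T1.H930
open Fermat.Agent.LT.T7 Fermat.Agent.LT.T5 Fermat.Agent.LT.T7.H930

attribute [local instance] Fermat.Agent.LT.T5.instMeasurableSpaceG

section Leaves

variable {K' : Type} [Field K'] [NumberField K']

/-- Level-stability of the base level gives `T5.AutPreserves` at the base level. -/
theorem baseAut_core {ℓ : ℕ} {Φ : HeckeEigensystem K' ℂ} {U : H29.UpData K'}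
    (hU : H29.IsUpData ℓ Φ U) (hst : CU736.BaseStable561 U) :
    AutPreserves U.s U.𝔑₀ U.R'.μ U.R'.r where
  left_inverse := (hU.aut 1 (up_isBad_one930 U)).left_inverse
  right_inverse := (hU.aut 1 (up_isBad_one930 U)).right_inverse
  rat := (hU.aut 1 (up_isBad_one930 U)).rat
  cont := (hU.aut 1 (up_isBad_one930 U)).cont
  measure := (hU.aut 1 (up_isBad_one930 U)).measure
  ray := (hU.aut 1 (up_isBad_one930 U)).ray
  slab := (hU.aut 1 (up_isBad_one930 U)).slab
  level := hst
  arch := (hU.aut 1 (up_isBad_one930 U)).arch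

/-- The move of the eigen-data is compatible with the agreement outside `S'`. -/
theorem agreeOut_move_core {ℓ : ℕ} {Φ : HeckeEigensystem K' ℂ} {U : H29.UpData K'}
    (hU : H29.IsUpData ℓ Φ U) {C C' : EigData K'} (hC : C.AgreeOut U.S' C') :
    (eigMove930 U.s C).AgreeOut U.S' (eigMove930 U.s C') :=
  ⟨fun w hw => hC.1 (finPull930 U.s.σ w) (fun hm => hw ((up_mem_S'_pull930 hU w).1 hm)),
    fun w d hd => hC.2 (infPull930 U.s.σ w) d hd⟩

variable (K')

/-- **LEAF T7.L2.2.B3 = SIGMA, core form.** -/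
theorem sigmaC_core : CU736.SigmaC561 K' := by
  intro ℓ _ _ Φ _ U hU hst
  exact ⟨eigMove930 U.s, fun _ _ hC => agreeOut_move_core hU hC,
    fun _ _ hψ => up_isEigFn_Rsig930 (baseAut_core hU hst) hU hψ,
    up_agreeOut_move930 hU ⟨fun _ _ => ⟨rfl, rfl⟩, fun _ _ _ => rfl⟩⟩

/-- **LEAF CM.04 = STAB-S, core form.** -/
theorem stabSC_core : CU736.StabSC616 K' := by
  intro ℓ Φ U hctx ψ hψ
  exact ⟨up_class_Rsig930 hctx.stable hctx.data hψ, up_class_RsigInv930 hctx.stable hctx.data hψ⟩

end Leaves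

end Fermat.Agent.LT.T7.PU736

end

end
-- ===== PACK-END LT/T7/H736/Port/Rsig.lean

-- ===== PACK-BEGIN LT/T7/H736/Port/All.lean
section






/-!
# Row LT, tower T7, node T7.L2.2 `SpecUpC`: SEVEN LEAVES CLOSED IN CORE FORM (helper736)

OFF-MAIN.  PROVED, UNCONDITIONAL, no hole, nothing assumed.  ADDITIVE.

    blocksAsmC_core : CU736.BlocksAsmC561 K'     (B7;    port of helper157)
    sigmaC_core     : CU736.SigmaC561 K'         (B3;    core asset of helper930, as helper389)
    offWC_core      : CU736.OffWC561 K'          (B6;    port of helper313)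
    stabGC_core     : CU736.StabGC616 K'         (CM.03; port of helper409)
    stabSC_core     : CU736.StabSC616 K'         (CM.04; core asset of helper930)
    commGIC_core    : CU736.CommGIC616 K'        (CM.05; port of helper887)
    dictC_core      : CU736.DictC616 K'          (CM.11; port of helper440, from CM.03 + CM.04)

The forms of record (`UB675.…UC675`, `CMU675.…UC675`) and the forms of helper865 follow by
`T7/H736/Core/Glue.lean` (`GL736.X_cu_r`, `GL736.X_r_d`).
-/

set_option autoImplicit false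

noncomputable section

namespace Fermat.Agent.LT.T7.PU736

variable (K' : Type) [Field K'] [NumberField K']

theorem blocksAsmC_core : CU736.BlocksAsmC561 K' := blocksAsmC157 K'

theorem offWC_core : CU736.OffWC561 K' := offWC313 K'

theorem stabGC_core : CU736.StabGC616 K' := stabGC409 K'

theorem commGIC_core : CU736.CommGIC616 K' := commGIC887 K'

theorem dictC_core : CU736.DictC616 K' := dictC_of440 K' (stabGC_core K') (stabSC_core K')

end Fermat.Agent.LT.T7.PU736

end

end
-- ===== PACK-END LT/T7/H736/Port/All.lean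

-- ===== PACK-BEGIN LT/T7/H115/NatUp.lean
section




/-!
# Row LT, tower T7, leaf T7.L2.1.H2a.B.1 `PB57.NatUpC57` (registry row 2792, helper115)

OFF-MAIN.  `natUpC115 K K' LB : PB57.NatUpC57 K K' LB` VERBATIM against the byte-identical copy
of `LT/T7/H57/PairBSpec.lean` (helper57@6af65419a, sha256 40309edd), UNCONDITIONAL, for EVERY
shape `LB` (the shape is not used).

Proof.  Plug of the closed tool `H193.killing_of_torus193` (helper193, `T7/H193/NatTools.lean`)
with `R = B.R'`, `𝔑 = 𝔫 𝒪_{K'}`, `𝔑₀ = B.𝔑₀`, `l = ℓ`, orbit `B.o`, and `T1.t1Out K'`: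

* torus data for the level `𝔫 𝒪_{K'}` are torus data for `𝔑₀` (`H193.isTorusData_mono193`);
* `H193.IsBiHInv` is `H893.IsUInv` verbatim;
* `up2_op`: an eigenfunction is continuous and invariant under the positive scalars at infinity
  (`IsWFn.cusp.cont`, `IsWFn.arch_scalar`), so `R(φ♮) ψ = R(φ) ψ = c₂ ψ`;
* `up2_supp`: if `φ♮(y) ≠ 0` then `φ(y a(t)⁻¹) ≠ 0` for some `t ∈ D`; `a(t)` is trivial at the
  finite places, so `y` is Iwahori along the orbit and agrees outside the orbit with a point of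
  the compact set `C · a(closure D)` (`isIwSupported_nat115`, one field, any torus data).

The dual lemma for the leaf downstairs `PB57.NatDnC57` uses the same two tools; only
`isIwSupported_nat115` and `exists_ne_of_nat_ne115` are shared.  ADDITIVE: new names only, all
suffixed `115`, namespace `Fermat.Agent.LT.T7.H115`.  No equation lemma of an imported definition
is realised here.
-/

set_option autoImplicit false
set_option linter.unusedSectionVars false
set_option linter.unusedVariables false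

open AutomorphicForm IsDedekindDomain NumberField MeasureTheory
open scoped ComplexConjugate

noncomputable section

namespace Fermat.Agent.LT.T7.H115

open Fermat.Agent.LT.H556 Fermat.Agent.LT.H556.A0 Fermat.Agent.LT Fermat.Agent.LT.T7
open Fermat.Agent.LT.T7.H893 Fermat.Agent.LT.T7.Q797

attribute [local instance] Fermat.Agent.LT.T5.instMeasurableSpaceG

section OneField

variable {K : Type} [Field K] [NumberField K]

/-- If the torus mean does not vanish at `y`, the function does not vanish at some `y a(t)⁻¹`,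
`t ∈ D`. -/
theorem exists_ne_of_nat_ne115 {a : (InfinitePlace K → ℝ) → G K}
    {D : Set (InfinitePlace K → ℝ)} (hDm : MeasurableSet D) {φ : G K → ℂ} {y : G K}
    (h : H193.nat193 a D φ y ≠ 0) : ∃ t ∈ D, φ (y * (a t)⁻¹) ≠ 0 := by
  by_contra hcon
  apply h
  have h0 : ∀ t ∈ D, φ (y * (a t)⁻¹) = 0 := fun t ht => by
    by_contra hne
    exact hcon ⟨t, ht, hne⟩
  have h1 : ∫ t in D, φ (y * (a t)⁻¹) = 0 := by
    have h2 : ∫ t in D, φ (y * (a t)⁻¹) = ∫ t in D, (0 : ℂ) :=
      setIntegral_congr_fun hDm h0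
    rw [h2, integral_zero]
  show (((volume D).toReal : ℝ) : ℂ)⁻¹ * ∫ t in D, φ (y * (a t)⁻¹) = 0
  rw [h1, mul_zero]

/-- An element which is trivial at the finite place `w` is Iwahori at `w`. -/
theorem inIwahori_of_trivAtFin115 (w : HeightOneSpectrum (𝓞 K)) {z : G K}
    (hz : TrivAtFin w z) : T5.InIwahori w z := by
  have h1 : finComp w z = 1 := hz
  have h2 : finComp w z⁻¹ = 1 := by
    have h3 : finComp w z⁻¹ * finComp w z = 1 := by
      rw [← H942.finComp_mul942, inv_mul_cancel, H942.finComp_one942]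
    rw [h1, mul_one] at h3
    exact h3
  have hint : ∀ i j, (1 : Matrix (Fin 2) (Fin 2) (w.adicCompletion K)) i j
      ∈ w.adicCompletionIntegers K := by
    intro i j
    by_cases h : i = j
    · subst h
      rw [Matrix.one_apply_eq]
      exact Subring.one_mem _
    · rw [Matrix.one_apply_ne h]
      exact Subring.zero_mem _
  refine ⟨fun i j => ?_, fun i j => ?_, ?_⟩
  · rw [h1]; exact hint i j
  · rw [h2]; exact hint i j
  · rw [h1, Matrix.one_apply_ne (by decide : (1 : Fin 2) ≠ 0), map_zero]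
    exact zero_lt_one

/-- **The support of a torus mean.**  If `φ` is Iwahori-supported in the compact set `C`, the
torus mean `φ♮` is Iwahori-supported in the compact set `C · a(closure D)`. -/
theorem isIwSupported_nat115 {𝔑 : Ideal (𝓞 K)} {r : G K}
    {a : (InfinitePlace K → ℝ) → G K} {D : Set (InfinitePlace K → ℝ)}
    (hD : H193.IsTorusData 𝔑 r a D) {l : ℕ} {o : ℕ → HeightOneSpectrum (𝓞 K)} {φ : G K → ℂ}
    (h : ∃ C : Set (G K), IsCompact C ∧ T5.H32.IsIwSupported32 l o C φ) :
    ∃ C : Set (G K), IsCompact C ∧ T5.H32.IsIwSupported32 l o C (H193.nat193 a D φ) := by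
  obtain ⟨C, hC, hsupp⟩ := h
  have hcl : IsCompact (closure D) := hD.bdd.isCompact_closure
  refine ⟨(fun p : G K × (InfinitePlace K → ℝ) => p.1 * a p.2) '' (C ×ˢ closure D),
    (hC.prod hcl).image (continuous_fst.mul (hD.cont.comp continuous_snd)), ?_⟩
  intro y hy
  obtain ⟨t, ht, hne⟩ := exists_ne_of_nat_ne115 hD.meas hy
  obtain ⟨hiw, c, hc, hagree⟩ := hsupp _ hne
  have hy' : y = y * (a t)⁻¹ * a t := by rw [inv_mul_cancel_right]
  refine ⟨fun j hj => ?_, c * a t, ⟨(c, t), ⟨hc, subset_closure ht⟩, rfl⟩, ?_⟩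
  · rw [hy']
    exact T5.H942.inIwahori_mul942 (o j) (hiw j hj) (inIwahori_of_trivAtFin115 (o j) (hD.fin t (o j)))
  · have := T5.H942.agreeOutside_mul942 {v | ∃ j < l, v = o j} hagree
      (T5.H942.agreeOutside_refl942 {v | ∃ j < l, v = o j} (a t))
    rw [← hy'] at this
    exact this

end OneField

section TwoFields

variable (K K' : Type) [Field K] [NumberField K] [Field K'] [NumberField K'] [Algebra K K']

/-- The extension of a non-zero ideal is not zero. -/
theorem upI_ne_bot115 {𝔫 : Ideal (𝓞 K)} (h : 𝔫 ≠ ⊥) : upI (K' := K') 𝔫 ≠ ⊥ := by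
  intro h0
  apply h
  exact (Ideal.map_eq_bot_iff_of_injective
    (FaithfulSMul.algebraMap_injective (𝓞 K) (𝓞 K'))).1 h0

/-- **LEAF PB.1 = NAT-UP**, VERBATIM, for every shape `LB`. -/
theorem natUpC115 (LB : ShapeB797 K K') : PB57.NatUpC57 K K' LB := by
  intro ℓ Φ B hcyc hB g 𝔫 hlev μc T₀ n n₀ m a c₂ φ₀ f₀ hpre aT D aT' D' hrel
  have hT1 : T1.T1Out K' := T1.t1Out K'
  have hD : H193.IsTorusData B.𝔑₀ B.R'.r aT' D' :=
    H193.isTorusData_mono193 hlev.level_g hrel.up
  obtain ⟨ht, hek, hadj, hbi, hop, hkill⟩ :=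
    H193.killing_of_torus193 hT1 B.R' hB.frame' (upI (K' := K') 𝔫) B.𝔑₀
      (upI_ne_bot115 K K' hlev.level_ne) hlev.level_g ℓ B.o hD φ₀ hpre.up_test hpre.up_ek.1
      hpre.up_ek.2 hpre.up_inv
  exact
    { up2_test := ht
      up2_ek := ⟨hek, hadj⟩
      up2_inv := hbi
      up2_op := fun ψ C hψ x => by
        rw [hop ψ hψ.inv.cusp.cont hψ.inv.arch_scalar x]
        exact hpre.up_op ψ C hψ x
      up2_kill := hkill
      up2_ne := hpre.up_ne
      up2_supp := isIwSupported_nat115 hD hpre.up_supp }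

end TwoFields

end Fermat.Agent.LT.T7.H115

end

end
-- ===== PACK-END LT/T7/H115/NatUp.lean

-- ===== PACK-BEGIN LT/T7/H115/NatDn.lean
section





/-!
# Row LT, tower T7, leaf T7.L2.1.H2a.B.2 `PB57.NatDnC57` (helper115, SPARE)

OFF-MAIN.  `natDnC115 K K' LB : PB57.NatDnC57 K K' LB` VERBATIM against the byte-identical copy
of `LT/T7/H57/PairBSpec.lean` (helper57@6af65419a, sha256 40309edd), UNCONDITIONAL, for EVERY
shape `LB` (the shape is not used).

Proof.  Plug of the closed tool `H193.killing_of_torus193` with `R = B.R`, `𝔑 = 𝔑₀ = 𝔫`, `l = 1`,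
orbit `(u)`, and `T1.t1Out K`.  The three operator properties `dn2_wfn`, `dn2_class`, `dn2_comm`:
`R(f♮) e = R(f) e` for every continuous `e` which is invariant under the positive scalars at
infinity (fifth clause of the tool); the invariant cusp functions are of this kind, and so are
`iwOp u H ψ` and `shiftOp z k ψ` (a positive scalar at infinity is a value `a(s)` of the torus
data, `H865.posScalar_eq865`, hence central).  Support: `isIwSupported_nat115` (`NatUp.lean`).
ADDITIVE: new names only, suffix `115`.  No equation lemma of an imported definition is realised.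
-/

set_option autoImplicit false
set_option linter.unusedSectionVars false
set_option linter.unusedVariables false

open AutomorphicForm IsDedekindDomain NumberField MeasureTheory
open scoped ComplexConjugate

noncomputable section

namespace Fermat.Agent.LT.T7.H115

open Fermat.Agent.LT.H556 Fermat.Agent.LT.H556.A0 Fermat.Agent.LT Fermat.Agent.LT.T7
open Fermat.Agent.LT.T7.H893 Fermat.Agent.LT.T7.Q797

attribute [local instance] Fermat.Agent.LT.T5.instMeasurableSpaceG

section OneField

variable {K : Type} [Field K] [NumberField K]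

/-- A positive scalar at an infinite place is central (torus data exist). -/
theorem posScalar_central115 {𝔑 : Ideal (𝓞 K)} {r : G K}
    {a : (InfinitePlace K → ℝ) → G K} {D : Set (InfinitePlace K → ℝ)}
    (hD : H193.IsTorusData 𝔑 r a D) {w : InfinitePlace K} {z : G K}
    (hz : IsArchPosScalar w z) (g : G K) : z * g = g * z := by
  obtain ⟨s, hs⟩ := H865.posScalar_eq865 hD hz
  rw [hs]
  exact hD.central s g

theorem continuous_iwOp115 (w : HeightOneSpectrum (𝓞 K)) (H : Finset (G K)) {ψ : G K → ℂ}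
    (hψ : Continuous ψ) : Continuous (iwOp w H ψ) := by
  have h : iwOp w H ψ = fun x => ((Real.sqrt (Ideal.absNorm w.asIdeal : ℝ) : ℝ) : ℂ)⁻¹
      * ∑ h ∈ H, ψ (x * h) := rfl
  rw [h]
  exact continuous_const.mul
    (continuous_finsetSum _ fun h _ => hψ.comp (continuous_id.mul continuous_const))

theorem continuous_shiftOp115 (z : G K) (k : ℤ) {ψ : G K → ℂ} (hψ : Continuous ψ) :
    Continuous (shiftOp z k ψ) := by
  have h : shiftOp z k ψ = fun x => ψ (x * z ^ k) := rfl
  rw [h]
  exact hψ.comp (continuous_id.mul continuous_const)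

/-- `iwOp` preserves the invariance under the positive scalars at infinity. -/
theorem iwOp_posScalar115 {𝔑 : Ideal (𝓞 K)} {r : G K}
    {a : (InfinitePlace K → ℝ) → G K} {D : Set (InfinitePlace K → ℝ)}
    (hD : H193.IsTorusData 𝔑 r a D) (v : HeightOneSpectrum (𝓞 K)) (H : Finset (G K))
    {ψ : G K → ℂ}
    (hψ : ∀ (w : InfinitePlace K) (z : G K), IsArchPosScalar w z → ∀ g : G K, ψ (g * z) = ψ g)
    (w : InfinitePlace K) (z : G K) (hz : IsArchPosScalar w z) (g : G K) :
    iwOp v H ψ (g * z) = iwOp v H ψ g := by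
  show ((Real.sqrt (Ideal.absNorm v.asIdeal : ℝ) : ℝ) : ℂ)⁻¹ * ∑ h ∈ H, ψ (g * z * h)
    = ((Real.sqrt (Ideal.absNorm v.asIdeal : ℝ) : ℝ) : ℂ)⁻¹ * ∑ h ∈ H, ψ (g * h)
  congr 1
  refine Finset.sum_congr rfl fun h _ => ?_
  rw [mul_assoc, posScalar_central115 hD hz h, ← mul_assoc]
  exact hψ w z hz (g * h)

/-- `shiftOp` preserves the invariance under the positive scalars at infinity. -/
theorem shiftOp_posScalar115 {𝔑 : Ideal (𝓞 K)} {r : G K}
    {a : (InfinitePlace K → ℝ) → G K} {D : Set (InfinitePlace K → ℝ)}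
    (hD : H193.IsTorusData 𝔑 r a D) (z₀ : G K) (k : ℤ) {ψ : G K → ℂ}
    (hψ : ∀ (w : InfinitePlace K) (z : G K), IsArchPosScalar w z → ∀ g : G K, ψ (g * z) = ψ g)
    (w : InfinitePlace K) (z : G K) (hz : IsArchPosScalar w z) (g : G K) :
    shiftOp z₀ k ψ (g * z) = shiftOp z₀ k ψ g := by
  show ψ (g * z * z₀ ^ k) = ψ (g * z₀ ^ k)
  rw [mul_assoc, posScalar_central115 hD hz (z₀ ^ k), ← mul_assoc]
  exact hψ w z hz (g * z₀ ^ k)

end OneField

section TwoFields

variable (K K' : Type) [Field K] [NumberField K] [Field K'] [NumberField K'] [Algebra K K']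

/-- **LEAF PB.2 = NAT-DOWN**, VERBATIM, for every shape `LB`. -/
theorem natDnC115 (LB : ShapeB797 K K') : PB57.NatDnC57 K K' LB := by
  intro ℓ Φ B hcyc hB g 𝔫 hlev μc T₀ n n₀ m a c₂ φ₀ f₀ hpre aT D aT' D' hrel
  have hT1 : T1.T1Out K := T1.t1Out K
  have hD : H193.IsTorusData 𝔫 B.R.r aT D := hrel.down
  obtain ⟨ht, hek, hadj, hbi, hop, hkill⟩ :=
    H193.killing_of_torus193 hT1 B.R hB.frame 𝔫 𝔫 hlev.level_ne le_rfl 1 (fun _ => B.u) hD f₀
      hpre.dn_test hpre.dn_ek.1 hpre.dn_ek.2 hpre.dn_inv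
  -- `R(f♮) ψ = R(f) ψ` on the invariant cusp functions
  have hfun : ∀ ψ : G K → ℂ, IsWFn 𝔫 B.R.r 1 (fun _ => B.u) ψ →
      T5.Rconv B.R.μ (H193.nat193 aT D f₀) ψ = T5.Rconv B.R.μ f₀ ψ := fun ψ hψ =>
    funext fun x => hop ψ hψ.cusp.cont hψ.arch_scalar x
  exact
    { dn2_test := ht
      dn2_ek := ⟨hek, hadj⟩
      dn2_inv := hbi
      dn2_wfn := fun ψ hψ => by
        rw [hfun ψ hψ]
        exact hpre.dn_wfn ψ hψ
      dn2_class := fun ψ c hψ => by
        rw [hfun ψ hψ.inv]
        exact hpre.dn_class ψ c hψ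
      dn2_comm := fun ψ hψ H z hH hz => by
        obtain ⟨h1, h2⟩ := hpre.dn_comm ψ hψ H z hH hz
        refine ⟨fun x => ?_, fun k x => ?_⟩
        · rw [hfun ψ hψ, hop (iwOp B.u H ψ) (continuous_iwOp115 B.u H hψ.cusp.cont)
            (iwOp_posScalar115 hD B.u H hψ.arch_scalar) x]
          exact h1 x
        · rw [hfun ψ hψ, hop (shiftOp z k ψ) (continuous_shiftOp115 z k hψ.cusp.cont)
            (shiftOp_posScalar115 hD z k hψ.arch_scalar) x]
          exact h2 k x
      dn2_kill := hkill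
      dn2_supp := isIwSupported_nat115 hD hpre.dn_supp }

end TwoFields

end Fermat.Agent.LT.T7.H115

end

end
-- ===== PACK-END LT/T7/H115/NatDn.lean

-- ===== PACK-BEGIN LT/T7/H409/RegOrb.lean
section






/-!
# Row LT, tower T7, leaf T7.L2.1.H2b.L1 `P51.RegOrbC51` (helper409): PROVED

OFF-MAIN.  No hole, nothing assumed.

    regOrbC409 (K K') : P51.RegOrbC51 K K'

Bi-invariance and finite support of the components of the products at the place `u` and along
the orbit: `regLoc51 w z H k j 1_I` (and `1_I`) is bi-invariant under `U(n)`, `n ≥ 1`, with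
finite support modulo `U(n)`.

* `IsIwReg409 w n φ`: `φ` is left and right invariant under the Iwahori subgroup `I` of
  `GL₂(K_w)` and has finite support modulo `U(n)`.  The Iwahori function `1_I` is regular
  (`I ⊆ U(0)` is one coset of `U(0)`; `T6.H125.finSuppLvlC125` (helper125) with
  `T6.H176.instLocalC176` (helper176) gives finite support modulo `U(n)`).
* The local Iwahori operator `iwLoc51 w H` preserves the regular functions: an Iwahori coset
  system is COMPLETE (local form of `H468.iw_complete468`, helper468: the invariant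
  `M₀₁ / M₁₁ mod 𝔭`, pigeonhole), so left multiplication by `i ∈ I` permutes the classes
  `h_w I` (`iw_sum_left409`).
* The component of a scalar uniformiser is central: left translation by `z_w ^ k` preserves the
  regular functions.
* `U(n) ⊆ I` for `n ≥ 1`, and the exponents of `𝔫`, `𝔫 𝒪_{K'}` at the places dividing them
  are `≥ 1` (`T2.H557.idealClosure_ball557`, helper557).
-/

set_option autoImplicit false
set_option linter.unusedSectionVars false
set_option linter.style.haveILetI false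

open AutomorphicForm IsDedekindDomain NumberField MeasureTheory
open scoped ComplexConjugate

noncomputable section

namespace Fermat.Agent.LT.T7.H409

open Fermat.Agent.LT.H556 Fermat.Agent.LT.H556.A0 Fermat.Agent.LT.T7
open Fermat.Agent.LT.T7.H305 Fermat.Agent.LT.T7.H893 Fermat.Agent.LT.T7.P51
open Fermat.Agent.LT.T7.H468

section Local

variable {F : Type} [Field F] [NumberField F] {w : HeightOneSpectrum (𝓞 F)}

/-- The two local Iwahori predicates agree. -/
theorem inIw893_iff409 (x : GL (Fin 2) (w.adicCompletion F)) :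
    InIw893 x ↔ IwL468 w x := Iff.rfl

/-- The two component maps agree. -/
theorem finGL305_eq409 (g : G F) :
    finGL305 w g = Fermat.Agent.LT.T8.H864.finCompHom w g := rfl

/-- `U(n) ⊆ I` for `n ≥ 1`. -/
theorem iwL_of_inU409 {n : ℕ} (hn : 1 ≤ n) {x : GL (Fin 2) (w.adicCompletion F)}
    (hx : T6.InU n x) : IwL468 w x := by
  refine ⟨fun i j => Fermat.Agent.LT.T6.H125.inU_entry125 hx i j,
    fun i j => Fermat.Agent.LT.T6.H125.inU_inv_entry125 hx i j, ?_⟩
  have h1 := (hx 1 0).1
  rw [Matrix.one_apply_ne (by decide), sub_zero] at h1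
  refine lt_of_le_of_lt h1 ?_
  rw [← WithZero.exp_zero, WithZero.exp_lt_exp]
  omega

/-- `I ⊆ U(0)`. -/
theorem inU_zero_of_iwL409 {x : GL (Fin 2) (w.adicCompletion F)} (hx : IwL468 w x) :
    T6.InU 0 x := by
  intro i j
  have h1 : Valued.v ((1 : Matrix (Fin 2) (Fin 2) (w.adicCompletion F)) i j) ≤ 1 :=
    Fermat.Agent.LT.T6.H125.v_one_entry125 i j
  refine ⟨?_, ?_⟩
  · have := Fermat.Agent.LT.T6.H125.v_sub_le125 (hx.1 i j) h1
    simpa using this
  · have := Fermat.Agent.LT.T6.H125.v_sub_le125 (hx.2.1 i j) h1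
    simpa using this


/-- `φ` is left and right invariant under the Iwahori subgroup and has finite support modulo
`U(n)`. -/
def IsIwReg409 (w : HeightOneSpectrum (𝓞 F)) (n : ℕ)
    (φ : GL (Fin 2) (w.adicCompletion F) → ℂ) : Prop :=
  (∀ i y : GL (Fin 2) (w.adicCompletion F), IwL468 w i → φ (i * y) = φ y) ∧
    (∀ i y : GL (Fin 2) (w.adicCompletion F), IwL468 w i → φ (y * i) = φ y) ∧
    T6.HasFinSupp (T6.InU n) φ

/-- Bi-invariance under `U(n)`, `n ≥ 1`. -/
theorem isBiInv_of_isIwReg409 {n : ℕ} (hn : 1 ≤ n)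
    {φ : GL (Fin 2) (w.adicCompletion F) → ℂ} (h : IsIwReg409 w n φ) :
    T6.IsBiInv (T6.InU n) φ := by
  intro u u' g hu hu'
  rw [h.2.1 u' (u * g) (iwL_of_inU409 hn hu'), h.1 u g (iwL_of_inU409 hn hu)]

/-- The Iwahori function. -/
theorem isIwReg_iwFn409 (n : ℕ) :
    IsIwReg409 w n (iwFn893 : GL (Fin 2) (w.adicCompletion F) → ℂ) := by
  classical
  have hiff : ∀ i y : GL (Fin 2) (w.adicCompletion F), IwL468 w i →
      (IwL468 w (i * y) ↔ IwL468 w y) := by
    intro i y hi
    constructor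
    · intro h
      have := hi.inv.mul h
      rwa [inv_mul_cancel_left] at this
    · intro h
      exact hi.mul h
  have hiff' : ∀ i y : GL (Fin 2) (w.adicCompletion F), IwL468 w i →
      (IwL468 w (y * i) ↔ IwL468 w y) := by
    intro i y hi
    constructor
    · intro h
      have := h.mul hi.inv
      rwa [mul_inv_cancel_right] at this
    · intro h
      exact h.mul hi
  refine ⟨fun i y hi => ?_, fun i y hi => ?_, ?_⟩
  · show (if InIw893 (i * y) then (1 : ℂ) else 0) = if InIw893 y then (1 : ℂ) else 0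
    exact if_congr (hiff i y hi) rfl rfl
  · show (if InIw893 (y * i) then (1 : ℂ) else 0) = if InIw893 y then (1 : ℂ) else 0
    exact if_congr (hiff' i y hi) rfl rfl
  · have h0 : T6.HasFinSupp (T6.InU 0)
        (iwFn893 : GL (Fin 2) (w.adicCompletion F) → ℂ) := by
      refine ⟨{1}, fun g hg => ?_⟩
      have hgI : InIw893 g := by
        by_contra hcon
        apply hg
        show (if InIw893 g then (1 : ℂ) else 0) = 0
        exact if_neg hcon
      exact ⟨1, Finset.mem_singleton_self 1, g, inU_zero_of_iwL409 hgI, (one_mul g).symm⟩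
    exact Fermat.Agent.LT.T6.H125.finSuppLvlC125 (w.adicCompletion F)
      (Ideal.absNorm w.asIdeal) (Fermat.Agent.LT.T6.H176.instLocalC176 F w) 0 n _
      (Nat.zero_le n) h0

/-- Left translation by a central element. -/
theorem isIwReg_ltr409 {n : ℕ} {φ : GL (Fin 2) (w.adicCompletion F) → ℂ}
    (h : IsIwReg409 w n φ) (c : GL (Fin 2) (w.adicCompletion F))
    (hc : ∀ y : GL (Fin 2) (w.adicCompletion F), c * y = y * c) :
    IsIwReg409 w n (fun y => φ (c⁻¹ * y)) := by
  classical
  have hc' : ∀ y : GL (Fin 2) (w.adicCompletion F), c⁻¹ * y = y * c⁻¹ := by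
    intro y
    have hcy : Commute c y := hc y
    exact hcy.inv_left.eq
  refine ⟨fun i y hi => ?_, fun i y hi => ?_, ?_⟩
  · show φ (c⁻¹ * (i * y)) = φ (c⁻¹ * y)
    rw [← mul_assoc, hc' i, mul_assoc]
    exact h.1 i _ hi
  · show φ (c⁻¹ * (y * i)) = φ (c⁻¹ * y)
    rw [← mul_assoc]
    exact h.2.1 i _ hi
  · obtain ⟨S, hS⟩ := h.2.2
    refine ⟨S.image (fun x => c * x), fun g hg => ?_⟩
    obtain ⟨x, hx, u, hu, e⟩ := hS (c⁻¹ * g) hg
    refine ⟨c * x, Finset.mem_image_of_mem _ hx, u, hu, ?_⟩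
    rw [mul_assoc, ← e, mul_inv_cancel_left]

/-- Scalar multiples. -/
theorem isIwReg_smul409 {n : ℕ} {φ : GL (Fin 2) (w.adicCompletion F) → ℂ}
    (h : IsIwReg409 w n φ) (t : ℂ) : IsIwReg409 w n (fun y => t * φ y) := by
  refine ⟨fun i y hi => ?_, fun i y hi => ?_, ?_⟩
  · show t * φ (i * y) = t * φ y
    rw [h.1 i y hi]
  · show t * φ (y * i) = t * φ y
    rw [h.2.1 i y hi]
  · obtain ⟨S, hS⟩ := h.2.2
    exact ⟨S, fun g hg => hS g (fun h0 => hg (by show t * φ g = 0; rw [h0, mul_zero]))⟩


/-- The components of the members of an Iwahori coset system have the standard shape. -/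
theorem stdL_of_sys409 {H : Finset (G F)} (hH : IsIwCosetSystem w H) {h : G F} (hh : h ∈ H) :
    StdL468 w (finGL305 w h) :=
  stdL_of_coset468 (hH.2.1 h hh).2

/-- **Completeness, local form**: every element of the standard shape lies in `h_w I` for a
member `h` of the system. -/
theorem iw_complete_loc409 {H : Finset (G F)} (hH : IsIwCosetSystem w H)
    {M : GL (Fin 2) (w.adicCompletion F)} (hM : StdL468 w M) :
    ∃ h ∈ H, IwL468 w ((finGL305 w h)⁻¹ * M) := by
  classical
  obtain ⟨hcard, hmem, hne⟩ := hH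
  haveI : Finite (IsLocalRing.ResidueField (w.adicCompletionIntegers F)) :=
    Fermat.Agent.LT.H129.finite_residueField129 F w
  letI : Fintype (IsLocalRing.ResidueField (w.adicCompletionIntegers F)) := Fintype.ofFinite _
  have hstd : ∀ h ∈ H, StdL468 w (finGL305 w h) := fun h hh => stdL_of_coset468 (hmem h hh).2
  have key : ∀ a b : GL (Fin 2) (w.adicCompletion F), StdL468 w a → StdL468 w b →
      lamL468 w a = lamL468 w b → IwL468 w (a⁻¹ * b) := fun a b ha hb hab =>
    iwL_inv_mul468 ha hb (val_of_lamL_eq468 ha hb hab)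
  let ι : {h // h ∈ H} → IsLocalRing.ResidueField (w.adicCompletionIntegers F) :=
    fun h => lamL468 w (finGL305 w h.1)
  have hinj : Function.Injective ι := by
    intro h h' e
    by_contra hcon
    have hne' : h.1 ≠ h'.1 := fun hh => hcon (Subtype.ext hh)
    refine hne h.1 h.2 h'.1 h'.2 hne' ?_
    rw [inIwahori_iff468, map_mul, map_inv]
    exact key _ _ (hstd h.1 h.2) (hstd h'.1 h'.2) e
  have hcard' : Fintype.card {h // h ∈ H}
      = Fintype.card (IsLocalRing.ResidueField (w.adicCompletionIntegers F)) := by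
    rw [Fintype.card_coe, hcard, ← Nat.card_eq_fintype_card,
      Fermat.Agent.LT.H129.card_residueField129 F w]
  have hbij : Function.Bijective ι :=
    (Fintype.bijective_iff_injective_and_card ι).mpr ⟨hinj, hcard'⟩
  obtain ⟨⟨h, hhH⟩, hh⟩ := hbij.2 (lamL468 w M)
  exact ⟨h, hhH, key _ _ (hstd h hhH) hM hh⟩

/-- **The Iwahori subgroup permutes the system**: for `i ∈ I` the sum over the system of the
translates of a left `I`-invariant function is left `I`-invariant. -/
theorem iw_sum_left409 {H : Finset (G F)} (hH : IsIwCosetSystem w H)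
    {φ : GL (Fin 2) (w.adicCompletion F) → ℂ}
    (hφ : ∀ i y : GL (Fin 2) (w.adicCompletion F), IwL468 w i → φ (i * y) = φ y)
    {i : GL (Fin 2) (w.adicCompletion F)} (hi : IwL468 w i)
    (y : GL (Fin 2) (w.adicCompletion F)) :
    ∑ h ∈ H, φ ((finGL305 w h)⁻¹ * (i * y)) = ∑ h ∈ H, φ ((finGL305 w h)⁻¹ * y) := by
  classical
  have hex : ∀ h : G F, ∃ h' : G F, h ∈ H →
      h' ∈ H ∧ IwL468 w ((finGL305 w h')⁻¹ * (i⁻¹ * finGL305 w h)) := by
    intro h
    by_cases hh : h ∈ H
    · obtain ⟨h', hh', hI⟩ := iw_complete_loc409 hH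
        (StdL468.iw_mul hi.inv (stdL_of_sys409 hH hh))
      exact ⟨h', fun _ => ⟨hh', hI⟩⟩
    · exact ⟨h, fun h0 => absurd h0 hh⟩
  choose σ hσ using hex
  have hval : ∀ h ∈ H, φ ((finGL305 w h)⁻¹ * (i * y)) = φ ((finGL305 w (σ h))⁻¹ * y) := by
    intro h hh
    have hI := (hσ h hh).2
    have e : (finGL305 w h)⁻¹ * (i * y)
        = ((finGL305 w (σ h))⁻¹ * (i⁻¹ * finGL305 w h))⁻¹ * ((finGL305 w (σ h))⁻¹ * y) := by
      group
    rw [e]
    exact hφ _ _ hI.inv
  have hinj : Set.InjOn σ (H : Set (G F)) := by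
    intro a ha b hb hab
    by_contra hcon
    have h1 := (hσ a ha).2
    have h2 := (hσ b hb).2
    rw [← hab] at h2
    have h3 : IwL468 w ((finGL305 w a)⁻¹ * finGL305 w b) := by
      have := h1.inv.mul h2
      have e : ((finGL305 w (σ a))⁻¹ * (i⁻¹ * finGL305 w a))⁻¹
          * ((finGL305 w (σ a))⁻¹ * (i⁻¹ * finGL305 w b))
          = (finGL305 w a)⁻¹ * finGL305 w b := by group
      rwa [e] at this
    refine hH.2.2 a ha b hb hcon ?_
    rw [inIwahori_iff468, map_mul, map_inv]
    exact h3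
  have himg : H.image σ = H := by
    refine Finset.eq_of_subset_of_card_le ?_ ?_
    · intro x hx
      obtain ⟨h, hh, rfl⟩ := Finset.mem_image.mp hx
      exact (hσ h hh).1
    · rw [Finset.card_image_of_injOn hinj]
  calc ∑ h ∈ H, φ ((finGL305 w h)⁻¹ * (i * y))
      = ∑ h ∈ H, φ ((finGL305 w (σ h))⁻¹ * y) := Finset.sum_congr rfl hval
    _ = ∑ h' ∈ H.image σ, φ ((finGL305 w h')⁻¹ * y) :=
        (Finset.sum_image (f := fun h' => φ ((finGL305 w h')⁻¹ * y)) hinj).symm
    _ = ∑ h ∈ H, φ ((finGL305 w h)⁻¹ * y) := by rw [himg]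

/-- The local Iwahori operator preserves the regular functions. -/
theorem isIwReg_iwLoc409 {n : ℕ} {H : Finset (G F)} (hH : IsIwCosetSystem w H)
    {φ : GL (Fin 2) (w.adicCompletion F) → ℂ} (h : IsIwReg409 w n φ) :
    IsIwReg409 w n (iwLoc51 w H φ) := by
  classical
  refine ⟨fun i y hi => ?_, fun i y hi => ?_, ?_⟩
  · show _ * ∑ h' ∈ H, φ ((finGL305 w h')⁻¹ * (i * y))
      = _ * ∑ h' ∈ H, φ ((finGL305 w h')⁻¹ * y)
    rw [iw_sum_left409 hH h.1 hi y]
  · show _ * ∑ h' ∈ H, φ ((finGL305 w h')⁻¹ * (y * i))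
      = _ * ∑ h' ∈ H, φ ((finGL305 w h')⁻¹ * y)
    congr 1
    refine Finset.sum_congr rfl fun h' _ => ?_
    rw [← mul_assoc]
    exact h.2.1 i _ hi
  · obtain ⟨S, hS⟩ := h.2.2
    refine ⟨(H ×ˢ S).image (fun p => finGL305 w p.1 * p.2), fun g hg => ?_⟩
    have hne : ∑ h' ∈ H, φ ((finGL305 w h')⁻¹ * g) ≠ 0 := by
      intro h0
      apply hg
      show _ * ∑ h' ∈ H, φ ((finGL305 w h')⁻¹ * g) = 0
      rw [h0, mul_zero]
    obtain ⟨h', hh', hne'⟩ := Finset.exists_ne_zero_of_sum_ne_zero hne
    obtain ⟨x, hx, u, hu, e⟩ := hS _ hne'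
    refine ⟨finGL305 w h' * x, Finset.mem_image.mpr ⟨(h', x), Finset.mem_product.mpr ⟨hh', hx⟩,
      rfl⟩, u, hu, ?_⟩
    rw [mul_assoc, ← e, mul_inv_cancel_left]

theorem isIwReg_iterate409 {n : ℕ} {H : Finset (G F)} (hH : IsIwCosetSystem w H)
    {φ : GL (Fin 2) (w.adicCompletion F) → ℂ} (h : IsIwReg409 w n φ) (j : ℕ) :
    IsIwReg409 w n ((iwLoc51 w H)^[j] φ) := by
  induction j with
  | zero => exact h
  | succ j ih =>
    rw [Function.iterate_succ_apply']
    exact isIwReg_iwLoc409 hH ih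

/-- The component of a scalar uniformiser is central. -/
theorem scalarUnif_central409 {z : G F} (hz : IsScalarUniformizerAt w z)
    (y : GL (Fin 2) (w.adicCompletion F)) : finGL305 w z * y = y * finGL305 w z := by
  obtain ⟨_, c, _, hc⟩ := hz
  have hm : ((finGL305 w z : GL (Fin 2) (w.adicCompletion F)) :
      Matrix (Fin 2) (Fin 2) (w.adicCompletion F)) = Matrix.diagonal (fun _ => c) := hc
  apply Units.ext
  rw [Units.val_mul, Units.val_mul, hm]
  ext a b
  rw [Matrix.diagonal_mul, Matrix.mul_diagonal, mul_comm]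


/-- **The local regularised Iwahori functions are regular.** -/
theorem isIwReg_regLoc409 (n : ℕ) {H : Finset (G F)} (hH : IsIwCosetSystem w H) {z : G F}
    (hz : IsScalarUniformizerAt w z) (k : ℤ) (j : ℕ) :
    IsIwReg409 w n (regLoc51 w z H k j iwFn893) := by
  have hc : ∀ y : GL (Fin 2) (w.adicCompletion F),
      finGL305 w z ^ k * y = y * finGL305 w z ^ k := by
    intro y
    have h1 : Commute (finGL305 w z) y := scalarUnif_central409 hz y
    exact (h1.zpow_left k).eq
  exact isIwReg_ltr409 (isIwReg_iterate409 hH (isIwReg_iwFn409 n) j) (finGL305 w z ^ k) hc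

/-- The exponent of a non-zero ideal at a place dividing it is `≥ 1`. -/
theorem one_le_level409 {𝔞 : Ideal (𝓞 F)} (h𝔞 : 𝔞 ≠ ⊥) {m : HeightOneSpectrum (𝓞 F) → ℕ}
    (hm : IsLevelOf893 𝔞 m) (hw : w.asIdeal ∣ 𝔞) : 1 ≤ m w := by
  obtain ⟨e, he, -, he1, -⟩ := Fermat.Agent.LT.T2.H557.idealClosure_ball557 𝔞 h𝔞 w
  by_contra hcon
  have hm0 : m w = 0 := by omega
  have h1 : (1 : w.adicCompletion F) ∈ idealClosure 𝔞 w := by
    rw [hm w 1, hm0, map_one]
    simp
  have h2 := (he 1).mp h1
  rw [map_one, ← WithZero.exp_zero, WithZero.exp_le_exp] at h2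
  have := he1 hw
  omega

end Local

section Leaf

variable (K K' : Type) [Field K] [NumberField K] [Field K'] [NumberField K'] [Algebra K K']

/-- **LEAF P.L1 = REG-ORB of helper51's cut of `ProdMtCb`: PROVED.** -/
theorem regOrbC409 : Fermat.Agent.LT.T7.P51.RegOrbC51 K K' := by
  intro ℓ Φ B g 𝔫 μc T₀ n n₀ m H' z' H z t k j T φ₀ Φ' f₀ F hloc
  obtain ⟨hctx, hsys, _ht, hprod⟩ := hloc
  obtain ⟨T₁, T₂, φ₁, Φ₁, f₁, F₁, φ₂, Φ₂, f₂, F₂, -, -, -, -, -, -, hfu, hφ0, hφi, -, -, -⟩ :=
    hprod
  have hup : upI (K' := K') 𝔫 ≠ ⊥ := by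
    show Ideal.map (algebraMap (𝓞 K) (𝓞 K')) 𝔫 ≠ ⊥
    intro h0
    exact hsys.level_ne ((Ideal.map_eq_bot_iff_of_injective
      (FaithfulSMul.algebraMap_injective (𝓞 K) (𝓞 K'))).mp h0)
  refine ⟨fun w hw => ?_, ?_⟩
  · -- the places over `u` are the places of the orbit
    obtain ⟨i, hi, rfl⟩ := hctx.base.orbit_all w hw
    have hn1 : 1 ≤ n (B.o i) :=
      one_le_level409 hup hctx.lev_n ((hsys.mem_S'_g (B.o i)).mp (hctx.base.orbit_level i))
    have hreg : IsIwReg409 (B.o i) (n (B.o i)) (φ₀ (B.o i)) := by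
      by_cases hi0 : B.o i = B.o 0
      · rw [hi0]
        rw [hφ0]
        exact isIwReg_regLoc409 _ hsys.sys' hsys.unif' k j
      · have hipos : 0 < i := by
          rcases Nat.eq_zero_or_pos i with h | h
          · exact absurd (by rw [h]) hi0
          · exact h
        rw [hφi i hipos (by rw [hctx.base.deg]; exact hi)]
        exact isIwReg_iwFn409 _
    exact ⟨isBiInv_of_isIwReg409 hn1 hreg, hreg.2.2⟩
  · have hm1 : 1 ≤ m B.u := one_le_level409 hsys.level_ne hctx.lev_m hsys.u_level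
    have hreg : IsIwReg409 B.u (m B.u) (f₀ B.u) := by
      rw [hfu]
      exact isIwReg_smul409 (isIwReg_regLoc409 _ hsys.sys hsys.unif k j) t
    exact ⟨isBiInv_of_isIwReg409 hm1 hreg, hreg.2.2⟩

end Leaf

/-! ## Appendix: the equation lemmas of the definition of this file are realised HERE -/

theorem eqns_realised_regOrb409 : True := by
  have _a1 := @IsIwReg409.eq_1
  have _a2 := @IsIwReg409.eq_def
  have _a3 := @IsIwReg409.eq_unfold
  trivial

end Fermat.Agent.LT.T7.H409

end

end
-- ===== PACK-END LT/T7/H409/RegOrb.lean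

-- ===== PACK-BEGIN LT/T7/H724/ProdShapeSpec.lean
section




/-!
# Row LT, tower T7, node T7.L2.1.H2b.4 `H893.ProdShapeC893` (registry row 2851, helper724):
# CUT -- Spec

OFF-MAIN.  Definitions and frozen Props only (the proved tops are `ProdShapeTop.lean`).  No
hole, nothing assumed.  ADDITIVE (new names only, all suffixed `724`, namespace
`Fermat.Agent.LT.T7.PS724`).  The node of the sixth cut of helper893 (`SupplyProdSpec.lean`
21691ff1) is cut ON THE VOCABULARY OF THE SPARE CUT OF helper51 (`T7/P51/ProdMtSpec.lean`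
4b4a6c6c, audited by helper416 and helper950), so that the two routes to `H893.ProdMtCb` share
the global calculus and the leaves at the places of the level; cubic twin of the sub-cut of
helper563 over `ℚ` (`T7/H563/ProdShapeQSpec.lean` 110115a8).

    prodShapeC_of724 : P51.GlobProdC51 K K' → LocProdC724 K K' → H893.ProdShapeC893 K K'
    locProdC_of724   : P51.RegOrbC51 → P51.RegArchC51 → P51.SplitOrbC51 → P51.ArchProdC51
                         → SphProdC724 → LocProdC724 K K'

## The cut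

* `P51.GlobProdC51` (NODE of helper51, global: `OpAvgC51` + `ConvAvgC51`): the members are
  averages of pure tensors of shape `P51.LocProd51 … t` with the constant `a c / t`.
* **`LocProdC724`** (NODE, local): there is `t ≠ 0` such that the shape `P51.LocProd51 … t`
  implies `H893.LocP893`: the local hypotheses `LocHyp893` AT THE PLACES OF THE LEVEL (and at
  infinity) and the spherical shape `SphOut893` outside the level.  Leaves: `P51.RegOrbC51`,
  `P51.SplitOrbC51` (the place `u`; gives `t`), `P51.RegArchC51`, `P51.ArchProdC51` (infinity),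
  and
* **`SphProdC724`** (LEAF, local, Satake): `SphOut893` for the components of the products
  outside the level.  The clauses at the bad places are those of the partner (first clause of
  `LocB893b`; proved in the top); the inert clause at `u` is void.

The leaves `P51.RegSphC51`, `P51.InertSphC51`, `P51.SplitSphC51` of the route of helper51 are NOT
used: outside the level the route of the sixth cut goes through `H893.SphHypC893` (closed).

FALSITY CHECKS (helper724).  (a) Constants: `a * c / t = a * (c / t)`, `c₀ = c / t` depends on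
the context only (`c` from `GlobProdC51`, `t` from `SplitOrbC51`).  (b) `SphProdC724`: at
`v ∈ T ∖ T₀`, `T = T₁ ∪ T₂`, the factors are spherical with the Satake relations of `SphOut893`
on `T₁`, resp. `T₂` (clauses of `LocA893`, `LocB893b`), or the unit `1_{GL₂(𝒪)}` (spherical,
Satake transform `1`, `T6.IsBC` of the units); the convolution product (`vol GL₂(𝒪) = 1`) of
spherical functions is spherical, its Satake transform is the product of the Satake transforms
(upstairs for the residue field of `w`), `T6.IsBC ℓ q` and the product formula of the split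
clause are multiplicative.  `v` is unramified (`RamIn`), so it is inert or splits completely.
(c) `(B.comp 𝔫).l = B.l` by definition.
-/

set_option autoImplicit false

open AutomorphicForm IsDedekindDomain NumberField MeasureTheory
open scoped ComplexConjugate

noncomputable section

namespace Fermat.Agent.LT.T7.PS724

open Fermat.Agent.LT.H556 Fermat.Agent.LT.H556.A0 Fermat.Agent.LT.T7
open Fermat.Agent.LT.T7.H305 Fermat.Agent.LT.T7.H893

attribute [local instance] Fermat.Agent.LT.T5.instMeasurableSpaceG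

section Nodes

variable (K K' : Type) [Field K] [NumberField K] [Field K'] [NumberField K'] [Algebra K K']

/-- **LEAF T7.L2.1.H2b.4.L = SPH-PROD (local, Satake).**  At the places of `T` outside the level
the components of the products are spherical and matched in the Satake form: `SphOut893` for
the shape `P51.LocProd51`.  See the header, falsity check (b). -/
def SphProdC724 : Prop :=
  ∀ ℓ Φ B g 𝔫 μc T₀ n n₀ m H' z' H z t k j T φ₀ Φ' f₀ F,
    P51.IsLoc51 K K' ℓ Φ B g 𝔫 μc T₀ n n₀ m H' z' H z t k j T φ₀ Φ' f₀ F →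
    SphOut893 B.l T₀ T φ₀ f₀

/-- **NODE T7.L2.1.H2b.4.N = LOC-PROD for the sixth cut (local).**  In the context there is
`t ≠ 0` such that the shape `P51.LocProd51 … t k j` implies `H893.LocP893`: the local
hypotheses at the places of the level and at infinity, the spherical shape outside. -/
def LocProdC724 : Prop :=
  ∀ (ℓ : ℕ) (Φ : HeckeEigensystem K' ℂ) (B : L2Base K K') (g : G K') (𝔫 : Ideal (𝓞 K))
    (μc : @Measure (GL (Fin 2) ℂ) (borel _)) (T₀ : Finset (HeightOneSpectrum (𝓞 K)))
    (n n₀ : HeightOneSpectrum (𝓞 K') → ℕ) (m : HeightOneSpectrum (𝓞 K) → ℕ),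
    P51.IsCtx51 ℓ Φ B g 𝔫 μc T₀ n n₀ m →
    ∃ t : ℂ, t ≠ 0 ∧
      ∀ (H' : Finset (G K')) (z' : G K') (H : Finset (G K)) (z : G K),
        P51.IsSys51 B 𝔫 H' z' H z →
        ∀ (k : ℤ) (j : ℕ) (T : Finset (HeightOneSpectrum (𝓞 K)))
          (φ₀ : ∀ w : HeightOneSpectrum (𝓞 K'), GL (Fin 2) (w.adicCompletion K') → ℂ)
          (Φ' : InfinitePlace K' → GL (Fin 2) ℂ → ℂ)
          (f₀ : ∀ v : HeightOneSpectrum (𝓞 K), GL (Fin 2) (v.adicCompletion K) → ℂ)
          (F : InfinitePlace K → GL (Fin 2) ℂ → ℂ),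
          P51.LocProd51 B g 𝔫 μc T₀ n n₀ m H' z' H z t k j T φ₀ Φ' f₀ F →
          LocP893 (B.comp 𝔫) μc T₀ n m T φ₀ Φ' f₀ F

end Nodes

/-! ## Appendix: the equation lemmas of the definitions of this file are realised HERE -/

theorem eqns_realised_prodShape724 : True := by
  have _h0 := @SphProdC724.eq_1
  have _h1 := @LocProdC724.eq_1
  have _g0 := @SphProdC724.eq_def
  have _g1 := @LocProdC724.eq_def
  have _u0 := @SphProdC724.eq_unfold
  have _u1 := @LocProdC724.eq_unfold
  trivial

end Fermat.Agent.LT.T7.PS724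

end

end
-- ===== PACK-END LT/T7/H724/ProdShapeSpec.lean

-- ===== PACK-BEGIN LT/T7/B981/PairATop.lean
section




/-!
# Row LT, tower T7, node T7.L2.1.H2a.A `Q797.PairAC797` (sub-architect helper981, registry 2728):
# SECOND CUT -- the PROVED top

OFF-MAIN.  Complete proofs, nothing assumed.  ADDITIVE (new names only, suffix `981`).

    stepAll_of981 : StepTC981 K K' LA → StepSC981 K K' LA → StepMC981 K K' LA
                      → StepGC981 K K' LA (fun _ => True)
    pairAC_of981  : BaseAC981 P K K' LA → StepTC981 K K' LA → StepSC981 K K' LA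
                      → StepMC981 K K' LA → Q797.PairAC797 P K K' LA            (VERBATIM)
    pair1C_of_pairA981 : Q797.PairAC797 P K K' H893.LocA893 → Pair1C981 P K K'   (bridge)

Induction on the word: `(Φ₁ (x :: X), F₁ (x :: X))` = the step of `x` applied to
`(Φ₁ X, F₁ X)` (a choice); `wordEv (x :: X) C = x.ev C * wordEv X C`.
-/

set_option autoImplicit false

open AutomorphicForm IsDedekindDomain NumberField MeasureTheory
open scoped ComplexConjugate

noncomputable section

namespace Fermat.Agent.LT.T7.B981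

open Fermat.Agent.LT.H556 Fermat.Agent.LT.H556.A0 Fermat.Agent.LT.T7
open Fermat.Agent.LT.T7.H305 Fermat.Agent.LT.T7.H893

attribute [local instance] Fermat.Agent.LT.T5.instMeasurableSpaceG

variable {P : EKCond}
variable {K K' : Type} [Field K] [NumberField K] [Field K'] [NumberField K'] [Algebra K K']

theorem wordEv_nil981 (C : EigData K') : wordEv ([] : List (Gen K')) C = 1 := by
  simp [wordEv]

theorem wordEv_cons981 (x : Gen K') (X : List (Gen K')) (C : EigData K') :
    wordEv (x :: X) C = x.ev C * wordEv X C := by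
  simp [wordEv]

/-- The step for every generator from the three step nodes. -/
theorem stepAll_of981 {LA : Q797.ShapeA797 K K'} (hT : StepTC981 K K' LA)
    (hS : StepSC981 K K' LA) (hM : StepMC981 K K' LA) :
    StepGC981 K K' LA (fun _ => True) := by
  intro ℓ hcyc hl hcx Φ B hB hram 𝔫 hlev μc hμc T₀ n n₀ m hexp x _ hout φ f hgood
  cases x with
  | T w =>
    exact hT ℓ hcyc hl hcx Φ B hB hram 𝔫 hlev μc hμc T₀ n n₀ m hexp _ ⟨w, rfl⟩ hout φ f hgood
  | S w =>
    exact hS ℓ hcyc hl hcx Φ B hB hram 𝔫 hlev μc hμc T₀ n n₀ m hexp _ ⟨w, Or.inl rfl⟩ hout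
      φ f hgood
  | Sinv w =>
    exact hS ℓ hcyc hl hcx Φ B hB hram 𝔫 hlev μc hμc T₀ n n₀ m hexp _ ⟨w, Or.inr rfl⟩ hout
      φ f hgood
  | M w d =>
    exact hM ℓ hcyc hl hcx Φ B hB hram 𝔫 hlev μc hμc T₀ n n₀ m hexp _ ⟨w, d, rfl⟩ hout
      φ f hgood

/-- **THE TOP OF THE SECOND CUT**: the node `Q797.PairAC797` from the base and the three
steps. -/
theorem pairAC_of981 {LA : Q797.ShapeA797 K K'} (hB : BaseAC981 P K K' LA)
    (hT : StepTC981 K K' LA) (hS : StepSC981 K K' LA) (hM : StepMC981 K K' LA) :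
    Q797.PairAC797 P K K' LA := by
  classical
  intro ℓ hcyc hl hcx Φ hΦ hconst hP B hB' hram 𝔫 hlev μc hμc T₀ n n₀ m hexp
  obtain ⟨c₁, φ, f, hgood, hop, hne, hstab⟩ :=
    hB ℓ hcyc hl hcx Φ hΦ hconst hP B hB' hram 𝔫 hlev μc hμc T₀ n n₀ m hexp
  have hstep := stepAll_of981 hT hS hM ℓ hcyc hl hcx Φ B hB' hram 𝔫 hlev μc hμc T₀ n n₀ m hexp
  -- the step as a function (junk when the hypotheses fail)
  let stepFn : Gen K' → (G K' → ℂ) × (G K → ℂ) → (G K' → ℂ) × (G K → ℂ) := fun x p =>
    if h : x.Out B.S' ∧ IsGoodA981 LA ℓ B 𝔫 μc T₀ n m p.1 p.2 then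
      Classical.choose (hstep x trivial h.1 p.1 p.2 h.2)
    else p
  let W : List (Gen K') → (G K' → ℂ) × (G K → ℂ) := fun X => X.foldr stepFn (φ, f)
  have hWc : ∀ (x : Gen K') (X : List (Gen K')), W (x :: X) = stepFn x (W X) := fun _ _ => rfl
  have key : ∀ X : List (Gen K'), (∀ x ∈ X, x.Out B.S') →
      IsGoodA981 LA ℓ B 𝔫 μc T₀ n m (W X).1 (W X).2 ∧
      (∀ (χ : G K' → ℂ) (C : EigData K'), IsEigFn B.𝔑₀ B.R'.r ℓ B.o χ C →
        ∀ y : G K', T5.Rconv B.R'.μ (W X).1 χ y = wordEv X C * c₁ C * χ y) ∧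
      (∀ (χ : G K → ℂ) (c : EigData K) (C : EigData K'),
        IsEigFn 𝔫 B.R.r 1 (fun _ => B.u) χ c → IsBCData c C B.S' →
        ∀ y : G K, T5.Rconv B.R.μ (W X).2 χ y = wordEv X C * T5.Rconv B.R.μ f χ y) := by
    intro X
    induction X with
    | nil =>
      intro _
      refine ⟨hgood, fun χ C hχ y => ?_, fun χ c C _ _ y => ?_⟩
      · rw [wordEv_nil981, one_mul]
        exact hop χ C hχ y
      · rw [wordEv_nil981, one_mul]
        rfl
    | cons x X ih =>
      intro hX
      have hx : x.Out B.S' := hX x List.mem_cons_self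
      obtain ⟨ig, iu, id⟩ := ih fun y hy => hX y (List.mem_cons_of_mem _ hy)
      have hcond : x.Out B.S' ∧ IsGoodA981 LA ℓ B 𝔫 μc T₀ n m (W X).1 (W X).2 := ⟨hx, ig⟩
      have hspec := Classical.choose_spec (hstep x trivial hx (W X).1 (W X).2 ig)
      have hWeq : W (x :: X) = Classical.choose (hstep x trivial hx (W X).1 (W X).2 ig) := by
        rw [hWc]
        simp only [stepFn]
        rw [dif_pos hcond]
      rw [hWeq]
      refine ⟨hspec.1, fun χ C hχ y => ?_, fun χ c C hχ hC y => ?_⟩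
      · rw [hspec.2.up χ C hχ y, iu χ C hχ y, wordEv_cons981]
        ring
      · rw [hspec.2.dn χ c C hχ hC y, id χ c C hχ hC y, wordEv_cons981]
        ring
  refine ⟨c₁, fun X => (W X).1, fun X => (W X).2, ?_⟩
  exact
    { up1_test := fun X hX => (key X hX).1.up_test
      up1_ek := fun X hX => (key X hX).1.up_ek
      up1_op := fun X hX χ C hχ y => (key X hX).2.1 χ C hχ y
      up1_ne := hne
      dn1_test := fun X hX => (key X hX).1.dn_test
      dn1_ek := fun X hX => (key X hX).1.dn_ek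
      dn1_op := fun X hX χ c C hχ hC y => (key X hX).2.2 χ c C hχ hC y
      dn1_wfn := hstab.wfn
      dn1_class := hstab.cls
      dn1_comm := hstab.comm
      up1_supp := fun X hX => (key X hX).1.up_supp
      dn1_supp := fun X hX => (key X hX).1.dn_supp
      shape := fun X hX => (key X hX).1.shape }

/-- **BRIDGE**: the node of helper797 for the shape of record gives the node `Pair1C981` of the
first cut of helper981 (same statement). -/
theorem pair1C_of_pairA981 (h : Q797.PairAC797 P K K' LocA893) : Pair1C981 P K K' := by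
  intro ℓ hcyc hl hcx Φ hΦ hconst hP B hB hram 𝔫 hlev μc hμc T₀ n n₀ m hexp
  obtain ⟨c₁, Φ₁, F₁, hp⟩ := h ℓ hcyc hl hcx Φ hΦ hconst hP B hB hram 𝔫
    ⟨hlev.level_ne, hlev.level_g, hlev.mem_S'_g, hlev.u_level⟩ μc hμc T₀ n n₀ m
    ⟨hexp.mem, hexp.lvl, hexp.lvl_up, hexp.lvl_base⟩
  exact ⟨c₁, Φ₁, F₁,
    { up1_test := hp.up1_test
      up1_ek := hp.up1_ek
      up1_op := hp.up1_op
      up1_ne := hp.up1_ne
      dn1_test := hp.dn1_test
      dn1_ek := hp.dn1_ek
      dn1_op := hp.dn1_op
      dn1_wfn := hp.dn1_wfn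
      dn1_class := hp.dn1_class
      dn1_comm := hp.dn1_comm
      up1_supp := hp.up1_supp
      dn1_supp := hp.dn1_supp }, hp.shape⟩

end Fermat.Agent.LT.T7.B981

end

end
-- ===== PACK-END LT/T7/B981/PairATop.lean

-- ===== PACK-BEGIN LT/T7/B981/H302/HaarCplx.lean
section




/-!
# Row LT, tower T7, leaf T7.L2.1.H2a.0 `HaarCplxC981` (registry row 2685, helper302)

OFF-MAIN, never land.  Complete proof, nothing assumed.  ADDITIVE (new names only, suffix
`302`).  Spec: `LT/T7/B981/BaseSpec.lean` (helper981@67d2c25cd, sha256 3ab0d96cf68c91f7),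
byte-identical copy.

    haarCplxC302 : B981.HaarCplxC981                                   (VERBATIM)

The proof is the Mathlib-only core `H302.exists_haar_GL2C302` (`HaarCplxCore.lean`).
-/

set_option autoImplicit false

open MeasureTheory

namespace Fermat.Agent.LT.T7.B981.H302

/-- **LEAF T7.L2.1.H2a.0 = HAAR, CLOSED**: `GL₂(ℂ)` has a Haar measure on its Borel
`σ`-algebra. -/
theorem haarCplxC302 : Fermat.Agent.LT.T7.B981.HaarCplxC981 :=
  exists_haar_GL2C302

end Fermat.Agent.LT.T7.B981.H302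

end
-- ===== PACK-END LT/T7/B981/H302/HaarCplx.lean

-- ===== PACK-BEGIN LT/T7/B981/H503/StepSSpec.lean
section



/-!
# Row LT, tower T7, node T7.L2.1.H2a.A.2 `B981.StepSC981` (registry row 2815, owner helper503):
# THE CUT -- Spec

OFF-MAIN.  Definitions and frozen Props only (the proved top `stepSC_of503` is in
`StepSTop.lean`).  No hole, nothing assumed.  ADDITIVE (new names only, suffix `503`, namespace
`Fermat.Agent.LT.T7.B981.SS503`).  Vocabulary: `T7/B981/PairASpec.lean` (helper981@665489bd4,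
sha256 54ea7f02) and its imports, byte-identical copies.

    stepSC_of503 : UnifC503 K → UnifC503 K' → TrTestC503 K → TrTestC503 K' → TrEKC503 K
        → TrEKC503 K' → TrSuppC503 K → TrSuppC503 K' → TrOpC503 K → TrOpC503 K'
        → PlacesC503 K K' → SphShiftC503 → UnitSphC503 → PureShiftC503 K → PureShiftC503 K'
        → B981.StepSC981 K K' H893.LocA893

## The step

`x = S_w` (`ε = 1`) or `x = S_w⁻¹` (`ε = -1`), `w ∉ S'`; `v` the place of `K` under `w`, `f` the
residue degree; `z'` a scalar uniformiser at `w`, `z` a scalar uniformiser at `v`: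

    φ' = φ(· z'^{-ε}),      f' = f(· z^{-ε f}).

All leaves are statements over ONE number field (or local), except `PlacesC503`.
-/

set_option autoImplicit false

open AutomorphicForm IsDedekindDomain NumberField MeasureTheory
open scoped ComplexConjugate

noncomputable section

namespace Fermat.Agent.LT.T7.B981.SS503

open Fermat.Agent.LT.H556 Fermat.Agent.LT.H556.A0 Fermat.Agent.LT.T7
open Fermat.Agent.LT.T7.H305 Fermat.Agent.LT.T7.H893

attribute [local instance] Fermat.Agent.LT.T5.instMeasurableSpaceG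

/-! ## 1. Vocabulary -/

section Vocab

variable {K : Type} [Field K] [NumberField K]

/-- The right translate `g ↦ φ (g z)`. -/
def rtr503 (z : G K) (φ : G K → ℂ) : G K → ℂ := fun g => φ (g * z)

open Classical in
/-- The components `f₀`, replaced by the unit `1_{GL₂(𝒪_v)}` outside `T`. -/
def extU503 (T : Finset (HeightOneSpectrum (𝓞 K)))
    (f₀ : ∀ v : HeightOneSpectrum (𝓞 K), GL (Fin 2) (v.adicCompletion K) → ℂ) :
    ∀ v : HeightOneSpectrum (𝓞 K), GL (Fin 2) (v.adicCompletion K) → ℂ :=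
  fun v => if v ∈ T then f₀ v else unitFn893 0

open Classical in
/-- The components `f₀` with the component at `v` translated on the right by `c`. -/
def trC503 (v : HeightOneSpectrum (𝓞 K)) (c : GL (Fin 2) (v.adicCompletion K))
    (f₀ : ∀ v : HeightOneSpectrum (𝓞 K), GL (Fin 2) (v.adicCompletion K) → ℂ) :
    ∀ v : HeightOneSpectrum (𝓞 K), GL (Fin 2) (v.adicCompletion K) → ℂ :=
  Function.update f₀ v (fun x => f₀ v (x * c))

/-- The values on the Cartan invariants shifted by `(t, t)`: `(shA503 t A) (a + t, b + t) =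
A (a, b)`. -/
def shA503 (t : ℤ) (A : (ℤ × ℤ) →₀ ℂ) : (ℤ × ℤ) →₀ ℂ :=
  A.mapDomain fun lam => (lam.1 + t, lam.2 + t)

end Vocab

/-! ## 2. The leaves over one field -/

section OneField

variable (K : Type) [Field K] [NumberField K]

/-- **LEAF SS.0 = UNIF (closed asset `H129.exists_scalarUniformizer129`).**  Scalar uniformisers
exist at every finite place. -/
def UnifC503 : Prop :=
  ∀ v : HeightOneSpectrum (𝓞 K), ∃ z : G K, IsScalarUniformizerAt v z

/-- **LEAF SS.1 = TR-TEST ([S-M]).**  The right translate of a test function by a power of a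
scalar uniformiser is a test function of the same level.
Proof.  `z` is a scalar matrix of `GL₂(𝔸_K)` (componentwise: `T5.H942.isScalarG_of_centralRay942`
is the same argument), hence central; continuity and compact support: right multiplication is a
homeomorphism; smoothness at infinity and bi-invariance: `φ (g h z^t) = φ ((g z^t) h)`. -/
def TrTestC503 : Prop :=
  ∀ (𝔫 : Ideal (𝓞 K)) (v : HeightOneSpectrum (𝓞 K)) (z : G K), IsScalarUniformizerAt v z →
    ∀ (t : ℤ) (φ : G K → ℂ), T5.IsTestFn 𝔫 T5.trivType φ →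
      T5.IsTestFn 𝔫 T5.trivType (rtr503 (z ^ t) φ)

/-- **LEAF SS.2 = TR-EK ([M]).**  The right translate of an Eisenstein-killing function by a
power of a scalar uniformiser is Eisenstein-killing, and so is its adjoint.
Proof.  `R(φ(· z^t)) Ψ = R(φ) (Ψ(· z^{-t}))` (right invariance of `μ`: `IsFrame.right_inv`;
change of variables for the Bochner integral, no integrability needed), and `Ψ(· z^{-t})` is
Borel-invariant (`z` is central).  The adjoint of `φ(· z^t)` is `φ*(z^{-t} ·) = φ*(· z^{-t})`. -/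
def TrEKC503 : Prop :=
  ∀ (μ : Measure (G K)) (F : Set (G K)), T5.IsFrame μ F →
    ∀ (v : HeightOneSpectrum (𝓞 K)) (z : G K), IsScalarUniformizerAt v z →
    ∀ (t : ℤ) (φ : G K → ℂ),
      (T5.IsEK μ φ → T5.IsEK μ (rtr503 (z ^ t) φ)) ∧
      (T5.IsEK μ (T5.adjointFn φ) → T5.IsEK μ (T5.adjointFn (rtr503 (z ^ t) φ)))

/-- **LEAF SS.3 = TR-SUPP ([S-M]).**  Iwahori supports: if `v` is not in the orbit, the right
translate by a power of a scalar uniformiser at `v` is Iwahori-supported in the translate of the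
compact set.
Proof.  `φ (y z^t) ≠ 0`: `y z^t` is Iwahori along the orbit and agrees outside the orbit with
`h ∈ C`; `z` is trivial at the places of the orbit and at infinity, so `y` is Iwahori along the
orbit and agrees outside the orbit with `h z^{-t} ∈ C z^{-t}` (compact). -/
def TrSuppC503 : Prop :=
  ∀ (l : ℕ) (o : ℕ → HeightOneSpectrum (𝓞 K)) (v : HeightOneSpectrum (𝓞 K)) (z : G K),
    IsScalarUniformizerAt v z → (∀ j : ℕ, j < l → o j ≠ v) →
    ∀ (t : ℤ) (φ : G K → ℂ),
      (∃ C : Set (G K), IsCompact C ∧ T5.H32.IsIwSupported32 l o C φ) →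
      ∃ C : Set (G K), IsCompact C ∧ T5.H32.IsIwSupported32 l o C (rtr503 (z ^ t) φ)

/-- **LEAF SS.4 = TR-OP ([M]).**  The operator of a right translate on a function with
`χ (g z) = b χ (g)`: `R(φ(· z^{-k})) χ = b^k R(φ) χ`, `R(φ(· z^k)) χ = (b^k)⁻¹ R(φ) χ`.
Proof.  Right invariance of `μ` (`IsFrame.right_inv`; change of variables for the Bochner
integral, no integrability needed): `∫ φ (g z^{∓k}) χ (y g) = ∫ φ (g) χ (y g z^{± k})`;
`χ (h z^k) = b^k χ (h)`; if `b = 0` and `k ≠ 0` then `χ = 0` and both sides vanish. -/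
def TrOpC503 : Prop :=
  ∀ (μ : Measure (G K)) (F : Set (G K)), T5.IsFrame μ F →
    ∀ (χ : G K → ℂ) (v : HeightOneSpectrum (𝓞 K)) (a b : ℂ), IsHeckeEigenAt χ v a b →
    ∀ (z : G K), IsScalarUniformizerAt v z → ∀ (k : ℕ) (φ : G K → ℂ) (y : G K),
      T5.Rconv μ (rtr503 (z ^ (-(k : ℤ))) φ) χ y = b ^ k * T5.Rconv μ φ χ y ∧
      T5.Rconv μ (rtr503 (z ^ (k : ℤ)) φ) χ y = (b ^ k)⁻¹ * T5.Rconv μ φ χ y

/-- **LEAF SS.8 = PURE-SHIFT ([M-L]).**  The right translate of a pure tensor by a power of a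
scalar uniformiser at `v ∈ P` is the pure tensor for the set `T ∪ P` with the components
extended by the unit outside `T` and the component at `v` translated.
Proof.  (1) `pure305 T f₀ F = pure305 T (extU503 T f₀) F` (the components outside `T` do not
occur).  (2) `pure305 (T ∪ P) g₀ F = pure305 T g₀ F` if `g₀ v' = 1_{GL₂(𝒪)}` for
`v' ∈ P ∖ T` (`unitFn893 0 (finGL305 v' h) = 1` iff `h` and `h⁻¹` are integral at `v'`; this is
`H305.PureExtC305`, closed by helper82).  (3) `z` is trivial at infinity and outside `v`, and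
`v ∈ T ∪ P`: `OutT305 (T ∪ P) (h z^t) ↔ OutT305 (T ∪ P) h`, the components at `v' ≠ v` and at
infinity are unchanged, the component at `v` is multiplied by `finGL305 v (z ^ t)`. -/
def PureShiftC503 : Prop :=
  open Classical in
  ∀ (T P : Finset (HeightOneSpectrum (𝓞 K)))
    (f₀ : ∀ v : HeightOneSpectrum (𝓞 K), GL (Fin 2) (v.adicCompletion K) → ℂ)
    (F : InfinitePlace K → GL (Fin 2) ℂ → ℂ) (v : HeightOneSpectrum (𝓞 K)), v ∈ P →
    ∀ (z : G K), IsScalarUniformizerAt v z → ∀ (t : ℤ) (h : G K),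
      pure305 (T ∪ P) (trC503 v (finGL305 v (z ^ t)) (extU503 T f₀)) F h
        = pure305 T f₀ F (h * z ^ t)

end OneField

/-! ## 3. The local leaves -/

section Local

/-- **LEAF SS.6 = SPH-SHIFT ([M]; local, valuations).**  The right translate of a spherical
function by the `(-t)`-th power of a scalar uniformiser is the spherical function with the values
shifted by `(t, t)`.
Proof.  `T6.cartan (x c^{-t}) = T6.cartan x - (t, t)`: the entries are multiplied by `c₀^{-t}`
(`T6.entryMax` is multiplied by `exp t`, `WithZero.log` of it increases by `t`), the determinant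
by `c₀^{-2t}`; `Finsupp.mapDomain_apply` for the injective shift; dominance is preserved. -/
def SphShiftC503 : Prop :=
  ∀ (k : Type) [Field k] [Valued k T6.Γ₀] (c : GL (Fin 2) k) (c₀ : k),
    Valued.v c₀ = WithZero.exp (-1 : ℤ) →
    (c : Matrix (Fin 2) (Fin 2) k) = Matrix.diagonal (fun _ => c₀) →
    ∀ (t : ℤ) (φ : GL (Fin 2) k → ℂ) (A : (ℤ × ℤ) →₀ ℂ), IsSphFn893 φ A →
      IsSphFn893 (fun x => φ (x * c ^ (-t))) (shA503 t A)

/-- **LEAF SS.7 = UNIT-SPH ([M]; local, valuations).**  The unit `1_{GL₂(𝒪)}` is the spherical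
function with the value `1` at the Cartan invariant `(0, 0)`.
Proof.  `T6.InU 0 x` iff `x` and `x⁻¹` have integral entries iff the largest valuation of an
entry is `1` and the determinant is a unit iff `T6.cartan x = (0, 0)`. -/
def UnitSphC503 : Prop :=
  ∀ (k : Type) [Field k] [Valued k T6.Γ₀],
    IsSphFn893 (unitFn893 (k := k) 0) (Finsupp.single ((0 : ℤ), (0 : ℤ)) (1 : ℂ))

end Local

/-! ## 4. The leaf on the places -/

section TwoFields

variable (K K' : Type) [Field K] [NumberField K] [Field K'] [NumberField K'] [Algebra K K']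

/-- **LEAF SS.5 = PLACES ([L]; algebraic number theory, Mathlib only).**  Every finite place `w`
of `K'` lies over exactly one place `v` of `K`, with a residue degree `f`
(`N w = (N v)^f`); the set of the places over `v` is finite; if `w` is unramified over `v`:
`f = ℓ` if `w` is the only place over `v`, and if there are `ℓ` distinct places over `v` then
`f = 1` and `w` is one of them.
Proof.  `v = w ∩ 𝓞_K` (`Ideal.comap`, non-zero: integral extension);
`Ideal.absNorm` and the inertia degree (`Ideal.absNorm_eq_pow_inertiaDeg` over `ℤ` for `v` and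
`w`, `Ideal.inertiaDeg_algebra_tower`); finiteness: `Ideal.primesOver` is finite;
`∑_{w' ∣ v} e(w') f(w') = [K' : K] = ℓ` (`Ideal.sum_ramification_inertia`): one place with
`e = 1` has `f = ℓ`; `ℓ` distinct places: all have `e f = 1` and there is no other place. -/
def PlacesC503 : Prop :=
  ∀ ℓ : ℕ, IsCycExt K K' ℓ → ∀ w : HeightOneSpectrum (𝓞 K'),
    ∃ (v : HeightOneSpectrum (𝓞 K)) (f : ℕ) (P : Finset (HeightOneSpectrum (𝓞 K'))),
      HasResDeg K K' v w f ∧
      (∀ v' : HeightOneSpectrum (𝓞 K), PlaceOver K K' v' w → v' = v) ∧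
      (∀ w' : HeightOneSpectrum (𝓞 K'), w' ∈ P ↔ PlaceOver K K' v w') ∧
      ((∃ x : 𝓞 K, x ∈ v.asIdeal ∧ algebraMap (𝓞 K) (𝓞 K') x ∉ w.asIdeal ^ 2) →
        ((∀ w' : HeightOneSpectrum (𝓞 K'), PlaceOver K K' v w' → w' = w) → f = ℓ) ∧
        ∀ u : ℕ → HeightOneSpectrum (𝓞 K'), (∀ j : ℕ, PlaceOver K K' v (u j)) →
          (∀ j j' : ℕ, j < ℓ → j' < ℓ → u j = u j' → j = j') →
          f = 1 ∧ ∃ j : ℕ, j < ℓ ∧ u j = w)

end TwoFields

/-! ## Appendix: the equation lemmas of the definitions of this file are realised HERE -/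

theorem eqns_realised_stepS503 : True := by
  have _h0 := @rtr503.eq_1
  have _h1 := @extU503.eq_1
  have _h2 := @trC503.eq_1
  have _h3 := @shA503.eq_1
  have _h4 := @UnifC503.eq_1
  have _h5 := @TrTestC503.eq_1
  have _h6 := @TrEKC503.eq_1
  have _h7 := @TrSuppC503.eq_1
  have _h8 := @TrOpC503.eq_1
  have _h9 := @PureShiftC503.eq_1
  have _h10 := @SphShiftC503.eq_1
  have _h11 := @UnitSphC503.eq_1
  have _h12 := @PlacesC503.eq_1
  have _g0 := @rtr503.eq_def
  have _g1 := @extU503.eq_def
  have _g2 := @trC503.eq_def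
  have _g3 := @shA503.eq_def
  have _g4 := @UnifC503.eq_def
  have _g5 := @TrTestC503.eq_def
  have _g6 := @TrEKC503.eq_def
  have _g7 := @TrSuppC503.eq_def
  have _g8 := @TrOpC503.eq_def
  have _g9 := @PureShiftC503.eq_def
  have _g10 := @SphShiftC503.eq_def
  have _g11 := @UnitSphC503.eq_def
  have _g12 := @PlacesC503.eq_def
  trivial

end Fermat.Agent.LT.T7.B981.SS503

end

end
-- ===== PACK-END LT/T7/B981/H503/StepSSpec.lean

-- ===== PACK-BEGIN LT/T7/H445/StepMSpec.lean
section



/-!
# Row LT, tower T7, node T7.L2.1.H2a.A.3 `B981.StepMC981` (sub-architect helper445, registry 2816):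
# THE CUT -- Spec

OFF-MAIN.  Definitions and frozen Props only (the proved top is `StepMTop.lean`).  No hole,
nothing assumed.  ADDITIVE (new names only, suffix `445`).  Vocabulary: the second cut of
helper981 (`T7/B981/PairASpec.lean`, sha256 54ea7f02c8644374) and its imports, byte-identical.

    stepMC_of445 : (the ten leaves below) → B981.StepMC981 K K' H893.LocA893      (VERBATIM)

## The construction

`x = M_{w,d}`, `w` an infinite place of `K'`, `d > 0`, `v = w ∩ K`.  `Y'` (over `K'`, at `w`),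
`Y` (over `K`, at `v`): the sphere families (`IsSph445`), `y` the sphere family of `GL₂(ℂ)`
(`IsSphC445`).  THE STEP: `φ' = sphMean445 Y' φ`, `f' = sphMean445 Y f`, the sphere means IN THE
RIGHT VARIABLE.  The members of the average of pure tensors of `(φ', f')` are the sphere means of
the members of `(φ, f)` = the pure tensors with the component at `w` (resp. `v`) replaced by its
local sphere mean `sphMeanC445 y`.

## The leaves (ONE field unless said; every leaf is TRUE for all `d`, only `SphOpC445` uses `0 < d`)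

* `SphExC445 K`, `SphExLocC445` [S]: the sphere families exist.
* `SphTestC445 K` [L]: the sphere mean of a test function is a test function.
* `SphEKC445 K` [M]: ... Eisenstein-killing with Eisenstein-killing adjoint.
* `SphSuppC445 K` [S]: ... Iwahori-supported in a compact set.
* `SphOpC445 K` [L]: `R(sphMean φ) χ = m_w(d) R(φ) χ` on the eigenfunctions.
* `SphPureC445 K` [M]: the sphere mean of a pure tensor is the pure tensor with the local sphere
  mean at `w`.
* `SphAvgC445 K` [M]: the sphere mean commutes with averages over a compact parameter space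
  (Fubini), joint continuity and common compact support are preserved.
* `SphArchC445` [M-L] (`GL₂(ℂ)` only): the local sphere mean preserves continuity, compact
  support, invariance under complex conjugation and bi-`U(2)`-invariance.
* `SphConvC445` [L-XL] (`GL₂(ℂ)` only): the iterated convolution with ONE factor replaced by its
  local sphere mean is the local sphere mean of the iterated convolution (the bi-`U(2)`-invariant
  functions commute).
* `ArchFibreC445 K K'` [M]: an injective enumeration of length `ℓ` of places over `v` exhausts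
  the places over `v`.

FALSITY CHECKS (helper445).
(a) `SphOpC445`: `R(φ') χ (x) = ∫ φ'(h) χ(x h) = ∫∫ sin β ∫ φ(h) χ(x h Y⁻¹)` (Fubini, right
invariance of `μ`) `= 4π ∫ φ(h) χ(x h a_d⁻¹)` (`χ` right invariant under `U(2)_w`;
`Y = k a_d`) and for EVERY `(α, β)`: `∫ φ(h) χ(x h a_d⁻¹) = ∫ φ(h) χ(x h k a_d⁻¹)` for
`k ∈ U(2)_w` (`φ` right invariant under `U(2)_w`, right invariance of `μ`); with
`k = Y(α,β) a_d⁻¹ W`, `W = rotY π`, `a_d W a_d = W` (`torus_rotY_pi770`):
`k a_d⁻¹ = Y(α,β) W`, so `= ∫ φ(h) χ(x h Y(α,β))`; integrate against `sin β`: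
`4π ∫ φ(h) χ(x h a_d⁻¹) = ∫ φ(h) (M_d χ)(x h) = m(d) R(φ) χ (x)` (`IsEigFn.mean`, `0 < d`).
NO property of the measure beyond `IsFrame.right_inv`, no unitarity.
(b) `SphConvC445`: `M(A ⋆ B) = A ⋆ M B` is Fubini; `M A ⋆ B = A ⋆ M B` for `A` right invariant,
`B` bi-invariant under `U(2)`: `(M A ⋆ B)(g) = 4π ∫ A(x) B(a_d x⁻¹ g)` (right invariance of the
Haar measure of `GL₂(ℂ)`: `T6/H8/Unimod.lean rightInv_GL2C8`; `B` left invariant) and
`4π B(a_d h)` may be replaced by `∫∫ B(a_d k(α,β)⁻¹ h) sin β` under `∫ A(x) … dx`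
(`A` right invariant), `k(α,β)⁻¹ = rotY(-β) rotZ(α)`; `B(m) = B(mᵀ)` (Cartan decomposition,
`SubCartanInf429`: `U(2)` is stable under transposition), so
`∫∫ B(a_d rotY(-β) rotZ(α) h) sin β = (M B)(hᵀ) = (M B)(h)` (`M B` is bi-invariant:
`SphArchC445`).  The induction on the number of factors uses that the iterated convolutions
are continuous with compact support and bi-invariant.
(c) `SphArchC445`, conjugation: `conj (y(α,β)) = y(-α,β)`, `y(α - 2π, β) = - y(α,β)`, `-1 ∈ U(2)`.
Right invariance of `M Φ`: `T2/H429 SubS2Rot429` (closed in T2).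
(d) `SphTestC445`, smoothness: `t ↦ ∫∫ φ(g h(t) Y(α,β)) sin β`: the family
`(t, α, β) ↦ h(t) Y(α,β)` is a smooth family at infinity with `n + 2` parameters, so the
integrand is smooth in `(t, α, β)` (`IsSmoothAtInf φ`); parametric integrals over a box
(`contDiff_parametric_primitive_of_contDiff`).  Right invariance under `U(2)_w`: `SubS2Rot429`.
(e) The places: `K` totally complex, so every infinite place of `K'` is complex (proved in the
top).  At a real place `IsSph445` is void.
-/

set_option autoImplicit false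

open AutomorphicForm IsDedekindDomain NumberField MeasureTheory
open scoped ComplexConjugate

noncomputable section

namespace Fermat.Agent.LT.T7.H445

open Fermat.Agent.LT.H556 Fermat.Agent.LT.H556.A0 Fermat.Agent.LT.T7
open Fermat.Agent.LT.T7.H305 Fermat.Agent.LT.T7.H893

attribute [local instance] Fermat.Agent.LT.T5.instMeasurableSpaceG

/-! ## 1. Vocabulary -/

section Vocab

variable {K : Type} [Field K] [NumberField K]

/-- `Y` is the sphere family of radius `d` at the infinite place `w` (the families of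
`T7.MeanEig`). -/
def IsSph445 (w : InfinitePlace K) (d : ℝ) (Y : ℝ → ℝ → G K) : Prop :=
  ∀ α β : ℝ, IsLocalAtInf w (Y α β) ∧ infComp w (Y α β) = rotZ α * rotY β * torus d

/-- `y` is the sphere family of radius `d` of `GL₂(ℂ)`. -/
def IsSphC445 (d : ℝ) (y : ℝ → ℝ → GL (Fin 2) ℂ) : Prop :=
  ∀ α β : ℝ, ((y α β : GL (Fin 2) ℂ) : Matrix (Fin 2) (Fin 2) ℂ) = rotZ α * rotY β * torus d

/-- THE SPHERE MEAN IN THE RIGHT VARIABLE: `g ↦ ∫∫ φ(g Y(α,β)) sin β dβ dα`. -/
def sphMean445 (Y : ℝ → ℝ → G K) (φ : G K → ℂ) : G K → ℂ :=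
  fun g => ∫ α in (0 : ℝ)..(2 * Real.pi), ∫ β in (0 : ℝ)..Real.pi,
    φ (g * Y α β) * ((Real.sin β : ℝ) : ℂ)

/-- THE LOCAL SPHERE MEAN on `GL₂(ℂ)`: `g ↦ ∫∫ Φ(g y(α,β)) sin β dβ dα`. -/
def sphMeanC445 (y : ℝ → ℝ → GL (Fin 2) ℂ) (Φ : GL (Fin 2) ℂ → ℂ) : GL (Fin 2) ℂ → ℂ :=
  fun g => ∫ α in (0 : ℝ)..(2 * Real.pi), ∫ β in (0 : ℝ)..Real.pi,
    Φ (g * y α β) * ((Real.sin β : ℝ) : ℂ)

open Classical in
/-- The archimedean components with the component at `w` replaced by `Ψ`. -/
def updArch445 (F : InfinitePlace K → GL (Fin 2) ℂ → ℂ) (w : InfinitePlace K)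
    (Ψ : GL (Fin 2) ℂ → ℂ) : InfinitePlace K → GL (Fin 2) ℂ → ℂ :=
  fun w' => if w' = w then Ψ else F w'

/-- Bi-invariance under `U(2)` (the form of `H893.ArchOk893`). -/
def IsBiU445 (Φ : GL (Fin 2) ℂ → ℂ) : Prop :=
  ∀ k₁ k₂ g : GL (Fin 2) ℂ,
    (k₁ : Matrix (Fin 2) (Fin 2) ℂ) * (k₁ : Matrix (Fin 2) (Fin 2) ℂ).conjTranspose = 1 →
    (k₂ : Matrix (Fin 2) (Fin 2) ℂ) * (k₂ : Matrix (Fin 2) (Fin 2) ℂ).conjTranspose = 1 →
    Φ (k₁ * g * k₂) = Φ g

/-- The properties of an archimedean component in `H893.ArchOk893`: continuous, compact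
support, invariant under complex conjugation, bi-invariant under `U(2)`. -/
def IsArchGood445 (Φ : GL (Fin 2) ℂ → ℂ) : Prop :=
  Continuous Φ ∧ HasCompactSupport Φ ∧ (∀ g : GL (Fin 2) ℂ, Φ (conjGL305 g) = Φ g) ∧
    IsBiU445 Φ

end Vocab

/-! ## 2. The leaves -/

section OneField

variable (K : Type) [Field K] [NumberField K]

/-- **LEAF M.0a = SPH-EX [S].**  The sphere family exists at a complex place (assets:
`T2/H878/CommConvMean.lean locC878`, `T2/H291 ZsT291`, `T2/H322 zLoc322`). -/
def SphExC445 : Prop :=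
  ∀ w : InfinitePlace K, w.IsComplex → ∀ d : ℝ, ∃ Y : ℝ → ℝ → G K, IsSph445 w d Y

/-- **LEAF M.1 = SPH-TEST [L].**  The sphere mean of a test function (trivial type, any level)
is a test function.  Continuity and compact support: parametric integral over a compact box,
support in `supp φ · {Y(α,β)⁻¹}`; smooth at infinity: header (d); `U(𝔫)`: the elements of the
level group commute with `Y` (trivial at infinity); `K_∞`: left clear, right at `w' ≠ w`
commutation, at `w`: `SubS2Rot429` (rotation invariance of `sin β dβ dα`). -/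
def SphTestC445 : Prop :=
  ∀ (𝔫 : Ideal (𝓞 K)) (w : InfinitePlace K), w.IsComplex →
    ∀ (d : ℝ) (Y : ℝ → ℝ → G K), IsSph445 w d Y →
    ∀ φ : G K → ℂ, T5.IsTestFn 𝔫 T5.trivType φ →
      T5.IsTestFn 𝔫 T5.trivType (sphMean445 Y φ)

/-- **LEAF M.2 = SPH-EK [M].**  The sphere mean of an Eisenstein-killing test function with
Eisenstein-killing adjoint is Eisenstein-killing with Eisenstein-killing adjoint.
`R(M φ) Ψ (x) = ∫∫ sin β R(φ) (Ψ(· Y⁻¹)) (x)` (Fubini, `IsFrame.right_inv`), `Ψ(· Y⁻¹)` is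
Borel-invariant (the ray generator is central); `(M φ)* = ∫∫ sin β φ*(Y⁻¹ ·)`,
`R(φ*(Y⁻¹ ·)) Ψ (x) = R(φ*) Ψ (x Y)` (left invariance). -/
def SphEKC445 : Prop :=
  ∀ R : Frame5 K, IsFrame5 R →
    ∀ (𝔫 : Ideal (𝓞 K)) (w : InfinitePlace K), w.IsComplex →
    ∀ (d : ℝ) (Y : ℝ → ℝ → G K), IsSph445 w d Y →
    ∀ φ : G K → ℂ, T5.IsTestFn 𝔫 T5.trivType φ →
      T5.IsEK R.μ φ → T5.IsEK R.μ (T5.adjointFn φ) →
      T5.IsEK R.μ (sphMean445 Y φ) ∧ T5.IsEK R.μ (T5.adjointFn (sphMean445 Y φ))

/-- **LEAF M.3 = SPH-SUPP [S].**  The sphere mean of a function which is Iwahori-supported in a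
compact set is Iwahori-supported in a compact set (`C' = C · {Y(α,β)⁻¹ : (α,β) in the box}`;
`Y` is trivial at the finite places). -/
def SphSuppC445 : Prop :=
  ∀ (w : InfinitePlace K), w.IsComplex → ∀ (d : ℝ) (Y : ℝ → ℝ → G K), IsSph445 w d Y →
    ∀ (l : ℕ) (o : ℕ → HeightOneSpectrum (𝓞 K)) (C : Set (G K)) (φ : G K → ℂ),
      IsCompact C → T5.H32.IsIwSupported32 l o C φ →
      ∃ C' : Set (G K), IsCompact C' ∧ T5.H32.IsIwSupported32 l o C' (sphMean445 Y φ)

/-- **LEAF M.4 = SPH-OP [L].**  `R(M φ) χ = m_w(d) R(φ) χ` for a test function `φ` and an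
eigenfunction `χ` (any level, any orbit).  Header (a). -/
def SphOpC445 : Prop :=
  ∀ R : Frame5 K, IsFrame5 R →
    ∀ (𝔫 : Ideal (𝓞 K)) (w : InfinitePlace K), w.IsComplex →
    ∀ (d : ℝ), 0 < d → ∀ (Y : ℝ → ℝ → G K), IsSph445 w d Y →
    ∀ φ : G K → ℂ, T5.IsTestFn 𝔫 T5.trivType φ →
    ∀ (𝔫' : Ideal (𝓞 K)) (l : ℕ) (o : ℕ → HeightOneSpectrum (𝓞 K)) (χ : G K → ℂ)
      (C : EigData K), IsEigFn 𝔫' R.r l o χ C →
      ∀ x : G K, T5.Rconv R.μ (sphMean445 Y φ) χ x = C.m w d * T5.Rconv R.μ φ χ x

/-- **LEAF M.5 = SPH-PURE [M].**  The sphere mean of a pure tensor is the pure tensor with the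
component at `w` replaced by its local sphere mean (NO hypothesis on the components: the
integral is linear; `OutT305`, the finite components and the components at `w' ≠ w` of `h Y`
are those of `h`; `infGL305 w (Y α β) = y α β`). -/
def SphPureC445 : Prop :=
  ∀ (w : InfinitePlace K), w.IsComplex → ∀ (d : ℝ) (Y : ℝ → ℝ → G K), IsSph445 w d Y →
    ∀ y : ℝ → ℝ → GL (Fin 2) ℂ, IsSphC445 d y →
    ∀ (T : Finset (HeightOneSpectrum (𝓞 K)))
      (f₀ : ∀ v : HeightOneSpectrum (𝓞 K), GL (Fin 2) (v.adicCompletion K) → ℂ)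
      (F : InfinitePlace K → GL (Fin 2) ℂ → ℂ) (h : G K),
      sphMean445 Y (pure305 T f₀ F) h
        = pure305 T f₀ (updArch445 F w (sphMeanC445 y (F w))) h

/-- **LEAF M.6 = SPH-AVG [M].**  For a jointly continuous family `ψ a`, `a ∈ Ω` (compact,
Hausdorff, second countable, finite measure), supported in one compact set: the sphere means
are jointly continuous and supported in one compact set, and the sphere mean of the average is
the average of the sphere means (Fubini). -/
def SphAvgC445 : Prop :=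
  ∀ (w : InfinitePlace K), w.IsComplex → ∀ (d : ℝ) (Y : ℝ → ℝ → G K), IsSph445 w d Y →
    ∀ (Ω : Type) [TopologicalSpace Ω] [CompactSpace Ω] [T2Space Ω]
      [SecondCountableTopology Ω] [MeasurableSpace Ω] [BorelSpace Ω]
      (ν : Measure Ω) [IsFiniteMeasure ν] (ψ : Ω → G K → ℂ),
      Continuous (fun p : Ω × G K => ψ p.1 p.2) →
      (∃ C : Set (G K), IsCompact C ∧ ∀ (a : Ω) (h : G K), ψ a h ≠ 0 → h ∈ C) →
      Continuous (fun p : Ω × G K => sphMean445 Y (ψ p.1) p.2) ∧
        (∃ C : Set (G K), IsCompact C ∧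
          ∀ (a : Ω) (h : G K), sphMean445 Y (ψ a) h ≠ 0 → h ∈ C) ∧
        ∀ h : G K, sphMean445 Y (fun h' => ∫ a, ψ a h' ∂ν) h = ∫ a, sphMean445 Y (ψ a) h ∂ν

end OneField

section Local

/-- **LEAF M.0b = SPH-EX-LOC [S].**  The sphere family of `GL₂(ℂ)` exists (the determinant of
`rotZ α * rotY β * torus d` is `1`). -/
def SphExLocC445 : Prop :=
  ∀ d : ℝ, ∃ y : ℝ → ℝ → GL (Fin 2) ℂ, IsSphC445 d y

/-- **LEAF M.7 = SPH-ARCH [M-L] (`GL₂(ℂ)` only).**  The local sphere mean preserves the
properties of the archimedean components.  Header (c). -/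
def SphArchC445 : Prop :=
  ∀ (d : ℝ) (y : ℝ → ℝ → GL (Fin 2) ℂ), IsSphC445 d y →
    ∀ Φ : GL (Fin 2) ℂ → ℂ, IsArchGood445 Φ → IsArchGood445 (sphMeanC445 y Φ)

/-- **LEAF M.8 = SPH-CONV [L-XL] (`GL₂(ℂ)` only).**  For good components `Ψ 0, …, Ψ N` and
`j₀ ≤ N`: the iterated convolution (`H305.convL305`, left nested) with `Ψ j₀` replaced by its
local sphere mean is the local sphere mean of the iterated convolution.  Header (b). -/
def SphConvC445 : Prop :=
  ∀ μc : @Measure (GL (Fin 2) ℂ) (borel _), @Measure.IsHaarMeasure _ _ _ (borel _) μc →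
    ∀ (d : ℝ) (y : ℝ → ℝ → GL (Fin 2) ℂ), IsSphC445 d y →
    ∀ (N : ℕ) (Ψ : ℕ → GL (Fin 2) ℂ → ℂ), (∀ j : ℕ, j ≤ N → IsArchGood445 (Ψ j)) →
    ∀ j₀ : ℕ, j₀ ≤ N →
      convL305 μc (fun j => if j = j₀ then sphMeanC445 y (Ψ j₀) else Ψ j) N
        = sphMeanC445 y (convL305 μc Ψ N)

end Local

section TwoFields

variable (K K' : Type) [Field K] [NumberField K] [Field K'] [NumberField K'] [Algebra K K']

/-- **LEAF M.9 = ARCH-FIBRE [M].**  `K'/K` cyclic of prime degree `ℓ`, `K` totally complex: an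
enumeration `w 0, …, w (ℓ-1)` without repetition of places of `K'` over the infinite place `v`
exhausts the places over `v` (there are at most `[K' : K]` places over `v`). -/
def ArchFibreC445 : Prop :=
  ∀ ℓ : ℕ, IsCycExt K K' ℓ → TotCplx K →
    ∀ (v : InfinitePlace K) (w : ℕ → InfinitePlace K'),
      (∀ j : ℕ, (w j).comap (algebraMap K K') = v) →
      (∀ j j' : ℕ, j < ℓ → j' < ℓ → w j = w j' → j = j') →
      ∀ w' : InfinitePlace K', w'.comap (algebraMap K K') = v → ∃ j : ℕ, j < ℓ ∧ w j = w'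

end TwoFields

/-! ## Appendix: the equation lemmas of the definitions of this file are realised HERE -/

theorem eqns_realised_stepMSpec445 : True := by
  have _h0_0 := @IsSph445.eq_1
  have _h0_1 := @IsSph445.eq_def
  have _h0_2 := @IsSph445.eq_unfold
  have _h1_0 := @IsSphC445.eq_1
  have _h1_1 := @IsSphC445.eq_def
  have _h1_2 := @IsSphC445.eq_unfold
  have _h2_0 := @sphMean445.eq_1
  have _h2_1 := @sphMean445.eq_def
  have _h2_2 := @sphMean445.eq_unfold
  have _h3_0 := @sphMeanC445.eq_1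
  have _h3_1 := @sphMeanC445.eq_def
  have _h3_2 := @sphMeanC445.eq_unfold
  have _h4_0 := @updArch445.eq_1
  have _h4_1 := @updArch445.eq_def
  have _h4_2 := @updArch445.eq_unfold
  have _h5_0 := @IsBiU445.eq_1
  have _h5_1 := @IsBiU445.eq_def
  have _h5_2 := @IsBiU445.eq_unfold
  have _h6_0 := @IsArchGood445.eq_1
  have _h6_1 := @IsArchGood445.eq_def
  have _h6_2 := @IsArchGood445.eq_unfold
  have _h7_0 := @SphExC445.eq_1
  have _h7_1 := @SphExC445.eq_def
  have _h7_2 := @SphExC445.eq_unfold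
  have _h8_0 := @SphTestC445.eq_1
  have _h8_1 := @SphTestC445.eq_def
  have _h8_2 := @SphTestC445.eq_unfold
  have _h9_0 := @SphEKC445.eq_1
  have _h9_1 := @SphEKC445.eq_def
  have _h9_2 := @SphEKC445.eq_unfold
  have _h10_0 := @SphSuppC445.eq_1
  have _h10_1 := @SphSuppC445.eq_def
  have _h10_2 := @SphSuppC445.eq_unfold
  have _h11_0 := @SphOpC445.eq_1
  have _h11_1 := @SphOpC445.eq_def
  have _h11_2 := @SphOpC445.eq_unfold
  have _h12_0 := @SphPureC445.eq_1
  have _h12_1 := @SphPureC445.eq_def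
  have _h12_2 := @SphPureC445.eq_unfold
  have _h13_0 := @SphAvgC445.eq_1
  have _h13_1 := @SphAvgC445.eq_def
  have _h13_2 := @SphAvgC445.eq_unfold
  have _h14_0 := @SphExLocC445.eq_1
  have _h14_1 := @SphExLocC445.eq_def
  have _h14_2 := @SphExLocC445.eq_unfold
  have _h15_0 := @SphArchC445.eq_1
  have _h15_1 := @SphArchC445.eq_def
  have _h15_2 := @SphArchC445.eq_unfold
  have _h16_0 := @SphConvC445.eq_1
  have _h16_1 := @SphConvC445.eq_def
  have _h16_2 := @SphConvC445.eq_unfold
  have _h17_0 := @ArchFibreC445.eq_1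
  have _h17_1 := @ArchFibreC445.eq_def
  have _h17_2 := @ArchFibreC445.eq_unfold
  trivial

end Fermat.Agent.LT.T7.H445

end

end
-- ===== PACK-END LT/T7/H445/StepMSpec.lean

-- ===== PACK-BEGIN LT/T7/H534/FinPartGlob.lean
section








/-!
# Row LT, tower T7, node `H1U.FinPartUpQC` (registry row 2861; helper534, spare): global kit

OFF-MAIN.  No hole, nothing assumed.  ADDITIVE (suffix `534`).

* `under_unique534`: the place under `w` is unique;
* `places_two534`: `K'/K` of degree `2`, two distinct places over `v`: there is no third one;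
* `exists_comp534`: an element of `GL₂(𝔸_K)` with given components at a finite set, `1` outside;
* `twIso534 s w : K_{σ⁻¹ w} ≃ K_w`: the local components of `σ_𝔸` (helper558 `sigmaLocC558`),
  `finGL_onG534`;
* `tw_eq_of_eq534`, `tw_eq_of_iso534`: the local component in the coordinates of a datum.
-/

set_option autoImplicit false
set_option linter.style.haveILetI false
set_option linter.unusedSectionVars false

open AutomorphicForm IsDedekindDomain NumberField MeasureTheory

noncomputable section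

namespace Fermat.Agent.LT.T7.FPU534

open Fermat.Agent.LT.H556 Fermat.Agent.LT.H556.A0 Fermat.Agent.LT.T7 Fermat.Agent.LT

section TwoFields

variable {K K' : Type} [Field K] [NumberField K] [Field K'] [NumberField K'] [Algebra K K']

/-- The place under `w` is unique. -/
theorem under_unique534 {v : HeightOneSpectrum (𝓞 K)} {w : HeightOneSpectrum (𝓞 K')}
    (h : PlaceOver K K' v w) : v = H1G.underP_H1G (K := K) w := by
  apply HeightOneSpectrum.ext
  ext x
  rw [h x (algebraMap (𝓞 K) (𝓞 K') x) rfl]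
  exact Iff.rfl

theorem placeOver_unique534 {v v' : HeightOneSpectrum (𝓞 K)} {w : HeightOneSpectrum (𝓞 K')}
    (h : PlaceOver K K' v w) (h' : PlaceOver K K' v' w) : v = v' :=
  (under_unique534 h).trans (under_unique534 h').symm

/-- `K'/K` Galois of degree `2`, two distinct places over `v`: there is no third one. -/
theorem places_two534 {l : ℕ} (hcyc : IsCycExt K K' l) (hl : l = 2)
    (v : HeightOneSpectrum (𝓞 K)) (w0 w1 w : HeightOneSpectrum (𝓞 K'))
    (h0 : PlaceOver K K' v w0) (h1 : PlaceOver K K' v w1) (hw : PlaceOver K K' v w)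
    (hne : w1 ≠ w0) : w = w0 ∨ w = w1 := by
  haveI := hcyc.galois
  haveI := v.isPrime
  haveI : v.asIdeal.IsMaximal := v.isMaximal
  have h3 := Ideal.ncard_primesOver_mul_ramificationIdxIn_mul_inertiaDegIn v.asIdeal (𝓞 K')
    Gal(K'/K)
  rw [IsGalois.card_aut_eq_finrank, hcyc.degree, hl] at h3
  by_contra hcon0
  have hcon := not_or.mp hcon0
  have hmem : ∀ w'' : HeightOneSpectrum (𝓞 K'), PlaceOver K K' v w'' →
      w''.asIdeal ∈ v.asIdeal.primesOver (𝓞 K') :=
    fun w'' hw'' => ⟨w''.isPrime, H557.placeOver_liesOver_557 hw''⟩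
  have hsub : ({w0.asIdeal, w1.asIdeal, w.asIdeal} : Set (Ideal (𝓞 K')))
      ⊆ v.asIdeal.primesOver (𝓞 K') := by
    intro I hI
    rcases hI with rfl | rfl | rfl
    · exact hmem w0 h0
    · exact hmem w1 h1
    · exact hmem w hw
  have hn0 : (v.asIdeal.primesOver (𝓞 K')).ncard ≠ 0 := by
    intro h0'
    rw [h0'] at h3
    simp at h3
  have hfin : (v.asIdeal.primesOver (𝓞 K')).Finite := Set.finite_of_ncard_ne_zero hn0
  have hcard : ({w0.asIdeal, w1.asIdeal, w.asIdeal} : Set (Ideal (𝓞 K'))).ncard = 3 := by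
    refine Set.ncard_eq_three.2 ⟨_, _, _, ?_, ?_, ?_, rfl⟩
    · exact fun h => hne (HeightOneSpectrum.ext h.symm)
    · exact fun h => hcon.1 (HeightOneSpectrum.ext h.symm)
    · exact fun h => hcon.2 (HeightOneSpectrum.ext h.symm)
  have hle3 : 3 ≤ (v.asIdeal.primesOver (𝓞 K')).ncard := by
    rw [← hcard]
    exact Set.ncard_le_ncard hsub hfin
  have hle2 : (v.asIdeal.primesOver (𝓞 K')).ncard ≤ 2 :=
    Nat.le_of_dvd (by norm_num) ⟨_, h3.symm⟩
  omega

end TwoFields

section OneField

variable {K : Type} [Field K] [NumberField K]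

open Classical in
/-- An element of `GL₂(𝔸_K)` with given components at a finite set of places, `1` outside. -/
theorem exists_comp534 (T : Finset (HeightOneSpectrum (𝓞 K)))
    (q : ∀ w : HeightOneSpectrum (𝓞 K), GL (Fin 2) (w.adicCompletion K)) :
    ∃ y : G K, H305.OutT305 T y ∧ ∀ w ∈ T, H305.finGL305 w y = q w := by
  set b : ∀ v : HeightOneSpectrum (𝓞 K), GL (Fin 2) (v.adicCompletion K) := fun v =>
    if v ∈ T then q v else 1 with hb
  have hb1 : ∀ v : HeightOneSpectrum (𝓞 K), v ∉ T → b v = 1 := fun v hv => if_neg hv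
  have hb2 : ∀ v : HeightOneSpectrum (𝓞 K), v ∈ T → b v = q v := fun v hv => if_pos hv
  have hbint : ∀ᶠ v in Filter.cofinite, b v ∈ H159.intGL159 K v := by
    rw [Filter.eventually_cofinite]
    refine T.finite_toSet.subset fun v hv => ?_
    by_contra hvS
    exact hv (by rw [hb1 v hvS]; exact (H159.intGL159 K v).one_mem)
  refine ⟨H159.mkGL159 (fun _ => 1) b hbint, ?_, ?_⟩
  · intro v hv
    change H305.finGL305 v (H159.mkGL159 (fun _ => 1) b hbint) ∈ H159.intGL159 K v
    have e : H305.finGL305 v (H159.mkGL159 (fun _ => 1) b hbint) = b v :=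
      H159.mkGL_fin159 _ b hbint v
    rw [e, hb1 v hv]
    exact (H159.intGL159 K v).one_mem
  · intro w hw
    have e : H305.finGL305 w (H159.mkGL159 (fun _ => 1) b hbint) = b w :=
      H159.mkGL_fin159 _ b hbint w
    rw [e, hb2 w hw]

theorem finGL_ratG534 (v : HeightOneSpectrum (𝓞 K)) (γ : GL (Fin 2) K) :
    H305.finGL305 v (T5.ratG γ) = H305.locG305 v γ := by
  apply Units.ext
  ext i j
  rfl

/-- The local component of `σ_𝔸` at `w`, from the completion at `σ⁻¹ w`. -/
def twIso534 (s : T5.AdelicAut K) (w : HeightOneSpectrum (𝓞 K)) :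
    (H1G.preP_H1G s w).adicCompletion K ≃+* w.adicCompletion K :=
  Classical.choose ((H558.sigmaLocC558 (K := K) s).1 (H1G.preP_H1G s w) w
    (H1G.placeRel_preP_H1G s w))

theorem twIso_rat534 (s : T5.AdelicAut K) (w : HeightOneSpectrum (𝓞 K)) (x : K) :
    twIso534 s w (algebraMap K ((H1G.preP_H1G s w).adicCompletion K) x)
      = algebraMap K (w.adicCompletion K) (s.σ x) :=
  (Classical.choose_spec ((H558.sigmaLocC558 (K := K) s).1 (H1G.preP_H1G s w) w
    (H1G.placeRel_preP_H1G s w))).1 x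

theorem twIso_val534 (s : T5.AdelicAut K) (w : HeightOneSpectrum (𝓞 K))
    (x : (H1G.preP_H1G s w).adicCompletion K) :
    Valued.v (twIso534 s w x) = Valued.v x :=
  (Classical.choose_spec ((H558.sigmaLocC558 (K := K) s).1 (H1G.preP_H1G s w) w
    (H1G.placeRel_preP_H1G s w))).2.1 x

theorem twIso_fin534 (s : T5.AdelicAut K) (w : HeightOneSpectrum (𝓞 K)) (a : Adl K) :
    T5.finHom w (s.σA a) = twIso534 s w (T5.finHom (H1G.preP_H1G s w) a) :=
  (Classical.choose_spec ((H558.sigmaLocC558 (K := K) s).1 (H1G.preP_H1G s w) w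
    (H1G.placeRel_preP_H1G s w))).2.2 a

/-- The local component of `σ_𝔸` on `GL₂`. -/
def tw534 (s : T5.AdelicAut K) (w : HeightOneSpectrum (𝓞 K)) :
    GL (Fin 2) ((H1G.preP_H1G s w).adicCompletion K) →* GL (Fin 2) (w.adicCompletion K) :=
  Matrix.GeneralLinearGroup.map (n := Fin 2)
    ((twIso534 s w : (H1G.preP_H1G s w).adicCompletion K ≃+* w.adicCompletion K) :
      (H1G.preP_H1G s w).adicCompletion K →+* w.adicCompletion K)

theorem continuous_tw534 (s : T5.AdelicAut K) (w : HeightOneSpectrum (𝓞 K)) :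
    Continuous (tw534 s w) :=
  continuous_glMap534 _ (twIso_val534 s w)

theorem finGL_onG534 (s : T5.AdelicAut K) (w : HeightOneSpectrum (𝓞 K)) (y : G K) :
    H305.finGL305 w (s.onG y) = tw534 s w (H305.finGL305 (H1G.preP_H1G s w) y) := by
  apply Units.ext
  refine Matrix.ext fun a b => ?_
  exact twIso_fin534 s w _

/-- The twisted component: `(y⁻¹ δ σ(y))_w = y_w⁻¹ δ_w s(y_{σ⁻¹ w})`. -/
theorem finGL_tw534 (s : T5.AdelicAut K) (w : HeightOneSpectrum (𝓞 K)) (δ : GL (Fin 2) K)
    (y : G K) :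
    H305.finGL305 w (y⁻¹ * T5.ratG δ * s.onG y)
      = (H305.finGL305 w y)⁻¹ * H305.locG305 w δ
        * tw534 s w (H305.finGL305 (H1G.preP_H1G s w) y) := by
  rw [map_mul, map_mul, map_inv, finGL_ratG534, finGL_onG534]

/-- The local component of `σ_𝔸` at a place fixed by `σ`, in the coordinates of a datum. -/
theorem tw_eq_of_eq534 (s : T5.AdelicAut K) (w : HeightOneSpectrum (𝓞 K))
    (hw : H1G.preP_H1G s w = w) (sw : w.adicCompletion K ≃+* w.adicCompletion K)
    (hsw : ∀ y : K, sw (algebraMap K (w.adicCompletion K) y)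
      = algebraMap K (w.adicCompletion K) (s.σ y))
    (hval : ∀ y : w.adicCompletion K, Valued.v (sw y) = Valued.v y)
    (q : ∀ w' : HeightOneSpectrum (𝓞 K), GL (Fin 2) (w'.adicCompletion K)) :
    tw534 s w (q (H1G.preP_H1G s w)) = T6.glAut sw (q w) := by
  have key : ∀ (w'' : HeightOneSpectrum (𝓞 K)) (_ : w'' = w)
      (t : w''.adicCompletion K ≃+* w.adicCompletion K),
      (∀ y : K, t (algebraMap K (w''.adicCompletion K) y)
        = algebraMap K (w.adicCompletion K) (s.σ y)) →
      (∀ y : w''.adicCompletion K, Valued.v (t y) = Valued.v y) →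
      Matrix.GeneralLinearGroup.map (n := Fin 2)
        ((t : w''.adicCompletion K ≃+* w.adicCompletion K) :
          w''.adicCompletion K →+* w.adicCompletion K) (q w'') = T6.glAut sw (q w) := by
    intro w'' h t ht1 ht2
    subst h
    have e : ((t : w''.adicCompletion K ≃+* w''.adicCompletion K) :
        w''.adicCompletion K →+* w''.adicCompletion K)
        = ((sw : w''.adicCompletion K ≃+* w''.adicCompletion K) :
          w''.adicCompletion K →+* w''.adicCompletion K) := by
      refine RingHom.ext fun c => ?_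
      exact H1G.eq_of_val_of_rat_H1G w''
        ((t : w''.adicCompletion K ≃+* w''.adicCompletion K) :
          w''.adicCompletion K →+* w''.adicCompletion K)
        ((sw : w''.adicCompletion K ≃+* w''.adicCompletion K) :
          w''.adicCompletion K →+* w''.adicCompletion K) 1 1 one_pos one_pos
        (fun c => by rw [pow_one]; exact ht2 c) (fun c => by rw [pow_one]; exact hval c)
        (fun y => by
          show t _ = sw _
          rw [ht1, hsw]) c
    unfold T6.glAut
    rw [e]
  exact key _ hw (twIso534 s w) (twIso_rat534 s w) (twIso_val534 s w)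

end OneField

section Split

variable {F : Type} [Field F] [NumberField F]

/-- The local component of `σ_𝔸` at `w`, `σ⁻¹ w = w'`, in the coordinates of the identifications
`i : ℚ_v ≃ F_w`, `i' : ℚ_v ≃ F_{w'}`. -/
theorem tw_eq_of_iso534 (s : T5.AdelicAut F) (v : HeightOneSpectrum (𝓞 ℚ))
    (w w' : HeightOneSpectrum (𝓞 F)) (hw : H1G.preP_H1G s w = w')
    (i : v.adicCompletion ℚ ≃+* w.adicCompletion F)
    (i' : v.adicCompletion ℚ ≃+* w'.adicCompletion F)
    (hi : ∀ x : ℚ, i (algebraMap ℚ (v.adicCompletion ℚ) x)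
      = algebraMap F (w.adicCompletion F) (algebraMap ℚ F x))
    (hi' : ∀ x : ℚ, i' (algebraMap ℚ (v.adicCompletion ℚ) x)
      = algebraMap F (w'.adicCompletion F) (algebraMap ℚ F x))
    (hv : ∀ x : v.adicCompletion ℚ, Valued.v (i x) = Valued.v x)
    (hv' : ∀ x : v.adicCompletion ℚ, Valued.v (i' x) = Valued.v x)
    (q : ∀ w'' : HeightOneSpectrum (𝓞 F), GL (Fin 2) (w''.adicCompletion F)) :
    tw534 s w (q (H1G.preP_H1G s w))
      = Matrix.GeneralLinearGroup.map (n := Fin 2)
          ((i : v.adicCompletion ℚ ≃+* w.adicCompletion F) :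
            v.adicCompletion ℚ →+* w.adicCompletion F)
          (Matrix.GeneralLinearGroup.map (n := Fin 2)
            ((i'.symm : w'.adicCompletion F ≃+* v.adicCompletion ℚ) :
              w'.adicCompletion F →+* v.adicCompletion ℚ) (q w')) := by
  have key : ∀ (w'' : HeightOneSpectrum (𝓞 F)) (_ : w'' = w')
      (t : w''.adicCompletion F ≃+* w.adicCompletion F),
      (∀ y : F, t (algebraMap F (w''.adicCompletion F) y)
        = algebraMap F (w.adicCompletion F) (s.σ y)) →
      (∀ y : w''.adicCompletion F, Valued.v (t y) = Valued.v y) →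
      Matrix.GeneralLinearGroup.map (n := Fin 2)
        ((t : w''.adicCompletion F ≃+* w.adicCompletion F) :
          w''.adicCompletion F →+* w.adicCompletion F) (q w'')
      = Matrix.GeneralLinearGroup.map (n := Fin 2)
          ((i : v.adicCompletion ℚ ≃+* w.adicCompletion F) :
            v.adicCompletion ℚ →+* w.adicCompletion F)
          (Matrix.GeneralLinearGroup.map (n := Fin 2)
            ((i'.symm : w'.adicCompletion F ≃+* v.adicCompletion ℚ) :
              w'.adicCompletion F →+* v.adicCompletion ℚ) (q w')) := by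
    intro w'' h t ht1 ht2
    subst h
    have e : ∀ c : v.adicCompletion ℚ, t (i' c) = i c := by
      intro c
      exact H1G.eq_of_val_of_rat_H1G v
        (((t : w''.adicCompletion F ≃+* w.adicCompletion F) :
          w''.adicCompletion F →+* w.adicCompletion F).comp
          ((i' : v.adicCompletion ℚ ≃+* w''.adicCompletion F) :
            v.adicCompletion ℚ →+* w''.adicCompletion F))
        ((i : v.adicCompletion ℚ ≃+* w.adicCompletion F) :
          v.adicCompletion ℚ →+* w.adicCompletion F) 1 1 one_pos one_pos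
        (fun c => by
          rw [pow_one]
          show Valued.v (t (i' c)) = _
          rw [ht2, hv'])
        (fun c => by rw [pow_one]; exact hv c)
        (fun x => by
          show t (i' _) = i _
          rw [hi', hi, ht1]
          congr 1
          exact map_ratCast s.σ x) c
    apply Units.ext
    refine Matrix.ext fun a b => ?_
    simp only [Matrix.GeneralLinearGroup.map_apply, RingHom.coe_coe]
    rw [← e, RingEquiv.apply_symm_apply]
  exact key _ hw (twIso534 s w) (twIso_rat534 s w) (twIso_val534 s w)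

end Split

end Fermat.Agent.LT.T7.FPU534

end
end
-- ===== PACK-END LT/T7/H534/FinPartGlob.lean

-- ===== PACK-BEGIN LT/T7/H534/FinPartUpQ.lean
section








/-!
# Row LT, tower T7, NODE B.4 `H1U.FinPartUpQC` (registry row 2861; helper534, SPARE): PROVED

OFF-MAIN.  No hole, nothing assumed.  ADDITIVE (suffix `534`).

    finPartUpQC534 (F) : H1U.FinPartUpQC F        -- VERBATIM vs H1U/FactIntUpQSpec.lean 921e1b93

THE FINITE PLACES OF PART B UPSTAIRS over `ℚ`.  `μw` = THE normalised Haar measures (helper729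
`locMeasC729`, unique: `isLocHaar_unique534`);

    Θ(p) = ∏_{w ∈ S'} φ₀_w(p_w⁻¹ δ_w s_w(p_{σ⁻¹ w})) · ∏_{v ∈ S} bet_v(p_{w0 v}),

`s_w : F_{σ⁻¹ w} ≃ F_w` the local components of `σ_𝔸` (helper558 `sigmaLocC558`).  The pull-back
is `finGL_tw534`; `Θ` is measurable (continuous factors); the integral is computed by the block
Fubini theorem of helper159 (`integral_block159`, blocks = the places over one `v ∈ S`): a block
with one place gives `locTwInt340` (the `s_w` of the datum is the component of `σ_𝔸`: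
`tw_eq_of_eq534`), a block with two places `w 0`, `w 1` gives `splitInt340` in the coordinates
`i j` (`tw_eq_of_iso534`, `places_two534`).
-/

set_option autoImplicit false
set_option linter.style.haveILetI false
set_option linter.unusedSectionVars false
set_option linter.unusedVariables false

open AutomorphicForm IsDedekindDomain NumberField MeasureTheory

noncomputable section

namespace Fermat.Agent.LT.T7.FPU534

open Fermat.Agent.LT.H556 Fermat.Agent.LT.H556.A0 Fermat.Agent.LT.T7 Fermat.Agent.LT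

variable {F : Type} [Field F] [NumberField F]

/-- A function of the component at `w0` which is a function of the component at `w0'`. -/
theorem bet_split534 (w0 w0' : HeightOneSpectrum (𝓞 F))
    (bet : GL (Fin 2) (w0.adicCompletion F) → ℝ) (g : GL (Fin 2) (w0'.adicCompletion F) → ℝ)
    (H : ∀ y : G F, bet (H305.finGL305 w0 y) = g (H305.finGL305 w0' y))
    (q : ∀ w : HeightOneSpectrum (𝓞 F), GL (Fin 2) (w.adicCompletion F)) :
    bet (q w0) = g (q w0') := by
  classical
  obtain ⟨y, -, hy⟩ := exists_comp534 ({w0, w0'} : Finset (HeightOneSpectrum (𝓞 F))) q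
  rw [← hy w0 (by simp), ← hy w0' (by simp)]
  exact H y

/-- The split integral for `l = 2`. -/
theorem splitInt_two534 {H : Type} [Group H] [TopologicalSpace H] (l : ℕ) (hl : l = 2)
    (hl0 : 0 < l) (μ : @Measure H (borel _)) (β : H → ℝ) (φ : ℕ → H → ℂ) (δ : ℕ → H) :
    H340.splitInt340 l hl0 μ β φ δ =
      (letI : MeasurableSpace H := borel _
       ∫ z : Fin 2 → H,
        φ 0 ((z 0)⁻¹ * δ 0 * z 1) * φ 1 ((z 1)⁻¹ * δ 1 * z 0) * ((β (z 0) : ℝ) : ℂ)
        ∂(Measure.pi fun _ : Fin 2 => μ)) := by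
  subst hl
  letI : MeasurableSpace H := borel _
  unfold H340.splitInt340
  refine integral_congr_ae (Filter.Eventually.of_forall fun z => ?_)
  show (∏ j : Fin 2, φ j.1 ((z j)⁻¹ * δ j.1 * z (H340.cycSucc340 j))) * _ = _
  rw [Fin.prod_univ_two]
  rfl

/-! ## The function `Θ` -/

open Classical in
/-- The extension by `1` of a family on `S'`. -/
def extS534 (S' : Finset (HeightOneSpectrum (𝓞 F)))
    (x : ∀ w : S', GL (Fin 2) ((w : HeightOneSpectrum (𝓞 F)).adicCompletion F)) :
    ∀ w : HeightOneSpectrum (𝓞 F), GL (Fin 2) (w.adicCompletion F) :=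
  fun w => if h : w ∈ S' then x ⟨w, h⟩ else 1

theorem extS_mem534 (S' : Finset (HeightOneSpectrum (𝓞 F)))
    (x : ∀ w : S', GL (Fin 2) ((w : HeightOneSpectrum (𝓞 F)).adicCompletion F))
    (w : HeightOneSpectrum (𝓞 F)) (hw : w ∈ S') : extS534 S' x w = x ⟨w, hw⟩ :=
  dif_pos hw

/-- The factor at `w`. -/
def facA534 (s : T5.AdelicAut F)
    (φ₀ : ∀ w : HeightOneSpectrum (𝓞 F), GL (Fin 2) (w.adicCompletion F) → ℂ)
    (δ : GL (Fin 2) F) (w : HeightOneSpectrum (𝓞 F))
    (q : ∀ w : HeightOneSpectrum (𝓞 F), GL (Fin 2) (w.adicCompletion F)) : ℂ :=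
  φ₀ w ((q w)⁻¹ * H305.locG305 w δ * tw534 s w (q (H1G.preP_H1G s w)))

theorem facA_congr534 (s : T5.AdelicAut F)
    (φ₀ : ∀ w : HeightOneSpectrum (𝓞 F), GL (Fin 2) (w.adicCompletion F) → ℂ)
    (δ : GL (Fin 2) F) (w : HeightOneSpectrum (𝓞 F))
    (q q' : ∀ w : HeightOneSpectrum (𝓞 F), GL (Fin 2) (w.adicCompletion F))
    (h1 : q w = q' w) (h2 : q (H1G.preP_H1G s w) = q' (H1G.preP_H1G s w)) :
    facA534 s φ₀ δ w q = facA534 s φ₀ δ w q' := by
  unfold facA534
  rw [h1, h2]

/-- The function on the adelic side, as a function of all the finite components. -/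
def psi534 (s : T5.AdelicAut F)
    (φ₀ : ∀ w : HeightOneSpectrum (𝓞 F), GL (Fin 2) (w.adicCompletion F) → ℂ)
    (δ : GL (Fin 2) F) (U : H1U.UpDatQ F) (S : Finset (HeightOneSpectrum (𝓞 ℚ)))
    (S' : Finset (HeightOneSpectrum (𝓞 F)))
    (q : ∀ w : HeightOneSpectrum (𝓞 F), GL (Fin 2) (w.adicCompletion F)) : ℂ :=
  (∏ w ∈ S', facA534 s φ₀ δ w q) * (((∏ v ∈ S, U.bet v (q (U.w0 v)) : ℝ)) : ℂ)

open Classical in
/-- The factor of the block over `v`. -/
def psiV534 (s : T5.AdelicAut F)
    (φ₀ : ∀ w : HeightOneSpectrum (𝓞 F), GL (Fin 2) (w.adicCompletion F) → ℂ)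
    (δ : GL (Fin 2) F) (U : H1U.UpDatQ F) (S' : Finset (HeightOneSpectrum (𝓞 F)))
    (v : HeightOneSpectrum (𝓞 ℚ))
    (q : ∀ w : HeightOneSpectrum (𝓞 F), GL (Fin 2) (w.adicCompletion F)) : ℂ :=
  (∏ w ∈ S'.filter (fun w => H1G.underP_H1G (K := ℚ) w = v), facA534 s φ₀ δ w q)
    * ((U.bet v (q (U.w0 v)) : ℝ) : ℂ)

open Classical in
/-- `Ψ` is the product of the factors of the blocks. -/
theorem psi_eq_prod534 (s : T5.AdelicAut F)
    (φ₀ : ∀ w : HeightOneSpectrum (𝓞 F), GL (Fin 2) (w.adicCompletion F) → ℂ)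
    (δ : GL (Fin 2) F) (U : H1U.UpDatQ F) (S : Finset (HeightOneSpectrum (𝓞 ℚ)))
    (S' : Finset (HeightOneSpectrum (𝓞 F)))
    (hunder : ∀ w ∈ S', H1G.underP_H1G (K := ℚ) w ∈ S)
    (q : ∀ w : HeightOneSpectrum (𝓞 F), GL (Fin 2) (w.adicCompletion F)) :
    psi534 s φ₀ δ U S S' q = ∏ v ∈ S, psiV534 s φ₀ δ U S' v q := by
  unfold psi534 psiV534
  rw [Finset.prod_mul_distrib, Finset.prod_fiberwise_of_maps_to hunder, Complex.ofReal_prod]

theorem psiV_congr534 (s : T5.AdelicAut F)
    (φ₀ : ∀ w : HeightOneSpectrum (𝓞 F), GL (Fin 2) (w.adicCompletion F) → ℂ)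
    (δ : GL (Fin 2) F) (U : H1U.UpDatQ F) (S' : Finset (HeightOneSpectrum (𝓞 F)))
    (v : HeightOneSpectrum (𝓞 ℚ))
    (q q' : ∀ w : HeightOneSpectrum (𝓞 F), GL (Fin 2) (w.adicCompletion F))
    (hpre : ∀ w ∈ S', H1G.underP_H1G (K := ℚ) w = v →
      H1G.preP_H1G s w ∈ S' ∧ H1G.underP_H1G (K := ℚ) (H1G.preP_H1G s w) = v)
    (hw0 : U.w0 v ∈ S' ∧ H1G.underP_H1G (K := ℚ) (U.w0 v) = v)
    (h : ∀ w ∈ S', H1G.underP_H1G (K := ℚ) w = v → q w = q' w) :
    psiV534 s φ₀ δ U S' v q = psiV534 s φ₀ δ U S' v q' := by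
  classical
  unfold psiV534
  rw [h (U.w0 v) hw0.1 hw0.2]
  congr 1
  refine Finset.prod_congr rfl fun w hw => ?_
  have hw' := Finset.mem_filter.1 hw
  exact facA_congr534 s φ₀ δ w q q' (h w hw'.1 hw'.2)
    (h _ (hpre w hw'.1 hw'.2).1 (hpre w hw'.1 hw'.2).2)

open Classical in
/-- The extension by `1` of a family on the block over `v`. -/
def extB534 (S' : Finset (HeightOneSpectrum (𝓞 F))) {ι : Type} (π : S' → ι) (v : ι)
    (bv : ∀ w : {w : S' // π w = v},
      GL (Fin 2) ((w.1 : HeightOneSpectrum (𝓞 F)).adicCompletion F)) :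
    ∀ w : HeightOneSpectrum (𝓞 F), GL (Fin 2) (w.adicCompletion F) :=
  fun w => if hw : w ∈ S' then (if hv : π ⟨w, hw⟩ = v then bv ⟨⟨w, hw⟩, hv⟩ else 1) else 1

theorem extB_mem534 (S' : Finset (HeightOneSpectrum (𝓞 F))) {ι : Type} (π : S' → ι) (v : ι)
    (bv : ∀ w : {w : S' // π w = v},
      GL (Fin 2) ((w.1 : HeightOneSpectrum (𝓞 F)).adicCompletion F))
    (w : HeightOneSpectrum (𝓞 F)) (hw : w ∈ S') (hv : π ⟨w, hw⟩ = v) :
    extB534 S' π v bv w = bv ⟨⟨w, hw⟩, hv⟩ := by
  unfold extB534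
  rw [dif_pos hw, dif_pos hv]

theorem glMap_symm534 {k k' : Type} [Field k] [Field k'] (i : k ≃+* k') (x : GL (Fin 2) k') :
    Matrix.GeneralLinearGroup.map (n := Fin 2) (i : k →+* k')
      (Matrix.GeneralLinearGroup.map (n := Fin 2) (i.symm : k' →+* k) x) = x := by
  apply Units.ext
  refine Matrix.ext fun a b => ?_
  simp [Matrix.GeneralLinearGroup.map_apply]

theorem glMap_symm'534 {k k' : Type} [Field k] [Field k'] (i : k ≃+* k') (x : GL (Fin 2) k) :
    Matrix.GeneralLinearGroup.map (n := Fin 2) (i.symm : k' →+* k)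
      (Matrix.GeneralLinearGroup.map (n := Fin 2) (i : k →+* k') x) = x := by
  apply Units.ext
  refine Matrix.ext fun a b => ?_
  simp [Matrix.GeneralLinearGroup.map_apply]

/-- **NODE B.4 `FinPartUpQC`**, VERBATIM. -/
theorem finPartUpQC534 (F : Type) [Field F] [NumberField F] : H1U.FinPartUpQC F := by
  intro hT6 hF D hD hcyc hl μc n m S S' hOver φ₀ Φ hφ δ γ hγ hN L hL U J Jc hU
  classical
  letI iX : ∀ w : HeightOneSpectrum (𝓞 F),
      MeasurableSpace (GL (Fin 2) (w.adicCompletion F)) := fun _ => borel _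
  haveI iXb : ∀ w : HeightOneSpectrum (𝓞 F), BorelSpace (GL (Fin 2) (w.adicCompletion F)) :=
    fun _ => ⟨rfl⟩
  letI iY : ∀ v : HeightOneSpectrum (𝓞 ℚ),
      MeasurableSpace (GL (Fin 2) (v.adicCompletion ℚ)) := fun _ => borel _
  haveI iYb : ∀ v : HeightOneSpectrum (𝓞 ℚ), BorelSpace (GL (Fin 2) (v.adicCompletion ℚ)) :=
    fun _ => ⟨rfl⟩
  haveI iT2 : ∀ w : HeightOneSpectrum (𝓞 F), T2Space (GL (Fin 2) (w.adicCompletion F)) :=
    fun w => t2_GLv534 w
  haveI iLC : ∀ w : HeightOneSpectrum (𝓞 F),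
      LocallyCompactSpace (GL (Fin 2) (w.adicCompletion F)) :=
    fun w => H11.LC.locallyCompactSpace_GL2_adicCompletion_h11 F w
  haveI iSC : ∀ w : HeightOneSpectrum (𝓞 F),
      SecondCountableTopology (GL (Fin 2) (w.adicCompletion F)) :=
    fun w => H159.secondCountable_GLv159 F w
  haveI iT2q : ∀ v : HeightOneSpectrum (𝓞 ℚ), T2Space (GL (Fin 2) (v.adicCompletion ℚ)) :=
    fun v => t2_GLv534 v
  haveI iLCq : ∀ v : HeightOneSpectrum (𝓞 ℚ),
      LocallyCompactSpace (GL (Fin 2) (v.adicCompletion ℚ)) :=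
    fun v => H11.LC.locallyCompactSpace_GL2_adicCompletion_h11 ℚ v
  haveI iSCq : ∀ v : HeightOneSpectrum (𝓞 ℚ),
      SecondCountableTopology (GL (Fin 2) (v.adicCompletion ℚ)) :=
    fun v => H159.secondCountable_GLv159 ℚ v
  -- the normalised Haar measures
  have hloc : ∀ w : HeightOneSpectrum (𝓞 F),
      ∃ μ : @Measure (GL (Fin 2) (w.adicCompletion F)) (borel _), H305.IsLocHaar305 (n w) μ :=
    fun w => (LocMeas729.locMeasC729 (w.adicCompletion F) _ (hT6.2.2.2.2.2.1 F w)).1 (n w)
  choose μw hμw using hloc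
  haveI iH : ∀ w : HeightOneSpectrum (𝓞 F), (μw w).IsHaarMeasure := fun w => (hμw w).1
  haveI iHq : ∀ v : HeightOneSpectrum (𝓞 ℚ), (L.μv v).IsHaarMeasure := fun v => (hL.haar v).1
  -- the places
  have hunder : ∀ w ∈ S', H1G.underP_H1G (K := ℚ) w ∈ S := by
    intro w hw
    obtain ⟨v, hv, hvw⟩ := (hOver w).1 hw
    rw [← under_unique534 hvw]
    exact hv
  have hmemS' : ∀ v ∈ S, ∀ w : HeightOneSpectrum (𝓞 F), PlaceOver ℚ F v w → w ∈ S' :=
    fun v hv w hvw => (hOver w).2 ⟨v, hv, hvw⟩
  have hover_of : ∀ (v : HeightOneSpectrum (𝓞 ℚ)) (w : HeightOneSpectrum (𝓞 F)),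
      H1G.underP_H1G (K := ℚ) w = v → PlaceOver ℚ F v w := by
    intro v w h
    rw [← h]
    exact H1G.placeOver_underP_H1G w
  have hw0over : ∀ v ∈ S, PlaceOver ℚ F v (U.w0 v) := by
    intro v hv
    rcases hU.1 v hv with h | h
    · obtain ⟨e, i, sw, μ', μt', h1, -⟩ := h
      exact h1
    · obtain ⟨hl0, w, i, hw0, -, -, hov, -⟩ := h
      rw [← hw0]
      exact hov 0
  have hpreB : ∀ v ∈ S, ∀ w ∈ S', H1G.underP_H1G (K := ℚ) w = v →
      H1G.preP_H1G D.s w ∈ S' ∧ H1G.underP_H1G (K := ℚ) (H1G.preP_H1G D.s w) = v := by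
    intro v hv w hw hwv
    have h1 : PlaceOver ℚ F v (H1G.preP_H1G D.s w) :=
      H1G.placeOver_preP_H1G hD (hover_of v w hwv)
    exact ⟨hmemS' v hv _ h1, (under_unique534 h1).symm⟩
  have hw0B : ∀ v ∈ S, U.w0 v ∈ S' ∧ H1G.underP_H1G (K := ℚ) (U.w0 v) = v :=
    fun v hv => ⟨hmemS' v hv _ (hw0over v hv), (under_unique534 (hw0over v hv)).symm⟩
  -- continuity of the factors
  have hφc : ∀ w ∈ S', Continuous (φ₀ w) := by
    intro w hw
    obtain ⟨v, hv, hvw⟩ := (hOver w).1 hw
    exact H16.biInvContC558_16 F w (n w) (φ₀ w) (hφ v hv w hvw).1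
  have hext_meas : ∀ w : HeightOneSpectrum (𝓞 F),
      Measurable fun x : (∀ w : S', GL (Fin 2) ((w : HeightOneSpectrum (𝓞 F)).adicCompletion F))
        => extS534 S' x w := by
    intro w
    by_cases hw : w ∈ S'
    · have : (fun x : (∀ w : S', GL (Fin 2) ((w : HeightOneSpectrum (𝓞 F)).adicCompletion F))
          => extS534 S' x w) = fun x => x ⟨w, hw⟩ := by
        funext x
        exact extS_mem534 S' x w hw
      rw [this]
      exact measurable_pi_apply _
    · have : (fun x : (∀ w : S', GL (Fin 2) ((w : HeightOneSpectrum (𝓞 F)).adicCompletion F))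
          => extS534 S' x w) = fun _ => 1 := by
        funext x
        exact dif_neg hw
      rw [this]
      exact measurable_const
  refine ⟨μw, fun x => psi534 D.s φ₀ δ U S S' (extS534 S' x), hμw, ?_, ?_, ?_⟩
  · -- measurability
    show Measurable fun x : (∀ w : S', GL (Fin 2) ((w : HeightOneSpectrum (𝓞 F)).adicCompletion F))
      => (∏ w ∈ S', facA534 D.s φ₀ δ w (extS534 S' x))
        * (((∏ v ∈ S, U.bet v (extS534 S' x (U.w0 v)) : ℝ)) : ℂ)
    refine Measurable.mul ?_ ?_
    · refine Finset.measurable_prod _ fun w hw => ?_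
      unfold facA534
      exact (hφc w hw).measurable.comp ((((hext_meas w).inv).mul measurable_const).mul
        ((continuous_tw534 D.s w).measurable.comp (hext_meas _)))
    · refine Complex.measurable_ofReal.comp ?_
      refine Finset.measurable_prod _ fun v hv => ?_
      rcases hU.1 v hv with h | h
      · obtain ⟨e, i, sw, μ', μt', h1, h2, h3, h4, h5, h6, h7, h8, h9⟩ := h
        exact h8.1.measurable.comp (hext_meas _)
      · obtain ⟨hl0, w, i, hw0, hlev, hbet, hov, hrel, hne, hi, hval, hJ⟩ := h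
        have hb := bet_split534 (U.w0 v) (w 0) (U.bet v)
          (fun p => L.βv v (Matrix.GeneralLinearGroup.map
            (((i 0).symm : (w 0).adicCompletion F ≃+* _) :
              (w 0).adicCompletion F →+* v.adicCompletion ℚ) p)) hbet
        have hfun : (fun x : (∀ w : S',
            GL (Fin 2) ((w : HeightOneSpectrum (𝓞 F)).adicCompletion F)) =>
            U.bet v (extS534 S' x (U.w0 v)))
            = fun x => L.βv v (Matrix.GeneralLinearGroup.map
              (((i 0).symm : (w 0).adicCompletion F ≃+* _) :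
                (w 0).adicCompletion F →+* v.adicCompletion ℚ) (extS534 S' x (w 0))) :=
          funext fun x => hb _
        rw [hfun]
        have hc : Continuous (Matrix.GeneralLinearGroup.map (n := Fin 2)
            (((i 0).symm : (w 0).adicCompletion F ≃+* v.adicCompletion ℚ) :
              (w 0).adicCompletion F →+* v.adicCompletion ℚ)) :=
          continuous_glMap534 (k := (w 0).adicCompletion F) (k' := v.adicCompletion ℚ)
            (((i 0).symm : (w 0).adicCompletion F ≃+* v.adicCompletion ℚ) :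
              (w 0).adicCompletion F →+* v.adicCompletion ℚ)
            (fun y => val_symm534 (i 0) (hval 0) y)
        have hβ : Continuous (L.βv v) := (hL.cut v).1
        exact (hβ.comp hc).measurable.comp (hext_meas (w 0))
  · -- the pull-back
    intro y hy
    unfold psi534
    congr 1
    · refine Finset.prod_congr rfl fun w hw => ?_
      unfold facA534
      rw [finGL_tw534, extS_mem534 S' _ w hw]
      obtain ⟨v, hv, hvw⟩ := (hOver w).1 hw
      rw [extS_mem534 S' _ _ (hpreB v hv w hw (under_unique534 hvw).symm).1]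
    · congr 1
      refine Finset.prod_congr rfl fun v hv => ?_
      rw [extS_mem534 S' _ _ (hw0B v hv).1]
  · -- the integral
    set π : S' → S := fun w => ⟨H1G.underP_H1G (K := ℚ) w.1, hunder w.1 w.2⟩ with hπ
    have hπv : ∀ (w : HeightOneSpectrum (𝓞 F)) (hw : w ∈ S') (v : S),
        π ⟨w, hw⟩ = v ↔ H1G.underP_H1G (K := ℚ) w = v.1 := by
      intro w hw v
      constructor
      · intro h
        exact congrArg Subtype.val h
      · intro h
        exact Subtype.ext h
    set Fv : ∀ v : S, (∀ w : {w : S' // π w = v},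
        GL (Fin 2) ((w.1 : HeightOneSpectrum (𝓞 F)).adicCompletion F)) → ℂ :=
      fun v bv => psiV534 D.s φ₀ δ U S' v.1 (extB534 S' π v bv) with hFv
    have hreg : ∀ x : (∀ w : S', GL (Fin 2) ((w : HeightOneSpectrum (𝓞 F)).adicCompletion F)),
        psi534 D.s φ₀ δ U S S' (extS534 S' x) = ∏ v : S, Fv v (fun w => x w.1) := by
      intro x
      rw [psi_eq_prod534 D.s φ₀ δ U S S' hunder,
        ← Finset.prod_coe_sort S (fun v => psiV534 D.s φ₀ δ U S' v (extS534 S' x))]
      refine Finset.prod_congr rfl fun v _ => ?_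
      refine psiV_congr534 D.s φ₀ δ U S' v.1 _ _ (hpreB v.1 v.2) (hw0B v.1 v.2) ?_
      intro w hw hwv
      rw [extS_mem534 S' x w hw, extB_mem534 S' π v _ w hw ((hπv w hw v).2 hwv)]
    haveI iSF : ∀ w : S', SigmaFinite (μw w.1) := fun w => inferInstance
    have hblock : ∀ v : S,
        ∫ y, Fv v y ∂(Measure.pi fun w : {w : S' // π w = v} => μw w.1.1) = J v.1 := by
      intro v
      rcases hU.1 v.1 v.2 with h | h
      · -- ONE place over `v`
        obtain ⟨e, i, sw, μ', μt', hov, huniq, hi, hsw, hext, hμ', htor, hcut, hJ⟩ := h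
        have hw₀S' : U.w0 v.1 ∈ S' := (hw0B v.1 v.2).1
        have hw₀π : π ⟨U.w0 v.1, hw₀S'⟩ = v := (hπv _ hw₀S' v).2 (hw0B v.1 v.2).2
        letI iU : Unique {w : S' // π w = v} :=
          { default := ⟨⟨U.w0 v.1, hw₀S'⟩, hw₀π⟩
            uniq := fun w' => by
              apply Subtype.ext
              apply Subtype.ext
              exact huniq w'.1.1 (hover_of v.1 w'.1.1 ((hπv _ w'.1.2 v).1 w'.2)) }
        have hpre : H1G.preP_H1G D.s (U.w0 v.1) = U.w0 v.1 :=
          huniq _ (H1G.placeOver_preP_H1G hD hov)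
        have hfil : S'.filter (fun w => H1G.underP_H1G (K := ℚ) w = v.1) = {U.w0 v.1} := by
          ext w
          rw [Finset.mem_filter, Finset.mem_singleton]
          constructor
          · rintro ⟨-, hw⟩
            exact huniq w (hover_of v.1 w hw)
          · rintro rfl
            exact hw0B v.1 v.2
        have hμeq : μw (U.w0 v.1) = μ' :=
          isLocHaar_unique534 (U.w0 v.1) (n (U.w0 v.1)) _ _ (hμw _) hμ'
        rw [H159.integral_block_one159
          (fun w : {w : S' // π w = v} => μw w.1.1) (Fv v), hJ]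
        unfold H340.locTwInt340
        show ∫ z, Fv v ((MeasurableEquiv.piUnique _).symm z) ∂(μw (U.w0 v.1)) = _
        rw [hμeq]
        refine integral_congr_ae (Filter.Eventually.of_forall fun z => ?_)
        show psiV534 D.s φ₀ δ U S' v.1 (extB534 S' π v ((MeasurableEquiv.piUnique _).symm z)) = _
        have hq : extB534 S' π v ((MeasurableEquiv.piUnique
            (fun w : {w : S' // π w = v} =>
              GL (Fin 2) ((w.1 : HeightOneSpectrum (𝓞 F)).adicCompletion F))).symm z)
            (U.w0 v.1) = z := by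
          rw [extB_mem534 S' π v _ _ hw₀S' hw₀π]
          rfl
        unfold psiV534
        rw [hfil, Finset.prod_singleton]
        unfold facA534
        rw [tw_eq_of_eq534 D.s (U.w0 v.1) hpre sw hsw hext.val_s, hq]
      · -- TWO places over `v`
        obtain ⟨hl0, w, i, hw0, hlev, hbet, hov, hrel, hne, hi, hval, hJ⟩ := h
        have h10 : w 1 ≠ w 0 := hne 1 one_pos (by rw [hl]; norm_num)
        have hw2 : w (1 + 1) = w 0 := by
          rcases places_two534 hcyc hl v.1 (w 0) (w 1) (w (1 + 1)) (hov 0) (hov 1) (hov _) h10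
            with h | h
          · exact h
          · exfalso
            have r1 : T5.PlaceRel D.s (w (1 + 1)) (w 1) := hrel 1
            have r0 : T5.PlaceRel D.s (w 1) (w 0) := hrel 0
            rw [h] at r1
            exact h10 (HeightOneSpectrum.ext (r1.trans r0.symm))
        have hpre0 : H1G.preP_H1G D.s (w 0) = w 1 :=
          FUQ514.placeRel_inj514 D.s (H1G.placeRel_preP_H1G D.s (w 0)) (hrel 0)
        have hpre1 : H1G.preP_H1G D.s (w 1) = w 0 := by
          have r1 : T5.PlaceRel D.s (w (1 + 1)) (w 1) := hrel 1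
          rw [hw2] at r1
          exact FUQ514.placeRel_inj514 D.s (H1G.placeRel_preP_H1G D.s (w 1)) r1
        have hwS' : ∀ j, w j ∈ S' := fun j => hmemS' v.1 v.2 _ (hov j)
        have hwπ : ∀ j, π ⟨w j, hwS' j⟩ = v :=
          fun j => (hπv _ (hwS' j) v).2 (under_unique534 (hov j)).symm
        have hfil : S'.filter (fun w' => H1G.underP_H1G (K := ℚ) w' = v.1) = {w 0, w 1} := by
          ext w'
          rw [Finset.mem_filter, Finset.mem_insert, Finset.mem_singleton]
          constructor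
          · rintro ⟨-, hw'⟩
            exact places_two534 hcyc hl v.1 (w 0) (w 1) w' (hov 0) (hov 1)
              (hover_of v.1 w' hw') h10
          · rintro (rfl | rfl)
            · exact ⟨hwS' 0, (under_unique534 (hov 0)).symm⟩
            · exact ⟨hwS' 1, (under_unique534 (hov 1)).symm⟩
        -- the enumeration of the block
        let f : Fin 2 → {w' : S' // π w' = v} := fun j => ⟨⟨w j.1, hwS' j.1⟩, hwπ j.1⟩
        have hfinj : Function.Injective f := by
          intro a b hab
          have hab' : w a.1 = w b.1 :=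
            congrArg (fun t : {w' : S' // π w' = v} => (t.1.1 : HeightOneSpectrum (𝓞 F))) hab
          fin_cases a <;> fin_cases b
          · rfl
          · exact absurd hab'.symm h10
          · exact absurd hab' h10
          · rfl
        have hfsurj : Function.Surjective f := by
          intro w'
          rcases places_two534 hcyc hl v.1 (w 0) (w 1) w'.1.1 (hov 0) (hov 1)
            (hover_of v.1 w'.1.1 ((hπv _ w'.1.2 v).1 w'.2)) h10 with h | h
          · exact ⟨0, Subtype.ext (Subtype.ext h.symm)⟩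
          · exact ⟨1, Subtype.ext (Subtype.ext h.symm)⟩
        let e : Fin 2 ≃ {w' : S' // π w' = v} := Equiv.ofBijective f ⟨hfinj, hfsurj⟩
        -- the identifications
        let a : ∀ j : Fin 2, GL (Fin 2) ((w j.1).adicCompletion F)
            ≃ᵐ GL (Fin 2) (v.1.adicCompletion ℚ) :=
          fun j => (glHomeo534 (i j.1) (hval j.1)).symm.toMeasurableEquiv
        have hmp : ∀ j : Fin 2, MeasurePreserving (a j) (μw (w j.1)) (L.μv v.1) := by
          intro j
          have h1 : μw (w j.1) = Measure.map (Matrix.GeneralLinearGroup.map (n := Fin 2)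
              ((i j.1 : v.1.adicCompletion ℚ ≃+* (w j.1).adicCompletion F) :
                v.1.adicCompletion ℚ →+* (w j.1).adicCompletion F)) (L.μv v.1) := by
            refine isLocHaar_unique534 (w j.1) (n (w j.1)) _ _ (hμw _) ?_
            rw [hlev j.1]
            exact isLocHaar_map534 (i j.1) (hval j.1) (m v.1) (L.μv v.1) (hL.haar v.1)
          refine ⟨(a j).measurable, ?_⟩
          have hcm : Measurable (Matrix.GeneralLinearGroup.map (n := Fin 2)
              ((i j.1 : v.1.adicCompletion ℚ ≃+* (w j.1).adicCompletion F) :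
                v.1.adicCompletion ℚ →+* (w j.1).adicCompletion F)) :=
            (continuous_glMap534 (k := v.1.adicCompletion ℚ) (k' := (w j.1).adicCompletion F)
              ((i j.1 : v.1.adicCompletion ℚ ≃+* (w j.1).adicCompletion F) :
                v.1.adicCompletion ℚ →+* (w j.1).adicCompletion F)
              (fun x => hval j.1 x)).measurable
          rw [h1, Measure.map_map (a j).measurable hcm]
          have hid : (a j) ∘ (Matrix.GeneralLinearGroup.map (n := Fin 2)
              ((i j.1 : v.1.adicCompletion ℚ ≃+* (w j.1).adicCompletion F) :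
                v.1.adicCompletion ℚ →+* (w j.1).adicCompletion F)) = id :=
            funext fun x => glMap_symm'534 (i j.1) x
          rw [hid, Measure.map_id]
        rw [H159.integral_block_fin159 (fun w' : {w' : S' // π w' = v} => μw w'.1.1)
          (L.μv v.1) e a hmp (Fv v), hJ, splitInt_two534 D.l hl hl0]
        refine integral_congr_ae (Filter.Eventually.of_forall fun z => ?_)
        show psiV534 D.s φ₀ δ U S' v.1 (extB534 S' π v
          (MeasurableEquiv.piCongrLeft (fun w' : {w' : S' // π w' = v} =>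
              GL (Fin 2) ((w'.1 : HeightOneSpectrum (𝓞 F)).adicCompletion F)) e
            (fun j => (a j).symm (z j))))
          = φ₀ (w 0) (Matrix.GeneralLinearGroup.map
                ((i 0 : v.1.adicCompletion ℚ ≃+* _) :
                  v.1.adicCompletion ℚ →+* (w 0).adicCompletion F)
                ((z 0)⁻¹ * Matrix.GeneralLinearGroup.map
                  (((i 0).symm : (w 0).adicCompletion F ≃+* _) :
                    (w 0).adicCompletion F →+* v.1.adicCompletion ℚ) (H305.locG305 (w 0) δ)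
                  * z 1))
            * φ₀ (w 1) (Matrix.GeneralLinearGroup.map
                ((i 1 : v.1.adicCompletion ℚ ≃+* _) :
                  v.1.adicCompletion ℚ →+* (w 1).adicCompletion F)
                ((z 1)⁻¹ * Matrix.GeneralLinearGroup.map
                  (((i 1).symm : (w 1).adicCompletion F ≃+* _) :
                    (w 1).adicCompletion F →+* v.1.adicCompletion ℚ) (H305.locG305 (w 1) δ)
                  * z 0))
            * ((L.βv v.1 (z 0) : ℝ) : ℂ)
        generalize hq : extB534 S' π v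
          (MeasurableEquiv.piCongrLeft (fun w' : {w' : S' // π w' = v} =>
              GL (Fin 2) ((w'.1 : HeightOneSpectrum (𝓞 F)).adicCompletion F)) e
            (fun j => (a j).symm (z j))) = q
        have hq0 : q (w 0) = Matrix.GeneralLinearGroup.map (n := Fin 2)
            ((i 0 : v.1.adicCompletion ℚ ≃+* _) :
              v.1.adicCompletion ℚ →+* (w 0).adicCompletion F) (z 0) := by
          rw [← hq, extB_mem534 S' π v _ _ (hwS' 0) (hwπ 0)]
          exact Equiv.piCongrLeft_apply_apply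
            (P := fun w' : {w' : S' // π w' = v} =>
              GL (Fin 2) ((w'.1 : HeightOneSpectrum (𝓞 F)).adicCompletion F))
            e (fun j => (a j).symm (z j)) 0
        have hq1 : q (w 1) = Matrix.GeneralLinearGroup.map (n := Fin 2)
            ((i 1 : v.1.adicCompletion ℚ ≃+* _) :
              v.1.adicCompletion ℚ →+* (w 1).adicCompletion F) (z 1) := by
          rw [← hq, extB_mem534 S' π v _ _ (hwS' 1) (hwπ 1)]
          exact Equiv.piCongrLeft_apply_apply
            (P := fun w' : {w' : S' // π w' = v} =>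
              GL (Fin 2) ((w'.1 : HeightOneSpectrum (𝓞 F)).adicCompletion F))
            e (fun j => (a j).symm (z j)) 1
        unfold psiV534
        rw [hfil, Finset.prod_pair h10.symm]
        unfold facA534
        rw [tw_eq_of_iso534 D.s v.1 (w 0) (w 1) hpre0 (i 0) (i 1) (hi 0) (hi 1) (hval 0)
            (hval 1) q,
          tw_eq_of_iso534 D.s v.1 (w 1) (w 0) hpre1 (i 1) (i 0) (hi 1) (hi 0) (hval 1)
            (hval 0) q,
          bet_split534 (U.w0 v.1) (w 0) (U.bet v.1)
            (fun p => L.βv v.1 (Matrix.GeneralLinearGroup.map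
              (((i 0).symm : (w 0).adicCompletion F ≃+* _) :
                (w 0).adicCompletion F →+* v.1.adicCompletion ℚ) p)) hbet q,
          hq0, hq1]
        simp only [map_mul, map_inv, glMap_symm534, glMap_symm'534]
    have h1 : ∫ p, psi534 D.s φ₀ δ U S S' (extS534 S' p) ∂(Measure.pi fun w : S' => μw w.1)
        = ∫ p, ∏ v : S, Fv v (fun w => p w.1) ∂(Measure.pi fun w : S' => μw w.1) :=
      integral_congr_ae (Filter.Eventually.of_forall fun x => hreg x)
    rw [h1, H159.integral_block159 π (fun w : S' => μw w.1) Fv,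
      Finset.prod_congr rfl (fun v _ => hblock v)]
    exact Finset.prod_coe_sort S J

end Fermat.Agent.LT.T7.FPU534

end
end
-- ===== PACK-END LT/T7/H534/FinPartUpQ.lean

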