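import Mathlib
import Fermat.Agent.Pack.LT4.E4L1
import Fermat.Agent.Pack.LT3.E11L0
import Fermat.Agent.Pack.LT3.E11L3
import Fermat.Agent.Pack.LT4.E4L0
import Fermat.Agent.Pack.LT3.E7L3
import Fermat.Agent.Pack.LT4.E3L3
import Fermat.Agent.Pack.LT3.E29L2
import Fermat.Agent.Pack.LT2.E7L1
import Fermat.Agent.Pack.LT3.E21L2
import Fermat.Agent.Pack.LT3.E28L2
import Fermat.Agent.Pack.LT3.E29L3
import Fermat.Agent.Pack.LT4.E0L2
import Fermat.Agent.Pack.LT2.E13L1
import Fermat.Agent.Pack.LT4.E4L3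
import Fermat.Agent.Pack.LT3.E28L3
import Fermat.Agent.Pack.LT3.E24L3
import Fermat.Agent.Pack.LT4.E2L2
import Fermat.Agent.Pack.LT4.E4L2

set_option linter.all false

-- ===== PACK-BEGIN LT/T7/H837/ClassOpGen.lean
section




/-!
# Row LT, tower T7, node T7.L2.2 SPEC-UP, leaf T7.L2.2.N.S3 `ClassOpC` (helper837, OFF-MAIN)

The general criterion: the sum of the right translates of a function `ψ` of the class by a finite
set `H` of elements which are trivial at infinity and units of the maximal order outside the level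
lies in the class as soon as `∑_{h ∈ H} ψ(x a h) = ∑_{h ∈ H} ψ(x h)` for `a` in the level group
and in the Iwahori subgroups along the orbit.
-/

set_option autoImplicit false
set_option linter.style.haveILetI false
set_option linter.unusedSectionVars false
set_option linter.unusedVariables false

open IsDedekindDomain NumberField MeasureTheory AutomorphicForm
open Fermat.Agent.LT.H556.A0

noncomputable section

namespace Fermat.Agent.LT.T7.H837

open Fermat.Agent.LT Fermat.Agent.LT.H129 Fermat.Agent.LT.T2.H333 Fermat.Agent.LT.T2.H429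

variable {K : Type} [Field K] [NumberField K]

/-! ## 4. Conjugation of Hecke coset systems -/

theorem isIntegralAt_conj837 {v : HeightOneSpectrum (𝓞 K)} {h t : G K} (hh : IsIntegralAt v h)
    (hh' : IsIntegralAt v h⁻¹) (ht : IsIntegralAt v t) : IsIntegralAt v (h⁻¹ * t * h) :=
  isIntegralAt_mul837 (isIntegralAt_mul837 hh' ht) hh

theorem det_finComp_conj837 (v : HeightOneSpectrum (𝓞 K)) (h t : G K) :
    (finComp v (h⁻¹ * t * h)).det = (finComp v t).det := by
  rw [finComp_conj837, Matrix.det_mul, Matrix.det_mul, mul_right_comm, ← Matrix.det_mul,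
    finComp_inv_mul837, Matrix.det_one, one_mul]

theorem conj_injective837 (h : G K) : Function.Injective fun t : G K => h⁻¹ * t * h := by
  intro a b hab
  exact mul_left_cancel (mul_right_cancel hab)

theorem isHeckeCosetSystem_conj837 [DecidableEq (G K)] {v : HeightOneSpectrum (𝓞 K)}
    {H : Finset (G K)} (hH : IsHeckeCosetSystem v H) {h : G K} (hh : IsIntegralAt v h)
    (hh' : IsIntegralAt v h⁻¹) : IsHeckeCosetSystem v (H.image fun t => h⁻¹ * t * h) := by
  refine ⟨?_, ?_, ?_⟩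
  · rw [Finset.card_image_of_injective _ (conj_injective837 h)]
    exact hH.1
  · intro x hx
    obtain ⟨t, ht, rfl⟩ := Finset.mem_image.1 hx
    obtain ⟨h1, h2, h3⟩ := hH.2.1 t ht
    refine ⟨isLocalAtFin_conj837 h h1, isIntegralAt_conj837 hh hh' h2, ?_⟩
    rw [det_finComp_conj837]
    exact h3
  · intro x hx x' hx' hne
    obtain ⟨t, ht, rfl⟩ := Finset.mem_image.1 hx
    obtain ⟨t', ht', rfl⟩ := Finset.mem_image.1 hx'
    have hne' : t ≠ t' := fun e => hne (by rw [e])
    intro hint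
    apply hH.2.2 t ht t' ht' hne'
    have e : t⁻¹ * t' = h * ((h⁻¹ * t * h)⁻¹ * (h⁻¹ * t' * h)) * h⁻¹ := by group
    rw [e]
    exact isIntegralAt_mul837 (isIntegralAt_mul837 hh hint) hh'

theorem isScalarUniformizerAt_conj837 {v : HeightOneSpectrum (𝓞 K)} {z : G K}
    (hz : IsScalarUniformizerAt v z) (h : G K) : IsScalarUniformizerAt v (h⁻¹ * z * h) := by
  obtain ⟨hloc, c, hc, hzc⟩ := hz
  refine ⟨isLocalAtFin_conj837 h hloc, c, hc, ?_⟩
  rw [finComp_conj837, hzc]
  have e : Matrix.diagonal (fun _ : Fin 2 => c)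
      = c • (1 : Matrix (Fin 2) (Fin 2) (v.adicCompletion K)) := by
    ext i j
    by_cases hij : i = j
    · subst hij
      simp
    · simp [hij]
  rw [e, Matrix.mul_smul, Matrix.smul_mul, mul_one, finComp_inv_mul837]

/-! ## 5. Continuity, bounds, cuspidality of the sums of translates -/

theorem continuous_cosetOp837 {ψ : G K → ℂ} (hψ : Continuous ψ) (H : Finset (G K)) :
    Continuous (cosetOp H ψ) := by
  unfold cosetOp
  exact continuous_finsetSum H fun h _ => hψ.comp (continuous_id.mul continuous_const)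

theorem bdd_cosetOp837 {ψ : G K → ℂ} {C : ℝ} (hψ : ∀ g : G K, ‖ψ g‖ ≤ C) (H : Finset (G K))
    (g : G K) : ‖cosetOp H ψ g‖ ≤ H.card * C := by
  unfold cosetOp
  refine (norm_sum_le _ _).trans ?_
  have := Finset.sum_le_card_nsmul H (fun h => ‖ψ (g * h)‖) C (fun h _ => hψ (g * h))
  rw [nsmul_eq_mul] at this
  exact this

theorem isCuspidalFn_cosetOp837 {ψ : G K → ℂ} (hc : Continuous ψ) {C : ℝ}
    (hb : ∀ g : G K, ‖ψ g‖ ≤ C) (hψ : IsCuspidalFn ψ) (H : Finset (G K)) :
    IsCuspidalFn (cosetOp H ψ) := by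
  classical
  induction H using Finset.induction_on with
  | empty =>
    have e : cosetOp (∅ : Finset (G K)) ψ = fun _ => (0 : ℂ) := by
      funext x
      simp [cosetOp]
    rw [e]
    exact T2.H886.isCuspidalFn_zero886
  | insert a s ha ih =>
    have e : cosetOp (insert a s) ψ = fun x => ψ (x * a) + cosetOp s ψ x := by
      funext x
      simp only [cosetOp]
      rw [Finset.sum_insert ha]
    rw [e]
    exact T2.H886.isCuspidalFn_add886 (hc.comp (continuous_id.mul continuous_const))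
      (fun g => hb (g * a)) (continuous_cosetOp837 hc s) (bdd_cosetOp837 hb s)
      (T2.H886.isCuspidalFn_shift886 a hψ) ih

/-! ## 6. The sphere means of a sum of translates -/

/-- The double integral of a finite sum of continuous functions. -/
theorem integral_integral_sum837 {ι : Type*} (s : Finset ι) (F : ι → ℝ → ℝ → ℂ)
    (hF : ∀ i ∈ s, Continuous (Function.uncurry (F i))) (a b c d : ℝ) :
    (∫ α in a..b, ∫ β in c..d, ∑ i ∈ s, F i α β)
      = ∑ i ∈ s, ∫ α in a..b, ∫ β in c..d, F i α β := by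
  have hin : ∀ α : ℝ, (∫ β in c..d, ∑ i ∈ s, F i α β) = ∑ i ∈ s, ∫ β in c..d, F i α β := by
    intro α
    apply intervalIntegral.integral_finsetSum
    intro i hi
    exact ((hF i hi).comp (Continuous.prodMk_right α)).intervalIntegrable c d
  rw [funext hin]
  apply intervalIntegral.integral_finsetSum
  intro i hi
  exact (intervalIntegral.continuous_parametric_intervalIntegral_of_continuous' (hF i hi)
    c d).intervalIntegrable a b

/-- The sphere means of a sum of translates by elements which are trivial at infinity. -/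
theorem meanEig_cosetOp837 {ψ : G K → ℂ} (hc : Continuous ψ) {w : InfinitePlace K} {m : ℝ → ℂ}
    (hψ : MeanEig ψ w m) {H : Finset (G K)}
    (hH : ∀ h ∈ H, ∀ w' : InfinitePlace K, TrivAtInf w' h) : MeanEig (cosetOp H ψ) w m := by
  intro d hd Y hY g
  have hYc : Continuous fun p : ℝ × ℝ => Y p.1 p.2 :=
    T2.H546.continuous_sphere_h546 (fun w X _ h => T2.H472.locCont472 K w X h) hY
  have hcomm : ∀ h ∈ H, ∀ α β : ℝ, g * Y α β * h = g * h * Y α β := by
    intro h hh α β
    rw [mul_assoc, comm_inf837 (hY α β).1 (hH h hh), ← mul_assoc]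
  have e1 : (fun α : ℝ => ∫ β in (0 : ℝ)..Real.pi,
        cosetOp H ψ (g * Y α β) * ((Real.sin β : ℝ) : ℂ))
      = fun α : ℝ => ∫ β in (0 : ℝ)..Real.pi,
        ∑ h ∈ H, ψ (g * h * Y α β) * ((Real.sin β : ℝ) : ℂ) := by
    funext α
    congr 1
    funext β
    unfold cosetOp
    rw [Finset.sum_mul]
    exact Finset.sum_congr rfl fun h hh => by rw [hcomm h hh α β]
  rw [e1]
  rw [integral_integral_sum837 H
    (fun (h : G K) (α β : ℝ) => ψ (g * h * Y α β) * ((Real.sin β : ℝ) : ℂ))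
    (fun h _ => T2.H546.continuous_sphere_integrand_h546 hYc hc (g * h))]
  unfold cosetOp
  rw [Finset.mul_sum]
  exact Finset.sum_congr rfl fun h _ => hψ d hd Y hY (g * h)

/-! ## 7. The general criterion -/

/-- The hypotheses on the finite set of translations. -/
structure IsGoodSet837 (𝔫 : Ideal (𝓞 K)) (l : ℕ) (o : ℕ → HeightOneSpectrum (𝓞 K))
    (ψ : G K → ℂ) (H : Finset (G K)) : Prop where
  triv_inf : ∀ h ∈ H, ∀ w : InfinitePlace K, TrivAtInf w h
  unit_good : ∀ h ∈ H, ∀ v : HeightOneSpectrum (𝓞 K), ¬ v.asIdeal ∣ 𝔫 →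
    IsIntegralAt v h ∧ IsIntegralAt v h⁻¹
  level : ∀ u : G K, InLevelGroup 𝔫 u → ∀ x : G K,
    ∑ h ∈ H, ψ (x * u * h) = ∑ h ∈ H, ψ (x * h)
  iw : ∀ k : G K, (∀ w : InfinitePlace K, TrivAtInf w k) →
    (∀ v : HeightOneSpectrum (𝓞 K), (∀ j < l, v ≠ o j) → TrivAtFin v k) →
    (∀ j < l, T5.InIwahori (o j) k) → ∀ x : G K,
    ∑ h ∈ H, ψ (x * k * h) = ∑ h ∈ H, ψ (x * h)

/-- An element which is trivial at the finite places commutes with an element which is trivial
at infinity. -/
theorem comm_ray837 {r h : G K} (hr : ∀ v : HeightOneSpectrum (𝓞 K), TrivAtFin v r)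
    (hh : ∀ w : InfinitePlace K, TrivAtInf w h) : r * h = h * r := by
  apply commute_of_disjoint429
  · intro w
    exact Or.inr ((trivAtInf_iff129 w h).1 (hh w))
  · intro v
    exact Or.inl ((trivAtFin_iff129 v r).1 (hr v))

/-- **The general criterion.** -/
theorem isEigFn_cosetOp837 {𝔫 : Ideal (𝓞 K)} {r : G K} {l : ℕ}
    {o : ℕ → HeightOneSpectrum (𝓞 K)} {C : EigData K} {ψ : G K → ℂ} {H : Finset (G K)}
    (hr : T5.IsRayGen r) (hψ : IsEigFn 𝔫 r l o ψ C) (hH : IsGoodSet837 𝔫 l o ψ H) :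
    IsEigFn 𝔫 r l o (cosetOp H ψ) C := by
  classical
  obtain ⟨C0, hC0⟩ := hψ.inv.cusp.bdd
  have hloc : ∀ (w : InfinitePlace K) (k : G K), IsLocalAtInf w k → ∀ h ∈ H, ∀ g : G K,
      g * k * h = g * h * k := by
    intro w k hk h hh g
    rw [mul_assoc, comm_inf837 hk (hH.triv_inf h hh), ← mul_assoc]
  refine ⟨⟨⟨continuous_cosetOp837 hψ.inv.cusp.cont H, ⟨H.card * C0, bdd_cosetOp837 hC0 H⟩,
    ⟨?_, ?_, ?_, ?_⟩, isCuspidalFn_cosetOp837 hψ.inv.cusp.cont hC0 hψ.inv.cusp.cuspidal H⟩,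
    ?_, ?_⟩, ?_, ?_⟩
  · -- left invariance
    intro γ g
    unfold cosetOp
    exact Finset.sum_congr rfl fun h _ => by
      rw [mul_assoc]
      exact hψ.inv.cusp.aut.left_inv γ (g * h)
  · -- level
    intro u hu g
    exact hH.level u hu g
  · -- the compact subgroups at infinity
    intro w k hk g
    unfold cosetOp
    rw [Finset.mul_sum]
    exact Finset.sum_congr rfl fun h hh => by
      rw [hloc w k hk.1 h hh g]
      exact hψ.inv.cusp.aut.arch_compact w k hk (g * h)
  · -- the ray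
    intro g
    unfold cosetOp
    exact Finset.sum_congr rfl fun h hh => by
      rw [mul_assoc, comm_ray837 hr.1 (hH.triv_inf h hh), ← mul_assoc]
      exact hψ.inv.cusp.aut.ray (g * h)
  · -- the positive scalars at infinity
    intro w z hz g
    unfold cosetOp
    exact Finset.sum_congr rfl fun h hh => by
      rw [hloc w z hz.1 h hh g]
      exact hψ.inv.arch_scalar w z hz (g * h)
  · -- the Iwahori subgroups
    intro k hk1 hk2 hk3 x
    exact hH.iw k hk1 hk2 hk3 x
  · -- the Hecke operators outside the level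
    intro v hv
    refine ⟨fun H' hH' g => ?_, fun z hz g => ?_⟩
    · unfold cosetOp
      rw [Finset.sum_comm, Finset.mul_sum]
      refine Finset.sum_congr rfl fun h hh => ?_
      obtain ⟨hi, hi'⟩ := hH.unit_good h hh v hv
      have hsys := isHeckeCosetSystem_conj837 hH' hi hi'
      have := (hψ.hecke v hv).1 _ hsys (g * h)
      rw [Finset.sum_image (fun a _ b _ hab => conj_injective837 h hab)] at this
      rw [← this]
      refine Finset.sum_congr rfl fun t _ => ?_
      congr 1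
      group
    · unfold cosetOp
      rw [Finset.mul_sum]
      refine Finset.sum_congr rfl fun h hh => ?_
      have := (hψ.hecke v hv).2 _ (isScalarUniformizerAt_conj837 hz h) (g * h)
      rw [← this]
      congr 1
      group
  · -- the sphere means
    intro w
    exact meanEig_cosetOp837 hψ.inv.cusp.cont (hψ.mean w) hH.triv_inf

end Fermat.Agent.LT.T7.H837

end

end
-- ===== PACK-END LT/T7/H837/ClassOpGen.lean

-- ===== PACK-BEGIN LT/T7/H837/ClassOp.lean
section


/-!
# Row LT, tower T7, node T7.L2.2 SPEC-UP, leaf T7.L2.2.N.S3 `ClassOpC` (helper837, OFF-MAIN)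

`classOpC837 : T7.H963.ClassOpC K` (spec: helper963@8d178033b `LT/T7/H963/Simple.lean`): the class
of the invariant cusp functions with given eigen-data is stable under the operators of the double
cosets of the level group at the bad places and of the Iwahori subgroups along the orbit.

Proof: the general criterion `isEigFn_cosetOp837` (`ClassOpGen.lean`) and the permutation of a
full system of representatives by a left translation (`sum_perm837`).
-/

set_option autoImplicit false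
set_option linter.style.haveILetI false
set_option linter.unusedSectionVars false
set_option linter.unusedVariables false

open IsDedekindDomain NumberField MeasureTheory AutomorphicForm
open Fermat.Agent.LT.H556.A0

noncomputable section

namespace Fermat.Agent.LT.T7.H837

open Fermat.Agent.LT Fermat.Agent.LT.H129 Fermat.Agent.LT.T2.H333 Fermat.Agent.LT.T2.H429
open Fermat.Agent.LT.T7.H963 Fermat.Agent.LT.T7.H83

variable {K : Type} [Field K] [NumberField K]

/-! ## 8. The permutation lemma -/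

/-- A left translation `a` which maps every class `x Q` of the system into a class `x' Q` of the
system, with `ψ` invariant under the transition elements, permutes the sum over the system. -/
theorem sum_perm837 {ψ : G K → ℂ} {H : Finset (G K)} {Q : G K → Prop} {a : G K}
    (hQ : ∀ c₁ c₂ : G K, Q c₁ → Q c₂ → Q (c₁⁻¹ * c₂))
    (hsep : ∀ x ∈ H, ∀ x' ∈ H, x ≠ x' → ¬ Q (x⁻¹ * x'))
    (hstep : ∀ x ∈ H, ∃ x' ∈ H, Q (x'⁻¹ * (a * x)) ∧
      ∀ y : G K, ψ (y * (x'⁻¹ * (a * x))) = ψ y)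
    (y : G K) : ∑ x ∈ H, ψ (y * a * x) = ∑ x ∈ H, ψ (y * x) := by
  classical
  choose! σ hσ using hstep
  have hinj : ∀ x₁ ∈ H, ∀ x₂ ∈ H, σ x₁ = σ x₂ → x₁ = x₂ := by
    intro x₁ h₁ x₂ h₂ e
    by_contra hne
    apply hsep x₁ h₁ x₂ h₂ hne
    have h := hQ _ _ (hσ x₁ h₁).2.1 (hσ x₂ h₂).2.1
    rw [e] at h
    have e' : ((σ x₂)⁻¹ * (a * x₁))⁻¹ * ((σ x₂)⁻¹ * (a * x₂)) = x₁⁻¹ * x₂ := by group
    rw [e'] at h
    exact h
  have himg : H.image σ = H := by
    apply Finset.eq_of_subset_of_card_le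
    · intro z hz
      obtain ⟨x, hx, rfl⟩ := Finset.mem_image.1 hz
      exact (hσ x hx).1
    · rw [Finset.card_image_of_injOn (fun x₁ h₁ x₂ h₂ e => hinj x₁ h₁ x₂ h₂ e)]
  calc ∑ x ∈ H, ψ (y * a * x) = ∑ x ∈ H, ψ (y * σ x) := by
        refine Finset.sum_congr rfl fun x hx => ?_
        have h := (hσ x hx).2.2 (y * σ x)
        rw [← h]
        congr 1
        group
    _ = ∑ z ∈ H.image σ, ψ (y * z) :=
        (Finset.sum_image (f := fun z => ψ (y * z)) hinj).symm
    _ = ∑ x ∈ H, ψ (y * x) := by rw [himg]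

/-! ## 9. The double cosets of the level group at the bad places -/

theorem isGoodSet_of_bad837 {𝔫 : Ideal (𝓞 K)} {r : G K} {l : ℕ}
    {o : ℕ → HeightOneSpectrum (𝓞 K)} {C : EigData K} {ψ : G K → ℂ} {g : G K}
    {H : Finset (G K)} (ho : ∀ j < l, (o j).asIdeal ∣ 𝔫) (hψ : IsEigFn 𝔫 r l o ψ C)
    (hg : IsBadAt 𝔫 l o g) (hH : IsDblCosetSystem 𝔫 g H) : IsGoodSet837 𝔫 l o ψ H := by
  refine ⟨?_, ?_, ?_, ?_⟩
  · intro h hh w
    obtain ⟨u₁, u₂, hu₁, hu₂, rfl⟩ := hH.1 h hh
    exact trivAtInf_mul837 (trivAtInf_mul837 (hu₁.1 w) (hg.1 w)) (hu₂.1 w)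
  · intro h hh v hv
    obtain ⟨u₁, u₂, hu₁, hu₂, rfl⟩ := hH.1 h hh
    have hgv : TrivAtFin v g := hg.2 v (Or.inl hv)
    refine ⟨isIntegralAt_mul837 (isIntegralAt_mul837 (isIntegralAt_of_inLevelGroup837 hu₁ v)
      (isIntegralAt_of_trivAtFin837 hgv)) (isIntegralAt_of_inLevelGroup837 hu₂ v), ?_⟩
    rw [mul_inv_rev, mul_inv_rev]
    exact isIntegralAt_mul837 (isIntegralAt_of_inLevelGroup837 (inLevelGroup_inv837 hu₂) v)
      (isIntegralAt_mul837 (isIntegralAt_of_trivAtFin837 (trivAtFin_inv837 hgv))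
        (isIntegralAt_of_inLevelGroup837 (inLevelGroup_inv837 hu₁) v))
  · intro u hu x
    refine sum_perm837 (Q := InLevelGroup 𝔫)
      (fun c₁ c₂ h₁ h₂ => inLevelGroup_mul837 (inLevelGroup_inv837 h₁) h₂) hH.2.1 ?_ x
    intro h hh
    obtain ⟨u₁, u₂, hu₁, hu₂, rfl⟩ := hH.1 h hh
    obtain ⟨x', hx', hI⟩ := hH.2.2 (u * u₁) (inLevelGroup_mul837 hu hu₁)
    have e : x'⁻¹ * (u * (u₁ * g * u₂)) = x'⁻¹ * (u * u₁ * g) * u₂ := by group
    have hc : InLevelGroup 𝔫 (x'⁻¹ * (u * (u₁ * g * u₂))) := by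
      rw [e]
      exact inLevelGroup_mul837 hI hu₂
    exact ⟨x', hx', hc, fun y => hψ.inv.cusp.aut.level_inv _ hc y⟩
  · intro k hk1 hk2 hk3 x
    refine Finset.sum_congr rfl fun h hh => ?_
    obtain ⟨u₁, u₂, hu₁, hu₂, rfl⟩ := hH.1 h hh
    obtain ⟨h, hdef⟩ : ∃ h : G K, h = u₁ * g * u₂ := ⟨_, rfl⟩
    rw [← hdef]
    have hI : ∀ j < l, T5.InIwahori (o j) h := by
      intro j hj
      rw [hdef]
      exact inIwahori_mul83 _ (inIwahori_mul83 _ (inIwahori_of_inLevelGroup837 (ho j hj) hu₁)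
        (inIwahori_of_trivAtFin83 _ (hg.2 (o j) (Or.inr ⟨j, hj, rfl⟩))))
        (inIwahori_of_inLevelGroup837 (ho j hj) hu₂)
    have e : x * k * h = x * h * (h⁻¹ * k * h) := by group
    rw [e]
    exact hψ.inv.iw (h⁻¹ * k * h) (fun w => trivAtInf_conj837 h (hk1 w))
      (fun v hv => trivAtFin_conj837 h (hk2 v hv))
      (fun j hj => inIwahori_mul83 _ (inIwahori_mul83 _ (inIwahori_inv83 _ (hI j hj))
        (hk3 j hj)) (hI j hj)) (x * h)

/-! ## 10. The double cosets of the Iwahori subgroups along the orbit -/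

/-- An element of the Iwahori subgroup at `w₀` lies in the Iwahori subgroup at every place. -/
theorem inIwahori_of_isIwElt837 {w₀ : HeightOneSpectrum (𝓞 K)} {κ : G K} (hκ : IsIwElt w₀ κ)
    (w : HeightOneSpectrum (𝓞 K)) : T5.InIwahori w κ := by
  by_cases e : w = w₀
  · rw [e]
    exact hκ.2
  · exact inIwahori_of_trivAtFin83 _ (hκ.1.2 w e)

/-- The component at `w₀` of an element of the Iwahori subgroup at `w₀`. -/
theorem isIwElt_loc837 {w₀ : HeightOneSpectrum (𝓞 K)} {a : G K} (ha : T5.InIwahori w₀ a) :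
    IsIwElt w₀ (locFin129 w₀ (finCompHom129 w₀ a)) := by
  refine ⟨isLocalAtFin_locFin129 w₀ _, inIwahori_congr83 w₀ ?_ ha⟩
  rw [finComp_locFin129, coe_finCompHom129]

/-- The complement of the component at `w₀` is trivial at `w₀`. -/
theorem trivAtFin_strip837 (w₀ : HeightOneSpectrum (𝓞 K)) (a : G K) :
    TrivAtFin w₀ ((locFin129 w₀ (finCompHom129 w₀ a))⁻¹ * a) := by
  rw [trivAtFin_iff129, map_mul, map_inv, finCompHom129_locFin129, inv_mul_cancel]

/-- The complement of the component at `w₀` away from `w₀`. -/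
theorem finComp_strip837 (w₀ : HeightOneSpectrum (𝓞 K)) (a : G K)
    {v : HeightOneSpectrum (𝓞 K)} (hv : v ≠ w₀) :
    finCompHom129 v ((locFin129 w₀ (finCompHom129 w₀ a))⁻¹ * a) = finCompHom129 v a := by
  rw [map_mul, map_inv, finCompHom129_locFin129_of_ne w₀ _ hv, inv_one, one_mul]

/-- The permutation of an Iwahori double coset system by an element whose component at `w₀`
lies in the Iwahori subgroup. -/
theorem sum_iw_perm837 {w₀ : HeightOneSpectrum (𝓞 K)} {h : G K} {H : Finset (G K)}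
    (hh : IsLocalAtFin w₀ h) (hH : IsIwDblSystem w₀ h H) {ψ : G K → ℂ} {a : G K}
    (ha : T5.InIwahori w₀ a)
    (hinv : ∀ κ : G K, IsIwElt w₀ κ → ∀ y : G K,
      ψ (y * (κ * ((locFin129 w₀ (finCompHom129 w₀ a))⁻¹ * a))) = ψ y)
    (y : G K) : ∑ x ∈ H, ψ (y * a * x) = ∑ x ∈ H, ψ (y * x) := by
  have ha₀ := isIwElt_loc837 ha
  have ha' := trivAtFin_strip837 w₀ a
  obtain ⟨a₀, ha₀def⟩ : ∃ a₀ : G K, a₀ = locFin129 w₀ (finCompHom129 w₀ a) := ⟨_, rfl⟩
  rw [← ha₀def] at ha₀ ha' hinv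
  have hloc : ∀ x ∈ H, IsLocalAtFin w₀ x := by
    intro x hx
    obtain ⟨k₁, k₂, hk₁, hk₂, rfl⟩ := hH.1 x hx
    exact isLocalAtFin_mul129 (isLocalAtFin_mul129 hk₁.1 hh) hk₂.1
  refine sum_perm837 (Q := T5.InIwahori w₀)
    (fun c₁ c₂ h₁ h₂ => inIwahori_mul83 w₀ (inIwahori_inv83 w₀ h₁) h₂) hH.2.1 ?_ y
  intro x hx
  have hxloc := hloc x hx
  obtain ⟨k₁, k₂, hk₁, hk₂, hxe⟩ := hH.1 x hx
  obtain ⟨x', hx', hI⟩ := hH.2.2 (a₀ * k₁)
    ⟨isLocalAtFin_mul129 ha₀.1 hk₁.1, inIwahori_mul83 w₀ ha₀.2 hk₁.2⟩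
  have hc : x * (a₀⁻¹ * a) = a₀⁻¹ * a * x := comm_of_local_triv333 hxloc ha'
  have e : x'⁻¹ * (a * x) = x'⁻¹ * (a₀ * k₁ * h) * k₂ * (a₀⁻¹ * a) := by
    calc x'⁻¹ * (a * x) = x'⁻¹ * (a₀ * (a₀⁻¹ * a * x)) := by group
      _ = x'⁻¹ * (a₀ * (x * (a₀⁻¹ * a))) := by rw [hc]
      _ = x'⁻¹ * (a₀ * (k₁ * h * k₂ * (a₀⁻¹ * a))) := by rw [hxe]
      _ = x'⁻¹ * (a₀ * k₁ * h) * k₂ * (a₀⁻¹ * a) := by group
  have hκ : IsIwElt w₀ (x'⁻¹ * (a₀ * k₁ * h) * k₂) :=
    ⟨isLocalAtFin_mul129 (isLocalAtFin_mul129 (isLocalAtFin_inv129 (hloc x' hx'))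
      (isLocalAtFin_mul129 (isLocalAtFin_mul129 ha₀.1 hk₁.1) hh)) hk₂.1,
      inIwahori_mul83 w₀ hI hk₂.2⟩
  refine ⟨x', hx', ?_, ?_⟩
  · rw [e]
    exact inIwahori_mul83 w₀ hκ.2 (inIwahori_of_trivAtFin83 w₀ ha')
  · intro y
    rw [e]
    exact hinv _ hκ y

/-- The complement of the component at `w₀` of an element of the level group lies in the level
group. -/
theorem inLevelGroup_strip837 {𝔫 : Ideal (𝓞 K)} (w₀ : HeightOneSpectrum (𝓞 K)) {u : G K}
    (hu : InLevelGroup 𝔫 u) :
    InLevelGroup 𝔫 ((locFin129 w₀ (finCompHom129 w₀ u))⁻¹ * u) := by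
  have hloc := isLocalAtFin_locFin129 w₀ (finCompHom129 w₀ u)
  refine ⟨fun w => trivAtInf_mul837 (trivAtInf_inv837 (hloc.1 w)) (hu.1 w), fun v i j => ?_⟩
  by_cases hv : v = w₀
  · subst hv
    have h1 : finComp v ((locFin129 v (finCompHom129 v u))⁻¹ * u) = 1 :=
      trivAtFin_strip837 v u
    have h2 : finComp v ((locFin129 v (finCompHom129 v u))⁻¹ * u)⁻¹ = 1 :=
      trivAtFin_inv837 (trivAtFin_strip837 v u)
    rw [h1, h2, sub_self]
    exact ⟨zero_mem_idealClosure333 𝔫 v, zero_mem_idealClosure333 𝔫 v⟩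
  · have h1 : finComp v ((locFin129 w₀ (finCompHom129 w₀ u))⁻¹ * u) = finComp v u := by
      rw [← coe_finCompHom129, finComp_strip837 w₀ u hv, coe_finCompHom129]
    have h2 : finComp v ((locFin129 w₀ (finCompHom129 w₀ u))⁻¹ * u)⁻¹ = finComp v u⁻¹ := by
      rw [← coe_finCompHom129, ← coe_finCompHom129, map_inv, finComp_strip837 w₀ u hv,
        map_inv]
    rw [h1, h2]
    exact hu.2 v i j

theorem isGoodSet_of_iw837 {𝔫 : Ideal (𝓞 K)} {r : G K} {l : ℕ}
    {o : ℕ → HeightOneSpectrum (𝓞 K)} {C : EigData K} {ψ : G K → ℂ} {j : ℕ} {h : G K}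
    {H : Finset (G K)} (ho : ∀ j < l, (o j).asIdeal ∣ 𝔫) (hψ : IsEigFn 𝔫 r l o ψ C)
    (hj : j < l) (hh : IsLocalAtFin (o j) h) (hH : IsIwDblSystem (o j) h H) :
    IsGoodSet837 𝔫 l o ψ H := by
  have hloc : ∀ x ∈ H, IsLocalAtFin (o j) x := by
    intro x hx
    obtain ⟨k₁, k₂, hk₁, hk₂, rfl⟩ := hH.1 x hx
    exact isLocalAtFin_mul129 (isLocalAtFin_mul129 hk₁.1 hh) hk₂.1
  have hne : ∀ v : HeightOneSpectrum (𝓞 K), ¬ v.asIdeal ∣ 𝔫 → v ≠ o j := by
    intro v hv e
    rw [e] at hv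
    exact hv (ho j hj)
  refine ⟨fun x hx w => (hloc x hx).1 w, ?_, ?_, ?_⟩
  · intro x hx v hv
    exact ⟨isIntegralAt_of_trivAtFin837 ((hloc x hx).2 v (hne v hv)),
      isIntegralAt_of_trivAtFin837 ((isLocalAtFin_inv129 (hloc x hx)).2 v (hne v hv))⟩
  · intro u hu x
    refine sum_iw_perm837 hh hH (inIwahori_of_inLevelGroup837 (ho j hj) hu) ?_ x
    intro κ hκ y
    rw [← mul_assoc, hψ.inv.cusp.aut.level_inv _ (inLevelGroup_strip837 (o j) hu)]
    exact isIwInvAt_of_isIwInv83 hψ.inv.iw hj κ hκ.1 hκ.2 y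
  · intro k hk1 hk2 hk3 x
    refine sum_iw_perm837 hh hH (hk3 j hj) ?_ x
    intro κ hκ y
    have ha₀ := isIwElt_loc837 (hk3 j hj)
    refine hψ.inv.iw _ (fun w => ?_) (fun v hv => ?_) (fun j' hj' => ?_) y
    · exact trivAtInf_mul837 (hκ.1.1 w)
        (trivAtInf_mul837 (trivAtInf_inv837 (ha₀.1.1 w)) (hk1 w))
    · exact trivAtFin_mul837 (hκ.1.2 v (hv j hj))
        (trivAtFin_mul837 (trivAtFin_inv837 (ha₀.1.2 v (hv j hj))) (hk2 v hv))
    · exact inIwahori_mul83 _ (inIwahori_of_isIwElt837 hκ (o j'))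
        (inIwahori_mul83 _ (inIwahori_inv83 _ (inIwahori_of_isIwElt837 ha₀ (o j')))
          (hk3 j' hj'))

/-! ## 11. The leaf -/

/-- **LEAF T7.L2.2.N.S3 `ClassOpC`**: the class is stable under the Hecke operators at the bad
places and along the orbit. -/
theorem classOpC837 (K : Type) [Field K] [NumberField K] : T7.H963.ClassOpC K := by
  intro 𝔫 r l o C h𝔫 hr ho ψ hψ
  exact ⟨fun g H hg hH => isEigFn_cosetOp837 hr hψ (isGoodSet_of_bad837 ho hψ hg hH),
    fun j h H hj hh hH => isEigFn_cosetOp837 hr hψ (isGoodSet_of_iw837 ho hψ hj hh hH)⟩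

example (K : Type) [Field K] [NumberField K] : T7.H963.ClassOpC K := classOpC837 K

end Fermat.Agent.LT.T7.H837

end

end
-- ===== PACK-END LT/T7/H837/ClassOp.lean

-- ===== PACK-BEGIN LT/T7/H593/Decomp.lean
section


/-!
# Row LT, tower T7, node `SimpleC`, leaf `DecompC` (helper593, OFF-MAIN)

ADDITIVE.  Spec: `T7/H963/Compress.lean` (helper963), `DecompC K`: every `g ∈ GL₂(𝔸_K)` is
peelable for every level `𝔫 ≠ 0`.

Proof.  Let `T` be the finite set of finite places `v` with `v ∣ 𝔫`, or `g_v` not integral, or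
`g_v⁻¹` not integral.  Peel off the local elements `locFin129 v g_v` (`v ∈ T`), then the local
elements `locInf593 w g_w` (`w ∣ ∞`); the remaining factor `a⁻¹ g` has component `1` at `T` and at
infinity and component `g_v ∈ GL₂(𝒪_v)` at `v ∉ T`, `v ∤ 𝔫`, hence lies in `U(𝔫)`
(`dense_ideal129`).
-/

set_option autoImplicit false
set_option linter.unusedSectionVars false
set_option linter.unusedVariables false

open IsDedekindDomain NumberField
open Fermat.Agent.LT.H556.A0
open Fermat.Agent.LT.H129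

noncomputable section

namespace Fermat.Agent.LT.T7.H593DC

open Fermat.Agent.LT.T7.H963

variable {K : Type} [Field K] [NumberField K]

open scoped Classical

/-! ## 1. The local embedding at an infinite place -/

/-- The infinite adele with component `x` at `w` and `1` (if `d = true`) resp. `0` elsewhere. -/
def infSingle593 (w : InfinitePlace K) (d : Bool) (x : w.Completion) : InfiniteAdeleRing K :=
  Function.update (fun w' : InfinitePlace K => (if d then 1 else 0 : w'.Completion)) w x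

theorem infSingle593_same (w : InfinitePlace K) (d : Bool) (x : w.Completion) :
    infSingle593 w d x w = x := by
  unfold infSingle593
  exact Function.update_self _ _ _

theorem infSingle593_of_ne (w : InfinitePlace K) (d : Bool) (x : w.Completion)
    {w' : InfinitePlace K} (h : w' ≠ w) :
    infSingle593 w d x w' = if d then 1 else 0 := by
  unfold infSingle593
  exact Function.update_of_ne h _ _

/-- The adelic matrix with component `M` at the infinite place `w` and `1` elsewhere. -/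
def locInfMat593 (w : InfinitePlace K) (M : Matrix (Fin 2) (Fin 2) w.Completion) :
    Matrix (Fin 2) (Fin 2) (Adl K) :=
  fun i j => (infSingle593 w (decide (i = j)) (M i j),
    (1 : Matrix (Fin 2) (Fin 2) (FiniteAdeleRing (𝓞 K) K)) i j)

theorem locInfMat593_map_same (w : InfinitePlace K) (M : Matrix (Fin 2) (Fin 2) w.Completion) :
    (locInfMat593 w M).map (evI129 w) = M := by
  refine Matrix.ext fun i j => ?_
  exact infSingle593_same w _ _

theorem locInfMat593_map_of_ne (w : InfinitePlace K) (M : Matrix (Fin 2) (Fin 2) w.Completion)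
    {w' : InfinitePlace K} (h : w' ≠ w) : (locInfMat593 w M).map (evI129 w') = 1 := by
  refine Matrix.ext fun i j => ?_
  have e : ((locInfMat593 w M).map (evI129 w')) i j
      = infSingle593 w (decide (i = j)) (M i j) w' := rfl
  rw [e, infSingle593_of_ne w _ _ h]
  by_cases hij : i = j
  · subst hij; simp
  · simp [hij]

theorem locInfMat593_map_fin (w : InfinitePlace K) (M : Matrix (Fin 2) (Fin 2) w.Completion)
    (v : HeightOneSpectrum (𝓞 K)) : (locInfMat593 w M).map (evF129 v) = 1 := by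
  refine Matrix.ext fun i j => ?_
  have e : ((locInfMat593 w M).map (evF129 v)) i j
      = ((1 : Matrix (Fin 2) (Fin 2) (FiniteAdeleRing (𝓞 K) K)) i j) v := rfl
  rw [e]
  by_cases hij : i = j
  · subst hij; simp only [Matrix.one_apply_eq]; rfl
  · simp only [Matrix.one_apply_ne hij]; rfl

theorem locInfMat593_one (w : InfinitePlace K) : locInfMat593 w 1 = 1 := by
  apply adeleMatrix_ext129
  · intro w'
    by_cases h : w' = w
    · subst h
      rw [locInfMat593_map_same, one_map_evI129]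
    · rw [locInfMat593_map_of_ne w _ h, one_map_evI129]
  · intro v
    rw [locInfMat593_map_fin, one_map_evF129]

theorem locInfMat593_mul (w : InfinitePlace K) (M N : Matrix (Fin 2) (Fin 2) w.Completion) :
    locInfMat593 w (M * N) = locInfMat593 w M * locInfMat593 w N := by
  apply adeleMatrix_ext129
  · intro w'
    rw [Matrix.map_mul]
    by_cases h : w' = w
    · subst h
      rw [locInfMat593_map_same, locInfMat593_map_same, locInfMat593_map_same]
    · rw [locInfMat593_map_of_ne w _ h, locInfMat593_map_of_ne w _ h,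
        locInfMat593_map_of_ne w _ h, mul_one]
  · intro v
    rw [Matrix.map_mul, locInfMat593_map_fin, locInfMat593_map_fin, locInfMat593_map_fin, mul_one]

/-- **The local embedding** `GL₂(K_w) →* GL₂(𝔸_K)` at an infinite place. -/
def locInf593 (w : InfinitePlace K) : GL (Fin 2) w.Completion →* G K where
  toFun x :=
    { val := locInfMat593 w (x : Matrix (Fin 2) (Fin 2) w.Completion)
      inv := locInfMat593 w ((x⁻¹ : GL (Fin 2) w.Completion) :
        Matrix (Fin 2) (Fin 2) w.Completion)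
      val_inv := by
        rw [← locInfMat593_mul, ← Matrix.GeneralLinearGroup.coe_mul, mul_inv_cancel]
        exact locInfMat593_one w
      inv_val := by
        rw [← locInfMat593_mul, ← Matrix.GeneralLinearGroup.coe_mul, inv_mul_cancel]
        exact locInfMat593_one w }
  map_one' := Units.ext (locInfMat593_one w)
  map_mul' x y := Units.ext (locInfMat593_mul w _ _)

theorem coe_locInf593 (w : InfinitePlace K) (x : GL (Fin 2) w.Completion) :
    ((locInf593 w x : G K) : Matrix (Fin 2) (Fin 2) (Adl K))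
      = locInfMat593 w (x : Matrix (Fin 2) (Fin 2) w.Completion) := rfl

theorem infCompHom129_locInf593 (w : InfinitePlace K) (x : GL (Fin 2) w.Completion) :
    infCompHom129 w (locInf593 w x) = x := by
  apply Units.ext
  rw [coe_infCompHom129_map, coe_locInf593, locInfMat593_map_same]

theorem infCompHom129_locInf593_of_ne (w : InfinitePlace K) (x : GL (Fin 2) w.Completion)
    {w' : InfinitePlace K} (h : w' ≠ w) : infCompHom129 w' (locInf593 w x) = 1 := by
  apply Units.ext
  rw [coe_infCompHom129_map, coe_locInf593, locInfMat593_map_of_ne w _ h]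
  rfl

theorem finCompHom129_locInf593 (w : InfinitePlace K) (x : GL (Fin 2) w.Completion)
    (v : HeightOneSpectrum (𝓞 K)) : finCompHom129 v (locInf593 w x) = 1 := by
  apply Units.ext
  rw [coe_finCompHom129_map, coe_locInf593, locInfMat593_map_fin]
  rfl

theorem isLocalAtInf_locInf593 (w : InfinitePlace K) (x : GL (Fin 2) w.Completion) :
    IsLocalAtInf w (locInf593 w x) := by
  refine ⟨fun w' h => ?_, fun v => ?_⟩
  · rw [trivAtInf_iff129]
    exact infCompHom129_locInf593_of_ne w x h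
  · rw [trivAtFin_iff129]
    exact finCompHom129_locInf593 w x v

/-! ## 2. Peeling the finite places of a finite set -/

/-- Peel the finite places of `T`. -/
theorem peel_fin593 (𝔫 : Ideal (𝓞 K)) (g : G K) (T : Finset (HeightOneSpectrum (𝓞 K))) :
    ∃ a : G K, Peel 𝔫 a ∧ (∀ w : InfinitePlace K, infCompHom129 w a = 1) ∧
      (∀ v ∈ T, finCompHom129 v a = finCompHom129 v g) ∧
      ∀ v ∉ T, finCompHom129 v a = 1 := by
  induction T using Finset.induction_on with
  | empty =>
    exact ⟨1, Peel.one, fun w => map_one _, fun v hv => absurd hv (Finset.notMem_empty v),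
      fun v _ => map_one _⟩
  | insert v T hvT ih =>
    obtain ⟨a, ha, haI, haT, haN⟩ := ih
    refine ⟨a * locFin129 v (finCompHom129 v g),
      Peel.fin _ v ha ((trivAtFin_iff129 v a).mpr (haN v hvT)) (isLocalAtFin_locFin129 v _),
      fun w => ?_, fun v' hv' => ?_, fun v' hv' => ?_⟩
    · rw [map_mul, haI w, infCompHom129_locFin129, mul_one]
    · by_cases h : v' = v
      · subst h
        rw [map_mul, haN v' hvT, finCompHom129_locFin129, one_mul]
      · have hv'T : v' ∈ T := (Finset.mem_insert.mp hv').resolve_left h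
        rw [map_mul, haT v' hv'T, finCompHom129_locFin129_of_ne v _ h, mul_one]
    · have h : v' ≠ v := fun h => hv' (h ▸ Finset.mem_insert_self v T)
      have hv'T : v' ∉ T := fun h' => hv' (Finset.mem_insert_of_mem h')
      rw [map_mul, haN v' hv'T, finCompHom129_locFin129_of_ne v _ h, mul_one]

/-- Peel the finite places of `T` and the infinite places of `S`. -/
theorem peel_inf593 (𝔫 : Ideal (𝓞 K)) (g : G K) (T : Finset (HeightOneSpectrum (𝓞 K)))
    (S : Finset (InfinitePlace K)) :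
    ∃ a : G K, Peel 𝔫 a ∧ (∀ w ∈ S, infCompHom129 w a = infCompHom129 w g) ∧
      (∀ w ∉ S, infCompHom129 w a = 1) ∧
      (∀ v ∈ T, finCompHom129 v a = finCompHom129 v g) ∧
      ∀ v ∉ T, finCompHom129 v a = 1 := by
  induction S using Finset.induction_on with
  | empty =>
    obtain ⟨a, ha, haI, haT, haN⟩ := peel_fin593 𝔫 g T
    exact ⟨a, ha, fun w hw => absurd hw (Finset.notMem_empty w), fun w _ => haI w, haT, haN⟩
  | insert w S hwS ih =>
    obtain ⟨a, ha, haS, haI, haT, haN⟩ := ih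
    refine ⟨a * locInf593 w (infCompHom129 w g),
      Peel.inf _ w ha ((trivAtInf_iff129 w a).mpr (haI w hwS)) (isLocalAtInf_locInf593 w _),
      fun w' hw' => ?_, fun w' hw' => ?_, fun v hv => ?_, fun v hv => ?_⟩
    · by_cases h : w' = w
      · subst h
        rw [map_mul, haI w' hwS, infCompHom129_locInf593, one_mul]
      · have hw'S : w' ∈ S := (Finset.mem_insert.mp hw').resolve_left h
        rw [map_mul, haS w' hw'S, infCompHom129_locInf593_of_ne w _ h, mul_one]
    · have h : w' ≠ w := fun h => hw' (h ▸ Finset.mem_insert_self w S)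
      have hw'S : w' ∉ S := fun h' => hw' (Finset.mem_insert_of_mem h')
      rw [map_mul, haI w' hw'S, infCompHom129_locInf593_of_ne w _ h, mul_one]
    · rw [map_mul, haT v hv, finCompHom129_locInf593, mul_one]
    · rw [map_mul, haN v hv, finCompHom129_locInf593, mul_one]

/-! ## 3. The bad set is finite -/

/-- Almost every finite place is prime to `𝔫` and `g`, `g⁻¹` are integral there. -/
theorem eventually_good593 {𝔫 : Ideal (𝓞 K)} (h𝔫 : 𝔫 ≠ ⊥) (g : G K) :
    ∀ᶠ v : HeightOneSpectrum (𝓞 K) in Filter.cofinite,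
      ¬ v.asIdeal ∣ 𝔫 ∧ IsIntegralAt v g ∧ IsIntegralAt v g⁻¹ := by
  have h1 : ∀ᶠ v : HeightOneSpectrum (𝓞 K) in Filter.cofinite, ¬ v.asIdeal ∣ 𝔫 := by
    rw [Filter.eventually_cofinite]
    simp only [not_not]
    exact Ideal.finite_factors h𝔫
  have h2 : ∀ x : G K, ∀ᶠ v : HeightOneSpectrum (𝓞 K) in Filter.cofinite, IsIntegralAt v x := by
    intro x
    unfold IsIntegralAt
    rw [Filter.eventually_all]
    intro i
    rw [Filter.eventually_all]
    intro j
    exact ((x : Matrix (Fin 2) (Fin 2) (Adl K)) i j).2.2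
  exact h1.and ((h2 g).and (h2 g⁻¹))

/-! ## 4. The leaf -/

theorem one_entry_int593 (v : HeightOneSpectrum (𝓞 K)) (i j : Fin 2) :
    Valued.v ((1 : Matrix (Fin 2) (Fin 2) (v.adicCompletion K)) i j) ≤ 1 := by
  by_cases hij : i = j
  · subst hij; simp
  · simp [hij]

/-- **LEAF `DecompC`**: every element of `GL₂(𝔸_K)` is peelable. -/
theorem decompC593 (K : Type) [Field K] [NumberField K] : DecompC K := by
  intro 𝔫 h𝔫 g
  have hev := eventually_good593 h𝔫 g
  rw [Filter.eventually_cofinite] at hev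
  set T : Finset (HeightOneSpectrum (𝓞 K)) := hev.toFinset with hT
  have hTmem : ∀ v : HeightOneSpectrum (𝓞 K), v ∉ T →
      ¬ v.asIdeal ∣ 𝔫 ∧ IsIntegralAt v g ∧ IsIntegralAt v g⁻¹ := by
    intro v hv
    by_contra hcon
    exact hv (hev.mem_toFinset.mpr hcon)
  obtain ⟨a, ha, haS, -, haT, haN⟩ := peel_inf593 𝔫 g T Finset.univ
  have hk : InLevelGroup 𝔫 (a⁻¹ * g) := by
    refine ⟨fun w => ?_, fun v i j => ?_⟩
    · rw [trivAtInf_iff129, map_mul, map_inv, haS w (Finset.mem_univ w), inv_mul_cancel]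
    · by_cases hv : v ∈ T
      · have e1 : finCompHom129 v (a⁻¹ * g) = 1 := by
          rw [map_mul, map_inv, haT v hv, inv_mul_cancel]
        have e2 : finCompHom129 v (a⁻¹ * g)⁻¹ = 1 := by
          rw [map_inv, e1, inv_one]
        have f1 : finComp v (a⁻¹ * g) = 1 := by
          rw [← coe_finCompHom129, e1]; rfl
        have f2 : finComp v (a⁻¹ * g)⁻¹ = 1 := by
          rw [← coe_finCompHom129, e2]; rfl
        rw [f1, f2, sub_self]
        exact ⟨zero_mem_idealClosure129 𝔫 v, zero_mem_idealClosure129 𝔫 v⟩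
      · obtain ⟨hdvd, hint, hint'⟩ := hTmem v hv
        have e1 : finCompHom129 v (a⁻¹ * g) = finCompHom129 v g := by
          rw [map_mul, map_inv, haN v hv, inv_one, one_mul]
        have e2 : finCompHom129 v (a⁻¹ * g)⁻¹ = finCompHom129 v g⁻¹ := by
          rw [map_inv, e1, map_inv]
        have f1 : finComp v (a⁻¹ * g) = finComp v g := by
          rw [← coe_finCompHom129, e1]; rfl
        have f2 : finComp v (a⁻¹ * g)⁻¹ = finComp v g⁻¹ := by
          rw [← coe_finCompHom129, e2]; rfl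
        rw [f1, f2]
        constructor
        · apply dense_ideal129 hdvd
          rw [Matrix.sub_apply]
          exact le_trans (Valuation.map_sub _ _ _) (max_le (hint i j) (one_entry_int593 v i j))
        · apply dense_ideal129 hdvd
          rw [Matrix.sub_apply]
          exact le_trans (Valuation.map_sub _ _ _) (max_le (hint' i j) (one_entry_int593 v i j))
  have := Peel.lvl (a⁻¹ * g) ha hk
  rwa [mul_inv_cancel_left] at this

end Fermat.Agent.LT.T7.H593DC

end

end
-- ===== PACK-END LT/T7/H593/Decomp.lean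

-- ===== PACK-BEGIN LT/T7/H593/DblSys.lean
section




/-!
# Row LT, tower T7, node `SimpleC`, leaves `BadSystemExistsC`, `IwSystemExistsC`, `UnitC`
(helper593, OFF-MAIN, spare)

ADDITIVE.  Spec: `T7/H963/Compress.lean` (helper963).  Asset: `T7/H949/FinProjLocal.lean`
(helper949, byte-identical copy): `U949 𝔫` is a subgroup, `finite_quot949`.

* `exists_dblSys593` (abstract groups): `U`, `V` subgroups, `U / (U ∩ V)` finite,
  `h⁻¹ (U ∩ V) h ⊆ U`: a full system of representatives of `U h U / U` exists.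
* `exists_level_conj593`: for every `h ∈ GL₂(𝔸_K)` and `𝔫 ≠ 0` there is `𝔪 ≠ 0` with
  `h⁻¹ U(𝔪) h ⊆ U(𝔫)` (`𝔪 = d 𝔫`, `d` a common denominator of the products of the entries of
  `h⁻¹` and `h`).
* `badSystemExistsC593 : BadSystemExistsC K`, `iwSystemExistsC593 : IwSystemExistsC K`,
  `unitC593 : UnitC K`.
-/

set_option autoImplicit false
set_option linter.unusedSectionVars false
set_option linter.unusedVariables false
set_option linter.style.haveILetI false

open IsDedekindDomain NumberField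
open Fermat.Agent.LT.H556.A0
open Fermat.Agent.LT.H129

noncomputable section

namespace Fermat.Agent.LT.T7.H593DS

open Fermat.Agent.LT.T7.H963 Fermat.Agent.LT.T7.H949 Fermat.Agent.LT.T7.H593DC

/-! ## 1. Abstract groups -/

/-- A full system of representatives of `U h U / U` exists as soon as a subgroup `V` with
`U / (U ∩ V)` finite is conjugated into `U` by `h`. -/
theorem exists_dblSys593 {Γ : Type*} [Group Γ] (U V : Subgroup Γ)
    [Finite (U ⧸ V.subgroupOf U)] (h : Γ)
    (hconj : ∀ u : Γ, u ∈ U → u ∈ V → h⁻¹ * u * h ∈ U) :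
    ∃ H : Finset Γ, (∀ x ∈ H, ∃ u₁ u₂ : Γ, u₁ ∈ U ∧ u₂ ∈ U ∧ x = u₁ * h * u₂) ∧
      (∀ x ∈ H, ∀ x' ∈ H, x ≠ x' → x⁻¹ * x' ∉ U) ∧
      ∀ u : Γ, u ∈ U → ∃ x ∈ H, x⁻¹ * (u * h) ∈ U := by
  classical
  haveI : Fintype (U ⧸ V.subgroupOf U) := Fintype.ofFinite _
  let c : U ⧸ V.subgroupOf U → Γ ⧸ U := fun q =>
    (QuotientGroup.mk (((Quotient.out q : U) : Γ) * h) : Γ ⧸ U)
  let φ : U ⧸ V.subgroupOf U → Γ := fun q => Quotient.out (c q)
  have hφ : ∀ q, (((Quotient.out q : U) : Γ) * h)⁻¹ * φ q ∈ U := by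
    intro q
    have h1 : (QuotientGroup.mk (φ q) : Γ ⧸ U) = c q := QuotientGroup.out_eq' (c q)
    exact QuotientGroup.eq.mp h1.symm
  refine ⟨Finset.univ.image φ, ?_, ?_, ?_⟩
  · intro x hx
    obtain ⟨q, -, rfl⟩ := Finset.mem_image.mp hx
    refine ⟨((Quotient.out q : U) : Γ), _, (Quotient.out q : U).2, hφ q, ?_⟩
    group
  · intro x hx x' hx' hne hmem
    obtain ⟨q, -, rfl⟩ := Finset.mem_image.mp hx
    obtain ⟨q', -, rfl⟩ := Finset.mem_image.mp hx'
    apply hne
    have h1 : (QuotientGroup.mk (φ q) : Γ ⧸ U) = QuotientGroup.mk (φ q') :=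
      QuotientGroup.eq.mpr hmem
    have h2 : c q = c q' := by
      rw [← QuotientGroup.out_eq' (c q), ← QuotientGroup.out_eq' (c q')]
      exact h1
    show Quotient.out (c q) = Quotient.out (c q')
    rw [h2]
  · intro u hu
    set q : U ⧸ V.subgroupOf U := QuotientGroup.mk (⟨u, hu⟩ : U) with hq
    refine ⟨φ q, Finset.mem_image.mpr ⟨q, Finset.mem_univ q, rfl⟩, ?_⟩
    have h1 : (QuotientGroup.mk (Quotient.out q) : U ⧸ V.subgroupOf U)
        = QuotientGroup.mk (⟨u, hu⟩ : U) := QuotientGroup.out_eq' q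
    have h2 : (Quotient.out q : U)⁻¹ * (⟨u, hu⟩ : U) ∈ V.subgroupOf U := QuotientGroup.eq.mp h1
    rw [Subgroup.mem_subgroupOf] at h2
    have h3 : (((Quotient.out q : U) : Γ))⁻¹ * u ∈ V := h2
    have h4 : (((Quotient.out q : U) : Γ))⁻¹ * u ∈ U :=
      U.mul_mem (U.inv_mem (Quotient.out q : U).2) hu
    have h5 := hconj _ h4 h3
    have h6 : (φ q)⁻¹ * (((Quotient.out q : U) : Γ) * h) ∈ U := by
      have := U.inv_mem (hφ q)
      rwa [mul_inv_rev, inv_inv] at this
    have e : (φ q)⁻¹ * (u * h)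
        = ((φ q)⁻¹ * (((Quotient.out q : U) : Γ) * h))
          * (h⁻¹ * ((((Quotient.out q : U) : Γ))⁻¹ * u) * h) := by
      group
    rw [e]
    exact U.mul_mem h6 h5

/-! ## 2. Conjugation of a small level group into the level group -/

variable {K : Type} [Field K] [NumberField K]

/-- Powers of an element `< 1` become small. -/
theorem pow_small593 (x y : WithZero (Multiplicative ℤ)) (hx : x < 1) :
    ∃ N : ℕ, ∀ n, N ≤ n → y * x ^ n ≤ 1 := by
  by_cases hy : y = 0
  · exact ⟨0, fun n _ => by rw [hy, zero_mul]; exact zero_le_one⟩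
  · have hy' : y⁻¹ ≠ 0 := inv_ne_zero hy
    obtain ⟨N, hN⟩ := exists_pow_lt₀ hx (Units.mk0 _ hy')
    refine ⟨N, fun n hn => ?_⟩
    have h1 : x ^ n ≤ x ^ N := pow_le_pow_of_le_one zero_le hx.le hn
    have h2 : x ^ n ≤ y⁻¹ := h1.trans hN.le
    calc y * x ^ n ≤ y * y⁻¹ := by gcongr
      _ = 1 := mul_inv_cancel₀ hy

/-- The same for a finite family. -/
theorem pow_small_fam593 {ι : Type*} [Fintype ι] (x : WithZero (Multiplicative ℤ)) (hx : x < 1)
    (y : ι → WithZero (Multiplicative ℤ)) : ∃ N : ℕ, ∀ i n, N ≤ n → y i * x ^ n ≤ 1 := by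
  classical
  choose N hN using fun i => pow_small593 x (y i) hx
  exact ⟨∑ i, N i, fun i n hn => hN i n
    ((Finset.single_le_sum (fun _ _ => Nat.zero_le _) (Finset.mem_univ i)).trans hn)⟩

/-- `a (d 𝔫 𝒪_v) b ⊆ 𝔫 𝒪_v` if `a b d` is integral. -/
theorem conj_mem_idealClosure593 (𝔫 : Ideal (𝓞 K)) (d : 𝓞 K) (v : HeightOneSpectrum (𝓞 K))
    {a b x : v.adicCompletion K} (hab : Valued.v (a * b * loc949 v d) ≤ 1)
    (hx : x ∈ idealClosure (Ideal.span {d} * 𝔫) v) : a * x * b ∈ idealClosure 𝔫 v := by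
  have hcont : Continuous (fun z : v.adicCompletion K => a * z * b) :=
    (continuous_const.mul continuous_id).mul continuous_const
  have hcl : IsClosed ((fun z : v.adicCompletion K => a * z * b) ⁻¹' (idealClosure 𝔫 v)) := by
    refine IsClosed.preimage hcont ?_
    rw [idealClosure_eq949]
    exact isClosed_closure
  have hsub : (loc949 v) '' ((Ideal.span {d} * 𝔫 : Ideal (𝓞 K)) : Set (𝓞 K))
      ⊆ (fun z : v.adicCompletion K => a * z * b) ⁻¹' (idealClosure 𝔫 v) := by
    rintro _ ⟨m, hm, rfl⟩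
    obtain ⟨z, hz, rfl⟩ := Ideal.mem_span_singleton_mul.mp hm
    show a * loc949 v (d * z) * b ∈ idealClosure 𝔫 v
    have e : a * loc949 v (d * z) * b = (a * b * loc949 v d) * loc949 v z := by
      rw [map_mul]; ring
    rw [e]
    exact mul_mem_idealClosure949 𝔫 v hab (loc_mem_idealClosure949 𝔫 v hz)
  rw [idealClosure_eq949] at hx
  exact closure_minimal hsub hcl hx

/-- Conjugation of a matrix congruent to `1` modulo `d 𝔫`. -/
theorem conj_sub_one593 (𝔫 : Ideal (𝓞 K)) (d : 𝓞 K) (v : HeightOneSpectrum (𝓞 K))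
    {A Ai B : Matrix (Fin 2) (Fin 2) (v.adicCompletion K)} (hAi : Ai * A = 1)
    (hd : ∀ i k l j : Fin 2, Valued.v (Ai i k * A l j * loc949 v d) ≤ 1)
    (hB : ∀ i j, (B - 1) i j ∈ idealClosure (Ideal.span {d} * 𝔫) v) (i j : Fin 2) :
    (Ai * B * A - 1) i j ∈ idealClosure 𝔫 v := by
  have e : Ai * B * A - 1 = Ai * (B - 1) * A := by
    rw [mul_sub, mul_one, sub_mul, hAi]
  rw [e, Matrix.mul_apply, Fin.sum_univ_two, Matrix.mul_apply, Matrix.mul_apply,
    Fin.sum_univ_two, Fin.sum_univ_two, add_mul, add_mul]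
  refine add_mem_idealClosure949 𝔫 v (add_mem_idealClosure949 𝔫 v ?_ ?_)
    (add_mem_idealClosure949 𝔫 v ?_ ?_)
  · exact conj_mem_idealClosure593 𝔫 d v (hd i 0 0 j) (hB 0 0)
  · exact conj_mem_idealClosure593 𝔫 d v (hd i 1 0 j) (hB 1 0)
  · exact conj_mem_idealClosure593 𝔫 d v (hd i 0 1 j) (hB 0 1)
  · exact conj_mem_idealClosure593 𝔫 d v (hd i 1 1 j) (hB 1 1)

theorem loc_int593 (v : HeightOneSpectrum (𝓞 K)) (a : 𝓞 K) : Valued.v (loc949 v a) ≤ 1 :=
  HeightOneSpectrum.coe_mem_adicCompletionIntegers v a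

theorem loc_lt_one593 (v : HeightOneSpectrum (𝓞 K)) {a : 𝓞 K} (ha : a ∈ v.asIdeal) :
    Valued.v (loc949 v a) < 1 := by
  have e0 : Valued.v (loc949 v a) = v.valuation K (algebraMap (𝓞 K) K a) :=
    HeightOneSpectrum.valuedAdicCompletion_eq_valuation' v (algebraMap (𝓞 K) K a)
  rw [e0]
  exact (HeightOneSpectrum.valuation_lt_one_iff_mem v a).mpr ha

/-- A common denominator of the products of the entries of `h⁻¹` and `h`. -/
theorem exists_den593 (h : G K) : ∃ d : 𝓞 K, d ≠ 0 ∧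
    ∀ (v : HeightOneSpectrum (𝓞 K)) (i k l j : Fin 2),
      Valued.v (finComp v h⁻¹ i k * finComp v h l j * loc949 v d) ≤ 1 := by
  classical
  have hev := eventually_good593 (K := K) (𝔫 := ⊤) top_ne_bot h
  rw [Filter.eventually_cofinite] at hev
  set T : Finset (HeightOneSpectrum (𝓞 K)) := hev.toFinset with hT
  have hTmem : ∀ v : HeightOneSpectrum (𝓞 K), v ∉ T →
      IsIntegralAt v h ∧ IsIntegralAt v h⁻¹ := by
    intro v hv
    by_contra hcon
    exact hv (hev.mem_toFinset.mpr fun hh => hcon hh.2)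
  -- an element of all the primes of `T`
  have hI : (∏ v ∈ T, v.asIdeal) ≠ ⊥ := by
    rw [← Ideal.zero_eq_bot]
    exact Finset.prod_ne_zero_iff.mpr fun v _ => v.ne_bot
  obtain ⟨π, hπI, hπ0⟩ := Submodule.exists_mem_ne_zero_of_ne_bot hI
  have hπv : ∀ v ∈ T, π ∈ v.asIdeal := fun v hv =>
    (Ideal.prod_le_inf.trans (Finset.inf_le hv)) hπI
  have hN : ∀ v : HeightOneSpectrum (𝓞 K), ∃ N : ℕ, v ∈ T →
      ∀ (p : (Fin 2 × Fin 2) × (Fin 2 × Fin 2)) (n : ℕ), N ≤ n →
        Valued.v (finComp v h⁻¹ p.1.1 p.1.2 * finComp v h p.2.1 p.2.2)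
          * Valued.v (loc949 v π) ^ n ≤ 1 := by
    intro v
    by_cases hv : v ∈ T
    · obtain ⟨N, hN⟩ := pow_small_fam593 (Valued.v (loc949 v π)) (loc_lt_one593 v (hπv v hv))
        (fun p : (Fin 2 × Fin 2) × (Fin 2 × Fin 2) =>
          Valued.v (finComp v h⁻¹ p.1.1 p.1.2 * finComp v h p.2.1 p.2.2))
      exact ⟨N, fun _ p n hn => hN p n hn⟩
    · exact ⟨0, fun hv' => absurd hv' hv⟩
  choose N hN using hN
  refine ⟨π ^ (∑ v ∈ T, N v), pow_ne_zero _ hπ0, fun v i k l j => ?_⟩
  by_cases hv : v ∈ T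
  · have h1 := hN v hv ((i, k), (l, j)) (∑ v ∈ T, N v)
      (Finset.single_le_sum (fun _ _ => Nat.zero_le _) hv)
    rw [map_mul, map_pow, map_pow]
    exact h1
  · obtain ⟨hint, hint'⟩ := hTmem v hv
    rw [map_mul, map_mul]
    exact mul_le_one' (mul_le_one' (hint' i k) (hint l j)) (loc_int593 v _)

/-- **Conjugation into the level group.** -/
theorem exists_level_conj593 (𝔫 : Ideal (𝓞 K)) (h𝔫 : 𝔫 ≠ ⊥) (h : G K) :
    ∃ 𝔪 : Ideal (𝓞 K), 𝔪 ≠ ⊥ ∧
      ∀ u : G K, InLevelGroup 𝔪 u → InLevelGroup 𝔫 (h⁻¹ * u * h) := by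
  obtain ⟨d, hd0, hd⟩ := exists_den593 h
  refine ⟨Ideal.span {d} * 𝔫, ?_, ?_⟩
  · intro hbot
    rcases Ideal.mul_eq_bot.mp hbot with h1 | h1
    · exact hd0 (Ideal.span_singleton_eq_bot.mp h1)
    · exact h𝔫 h1
  · intro u hu
    refine ⟨fun w => ?_, fun v i j => ⟨?_, ?_⟩⟩
    · rw [trivAtInf_iff129, map_mul, map_mul, map_inv, (trivAtInf_iff129 w u).mp (hu.1 w),
        mul_one, inv_mul_cancel]
    · rw [finComp_mul949, finComp_mul949]
      exact conj_sub_one593 𝔫 d v (finComp_inv_mul949 v h) (hd v)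
        (fun i j => (hu.2 v i j).1) i j
    · have e : (h⁻¹ * u * h)⁻¹ = h⁻¹ * u⁻¹ * h := by group
      rw [e, finComp_mul949, finComp_mul949]
      exact conj_sub_one593 𝔫 d v (finComp_inv_mul949 v h) (hd v)
        (fun i j => (hu.2 v i j).2) i j

/-! ## 3. The leaf `BadSystemExistsC` -/

/-- A full system of representatives of `U(𝔫) h U(𝔫) / U(𝔫)` exists, for EVERY `h`. -/
theorem exists_isDblCosetSystem593 (𝔫 : Ideal (𝓞 K)) (h𝔫 : 𝔫 ≠ ⊥) (h : G K) :
    ∃ H : Finset (G K), IsDblCosetSystem 𝔫 h H := by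
  obtain ⟨𝔪, h𝔪, hconj⟩ := exists_level_conj593 𝔫 h𝔫 h
  haveI : Finite (U949 𝔫 ⧸ (U949 𝔪).subgroupOf (U949 𝔫)) :=
    finite_quot949 𝔪 h𝔪 (U949 𝔫) (U_le_K0949 𝔫)
  obtain ⟨H, h1, h2, h3⟩ := exists_dblSys593 (U949 𝔫) (U949 𝔪) h
    (fun u _ hu => hconj u hu)
  exact ⟨H, h1, h2, h3⟩

/-- **LEAF `BadSystemExistsC`.** -/
theorem badSystemExistsC593 (K : Type) [Field K] [NumberField K] : BadSystemExistsC K :=
  fun 𝔫 h𝔫 h _ => exists_isDblCosetSystem593 𝔫 h𝔫 h

/-! ## 4. The Iwahori subgroup at `w` -/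

/-- The lower left entry of the inverse of an Iwahori matrix. -/
theorem inv_lowerLeft593 (v : HeightOneSpectrum (𝓞 K))
    {A Ai : Matrix (Fin 2) (Fin 2) (v.adicCompletion K)} (hAi : Ai * A = 1)
    (hA : ∀ i j, Valued.v (A i j) ≤ 1) (hAi' : ∀ i j, Valued.v (Ai i j) ≤ 1)
    (h10 : Valued.v (A 1 0) < 1) : Valued.v (Ai 1 0) < 1 := by
  have hdet : ∀ M : Matrix (Fin 2) (Fin 2) (v.adicCompletion K),
      (∀ i j, Valued.v (M i j) ≤ 1) → Valued.v M.det ≤ 1 := by
    intro M hM
    rw [Matrix.det_fin_two]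
    refine (Valuation.map_sub _ _ _).trans (max_le ?_ ?_)
    · rw [map_mul]; exact mul_le_one' (hM 0 0) (hM 1 1)
    · rw [map_mul]; exact mul_le_one' (hM 0 1) (hM 1 0)
  have hprod : Ai.det * A.det = 1 := by
    rw [← Matrix.det_mul, hAi, Matrix.det_one]
  have hvprod : Valued.v Ai.det * Valued.v A.det = 1 := by
    rw [← map_mul, hprod, map_one]
  have hdA : Valued.v A.det = 1 := by
    refine le_antisymm (hdet A hA) ?_
    by_contra hlt
    rw [not_le] at hlt
    have : Valued.v Ai.det * Valued.v A.det < 1 := by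
      calc Valued.v Ai.det * Valued.v A.det ≤ 1 * Valued.v A.det := by
            gcongr
            exact hdet Ai hAi'
        _ = Valued.v A.det := one_mul _
        _ < 1 := hlt
    rw [hvprod] at this
    exact lt_irrefl _ this
  have hadj : A.adjugate = A.det • Ai := by
    calc A.adjugate = (Ai * A) * A.adjugate := by rw [hAi, one_mul]
      _ = Ai * (A * A.adjugate) := by rw [mul_assoc]
      _ = Ai * (A.det • (1 : Matrix (Fin 2) (Fin 2) (v.adicCompletion K))) := by
          rw [Matrix.mul_adjugate]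
      _ = A.det • Ai := by rw [Matrix.mul_smul, mul_one]
  have h1 : -A 1 0 = A.det * Ai 1 0 := by
    have := congrFun (congrFun hadj 1) 0
    rw [Matrix.adjugate_fin_two] at this
    simpa using this
  have h2 : Valued.v (Ai 1 0) = Valued.v (A 1 0) := by
    have := congrArg Valued.v h1
    rw [Valuation.map_neg, map_mul, hdA, one_mul] at this
    exact this.symm
  rw [h2]
  exact h10

theorem isIntegralAt_iff593 (v : HeightOneSpectrum (𝓞 K)) (g : G K) :
    IsIntegralAt v g ↔ ∀ i j, Valued.v (finComp v g i j) ≤ 1 := Iff.rfl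

/-- The Iwahori subgroup at `w` (elements supported at `w`). -/
def Iw593 (w : HeightOneSpectrum (𝓞 K)) : Subgroup (G K) where
  carrier := {k | IsLocalAtFin w k ∧ T5.InIwahori w k}
  one_mem' := by
    refine ⟨isLocalAtFin_one129 w, isIntegralAt_one949 w, ?_, ?_⟩
    · rw [inv_one]
      exact isIntegralAt_one949 w
    · rw [finComp_one949, Matrix.one_apply_ne (by decide), map_zero]
      exact zero_lt_one
  mul_mem' := by
    rintro g h ⟨hgl, hg1, hg2, hg3⟩ ⟨hhl, hh1, hh2, hh3⟩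
    refine ⟨isLocalAtFin_mul129 hgl hhl, isIntegralAt_mul949 hg1 hh1, ?_, ?_⟩
    · rw [mul_inv_rev]
      exact isIntegralAt_mul949 hh2 hg2
    · rw [finComp_mul949, Matrix.mul_apply, Fin.sum_univ_two]
      refine Valuation.map_add_lt _ ?_ ?_
      · rw [map_mul]
        calc Valued.v (finComp w g 1 0) * Valued.v (finComp w h 0 0)
            ≤ Valued.v (finComp w g 1 0) * 1 := by
              gcongr
              exact hh1 0 0
          _ = Valued.v (finComp w g 1 0) := mul_one _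
          _ < 1 := hg3
      · rw [map_mul]
        calc Valued.v (finComp w g 1 1) * Valued.v (finComp w h 1 0)
            ≤ 1 * Valued.v (finComp w h 1 0) := by
              gcongr
              exact hg1 1 1
          _ = Valued.v (finComp w h 1 0) := one_mul _
          _ < 1 := hh3
  inv_mem' := by
    rintro g ⟨hgl, hg1, hg2, hg3⟩
    refine ⟨isLocalAtFin_inv129 hgl, hg2, ?_, ?_⟩
    · rw [inv_inv]
      exact hg1
    · exact inv_lowerLeft593 w (finComp_inv_mul949 w g) hg1 hg2 hg3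

theorem mem_Iw593 {w : HeightOneSpectrum (𝓞 K)} {k : G K} : k ∈ Iw593 w ↔ IsIwElt w k :=
  Iff.rfl

theorem Iw_le_K0593 (w : HeightOneSpectrum (𝓞 K)) : Iw593 w ≤ K0949 K := by
  rintro k ⟨hkl, hk1, hk2, -⟩
  have hkl' := isLocalAtFin_inv129 hkl
  refine ⟨hkl.1, fun v => ?_⟩
  by_cases hv : v = w
  · subst hv
    exact ⟨hk1, hk2⟩
  · exact ⟨isIntegralAt_of_trivAtFin949 (hkl.2 v hv),
      isIntegralAt_of_trivAtFin949 (hkl'.2 v hv)⟩

/-- The closure of the prime ideal lies in the open unit ball. -/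
theorem lt_one_of_mem_idealClosure593 (w : HeightOneSpectrum (𝓞 K)) {x : w.adicCompletion K}
    (hx : x ∈ idealClosure w.asIdeal w) : Valued.v x < 1 := by
  have hB : {z : w.adicCompletion K | Valued.v (z - x) < 1} ∈ nhds x := by
    rw [Valued.mem_nhds]
    refine ⟨1, fun z hz => ?_⟩
    simpa using hz
  rw [idealClosure_eq949] at hx
  obtain ⟨_, hz, ⟨a, ha, rfl⟩⟩ := mem_closure_iff_nhds.mp hx _ hB
  have hz' : Valued.v (loc949 w a - x) < 1 := hz
  have e : x = loc949 w a - (loc949 w a - x) := by ring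
  rw [e]
  exact (Valuation.map_sub _ _ _).trans_lt (max_lt (loc_lt_one593 w ha) hz')

/-- The level group of the prime `w` lies in the Iwahori subgroup at `w`. -/
theorem inIwahori_of_level593 (w : HeightOneSpectrum (𝓞 K)) {g : G K}
    (hg : InLevelGroup w.asIdeal g) : T5.InIwahori w g := by
  refine ⟨fun i j => ?_, fun i j => ?_, ?_⟩
  · exact integral_of_sub_one949 w.asIdeal w (fun i j => (hg.2 w i j).1) i j
  · exact integral_of_sub_one949 w.asIdeal w (fun i j => (hg.2 w i j).2) i j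
  · have h1 := (hg.2 w 1 0).1
    rw [Matrix.sub_apply, Matrix.one_apply_ne (by decide), sub_zero] at h1
    exact lt_one_of_mem_idealClosure593 w h1

/-! ## 5. The leaves `IwSystemExistsC`, `UnitC` -/

/-- **LEAF `IwSystemExistsC`.** -/
theorem iwSystemExistsC593 (K : Type) [Field K] [NumberField K] : IwSystemExistsC K := by
  intro w h hh
  obtain ⟨𝔪, h𝔪, hconj⟩ := exists_level_conj593 w.asIdeal w.ne_bot h
  haveI : Finite (Iw593 w ⧸ (U949 𝔪).subgroupOf (Iw593 w)) :=
    finite_quot949 𝔪 h𝔪 (Iw593 w) (Iw_le_K0593 w)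
  obtain ⟨H, h1, h2, h3⟩ := exists_dblSys593 (Iw593 w) (U949 𝔪) h
    (fun u hu hu' => ⟨isLocalAtFin_mul129 (isLocalAtFin_mul129 (isLocalAtFin_inv129 hh) hu.1) hh,
      inIwahori_of_level593 w (hconj u hu')⟩)
  have hloc : ∀ x ∈ H, IsLocalAtFin w x := by
    intro x hx
    obtain ⟨k₁, k₂, hk₁, hk₂, rfl⟩ := h1 x hx
    exact isLocalAtFin_mul129 (isLocalAtFin_mul129 hk₁.1 hh) hk₂.1
  refine ⟨H, h1, fun x hx x' hx' hne hmem => ?_, fun k hk => ?_⟩
  · exact h2 x hx x' hx' hne
      ⟨isLocalAtFin_mul129 (isLocalAtFin_inv129 (hloc x hx)) (hloc x' hx'), hmem⟩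
  · obtain ⟨x, hx, hmem⟩ := h3 k hk
    exact ⟨x, hx, hmem.2⟩

/-- **LEAF `UnitC`.** -/
theorem unitC593 (K : Type) [Field K] [NumberField K] : UnitC K :=
  ⟨fun 𝔫 => (U949 𝔫).one_mem, fun w => (Iw593 w).one_mem⟩

end Fermat.Agent.LT.T7.H593DS

end

end
-- ===== PACK-END LT/T7/H593/DblSys.lean

-- ===== PACK-BEGIN LT/T7/H793/ClassOp.lean
section




/-!
# Row LT, tower T7, node T7.L2.2.N.S `SimpleC` (helper963), leaf S3 `ClassOpC`: VERBATIM
# (helper793, OFF-MAIN, spare of registry row 2370)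

    classOpC793 (K) : H963.ClassOpC K

VERBATIM vs `T7/H963/Simple.lean` (helper963, sha256 1da7252d), unconditional.  The proof is
`classOp_core793` (`T7/H793/ClassOpCore.lean`): the vocabulary `IsBadAt`, `IsIwElt`,
`IsIwDblSystem` of `Simple.lean` unfolds to the hypotheses of the core.
-/

set_option autoImplicit false

open AutomorphicForm IsDedekindDomain NumberField
open Fermat.Agent.LT.H556 Fermat.Agent.LT.H556.A0

noncomputable section

namespace Fermat.Agent.LT.T7.H793

open Fermat.Agent.LT Fermat.Agent.LT.T7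

/-- **LEAF S3 = CLASS-OP**, verbatim: the class is stable under the Hecke operators at the bad
places and along the orbit. -/
theorem classOpC793 (K : Type) [Field K] [NumberField K] : H963.ClassOpC K := by
  intro 𝔫 r l o C _ hr ho ψ hψ
  obtain ⟨hA, hB⟩ := classOp_core793 𝔫 r l o C hr ho ψ hψ
  exact ⟨fun g H hg hH => hA g H hg hH, fun j h H hj hloc hH => hB j h H hj hloc hH⟩

end Fermat.Agent.LT.T7.H793

end

end
-- ===== PACK-END LT/T7/H793/ClassOp.lean

-- ===== PACK-BEGIN LT/T7/H253/CosetC.lean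
section







/-!
# Row LT, tower T7, node T7.L2.1.H2a `BaseC` (cut of helper797): LEAF BC.2 `CosetC797` -- PROVED

OFF-MAIN (helper253, spare).  No hole, nothing assumed, no new definition.  ADDITIVE (new names
only, suffix `253`).  Spec: `LT/T7/Q797/BaseCutSpec.lean` (helper797, sha256 e87d7ea9), byte-identical
copy.  Closed assets (byte-identical copies): `exists_isDblCosetSystem593` (helper593,
`T7/H593/DblSys.lean`), `exists_isIwCosetSystem83` (helper83, `T7/H83/IwKit.lean`),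
`exists_scalarUniformizer129` (helper129, `H129/HeckeExists.lean`).

    cosetC253 (K K') : Q797.CosetC797 K K'
-/

set_option autoImplicit false
set_option linter.unusedSectionVars false

open AutomorphicForm IsDedekindDomain NumberField

noncomputable section

namespace Fermat.Agent.LT.T7.H253

open Fermat.Agent.LT.H556 Fermat.Agent.LT.H556.A0 Fermat.Agent.LT.T7
open Fermat.Agent.LT.T7.H893 Fermat.Agent.LT.T7.Q797

variable (K K' : Type) [Field K] [NumberField K] [Field K'] [NumberField K'] [Algebra K K']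

/-- **LEAF BC.2 `CosetC797`** (verbatim, unconditional). -/
theorem cosetC253 : CosetC797 K K' := by
  intro ℓ Φ B hB g _
  have h3 : B.𝔑₀ ≠ ⊥ := by
    obtain ⟨𝔫₀, h0, heq, -, -⟩ := hB.base_level
    rw [heq]
    exact upI_ne_bot253 K K' h0
  obtain ⟨Hg, hHg⟩ := Fermat.Agent.LT.T7.H593DS.exists_isDblCosetSystem593 B.𝔑₀ h3 g
  obtain ⟨H', hH'⟩ := Fermat.Agent.LT.T7.H83.exists_isIwCosetSystem83 (B.o 0)
  obtain ⟨z', hz'⟩ := Fermat.Agent.LT.H129.exists_scalarUniformizer129 (B.o 0)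
  obtain ⟨H, hH⟩ := Fermat.Agent.LT.T7.H83.exists_isIwCosetSystem83 B.u
  obtain ⟨z, hz⟩ := Fermat.Agent.LT.H129.exists_scalarUniformizer129 B.u
  exact ⟨Hg, H', z', H, z, ⟨hHg, hH', hz', hH, hz⟩⟩

end Fermat.Agent.LT.T7.H253

end

end
-- ===== PACK-END LT/T7/H253/CosetC.lean

-- ===== PACK-BEGIN LT/T7/H44/ArchProd.lean
section




/-!
# Row LT, tower T7, leaf P.L7 = `P51.ArchProdC51` (helper44): CLOSED

OFF-MAIN.  ADDITIVE (new names only, all ending in `44`).

    archProdC44 (K K') : T7.P51.ArchProdC51 K K'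

VERBATIM against `T7/P51/ProdMtSpec.lean` (helper51@818b57489, sha256 4b4a6c6c).

Proof.  `(GL₂(ℂ), U(2))` is a Gelfand pair (`convInt_comm44`, `ArchComm.lean`: Gelfand's trick
with the transposition; Cartan decomposition `svd555` of helper555, unimodularity
`rightInv_GL2C8` of helper8) and the convolution is associative (`convInt_assoc44`), so
`(A₀ ⋆ ⋯ ⋆ A_n) ⋆ (B₀ ⋆ ⋯ ⋆ B_n) = (A₀ ⋆ B₀) ⋆ ⋯ ⋆ (A_n ⋆ B_n)` for continuous bi-`U(2)`-invariant
functions of compact support (`convL_mul44`).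
-/

set_option autoImplicit false

open AutomorphicForm IsDedekindDomain NumberField MeasureTheory
open scoped ComplexConjugate

noncomputable section

namespace Fermat.Agent.LT.T7.H44

open Fermat.Agent.LT.H556 Fermat.Agent.LT.H556.A0 Fermat.Agent.LT Fermat.Agent.LT.T7
open Fermat.Agent.LT.T7.H305 Fermat.Agent.LT.T7.H893

/-- Continuous, of compact support, bi-invariant under `U(2)`. -/
def IsGoodC44 (Φ : GL (Fin 2) ℂ → ℂ) : Prop :=
  Continuous Φ ∧ HasCompactSupport Φ ∧ IsBiU44 Φ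

section Chain

variable (μc : @Measure (GL (Fin 2) ℂ) (borel _))

theorem convL305_zero44 (Φ : ℕ → GL (Fin 2) ℂ → ℂ) : convL305 μc Φ 0 = Φ 0 := rfl

theorem convL305_succ44 (Φ : ℕ → GL (Fin 2) ℂ → ℂ) (j : ℕ) :
    convL305 μc Φ (j + 1) = @T6.convInt _ _ (borel _) μc (convL305 μc Φ j) (Φ (j + 1)) := rfl

variable (hμ : @Measure.IsHaarMeasure _ _ _ (borel _) μc)
include hμ

theorem isGoodC_convInt44 {X Y : GL (Fin 2) ℂ → ℂ} (hX : IsGoodC44 X) (hY : IsGoodC44 Y) :
    IsGoodC44 (@T6.convInt _ _ (borel _) μc X Y) := by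
  let _ : MeasurableSpace (GL (Fin 2) ℂ) := borel _
  have : BorelSpace (GL (Fin 2) ℂ) := ⟨rfl⟩
  have := hμ
  have := Fermat.Agent.LT.T6.H8.locallyCompactSpace_GL2C8
  have := Fermat.Agent.LT.T6.H8.secondCountableTopology_GL2C8
  exact ⟨Fermat.Agent.LT.T6.H698.continuous_convInt698 μc hX.1 hX.2.1 hY.1,
    Fermat.Agent.LT.T6.H698.hasCompactSupport_convInt698 μc hX.2.1 hY.2.1,
    isBiU_convInt44 μc hX.2.2 hY.2.2⟩

theorem isGoodC_convL44 {A : ℕ → GL (Fin 2) ℂ → ℂ} (hA : ∀ j, IsGoodC44 (A j)) (n : ℕ) :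
    IsGoodC44 (convL305 μc A n) := by
  induction n with
  | zero => exact hA 0
  | succ n ih =>
    rw [convL305_succ44]
    exact isGoodC_convInt44 μc hμ ih (hA (n + 1))

/-- `(X ⋆ Y) ⋆ (Z ⋆ W) = (X ⋆ Z) ⋆ (Y ⋆ W)`. -/
theorem convInt_interchange44 {X Y Z W : GL (Fin 2) ℂ → ℂ} (hX : IsGoodC44 X)
    (hY : IsGoodC44 Y) (hZ : IsGoodC44 Z) (hW : IsGoodC44 W) :
    @T6.convInt _ _ (borel _) μc (@T6.convInt _ _ (borel _) μc X Y)
        (@T6.convInt _ _ (borel _) μc Z W)
      = @T6.convInt _ _ (borel _) μc (@T6.convInt _ _ (borel _) μc X Z)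
        (@T6.convInt _ _ (borel _) μc Y W) := by
  let _ : MeasurableSpace (GL (Fin 2) ℂ) := borel _
  have : BorelSpace (GL (Fin 2) ℂ) := ⟨rfl⟩
  have := hμ
  have hYZ : T6.convInt μc Y Z = T6.convInt μc Z Y :=
    funext fun g => convInt_comm44 μc hY.2.2 hZ.2.2 g
  have assoc : ∀ {P Q R : GL (Fin 2) ℂ → ℂ}, IsGoodC44 P → IsGoodC44 Q → IsGoodC44 R →
      T6.convInt μc (T6.convInt μc P Q) R = T6.convInt μc P (T6.convInt μc Q R) :=
    fun hP hQ hR => funext fun g => convInt_assoc44 μc hP.1 hP.2.1 hQ.1 hQ.2.1 hR.1 g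
  have hZW := isGoodC_convInt44 μc hμ hZ hW
  have hYW := isGoodC_convInt44 μc hμ hY hW
  calc T6.convInt μc (T6.convInt μc X Y) (T6.convInt μc Z W)
      = T6.convInt μc X (T6.convInt μc Y (T6.convInt μc Z W)) := assoc hX hY hZW
    _ = T6.convInt μc X (T6.convInt μc (T6.convInt μc Y Z) W) := by rw [assoc hY hZ hW]
    _ = T6.convInt μc X (T6.convInt μc (T6.convInt μc Z Y) W) := by rw [hYZ]
    _ = T6.convInt μc X (T6.convInt μc Z (T6.convInt μc Y W)) := by rw [assoc hZ hY hW]
    _ = T6.convInt μc (T6.convInt μc X Z) (T6.convInt μc Y W) := (assoc hX hZ hYW).symm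

/-- **The product of the convolution products is the convolution product of the products.** -/
theorem convL_mul44 {A B : ℕ → GL (Fin 2) ℂ → ℂ} (hA : ∀ j, IsGoodC44 (A j))
    (hB : ∀ j, IsGoodC44 (B j)) (n : ℕ) :
    @T6.convInt _ _ (borel _) μc (convL305 μc A n) (convL305 μc B n)
      = convL305 μc (fun j => @T6.convInt _ _ (borel _) μc (A j) (B j)) n := by
  induction n with
  | zero => rfl
  | succ n ih =>
    rw [convL305_succ44, convL305_succ44, convL305_succ44,
      convInt_interchange44 μc hμ (isGoodC_convL44 μc hμ hA n) (hA (n + 1))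
        (isGoodC_convL44 μc hμ hB n) (hB (n + 1)), ih]

end Chain

section Leaf

variable (K K' : Type) [Field K] [NumberField K] [Field K'] [NumberField K'] [Algebra K K']

/-- **LEAF P.L7 = ARCH-PROD, VERBATIM.** -/
theorem archProdC44 : P51.ArchProdC51 K K' := by
  intro ℓ Φ B g 𝔫 μc T₀ n n₀ m H' z' H z t k j T φ₀ Φ' f₀ F hLoc
  obtain ⟨hctx, -, -, hprod⟩ := hLoc
  obtain ⟨T₁, T₂, φ₁, Φ₁, f₁, F₁, φ₂, Φ₂, f₂, F₂, -, -, -, hA, hB, -, -, -, -, -, hU, hD⟩ :=
    hprod
  obtain ⟨-, -, -, hA1, hA2, -⟩ := hA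
  obtain ⟨-, -, -, -, -, hB1, hB2, -⟩ := hB
  intro v w hw hinj
  have hμ := hctx.haar
  have gA : ∀ j : ℕ, IsGoodC44 (Φ₁ (w j)) := fun j =>
    ⟨(hA1.arch_up (w j)).1, (hA1.arch_up (w j)).2.1, fun k₁ k₂ x h1 h2 => hA2 (w j) k₁ k₂ x h1 h2⟩
  have gB : ∀ j : ℕ, IsGoodC44 (Φ₂ (w j)) := fun j =>
    ⟨(hB1.arch_up (w j)).1, (hB1.arch_up (w j)).2.1, fun k₁ k₂ x h1 h2 => hB2 (w j) k₁ k₂ x h1 h2⟩
  have e : (fun j => Φ' (w j))
      = fun j => @T6.convInt _ _ (borel _) μc (Φ₁ (w j)) (Φ₂ (w j)) :=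
    funext fun j => hU (w j)
  rw [hD v, hA1.arch v w hw hinj, hB1.arch v w hw hinj, e]
  exact convL_mul44 μc hμ gA gB _

end Leaf

end Fermat.Agent.LT.T7.H44

end

end
-- ===== PACK-END LT/T7/H44/ArchProd.lean

-- ===== PACK-BEGIN LT/T7/H528/SphHecke.lean
section




/-!
# Row LT, tower T7: ASSET for the step `T_w` of the first pair (`B981.StepTC981`, node
# `ST589.ShapeTC589`), part 2: the Hecke operator `T` on the spherical functions

OFF-MAIN (helper528).  LOCAL, one valued field `k` with `T6.IsLocalField k q`.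

* `sum_cartan_sys528`: for ANY coset system `H` of `K diag(ϖ,1) K / K` (`T6.IsCosetSys (1,0)`)
  and `x` of Cartan type `(a, b)`: `∑_{h ∈ H} G (cartan (x h))` is
  `q G(a+1, b) + G(a, b+1)` if `a > b` and `(q + 1) G(a+1, b)` if `a = b`.
* `tA528 q A`: the values of `T φ` on the Cartan invariants.
* `isSphFn_hecke528`: `x ↦ ∑_{h ∈ H} φ (x c⁻¹ h)` (`c` a scalar uniformiser) is spherical with
  the values `tA528 q A` (`H893.IsSphFn893`).
* `satT_tA528`: `satT893 q (tA528 q A) x y = √q (x + y) · satT893 q A x y`.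

New names only, suffix `528`, namespace `Fermat.Agent.LT.T7.H528S`.
-/

set_option autoImplicit false
set_option linter.unusedSectionVars false
set_option linter.unusedSimpArgs false
set_option linter.unnecessarySeqFocus false
set_option linter.deprecated false

open scoped Matrix
open scoped Classical

noncomputable section

namespace Fermat.Agent.LT.T7.H528S

open Fermat.Agent.LT.T6 Fermat.Agent.LT.T6.H305 Fermat.Agent.LT.T7.H893

variable {k : Type} [Field k] [Valued k Γ₀]

/-! ## 5. Arbitrary coset systems -/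

theorem cartan_mul_K528 (g κ : GL (Fin 2) k) (hκ : InK κ) : cartan (g * κ) = cartan g := by
  unfold cartan
  rw [entryMax_mul g κ hκ, val_det_mul g κ hκ]

/-- **THE COUNT** for an arbitrary coset system of type `(1, 0)`. -/
theorem sum_cartan_sys528 {q : ℕ} (hk : IsLocalField k q) (H : Finset (GL (Fin 2) k))
    (hH : IsCosetSys ((1 : ℤ), (0 : ℤ)) H) (x : GL (Fin 2) k) (G : ℤ × ℤ → ℂ) :
    ∑ h ∈ H, G (cartan (x * h))
      = if (cartan x).2 < (cartan x).1 then
          (q : ℂ) * G ((cartan x).1 + 1, (cartan x).2) + G ((cartan x).1, (cartan x).2 + 1)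
        else ((q : ℂ) + 1) * G ((cartan x).1 + 1, (cartan x).2) := by
  obtain ⟨D, hD⟩ := exists_resData hk
  have hΨ : ∀ u g : GL (Fin 2) k, InK u →
      (fun h => G (cartan (x * h))) (g * u) = (fun h => G (cartan (x * h))) g := by
    intro u g hu
    show G (cartan (x * (g * u))) = G (cartan (x * g))
    rw [← mul_assoc, cartan_mul_K528 _ _ hu]
  rw [D.sum_cosetSys 0 1 ((1 : ℤ), (0 : ℤ)) (by simp) H hH (fun h => G (cartan (x * h))) hΨ,
    sum_std528 D (fun h => G (cartan (x * h))), sum_cartan_std528 D x G, hD]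

/-! ## 6. Scalar shifts -/

theorem cartan_mul_scalar528 (x d : GL (Fin 2) k) (d₀ : k) (e : ℤ)
    (hd₀ : Valued.v d₀ = WithZero.exp e)
    (hd : (d : Matrix (Fin 2) (Fin 2) k) = Matrix.diagonal (fun _ => d₀)) :
    cartan (x * d) = ((cartan x).1 - e, (cartan x).2 - e) := by
  have hent : ∀ i j, ((x * d : GL (Fin 2) k) : Matrix (Fin 2) (Fin 2) k) i j
      = (x : Matrix (Fin 2) (Fin 2) k) i j * d₀ := by
    intro i j
    rw [Units.val_mul, hd, Matrix.mul_diagonal]
  have hem : entryMax (x * d) = entryMax x * WithZero.exp e := by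
    apply le_antisymm
    · rw [entryMax_le_iff]
      intro i j
      rw [hent, map_mul, hd₀]
      exact mul_le_mul' (le_entryMax x i j) le_rfl
    · obtain ⟨i, j, hij⟩ := exists_entryMax x
      rw [hij, ← hd₀, ← map_mul, ← hent]
      exact le_entryMax _ i j
  have hdet : Valued.v ((x * d : GL (Fin 2) k) : Matrix (Fin 2) (Fin 2) k).det
      = Valued.v (x : Matrix (Fin 2) (Fin 2) k).det * WithZero.exp (2 * e) := by
    rw [Units.val_mul, Matrix.det_mul, hd, Matrix.det_diagonal, map_mul]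
    simp only [Finset.prod_const, Finset.card_univ, Fintype.card_fin, map_pow, hd₀]
    rw [← WithZero.exp_nsmul]
    simp
  rw [cartan_eq_of528 (x * d) (-(cartan x).2 + e) (-((cartan x).1 + (cartan x).2) + 2 * e)
    (by rw [hem, entryMax_eq_exp528 x, ← WithZero.exp_add])
    (by rw [hdet, val_det_eq_exp528 x, ← WithZero.exp_add])]
  ext <;> simp <;> ring

theorem inv_scalar528 (c : GL (Fin 2) k) (c₀ : k) (hc₀ : c₀ ≠ 0)
    (hc : (c : Matrix (Fin 2) (Fin 2) k) = Matrix.diagonal (fun _ => c₀)) :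
    ((c⁻¹ : GL (Fin 2) k) : Matrix (Fin 2) (Fin 2) k) = Matrix.diagonal (fun _ => c₀⁻¹) := by
  rw [inv_val_eq, hc, Matrix.det_diagonal]
  ext i j
  fin_cases i <;> fin_cases j <;> simp <;> field_simp

theorem cartan_mul_unif_inv528 (x c : GL (Fin 2) k) (c₀ : k)
    (hc₀ : Valued.v c₀ = WithZero.exp (-1 : ℤ))
    (hc : (c : Matrix (Fin 2) (Fin 2) k) = Matrix.diagonal (fun _ => c₀)) :
    cartan (x * c⁻¹) = ((cartan x).1 - 1, (cartan x).2 - 1) := by
  have hne : c₀ ≠ 0 := by
    intro h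
    rw [h, map_zero] at hc₀
    exact WithZero.exp_ne_zero hc₀.symm
  refine cartan_mul_scalar528 x c⁻¹ c₀⁻¹ 1 ?_ (inv_scalar528 c c₀ hne hc)
  rw [map_inv₀, hc₀, ← WithZero.exp_neg]
  simp

/-! ## 7. The values of `T φ` on the Cartan invariants -/

/-- The weight of `μ + (0, 1)` in `T · 1_{K μ K}`. -/
def wt528 (q : ℕ) (μ : ℤ × ℤ) : ℂ :=
  if μ.1 = μ.2 then 0 else if μ.1 = μ.2 + 1 then (q : ℂ) + 1 else (q : ℂ)

/-- The values of `∑_h φ (· c⁻¹ h)` on the Cartan invariants, `A` the values of `φ`. -/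
def tA528 (q : ℕ) (A : (ℤ × ℤ) →₀ ℂ) : (ℤ × ℤ) →₀ ℂ :=
  A.sum fun μ a => Finsupp.single (μ.1 + 1, μ.2) a + Finsupp.single (μ.1, μ.2 + 1) (wt528 q μ * a)

theorem tA_apply528 (q : ℕ) (A : (ℤ × ℤ) →₀ ℂ) (lam : ℤ × ℤ) :
    tA528 q A lam = A (lam.1 - 1, lam.2) + wt528 q (lam.1, lam.2 - 1) * A (lam.1, lam.2 - 1) := by
  unfold tA528
  rw [Finsupp.sum_apply]
  simp only [Finsupp.add_apply, Finsupp.single_apply]
  rw [Finsupp.sum_add]
  congr 1
  · unfold Finsupp.sum
    rw [Finset.sum_eq_single (lam.1 - 1, lam.2)]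
    · beta_reduce
      rw [if_pos]
      ext <;> simp
    · intro μ _ hne
      beta_reduce
      rw [if_neg]
      intro h
      apply hne
      rw [← h]
      ext <;> simp
    · intro hns
      beta_reduce
      rw [Finsupp.notMem_support_iff.1 hns]
      simp
  · unfold Finsupp.sum
    rw [Finset.sum_eq_single (lam.1, lam.2 - 1)]
    · beta_reduce
      rw [if_pos]
      ext <;> simp
    · intro μ _ hne
      beta_reduce
      rw [if_neg]
      intro h
      apply hne
      rw [← h]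
      ext <;> simp
    · intro hns
      beta_reduce
      rw [Finsupp.notMem_support_iff.1 hns]
      simp

theorem isDominant_tA528 (q : ℕ) (A : (ℤ × ℤ) →₀ ℂ) (hA : IsDominant A) :
    IsDominant (tA528 q A) := by
  intro lam hlam
  rw [Finsupp.mem_support_iff, tA_apply528] at hlam
  by_contra hlt
  push Not at hlt
  apply hlam
  have h1 : A (lam.1 - 1, lam.2) = 0 := by
    by_contra hne
    have := hA _ (Finsupp.mem_support_iff.2 hne)
    simp only at this
    omega
  have h2 : wt528 q (lam.1, lam.2 - 1) * A (lam.1, lam.2 - 1) = 0 := by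
    by_cases hne : A (lam.1, lam.2 - 1) = 0
    · rw [hne, mul_zero]
    · have := hA _ (Finsupp.mem_support_iff.2 hne)
      simp only at this
      have heq : lam.1 = lam.2 - 1 := by omega
      unfold wt528
      rw [if_pos heq, zero_mul]
  rw [h1, h2, add_zero]

/-- **THE HECKE OPERATOR `T` ON THE SPHERICAL FUNCTIONS** (Cartan form). -/
theorem isSphFn_hecke528 {q : ℕ} (hk : IsLocalField k q) (H : Finset (GL (Fin 2) k))
    (hH : IsCosetSys ((1 : ℤ), (0 : ℤ)) H) (c : GL (Fin 2) k) (c₀ : k)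
    (hc₀ : Valued.v c₀ = WithZero.exp (-1 : ℤ))
    (hc : (c : Matrix (Fin 2) (Fin 2) k) = Matrix.diagonal (fun _ => c₀))
    (φ : GL (Fin 2) k → ℂ) (A : (ℤ × ℤ) →₀ ℂ) (hφ : IsSphFn893 φ A) :
    IsSphFn893 (fun x => ∑ h ∈ H, φ (x * c⁻¹ * h)) (tA528 q A) := by
  refine ⟨isDominant_tA528 q A hφ.1, fun x => ?_⟩
  have h1 : ∀ h ∈ H, φ (x * c⁻¹ * h) = (fun lam => A lam) (cartan (x * c⁻¹ * h)) :=
    fun h _ => hφ.2 _
  show ∑ h ∈ H, φ (x * c⁻¹ * h) = tA528 q A (cartan x)
  rw [Finset.sum_congr rfl h1, sum_cartan_sys528 hk H hH (x * c⁻¹) (fun lam => A lam),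
    cartan_mul_unif_inv528 x c c₀ hc₀ hc, tA_apply528]
  have hdom := cartan_dominant528 x
  simp only [sub_add_cancel]
  by_cases hlt : (cartan x).2 < (cartan x).1
  · rw [if_pos (by omega)]
    have hw : wt528 q ((cartan x).1, (cartan x).2 - 1) = (q : ℂ) := by
      unfold wt528
      rw [if_neg (by simp only; omega), if_neg (by simp only; omega)]
    rw [hw]
    ring
  · have heq : (cartan x).1 = (cartan x).2 := by omega
    rw [if_neg (by omega)]
    have hw : wt528 q ((cartan x).1, (cartan x).2 - 1) = (q : ℂ) + 1 := by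
      unfold wt528
      rw [if_neg (by simp only; omega), if_pos (by simp only; omega)]
    have h0 : A ((cartan x).1 - 1, (cartan x).2) = 0 := by
      by_contra hne
      have := hφ.1 _ (Finsupp.mem_support_iff.2 hne)
      simp only at this
      omega
    rw [hw, h0, zero_add]

/-! ## 8. The Satake transform -/

theorem satake_rec528 (q : ℕ) (μ : ℤ × ℤ) (hμ : μ.2 ≤ μ.1) (x y : ℂ) (hx : x ≠ 0) (hy : y ≠ 0) :
    satake q (μ.1 + 1, μ.2) x y + wt528 q μ * satake q (μ.1, μ.2 + 1) x y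
      = ((Real.sqrt q : ℝ) : ℂ) * (x + y) * satake q μ x y := by
  obtain ⟨a, b⟩ := μ
  simp only at hμ
  obtain ⟨n, rfl⟩ : ∃ n : ℕ, a = b + n := ⟨(a - b).toNat, by omega⟩
  have hxy : x * y ≠ 0 := mul_ne_zero hx hy
  unfold satake wt528
  simp only
  have e1 : (b + (n : ℤ) + 1 - b).toNat = n + 1 := by omega
  have e2 : (b + (n : ℤ) - b).toNat = n := by omega
  have e3 : (b + (n : ℤ) - (b + 1)).toNat = n - 1 := by omega
  rw [e1, e2, e3, zpow_add_one₀ hxy]
  rcases n with _ | _ | m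
  · rw [if_pos (by simp)]
    rw [satPoly_one, satPoly_zero]
    ring
  · rw [if_neg (by simp), if_pos (by simp)]
    rw [satPoly_two, satPoly_one]
    simp only [zero_add, Nat.sub_self, satPoly_zero]
    ring
  · rw [if_neg (by push_cast; omega), if_neg (by push_cast; omega)]
    rw [show m + 1 + 1 + 1 = m + 3 from rfl, satPoly_add_three,
      show m + 1 + 1 - 1 = m + 1 from rfl, show m + 1 + 1 = m + 2 from rfl]
    ring

/-- **THE SATAKE TRANSFORM OF `T φ`** is `√q (x + y)` times the Satake transform of `φ`. -/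
theorem satT_tA528 (q : ℕ) (A : (ℤ × ℤ) →₀ ℂ) (hA : IsDominant A) (x y : ℂ) (hx : x ≠ 0)
    (hy : y ≠ 0) :
    satT893 q (tA528 q A) x y = ((Real.sqrt q : ℝ) : ℂ) * (x + y) * satT893 q A x y := by
  unfold satT893 tA528
  rw [Finsupp.sum_sum_index (fun _ => by simp) (fun _ _ _ => by ring), Finsupp.mul_sum]
  refine Finsupp.sum_congr fun μ hμ => ?_
  rw [Finsupp.sum_add_index' (fun _ => by simp) (fun _ _ _ => by ring),
    Finsupp.sum_single_index (by simp), Finsupp.sum_single_index (by simp)]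
  have := satake_rec528 q μ (hA μ hμ) x y hx hy
  linear_combination (A μ) * this

/-- The normalised form: the values `q^{-1/2} tA528 q A` have the Satake transform
`(x + y) · satT893 q A`. -/
theorem satT_smul528 (q : ℕ) (s : ℂ) (A : (ℤ × ℤ) →₀ ℂ) (x y : ℂ) :
    satT893 q (s • A) x y = s * satT893 q A x y := by
  unfold satT893
  rw [Finsupp.sum_smul_index (fun _ => by simp), Finsupp.mul_sum]
  refine Finsupp.sum_congr fun μ _ => ?_
  ring

theorem isDominant_smul528 (s : ℂ) (A : (ℤ × ℤ) →₀ ℂ) (hA : IsDominant A) :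
    IsDominant (s • A) := by
  intro lam hlam
  apply hA
  rw [Finsupp.mem_support_iff] at hlam ⊢
  intro h
  apply hlam
  rw [Finsupp.smul_apply, h, smul_zero]

theorem isSphFn_smul528 (s : ℂ) (φ : GL (Fin 2) k → ℂ) (A : (ℤ × ℤ) →₀ ℂ)
    (hφ : IsSphFn893 φ A) : IsSphFn893 (fun x => s * φ x) (s • A) :=
  ⟨isDominant_smul528 s A hφ.1, fun x => by
    show s * φ x = (s • A) (cartan x)
    rw [Finsupp.smul_apply, smul_eq_mul, hφ.2]⟩

/-! ## 9. Fullness of a system of `q + 1` inequivalent elements -/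

theorem cartan_of_isT528 (h : GL (Fin 2) k) (hh : IsT528 h) : cartan h = ((1 : ℤ), (0 : ℤ)) := by
  have hem : entryMax h = 1 := by
    refine le_antisymm ((entryMax_le_iff h 1).2 hh.1) ?_
    by_contra hlt
    rw [not_le, lt_one_iff_le_exp] at hlt
    have h1 := val_det_le_sq528 h
    have h2 : entryMax h * entryMax h ≤ WithZero.exp (-1 : ℤ) * WithZero.exp (-1 : ℤ) :=
      mul_le_mul' hlt hlt
    rw [hh.2, ← WithZero.exp_add] at *
    have := h1.trans h2
    rw [WithZero.exp_le_exp] at this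
    omega
  have := (cartan_eq_nat_iff h 1).2 ⟨hem, by simpa using hh.2⟩
  simpa using this

theorem card_Idx_one528 (D : ResData k) : (D.Idx 1).card = D.T.card + 1 := by
  have h := sum_std528 D (fun _ => (1 : ℂ))
  simp only [Finset.sum_const, nsmul_eq_mul, mul_one] at h
  exact_mod_cast h

/-- **FULLNESS.**  `q + 1` pairwise inequivalent integral matrices with determinant of
valuation `exp (-1)` are a full system of representatives of `K diag(ϖ, 1) K / K`. -/
theorem isCosetSys_of_card528 {q : ℕ} (hk : IsLocalField k q) (H : Finset (GL (Fin 2) k))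
    (h1 : ∀ h ∈ H, IsT528 h) (h2 : ∀ h ∈ H, ∀ h' ∈ H, InK (h⁻¹ * h') → h = h')
    (hcard : H.card = q + 1) : IsCosetSys ((1 : ℤ), (0 : ℤ)) H := by
  obtain ⟨D, hD⟩ := exists_resData hk
  have hcov : ∀ h ∈ H, ∃ x ∈ D.Idx 1, InK ((D.fam 0 x)⁻¹ * h) := fun h hh =>
    D.fam_cover 0 1 h (by rw [cartan_of_isT528 h (h1 h hh)]; simp)
  -- the classes of the elements of `H`
  set f : GL (Fin 2) k → (Σ _ : ℕ × ℕ, k) := fun h =>
    if hh : h ∈ H then Classical.choose (hcov h hh) else ⟨(0, 0), 0⟩ with hf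
  have hfmem : ∀ h ∈ H, f h ∈ D.Idx 1 := by
    intro h hh
    rw [hf]
    simp only [dif_pos hh]
    exact (Classical.choose_spec (hcov h hh)).1
  have hfK : ∀ h ∈ H, InK ((D.fam 0 (f h))⁻¹ * h) := by
    intro h hh
    rw [hf]
    simp only [dif_pos hh]
    exact (Classical.choose_spec (hcov h hh)).2
  have hinj : Set.InjOn f (H : Set (GL (Fin 2) k)) := by
    intro h hh h' hh' heq
    apply h2 h hh h' hh'
    have e : h⁻¹ * h' = ((D.fam 0 (f h))⁻¹ * h)⁻¹ * ((D.fam 0 (f h))⁻¹ * h') := by group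
    rw [e]
    refine inK_mul (inK_inv (hfK h hh)) ?_
    rw [heq]
    exact hfK h' hh'
  have himg : H.image f = D.Idx 1 := by
    refine Finset.eq_of_subset_of_card_le ?_ ?_
    · intro x hx
      obtain ⟨h, hh, rfl⟩ := Finset.mem_image.1 hx
      exact hfmem h hh
    · rw [Finset.card_image_of_injOn hinj, card_Idx_one528 D, hD, hcard]
  refine ⟨fun h hh => cartan_of_isT528 h (h1 h hh), ?_, ?_⟩
  · intro h hh h' hh' hK
    exact h2 h hh h' hh' ((inU_zero_iff _).1 hK)
  · intro g hg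
    obtain ⟨x, hx, hxK⟩ := D.fam_cover 0 1 g (by rw [hg]; simp)
    rw [← himg] at hx
    obtain ⟨h, hh, rfl⟩ := Finset.mem_image.1 hx
    refine ⟨h, hh, (inU_zero_iff _).2 ?_⟩
    have e : h⁻¹ * g = ((D.fam 0 (f h))⁻¹ * h)⁻¹ * ((D.fam 0 (f h))⁻¹ * g) := by group
    rw [e]
    exact inK_mul (inK_inv (hfK h hh)) hxK

end Fermat.Agent.LT.T7.H528S

end

end
-- ===== PACK-END LT/T7/H528/SphHecke.lean

-- ===== PACK-BEGIN LT/T7/H311/Match893Spec.lean
section




/-!
# Row LT, tower T7, node C2 v2 `H893.GlobMatchC893` (helper311, SPARE sub-cut): RE-BASE of the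
# matching chain of helper305 / helper340 onto `H893.LocHyp893` -- Spec

OFF-MAIN.  Definitions and frozen Props only (the proved tops are `Match893Top.lean`).  No hole,
nothing assumed.  ADDITIVE (new names only, suffix `311`).

## Why

The fifth cut v2 of helper893 (`SupplyConstrSpec2.lean`, 17:17Z) replaces `H305.LocHyp305` by
`H893.LocHyp893` (the split clause for ONE enumeration: the all-rotations form is unsatisfiable at
the bad split places).  The node of record is `H893.GlobMatchC893`.  The chain of helper305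
(`CutIntC305`, `UnitMatchC305`, `FactUpC305`) and of helper340 (`UpFactC340`, `LocEqSplitC340`)
is typed on `LocHyp305` and cannot be applied to data which satisfy `LocHyp893` only.

## The re-based chain (same proofs, same leaves wherever the statement does not mention the
## split clause)

    globMatch893_of311 : (first cut of helper305, UNCHANGED leaves) → CutIntC893_311 K K'
                           → H893.GlobMatchC893 K K'                       (VERBATIM)
    cutIntC893_of311  : (second cut of helper305, UNCHANGED leaves) → UnitMatchC893_311 K K'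
                           → FactUpC893_311 K K' → CutIntC893_311 K K'
    factUpC893_of311  : UpFactC893_311 K K' → H340.LocEqInertC340 K K' (UNCHANGED)
                           → LocEqSplitC311 K K' → H340.LocEqArchC340 K K' (UNCHANGED)
                           → FactUpC893_311 K K'

NEW statements (3): `UnitMatchC893_311` (= `UnitMatchC305` for `LocHyp893`), `UpFactC893_311`
(= `UpFactC340` for `LocHyp893`; at a split place the value is the split integral for an
enumeration FOR WHICH THE CONVOLUTION IDENTITY HOLDS: `IsSplitValB311`; the proof takes the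
enumeration of `LocHyp893.split`), `LocEqSplitC311` (= `LocEqSplitC340` in LOCAL form: the
convolution identity is part of `IsSplitValB311`, no global local hypothesis is needed).
The leaves `LocEqInertC340`, `LocEqArchC340` are used AS THEY ARE: `LocHyp893` gives `LocHyp305`
on the set of the places of `S` with ONE place over them (`locHyp305_of893_311`, the split clause
is empty there).
-/

set_option autoImplicit false

open AutomorphicForm IsDedekindDomain NumberField MeasureTheory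
open scoped ComplexConjugate

noncomputable section

namespace Fermat.Agent.LT.T7.H311

open Fermat.Agent.LT.H556 Fermat.Agent.LT.H556.A0 Fermat.Agent.LT.T7 Fermat.Agent.LT.T7.H305
open Fermat.Agent.LT.T7.H893 Fermat.Agent.LT.T7.H340

attribute [local instance] Fermat.Agent.LT.T5.instMeasurableSpaceG

section TwoFields

variable {K K' : Type} [Field K] [NumberField K] [Field K'] [NumberField K'] [Algebra K K']

/-- `J` is THE LOCAL TWISTED INTEGRAL UPSTAIRS at the SPLIT place `v` (`H340.IsSplitVal340`) for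
an enumeration of the places over `v` FOR WHICH the levels agree and the convolution identity
`f₀ v = φ₀ (w 0) * ⋯ * φ₀ (w (l-1))` holds (the enumeration of `H893.LocHyp893.split`). -/
def IsSplitValB311 (D : CompData K K')
    (n : HeightOneSpectrum (𝓞 K') → ℕ) (m : HeightOneSpectrum (𝓞 K) → ℕ)
    (φ₀ : ∀ w : HeightOneSpectrum (𝓞 K'), GL (Fin 2) (w.adicCompletion K') → ℂ)
    (f₀ : ∀ v : HeightOneSpectrum (𝓞 K), GL (Fin 2) (v.adicCompletion K) → ℂ)
    (δ : GL (Fin 2) K') {γ : GL (Fin 2) K} (L : LocData305 K γ)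
    (v : HeightOneSpectrum (𝓞 K)) (J : ℂ) : Prop :=
  ∃ (hl : 0 < D.l) (w : ℕ → HeightOneSpectrum (𝓞 K'))
    (i : ∀ j : ℕ, v.adicCompletion K ≃+* (w j).adicCompletion K'),
    (∀ j : ℕ, PlaceOver K K' v (w j)) ∧
    (∀ j : ℕ, T5.PlaceRel D.s (w (j + 1)) (w j)) ∧
    (∀ j : ℕ, 0 < j → j < D.l → w j ≠ w 0) ∧
    (∀ (j : ℕ) (x : K), i j (algebraMap K (v.adicCompletion K) x)
      = algebraMap K' ((w j).adicCompletion K') (algebraMap K K' x)) ∧
    (∀ (j : ℕ) (x : v.adicCompletion K), Valued.v (i j x) = Valued.v x) ∧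
    (∀ j : ℕ, n (w j) = m v) ∧
    T6.IsConvProd (T6.InU (m v)) D.l
      (fun j g => φ₀ (w j)
        (Matrix.GeneralLinearGroup.map ((i j : v.adicCompletion K ≃+* _) :
          v.adicCompletion K →+* (w j).adicCompletion K') g))
      (f₀ v) ∧
    J = splitInt340 D.l hl (L.μv v) (L.βv v)
        (fun j g => φ₀ (w j)
          (Matrix.GeneralLinearGroup.map ((i j : v.adicCompletion K ≃+* _) :
            v.adicCompletion K →+* (w j).adicCompletion K') g))
        (fun j => Matrix.GeneralLinearGroup.map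
          (((i j).symm : (w j).adicCompletion K' ≃+* _) :
            (w j).adicCompletion K' →+* v.adicCompletion K) (locG305 (w j) δ))

variable (K K')

/-- **NODE C2.7 v2 = CUT-INT for `LocHyp893`** (`H305.CutIntC305` with `H893.LocHyp893` in place
of `H305.LocHyp305`; nothing else is changed). -/
def CutIntC893_311 : Prop :=
  ∀ D : CompData K K', IsCompData D → IsCycExt K K' D.l → D.l ≠ 2 → TotCplx K →
    ∀ ι : Adl K →+* Adl K', IsAdeleBase305 D.s D.l ι →
    ∀ μc : @Measure (GL (Fin 2) ℂ) (borel _), @Measure.IsHaarMeasure _ _ _ (borel _) μc →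
    ∀ (T₀ : Finset (HeightOneSpectrum (𝓞 K))), UnramOut305 (K' := K') T₀ →
    ∀ (n : HeightOneSpectrum (𝓞 K') → ℕ) (m : HeightOneSpectrum (𝓞 K) → ℕ),
      IsLevelAt305 T₀ n m →
    ∃ κ : ℂ, κ ≠ 0 ∧
      ∀ (T : Finset (HeightOneSpectrum (𝓞 K))) (T' : Finset (HeightOneSpectrum (𝓞 K'))),
        T₀ ⊆ T → IsOver305 T T' →
      ∀ (φ₀ : ∀ w : HeightOneSpectrum (𝓞 K'), GL (Fin 2) (w.adicCompletion K') → ℂ)
        (Φ : InfinitePlace K' → GL (Fin 2) ℂ → ℂ)
        (f₀ : ∀ v : HeightOneSpectrum (𝓞 K), GL (Fin 2) (v.adicCompletion K) → ℂ)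
        (F : InfinitePlace K → GL (Fin 2) ℂ → ℂ),
        LocHyp893 D μc T n m φ₀ Φ f₀ F →
        (∀ (δ : GL (Fin 2) K') (γ : GL (Fin 2) K), T6.IsEll γ →
          D.s.normUpTo D.l δ = Matrix.GeneralLinearGroup.map (algebraMap K K') γ →
          ∀ (μT : @Measure (tA305 (T5.AdelicAut.id K) γ) (borel _))
            (μT' : @Measure (tA305 D.s δ) (borel _)),
            @Measure.IsHaarMeasure _ _ _ (borel _) μT →
            @Measure.IsHaarMeasure _ _ _ (borel _) μT' →
            IsTorLinked305 ι D.s δ γ μT μT' →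
            ∃ β' : G K' → ℝ, ∃ β : G K → ℝ,
              IsCutOn305 D.s δ μT' β'
                {x | T5.twTerm D.R'.r D.s (pure305 T' φ₀ Φ) δ x ≠ 0} ∧
              IsCutOn305 (T5.AdelicAut.id K) γ μT β
                {x | T5.twTerm D.R.r (T5.AdelicAut.id K) (pure305 T f₀ F) γ x ≠ 0} ∧
              cutInt305 D.R'.r D.s (pure305 T' φ₀ Φ) δ D.R'.μ β'
                = κ * cutInt305 D.R.r (T5.AdelicAut.id K) (pure305 T f₀ F) γ D.R.μ β) ∧
        ∀ γ : GL (Fin 2) K, T6.IsEll γ → (¬ ∃ δ : GL (Fin 2) K', IsNormOf D δ γ) →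
          ∀ μT : @Measure (tA305 (T5.AdelicAut.id K) γ) (borel _),
            @Measure.IsHaarMeasure _ _ _ (borel _) μT →
            ∃ β : G K → ℝ,
              IsCutOn305 (T5.AdelicAut.id K) γ μT β
                {x | T5.twTerm D.R.r (T5.AdelicAut.id K) (pure305 T f₀ F) γ x ≠ 0} ∧
              cutInt305 D.R.r (T5.AdelicAut.id K) (pure305 T f₀ F) γ D.R.μ β = 0

/-- **LEAF C2.7.11 v2 = UNIT-MATCH for `LocHyp893`** (`H305.UnitMatchC305` with `LocHyp893`).
If `T₀ ⊆ T ⊆ S`, the places outside `T₀` are unramified and the levels are `0` there: the local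
hypotheses for `T` give the local hypotheses for `S` with unit components at the new places.
Proof.  As `UnitMatchC305` at the places of `T` and at the new places with ONE place over them.
At a new place `v` with two places over it (`v` splits completely: `l` is prime): ONE
enumeration is needed: `w 0` any place over `v`, `w (j+1) = σ⁻¹ (w j)` (the Galois group acts
transitively on the places over `v`, the orbit has `l` elements, so `w j ≠ w 0` for
`0 < j < l`), `i j` from `T6.InstSplitC` (`v` is unramified: `UnramOut305`; the residue fields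
agree: `l = e f g`, `g = l`); the levels are `0`, the convolution of unit elements is the unit
element, `unit ∘ i j = unit` (`i j` preserves the valuation). -/
def UnitMatchC893_311 : Prop :=
  T6.T6Out →
  ∀ D : CompData K K', IsCompData D → IsCycExt K K' D.l → D.l ≠ 2 → TotCplx K →
    ∀ μc : @Measure (GL (Fin 2) ℂ) (borel _), @Measure.IsHaarMeasure _ _ _ (borel _) μc →
    ∀ (T₀ : Finset (HeightOneSpectrum (𝓞 K))), UnramOut305 (K' := K') T₀ →
    ∀ (n : HeightOneSpectrum (𝓞 K') → ℕ) (m : HeightOneSpectrum (𝓞 K) → ℕ),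
      IsLevelAt305 T₀ n m →
    ∀ (T S : Finset (HeightOneSpectrum (𝓞 K))) (T' S' : Finset (HeightOneSpectrum (𝓞 K'))),
      T₀ ⊆ T → T ⊆ S → IsOver305 T T' → IsOver305 S S' →
    ∀ (φ₀ : ∀ w : HeightOneSpectrum (𝓞 K'), GL (Fin 2) (w.adicCompletion K') → ℂ)
      (Φ : InfinitePlace K' → GL (Fin 2) ℂ → ℂ)
      (f₀ : ∀ v : HeightOneSpectrum (𝓞 K), GL (Fin 2) (v.adicCompletion K) → ℂ)
      (F : InfinitePlace K → GL (Fin 2) ℂ → ℂ),
      LocHyp893 D μc T n m φ₀ Φ f₀ F →
      LocHyp893 D μc S n m (ext305 T' φ₀) Φ (ext305 T f₀) F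

/-- **NODE C2.7.13 v2 = FACT-UP for `LocHyp893`** (`H305.FactUpC305` with `LocHyp893`). -/
def FactUpC893_311 : Prop :=
  T6.T6Out →
  ∀ D : CompData K K', IsCompData D → IsCycExt K K' D.l → D.l ≠ 2 → TotCplx K →
    ∀ ι : Adl K →+* Adl K', IsAdeleBase305 D.s D.l ι →
    ∀ μc : @Measure (GL (Fin 2) ℂ) (borel _), @Measure.IsHaarMeasure _ _ _ (borel _) μc →
    ∀ (T₀ : Finset (HeightOneSpectrum (𝓞 K))), UnramOut305 (K' := K') T₀ →
    ∀ (n : HeightOneSpectrum (𝓞 K') → ℕ) (m : HeightOneSpectrum (𝓞 K) → ℕ),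
      IsLevelAt305 T₀ n m →
    ∃ cG' : ℝ, 0 < cG' ∧
      ∀ (S : Finset (HeightOneSpectrum (𝓞 K))) (S' : Finset (HeightOneSpectrum (𝓞 K'))),
        T₀ ⊆ S → IsOver305 S S' →
      ∀ (φ₀ : ∀ w : HeightOneSpectrum (𝓞 K'), GL (Fin 2) (w.adicCompletion K') → ℂ)
        (Φ : InfinitePlace K' → GL (Fin 2) ℂ → ℂ)
        (f₀ : ∀ v : HeightOneSpectrum (𝓞 K), GL (Fin 2) (v.adicCompletion K) → ℂ)
        (F : InfinitePlace K → GL (Fin 2) ℂ → ℂ),
        LocHyp893 D μc S n m φ₀ Φ f₀ F →
      ∀ (δ : GL (Fin 2) K') (γ : GL (Fin 2) K), T6.IsEll γ →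
        D.s.normUpTo D.l δ = Matrix.GeneralLinearGroup.map (algebraMap K K') γ →
        GoodOut305 S γ → IntOut305 S' δ →
      ∀ (μT : @Measure (tA305 (T5.AdelicAut.id K) γ) (borel _))
        (μT' : @Measure (tA305 D.s δ) (borel _)),
        @Measure.IsHaarMeasure _ _ _ (borel _) μT →
        @Measure.IsHaarMeasure _ _ _ (borel _) μT' →
        IsTorLinked305 ι D.s δ γ μT μT' →
      ∀ (L : LocData305 K γ) (cT : ℝ), IsLocData305 m L → 0 < cT → IsTorConst305 γ μT L cT →
        ∃ β' : G K' → ℝ,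
          IsCutOn305 D.s δ μT' β'
              {x | T5.twTerm D.R'.r D.s (pure305 S' φ₀ Φ) δ x ≠ 0} ∧
            cutInt305 D.R'.r D.s (pure305 S' φ₀ Φ) δ D.R'.μ β'
              = ((cG' / cT : ℝ) : ℂ) * factVal305 D.R.r S L f₀ μc F

/-- **NODE C2.7.13.1 v2 = UP-FACT for `LocHyp893`** (`H340.UpFactC340` with `LocHyp893`; global →
local upstairs, NO matching).  The only change of the conclusion: at a split place `v ∈ S` the
value `J v` is the split integral for an enumeration for which the levels agree and the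
convolution identity holds (`IsSplitValB311`).
Proof.  As `UpFactC340` (see its docstring); at a split place `v ∈ S` the enumeration and the
identifications `i j` are THE ONES OF `LocHyp893.split` (they are not constructed), the cut-off
upstairs at `v` is `β_v (i 0)⁻¹(y_{w 0})`. -/
def UpFactC893_311 : Prop :=
  T6.T6Out →
  ∀ D : CompData K K', IsCompData D → IsCycExt K K' D.l → D.l ≠ 2 → TotCplx K →
    ∀ ι : Adl K →+* Adl K', IsAdeleBase305 D.s D.l ι →
    ∀ μc : @Measure (GL (Fin 2) ℂ) (borel _), @Measure.IsHaarMeasure _ _ _ (borel _) μc →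
    ∀ (T₀ : Finset (HeightOneSpectrum (𝓞 K))), UnramOut305 (K' := K') T₀ →
    ∀ (n : HeightOneSpectrum (𝓞 K') → ℕ) (m : HeightOneSpectrum (𝓞 K) → ℕ),
      IsLevelAt305 T₀ n m →
    ∃ cG' : ℝ, 0 < cG' ∧
      ∀ (S : Finset (HeightOneSpectrum (𝓞 K))) (S' : Finset (HeightOneSpectrum (𝓞 K'))),
        T₀ ⊆ S → IsOver305 S S' →
      ∀ (φ₀ : ∀ w : HeightOneSpectrum (𝓞 K'), GL (Fin 2) (w.adicCompletion K') → ℂ)
        (Φ : InfinitePlace K' → GL (Fin 2) ℂ → ℂ)
        (f₀ : ∀ v : HeightOneSpectrum (𝓞 K), GL (Fin 2) (v.adicCompletion K) → ℂ)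
        (F : InfinitePlace K → GL (Fin 2) ℂ → ℂ),
        LocHyp893 D μc S n m φ₀ Φ f₀ F →
      ∀ (δ : GL (Fin 2) K') (γ : GL (Fin 2) K), T6.IsEll γ →
        D.s.normUpTo D.l δ = Matrix.GeneralLinearGroup.map (algebraMap K K') γ →
        GoodOut305 S γ → IntOut305 S' δ →
      ∀ (μT : @Measure (tA305 (T5.AdelicAut.id K) γ) (borel _))
        (μT' : @Measure (tA305 D.s δ) (borel _)),
        @Measure.IsHaarMeasure _ _ _ (borel _) μT →
        @Measure.IsHaarMeasure _ _ _ (borel _) μT' →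
        IsTorLinked305 ι D.s δ γ μT μT' →
      ∀ (L : LocData305 K γ) (cT : ℝ), IsLocData305 m L → 0 < cT → IsTorConst305 γ μT L cT →
        ∃ (β' : G K' → ℝ) (J : HeightOneSpectrum (𝓞 K) → ℂ) (Jc : InfinitePlace K → ℤ → ℂ),
          IsCutOn305 D.s δ μT' β'
              {x | T5.twTerm D.R'.r D.s (pure305 S' φ₀ Φ) δ x ≠ 0} ∧
            cutInt305 D.R'.r D.s (pure305 S' φ₀ Φ) δ D.R'.μ β'
              = ((cG' / cT : ℝ) : ℂ)
                * ∑' j : ℤ, (∏ v ∈ S, J v) * ∏ w : InfinitePlace K, Jc w j ∧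
            (∀ v ∈ S, IsInertVal340 D n φ₀ δ v (J v) ∨ IsSplitValB311 D n m φ₀ f₀ δ L v (J v)) ∧
            ∀ (w : InfinitePlace K) (j : ℤ), IsArchVal340 D ι Φ δ L μc w j (Jc w j)

/-- **LEAF C2.7.13.3 v2 = LOC-EQ-SPLIT, LOCAL FORM.**  The local twisted integral upstairs at a
split place, for an enumeration for which the convolution identity holds, is the local integral
downstairs.  No global local hypothesis: the invariance and the finite supports of the
components at `v` and over `v` are hypotheses, the convolution identity is part of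
`IsSplitValB311`.
Proof.  As `H340.LocEqSplitC340`: `δ_0 δ_1 ⋯ δ_{l-1} = γ_v`; Fubini and the split integral
identity for general `l` (helper159 `iterL_eq159`); `T6.IsConvProd` is the iterated integral
convolution for the measure with `vol U(m_v) = 1` (helper855 `isConvProd_chain855`). -/
def LocEqSplitC311 : Prop :=
  T6.T6Out →
  ∀ D : CompData K K', IsCompData D → IsCycExt K K' D.l → D.l ≠ 2 → TotCplx K →
    ∀ (n : HeightOneSpectrum (𝓞 K') → ℕ) (m : HeightOneSpectrum (𝓞 K) → ℕ)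
      (φ₀ : ∀ w : HeightOneSpectrum (𝓞 K'), GL (Fin 2) (w.adicCompletion K') → ℂ)
      (f₀ : ∀ v : HeightOneSpectrum (𝓞 K), GL (Fin 2) (v.adicCompletion K) → ℂ),
    ∀ (δ : GL (Fin 2) K') (γ : GL (Fin 2) K), T6.IsEll γ →
      D.s.normUpTo D.l δ = Matrix.GeneralLinearGroup.map (algebraMap K K') γ →
    ∀ L : LocData305 K γ, IsLocData305 m L →
    ∀ v : HeightOneSpectrum (𝓞 K),
      (T6.IsBiInv (T6.InU (m v)) (f₀ v) ∧ T6.HasFinSupp (T6.InU (m v)) (f₀ v)) →
      (∀ w : HeightOneSpectrum (𝓞 K'), PlaceOver K K' v w →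
        T6.IsBiInv (T6.InU (n w)) (φ₀ w) ∧ T6.HasFinSupp (T6.InU (n w)) (φ₀ w)) →
    ∀ J : ℂ, IsSplitValB311 D n m φ₀ f₀ δ L v J →
      J = locInt305 (L.μv v) (L.βv v) (f₀ v) (locG305 v γ)

end TwoFields

/-! ## Appendix: the equation lemmas of the definitions are realised HERE -/

theorem eqns_realisedM893_311 : True := by
  have _a1 := @IsSplitValB311.eq_1
  have _a2 := @IsSplitValB311.eq_def
  have _a3 := @IsSplitValB311.eq_unfold
  have _b1 := @CutIntC893_311.eq_1
  have _b2 := @CutIntC893_311.eq_def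
  have _b3 := @CutIntC893_311.eq_unfold
  have _c1 := @UnitMatchC893_311.eq_1
  have _c2 := @UnitMatchC893_311.eq_def
  have _c3 := @UnitMatchC893_311.eq_unfold
  have _d1 := @FactUpC893_311.eq_1
  have _d2 := @FactUpC893_311.eq_def
  have _d3 := @FactUpC893_311.eq_unfold
  have _e1 := @UpFactC893_311.eq_1
  have _e2 := @UpFactC893_311.eq_def
  have _e3 := @UpFactC893_311.eq_unfold
  have _f1 := @LocEqSplitC311.eq_1
  have _f2 := @LocEqSplitC311.eq_def
  have _f3 := @LocEqSplitC311.eq_unfold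
  trivial

end Fermat.Agent.LT.T7.H311

end

end
-- ===== PACK-END LT/T7/H311/Match893Spec.lean

-- ===== PACK-BEGIN LT/T7/H311/UnitMatch893.lean
section



/-!
# Row LT, tower T7, leaf C2.7.11 v2 `UnitMatchC893_311` (helper311): REDUCTION to the leaf
# `H305.UnitMatchC305` of helper305 and ONE new leaf on places

OFF-MAIN.  Complete proof, nothing assumed.

    unitMatch893_of311 : H305.UnitMatchC305 K K' → EnumExistsC311 K K' → UnitMatchC893_311 K K'

* `H305.UnitMatchC305` is applied to the ZERO components and the ZERO levels on `T₀` (they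
  satisfy `LocHyp305` for trivial reasons: all orbit sums and all convolutions vanish); its
  conclusion gives, at every place of `S` outside `T₀`, the clauses of `LocHyp305` for the UNIT
  elements (the fundamental lemma for the unit element), for ALL enumerations.
* At the places of `T` the hypotheses are those of `LocHyp893` for `T`.
* At a new split place ONE enumeration has to exist: the new leaf `EnumExistsC311`.
-/

set_option autoImplicit false
set_option linter.unusedSectionVars false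
set_option linter.unusedVariables false

open AutomorphicForm IsDedekindDomain NumberField MeasureTheory
open scoped ComplexConjugate

noncomputable section

namespace Fermat.Agent.LT.T7.H311

open Fermat.Agent.LT.H556 Fermat.Agent.LT.H556.A0 Fermat.Agent.LT.T7 Fermat.Agent.LT.T7.H305
open Fermat.Agent.LT.T7.H893 Fermat.Agent.LT.T7.H340

attribute [local instance] Fermat.Agent.LT.T5.instMeasurableSpaceG

variable (K K' : Type) [Field K] [NumberField K] [Field K'] [NumberField K'] [Algebra K K']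

/-- **LEAF C2.7.11.E = ENUM-EXISTS (places; number theory).**  `K'/K` cyclic of prime degree `l`
with generator `σ`, `v` a finite place of `K` outside `T₀` (unramified) with two places of `K'`
over it: there is an enumeration `w 0, w 1, …` of the places over `v` with `w j = σ(w (j+1))`,
`w j ≠ w 0` for `0 < j < l`, and identifications `i j : K_v ≃ K'_{w j}` which extend `K → K'`
and preserve the valuation.
Proof.  `e f g = l` (`K'/K` Galois), `g ≥ 2`, `l` prime: `g = l`, `e = f = 1`.  `w 0` any place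
over `v`, `w (j+1) = σ⁻¹(w j)` (a place over `v`: `σ` fixes `K`).  If `w j = w 0` with
`0 < j < l` then `σ^j` fixes `w 0`; `σ^j` generates the Galois group, which acts transitively on
the places over `v`: `w 0` is the only place over `v`, a contradiction.  `i j` from
`T6.InstSplitC` (`N (w j) = N v`; `v` is unramified: `UnramOut305`). -/
def EnumExistsC311 : Prop :=
  T6.T6Out →
  ∀ D : CompData K K', IsCompData D → IsCycExt K K' D.l →
    ∀ T₀ : Finset (HeightOneSpectrum (𝓞 K)), UnramOut305 (K' := K') T₀ →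
    ∀ v : HeightOneSpectrum (𝓞 K), v ∉ T₀ →
      (∃ w₁ w₂ : HeightOneSpectrum (𝓞 K'),
        PlaceOver K K' v w₁ ∧ PlaceOver K K' v w₂ ∧ w₁ ≠ w₂) →
      ∃ (w : ℕ → HeightOneSpectrum (𝓞 K'))
        (i : ∀ j : ℕ, v.adicCompletion K ≃+* (w j).adicCompletion K'),
        (∀ j : ℕ, PlaceOver K K' v (w j)) ∧ (∀ j : ℕ, T5.PlaceRel D.s (w (j + 1)) (w j)) ∧
        (∀ j : ℕ, 0 < j → j < D.l → w j ≠ w 0) ∧
        (∀ (j : ℕ) (x : K), i j (algebraMap K (v.adicCompletion K) x)
          = algebraMap K' ((w j).adicCompletion K') (algebraMap K K' x)) ∧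
        (∀ (j : ℕ) (x : v.adicCompletion K), Valued.v (i j x) = Valued.v x)

theorem eqns_realisedUM311 : True := by
  have _a1 := @EnumExistsC311.eq_1
  have _a2 := @EnumExistsC311.eq_def
  have _a3 := @EnumExistsC311.eq_unfold
  trivial

variable {K K'}

/-! ## The zero components -/

section Zero

variable {Γ : Type} [Group Γ]

theorem isBiInv_zero311 (U : Γ → Prop) : T6.IsBiInv U (fun _ : Γ => (0 : ℂ)) :=
  fun _ _ _ _ _ => rfl

theorem hasFinSupp_zero311 (U : Γ → Prop) : T6.HasFinSupp U (fun _ : Γ => (0 : ℂ)) :=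
  ⟨∅, fun _ h => absurd rfl h⟩

theorem isOrbSumGen_zero311 (s : Γ →* Γ) (U : Γ → Prop) (C : Γ → Γ → Prop) (δ : Γ) (c : ℂ)
    (h : T6.IsOrbSumGen s U C (fun _ : Γ => (0 : ℂ)) δ c) : c = 0 := by
  obtain ⟨R, -, -, -, hc⟩ := h
  rw [hc]
  simp

theorem isConv_zero311 (U : Γ → Prop) :
    T6.IsConv U (fun _ : Γ => (0 : ℂ)) (fun _ : Γ => (0 : ℂ)) (fun _ : Γ => (0 : ℂ)) := by
  intro g
  refine ⟨∅, ?_, ?_, ?_⟩
  · intro h hh
    exact absurd hh (Finset.notMem_empty h)
  · intro h hh
    exact absurd (by simp) hh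
  · simp

theorem isConvProd_zero311 (U : Γ → Prop) (l : ℕ) :
    T6.IsConvProd U l (fun _ _ => (0 : ℂ)) (fun _ : Γ => (0 : ℂ)) :=
  ⟨fun _ _ => 0, rfl, fun _ _ => isConv_zero311 U, rfl⟩

end Zero

/-- A place of `K'` lies over at most one place of `K`. -/
theorem placeOver_unique311 {v v' : HeightOneSpectrum (𝓞 K)} {w : HeightOneSpectrum (𝓞 K')}
    (h : PlaceOver K K' v w) (h' : PlaceOver K K' v' w) : v = v' := by
  apply HeightOneSpectrum.ext
  ext x
  have e : ((algebraMap (𝓞 K) (𝓞 K') x : 𝓞 K') : K') = algebraMap K K' (x : K) := rfl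
  rw [h x _ e, h' x _ e]

/-- **THE ZERO DATA ON `T₀` WITH THE ZERO LEVELS SATISFY `LocHyp305`.** -/
theorem locHyp305_zero311 {D : CompData K K'}
    {μc : @Measure (GL (Fin 2) ℂ) (borel _)} {T : Finset (HeightOneSpectrum (𝓞 K))}
    {n : HeightOneSpectrum (𝓞 K') → ℕ} {m : HeightOneSpectrum (𝓞 K) → ℕ}
    {φ₀ : ∀ w : HeightOneSpectrum (𝓞 K'), GL (Fin 2) (w.adicCompletion K') → ℂ}
    {Φ : InfinitePlace K' → GL (Fin 2) ℂ → ℂ}
    {f₀ : ∀ v : HeightOneSpectrum (𝓞 K), GL (Fin 2) (v.adicCompletion K) → ℂ}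
    {F : InfinitePlace K → GL (Fin 2) ℂ → ℂ}
    (h : LocHyp893 D μc T n m φ₀ Φ f₀ F) (T₀ : Finset (HeightOneSpectrum (𝓞 K))) :
    LocHyp305 D μc T₀ (fun _ => 0) (fun _ => 0) (fun _ _ => 0) Φ (fun _ _ => 0) F where
  inv_up := fun _ _ _ _ => ⟨isBiInv_zero311 _, hasFinSupp_zero311 _⟩
  inv_down := fun _ _ => ⟨isBiInv_zero311 _, hasFinSupp_zero311 _⟩
  arch_up := h.arch_up
  arch_down := h.arch_down
  inert := fun v _ w _ _ e i sw _ _ _ =>
    ⟨fun δ γ c c' _ _ hc hc' => by
        rw [isOrbSumGen_zero311 _ _ _ _ _ hc, isOrbSumGen_zero311 _ _ _ _ _ hc'],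
      fun γ c' _ _ hc' => isOrbSumGen_zero311 _ _ _ _ _ hc'⟩
  split := fun v _ w i _ _ _ _ _ => ⟨fun _ => rfl, isConvProd_zero311 _ _⟩
  arch := h.arch

/-- **THE REDUCTION.** -/
theorem unitMatch893_of311 (hU : UnitMatchC305 K K') (hE : EnumExistsC311 K K') :
    UnitMatchC893_311 K K' := by
  classical
  intro hT6 D hD hcyc hl hcplx μc hμc T₀ hun n m hlev T S T' S' hT₀T hTS hTT' hSS'
    φ₀ Φ f₀ F hloc
  -- the places over `T₀`
  set T₀' : Finset (HeightOneSpectrum (𝓞 K')) :=
    T'.filter (fun w => ∃ v ∈ T₀, PlaceOver K K' v w) with hT₀'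
  have hOver₀ : IsOver305 T₀ T₀' := by
    intro w
    rw [hT₀', Finset.mem_filter]
    constructor
    · exact fun h => h.2
    · rintro ⟨v, hv, hvw⟩
      exact ⟨(hTT' w).2 ⟨v, hT₀T hv, hvw⟩, v, hv, hvw⟩
  have hlev0 : IsLevelAt305 T₀ (fun _ : HeightOneSpectrum (𝓞 K') => 0)
      (fun _ : HeightOneSpectrum (𝓞 K) => 0) := ⟨fun _ _ => rfl, fun _ _ _ _ => rfl⟩
  have hZ := hU hT6 D hD hcyc hl hcplx μc hμc T₀ hun (fun _ => 0) (fun _ => 0) hlev0 T₀ S T₀' S'
    (Finset.Subset.refl _) (hT₀T.trans hTS) hOver₀ hSS' (fun _ _ => 0) Φ (fun _ _ => 0) F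
    (locHyp305_zero311 hloc T₀)
  -- the components
  have hup_old : ∀ v ∈ T, ∀ w : HeightOneSpectrum (𝓞 K'), PlaceOver K K' v w →
      ext305 T' φ₀ w = φ₀ w := by
    intro v hv w hw
    unfold ext305
    rw [if_pos ((hTT' w).2 ⟨v, hv, hw⟩)]
  have hdown_old : ∀ v ∈ T, ext305 T f₀ v = f₀ v := by
    intro v hv
    unfold ext305
    rw [if_pos hv]
  have hup_new : ∀ v : HeightOneSpectrum (𝓞 K), v ∉ T → ∀ w : HeightOneSpectrum (𝓞 K'),
      PlaceOver K K' v w → ext305 T' φ₀ w = unit305 := by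
    intro v hv w hw
    unfold ext305
    rw [if_neg]
    intro hwT
    obtain ⟨v', hv', hv'w⟩ := (hTT' w).1 hwT
    exact hv (by rw [placeOver_unique311 hw hv'w]; exact hv')
  have hdown_new : ∀ v : HeightOneSpectrum (𝓞 K), v ∉ T → ext305 T f₀ v = unit305 := by
    intro v hv
    unfold ext305
    rw [if_neg hv]
  have hZup : ∀ v : HeightOneSpectrum (𝓞 K), v ∉ T₀ → ∀ w : HeightOneSpectrum (𝓞 K'),
      PlaceOver K K' v w →
      ext305 T₀' (fun (w : HeightOneSpectrum (𝓞 K'))
        (_ : GL (Fin 2) (w.adicCompletion K')) => (0 : ℂ)) w = unit305 := by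
    intro v hv w hw
    unfold ext305
    rw [if_neg]
    intro hwT
    obtain ⟨v', hv', hv'w⟩ := (hOver₀ w).1 hwT
    exact hv (by rw [placeOver_unique311 hw hv'w]; exact hv')
  have hZdown : ∀ v : HeightOneSpectrum (𝓞 K), v ∉ T₀ →
      ext305 T₀ (fun (v : HeightOneSpectrum (𝓞 K))
        (_ : GL (Fin 2) (v.adicCompletion K)) => (0 : ℂ)) v = unit305 := by
    intro v hv
    unfold ext305
    rw [if_neg hv]
  have hn0 : ∀ v : HeightOneSpectrum (𝓞 K), v ∉ T → ∀ w : HeightOneSpectrum (𝓞 K'),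
      PlaceOver K K' v w → n w = 0 := fun v hv w hw => hlev.2 v w (fun h => hv (hT₀T h)) hw
  have hm0 : ∀ v : HeightOneSpectrum (𝓞 K), v ∉ T → m v = 0 :=
    fun v hv => hlev.1 v (fun h => hv (hT₀T h))
  refine ⟨?_, ?_, hloc.arch_up, hloc.arch_down, ?_, ?_, hloc.arch⟩
  · -- inv_up
    intro v hv w hw
    by_cases hvT : v ∈ T
    · rw [hup_old v hvT w hw]
      exact hloc.inv_up v hvT w hw
    · have h := hZ.inv_up v hv w hw
      rw [hZup v (fun h => hvT (hT₀T h)) w hw] at h
      rw [hup_new v hvT w hw, hn0 v hvT w hw]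
      exact h
  · -- inv_down
    intro v hv
    by_cases hvT : v ∈ T
    · rw [hdown_old v hvT]
      exact hloc.inv_down v hvT
    · have h := hZ.inv_down v hv
      rw [hZdown v (fun h => hvT (hT₀T h))] at h
      rw [hdown_new v hvT, hm0 v hvT]
      exact h
  · -- inert
    intro v hv w hw huniq e i sw hi hsw hext
    by_cases hvT : v ∈ T
    · rw [hup_old v hvT w hw, hdown_old v hvT]
      exact hloc.inert v hvT w hw huniq e i sw hi hsw hext
    · have h := hZ.inert v hv w hw huniq e i sw hi hsw hext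
      rw [hZup v (fun h => hvT (hT₀T h)) w hw, hZdown v (fun h => hvT (hT₀T h))] at h
      rw [hup_new v hvT w hw, hdown_new v hvT, hn0 v hvT w hw, hm0 v hvT]
      exact h
  · -- split
    intro v hv hsp
    by_cases hvT : v ∈ T
    · obtain ⟨w, i, h1, h2, h3, h4, h5, h6, h7⟩ := hloc.split v hvT hsp
      refine ⟨w, i, h1, h2, h3, h4, h5, h6, ?_⟩
      rw [hdown_old v hvT]
      have e : (fun (j : ℕ) (g : GL (Fin 2) (v.adicCompletion K)) => ext305 T' φ₀ (w j)
            (Matrix.GeneralLinearGroup.map ((i j : v.adicCompletion K ≃+* _) :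
              v.adicCompletion K →+* (w j).adicCompletion K') g))
          = fun (j : ℕ) (g : GL (Fin 2) (v.adicCompletion K)) => φ₀ (w j)
            (Matrix.GeneralLinearGroup.map ((i j : v.adicCompletion K ≃+* _) :
              v.adicCompletion K →+* (w j).adicCompletion K') g) := by
        funext j g
        rw [hup_old v hvT (w j) (h1 j)]
      rw [e]
      exact h7
    · have hv0 : v ∉ T₀ := fun h => hvT (hT₀T h)
      obtain ⟨w, i, h1, h2, h3, h4, h5⟩ := hE hT6 D hD hcyc T₀ hun v hv0 hsp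
      obtain ⟨-, h7⟩ := hZ.split v hv w i h1 h2 h3 h4 h5
      refine ⟨w, i, h1, h2, h3, h4, h5, fun j => ?_, ?_⟩
      · rw [hn0 v hvT (w j) (h1 j), hm0 v hvT]
      · rw [hZdown v hv0] at h7
        have e : (fun (j : ℕ) (g : GL (Fin 2) (v.adicCompletion K)) =>
              ext305 T₀' (fun (w : HeightOneSpectrum (𝓞 K'))
                (_ : GL (Fin 2) (w.adicCompletion K')) => (0 : ℂ)) (w j)
              (Matrix.GeneralLinearGroup.map ((i j : v.adicCompletion K ≃+* _) :
                v.adicCompletion K →+* (w j).adicCompletion K') g))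
            = fun (j : ℕ) (g : GL (Fin 2) (v.adicCompletion K)) => ext305 T' φ₀ (w j)
              (Matrix.GeneralLinearGroup.map ((i j : v.adicCompletion K ≃+* _) :
                v.adicCompletion K →+* (w j).adicCompletion K') g) := by
          funext j g
          rw [hZup v hv0 (w j) (h1 j), hup_new v hvT (w j) (h1 j)]
        rw [e] at h7
        rw [hdown_new v hvT, hm0 v hvT]
        exact h7

end Fermat.Agent.LT.T7.H311

end

end
-- ===== PACK-END LT/T7/H311/UnitMatch893.lean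

-- ===== PACK-BEGIN LT/T7/H546/SetupQR.lean
section




/-!
# Row LT, tower T7, leaf T7.L2Q.1.C0 OF RECORD `SetupQRC60` = the setup over `ℚ` with the
# ramified prime (helper546)

OFF-MAIN.  `setupQRC60_546 F : T7.L2Q.H60.SetupQRC60 F`, VERBATIM against
`LT/T7/H60/SupplyQRam.lean` (helper60@e0f6fdef3, sha256 1b96e813), UNCONDITIONAL.  No hole,
nothing assumed.  Adapter of the core form `exists_base546c` (`SetupQCore.lean`) with the
prescribed set `T = {3}`: the common part of helper962 with `S` = exactly the prime numbers under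
`S'`, `S'` = all the places over the prime numbers of `S`, `3 ∈ S`, read as a common part of
helper60 (`fibre` in prime numbers = `under` + fullness).
-/

set_option autoImplicit false

open IsDedekindDomain NumberField AutomorphicForm

noncomputable section

namespace Fermat.Agent.LT.T7.H546

open Fermat.Agent.LT.H556 Fermat.Agent.LT.H556.A0 Fermat.Agent.LT.T7 Fermat.Agent.LT.T7.L2Q

/-- A common part of helper962 which is full and exact is a common part of helper60. -/
theorem isL2QBase60_of_core546 {F : Type} [Field F] [NumberField F]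
    {Φ : HeckeEigensystem F ℂ} {B : H962.L2QBase962 F} (hB : H962.IsL2QBase962 Φ B)
    (hfull : ∀ p : ℕ, p.Prime → p ∈ B.S → ∀ w : HeightOneSpectrum (𝓞 F),
      ((p : ℕ) : 𝓞 F) ∈ w.asIdeal → w ∈ B.S')
    (hex : ∀ p ∈ B.S, p.Prime ∧
      ∃ w : HeightOneSpectrum (𝓞 F), w ∈ B.S' ∧ ((p : ℕ) : 𝓞 F) ∈ w.asIdeal) :
    H60.IsL2QBase Φ (⟨B.s, B.k, B.R, B.R', B.𝔑₀, B.S', B.S, B.u, B.o⟩ : H60.L2QBase F) :=
  { cyc := hB.cyc
    base := hB.base
    frame := hB.frame
    frame' := hB.frame'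
    aut := hB.aut
    level_le := hB.level_le
    mem_S' := hB.mem_S'
    under := hB.under
    under_exact := hex
    const := hB.const
    orbit_rel := hB.orbit_rel
    orbit_ne := hB.orbit_ne
    orbit_over := hB.orbit_over
    orbit_level := hB.orbit_level
    orbit_good := hB.orbit_good
    base_level := hB.base_level
    orbit_all := hB.orbit_all
    fibre := fun p hp w w' hw hw' hmem => hfull p hp (hB.under p hp w hw hmem) w' hw' }

/-- **LEAF T7.L2Q.1.C0 OF RECORD `SetupQRC60`**: the common part exists, with `3 ∈ S`. -/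
theorem setupQRC60_546 (F : Type) [Field F] [NumberField F] : H60.SetupQRC60 F := by
  intro _ hIQ Φ _ hconst
  obtain ⟨B, hB, hfull, hex, hT⟩ := exists_base546c F hIQ Φ hconst {3}
  exact ⟨⟨B.s, B.k, B.R, B.R', B.𝔑₀, B.S', B.S, B.u, B.o⟩,
    isL2QBase60_of_core546 hB hfull hex,
    hT 3 (Finset.mem_singleton_self 3) Nat.prime_three⟩

end Fermat.Agent.LT.T7.H546

end

end
-- ===== PACK-END LT/T7/H546/SetupQR.lean

-- ===== PACK-BEGIN LT/T7/H627/LevelLeaves.lean
section




/-!
# Row LT, tower T7, node ProdMtCb (sixth cut of helper893): the leaves `LevelUniqC893`,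
# `LevelAtC893` (helper627, spare)

OFF-MAIN.  `levelUniqC627 F : H893.LevelUniqC893 F`, `levelAtC627 K K' : H893.LevelAtC893 K K'`,
UNCONDITIONAL.
-/

set_option autoImplicit false
set_option linter.unusedSectionVars false
set_option linter.unusedVariables false

open AutomorphicForm IsDedekindDomain NumberField MeasureTheory

noncomputable section

namespace Fermat.Agent.LT.T7.H627

open Fermat.Agent.LT.H556 Fermat.Agent.LT.H556.A0 Fermat.Agent.LT.T7 Fermat.Agent.LT.T7.H305
open Fermat.Agent.LT.T7.H893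

/-- **LEAF `LevelUniqC893`.** -/
theorem levelUniqC627 (F : Type) [Field F] [NumberField F] : LevelUniqC893 F := by
  intro 𝔫 m m' h h'
  funext v
  have key : ∀ a b : ℕ, (∀ x : v.adicCompletion F,
      Valued.v x ≤ WithZero.exp (-(a : ℤ)) → Valued.v x ≤ WithZero.exp (-(b : ℤ))) → b ≤ a := by
    intro a b hab
    obtain ⟨y, hy⟩ := exists_val_eq_exp627 v a
    have := hab y hy.le
    rw [hy, WithZero.exp_le_exp] at this
    omega
  refine le_antisymm ?_ ?_
  · exact key (m' v) (m v) fun x hx => (h v x).1 ((h' v x).2 hx)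
  · exact key (m v) (m' v) fun x hx => (h' v x).1 ((h v x).2 hx)

/-- An ideal not divisible by `v` has exponent `0` at `v`. -/
theorem level_zero_of_notMem627 {F : Type} [Field F] [NumberField F] (𝔫 : Ideal (𝓞 F))
    (m : HeightOneSpectrum (𝓞 F) → ℕ) (h : IsLevelOf893 𝔫 m) (v : HeightOneSpectrum (𝓞 F))
    (a : 𝓞 F) (ha : a ∈ 𝔫) (hav : a ∉ v.asIdeal) : m v = 0 := by
  have h1 : algebraMap F (v.adicCompletion F) (algebraMap (𝓞 F) F a) ∈ idealClosure 𝔫 v :=
    subset_closure ⟨a, ha, rfl⟩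
  have h2 := (h v _).1 h1
  have h3 : Valued.v (algebraMap F (v.adicCompletion F) (algebraMap (𝓞 F) F a)) = 1 := by
    have e : algebraMap F (v.adicCompletion F) (algebraMap (𝓞 F) F a)
        = ((algebraMap (𝓞 F) F a : F) : v.adicCompletion F) := rfl
    rw [e, HeightOneSpectrum.valuedAdicCompletion_eq_valuation']
    exact (HeightOneSpectrum.valuation_eq_one_iff_notMem (K := F) v).2 hav
  rw [h3] at h2
  have h4 : (WithZero.exp (0 : ℤ) : WithZero (Multiplicative ℤ)) ≤ WithZero.exp (-(m v : ℤ)) := by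
    simpa using h2
  rw [WithZero.exp_le_exp] at h4
  omega

/-- **LEAF `LevelAtC893`.** -/
theorem levelAtC627 (K K' : Type) [Field K] [NumberField K] [Field K'] [NumberField K']
    [Algebra K K'] : LevelAtC893 K K' := by
  intro 𝔫 T₀ n m hT hm hn
  have hex : ∀ v : HeightOneSpectrum (𝓞 K), v ∉ T₀ → ∃ a : 𝓞 K, a ∈ 𝔫 ∧ a ∉ v.asIdeal := by
    intro v hv
    have h1 : ¬ v.asIdeal ∣ 𝔫 := fun h => hv ((hT v).2 h)
    rw [Ideal.dvd_iff_le] at h1
    exact Set.not_subset.1 h1
  refine ⟨fun v hv => ?_, fun v w hv hw => ?_⟩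
  · obtain ⟨a, ha, hav⟩ := hex v hv
    exact level_zero_of_notMem627 𝔫 m hm v a ha hav
  · obtain ⟨a, ha, hav⟩ := hex v hv
    refine level_zero_of_notMem627 (upI (K' := K') 𝔫) n hn w (algebraMap (𝓞 K) (𝓞 K') a)
      (Ideal.mem_map_of_mem _ ha) ?_
    intro hmem
    exact hav ((hw a (algebraMap (𝓞 K) (𝓞 K') a) rfl).2 hmem)

end Fermat.Agent.LT.T7.H627

end
end
-- ===== PACK-END LT/T7/H627/LevelLeaves.lean

-- ===== PACK-BEGIN LT/T7/H873/NatShapeArch.lean
section



/-!
# Row LT, tower T7, node T7.L2.1.H2a.B (cut of helper57): leaf PB.3 `NatShapeC57`,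
# the ARCHIMEDEAN part (helper873)

OFF-MAIN.  Right translations by central elements of `GL₂(ℂ)`: they commute with the convolution
(`T6.convInt`, left Haar measure) and with the iterated convolution `H305.convL305`; the
translates of the archimedean components of a pure tensor by real scalar matrices satisfy the
archimedean clauses of the local hypotheses again.
-/

set_option autoImplicit false

open MeasureTheory
open scoped Matrix

noncomputable section

namespace Fermat.Agent.LT.T7.H873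

open Fermat.Agent.LT Fermat.Agent.LT.T7 Fermat.Agent.LT.T7.H305

/-- The right translate `Φ(· z⁻¹)` on `GL₂(ℂ)`. -/
def trC873 (z : GL (Fin 2) ℂ) (Φ : GL (Fin 2) ℂ → ℂ) : GL (Fin 2) ℂ → ℂ :=
  fun x => Φ (x * z⁻¹)

theorem trC_apply873 (z : GL (Fin 2) ℂ) (Φ : GL (Fin 2) ℂ → ℂ) (x : GL (Fin 2) ℂ) :
    trC873 z Φ x = Φ (x * z⁻¹) := rfl

theorem continuous_trC873 (z : GL (Fin 2) ℂ) {Φ : GL (Fin 2) ℂ → ℂ} (h : Continuous Φ) :
    Continuous (trC873 z Φ) :=
  h.comp (continuous_id.mul continuous_const)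

theorem hasCompactSupport_trC873 (z : GL (Fin 2) ℂ) {Φ : GL (Fin 2) ℂ → ℂ}
    (h : HasCompactSupport Φ) : HasCompactSupport (trC873 z Φ) :=
  h.comp_homeomorph (Homeomorph.mulRight z⁻¹)

/-- The convolution commutes with the right translations by central elements. -/
theorem convInt_trC873 (μc : @Measure (GL (Fin 2) ℂ) (borel _))
    (hμ : @Measure.IsHaarMeasure _ _ _ (borel _) μc) (z z' : GL (Fin 2) ℂ)
    (hz : ∀ x : GL (Fin 2) ℂ, z * x = x * z) (f g : GL (Fin 2) ℂ → ℂ) :
    @T6.convInt _ _ (borel _) μc (trC873 z f) (trC873 z' g)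
      = trC873 (z * z') (@T6.convInt _ _ (borel _) μc f g) := by
  let _ : MeasurableSpace (GL (Fin 2) ℂ) := borel _
  have : BorelSpace (GL (Fin 2) ℂ) := ⟨rfl⟩
  have := hμ
  funext x
  show ∫ y, f (y * z⁻¹) * g (y⁻¹ * x * z'⁻¹) ∂μc
    = ∫ y, f y * g (y⁻¹ * (x * (z * z')⁻¹)) ∂μc
  have hzi : ∀ x : GL (Fin 2) ℂ, z⁻¹ * x = x * z⁻¹ := by
    intro x
    have := hz (z⁻¹ * x * z⁻¹)
    calc z⁻¹ * x = z⁻¹ * x * z⁻¹ * z := by group
      _ = z * (z⁻¹ * x * z⁻¹) := (hz _).symm
      _ = x * z⁻¹ := by group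
  have key : ∀ y : GL (Fin 2) ℂ, f (y * z⁻¹) * g (y⁻¹ * x * z'⁻¹)
      = (fun y => f y * g (y⁻¹ * (x * (z * z')⁻¹))) (z⁻¹ * y) := by
    intro y
    show _ = f (z⁻¹ * y) * g ((z⁻¹ * y)⁻¹ * (x * (z * z')⁻¹))
    rw [hzi y]
    congr 2
    calc y⁻¹ * x * z'⁻¹ = y⁻¹ * x * z'⁻¹ * z * z⁻¹ := by group
      _ = z * (y⁻¹ * x * z'⁻¹) * z⁻¹ := by rw [hz (y⁻¹ * x * z'⁻¹)]
      _ = (y * z⁻¹)⁻¹ * (x * (z * z')⁻¹) := by group
  simp_rw [key]
  exact integral_mul_left_eq_self (fun y => f y * g (y⁻¹ * (x * (z * z')⁻¹))) z⁻¹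

/-- The product `z 0 * z 1 * ⋯ * z k`. -/
def prodTo873 (z : ℕ → GL (Fin 2) ℂ) : ℕ → GL (Fin 2) ℂ
  | 0 => z 0
  | (k + 1) => prodTo873 z k * z (k + 1)

theorem prodTo_central873 (z : ℕ → GL (Fin 2) ℂ)
    (hz : ∀ (j : ℕ) (x : GL (Fin 2) ℂ), z j * x = x * z j) (k : ℕ) (x : GL (Fin 2) ℂ) :
    prodTo873 z k * x = x * prodTo873 z k := by
  induction k with
  | zero => exact hz 0 x
  | succ k ih =>
    show prodTo873 z k * z (k + 1) * x = x * (prodTo873 z k * z (k + 1))
    rw [mul_assoc, hz (k + 1) x, ← mul_assoc, ih, mul_assoc]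

/-- The iterated convolution of translates by central elements is the translate of the iterated
convolution by the product. -/
theorem convL_trC873 (μc : @Measure (GL (Fin 2) ℂ) (borel _))
    (hμ : @Measure.IsHaarMeasure _ _ _ (borel _) μc) (z : ℕ → GL (Fin 2) ℂ)
    (hz : ∀ (j : ℕ) (x : GL (Fin 2) ℂ), z j * x = x * z j) (Φ : ℕ → GL (Fin 2) ℂ → ℂ) (k : ℕ) :
    convL305 μc (fun j => trC873 (z j) (Φ j)) k
      = trC873 (prodTo873 z k) (convL305 μc Φ k) := by
  induction k with
  | zero => rfl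
  | succ k ih =>
    show @T6.convInt _ _ (borel _) μc (convL305 μc (fun j => trC873 (z j) (Φ j)) k)
        (trC873 (z (k + 1)) (Φ (k + 1)))
      = trC873 (prodTo873 z k * z (k + 1))
          (@T6.convInt _ _ (borel _) μc (convL305 μc Φ k) (Φ (k + 1)))
    rw [ih]
    exact convInt_trC873 μc hμ _ _ (prodTo_central873 z hz k) _ _

/-! ## Real scalar matrices -/

/-- `z` is the scalar matrix of the real number `c`. -/
def IsScal873 (z : GL (Fin 2) ℂ) (c : ℝ) : Prop :=
  (z : Matrix (Fin 2) (Fin 2) ℂ) = Matrix.diagonal fun _ => ((c : ℝ) : ℂ)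

theorem IsScal873.central {z : GL (Fin 2) ℂ} {c : ℝ} (h : IsScal873 z c) (x : GL (Fin 2) ℂ) :
    z * x = x * z := by
  apply Units.ext
  show (z : Matrix (Fin 2) (Fin 2) ℂ) * (x : Matrix (Fin 2) (Fin 2) ℂ)
    = (x : Matrix (Fin 2) (Fin 2) ℂ) * (z : Matrix (Fin 2) (Fin 2) ℂ)
  rw [h, ← Matrix.smul_one_eq_diagonal, Matrix.smul_mul, Matrix.mul_smul, one_mul, mul_one]

theorem IsScal873.central_inv {z : GL (Fin 2) ℂ} {c : ℝ} (h : IsScal873 z c)
    (x : GL (Fin 2) ℂ) : z⁻¹ * x = x * z⁻¹ := by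
  calc z⁻¹ * x = z⁻¹ * (x * z) * z⁻¹ := by group
    _ = z⁻¹ * (z * x) * z⁻¹ := by rw [h.central x]
    _ = x * z⁻¹ := by group

theorem IsScal873.conj {z : GL (Fin 2) ℂ} {c : ℝ} (h : IsScal873 z c) : conjGL305 z = z := by
  apply Units.ext
  show (z : Matrix (Fin 2) (Fin 2) ℂ).map (starRingEnd ℂ) = (z : Matrix (Fin 2) (Fin 2) ℂ)
  rw [h]
  ext i j
  by_cases hij : i = j
  · subst hij
    simp [Matrix.map_apply, Matrix.diagonal_apply_eq]
  · simp [Matrix.map_apply, Matrix.diagonal_apply_ne _ hij]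

theorem IsScal873.mul {z z' : GL (Fin 2) ℂ} {c c' : ℝ} (h : IsScal873 z c)
    (h' : IsScal873 z' c') : IsScal873 (z * z') (c * c') := by
  show (z : Matrix (Fin 2) (Fin 2) ℂ) * (z' : Matrix (Fin 2) (Fin 2) ℂ) = _
  rw [h, h', Matrix.diagonal_mul_diagonal]
  congr 1
  funext _
  push_cast
  rfl

theorem IsScal873.prodTo {z : ℕ → GL (Fin 2) ℂ} {c : ℕ → ℝ}
    (h : ∀ j : ℕ, IsScal873 (z j) (c j)) (k : ℕ) :
    IsScal873 (prodTo873 z k) (∏ j ∈ Finset.range (k + 1), c j) := by
  induction k with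
  | zero =>
    rw [Finset.prod_range_one]
    exact h 0
  | succ k ih =>
    rw [Finset.prod_range_succ _ (k + 1)]
    exact ih.mul (h (k + 1))

theorem IsScal873.eq_of {z z' : GL (Fin 2) ℂ} {c c' : ℝ} (h : IsScal873 z c)
    (h' : IsScal873 z' c') (hc : c = c') : z = z' := by
  apply Units.ext
  rw [h, h', hc]

/-- The translates of a component at infinity with the properties `arch_up`. -/
theorem arch_trC873 {z : GL (Fin 2) ℂ} {c : ℝ} (hz : IsScal873 z c) {Φ : GL (Fin 2) ℂ → ℂ}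
    (h : Continuous Φ ∧ HasCompactSupport Φ ∧ ∀ g : GL (Fin 2) ℂ, Φ (conjGL305 g) = Φ g) :
    Continuous (trC873 z Φ) ∧ HasCompactSupport (trC873 z Φ) ∧
      ∀ g : GL (Fin 2) ℂ, trC873 z Φ (conjGL305 g) = trC873 z Φ g := by
  refine ⟨continuous_trC873 z h.1, hasCompactSupport_trC873 z h.2.1, fun g => ?_⟩
  show Φ (conjGL305 g * z⁻¹) = Φ (g * z⁻¹)
  rw [← h.2.2 (g * z⁻¹), map_mul, map_inv, hz.conj]

/-- The translates are bi-invariant under `U(2)`. -/
theorem u2_trC873 {z : GL (Fin 2) ℂ} {c : ℝ} (hz : IsScal873 z c) {Φ : GL (Fin 2) ℂ → ℂ}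
    (k₁ k₂ g : GL (Fin 2) ℂ) (h : Φ (k₁ * (g * z⁻¹) * k₂) = Φ (g * z⁻¹)) :
    trC873 z Φ (k₁ * g * k₂) = trC873 z Φ g := by
  show Φ (k₁ * g * k₂ * z⁻¹) = Φ (g * z⁻¹)
  rw [← h]
  congr 1
  rw [mul_assoc (k₁ * g), ← hz.central_inv k₂]
  group

theorem eqns_realised_natShapeArch873 : True := by
  have _h0 := @trC873.eq_1
  have _h1 := @trC873.eq_def
  have _h2 := @trC873.eq_unfold
  have _h6 := @prodTo873.eq_1
  have _h7 := @prodTo873.eq_2
  have _h8 := @prodTo873.eq_def
  have _h9 := @prodTo873.eq_unfold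
  have _h3 := @IsScal873.eq_1
  have _h4 := @IsScal873.eq_def
  have _h5 := @IsScal873.eq_unfold
  trivial

end Fermat.Agent.LT.T7.H873

end

end
-- ===== PACK-END LT/T7/H873/NatShapeArch.lean

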