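import Mathlib
import Fermat.Agent.Pack.LT4.E4L2
import Fermat.Agent.Pack.LT4.E2L3
import Fermat.Agent.Pack.LT2.E19L2
import Fermat.Agent.Pack.LT4.E4L0
import Fermat.Agent.Pack.LT2.E10L1
import Fermat.Agent.Pack.LT3.E0L1
import Fermat.Agent.Pack.LT2.E10L3
import Fermat.Agent.Pack.LT3.E2L2
import Fermat.Agent.Pack.LT4.E4L3
import Fermat.Agent.Pack.LT2.E12L3
import Fermat.Agent.Pack.LT2.E7L2
import Fermat.Agent.Pack.LT3.E12L3
import Fermat.Agent.Pack.LT3.E11L3
import Fermat.Agent.Pack.LT4.E1L3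
import Fermat.Agent.Pack.LT4.E3L2
import Fermat.Agent.Pack.LT3.E19L2
import Fermat.Agent.Pack.LT4.E4L1
import Fermat.Agent.Pack.LT3.E29L3
import Fermat.Agent.Pack.LT4.E2L2
import Fermat.Agent.Pack.LT4.E0L0
import Fermat.Agent.Pack.LT3.E19L0
import Fermat.Agent.Pack.LT3.E20L1
import Fermat.Agent.Pack.LT3.E20L2
import Fermat.Agent.Pack.LT3.E21L2
import Fermat.Agent.Pack.LT3.E20L3
import Fermat.Agent.Pack.LT3.E21L3
import Fermat.Agent.Pack.LT3.E22L2
import Fermat.Agent.Pack.LT3.E29L2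
import Fermat.Agent.Pack.LT4.E1L0
import Fermat.Agent.Pack.LT4.E1L2

set_option linter.all false

-- ===== PACK-BEGIN LT/T7/H62/RigidPlug5.lean
section




/-!
# Row LT, tower T7, NODE T7.14 `RigidC` -- PLUG, state 15:47Z (sub-architect helper62)

OFF-MAIN.  `Open62e K` = the TWO leaves of `T7.RigidC K` which are still open:
`CountC` (row 1519), `FoldWhitC` (row 1717).
`rigidC_of_open62e : Open62e K → T7.RigidC K`, `rigidAll_of_open62e`.

CLOSED since `RigidPlug4.lean`: `LocC` (helper941), hence the node `WhitForm2C`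
(`whitForm2C62`).

All imported files are byte-identical copies of the owners' files.
-/

set_option autoImplicit false

open IsDedekindDomain NumberField MeasureTheory

namespace Fermat.Agent.LT.T7.Rigid

open Fermat.Agent.LT.H556.A0 Fermat.Agent.LT.T7

variable (K : Type) [Field K] [NumberField K]

/-- **The node `WhitForm2C` is closed.** -/
theorem whitForm2C62 : WhitForm2C K :=
  whitForm2C_of (torusC62 K) Fermat.Agent.LT.T7.H941.locC941
    (Fermat.Agent.LT.T7.Rigid.H267.mixC267 K)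

/-- THE OPEN LEAVES of `T7.RigidC K`, state 15:47Z. -/
structure Open62e : Prop where
  /-- T7.14.3 (row 1519, helper671). -/
  count : CountC K
  /-- T7.14.6a (row 1717, helper290 / helper57). -/
  foldWhit : FoldWhitC K

/-- **`T7.RigidC K` from the two open leaves.** -/
theorem rigidC_of_open62e (h : Open62e K) : RigidC K :=
  rigidC_of_open62d K
    { count := h.count
      foldWhit := h.foldWhit
      loc := Fermat.Agent.LT.T7.H941.locC941 }

/-- **`T7.RigidAll` from the two open leaves for every number field.** -/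
theorem rigidAll_of_open62e
    (h : ∀ (K : Type) [Field K] [NumberField K], Open62e K) : RigidAll :=
  fun K _ _ => rigidC_of_open62e K (h K)

end Fermat.Agent.LT.T7.Rigid

end
-- ===== PACK-END LT/T7/H62/RigidPlug5.lean

-- ===== PACK-BEGIN LT/T7/H62/RigidPlug6.lean
section




/-!
# Row LT, tower T7, NODE T7.14 `RigidC` -- PLUG, state 16:20Z (sub-architect helper62)

OFF-MAIN.  ONE leaf of `T7.RigidC K` is still open: `FoldWhitC` (row 1717).
`rigidC_of_foldWhit62 : FoldWhitC K → T7.RigidC K`, `rigidAll_of_foldWhit62`.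

CLOSED since `RigidPlug5.lean`: `CountC` (helper671, every number field).

All imported files are byte-identical copies of the owners' files.
-/

set_option autoImplicit false

open IsDedekindDomain NumberField MeasureTheory

namespace Fermat.Agent.LT.T7.Rigid

open Fermat.Agent.LT.H556.A0 Fermat.Agent.LT.T7

variable (K : Type) [Field K] [NumberField K]

/-- **`T7.RigidC K` from the last open leaf.** -/
theorem rigidC_of_foldWhit62 (h : FoldWhitC K) : RigidC K :=
  rigidC_of_open62e K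
    { count := Fermat.Agent.LT.T7.H671.countC_closed671 K
      foldWhit := h }

/-- **`T7.RigidAll` from `FoldWhitC` for every number field.** -/
theorem rigidAll_of_foldWhit62
    (h : ∀ (K : Type) [Field K] [NumberField K], FoldWhitC K) : RigidAll :=
  fun K _ _ => rigidC_of_foldWhit62 K (h K)

end Fermat.Agent.LT.T7.Rigid

end
-- ===== PACK-END LT/T7/H62/RigidPlug6.lean

-- ===== PACK-BEGIN LT/T2/Extras.lean
section



/-!
# Row LT, tower T2: EXTRAS for the consumers (helper130, architect)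

OFF-MAIN.  ADDITIVE: `Spec.lean` v3 (sha256 b934629a) is unchanged.  PROVED, UNCONDITIONAL.

The frozen `IsCuspBasis` records the eigenvalues of the Hecke operators and of the sphere and
circle means.  The construction (helper566 `exists_jointEig566`) gives MORE: the members of the
basis are eigenfunctions of EVERY operator of the tower (`IsOp`: convolutions by spherical test
functions, Hecke sums, central shifts, sphere and circle means and their composites).  This file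
exports it, together with the bound on the eigenvalues of the means which the comparison layer
asks for (`T7.EigData.IsUnitaryOut`: `‖m w d‖ ≤ 4π`):

* `norm_sphereMean_le130`, `norm_circleMean_le130`: `|M φ| ≤ 4π sup |φ|`, resp. `2π sup |φ|`;
* `IsCuspBasisPlus` = `IsCuspBasis` + `eig_op` + `bound_m`;
* `cuspSpecPlus_closed K 𝔫 h𝔫 F : ∃ ι u m a b, IsCuspBasisPlus 𝔫 F u m a b`.
-/

set_option autoImplicit false
set_option linter.unusedSectionVars false
set_option linter.style.haveILetI false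

open IsDedekindDomain NumberField MeasureTheory
open Fermat.Agent.LT.H556.A0
open scoped ComplexConjugate

noncomputable section

namespace Fermat.Agent.LT.T2

variable {K : Type} [Field K] [NumberField K]

attribute [local instance] borelG

/-- If `|c| |e(g)| ≤ A sup |e|` for all `g` and `e` is bounded and not zero, then `|c| ≤ A`. -/
theorem norm_le_of_pointwise130 {e : G K → ℂ} (hb : ∃ C : ℝ, ∀ g : G K, ‖e g‖ ≤ C)
    (hne : ∃ g : G K, e g ≠ 0) {A : ℝ} {c : ℂ}
    (h : ∀ C : ℝ, (∀ g : G K, ‖e g‖ ≤ C) → ∀ g : G K, ‖c‖ * ‖e g‖ ≤ A * C) : ‖c‖ ≤ A := by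
  obtain ⟨C₀, hC₀⟩ := hb
  obtain ⟨g₀, hg₀⟩ := hne
  have hbdd : BddAbove (Set.range fun g : G K => ‖e g‖) := ⟨C₀, by rintro _ ⟨g, rfl⟩; exact hC₀ g⟩
  set S : ℝ := ⨆ g : G K, ‖e g‖ with hS
  have hle : ∀ g : G K, ‖e g‖ ≤ S := fun g => le_ciSup hbdd g
  have hSpos : 0 < S := lt_of_lt_of_le (norm_pos_iff.2 hg₀) (hle g₀)
  have hmain : ∀ g : G K, ‖c‖ * ‖e g‖ ≤ A * S := h S hle
  by_contra hcon
  push Not at hcon
  have hcpos : 0 < ‖c‖ := by
    by_contra h0
    have h0' : ‖c‖ = 0 := le_antisymm (not_lt.1 h0) (norm_nonneg c)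
    have := hmain g₀
    rw [h0', zero_mul] at this
    have hA : 0 ≤ A := by
      by_contra hA
      push Not at hA
      have : A * S < 0 := mul_neg_of_neg_of_pos hA hSpos
      linarith
    rw [h0'] at hcon
    linarith
  have h2 : ∀ g : G K, ‖e g‖ ≤ A * S / ‖c‖ := fun g => by
    rw [le_div_iff₀ hcpos, mul_comm]
    exact hmain g
  haveI : Nonempty (G K) := ⟨g₀⟩
  have h3 : S ≤ A * S / ‖c‖ := ciSup_le h2
  rw [le_div_iff₀ hcpos] at h3
  have h4 : S * ‖c‖ ≤ S * A := by rw [mul_comm S A]; exact h3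
  have h5 : ‖c‖ ≤ A := le_of_mul_le_mul_left h4 hSpos
  exact absurd h5 (not_le.2 hcon)

/-- `|M φ (g)| ≤ 4π sup |φ|` for the sphere mean. -/
theorem norm_sphereMean_le130 (Y : ℝ → ℝ → G K) (e : G K → ℂ) (C : ℝ)
    (hC : ∀ g : G K, ‖e g‖ ≤ C) (g : G K) : ‖sphereMean Y e g‖ ≤ 4 * Real.pi * C := by
  have hC0 : 0 ≤ C := le_trans (norm_nonneg _) (hC g)
  have hinner : ∀ α : ℝ,
      ‖∫ β in (0 : ℝ)..Real.pi, e (g * Y α β) * ((Real.sin β : ℝ) : ℂ)‖ ≤ 2 * C := by
    intro α
    have hb : IntervalIntegrable (fun β : ℝ => C * Real.sin β) volume 0 Real.pi :=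
      (Real.continuous_sin.intervalIntegrable 0 Real.pi).const_mul C
    have hae : ∀ᵐ β : ℝ ∂(volume : Measure ℝ), β ∈ Set.Ioc (0 : ℝ) Real.pi →
        ‖e (g * Y α β) * ((Real.sin β : ℝ) : ℂ)‖ ≤ C * Real.sin β := by
      refine Filter.Eventually.of_forall fun β hβ => ?_
      have hs : 0 ≤ Real.sin β := Real.sin_nonneg_of_nonneg_of_le_pi hβ.1.le hβ.2
      rw [norm_mul, Complex.norm_real, Real.norm_of_nonneg hs]
      exact mul_le_mul_of_nonneg_right (hC _) hs
    have h1 := intervalIntegral.norm_integral_le_of_norm_le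
      (f := fun β : ℝ => e (g * Y α β) * ((Real.sin β : ℝ) : ℂ))
      (g := fun β : ℝ => C * Real.sin β) (μ := volume) Real.pi_pos.le hae hb
    have h2 : ∫ β in (0 : ℝ)..Real.pi, C * Real.sin β = 2 * C := by
      rw [intervalIntegral.integral_const_mul, integral_sin]
      simp
      ring
    rw [h2] at h1
    exact h1
  have h3 := intervalIntegral.norm_integral_le_of_norm_le_const
    (f := fun α : ℝ => ∫ β in (0 : ℝ)..Real.pi, e (g * Y α β) * ((Real.sin β : ℝ) : ℂ))
    (a := 0) (b := 2 * Real.pi) (C := 2 * C) (fun α _ => hinner α)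
  have h4 : |2 * Real.pi - 0| = 2 * Real.pi := by
    rw [sub_zero, abs_of_nonneg (by positivity)]
  rw [h4] at h3
  unfold sphereMean
  calc ‖∫ α in (0 : ℝ)..(2 * Real.pi), ∫ β in (0 : ℝ)..Real.pi,
        e (g * Y α β) * ((Real.sin β : ℝ) : ℂ)‖ ≤ 2 * C * (2 * Real.pi) := h3
    _ = 4 * Real.pi * C := by ring

/-- `|M φ (g)| ≤ 2π sup |φ|` for the circle mean. -/
theorem norm_circleMean_le130 (Y : ℝ → G K) (e : G K → ℂ) (C : ℝ)
    (hC : ∀ g : G K, ‖e g‖ ≤ C) (g : G K) : ‖circleMean Y e g‖ ≤ 2 * Real.pi * C := by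
  have h3 := intervalIntegral.norm_integral_le_of_norm_le_const
    (f := fun θ : ℝ => e (g * Y θ)) (a := 0) (b := 2 * Real.pi) (C := C) (fun θ _ => hC _)
  have h4 : |2 * Real.pi - 0| = 2 * Real.pi := by
    rw [sub_zero, abs_of_nonneg (by positivity)]
  rw [h4] at h3
  unfold circleMean
  calc ‖∫ θ in (0 : ℝ)..(2 * Real.pi), e (g * Y θ)‖ ≤ C * (2 * Real.pi) := h3
    _ = 2 * Real.pi * C := by ring

/-- An `IsCuspBasis` whose members are eigenfunctions of EVERY operator of the tower and whose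
mean eigenvalues are bounded by `4π`. -/
structure IsCuspBasisPlus (𝔫 : Ideal (𝓞 K)) (F : Frame K) {ι : Type}
    (u : ι → G K → ℂ) (m : ι → InfinitePlace K → ℝ → ℂ)
    (a b : ι → HeightOneSpectrum (𝓞 K) → ℂ) : Prop where
  basis : IsCuspBasis 𝔫 F u m a b
  eig_op : ∀ T, IsOp 𝔫 F T → ∀ j, ∃ c : ℂ, T (u j) = c • u j
  bound_m : ∀ j (w : InfinitePlace K) (d : ℝ), 0 < d → ‖m j w d‖ ≤ 4 * Real.pi

section Pack

variable (𝔫 : Ideal (𝓞 K)) (F : Frame K) (hOA : OpsAdj K 𝔫)
  {e : G K → ℂ} (he : IsCuspFn 𝔫 e) (h1 : pair F e e = 1)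
  (heig : ∀ T, IsOp 𝔫 F T → ∃ c : ℂ, T e = c • e)

include hOA he h1 heig in
/-- The archimedean data of a joint eigenfunction, with the bound. -/
theorem mean_pack130 (w : InfinitePlace K) (d : ℝ) :
    ∃ c : ℂ, c.im = 0 ∧ ‖c‖ ≤ 4 * Real.pi ∧
      (w.IsComplex → 0 < d → ∀ Y : ℝ → ℝ → G K, IsSphereAt w d Y →
        ∀ g : G K, sphereMean Y e g = c * e g) ∧
      (w.IsReal → 0 < d → ∀ Y : ℝ → G K, IsCircleAt w d Y →
        ∀ g : G K, circleMean Y e g = c * e g) := by
  have h4pi : (0 : ℝ) ≤ 4 * Real.pi := by positivity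
  have hzero : ‖(0 : ℂ)‖ ≤ 4 * Real.pi := by rw [norm_zero]; exact h4pi
  have hne := H566.exists_ne_zero566 F h1
  by_cases hd : 0 < d
  · by_cases hw : w.IsComplex
    · have hnr : ¬ w.IsReal := InfinitePlace.not_isReal_iff_isComplex.2 hw
      by_cases hex : ∃ Y : ℝ → ℝ → G K, IsSphereAt w d Y
      · obtain ⟨Y₀, hY₀⟩ := hex
        obtain ⟨c, hc⟩ := heig (sphereMean Y₀) (IsOp.sphere w hw d hd Y₀ hY₀)
        refine ⟨c, ?_, ?_, fun _ _ Y hY g => ?_, fun h => absurd h hnr⟩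
        · exact H566.im_eq_zero_of_selfAdj566 F h1 hc
            ((hOA F).2.2.1 w hw d hd Y₀ hY₀ e e he he)
        · refine norm_le_of_pointwise130 he.bdd hne fun C hC g => ?_
          have := norm_sphereMean_le130 Y₀ e C hC g
          rw [hc] at this
          simpa [Pi.smul_apply, smul_eq_mul, norm_mul] using this
        · rw [H566.isSphereAt_unique566 hY₀ hY, hc]
          rfl
      · exact ⟨0, rfl, hzero, fun _ _ Y hY => absurd ⟨Y, hY⟩ hex, fun h => absurd h hnr⟩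
    · have hr : w.IsReal := InfinitePlace.not_isComplex_iff_isReal.1 hw
      by_cases hex : ∃ Y : ℝ → G K, IsCircleAt w d Y
      · obtain ⟨Y₀, hY₀⟩ := hex
        obtain ⟨c, hc⟩ := heig (circleMean Y₀) (IsOp.circle w hr d hd Y₀ hY₀)
        refine ⟨c, ?_, ?_, fun h => absurd h hw, fun _ _ Y hY g => ?_⟩
        · exact H566.im_eq_zero_of_selfAdj566 F h1 hc
            ((hOA F).2.2.2 w hr d hd Y₀ hY₀ e e he he)
        · refine norm_le_of_pointwise130 he.bdd hne fun C hC g => ?_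
          have h2 := norm_circleMean_le130 Y₀ e C hC g
          rw [hc] at h2
          have hC0 : 0 ≤ C := le_trans (norm_nonneg _) (hC g)
          have h3 : 2 * Real.pi * C ≤ 4 * Real.pi * C :=
            mul_le_mul_of_nonneg_right (by nlinarith [Real.pi_pos]) hC0
          have h4 : ‖c‖ * ‖e g‖ ≤ 2 * Real.pi * C := by
            simpa [Pi.smul_apply, smul_eq_mul, norm_mul] using h2
          exact le_trans h4 h3
        · rw [H566.isCircleAt_unique566 hY₀ hY, hc]
          rfl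
      · exact ⟨0, rfl, hzero, fun h => absurd h hw, fun _ _ Y hY => absurd ⟨Y, hY⟩ hex⟩
  · exact ⟨0, rfl, hzero, fun _ h => absurd h hd, fun _ h => absurd h hd⟩

end Pack

/-- **The discreteness of the cuspidal spectrum, strong form** (UNCONDITIONAL): for every frame
there is an orthonormal complete family of cusp functions of level `U(𝔫)` which are
eigenfunctions of EVERY operator of the tower, with unitary eigen-data. -/
theorem cuspSpecPlus_closed (K : Type) [Field K] [NumberField K] (𝔫 : Ideal (𝓞 K))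
    (h𝔫 : 𝔫 ≠ ⊥) (F : Frame K) :
    ∃ (ι : Type) (u : ι → G K → ℂ) (m : ι → InfinitePlace K → ℝ → ℂ)
      (a b : ι → HeightOneSpectrum (𝓞 K) → ℂ), IsCuspBasisPlus 𝔫 F u m a b := by
  have hT1 := T1.t1Out K
  have hE := estimates_closed K 𝔫 h𝔫
  have hPD : PairDefinite K 𝔫 := hE.2.1
  have hO := ops_closed K 𝔫 h𝔫
  have hOA : OpsAdj K 𝔫 := hO.2
  obtain ⟨ι, e, hcusp, hone, horth, heig, hpar⟩ :=
    H566.exists_jointEig566 hT1.addFundDom 𝔫 F hPD H781.leaf08_781 hE.2.2.2.2.2.1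
      hE.2.2.2.2.2.2.1 (approxId_closed K 𝔫 h𝔫) hO.1
  have hH : ∀ (j : ι) (v : HeightOneSpectrum (𝓞 K)), ∃ ab : ℂ × ℂ, ¬ v.asIdeal ∣ 𝔫 →
      (IsHeckeEigenAt (e j) v ab.1 ab.2 ∧ ‖ab.2‖ = 1 ∧ conj ab.1 = ab.1 * conj ab.2 ∧
        ‖ab.1‖ * Real.sqrt (Ideal.absNorm v.asIdeal : ℝ)
          ≤ (Ideal.absNorm v.asIdeal : ℝ) + 1) := by
    intro j v
    by_cases hv : ¬ v.asIdeal ∣ 𝔫
    · obtain ⟨a, b, h⟩ := H566.hecke_pack566 hT1.heckeCoset 𝔫 F hOA (hcusp j) (hone j)
        (fun T hT => heig T hT j) v hv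
      exact ⟨(a, b), fun _ => h⟩
    · exact ⟨(0, 0), fun h => absurd h hv⟩
  choose ab hab using hH
  have hM : ∀ (j : ι) (w : InfinitePlace K) (d : ℝ), ∃ c : ℂ, c.im = 0 ∧ ‖c‖ ≤ 4 * Real.pi ∧
      (w.IsComplex → 0 < d → ∀ Y : ℝ → ℝ → G K, IsSphereAt w d Y →
        ∀ g : G K, sphereMean Y (e j) g = c * e j g) ∧
      (w.IsReal → 0 < d → ∀ Y : ℝ → G K, IsCircleAt w d Y →
        ∀ g : G K, circleMean Y (e j) g = c * e j g) := fun j w d =>
    mean_pack130 𝔫 F hOA (hcusp j) (hone j) (fun T hT => heig T hT j) w d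
  choose m hm using hM
  refine ⟨ι, e, m, fun j v => (ab j v).1, fun j v => (ab j v).2, ?_, heig, ?_⟩
  · exact
      { cusp := hcusp
        norm_one := hone
        orth := horth
        eig_complex := fun j w hw d hd Y hY g => (hm j w d).2.2.1 hw hd Y hY g
        eig_real := fun j w hw d hd Y hY g => (hm j w d).2.2.2 hw hd Y hY g
        hecke := fun j v hv => (hab j v hv).1
        unit_b := fun j v hv => (hab j v hv).2.1
        conj_a := fun j v hv => (hab j v hv).2.2.1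
        bound_a := fun j v hv => (hab j v hv).2.2.2
        real_m := fun j w d _ => (hm j w d).1
        parseval := hpar }
  · exact fun j w d _ => (hm j w d).2.1

end Fermat.Agent.LT.T2

end

end
-- ===== PACK-END LT/T2/Extras.lean

-- ===== PACK-BEGIN LT/T2/ExtrasSeq.lean
section



/-!
# Row LT, tower T2: EXTRAS for the consumers, part 2 (helper130, architect)

OFF-MAIN.  ADDITIVE, PROVED, UNCONDITIONAL.

* `approxSeq130`: ONE sequence `f_k` of spherical self-adjoint test functions with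
  `R(f_k) φ → φ` in `L²` for EVERY cusp function `φ` (the sequence of helper907, whose leaf
  exports the existence for each `φ` only).
* `finite_large130`, `countable_index130`: the index type of a joint eigenbasis is COUNTABLE
  (for each `k` only finitely many members have `|eigenvalue of R(f_k)| > 1/2`:
  Hilbert--Schmidt; every member occurs for some `k`: approximate identity).
* `finite_class130`: FINITE MULTIPLICITY of every system of joint eigenvalues.
* `exists_natBasis130`: the basis as a SEQUENCE indexed by `ℕ`, padded by zeros (the shape of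
  `T5.IsCuspONB`: orthogonal, norm `1` or identically `0`, Parseval), every member a joint
  eigenfunction of every operator of the tower.
-/

set_option autoImplicit false
set_option linter.unusedSectionVars false
set_option linter.style.haveILetI false

open IsDedekindDomain NumberField Matrix MeasureTheory Filter Topology
open scoped MatrixGroups Classical ComplexConjugate

noncomputable section

namespace Fermat.Agent.LT.T2

open Fermat.Agent.LT.H556.A0 Fermat.Agent.LT.T8.H864 Fermat.Agent.LT.H51.MS4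
open Fermat.Agent.LT.T2.H907

attribute [local instance] Fermat.Agent.LT.T2.borelG

variable {K : Type} [Field K] [NumberField K]

/-- ONE approximate identity for all cusp functions. -/
theorem approxSeq130 (K : Type) [Field K] [NumberField K] (𝔫 : Ideal (𝓞 K)) (h𝔫 : 𝔫 ≠ ⊥)
    (F : Frame K) :
    ∃ f : ℕ → G K → ℂ, (∀ k, IsSphTestFn 𝔫 (f k)) ∧ (∀ k, adj (f k) = f k) ∧
      ∀ φ : G K → ℂ, IsCuspFn 𝔫 φ →
        Tendsto (fun k => nsq F (fun g => conv F (f k) φ g - φ g)) atTop (𝓝 0) := by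
  have hC : ConvCusp K 𝔫 := convCusp_closed K 𝔫 h𝔫
  have := borelSpace_G907 (K := K)
  have := F.haar
  set η : ℕ → ℝ := fun k => 1 / ((k : ℝ) + 1) with hη
  have hηpos : ∀ k, 0 < η k := fun k => by positivity
  have hη1 : ∀ k, η k ≤ 1 := fun k => by
    rw [hη, div_le_one (by positivity)]
    have : (0 : ℝ) ≤ k := Nat.cast_nonneg k
    linarith
  refine ⟨fun k => apx907 F 𝔫 (η k), fun k => isSphTestFn_testFn907 h𝔫 (hηpos k) (hη1 k) _,
    fun k => adj_testFn907 𝔫 (η k) _, fun φ hφ => ?_⟩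
  obtain ⟨B, hB⟩ := hφ.bdd
  have hB0 : 0 ≤ B := (norm_nonneg _).trans (hB 1)
  set ψ : ℕ → G K → ℂ := fun k g => conv F (apx907 F 𝔫 (η k)) φ g - φ g with hψ
  have hψc : ∀ k, Continuous (ψ k) := fun k =>
    ((hC F).2.2.1 _ φ (isTestFn_testFn907 h𝔫 (hηpos k) (hη1 k) _) hφ).cont.sub hφ.cont
  have hψb : ∀ k g, ‖ψ k g‖ ≤ 2 * B := fun k g => by
    refine norm_conv_sub_le907 F h𝔫 (hηpos k) (hη1 k) hφ.cont g fun h _ => ?_
    calc ‖φ (g * h) - φ g‖ ≤ ‖φ (g * h)‖ + ‖φ g‖ := norm_sub_le _ _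
      _ ≤ B + B := add_le_add (hB _) (hB _)
      _ = 2 * B := by ring
  have hψlim : ∀ g, Tendsto (fun k => ψ k g) atTop (𝓝 0) := fun g => by
    rw [Metric.tendsto_atTop]
    intro ε' hε'
    obtain ⟨k₀, hk₀⟩ := exists_close907 h𝔫 hφ.cont hφ.level_inv hφ.arch_compact g
      (half_pos hε')
    refine ⟨k₀, fun k hk => ?_⟩
    rw [dist_zero_right]
    have hle : ‖ψ k g‖ ≤ ε' / 2 := by
      refine norm_conv_sub_le907 F h𝔫 (hηpos k) (hη1 k) hφ.cont g fun h hb => ?_
      obtain ⟨hP, hD⟩ := pfin_of_bump907_ne_zero (hηpos k) hb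
      refine (hk₀ h hP (hD.le.trans ?_)).le
      rw [hη]
      apply one_div_le_one_div_of_le (by positivity)
      have : (k₀ : ℝ) ≤ k := Nat.cast_le.mpr hk
      linarith
    linarith
  have hfin : IsFiniteMeasure (F.μ.restrict F.D) :=
    ⟨by rw [Measure.restrict_apply_univ]; exact F.fin⟩
  have hlim : Tendsto (fun k => ∫ g in F.D, ψ k g * (starRingEnd ℂ) (ψ k g) ∂F.μ) atTop
      (𝓝 (∫ _ in F.D, (0 : ℂ) ∂F.μ)) := by
    refine tendsto_integral_of_dominated_convergence (fun _ => (2 * B) ^ 2)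
      (fun k => ?_) (integrable_const _) (fun k => Eventually.of_forall fun g => ?_)
      (Eventually.of_forall fun g => ?_)
    · exact ((hψc k).mul (Complex.continuous_conj.comp (hψc k))).aestronglyMeasurable
    · rw [norm_mul, RCLike.norm_conj, ← sq]
      exact pow_le_pow_left₀ (norm_nonneg _) (hψb k g) 2
    · have := (hψlim g).mul ((Complex.continuous_conj.tendsto 0).comp (hψlim g))
      simpa using this
  rw [integral_zero] at hlim
  have h0 : Tendsto (fun k => (∫ g in F.D, ψ k g * (starRingEnd ℂ) (ψ k g) ∂F.μ).re) atTop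
      (𝓝 ((0 : ℂ).re)) := (Complex.continuous_re.tendsto 0).comp hlim
  rw [Complex.zero_re] at h0
  exact h0

/-- `‖c φ‖² = |c|² ‖φ‖²`. -/
theorem nsq_smul130 (F : Frame K) (c : ℂ) (φ : G K → ℂ) :
    nsq F (c • φ) = ‖c‖ ^ 2 * nsq F φ := by
  unfold nsq
  rw [H566.pair_smul_left566, H566.pair_smul_right566, H566.pair_self_ofReal566, ← mul_assoc,
    Complex.mul_conj, ← Complex.ofReal_mul, Complex.ofReal_re, Complex.normSq_eq_norm_sq]
  rfl

section Count

variable {𝔫 : Ideal (𝓞 K)} {F : Frame K} {ι : Type} {u : ι → G K → ℂ}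

/-- For a test function `f`: only finitely many members of an orthonormal family of
eigenfunctions of `R(f)` have an eigenvalue of absolute value `> 1/2`. -/
theorem finite_large130 (hHS : HSBound K 𝔫) (hcusp : ∀ j, IsCuspFn 𝔫 (u j))
    (hone : ∀ j, pair F (u j) (u j) = 1) (horth : ∀ i j, i ≠ j → pair F (u i) (u j) = 0)
    (f : G K → ℂ) (hf : IsTestFn 𝔫 f) (c : ι → ℂ) (hc : ∀ j, conv F f (u j) = c j • u j) :
    {j : ι | 1 / 2 < ‖c j‖}.Finite := by
  obtain ⟨C, hC⟩ := hHS F f hf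
  by_contra hinf
  have hinf' : {j : ι | 1 / 2 < ‖c j‖}.Infinite := hinf
  obtain ⟨n, hn⟩ := exists_nat_gt (4 * C)
  obtain ⟨t, hts, htc⟩ := hinf'.exists_subset_card_eq n
  have e : Fin n ≃ t := (t.equivFin.trans (finCongr htc)).symm
  have hnsq1 : ∀ j, nsq F (u j) = 1 := fun j => by
    unfold nsq
    rw [hone j]
    rfl
  have hsum := hC n (fun i => u (e i)) (fun i => hcusp _) (fun i j => by
    by_cases hij : i = j
    · rw [hij, if_pos rfl]
      exact hone _
    · rw [if_neg hij]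
      refine horth _ _ fun h => hij ?_
      exact e.injective (Subtype.ext h))
  have hterm : ∀ i : Fin n, (1 : ℝ) / 4 ≤ nsq F (conv F f (u (e i))) := fun i => by
    rw [hc, nsq_smul130, hnsq1, mul_one]
    have h1 : 1 / 2 < ‖c (e i)‖ := hts (e i).2
    nlinarith [norm_nonneg (c (e i))]
  have h2 : (n : ℝ) * (1 / 4) ≤ ∑ i : Fin n, nsq F (conv F f (u (e i))) := by
    calc (n : ℝ) * (1 / 4) = ∑ _i : Fin n, (1 / 4 : ℝ) := by
          rw [Finset.sum_const, Finset.card_univ, Fintype.card_fin, nsmul_eq_mul]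
      _ ≤ ∑ i : Fin n, nsq F (conv F f (u (e i))) := Finset.sum_le_sum fun i _ => hterm i
  linarith

/-- If `R(f_k) e → e` in `L²` and `R(f_k) e = c_k e`, `‖e‖ = 1`, then `|c_k| > 1/2` for some
`k`. -/
theorem large_of_approx130 {f : ℕ → G K → ℂ} {e : G K → ℂ} (h1 : pair F e e = 1)
    (hlim : Tendsto (fun k => nsq F (fun g => conv F (f k) e g - e g)) atTop (𝓝 0))
    (c : ℕ → ℂ) (hc : ∀ k, conv F (f k) e = c k • e) : ∃ k : ℕ, 1 / 2 < ‖c k‖ := by
  have hnsq1 : nsq F e = 1 := by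
    unfold nsq
    rw [h1]
    rfl
  have h2 : ∀ k, nsq F (fun g => conv F (f k) e g - e g) = ‖c k - 1‖ ^ 2 := by
    intro k
    have h3 : (fun g => conv F (f k) e g - e g) = (c k - 1) • e := by
      funext g
      rw [hc k]
      simp only [Pi.smul_apply, smul_eq_mul]
      ring
    rw [h3, nsq_smul130, hnsq1, mul_one]
  simp only [h2] at hlim
  obtain ⟨k, hk⟩ := ((tendsto_order.1 hlim).2 (1 / 4) (by norm_num)).exists
  refine ⟨k, ?_⟩
  have h4 : ‖c k - 1‖ < 1 / 2 := by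
    by_contra h5
    push Not at h5
    nlinarith [norm_nonneg (c k - 1)]
  have h6 : ‖(1 : ℂ)‖ ≤ ‖c k‖ + ‖c k - 1‖ := by
    have := norm_sub_le (c k) (c k - 1)
    simpa using this
  rw [norm_one] at h6
  linarith

/-- The index type of an orthonormal family of joint eigen-cusp-functions is countable. -/
theorem countable_index130 (h𝔫 : 𝔫 ≠ ⊥) (hcusp : ∀ j, IsCuspFn 𝔫 (u j))
    (hone : ∀ j, pair F (u j) (u j) = 1) (horth : ∀ i j, i ≠ j → pair F (u i) (u j) = 0)
    (heig : ∀ T, IsOp 𝔫 F T → ∀ j, ∃ c : ℂ, T (u j) = c • u j) : Countable ι := by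
  obtain ⟨f, hsph, -, hlim⟩ := approxSeq130 K 𝔫 h𝔫 F
  have hHS : HSBound K 𝔫 := (estimates_closed K 𝔫 h𝔫).2.2.2.2.2.1
  have hex : ∀ (k : ℕ) (j : ι), ∃ c : ℂ, conv F (f k) (u j) = c • u j := fun k j =>
    heig (conv F (f k)) (IsOp.conv (f k) (hsph k)) j
  choose c hc using hex
  have hcover : ∀ j : ι, ∃ k : ℕ, 1 / 2 < ‖c k j‖ := fun j =>
    large_of_approx130 (hone j) (hlim (u j) (hcusp j)) (fun k => c k j) (fun k => hc k j)
  have hfin : ∀ k : ℕ, {j : ι | 1 / 2 < ‖c k j‖}.Finite := fun k =>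
    finite_large130 hHS hcusp hone horth (f k) (hsph k).test (c k) (hc k)
  have huniv : (Set.univ : Set ι) = ⋃ k : ℕ, {j : ι | 1 / 2 < ‖c k j‖} := by
    ext j
    simp only [Set.mem_univ, Set.mem_iUnion, true_iff]
    show ∃ k, 1 / 2 < ‖c k j‖
    exact hcover j
  have hcount : (Set.univ : Set ι).Countable := by
    rw [huniv]
    exact Set.countable_iUnion fun k => (hfin k).countable
  exact Set.countable_univ_iff.1 hcount

/-- **Finite multiplicity**: the members of an orthonormal family of joint eigen-cusp-functions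
which have the same eigenvalues as `u j₀` for every operator of the tower are finite in
number. -/
theorem finite_class130 (h𝔫 : 𝔫 ≠ ⊥) (hcusp : ∀ j, IsCuspFn 𝔫 (u j))
    (hone : ∀ j, pair F (u j) (u j) = 1) (horth : ∀ i j, i ≠ j → pair F (u i) (u j) = 0)
    (heig : ∀ T, IsOp 𝔫 F T → ∀ j, ∃ c : ℂ, T (u j) = c • u j) (j₀ : ι) :
    {j : ι | ∀ T, IsOp 𝔫 F T → ∀ c : ℂ, T (u j₀) = c • u j₀ → T (u j) = c • u j}.Finite := by
  obtain ⟨f, hsph, -, hlim⟩ := approxSeq130 K 𝔫 h𝔫 F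
  have hHS : HSBound K 𝔫 := (estimates_closed K 𝔫 h𝔫).2.2.2.2.2.1
  have hex : ∀ (k : ℕ) (j : ι), ∃ c : ℂ, conv F (f k) (u j) = c • u j := fun k j =>
    heig (conv F (f k)) (IsOp.conv (f k) (hsph k)) j
  choose c hc using hex
  obtain ⟨k, hk⟩ := large_of_approx130 (hone j₀) (hlim (u j₀) (hcusp j₀)) (fun k => c k j₀)
    (fun k => hc k j₀)
  set P : ι → Prop := fun j =>
    ∀ T, IsOp 𝔫 F T → ∀ c : ℂ, T (u j₀) = c • u j₀ → T (u j) = c • u j with hP
  set c' : ι → ℂ := fun j => if P j then c k j₀ else c k j with hc'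
  have hc'eig : ∀ j, conv F (f k) (u j) = c' j • u j := fun j => by
    by_cases hj : P j
    · simp only [hc', if_pos hj]
      exact hj (conv F (f k)) (IsOp.conv (f k) (hsph k)) (c k j₀) (hc k j₀)
    · simp only [hc', if_neg hj]
      exact hc k j
  refine (finite_large130 hHS hcusp hone horth (f k) (hsph k).test c' hc'eig).subset ?_
  intro j hj
  show 1 / 2 < ‖c' j‖
  have hj' : P j := hj
  simp only [hc', if_pos hj']
  exact hk

end Count

/-- **The joint eigenbasis as a SEQUENCE** (UNCONDITIONAL): for every frame there is a sequence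
`e : ℕ → (G K → ℂ)` of cusp functions of level `U(𝔫)`, pairwise orthogonal, each of norm `1` or
identically `0`, complete (Parseval), each an eigenfunction of every operator of the tower. -/
theorem exists_natBasis130 (K : Type) [Field K] [NumberField K] (𝔫 : Ideal (𝓞 K))
    (h𝔫 : 𝔫 ≠ ⊥) (F : Frame K) :
    ∃ e : ℕ → G K → ℂ, (∀ n, IsCuspFn 𝔫 (e n)) ∧
      (∀ n n', n ≠ n' → pair F (e n) (e n') = 0) ∧
      (∀ n, pair F (e n) (e n) = 1 ∨ ∀ g : G K, e n g = 0) ∧
      (∀ T, IsOp 𝔫 F T → ∀ n, ∃ c : ℂ, T (e n) = c • e n) ∧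
      ∀ φ : G K → ℂ, IsCuspFn 𝔫 φ → HasSum (fun n => ‖pair F φ (e n)‖ ^ 2) (nsq F φ) := by
  obtain ⟨ι, u, m, a, b, hB⟩ := cuspSpecPlus_closed K 𝔫 h𝔫 F
  have hcount : Countable ι :=
    countable_index130 h𝔫 hB.basis.cusp hB.basis.norm_one hB.basis.orth hB.eig_op
  obtain ⟨g, hg⟩ := hcount.exists_injective_nat
  have hO := ops_closed K 𝔫 h𝔫
  have hzero : IsCuspFn 𝔫 (fun _ : G K => (0 : ℂ)) := H566.isCuspFn_zero566 𝔫
  set e : ℕ → G K → ℂ := fun n =>
    if h : ∃ j, g j = n then u (Classical.choose h) else fun _ => 0 with he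
  have he_g : ∀ j, e (g j) = u j := fun j => by
    have h : ∃ j', g j' = g j := ⟨j, rfl⟩
    simp only [he, dif_pos h]
    rw [hg (Classical.choose_spec h)]
  have he_not : ∀ n, (¬ ∃ j, g j = n) → e n = fun _ => 0 := fun n h => by
    simp only [he, dif_neg h]
  have hpair0 : ∀ φ : G K → ℂ, pair F φ (fun _ => 0) = 0 := fun φ => by
    unfold pair
    simp
  have hpair0' : ∀ φ : G K → ℂ, pair F (fun _ => 0) φ = 0 := fun φ => by
    unfold pair
    simp
  refine ⟨e, fun n => ?_, fun n n' hnn => ?_, fun n => ?_, fun T hT n => ?_, fun φ hφ => ?_⟩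
  · by_cases h : ∃ j, g j = n
    · obtain ⟨j, rfl⟩ := h
      rw [he_g]
      exact hB.basis.cusp j
    · rw [he_not n h]
      exact hzero
  · by_cases h : ∃ j, g j = n
    · obtain ⟨j, rfl⟩ := h
      by_cases h' : ∃ j', g j' = n'
      · obtain ⟨j', rfl⟩ := h'
        rw [he_g, he_g]
        exact hB.basis.orth j j' fun hjj => hnn (by rw [hjj])
      · rw [he_not n' h']
        exact hpair0 _
    · rw [he_not n h]
      exact hpair0' _
  · by_cases h : ∃ j, g j = n
    · obtain ⟨j, rfl⟩ := h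
      left
      rw [he_g]
      exact hB.basis.norm_one j
    · right
      intro x
      rw [he_not n h]
  · by_cases h : ∃ j, g j = n
    · obtain ⟨j, rfl⟩ := h
      rw [he_g]
      exact hB.eig_op T hT j
    · rw [he_not n h]
      refine ⟨0, ?_⟩
      rw [zero_smul]
      exact H566.op_zero566 𝔫 F hO.1 hT
  · have hsum := hB.basis.parseval φ hφ
    have hiff := hg.hasSum_iff (f := fun n => ‖pair F φ (e n)‖ ^ 2) (a := nsq F φ)
      (fun n hn => by
        have h : ¬ ∃ j, g j = n := fun ⟨j, hj⟩ => hn ⟨j, hj⟩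
        show ‖pair F φ (e n)‖ ^ 2 = 0
        rw [he_not n h, hpair0]
        simp)
    refine hiff.1 ?_
    have hcomp : ((fun n => ‖pair F φ (e n)‖ ^ 2) ∘ g) = fun j => ‖pair F φ (u j)‖ ^ 2 := by
      funext j
      simp only [Function.comp_apply]
      rw [he_g]
    rw [hcomp]
    exact hsum

end Fermat.Agent.LT.T2

end

end
-- ===== PACK-END LT/T2/ExtrasSeq.lean

-- ===== PACK-BEGIN LT/T7/H258/StepArch.lean
section






/-!
# Row LT, tower T7, node `SimpleC`, leaf `StepArchC` of the cut of `CompressC` (helper258)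

OFF-MAIN.  ADDITIVE.  Spec: `LT/T7/H963/Compress.lean` (helper963@be39ca583), byte-identical copy.

`stepArchC258 K : H963.StepArchC K`, UNCONDITIONAL:
at a complex place `w`, for `a` trivial at `w`, `h` supported at `w`, `f`, `χ` in the class,
`⟨R(a) f, χ⟩ = 0 ⟹ ⟨R(a h) f, χ⟩ = 0`.

Proof.  `Φ(y) = ⟨R(a y) f, χ⟩`, `y` supported at `w`, is left invariant under `U(2)` (`χ` is right
invariant, `a` commutes with `y`, the pairing is invariant under right translations: `PairC`)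
and right invariant under `U(2)` and the positive scalars (`f` is).  Cartan decomposition
(`svd555` of helper555): `h = k₁ torus(t) z k₂`.  Mean value property of `f` under the pairing
(Fubini, `fubini_rect600` of helper600): `4π Φ(torus t) = 4π (t / sinh t) Φ(1) = 0` for `t > 0`;
`torus (-t) = s torus(t) s` with the swap `s ∈ U(2)`.
-/

set_option autoImplicit false
set_option linter.unusedSectionVars false
set_option linter.unusedVariables false

open IsDedekindDomain NumberField MeasureTheory AutomorphicForm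
open Fermat.Agent.LT.H556.A0
open scoped ComplexConjugate

noncomputable section

namespace Fermat.Agent.LT.T7.H258

open Fermat.Agent.LT.T2.H941 Fermat.Agent.LT.T7.H963

variable {K : Type} [Field K] [NumberField K]

attribute [local instance] Fermat.Agent.LT.T2.borelG

/-! ## 1. The pairing of right translates -/

/-- Left invariance: `⟨R(a k y) f, χ⟩ = ⟨R(a y) f, χ⟩` if `k` commutes with `a` and `χ` is right
invariant under `k`. -/
theorem pair_left258 (F : T2.Frame K) {f χ : G K → ℂ} (hf : IsAut0 f) (hχ : IsAut0 χ)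
    {a k : G K} (hcomm : k * a = a * k) (hk : ∀ x : G K, χ (x * k) = χ x) (y : G K) :
    T2.pair F (rt (a * (k * y)) f) χ = T2.pair F (rt (a * y) f) χ := by
  have hP := (pair_uncond K F).2.2 k (rt (a * y) f) χ (isAut0_rt _ hf) hχ
  have h1 : rt k (rt (a * y) f) = rt (a * (k * y)) f := by
    rw [rt_rt]
    congr 1
    rw [← mul_assoc, hcomm, mul_assoc]
  have h2 : rt k χ = χ := funext hk
  rw [h1, h2] at hP
  exact hP

/-- Right invariance. -/
theorem rt_right258 {f : G K → ℂ} {k : G K} (hk : ∀ x : G K, f (x * k) = f x) (g : G K) :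
    rt (g * k) f = rt g f := by
  funext x
  show f (x * (g * k)) = f (x * g)
  rw [← mul_assoc]
  exact hk _

/-- **The mean value property under the pairing** (Fubini). -/
theorem pair_mean258 (F : T2.Frame K) {f χ : G K → ℂ} (hfc : Continuous f)
    (hfb : ∃ C : ℝ, ∀ g : G K, ‖f g‖ ≤ C) (hχc : Continuous χ)
    (hχb : ∃ C : ℝ, ∀ g : G K, ‖χ g‖ ≤ C) (w : InfinitePlace K) (m : ℝ → ℂ)
    (hM : MeanEig f w m) (d : ℝ) (hd : 0 < d) (Y : ℝ → ℝ → G K)
    (hY : ∀ α β : ℝ, IsLocalAtInf w (Y α β) ∧ infComp w (Y α β) = rotZ α * rotY β * torus d)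
    (a : G K) :
    (∫ α in (0 : ℝ)..(2 * Real.pi), ∫ β in (0 : ℝ)..Real.pi,
        T2.pair F (rt (a * Y α β) f) χ * ((Real.sin β : ℝ) : ℂ))
      = m d * T2.pair F (rt a f) χ := by
  have hB : BorelSpace (G K) := ⟨rfl⟩
  obtain ⟨C, hC⟩ := hfb
  obtain ⟨C', hC'⟩ := hχb
  have hfin : IsFiniteMeasure (F.μ.restrict F.D) :=
    ⟨by rw [Measure.restrict_apply_univ]; exact F.fin⟩
  have hYc := T2.H600.continuous_family600 w d Y hY
  set Fn : G K → ℝ → ℝ → ℂ := fun x α β =>
    f (x * (a * Y α β)) * (starRingEnd ℂ) (χ x) * ((Real.sin β : ℝ) : ℂ) with hFdef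
  have hFc : Continuous fun q : (ℝ × ℝ) × G K => Fn q.2 q.1.1 q.1.2 := by
    have h1 : Continuous fun q : (ℝ × ℝ) × G K => q.2 * (a * Y q.1.1 q.1.2) :=
      continuous_snd.mul (continuous_const.mul (hYc.comp continuous_fst))
    have h2 : Continuous fun q : (ℝ × ℝ) × G K => (starRingEnd ℂ) (χ q.2) :=
      Complex.continuous_conj.comp (hχc.comp continuous_snd)
    have h3 : Continuous fun q : (ℝ × ℝ) × G K => ((Real.sin q.1.2 : ℝ) : ℂ) :=
      Complex.continuous_ofReal.comp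
        (Real.continuous_sin.comp (continuous_snd.comp continuous_fst))
    exact ((hfc.comp h1).mul h2).mul h3
  have hFb : ∀ x a' b', ‖Fn x a' b'‖ ≤ |C| * |C'| := by
    intro x a' b'
    simp only [hFdef, norm_mul, RCLike.norm_conj, Complex.norm_real, Real.norm_eq_abs]
    calc ‖f (x * (a * Y a' b'))‖ * ‖χ x‖ * |Real.sin b'|
        ≤ |C| * |C'| * 1 := by
          refine mul_le_mul (mul_le_mul ((hC _).trans (le_abs_self C))
            ((hC' _).trans (le_abs_self C')) (norm_nonneg _) (abs_nonneg _))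
            (Real.abs_sin_le_one b') (abs_nonneg _) (by positivity)
      _ = |C| * |C'| := mul_one _
  have hswap := T2.H600.fubini_rect600 (F.μ.restrict F.D) Fn hFc (|C| * |C'|) hFb
    (a₁ := 0) (a₂ := 2 * Real.pi) (b₁ := 0) (b₂ := Real.pi)
    (by positivity) Real.pi_pos.le
  have hL : (∫ α in (0 : ℝ)..(2 * Real.pi), ∫ β in (0 : ℝ)..Real.pi,
        T2.pair F (rt (a * Y α β) f) χ * ((Real.sin β : ℝ) : ℂ))
      = ∫ α in (0 : ℝ)..(2 * Real.pi), ∫ β in (0 : ℝ)..Real.pi,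
          ∫ x, Fn x α β ∂(F.μ.restrict F.D) := by
    refine intervalIntegral.integral_congr fun α _ => ?_
    refine intervalIntegral.integral_congr fun β _ => ?_
    show T2.pair F (rt (a * Y α β) f) χ * ((Real.sin β : ℝ) : ℂ)
      = ∫ x, Fn x α β ∂(F.μ.restrict F.D)
    rw [T2.pair, ← integral_mul_const]
    rfl
  have hR : ∀ x : G K, (∫ α in (0 : ℝ)..(2 * Real.pi), ∫ β in (0 : ℝ)..Real.pi, Fn x α β)
      = m d * (f (x * a) * (starRingEnd ℂ) (χ x)) := by
    intro x
    have h := hM d hd Y hY (x * a)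
    have h' : (∫ α in (0 : ℝ)..(2 * Real.pi), ∫ β in (0 : ℝ)..Real.pi, Fn x α β)
        = (∫ α in (0 : ℝ)..(2 * Real.pi), ∫ β in (0 : ℝ)..Real.pi,
            f (x * a * Y α β) * ((Real.sin β : ℝ) : ℂ))
          * (starRingEnd ℂ) (χ x) := by
      rw [← intervalIntegral.integral_mul_const]
      refine intervalIntegral.integral_congr fun α _ => ?_
      show (∫ β in (0 : ℝ)..Real.pi, Fn x α β) = _
      rw [← intervalIntegral.integral_mul_const]
      refine intervalIntegral.integral_congr fun β _ => ?_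
      show Fn x α β = _
      simp only [hFdef, mul_assoc]
      ring
    rw [h', h]
    ring
  rw [hL, hswap]
  simp only [hR]
  rw [integral_const_mul]
  rfl

/-! ## 2. Elements of `GL₂(ℂ)` -/

/-- The element of `GL₂(ℂ)` with the matrix `M`. -/
def gl258 (M : Matrix (Fin 2) (Fin 2) ℂ) (h : M.det ≠ 0) : GL (Fin 2) ℂ :=
  Matrix.GeneralLinearGroup.mkOfDetNeZero M h

theorem coe_gl258 (M : Matrix (Fin 2) (Fin 2) ℂ) (h : M.det ≠ 0) :
    ((gl258 M h : GL (Fin 2) ℂ) : Matrix (Fin 2) (Fin 2) ℂ) = M := rfl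

theorem gl258_mul (M N : Matrix (Fin 2) (Fin 2) ℂ) (hM : M.det ≠ 0) (hN : N.det ≠ 0)
    (hMN : (M * N).det ≠ 0) : gl258 (M * N) hMN = gl258 M hM * gl258 N hN := by
  apply Units.ext
  rfl

theorem gl258_congr {M N : Matrix (Fin 2) (Fin 2) ℂ} (e : M = N) (hM : M.det ≠ 0)
    (hN : N.det ≠ 0) : gl258 M hM = gl258 N hN := by
  subst e
  rfl

theorem det_ne_zero_of_unitary258 {k : Matrix (Fin 2) (Fin 2) ℂ}
    (hk : k * k.conjTranspose = 1) : k.det ≠ 0 := by
  have h := congrArg Matrix.det hk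
  rw [Matrix.det_mul, Matrix.det_one] at h
  exact left_ne_zero_of_mul_eq_one h

theorem unitary_mul258 {k k' : Matrix (Fin 2) (Fin 2) ℂ} (hk : k * k.conjTranspose = 1)
    (hk' : k' * k'.conjTranspose = 1) : (k * k') * (k * k').conjTranspose = 1 := by
  rw [Matrix.conjTranspose_mul, Matrix.mul_assoc, ← Matrix.mul_assoc k', hk', Matrix.one_mul, hk]

theorem unitary_diag258 (u v : ℂ) (hu : u * (starRingEnd ℂ) u = 1)
    (hv : v * (starRingEnd ℂ) v = 1) :
    (!![u, 0; 0, v] : Matrix (Fin 2) (Fin 2) ℂ) * (!![u, 0; 0, v]).conjTranspose = 1 := by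
  ext i j
  fin_cases i <;> fin_cases j <;>
    simp [Matrix.mul_apply, Fin.sum_univ_two, Matrix.conjTranspose_apply, hu, hv]

theorem unitary_rot258 (c s : ℂ) (hc : (starRingEnd ℂ) c = c) (hs : (starRingEnd ℂ) s = s)
    (h : c * c + s * s = 1) :
    (!![c, -s; s, c] : Matrix (Fin 2) (Fin 2) ℂ) * (!![c, -s; s, c]).conjTranspose = 1 := by
  ext i j
  fin_cases i <;> fin_cases j
  · simp [Matrix.mul_apply, Fin.sum_univ_two, Matrix.conjTranspose_apply, hc, hs]
    linear_combination h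
  · simp [Matrix.mul_apply, Fin.sum_univ_two, Matrix.conjTranspose_apply, hc, hs]
    ring
  · simp [Matrix.mul_apply, Fin.sum_univ_two, Matrix.conjTranspose_apply, hc, hs]
    ring
  · simp [Matrix.mul_apply, Fin.sum_univ_two, Matrix.conjTranspose_apply, hc, hs]
    linear_combination h

theorem exp_mul_conj258 (z : ℂ) (hz : (starRingEnd ℂ) z = -z) :
    Complex.exp z * (starRingEnd ℂ) (Complex.exp z) = 1 := by
  rw [← Complex.exp_conj, ← Complex.exp_add, hz, add_neg_cancel, Complex.exp_zero]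

theorem unitary_rotZ258 (α : ℝ) : rotZ α * (rotZ α).conjTranspose = 1 := by
  have hz : (starRingEnd ℂ) (Complex.I * ((α / 2 : ℝ) : ℂ)) = -(Complex.I * ((α / 2 : ℝ) : ℂ)) := by
    rw [map_mul, Complex.conj_I, Complex.conj_ofReal, neg_mul]
  have hz' : (starRingEnd ℂ) (-(Complex.I * ((α / 2 : ℝ) : ℂ)))
      = -(-(Complex.I * ((α / 2 : ℝ) : ℂ))) := by
    rw [map_neg, hz]
  exact unitary_diag258 _ _ (exp_mul_conj258 _ hz) (exp_mul_conj258 _ hz')

theorem unitary_rotY258 (β : ℝ) : rotY β * (rotY β).conjTranspose = 1 := by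
  have h := Real.cos_sq_add_sin_sq (β / 2)
  have hc : ((Real.cos (β / 2) : ℝ) : ℂ) * ((Real.cos (β / 2) : ℝ) : ℂ)
      + ((Real.sin (β / 2) : ℝ) : ℂ) * ((Real.sin (β / 2) : ℝ) : ℂ) = 1 := by
    rw [← Complex.ofReal_mul, ← Complex.ofReal_mul, ← Complex.ofReal_add]
    rw [show Real.cos (β / 2) * Real.cos (β / 2) + Real.sin (β / 2) * Real.sin (β / 2) = 1 by
      nlinarith [h]]
    exact Complex.ofReal_one
  exact unitary_rot258 _ _ (Complex.conj_ofReal _) (Complex.conj_ofReal _) hc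

/-- The swap. -/
def swap258 : Matrix (Fin 2) (Fin 2) ℂ := !![0, 1; 1, 0]

theorem unitary_swap258 : swap258 * swap258.conjTranspose = 1 := by
  ext i j
  fin_cases i <;> fin_cases j <;>
    simp [swap258, Matrix.mul_apply, Fin.sum_univ_two, Matrix.conjTranspose_apply]

theorem swap_torus258 (t : ℝ) : swap258 * torus t * swap258 = torus (-t) := by
  ext i j
  fin_cases i <;> fin_cases j <;>
    simp [swap258, torus, Matrix.mul_apply, Fin.sum_univ_two, neg_div]

theorem torus_zero258 : torus 0 = 1 := by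
  ext i j
  fin_cases i <;> fin_cases j <;> simp [torus]

theorem det_torus_ne258 (t : ℝ) : (torus t).det ≠ 0 := by
  rw [T2.H973.det_torus944]
  exact one_ne_zero

theorem det_scal_ne258 {c : ℝ} (hc : 0 < c) :
    (Matrix.diagonal (fun _ : Fin 2 => ((c : ℝ) : ℂ))).det ≠ 0 := by
  rw [Matrix.det_diagonal, Fin.prod_univ_two]
  have : ((c : ℝ) : ℂ) ≠ 0 := Complex.ofReal_ne_zero.mpr hc.ne'
  exact mul_ne_zero this this

/-- `diag(d₀, d₁) = torus(t) · c` for positive `d₀`, `d₁`. -/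
theorem diag_eq_torus258 (d : Fin 2 → ℝ) (hd : ∀ i, 0 < d i) :
    ∃ t c : ℝ, 0 < c ∧ Matrix.diagonal (fun i => ((d i : ℝ) : ℂ))
      = torus t * Matrix.diagonal (fun _ : Fin 2 => ((c : ℝ) : ℂ)) := by
  set e : ℝ := Real.sqrt (d 0 / d 1) with he
  have hq : 0 < d 0 / d 1 := div_pos (hd 0) (hd 1)
  have he0 : 0 < e := Real.sqrt_pos.mpr hq
  have hee : e * e = d 0 / d 1 := Real.mul_self_sqrt hq.le
  refine ⟨2 * Real.log e, d 1 * e, mul_pos (hd 1) he0, ?_⟩
  have h1 : Real.exp (2 * Real.log e / 2) = e := by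
    rw [mul_div_cancel_left₀ _ (two_ne_zero), Real.exp_log he0]
  have h2 : Real.exp (-(2 * Real.log e / 2)) = e⁻¹ := by
    rw [Real.exp_neg, h1]
  have hd1 : d 1 ≠ 0 := (hd 1).ne'
  have e0 : d 0 = e * (d 1 * e) := by
    have : e * (d 1 * e) = d 1 * (e * e) := by ring
    rw [this, hee]
    field_simp
  have e1 : d 1 = e⁻¹ * (d 1 * e) := by
    field_simp
  ext i j
  fin_cases i <;> fin_cases j
  · simp only [torus, h1, h2, Fin.zero_eta, Fin.isValue, Matrix.diagonal_apply_eq,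
      Matrix.mul_apply, Fin.sum_univ_two, Matrix.of_apply, Matrix.cons_val', Matrix.cons_val_zero,
      Matrix.cons_val_one, Matrix.cons_val_fin_one, Matrix.diagonal_apply_ne, ne_eq,
      one_ne_zero, not_false_eq_true, mul_zero, add_zero, Fin.mk_zero]
    rw [← Complex.ofReal_mul, ← e0]
  · simp [torus, Matrix.mul_apply, Fin.sum_univ_two]
  · simp [torus, Matrix.mul_apply, Fin.sum_univ_two]
  · simp only [torus, h1, h2, Fin.mk_one, Fin.isValue, Matrix.diagonal_apply_eq,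
      Matrix.mul_apply, Fin.sum_univ_two, Matrix.of_apply, Matrix.cons_val', Matrix.cons_val_zero,
      Matrix.cons_val_one, Matrix.cons_val_fin_one, Matrix.diagonal_apply_ne, ne_eq,
      zero_ne_one, not_false_eq_true, mul_zero, zero_add]
    rw [← Complex.ofReal_mul, ← e1]

/-- `∫₀^{2π} ∫₀^π c sin β dβ dα = 4π c`. -/
theorem integral_const_sin258 (c : ℂ) :
    (∫ α in (0 : ℝ)..(2 * Real.pi), ∫ β in (0 : ℝ)..Real.pi, c * ((Real.sin β : ℝ) : ℂ))
      = c * ((4 * Real.pi : ℝ) : ℂ) := by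
  have h1 : (∫ β in (0 : ℝ)..Real.pi, c * ((Real.sin β : ℝ) : ℂ)) = c * 2 := by
    rw [intervalIntegral.integral_const_mul, intervalIntegral.integral_ofReal, integral_sin]
    simp
    norm_num
  simp only [h1]
  rw [intervalIntegral.integral_const, Complex.real_smul]
  push_cast
  ring

/-! ## 3. The leaf -/

/-- **LEAF `StepArchC`** of the cut of `CompressC` (helper963), UNCONDITIONAL. -/
theorem stepArchC258 (K : Type) [Field K] [NumberField K] : StepArchC K := by
  intro hcx F 𝔫 r l o C h𝔫 hr ho hC w a h haw hh f χ hf hχ h0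
  obtain ⟨j, ι, hj⟩ := T2.H973.H546.locEmbC_h546 K w (hcx w)
  have hfA : IsAut0 f := isAut0_of_isEigFn hcx h𝔫 hC hf
  have hχA : IsAut0 χ := isAut0_of_isEigFn hcx h𝔫 hC hχ
  have hnr : ¬ w.IsReal := InfinitePlace.not_isReal_iff_isComplex.mpr (hcx w)
  have hcompact : ∀ (k : Matrix (Fin 2) (Fin 2) ℂ) (hk : k * k.conjTranspose = 1)
      (hkd : k.det ≠ 0), IsArchCompact w (j (gl258 k hkd)) := by
    intro k hk hkd
    refine ⟨hj.loc _, ?_, fun hr => absurd hr hnr⟩
    rw [hj.comp, coe_gl258]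
    exact hk
  have hχinv : ∀ k : G K, IsArchCompact w k → ∀ x : G K, χ (x * k) = χ x := by
    intro k hk x
    have h1 := hχ.inv.cusp.aut.arch_compact w k hk x
    rw [h1]
    show (1 : ℂ) * χ x = χ x
    rw [one_mul]
  have hfinv : ∀ k : G K, IsArchCompact w k → ∀ x : G K, f (x * k) = f x := by
    intro k hk x
    have h1 := hf.inv.cusp.aut.arch_compact w k hk x
    rw [h1]
    show (1 : ℂ) * f x = f x
    rw [one_mul]
  have hcomm : ∀ g : GL (Fin 2) ℂ, j g * a = a * j g := fun g => hj.comm g a haw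
  have hL : ∀ (k : Matrix (Fin 2) (Fin 2) ℂ) (hk : k * k.conjTranspose = 1) (hkd : k.det ≠ 0)
      (y : G K), T2.pair F (rt (a * (j (gl258 k hkd) * y)) f) χ = T2.pair F (rt (a * y) f) χ :=
    fun k hk hkd y => pair_left258 F hfA hχA (hcomm _) (hχinv _ (hcompact k hk hkd)) y
  -- the torus, `t > 0`: the mean value property
  have hpos : ∀ t : ℝ, 0 < t →
      T2.pair F (rt (a * j (gl258 (torus t) (det_torus_ne258 t))) f) χ = 0 := by
    intro t ht
    set Y : ℝ → ℝ → G K := fun α β =>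
      j (gl258 (rotZ α * rotY β * torus t) (T2.H973.det_sphere944 α β t)) with hYdef
    have hY : ∀ α β : ℝ, IsLocalAtInf w (Y α β) ∧
        infComp w (Y α β) = rotZ α * rotY β * torus t :=
      fun α β => ⟨hj.loc _, by rw [hj.comp, coe_gl258]⟩
    have hmean := pair_mean258 F hf.inv.cusp.cont hf.inv.cusp.bdd hχ.inv.cusp.cont
      hχ.inv.cusp.bdd w (C.m w) (hf.mean w) t ht Y hY a
    rw [h0, mul_zero] at hmean
    have hterm : ∀ α β : ℝ, T2.pair F (rt (a * Y α β) f) χ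
        = T2.pair F (rt (a * j (gl258 (torus t) (det_torus_ne258 t))) f) χ := by
      intro α β
      have hU := unitary_mul258 (unitary_rotZ258 α) (unitary_rotY258 β)
      have hR := det_ne_zero_of_unitary258 hU
      have hYeq : Y α β = j (gl258 (rotZ α * rotY β) hR)
          * j (gl258 (torus t) (det_torus_ne258 t)) := by
        rw [← map_mul, ← gl258_mul]
      rw [hYeq]
      exact hL _ hU hR _
    simp only [hterm] at hmean
    rw [integral_const_sin258] at hmean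
    rcases mul_eq_zero.mp hmean with h' | h'
    · exact h'
    · exfalso
      have : (4 * Real.pi : ℝ) ≠ 0 := by positivity
      exact this (Complex.ofReal_eq_zero.mp h')
  -- the torus, all `t`
  have hall : ∀ t : ℝ,
      T2.pair F (rt (a * j (gl258 (torus t) (det_torus_ne258 t))) f) χ = 0 := by
    intro t
    rcases lt_trichotomy 0 t with ht | ht | ht
    · exact hpos t ht
    · subst ht
      have h1 : gl258 (torus 0) (det_torus_ne258 0) = 1 := by
        apply Units.ext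
        exact torus_zero258
      rw [h1, map_one, mul_one]
      exact h0
    · have hs := det_ne_zero_of_unitary258 unitary_swap258
      have h1 : gl258 (torus t) (det_torus_ne258 t)
          = gl258 swap258 hs * (gl258 (torus (-t)) (det_torus_ne258 (-t)) * gl258 swap258 hs) := by
        apply Units.ext
        show torus t = swap258 * (torus (-t) * swap258)
        rw [← Matrix.mul_assoc, swap_torus258, neg_neg]
      rw [h1, map_mul, map_mul, hL _ unitary_swap258 hs, ← mul_assoc,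
        rt_right258 (hfinv _ (hcompact _ unitary_swap258 hs))]
      exact hpos (-t) (neg_pos.mpr ht)
  -- Cartan decomposition of `h`
  have hMd : (infComp w h).det ≠ 0 := T2.H472.det_infComp_ne_zero472 w h
  obtain ⟨k₁, k₂, d, hk₁, hk₂, hdpos, hMeq⟩ := T2.H555.svd555 (infComp w h) hMd
  obtain ⟨t, c, hc, hD⟩ := diag_eq_torus258 d hdpos
  have hk₁d := det_ne_zero_of_unitary258 hk₁
  have hk₂d := det_ne_zero_of_unitary258 hk₂
  have hh1 : h = j (gl258 (infComp w h) hMd) :=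
    T2.H429.eq_of_isLocalAtInf429 hh (hj.loc _) (by rw [hj.comp, coe_gl258])
  have hh2 : gl258 (infComp w h) hMd
      = gl258 k₁ hk₁d * ((gl258 (torus t) (det_torus_ne258 t)
          * gl258 (Matrix.diagonal (fun _ : Fin 2 => ((c : ℝ) : ℂ))) (det_scal_ne258 hc))
          * gl258 k₂ hk₂d) := by
    apply Units.ext
    show infComp w h = k₁ * ((torus t * Matrix.diagonal (fun _ : Fin 2 => ((c : ℝ) : ℂ))) * k₂)
    rw [← hD, ← Matrix.mul_assoc]
    exact hMeq
  have hZ : IsArchPosScalar w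
      (j (gl258 (Matrix.diagonal (fun _ : Fin 2 => ((c : ℝ) : ℂ))) (det_scal_ne258 hc))) :=
    ⟨hj.loc _, c, hc, by rw [hj.comp, coe_gl258]⟩
  rw [hh1, hh2, map_mul, map_mul, map_mul, hL _ hk₁ hk₁d, ← mul_assoc, ← mul_assoc,
    rt_right258 (hfinv _ (hcompact _ hk₂ hk₂d)),
    rt_right258 (fun x => hf.inv.arch_scalar w _ hZ x)]
  exact hall t

end Fermat.Agent.LT.T7.H258

end

end
-- ===== PACK-END LT/T7/H258/StepArch.lean

-- ===== PACK-BEGIN LT/T7/H78/ClassFin.lean
section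







/-!
# Row LT, tower T7, node `SimpleC` (helper963), leaf `ClassFinC` (helper78): the proof

OFF-MAIN.  ADDITIVE (new names only).  Complete proofs, nothing assumed.

    classFinC_of78 : T2.FrameExists K → (∀ 𝔫 ≠ ⊥, T2.PairDefinite K 𝔫) →
        (∀ 𝔫 ≠ ⊥, T2.HSBound K 𝔫) → T3.AS.AbelSatakeSmoothC K → T3.InAddHaarC K →
        T3.InScalarUnifC K → T7.H963.ClassFinC K

(all six hypotheses are CLOSED in the towers T1, T2, T3: `ClassFinClosed.lean`).

## Proof

`𝔫 ≠ ⊥`, `C` spherical of parameter `0`.  Take a prime `v₀ ∤ 𝔫` (`H963.goodPrimeC`).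
* If `C.b v₀ = 0` the class is `{0}` (`S_{v₀}` is invertible; `H732.eq_zero_of_b_eq_zero732`).
* Otherwise take `n > 0`, `a₀ ≡ 1 mod 𝔫` with `(a₀) = v₀ⁿ` (`exists_ray_pow78`), the roots
  `z₁, z₂` of `X² - (C.a v₀) X + C.b v₀`, and the test function `f` of the Abel--Satake station
  (T3.18a, smooth form) for the symmetric pure tensor `Φ₁ = δ_{(0,0)} ⊗ ⊗_w (bump ⊗ bump)`:
  `R(f) ψ = λ ψ` for EVERY `ψ` of the class, with
  `λ = κ₀ · Φ₁^(z₁,z₂) = κ₀ · (∫ bump)^{2 r₂} ≠ 0`
  (no Eisenstein-killing factor is needed here: on the cusp functions every test function is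
  Hilbert--Schmidt).  The eigenspace `{R(f) = λ}` in the pre-Hilbert space of the cusp functions
  of level `𝔫` is finite-dimensional: for an orthonormal family `e₁, …, e_m` in it,
  `m |λ|² = ∑ ‖R(f) e_i‖² ≤ C(f)` (`T2.HSBound`).
-/

set_option autoImplicit false
set_option linter.style.haveILetI false
set_option linter.unusedSectionVars false
set_option linter.unusedVariables false

open IsDedekindDomain NumberField MeasureTheory AutomorphicForm
open Fermat.Agent.LT.H556.A0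
open scoped InnerProductSpace ComplexConjugate

noncomputable section

namespace Fermat.Agent.LT.T7.H78

open Fermat.Agent.LT

variable {K : Type} [Field K] [NumberField K]

attribute [local instance] Fermat.Agent.LT.T2.borelG

attribute [-instance] CStarModule.toInner

/-! ## 1. The pre-Hilbert space of the cusp functions of level `𝔫` -/

/-- The pre-Hilbert space: the cusp functions of level `U(𝔫)` with the Petersson pairing of the
frame `F`. -/
def Sp78 (_F : T2.Frame K) (𝔫 : Ideal (𝓞 K)) (_h : T2.PairDefinite K 𝔫) : Type :=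
  T2.H886.cuspSubmodule886 (K := K) 𝔫

section Space

variable (F : T2.Frame K) (𝔫 : Ideal (𝓞 K)) (hPD : T2.PairDefinite K 𝔫)

instance : NormedAddCommGroup (Sp78 F 𝔫 hPD) :=
  @InnerProductSpace.Core.toNormedAddCommGroup ℂ (T2.H886.cuspSubmodule886 (K := K) 𝔫) _ _ _
    (T2.H886.core886 F 𝔫 hPD)

instance : InnerProductSpace ℂ (Sp78 F 𝔫 hPD) :=
  @InnerProductSpace.ofCore ℂ (T2.H886.cuspSubmodule886 (K := K) 𝔫) _ _ _
    (T2.H886.core886 F 𝔫 hPD).toCore

/-- The underlying function. -/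
def Sp78.fn (x : Sp78 F 𝔫 hPD) : G K → ℂ := (show T2.H886.cuspSubmodule886 (K := K) 𝔫 from x).1

theorem Sp78.isCusp (x : Sp78 F 𝔫 hPD) : T2.IsCuspFn 𝔫 (Sp78.fn F 𝔫 hPD x) :=
  (show T2.H886.cuspSubmodule886 (K := K) 𝔫 from x).2

/-- The vector of a cusp function. -/
def Sp78.mk {f : G K → ℂ} (hf : T2.IsCuspFn 𝔫 f) : Sp78 F 𝔫 hPD :=
  (⟨f, hf⟩ : T2.H886.cuspSubmodule886 (K := K) 𝔫)

@[simp] theorem Sp78.fn_mk {f : G K → ℂ} (hf : T2.IsCuspFn 𝔫 f) :
    Sp78.fn F 𝔫 hPD (Sp78.mk F 𝔫 hPD hf) = f := rfl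

theorem Sp78.inner_def (x y : Sp78 F 𝔫 hPD) :
    ⟪x, y⟫_ℂ = T2.pair F (Sp78.fn F 𝔫 hPD y) (Sp78.fn F 𝔫 hPD x) := rfl

theorem Sp78.fn_add (x y : Sp78 F 𝔫 hPD) :
    Sp78.fn F 𝔫 hPD (x + y) = fun g => Sp78.fn F 𝔫 hPD x g + Sp78.fn F 𝔫 hPD y g := rfl

theorem Sp78.fn_smul (c : ℂ) (x : Sp78 F 𝔫 hPD) :
    Sp78.fn F 𝔫 hPD (c • x) = fun g => c * Sp78.fn F 𝔫 hPD x g := rfl

theorem Sp78.fn_zero : Sp78.fn F 𝔫 hPD (0 : Sp78 F 𝔫 hPD) = fun _ => 0 := rfl

/-- The underlying function, as a linear map. -/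
def Sp78.fnL : Sp78 F 𝔫 hPD →ₗ[ℂ] (G K → ℂ) := (T2.H886.cuspSubmodule886 (K := K) 𝔫).subtype

theorem Sp78.fnL_apply (x : Sp78 F 𝔫 hPD) : Sp78.fnL F 𝔫 hPD x = Sp78.fn F 𝔫 hPD x := rfl

/-! ## 2. The eigenspace of a convolution operator -/

/-- Convolution is homogeneous. -/
theorem conv_const_mul78 (f φ : G K → ℂ) (c : ℂ) :
    T2.conv F f (fun g => c * φ g) = fun g => c * T2.conv F f φ g := by
  funext x
  show ∫ h, (c * φ (x * h)) * f h ∂F.μ = c * ∫ h, φ (x * h) * f h ∂F.μ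
  rw [← integral_const_mul]
  refine integral_congr_ae (Filter.Eventually.of_forall fun h => ?_)
  show c * φ (x * h) * f h = c * (φ (x * h) * f h)
  ring

/-- Convolution is additive on the continuous functions. -/
theorem conv_add78 {f φ ψ : G K → ℂ} (hf : Continuous f) (hc : HasCompactSupport f)
    (hφ : Continuous φ) (hψ : Continuous ψ) :
    T2.conv F f (fun g => φ g + ψ g) = fun g => T2.conv F f φ g + T2.conv F f ψ g := by
  have h := T2.H848.conv_lin848 F hf hc hφ hψ 1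
  simp only [one_mul] at h
  exact h

/-- The eigenspace `{R(f) = lam}` in the cusp functions of level `𝔫`. -/
def eigSub78 {f : G K → ℂ} (hf : Continuous f) (hc : HasCompactSupport f) (lam : ℂ) :
    Submodule ℂ (Sp78 F 𝔫 hPD) where
  carrier := {x | T2.conv F f (Sp78.fn F 𝔫 hPD x) = fun g => lam * Sp78.fn F 𝔫 hPD x g}
  zero_mem' := by
    show T2.conv F f (Sp78.fn F 𝔫 hPD 0) = fun g => lam * Sp78.fn F 𝔫 hPD 0 g
    rw [Sp78.fn_zero]
    funext x
    show ∫ h, (0 : ℂ) * f h ∂F.μ = lam * 0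
    simp
  add_mem' := by
    intro x y hx hy
    show T2.conv F f (Sp78.fn F 𝔫 hPD (x + y)) = fun g => lam * Sp78.fn F 𝔫 hPD (x + y) g
    rw [Sp78.fn_add, conv_add78 F hf hc (Sp78.isCusp F 𝔫 hPD x).cont (Sp78.isCusp F 𝔫 hPD y).cont]
    have hx' : T2.conv F f (Sp78.fn F 𝔫 hPD x) = fun g => lam * Sp78.fn F 𝔫 hPD x g := hx
    have hy' : T2.conv F f (Sp78.fn F 𝔫 hPD y) = fun g => lam * Sp78.fn F 𝔫 hPD y g := hy
    rw [hx', hy']
    funext g
    ring
  smul_mem' := by
    intro c x hx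
    show T2.conv F f (Sp78.fn F 𝔫 hPD (c • x)) = fun g => lam * Sp78.fn F 𝔫 hPD (c • x) g
    rw [Sp78.fn_smul, conv_const_mul78]
    have hx' : T2.conv F f (Sp78.fn F 𝔫 hPD x) = fun g => lam * Sp78.fn F 𝔫 hPD x g := hx
    rw [hx']
    funext g
    ring

theorem mem_eigSub78 {f : G K → ℂ} (hf : Continuous f) (hc : HasCompactSupport f) (lam : ℂ)
    (x : Sp78 F 𝔫 hPD) :
    x ∈ eigSub78 F 𝔫 hPD hf hc lam ↔
      T2.conv F f (Sp78.fn F 𝔫 hPD x) = fun g => lam * Sp78.fn F 𝔫 hPD x g := Iff.rfl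

/-- `‖lam φ‖² = |lam|² ‖φ‖²`. -/
theorem nsq_const_mul78 (lam : ℂ) (φ : G K → ℂ) :
    T2.nsq F (fun g => lam * φ g) = ‖lam‖ ^ 2 * T2.nsq F φ := by
  unfold T2.nsq
  rw [T2.H886.pair_const_mul_left886, T2.H886.pair_const_mul_right886, ← mul_assoc,
    Complex.mul_conj, Complex.normSq_eq_norm_sq]
  rw [show ((‖lam‖ ^ 2 : ℝ) : ℂ) * T2.pair F φ φ = ((‖lam‖ ^ 2 : ℝ) : ℂ) * T2.pair F φ φ from rfl,
    Complex.re_ofReal_mul]

/-- **The Hilbert--Schmidt bound on an eigenspace**: an orthonormal family in the eigenspace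
`{R(f) = lam}` has at most `C / |lam|²` members. -/
theorem card_mul_le78 {f : G K → ℂ} (hf : Continuous f) (hc : HasCompactSupport f) (lam : ℂ)
    {C₀ : ℝ}
    (hHS : ∀ (n : ℕ) (φ : Fin n → G K → ℂ), (∀ i, T2.IsCuspFn 𝔫 (φ i)) →
      (∀ i j, T2.pair F (φ i) (φ j) = if i = j then 1 else 0) →
      ∑ i, T2.nsq F (T2.conv F f (φ i)) ≤ C₀)
    (n : ℕ) (e : Fin n → eigSub78 F 𝔫 hPD hf hc lam) (he : Orthonormal ℂ e) :
    (n : ℝ) * ‖lam‖ ^ 2 ≤ C₀ := by
  classical
  have hite := orthonormal_iff_ite.1 he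
  have hpair : ∀ i j, T2.pair F (Sp78.fn F 𝔫 hPD (e i : Sp78 F 𝔫 hPD))
      (Sp78.fn F 𝔫 hPD (e j : Sp78 F 𝔫 hPD)) = if i = j then 1 else 0 := by
    intro i j
    have h1 := hite j i
    rw [Submodule.coe_inner, Sp78.inner_def] at h1
    rw [h1]
    by_cases hij : i = j
    · rw [if_pos hij, if_pos hij.symm]
    · rw [if_neg hij, if_neg (fun h => hij h.symm)]
  have h2 := hHS n (fun i => Sp78.fn F 𝔫 hPD (e i : Sp78 F 𝔫 hPD))
    (fun i => Sp78.isCusp F 𝔫 hPD _) hpair
  have h3 : ∀ i : Fin n, T2.nsq F (T2.conv F f (Sp78.fn F 𝔫 hPD (e i : Sp78 F 𝔫 hPD)))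
      = ‖lam‖ ^ 2 := by
    intro i
    have hi : T2.conv F f (Sp78.fn F 𝔫 hPD (e i : Sp78 F 𝔫 hPD))
        = fun g => lam * Sp78.fn F 𝔫 hPD (e i : Sp78 F 𝔫 hPD) g := (e i).2
    rw [hi, nsq_const_mul78]
    have h4 : T2.nsq F (Sp78.fn F 𝔫 hPD (e i : Sp78 F 𝔫 hPD)) = 1 := by
      unfold T2.nsq
      rw [hpair i i, if_pos rfl, Complex.one_re]
    rw [h4, mul_one]
  rw [Finset.sum_congr rfl (fun i _ => h3 i)] at h2
  simpa using h2

/-- The eigenspace of a Hilbert--Schmidt operator for a non-zero eigenvalue is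
finite-dimensional. -/
theorem finite_eigSub78 {f : G K → ℂ} (hf : Continuous f) (hc : HasCompactSupport f) {lam : ℂ}
    (hlam : lam ≠ 0) {C₀ : ℝ}
    (hHS : ∀ (n : ℕ) (φ : Fin n → G K → ℂ), (∀ i, T2.IsCuspFn 𝔫 (φ i)) →
      (∀ i j, T2.pair F (φ i) (φ j) = if i = j then 1 else 0) →
      ∑ i, T2.nsq F (T2.conv F f (φ i)) ≤ C₀) :
    FiniteDimensional ℂ (eigSub78 F 𝔫 hPD hf hc lam) := by
  have hpos : 0 < ‖lam‖ ^ 2 := by positivity
  refine finiteDimensional_of_orthonormal_le78 ⌊C₀ / ‖lam‖ ^ 2⌋₊ fun n e he => ?_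
  have h1 := card_mul_le78 F 𝔫 hPD hf hc lam hHS n e he
  have h2 : (n : ℝ) ≤ C₀ / ‖lam‖ ^ 2 := by
    rw [le_div_iff₀ hpos]
    exact h1
  exact Nat.le_floor h2

end Space

/-! ## 3. The test function -/

section Test

variable (K)

/-- `Φ₁ = δ_{(0,0)} ⊗ ⊗_w (bump ⊗ bump)` on the coordinate group. -/
def Phi78 : T3.Coord K → ℂ := T3.H732.Phi1_732 (ι := InfinitePlace K)

theorem phi78_mem : Phi78 K ∈ T3.SymSpan K := by
  classical
  refine Submodule.subset_span ?_
  refine ⟨fun m => if m = 0 then 1 else 0, fun _ => T3.H732.B732, ?_, ?_, ?_, ?_⟩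
  · refine (Set.finite_singleton (0 : ℤ × ℤ)).subset ?_
    intro m hm
    rw [Function.mem_support] at hm
    by_contra h
    exact hm (if_neg h)
  · intro m₁ m₂
    beta_reduce
    have : ((m₁, m₂) : ℤ × ℤ) = 0 ↔ ((m₂, m₁) : ℤ × ℤ) = 0 := by
      simp only [Prod.mk_eq_zero]
      exact and_comm
    by_cases h : ((m₁, m₂) : ℤ × ℤ) = 0
    · rw [if_pos h, if_pos (this.1 h)]
    · rw [if_neg h, if_neg (fun h' => h (this.2 h'))]
  · intro w
    refine ⟨T3.H732.contDiff_B732, T3.H732.hasCompactSupport_B732, fun x y => ?_⟩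
    show T3.H732.B732 (x, y) = T3.H732.B732 (y, x)
    unfold T3.H732.B732
    rw [mul_comm]
  · intro m x
    rfl

/-- The Fourier--Laplace transform of `Φ₁` is the constant `(∫ bump)^{2 r₂} ≠ 0`. -/
theorem ftCoord_phi78 (z₁ z₂ : ℂ) :
    T3.ftCoord K (Phi78 K) z₁ z₂ = T3.H732.J732 (InfinitePlace K) := by
  classical
  unfold T3.ftCoord
  rw [finsum_eq_single _ (0 : ℤ × ℤ)]
  · show (∫ x : InfinitePlace K → ℝ × ℝ, Phi78 K (0, x)) * z₁ ^ (0 : ℤ) * z₂ ^ (0 : ℤ) = _
    rw [zpow_zero, zpow_zero, mul_one, mul_one]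
    unfold T3.H732.J732
    refine integral_congr_ae (Filter.Eventually.of_forall fun x => ?_)
    show T3.H732.Phi1_732 (ι := InfinitePlace K) (0, x) = _
    unfold T3.H732.Phi1_732
    simp
  · intro m hm
    have h0 : ∀ x : InfinitePlace K → ℝ × ℝ, Phi78 K (m, x) = 0 := by
      intro x
      show T3.H732.Phi1_732 (ι := InfinitePlace K) (m, x) = 0
      unfold T3.H732.Phi1_732
      rw [if_neg hm, zero_mul]
    simp only [h0, integral_zero, zero_mul]

end Test

/-! ## 4. The leaf -/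

/-- A function of the class is a cusp function of level `𝔫` in the sense of T2. -/
theorem isCuspFn_of_isEigFn78 {𝔫 : Ideal (𝓞 K)} {r : G K} {l : ℕ}
    {o : ℕ → HeightOneSpectrum (𝓞 K)} {C : EigData K} {ψ : G K → ℂ}
    (hψ : IsEigFn 𝔫 r l o ψ C) : T2.IsCuspFn 𝔫 ψ where
  cont := hψ.inv.cusp.cont
  bdd := hψ.inv.cusp.bdd
  left_inv := hψ.inv.cusp.aut.left_inv
  level_inv := hψ.inv.cusp.aut.level_inv
  arch_scalar := hψ.inv.arch_scalar
  arch_compact := fun w k hk g => by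
    have h := hψ.inv.cusp.aut.arch_compact w k hk g
    rw [h]
    show (1 : ℂ) * ψ g = ψ g
    rw [one_mul]
  cuspidal := hψ.inv.cusp.cuspidal

/-- A function of a class which is spherical of parameter `0` is spherical of parameter `0` of
level `𝔫` in the sense of T3. -/
theorem isSph0Level_of_isEigFn78 (hcx : ∀ w : InfinitePlace K, w.IsComplex) {𝔫 : Ideal (𝓞 K)}
    {r : G K} {l : ℕ} {o : ℕ → HeightOneSpectrum (𝓞 K)} {C : EigData K} (hC : C.IsSph0)
    {ψ : G K → ℂ} (hψ : IsEigFn 𝔫 r l o ψ C) : T3.IsSph0Level K 𝔫 ψ where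
  cont := hψ.inv.cusp.cont
  level_inv := hψ.inv.cusp.aut.level_inv
  arch_scalar := hψ.inv.arch_scalar
  arch_compact := (isCuspFn_of_isEigFn78 hψ).arch_compact
  mean_complex := fun w _ d hd Y hY g => by
    rw [hψ.mean w d hd Y hY g, hC w d hd]
    rfl
  mean_real := fun w hw => absurd hw (InfinitePlace.not_isReal_iff_isComplex.mpr (hcx w))

/-- **LEAF `ClassFinC`** from the closed Props of the towers T2 and T3. -/
theorem classFinC_of78 (hF : T2.FrameExists K)
    (hPD : ∀ 𝔫 : Ideal (𝓞 K), 𝔫 ≠ ⊥ → T2.PairDefinite K 𝔫)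
    (hHS : ∀ 𝔫 : Ideal (𝓞 K), 𝔫 ≠ ⊥ → T2.HSBound K 𝔫)
    (hAS : T3.AS.AbelSatakeSmoothC K) (hν : T3.InAddHaarC K) (hSU : T3.InScalarUnifC K) :
    T7.H963.ClassFinC K := by
  classical
  intro hcx 𝔫 r l o C h𝔫 hr hC
  obtain ⟨F⟩ := hF
  obtain ⟨v₀, hv₀⟩ := T7.H963.goodPrimeC K 𝔫 h𝔫
  by_cases hb : C.b v₀ = 0
  · refine ⟨⊥, inferInstance, fun ψ hψ => ?_⟩
    rw [Submodule.mem_bot]
    funext g
    have h1 := hψ.hecke v₀ hv₀
    rw [hb] at h1
    exact T3.H732.eq_zero_of_b_eq_zero732 K hSU h1 g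
  obtain ⟨a₀, n, hn, hspan, hmem⟩ := exists_ray_pow78 K 𝔫 h𝔫 v₀ hv₀
  have ha₀ : algebraMap (𝓞 K) K a₀ ≠ 0 := by
    intro h0
    have h0' : a₀ = 0 :=
      (map_eq_zero_iff (algebraMap (𝓞 K) K) (FaithfulSMul.algebraMap_injective (𝓞 K) K)).1 h0
    rw [h0'] at hspan
    have hbot : (v₀.asIdeal ^ n) = ⊥ := by rw [← hspan]; simp
    exact v₀.ne_bot (pow_eq_zero_iff (Nat.pos_iff_ne_zero.1 hn) |>.1 hbot)
  obtain ⟨ν, hνH⟩ := hν
  obtain ⟨κ, Δ, κ₀, hκ₀, hΦ⟩ :=
    hAS hcx F.μ F.haar ν hνH 𝔫 h𝔫 v₀ hv₀ a₀ n hn hspan hmem (Units.mk0 _ ha₀) rfl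
  obtain ⟨f, hfc, hfs, hbi, hsupp, hsm, -, hop⟩ := hΦ (Phi78 K) (phi78_mem K)
  obtain ⟨z₁, z₂, hz1, hz2⟩ := T3.H732.exists_roots732 (C.a v₀) (C.b v₀)
  have hlam : κ₀ * T3.ftCoord K (Phi78 K) z₁ z₂ ≠ 0 := by
    rw [ftCoord_phi78]
    exact mul_ne_zero hκ₀ T3.H732.J732_ne_zero
  have htest : T2.IsTestFn 𝔫 f :=
    { cont := hfc
      smooth := hsm
      cpt := hfs
      level_right := fun u hu g => (hbi.1 u hu g).2
      level_left := fun u hu g => (hbi.1 u hu g).1
      arch_right := fun w k hk g => (hbi.2 w k hk g).2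
      arch_left := fun w k hk g => (hbi.2 w k hk g).1 }
  obtain ⟨C₀, hC₀⟩ := hHS 𝔫 h𝔫 F f htest
  have hfin : FiniteDimensional ℂ
      (eigSub78 F 𝔫 (hPD 𝔫 h𝔫) hfc hfs (κ₀ * T3.ftCoord K (Phi78 K) z₁ z₂)) :=
    finite_eigSub78 F 𝔫 (hPD 𝔫 h𝔫) hfc hfs hlam hC₀
  refine ⟨(eigSub78 F 𝔫 (hPD 𝔫 h𝔫) hfc hfs (κ₀ * T3.ftCoord K (Phi78 K) z₁ z₂)).map
    (Sp78.fnL F 𝔫 (hPD 𝔫 h𝔫)), ?_, fun ψ hψ => ?_⟩
  · haveI := hfin
    exact Module.Finite.map _ _
  · have hcusp := isCuspFn_of_isEigFn78 hψ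
    refine ⟨Sp78.mk F 𝔫 (hPD 𝔫 h𝔫) hcusp, ?_, rfl⟩
    show T2.conv F f ψ = fun g => κ₀ * T3.ftCoord K (Phi78 K) z₁ z₂ * ψ g
    funext g
    exact hop ψ (isSph0Level_of_isEigFn78 hcx hC hψ) (C.a v₀) (C.b v₀) z₁ z₂ (hψ.hecke v₀ hv₀)
      hz1 hz2 hb g

end Fermat.Agent.LT.T7.H78

end

end
-- ===== PACK-END LT/T7/H78/ClassFin.lean

-- ===== PACK-BEGIN LT/T7/H78/ClassFinClosed.lean
section





/-!
# Row LT, tower T7, node `SimpleC` (helper963), leaf `ClassFinC` (helper78): CLOSED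

OFF-MAIN.  ADDITIVE.  Registry row 2368 (T7.L2.2.N.S1).

    classFinC78 (K) : T7.H963.ClassFinC K        -- UNCONDITIONAL, every number field `K`

VERBATIM vs `LT/T7/H963/Simple.lean` (helper963@8d178033b, sha256 1da7252d78fe9c11).
Inputs (all closed): `T1.t1Out` (helper54), `T2.frame_pairDefinite_closed`, `T2.gps_of_T1`
(helper130: `HSBound`), `T3.abelSatakeSmooth_closed` (helper14 / helper736), `H963.goodPrimeC`.
-/

set_option autoImplicit false

open IsDedekindDomain NumberField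

namespace Fermat.Agent.LT.T7.H78

open Fermat.Agent.LT

/-- **LEAF `ClassFinC` (T7.L2.2.N.S1), CLOSED**: the class of joint eigen-data which are
spherical of parameter `0` lies in a finite-dimensional space. -/
theorem classFinC78 (K : Type) [Field K] [NumberField K] : T7.H963.ClassFinC K :=
  classFinC_of78 (T2.frame_pairDefinite_closed K (T1.t1Out K)).1
    (T2.frame_pairDefinite_closed K (T1.t1Out K)).2
    (fun 𝔫 h𝔫 => (T2.gps_of_T1 K (T1.t1Out K) 𝔫 h𝔫).2.2.2.2.2.1)
    (T3.abelSatakeSmooth_closed K (T1.t1Out K))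
    (T3.inAddHaar_of_T1 K (T1.t1Out K).locComp)
    (T3.inScalarUnif_of_T1 K (T1.t1Out K).heckeCoset)

example (K : Type) [Field K] [NumberField K] : T7.H963.ClassFinC K := classFinC78 K

end Fermat.Agent.LT.T7.H78

end
-- ===== PACK-END LT/T7/H78/ClassFinClosed.lean

-- ===== PACK-BEGIN LT/T6/H626/ArchMatchClosed626.lean
section



/-!
# Row LT, tower T6, station T6.20: `ArchMatchC` CLOSED (helper626, sub-architect, integrator)

OFF-MAIN.  ONE closure, byte-identical copies of the files of the owners.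

`archMatchC626 : T6.ArchMatchC` (P7, archimedean matching `ℂ/ℝ`, `T6/SpecArch.lean` 003240b2),
UNCONDITIONAL.

| part | Prop | closed by |
|---|---|---|
| T6.20a | `H626.AbelExistC626` | route H (helper626 cut; leaves 283 698 290 729 3 922 501 439 904 944) |
| T6.20c | `H626.SpecRelC626` | helper830 (`specRelC626_830`, = T6.29) |
| T6.20d | `H634.HypExplC634` | helper855 (`hypExplC_closed855`) |
| T6.20e | `H634.EllValueC634` | helper634 (cut, tops), helper833 (`ProfAbelC634`), helper842 (`EllRealC634`), helper75 (`EllTwC634`), helper781 (`ArchEllIdC`), helper189 (`ArchIntOut`) |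
-/

set_option autoImplicit false

noncomputable section

namespace Fermat.Agent.LT.T6.H626

open Fermat.Agent.LT.T6

/-- **T6.20b CLOSED: geometric matching from the Abel relation.** -/
theorem geoMatchC626_closed : GeoMatchC626 :=
  geoMatch_open626e H842.ellRealC634_842 H75.ellTwC634_75

/-- **T6.20 CLOSED: P7, the archimedean matching for `ℂ/ℝ`.** -/
theorem archMatchC626 : ArchMatchC :=
  archMatchC_open626f H842.ellRealC634_842

end Fermat.Agent.LT.T6.H626

end

end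
-- ===== PACK-END LT/T6/H626/ArchMatchClosed626.lean

-- ===== PACK-BEGIN LT/T3/H681/SatakeBC.lean
section


/-!
# Row LT, tower T3, asset (helper681), OFF-MAIN -- part 6: bridge B1 (inert place)

Bridge B1 of hint #18148 (helper797) between the T6 base change of spherical functions and the
T3 pair relation.  `w` a finite place of `K'`, `v` a finite place of `K`, `N w = (N v)^l`
(`w | v` unramified of residue degree `l`), `φ, f` dominant with `T6.IsBC l (N v) φ f`:

    bc_pair681 : HasSatakeEigen w (fun g => φ (cartan g)) A →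
        IsSatakePair v (fun g => f (cartan g)) (bcCoef681 l A),

`bcCoef681 l A (m₁, m₂) = A (m₁ / l, m₂ / l)` if `l ∣ m₁, m₂` and `0` otherwise: the whole T3 pair
relation downstairs (`n_int` AND `eigen`) from the EIGEN field upstairs.
-/

set_option autoImplicit false
set_option linter.unusedSectionVars false

open scoped Classical

open IsDedekindDomain NumberField MeasureTheory

noncomputable section

namespace Fermat.Agent.LT.T3.H681

open Fermat.Agent.LT.T6 Fermat.Agent.LT.T6.H305 Fermat.Agent.LT.T3.AS Fermat.Agent.LT.T3.H263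

/-- `A_v(m) = A_w(m / l)`. -/
def bcCoef681 (l : ℕ) (A : ℤ × ℤ → ℂ) (m : ℤ × ℤ) : ℂ :=
  if (l : ℤ) ∣ m.1 ∧ (l : ℤ) ∣ m.2 then A (m.1 / (l : ℤ), m.2 / (l : ℤ)) else 0

theorem bcCoef_mul681 (l : ℕ) (hl : 0 < l) (A : ℤ × ℤ → ℂ) (m : ℤ × ℤ) :
    bcCoef681 l A ((l : ℤ) * m.1, (l : ℤ) * m.2) = A m := by
  have hl0 : (l : ℤ) ≠ 0 := by exact_mod_cast hl.ne'
  unfold bcCoef681
  rw [if_pos ⟨dvd_mul_right _ _, dvd_mul_right _ _⟩, Int.mul_ediv_cancel_left _ hl0,
    Int.mul_ediv_cancel_left _ hl0]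

theorem bcCoef_support681 (l : ℕ) (A : ℤ × ℤ → ℂ) (m : ℤ × ℤ) (hm : bcCoef681 l A m ≠ 0) :
    ∃ m' : ℤ × ℤ, A m' ≠ 0 ∧ m = ((l : ℤ) * m'.1, (l : ℤ) * m'.2) := by
  unfold bcCoef681 at hm
  by_cases hc : (l : ℤ) ∣ m.1 ∧ (l : ℤ) ∣ m.2
  · rw [if_pos hc] at hm
    refine ⟨(m.1 / (l : ℤ), m.2 / (l : ℤ)), hm, ?_⟩
    ext
    · exact (Int.mul_ediv_cancel' hc.1).symm
    · exact (Int.mul_ediv_cancel' hc.2).symm
  · rw [if_neg hc] at hm
    exact absurd rfl hm

theorem bcCoef_fin681 (l : ℕ) (A : ℤ × ℤ → ℂ) (hA : (Function.support A).Finite) :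
    (Function.support (bcCoef681 l A)).Finite := by
  refine (hA.image (fun m : ℤ × ℤ => ((l : ℤ) * m.1, (l : ℤ) * m.2))).subset ?_
  intro m hm
  rw [Function.mem_support] at hm
  obtain ⟨m', hm', rfl⟩ := bcCoef_support681 l A m hm
  exact ⟨m', hm', rfl⟩

/-- The Laurent polynomial of `bcCoef681 l A` is the one of `A` at `(z₁^l, z₂^l)`. -/
theorem laurent_bcCoef681 (l : ℕ) (hl : 0 < l) (A : ℤ × ℤ → ℂ) (z₁ z₂ : ℂ) :
    laurent (bcCoef681 l A) z₁ z₂ = laurent A (z₁ ^ l) (z₂ ^ l) := by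
  have hl0 : (l : ℤ) ≠ 0 := by exact_mod_cast hl.ne'
  have hinj : Function.Injective (fun m : ℤ × ℤ => ((l : ℤ) * m.1, (l : ℤ) * m.2)) := by
    intro m m' h
    simp only [Prod.mk.injEq] at h
    ext
    · exact mul_left_cancel₀ hl0 h.1
    · exact mul_left_cancel₀ hl0 h.2
  have hsub : Function.support (fun m : ℤ × ℤ => bcCoef681 l A m * z₁ ^ m.1 * z₂ ^ m.2)
      ⊆ Set.range (fun m : ℤ × ℤ => ((l : ℤ) * m.1, (l : ℤ) * m.2)) := by
    intro m hm
    rw [Function.mem_support] at hm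
    have h0 : bcCoef681 l A m ≠ 0 := by
      intro h
      apply hm
      rw [h, zero_mul, zero_mul]
    obtain ⟨m', _, rfl⟩ := bcCoef_support681 l A m h0
    exact ⟨m', rfl⟩
  unfold laurent
  rw [← Set.indicator_eq_self.2 hsub, ← finsum_mem_def, finsum_mem_range hinj]
  refine finsum_congr (fun m => ?_)
  simp only
  rw [bcCoef_mul681 l hl A m, zpow_mul, zpow_mul, zpow_natCast, zpow_natCast]

section Pair

variable {K K' : Type} [Field K] [NumberField K] [Field K'] [NumberField K']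

theorem sph_biIntInv681 (v : HeightOneSpectrum (𝓞 K)) (f : (ℤ × ℤ) →₀ ℂ) :
    IsBiIntInv v (fun g => f (cartan g)) := by
  intro κ κ' g hκ hκ'
  show f (cartan (κ * g * κ')) = f (cartan g)
  rw [cartan_mul_right681 _ κ' ((isIntGL_iff263 v κ').1 hκ'),
    cartan_mul_left681 κ g ((isIntGL_iff263 v κ).1 hκ)]

theorem sph_isRepSys681 (v : HeightOneSpectrum (𝓞 K)) (f : (ℤ × ℤ) →₀ ℂ) (hf : IsDominant f) :
    ∃ R : Finset (GL (Fin 2) (v.adicCompletion K)), IsRepSys v (fun g => f (cartan g)) R := by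
  obtain ⟨D, _⟩ := exists_resData (Fermat.Agent.LT.T6.H176.instLocalC176 K v)
  exact ⟨sphSys681 D f, (isRepSys_iff263 v _ _).2 (sph_rep681 D f hf)⟩

/-- The Satake transform (T6 form) of a spherical function with a T3 eigen relation is the
Laurent polynomial of the coefficients. -/
theorem sph_sum_eq_laurent681 (w : HeightOneSpectrum (𝓞 K')) (φ : (ℤ × ℤ) →₀ ℂ)
    (hφ : IsDominant φ) (A : ℤ × ℤ → ℂ) (hpair : HasSatakeEigen w (fun g => φ (cartan g)) A)
    (x y : ℂ) (hx : x ≠ 0) (hy : y ≠ 0) :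
    (φ.sum fun lam c => c * satake (Ideal.absNorm w.asIdeal) lam x y) = laurent A x y := by
  obtain ⟨Φ', hΦ', h1⟩ := exists_locEigen681 K' w x y hx hy
  obtain ⟨R', hR'⟩ := sph_isRepSys681 w φ hφ
  have e1 := hpair Φ' _ _ x y hΦ' rfl rfl (mul_ne_zero hx hy) R' hR' 1
  have e2 := sph_acts681 w φ hφ hΦ' rfl rfl (mul_ne_zero hx hy) R' hR' 1
  rw [e1, h1, mul_one, mul_one] at e2
  exact e2.symm

/-- **Bridge B1 (inert place).** -/
theorem bc_pair681 (v : HeightOneSpectrum (𝓞 K)) (w : HeightOneSpectrum (𝓞 K')) (l : ℕ)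
    (hl : 0 < l) (hq : Ideal.absNorm w.asIdeal = Ideal.absNorm v.asIdeal ^ l)
    (φ f : (ℤ × ℤ) →₀ ℂ) (hφ : IsDominant φ) (hf : IsDominant f)
    (hbc : IsBC l (Ideal.absNorm v.asIdeal) φ f)
    (A : ℤ × ℤ → ℂ) (hA : (Function.support A).Finite)
    (hpair : HasSatakeEigen w (fun g => φ (cartan g)) A) :
    IsSatakePair v (fun g => f (cartan g)) (bcCoef681 l A) := by
  refine satakeInj681 v _ _ (bcCoef_fin681 l A hA) (sph_biIntInv681 v f)
    (sph_isRepSys681 v f hf) ?_
  intro Φ₀ a b z₁ z₂ hΦ hz₁ hz₂ hb R hR y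
  have hz₁0 : z₁ ≠ 0 := by
    intro h
    apply hb
    rw [← hz₂, h, zero_mul]
  have hz₂0 : z₂ ≠ 0 := by
    intro h
    apply hb
    rw [← hz₂, h, mul_zero]
  rw [sph_acts681 v f hf hΦ hz₁ hz₂ hb R hR y, hbc z₁ z₂ hz₁0 hz₂0, ← hq,
    sph_sum_eq_laurent681 w φ hφ A hpair (z₁ ^ l) (z₂ ^ l) (pow_ne_zero _ hz₁0)
      (pow_ne_zero _ hz₂0), laurent_bcCoef681 l hl A z₁ z₂]

/-- B1 in the T3 vocabulary only: ANY bi-invariant upstairs function of finite support with the
eigen relation for `A`, base change `f` of its Cartan form. -/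
theorem bc_pair_of_biinv681 (v : HeightOneSpectrum (𝓞 K)) (w : HeightOneSpectrum (𝓞 K'))
    (l : ℕ) (hl : 0 < l) (hq : Ideal.absNorm w.asIdeal = Ideal.absNorm v.asIdeal ^ l)
    (f₀ : GL (Fin 2) (w.adicCompletion K') → ℂ) (A : ℤ × ℤ → ℂ)
    (hA : (Function.support A).Finite) (hbi : IsBiIntInv w f₀)
    (hrep : ∃ R : Finset (GL (Fin 2) (w.adicCompletion K')), IsRepSys w f₀ R)
    (he : HasSatakeEigen w f₀ A) :
    ∃ φ : (ℤ × ℤ) →₀ ℂ, IsDominant φ ∧ f₀ = (fun g => φ (cartan g)) ∧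
      ∀ f : (ℤ × ℤ) →₀ ℂ, IsDominant f → IsBC l (Ideal.absNorm v.asIdeal) φ f →
        IsSatakePair v (fun g => f (cartan g)) (bcCoef681 l A) := by
  obtain ⟨D, _⟩ := exists_resData (Fermat.Agent.LT.T6.H176.instLocalC176 K' w)
  obtain ⟨R, hR⟩ := hrep
  have h1K : IsIntGL w (1 : GL (Fin 2) (w.adicCompletion K')) := (isIntGL_iff263 w 1).2 inK_one
  have hli : IsLInv263 f₀ := by
    intro u g hu
    have := hbi u 1 g ((isIntGL_iff263 w u).2 hu) h1K
    rwa [mul_one] at this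
  have hri : IsRInv263 f₀ := by
    intro u g hu
    have := hbi 1 u g h1K ((isIntGL_iff263 w u).2 hu)
    rwa [one_mul] at this
  obtain ⟨φ, hφ, e⟩ := exists_sph_of_biinv681 D hli hri R ((isRepSys_iff263 w f₀ R).1 hR)
  refine ⟨φ, hφ, e, fun f hf hbc => ?_⟩
  rw [e] at he
  exact bc_pair681 v w l hl hq φ f hφ hf hbc A hA he

end Pair

end Fermat.Agent.LT.T3.H681

end

end
-- ===== PACK-END LT/T3/H681/SatakeBC.lean

-- ===== PACK-BEGIN LT/T3/H681/SatakeConvProd.lean
section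


/-!
# Row LT, tower T3, asset (helper681), OFF-MAIN -- part 8: bridge B2, `l`-fold form

* `convCoef681 A₁ A₂` : the convolution `(A₁ * A₂)(m) = ∑_{m'} A₁(m') A₂(m - m')` on `ℤ²`;
  `laurent_convCoef681` : its Laurent polynomial is the product; `convCoef_fin681`.
* `conv_pair_coef681` : `IsSatakePair v χ (convCoef681 A₁ A₂)` for `χ = φ * ψ` (`T6.IsConv`).
* `convIter681 A m = A 0 * A 1 * ⋯ * A m`, and the `l`-fold form

      convProd_pair681 : 0 < l → (∀ j < l, IsSatakePair v (φ j) (A j)) →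
        (∀ j < l, (Function.support (A j)).Finite) → T6.IsConvProd (InU 0) l φ f →
        IsSatakePair v f (convIter681 A (l - 1)).
-/

set_option autoImplicit false
set_option linter.unusedSectionVars false

open scoped Classical

open IsDedekindDomain NumberField MeasureTheory

noncomputable section

namespace Fermat.Agent.LT.T3.H681

open Fermat.Agent.LT.T6 Fermat.Agent.LT.T6.H305 Fermat.Agent.LT.T3.AS Fermat.Agent.LT.T3.H263

/-- The convolution on `ℤ²`. -/
def convCoef681 (A₁ A₂ : ℤ × ℤ → ℂ) (m : ℤ × ℤ) : ℂ := ∑ᶠ m' : ℤ × ℤ, A₁ m' * A₂ (m - m')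

theorem convCoef_eq_sum681 (A₁ A₂ : ℤ × ℤ → ℂ) (hA₁ : (Function.support A₁).Finite)
    (m : ℤ × ℤ) : convCoef681 A₁ A₂ m = ∑ m' ∈ hA₁.toFinset, A₁ m' * A₂ (m - m') := by
  unfold convCoef681
  refine finsum_eq_sum_of_support_subset _ ?_
  intro m' hm'
  rw [Function.mem_support] at hm'
  rw [Finset.mem_coe, Set.Finite.mem_toFinset, Function.mem_support]
  exact left_ne_zero_of_mul hm'

theorem convCoef_support681 (A₁ A₂ : ℤ × ℤ → ℂ) (hA₁ : (Function.support A₁).Finite)
    (hA₂ : (Function.support A₂).Finite) (m : ℤ × ℤ) (hm : convCoef681 A₁ A₂ m ≠ 0) :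
    m ∈ Finset.image₂ (fun a b : ℤ × ℤ => a + b) hA₁.toFinset hA₂.toFinset := by
  rw [convCoef_eq_sum681 A₁ A₂ hA₁ m] at hm
  obtain ⟨m', hm', hne⟩ := Finset.exists_ne_zero_of_sum_ne_zero hm
  rw [Finset.mem_image₂]
  refine ⟨m', hm', m - m', ?_, by simp⟩
  rw [Set.Finite.mem_toFinset, Function.mem_support]
  exact right_ne_zero_of_mul hne

theorem convCoef_fin681 (A₁ A₂ : ℤ × ℤ → ℂ) (hA₁ : (Function.support A₁).Finite)
    (hA₂ : (Function.support A₂).Finite) : (Function.support (convCoef681 A₁ A₂)).Finite := by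
  refine (Finset.finite_toSet
    (Finset.image₂ (fun a b : ℤ × ℤ => a + b) hA₁.toFinset hA₂.toFinset)).subset ?_
  intro m hm
  rw [Function.mem_support] at hm
  exact convCoef_support681 A₁ A₂ hA₁ hA₂ m hm

theorem laurent_eq_sum681 (A : ℤ × ℤ → ℂ) (z₁ z₂ : ℂ) (S : Finset (ℤ × ℤ))
    (hS : ∀ m, A m ≠ 0 → m ∈ S) :
    laurent A z₁ z₂ = ∑ m ∈ S, A m * z₁ ^ m.1 * z₂ ^ m.2 := by
  unfold laurent
  refine finsum_eq_sum_of_support_subset _ ?_
  intro m hm
  rw [Function.mem_support] at hm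
  rw [Finset.mem_coe]
  apply hS
  intro h0
  apply hm
  rw [h0, zero_mul, zero_mul]

/-- The Laurent polynomial of a convolution is the product. -/
theorem laurent_convCoef681 (A₁ A₂ : ℤ × ℤ → ℂ) (hA₁ : (Function.support A₁).Finite)
    (hA₂ : (Function.support A₂).Finite) (z₁ z₂ : ℂ) (hz₁ : z₁ ≠ 0) (hz₂ : z₂ ≠ 0) :
    laurent (convCoef681 A₁ A₂) z₁ z₂ = laurent A₁ z₁ z₂ * laurent A₂ z₁ z₂ := by
  set S₁ := hA₁.toFinset with hS₁
  set S₂ := hA₂.toFinset with hS₂
  set S := Finset.image₂ (fun a b : ℤ × ℤ => a + b) S₁ S₂ with hS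
  have m₁ : ∀ m, A₁ m ≠ 0 → m ∈ S₁ := by
    intro m hm
    rw [hS₁, Set.Finite.mem_toFinset, Function.mem_support]
    exact hm
  have m₂ : ∀ m, A₂ m ≠ 0 → m ∈ S₂ := by
    intro m hm
    rw [hS₂, Set.Finite.mem_toFinset, Function.mem_support]
    exact hm
  rw [laurent_eq_sum681 _ z₁ z₂ S (convCoef_support681 A₁ A₂ hA₁ hA₂),
    laurent_eq_sum681 A₁ z₁ z₂ S₁ m₁, laurent_eq_sum681 A₂ z₁ z₂ S₂ m₂]
  have step : ∀ m ∈ S, convCoef681 A₁ A₂ m * z₁ ^ m.1 * z₂ ^ m.2
      = ∑ m' ∈ S₁, A₁ m' * (A₂ (m - m') * z₁ ^ m.1 * z₂ ^ m.2) := by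
    intro m _
    rw [convCoef_eq_sum681 A₁ A₂ hA₁ m, Finset.sum_mul, Finset.sum_mul]
    refine Finset.sum_congr rfl (fun m' _ => ?_)
    ring
  rw [Finset.sum_congr rfl step, Finset.sum_comm, Finset.sum_mul]
  refine Finset.sum_congr rfl (fun m' hm' => ?_)
  have inner : ∑ m ∈ S, A₂ (m - m') * z₁ ^ m.1 * z₂ ^ m.2
      = z₁ ^ m'.1 * z₂ ^ m'.2 * ∑ m'' ∈ S₂, A₂ m'' * z₁ ^ m''.1 * z₂ ^ m''.2 := by
    have hsub : S₂.image (fun m'' => m'' + m') ⊆ S := by
      intro m hm
      obtain ⟨m'', hm'', rfl⟩ := Finset.mem_image.1 hm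
      rw [hS, Finset.mem_image₂]
      exact ⟨m', hm', m'', hm'', add_comm _ _⟩
    rw [← Finset.sum_subset hsub, Finset.sum_image, Finset.mul_sum]
    · refine Finset.sum_congr rfl (fun m'' _ => ?_)
      rw [add_sub_cancel_right, Prod.fst_add, Prod.snd_add, zpow_add₀ hz₁, zpow_add₀ hz₂]
      ring
    · intro a _ b _ h
      exact add_right_cancel h
    · intro m _ hm
      have h0 : A₂ (m - m') = 0 := by
        by_contra hne
        apply hm
        rw [Finset.mem_image]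
        exact ⟨m - m', m₂ _ hne, by simp⟩
      rw [h0, zero_mul, zero_mul]
  rw [← Finset.mul_sum, inner]
  ring

section Pair

variable {K : Type} [Field K] [NumberField K] (v : HeightOneSpectrum (𝓞 K))

/-- Bridge B2 with the explicit convolution of the coefficients. -/
theorem conv_pair_coef681 (φ ψ χ : GL (Fin 2) (v.adicCompletion K) → ℂ) (A₁ A₂ : ℤ × ℤ → ℂ)
    (hA₁ : (Function.support A₁).Finite) (hA₂ : (Function.support A₂).Finite)
    (hφ : IsBiIntInv v φ) (hφrep : ∃ R, IsRepSys v φ R) (hφe : HasSatakeEigen v φ A₁)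
    (hψ : IsBiIntInv v ψ) (hψrep : ∃ R, IsRepSys v ψ R) (hψe : HasSatakeEigen v ψ A₂)
    (hconv : IsConv (InU 0) φ ψ χ) : IsSatakePair v χ (convCoef681 A₁ A₂) :=
  conv_pair681 v φ ψ χ A₁ A₂ _ (convCoef_fin681 A₁ A₂ hA₁ hA₂) hφ hφrep hφe hψ hψrep hψe hconv
    (fun z₁ z₂ hz₁ hz₂ => laurent_convCoef681 A₁ A₂ hA₁ hA₂ z₁ z₂ hz₁ hz₂)

/-- `A 0 * A 1 * ⋯ * A m`. -/
def convIter681 (A : ℕ → ℤ × ℤ → ℂ) : ℕ → ℤ × ℤ → ℂ
  | 0 => A 0
  | (m + 1) => convCoef681 (convIter681 A m) (A (m + 1))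

theorem convIter_zero681 (A : ℕ → ℤ × ℤ → ℂ) : convIter681 A 0 = A 0 := by
  rw [convIter681]

theorem convIter_succ681 (A : ℕ → ℤ × ℤ → ℂ) (m : ℕ) :
    convIter681 A (m + 1) = convCoef681 (convIter681 A m) (A (m + 1)) := by
  rw [convIter681]

theorem convIter_fin681 (A : ℕ → ℤ × ℤ → ℂ) (l : ℕ)
    (hA : ∀ j < l, (Function.support (A j)).Finite) :
    ∀ m < l, (Function.support (convIter681 A m)).Finite := by
  intro m
  induction m with
  | zero =>
    intro h
    rw [convIter_zero681]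
    exact hA 0 h
  | succ m ih =>
    intro h
    rw [convIter_succ681]
    exact convCoef_fin681 _ _ (ih (by omega)) (hA (m + 1) h)

/-- The Laurent polynomial of the iterated convolution is the product. -/
theorem laurent_convIter681 (A : ℕ → ℤ × ℤ → ℂ) (l : ℕ)
    (hA : ∀ j < l, (Function.support (A j)).Finite) (z₁ z₂ : ℂ) (hz₁ : z₁ ≠ 0) (hz₂ : z₂ ≠ 0) :
    ∀ m < l, laurent (convIter681 A m) z₁ z₂
      = ∏ j ∈ Finset.range (m + 1), laurent (A j) z₁ z₂ := by
  intro m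
  induction m with
  | zero =>
    intro _
    rw [convIter_zero681]
    simp
  | succ m ih =>
    intro h
    rw [convIter_succ681, laurent_convCoef681 _ _ (convIter_fin681 A l hA m (by omega))
      (hA (m + 1) h) z₁ z₂ hz₁ hz₂, ih (by omega), Finset.prod_range_succ _ (m + 1)]

/-- **Bridge B2, `l`-fold form** (`T6.IsConvProd`, the form of `T6.SplitMatchC`). -/
theorem convProd_pair681 (l : ℕ) (hl : 0 < l)
    (φ : ℕ → GL (Fin 2) (v.adicCompletion K) → ℂ) (f : GL (Fin 2) (v.adicCompletion K) → ℂ)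
    (A : ℕ → ℤ × ℤ → ℂ) (hA : ∀ j < l, (Function.support (A j)).Finite)
    (hp : ∀ j < l, IsSatakePair v (φ j) (A j)) (hc : IsConvProd (InU 0) l φ f) :
    IsSatakePair v f (convIter681 A (l - 1)) := by
  obtain ⟨χ, h0, hstep, hf⟩ := hc
  have key : ∀ m < l, IsSatakePair v (χ m) (convIter681 A m) := by
    intro m
    induction m with
    | zero =>
      intro h
      rw [h0, convIter_zero681]
      exact hp 0 h
    | succ m ih =>
      intro h
      have h1 := ih (by omega)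
      have h2 := hp (m + 1) h
      rw [convIter_succ681]
      exact conv_pair_coef681 v (χ m) (φ (m + 1)) (χ (m + 1)) _ _
        (convIter_fin681 A l hA m (by omega)) (hA (m + 1) h) h1.bi_inv h1.fin_supp h1.eigen
        h2.bi_inv h2.fin_supp h2.eigen (hstep m h)
  rw [hf]
  exact key (l - 1) (by omega)

end Pair

/-! ## Appendix: the equation lemmas of the recursive definition are realised HERE -/

theorem eqns_realised_convIter681 : True := by
  have _h0 := @convIter681.eq_def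
  have _h1 := @convIter681.eq_1
  have _h2 := @convIter681.eq_2
  have _h3 := @convIter681.eq_unfold
  trivial

end Fermat.Agent.LT.T3.H681

end

end
-- ===== PACK-END LT/T3/H681/SatakeConvProd.lean

-- ===== PACK-BEGIN LT/T3/H681/SatakeShape.lean
section



/-!
# Row LT, tower T3, asset (helper681), OFF-MAIN -- part 9: the local factors downstairs

Existence forms of the bridges B1 / B2 in the shape which the construction nodes of tower T7 use
(`H893.SphOut893`, `H893.LocHyp893.split`, `T3.M.IsPurePairM`):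

* `bcCoef_symFin681`, `convCoef_symFin681`, `convIter_symFin681` : the coefficients downstairs
  are again `IsSymFin`;
* `sph_pair681` : EVERY spherical function `fun g => A (cartan g)` (`A` dominant) has a T3 pair
  `(f, B)` with `B` symmetric finite and `laurent B = ` the Satake transform of `A` (T6 form);
* `inert_pair681` (inert place, from `T6.BCExistsC`) : the base change exists and is a T3 pair;
* `exists_conv681`, `exists_convProd681` : the convolution (product) exists (`T6.IsConv`,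
  `T6.IsConvProd` at level `0`);
* `split_sph681` (split place) : for spherical `A 0, …, A (l-1)` there is a dominant `Av` with
  `T6.IsConvProd (InU 0) l (A j ∘ cartan) (Av ∘ cartan)`, Satake transform = the product, and
  the T3 pair `convIter681 B (l - 1)` for all T3 pairs `B j` of the factors.
-/

set_option autoImplicit false
set_option linter.unusedSectionVars false

open scoped Classical

open IsDedekindDomain NumberField MeasureTheory

noncomputable section

namespace Fermat.Agent.LT.T3.H681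

open Fermat.Agent.LT.T6 Fermat.Agent.LT.T6.H305 Fermat.Agent.LT.T3.AS Fermat.Agent.LT.T3.H263

/-! ## Symmetry of the coefficients -/

theorem bcCoef_symFin681 (l : ℕ) (A : ℤ × ℤ → ℂ) (hA : IsSymFin A) :
    IsSymFin (bcCoef681 l A) := by
  refine ⟨bcCoef_fin681 l A hA.1, fun m₁ m₂ => ?_⟩
  unfold bcCoef681
  by_cases h : (l : ℤ) ∣ m₁ ∧ (l : ℤ) ∣ m₂
  · rw [if_pos h, if_pos ⟨h.2, h.1⟩]
    exact hA.2 _ _
  · rw [if_neg h, if_neg (fun h' => h ⟨h'.2, h'.1⟩)]

theorem convCoef_symFin681 (A₁ A₂ : ℤ × ℤ → ℂ) (h₁ : IsSymFin A₁) (h₂ : IsSymFin A₂) :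
    IsSymFin (convCoef681 A₁ A₂) := by
  refine ⟨convCoef_fin681 A₁ A₂ h₁.1 h₂.1, fun m₁ m₂ => ?_⟩
  unfold convCoef681
  rw [← finsum_comp_equiv (Equiv.prodComm ℤ ℤ)]
  refine finsum_congr (fun m' => ?_)
  show A₁ (m'.2, m'.1) * A₂ ((m₁, m₂) - (m'.2, m'.1)) = A₁ m' * A₂ ((m₂, m₁) - m')
  rw [h₁.2 m'.2 m'.1]
  have e : ((m₁, m₂) - (m'.2, m'.1) : ℤ × ℤ) = (m₁ - m'.2, m₂ - m'.1) := rfl
  have e' : ((m₂, m₁) - m' : ℤ × ℤ) = (m₂ - m'.1, m₁ - m'.2) := rfl
  rw [e, e', h₂.2 (m₁ - m'.2) (m₂ - m'.1)]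

theorem convIter_symFin681 (A : ℕ → ℤ × ℤ → ℂ) (l : ℕ) (hA : ∀ j < l, IsSymFin (A j)) :
    ∀ m < l, IsSymFin (convIter681 A m) := by
  intro m
  induction m with
  | zero =>
    intro h
    rw [convIter_zero681]
    exact hA 0 h
  | succ m ih =>
    intro h
    rw [convIter_succ681]
    exact convCoef_symFin681 _ _ (ih (by omega)) (hA (m + 1) h)

/-! ## Symmetry of the Satake polynomials -/

theorem satPoly_symm681 (q : ℕ) (x y : ℂ) :
    ∀ n : ℕ, satPoly q x y n = satPoly q y x n := by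
  have key : ∀ n : ℕ, satPoly q x y n = satPoly q y x n ∧
      satPoly q x y (n + 1) = satPoly q y x (n + 1) ∧
      satPoly q x y (n + 2) = satPoly q y x (n + 2) := by
    intro n
    induction n with
    | zero =>
      refine ⟨?_, ?_, ?_⟩
      · rw [satPoly_zero, satPoly_zero]
      · rw [show (0 : ℕ) + 1 = 1 from rfl, satPoly_one, satPoly_one, add_comm]
      · rw [show (0 : ℕ) + 2 = 2 from rfl, satPoly_two, satPoly_two, add_comm x y, mul_comm x y]
    | succ n ih =>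
      refine ⟨ih.2.1, ih.2.2, ?_⟩
      rw [show n + 1 + 2 = n + 3 from rfl, satPoly_add_three, satPoly_add_three, ih.2.1, ih.2.2,
        add_comm x y, mul_comm x y]
  exact fun n => (key n).1

theorem satake_symm681 (q : ℕ) (lam : ℤ × ℤ) (x y : ℂ) :
    satake q lam x y = satake q lam y x := by
  unfold satake
  rw [satPoly_symm681 q x y, mul_comm x y]

/-! ## Existence of convolutions (any valued field) -/

section Abstract

variable {k : Type} [Field k] [Valued k Γ₀]

/-- The convolution exists. -/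
theorem exists_conv681 (φ ψ : GL (Fin 2) k → ℂ) (R : Finset (GL (Fin 2) k))
    (hR : IsRep263 φ R) : ∃ χ : GL (Fin 2) k → ℂ, IsConv (InU 0) φ ψ χ := by
  refine ⟨fun g => ∑ h ∈ R, φ h * ψ (h⁻¹ * g), fun g => ⟨R, ?_, ?_, rfl⟩⟩
  · rintro h hh h' hh' ⟨u, hu, rfl⟩
    refine hR.1 h hh _ hh' ?_
    rw [inv_mul_cancel_left]
    exact (inU_zero_iff _).1 hu
  · intro h hne
    obtain ⟨h', hh', hK⟩ := hR.2 h (left_ne_zero_of_mul hne)
    refine ⟨h', hh', h'⁻¹ * h, (inU_zero_iff _).2 hK, ?_⟩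
    group

/-- The convolution product exists, and it is bi-invariant with a finite system of
representatives. -/
theorem exists_convProd681 (φ : ℕ → GL (Fin 2) k → ℂ) (l : ℕ)
    (hl : ∀ j < l, IsLInv263 (φ j)) (hr : ∀ j < l, IsRInv263 (φ j))
    (hrep : ∀ j < l, ∃ R, IsRep263 (φ j) R) :
    ∀ m < l, ∃ χ : ℕ → GL (Fin 2) k → ℂ, χ 0 = φ 0 ∧
      (∀ i : ℕ, i + 1 ≤ m → IsConv (InU 0) (χ i) (φ (i + 1)) (χ (i + 1))) ∧
      IsLInv263 (χ m) ∧ IsRInv263 (χ m) ∧ ∃ R, IsRep263 (χ m) R := by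
  intro m
  induction m with
  | zero =>
    intro h
    exact ⟨fun _ => φ 0, rfl, fun i hi => absurd hi (by omega), hl 0 h, hr 0 h, hrep 0 h⟩
  | succ m ih =>
    intro h
    obtain ⟨χ, h0, hstep, hχl, hχr, R₁, hR₁⟩ := ih (by omega)
    obtain ⟨R₂, hR₂⟩ := hrep (m + 1) h
    obtain ⟨c, hc⟩ := exists_conv681 (χ m) (φ (m + 1)) R₁ hR₁
    obtain ⟨R, hR, hcov⟩ := exists_prod_sys681 R₁ R₂
    refine ⟨Function.update χ (m + 1) c, ?_, ?_, ?_, ?_, R, ?_⟩
    · rw [Function.update_of_ne (by omega)]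
      exact h0
    · intro i hi
      by_cases him : i = m
      · subst him
        rw [Function.update_self, Function.update_of_ne (by omega)]
        exact hc
      · rw [Function.update_of_ne (by omega), Function.update_of_ne (by omega)]
        exact hstep i (by omega)
    · rw [Function.update_self]
      exact conv_linv681 hχl hχr (hl (m + 1) h) hc R₁ hR₁
    · rw [Function.update_self]
      exact conv_rinv681 hχr (hl (m + 1) h) (hr (m + 1) h) hc R₁ hR₁
    · rw [Function.update_self]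
      exact conv_rep_of_prod681 hχr (hl (m + 1) h) hc R₁ R₂ R hR₁ hR₂ hR hcov

end Abstract

section Pair

variable {K K' : Type} [Field K] [NumberField K] [Field K'] [NumberField K']

/-- Every spherical function has a T3 pair with symmetric finite coefficients; its Laurent
polynomial is the Satake transform in the T6 form. -/
theorem sph_pair681 (v : HeightOneSpectrum (𝓞 K)) (A : (ℤ × ℤ) →₀ ℂ) (hA : IsDominant A) :
    ∃ B : ℤ × ℤ → ℂ, IsSymFin B ∧ IsSatakePair v (fun g => A (cartan g)) B ∧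
      ∀ x y : ℂ, x ≠ 0 → y ≠ 0 →
        laurent B x y = A.sum fun lam c => c * satake (Ideal.absNorm v.asIdeal) lam x y := by
  obtain ⟨D, hD⟩ := exists_resData (Fermat.Agent.LT.T6.H176.instLocalC176 K v)
  obtain ⟨B, h1, h2⟩ := (mem_pairSub681 D _).1
    (mem_pairSub_of_biinv681 D (isCompact_int263 v) (sph_linv681 A) (sph_rinv681 A) _
      (sph_rep681 D A hA))
  have hpair : IsSatakePair v (fun g => A (cartan g)) B := isSatakePair_of263 v D hD h1 h2
  have hL : ∀ x y : ℂ, x ≠ 0 → y ≠ 0 →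
      laurent B x y = A.sum fun lam c => c * satake (Ideal.absNorm v.asIdeal) lam x y :=
    fun x y hx hy => (sph_sum_eq_laurent681 v A hA B hpair.eigen x y hx hy).symm
  refine ⟨B, ⟨h1.fin, fun m₁ m₂ => ?_⟩, hpair, hL⟩
  -- symmetry: the Satake transform is symmetric in `(x, y)`
  have hswap : (fun m : ℤ × ℤ => B (m.2, m.1)) = B := by
    apply laurent2_inj681 _ B
      ((h1.fin.image (fun m : ℤ × ℤ => (m.2, m.1))).subset (by
        intro m hm
        rw [Function.mem_support] at hm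
        exact ⟨(m.2, m.1), hm, rfl⟩)) h1.fin
    intro z₁ z₂ hz₁ hz₂
    have e1 : ∑ᶠ m : ℤ × ℤ, B (m.2, m.1) * z₁ ^ m.1 * z₂ ^ m.2 = laurent B z₂ z₁ := by
      unfold laurent
      rw [← finsum_comp_equiv (Equiv.prodComm ℤ ℤ)]
      refine finsum_congr (fun m => ?_)
      show B (m.1, m.2) * z₁ ^ m.2 * z₂ ^ m.1 = B m * z₂ ^ m.1 * z₁ ^ m.2
      ring
    have e2 : laurent B z₂ z₁ = laurent B z₁ z₂ := by
      rw [hL z₂ z₁ hz₂ hz₁, hL z₁ z₂ hz₁ hz₂]
      refine Finset.sum_congr rfl (fun lam _ => ?_)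
      show A lam * satake _ lam z₂ z₁ = A lam * satake _ lam z₁ z₂
      congr 1
      exact satake_symm681 _ lam z₂ z₁
    rw [e1, e2]
    rfl
  have := congrFun hswap (m₂, m₁)
  exact this

/-- **Inert place**: the T6 base change of a T3 pair upstairs exists and is a T3 pair. -/
theorem inert_pair681 (hBC : BCExistsC) (v : HeightOneSpectrum (𝓞 K))
    (w : HeightOneSpectrum (𝓞 K')) (l : ℕ) (hl : 0 < l)
    (hq : Ideal.absNorm w.asIdeal = Ideal.absNorm v.asIdeal ^ l)
    (hq1 : 1 < Ideal.absNorm v.asIdeal)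
    (f₀ : GL (Fin 2) (w.adicCompletion K') → ℂ) (A : ℤ × ℤ → ℂ) (hA : IsSymFin A)
    (hp : IsSatakePair w f₀ A) :
    ∃ φ f : (ℤ × ℤ) →₀ ℂ, IsDominant φ ∧ IsDominant f ∧ f₀ = (fun g => φ (cartan g)) ∧
      IsBC l (Ideal.absNorm v.asIdeal) φ f ∧
      IsSatakePair v (fun g => f (cartan g)) (bcCoef681 l A) ∧ IsSymFin (bcCoef681 l A) := by
  obtain ⟨φ, hφ, e, hall⟩ := bc_pair_of_biinv681 v w l hl hq f₀ A hA.1 hp.bi_inv hp.fin_supp
    hp.eigen
  obtain ⟨f, hf, hbc, _⟩ := hBC l (Ideal.absNorm v.asIdeal) hl hq1 φ hφ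
  exact ⟨φ, f, hφ, hf, e, hbc, hall f hf hbc, bcCoef_symFin681 l A hA⟩

/-- **Split place**: the convolution product of spherical functions is spherical, its Satake
transform is the product, and it is a T3 pair for the convolution of the coefficients. -/
theorem split_sph681 (v : HeightOneSpectrum (𝓞 K)) (l : ℕ) (hl : 0 < l)
    (A : ℕ → (ℤ × ℤ) →₀ ℂ) (hA : ∀ j < l, IsDominant (A j)) :
    ∃ Av : (ℤ × ℤ) →₀ ℂ, IsDominant Av ∧
      IsConvProd (InU 0) l (fun j (g : GL (Fin 2) (v.adicCompletion K)) => A j (cartan g))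
        (fun g => Av (cartan g)) ∧
      (∀ x y : ℂ, x ≠ 0 → y ≠ 0 →
        (Av.sum fun lam c => c * satake (Ideal.absNorm v.asIdeal) lam x y)
          = ∏ j ∈ Finset.range l,
              (A j).sum fun lam c => c * satake (Ideal.absNorm v.asIdeal) lam x y) ∧
      ∀ B : ℕ → ℤ × ℤ → ℂ, (∀ j < l, (Function.support (B j)).Finite) →
        (∀ j < l, IsSatakePair v (fun g => A j (cartan g)) (B j)) →
        IsSatakePair v (fun g => Av (cartan g)) (convIter681 B (l - 1)) := by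
  obtain ⟨D, hD⟩ := exists_resData (Fermat.Agent.LT.T6.H176.instLocalC176 K v)
  obtain ⟨χ, h0, hstep, hχl, hχr, R, hR⟩ := exists_convProd681
    (fun j (g : GL (Fin 2) (v.adicCompletion K)) => A j (cartan g)) l
    (fun j _ => sph_linv681 (A j)) (fun j _ => sph_rinv681 (A j))
    (fun j hj => ⟨_, sph_rep681 D (A j) (hA j hj)⟩) (l - 1) (by omega)
  obtain ⟨Av, hAv, e⟩ := exists_sph_of_biinv681 D hχl hχr R hR
  have hprod : IsConvProd (InU 0) l
      (fun j (g : GL (Fin 2) (v.adicCompletion K)) => A j (cartan g))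
      (fun g => Av (cartan g)) :=
    ⟨χ, h0, fun m hm => hstep m (by omega), e.symm⟩
  have hpairs : ∀ B : ℕ → ℤ × ℤ → ℂ, (∀ j < l, (Function.support (B j)).Finite) →
      (∀ j < l, IsSatakePair v (fun g => A j (cartan g)) (B j)) →
      IsSatakePair v (fun g => Av (cartan g)) (convIter681 B (l - 1)) :=
    fun B hB hp => convProd_pair681 v l hl _ _ B hB hp hprod
  refine ⟨Av, hAv, hprod, ?_, hpairs⟩
  intro x y hx hy
  -- choose T3 pairs of the factors
  have hex : ∀ j : ℕ, ∃ B : ℤ × ℤ → ℂ, j < l → (IsSymFin B ∧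
      IsSatakePair v (fun g => A j (cartan g)) B ∧
      ∀ x y : ℂ, x ≠ 0 → y ≠ 0 →
        laurent B x y
          = (A j).sum fun lam c => c * satake (Ideal.absNorm v.asIdeal) lam x y) := by
    intro j
    by_cases hj : j < l
    · obtain ⟨B, h1, h2, h3⟩ := sph_pair681 v (A j) (hA j hj)
      exact ⟨B, fun _ => ⟨h1, h2, h3⟩⟩
    · exact ⟨fun _ => 0, fun h => absurd h hj⟩
  choose B hB using hex
  have hp := hpairs B (fun j hj => (hB j hj).1.1) (fun j hj => (hB j hj).2.1)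
  rw [sph_sum_eq_laurent681 v Av hAv _ hp.eigen x y hx hy,
    laurent_convIter681 B l (fun j hj => (hB j hj).1.1) x y hx hy (l - 1) (by omega),
    show l - 1 + 1 = l by omega]
  refine Finset.prod_congr rfl (fun j hj => ?_)
  exact (hB j (Finset.mem_range.1 hj)).2.2 x y hx hy

end Pair

end Fermat.Agent.LT.T3.H681

end

end
-- ===== PACK-END LT/T3/H681/SatakeShape.lean

-- ===== PACK-BEGIN LT/T7/H314/SphHyp.lean
section







/-!
# Row LT, tower T7, node T7.L2.1.H2b.3 `SphHypC893` (helper314, OFF-MAIN, never land)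

    sphHypC_of314 : T6.T6Out → H893.SphHypC893 K K'                       (VERBATIM)

vs `LT/T7/H893/SupplyProdSpec.lean` (helper893@e6faefac5, sha256 21691ff1).  `T6.T6Out` is
closed (`T6/Closed.lean`, `top_closed`): the integrator plugs it.

Proof.  At the places of `T₀` the clauses are those of the hypothesis.  At `v ∈ T ∖ T₀`
(unramified, levels `0`):
* `inv_up`, `inv_down`: a spherical function is bi-`GL₂(𝒪)`-invariant (`cartan_mul_left681`,
  `cartan_mul_right681`) with a finite system of representatives (`sph_rep681`, helper681);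
* `inert`: `e = 1` (`e_eq_one938`), the local fields (`inert_data938`, helper938), the
  fundamental lemma `T6.FundLemmaC` with the base change relation of `SphOut893`;
* `split`: the enumeration of helper938 (`exists_enum938`; it is injective on `[0, l)`:
  `enum_inj314`), the Cartan invariant does not change under the identifications
  (`cartan_map314`), the convolution product of the spherical components upstairs is spherical
  with Satake transform the product (`split_sph681`, helper681), and the Satake transform is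
  injective on the dominant functions (`satT_inj314`, `SatInjCore.lean`).

No hole, nothing assumed.  ADDITIVE (suffix `314`).
-/

set_option autoImplicit false
set_option linter.unusedSectionVars false

open AutomorphicForm IsDedekindDomain NumberField MeasureTheory
open scoped ComplexConjugate

noncomputable section

namespace Fermat.Agent.LT.T7.H314

open Fermat.Agent.LT.H556 Fermat.Agent.LT.H556.A0 Fermat.Agent.LT.T7 Fermat.Agent.LT.T7.H305
open Fermat.Agent.LT

section Local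

variable {k k' : Type} [Field k] [Valued k T6.Γ₀] [Field k'] [Valued k' T6.Γ₀]

/-- The Cartan invariant does not change under a valuation preserving isomorphism. -/
theorem cartan_map314 (i : k ≃+* k') (hi : ∀ x : k, Valued.v (i x) = Valued.v x)
    (g : GL (Fin 2) k) :
    T6.cartan (Matrix.GeneralLinearGroup.map (i : k →+* k') g) = T6.cartan g := by
  have e1 : ∀ a b : Fin 2,
      ((Matrix.GeneralLinearGroup.map (i : k →+* k') g : GL (Fin 2) k') :
          Matrix (Fin 2) (Fin 2) k') a b = i ((g : Matrix (Fin 2) (Fin 2) k) a b) :=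
    fun _ _ => rfl
  have hmax : T6.entryMax (Matrix.GeneralLinearGroup.map (i : k →+* k') g) = T6.entryMax g := by
    refine le_antisymm ?_ ?_
    · refine (T6.H305.entryMax_le_iff _ _).2 (fun a b => ?_)
      rw [e1 a b, hi]
      exact T6.H305.le_entryMax g a b
    · refine (T6.H305.entryMax_le_iff _ _).2 (fun a b => ?_)
      rw [← hi, ← e1 a b]
      exact T6.H305.le_entryMax _ a b
  have hdet : Valued.v ((Matrix.GeneralLinearGroup.map (i : k →+* k') g : GL (Fin 2) k') :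
        Matrix (Fin 2) (Fin 2) k').det = Valued.v (g : Matrix (Fin 2) (Fin 2) k).det := by
    have e : ((Matrix.GeneralLinearGroup.map (i : k →+* k') g : GL (Fin 2) k') :
        Matrix (Fin 2) (Fin 2) k') = (i : k →+* k').mapMatrix (g : Matrix (Fin 2) (Fin 2) k) :=
      rfl
    rw [e, ← RingHom.map_det]
    exact hi _
  unfold T6.cartan
  rw [hmax, hdet]

/-- A spherical function is bi-`GL₂(𝒪)`-invariant of finite support. -/
theorem sph_inv314 {q : ℕ} (hk : T6.IsLocalField k q) {φ : GL (Fin 2) k → ℂ}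
    {A : (ℤ × ℤ) →₀ ℂ} (h : H893.IsSphFn893 φ A) :
    T6.IsBiInv (T6.InU 0) φ ∧ T6.HasFinSupp (T6.InU 0) φ := by
  obtain ⟨D, _⟩ := T6.H305.exists_resData hk
  have e : φ = fun g => A (T6.cartan g) := funext h.2
  rw [e]
  refine ⟨fun u u' g hu hu' => ?_, ?_⟩
  · show A (T6.cartan (u * g * u')) = A (T6.cartan g)
    rw [T3.H681.cartan_mul_right681 _ u' ((T6.H305.inU_zero_iff u').1 hu'),
      T3.H681.cartan_mul_left681 u g ((T6.H305.inU_zero_iff u).1 hu)]
  · obtain ⟨_, hcov⟩ := T3.H681.sph_rep681 D A h.1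
    refine ⟨T3.H681.sphSys681 D A, fun g hg => ?_⟩
    obtain ⟨x, hx, hK⟩ := hcov g hg
    exact ⟨x, hx, x⁻¹ * g, (T6.H305.inU_zero_iff _).2 hK, by group⟩

end Local

section Global

variable {K' : Type} [Field K'] [NumberField K']

/-- An enumeration in the order of the orbit of `σ` which does not return to `w 0` before `l`
is injective on `[0, l)`. -/
theorem enum_inj314 (s : T5.AdelicAut K') (w : ℕ → HeightOneSpectrum (𝓞 K')) (l : ℕ)
    (hrel : ∀ j : ℕ, T5.PlaceRel s (w (j + 1)) (w j))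
    (hne : ∀ j : ℕ, 0 < j → j < l → w j ≠ w 0) :
    ∀ j j' : ℕ, j < l → j' < l → w j = w j' → j = j' := by
  have key : ∀ (d j : ℕ), w j = w (j + d) → w 0 = w d := by
    intro d j
    induction j with
    | zero =>
      intro h
      rwa [zero_add] at h
    | succ j ih =>
      intro h
      apply ih
      apply HeightOneSpectrum.ext
      have h1 := hrel j
      have h2 := hrel (j + d)
      unfold T5.PlaceRel at h1 h2
      rw [h1, h2, show j + d + 1 = j + 1 + d by omega, h]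
  intro j j' hj hj' h
  by_contra hjj
  rcases Nat.lt_or_gt_of_ne hjj with hlt | hlt
  · have := key (j' - j) j (by rw [show j + (j' - j) = j' by omega]; exact h)
    exact hne (j' - j) (by omega) (by omega) this.symm
  · have := key (j - j') j' (by rw [show j' + (j - j') = j by omega]; exact h.symm)
    exact hne (j - j') (by omega) (by omega) this.symm

end Global

variable (K K' : Type) [Field K] [NumberField K] [Field K'] [NumberField K'] [Algebra K K']

/-- **NODE T7.L2.1.H2b.3 = SPH-HYP** (VERBATIM `H893.SphHypC893`), from the closed tower Prop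
of T6. -/
theorem sphHypC_of314 (hT6 : T6.T6Out) : H893.SphHypC893 K K' := by
  intro D hD hc _ _ μc _ T₀ hun n m hlev T _ φ₀ Φ f₀ F hyp hsph
  obtain ⟨_, _, _, _, _, hIL, hIE, hIS, _, _, _, _, _, hFL, _⟩ := hT6
  classical
  have hm0 : ∀ v, v ∉ T₀ → m v = 0 := hlev.1
  have hn0 : ∀ v, v ∉ T₀ → ∀ w, PlaceOver K K' v w → n w = 0 := fun v hv w hvw =>
    hlev.2 v w hv hvw
  refine { inv_up := ?_, inv_down := ?_, arch_up := hyp.arch_up, arch_down := hyp.arch_down,
           inert := ?_, split := ?_, arch := hyp.arch }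
  · intro v hvT w hvw
    by_cases hv : v ∈ T₀
    · exact hyp.inv_up v hv w hvw
    · obtain ⟨A, Av, _, hφw, _, _⟩ := hsph v hvT hv
      rw [hn0 v hv w hvw]
      exact sph_inv314 (hIL K' w) (hφw w hvw)
  · intro v hvT
    by_cases hv : v ∈ T₀
    · exact hyp.inv_down v hv
    · obtain ⟨A, Av, hfv, _, _, _⟩ := hsph v hvT hv
      rw [hm0 v hv]
      exact sph_inv314 (hIL K v) hfv
  · intro v hvT w hvw huniq e i sw hi hsw hext
    by_cases hv : v ∈ T₀
    · exact hyp.inert v hv w hvw huniq e i sw hi hsw hext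
    · obtain ⟨A, Av, hfv, hφw, hbc, _⟩ := hsph v hvT hv
      have hunr := hun v hv w hvw
      have he : e = 1 := H938.e_eq_one938 hunr e hext.e_pos i hi hext.val_i
      subst he
      obtain ⟨hk, hk'⟩ := H938.inert_data938 hIL hIE D.l hc hvw huniq hunr
      have e1 : φ₀ w = fun g => A w (T6.cartan g) := funext (hφw w hvw).2
      have e2 : f₀ v = fun g => Av (T6.cartan g) := funext hfv.2
      rw [hn0 v hv w hvw, hm0 v hv, e1, e2]
      exact ⟨fun δ γ c c' hreg hconj hc1 hc2 =>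
          hFL.1 _ _ _ D.l i sw hk hk' hext hc.prime _ _ (hφw w hvw).1 hfv.1
            (hbc w hvw huniq) δ γ c c' hreg trivial hconj hc1 hc2,
        fun γ c' hreg hnn hc2 =>
          hFL.2 _ _ _ D.l i sw hk hk' hext hc.prime _ _ (hφw w hvw).1 hfv.1
            (hbc w hvw huniq) γ c' hreg hnn hc2⟩
  · intro v hvT hsplit
    by_cases hv : v ∈ T₀
    · exact hyp.split v hv hsplit
    · obtain ⟨A, Av, hfv, hφw, _, hprod⟩ := hsph v hvT hv
      obtain ⟨w, i, hw, hrel, hne, hi, hval⟩ := H938.exists_enum938 hIS D hD hc v hsplit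
        (fun w hw => hun v hv w hw)
      refine ⟨w, i, hw, hrel, hne, hi, hval,
        fun j => by rw [hn0 v hv (w j) (hw j), hm0 v hv], ?_⟩
      have hinj := enum_inj314 D.s w D.l hrel hne
      have hl : 0 < D.l := hc.prime.pos
      obtain ⟨Av', hAv', hconv, hsat, _⟩ := T3.H681.split_sph681 v D.l hl
        (fun j => A (w j)) (fun j _ => (hφw (w j) (hw j)).1)
      have hq : Ideal.absNorm v.asIdeal ≠ 0 := fun h0 =>
        v.ne_bot (Ideal.absNorm_eq_zero_iff.1 h0)
      have hAA : Av = Av' := satT_inj314 hq Av Av' hfv.1 hAv' (fun x y hx hy => by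
        rw [hsat x y hx hy]
        exact hprod w hw hinj x y hx hy)
      have e1 : (fun (j : ℕ) (g : GL (Fin 2) (v.adicCompletion K)) =>
          φ₀ (w j) (Matrix.GeneralLinearGroup.map
            ((i j : v.adicCompletion K ≃+* _) :
              v.adicCompletion K →+* (w j).adicCompletion K') g))
          = fun j g => A (w j) (T6.cartan g) := by
        funext j g
        rw [(hφw (w j) (hw j)).2, cartan_map314 (i j) (hval j) g]
      have e2 : f₀ v = fun g => Av' (T6.cartan g) := by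
        rw [← hAA]
        exact funext hfv.2
      rw [e1, e2, hm0 v hv]
      exact hconv

example (hT6 : T6.T6Out) : H893.SphHypC893 K K' := sphHypC_of314 K K' hT6

end Fermat.Agent.LT.T7.H314

end

end
-- ===== PACK-END LT/T7/H314/SphHyp.lean

-- ===== PACK-BEGIN LT/T3/M/Closed.lean
section




/-!
# Row LT, tower T3, station T3.18M (architect helper14): STATE OF THE STATION

OFF-MAIN.  Complete proofs, nothing assumed.  On the closed tower T3 (`ClosedT1.lean`,
`origin/helper14@21d8599e0`) and the closed tower T1 (`T1.t1Out`, helper54).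

`OpenM K` = the leaves of the station which are still open (registry rows 1802--1810).
Everything else is discharged here:

* REUSED from the closed single-place station, as they are: `AS.SatakeLocC` (helper263),
  `AS.AbelCplxSmoothC` (helper736 / helper315 / helper984 ...), N.1 `IwasawaFormC` (helper543),
  N.4 `AffineC` (helper162), N.7 `LocValInfC` (helper800), `EKKillC` (helper893), `EKStarC`
  (helper904), `InScalarUnifC`, `InAddHaarC` (T1).
* PROVED tops: `nIntM_of`, `abelSatakeSmoothM_of`, `ekExistSmoothM_of`, `ekOpExistSmoothM_of`.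

* `ekOpExistSmoothM_of_open : OpenM K → EKOpExistSmoothMC K`,
* `exists_testFn_T5_M_of_open : OpenM K → …` = the output in the vocabulary of T5 (Spec v4),
  with the hypotheses of `T7.GoodEKM` VERBATIM.
-/

set_option autoImplicit false
set_option linter.style.haveILetI false

open IsDedekindDomain NumberField MeasureTheory
open Fermat.Agent.LT.H556.A0

noncomputable section

namespace Fermat.Agent.LT.T3.M

open Fermat.Agent.LT.T3.AS

variable (K : Type) [Field K] [NumberField K]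

/-- THE OPEN PART of station T3.18M. -/
structure OpenM : Prop where
  /-- M.1 (registry 1802). -/
  core : EKCoreC
  /-- M.2 (registry 1803). -/
  ftPure : FtPureC
  /-- M.3 (registry 1804). -/
  pureReg : PureRegMC K
  /-- M.4 (registry 1805). -/
  rOp : ROpMC K
  /-- M.5 (registry 1806). -/
  pureUpper : PureUpperMC K
  /-- M.6 (registry 1807). -/
  outsideCoset : OutsideCosetMC K
  /-- M.7 (registry 1808). -/
  split : SplitMC K
  /-- M.8 (registry 1809). -/
  locValFin : LocValFinMC K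
  /-- M.9 (registry 1810). -/
  prodForm : ProdFormMC K

/-- The multi-place `N`-integral from the open leaves. -/
theorem nIntM_of_open (O : OpenM K) : NIntMC K :=
  nIntM_of K (H543.iwasawaFormC_of_h543 K (T1.t1Out K).iwasawa) O.pureUpper O.outsideCoset
    (H162.affineC162 K (T1.t1Out K).locComp) O.split O.locValFin (H800.locValInfC800 K)
    O.prodForm

/-- The multi-place Abel--Satake pair from the open leaves. -/
theorem abelSatakeSmoothM_of_open (O : OpenM K) : AbelSatakeSmoothMC K :=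
  abelSatakeSmoothM_of K (satakeLoc_closed K) abelCplxSmooth_closed O.ftPure O.pureReg
    (nIntM_of_open K O) O.rOp

/-- The multi-place EK function, integral form, from the open leaves. -/
theorem ekExistSmoothM_of_open (O : OpenM K) : EKExistSmoothMC K :=
  ekExistSmoothM_of K (abelSatakeSmoothM_of_open K O) O.core (inScalarUnif_u K)

/-- **THE OUTPUT of station T3.18M from the open leaves.** -/
theorem ekOpExistSmoothM_of_open (O : OpenM K) : EKOpExistSmoothMC K :=
  ekOpExistSmoothM_of K (ekKill_u K) (ekStar_u K) (ekExistSmoothM_of_open K O) (inAddHaar_u K)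

/-- **The output of station T3.18M in the vocabulary of T5** (Spec v4 of helper32), with the
hypotheses of `T7.GoodEKM` VERBATIM: `P` non-empty, `v ∤ 𝔫` and `0 < e v` for `v ∈ P`,
`(a₀) = ∏_{v ∈ P} 𝔭_v^{e_v}`, `a₀ - 1 ∈ 𝔫`. -/
theorem exists_testFn_T5_M (h : EKOpExistSmoothMC K) (hK : ∀ w : InfinitePlace K, w.IsComplex)
    (μ : @Measure (G K) (borel (G K)))
    (hμ : @Measure.IsHaarMeasure (G K) _ _ (borel (G K)) μ)
    (𝔫 : Ideal (𝓞 K)) (h𝔫 : 𝔫 ≠ ⊥) (P : Finset (HeightOneSpectrum (𝓞 K)))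
    (e : HeightOneSpectrum (𝓞 K) → ℕ) (a₀ : 𝓞 K) (hP : P.Nonempty)
    (hPe : ∀ v ∈ P, ¬ v.asIdeal ∣ 𝔫 ∧ 0 < e v)
    (hspan : Ideal.span {a₀} = ∏ v ∈ P, v.asIdeal ^ e v) (hmem : a₀ - 1 ∈ 𝔫) :
    ∃ f : G K → ℂ, T5.IsTestFn 𝔫 T5.trivType f ∧ T5.IsEK μ f ∧ T5.IsEK μ (T5.adjointFn f) ∧
      IsSuppAtM K 𝔫 P f ∧
      ∃ c : (HeightOneSpectrum (𝓞 K) → ℂ) → (HeightOneSpectrum (𝓞 K) → ℂ) → ℂ,
        (∀ a b : HeightOneSpectrum (𝓞 K) → ℂ, GoodParamM K P e a b → c a b ≠ 0) ∧
        ∀ φ : G K → ℂ, IsSph0Level K 𝔫 φ → ∀ a b : HeightOneSpectrum (𝓞 K) → ℂ,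
          (∀ v ∈ P, IsHeckeEigenAt φ v (a v) (b v)) →
          ∀ g : G K, T5.Rconv μ f φ g = c a b * φ g := by
  obtain ⟨f, h1, h2, h3, h4, h5, h6, h7, c, hc, hact⟩ :=
    h hK μ hμ 𝔫 P e a₀ h𝔫 hP hPe hspan hmem
  refine ⟨f, isTestFn_T5 K h1 h2 h3 h6, isEK_T5 K h4, isEK_T5 K h5, h7, c, hc, ?_⟩
  intro φ hφ a b he g
  rw [← hact φ hφ a b he g]
  unfold Rop T5.Rconv
  refine integral_congr_ae (Filter.Eventually.of_forall fun y => ?_)
  exact mul_comm _ _

/-- The output in the vocabulary of T5 from the open leaves. -/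
theorem exists_testFn_T5_M_of_open (O : OpenM K) (hK : ∀ w : InfinitePlace K, w.IsComplex)
    (μ : @Measure (G K) (borel (G K)))
    (hμ : @Measure.IsHaarMeasure (G K) _ _ (borel (G K)) μ)
    (𝔫 : Ideal (𝓞 K)) (h𝔫 : 𝔫 ≠ ⊥) (P : Finset (HeightOneSpectrum (𝓞 K)))
    (e : HeightOneSpectrum (𝓞 K) → ℕ) (a₀ : 𝓞 K) (hP : P.Nonempty)
    (hPe : ∀ v ∈ P, ¬ v.asIdeal ∣ 𝔫 ∧ 0 < e v)
    (hspan : Ideal.span {a₀} = ∏ v ∈ P, v.asIdeal ^ e v) (hmem : a₀ - 1 ∈ 𝔫) :
    ∃ f : G K → ℂ, T5.IsTestFn 𝔫 T5.trivType f ∧ T5.IsEK μ f ∧ T5.IsEK μ (T5.adjointFn f) ∧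
      IsSuppAtM K 𝔫 P f ∧
      ∃ c : (HeightOneSpectrum (𝓞 K) → ℂ) → (HeightOneSpectrum (𝓞 K) → ℂ) → ℂ,
        (∀ a b : HeightOneSpectrum (𝓞 K) → ℂ, GoodParamM K P e a b → c a b ≠ 0) ∧
        ∀ φ : G K → ℂ, IsSph0Level K 𝔫 φ → ∀ a b : HeightOneSpectrum (𝓞 K) → ℂ,
          (∀ v ∈ P, IsHeckeEigenAt φ v (a v) (b v)) →
          ∀ g : G K, T5.Rconv μ f φ g = c a b * φ g :=
  exists_testFn_T5_M K (ekOpExistSmoothM_of_open K O) hK μ hμ 𝔫 h𝔫 P e a₀ hP hPe hspan hmem

end Fermat.Agent.LT.T3.M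

end

end
-- ===== PACK-END LT/T3/M/Closed.lean

-- ===== PACK-BEGIN LT/T3/M/ClosedM.lean
section













/-!
# Row LT, tower T3, station T3.18M (architect helper14): THE STATION IS CLOSED

OFF-MAIN.  Complete proofs, nothing assumed: every statement of this file is UNCONDITIONAL.

The multi-place Eisenstein-killing test function (`T7.GoodEKM`, hedge route (B) of helper797) with
the GENERAL archimedean parameter (clause `op_up` of `T7.IsL2Data`).

## The leaves (all closed by the T3 squad; vendored byte-identical)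

| leaf | Prop | closed by | file |
|---|---|---|---|
| M.1 | `EKCoreC` | helper162 | `M/H162/EKCore.lean` |
| M.2 | `FtPureC` | helper286 | `M/H286/FtPure.lean` |
| M.3 | `PureRegMC K` | helper709 | `M/H709/PureRegM.lean` |
| M.4 | `ROpMC K` | helper474 (from G.2) | `M/H474/ROpM.lean` |
| M.5 | `PureUpperMC K` | helper474 | `M/H474/PureUpperM.lean` |
| M.6 | `OutsideCosetMC K` | helper474 | `M/H474/OutsideCosetM.lean` |
| M.7 | `SplitMC K` | helper719 | `M/H719/SplitM.lean` |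
| M.8 | `LocValFinMC K` | helper250 | `M/H250/LocValFinM.lean` |
| M.9 | `ProdFormMC K` | helper793 | `M/H793/ProdFormM.lean` |
| G.1 | `MeanActsC` | helper96 | `M/H96/MeanActs.lean` |
| G.2 | `ROpMeanMC K` | helper474 | `M/H474/ROpMeanM.lean` |

(Spares in bytes on the branches of helper194, helper826, helper749, helper893, helper756.)

## The outputs

* `openM_c : OpenM K`;
* `ekOpExistSmoothM_c : EKOpExistSmoothMC K` (functions of parameter `0` at infinity);
* `ekOpExistGenM_c : EKOpExistGenMC K` (general archimedean parameter);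
* `exists_testFn_T5_M_c`, `exists_testFn_T5_G_c`: the same in the vocabulary of T5, with the
  hypotheses of `T7.GoodEKM` verbatim.
-/

set_option autoImplicit false
set_option linter.style.haveILetI false

open IsDedekindDomain NumberField MeasureTheory
open Fermat.Agent.LT.H556.A0

noncomputable section

namespace Fermat.Agent.LT.T3.M

open Fermat.Agent.LT.T3.AS

variable (K : Type) [Field K] [NumberField K]

/-- G.2, closed (helper474). -/
theorem rOpMeanM_c : ROpMeanMC K := H474.rOpMeanMC474 K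

/-- G.1, closed (helper96). -/
theorem meanActs_c : MeanActsC := H96.meanActsC96

/-- **The open part of station T3.18M is empty.** -/
theorem openM_c : OpenM K where
  core := H162.ekCoreC162
  ftPure := H286.ftPureC286
  pureReg := H709.pureRegMC709 K
  rOp := rOpM_of_mean K (rOpMeanM_c K)
  pureUpper := H474.pureUpperMC474 K
  outsideCoset := H474.outsideCosetMC474 K
  split := H719.splitMC719 K
  locValFin := H250.locValFinMC250 K
  prodForm := H793.prodFormMC793 K

/-- The multi-place `N`-integral, unconditional. -/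
theorem nIntM_c : NIntMC K := nIntM_of_open K (openM_c K)

/-- The multi-place Abel--Satake pair, unconditional. -/
theorem abelSatakeSmoothM_c : AbelSatakeSmoothMC K := abelSatakeSmoothM_of_open K (openM_c K)

/-- The multi-place EK function, integral form, unconditional. -/
theorem ekExistSmoothM_c : EKExistSmoothMC K := ekExistSmoothM_of_open K (openM_c K)

/-- **THE OUTPUT of station T3.18M, unconditional** (functions of parameter `0`). -/
theorem ekOpExistSmoothM_c : EKOpExistSmoothMC K := ekOpExistSmoothM_of_open K (openM_c K)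

/-- The multi-place Abel--Satake pair with the general archimedean parameter, unconditional. -/
theorem abelSatakeGenM_c : AbelSatakeGenMC K :=
  abelSatakeGenM_of K (satakeLoc_closed K) abelCplxSmooth_closed meanActs_c
    (openM_c K).ftPure (openM_c K).pureReg (nIntM_c K) (rOpMeanM_c K)

/-- **THE OUTPUT of station T3.18M, general archimedean parameter, unconditional.** -/
theorem ekOpExistGenM_c : EKOpExistGenMC K :=
  ekOpExistGenM_of K (abelSatakeGenM_c K) (openM_c K).core (inScalarUnif_u K) (ekKill_u K)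
    (ekStar_u K) (inAddHaar_u K)

/-- **The output of station T3.18M in the vocabulary of T5, unconditional** (functions of
parameter `0`), with the hypotheses of `T7.GoodEKM` VERBATIM. -/
theorem exists_testFn_T5_M_c (hK : ∀ w : InfinitePlace K, w.IsComplex)
    (μ : @Measure (G K) (borel (G K)))
    (hμ : @Measure.IsHaarMeasure (G K) _ _ (borel (G K)) μ)
    (𝔫 : Ideal (𝓞 K)) (h𝔫 : 𝔫 ≠ ⊥) (P : Finset (HeightOneSpectrum (𝓞 K)))
    (e : HeightOneSpectrum (𝓞 K) → ℕ) (a₀ : 𝓞 K) (hP : P.Nonempty)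
    (hPe : ∀ v ∈ P, ¬ v.asIdeal ∣ 𝔫 ∧ 0 < e v)
    (hspan : Ideal.span {a₀} = ∏ v ∈ P, v.asIdeal ^ e v) (hmem : a₀ - 1 ∈ 𝔫) :
    ∃ f : G K → ℂ, T5.IsTestFn 𝔫 T5.trivType f ∧ T5.IsEK μ f ∧ T5.IsEK μ (T5.adjointFn f) ∧
      IsSuppAtM K 𝔫 P f ∧
      ∃ c : (HeightOneSpectrum (𝓞 K) → ℂ) → (HeightOneSpectrum (𝓞 K) → ℂ) → ℂ,
        (∀ a b : HeightOneSpectrum (𝓞 K) → ℂ, GoodParamM K P e a b → c a b ≠ 0) ∧
        ∀ φ : G K → ℂ, IsSph0Level K 𝔫 φ → ∀ a b : HeightOneSpectrum (𝓞 K) → ℂ,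
          (∀ v ∈ P, IsHeckeEigenAt φ v (a v) (b v)) →
          ∀ g : G K, T5.Rconv μ f φ g = c a b * φ g :=
  exists_testFn_T5_M_of_open K (openM_c K) hK μ hμ 𝔫 h𝔫 P e a₀ hP hPe hspan hmem

/-- **The output of station T3.18M in the vocabulary of T5, general archimedean parameter**,
from the operator form. -/
theorem exists_testFn_T5_G (h : EKOpExistGenMC K) (hK : ∀ w : InfinitePlace K, w.IsComplex)
    (μ : @Measure (G K) (borel (G K)))
    (hμ : @Measure.IsHaarMeasure (G K) _ _ (borel (G K)) μ)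
    (𝔫 : Ideal (𝓞 K)) (h𝔫 : 𝔫 ≠ ⊥) (P : Finset (HeightOneSpectrum (𝓞 K)))
    (e : HeightOneSpectrum (𝓞 K) → ℕ) (a₀ : 𝓞 K) (hP : P.Nonempty)
    (hPe : ∀ v ∈ P, ¬ v.asIdeal ∣ 𝔫 ∧ 0 < e v)
    (hspan : Ideal.span {a₀} = ∏ v ∈ P, v.asIdeal ^ e v) (hmem : a₀ - 1 ∈ 𝔫) :
    ∃ f : G K → ℂ, T5.IsTestFn 𝔫 T5.trivType f ∧ T5.IsEK μ f ∧ T5.IsEK μ (T5.adjointFn f) ∧
      IsSuppAtM K 𝔫 P f ∧
      ∃ c : (HeightOneSpectrum (𝓞 K) → ℂ) → (HeightOneSpectrum (𝓞 K) → ℂ) →
          (InfinitePlace K → ℝ → ℂ) → ℂ,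
        (∀ (a b : HeightOneSpectrum (𝓞 K) → ℂ) (m : InfinitePlace K → ℝ → ℂ),
          GoodParamM K P e a b → IsSph0Param K m → c a b m ≠ 0) ∧
        ∀ (φ : G K → ℂ) (m : InfinitePlace K → ℝ → ℂ), IsMeanLevel K 𝔫 m φ →
        ∀ a b : HeightOneSpectrum (𝓞 K) → ℂ,
          (∀ v ∈ P, IsHeckeEigenAt φ v (a v) (b v)) →
          ∀ g : G K, T5.Rconv μ f φ g = c a b m * φ g := by
  obtain ⟨f, h1, h2, h3, h4, h5, h6, h7, c, hc, hact⟩ :=
    h hK μ hμ 𝔫 P e a₀ h𝔫 hP hPe hspan hmem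
  refine ⟨f, isTestFn_T5 K h1 h2 h3 h6, isEK_T5 K h4, isEK_T5 K h5, h7, c, hc, ?_⟩
  intro φ m hφ a b he g
  rw [← hact φ m hφ a b he g]
  unfold Rop T5.Rconv
  refine integral_congr_ae (Filter.Eventually.of_forall fun y => ?_)
  exact mul_comm _ _

/-- **The output of station T3.18M in the vocabulary of T5, general archimedean parameter,
unconditional**, with the hypotheses of `T7.GoodEKM` VERBATIM. -/
theorem exists_testFn_T5_G_c (hK : ∀ w : InfinitePlace K, w.IsComplex)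
    (μ : @Measure (G K) (borel (G K)))
    (hμ : @Measure.IsHaarMeasure (G K) _ _ (borel (G K)) μ)
    (𝔫 : Ideal (𝓞 K)) (h𝔫 : 𝔫 ≠ ⊥) (P : Finset (HeightOneSpectrum (𝓞 K)))
    (e : HeightOneSpectrum (𝓞 K) → ℕ) (a₀ : 𝓞 K) (hP : P.Nonempty)
    (hPe : ∀ v ∈ P, ¬ v.asIdeal ∣ 𝔫 ∧ 0 < e v)
    (hspan : Ideal.span {a₀} = ∏ v ∈ P, v.asIdeal ^ e v) (hmem : a₀ - 1 ∈ 𝔫) :
    ∃ f : G K → ℂ, T5.IsTestFn 𝔫 T5.trivType f ∧ T5.IsEK μ f ∧ T5.IsEK μ (T5.adjointFn f) ∧
      IsSuppAtM K 𝔫 P f ∧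
      ∃ c : (HeightOneSpectrum (𝓞 K) → ℂ) → (HeightOneSpectrum (𝓞 K) → ℂ) →
          (InfinitePlace K → ℝ → ℂ) → ℂ,
        (∀ (a b : HeightOneSpectrum (𝓞 K) → ℂ) (m : InfinitePlace K → ℝ → ℂ),
          GoodParamM K P e a b → IsSph0Param K m → c a b m ≠ 0) ∧
        ∀ (φ : G K → ℂ) (m : InfinitePlace K → ℝ → ℂ), IsMeanLevel K 𝔫 m φ →
        ∀ a b : HeightOneSpectrum (𝓞 K) → ℂ,
          (∀ v ∈ P, IsHeckeEigenAt φ v (a v) (b v)) →
          ∀ g : G K, T5.Rconv μ f φ g = c a b m * φ g :=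
  exists_testFn_T5_G K (ekOpExistGenM_c K) hK μ hμ 𝔫 h𝔫 P e a₀ hP hPe hspan hmem

end Fermat.Agent.LT.T3.M

end

end
-- ===== PACK-END LT/T3/M/ClosedM.lean

-- ===== PACK-BEGIN LT/T7/B981/H890/Lvl.lean
section




/-!
# Row LT, tower T7, node T7.L2.1.H2a `BaseC`, leaf T7.L2.1.H2a.1 `LvlC981` (helper890)

OFF-MAIN.  `lvlC890 (K K') : B981.LvlC981 K K'`, VERBATIM against `LT/T7/B981/BaseSpec.lean`
(sha256 3ab0d96c, helper981@67d2c25cd), UNCONDITIONAL.  Imports: Mathlib, the spec closure and the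
kit `T7/H981/FinIndex.lean` of helper981 (byte copy).  ADDITIVE (new names only, suffix `890`).

* `isLevelOf_mult890` : for a nonzero ideal `I` of `𝓞 F` the closure of `I` in `F_v` is the ball
  of radius `exp (- mult_v I)` (`mult_v I` = the multiplicity of `v` in `I`), at EVERY finite
  place `v`; i.e. `IsLevelOf893 I (mult · I)`.
* `lvlC890` : the level `𝔫 = 𝔫₀ ^ max M 1` (`𝔫₀` of `IsL2Base.base_level`), `T₀` = the prime
  divisors of `𝔫`, the exponents = the multiplicities in `𝔫`, `𝔫 𝒪_{K'}`, `𝔑₀`.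
-/

set_option autoImplicit false

open IsDedekindDomain NumberField

noncomputable section

namespace Fermat.Agent.LT.T7.B981.H890

open Fermat.Agent.LT.H556 Fermat.Agent.LT.H556.A0 Fermat.Agent.LT.T7
open Fermat.Agent.LT.T7.H305 Fermat.Agent.LT.T7.H893 Fermat.Agent.LT.T7.H981
open Fermat.Agent.LT.T7.B981

section Local

variable {F : Type} [Field F] [NumberField F]

/-- The multiplicity of the place `v` in the ideal `I`. -/
def mult890 (I : Ideal (𝓞 F)) (v : HeightOneSpectrum (𝓞 F)) : ℕ := multiplicity v.asIdeal I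

theorem finMult890 {I : Ideal (𝓞 F)} (hI : I ≠ ⊥) (v : HeightOneSpectrum (𝓞 F)) :
    FiniteMultiplicity v.asIdeal I :=
  FiniteMultiplicity.of_prime_left v.prime hI

theorem pow_mult_dvd890 (I : Ideal (𝓞 F)) (v : HeightOneSpectrum (𝓞 F)) :
    v.asIdeal ^ mult890 I v ∣ I :=
  pow_multiplicity_dvd _ _

theorem not_pow_succ_dvd890 {I : Ideal (𝓞 F)} (hI : I ≠ ⊥) (v : HeightOneSpectrum (𝓞 F)) :
    ¬ v.asIdeal ^ (mult890 I v + 1) ∣ I :=
  (finMult890 hI v).not_pow_dvd_of_multiplicity_lt (Nat.lt_succ_self _)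

theorem le_mult890 {I : Ideal (𝓞 F)} (hI : I ≠ ⊥) (v : HeightOneSpectrum (𝓞 F)) {k : ℕ}
    (h : v.asIdeal ^ k ∣ I) : k ≤ mult890 I v :=
  (finMult890 hI v).le_multiplicity_of_pow_dvd h

/-- Every element of `I` has valuation `≤ exp (- mult_v I)`. -/
theorem intVal_le_of_mem890 (I : Ideal (𝓞 F)) (v : HeightOneSpectrum (𝓞 F)) {b : 𝓞 F}
    (hb : b ∈ I) : v.intValuation b ≤ WithZero.exp (-(mult890 I v : ℤ)) := by
  rw [HeightOneSpectrum.intValuation_le_pow_iff_mem]
  exact Ideal.dvd_iff_le.1 (pow_mult_dvd890 I v) hb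

/-- Some element of `I` has valuation exactly `exp (- mult_v I)`. -/
theorem exists_intVal_eq890 {I : Ideal (𝓞 F)} (hI : I ≠ ⊥) (v : HeightOneSpectrum (𝓞 F)) :
    ∃ a ∈ I, v.intValuation a = WithZero.exp (-(mult890 I v : ℤ)) := by
  have hnle : ¬ I ≤ v.asIdeal ^ (mult890 I v + 1) := fun h =>
    not_pow_succ_dvd890 hI v (Ideal.dvd_iff_le.2 h)
  obtain ⟨a, ha, hav⟩ := Set.not_subset.1 hnle
  refine ⟨a, ha, le_antisymm (intVal_le_of_mem890 I v ha) ?_⟩
  have h1 : ¬ v.intValuation a ≤ WithZero.exp (-((mult890 I v + 1 : ℕ) : ℤ)) := fun h =>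
    hav ((HeightOneSpectrum.intValuation_le_pow_iff_mem v a _).1 h)
  have h2 : WithZero.exp (-((mult890 I v + 1 : ℕ) : ℤ)) < v.intValuation a := lt_of_not_ge h1
  have h0 : v.intValuation a ≠ 0 := fun h => by
    rw [h] at h2
    exact not_lt_of_ge zero_le' h2
  rw [← WithZero.exp_log h0] at h2 ⊢
  rw [WithZero.exp_lt_exp] at h2
  rw [WithZero.exp_le_exp]
  push_cast at h2
  omega

/-- **The closure of a nonzero ideal in `F_v` is the ball of radius `exp (- mult_v I)`.** -/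
theorem isLevelOf_mult890 {I : Ideal (𝓞 F)} (hI : I ≠ ⊥) : IsLevelOf893 I (mult890 I) := by
  intro v x
  obtain ⟨a, ha, hva⟩ := exists_intVal_eq890 hI v
  have hc : Valued.v (toC981 v a) = WithZero.exp (-(mult890 I v : ℤ)) := by
    rw [valued_toC981, hva]
  have hc0 : toC981 v a ≠ 0 := by
    intro h
    rw [h, map_zero] at hc
    exact WithZero.exp_ne_zero hc.symm
  have hv0 : Valued.v (toC981 v a) ≠ 0 := by
    rw [hc]
    exact WithZero.exp_ne_zero
  -- the ball is the preimage of the integers under `y ↦ c⁻¹ y`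
  have key : ∀ y : v.adicCompletion F,
      Valued.v y ≤ WithZero.exp (-(mult890 I v : ℤ))
        ↔ (toC981 v a)⁻¹ * y ∈ v.adicCompletionIntegers F := by
    intro y
    rw [HeightOneSpectrum.mem_adicCompletionIntegers, map_mul, map_inv₀, ← hc,
      inv_mul_le_iff₀ (zero_lt_iff.2 hv0), mul_one]
  constructor
  · intro hx
    have hcl : IsClosed {y : v.adicCompletion F |
        (toC981 v a)⁻¹ * y ∈ v.adicCompletionIntegers F} :=
      (Valued.isClosed_valuationSubring _).preimage (continuous_const.mul continuous_id)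
    have hsub : idealClosure I v ⊆ {y : v.adicCompletion F |
        (toC981 v a)⁻¹ * y ∈ v.adicCompletionIntegers F} := by
      refine closure_minimal ?_ hcl
      rintro _ ⟨b, hb, rfl⟩
      show (toC981 v a)⁻¹ * toC981 v b ∈ v.adicCompletionIntegers F
      rw [← key, valued_toC981]
      exact intVal_le_of_mem890 I v hb
    exact (key x).2 (hsub hx)
  · intro hx
    have h1 := mul_mem_idealClosure981 I v ((key x).1 hx) (toC981_mem_idealClosure I v ha)
    rwa [mul_comm, ← mul_assoc, mul_inv_cancel₀ hc0, one_mul] at h1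

end Local

section Top

variable (K K' : Type) [Field K] [NumberField K] [Field K'] [NumberField K'] [Algebra K K']

theorem upI_ne_bot890 {𝔫 : Ideal (𝓞 K)} (h : 𝔫 ≠ ⊥) : upI (K' := K') 𝔫 ≠ ⊥ := fun h0 =>
  h ((Ideal.map_eq_bot_iff_of_injective (RingOfIntegers.algebraMap.injective K K')).1 h0)

theorem upI_pow890 (𝔫 : Ideal (𝓞 K)) (d : ℕ) :
    upI (K' := K') (𝔫 ^ d) = upI (K' := K') 𝔫 ^ d :=
  Ideal.map_pow _ _ _

/-- **LEAF T7.L2.1.H2a.1 = LEVEL** (`B981.LvlC981`, VERBATIM). -/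
theorem lvlC890 : LvlC981 K K' := by
  intro ℓ Φ B hB M
  obtain ⟨𝔫₀, h0, hN, hu, -⟩ := hB.base_level
  have hd : max M 1 ≠ 0 := by omega
  have hn : 𝔫₀ ^ max M 1 ≠ ⊥ := pow_ne_zero _ h0
  have hup : upI (K' := K') (𝔫₀ ^ max M 1) = B.𝔑₀ ^ max M 1 := by
    rw [upI_pow890, ← hN]
  have hN0 : B.𝔑₀ ≠ ⊥ := by
    rw [hN]
    exact upI_ne_bot890 K K' h0
  refine ⟨𝔫₀ ^ max M 1, (Ideal.finite_factors hn).toFinset,
    mult890 (upI (K' := K') (𝔫₀ ^ max M 1)), mult890 B.𝔑₀, mult890 (𝔫₀ ^ max M 1),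
    ⟨hn, ?_, ?_, dvd_pow hu hd⟩, ⟨?_, isLevelOf_mult890 hn,
      isLevelOf_mult890 (upI_ne_bot890 K K' hn), isLevelOf_mult890 hN0⟩, ?_⟩
  · rw [hup]
    exact Ideal.pow_le_self hd
  · intro w
    rw [hup, hB.mem_S' w, w.prime.dvd_pow_iff_dvd hd]
  · intro v
    rw [Set.Finite.mem_toFinset]
    exact Iff.rfl
  · intro v hv
    rw [Set.Finite.mem_toFinset] at hv
    have hv' : v.asIdeal ∣ 𝔫₀ := (v.prime.dvd_pow_iff_dvd hd).1 hv
    exact le_trans (le_max_left M 1) (le_mult890 hn v (pow_dvd_pow_of_dvd hv' _))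

end Top

end Fermat.Agent.LT.T7.B981.H890

end
end
-- ===== PACK-END LT/T7/B981/H890/Lvl.lean

-- ===== PACK-BEGIN LT/T7/H589/StepTSpec.lean
section



/-!
# Row LT, tower T7, node T7.L2.1.H2a.A.1 `B981.StepTC981` (sub-architect helper589, registry
# 2814): THE CUT -- Spec

OFF-MAIN.  Definitions and frozen Props only (the proved top is `StepTTop.lean`).  No hole,
nothing assumed.  ADDITIVE (new names only, suffix `589`, namespace
`Fermat.Agent.LT.T7.ST589`).  Vocabulary: `T7/B981/PairASpec.lean` (helper981, sha256 54ea7f02)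
and its imports, byte-identical copies.

    stepTC_of589 : PlaceC589 K K' → SysC589 K' → SysC589 K → DTestC589 K' → DTestC589 K
        → DEkC589 K' → DEkC589 K → DSuppC589 K' → DSuppC589 K → DOpC589 K' → DOpC589 K
        → ShapeTC589 K K' → B981.StepTC981 K K' H893.LocA893                  (VERBATIM)

## The construction (NO base change theorem, NO Satake eigenvalue theorem in the operators)

ONE field `F`, a finite place `v` prime to the level, `H` a Hecke coset system at `v`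
(`A0.IsHeckeCosetSystem`), `z` a scalar uniformiser at `v`:

    tStep589 v H z f (g) = q_v^{-1/2} ∑_{h ∈ H} f (g z⁻¹ h)        (the step of `T_v`)
    sStep589 z f (g)     = f (g z⁻¹)                                (the step of `S_v`)
    dStep589 v H z 0 f = 2 f,   dStep589 v H z 1 f = tStep589 v H z f,
    dStep589 v H z (d+2) f = tStep589 v H z (dStep589 v H z (d+1) f)
                               - sStep589 z (dStep589 v H z d f)

(the recursion of `satakePow`: `dStep d` is the DICKSON polynomial `x^d + y^d` in the two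
steps).  For the generator `T_w`, `w ∉ S'`, `v` the place under `w`, `d` the residue degree:

    φ' = dStep589 w H' z' 1 φ = tStep589 w H' z' φ,        f' = dStep589 v H z d f.

So downstairs the base change `b(T_w)` (Satake transform `x^d + y^d`) is WRITTEN as a polynomial
in the two elementary steps at `v`; the operator identity downstairs is
`R(f') χ = satakePow d (c.a v) (c.b v) R(f) χ = C.a w R(f) χ` (`IsBCData`), from the two
eigen-equations of `χ` at `v` only (`IsEigFn.hecke`).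

## The leaves

* **`PlaceC589 K K'`** [S-M] (number theory): every finite place `w` of `K'` lies over a place
  `v` of `K` with a residue degree; `v ∣ 𝔫 → w ∣ 𝔫 𝒪_{K'}`.
* **`SysC589 F`** [S] (closed assets): Hecke coset systems and scalar uniformisers exist.
* **`DTestC589 F`** [L]: `dStep589 v H z d` preserves the test functions of a level prime to `v`.
* **`DEkC589 F`** [M-L]: ... preserves Eisenstein-killing with Eisenstein-killing adjoint.
* **`DSuppC589 F`** [M]: ... preserves the Iwahori supports (`v` outside the orbit).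
* **`DOpC589 F`** [L]: `R(dStep589 v H z d f) χ = satakePow d a b · R(f) χ` for `χ` continuous,
  right invariant under a level group prime to `v`, with `IsHeckeEigenAt χ v a b`.
* **`ShapeTC589 K K'`** [XL, NODE]: the local shape `IsAvgPure … (LocA893 …) 1` of the new pair.

## Proofs (sketch) and FALSITY CHECKS (helper589)

`DTestC589`.  Continuity, compact support, smoothness at infinity, the archimedean invariances:
finite sums of right translates by elements supported at the finite place `v` (they commute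
with the elements supported at infinity), `z` is central (scalar matrix over the adeles).
Right invariance under `U(𝔫)`: `u = u_v u^v`, `u^v` commutes with `z⁻¹ h`, `u_v ∈ GL₂(𝒪_v)`
(`v ∤ 𝔫`) and `u_v h ∈ h' GL₂(𝒪_v)` for ONE `h' ∈ H` (FULLNESS of the system: the integral
matrices with determinant a uniformiser are `q + 1` right cosets of `GL₂(𝒪_v)`, the lattices of
index `q`; `H` has `q + 1` inequivalent elements), `h ↦ h'` is a permutation of `H`, and
`h'⁻¹ u_v h u^v ∈ U(𝔫)`.  `𝔫 = ⊥` is excluded by `¬ v ∣ 𝔫`.  CHECK: `∑_h f(g h⁻¹)` would NOT be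
right invariant (caution of helper981); here the sum is over `z⁻¹ h`, representatives of
`K λ⁻¹ K / K`.
`DEkC589`.  `R(f(· c)) Ψ = R(f) (Ψ(· c⁻¹))` (right invariance of the Haar measure,
`IsFrame.right_inv`) and `Ψ(· c⁻¹)` is Borel-invariant (the ray generator of `Ψ` is a scalar
matrix over the adeles, so central); `adjointFn (f(· c)) = (adjointFn f)(c⁻¹ ·)` and
`R(ψ(c ·)) Ψ (x) = R(ψ) Ψ (x c⁻¹)` (left invariance).  Finite sums and differences:
the integrands are continuous with compact support (hypothesis `htest`).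
`DSuppC589`.  If `f (y c) ≠ 0` then `y c` is Iwahori along the orbit and agrees outside the
orbit with a point of `C`; `c` is trivial at the orbit (`o j ≠ v`), so `y` is Iwahori there and
agrees outside the orbit with a point of `C c⁻¹`; finite unions of compact sets.
`DOpC589`.  `I(d) = ∫ f(y) χ(x y d) dy` is bi-invariant under `GL₂(𝒪_v)` (supported at `v`) in
`d`: on the left by the right invariance of `f` and of the Haar measure, on the right by the
invariance of `χ` (`v ∤ 𝔫₀` because `𝔫 ≤ 𝔫₀`).  `R(tStep f) χ (x) = q^{-1/2} ∑_h I(h⁻¹ z)`, and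
`h⁻¹ z` is integral with determinant a uniformiser, so `h⁻¹ z ∈ GL₂(𝒪_v) h₀ GL₂(𝒪_v)` for every
`h₀ ∈ H` (elementary divisors: ONE double coset), `I(h⁻¹ z) = I(h₀)`,
`∑_h I(h⁻¹ z) = ∑_h I(h) = √q a R(f) χ (x)` (`IsHeckeEigenAt`).  NO common representatives of
left and right cosets are needed.  `R(sStep f) χ = b R(f) χ` (`χ(g z) = b χ(g)`).  Induction
with the recursion of `satakePow`.
`ShapeTC589`.  Same parameter space and measure.  `tStep` of a pure tensor is the pure tensor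
with the component at `v` replaced by its local step
`ψ ↦ q^{-1/2} ∑_h ψ(· c⁻¹ h_v)` (the set `T a` enlarged by `v`, `T' a` by the places over `v`;
if `v ∉ T a` the old components over `v` are JUNK and are replaced by `1_{GL₂(𝒪)}` first).  The
places of the level are untouched (`v ∉ T₀`: `v ∤ 𝔫`), `ArchOk893` is untouched (`LocHyp305`
for the EMPTY set of finite places reads the components at infinity only).  `SphOut893` at `v`:
the local steps preserve the spherical functions and multiply the Satake transforms by `x + y`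
(`T`) resp. `x y` (`S`) (the recursion of `T6.satPoly`: count on the tree), so upstairs the
transform at `w` is multiplied by `X + Y`, downstairs at `v` by `x^d + y^d`.  `w` the only
place over `v` (`d = ℓ`, `RamIn`: unramified): `T6.IsBC ℓ q` is kept
(`X = x^ℓ`, `Y = y^ℓ`); `v` split (`d = 1`): the product formula over the fibre is kept (ONE
factor multiplied by `x + y`).  Members: `DTestC589`; joint continuity and the common compact
support: finite sums of translates.
-/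

set_option autoImplicit false

open AutomorphicForm IsDedekindDomain NumberField MeasureTheory
open scoped ComplexConjugate

noncomputable section

namespace Fermat.Agent.LT.T7.ST589

open Fermat.Agent.LT.H556 Fermat.Agent.LT.H556.A0 Fermat.Agent.LT.T7
open Fermat.Agent.LT.T7.H305 Fermat.Agent.LT.T7.H893

attribute [local instance] Fermat.Agent.LT.T5.instMeasurableSpaceG

/-! ## 1. The steps (ONE field) -/

section Steps

variable {F : Type} [Field F] [NumberField F]

/-- **The step of `T_v`**: `q_v^{-1/2} ∑_{h ∈ H} f (g z⁻¹ h)`. -/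
def tStep589 (v : HeightOneSpectrum (𝓞 F)) (H : Finset (G F)) (z : G F) (f : G F → ℂ) :
    G F → ℂ :=
  fun g => ((Real.sqrt (Ideal.absNorm v.asIdeal : ℝ) : ℝ) : ℂ)⁻¹ * ∑ h ∈ H, f (g * z⁻¹ * h)

/-- **The step of `S_v`**: `f (g z⁻¹)`. -/
def sStep589 (z : G F) (f : G F → ℂ) : G F → ℂ := fun g => f (g * z⁻¹)

/-- **The step of the Dickson polynomial `x^d + y^d`** in `T_v`, `S_v` (the recursion of
`satakePow`). -/
def dStep589 (v : HeightOneSpectrum (𝓞 F)) (H : Finset (G F)) (z : G F) :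
    ℕ → (G F → ℂ) → G F → ℂ
  | 0, f => fun g => 2 * f g
  | 1, f => tStep589 v H z f
  | (d + 2), f => fun g =>
      tStep589 v H z (dStep589 v H z (d + 1) f) g - sStep589 z (dStep589 v H z d f) g

end Steps

/-! ## 2. The leaves for ONE field -/

section OneField

variable (F : Type) [Field F] [NumberField F]

/-- **LEAF ST.2 = SYS (closed assets).**  At every finite place there are a Hecke coset system
and a scalar uniformiser. -/
def SysC589 : Prop :=
  ∀ v : HeightOneSpectrum (𝓞 F), ∃ (H : Finset (G F)) (z : G F),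
    IsHeckeCosetSystem v H ∧ IsScalarUniformizerAt v z

/-- **LEAF ST.3 = D-TEST.**  The steps at a place prime to the level preserve the test
functions of the level.  See the header. -/
def DTestC589 : Prop :=
  ∀ (𝔫 : Ideal (𝓞 F)) (v : HeightOneSpectrum (𝓞 F)), ¬ v.asIdeal ∣ 𝔫 →
    ∀ (H : Finset (G F)) (z : G F), IsHeckeCosetSystem v H → IsScalarUniformizerAt v z →
    ∀ f : G F → ℂ, T5.IsTestFn 𝔫 T5.trivType f →
      ∀ d : ℕ, T5.IsTestFn 𝔫 T5.trivType (dStep589 v H z d f)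

/-- **LEAF ST.4 = D-EK.**  The steps preserve the Eisenstein-killing functions with
Eisenstein-killing adjoints.  See the header. -/
def DEkC589 : Prop :=
  ∀ R : Frame5 F, IsFrame5 R →
    ∀ (𝔫 : Ideal (𝓞 F)) (v : HeightOneSpectrum (𝓞 F)), ¬ v.asIdeal ∣ 𝔫 →
    ∀ (H : Finset (G F)) (z : G F), IsHeckeCosetSystem v H → IsScalarUniformizerAt v z →
    ∀ f : G F → ℂ, T5.IsTestFn 𝔫 T5.trivType f →
      (∀ d : ℕ, T5.IsTestFn 𝔫 T5.trivType (dStep589 v H z d f)) →
      T5.IsEK R.μ f → T5.IsEK R.μ (T5.adjointFn f) →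
      ∀ d : ℕ, T5.IsEK R.μ (dStep589 v H z d f) ∧
        T5.IsEK R.μ (T5.adjointFn (dStep589 v H z d f))

/-- **LEAF ST.5 = D-SUPP.**  The steps at a place outside the orbit preserve the Iwahori
supports.  See the header. -/
def DSuppC589 : Prop :=
  ∀ (l : ℕ) (o : ℕ → HeightOneSpectrum (𝓞 F)) (v : HeightOneSpectrum (𝓞 F)),
    (∀ j : ℕ, j < l → o j ≠ v) →
    ∀ (H : Finset (G F)) (z : G F), IsHeckeCosetSystem v H → IsScalarUniformizerAt v z →
    ∀ f : G F → ℂ, (∃ C : Set (G F), IsCompact C ∧ T5.H32.IsIwSupported32 l o C f) →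
      ∀ d : ℕ, ∃ C : Set (G F), IsCompact C ∧
        T5.H32.IsIwSupported32 l o C (dStep589 v H z d f)

/-- **LEAF ST.6 = D-OP.**  On a continuous function `χ` which is right invariant under a level
group prime to `v` and is an eigenfunction of the Hecke operators at `v` with the eigenvalues
`(a, b)`: `R(dStep589 v H z d f) χ = satakePow d a b · R(f) χ`.  See the header. -/
def DOpC589 : Prop :=
  ∀ R : Frame5 F, IsFrame5 R →
    ∀ (𝔫 𝔫₀ : Ideal (𝓞 F)), 𝔫 ≤ 𝔫₀ →
    ∀ v : HeightOneSpectrum (𝓞 F), ¬ v.asIdeal ∣ 𝔫 →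
    ∀ (H : Finset (G F)) (z : G F), IsHeckeCosetSystem v H → IsScalarUniformizerAt v z →
    ∀ f : G F → ℂ, T5.IsTestFn 𝔫 T5.trivType f →
      (∀ d : ℕ, T5.IsTestFn 𝔫 T5.trivType (dStep589 v H z d f)) →
    ∀ (χ : G F → ℂ) (a b : ℂ), Continuous χ →
      (∀ u : G F, InLevelGroup 𝔫₀ u → ∀ g : G F, χ (g * u) = χ g) →
      IsHeckeEigenAt χ v a b →
      ∀ (d : ℕ) (x : G F),
        T5.Rconv R.μ (dStep589 v H z d f) χ x = satakePow d a b * T5.Rconv R.μ f χ x

end OneField

/-! ## 3. The leaves for the extension -/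

section TwoFields

variable (K K' : Type) [Field K] [NumberField K] [Field K'] [NumberField K'] [Algebra K K']

/-- **LEAF ST.1 = PLACE (number theory).**  Every finite place `w` of `K'` lies over a finite
place `v` of `K` with a residue degree `d` (`N w = (N v)^d`); if `v` divides `𝔫` then `w`
divides `𝔫 𝒪_{K'}`.
Proof.  `v = w ∩ 𝒪_K` (a non-zero prime: `K'/K` is finite, so integral), `𝒪_K / v ⊆ 𝒪_{K'} / w`
finite fields, `d` = the degree.  `𝔫 ≤ v` gives `𝔫 𝒪_{K'} ≤ w` (`PlaceOver`). -/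
def PlaceC589 : Prop :=
  (∀ ℓ : ℕ, IsCycExt K K' ℓ → ∀ w : HeightOneSpectrum (𝓞 K'),
      ∃ (v : HeightOneSpectrum (𝓞 K)) (d : ℕ), HasResDeg K K' v w d) ∧
    ∀ (𝔫 : Ideal (𝓞 K)) (v : HeightOneSpectrum (𝓞 K)) (w : HeightOneSpectrum (𝓞 K')),
      PlaceOver K K' v w → v.asIdeal ∣ 𝔫 → w.asIdeal ∣ upI (K' := K') 𝔫

/-- **NODE ST.7 = SHAPE-T (the local shape of the new pair).**  In the setting of
`B981.StepTC981` for the shape of record `H893.LocA893`: for `w ∉ S'` over `v` with residue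
degree `d`, Hecke coset systems and scalar uniformisers at `w` and `v`, and a pair `(φ, f)`
with the word-free properties: the pair `(dStep589 w H' z' 1 φ, dStep589 v H z d f)` is an
average of pure tensors with the local condition `LocA893`, constant `1`.  The leaves `DTestC589`
(both fields) are given.  See the header. -/
def ShapeTC589 : Prop :=
  DTestC589 K' → DTestC589 K →
  ∀ ℓ : ℕ, IsCycExt K K' ℓ → ℓ ≠ 2 → TotCplx K →
    ∀ (Φ : HeckeEigensystem K' ℂ) (B : L2Base K K'), IsL2Base ℓ Φ B → B.RamIn →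
      ∀ 𝔫 : Ideal (𝓞 K), Q797.IsLevel797 B 𝔫 →
      ∀ μc : @Measure (GL (Fin 2) ℂ) (borel _), @Measure.IsHaarMeasure _ _ _ (borel _) μc →
      ∀ (T₀ : Finset (HeightOneSpectrum (𝓞 K)))
        (n n₀ : HeightOneSpectrum (𝓞 K') → ℕ) (m : HeightOneSpectrum (𝓞 K) → ℕ),
        Q797.IsExp797 B 𝔫 T₀ n n₀ m →
        ∀ w : HeightOneSpectrum (𝓞 K'), w ∉ B.S' →
        ∀ (v : HeightOneSpectrum (𝓞 K)) (d : ℕ), HasResDeg K K' v w d →
        ∀ (H' : Finset (G K')) (z' : G K') (H : Finset (G K)) (z : G K),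
          IsHeckeCosetSystem w H' → IsScalarUniformizerAt w z' →
          IsHeckeCosetSystem v H → IsScalarUniformizerAt v z →
        ∀ (φ : G K' → ℂ) (f : G K → ℂ),
          B981.IsGoodA981 H893.LocA893 ℓ B 𝔫 μc T₀ n m φ f →
          IsAvgPure (upI (K' := K') 𝔫) 𝔫 T₀ (H893.LocA893 B 𝔫 μc T₀ n m) 1
            (dStep589 w H' z' 1 φ) (dStep589 v H z d f)

end TwoFields

/-! ## Appendix: the equation lemmas of the definitions of this file are realised HERE -/

theorem eqns_realised_stepT589 : True := by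
  have _a0 := @tStep589.eq_1
  have _a1 := @sStep589.eq_1
  have _a2 := @dStep589.eq_1
  have _a3 := @dStep589.eq_2
  have _a4 := @dStep589.eq_3
  have _a5 := @dStep589.eq_def
  have _b0 := @SysC589.eq_1
  have _b1 := @DTestC589.eq_1
  have _b2 := @DEkC589.eq_1
  have _b3 := @DSuppC589.eq_1
  have _b4 := @DOpC589.eq_1
  have _b5 := @PlaceC589.eq_1
  have _b6 := @ShapeTC589.eq_1
  have _c0 := @tStep589.eq_def
  have _c1 := @sStep589.eq_def
  have _c2 := @SysC589.eq_def
  have _c3 := @DTestC589.eq_def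
  have _c4 := @DEkC589.eq_def
  have _c5 := @DSuppC589.eq_def
  have _c6 := @DOpC589.eq_def
  have _c7 := @PlaceC589.eq_def
  have _c8 := @ShapeTC589.eq_def
  trivial

end Fermat.Agent.LT.T7.ST589

end

end
-- ===== PACK-END LT/T7/H589/StepTSpec.lean

-- ===== PACK-BEGIN LT/T3/H830/ArchWire.lean
section



/-!
# Row LT, quadratic step `F/ℚ`: THE ARCHIMEDEAN WIRING between T3 and T6 (helper830, deputy F/Q)

OFF-MAIN.  PROVED, UNCONDITIONAL, no hole, nothing assumed.  ADDITIVE (new names, suffix `830`).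
Vocabulary: `LT/T3/R/Spec.lean` (helper14, station T3.18R: `R.HasAbelNR`), `LT/T3/H736/ASSpec.lean`
(`AS.HasAbelN`), `LT/T6/SpecArch.lean` (helper22), `LT/T6/H626/ArchCut.lean` (helper626:
`IsAbelRel626`, `GeoMatchC626`, `SpecRelC626`), byte-identical copies; closed inputs
`H626.geoMatchC626_closed`, `H830.specRelC626_830`, `H626.abelExistC626_closed`.

## What it says

T3 builds test functions from their `N`-INTEGRALS (Abel--Satake): at a complex place
`∫_ℂ φ [[c₁, w], [0, c₂]] dw = |c₁| |c₂| β'(log |c₁|, log |c₂|)` (`AS.HasAbelN φ β'`), at a real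
place `∫_ℝ f [[c₁, x], [0, c₂]] dx = √(c₁ c₂) β(log c₁, log c₂)` (`R.HasAbelNR f β`).  T6 matches
test functions through the ABEL RELATION `IsAbelRel626 c φ f₀ f₁`.  The bridge:

    isAbelRel_iff830 : HasAbelN φ β' →
        (IsAbelRel626 c φ f₀ f₁ ↔ HasAbelNR f₀ (c · β'(·/2)) ∧ HasAbelNR f₁ (c · β'(·/2)))

(`half830 c β' (x₁, x₂) = c β'(x₁/2, x₂/2)`), and therefore, for ALL Haar measures `μ`, `μ'`:

    archWire830 : ∃ c > 0, ∀ n = ±1, ∃ c₀ c₁ ≠ 0, ∀ φ f₀ f₁ β',
        IsArchTestC φ → IsArchTestR 0 f₀ → IsArchTestR n f₁ → HasAbelN φ β' →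
        HasAbelNR f₀ (half830 c β') → HasAbelNR f₁ (half830 c β') →
          IsArchMatch μ μ' φ (f₀ + f₁) ∧ (∀ s, sphTransR μ 0 f₀ s = c₀ sphTransC μ' φ (2 s))
            ∧ (∀ s, sphTransR μ n f₁ s = c₁ sphTransC μ' φ (2 s))

So the archimedean factors of the Eisenstein-killing pure tensors downstairs (station T3.18R,
`R.IsPurePairR`: ANY test functions of weight `0`, `±1` with the `N`-integral `half830 c β'`) are
MATCHED with the archimedean factor upstairs (station T3.18M, `N`-integral `β'`), with the base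
change `s ↦ 2 s` of the eigenvalues: the clause at infinity of the relation `Mt` of
`GlobQC732` / `ConstrQ60C732` (helper732) and the clause `op_down` of `L2Q.IsL2QData`.
`half_symBump830`: `half830 c β'` is a symmetric bump if `β'` is.
-/

set_option autoImplicit false

open MeasureTheory
open scoped ContDiff

noncomputable section

namespace Fermat.Agent.LT.T3.H830

open Fermat.Agent.LT.T3.AS Fermat.Agent.LT.T6 Fermat.Agent.LT.T6.H626

/-- `(x₁, x₂) ↦ c β'(x₁/2, x₂/2)`. -/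
def half830 (c : ℂ) (β' : ℝ × ℝ → ℂ) : ℝ × ℝ → ℂ := fun p => c * β' ((2 : ℝ)⁻¹ • p)

theorem half_apply830 (c : ℂ) (β' : ℝ × ℝ → ℂ) (x y : ℝ) :
    half830 c β' (x, y) = c * β' (x / 2, y / 2) := by
  simp [half830, Prod.smul_mk, div_eq_inv_mul]

theorem half_symBump830 (c : ℂ) {β' : ℝ × ℝ → ℂ} (hβ : IsSymBump β') :
    IsSymBump (half830 c β') := by
  refine ⟨?_, ?_, ?_⟩
  · exact contDiff_const.mul (hβ.1.comp (contDiff_const_smul ((2 : ℝ)⁻¹)))
  · exact (hβ.2.1.comp_smul (inv_ne_zero two_ne_zero)).mul_left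
  · intro x y
    rw [half_apply830, half_apply830, hβ.2.2]

/-- The unit `√a` of `ℂ`. -/
def sqU830 (a : ℝ) (ha : 0 < a) : ℂˣ :=
  Units.mk0 ((Real.sqrt a : ℝ) : ℂ) (by exact_mod_cast (Real.sqrt_pos.2 ha).ne')

theorem norm_sqU830 (a : ℝ) (ha : 0 < a) : ‖((sqU830 a ha : ℂˣ) : ℂ)‖ = Real.sqrt a := by
  simp [sqU830, abs_of_nonneg (Real.sqrt_nonneg a)]

/-- The complex side of the Abel relation, from the `N`-integral. -/
theorem cplxSide830 {φ : GL (Fin 2) ℂ → ℂ} {β' : ℝ × ℝ → ℂ} (hN : HasAbelN φ β')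
    (a b : ℝ) (ha : 0 < a) (hb : 0 < b) (u' : ℂ → GL (Fin 2) ℂ)
    (hu' : ∀ w : ℂ, ((u' w : GL (Fin 2) ℂ) : Matrix (Fin 2) (Fin 2) ℂ)
      = !![((Real.sqrt a : ℝ) : ℂ), ((Real.sqrt a : ℝ) : ℂ) * w; 0, ((Real.sqrt b : ℝ) : ℂ)]) :
    (∫ w : ℂ, φ (u' w))
      = ((a⁻¹ * (Real.sqrt a * Real.sqrt b) : ℝ) : ℂ) * β' (Real.log a / 2, Real.log b / 2) := by
  have e : ∀ w : ℂ, u' w = upperGL (sqU830 a ha) (sqU830 b hb) (((Real.sqrt a : ℝ) : ℂ) * w) := by
    intro w
    apply Units.ext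
    rw [hu' w]
    rfl
  simp_rw [e]
  have hC : (∫ w : ℂ, φ (upperGL (sqU830 a ha) (sqU830 b hb) (((Real.sqrt a : ℝ) : ℂ) * w)))
      = |(Real.sqrt a ^ Module.finrank ℝ ℂ)⁻¹| •
        ∫ w : ℂ, φ (upperGL (sqU830 a ha) (sqU830 b hb) w) := by
    have := MeasureTheory.Measure.integral_comp_smul (volume : Measure ℂ)
      (fun w => φ (upperGL (sqU830 a ha) (sqU830 b hb) w)) (Real.sqrt a)
    simpa only [Complex.real_smul] using this
  rw [hC, hN, norm_sqU830, norm_sqU830, Complex.finrank_real_complex, Real.sq_sqrt ha.le,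
    abs_of_pos (inv_pos.2 ha), Real.log_sqrt ha.le, Real.log_sqrt hb.le, Complex.real_smul,
    ← mul_assoc, ← Complex.ofReal_mul]

/-- The real side of the Abel relation, from the `N`-integral. -/
theorem realSide830 {f : GL (Fin 2) ℝ → ℂ} (a b : ℝ) (ha : 0 < a) (hb : 0 < b)
    (u : ℝ → GL (Fin 2) ℝ)
    (hu : ∀ x : ℝ, ((u x : GL (Fin 2) ℝ) : Matrix (Fin 2) (Fin 2) ℝ) = !![a, a * x; 0, b]) :
    (∫ x : ℝ, f (u x))
      = ((a⁻¹ : ℝ) : ℂ) * ∫ x : ℝ, f (upperGL (Units.mk0 a ha.ne') (Units.mk0 b hb.ne') x) := by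
  have e : ∀ x : ℝ, u x = upperGL (Units.mk0 a ha.ne') (Units.mk0 b hb.ne') (a * x) := by
    intro x
    apply Units.ext
    rw [hu x]
    rfl
  simp_rw [e]
  have hR := MeasureTheory.Measure.integral_comp_mul_left
    (fun x => f (upperGL (Units.mk0 a ha.ne') (Units.mk0 b hb.ne') x)) a
  rw [hR, abs_of_pos (inv_pos.2 ha), Complex.real_smul]

/-- **THE BRIDGE, one function**: the Abel relation of one real test function with `φ` is the
`N`-integral `half830 c β'`. -/
theorem rel_iff_abelNR830 {φ : GL (Fin 2) ℂ → ℂ} {β' : ℝ × ℝ → ℂ} (hN : HasAbelN φ β') (c : ℂ)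
    (f : GL (Fin 2) ℝ → ℂ) :
    (∀ a b : ℝ, 0 < a → 0 < b →
      ∀ (u : ℝ → GL (Fin 2) ℝ) (u' : ℂ → GL (Fin 2) ℂ),
        (∀ x : ℝ, ((u x : GL (Fin 2) ℝ) : Matrix (Fin 2) (Fin 2) ℝ) = !![a, a * x; 0, b]) →
        (∀ w : ℂ, ((u' w : GL (Fin 2) ℂ) : Matrix (Fin 2) (Fin 2) ℂ)
          = !![((Real.sqrt a : ℝ) : ℂ), ((Real.sqrt a : ℝ) : ℂ) * w; 0,
              ((Real.sqrt b : ℝ) : ℂ)]) →
        (∫ x : ℝ, f (u x)) = c * ∫ w : ℂ, φ (u' w))
      ↔ R.HasAbelNR f (half830 c β') := by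
  constructor
  · intro h c₁ c₂ h1 h2
    have hrel := h (c₁ : ℝ) (c₂ : ℝ) h1 h2 (fun x => upperGL c₁ c₂ ((c₁ : ℝ) * x))
      (fun w => upperGL (sqU830 _ h1) (sqU830 _ h2) (((Real.sqrt (c₁ : ℝ) : ℝ) : ℂ) * w))
      (fun x => rfl) (fun w => rfl)
    rw [realSide830 (c₁ : ℝ) (c₂ : ℝ) h1 h2 _ (fun x => rfl),
      cplxSide830 hN (c₁ : ℝ) (c₂ : ℝ) h1 h2 _ (fun w => rfl)] at hrel
    have e1 : Units.mk0 (c₁ : ℝ) h1.ne' = c₁ := Units.ext rfl
    have e2 : Units.mk0 (c₂ : ℝ) h2.ne' = c₂ := Units.ext rfl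
    rw [e1, e2] at hrel
    have h3 : (∫ x : ℝ, f (upperGL c₁ c₂ x))
        = ((c₁ : ℝ) : ℂ) * (((c₁ : ℝ)⁻¹ : ℝ) : ℂ) * ∫ x : ℝ, f (upperGL c₁ c₂ x) := by
      rw [← Complex.ofReal_mul, mul_inv_cancel₀ h1.ne', Complex.ofReal_one, one_mul]
    rw [h3, mul_assoc, hrel, half_apply830, Real.sqrt_mul h1.le]
    push_cast
    field_simp
  · intro h a b ha hb u u' hu hu'
    rw [realSide830 a b ha hb u hu, cplxSide830 hN a b ha hb u' hu',
      h (Units.mk0 a ha.ne') (Units.mk0 b hb.ne') ha hb, half_apply830]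
    simp only [Units.val_mk0]
    rw [Real.sqrt_mul ha.le]
    push_cast
    ring

/-- **THE BRIDGE**: for `φ` with `N`-integral `β'`, the Abel relation with constant `c` is the
pair of `N`-integrals `half830 c β'`. -/
theorem isAbelRel_iff830 {φ : GL (Fin 2) ℂ → ℂ} {β' : ℝ × ℝ → ℂ} (hN : HasAbelN φ β') (c : ℂ)
    (f₀ f₁ : GL (Fin 2) ℝ → ℂ) :
    IsAbelRel626 c φ f₀ f₁
      ↔ R.HasAbelNR f₀ (half830 c β') ∧ R.HasAbelNR f₁ (half830 c β') := by
  rw [← rel_iff_abelNR830 hN c f₀, ← rel_iff_abelNR830 hN c f₁]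
  constructor
  · intro h
    exact ⟨fun a b ha hb u u' hu hu' => (h a b ha hb u u' hu hu').1,
      fun a b ha hb u u' hu hu' => (h a b ha hb u u' hu hu').2⟩
  · intro h a b ha hb u u' hu hu'
    exact ⟨h.1 a b ha hb u u' hu hu', h.2 a b ha hb u u' hu hu'⟩

/-- **THE ARCHIMEDEAN WIRING.**  See the header. -/
theorem archWire830 (μ : @Measure (GL (Fin 2) ℝ) (borel _))
    (μ' : @Measure (GL (Fin 2) ℂ) (borel _))
    (hμ : @Measure.IsHaarMeasure _ _ _ (borel _) μ)
    (hμ' : @Measure.IsHaarMeasure _ _ _ (borel _) μ') :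
    ∃ c : ℝ, 0 < c ∧ ∀ n : ℤ, n = 1 ∨ n = -1 →
      ∃ c₀ c₁ : ℂ, c₀ ≠ 0 ∧ c₁ ≠ 0 ∧
        ∀ (φ : GL (Fin 2) ℂ → ℂ) (f₀ f₁ : GL (Fin 2) ℝ → ℂ) (β' : ℝ × ℝ → ℂ),
          IsArchTestC φ → IsArchTestR 0 f₀ → IsArchTestR n f₁ → HasAbelN φ β' →
          R.HasAbelNR f₀ (half830 (c : ℂ) β') → R.HasAbelNR f₁ (half830 (c : ℂ) β') →
            IsArchMatch μ μ' φ (fun g => f₀ g + f₁ g) ∧
            (∀ s : ℂ, sphTransR μ 0 f₀ s = c₀ * sphTransC μ' φ (2 * s)) ∧
            (∀ s : ℂ, sphTransR μ n f₁ s = c₁ * sphTransC μ' φ (2 * s)) := by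
  obtain ⟨c, hc, hmatch⟩ := geoMatchC626_closed μ μ' hμ hμ'
  refine ⟨c, hc, fun n hn => ?_⟩
  obtain ⟨c₀, c₁, h0, h1, hspec⟩ := Fermat.Agent.LT.T6.H830.specRelC626_830 μ μ' hμ hμ' (c : ℂ)
    (by exact_mod_cast hc.ne') n hn
  refine ⟨c₀, c₁, h0, h1, fun φ f₀ f₁ β' hφ hf₀ hf₁ hN hN0 hN1 => ?_⟩
  have hrel : IsAbelRel626 (c : ℂ) φ f₀ f₁ := (isAbelRel_iff830 hN (c : ℂ) f₀ f₁).2 ⟨hN0, hN1⟩
  refine ⟨?_, hspec φ f₀ f₁ hφ hf₀ hf₁ hrel⟩
  rw [isArchMatch_iff_on626]
  exact hmatch n hn φ f₀ f₁ hφ hf₀ hf₁ hrel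

end Fermat.Agent.LT.T3.H830

end

end
-- ===== PACK-END LT/T3/H830/ArchWire.lean

-- ===== PACK-BEGIN LT/T6/H830/ArchConvMatch.lean
section




/-!
# Row LT, tower T6, asset ARCH-KIT (helper830, deputy F/Q "archimedean wiring"):
# the archimedean local shape of the quadratic step -- existence, matching, spectral relation,
# convolution, with ONE pair of constants

OFF-MAIN.  Complete proofs, nothing assumed.  ADDITIVE.

    archProd830 : ∀ μ μ' Haar, ∃ cM > 0, ∃ lam > 0, (MATCHING for cM) ∧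
      ∀ c c' s t, s ≠ 0 → t · lam · c · c' = cM · s → ∀ n = ±1,
        IsArchPair830 c n Φ₁ F₁ G₁ → IsArchPair830 c' n Φ₂ F₂ G₂ →
        IsArchPair830 cM n (s · Φ₁ ⋆ Φ₂) (t · F₁ ⋆ F₂) (t · G₁ ⋆ G₂) ∧
        T6.IsArchMatch μ μ' (s · Φ₁ ⋆ Φ₂) (t · F₁ ⋆ F₂ + t · G₁ ⋆ G₂)
    archKit830 : ∀ μ μ' Haar, ∃ cM > 0, ∃ κ > 0,
      (EXISTENCE)   ∀ n = ±1, ∀ Φ test function, ∃ F G, IsArchPair830 cM n Φ F G
      (MATCHING)    ∀ n = ±1, IsArchPair830 cM n Φ F G → T6.IsArchMatch μ μ' Φ (F + G)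
      (SPECTRAL)    ∀ n = ±1, ∃ c₀ c₁ ≠ 0, IsArchPair830 cM n Φ F G →
                       sphTransR μ 0 F s = c₀ sphTransC μ' Φ (2s),
                       sphTransR μ n G s = c₁ sphTransC μ' Φ (2s)
      (CONVOLUTION) ∀ n, IsArchPair830 cM n Φ₁ F₁ G₁ → IsArchPair830 cM n Φ₂ F₂ G₂ →
                       IsArchPair830 cM n (Φ₁ ⋆ Φ₂) (κ · F₁ ⋆ F₂) (κ · G₁ ⋆ G₂)

Inputs: `H626.geoMatchC626_closed` (T6.20b), `H626.abelExistC626_closed` (T6.20a),
`specRelC626_830` (T6.29), `archPair_conv830` (ARCH-CONV).  Consequence for the construction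
over `ℚ` (`ProdMtQ`): the archimedean components of the members of the families
(`Φ₁ X ⋆ …`, `F₁ⁿ X ⋆ …`) are matched (`T6.IsArchMatch`, the clause `arch` of
`MQ298.LocHypQ298`) when the archimedean components of the two factors are pairs with the
constant `cM`; the constant `κ` is absorbed in the constant `a` of `f₂`.
-/

set_option autoImplicit false

open scoped Matrix ContDiff
open MeasureTheory

noncomputable section

namespace Fermat.Agent.LT.T6.H830

open Fermat.Agent.LT.T6 Fermat.Agent.LT.T6.H626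

/-- **THE ARCHIMEDEAN KIT** of the quadratic step (see the header). -/
theorem archKit830 (μ : @Measure (GL (Fin 2) ℝ) (borel _))
    (μ' : @Measure (GL (Fin 2) ℂ) (borel _))
    (hμ : @Measure.IsHaarMeasure _ _ _ (borel _) μ)
    (hμ' : @Measure.IsHaarMeasure _ _ _ (borel _) μ') :
    ∃ cM : ℝ, 0 < cM ∧ ∃ κ : ℝ, 0 < κ ∧
      (∀ n : ℤ, n = 1 ∨ n = -1 → ∀ Φ : GL (Fin 2) ℂ → ℂ, IsArchTestC Φ →
        ∃ F G : GL (Fin 2) ℝ → ℂ, IsArchPair830 (cM : ℂ) n Φ F G) ∧
      (∀ n : ℤ, n = 1 ∨ n = -1 → ∀ (Φ : GL (Fin 2) ℂ → ℂ) (F G : GL (Fin 2) ℝ → ℂ),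
        IsArchPair830 (cM : ℂ) n Φ F G → IsArchMatch μ μ' Φ (fun g => F g + G g)) ∧
      (∀ n : ℤ, n = 1 ∨ n = -1 → ∃ c₀ c₁ : ℂ, c₀ ≠ 0 ∧ c₁ ≠ 0 ∧
        ∀ (Φ : GL (Fin 2) ℂ → ℂ) (F G : GL (Fin 2) ℝ → ℂ),
          IsArchPair830 (cM : ℂ) n Φ F G →
          (∀ s : ℂ, sphTransR μ 0 F s = c₀ * sphTransC μ' Φ (2 * s)) ∧
          (∀ s : ℂ, sphTransR μ n G s = c₁ * sphTransC μ' Φ (2 * s))) ∧
      (∀ (n : ℤ) (Φ₁ Φ₂ : GL (Fin 2) ℂ → ℂ) (F₁ F₂ G₁ G₂ : GL (Fin 2) ℝ → ℂ),
        IsArchPair830 (cM : ℂ) n Φ₁ F₁ G₁ → IsArchPair830 (cM : ℂ) n Φ₂ F₂ G₂ →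
        IsArchPair830 (cM : ℂ) n (@convInt _ _ (borel _) μ' Φ₁ Φ₂)
          (fun g => (κ : ℂ) * @convInt _ _ (borel _) μ F₁ F₂ g)
          (fun g => (κ : ℂ) * @convInt _ _ (borel _) μ G₁ G₂ g)) := by
  obtain ⟨cM, hcM, hmatch⟩ := geoMatchC626_closed μ μ' hμ hμ'
  obtain ⟨lam, hlam, hconv⟩ := archPair_conv_norm830 μ μ' hμ hμ'
  have hcM' : (cM : ℂ) ≠ 0 := Complex.ofReal_ne_zero.2 hcM.ne'
  refine ⟨cM, hcM, (lam * cM)⁻¹, by positivity, ?_, ?_, ?_, ?_⟩
  · intro n hn Φ hΦ
    obtain ⟨F, G, hF, hG, hrel⟩ := abelExistC626_closed (cM : ℂ) n hn Φ hΦ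
    exact ⟨F, G, hΦ, hF, hG, hrel⟩
  · intro n hn Φ F G p
    rw [isArchMatch_iff_on626]
    exact hmatch n hn Φ F G p.up p.down0 p.down1 p.rel
  · intro n hn
    obtain ⟨c₀, c₁, h0, h1, hspec⟩ := specRelC626_830 μ μ' hμ hμ' (cM : ℂ) hcM' n hn
    exact ⟨c₀, c₁, h0, h1, fun Φ F G p => hspec Φ F G p.up p.down0 p.down1 p.rel⟩
  · intro n Φ₁ Φ₂ F₁ F₂ G₁ G₂ p₁ p₂
    have key := hconv (cM : ℂ) hcM' n Φ₁ Φ₂ F₁ F₂ G₁ G₂ p₁ p₂
    have e : (((lam * cM)⁻¹ : ℝ) : ℂ) = ((lam : ℂ) * (cM : ℂ))⁻¹ := by push_cast; rfl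
    rw [e]
    exact key

/-- **Matched products**: with the constants of the kit, the convolution products of two
pairs are geometrically matched. -/
theorem archMatch_conv830 (μ : @Measure (GL (Fin 2) ℝ) (borel _))
    (μ' : @Measure (GL (Fin 2) ℂ) (borel _))
    (hμ : @Measure.IsHaarMeasure _ _ _ (borel _) μ)
    (hμ' : @Measure.IsHaarMeasure _ _ _ (borel _) μ') :
    ∃ cM : ℝ, 0 < cM ∧ ∃ κ : ℝ, 0 < κ ∧
      ∀ n : ℤ, n = 1 ∨ n = -1 →
      ∀ (Φ₁ Φ₂ : GL (Fin 2) ℂ → ℂ) (F₁ F₂ G₁ G₂ : GL (Fin 2) ℝ → ℂ),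
        IsArchPair830 (cM : ℂ) n Φ₁ F₁ G₁ → IsArchPair830 (cM : ℂ) n Φ₂ F₂ G₂ →
        IsArchMatch μ μ' (@convInt _ _ (borel _) μ' Φ₁ Φ₂)
          (fun g => (κ : ℂ) * @convInt _ _ (borel _) μ F₁ F₂ g
            + (κ : ℂ) * @convInt _ _ (borel _) μ G₁ G₂ g) := by
  obtain ⟨cM, hcM, κ, hκ, -, hM, -, hC⟩ := archKit830 μ μ' hμ hμ'
  exact ⟨cM, hcM, κ, hκ, fun n hn Φ₁ Φ₂ F₁ F₂ G₁ G₂ p₁ p₂ =>
    hM n hn _ _ _ (hC n Φ₁ Φ₂ F₁ F₂ G₁ G₂ p₁ p₂)⟩

/-- **Matched products, general constants**: pairs with the Abel constants `c`, `c'`; the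
product upstairs scaled by `s ≠ 0`, the products downstairs scaled by `t`, with
`t · lam · c · c' = cM · s`: a pair with the matching constant `cM`, geometrically matched. -/
theorem archProd830 (μ : @Measure (GL (Fin 2) ℝ) (borel _))
    (μ' : @Measure (GL (Fin 2) ℂ) (borel _))
    (hμ : @Measure.IsHaarMeasure _ _ _ (borel _) μ)
    (hμ' : @Measure.IsHaarMeasure _ _ _ (borel _) μ') :
    ∃ cM : ℝ, 0 < cM ∧ ∃ lam : ℝ, 0 < lam ∧
      (∀ n : ℤ, n = 1 ∨ n = -1 → ∀ (Φ : GL (Fin 2) ℂ → ℂ) (F G : GL (Fin 2) ℝ → ℂ),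
        IsArchPair830 (cM : ℂ) n Φ F G → IsArchMatch μ μ' Φ (fun g => F g + G g)) ∧
      ∀ (c c' s t : ℂ), s ≠ 0 → t * (lam : ℂ) * c * c' = (cM : ℂ) * s →
      ∀ n : ℤ, n = 1 ∨ n = -1 →
      ∀ (Φ₁ Φ₂ : GL (Fin 2) ℂ → ℂ) (F₁ F₂ G₁ G₂ : GL (Fin 2) ℝ → ℂ),
        IsArchPair830 c n Φ₁ F₁ G₁ → IsArchPair830 c' n Φ₂ F₂ G₂ →
        IsArchPair830 (cM : ℂ) n (fun g => s * @convInt _ _ (borel _) μ' Φ₁ Φ₂ g)
          (fun g => t * @convInt _ _ (borel _) μ F₁ F₂ g)
          (fun g => t * @convInt _ _ (borel _) μ G₁ G₂ g) ∧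
        IsArchMatch μ μ' (fun g => s * @convInt _ _ (borel _) μ' Φ₁ Φ₂ g)
          (fun g => t * @convInt _ _ (borel _) μ F₁ F₂ g
            + t * @convInt _ _ (borel _) μ G₁ G₂ g) := by
  obtain ⟨cM, hcM, hmatch⟩ := geoMatchC626_closed μ μ' hμ hμ'
  obtain ⟨lam, hlam, hconv⟩ := archPair_conv830 μ μ' hμ hμ'
  have hM : ∀ n : ℤ, n = 1 ∨ n = -1 → ∀ (Φ : GL (Fin 2) ℂ → ℂ) (F G : GL (Fin 2) ℝ → ℂ),
      IsArchPair830 (cM : ℂ) n Φ F G → IsArchMatch μ μ' Φ (fun g => F g + G g) := by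
    intro n hn Φ F G p
    rw [isArchMatch_iff_on626]
    exact hmatch n hn Φ F G p.up p.down0 p.down1 p.rel
  refine ⟨cM, hcM, lam, hlam, hM, ?_⟩
  intro c c' s t hs hrel n hn Φ₁ Φ₂ F₁ F₂ G₁ G₂ p₁ p₂
  have k1 := archPair_smul830 (hconv c c' n Φ₁ Φ₂ F₁ F₂ G₁ G₂ p₁ p₂) t
  have k2 := archPair_smul_up830 k1 hs
  have e : t * ((lam : ℂ) * c * c') / s = (cM : ℂ) := by
    rw [div_eq_iff hs, ← hrel]
    ring
  rw [e] at k2
  exact ⟨k2, hM n hn _ _ _ k2⟩

end Fermat.Agent.LT.T6.H830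

end

end
-- ===== PACK-END LT/T6/H830/ArchConvMatch.lean

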