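import Mathlib
import Fermat.Agent.Pack.LT3.E29L3
import Fermat.Agent.Pack.LT4.E5L1
import Fermat.Agent.Pack.LT4.E2L1
import Fermat.Agent.Pack.LT2.E12L3
import Fermat.Agent.Pack.LT2.E9L3
import Fermat.Agent.Pack.LT2.E3L1
import Fermat.Agent.Pack.LT3.E3L3
import Fermat.Agent.Pack.LT2.E0L1
import Fermat.Agent.Pack.LT4.E5L3
import Fermat.Agent.Pack.LT4.E5L0
import Fermat.Agent.Pack.LT3.E24L0
import Fermat.Agent.Pack.LT3.E23L3
import Fermat.Agent.Pack.LT3.E27L1
import Fermat.Agent.Pack.LT4.E1L3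

set_option linter.all false

-- ===== PACK-BEGIN LT/T7/P51/H321/SplitOrb.lean
section




/-!
# Row LT, tower T7, leaf T7.L2.1.H2b.L5 `P51.SplitOrbC51` (helper321, registry row 2831): PROVED

OFF-MAIN.  No hole, nothing assumed.  ADDITIVE: all names are new and end in `321`.

    splitOrbC321 (K K') : P51.SplitOrbC51 K K'

VERBATIM against `LT/T7/P51/ProdMtSpec.lean` (helper51, sha256 4b4a6c6c).  Kits (byte copies):
`T7/H409/RegOrb.lean` (helper409: the local Iwahori calculus, completeness of a coset system),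
`T7/H468/{IwLocal,IwPerm}.lean` (helper468), `T7/H841/OntoFin.lean` (helper841: `e = f = 1` at a
place with two places over it), `T6/H116/InstSplit.lean` (helper116: `T6.InstSplitC`).

## Proof

* `t = N ^ (ℓ - 1)`, `N = [I : U(m_u)]` = the cardinal of a system `Rep` of representatives of
  `I / U(m_u)` in `GL₂(K_u)` (`exists_iwReps321`: the Iwahori function has finite support
  modulo `U(n)`).
* Enumeration `w j = o (j (ℓ - 1))`: `o (j + ℓ) = o j` (`σ ^ ℓ = 1`), hence
  `σ (w (j + 1)) = w j`, and `w j = o (ℓ - j)` for `0 < j < ℓ`.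
* Identifications: two places over `u`, so `e = f = 1` at every place over `u`
  (`H841.split_dataOF841`) and `T6.InstSplitC` (closed) gives `i j : K_u ≃ K'_{w j}`,
  compatible with the embeddings, preserving the valuations.
* Levels: `n (w j) = m u` (`level_eq321`: the ideal `𝔫 𝒪_{K'}` is generated by `𝔫`).
* Transport (`regLoc_map321`): under a valuation preserving isomorphism `K_u ≃ K'_w` the
  Iwahori subgroups correspond, the images of a coset system at `u` are matched with the
  members of a coset system at `w` modulo `I` (completeness), the sums of the translates of a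
  left `I`-invariant function agree, and the quotient of the two scalar uniformisers is a
  central element of `I`.  So `regLoc51 (o 0) z' H' k j 1_I ∘ i 0 = regLoc51 u z H k j 1_I`.
* Convolution (`isConv_iw321`): for `χ` right `I`-invariant,
  `∑_{h ∈ g Rep} χ(h) 1_I(h⁻¹ g) = N χ(g)`.
-/

set_option autoImplicit false
set_option linter.unusedSectionVars false
set_option linter.unusedVariables false
set_option linter.style.haveILetI false

open AutomorphicForm IsDedekindDomain NumberField MeasureTheory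
open scoped ComplexConjugate

noncomputable section

namespace Fermat.Agent.LT.T7.P51.H321

open Fermat.Agent.LT.H556 Fermat.Agent.LT.H556.A0 Fermat.Agent.LT.T7
open Fermat.Agent.LT.T7.H305 Fermat.Agent.LT.T7.H893 Fermat.Agent.LT.T7.P51
open Fermat.Agent.LT.T7.H468 Fermat.Agent.LT.T7.H409

/-! ## 1. Representatives modulo a subgroup -/

section Abstract

variable {Γ : Type} [Group Γ]

/-- A finite set contains a system of representatives of its classes modulo `U` on the right. -/
theorem exists_reps321 (U : Γ → Prop) (hU1 : U 1) (hUi : ∀ a, U a → U a⁻¹) (F : Finset Γ) :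
    ∃ R : Finset Γ, R ⊆ F ∧
      (∀ h ∈ R, ∀ h' ∈ R, (∃ u : Γ, U u ∧ h' = h * u) → h = h') ∧
      ∀ x ∈ F, ∃ h ∈ R, ∃ u : Γ, U u ∧ x = h * u := by
  classical
  induction F using Finset.induction_on with
  | empty => exact ⟨∅, Finset.Subset.refl _, by simp, by simp⟩
  | insert a F ha ih =>
    obtain ⟨R, hRF, hd, hc⟩ := ih
    by_cases hex : ∃ h ∈ R, ∃ u : Γ, U u ∧ a = h * u
    · refine ⟨R, hRF.trans (Finset.subset_insert a F), hd, fun x hx => ?_⟩
      rcases Finset.mem_insert.mp hx with hxa | hx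
      · rw [hxa]; exact hex
      · exact hc x hx
    · refine ⟨insert a R, Finset.insert_subset_insert a hRF, ?_, fun x hx => ?_⟩
      · intro h hh h' hh' huu
        rcases Finset.mem_insert.mp hh with hha | hh
        · rcases Finset.mem_insert.mp hh' with hha' | hh'
          · rw [hha, hha']
          · exfalso
            obtain ⟨u, hu, e⟩ := huu
            refine hex ⟨h', hh', u⁻¹, hUi u hu, ?_⟩
            rw [e, ← hha, mul_inv_cancel_right]
        · rcases Finset.mem_insert.mp hh' with hha' | hh'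
          · exfalso
            obtain ⟨u, hu, e⟩ := huu
            exact hex ⟨h, hh, u, hu, by rw [← hha', e]⟩
          · exact hd h hh h' hh' huu
      · rcases Finset.mem_insert.mp hx with hxa | hx
        · exact ⟨a, Finset.mem_insert_self _ _, 1, hU1, by rw [hxa, mul_one]⟩
        · obtain ⟨h, hh, u, hu, e⟩ := hc x hx
          exact ⟨h, Finset.mem_insert_of_mem hh, u, hu, e⟩

end Abstract

/-! ## 2. The groups `U(n)` -/

section LocalGroup

variable {k : Type} [Field k] [Valued k T6.Γ₀]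

theorem inU_one321 (n : ℕ) : T6.InU n (1 : GL (Fin 2) k) := by
  intro i j
  constructor
  · simp
  · simp

theorem inU_inv321 {n : ℕ} {g : GL (Fin 2) k} (h : T6.InU n g) : T6.InU n g⁻¹ := by
  intro i j
  refine ⟨(h i j).2, ?_⟩
  rw [inv_inv]
  exact (h i j).1

theorem inU_mul321 {n : ℕ} {a b : GL (Fin 2) k} (ha : T6.InU n a) (hb : T6.InU n b) :
    T6.InU n (a * b) := by
  have key : ∀ (A B : Matrix (Fin 2) (Fin 2) k),
      (∀ i j, Valued.v (A i j - (1 : Matrix (Fin 2) (Fin 2) k) i j)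
        ≤ WithZero.exp (-(n : ℤ))) →
      (∀ i j, Valued.v (B i j - (1 : Matrix (Fin 2) (Fin 2) k) i j)
        ≤ WithZero.exp (-(n : ℤ))) →
      (∀ i j, Valued.v (B i j) ≤ 1) →
      ∀ i j, Valued.v ((A * B) i j - (1 : Matrix (Fin 2) (Fin 2) k) i j)
        ≤ WithZero.exp (-(n : ℤ)) := by
    intro A B hA hB hB1 i j
    have e : (A * B) i j - (1 : Matrix (Fin 2) (Fin 2) k) i j
        = ((A i 0 - (1 : Matrix (Fin 2) (Fin 2) k) i 0) * B 0 j
          + (A i 1 - (1 : Matrix (Fin 2) (Fin 2) k) i 1) * B 1 j)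
          + (B i j - (1 : Matrix (Fin 2) (Fin 2) k) i j) := by
      have h1B : (1 : Matrix (Fin 2) (Fin 2) k) i 0 * B 0 j
          + (1 : Matrix (Fin 2) (Fin 2) k) i 1 * B 1 j = B i j := by
        have := congrFun (congrFun (Matrix.one_mul B) i) j
        rwa [Matrix.mul_apply, Fin.sum_univ_two] at this
      rw [Matrix.mul_apply, Fin.sum_univ_two]
      linear_combination h1B
    rw [e]
    refine Fermat.Agent.LT.T6.H125.v_add_le125 (Fermat.Agent.LT.T6.H125.v_add_le125 ?_ ?_) (hB i j)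
    · have := Fermat.Agent.LT.T6.H125.v_mul_le125 (hA i 0) (hB1 0 j)
      rwa [mul_one] at this
    · have := Fermat.Agent.LT.T6.H125.v_mul_le125 (hA i 1) (hB1 1 j)
      rwa [mul_one] at this
  intro i j
  constructor
  · rw [Units.val_mul]
    exact key _ _ (fun i j => (ha i j).1) (fun i j => (hb i j).1)
      (fun i j => Fermat.Agent.LT.T6.H125.inU_entry125 hb i j) i j
  · rw [mul_inv_rev, Units.val_mul]
    exact key _ _ (fun i j => (hb i j).2) (fun i j => (ha i j).2)
      (fun i j => Fermat.Agent.LT.T6.H125.inU_inv_entry125 ha i j) i j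

end LocalGroup

/-! ## 3. Representatives of `I / U(n)` -/

section Reps

variable {F : Type} [Field F] [NumberField F]

/-- A system of representatives of `I / U(n)`. -/
theorem exists_iwReps321 (w : HeightOneSpectrum (𝓞 F)) (n : ℕ) :
    ∃ R : Finset (GL (Fin 2) (w.adicCompletion F)),
      (∀ r ∈ R, IwL468 w r) ∧
      (∀ h ∈ R, ∀ h' ∈ R, (∃ u, T6.InU n u ∧ h' = h * u) → h = h') ∧
      (∀ x, IwL468 w x → ∃ r ∈ R, ∃ u, T6.InU n u ∧ x = r * u) ∧ R.Nonempty := by
  classical
  obtain ⟨F₀, hF₀⟩ := (isIwReg_iwFn409 (w := w) n).2.2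
  have hex : ∀ x : GL (Fin 2) (w.adicCompletion F), ∃ y : GL (Fin 2) (w.adicCompletion F),
      (∃ u, T6.InU n u ∧ IwL468 w (x * u)) → (IwL468 w y ∧ ∃ u, T6.InU n u ∧ y = x * u) := by
    intro x
    by_cases h : ∃ u, T6.InU n u ∧ IwL468 w (x * u)
    · obtain ⟨u, hu, hI⟩ := h
      exact ⟨x * u, fun _ => ⟨hI, u, hu, rfl⟩⟩
    · exact ⟨x, fun h' => absurd h' h⟩
  choose g hg using hex
  obtain ⟨R, hRF, hd, hc⟩ := exists_reps321 (T6.InU n) (inU_one321 n) (fun a => inU_inv321)
    ((F₀.filter (fun x => ∃ u, T6.InU n u ∧ IwL468 w (x * u))).image g)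
  have hR1 : ∀ r ∈ R, IwL468 w r := by
    intro r hr
    obtain ⟨x, hx, rfl⟩ := Finset.mem_image.mp (hRF hr)
    exact (hg x (Finset.mem_filter.mp hx).2).1
  have hR3 : ∀ x, IwL468 w x → ∃ r ∈ R, ∃ u, T6.InU n u ∧ x = r * u := by
    intro x hx
    have hne : (iwFn893 : GL (Fin 2) (w.adicCompletion F) → ℂ) x ≠ 0 := by
      show (if InIw893 x then (1 : ℂ) else 0) ≠ 0
      rw [if_pos (show InIw893 x from hx)]
      exact one_ne_zero
    obtain ⟨x₀, hx₀, u, hu, e⟩ := hF₀ x hne
    have hx₀' : ∃ u, T6.InU n u ∧ IwL468 w (x₀ * u) := ⟨u, hu, e ▸ hx⟩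
    obtain ⟨hgI, u', hu', e'⟩ := hg x₀ hx₀'
    have hmem : g x₀ ∈ (F₀.filter (fun x => ∃ u, T6.InU n u ∧ IwL468 w (x * u))).image g :=
      Finset.mem_image_of_mem _ (Finset.mem_filter.mpr ⟨hx₀, hx₀'⟩)
    obtain ⟨r, hr, u'', hu'', e''⟩ := hc _ hmem
    refine ⟨r, hr, u'' * (u'⁻¹ * u), inU_mul321 hu'' (inU_mul321 (inU_inv321 hu') hu), ?_⟩
    rw [e, ← mul_assoc, ← mul_assoc, ← e'', e', mul_inv_cancel_right]
  refine ⟨R, hR1, hd, hR3, ?_⟩
  obtain ⟨r, hr, -⟩ := hR3 1 IwL468.one
  exact ⟨r, hr⟩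

end Reps

/-! ## 4. Transport along a valuation preserving isomorphism of completions -/

section Transport

variable {F F' : Type} [Field F] [NumberField F] [Field F'] [NumberField F']
variable {v : HeightOneSpectrum (𝓞 F)} {w : HeightOneSpectrum (𝓞 F')}
variable (e : v.adicCompletion F ≃+* w.adicCompletion F')

theorem val_map_entry321 (he : ∀ x : v.adicCompletion F, Valued.v (e x) = Valued.v x)
    (y : GL (Fin 2) (v.adicCompletion F)) (i j : Fin 2) :
    Valued.v (((Matrix.GeneralLinearGroup.map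
        (e : v.adicCompletion F →+* w.adicCompletion F') y : GL (Fin 2) (w.adicCompletion F')) :
        Matrix (Fin 2) (Fin 2) (w.adicCompletion F')) i j)
      = Valued.v ((y : Matrix (Fin 2) (Fin 2) (v.adicCompletion F)) i j) := by
  rw [Matrix.GeneralLinearGroup.map_apply]
  exact he _

theorem glMap_symm321 (y : GL (Fin 2) (w.adicCompletion F')) :
    Matrix.GeneralLinearGroup.map (e : v.adicCompletion F →+* w.adicCompletion F')
      (Matrix.GeneralLinearGroup.map
        (e.symm : w.adicCompletion F' →+* v.adicCompletion F) y) = y := by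
  apply Units.ext
  refine Matrix.ext fun i j => ?_
  rw [Matrix.GeneralLinearGroup.map_apply, Matrix.GeneralLinearGroup.map_apply]
  exact e.apply_symm_apply _

theorem val_symm321 (he : ∀ x : v.adicCompletion F, Valued.v (e x) = Valued.v x)
    (x : w.adicCompletion F') : Valued.v (e.symm x) = Valued.v x := by
  rw [← he (e.symm x), e.apply_symm_apply]

/-- The Iwahori subgroups correspond. -/
theorem iwL_map321 (he : ∀ x : v.adicCompletion F, Valued.v (e x) = Valued.v x)
    (x : GL (Fin 2) (v.adicCompletion F)) :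
    IwL468 w (Matrix.GeneralLinearGroup.map
      (e : v.adicCompletion F →+* w.adicCompletion F') x) ↔ IwL468 v x := by
  constructor
  · rintro ⟨a, b, c⟩
    refine ⟨fun i j => ?_, fun i j => ?_, ?_⟩
    · rw [← val_map_entry321 e he x i j]
      exact a i j
    · rw [← val_map_entry321 e he x⁻¹ i j, map_inv]
      exact b i j
    · rw [← val_map_entry321 e he x 1 0]
      exact c
  · rintro ⟨a, b, c⟩
    refine ⟨fun i j => ?_, fun i j => ?_, ?_⟩
    · rw [val_map_entry321 e he x i j]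
      exact a i j
    · rw [← map_inv, val_map_entry321 e he x⁻¹ i j]
      exact b i j
    · rw [val_map_entry321 e he x 1 0]
      exact c

/-- The standard shapes correspond. -/
theorem stdL_map321 (he : ∀ x : v.adicCompletion F, Valued.v (e x) = Valued.v x)
    {M : GL (Fin 2) (v.adicCompletion F)} (hM : StdL468 v M) :
    StdL468 w (Matrix.GeneralLinearGroup.map
      (e : v.adicCompletion F →+* w.adicCompletion F') M) := by
  obtain ⟨m1, m00, m10, m11, mdet⟩ := hM
  refine ⟨fun i j => ?_, ?_, ?_, ?_, ?_⟩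
  · rw [val_map_entry321 e he M i j]
    exact m1 i j
  · rw [val_map_entry321 e he M 0 0]
    exact m00
  · rw [val_map_entry321 e he M 1 0]
    exact m10
  · rw [val_map_entry321 e he M 1 1]
    exact m11
  · have hdet : ((Matrix.GeneralLinearGroup.map
        (e : v.adicCompletion F →+* w.adicCompletion F') M : GL (Fin 2) (w.adicCompletion F')) :
        Matrix (Fin 2) (Fin 2) (w.adicCompletion F')).det
        = e (M : Matrix (Fin 2) (Fin 2) (v.adicCompletion F)).det := by
      rw [Matrix.det_fin_two, Matrix.det_fin_two, Matrix.GeneralLinearGroup.map_apply,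
        Matrix.GeneralLinearGroup.map_apply, Matrix.GeneralLinearGroup.map_apply,
        Matrix.GeneralLinearGroup.map_apply, map_sub, map_mul, map_mul]
      rfl
    rw [hdet, he]
    exact mdet

/-- **Matching of two coset systems.** -/
theorem exists_match321 (he : ∀ x : v.adicCompletion F, Valued.v (e x) = Valued.v x)
    {H : Finset (G F)} {H' : Finset (G F')} (hH : IsIwCosetSystem v H)
    (hH' : IsIwCosetSystem w H') :
    ∃ σ : G F' → G F,
      (∀ h' ∈ H', σ h' ∈ H ∧
        IwL468 w ((Matrix.GeneralLinearGroup.map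
          (e : v.adicCompletion F →+* w.adicCompletion F') (finGL305 v (σ h')))⁻¹
            * finGL305 w h')) ∧
      Set.InjOn σ (H' : Set (G F')) := by
  classical
  have hex : ∀ h' : G F', ∃ h : G F, h' ∈ H' → h ∈ H ∧
      IwL468 w ((Matrix.GeneralLinearGroup.map
        (e : v.adicCompletion F →+* w.adicCompletion F') (finGL305 v h))⁻¹
          * finGL305 w h') := by
    intro h'
    by_cases hh : h' ∈ H'
    · have hstd : StdL468 v (Matrix.GeneralLinearGroup.map
          (e.symm : w.adicCompletion F' →+* v.adicCompletion F) (finGL305 w h')) :=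
        stdL_map321 e.symm (val_symm321 e he) (stdL_of_sys409 hH' hh)
      obtain ⟨h, hhH, hI⟩ := iw_complete_loc409 hH hstd
      refine ⟨h, fun _ => ⟨hhH, ?_⟩⟩
      have h2 := (iwL_map321 e he _).2 hI
      rw [map_mul, map_inv, glMap_symm321] at h2
      exact h2
    · exact ⟨1, fun h0 => absurd h0 hh⟩
  choose σ hσ using hex
  refine ⟨σ, hσ, ?_⟩
  intro a ha b hb hab
  by_contra hcon
  have h1 := (hσ a ha).2
  have h2 := (hσ b hb).2
  rw [← hab] at h2
  have h3 : IwL468 w ((finGL305 w a)⁻¹ * finGL305 w b) := by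
    have := h1.inv.mul h2
    have e' : ((Matrix.GeneralLinearGroup.map
          (e : v.adicCompletion F →+* w.adicCompletion F') (finGL305 v (σ a)))⁻¹
            * finGL305 w a)⁻¹
        * ((Matrix.GeneralLinearGroup.map
          (e : v.adicCompletion F →+* w.adicCompletion F') (finGL305 v (σ a)))⁻¹
            * finGL305 w b)
        = (finGL305 w a)⁻¹ * finGL305 w b := by group
    rwa [e'] at this
  refine hH'.2.2 a ha b hb hcon ?_
  rw [inIwahori_iff468, map_mul, map_inv]
  exact h3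

theorem card_le321 (he : ∀ x : v.adicCompletion F, Valued.v (e x) = Valued.v x)
    {H : Finset (G F)} {H' : Finset (G F')} (hH : IsIwCosetSystem v H)
    (hH' : IsIwCosetSystem w H') : H'.card ≤ H.card := by
  obtain ⟨σ, hσ, hinj⟩ := exists_match321 e he hH hH'
  exact Finset.card_le_card_of_injOn σ (fun h' hh' => (hσ h' hh').1) hinj

theorem card_eq321 (he : ∀ x : v.adicCompletion F, Valued.v (e x) = Valued.v x)
    {H : Finset (G F)} {H' : Finset (G F')} (hH : IsIwCosetSystem v H)
    (hH' : IsIwCosetSystem w H') : H'.card = H.card :=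
  le_antisymm (card_le321 e he hH hH') (card_le321 e.symm (val_symm321 e he) hH' hH)

/-- The sums of the translates of a left `I`-invariant function over two systems agree. -/
theorem sum_match321 (he : ∀ x : v.adicCompletion F, Valued.v (e x) = Valued.v x)
    {H : Finset (G F)} {H' : Finset (G F')} (hH : IsIwCosetSystem v H)
    (hH' : IsIwCosetSystem w H') (ψ : GL (Fin 2) (w.adicCompletion F') → ℂ)
    (hψ : ∀ i y : GL (Fin 2) (w.adicCompletion F'), IwL468 w i → ψ (i * y) = ψ y)
    (y : GL (Fin 2) (w.adicCompletion F')) :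
    ∑ h' ∈ H', ψ ((finGL305 w h')⁻¹ * y)
      = ∑ h ∈ H, ψ ((Matrix.GeneralLinearGroup.map
          (e : v.adicCompletion F →+* w.adicCompletion F') (finGL305 v h))⁻¹ * y) := by
  classical
  obtain ⟨σ, hσ, hinj⟩ := exists_match321 e he hH hH'
  have hval : ∀ h' ∈ H', ψ ((finGL305 w h')⁻¹ * y)
      = ψ ((Matrix.GeneralLinearGroup.map
          (e : v.adicCompletion F →+* w.adicCompletion F') (finGL305 v (σ h')))⁻¹ * y) := by
    intro h' hh'
    have hI := (hσ h' hh').2
    have e1 : (finGL305 w h')⁻¹ * y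
        = ((Matrix.GeneralLinearGroup.map
            (e : v.adicCompletion F →+* w.adicCompletion F') (finGL305 v (σ h')))⁻¹
              * finGL305 w h')⁻¹
          * ((Matrix.GeneralLinearGroup.map
            (e : v.adicCompletion F →+* w.adicCompletion F') (finGL305 v (σ h')))⁻¹ * y) := by
      group
    rw [e1]
    exact hψ _ _ hI.inv
  have himg : H'.image σ = H := by
    refine Finset.eq_of_subset_of_card_le ?_ ?_
    · intro x hx
      obtain ⟨h, hh, rfl⟩ := Finset.mem_image.mp hx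
      exact (hσ h hh).1
    · rw [Finset.card_image_of_injOn hinj, card_eq321 e he hH hH']
  calc ∑ h' ∈ H', ψ ((finGL305 w h')⁻¹ * y)
      = ∑ h' ∈ H', ψ ((Matrix.GeneralLinearGroup.map
          (e : v.adicCompletion F →+* w.adicCompletion F') (finGL305 v (σ h')))⁻¹ * y) :=
        Finset.sum_congr rfl hval
    _ = ∑ h ∈ H'.image σ, ψ ((Matrix.GeneralLinearGroup.map
          (e : v.adicCompletion F →+* w.adicCompletion F') (finGL305 v h))⁻¹ * y) :=
        (Finset.sum_image (f := fun h => ψ ((Matrix.GeneralLinearGroup.map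
          (e : v.adicCompletion F →+* w.adicCompletion F') (finGL305 v h))⁻¹ * y)) hinj).symm
    _ = ∑ h ∈ H, ψ ((Matrix.GeneralLinearGroup.map
          (e : v.adicCompletion F →+* w.adicCompletion F') (finGL305 v h))⁻¹ * y) := by
        rw [himg]

/-- The iterated local Iwahori operators correspond. -/
theorem iterate_map321 (he : ∀ x : v.adicCompletion F, Valued.v (e x) = Valued.v x)
    {H : Finset (G F)} {H' : Finset (G F')} (hH : IsIwCosetSystem v H)
    (hH' : IsIwCosetSystem w H') (j : ℕ) (y : GL (Fin 2) (v.adicCompletion F)) :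
    ((iwLoc51 w H')^[j] iwFn893) (Matrix.GeneralLinearGroup.map
        (e : v.adicCompletion F →+* w.adicCompletion F') y)
      = ((iwLoc51 v H)^[j] iwFn893) y := by
  classical
  induction j generalizing y with
  | zero =>
    show (if InIw893 (Matrix.GeneralLinearGroup.map
        (e : v.adicCompletion F →+* w.adicCompletion F') y) then (1 : ℂ) else 0)
      = if InIw893 y then (1 : ℂ) else 0
    exact if_congr (iwL_map321 e he y) rfl rfl
  | succ j ih =>
    rw [Function.iterate_succ_apply', Function.iterate_succ_apply']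
    show _ * ∑ h' ∈ H', ((iwLoc51 w H')^[j] iwFn893) ((finGL305 w h')⁻¹
        * Matrix.GeneralLinearGroup.map (e : v.adicCompletion F →+* w.adicCompletion F') y)
      = _ * ∑ h ∈ H, ((iwLoc51 v H)^[j] iwFn893) ((finGL305 v h)⁻¹ * y)
    rw [sum_match321 e he hH hH' _ (isIwReg_iterate409 hH' (isIwReg_iwFn409 0) j).1]
    have hN : Ideal.absNorm w.asIdeal = Ideal.absNorm v.asIdeal := by
      rw [← hH'.1, ← hH.1, card_eq321 e he hH hH']
    rw [hN]
    congr 1
    refine Finset.sum_congr rfl fun h _ => ?_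
    rw [← map_inv, ← map_mul]
    exact ih _

theorem iwL_zpow321 {x : GL (Fin 2) (w.adicCompletion F')} (hx : IwL468 w x) (k : ℤ) :
    IwL468 w (x ^ k) := by
  have hn : ∀ n : ℕ, IwL468 w (x ^ n) := by
    intro n
    induction n with
    | zero =>
      rw [pow_zero]
      exact IwL468.one
    | succ n ih =>
      rw [pow_succ]
      exact ih.mul hx
  cases k with
  | ofNat n =>
    rw [Int.ofNat_eq_natCast, zpow_natCast]
    exact hn n
  | negSucc n =>
    rw [zpow_negSucc]
    exact (hn (n + 1)).inv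

/-- The entries of the quotient of two scalar matrices of the same valuation. -/
theorem scalar_quot_entry321 {A B : GL (Fin 2) (w.adicCompletion F')}
    {a b : w.adicCompletion F'}
    (hA : (A : Matrix (Fin 2) (Fin 2) (w.adicCompletion F')) = Matrix.diagonal (fun _ => a))
    (hB : (B : Matrix (Fin 2) (Fin 2) (w.adicCompletion F')) = Matrix.diagonal (fun _ => b))
    (hab : Valued.v a = Valued.v b) (ha : Valued.v a ≠ 0) (i j : Fin 2) :
    Valued.v (((A⁻¹ * B : GL (Fin 2) (w.adicCompletion F')) :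
        Matrix (Fin 2) (Fin 2) (w.adicCompletion F')) i j) ≤ 1 ∧
      (i ≠ j → ((A⁻¹ * B : GL (Fin 2) (w.adicCompletion F')) :
        Matrix (Fin 2) (Fin 2) (w.adicCompletion F')) i j = 0) := by
  have ha0 : a ≠ 0 := fun h => ha (by rw [h, map_zero])
  have hX : (A : Matrix (Fin 2) (Fin 2) (w.adicCompletion F'))
      * ((A⁻¹ * B : GL (Fin 2) (w.adicCompletion F')) :
        Matrix (Fin 2) (Fin 2) (w.adicCompletion F'))
      = (B : Matrix (Fin 2) (Fin 2) (w.adicCompletion F')) := by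
    rw [← Units.val_mul, mul_inv_cancel_left]
  have hij : a * ((A⁻¹ * B : GL (Fin 2) (w.adicCompletion F')) :
        Matrix (Fin 2) (Fin 2) (w.adicCompletion F')) i j
      = (Matrix.diagonal (fun _ => b) :
        Matrix (Fin 2) (Fin 2) (w.adicCompletion F')) i j := by
    have := congrFun (congrFun hX i) j
    rw [hA, Matrix.diagonal_mul, hB] at this
    exact this
  have hne : i ≠ j → ((A⁻¹ * B : GL (Fin 2) (w.adicCompletion F')) :
        Matrix (Fin 2) (Fin 2) (w.adicCompletion F')) i j = 0 := by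
    intro h
    rw [Matrix.diagonal_apply_ne _ h] at hij
    exact (mul_eq_zero.mp hij).resolve_left ha0
  refine ⟨?_, hne⟩
  by_cases h : i = j
  · subst h
    rw [Matrix.diagonal_apply_eq] at hij
    have h1 : Valued.v a * Valued.v (((A⁻¹ * B : GL (Fin 2) (w.adicCompletion F')) :
        Matrix (Fin 2) (Fin 2) (w.adicCompletion F')) i i) = Valued.v a * 1 := by
      rw [← map_mul, hij, mul_one, hab]
    exact (mul_left_cancel₀ ha h1).le
  · rw [hne h, map_zero]
    exact zero_le

theorem scalar_quot_iw321 {A B : GL (Fin 2) (w.adicCompletion F')}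
    {a b : w.adicCompletion F'}
    (hA : (A : Matrix (Fin 2) (Fin 2) (w.adicCompletion F')) = Matrix.diagonal (fun _ => a))
    (hB : (B : Matrix (Fin 2) (Fin 2) (w.adicCompletion F')) = Matrix.diagonal (fun _ => b))
    (hab : Valued.v a = Valued.v b) (ha : Valued.v a ≠ 0) : IwL468 w (A⁻¹ * B) := by
  refine ⟨fun i j => (scalar_quot_entry321 hA hB hab ha i j).1, fun i j => ?_, ?_⟩
  · rw [mul_inv_rev, inv_inv]
    exact (scalar_quot_entry321 hB hA hab.symm (hab ▸ ha) i j).1
  · rw [(scalar_quot_entry321 hA hB hab ha 1 0).2 (by decide), map_zero]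
    exact zero_lt_one

/-- **The local regularised Iwahori functions correspond.** -/
theorem regLoc_map321 (he : ∀ x : v.adicCompletion F, Valued.v (e x) = Valued.v x)
    {H : Finset (G F)} {H' : Finset (G F')} (hH : IsIwCosetSystem v H)
    (hH' : IsIwCosetSystem w H') {z : G F} {z' : G F'} (hz : IsScalarUniformizerAt v z)
    (hz' : IsScalarUniformizerAt w z') (k : ℤ) (j : ℕ)
    (y : GL (Fin 2) (v.adicCompletion F)) :
    regLoc51 w z' H' k j iwFn893 (Matrix.GeneralLinearGroup.map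
        (e : v.adicCompletion F →+* w.adicCompletion F') y)
      = regLoc51 v z H k j iwFn893 y := by
  show ((iwLoc51 w H')^[j] iwFn893) ((finGL305 w z' ^ k)⁻¹ * Matrix.GeneralLinearGroup.map
        (e : v.adicCompletion F →+* w.adicCompletion F') y)
      = ((iwLoc51 v H)^[j] iwFn893) ((finGL305 v z ^ k)⁻¹ * y)
  rw [← iterate_map321 e he hH hH' j]
  have hleft := (isIwReg_iterate409 hH' (isIwReg_iwFn409 (w := w) 0) j).1
  obtain ⟨_, c, hc, hzc⟩ := hz
  obtain ⟨_, c', hc', hzc'⟩ := id hz'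
  have hm : ((finGL305 v z : GL (Fin 2) (v.adicCompletion F)) :
      Matrix (Fin 2) (Fin 2) (v.adicCompletion F)) = Matrix.diagonal (fun _ => c) := hzc
  have hm' : ((finGL305 w z' : GL (Fin 2) (w.adicCompletion F')) :
      Matrix (Fin 2) (Fin 2) (w.adicCompletion F')) = Matrix.diagonal (fun _ => c') := hzc'
  have hZ : ((Matrix.GeneralLinearGroup.map
      (e : v.adicCompletion F →+* w.adicCompletion F') (finGL305 v z) :
        GL (Fin 2) (w.adicCompletion F')) : Matrix (Fin 2) (Fin 2) (w.adicCompletion F'))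
      = Matrix.diagonal (fun _ => e c) := by
    refine Matrix.ext fun a b => ?_
    rw [Matrix.GeneralLinearGroup.map_apply, hm]
    by_cases hab : a = b
    · subst hab
      rw [Matrix.diagonal_apply_eq, Matrix.diagonal_apply_eq]
      rfl
    · rw [Matrix.diagonal_apply_ne _ hab, Matrix.diagonal_apply_ne _ hab, map_zero]
  have hd : IwL468 w ((Matrix.GeneralLinearGroup.map
      (e : v.adicCompletion F →+* w.adicCompletion F') (finGL305 v z))⁻¹ * finGL305 w z') :=
    scalar_quot_iw321 hZ hm' (by rw [he, hc, hc']) (by rw [he, hc]; exact WithZero.exp_ne_zero)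
  have hcomm : Commute (Matrix.GeneralLinearGroup.map
      (e : v.adicCompletion F →+* w.adicCompletion F') (finGL305 v z))⁻¹ (finGL305 w z') := by
    have h1 : Commute (finGL305 w z') (Matrix.GeneralLinearGroup.map
      (e : v.adicCompletion F →+* w.adicCompletion F') (finGL305 v z)) :=
      scalarUnif_central409 hz' _
    exact h1.symm.inv_left
  have key : (finGL305 w z' ^ k)⁻¹ * Matrix.GeneralLinearGroup.map
        (e : v.adicCompletion F →+* w.adicCompletion F') y
      = (((Matrix.GeneralLinearGroup.map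
          (e : v.adicCompletion F →+* w.adicCompletion F') (finGL305 v z))⁻¹
            * finGL305 w z') ^ k)⁻¹
        * Matrix.GeneralLinearGroup.map
          (e : v.adicCompletion F →+* w.adicCompletion F') ((finGL305 v z ^ k)⁻¹ * y) := by
    rw [map_mul, map_inv, map_zpow, hcomm.mul_zpow, inv_zpow]
    generalize (Matrix.GeneralLinearGroup.map
      (e : v.adicCompletion F →+* w.adicCompletion F') (finGL305 v z)) ^ k = P
    generalize finGL305 w z' ^ k = Q
    group
  rw [key]
  exact hleft _ _ (iwL_zpow321 hd k).inv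

end Transport

/-! ## 5. The convolution with the Iwahori function -/

section Conv

variable {F : Type} [Field F] [NumberField F] {u : HeightOneSpectrum (𝓞 F)}

/-- For `χ` right `I`-invariant: `χ * 1_I = [I : U(n)] χ` (`vol U(n) = 1`). -/
theorem isConv_iw321 {n : ℕ} {R : Finset (GL (Fin 2) (u.adicCompletion F))}
    (hR1 : ∀ r ∈ R, IwL468 u r)
    (hR2 : ∀ h ∈ R, ∀ h' ∈ R, (∃ x, T6.InU n x ∧ h' = h * x) → h = h')
    (hR3 : ∀ x, IwL468 u x → ∃ r ∈ R, ∃ y, T6.InU n y ∧ x = r * y)
    (χ : GL (Fin 2) (u.adicCompletion F) → ℂ)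
    (hχ : ∀ i y : GL (Fin 2) (u.adicCompletion F), IwL468 u i → χ (y * i) = χ y) :
    T6.IsConv (T6.InU n) χ iwFn893 (fun g => (R.card : ℂ) * χ g) := by
  classical
  intro g
  refine ⟨R.image (fun r => g * r), ?_, ?_, ?_⟩
  · intro h hh h' hh' huu
    obtain ⟨r, hr, rfl⟩ := Finset.mem_image.mp hh
    obtain ⟨r', hr', rfl⟩ := Finset.mem_image.mp hh'
    obtain ⟨x, hx, e⟩ := huu
    have hrr : r = r' := hR2 r hr r' hr' ⟨x, hx, by
      rw [mul_assoc] at e
      exact mul_left_cancel e⟩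
    rw [hrr]
  · intro h hne
    have hI : InIw893 (h⁻¹ * g) := by
      by_contra hcon
      apply hne
      show χ h * (if InIw893 (h⁻¹ * g) then (1 : ℂ) else 0) = 0
      rw [if_neg hcon, mul_zero]
    have hI' : IwL468 u (g⁻¹ * h) := by
      have h1 : IwL468 u (h⁻¹ * g)⁻¹ := IwL468.inv hI
      rwa [mul_inv_rev, inv_inv] at h1
    obtain ⟨r, hr, y, hy, e⟩ := hR3 _ hI'
    refine ⟨g * r, Finset.mem_image_of_mem _ hr, y, hy, ?_⟩
    rw [mul_assoc, ← e, mul_inv_cancel_left]
  · have hinj : Set.InjOn (fun r => g * r) (R : Set (GL (Fin 2) (u.adicCompletion F))) :=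
      fun a _ b _ hab => mul_left_cancel hab
    rw [Finset.sum_image hinj]
    have hterm : ∀ r ∈ R, χ (g * r) * iwFn893 ((g * r)⁻¹ * g) = χ g := by
      intro r hr
      have h1 : (g * r)⁻¹ * g = r⁻¹ := by group
      rw [h1, hχ r g (hR1 r hr)]
      show χ g * (if InIw893 r⁻¹ then (1 : ℂ) else 0) = χ g
      rw [if_pos (show InIw893 r⁻¹ from (hR1 r hr).inv), mul_one]
    rw [Finset.sum_congr rfl hterm, Finset.sum_const, nsmul_eq_mul]

/-- The convolution product of a right `I`-invariant function with `l - 1` copies of `1_I`. -/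
theorem isConvProd_iw321 {n : ℕ} {R : Finset (GL (Fin 2) (u.adicCompletion F))}
    (hR1 : ∀ r ∈ R, IwL468 u r)
    (hR2 : ∀ h ∈ R, ∀ h' ∈ R, (∃ x, T6.InU n x ∧ h' = h * x) → h = h')
    (hR3 : ∀ x, IwL468 u x → ∃ r ∈ R, ∃ y, T6.InU n y ∧ x = r * y)
    (l : ℕ) (φ : ℕ → GL (Fin 2) (u.adicCompletion F) → ℂ)
    (hφ0 : ∀ i y : GL (Fin 2) (u.adicCompletion F), IwL468 u i → φ 0 (y * i) = φ 0 y)
    (hφ : ∀ j : ℕ, 0 < j → j < l → φ j = iwFn893) :
    T6.IsConvProd (T6.InU n) l φ (fun g => (R.card : ℂ) ^ (l - 1) * φ 0 g) := by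
  refine ⟨fun m g => (R.card : ℂ) ^ m * φ 0 g, ?_, ?_, rfl⟩
  · funext g
    show (R.card : ℂ) ^ 0 * φ 0 g = φ 0 g
    rw [pow_zero, one_mul]
  · intro m hm
    rw [hφ (m + 1) (Nat.succ_pos m) hm]
    have h1 := isConv_iw321 hR1 hR2 hR3 (fun g => (R.card : ℂ) ^ m * φ 0 g)
      (fun i y hi => by
        show (R.card : ℂ) ^ m * φ 0 (y * i) = (R.card : ℂ) ^ m * φ 0 y
        rw [hφ0 i y hi])
    have e : (fun g => (R.card : ℂ) ^ (m + 1) * φ 0 g)
        = fun g => (R.card : ℂ) * ((R.card : ℂ) ^ m * φ 0 g) := by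
      funext g
      rw [pow_succ]
      ring
    show T6.IsConv (T6.InU n) (fun g => (R.card : ℂ) ^ m * φ 0 g) iwFn893
      (fun g => (R.card : ℂ) ^ (m + 1) * φ 0 g)
    rw [e]
    exact h1

end Conv

/-! ## 6. The levels at a split place -/

section Levels

theorem lt_exp_iff321 {x : WithZero (Multiplicative ℤ)} (a : ℤ) :
    x < WithZero.exp a ↔ x ≤ WithZero.exp (a - 1) := by
  have h := WithZero.lt_mul_exp_iff_le (x := x) (y := WithZero.exp (a - 1))
    WithZero.exp_ne_zero
  rw [← WithZero.exp_add] at h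
  have h0 : a - 1 + 1 = a := by ring
  rw [h0] at h
  exact h

theorem exists_val_eq321 {F : Type} [Field F] [NumberField F] (v : HeightOneSpectrum (𝓞 F))
    (n : ℕ) : ∃ c : v.adicCompletion F, Valued.v c = WithZero.exp (-(n : ℤ)) := by
  obtain ⟨π, hπ⟩ := v.valuation_exists_uniformizer F
  refine ⟨(π : v.adicCompletion F) ^ n, ?_⟩
  rw [map_pow, HeightOneSpectrum.valuedAdicCompletion_eq_valuation', hπ, ← WithZero.exp_nsmul]
  congr 1
  simp

variable {K K' : Type} [Field K] [NumberField K] [Field K'] [NumberField K'] [Algebra K K']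

/-- **The exponents of the levels `𝔫`, `𝔫 𝒪_{K'}` agree at a split place.** -/
theorem level_eq321 (𝔫 : Ideal (𝓞 K)) (n : HeightOneSpectrum (𝓞 K') → ℕ)
    (m : HeightOneSpectrum (𝓞 K) → ℕ) (hm : IsLevelOf893 𝔫 m)
    (hn : IsLevelOf893 (upI (K' := K') 𝔫) n)
    (u : HeightOneSpectrum (𝓞 K)) (w : HeightOneSpectrum (𝓞 K'))
    (e : u.adicCompletion K ≃+* w.adicCompletion K')
    (hcompat : ∀ x : K, e (algebraMap K (u.adicCompletion K) x)
      = algebraMap K' (w.adicCompletion K') (algebraMap K K' x))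
    (he : ∀ x : u.adicCompletion K, Valued.v (e x) = Valued.v x) : n w = m u := by
  have h𝔫 : ∀ x ∈ 𝔫, Valued.v (algebraMap K (u.adicCompletion K) (algebraMap (𝓞 K) K x))
      ≤ WithZero.exp (-(m u : ℤ)) := by
    intro x hx
    exact (hm u _).1 (subset_closure ⟨x, hx, rfl⟩)
  have hval : ∀ x : 𝓞 K, Valued.v (algebraMap K' (w.adicCompletion K')
        (algebraMap (𝓞 K') K' (algebraMap (𝓞 K) (𝓞 K') x)))
      = Valued.v (algebraMap K (u.adicCompletion K) (algebraMap (𝓞 K) K x)) := by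
    intro x
    rw [← he, hcompat]
    rfl
  apply le_antisymm
  · by_contra hcon
    have hlt : ∀ x ∈ 𝔫, Valued.v (algebraMap K (u.adicCompletion K) (algebraMap (𝓞 K) K x))
        ≤ WithZero.exp (-(m u : ℤ) - 1) := by
      intro x hx
      rw [← lt_exp_iff321]
      refine lt_of_le_of_ne (h𝔫 x hx) fun heq => hcon ?_
      have hup : algebraMap (𝓞 K) (𝓞 K') x ∈ upI (K' := K') 𝔫 := Ideal.mem_map_of_mem _ hx
      have h1 := (hn w _).1 (subset_closure ⟨_, hup, rfl⟩)
      rw [hval, heq, WithZero.exp_le_exp] at h1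
      omega
    obtain ⟨c, hc⟩ := exists_val_eq321 u (m u)
    have hcl : c ∈ idealClosure 𝔫 u := (hm u c).2 hc.le
    have hsub : idealClosure 𝔫 u
        ⊆ (Fermat.Agent.LT.T2.H557.ball557 u (-(m u : ℤ) - 1) : Set (u.adicCompletion K)) := by
      refine closure_minimal ?_ (Fermat.Agent.LT.T2.H557.isClosed_ball557 u _)
      rintro _ ⟨x, hx, rfl⟩
      exact hlt x hx
    have h2 : Valued.v c ≤ WithZero.exp (-(m u : ℤ) - 1) := hsub hcl
    rw [hc, WithZero.exp_le_exp] at h2
    omega
  · have hB : ∀ y ∈ upI (K' := K') 𝔫,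
        Valued.v (algebraMap K' (w.adicCompletion K') (algebraMap (𝓞 K') K' y))
          ≤ WithZero.exp (-(m u : ℤ)) := by
      intro y hy
      refine Submodule.span_induction
        (p := fun y _ => Valued.v (algebraMap K' (w.adicCompletion K')
          (algebraMap (𝓞 K') K' y)) ≤ WithZero.exp (-(m u : ℤ))) ?_ ?_ ?_ ?_ hy
      · rintro _ ⟨x, hx, rfl⟩
        exact (hval x).le.trans (h𝔫 x hx)
      · rw [map_zero, map_zero, map_zero]
        exact zero_le
      · intro a b _ _ ha hb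
        rw [map_add, map_add]
        exact (Valued.v.map_add _ _).trans (max_le ha hb)
      · intro a b _ hb
        rw [smul_eq_mul, map_mul, map_mul, map_mul]
        have ha1 : Valued.v (algebraMap K' (w.adicCompletion K') (algebraMap (𝓞 K') K' a))
            ≤ 1 := by
          rw [Fermat.Agent.LT.T2.H557.val_int557]
          exact w.intValuation_le_one a
        calc Valued.v (algebraMap K' (w.adicCompletion K') (algebraMap (𝓞 K') K' a))
              * Valued.v (algebraMap K' (w.adicCompletion K') (algebraMap (𝓞 K') K' b))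
            ≤ 1 * WithZero.exp (-(m u : ℤ)) := mul_le_mul' ha1 hb
          _ = WithZero.exp (-(m u : ℤ)) := one_mul _
    obtain ⟨c, hc⟩ := exists_val_eq321 w (n w)
    have hcl : c ∈ idealClosure (upI (K' := K') 𝔫) w := (hn w c).2 hc.le
    have hsub : idealClosure (upI (K' := K') 𝔫) w
        ⊆ (Fermat.Agent.LT.T2.H557.ball557 w (-(m u : ℤ)) : Set (w.adicCompletion K')) := by
      refine closure_minimal ?_ (Fermat.Agent.LT.T2.H557.isClosed_ball557 w _)
      rintro _ ⟨y, hy, rfl⟩
      exact hB y hy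
    have h2 : Valued.v c ≤ WithZero.exp (-(m u : ℤ)) := hsub hcl
    rw [hc, WithZero.exp_le_exp] at h2
    omega

end Levels

/-! ## 7. The orbit is periodic -/

section Orbit

variable {K' : Type} [Field K'] [NumberField K']

theorem placeRel_mem321 (s : T5.AdelicAut K') {w w' : HeightOneSpectrum (𝓞 K')}
    (h : T5.PlaceRel s w w') (x : 𝓞 K') :
    x ∈ w.asIdeal ↔ NumberField.RingOfIntegers.mapRingEquiv s.σ x ∈ w'.asIdeal := by
  have h' : w'.asIdeal
      = Ideal.map (NumberField.RingOfIntegers.mapRingEquiv s.σ) w.asIdeal := h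
  rw [h']
  constructor
  · intro hx
    exact Ideal.mem_map_of_mem _ hx
  · intro hx
    obtain ⟨y, hy, e⟩ :=
      (Ideal.mem_map_of_equiv (NumberField.RingOfIntegers.mapRingEquiv s.σ) _).1 hx
    have hyx : y = x := (NumberField.RingOfIntegers.mapRingEquiv s.σ).injective e
    rwa [← hyx]

theorem iterate_coe321 (s : T5.AdelicAut K') (n : ℕ) (x : 𝓞 K') :
    (((NumberField.RingOfIntegers.mapRingEquiv s.σ)^[n] x : 𝓞 K') : K')
      = (s.σ ^ n) (x : K') := by
  induction n with
  | zero => rfl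
  | succ n ih =>
    rw [Function.iterate_succ_apply', NumberField.RingOfIntegers.mapRingEquiv_apply, ih,
      pow_succ']
    rfl

theorem orbit_period321 (s : T5.AdelicAut K') (l : ℕ) (hpow : ∀ x : K', (s.σ ^ l) x = x)
    (o : ℕ → HeightOneSpectrum (𝓞 K')) (horb : ∀ j : ℕ, T5.PlaceRel s (o j) (o (j + 1)))
    (j : ℕ) : o (j + l) = o j := by
  have hit : ∀ (n j : ℕ) (x : 𝓞 K'), x ∈ (o j).asIdeal
      ↔ ((NumberField.RingOfIntegers.mapRingEquiv s.σ)^[n] x) ∈ (o (j + n)).asIdeal := by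
    intro n
    induction n with
    | zero =>
      intro j x
      rfl
    | succ n ih =>
      intro j x
      rw [Function.iterate_succ_apply', ih j x, placeRel_mem321 s (horb (j + n))]
      rfl
  have hfix : ∀ x : 𝓞 K', (NumberField.RingOfIntegers.mapRingEquiv s.σ)^[l] x = x := by
    intro x
    apply NumberField.RingOfIntegers.ext
    rw [iterate_coe321, hpow]
  apply HeightOneSpectrum.ext
  ext x
  rw [hit l j x, hfix]

theorem orbit_period_mul321 (s : T5.AdelicAut K') (l : ℕ) (hpow : ∀ x : K', (s.σ ^ l) x = x)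
    (o : ℕ → HeightOneSpectrum (𝓞 K')) (horb : ∀ j : ℕ, T5.PlaceRel s (o j) (o (j + 1)))
    (j n : ℕ) : o (j + l * n) = o j := by
  induction n with
  | zero => rw [Nat.mul_zero, Nat.add_zero]
  | succ n ih => rw [Nat.mul_succ, ← Nat.add_assoc, orbit_period321 s l hpow o horb, ih]

theorem nat_aux1_321 (j ℓ : ℕ) (h0 : 0 < j) (hl : j < ℓ) :
    j * (ℓ - 1) = (ℓ - j) + ℓ * (j - 1) := by
  obtain ⟨p, rfl⟩ : ∃ p, j = p + 1 := ⟨j - 1, by omega⟩
  obtain ⟨q, rfl⟩ : ∃ q, ℓ = p + 1 + q + 1 := ⟨ℓ - (p + 1) - 1, by omega⟩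
  have e1 : p + 1 + q + 1 - 1 = p + 1 + q := by omega
  have e2 : p + 1 + q + 1 - (p + 1) = q + 1 := by omega
  have e3 : p + 1 - 1 = p := by omega
  rw [e1, e2, e3]
  ring

theorem nat_aux2_321 (j ℓ : ℕ) (hℓ : 0 < ℓ) :
    (j + 1) * (ℓ - 1) + 1 = j * (ℓ - 1) + ℓ * 1 := by
  obtain ⟨p, rfl⟩ : ∃ p, ℓ = p + 1 := ⟨ℓ - 1, by omega⟩
  have e1 : p + 1 - 1 = p := by omega
  rw [e1]
  ring

end Orbit

/-! ## 8. The leaf -/

section Leaf

variable (K K' : Type) [Field K] [NumberField K] [Field K'] [NumberField K'] [Algebra K K']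

/-- **LEAF P.L5 = SPLIT-ORB of helper51's cut of `ProdMtCb`: PROVED.** -/
theorem splitOrbC321 : Fermat.Agent.LT.T7.P51.SplitOrbC51 K K' := by
  intro ℓ Φ B g 𝔫 μc T₀ n n₀ m hctx
  obtain ⟨R, hR1, hR2, hR3, hRne⟩ := exists_iwReps321 B.u (m B.u)
  refine ⟨(R.card : ℂ) ^ (ℓ - 1),
    pow_ne_zero _ (Nat.cast_ne_zero.mpr (Finset.card_ne_zero.mpr hRne)), ?_⟩
  intro H' z' H z k j T φ₀ Φ' f₀ F hloc hsplit
  obtain ⟨_, hsys, _ht, hprod⟩ := hloc
  obtain ⟨T₁, T₂, φ₁, Φ₁, f₁, F₁, φ₂, Φ₂, f₂, F₂, -, -, -, -, -, -, hfu, hφ0, hφi, -, -, -⟩ :=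
    hprod
  have hdeg : B.l = ℓ := hctx.base.deg
  have hℓpos : 0 < ℓ := hctx.cyc.prime.pos
  have hper : ∀ a b : ℕ, B.o (a + ℓ * b) = B.o a := fun a b =>
    orbit_period_mul321 B.s ℓ (by rw [← hdeg]; exact hctx.base.cyc.pow_eq) B.o
      hctx.base.orbit_rel a b
  have hover : ∀ j : ℕ, PlaceOver K K' B.u (B.o (j * (ℓ - 1))) :=
    fun j => hctx.base.orbit_over _
  have hdata : ∀ j : ℕ, ∃ i : B.u.adicCompletion K ≃+* (B.o (j * (ℓ - 1))).adicCompletion K',
      (∀ x : K, i (algebraMap K (B.u.adicCompletion K) x)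
        = algebraMap K' ((B.o (j * (ℓ - 1))).adicCompletion K') (algebraMap K K' x)) ∧
      ∀ x : B.u.adicCompletion K, Valued.v (i x) = Valued.v x := by
    intro j
    obtain ⟨w₁, w₂, h1, h2, hne⟩ := hsplit
    have hex : ∃ w' : HeightOneSpectrum (𝓞 K'),
        PlaceOver K K' B.u w' ∧ w' ≠ B.o (j * (ℓ - 1)) := by
      by_cases h : w₁ = B.o (j * (ℓ - 1))
      · exact ⟨w₂, h2, fun h' => hne (h.trans h'.symm)⟩
      · exact ⟨w₁, h1, h⟩
    obtain ⟨w', hw', hne'⟩ := hex
    obtain ⟨hN, hπ⟩ := Fermat.Agent.LT.T7.H841.split_dataOF841 ℓ hctx.cyc B.u _ w'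
      (hover j) hw' hne'
    exact Fermat.Agent.LT.T6.H116.instSplitC_h116 K K' B.u _
      ((Fermat.Agent.LT.T7.H841.placeOver_iffOF841 _ _).1 (hover j)) hN hπ
  choose i hi1 hi2 using hdata
  -- the components along the enumeration
  have hG1 : ∀ (w' : HeightOneSpectrum (𝓞 K')), w' = B.o 0 →
      ∀ (e : B.u.adicCompletion K ≃+* w'.adicCompletion K'),
        (∀ x : B.u.adicCompletion K, Valued.v (e x) = Valued.v x) →
        ∀ y : GL (Fin 2) (B.u.adicCompletion K),
          φ₀ w' (Matrix.GeneralLinearGroup.map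
            (e : B.u.adicCompletion K →+* w'.adicCompletion K') y)
            = regLoc51 B.u z H k j iwFn893 y := by
    intro w' hw'
    subst hw'
    intro e he y
    rw [hφ0]
    exact regLoc_map321 e he hsys.sys hsys.sys' hsys.unif hsys.unif' k j y
  have hG2 : ∀ (w' : HeightOneSpectrum (𝓞 K')) (a : ℕ), w' = B.o a → 0 < a → a < B.l →
      ∀ (e : B.u.adicCompletion K ≃+* w'.adicCompletion K'),
        (∀ x : B.u.adicCompletion K, Valued.v (e x) = Valued.v x) →
        ∀ y : GL (Fin 2) (B.u.adicCompletion K),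
          φ₀ w' (Matrix.GeneralLinearGroup.map
            (e : B.u.adicCompletion K →+* w'.adicCompletion K') y) = iwFn893 y := by
    classical
    intro w' a hw' ha0 hal
    subst hw'
    intro e he y
    rw [hφi a ha0 hal]
    show (if InIw893 (Matrix.GeneralLinearGroup.map
        (e : B.u.adicCompletion K →+* (B.o a).adicCompletion K') y) then (1 : ℂ) else 0)
      = if InIw893 y then (1 : ℂ) else 0
    exact if_congr (iwL_map321 e he y) rfl rfl
  have hw0 : B.o (0 * (ℓ - 1)) = B.o 0 := by rw [Nat.zero_mul]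
  have hwj : ∀ j' : ℕ, 0 < j' → j' < ℓ → B.o (j' * (ℓ - 1)) = B.o (ℓ - j') := by
    intro j' h0 hl
    rw [nat_aux1_321 j' ℓ h0 hl, hper]
  refine ⟨fun j => B.o (j * (ℓ - 1)), i, hover, ?_, ?_, hi1, hi2, ?_, ?_⟩
  · intro j'
    show T5.PlaceRel B.s (B.o ((j' + 1) * (ℓ - 1))) (B.o (j' * (ℓ - 1)))
    have h1 := hctx.base.orbit_rel ((j' + 1) * (ℓ - 1))
    have h2 : B.o ((j' + 1) * (ℓ - 1) + 1) = B.o (j' * (ℓ - 1)) := by
      rw [nat_aux2_321 j' ℓ hℓpos, hper]
    rw [h2] at h1
    exact h1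
  · intro j' hj0 hjl
    have hjl' : j' < ℓ := by
      have h : j' < B.l := hjl
      rwa [hdeg] at h
    show B.o (j' * (ℓ - 1)) ≠ B.o (0 * (ℓ - 1))
    rw [hwj j' hj0 hjl', hw0]
    exact hctx.base.orbit_ne (ℓ - j') (by omega) (by omega)
  · intro j'
    exact level_eq321 𝔫 n m hctx.lev_m hctx.lev_n B.u _ (i j') (hi1 j') (hi2 j')
  · have hf : f₀ B.u = fun y => (R.card : ℂ) ^ ((B.comp 𝔫).l - 1)
        * φ₀ (B.o (0 * (ℓ - 1))) (Matrix.GeneralLinearGroup.map
          ((i 0 : B.u.adicCompletion K ≃+* _) :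
            B.u.adicCompletion K →+* (B.o (0 * (ℓ - 1))).adicCompletion K') y) := by
      rw [hfu]
      funext y
      rw [hG1 _ hw0 (i 0) (hi2 0) y]
      show (R.card : ℂ) ^ (ℓ - 1) * _ = (R.card : ℂ) ^ (B.l - 1) * _
      rw [hdeg]
    rw [hf]
    refine isConvProd_iw321 hR1 hR2 hR3 (B.comp 𝔫).l
      (fun j' y => φ₀ (B.o (j' * (ℓ - 1))) (Matrix.GeneralLinearGroup.map
        ((i j' : B.u.adicCompletion K ≃+* _) :
          B.u.adicCompletion K →+* (B.o (j' * (ℓ - 1))).adicCompletion K') y)) ?_ ?_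
    · intro i₁ y hi₁
      show φ₀ (B.o (0 * (ℓ - 1))) _ = φ₀ (B.o (0 * (ℓ - 1))) _
      rw [hG1 _ hw0 (i 0) (hi2 0), hG1 _ hw0 (i 0) (hi2 0)]
      exact (isIwReg_regLoc409 0 hsys.sys hsys.unif k j).2.1 i₁ y hi₁
    · intro j' hj0 hjl
      have hjl' : j' < ℓ := by
        have h : j' < B.l := hjl
        rwa [hdeg] at h
      funext y
      exact hG2 _ (ℓ - j') (hwj j' hj0 hjl') (by omega) (by rw [hdeg]; omega) (i j') (hi2 j') y

end Leaf

/-- VERBATIM check. -/
example (K K' : Type) [Field K] [NumberField K] [Field K'] [NumberField K'] [Algebra K K'] :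
    Fermat.Agent.LT.T7.P51.SplitOrbC51 K K' := splitOrbC321 K K'

end Fermat.Agent.LT.T7.P51.H321

end

end
-- ===== PACK-END LT/T7/P51/H321/SplitOrb.lean

-- ===== PACK-BEGIN LT/T7/B981/H519/TrTest.lean
section




/-!
# Row LT, tower T7, leaf T7.L2.1.H2a.A.2.1 `SS503.TrTestC503` (registry row 2869, helper519)

OFF-MAIN.  No hole, nothing assumed.  ADDITIVE (new names only, suffix `519`, namespace
`Fermat.Agent.LT.T7.B981.H519`).

    trTestC519 (K) : SS503.TrTestC503 K        (VERBATIM, unconditional)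

The right translate of a test function by a power of a scalar uniformiser is a test function of
the same level: a scalar uniformiser is a scalar matrix of `GL₂(𝔸_K)`
(`isScalarG_of_scalarUnif519`, componentwise), hence central (`T5.H942.IsScalarG942.commute`),
and so are its powers; then continuity and compact support follow from the homeomorphism
`g ↦ g z^t`, smoothness at infinity and bi-invariance from `φ (g h z^t) = φ ((g z^t) h)`.

Imports: the Spec `T7/B981/H503/StepSSpec.lean` (sha256 b4d9e9b9a691943b) and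
`T5/H942/NormG.lean`, which lies in the import closure of the Spec.  No definition of another
file is unfolded by `unfold` / `simp` / `rw` (only `show`, `rfl` and projections).
-/

set_option autoImplicit false

open AutomorphicForm IsDedekindDomain NumberField MeasureTheory

noncomputable section

namespace Fermat.Agent.LT.T7.B981.H519

open Fermat.Agent.LT.H556 Fermat.Agent.LT.H556.A0 Fermat.Agent.LT.T7

variable {K : Type} [Field K] [NumberField K]

/-- A scalar uniformiser is a scalar matrix of `GL₂(𝔸_K)`. -/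
theorem isScalarG_of_scalarUnif519 {v : HeightOneSpectrum (𝓞 K)} {z : G K}
    (hz : IsScalarUniformizerAt v z) : T5.H942.IsScalarG942 z := by
  obtain ⟨⟨hinf, hfin⟩, c, -, hc⟩ := hz
  refine ⟨(z : Matrix (Fin 2) (Fin 2) (Adl K)) 0 0, ?_⟩
  have hi : ∀ (w : InfinitePlace K) (i j : Fin 2),
      ((z : Matrix (Fin 2) (Fin 2) (Adl K)) i j).1 w
        = (1 : Matrix (Fin 2) (Fin 2) w.Completion) i j := fun w i j => hinf w i j
  have hf : ∀ v' : HeightOneSpectrum (𝓞 K), v' ≠ v → ∀ i j : Fin 2,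
      ((z : Matrix (Fin 2) (Fin 2) (Adl K)) i j).2 v'
        = (1 : Matrix (Fin 2) (Fin 2) (v'.adicCompletion K)) i j := fun v' hv' i j =>
    congrFun (congrFun (hfin v' hv') i) j
  have hv : ∀ i j : Fin 2,
      ((z : Matrix (Fin 2) (Fin 2) (Adl K)) i j).2 v
        = (Matrix.diagonal fun _ : Fin 2 => c) i j := fun i j =>
    congrFun (congrFun hc i) j
  have key : ∀ i j : Fin 2, (z : Matrix (Fin 2) (Fin 2) (Adl K)) i j
      = (Matrix.diagonal fun _ => (z : Matrix (Fin 2) (Fin 2) (Adl K)) 0 0) i j := by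
    intro i j
    refine Prod.ext ?_ ?_
    · funext w
      by_cases hij : i = j
      · subst hij
        rw [Matrix.diagonal_apply_eq, hi w i i, hi w 0 0, Matrix.one_apply_eq,
          Matrix.one_apply_eq]
      · rw [Matrix.diagonal_apply_ne _ hij, hi w i j, Matrix.one_apply_ne hij]
        rfl
    · apply Subtype.ext
      funext v'
      by_cases hv' : v' = v
      · subst hv'
        by_cases hij : i = j
        · subst hij
          rw [Matrix.diagonal_apply_eq]
          show ((z : Matrix (Fin 2) (Fin 2) (Adl K)) i i).2 v'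
            = ((z : Matrix (Fin 2) (Fin 2) (Adl K)) 0 0).2 v'
          rw [hv i i, hv 0 0, Matrix.diagonal_apply_eq, Matrix.diagonal_apply_eq]
        · rw [Matrix.diagonal_apply_ne _ hij]
          show ((z : Matrix (Fin 2) (Fin 2) (Adl K)) i j).2 v' = (0 : Adl K).2 v'
          rw [hv i j, Matrix.diagonal_apply_ne _ hij]
          rfl
      · by_cases hij : i = j
        · subst hij
          rw [Matrix.diagonal_apply_eq]
          show ((z : Matrix (Fin 2) (Fin 2) (Adl K)) i i).2 v'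
            = ((z : Matrix (Fin 2) (Fin 2) (Adl K)) 0 0).2 v'
          rw [hf v' hv' i i, hf v' hv' 0 0, Matrix.one_apply_eq, Matrix.one_apply_eq]
        · rw [Matrix.diagonal_apply_ne _ hij]
          show ((z : Matrix (Fin 2) (Fin 2) (Adl K)) i j).2 v' = (0 : Adl K).2 v'
          rw [hf v' hv' i j, Matrix.one_apply_ne hij]
          rfl
  ext i j
  exact key i j

/-- The powers of a scalar uniformiser are central. -/
theorem scalarUnif_zpow_comm519 {v : HeightOneSpectrum (𝓞 K)} {z : G K}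
    (hz : IsScalarUniformizerAt v z) (t : ℤ) (g : G K) : g * z ^ t = z ^ t * g := by
  have h1 : Commute z g := (isScalarG_of_scalarUnif519 hz).commute g
  exact ((h1.zpow_left t).eq).symm

/-- The value of a right translate (definitional). -/
theorem rtr_apply519 (z : G K) (φ : G K → ℂ) (g : G K) : SS503.rtr503 z φ g = φ (g * z) := rfl

/-- **LEAF SS.1 = TR-TEST**, verbatim. -/
theorem trTestC519 (K : Type) [Field K] [NumberField K] : SS503.TrTestC503 K := by
  intro 𝔫 v z hz t φ hφ
  have hcomm : ∀ g : G K, g * z ^ t = z ^ t * g := scalarUnif_zpow_comm519 hz t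
  have hmove : ∀ g h : G K, g * h * z ^ t = g * z ^ t * h := by
    intro g h
    rw [mul_assoc, hcomm h, ← mul_assoc]
  refine ⟨hφ.ktype, ?_, ?_, ?_, ⟨?_, ?_, ?_, ?_⟩⟩
  · -- continuity
    exact hφ.cont.comp (continuous_mul_const (z ^ t))
  · -- compact support
    exact hφ.supp.comp_homeomorph (Homeomorph.mulRight (z ^ t))
  · -- smoothness at infinity
    intro n h hfin hsm g
    have h0 := hφ.smooth n h hfin hsm (g * z ^ t)
    have e : (fun s => SS503.rtr503 (z ^ t) φ (g * h s)) = fun s => φ (g * z ^ t * h s) := by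
      funext s
      rw [rtr_apply519, hmove]
    rw [e]
    exact h0
  · -- level, right
    intro u hu g
    rw [rtr_apply519, rtr_apply519, hmove]
    exact hφ.inv.level_right u hu (g * z ^ t)
  · -- level, left
    intro u hu g
    rw [rtr_apply519, rtr_apply519, mul_assoc]
    exact hφ.inv.level_left u hu (g * z ^ t)
  · -- archimedean, right
    intro w k hk g
    rw [rtr_apply519, rtr_apply519, hmove]
    exact hφ.inv.arch_right w k hk (g * z ^ t)
  · -- archimedean, left
    intro w k hk g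
    rw [rtr_apply519, rtr_apply519, mul_assoc]
    exact hφ.inv.arch_left w k hk (g * z ^ t)

end Fermat.Agent.LT.T7.B981.H519

end

end
-- ===== PACK-END LT/T7/B981/H519/TrTest.lean

-- ===== PACK-BEGIN LT/T7/H290/TrEK.lean
section



/-!
# Row LT, tower T7, node StepSC981 (cut of helper503), leaf SS.2 `TrEKC503` -- helper290

OFF-MAIN.  No hole, nothing assumed.  ADDITIVE (new names only, suffix `290`).

    trEKC290 (K) : SS503.TrEKC503 K        (VERBATIM, UNCONDITIONAL)

* `commute_scalarUnif290` : a scalar uniformiser is central in `GL₂(𝔸_K)`;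
* `rconv_rtr290` : `R(φ(· c)) Ψ = R(φ) (Ψ(· c⁻¹))` (right invariance of `μ`);
* `isBorelInv_rtr290` : `Ψ(· c)` is Borel-invariant for `c` central.
-/

set_option autoImplicit false
set_option linter.unusedSectionVars false

open AutomorphicForm IsDedekindDomain NumberField MeasureTheory
open scoped ComplexConjugate

noncomputable section

namespace Fermat.Agent.LT.T7.H290S

open Fermat.Agent.LT.H556 Fermat.Agent.LT.H556.A0 Fermat.Agent.LT.T7
open Fermat.Agent.LT.T7.B981.SS503

attribute [local instance] Fermat.Agent.LT.T5.instMeasurableSpaceG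

variable {K : Type} [Field K] [NumberField K]

local instance instBSG290S : BorelSpace (G K) := ⟨rfl⟩

/-- A scalar uniformiser is a scalar matrix, hence central. -/
theorem commute_scalarUnif290 {v : HeightOneSpectrum (𝓞 K)} {z : G K}
    (hz : IsScalarUniformizerAt v z) (g : G K) : z * g = g * z := by
  obtain ⟨⟨hinf, hfin⟩, c, -, hc⟩ := hz
  have hv : ∀ i j : Fin 2, ((z : Matrix (Fin 2) (Fin 2) (Adl K)) i j).2 v
      = (Matrix.diagonal fun _ => c) i j := fun i j => congrFun (congrFun hc i) j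
  have hf : ∀ v' : HeightOneSpectrum (𝓞 K), v' ≠ v → ∀ i j : Fin 2,
      ((z : Matrix (Fin 2) (Fin 2) (Adl K)) i j).2 v'
        = (1 : Matrix (Fin 2) (Fin 2) (v'.adicCompletion K)) i j := fun v' hv' i j =>
    congrFun (congrFun (hfin v' hv') i) j
  have key : ∀ i j : Fin 2, (z : Matrix (Fin 2) (Fin 2) (Adl K)) i j
      = (Matrix.diagonal fun _ => (z : Matrix (Fin 2) (Fin 2) (Adl K)) 0 0) i j := by
    intro i j
    refine Prod.ext ?_ ?_
    · funext w
      by_cases hij : i = j
      · subst hij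
        rw [Matrix.diagonal_apply_eq, hinf w i i, hinf w 0 0, Matrix.one_apply_eq,
          Matrix.one_apply_eq]
      · rw [Matrix.diagonal_apply_ne _ hij, hinf w i j, Matrix.one_apply_ne hij]
        rfl
    · apply Subtype.ext
      funext v'
      by_cases hvv : v' = v
      · subst hvv
        by_cases hij : i = j
        · subst hij
          rw [Matrix.diagonal_apply_eq]
          show ((z : Matrix (Fin 2) (Fin 2) (Adl K)) i i).2 v'
            = ((z : Matrix (Fin 2) (Fin 2) (Adl K)) 0 0).2 v'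
          rw [hv i i, hv 0 0, Matrix.diagonal_apply_eq, Matrix.diagonal_apply_eq]
        · rw [Matrix.diagonal_apply_ne _ hij]
          show ((z : Matrix (Fin 2) (Fin 2) (Adl K)) i j).2 v' = (0 : Adl K).2 v'
          rw [hv i j, Matrix.diagonal_apply_ne _ hij]
          rfl
      · by_cases hij : i = j
        · subst hij
          rw [Matrix.diagonal_apply_eq]
          show ((z : Matrix (Fin 2) (Fin 2) (Adl K)) i i).2 v'
            = ((z : Matrix (Fin 2) (Fin 2) (Adl K)) 0 0).2 v'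
          rw [hf v' hvv i i, hf v' hvv 0 0, Matrix.one_apply_eq, Matrix.one_apply_eq]
        · rw [Matrix.diagonal_apply_ne _ hij]
          show ((z : Matrix (Fin 2) (Fin 2) (Adl K)) i j).2 v' = (0 : Adl K).2 v'
          rw [hf v' hvv i j, Matrix.one_apply_ne hij]
          rfl
  have hzm : (z : Matrix (Fin 2) (Fin 2) (Adl K))
      = Matrix.diagonal fun _ => (z : Matrix (Fin 2) (Fin 2) (Adl K)) 0 0 := by
    ext i j
    exact key i j
  apply Units.ext
  rw [Units.val_mul, Units.val_mul, hzm]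
  ext i j
  simp [Matrix.diagonal_mul, Matrix.mul_diagonal, mul_comm]

theorem commute_zpow290 {c : G K} (hc : ∀ g : G K, c * g = g * c) (t : ℤ) (g : G K) :
    c ^ t * g = g * c ^ t :=
  ((show Commute c g from hc g).zpow_left t).eq

/-- Change of variables for a right invariant measure (no integrability needed). -/
theorem integral_mul_right290 {μ : Measure (G K)} {F : Set (G K)} (hF : T5.IsFrame μ F)
    (c : G K) (f : G K → ℂ) : ∫ y, f (y * c) ∂μ = ∫ y, f y ∂μ := by
  have hmap : Measure.map (MeasurableEquiv.mulRight c) μ = μ := by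
    refine Measure.ext fun A hA => ?_
    rw [MeasurableEquiv.map_apply]
    exact hF.right_inv c A hA
  have h := MeasureTheory.integral_map_equiv (μ := μ) (MeasurableEquiv.mulRight c) f
  rw [hmap] at h
  rw [h]
  rfl

/-- `R(φ(· c)) Ψ = R(φ) (Ψ(· c⁻¹))`. -/
theorem rconv_rtr290 {μ : Measure (G K)} {F : Set (G K)} (hF : T5.IsFrame μ F)
    (c : G K) (φ Ψ : G K → ℂ) (x : G K) :
    T5.Rconv μ (rtr503 c φ) Ψ x = T5.Rconv μ φ (rtr503 c⁻¹ Ψ) x := by
  show ∫ y, φ (y * c) * Ψ (x * y) ∂μ = ∫ y, φ y * Ψ (x * y * c⁻¹) ∂μ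
  have h := integral_mul_right290 hF c (fun y => φ y * Ψ (x * y * c⁻¹))
  rw [← h]
  congr 1
  funext y
  show φ (y * c) * Ψ (x * y) = φ (y * c) * Ψ (x * (y * c) * c⁻¹)
  congr 2
  group

/-- `Ψ(· c)` is Borel-invariant for `c` central. -/
theorem isBorelInv_rtr290 {c : G K} (hc : ∀ g : G K, c * g = g * c) {Ψ : G K → ℂ}
    (hΨ : T5.IsBorelInvariantFn Ψ) : T5.IsBorelInvariantFn (rtr503 c Ψ) where
  cont := hΨ.cont.comp (continuous_id.mul continuous_const)
  unip := fun n x hn g => by
    show Ψ (n * g * c) = Ψ (g * c)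
    rw [mul_assoc]
    exact hΨ.unip n x hn (g * c)
  torus := fun t a b ht g => by
    show Ψ (T5.ratG t * g * c) = Ψ (g * c)
    rw [mul_assoc]
    exact hΨ.torus t a b ht (g * c)
  ray := by
    obtain ⟨r, hr, hrΨ⟩ := hΨ.ray
    refine ⟨r, hr, fun g => ?_⟩
    show Ψ (g * r * c) = Ψ (g * c)
    rw [mul_assoc, ← hc r, ← mul_assoc]
    exact hrΨ (g * c)

theorem isEK_rtr290 {μ : Measure (G K)} {F : Set (G K)} (hF : T5.IsFrame μ F)
    {c : G K} (hc : ∀ g : G K, c * g = g * c) {φ : G K → ℂ} (hφ : T5.IsEK μ φ) :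
    T5.IsEK μ (rtr503 c φ) := by
  intro Ψ hΨ x
  rw [rconv_rtr290 hF c φ Ψ x]
  have hc' : ∀ g : G K, c⁻¹ * g = g * c⁻¹ := fun g =>
    ((show Commute c g from hc g).inv_left).eq
  exact hφ _ (isBorelInv_rtr290 hc' hΨ) x

theorem adjoint_rtr290 {c : G K} (hc : ∀ g : G K, c * g = g * c) (φ : G K → ℂ) :
    T5.adjointFn (rtr503 c φ) = rtr503 c⁻¹ (T5.adjointFn φ) := by
  funext g
  show conj (φ (g⁻¹ * c)) = conj (φ ((g * c⁻¹)⁻¹))
  congr 2
  rw [mul_inv_rev, inv_inv]
  exact (hc g⁻¹).symm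

/-- **LEAF SS.2 = TR-EK.** -/
theorem trEKC290 (K : Type) [Field K] [NumberField K] : TrEKC503 K := by
  intro μ F hF v z hz t φ
  have hc : ∀ g : G K, z ^ t * g = g * z ^ t :=
    commute_zpow290 (commute_scalarUnif290 hz) t
  refine ⟨fun h => isEK_rtr290 hF hc h, fun h => ?_⟩
  rw [adjoint_rtr290 hc φ]
  have hc' : ∀ g : G K, (z ^ t)⁻¹ * g = g * (z ^ t)⁻¹ := fun g =>
    ((show Commute (z ^ t) g from hc g).inv_left).eq
  exact isEK_rtr290 hF hc' h

end Fermat.Agent.LT.T7.H290S

end

end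
-- ===== PACK-END LT/T7/H290/TrEK.lean

-- ===== PACK-BEGIN LT/T7/H963/Places.lean
section



/-!
# Row LT, tower T7, node `B981.StepSC981` (cut of helper503, `T7/B981/H503/StepSSpec.lean`):
leaf SS.5 `PlacesC503` (helper963, OFF-MAIN, ADDITIVE)

    placesC963 (K K') : B981.SS503.PlacesC503 K K'        (UNCONDITIONAL, Mathlib + spec only)

`v = w ∩ 𝓞_K`; `f` = the inertia degree; `N w = (N v)^f`
(`Ideal.absNorm_eq_pow_inertiaDeg'_of_liesOver`); the places over `v` are the prime factors of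
`v 𝓞_{K'}`; `∑ e f = [K' : K] = ℓ` (`Ideal.sum_ramification_inertia`).
-/

set_option autoImplicit false
set_option linter.unusedSectionVars false
set_option linter.unusedVariables false
set_option linter.deprecated false
set_option linter.style.haveILetI false

open IsDedekindDomain NumberField

noncomputable section

namespace Fermat.Agent.LT.T7.H963

open Fermat.Agent.LT.T7 Fermat.Agent.LT.T7.B981.SS503

variable (K K' : Type) [Field K] [NumberField K] [Field K'] [NumberField K'] [Algebra K K']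

/-- **LEAF SS.5 `PlacesC503`.** -/
theorem placesC963 : PlacesC503 K K' := by
  classical
  intro ℓ hcyc w
  let v : HeightOneSpectrum (𝓞 K) := HeightOneSpectrum.under (𝓞 K) w
  have hv0 : v.asIdeal ≠ ⊥ := v.ne_bot
  haveI hvmax : v.asIdeal.IsMaximal := v.isMaximal
  haveI hwprime : w.asIdeal.IsPrime := w.isPrime
  have hover : ∀ w' : HeightOneSpectrum (𝓞 K'),
      PlaceOver K K' v w' ↔ w'.asIdeal ∈ Ideal.primesOver v.asIdeal (𝓞 K') := by
    intro w'
    rw [H557.placeOver_iff_557]
    constructor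
    · intro h
      exact ⟨w'.isPrime, ⟨h⟩⟩
    · intro h
      exact h.2.over
  have hvw : PlaceOver K K' v w := (H557.placeOver_iff_557 v w).2 rfl
  haveI hlo : w.asIdeal.LiesOver v.asIdeal := ((hover w).1 hvw).2
  -- the finite set of the places over `v`
  have hfin : {w' : HeightOneSpectrum (𝓞 K') | PlaceOver K K' v w'}.Finite := by
    have h1 : (Ideal.primesOver v.asIdeal (𝓞 K')).Finite :=
      IsDedekindDomain.primesOver_finite v.asIdeal (𝓞 K')
    refine Set.Finite.of_finite_image (f := HeightOneSpectrum.asIdeal) (h1.subset ?_) ?_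
    · rintro _ ⟨w', hw', rfl⟩
      exact (hover w').1 hw'
    · intro a _ b _ h
      exact HeightOneSpectrum.ext h
  -- the fundamental identity
  have hsum := Ideal.sum_ramification_inertia (𝓞 K') K K' hv0
  rw [hcyc.degree] at hsum
  have hmemF : ∀ P : Ideal (𝓞 K'), P ∈ IsDedekindDomain.primesOverFinset v.asIdeal (𝓞 K') ↔
      P ∈ Ideal.primesOver v.asIdeal (𝓞 K') :=
    fun P => IsDedekindDomain.mem_primesOverFinset_iff hv0 (𝓞 K')
  have hwF : w.asIdeal ∈ IsDedekindDomain.primesOverFinset v.asIdeal (𝓞 K') :=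
    (hmemF _).2 ((hover w).1 hvw)
  have hpos : ∀ P ∈ IsDedekindDomain.primesOverFinset v.asIdeal (𝓞 K'),
      1 ≤ Ideal.ramificationIdx' v.asIdeal P * Ideal.inertiaDeg' v.asIdeal P := by
    intro P hP
    have hP' := (hmemF P).1 hP
    haveI : P.IsPrime := hP'.1
    haveI : P.LiesOver v.asIdeal := hP'.2
    exact Right.one_le_mul
      (Nat.pos_iff_ne_zero.mpr (Ideal.IsDedekindDomain.ramificationIdx'_ne_zero_of_liesOver P hv0))
      (Nat.pos_iff_ne_zero.mpr (Ideal.inertiaDeg'_ne_zero v.asIdeal P))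
  -- every prime over `v` is a place over `v`
  have hplace : ∀ P ∈ IsDedekindDomain.primesOverFinset v.asIdeal (𝓞 K'),
      ∃ w' : HeightOneSpectrum (𝓞 K'), w'.asIdeal = P ∧ PlaceOver K K' v w' := by
    intro P hP
    have hP' := (hmemF P).1 hP
    have hP0 : P ≠ ⊥ := Ideal.ne_bot_of_mem_primesOver hv0 hP'
    refine ⟨⟨P, hP'.1, hP0⟩, rfl, (hover _).2 hP'⟩
  refine ⟨v, Ideal.inertiaDeg' v.asIdeal w.asIdeal, hfin.toFinset, ⟨hvw, ?_⟩, ?_, ?_, ?_⟩
  · exact Ideal.absNorm_eq_pow_inertiaDeg'_of_liesOver w.asIdeal v.asIdeal v.isPrime hv0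
  · intro v' hv'
    apply HeightOneSpectrum.ext
    rw [(H557.placeOver_iff_557 v' w).1 hv']
    rfl
  · intro w'
    rw [Set.Finite.mem_toFinset]
    rfl
  · rintro ⟨x, hxv, hxw⟩
    -- `w` is unramified over `v`
    have he : Ideal.ramificationIdx' v.asIdeal w.asIdeal = 1 := by
      have h1 : Ideal.ramificationIdx' v.asIdeal w.asIdeal ≠ 0 :=
        Ideal.IsDedekindDomain.ramificationIdx'_ne_zero_of_liesOver w.asIdeal hv0
      have h2 : Ideal.ramificationIdx' v.asIdeal w.asIdeal < 2 := by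
        apply Ideal.ramificationIdx'_lt
        intro hle
        exact hxw (hle (Ideal.mem_map_of_mem _ hxv))
      omega
    constructor
    · intro huniq
      have hF : IsDedekindDomain.primesOverFinset v.asIdeal (𝓞 K') = {w.asIdeal} := by
        apply Finset.eq_singleton_iff_unique_mem.2
        refine ⟨hwF, fun P hP => ?_⟩
        obtain ⟨w', rfl, hw'⟩ := hplace P hP
        rw [huniq w' hw']
      rw [hF, Finset.sum_singleton, he, one_mul] at hsum
      exact hsum
    · intro u hu hinj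
      set F := IsDedekindDomain.primesOverFinset v.asIdeal (𝓞 K') with hFdef
      set U : Finset (Ideal (𝓞 K')) := (Finset.range ℓ).image (fun j => (u j).asIdeal) with hU
      have hUF : U ⊆ F := by
        intro P hP
        obtain ⟨j, _, rfl⟩ := Finset.mem_image.1 hP
        exact (hmemF _).2 ((hover (u j)).1 (hu j))
      have hUcard : U.card = ℓ := by
        rw [hU, Finset.card_image_of_injOn, Finset.card_range]
        intro a ha b hb hab
        have ha' : a < ℓ := Finset.mem_range.1 ha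
        have hb' : b < ℓ := Finset.mem_range.1 hb
        exact hinj a b ha' hb' (HeightOneSpectrum.ext hab)
      have hcardle : F.card ≤ ℓ := by
        calc F.card = ∑ P ∈ F, 1 := by rw [Finset.card_eq_sum_ones]
          _ ≤ ∑ P ∈ F, Ideal.ramificationIdx' v.asIdeal P * Ideal.inertiaDeg' v.asIdeal P :=
              Finset.sum_le_sum hpos
          _ = ℓ := hsum
      have hFU : U = F := Finset.eq_of_subset_of_card_le hUF (by rw [hUcard]; exact hcardle)
      have hFcard : F.card = ℓ := by rw [← hFU, hUcard]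
      -- every term is `1`
      have hterm : ∀ P ∈ F,
          Ideal.ramificationIdx' v.asIdeal P * Ideal.inertiaDeg' v.asIdeal P = 1 := by
        by_contra hcon
        push Not at hcon
        obtain ⟨P, hP, hne⟩ := hcon
        have hlt : ∑ P ∈ F, 1
            < ∑ P ∈ F, Ideal.ramificationIdx' v.asIdeal P * Ideal.inertiaDeg' v.asIdeal P := by
          refine Finset.sum_lt_sum hpos ⟨P, hP, ?_⟩
          have := hpos P hP
          omega
        rw [hsum, ← Finset.card_eq_sum_ones, hFcard] at hlt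
        exact lt_irrefl _ hlt
      have hw1 := hterm w.asIdeal hwF
      rw [he, one_mul] at hw1
      refine ⟨hw1, ?_⟩
      have hwU : w.asIdeal ∈ U := by rw [hFU]; exact hwF
      obtain ⟨j, hj, hjw⟩ := Finset.mem_image.1 hwU
      exact ⟨j, Finset.mem_range.1 hj, HeightOneSpectrum.ext hjw⟩

end Fermat.Agent.LT.T7.H963

end
end
-- ===== PACK-END LT/T7/H963/Places.lean

-- ===== PACK-BEGIN LT/T7/B981/H619/SphShift.lean
section




/-!
# Row LT, tower T7, node `B981.StepSC981`, leaves SS.6 `SphShiftC503` and SS.7 `UnitSphC503`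
# (helper619, registry rows 2874 / 2875, OFF-MAIN)

ADDITIVE, PROVED, UNCONDITIONAL, nothing assumed.  Spec: `T7/B981/H503/StepSSpec.lean`
(helper503, sha256 b4d9e9b9), byte-identical copy; `T6/H305/Basic.lean` (helper305, master bytes).

    sphShiftC619 : SS503.SphShiftC503          (VERBATIM)
    unitSphC619  : SS503.UnitSphC503           (VERBATIM)

Proof.  `cartan (x c^{-t}) = cartan x - (t, t)` for the scalar matrix `c` of a uniformiser (the
entries are multiplied by `c₀^{-t}`, of valuation `exp t`; the determinant by `c₀^{-2t}`), and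
`Finsupp.mapDomain_apply` for the injective shift.  `InU 0 x` iff `x` is integral with unit
determinant (helper305) iff the largest valuation of an entry and the valuation of the
determinant are `1` iff `cartan x = (0, 0)`.
-/

set_option autoImplicit false
set_option linter.unusedSectionVars false

open scoped Classical

noncomputable section

namespace Fermat.Agent.LT.T7.B981.H619

open Fermat.Agent.LT Fermat.Agent.LT.T7.H893 Fermat.Agent.LT.T7.B981.SS503

section Local

variable {k : Type} [Field k] [Valued k T6.Γ₀]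

theorem entry_le_entryMax619 (x : GL (Fin 2) k) (i j : Fin 2) :
    Valued.v ((x : Matrix (Fin 2) (Fin 2) k) i j) ≤ T6.entryMax x :=
  Finset.le_sup' (fun p : Fin 2 × Fin 2 => Valued.v ((x : Matrix (Fin 2) (Fin 2) k) p.1 p.2))
    (Finset.mem_univ (i, j))

theorem exists_entry_eq_entryMax619 (x : GL (Fin 2) k) :
    ∃ i j : Fin 2, T6.entryMax x = Valued.v ((x : Matrix (Fin 2) (Fin 2) k) i j) := by
  obtain ⟨p, -, hp⟩ := Finset.exists_mem_eq_sup' Finset.univ_nonempty
    (fun p : Fin 2 × Fin 2 => Valued.v ((x : Matrix (Fin 2) (Fin 2) k) p.1 p.2))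
  exact ⟨p.1, p.2, hp⟩

theorem entryMax_le619 (x : GL (Fin 2) k) (e : T6.Γ₀)
    (h : ∀ i j : Fin 2, Valued.v ((x : Matrix (Fin 2) (Fin 2) k) i j) ≤ e) :
    T6.entryMax x ≤ e := by
  obtain ⟨i, j, hij⟩ := exists_entry_eq_entryMax619 x
  rw [hij]
  exact h i j

theorem det_ne_zero619 (x : GL (Fin 2) k) : (x : Matrix (Fin 2) (Fin 2) k).det ≠ 0 :=
  ((Matrix.isUnit_iff_isUnit_det _).1 (Units.isUnit x)).ne_zero

theorem val_det_ne_zero619 (x : GL (Fin 2) k) :
    Valued.v (x : Matrix (Fin 2) (Fin 2) k).det ≠ 0 :=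
  (Valuation.ne_zero_iff _).2 (det_ne_zero619 x)

theorem entryMax_ne_zero619 (x : GL (Fin 2) k) : T6.entryMax x ≠ 0 := by
  intro h0
  have hz : ∀ i j : Fin 2, (x : Matrix (Fin 2) (Fin 2) k) i j = 0 := by
    intro i j
    have hle := entry_le_entryMax619 x i j
    rw [h0] at hle
    exact (Valuation.zero_iff _).1 (le_antisymm hle zero_le)
  apply det_ne_zero619 x
  rw [Matrix.det_fin_two, hz 0 0, hz 0 1, zero_mul, zero_mul, sub_zero]

/-- The largest valuation of an entry is multiplied by `e` when all entries are. -/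
theorem entryMax_mul619 (x y : GL (Fin 2) k) (e : T6.Γ₀)
    (h : ∀ i j : Fin 2, Valued.v ((y : Matrix (Fin 2) (Fin 2) k) i j)
      = Valued.v ((x : Matrix (Fin 2) (Fin 2) k) i j) * e) :
    T6.entryMax y = T6.entryMax x * e := by
  apply le_antisymm
  · apply entryMax_le619
    intro i j
    rw [h]
    exact mul_le_mul' (entry_le_entryMax619 x i j) le_rfl
  · obtain ⟨i, j, hij⟩ := exists_entry_eq_entryMax619 x
    rw [hij, ← h]
    exact entry_le_entryMax619 y i j

/-- The powers of a scalar matrix. -/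
theorem scalar_zpow619 (c : GL (Fin 2) k) (c₀ : k) (hc₀ : c₀ ≠ 0)
    (hc : (c : Matrix (Fin 2) (Fin 2) k) = Matrix.diagonal (fun _ => c₀)) (t : ℤ) :
    ((c ^ t : GL (Fin 2) k) : Matrix (Fin 2) (Fin 2) k) = Matrix.diagonal (fun _ => c₀ ^ t) := by
  have e : c = Units.map
      (Matrix.scalar (Fin 2) : k →+* Matrix (Fin 2) (Fin 2) k).toMonoidHom (Units.mk0 c₀ hc₀) := by
    apply Units.ext
    rw [hc]
    rfl
  rw [e, ← map_zpow]
  show (Matrix.scalar (Fin 2) : k →+* Matrix (Fin 2) (Fin 2) k)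
    (((Units.mk0 c₀ hc₀) ^ t : kˣ) : k) = _
  rw [Units.val_zpow_eq_zpow_val]
  rfl

theorem ne_zero_of_val619 {c₀ : k} (hv : Valued.v c₀ = WithZero.exp (-1 : ℤ)) : c₀ ≠ 0 := by
  intro h0
  rw [h0, map_zero] at hv
  exact WithZero.exp_ne_zero hv.symm

theorem val_zpow619 {c₀ : k} (hv : Valued.v c₀ = WithZero.exp (-1 : ℤ)) (t : ℤ) :
    Valued.v (c₀ ^ (-t)) = WithZero.exp t := by
  rw [map_zpow₀, hv, ← WithZero.exp_zsmul]
  simp

/-- **The Cartan invariant of a translate by a power of a scalar uniformiser.** -/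
theorem cartan_mul_scalar619 (c : GL (Fin 2) k) (c₀ : k)
    (hv : Valued.v c₀ = WithZero.exp (-1 : ℤ))
    (hc : (c : Matrix (Fin 2) (Fin 2) k) = Matrix.diagonal (fun _ => c₀)) (t : ℤ)
    (x : GL (Fin 2) k) :
    T6.cartan (x * c ^ (-t)) = ((T6.cartan x).1 - t, (T6.cartan x).2 - t) := by
  have hc₀ := ne_zero_of_val619 hv
  have hvz := val_zpow619 hv t
  have hem : T6.entryMax (x * c ^ (-t)) = T6.entryMax x * WithZero.exp t := by
    apply entryMax_mul619
    intro i j
    rw [Units.val_mul, scalar_zpow619 c c₀ hc₀ hc (-t), Matrix.mul_diagonal, map_mul, hvz]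
  have hdet : Valued.v ((x * c ^ (-t) : GL (Fin 2) k) : Matrix (Fin 2) (Fin 2) k).det
      = Valued.v (x : Matrix (Fin 2) (Fin 2) k).det * WithZero.exp (t + t) := by
    rw [Units.val_mul, Matrix.det_mul, scalar_zpow619 c c₀ hc₀ hc (-t), Matrix.det_diagonal,
      Fin.prod_univ_two, map_mul, map_mul, hvz, ← WithZero.exp_add]
  have hx0 := entryMax_ne_zero619 x
  have hd0 := val_det_ne_zero619 x
  refine Prod.ext ?_ ?_
  · show WithZero.log (T6.entryMax (x * c ^ (-t)))
        - WithZero.log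
          (Valued.v ((x * c ^ (-t) : GL (Fin 2) k) : Matrix (Fin 2) (Fin 2) k).det)
      = WithZero.log (T6.entryMax x)
        - WithZero.log (Valued.v (x : Matrix (Fin 2) (Fin 2) k).det) - t
    rw [hem, hdet, WithZero.log_mul hx0 WithZero.exp_ne_zero,
      WithZero.log_mul hd0 WithZero.exp_ne_zero, WithZero.log_exp, WithZero.log_exp]
    ring
  · show - WithZero.log (T6.entryMax (x * c ^ (-t))) = - WithZero.log (T6.entryMax x) - t
    rw [hem, WithZero.log_mul hx0 WithZero.exp_ne_zero, WithZero.log_exp]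
    ring

theorem shift_injective619 (t : ℤ) :
    Function.Injective (fun lam : ℤ × ℤ => (lam.1 + t, lam.2 + t)) := by
  intro a b h
  have h1 : a.1 + t = b.1 + t := congrArg Prod.fst h
  have h2 : a.2 + t = b.2 + t := congrArg Prod.snd h
  exact Prod.ext (add_right_cancel h1) (add_right_cancel h2)

/-- `log y = 0` iff `y = 1`, for `y ≠ 0`. -/
theorem log_eq_zero_iff619 {y : T6.Γ₀} (hy : y ≠ 0) : WithZero.log y = 0 ↔ y = 1 := by
  constructor
  · intro h
    rw [← WithZero.exp_log hy, h, WithZero.exp_zero]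
  · intro h
    rw [h]
    exact WithZero.log_one

theorem val_det_le619 (x : GL (Fin 2) k) :
    Valued.v (x : Matrix (Fin 2) (Fin 2) k).det ≤ T6.entryMax x * T6.entryMax x := by
  rw [Matrix.det_fin_two]
  refine le_trans (Valuation.map_sub _ _ _) (max_le ?_ ?_)
  · rw [map_mul]
    exact mul_le_mul' (entry_le_entryMax619 x 0 0) (entry_le_entryMax619 x 1 1)
  · rw [map_mul]
    exact mul_le_mul' (entry_le_entryMax619 x 0 1) (entry_le_entryMax619 x 1 0)

/-- `x ∈ GL₂(𝒪)` iff the Cartan invariant of `x` is `(0, 0)`. -/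
theorem inU_zero_iff_cartan619 (x : GL (Fin 2) k) : T6.InU 0 x ↔ T6.cartan x = (0, 0) := by
  have hx0 := entryMax_ne_zero619 x
  have hd0 := val_det_ne_zero619 x
  rw [T6.H305.inU_zero_iff, T6.H305.inK_iff]
  constructor
  · rintro ⟨hint, hdet⟩
    have hle : T6.entryMax x ≤ 1 := entryMax_le619 x 1 hint
    have hge : (1 : T6.Γ₀) ≤ T6.entryMax x := by
      have h := val_det_le619 x
      rw [hdet] at h
      exact le_trans h (le_trans (mul_le_mul' le_rfl hle) (mul_one _).le)
    have hem : T6.entryMax x = 1 := le_antisymm hle hge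
    refine Prod.ext ?_ ?_
    · show WithZero.log (T6.entryMax x)
          - WithZero.log (Valued.v (x : Matrix (Fin 2) (Fin 2) k).det) = 0
      rw [hem, hdet, WithZero.log_one, sub_zero]
    · show - WithZero.log (T6.entryMax x) = 0
      rw [hem, WithZero.log_one, neg_zero]
  · intro h
    have h1 : WithZero.log (T6.entryMax x)
        - WithZero.log (Valued.v (x : Matrix (Fin 2) (Fin 2) k).det) = 0 := congrArg Prod.fst h
    have h2 : - WithZero.log (T6.entryMax x) = 0 := congrArg Prod.snd h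
    have h3 : WithZero.log (T6.entryMax x) = 0 := neg_eq_zero.1 h2
    rw [h3, zero_sub] at h1
    have h4 : WithZero.log (Valued.v (x : Matrix (Fin 2) (Fin 2) k).det) = 0 := neg_eq_zero.1 h1
    have hem : T6.entryMax x = 1 := (log_eq_zero_iff619 hx0).1 h3
    refine ⟨fun i j => ?_, (log_eq_zero_iff619 hd0).1 h4⟩
    rw [← hem]
    exact entry_le_entryMax619 x i j

end Local

/-- **LEAF SS.6 = SPH-SHIFT** (`SS503.SphShiftC503`, VERBATIM). -/
theorem sphShiftC619 : SphShiftC503 := by
  intro k _ _ c c₀ hv hc t φ A hφ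
  refine ⟨?_, ?_⟩
  · intro lam hlam
    have hsub : lam ∈ A.support.image (fun lam : ℤ × ℤ => (lam.1 + t, lam.2 + t)) :=
      Finsupp.mapDomain_support hlam
    obtain ⟨μ, hμ, rfl⟩ := Finset.mem_image.1 hsub
    have h := hφ.1 μ hμ
    show μ.2 + t ≤ μ.1 + t
    omega
  · intro x
    show φ (x * c ^ (-t)) = (shA503 t A) (T6.cartan x)
    rw [hφ.2, cartan_mul_scalar619 c c₀ hv hc t x]
    have key : (shA503 t A) ((T6.cartan x).1 - t + t, (T6.cartan x).2 - t + t)
        = A ((T6.cartan x).1 - t, (T6.cartan x).2 - t) :=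
      Finsupp.mapDomain_apply (shift_injective619 t) A ((T6.cartan x).1 - t, (T6.cartan x).2 - t)
    rw [sub_add_cancel, sub_add_cancel] at key
    exact key.symm

/-- **LEAF SS.7 = UNIT-SPH** (`SS503.UnitSphC503`, VERBATIM). -/
theorem unitSphC619 : UnitSphC503 := by
  intro k _ _
  refine ⟨?_, ?_⟩
  · intro lam hlam
    have h : lam = ((0 : ℤ), (0 : ℤ)) := by
      by_contra hne
      rw [Finsupp.mem_support_iff, Finsupp.single_apply] at hlam
      by_cases e : ((0 : ℤ), (0 : ℤ)) = lam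
      · exact hne e.symm
      · rw [if_neg e] at hlam
        exact hlam rfl
    rw [h]
  · intro x
    show (if T6.InU 0 x then (1 : ℂ) else 0)
      = (Finsupp.single ((0 : ℤ), (0 : ℤ)) (1 : ℂ)) (T6.cartan x)
    rw [Finsupp.single_apply]
    by_cases h : T6.InU 0 x
    · rw [if_pos h, if_pos ((inU_zero_iff_cartan619 x).1 h).symm]
    · rw [if_neg h, if_neg]
      intro hc
      exact h ((inU_zero_iff_cartan619 x).2 hc.symm)

end Fermat.Agent.LT.T7.B981.H619

end

end
-- ===== PACK-END LT/T7/B981/H619/SphShift.lean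

-- ===== PACK-BEGIN LT/T7/H233/SphAvg.lean
section





/-!
# Row LT, tower T7, node T7.L2.1.H2a.A.3 `StepMC981`, leaf M.6 `SphAvgC445` (helper233)

OFF-MAIN.  SPARE.  PROVED, UNCONDITIONAL (no hole, nothing assumed).  ADDITIVE (new names only,
suffix `233`).  Spec: `LT/T7/H445/StepMSpec.lean` (helper445, sha256 95c0ff93), byte-identical
copy with its closure.

    sphAvgC233 (K) : H445.SphAvgC445 K

Generic cores (any topological group `G`, any continuous family `Y : ℝ → ℝ → G`):
`continuous_sphMean233` (joint continuity of the sphere means of a jointly continuous family),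
`sphMean_ne_zero233` (a non-zero sphere mean sees the support), `sphMean_integral233` (Fubini).
-/

set_option autoImplicit false

open AutomorphicForm IsDedekindDomain NumberField MeasureTheory

noncomputable section

namespace Fermat.Agent.LT.T7.H233

open Fermat.Agent.LT.H556 Fermat.Agent.LT.H556.A0 Fermat.Agent.LT.T7

section Generic

variable {X G : Type} [TopologicalSpace X] [TopologicalSpace G] [Group G] [ContinuousMul G]

/-- The inner integral of the sphere mean is jointly continuous. -/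
theorem continuous_sphInner233 (Y : ℝ → ℝ → G) (hY : Continuous fun q : ℝ × ℝ => Y q.1 q.2)
    (ψ : X → G → ℂ) (hψ : Continuous fun p : X × G => ψ p.1 p.2) :
    Continuous fun q : (X × G) × ℝ => ∫ β in (0 : ℝ)..Real.pi,
      ψ q.1.1 (q.1.2 * Y q.2 β) * ((Real.sin β : ℝ) : ℂ) := by
  refine intervalIntegral.continuous_parametric_intervalIntegral_of_continuous'
    (f := fun (q : (X × G) × ℝ) (β : ℝ) => ψ q.1.1 (q.1.2 * Y q.2 β) * ((Real.sin β : ℝ) : ℂ))
    ?_ 0 Real.pi
  have h1 : Continuous fun r : ((X × G) × ℝ) × ℝ => (r.1.1.1, r.1.1.2 * Y r.1.2 r.2) := by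
    refine Continuous.prodMk (by fun_prop) ?_
    refine Continuous.mul (by fun_prop) ?_
    exact hY.comp (Continuous.prodMk (by fun_prop) (by fun_prop))
  have h2 : Continuous fun r : ((X × G) × ℝ) × ℝ => ((Real.sin r.2 : ℝ) : ℂ) :=
    Complex.continuous_ofReal.comp (Real.continuous_sin.comp continuous_snd)
  exact (hψ.comp h1).mul h2

/-- **Joint continuity of the sphere means** of a jointly continuous family. -/
theorem continuous_sphMean233 (Y : ℝ → ℝ → G) (hY : Continuous fun q : ℝ × ℝ => Y q.1 q.2)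
    (ψ : X → G → ℂ) (hψ : Continuous fun p : X × G => ψ p.1 p.2) :
    Continuous fun p : X × G => ∫ α in (0 : ℝ)..(2 * Real.pi), ∫ β in (0 : ℝ)..Real.pi,
      ψ p.1 (p.2 * Y α β) * ((Real.sin β : ℝ) : ℂ) :=
  intervalIntegral.continuous_parametric_intervalIntegral_of_continuous'
    (f := fun (p : X × G) (α : ℝ) => ∫ β in (0 : ℝ)..Real.pi,
      ψ p.1 (p.2 * Y α β) * ((Real.sin β : ℝ) : ℂ))
    (continuous_sphInner233 Y hY ψ hψ) 0 (2 * Real.pi)

omit [TopologicalSpace G] [ContinuousMul G] in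
/-- A non-zero sphere mean sees the support. -/
theorem sphMean_ne_zero233 (Y : ℝ → ℝ → G) (φ : G → ℂ) (g : G)
    (h : (∫ α in (0 : ℝ)..(2 * Real.pi), ∫ β in (0 : ℝ)..Real.pi,
      φ (g * Y α β) * ((Real.sin β : ℝ) : ℂ)) ≠ 0) :
    ∃ α ∈ Set.Icc (0 : ℝ) (2 * Real.pi), ∃ β ∈ Set.Icc (0 : ℝ) Real.pi, φ (g * Y α β) ≠ 0 := by
  by_contra hcon
  push Not at hcon
  apply h
  have h2pi : (0 : ℝ) ≤ 2 * Real.pi := by positivity
  have hpi : (0 : ℝ) ≤ Real.pi := Real.pi_pos.le
  have : ∀ α ∈ Set.uIcc (0 : ℝ) (2 * Real.pi),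
      (∫ β in (0 : ℝ)..Real.pi, φ (g * Y α β) * ((Real.sin β : ℝ) : ℂ))
        = (fun _ : ℝ => (0 : ℂ)) α := by
    intro α hα
    rw [Set.uIcc_of_le h2pi] at hα
    have : ∀ β ∈ Set.uIcc (0 : ℝ) Real.pi,
        φ (g * Y α β) * ((Real.sin β : ℝ) : ℂ) = (fun _ : ℝ => (0 : ℂ)) β := by
      intro β hβ
      rw [Set.uIcc_of_le hpi] at hβ
      simp [hcon α hα β hβ]
    rw [intervalIntegral.integral_congr this]
    simp
  rw [intervalIntegral.integral_congr this]
  simp

end Generic

section Fubini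

variable {Ω G : Type} [TopologicalSpace G] [Group G] [ContinuousMul G]
  [TopologicalSpace Ω] [SecondCountableTopology Ω] [MeasurableSpace Ω] [BorelSpace Ω]

/-- **Fubini for the sphere mean**: the sphere mean of an average is the average of the sphere
means (jointly continuous bounded family, finite measure). -/
theorem sphMean_integral233 (ν : Measure Ω) [IsFiniteMeasure ν] (Y : ℝ → ℝ → G)
    (hY : Continuous fun q : ℝ × ℝ => Y q.1 q.2) (ψ : Ω → G → ℂ)
    (hψ : Continuous fun p : Ω × G => ψ p.1 p.2) (B : ℝ) (hB : ∀ a h, ‖ψ a h‖ ≤ B) (g : G) :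
    (∫ α in (0 : ℝ)..(2 * Real.pi), ∫ β in (0 : ℝ)..Real.pi,
        (∫ a, ψ a (g * Y α β) ∂ν) * ((Real.sin β : ℝ) : ℂ))
      = ∫ a, (∫ α in (0 : ℝ)..(2 * Real.pi), ∫ β in (0 : ℝ)..Real.pi,
        ψ a (g * Y α β) * ((Real.sin β : ℝ) : ℂ)) ∂ν := by
  have hsin : ∀ β : ℝ, ‖((Real.sin β : ℝ) : ℂ)‖ ≤ 1 := by
    intro β
    rw [Complex.norm_real]
    exact Real.abs_sin_le_one β
  have hF : ∀ (a : Ω) (α β : ℝ), ‖ψ a (g * Y α β) * ((Real.sin β : ℝ) : ℂ)‖ ≤ B := by
    intro a α β
    rw [norm_mul]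
    calc ‖ψ a (g * Y α β)‖ * ‖((Real.sin β : ℝ) : ℂ)‖ ≤ ‖ψ a (g * Y α β)‖ * 1 :=
          mul_le_mul_of_nonneg_left (hsin β) (norm_nonneg _)
      _ ≤ B := by rw [mul_one]; exact hB _ _
  have hfin1 : IsFiniteMeasure (volume.restrict (Set.uIoc (0 : ℝ) Real.pi)) :=
    ⟨by simp [Set.uIoc, Real.volume_Ioc]⟩
  have hfin2 : IsFiniteMeasure (volume.restrict (Set.uIoc (0 : ℝ) (2 * Real.pi))) :=
    ⟨by simp [Set.uIoc, Real.volume_Ioc]⟩
  -- the inner swap
  have hin : ∀ α : ℝ, (∫ β in (0 : ℝ)..Real.pi,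
      (∫ a, ψ a (g * Y α β) ∂ν) * ((Real.sin β : ℝ) : ℂ))
      = ∫ a, (∫ β in (0 : ℝ)..Real.pi, ψ a (g * Y α β) * ((Real.sin β : ℝ) : ℂ)) ∂ν := by
    intro α
    have h1 : ∀ β : ℝ, (∫ a, ψ a (g * Y α β) ∂ν) * ((Real.sin β : ℝ) : ℂ)
        = ∫ a, ψ a (g * Y α β) * ((Real.sin β : ℝ) : ℂ) ∂ν :=
      fun β => (integral_mul_const _ _).symm
    simp only [h1]
    refine intervalIntegral_integral_swap
      (f := fun (β : ℝ) (a : Ω) => ψ a (g * Y α β) * ((Real.sin β : ℝ) : ℂ)) ?_
    refine Integrable.of_bound (Continuous.aestronglyMeasurable ?_) B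
      (Filter.Eventually.of_forall fun p => hF p.2 α p.1)
    have h2 : Continuous fun p : ℝ × Ω => (p.2, g * Y α p.1) :=
      Continuous.prodMk continuous_snd
        (continuous_const.mul (hY.comp (Continuous.prodMk continuous_const continuous_fst)))
    exact (hψ.comp h2).mul
      (Complex.continuous_ofReal.comp (Real.continuous_sin.comp continuous_fst))
  simp only [hin]
  refine intervalIntegral_integral_swap
    (f := fun (α : ℝ) (a : Ω) => ∫ β in (0 : ℝ)..Real.pi,
      ψ a (g * Y α β) * ((Real.sin β : ℝ) : ℂ)) ?_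
  refine Integrable.of_bound (Continuous.aestronglyMeasurable ?_) (B * |Real.pi - 0|)
    (Filter.Eventually.of_forall fun p =>
      intervalIntegral.norm_integral_le_of_norm_le_const fun β _ => hF p.2 p.1 β)
  have h3 : Continuous fun p : ℝ × Ω => (((p.2, g), p.1) : (Ω × G) × ℝ) :=
    Continuous.prodMk (Continuous.prodMk continuous_snd continuous_const) continuous_fst
  exact (continuous_sphInner233 Y hY ψ hψ).comp h3

end Fubini

section Leaf

variable (K : Type) [Field K] [NumberField K]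

/-- **LEAF M.6 = SPH-AVG**, the frozen Prop of helper445 VERBATIM. -/
theorem sphAvgC233 : H445.SphAvgC445 K := by
  intro w _ d Y hY Ω _ _ _ _ _ _ ν _ ψ hψ hC
  obtain ⟨C, hCc, hCs⟩ := hC
  have : T2Space (G K) := Fermat.Agent.LT.H11.LC.t2Space_GL2_adeleRing_h11 K
  have hYc : Continuous fun q : ℝ × ℝ => Y q.1 q.2 :=
    Fermat.Agent.LT.T2.H314.continuous_sphere314 hY
  refine ⟨continuous_sphMean233 Y hYc ψ hψ, ?_, ?_⟩
  · refine ⟨(fun p : G K × (ℝ × ℝ) => p.1 * (Y p.2.1 p.2.2)⁻¹) ''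
      (C ×ˢ (Set.Icc (0 : ℝ) (2 * Real.pi) ×ˢ Set.Icc (0 : ℝ) Real.pi)), ?_, ?_⟩
    · refine (hCc.prod (isCompact_Icc.prod isCompact_Icc)).image ?_
      exact continuous_fst.mul (hYc.comp continuous_snd).inv
    · intro a h hne
      obtain ⟨α, hα, β, hβ, hne'⟩ := sphMean_ne_zero233 Y (ψ a) h hne
      refine ⟨(h * Y α β, (α, β)), ⟨hCs a _ hne', hα, hβ⟩, ?_⟩
      simp
  · intro h
    have hcs : HasCompactSupport fun p : Ω × G K => ψ p.1 p.2 := by
      refine HasCompactSupport.intro (isCompact_univ.prod hCc) ?_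
      intro p hp
      by_contra hne
      exact hp ⟨Set.mem_univ _, hCs p.1 p.2 hne⟩
    obtain ⟨B, hB⟩ := hψ.bounded_above_of_compact_support hcs
    exact sphMean_integral233 ν Y hYc ψ hψ B (fun a h' => hB (a, h')) h

end Leaf

end Fermat.Agent.LT.T7.H233

end

end
-- ===== PACK-END LT/T7/H233/SphAvg.lean

-- ===== PACK-BEGIN LT/T7/H904/ArchFibre.lean
section



/-!
# Row LT, tower T7, node T7.L2.1.H2a.A.3 `StepMC981`, leaf M.9 `ArchFibreC445` (helper904)

OFF-MAIN.  `archFibreC904 (K K') : H445.ArchFibreC445 K K'`, statement VERBATIM vs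
`LT/T7/H445/StepMSpec.lean` (helper445@308fe65c0, sha256 95c0ff93), UNCONDITIONAL.

Proof.  The Galois group (of order `ℓ`) acts transitively on the places over `v`
(`InfinitePlace.exists_smul_eq_of_comap_eq`), so the fibre has at most `ℓ` elements; the
enumeration has `ℓ` distinct members in the fibre, so it exhausts it.  (`TotCplx K` and the
primality of `ℓ` are not used.)
-/

set_option autoImplicit false
set_option linter.unusedSectionVars false
set_option linter.unusedVariables false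

open AutomorphicForm IsDedekindDomain NumberField MeasureTheory

noncomputable section

namespace Fermat.Agent.LT.T7.H904

open Fermat.Agent.LT.T7

/-- **LEAF M.9 = ARCH-FIBRE**, closed. -/
theorem archFibreC904 (K K' : Type) [Field K] [NumberField K] [Field K'] [NumberField K']
    [Algebra K K'] : H445.ArchFibreC445 K K' := by
  intro ℓ hcyc hK v w hov hinj w' hw'
  classical
  have : IsGalois K K' := hcyc.galois
  have hl : 0 < ℓ := hcyc.prime.pos
  have : Module.Finite K K' := Module.finite_of_finrank_pos (by rw [hcyc.degree]; exact hl)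
  have hcard : Nat.card (K' ≃ₐ[K] K') = ℓ := by
    rw [IsGalois.card_aut_eq_finrank, hcyc.degree]
  let _instF : Fintype (K' ≃ₐ[K] K') := Fintype.ofFinite _
  -- the fibre over `v`
  set S : Finset (InfinitePlace K') :=
    Finset.univ.filter (fun u => u.comap (algebraMap K K') = v) with hSdef
  have hS : S.card ≤ ℓ := by
    have hsub : S ⊆ (Finset.univ : Finset (K' ≃ₐ[K] K')).image (fun h => h • w 0) := by
      intro u hu
      have hu' : u.comap (algebraMap K K') = v := (Finset.mem_filter.mp hu).2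
      obtain ⟨h, hh⟩ := InfinitePlace.exists_smul_eq_of_comap_eq (k := K) (w := w 0) (w' := u)
        (by rw [hov 0, hu'])
      exact Finset.mem_image.mpr ⟨h, Finset.mem_univ _, hh⟩
    calc S.card ≤ ((Finset.univ : Finset (K' ≃ₐ[K] K')).image (fun h => h • w 0)).card :=
          Finset.card_le_card hsub
      _ ≤ (Finset.univ : Finset (K' ≃ₐ[K] K')).card := Finset.card_image_le
      _ = ℓ := by rw [Finset.card_univ, ← Nat.card_eq_fintype_card, hcard]
  -- the enumeration
  set I : Finset (InfinitePlace K') := (Finset.range ℓ).image w with hIdef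
  have hI : I.card = ℓ := by
    rw [Finset.card_image_of_injOn, Finset.card_range]
    intro a ha b hb hab
    exact hinj a b (Finset.mem_range.mp ha) (Finset.mem_range.mp hb) hab
  have hIS : I ⊆ S := by
    intro u hu
    obtain ⟨a, -, rfl⟩ := Finset.mem_image.mp hu
    exact Finset.mem_filter.mpr ⟨Finset.mem_univ _, hov a⟩
  have hEq : I = S := Finset.eq_of_subset_of_card_le hIS (by rw [hI]; exact hS)
  have hw'S : w' ∈ S := Finset.mem_filter.mpr ⟨Finset.mem_univ _, hw'⟩
  rw [← hEq] at hw'S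
  obtain ⟨j, hj, hjw⟩ := Finset.mem_image.mp hw'S
  exact ⟨j, Finset.mem_range.mp hj, hjw⟩

end Fermat.Agent.LT.T7.H904

end

end
-- ===== PACK-END LT/T7/H904/ArchFibre.lean

-- ===== PACK-BEGIN LT/T7/H589/StepTTop.lean
section



/-!
# Row LT, tower T7, node T7.L2.1.H2a.A.1 `B981.StepTC981` (helper589, registry 2814): THE TOP

OFF-MAIN.  `stepTC_of589`: the node from the leaves of `StepTSpec.lean`, VERBATIM for the shape
of record `H893.LocA893`.  No hole, nothing assumed.
-/

set_option autoImplicit false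

open AutomorphicForm IsDedekindDomain NumberField MeasureTheory
open scoped ComplexConjugate

noncomputable section

namespace Fermat.Agent.LT.T7.ST589

open Fermat.Agent.LT.H556 Fermat.Agent.LT.H556.A0 Fermat.Agent.LT.T7
open Fermat.Agent.LT.T7.H305 Fermat.Agent.LT.T7.H893

attribute [local instance] Fermat.Agent.LT.T5.instMeasurableSpaceG

variable {K K' : Type} [Field K] [NumberField K] [Field K'] [NumberField K'] [Algebra K K']

/-- **THE TOP**: `B981.StepTC981` for the shape of record from the leaves. -/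
theorem stepTC_of589 (hP : PlaceC589 K K') (hS' : SysC589 K') (hS : SysC589 K)
    (hT' : DTestC589 K') (hT : DTestC589 K) (hE' : DEkC589 K') (hE : DEkC589 K)
    (hU' : DSuppC589 K') (hU : DSuppC589 K) (hO' : DOpC589 K') (hO : DOpC589 K)
    (hSh : ShapeTC589 K K') : B981.StepTC981 K K' H893.LocA893 := by
  intro ℓ hcyc hℓ hcplx Φ B hB hRam 𝔫 hlev μc hμc T₀ n n₀ m hexp x hx hxout φ f hgood
  obtain ⟨w, rfl⟩ := hx
  have hw : w ∉ B.S' := hxout
  obtain ⟨v, d, hvd⟩ := hP.1 ℓ hcyc w
  have hw𝔑 : ¬ w.asIdeal ∣ upI (K' := K') 𝔫 := fun h => hw ((hlev.mem_S'_g w).2 h)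
  have hw𝔑₀ : ¬ w.asIdeal ∣ B.𝔑₀ := fun h => hw ((hB.mem_S' w).2 h)
  have hv𝔫 : ¬ v.asIdeal ∣ 𝔫 := fun h => hw𝔑 (hP.2 𝔫 v w hvd.1 h)
  obtain ⟨H', z', hH', hz'⟩ := hS' w
  obtain ⟨H, z, hH, hz⟩ := hS v
  have htest' := hT' (upI (K' := K') 𝔫) w hw𝔑 H' z' hH' hz' φ hgood.up_test
  have htest := hT 𝔫 v hv𝔫 H z hH hz f hgood.dn_test
  have horb' : ∀ j : ℕ, j < ℓ → B.o j ≠ w := fun j _ h => hw (h ▸ hB.orbit_level j)
  have horb : ∀ j : ℕ, j < 1 → (fun _ : ℕ => B.u) j ≠ v := fun j _ h =>
    hv𝔫 (h ▸ hlev.u_level)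
  refine ⟨(dStep589 w H' z' 1 φ, dStep589 v H z d f),
    ⟨htest' 1, ?_, htest d, ?_, ?_, ?_, ?_⟩, ⟨?_, ?_⟩⟩
  · exact hE' B.R' hB.frame' (upI (K' := K') 𝔫) w hw𝔑 H' z' hH' hz' φ hgood.up_test htest'
      hgood.up_ek.1 hgood.up_ek.2 1
  · exact hE B.R hB.frame 𝔫 v hv𝔫 H z hH hz f hgood.dn_test htest
      hgood.dn_ek.1 hgood.dn_ek.2 d
  · exact hU' ℓ B.o w horb' H' z' hH' hz' φ hgood.up_supp 1
  · exact hU 1 (fun _ => B.u) v horb H z hH hz f hgood.dn_supp d
  · exact hSh hT' hT ℓ hcyc hℓ hcplx Φ B hB hRam 𝔫 hlev μc hμc T₀ n n₀ m hexp w hw v d hvd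
      H' z' H z hH' hz' hH hz φ f hgood
  · intro χ C hχ y
    have h := hO' B.R' hB.frame' (upI (K' := K') 𝔫) B.𝔑₀ hlev.level_g w hw𝔑 H' z' hH' hz' φ
      hgood.up_test htest' χ (C.a w) (C.b w) hχ.inv.cusp.cont hχ.inv.cusp.aut.level_inv
      (hχ.hecke w hw𝔑₀) 1 y
    simpa [Gen.ev] using h
  · intro χ c C hχ hbc y
    have h := hO B.R hB.frame 𝔫 𝔫 le_rfl v hv𝔫 H z hH hz f
      hgood.dn_test htest χ (c.a v) (c.b v) hχ.inv.cusp.cont hχ.inv.cusp.aut.level_inv
      (hχ.hecke v hv𝔫) d y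
    rw [h]
    have hC := (hbc.1 w hw v d hvd).1
    simp only [Gen.ev]
    rw [hC]

end Fermat.Agent.LT.T7.ST589

end

end
-- ===== PACK-END LT/T7/H589/StepTTop.lean

-- ===== PACK-BEGIN LT/T7/H562/DSupp.lean
section



/-!
# Row LT, tower T7, LEAF ST.5 `DSuppC589` (helper589, `T7/H589/StepTSpec.lean`): CLOSED

OFF-MAIN, ADDITIVE (new names only, suffix `562`, namespace `Fermat.Agent.LT.T7.H562`).
No hole, nothing assumed.

    dSuppC562 (F) : ST589.DSuppC589 F

The steps `dStep589 v H z d` at a place `v` outside the orbit preserve the Iwahori supports: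
right translates by elements supported at `v`, finite sums, differences, scalar multiples.
-/

set_option autoImplicit false

open AutomorphicForm IsDedekindDomain NumberField MeasureTheory

noncomputable section

namespace Fermat.Agent.LT.T7.H562

open Fermat.Agent.LT.H556 Fermat.Agent.LT.H556.A0 Fermat.Agent.LT.T7
open Fermat.Agent.LT.T7.H305

variable {F : Type} [Field F] [NumberField F]

theorem finGL_eq_one_of_trivD562 {v : HeightOneSpectrum (𝓞 F)} {z : G F}
    (h : TrivAtFin v z) : finGL305 v z = 1 :=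
  Units.ext h

theorem infGL_eq_one_of_trivD562 {w : InfinitePlace F} {z : G F}
    (h : TrivAtInf w z) : infGL305 w z = 1 := by
  apply Units.ext
  ext i j
  show InfinitePlace.Completion.extensionEmbedding w
      (((z : Matrix (Fin 2) (Fin 2) (Adl F)) i j).1 w) = (1 : Matrix (Fin 2) (Fin 2) ℂ) i j
  rw [h i j]
  by_cases hij : i = j
  · subst hij; simp
  · simp [hij]

/-- The Iwahori condition at `w` depends on the component at `w` only. -/
theorem inIwahori_congrD562 {w : HeightOneSpectrum (𝓞 F)} {g g' : G F}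
    (h : finGL305 w g = finGL305 w g') (hg : T5.InIwahori w g) : T5.InIwahori w g' := by
  have e1 : finComp w g = finComp w g' :=
    congrArg (fun u : GL (Fin 2) (w.adicCompletion F) =>
      (u : Matrix (Fin 2) (Fin 2) (w.adicCompletion F))) h
  have e2 : finComp w g⁻¹ = finComp w g'⁻¹ := by
    have h' : finGL305 w g⁻¹ = finGL305 w g'⁻¹ := by rw [map_inv, map_inv, h]
    exact congrArg (fun u : GL (Fin 2) (w.adicCompletion F) =>
      (u : Matrix (Fin 2) (Fin 2) (w.adicCompletion F))) h'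
  obtain ⟨h1, h2, h3⟩ := hg
  refine ⟨fun i j => ?_, fun i j => ?_, ?_⟩
  · have := h1 i j
    rw [e1] at this
    exact this
  · have := h2 i j
    rw [e2] at this
    exact this
  · rw [e1] at h3
    exact h3

/-- `b` is trivial at infinity and at the places of the orbit. -/
def IsOffOrbit562 (l : ℕ) (o : ℕ → HeightOneSpectrum (𝓞 F)) (b : G F) : Prop :=
  (∀ w : InfinitePlace F, infGL305 w b = 1) ∧ ∀ j : ℕ, j < l → finGL305 (o j) b = 1

theorem isOffOrbit_of_local562 {l : ℕ} {o : ℕ → HeightOneSpectrum (𝓞 F)}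
    {v : HeightOneSpectrum (𝓞 F)} (hov : ∀ j : ℕ, j < l → o j ≠ v) {b : G F}
    (hb : IsLocalAtFin v b) : IsOffOrbit562 l o b :=
  ⟨fun w => infGL_eq_one_of_trivD562 (hb.1 w),
    fun j hj => finGL_eq_one_of_trivD562 (hb.2 (o j) (hov j hj))⟩

theorem IsOffOrbit562.mul {l : ℕ} {o : ℕ → HeightOneSpectrum (𝓞 F)} {a b : G F}
    (ha : IsOffOrbit562 l o a) (hb : IsOffOrbit562 l o b) : IsOffOrbit562 l o (a * b) :=
  ⟨fun w => by rw [map_mul, ha.1 w, hb.1 w, one_mul],
    fun j hj => by rw [map_mul, ha.2 j hj, hb.2 j hj, one_mul]⟩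

theorem IsOffOrbit562.inv {l : ℕ} {o : ℕ → HeightOneSpectrum (𝓞 F)} {a : G F}
    (ha : IsOffOrbit562 l o a) : IsOffOrbit562 l o a⁻¹ :=
  ⟨fun w => by rw [map_inv, ha.1 w, inv_one],
    fun j hj => by rw [map_inv, ha.2 j hj, inv_one]⟩

/-- Right translation by an element which is trivial along the orbit and at infinity. -/
theorem iwSupp_rtr562 {l : ℕ} {o : ℕ → HeightOneSpectrum (𝓞 F)} {b : G F}
    (hb : IsOffOrbit562 l o b) {C : Set (G F)} {f : G F → ℂ}
    (hf : T5.H32.IsIwSupported32 l o C f) :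
    T5.H32.IsIwSupported32 l o ((fun h => h * b⁻¹) '' C) (fun g => f (g * b)) := by
  intro y hy
  obtain ⟨hIw, h, hhC, hag⟩ := hf (y * b) hy
  refine ⟨fun j hj => ?_, h * b⁻¹, ⟨h, hhC, rfl⟩, fun w => ?_, fun v' hv' => ?_⟩
  · refine inIwahori_congrD562 ?_ (hIw j hj)
    rw [map_mul, hb.2 j hj, mul_one]
  · have h1 : infGL305 w (y * b) = infGL305 w h := Units.ext (hag.1 w)
    have h2 : infGL305 w y = infGL305 w (h * b⁻¹) := by
      have hy' : y = (y * b) * b⁻¹ := by group
      rw [hy', map_mul, h1, map_mul]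
    exact congrArg (fun u : GL (Fin 2) ℂ => (u : Matrix (Fin 2) (Fin 2) ℂ)) h2
  · have h1 : finGL305 v' (y * b) = finGL305 v' h := Units.ext (hag.2 v' hv')
    have h2 : finGL305 v' y = finGL305 v' (h * b⁻¹) := by
      have hy' : y = (y * b) * b⁻¹ := by group
      rw [hy', map_mul, h1, map_mul]
    exact congrArg (fun u : GL (Fin 2) (v'.adicCompletion F) =>
      (u : Matrix (Fin 2) (Fin 2) (v'.adicCompletion F))) h2

theorem iwSupp_mono562 {l : ℕ} {o : ℕ → HeightOneSpectrum (𝓞 F)} {C C' : Set (G F)}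
    (hCC : C ⊆ C') {f : G F → ℂ} (hf : T5.H32.IsIwSupported32 l o C f) :
    T5.H32.IsIwSupported32 l o C' f := by
  intro y hy
  obtain ⟨hIw, h, hhC, hag⟩ := hf y hy
  exact ⟨hIw, h, hCC hhC, hag⟩

theorem iwSupp_of_ne562 {l : ℕ} {o : ℕ → HeightOneSpectrum (𝓞 F)} {C : Set (G F)}
    {f f' : G F → ℂ} (hf : T5.H32.IsIwSupported32 l o C f)
    (h : ∀ y, f' y ≠ 0 → f y ≠ 0) : T5.H32.IsIwSupported32 l o C f' :=
  fun y hy => hf y (h y hy)

/-- The existence form: compact Iwahori supports. -/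
def HasIwSupp562 (l : ℕ) (o : ℕ → HeightOneSpectrum (𝓞 F)) (f : G F → ℂ) : Prop :=
  ∃ C : Set (G F), IsCompact C ∧ T5.H32.IsIwSupported32 l o C f

theorem hasIwSupp_rtr562 {l : ℕ} {o : ℕ → HeightOneSpectrum (𝓞 F)} {b : G F}
    (hb : IsOffOrbit562 l o b) {f : G F → ℂ} (hf : HasIwSupp562 l o f) :
    HasIwSupp562 l o (fun g => f (g * b)) := by
  obtain ⟨C, hC, hf⟩ := hf
  exact ⟨_, hC.image (continuous_mul_const _), iwSupp_rtr562 hb hf⟩

theorem hasIwSupp_smul562 {l : ℕ} {o : ℕ → HeightOneSpectrum (𝓞 F)} (c : ℂ) {f : G F → ℂ}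
    (hf : HasIwSupp562 l o f) : HasIwSupp562 l o (fun g => c * f g) := by
  obtain ⟨C, hC, hf⟩ := hf
  exact ⟨C, hC, iwSupp_of_ne562 hf fun y hy => right_ne_zero_of_mul hy⟩

theorem hasIwSupp_sub562 {l : ℕ} {o : ℕ → HeightOneSpectrum (𝓞 F)} {f₁ f₂ : G F → ℂ}
    (h₁ : HasIwSupp562 l o f₁) (h₂ : HasIwSupp562 l o f₂) :
    HasIwSupp562 l o (fun g => f₁ g - f₂ g) := by
  obtain ⟨C₁, hC₁, hf₁⟩ := h₁
  obtain ⟨C₂, hC₂, hf₂⟩ := h₂
  refine ⟨C₁ ∪ C₂, hC₁.union hC₂, ?_⟩
  intro y hy
  by_cases h1 : f₁ y = 0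
  · have h2 : f₂ y ≠ 0 := by
      intro h2
      apply hy
      show f₁ y - f₂ y = 0
      rw [h1, h2, sub_zero]
    exact iwSupp_mono562 Set.subset_union_right hf₂ y h2
  · exact iwSupp_mono562 Set.subset_union_left hf₁ y h1

theorem hasIwSupp_sum562 {l : ℕ} {o : ℕ → HeightOneSpectrum (𝓞 F)} {ι : Type}
    (s : Finset ι) (f : ι → G F → ℂ) (h : ∀ i ∈ s, HasIwSupp562 l o (f i)) :
    HasIwSupp562 l o (fun g => ∑ i ∈ s, f i g) := by
  classical
  induction s using Finset.induction_on with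
  | empty =>
    refine ⟨∅, isCompact_empty, ?_⟩
    intro y hy
    exact absurd (Finset.sum_empty) hy
  | insert a s ha ih =>
    obtain ⟨C₁, hC₁, hf₁⟩ := h a (Finset.mem_insert_self a s)
    obtain ⟨C₂, hC₂, hf₂⟩ := ih fun i hi => h i (Finset.mem_insert_of_mem hi)
    refine ⟨C₁ ∪ C₂, hC₁.union hC₂, ?_⟩
    intro y hy
    have hy' : f a y + ∑ i ∈ s, f i y ≠ 0 := by
      have e := Finset.sum_insert (f := fun i => f i y) ha
      intro h0
      apply hy
      show ∑ i ∈ insert a s, f i y = 0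
      rw [e]
      exact h0
    by_cases h1 : f a y = 0
    · have h2 : (∑ i ∈ s, f i y) ≠ 0 := by
        intro h2
        apply hy'
        rw [h1, h2, add_zero]
      exact iwSupp_mono562 Set.subset_union_right hf₂ y h2
    · exact iwSupp_mono562 Set.subset_union_left hf₁ y h1

theorem hasIwSupp_tStep562 {l : ℕ} {o : ℕ → HeightOneSpectrum (𝓞 F)}
    {v : HeightOneSpectrum (𝓞 F)} (hov : ∀ j : ℕ, j < l → o j ≠ v)
    {H : Finset (G F)} {z : G F} (hH : IsHeckeCosetSystem v H)
    (hz : IsScalarUniformizerAt v z) {f : G F → ℂ} (hf : HasIwSupp562 l o f) :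
    HasIwSupp562 l o (ST589.tStep589 v H z f) := by
  have hzo : IsOffOrbit562 l o z := isOffOrbit_of_local562 hov hz.1
  have key : HasIwSupp562 l o (fun g => ∑ h ∈ H, f (g * (z⁻¹ * h))) := by
    refine hasIwSupp_sum562 H (fun h g => f (g * (z⁻¹ * h))) fun h hh => ?_
    exact hasIwSupp_rtr562 (hzo.inv.mul (isOffOrbit_of_local562 hov (hH.2.1 h hh).1)) hf
  have key2 := hasIwSupp_smul562 (((Real.sqrt (Ideal.absNorm v.asIdeal : ℝ) : ℝ) : ℂ)⁻¹) key
  obtain ⟨C, hC, hCf⟩ := key2
  refine ⟨C, hC, ?_⟩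
  intro y hy
  refine hCf y ?_
  have e : ST589.tStep589 v H z f y
      = ((Real.sqrt (Ideal.absNorm v.asIdeal : ℝ) : ℝ) : ℂ)⁻¹
        * ∑ h ∈ H, f (y * (z⁻¹ * h)) := by
    show ((Real.sqrt (Ideal.absNorm v.asIdeal : ℝ) : ℝ) : ℂ)⁻¹ * ∑ h ∈ H, f (y * z⁻¹ * h) = _
    congr 1
    refine Finset.sum_congr rfl fun h _ => ?_
    rw [mul_assoc]
  show ((Real.sqrt (Ideal.absNorm v.asIdeal : ℝ) : ℝ) : ℂ)⁻¹
      * ∑ h ∈ H, f (y * (z⁻¹ * h)) ≠ 0
  rw [← e]
  exact hy

theorem hasIwSupp_sStep562 {l : ℕ} {o : ℕ → HeightOneSpectrum (𝓞 F)}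
    {v : HeightOneSpectrum (𝓞 F)} (hov : ∀ j : ℕ, j < l → o j ≠ v)
    {z : G F} (hz : IsScalarUniformizerAt v z) {f : G F → ℂ} (hf : HasIwSupp562 l o f) :
    HasIwSupp562 l o (ST589.sStep589 z f) :=
  hasIwSupp_rtr562 (isOffOrbit_of_local562 hov hz.1).inv hf

/-- **LEAF ST.5 `DSuppC589`: CLOSED.** -/
theorem dSuppC562 (F : Type) [Field F] [NumberField F] : ST589.DSuppC589 F := by
  intro l o v hov H z hH hz f hf
  have hf' : HasIwSupp562 l o f := hf
  have main : ∀ d : ℕ, HasIwSupp562 l o (ST589.dStep589 v H z d f) ∧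
      HasIwSupp562 l o (ST589.dStep589 v H z (d + 1) f) := by
    intro d
    induction d with
    | zero =>
      exact ⟨hasIwSupp_smul562 2 hf', hasIwSupp_tStep562 hov hH hz hf'⟩
    | succ d ih =>
      refine ⟨ih.2, ?_⟩
      exact hasIwSupp_sub562 (hasIwSupp_tStep562 hov hH hz ih.2)
        (hasIwSupp_sStep562 hov hz ih.1)
  intro d
  exact (main d).1

end Fermat.Agent.LT.T7.H562

end
end
-- ===== PACK-END LT/T7/H562/DSupp.lean

-- ===== PACK-BEGIN LT/T7/H311/ShapeTSpec.lean
section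




/-!
# Row LT, tower T7, node T7.L2.1.H2a.A.1.7 `ST589.ShapeTC589` (sub-architect helper311):
# THE CUT -- Spec

OFF-MAIN.  Definitions and frozen Props only (the proved top is `ShapeTTop.lean`).  No hole,
nothing assumed.  ADDITIVE (new names only, suffix `311`).  Vocabulary: `T7/H589/StepTSpec.lean`
(helper589@2f2879f43, sha256 f2cef127), `T7/B981/H503/StepSSpec.lean` (helper503, b4d9e9b9),
byte-identical copies.

    shapeTC_of311 : PureDC311 K' → PureDC311 K → SphDC311 K' → SphDC311 K → DContC311 K'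
        → DContC311 K → DSuppC311 K' → DSuppC311 K → DIntC311 K' → DIntC311 K
        → SS503.PlacesC503 K K' → SS503.UnitSphC503 → ST589.ShapeTC589 K K'      (VERBATIM)

    sphDC_of311 : SphTC311 F → SS503.SphShiftC503 → SphDC311 F

## The local steps

`v` a finite place of `F`, `H` a Hecke coset system at `v`, `z` a scalar uniformiser at `v`;
`h_v = finGL305 v h`, `c = finGL305 v z` (a scalar matrix, `|c₀| = exp(-1)`), `q = N v`.  On the
functions on `GL₂(F_v)`:

    locT311 v H z ψ (x) = q^{-1/2} ∑_{h ∈ H} ψ (x c⁻¹ h_v)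
    locS311 v z ψ (x)   = ψ (x c⁻¹)
    locD311 v H z 0 ψ = 2 ψ,   locD311 v H z 1 ψ = locT311 v H z ψ,
    locD311 v H z (d+2) ψ = locT311 v H z (locD311 v H z (d+1) ψ) - locS311 v z (locD311 v H z d ψ)

(the local forms of `ST589.tStep589`, `sStep589`, `dStep589`).

## The leaves

* **`PureDC311 F`** [L] (ONE field, bookkeeping on components): `dStep589 v H z d` of a pure
  tensor is the pure tensor for the set `T ∪ P` (`v ∈ P`) with the components extended by the
  unit outside `T` and the component at `v` replaced by its local step `locD311 v H z d`.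
* **`SphTC311 F`** [L-XL] (LOCAL; the Hecke algebra of `GL₂(F_v)`, count on the tree): the local
  step `locT311` of the spherical function with the values `A` is the spherical function with
  the values `A'`, `A'(a, b) = q^{-1/2} (q A(a, b-1) + A(a-1, b))` (`a > b`),
  `A'(a, a) = q^{-1/2} (q + 1) A(a, a-1)`; its Satake transform is `(x + y)` times the one of `A`.
* **`SphDC311 F`** [M, from `SphTC311` and the closed leaf `SS503.SphShiftC503`]: the same for
  `locD311 v H z d` with the factor `x^d + y^d` (the recursion of the Dickson polynomials).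
* **`DContC311 F`** [S-M], **`DSuppC311 F`** [S-M], **`DIntC311 F`** [M] (ONE field; Mathlib +
  the definition of `dStep589`): `dStep589 v H z d` preserves the joint continuity of a family,
  the common compact support of a family, and commutes with the integral over a compact
  parameter space with a finite measure.
* `SS503.PlacesC503 K K'`, `SS503.UnitSphC503`: CLOSED leaves of the cut of helper503.

## FALSITY CHECKS (helper311)

(a) `SphTC311`, `ψ = 1_{GL₂(𝒪)}` (`A = δ_{(0,0)}`): `x c⁻¹ h_v ∈ GL₂(𝒪)` iff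
`GL₂(𝒪) x = GL₂(𝒪) h_v⁻¹ c`, and `h ↦ GL₂(𝒪) h_v⁻¹ c` is a bijection of `H` onto
`GL₂(𝒪) \ GL₂(𝒪) λ GL₂(𝒪)`; so `locT311 ψ = q^{-1/2} 1_{K λ K}`, `A' = q^{-1/2} δ_{(1,0)}`,
transform `q^{-1/2} · √q (x + y) = x + y`.  OK.
(b) `SphTC311`, `A = δ_{(α, β)}`, `m = α - β`: `m ≥ 2`: `A' = q^{1/2} δ_{(α, β+1)} + q^{-1/2}
δ_{(α+1, β)}`, transform `(x y)^β (q^{1/2} x y p_{m-1} + q^{-1/2} p_{m+1}) = (x y)^β (x + y) p_m`
(`p_{m+1} = √q (x+y) p_m - q x y p_{m-1}`: the rule `n + 3` of `T6.satPoly`).  `m = 1`: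
`A' = q^{-1/2} (q+1) δ_{(α, α)} + q^{-1/2} δ_{(α+1, β)}`, transform
`q^{-1/2} (x y)^β ((q+1) x y + p₂) = q^{-1/2} (x y)^β p₁² = (x y)^β (x + y) p₁` (the rule `2`).
`m = 0`: `A' = q^{-1/2} δ_{(α+1, α)}`, transform `(x y)^α (x + y)`.  OK.
(c) `locS311`: `SS503.SphShiftC503` with `t = 1` (values `shA503 1 A`, transform multiplied by
`x y`); `(x + y)(x^{d+1} + y^{d+1}) - x y (x^d + y^d) = x^{d+2} + y^{d+2}`; `d = 0`: `2 A`.  OK.
(d) `PureDC311`, `d = 0`: `2 · pure305 (T ∪ P) (extU503 T f₀) F = 2 · pure305 T f₀ F`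
(`H305.PureExtC305`).  `d = 1`: `z⁻¹ h` is supported at `v ∈ T ∪ P` (`IsLocalAtFin`), so
`OutT305 (T ∪ P)`, the components at the other places and at infinity do not change.  The sum
over `h ∈ H` is inside the component at `v`.  Induction: the right hand side is linear in the
function, the left hand side in the component at `v`.  OK.
(e) the top: upstairs `d = 1` at `w`, `N w = (N v)^d`; `w` the only place over `v` (unramified:
`B.RamIn`): `d = ℓ`, `T6.IsBC ℓ q` is kept: `(x^ℓ + y^ℓ) f^∨(x, y) = (X + Y) φ^∨(X, Y)` at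
`X = x^ℓ`, `Y = y^ℓ`; `v` split: `d = 1`, `N w = N v`, ONE factor of the product is multiplied by
`x + y`.  OK.
-/

set_option autoImplicit false

open AutomorphicForm IsDedekindDomain NumberField MeasureTheory
open scoped ComplexConjugate

noncomputable section

namespace Fermat.Agent.LT.T7.H311

open Fermat.Agent.LT.H556 Fermat.Agent.LT.H556.A0 Fermat.Agent.LT.T7
open Fermat.Agent.LT.T7.H305 Fermat.Agent.LT.T7.H893 Fermat.Agent.LT.T7.B981
open Fermat.Agent.LT.T7.ST589

attribute [local instance] Fermat.Agent.LT.T5.instMeasurableSpaceG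

/-! ## 1. The local steps -/

section Steps

variable {F : Type} [Field F] [NumberField F]

/-- **The local step of `T_v`**: `q_v^{-1/2} ∑_{h ∈ H} ψ (x c⁻¹ h_v)`. -/
def locT311 (v : HeightOneSpectrum (𝓞 F)) (H : Finset (G F)) (z : G F)
    (ψ : GL (Fin 2) (v.adicCompletion F) → ℂ) : GL (Fin 2) (v.adicCompletion F) → ℂ :=
  fun x => ((Real.sqrt (Ideal.absNorm v.asIdeal : ℝ) : ℝ) : ℂ)⁻¹
    * ∑ h ∈ H, ψ (x * (finGL305 v z)⁻¹ * finGL305 v h)

/-- **The local step of `S_v`**: `ψ (x c⁻¹)`. -/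
def locS311 (v : HeightOneSpectrum (𝓞 F)) (z : G F)
    (ψ : GL (Fin 2) (v.adicCompletion F) → ℂ) : GL (Fin 2) (v.adicCompletion F) → ℂ :=
  fun x => ψ (x * (finGL305 v z)⁻¹)

/-- **The local step of the Dickson polynomial `x^d + y^d`** (the local form of
`ST589.dStep589`). -/
def locD311 (v : HeightOneSpectrum (𝓞 F)) (H : Finset (G F)) (z : G F) :
    ℕ → (GL (Fin 2) (v.adicCompletion F) → ℂ) → GL (Fin 2) (v.adicCompletion F) → ℂ
  | 0, ψ => fun x => 2 * ψ x
  | 1, ψ => locT311 v H z ψ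
  | (d + 2), ψ => fun x =>
      locT311 v H z (locD311 v H z (d + 1) ψ) x - locS311 v z (locD311 v H z d ψ) x

end Steps

/-! ## 2. The leaves (ONE field) -/

section OneField

variable (F : Type) [Field F] [NumberField F]

/-- **LEAF ShT.1 = PURE-D ([L]; bookkeeping on components).**  See the header, (d). -/
def PureDC311 : Prop :=
  open Classical in
  ∀ (T P : Finset (HeightOneSpectrum (𝓞 F)))
    (f₀ : ∀ v : HeightOneSpectrum (𝓞 F), GL (Fin 2) (v.adicCompletion F) → ℂ)
    (Fc : InfinitePlace F → GL (Fin 2) ℂ → ℂ) (v : HeightOneSpectrum (𝓞 F)), v ∈ P →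
    ∀ (H : Finset (G F)) (z : G F), IsHeckeCosetSystem v H → IsScalarUniformizerAt v z →
    ∀ (d : ℕ) (h : G F),
      pure305 (T ∪ P)
          (Function.update (SS503.extU503 T f₀) v (locD311 v H z d (SS503.extU503 T f₀ v))) Fc h
        = dStep589 v H z d (pure305 T f₀ Fc) h

/-- **LEAF ShT.2 = SPH-T ([L-XL]; LOCAL: the Hecke algebra of `GL₂(F_v)`).**  The local step of
`T_v` of a spherical function is spherical, and its Satake transform is multiplied by `x + y`.
See the header, (a), (b). -/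
def SphTC311 : Prop :=
  ∀ (v : HeightOneSpectrum (𝓞 F)) (H : Finset (G F)) (z : G F),
    IsHeckeCosetSystem v H → IsScalarUniformizerAt v z →
    ∀ (ψ : GL (Fin 2) (v.adicCompletion F) → ℂ) (A : (ℤ × ℤ) →₀ ℂ), IsSphFn893 ψ A →
      ∃ A' : (ℤ × ℤ) →₀ ℂ, IsSphFn893 (locT311 v H z ψ) A' ∧
        ∀ x y : ℂ, x ≠ 0 → y ≠ 0 →
          satT893 (Ideal.absNorm v.asIdeal) A' x y
            = (x + y) * satT893 (Ideal.absNorm v.asIdeal) A x y

/-- **LEAF ShT.3 = SPH-D ([M]; from `SphTC311` and `SS503.SphShiftC503`).**  The local step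
`locD311 v H z d` of a spherical function is spherical, and its Satake transform is multiplied
by `x^d + y^d`.  See the header, (c). -/
def SphDC311 : Prop :=
  ∀ (v : HeightOneSpectrum (𝓞 F)) (H : Finset (G F)) (z : G F),
    IsHeckeCosetSystem v H → IsScalarUniformizerAt v z →
    ∀ (d : ℕ) (ψ : GL (Fin 2) (v.adicCompletion F) → ℂ) (A : (ℤ × ℤ) →₀ ℂ), IsSphFn893 ψ A →
      ∃ A' : (ℤ × ℤ) →₀ ℂ, IsSphFn893 (locD311 v H z d ψ) A' ∧
        ∀ x y : ℂ, x ≠ 0 → y ≠ 0 →
          satT893 (Ideal.absNorm v.asIdeal) A' x y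
            = (x ^ d + y ^ d) * satT893 (Ideal.absNorm v.asIdeal) A x y

/-- **LEAF ShT.3' = SPH-REC ([M]).**  `SphDC311` from `SphTC311` and the closed leaf
`SS503.SphShiftC503` (induction on `d`; the values of a difference are the difference of the
values, `satT893` is additive). -/
def SphRecC311 : Prop :=
  SphTC311 F → SS503.SphShiftC503 → SphDC311 F

/-- **LEAF ShT.4 = D-CONT ([S-M]).**  `dStep589` preserves the joint continuity of a family.
Proof.  Induction on `d`; finite sums of compositions with `(a, g) ↦ (a, g z⁻¹ h)`. -/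
def DContC311 : Prop :=
  ∀ (Ω : Type) [TopologicalSpace Ω] (f : Ω → G F → ℂ),
    Continuous (fun p : Ω × G F => f p.1 p.2) →
    ∀ (v : HeightOneSpectrum (𝓞 F)) (H : Finset (G F)) (z : G F) (d : ℕ),
      Continuous (fun p : Ω × G F => dStep589 v H z d (f p.1) p.2)

/-- **LEAF ShT.5 = D-SUPP ([S-M]).**  `dStep589` preserves the common compact support of a
family.
Proof.  Induction on `d`; `tStep589`: the union of the translates `C (z⁻¹ h)⁻¹`, `h ∈ H`. -/
def DSuppC311 : Prop :=
  ∀ (Ω : Type) (f : Ω → G F → ℂ) (C : Set (G F)), IsCompact C →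
    (∀ (a : Ω) (h : G F), f a h ≠ 0 → h ∈ C) →
    ∀ (v : HeightOneSpectrum (𝓞 F)) (H : Finset (G F)) (z : G F) (d : ℕ),
      ∃ C' : Set (G F), IsCompact C' ∧
        ∀ (a : Ω) (h : G F), dStep589 v H z d (f a) h ≠ 0 → h ∈ C'

/-- **LEAF ShT.6 = D-INT ([M]).**  `dStep589` commutes with the integral of a jointly
continuous family over a compact parameter space with a finite measure.
Proof.  Induction on `d`; `a ↦ f a x` is continuous on the compact space `Ω`, hence bounded,
hence integrable for the finite measure `ν`; the integral is linear. -/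
def DIntC311 : Prop :=
  ∀ (Ω : Type) [TopologicalSpace Ω] [CompactSpace Ω] [MeasurableSpace Ω] [BorelSpace Ω]
    (ν : Measure Ω) [IsFiniteMeasure ν] (f : Ω → G F → ℂ),
    Continuous (fun p : Ω × G F => f p.1 p.2) →
    ∀ φ : G F → ℂ, (∀ h : G F, φ h = ∫ a, f a h ∂ν) →
    ∀ (v : HeightOneSpectrum (𝓞 F)) (H : Finset (G F)) (z : G F) (d : ℕ) (h : G F),
      dStep589 v H z d φ h = ∫ a, dStep589 v H z d (f a) h ∂ν

end OneField

/-! ## Appendix: the equation lemmas of the definitions of this file are realised HERE -/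

theorem eqns_realised_shapeT311 : True := by
  have _a0 := @locT311.eq_1
  have _a1 := @locS311.eq_1
  have _a2 := @locD311.eq_1
  have _a3 := @locD311.eq_2
  have _a4 := @locD311.eq_3
  have _a5 := @locD311.eq_def
  have _a6 := @locT311.eq_def
  have _a7 := @locS311.eq_def
  have _b0 := @PureDC311.eq_1
  have _b1 := @SphTC311.eq_1
  have _b2 := @SphDC311.eq_1
  have _b3 := @SphRecC311.eq_1
  have _b4 := @DContC311.eq_1
  have _b5 := @DSuppC311.eq_1
  have _b6 := @DIntC311.eq_1
  have _c0 := @PureDC311.eq_def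
  have _c1 := @SphTC311.eq_def
  have _c2 := @SphDC311.eq_def
  have _c3 := @SphRecC311.eq_def
  have _c4 := @DContC311.eq_def
  have _c5 := @DSuppC311.eq_def
  have _c6 := @DIntC311.eq_def
  have _d0 := @locT311.eq_unfold
  have _d1 := @locS311.eq_unfold
  have _d2 := @locD311.eq_unfold
  have _d3 := @PureDC311.eq_unfold
  have _d4 := @SphTC311.eq_unfold
  have _d5 := @SphDC311.eq_unfold
  have _d6 := @SphRecC311.eq_unfold
  have _d7 := @DContC311.eq_unfold
  have _d8 := @DSuppC311.eq_unfold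
  have _d9 := @DIntC311.eq_unfold
  trivial

end Fermat.Agent.LT.T7.H311

end

end
-- ===== PACK-END LT/T7/H311/ShapeTSpec.lean

-- ===== PACK-BEGIN LT/T7/H681/SatInj.lean
section


/-!
# Row LT, tower T7, node T7.L2.1.H2b.3 `H893.SphHypC893` (helper681, SPARE), OFF-MAIN -- part 1:
# the Satake transform is injective (T6 form)

No hole, nothing assumed.  ADDITIVE (new names only, suffix `681`, namespace
`Fermat.Agent.LT.T7.H681`).

* `satCoef681 D lam` : the coefficients of the Satake transform of `1_{K lam K}`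
  (`A_{n,b} - A_{n-2,b+1}`, `lam = (n + b, b)`);
* `laur_satCoef681` : its Laurent polynomial is `T6.satake q lam`;
* `satCoef_self681`, `satCoef_zero681` : triangularity;
* `satT_inj681` : two dominant functions with the same Satake transform are equal.
-/

set_option autoImplicit false
set_option linter.unusedSectionVars false

open scoped Classical

noncomputable section

namespace Fermat.Agent.LT.T7.H681

open Fermat.Agent.LT.T6 Fermat.Agent.LT.T6.H305 Fermat.Agent.LT.T3.AS Fermat.Agent.LT.T3.H263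
  Fermat.Agent.LT.T3.H681

section Abstract

variable {k : Type} [Field k] [Valued k Γ₀]

/-- The coefficients of the Satake transform of the double coset `lam`. -/
def satCoef681 (D : ResData k) (lam m : ℤ × ℤ) : ℂ :=
  Acoef263 D (lam.1 - lam.2).toNat lam.2 m
    - (if 2 ≤ (lam.1 - lam.2).toNat
        then Acoef263 D ((lam.1 - lam.2).toNat - 2) (lam.2 + 1) m else 0)

/-- A finite set which contains the support of `satCoef681 D lam`. -/
def satSupp681 (lam : ℤ × ℤ) : Finset (ℤ × ℤ) :=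
  (Finset.HasAntidiagonal.antidiagonal (lam.1 - lam.2).toNat).image
      (fun p : ℕ × ℕ => ((lam.2 + (p.1 : ℤ), lam.2 + (p.2 : ℤ)) : ℤ × ℤ))
    ∪ (Finset.HasAntidiagonal.antidiagonal ((lam.1 - lam.2).toNat - 2)).image
      (fun p : ℕ × ℕ => ((lam.2 + 1 + (p.1 : ℤ), lam.2 + 1 + (p.2 : ℤ)) : ℤ × ℤ))

theorem eqns_realised_satInj681 : True := by
  have _h0 := @satCoef681.eq_1
  have _h1 := @satSupp681.eq_1
  have _g0 := @satCoef681.eq_def
  have _g1 := @satSupp681.eq_def
  trivial

theorem satCoef_mem681 (D : ResData k) (lam m : ℤ × ℤ) (h : satCoef681 D lam m ≠ 0) :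
    m ∈ satSupp681 lam := by
  unfold satSupp681
  rw [Finset.mem_union]
  by_cases h1 : Acoef263 D (lam.1 - lam.2).toNat lam.2 m = 0
  · right
    have h2 : Acoef263 D ((lam.1 - lam.2).toNat - 2) (lam.2 + 1) m ≠ 0 := by
      intro h2
      apply h
      unfold satCoef681
      rw [h1, h2]
      simp
    exact Finset.mem_coe.1 (acoef_support263 D _ _ (Function.mem_support.2 h2))
  · left
    exact Finset.mem_coe.1 (acoef_support263 D _ _ (Function.mem_support.2 h1))

theorem acoef_fin681 (D : ResData k) (n : ℕ) (m : ℤ) :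
    (Function.support (Acoef263 D n m)).Finite :=
  (Finset.finite_toSet _).subset (acoef_support263 D n m)

/-- The Laurent polynomial of `satCoef681 D lam` is the Satake transform of `lam`. -/
theorem laur_satCoef681 (D : ResData k) (lam : ℤ × ℤ) (z₁ z₂ : ℂ) (hz : z₁ * z₂ ≠ 0) :
    laur263 (satCoef681 D lam) z₁ z₂ = satake D.T.card lam z₁ z₂ := by
  have hw := sq_sq263 D
  unfold satake
  by_cases h2 : 2 ≤ (lam.1 - lam.2).toNat
  · obtain ⟨n, hn⟩ : ∃ n, (lam.1 - lam.2).toNat = n + 2 :=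
      ⟨(lam.1 - lam.2).toNat - 2, by omega⟩
    have e : satCoef681 D lam
        = fun m => Acoef263 D (n + 2) lam.2 m + (-1) * Acoef263 D n (lam.2 + 1) m := by
      funext m
      unfold satCoef681
      rw [if_pos h2, hn]
      simp only [Nat.add_sub_cancel]
      ring
    have hfin2 : (Function.support (fun m => (-1 : ℂ) * Acoef263 D n (lam.2 + 1) m)).Finite := by
      refine (acoef_fin681 D n (lam.2 + 1)).subset ?_
      intro m hm
      rw [Function.mem_support] at hm ⊢
      intro h0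
      apply hm
      rw [h0, mul_zero]
    rw [e, laur_add263 (acoef_fin681 D _ _) hfin2, laur_smul263, laur_acoef263 D _ _ _ _ hz,
      laur_acoef263 D _ _ _ _ hz, hn, satPoly_eq_alpha]
    have ha := alpha_eq263 D.T.card (sq263 D) z₁ z₂ hw
    have e1 : (((Real.sqrt (D.T.card : ℝ) : ℝ) : ℂ)) = sq263 D := rfl
    rw [e1, ha (n + 2), ha n, zpow_add_one₀ hz]
    ring
  · have e : satCoef681 D lam = Acoef263 D (lam.1 - lam.2).toNat lam.2 := by
      funext m
      unfold satCoef681
      rw [if_neg h2, sub_zero]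
    rw [e, laur_acoef263 D _ _ _ _ hz]
    have hn : (lam.1 - lam.2).toNat = 0 ∨ (lam.1 - lam.2).toNat = 1 := by omega
    rcases hn with hn | hn
    · rw [hn, satPoly_zero, hom_zero263]
      ring
    · rw [hn, satPoly_one]
      have h1 : hom263 z₁ z₂ 1 = z₁ + z₂ := by
        have := hom_succ263 z₁ z₂ 0
        rw [hom_zero263] at this
        rw [show (1 : ℕ) = 0 + 1 from rfl, this]
        ring
      have e1 : (((Real.sqrt (D.T.card : ℝ) : ℝ) : ℂ)) = sq263 D := rfl
      rw [h1, e1]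
      ring

theorem satCoef_self681 (D : ResData k) (lam : ℤ × ℤ) (h : lam.2 ≤ lam.1) :
    satCoef681 D lam lam = sq263 D ^ (lam.1 - lam.2).toNat := by
  have h1 : lam.2 ≤ lam.1 ∧ lam.2 ≤ lam.2 ∧
      lam.1 + lam.2 = (((lam.1 - lam.2).toNat : ℕ) : ℤ) + 2 * lam.2 := by
    refine ⟨h, le_refl _, ?_⟩
    omega
  have h2 : ¬ (lam.2 + 1 ≤ lam.1 ∧ lam.2 + 1 ≤ lam.2 ∧
      lam.1 + lam.2 = ((((lam.1 - lam.2).toNat - 2 : ℕ) : ℕ) : ℤ) + 2 * (lam.2 + 1)) := by
    rintro ⟨_, b, _⟩
    omega
  unfold satCoef681 Acoef263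
  rw [if_pos h1, if_neg h2]
  simp

theorem satCoef_zero681 (D : ResData k) (lam m : ℤ × ℤ) (h : lam.2 ≤ lam.1) (hm : m.2 ≤ lam.2)
    (hne : lam ≠ m) : satCoef681 D lam m = 0 := by
  have h1 : ¬ (lam.2 ≤ m.1 ∧ lam.2 ≤ m.2 ∧
      m.1 + m.2 = (((lam.1 - lam.2).toNat : ℕ) : ℤ) + 2 * lam.2) := by
    rintro ⟨_, b, c⟩
    apply hne
    have e2 : lam.2 = m.2 := le_antisymm b hm
    have e1 : lam.1 = m.1 := by omega
    exact Prod.ext e1 e2
  have h2 : ¬ (lam.2 + 1 ≤ m.1 ∧ lam.2 + 1 ≤ m.2 ∧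
      m.1 + m.2 = ((((lam.1 - lam.2).toNat - 2 : ℕ) : ℕ) : ℤ) + 2 * (lam.2 + 1)) := by
    rintro ⟨_, b, _⟩
    omega
  unfold satCoef681 Acoef263
  rw [if_neg h1, if_neg h2]
  simp

/-- **The Satake transform is injective** on the dominant functions. -/
theorem satT_inj681 (D : ResData k) (A A' : (ℤ × ℤ) →₀ ℂ) (hA : IsDominant A)
    (hA' : IsDominant A')
    (h : ∀ x y : ℂ, x ≠ 0 → y ≠ 0 →
      (A.sum fun lam c => c * satake D.T.card lam x y)
        = A'.sum fun lam c => c * satake D.T.card lam x y) : A = A' := by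
  set S : Finset (ℤ × ℤ) := A.support ∪ A'.support with hS
  set M : Finset (ℤ × ℤ) := S.biUnion satSupp681 with hM
  have hdom : ∀ lam ∈ S, lam.2 ≤ lam.1 := by
    intro lam hlam
    rw [hS, Finset.mem_union] at hlam
    rcases hlam with hl | hl
    · exact hA lam hl
    · exact hA' lam hl
  set B : ℤ × ℤ → ℂ := fun m => ∑ lam ∈ S, (A lam - A' lam) * satCoef681 D lam m with hB
  have hBM : ∀ m, B m ≠ 0 → m ∈ M := by
    intro m hm
    rw [hB] at hm
    obtain ⟨lam, hlam, hne⟩ := Finset.exists_ne_zero_of_sum_ne_zero hm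
    rw [hM, Finset.mem_biUnion]
    exact ⟨lam, hlam, satCoef_mem681 D lam m (right_ne_zero_of_mul hne)⟩
  have hBfin : (Function.support B).Finite := by
    refine (Finset.finite_toSet M).subset ?_
    intro m hm
    exact Finset.mem_coe.2 (hBM m (Function.mem_support.1 hm))
  have hsumA : ∀ x y : ℂ, (A.sum fun lam c => c * satake D.T.card lam x y)
      = ∑ lam ∈ S, A lam * satake D.T.card lam x y := fun x y =>
    Finsupp.sum_of_support_subset A Finset.subset_union_left _ (fun _ _ => zero_mul _)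
  have hsumA' : ∀ x y : ℂ, (A'.sum fun lam c => c * satake D.T.card lam x y)
      = ∑ lam ∈ S, A' lam * satake D.T.card lam x y := fun x y =>
    Finsupp.sum_of_support_subset A' Finset.subset_union_right _ (fun _ _ => zero_mul _)
  have hzero : ∀ z₁ z₂ : ℂ, z₁ ≠ 0 → z₂ ≠ 0 →
      ∑ᶠ m : ℤ × ℤ, B m * z₁ ^ m.1 * z₂ ^ m.2 = 0 := by
    intro z₁ z₂ hz₁ hz₂
    have hz : z₁ * z₂ ≠ 0 := mul_ne_zero hz₁ hz₂
    have e1 : ∑ᶠ m : ℤ × ℤ, B m * z₁ ^ m.1 * z₂ ^ m.2
        = ∑ m ∈ M, B m * z₁ ^ m.1 * z₂ ^ m.2 := by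
      refine finsum_eq_sum_of_support_subset _ ?_
      intro m hm
      rw [Function.mem_support] at hm
      rw [Finset.mem_coe]
      apply hBM
      intro h0
      apply hm
      rw [h0, zero_mul, zero_mul]
    have e2 : ∀ lam ∈ S, laur263 (satCoef681 D lam) z₁ z₂
        = ∑ m ∈ M, satCoef681 D lam m * z₁ ^ m.1 * z₂ ^ m.2 := by
      intro lam hlam
      unfold laur263
      refine finsum_eq_sum_of_support_subset _ ?_
      intro m hm
      rw [Function.mem_support] at hm
      rw [Finset.mem_coe, hM, Finset.mem_biUnion]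
      refine ⟨lam, hlam, satCoef_mem681 D lam m ?_⟩
      intro h0
      apply hm
      rw [h0, zero_mul, zero_mul]
    have e3 : ∑ m ∈ M, B m * z₁ ^ m.1 * z₂ ^ m.2
        = ∑ lam ∈ S, (A lam - A' lam) * laur263 (satCoef681 D lam) z₁ z₂ := by
      rw [hB]
      simp only [Finset.sum_mul]
      rw [Finset.sum_comm]
      refine Finset.sum_congr rfl (fun lam hlam => ?_)
      rw [e2 lam hlam, Finset.mul_sum]
      refine Finset.sum_congr rfl (fun m _ => ?_)
      ring
    rw [e1, e3]
    have e4 : ∑ lam ∈ S, (A lam - A' lam) * laur263 (satCoef681 D lam) z₁ z₂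
        = (∑ lam ∈ S, A lam * satake D.T.card lam z₁ z₂)
          - ∑ lam ∈ S, A' lam * satake D.T.card lam z₁ z₂ := by
      rw [← Finset.sum_sub_distrib]
      refine Finset.sum_congr rfl (fun lam _ => ?_)
      rw [laur_satCoef681 D lam z₁ z₂ hz]
      ring
    rw [e4, ← hsumA, ← hsumA', h z₁ z₂ hz₁ hz₂, sub_self]
  have hB0 : ∀ m, B m = 0 := laurent2_zero681 B hBfin hzero
  by_contra hne
  have hex : ∃ lam, A lam ≠ A' lam := by
    by_contra hall
    apply hne
    ext lam
    by_contra hl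
    exact hall ⟨lam, hl⟩
  obtain ⟨lam₁, hlam₁⟩ := hex
  have hmemS : ∀ lam, A lam ≠ A' lam → lam ∈ S := by
    intro lam hl
    rw [hS, Finset.mem_union, Finsupp.mem_support_iff, Finsupp.mem_support_iff]
    by_contra hcon
    rw [not_or, not_not, not_not] at hcon
    apply hl
    rw [hcon.1, hcon.2]
  set S' : Finset (ℤ × ℤ) := S.filter (fun lam => A lam ≠ A' lam) with hS'
  have hne' : S'.Nonempty := ⟨lam₁, by
    rw [hS', Finset.mem_filter]
    exact ⟨hmemS lam₁ hlam₁, hlam₁⟩⟩
  obtain ⟨lam₀, hlam₀, hmin⟩ := Finset.exists_min_image S' (fun lam => lam.2) hne'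
  rw [hS', Finset.mem_filter] at hlam₀
  have hval := hB0 lam₀
  rw [hB] at hval
  simp only at hval
  rw [Finset.sum_eq_single lam₀] at hval
  · rw [satCoef_self681 D lam₀ (hdom lam₀ hlam₀.1)] at hval
    rcases mul_eq_zero.1 hval with h0 | h0
    · exact hlam₀.2 (sub_eq_zero.1 h0)
    · exact pow_ne_zero _ (sq_ne_zero263 D) h0
  · intro lam hlam hne0
    by_cases hl : A lam = A' lam
    · rw [hl, sub_self, zero_mul]
    · have hmem : lam ∈ S' := by
        rw [hS', Finset.mem_filter]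
        exact ⟨hlam, hl⟩
      rw [satCoef_zero681 D lam lam₀ (hdom lam hlam) (hmin lam hmem) hne0, mul_zero]
  · intro hcon
    exact absurd hlam₀.1 hcon

end Abstract

end Fermat.Agent.LT.T7.H681

end

end
-- ===== PACK-END LT/T7/H681/SatInj.lean

-- ===== PACK-BEGIN LT/T7/H218/Up2.lean
section







/-!
# Row LT, tower T7, leaf T7.L2.1.H2a.4.4 `Up2C970` (helper218, registry row 2865)

OFF-MAIN.  `up2C218 (K K') : B970.Up2C970 K K'` VERBATIM (spec `T7/B970/Pair2Spec.lean` of
helper970, sha256 fab97ceab0e09862), unconditional.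

The proof follows the header of the spec.  `Ψ = lsum s' (Φ₁ [])`:
* `Ψ = ∫ P_ω dν(ω)`, `P_ω` = the pure tensor with the REPLACED components (`rep` of
  `IsWtUp970` termwise, finite sum under the integral);
* `P_ω` is bi-invariant under `U(𝔑₀)` and under the Iwahori elements of the orbit
  (`pure_inv218` + the three local stabilisers), hence `Ψ` is (`IsBiHInv`);
* `Ψ` is `IsPre311` (left translates by elements trivial at infinity, finite sums), hence a
  test function of the level `𝔫 𝒪_{K'}`;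
* `♮`: `H193.killing_of_torus193`; the operator identity `Rconv_lsum277` + `up1_op`;
* support: the component of `P_ω` at a place of the orbit is the Iwahori function.
-/

set_option autoImplicit false
set_option linter.unusedSectionVars false
set_option linter.unusedVariables false

open IsDedekindDomain NumberField MeasureTheory IsDedekindDomain.HeightOneSpectrum
open AutomorphicForm
open Fermat.Agent.LT.H556 Fermat.Agent.LT.H556.A0 Fermat.Agent.LT.H129

noncomputable section

namespace Fermat.Agent.LT.T7.H218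

open Fermat.Agent.LT Fermat.Agent.LT.T7 Fermat.Agent.LT.T7.H893 Fermat.Agent.LT.T7.H305
open Fermat.Agent.LT.T7.H340 Fermat.Agent.LT.T7.B981 Fermat.Agent.LT.T7.B970

attribute [local instance] Fermat.Agent.LT.T5.instMeasurableSpaceG

/-! ## 1. Local facts -/

section OneField

variable {F : Type} [Field F] [NumberField F]

theorem inIw_of_inIwahori218 {w : HeightOneSpectrum (𝓞 F)} {h : G F}
    (hh : T5.InIwahori w h) : InIw893 (finGL305 w h) :=
  (inIwahori_iff340 w h).1 hh

theorem inIwahori_of_inIw218 {w : HeightOneSpectrum (𝓞 F)} {h : G F}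
    (hh : InIw893 (finGL305 w h)) : T5.InIwahori w h :=
  (inIwahori_iff340 w h).2 hh

theorem inU_of_level218 {𝔑 : Ideal (𝓞 F)} {n₀ : HeightOneSpectrum (𝓞 F) → ℕ}
    (hn : IsLevelOf893 𝔑 n₀) {h : G F} (hh : InLevelGroup 𝔑 h)
    (w : HeightOneSpectrum (𝓞 F)) : T6.InU (n₀ w) (finGL305 w h) := by
  intro i j
  refine ⟨?_, ?_⟩
  · have h1 := (hn w _).1 (hh.2 w i j).1
    rw [Matrix.sub_apply] at h1
    exact h1
  · have h1 := (hn w _).1 (hh.2 w i j).2
    rw [Matrix.sub_apply] at h1
    have e : (((finGL305 w h)⁻¹ : GL (Fin 2) (w.adicCompletion F)) :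
        Matrix (Fin 2) (Fin 2) (w.adicCompletion F)) = finComp w h⁻¹ := by
      rw [← map_inv]
      rfl
    rw [e]
    exact h1

end OneField

section Local

variable {k : Type} [Field k] [Valued k T6.Γ₀]

theorem inU_zero218 {n : ℕ} {g : GL (Fin 2) k} (hg : T6.InU n g) : T6.InU 0 g := by
  intro i j
  have hle : WithZero.exp (-(n : ℤ)) ≤ (WithZero.exp (-((0 : ℕ) : ℤ)) : T6.Γ₀) := by
    rw [WithZero.exp_le_exp]
    omega
  exact ⟨(hg i j).1.trans hle, (hg i j).2.trans hle⟩

end Local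

/-! ## 2. The stabiliser of the replaced components -/

section Stab

variable {K K' : Type} [Field K] [NumberField K] [Field K'] [NumberField K'] [Algebra K K']

theorem upI_ne_bot218 {𝔫 : Ideal (𝓞 K)} (h : 𝔫 ≠ ⊥) : upI (K' := K') 𝔫 ≠ ⊥ := by
  unfold upI
  intro h0
  rw [Ideal.map_eq_bot_iff_of_injective (FaithfulSMul.algebraMap_injective (𝓞 K) (𝓞 K'))] at h0
  exact h h0

/-- The elements which stabilise the replaced components: trivial at infinity, in `GL₂(𝒪_w)`
at every finite place, Iwahori along the orbit, in `U(n₀ w)` outside the orbit. -/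
structure IsStab218 (B : L2Base K K') (n₀ : HeightOneSpectrum (𝓞 K') → ℕ) (h : G K') :
    Prop where
  inf : ∀ w : InfinitePlace K', TrivAtInf w h
  int : IsHatG218 h
  orbit : ∀ w : HeightOneSpectrum (𝓞 K'), PlaceOver K K' B.u w → InIw893 (finGL305 w h)
  base : ∀ w : HeightOneSpectrum (𝓞 K'), ¬ PlaceOver K K' B.u w →
    T6.InU (n₀ w) (finGL305 w h)

theorem isStab_of_level218 {ℓ : ℕ} {Φ : HeckeEigensystem K' ℂ} {B : L2Base K K'}
    (hB : IsL2Base ℓ Φ B) {n₀ : HeightOneSpectrum (𝓞 K') → ℕ}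
    (hn : IsLevelOf893 B.𝔑₀ n₀) {h : G K'} (hh : InLevelGroup B.𝔑₀ h) :
    IsStab218 B n₀ h where
  inf := hh.1
  int := fun v => H281.isIntegralAt_of_level281 hh v
  orbit := fun w hw => by
    obtain ⟨j, hj, rfl⟩ := hB.orbit_all w hw
    exact inIw_of_inIwahori218
      (H281.inIwahori_of_level281 ((hB.mem_S' _).1 (hB.orbit_level j)) hh)
  base := fun w _ => inU_of_level218 hn hh w

theorem isStab_of_iw218 {ℓ : ℕ} {Φ : HeckeEigensystem K' ℂ} {B : L2Base K K'}
    (hB : IsL2Base ℓ Φ B) {n₀ : HeightOneSpectrum (𝓞 K') → ℕ} {h : G K'}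
    (hh : H193.IsIwElt ℓ B.o h) : IsStab218 B n₀ h where
  inf := hh.1
  int := fun v => by
    by_cases hv : ∃ j < ℓ, v = B.o j
    · obtain ⟨j, hj, rfl⟩ := hv
      exact ⟨(hh.2.2 j hj).1, (hh.2.2 j hj).2.1⟩
    · exact H281.isIntegralAt_of_triv281 (hh.2.1 v fun j hj e => hv ⟨j, hj, e⟩)
  orbit := fun w hw => by
    obtain ⟨j, hj, rfl⟩ := hB.orbit_all w hw
    exact inIw_of_inIwahori218 (hh.2.2 j hj)
  base := fun w hw => by
    have ht : TrivAtFin w h := hh.2.1 w fun j hj e => hw (e ▸ hB.orbit_over j)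
    rw [finGL_one_of_triv218 ht]
    exact T6.H777.inU_one777 _

/-- The replaced components are bi-invariant under the components of a stabilising element. -/
theorem repUp_inv218 {B : L2Base K K'} {T₀ T : Finset (HeightOneSpectrum (𝓞 K))}
    {T' : Finset (HeightOneSpectrum (𝓞 K'))} {n₀ : HeightOneSpectrum (𝓞 K') → ℕ}
    {φ₀ : ∀ w : HeightOneSpectrum (𝓞 K'), GL (Fin 2) (w.adicCompletion K') → ℂ}
    {f₀ : ∀ v : HeightOneSpectrum (𝓞 K), GL (Fin 2) (v.adicCompletion K) → ℂ} {h : G K'}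
    (hover : IsOver305 T T') (hsph : SphOut893 B.l T₀ T φ₀ f₀) (hh : IsStab218 B n₀ h)
    (w : HeightOneSpectrum (𝓞 K')) (hw : w ∈ T') (x : GL (Fin 2) (w.adicCompletion K')) :
    repUp970 B T₀ n₀ φ₀ w (finGL305 w h * x) = repUp970 B T₀ n₀ φ₀ w x ∧
      repUp970 B T₀ n₀ φ₀ w (x * finGL305 w h) = repUp970 B T₀ n₀ φ₀ w x := by
  classical
  by_cases h1 : PlaceOver K K' B.u w
  · have e : repUp970 B T₀ n₀ φ₀ w = iwFn893 := by
      unfold repUp970
      rw [if_pos h1]
    rw [e]
    exact iwFn_inv218 (hh.orbit w h1) x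
  · by_cases h2 : ∃ v ∈ T₀, PlaceOver K K' v w
    · have e : repUp970 B T₀ n₀ φ₀ w = unitFn893 (n₀ w) := by
        unfold repUp970
        rw [if_neg h1, if_pos h2]
      rw [e]
      exact unitFn_inv218 (hh.base w h1) x
    · have e : repUp970 B T₀ n₀ φ₀ w = φ₀ w := by
        unfold repUp970
        rw [if_neg h1, if_neg h2]
      rw [e]
      obtain ⟨v, hv, hvw⟩ := (hover w).1 hw
      have hv0 : v ∉ T₀ := fun hv0 => h2 ⟨v, hv0, hvw⟩
      obtain ⟨A, Av, -, hA, -, -⟩ := hsph v hv hv0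
      exact sphFn_inv218 (hA w hvw) (inU_zero218 (hh.base w h1)) x

end Stab

/-! ## 3. The leaf -/

section Leaf

variable (K K' : Type) [Field K] [NumberField K] [Field K'] [NumberField K'] [Algebra K K']

/-- **LEAF T7.L2.1.H2a.4.4 = UP-2** (VERBATIM, unconditional). -/
theorem up2C218 : Up2C970 K K' := by
  intro ℓ hcyc hℓ2 htc Φ hΦ hconst B hB hram 𝔫 hlvl μc hμc T₀ n n₀ m hexp a D a' D' hrel s' hs'
    c₁ Φ₁ F₁ hp1 hshape
  classical
  obtain ⟨Ω, _, _, _, _, _, _, ν, _, T, T', φ₀, Φc, f₀, Fc, hL, htU, -, hcU, -, hsU, -, hφ, -⟩ :=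
    hshape
  have hX : ∀ x ∈ ([] : List (Gen K')), x.Out B.S' := fun x hx => absurd hx (List.not_mem_nil)
  -- the places of the level are in `T' ω`, with unit components
  have hunit : ∀ ω : Ω, ∀ v ∈ T₀, ∀ w : HeightOneSpectrum (𝓞 K'), PlaceOver K K' v w →
      w ∈ T' ω ∧ φ₀ ω w = unitFn893 (n w) := by
    intro ω v hv w hvw
    obtain ⟨hsub, hover, -, hup, -, -⟩ := hL ω
    exact ⟨(hover w).2 ⟨v, hsub hv, hvw⟩, hup v hv w hvw⟩
  -- the members are integrable in the parameter
  have hint : ∀ z : G K', Integrable (fun ω => pure305 (T' ω) (φ₀ ω) (Φc ω) z) ν := by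
    intro z
    have hc : Continuous (fun ω : Ω => pure305 (T' ω) (φ₀ ω) (Φc ω) z) :=
      hcU.comp (Continuous.prodMk_left z)
    exact hc.integrable_of_hasCompactSupport (HasCompactSupport.of_compactSpace _)
  -- `Ψ = ∫ P_ω`
  have hΨint : ∀ y : G K', lsum s' (Φ₁ []) y
      = ∫ ω, pure305 (T' ω) (repUp970 B T₀ n₀ (φ₀ ω)) (Φc ω) y ∂ν := by
    intro y
    show ∑ x ∈ s', Φ₁ [] (x⁻¹ * y) = _
    have e1 : ∀ x ∈ s', Φ₁ [] (x⁻¹ * y)
        = ∫ ω, pure305 (T' ω) (φ₀ ω) (Φc ω) (x⁻¹ * y) ∂ν := fun x _ => hφ _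
    rw [Finset.sum_congr rfl e1, ← integral_finsetSum s' (fun x _ => hint (x⁻¹ * y))]
    refine integral_congr_ae (Filter.Eventually.of_forall fun ω => ?_)
    exact hs'.rep (T' ω) (φ₀ ω) (Φc ω) (hunit ω) y
  -- the bi-invariance
  have hPinv : ∀ h : G K', IsStab218 B n₀ h → ∀ (ω : Ω) (y : G K'),
      pure305 (T' ω) (repUp970 B T₀ n₀ (φ₀ ω)) (Φc ω) (h * y)
          = pure305 (T' ω) (repUp970 B T₀ n₀ (φ₀ ω)) (Φc ω) y ∧
        pure305 (T' ω) (repUp970 B T₀ n₀ (φ₀ ω)) (Φc ω) (y * h)
          = pure305 (T' ω) (repUp970 B T₀ n₀ (φ₀ ω)) (Φc ω) y := by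
    intro h hh ω y
    obtain ⟨hsub, hover, -, hup, hsph, -⟩ := hL ω
    exact pure_inv218 hh.inf hh.int (fun w hw x => repUp_inv218 hover hsph hh w hw x) y
  have hΨinv : ∀ h : G K', IsStab218 B n₀ h → ∀ y : G K',
      lsum s' (Φ₁ []) (h * y) = lsum s' (Φ₁ []) y ∧
        lsum s' (Φ₁ []) (y * h) = lsum s' (Φ₁ []) y := by
    intro h hh y
    rw [hΨint, hΨint, hΨint]
    exact ⟨integral_congr_ae (Filter.Eventually.of_forall fun ω => (hPinv h hh ω y).1),
      integral_congr_ae (Filter.Eventually.of_forall fun ω => (hPinv h hh ω y).2)⟩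
  have hbi : H193.IsBiHInv B.𝔑₀ ℓ B.o (lsum s' (Φ₁ [])) :=
    ⟨fun u hu y => hΨinv u (isStab_of_level218 hB hexp.lvl_base hu) y,
      fun h h1 h2 h3 y => hΨinv h (isStab_of_iw218 hB ⟨h1, h2, h3⟩) y⟩
  -- `IsPre311` and the test function
  have hpre0 : H311.IsPre311 (upI (K' := K') 𝔫) B.R'.μ (Φ₁ []) :=
    H311.isPre_of_test311 (hp1.up1_test [] hX) (hp1.up1_ek [] hX).1 (hp1.up1_ek [] hX).2
  have hpre : H311.IsPre311 (upI (K' := K') 𝔫) B.R'.μ (lsum s' (Φ₁ [])) := by
    have e : lsum s' (Φ₁ []) = fun y => ∑ x ∈ s', ltr x (Φ₁ []) y := rfl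
    rw [e]
    exact H311.isPre_sum311 hB.frame'.frame s' (fun x => ltr x (Φ₁ []))
      fun x hx => hpre0.ltr hB.frame'.frame (hs'.supp x hx).1
  have htest : T5.IsTestFn (upI (K' := K') 𝔫) T5.trivType (lsum s' (Φ₁ [])) :=
    { ktype := (hp1.up1_test [] hX).ktype
      cont := hpre.cont
      supp := hpre.supp
      smooth := hpre.smooth
      inv :=
        { level_right := hpre.level_right
          level_left := fun u hu g =>
            (hbi.1 u (H193.inLevelGroup_mono193 hlvl.level_g hu) g).1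
          arch_right := fun w k hk g => by
            rw [hpre.arch_right w k hk g]
            show _ = ((1 : ℂ))⁻¹ * _
            rw [inv_one, one_mul]
          arch_left := fun w k hk g => by
            rw [hpre.arch_left w k hk g]
            show _ = ((1 : ℂ))⁻¹ * _
            rw [inv_one, one_mul] } }
  -- the torus mean
  obtain ⟨k1, k2, k3, k4, k5, k6⟩ :=
    H193.killing_of_torus193 (T1.t1Out K') B.R' hB.frame' (upI (K' := K') 𝔫) B.𝔑₀
      (upI_ne_bot218 hlvl.level_ne) hlvl.level_g ℓ B.o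
      (H193.isTorusData_mono193 hlvl.level_g hrel.up) (lsum s' (Φ₁ [])) htest hpre.ek
      hpre.ek_adj hbi
  refine ⟨k1, ⟨k2, k3⟩, k4, ?_, k6, ?_, ?_⟩
  · -- up2_op
    intro ψ C hψ x
    rw [k5 ψ hψ.inv.cusp.cont hψ.inv.arch_scalar x,
      H277.Rconv_lsum277 hB.frame'.frame s' hpre0.cont hpre0.supp hψ.inv.cusp.cont x]
    show ∑ h ∈ s', T5.Rconv B.R'.μ (Φ₁ []) ψ (x * h) = (s'.card : ℂ) * c₁ C * ψ x
    have e : ∀ h ∈ s', T5.Rconv B.R'.μ (Φ₁ []) ψ (x * h) = c₁ C * ψ x := by
      intro h hh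
      rw [hp1.up1_op [] hX ψ C hψ (x * h)]
      obtain ⟨i, u, hi, hu, rfl⟩ := hs'.mem h hh
      have e1 : ψ (x * (i * u)) = ψ x := by
        rw [← mul_assoc, hψ.inv.cusp.aut.level_inv u hu, hψ.inv.iw i hi.1 hi.2.1 hi.2.2]
      have e2 : wordEv ([] : List (Gen K')) C = 1 := rfl
      rw [e1, e2, one_mul]
    rw [Finset.sum_congr rfl e, Finset.sum_const, nsmul_eq_mul, mul_assoc]
  · -- up2_ne
    intro C hC
    exact mul_ne_zero (Nat.cast_ne_zero.2 (Finset.card_ne_zero.2 hs'.nonempty))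
      (hp1.up1_ne C hC)
  · -- up2_supp
    refine ⟨tsupport (H193.nat193 a' D' (lsum s' (Φ₁ []))), k1.supp,
      T5.H32.isIwSupported_of_support32 ?_⟩
    intro y hy j hj
    have h1 : ∃ t : InfinitePlace K' → ℝ, lsum s' (Φ₁ []) (y * (a' t)⁻¹) ≠ 0 := by
      by_contra hne
      simp only [not_exists, not_not] at hne
      apply hy
      show _ * ∫ t in D', lsum s' (Φ₁ []) (y * (a' t)⁻¹) = 0
      simp only [hne, integral_zero, mul_zero]
    obtain ⟨t, ht⟩ := h1
    have h2 : ∃ ω : Ω,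
        pure305 (T' ω) (repUp970 B T₀ n₀ (φ₀ ω)) (Φc ω) (y * (a' t)⁻¹) ≠ 0 := by
      by_contra hne
      simp only [not_exists, not_not] at hne
      apply ht
      rw [hΨint]
      simp only [hne, integral_zero]
    obtain ⟨ω, hω⟩ := h2
    obtain ⟨hsub, hover, -, -, -, -⟩ := hL ω
    have hmem : B.o j ∈ T' ω :=
      (hover _).2 ⟨B.u, hsub ((hexp.mem B.u).2 hlvl.u_level), hB.orbit_over j⟩
    have hz : T5.InIwahori (B.o j) (y * (a' t)⁻¹) := by
      unfold pure305 at hω
      split_ifs at hω with hout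
      · have hprod := left_ne_zero_of_mul hω
        have hfac := Finset.prod_ne_zero_iff.1 hprod (B.o j) hmem
        have e : repUp970 B T₀ n₀ (φ₀ ω) (B.o j) = iwFn893 := by
          unfold repUp970
          rw [if_pos (hB.orbit_over j)]
        rw [e] at hfac
        unfold iwFn893 at hfac
        split_ifs at hfac with hiw
        · exact inIwahori_of_inIw218 hiw
        · exact absurd rfl hfac
      · exact absurd rfl hω
    have hy' : y = (y * (a' t)⁻¹) * a' t := by group
    rw [hy']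
    exact H340.inIwahori_mul340 hz (H281.inIwahori_of_triv281 (hrel.up.fin t (B.o j)))

end Leaf

end Fermat.Agent.LT.T7.H218

end

end
-- ===== PACK-END LT/T7/H218/Up2.lean

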