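import Mathlib
import Fermat.Agent.Pack.LT3.E29L3
import Fermat.Agent.Pack.LT4.E5L0
import Fermat.Agent.Pack.LT4.E5L1
import Fermat.Agent.Pack.LT4.E4L2
import Fermat.Agent.Pack.LT4.E5L2
import Fermat.Agent.Pack.LT3.E21L1
import Fermat.Agent.Pack.LT2.E9L3
import Fermat.Agent.Pack.LT4.E4L1
import Fermat.Agent.Pack.LT4.E1L3
import Fermat.Agent.Pack.LT3.E11L1
import Fermat.Agent.Pack.LT3.E14L0
import Fermat.Agent.Pack.LT3.E0L1
import Fermat.Agent.Pack.LT4.E0L3
import Fermat.Agent.Pack.LT2.E10L1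
import Fermat.Agent.Pack.LT2.E2L3
import Fermat.Agent.Pack.LT3.E18L2
import Fermat.Agent.Pack.LT3.E8L2

set_option linter.all false

-- ===== PACK-BEGIN LT/T7/P51/ConvAvgSpec.lean
section



/-!
# Row LT, tower T7, node T7.L2.1.H2b.G2 `ConvAvgC51` (helper51): SECOND SUB-CUT -- Spec

OFF-MAIN.  Definitions and frozen Props only (the proved top is `ConvAvgTop.lean`).  No hole,
nothing assumed.  ADDITIVE.

    convAvgC_of51 : ConvFamC51 K' → ConvFamC51 K → (small leaves) → ConvAvgC51 K K'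

* **`ConvFamC51 F`** (NODE, ONE field; Haar splitting + Fubini): for two FAMILIES of pure tensors
  (`IsFam51`: test functions, jointly continuous, one compact support, regular components) over
  compact parameter spaces and components `χ` which are the local convolutions of the
  components: the pure tensors with the components `χ` (and the convolutions at infinity) form
  a family with the same properties, and the convolution of the two averages is the average of
  this family for `c` times the product measure; ONE constant `c` for all families.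
* small leaves: existence of local convolutions, `1_{U(n)} * X = X`, regularity of the shapes
  `LocA893`, `LocOp51`, the places over a finite set, existence and uniqueness of the place
  below, `K'` is totally complex, scalar multiples of test functions, the unit is regular.
-/

set_option autoImplicit false

open AutomorphicForm IsDedekindDomain NumberField MeasureTheory
open scoped ComplexConjugate

noncomputable section

namespace Fermat.Agent.LT.T7.P51

open Fermat.Agent.LT.H556 Fermat.Agent.LT.H556.A0 Fermat.Agent.LT.T7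
open Fermat.Agent.LT.T7.H305 Fermat.Agent.LT.T7.H893

attribute [local instance] Fermat.Agent.LT.T5.instMeasurableSpaceG

/-! ## 1. Families of pure tensors (one field) -/

section OneField

variable {F : Type} [Field F] [NumberField F]

open Classical in
/-- The components of a pure tensor, extended by the unit `1_{GL₂(𝒪)}` outside `T`. -/
def ext51 (T : Finset (HeightOneSpectrum (𝓞 F)))
    (φ : ∀ w : HeightOneSpectrum (𝓞 F), GL (Fin 2) (w.adicCompletion F) → ℂ)
    (w : HeightOneSpectrum (𝓞 F)) : GL (Fin 2) (w.adicCompletion F) → ℂ :=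
  if w ∈ T then φ w else unitFn893 0

/-- **A FAMILY OF PURE TENSORS** over the parameter space `Ω`: the sets of places contain `T₀`,
every member is a test function of level `𝔫`, the members are jointly continuous and supported
in one compact set, the components are regular for the levels `lv`. -/
structure IsFam51 (𝔫 : Ideal (𝓞 F)) (lv : HeightOneSpectrum (𝓞 F) → ℕ)
    (T₀ : Finset (HeightOneSpectrum (𝓞 F)))
    {Ω : Type} [TopologicalSpace Ω] (T : Ω → Finset (HeightOneSpectrum (𝓞 F)))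
    (φ₀ : Ω → ∀ w : HeightOneSpectrum (𝓞 F), GL (Fin 2) (w.adicCompletion F) → ℂ)
    (Φ : Ω → InfinitePlace F → GL (Fin 2) ℂ → ℂ) : Prop where
  sub : ∀ a : Ω, T₀ ⊆ T a
  test : ∀ a : Ω, T5.IsTestFn 𝔫 T5.trivType (pure305 (T a) (φ₀ a) (Φ a))
  cont : Continuous (fun p : Ω × G F => pure305 (T p.1) (φ₀ p.1) (Φ p.1) p.2)
  supp : ∃ C : Set (G F), IsCompact C ∧
    ∀ (a : Ω) (h : G F), pure305 (T a) (φ₀ a) (Φ a) h ≠ 0 → h ∈ C
  reg : ∀ (a : Ω) (w : HeightOneSpectrum (𝓞 F)), w ∈ T a →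
    T6.IsBiInv (T6.InU (lv w)) (φ₀ a w) ∧ T6.HasFinSupp (T6.InU (lv w)) (φ₀ a w)
  arch : ∀ (a : Ω) (w : InfinitePlace F), Continuous (Φ a w) ∧ HasCompactSupport (Φ a w)

variable (F)

open Classical in
/-- **NODE P.G2.1 = CONV-FAM (ONE field; Haar splitting + Fubini).**  `F` totally complex, `μ` a
Haar measure of `GL₂(𝔸_F)`, `μc` one of `GL₂(ℂ)`, levels `lv` (`0` outside `T₀`), `𝔫 ≠ 0`.
There is a constant `c > 0` such that for two families of pure tensors over `Ω₁`, `Ω₂` (finite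
measures `ν₁`, `ν₂`) and components `χ p`, `p ∈ Ω₁ × Ω₂`, which are the local convolutions
(`vol U(lv w) = 1`) of the extended components at the places of `T₁ p.1 ∪ T₂ p.2`:
the pure tensors `pure305 (T₁ p.1 ∪ T₂ p.2) (χ p) (Φ₁ p.1 * Φ₂ p.2)` are test functions of level
`𝔫`, jointly continuous, supported in one compact set, and
`(∫ P₁ dν₁) ⋆ (∫ P₂ dν₂) = ∫ pure305 … d(c · ν₁ × ν₂)`.
Proof.  Fubini (joint continuity, compact supports, finite measures): the convolution of the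
averages is the average of the convolutions over `ν₁ × ν₂`.  For pure tensors
`P₁ ⋆ P₂ = c · pure305 (T₁ ∪ T₂) χ (Φ₁ * Φ₂)`: the integrand `x ↦ P₁(x) P₂(x⁻¹ y)` is supported
in `Out_S`, `S = T₁ ∪ T₂`, and factors through `compS305 S`; `H305.HaarSplitC305` (closed) for
the levels `lv` and `S`; at `w ∈ S` the local integral for a Haar measure with
`vol U(lv w) = 1` is the finite sum of `T6.IsConv` (right/left invariance of the factors,
finite support); outside `S` both components are `1_{GL₂(𝒪)}` and `lv = 0`.  `c` does not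
depend on `S`.  The product pure tensor is `c⁻¹ P₁ ⋆ P₂`: a test function
(`isTestFn_conv872`, helper872), jointly continuous in the parameters, supported in
`C₁ C₂`. -/
def ConvFamC51 : Prop :=
  TotCplx F → ∀ μ : Measure (G F), μ.IsHaarMeasure →
    ∀ μc : @Measure (GL (Fin 2) ℂ) (borel _), @Measure.IsHaarMeasure _ _ _ (borel _) μc →
    ∀ (T₀ : Finset (HeightOneSpectrum (𝓞 F))) (lv : HeightOneSpectrum (𝓞 F) → ℕ),
      (∀ v : HeightOneSpectrum (𝓞 F), v ∉ T₀ → lv v = 0) →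
    ∀ 𝔫 : Ideal (𝓞 F), 𝔫 ≠ ⊥ →
    ∃ c : NNReal, c ≠ 0 ∧
      ∀ (Ω₁ : Type) [TopologicalSpace Ω₁] [CompactSpace Ω₁] [T2Space Ω₁]
        [SecondCountableTopology Ω₁] [MeasurableSpace Ω₁] [BorelSpace Ω₁]
        (ν₁ : Measure Ω₁) [IsFiniteMeasure ν₁]
        (Ω₂ : Type) [TopologicalSpace Ω₂] [CompactSpace Ω₂] [T2Space Ω₂]
        [SecondCountableTopology Ω₂] [MeasurableSpace Ω₂] [BorelSpace Ω₂]
        (ν₂ : Measure Ω₂) [IsFiniteMeasure ν₂]
        (T₁ : Ω₁ → Finset (HeightOneSpectrum (𝓞 F)))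
        (φ₁ : Ω₁ → ∀ w : HeightOneSpectrum (𝓞 F), GL (Fin 2) (w.adicCompletion F) → ℂ)
        (Φ₁ : Ω₁ → InfinitePlace F → GL (Fin 2) ℂ → ℂ)
        (T₂ : Ω₂ → Finset (HeightOneSpectrum (𝓞 F)))
        (φ₂ : Ω₂ → ∀ w : HeightOneSpectrum (𝓞 F), GL (Fin 2) (w.adicCompletion F) → ℂ)
        (Φ₂ : Ω₂ → InfinitePlace F → GL (Fin 2) ℂ → ℂ)
        (χ : Ω₁ × Ω₂ → ∀ w : HeightOneSpectrum (𝓞 F), GL (Fin 2) (w.adicCompletion F) → ℂ),
        IsFam51 𝔫 lv T₀ T₁ φ₁ Φ₁ → IsFam51 𝔫 lv T₀ T₂ φ₂ Φ₂ →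
        (∀ (p : Ω₁ × Ω₂) (w : HeightOneSpectrum (𝓞 F)), w ∈ T₁ p.1 ∪ T₂ p.2 →
          T6.IsConv (T6.InU (lv w)) (ext51 (T₁ p.1) (φ₁ p.1) w) (ext51 (T₂ p.2) (φ₂ p.2) w)
            (χ p w)) →
        (∀ p : Ω₁ × Ω₂, T5.IsTestFn 𝔫 T5.trivType
          (pure305 (T₁ p.1 ∪ T₂ p.2) (χ p)
            (fun w => @T6.convInt _ _ (borel _) μc (Φ₁ p.1 w) (Φ₂ p.2 w)))) ∧
        Continuous (fun q : (Ω₁ × Ω₂) × G F =>
          pure305 (T₁ q.1.1 ∪ T₂ q.1.2) (χ q.1)
            (fun w => @T6.convInt _ _ (borel _) μc (Φ₁ q.1.1 w) (Φ₂ q.1.2 w)) q.2) ∧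
        (∃ C : Set (G F), IsCompact C ∧ ∀ (p : Ω₁ × Ω₂) (h : G F),
          pure305 (T₁ p.1 ∪ T₂ p.2) (χ p)
            (fun w => @T6.convInt _ _ (borel _) μc (Φ₁ p.1 w) (Φ₂ p.2 w)) h ≠ 0 → h ∈ C) ∧
        ∀ h : G F,
          T5.conv μ (fun x => ∫ a, pure305 (T₁ a) (φ₁ a) (Φ₁ a) x ∂ν₁)
              (fun x => ∫ b, pure305 (T₂ b) (φ₂ b) (Φ₂ b) x ∂ν₂) h
            = ∫ p, pure305 (T₁ p.1 ∪ T₂ p.2) (χ p)
                (fun w => @T6.convInt _ _ (borel _) μc (Φ₁ p.1 w) (Φ₂ p.2 w)) h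
                ∂(c • (ν₁.prod ν₂))

/-- **LEAF P.G2.2 = TEST-SMUL (one field).**  A scalar multiple of a test function is a test
function. -/
def TestSmulC51 : Prop :=
  ∀ (𝔫 : Ideal (𝓞 F)) (φ : G F → ℂ) (c : ℂ),
    T5.IsTestFn 𝔫 T5.trivType φ → T5.IsTestFn 𝔫 T5.trivType (fun h => c * φ h)

end OneField

/-! ## 2. The local leaves -/

section Local

/-- **LEAF P.G2.3 = LOC-CONV-EX (local).**  The convolution (`vol U(n) = 1`) of two
bi-`U(n)`-invariant functions of finite support exists. -/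
def LocConvExC51 : Prop :=
  ∀ (k : Type) [Field k] [Valued k T6.Γ₀] (n : ℕ) (φ ψ : GL (Fin 2) k → ℂ),
    T6.IsBiInv (T6.InU n) φ → T6.HasFinSupp (T6.InU n) φ →
    T6.IsBiInv (T6.InU n) ψ → T6.HasFinSupp (T6.InU n) ψ →
    ∃ χ : GL (Fin 2) k → ℂ, T6.IsConv (T6.InU n) φ ψ χ

/-- **LEAF P.G2.4 = UNIT-CONV (local).**  `1_{U(n)} * X = X` for `X` bi-invariant under `U(n)`. -/
def UnitConvC51 : Prop :=
  ∀ (k : Type) [Field k] [Valued k T6.Γ₀] (n : ℕ) (X : GL (Fin 2) k → ℂ),
    T6.IsBiInv (T6.InU n) X → T6.IsConv (T6.InU n) (unitFn893 n) X X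

/-- **LEAF P.G2.10 = UNIT-REG (local).**  `1_{U(n)}` is bi-invariant under `U(n)` and supported
on one coset. -/
def UnitRegC51 : Prop :=
  ∀ (k : Type) [Field k] [Valued k T6.Γ₀] (n : ℕ),
    T6.IsBiInv (T6.InU n) (unitFn893 (k := k) n) ∧
      T6.HasFinSupp (T6.InU n) (unitFn893 (k := k) n)

end Local

/-! ## 3. The leaves on the shapes and the places -/

section Shapes

variable (K K' : Type) [Field K] [NumberField K] [Field K'] [NumberField K'] [Algebra K K']

/-- **LEAF P.G2.5 = REG-A.**  The components of the shape `LocA893` are regular at the places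
of `T` (unit at the level, spherical outside) and at infinity. -/
def RegAC51 : Prop :=
  ∀ ℓ Φ B g 𝔫 μc T₀ n n₀ m, IsCtx51 (K := K) (K' := K') ℓ Φ B g 𝔫 μc T₀ n n₀ m →
    ∀ T φ₀ Φ' f₀ F, T₀ ⊆ T → LocA893 B 𝔫 μc T₀ n m T φ₀ Φ' f₀ F →
      (∀ v ∈ T, RegAt51 n m φ₀ f₀ v) ∧
      (∀ w : InfinitePlace K', Continuous (Φ' w) ∧ HasCompactSupport (Φ' w)) ∧
      ∀ v : InfinitePlace K, Continuous (F v) ∧ HasCompactSupport (F v)

/-- **LEAF P.G2.6 = REG-OP.**  The components of the shape `LocOp51` are regular at the places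
of `T` (double coset functions and partners at the bad places, `regLoc51` of the Iwahori
function along the orbit, spherical outside) and at infinity. -/
def RegOpC51 : Prop :=
  ∀ ℓ Φ B g 𝔫 μc T₀ n n₀ m, IsCtx51 (K := K) (K' := K') ℓ Φ B g 𝔫 μc T₀ n n₀ m →
    ∀ H' z' H z, IsSys51 B 𝔫 H' z' H z →
    ∀ k j T φ₀ Φ' f₀ F, T₀ ⊆ T → LocOp51 B g 𝔫 μc T₀ n n₀ m H' z' H z k j T φ₀ Φ' f₀ F →
      (∀ v ∈ T, RegAt51 n m φ₀ f₀ v) ∧
      (∀ w : InfinitePlace K', Continuous (Φ' w) ∧ HasCompactSupport (Φ' w)) ∧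
      ∀ v : InfinitePlace K, Continuous (F v) ∧ HasCompactSupport (F v)

/-- **LEAF P.G2.7 = OVER-FIN.**  The places of `K'` over a finite set of places of `K` form a
finite set. -/
def OverFinC51 : Prop :=
  ∀ T : Finset (HeightOneSpectrum (𝓞 K)), ∃ T' : Finset (HeightOneSpectrum (𝓞 K')),
    IsOver305 T T'

/-- **LEAF P.G2.8 = BELOW-UNIQ.**  The place below a place of `K'` is unique. -/
def BelowUniqC51 : Prop :=
  ∀ (v v' : HeightOneSpectrum (𝓞 K)) (w : HeightOneSpectrum (𝓞 K')),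
    PlaceOver K K' v w → PlaceOver K K' v' w → v = v'

/-- **LEAF P.G2.11 = BELOW-EX.**  Every place of `K'` lies over a place of `K`. -/
def BelowExC51 : Prop :=
  ∀ w : HeightOneSpectrum (𝓞 K'), ∃ v : HeightOneSpectrum (𝓞 K), PlaceOver K K' v w

/-- **LEAF P.G2.9 = TOT-CPLX-UP.**  An extension of a totally complex field is totally
complex. -/
def TotCplxUpC51 : Prop := TotCplx K → TotCplx K'

end Shapes

end Fermat.Agent.LT.T7.P51

end

end
-- ===== PACK-END LT/T7/P51/ConvAvgSpec.lean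

-- ===== PACK-BEGIN LT/T7/H57/PreBTop.lean
section




/-!
# Row LT, tower T7, node T7.L2.1.H2a.B.0 `PB57.PreBC57` (registry row 2791, owner helper57):
# THE UN-AVERAGED SECOND PAIR -- SECOND CUT, PROVED TOP

OFF-MAIN.  Complete proofs, nothing assumed.  ADDITIVE (new names only, suffix `57`).

    preBC_of57 : (∃ μc, Haar μc) → Q797.PairAC797 P K K' LocA893 → BadPartC57 K K'
        → OpenSwap57 K K' → PreBC57 P K K' H893.LocB893b

The un-averaged second pair is `(swapUpFn57 …, swapDnFn57 … a …)` for the data of the average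
of the first pair of the empty word; the fields of `IsPreB57` are the swap leaves.
-/

set_option autoImplicit false

open AutomorphicForm IsDedekindDomain NumberField MeasureTheory
open scoped ComplexConjugate

noncomputable section

namespace Fermat.Agent.LT.T7.PB57

open Fermat.Agent.LT.H556 Fermat.Agent.LT.H556.A0 Fermat.Agent.LT.T7
open Fermat.Agent.LT.T7.H893 Fermat.Agent.LT.T7.H305 Fermat.Agent.LT.T7.Q797

attribute [local instance] Fermat.Agent.LT.T5.instMeasurableSpaceG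

variable (P : EKCond)
variable (K K' : Type) [Field K] [NumberField K] [Field K'] [NumberField K'] [Algebra K K']

/-- **THE SECOND CUT OF THE NODE `PreBC57`, PROVED TOP.** -/
theorem preBC_of57
    (hH : ∃ μc : @Measure (GL (Fin 2) ℂ) (borel _), @Measure.IsHaarMeasure _ _ _ (borel _) μc)
    (hA : PairAC797 P K K' LocA893) (hBad : BadPartC57 K K') (hS : OpenSwap57 K K') :
    PreBC57 P K K' LocB893b := by
  intro ℓ hcyc hℓ htc Φe hcusp hconst hP B hB hram g hg
  obtain ⟨𝔫, hlev, hbad⟩ := hBad ℓ hcyc hℓ htc Φe B hB hram g hg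
  obtain ⟨μc, hμc⟩ := hH
  refine ⟨𝔫, μc, hlev, hμc, fun T₀ n n₀ m hexp a _ => ?_⟩
  obtain ⟨c₁, Φ₁, F₁, hpa⟩ :=
    hA ℓ hcyc hℓ htc Φe hcusp hconst hP B hB hram 𝔫 hlev μc hμc T₀ n n₀ m hexp
  obtain ⟨fb, hfb⟩ := hbad T₀ n n₀ m hexp
  obtain ⟨Ω, iT, iC, i2, iS, iM, iB, ν, iF, T, T', φ₀, Φ, f₀, F, hdat⟩ :=
    hpa.shape [] (fun x hx => absurd hx (List.not_mem_nil))
  have hd : IsAvgDat57 (upI (K' := K') 𝔫) 𝔫 T₀ (LocA893 B 𝔫 μc T₀ n m) 1 (Φ₁ []) (F₁ [])
      Ω iT iM ν T T' φ₀ Φ f₀ F := hdat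
  have ctx : ∀ Q, SwapCtx57 K K' Q →
      Q ℓ Φe B g 𝔫 μc T₀ n n₀ m c₁ fb Ω iT iM ν T T' φ₀ Φ f₀ F := fun Q hQ =>
    hQ ℓ hcyc hℓ htc Φe B hB hram g hg 𝔫 hlev μc hμc T₀ n n₀ m hexp c₁ Φ₁ F₁ hpa fb hfb
      Ω iT iC i2 iS iM iB ν iF T T' φ₀ Φ f₀ F hd
  obtain ⟨c₂, hop, hne⟩ := ctx _ hS.upOp
  have hmu := ctx _ hS.memUp
  have hmd := ctx _ hS.memDn a
  have hdo := ctx _ hS.dnOp a
  refine ⟨c₂, swapUpFn57 B T₀ n₀ ν T' φ₀ Φ, swapDnFn57 B T₀ fb a ν T f₀ F, ?_⟩
  exact
    { up_test := ctx _ hS.upTest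
      up_ek := ctx _ hS.upEK
      up_inv := ctx _ hS.upInv
      up_op := hop
      up_ne := hne
      dn_test := ctx _ hS.dnTest a
      dn_ek := ctx _ hS.dnEK a
      dn_inv := ctx _ hS.dnInv a
      dn_wfn := hdo.1
      dn_class := hdo.2.1
      dn_comm := hdo.2.2
      up_supp := ctx _ hS.upSupp
      dn_supp := ctx _ hS.dnSupp a
      shape := ⟨Ω, iT, iC, i2, iS, iM, iB, ν, iF, T, T',
        fun ω => swUp57 B T₀ n₀ (φ₀ ω), Φ, fun ω => swDn57 B T₀ fb (f₀ ω), F,
        fun ω => ⟨(hd.1 ω).1, (hd.1 ω).2.1, ctx _ hS.loc ω⟩,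
        hmu.1, hmd.1, hmu.2.1, hmd.2.1, hmu.2.2, hmd.2.2, fun _ => rfl, fun _ => rfl⟩ }

/-- **THE NODE `Q797.PairBC797` FOR THE SHAPE OF RECORD from the two cuts**: the first cut
(`pairBC_of57`: the natural average is split off) and the second cut (`preBC_of57`: the swap of
the components of the first pair at the places of the level). -/
theorem pairBC_of_cuts57 (hRel : H193.RelTorusC K K')
    (hH : ∃ μc : @Measure (GL (Fin 2) ℂ) (borel _), @Measure.IsHaarMeasure _ _ _ (borel _) μc)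
    (hA : PairAC797 P K K' LocA893) (hBad : BadPartC57 K K') (hS : OpenSwap57 K K')
    (hUp : NatUpC57 K K' LocB893b) (hDn : NatDnC57 K K' LocB893b)
    (hSh : NatShapeC57 K K' LocB893b) : PairBC797 P K K' LocB893b :=
  pairBC_of57 hRel (preBC_of57 P K K' hH hA hBad hS) hUp hDn hSh

end Fermat.Agent.LT.T7.PB57

end


end
-- ===== PACK-END LT/T7/H57/PreBTop.lean

-- ===== PACK-BEGIN LT/T7/H724/ProdShapeTop.lean
section





/-!
# Row LT, tower T7, node T7.L2.1.H2b.4 `H893.ProdShapeC893` (registry row 2851, helper724):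
# the PROVED tops of the cut

OFF-MAIN.  No hole, nothing assumed.  ADDITIVE.

    locProdC_of724   : P51.RegOrbC51 → P51.RegArchC51 → P51.SplitOrbC51 → P51.ArchProdC51
                         → SphProdC724 → LocProdC724 K K'
    prodShapeC_of724 : P51.GlobProdC51 K K' → LocProdC724 K K' → H893.ProdShapeC893 K K'
    prodShapeC_of_leaves724 : P51.OpAvgC51 → P51.ConvAvgC51 → P51.RegOrbC51 → P51.RegArchC51
                         → P51.SplitOrbC51 → P51.ArchProdC51 → SphProdC724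
                         → H893.ProdShapeC893 K K'                               (VERBATIM)
-/

set_option autoImplicit false

open AutomorphicForm IsDedekindDomain NumberField MeasureTheory
open scoped ComplexConjugate

noncomputable section

namespace Fermat.Agent.LT.T7.PS724

open Fermat.Agent.LT.H556 Fermat.Agent.LT.H556.A0 Fermat.Agent.LT.T7
open Fermat.Agent.LT.T7.H305 Fermat.Agent.LT.T7.H893 Fermat.Agent.LT.T7.P51

attribute [local instance] Fermat.Agent.LT.T5.instMeasurableSpaceG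

section Tops

variable {K K' : Type} [Field K] [NumberField K] [Field K'] [NumberField K'] [Algebra K K']

/-- **THE LOCAL NODE of the sixth cut from its leaves.** -/
theorem locProdC_of724 (h1 : RegOrbC51 K K') (h3 : RegArchC51 K K') (h5 : SplitOrbC51 K K')
    (h7 : ArchProdC51 K K') (h8 : SphProdC724 K K') : LocProdC724 K K' := by
  classical
  intro ℓ Φ B g 𝔫 μc T₀ n n₀ m hctx
  obtain ⟨t, ht, hsplit⟩ := h5 ℓ Φ B g 𝔫 μc T₀ n n₀ m hctx
  refine ⟨t, ht, ?_⟩
  intro H' z' H z hsys k j T φ₀ Φ' f₀ F hLP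
  have hloc : IsLoc51 K K' ℓ Φ B g 𝔫 μc T₀ n n₀ m H' z' H z t k j T φ₀ Φ' f₀ F :=
    ⟨hctx, hsys, ht, hLP⟩
  have hsphOut : SphOut893 B.l T₀ T φ₀ f₀ :=
    h8 _ _ _ _ _ _ _ _ _ _ _ _ _ _ _ _ _ _ _ _ _ _ hloc
  obtain ⟨T₁, T₂, φ₁, Φ₁, f₁, F₁, φ₂, Φ₂, f₂, F₂, hT, hT₁, hT₂, hA, hB, hbad, hfu, hφ0, hφi,
    hsph, hΦ, hF⟩ := hLP
  have hBh := hB.1
  -- the two kinds of places of the level
  have hcase : ∀ v ∈ T₀, v = B.u ∨ (v ∈ T₀.erase B.u ∧ v ≠ B.u) := by
    intro v hv0
    by_cases hvu : v = B.u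
    · exact Or.inl hvu
    · exact Or.inr ⟨Finset.mem_erase.2 ⟨hvu, hv0⟩, hvu⟩
  have hreg : ∀ v ∈ T₀, RegAt51 n m φ₀ f₀ v := by
    intro v hv0
    rcases hcase v hv0 with hvu | ⟨hve, hvu⟩
    · subst hvu
      exact h1 _ _ _ _ _ _ _ _ _ _ _ _ _ _ _ _ _ _ _ _ _ _ hloc
    · refine ⟨fun w hw => ?_, ?_⟩
      · rw [(hbad v hv0 hvu).2 w hw]
        exact hBh.inv_up v hve w hw
      · rw [(hbad v hv0 hvu).1]
        exact hBh.inv_down v hve
  have harch := h3 _ _ _ _ _ _ _ _ _ _ _ _ _ _ _ _ _ _ _ _ _ _ hloc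
  have hinert : ∀ v ∈ T₀, InertAt51 (B.comp 𝔫) n m φ₀ f₀ v := by
    intro v hv0
    rcases hcase v hv0 with hvu | ⟨hve, hvu⟩
    · subst hvu
      intro w _ huniq
      exfalso
      have e0 := huniq (B.o 0) (hctx.base.orbit_over 0)
      have e1 := huniq (B.o 1) (hctx.base.orbit_over 1)
      exact hctx.base.orbit_ne 1 Nat.zero_lt_one hctx.cyc.prime.one_lt (e1.trans e0.symm)
    · intro w hw huniq e i sw hi hs hext
      have := hBh.inert v hve w hw huniq e i sw hi hs hext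
      rw [(hbad v hv0 hvu).2 w hw, (hbad v hv0 hvu).1]
      exact this
  have hsplitAll : ∀ v ∈ T₀, SplitAt51 (B.comp 𝔫) n m φ₀ f₀ v := by
    intro v hv0
    rcases hcase v hv0 with hvu | ⟨hve, hvu⟩
    · subst hvu
      exact hsplit H' z' H z k j T φ₀ Φ' f₀ F hloc
    · intro hex
      obtain ⟨w, i, a1, a2, a3, a4, a5, a6, a7⟩ := hBh.split v hve hex
      refine ⟨w, i, a1, a2, a3, a4, a5, a6, ?_⟩
      have e : (fun (j : ℕ) (x : GL (Fin 2) (v.adicCompletion K)) => φ₀ (w j)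
            (Matrix.GeneralLinearGroup.map ((i j : v.adicCompletion K ≃+* _) :
              v.adicCompletion K →+* (w j).adicCompletion K') x))
          = fun (j : ℕ) (x : GL (Fin 2) (v.adicCompletion K)) =>
            (fun w : HeightOneSpectrum (𝓞 K') => dblFn893 (n₀ w) (finGL305 w g)) (w j)
              (Matrix.GeneralLinearGroup.map ((i j : v.adicCompletion K ≃+* _) :
                v.adicCompletion K →+* (w j).adicCompletion K') x) := by
        funext j x
        rw [(hbad v hv0 hvu).2 (w j) (a1 j)]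
      rw [e, (hbad v hv0 hvu).1]
      exact a7
  refine ⟨?_, hsphOut⟩
  exact
    { inv_up := fun v hv w hw => (hreg v hv).1 w hw
      inv_down := fun v hv => (hreg v hv).2
      arch_up := harch.1
      arch_down := harch.2
      inert := fun v hv => hinert v hv
      split := fun v hv => hsplitAll v hv
      arch := h7 _ _ _ _ _ _ _ _ _ _ _ _ _ _ _ _ _ _ _ _ _ _ hloc }

/-- **THE NODE `H893.ProdShapeC893` from the global node of helper51 and the local node.** -/
theorem prodShapeC_of724 (hG : GlobProdC51 K K') (hL : LocProdC724 K K') :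
    ProdShapeC893 K K' := by
  intro ℓ hcyc hl2 htc Φ B hB hRam g hg 𝔫 μc hμc T₀ n n₀ m hT₀ hm hn hn₀
  have hctx : IsCtx51 ℓ Φ B g 𝔫 μc T₀ n n₀ m :=
    { cyc := hcyc, ne2 := hl2, tc := htc, base := hB, ram := hRam, bad := hg, haar := hμc
      mem_T₀ := hT₀, lev_m := hm, lev_n := hn, lev_n₀ := hn₀ }
  obtain ⟨t, ht, hLt⟩ := hL ℓ Φ B g 𝔫 μc T₀ n n₀ m hctx
  obtain ⟨c, hc, hGc⟩ := hG ℓ Φ B g 𝔫 μc T₀ n n₀ m hctx
  refine ⟨c / t, div_ne_zero hc ht, ?_⟩
  intro a ha E hE hOp hA1 hA2 X k j hX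
  have hsys : IsSys51 B 𝔫 E.H' E.z' E.H E.z :=
    { level_ne := hE ▸ hOp.level_ne
      level_g := hE ▸ hOp.level_g
      mem_S'_g := hE ▸ hOp.mem_S'_g
      u_level := hE ▸ hOp.u_level
      sys' := hOp.sys'
      unif' := hOp.unif'
      sys := hOp.sys
      unif := hOp.unif }
  have hprod := hGc t a ht ha E hE hOp hA1 hA2 X k j hX
  rw [mul_div_assoc] at hprod
  exact isAvgPure_mono51
    (fun T φ₀ Φ' f₀ F h => hLt E.H' E.z' E.H E.z hsys k j T φ₀ Φ' f₀ F h) hprod

/-- **THE NODE `H893.ProdShapeC893` from the leaves.** -/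
theorem prodShapeC_of_leaves724 (g1 : OpAvgC51 K K') (g2 : ConvAvgC51 K K')
    (h1 : RegOrbC51 K K') (h3 : RegArchC51 K K') (h5 : SplitOrbC51 K K')
    (h7 : ArchProdC51 K K') (h8 : SphProdC724 K K') : ProdShapeC893 K K' :=
  prodShapeC_of724 (globProdC_of51 g1 g2) (locProdC_of724 h1 h3 h5 h7 h8)

end Tops

end Fermat.Agent.LT.T7.PS724

end

end
-- ===== PACK-END LT/T7/H724/ProdShapeTop.lean

-- ===== PACK-BEGIN LT/T7/B981/H368/Sys.lean
section




/-!
# Row LT, tower T7, leaf T7.L2.1.H2a.2 `B981.SysC981` (helper368, registry row 2687)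

OFF-MAIN.  `sysC368 K K' : B981.SysC981 K K'` VERBATIM vs `LT/T7/B981/BaseSpec.lean`
(helper981, sha256 3ab0d96c), UNCONDITIONAL.  ASSETS ONLY (byte-identical copies):

* `Hg` : `exists_isDblCosetSystem593` (helper593, `T7/H593/DblSys.lean`), the base level is not
  zero (`IsL2Base.base_level`: it is the extension of a nonzero ideal of `K`);
* `H'`, `H` : `exists_iwCosetSystem340` (helper340, `T7/H340/IwKit.lean`);
* `z'`, `z` : `exists_scalarUniformizer129` (helper129, `H129/HeckeExists.lean`).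

The hypothesis `B.IsBad g` is not used.
-/

set_option autoImplicit false

open AutomorphicForm IsDedekindDomain NumberField

noncomputable section

namespace Fermat.Agent.LT.T7.B981.H368

open Fermat.Agent.LT.H556 Fermat.Agent.LT.H556.A0 Fermat.Agent.LT.T7
open Fermat.Agent.LT.T7.H305 Fermat.Agent.LT.T7.H893

variable (K K' : Type) [Field K] [NumberField K] [Field K'] [NumberField K'] [Algebra K K']

/-- The extension to `K'` of a nonzero ideal of `K` is not zero. -/
theorem upI_ne_bot368 {𝔫 : Ideal (𝓞 K)} (h : 𝔫 ≠ ⊥) : upI (K' := K') 𝔫 ≠ ⊥ := by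
  intro h0
  exact h ((Ideal.map_eq_bot_iff_of_injective
    (FaithfulSMul.algebraMap_injective (𝓞 K) (𝓞 K'))).1 h0)

/-- **LEAF T7.L2.1.H2a.2 = SYSTEMS** of the cut of helper981, VERBATIM, UNCONDITIONAL. -/
theorem sysC368 : B981.SysC981 K K' := by
  intro ℓ Φ B hB g _
  obtain ⟨𝔫₀, h0, hN, -, -⟩ := hB.base_level
  have hN0 : B.𝔑₀ ≠ ⊥ := by
    rw [hN]
    exact upI_ne_bot368 K K' h0
  obtain ⟨Hg, hHg⟩ := Fermat.Agent.LT.T7.H593DS.exists_isDblCosetSystem593 B.𝔑₀ hN0 g
  obtain ⟨H', hH'⟩ := Fermat.Agent.LT.T7.H340.exists_iwCosetSystem340 (B.o 0)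
  obtain ⟨z', hz'⟩ := Fermat.Agent.LT.H129.exists_scalarUniformizer129 (B.o 0)
  obtain ⟨H, hH⟩ := Fermat.Agent.LT.T7.H340.exists_iwCosetSystem340 B.u
  obtain ⟨z, hz⟩ := Fermat.Agent.LT.H129.exists_scalarUniformizer129 B.u
  exact ⟨Hg, H', z', H, z, ⟨hHg, hH', hz', hH, hz⟩⟩

end Fermat.Agent.LT.T7.B981.H368

end

end
-- ===== PACK-END LT/T7/B981/H368/Sys.lean

-- ===== PACK-BEGIN LT/T7/B981/H503/StepSTop.lean
section




/-!
# Row LT, tower T7, node T7.L2.1.H2a.A.2 `B981.StepSC981` (registry row 2815, owner helper503):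
# THE CUT -- proved Top

OFF-MAIN.  Complete proofs, nothing assumed.

    stepSC_of503 : UnifC503 K → UnifC503 K' → TrTestC503 K → TrTestC503 K' → TrEKC503 K
        → TrEKC503 K' → TrSuppC503 K → TrSuppC503 K' → TrOpC503 K → TrOpC503 K'
        → PlacesC503 K K' → SphShiftC503 → UnitSphC503 → PureShiftC503 K → PureShiftC503 K'
        → B981.StepSC981 K K' H893.LocA893
-/

set_option autoImplicit false

open AutomorphicForm IsDedekindDomain NumberField MeasureTheory
open scoped ComplexConjugate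

noncomputable section

namespace Fermat.Agent.LT.T7.B981.SS503

open Fermat.Agent.LT.H556 Fermat.Agent.LT.H556.A0 Fermat.Agent.LT.T7
open Fermat.Agent.LT.T7.H305 Fermat.Agent.LT.T7.H893

attribute [local instance] Fermat.Agent.LT.T5.instMeasurableSpaceG

/-! ## 1. The Satake transform of a shift -/

theorem satT_def503 (q : ℕ) (A : (ℤ × ℤ) →₀ ℂ) (x y : ℂ) :
    satT893 q A x y = A.sum fun lam c => c * T6.satake q lam x y := rfl

theorem satake_def503 (q : ℕ) (lam : ℤ × ℤ) (x y : ℂ) :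
    T6.satake q lam x y = (x * y) ^ lam.2 * T6.satPoly q x y (lam.1 - lam.2).toNat := rfl

theorem satake_shift503 (q : ℕ) (t : ℤ) (lam : ℤ × ℤ) (x y : ℂ) (hx : x ≠ 0) (hy : y ≠ 0) :
    T6.satake q (lam.1 + t, lam.2 + t) x y = (x * y) ^ t * T6.satake q lam x y := by
  rw [satake_def503, satake_def503]
  have hxy : x * y ≠ 0 := mul_ne_zero hx hy
  have h1 : (lam.1 + t, lam.2 + t).1 - (lam.1 + t, lam.2 + t).2 = lam.1 - lam.2 := by
    show lam.1 + t - (lam.2 + t) = lam.1 - lam.2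
    ring
  have h2 : (lam.1 + t, lam.2 + t).2 = lam.2 + t := rfl
  rw [h1, h2, zpow_add₀ hxy]
  ring

/-- **The Satake transform of the shifted values** is multiplied by `(x y)^t`. -/
theorem satT_shA503 (q : ℕ) (t : ℤ) (A : (ℤ × ℤ) →₀ ℂ) (x y : ℂ) (hx : x ≠ 0) (hy : y ≠ 0) :
    satT893 q (shA503 t A) x y = (x * y) ^ t * satT893 q A x y := by
  rw [satT_def503, satT_def503]
  show (A.mapDomain fun lam => (lam.1 + t, lam.2 + t)).sum
      (fun lam c => c * T6.satake q lam x y) = _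
  rw [Finsupp.sum_mapDomain_index (fun _ => zero_mul _) (fun _ _ _ => add_mul _ _ _)]
  rw [Finsupp.mul_sum]
  refine Finsupp.sum_congr fun lam _ => ?_
  rw [satake_shift503 q t lam x y hx hy]
  ring

theorem satT_single503 (q : ℕ) (x y : ℂ) :
    satT893 q (Finsupp.single ((0 : ℤ), (0 : ℤ)) (1 : ℂ)) x y = 1 := by
  rw [satT_def503, Finsupp.sum_single_index (zero_mul _), satake_def503]
  show (1 : ℂ) * ((x * y) ^ (0 : ℤ) * T6.satPoly q x y ((0 : ℤ) - 0).toNat) = 1
  have h : ((0 : ℤ) - 0).toNat = 0 := rfl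
  rw [h, zpow_zero]
  show (1 : ℂ) * (1 * 1) = 1
  ring

theorem isBC_def503 (l q : ℕ) (φ f : (ℤ × ℤ) →₀ ℂ) :
    T6.IsBC l q φ f ↔ ∀ x y : ℂ, x ≠ 0 → y ≠ 0 →
      satT893 q f x y = satT893 (q ^ l) φ (x ^ l) (y ^ l) := Iff.rfl

/-- Base change of the unit. -/
theorem isBC_single503 (l q : ℕ) :
    T6.IsBC l q (Finsupp.single ((0 : ℤ), (0 : ℤ)) (1 : ℂ))
      (Finsupp.single ((0 : ℤ), (0 : ℤ)) (1 : ℂ)) := by
  rw [isBC_def503]
  intro x y _ _
  rw [satT_single503, satT_single503]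

/-- Base change of the shifts: `(x^l y^l)^t = (x y)^(t l)`. -/
theorem isBC_shA503 (l q : ℕ) (t : ℤ) (φ f : (ℤ × ℤ) →₀ ℂ) (h : T6.IsBC l q φ f) :
    T6.IsBC l q (shA503 t φ) (shA503 (t * l) f) := by
  rw [isBC_def503] at h ⊢
  intro x y hx hy
  rw [satT_shA503 q _ f x y hx hy, satT_shA503 (q ^ l) t φ _ _ (pow_ne_zero l hx)
    (pow_ne_zero l hy), h x y hx hy]
  congr 1
  rw [← mul_pow, ← zpow_natCast, ← zpow_mul, mul_comm (l : ℤ) t]

/-! ## 2. The components -/

section Comp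

variable {K : Type} [Field K] [NumberField K]

theorem extU_of_mem503 {T : Finset (HeightOneSpectrum (𝓞 K))}
    (f₀ : ∀ v : HeightOneSpectrum (𝓞 K), GL (Fin 2) (v.adicCompletion K) → ℂ)
    {v : HeightOneSpectrum (𝓞 K)} (hv : v ∈ T) : extU503 T f₀ v = f₀ v := by
  classical
  show (if v ∈ T then f₀ v else unitFn893 0) = f₀ v
  rw [if_pos hv]

theorem extU_of_not_mem503 {T : Finset (HeightOneSpectrum (𝓞 K))}
    (f₀ : ∀ v : HeightOneSpectrum (𝓞 K), GL (Fin 2) (v.adicCompletion K) → ℂ)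
    {v : HeightOneSpectrum (𝓞 K)} (hv : v ∉ T) : extU503 T f₀ v = unitFn893 0 := by
  classical
  show (if v ∈ T then f₀ v else unitFn893 0) = unitFn893 0
  rw [if_neg hv]

theorem trC_self503 (v : HeightOneSpectrum (𝓞 K)) (c : GL (Fin 2) (v.adicCompletion K))
    (f₀ : ∀ v : HeightOneSpectrum (𝓞 K), GL (Fin 2) (v.adicCompletion K) → ℂ) :
    trC503 v c f₀ v = fun x => f₀ v (x * c) := by
  classical
  show Function.update f₀ v (fun x => f₀ v (x * c)) v = _
  rw [Function.update_self]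

theorem trC_of_ne503 (v : HeightOneSpectrum (𝓞 K)) (c : GL (Fin 2) (v.adicCompletion K))
    (f₀ : ∀ v : HeightOneSpectrum (𝓞 K), GL (Fin 2) (v.adicCompletion K) → ℂ)
    {v' : HeightOneSpectrum (𝓞 K)} (h : v' ≠ v) : trC503 v c f₀ v' = f₀ v' := by
  classical
  show Function.update f₀ v (fun x => f₀ v (x * c)) v' = _
  rw [Function.update_of_ne h]

/-- The local component of a scalar uniformiser. -/
theorem finGL_unif503 {v : HeightOneSpectrum (𝓞 K)} {z : G K} (hz : IsScalarUniformizerAt v z) :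
    ∃ c₀ : v.adicCompletion K, Valued.v c₀ = WithZero.exp (-1 : ℤ) ∧
      ((finGL305 v z : GL (Fin 2) (v.adicCompletion K)) :
        Matrix (Fin 2) (Fin 2) (v.adicCompletion K)) = Matrix.diagonal (fun _ => c₀) := by
  obtain ⟨-, c₀, hc₀, hz₀⟩ := hz
  exact ⟨c₀, hc₀, hz₀⟩

end Comp

/-! ## 3. The spherical components outside the level -/

section Sph

variable {K K' : Type} [Field K] [NumberField K] [Field K'] [NumberField K'] [Algebra K K']

open Classical in
/-- The spherical data at `v` of the components extended by the unit. -/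
theorem sphData_ext503 (hUn : UnitSphC503) (ℓ : ℕ)
    {T₀ T : Finset (HeightOneSpectrum (𝓞 K))} {T' : Finset (HeightOneSpectrum (𝓞 K'))}
    (hOver : IsOver305 T T')
    {φ₀ : ∀ w : HeightOneSpectrum (𝓞 K'), GL (Fin 2) (w.adicCompletion K') → ℂ}
    {f₀ : ∀ v : HeightOneSpectrum (𝓞 K), GL (Fin 2) (v.adicCompletion K) → ℂ}
    (hsph : SphOut893 ℓ T₀ T φ₀ f₀) (v : HeightOneSpectrum (𝓞 K)) (hv0 : v ∉ T₀) :
    ∃ (A : HeightOneSpectrum (𝓞 K') → (ℤ × ℤ) →₀ ℂ) (Av : (ℤ × ℤ) →₀ ℂ),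
      IsSphFn893 (extU503 T f₀ v) Av ∧
      (∀ w : HeightOneSpectrum (𝓞 K'), PlaceOver K K' v w →
        IsSphFn893 (extU503 T' φ₀ w) (A w)) ∧
      (∀ w : HeightOneSpectrum (𝓞 K'), PlaceOver K K' v w →
        (∀ w' : HeightOneSpectrum (𝓞 K'), PlaceOver K K' v w' → w' = w) →
        T6.IsBC ℓ (Ideal.absNorm v.asIdeal) (A w) Av) ∧
      ∀ w : ℕ → HeightOneSpectrum (𝓞 K'), (∀ j : ℕ, PlaceOver K K' v (w j)) →
        (∀ j j' : ℕ, j < ℓ → j' < ℓ → w j = w j' → j = j') →
        ∀ x y : ℂ, x ≠ 0 → y ≠ 0 →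
          satT893 (Ideal.absNorm v.asIdeal) Av x y
            = ∏ j ∈ Finset.range ℓ, satT893 (Ideal.absNorm v.asIdeal) (A (w j)) x y := by
  by_cases hvT : v ∈ T
  · obtain ⟨A, Av, h1, h2, h3, h4⟩ := hsph v hvT hv0
    refine ⟨A, Av, ?_, ?_, h3, h4⟩
    · rw [extU_of_mem503 f₀ hvT]
      exact h1
    · intro w hw
      have hwT : w ∈ T' := (hOver w).2 ⟨v, hvT, hw⟩
      rw [extU_of_mem503 φ₀ hwT]
      exact h2 w hw
  · refine ⟨fun _ => Finsupp.single ((0 : ℤ), (0 : ℤ)) (1 : ℂ),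
      Finsupp.single ((0 : ℤ), (0 : ℤ)) (1 : ℂ), ?_, ?_, ?_, ?_⟩
    · rw [extU_of_not_mem503 f₀ hvT]
      exact hUn _
    · intro w hw
      have hwT : w ∉ T' := fun h => by
        obtain ⟨v', hv', hvw'⟩ := (hOver w).1 h
        have hvv : v' = v := H557.placeOver_unique_557 hvw' hw
        exact hvT (hvv ▸ hv')
      rw [extU_of_not_mem503 φ₀ hwT]
      exact hUn _
    · intro w _ _
      exact isBC_single503 ℓ _
    · intro w _ _ x y _ _
      rw [satT_single503]
      exact (Finset.prod_eq_one fun j _ => satT_single503 _ x y).symm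

open Classical in
/-- **The spherical components of the shifted pair.** -/
theorem sphOut_new503 (hSh : SphShiftC503) (hUn : UnitSphC503) (ℓ : ℕ)
    {T₀ T : Finset (HeightOneSpectrum (𝓞 K))} {T' : Finset (HeightOneSpectrum (𝓞 K'))}
    (hOver : IsOver305 T T')
    {φ₀ : ∀ w : HeightOneSpectrum (𝓞 K'), GL (Fin 2) (w.adicCompletion K') → ℂ}
    {f₀ : ∀ v : HeightOneSpectrum (𝓞 K), GL (Fin 2) (v.adicCompletion K) → ℂ}
    (hsph : SphOut893 ℓ T₀ T φ₀ f₀)
    {v : HeightOneSpectrum (𝓞 K)} {w : HeightOneSpectrum (𝓞 K')} {fr : ℕ}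
    (hv0 : v ∉ T₀) (hvw : PlaceOver K K' v w)
    (hinert : (∀ w' : HeightOneSpectrum (𝓞 K'), PlaceOver K K' v w' → w' = w) → fr = ℓ)
    (hsplit : ∀ u : ℕ → HeightOneSpectrum (𝓞 K'), (∀ j : ℕ, PlaceOver K K' v (u j)) →
      (∀ j j' : ℕ, j < ℓ → j' < ℓ → u j = u j' → j = j') →
      fr = 1 ∧ ∃ j : ℕ, j < ℓ ∧ u j = w)
    {cw : GL (Fin 2) (w.adicCompletion K')} {cw₀ : w.adicCompletion K'}
    (hcw₀ : Valued.v cw₀ = WithZero.exp (-1 : ℤ))
    (hcw : (cw : Matrix (Fin 2) (Fin 2) (w.adicCompletion K')) = Matrix.diagonal (fun _ => cw₀))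
    {cv : GL (Fin 2) (v.adicCompletion K)} {cv₀ : v.adicCompletion K}
    (hcv₀ : Valued.v cv₀ = WithZero.exp (-1 : ℤ))
    (hcv : (cv : Matrix (Fin 2) (Fin 2) (v.adicCompletion K)) = Matrix.diagonal (fun _ => cv₀))
    (t : ℤ) :
    SphOut893 ℓ T₀ (T ∪ {v}) (trC503 w (cw ^ t) (extU503 T' φ₀))
      (trC503 v (cv ^ (t * fr)) (extU503 T f₀)) := by
  intro v' hv' hv0'
  by_cases hvv : v' = v
  · subst hvv
    obtain ⟨A, Av, h1, h2, h3, h4⟩ := sphData_ext503 hUn ℓ hOver hsph v' hv0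
    refine ⟨fun w' => if w' = w then shA503 (-t) (A w) else A w', shA503 (-(t * fr)) Av,
      ?_, ?_, ?_, ?_⟩
    · rw [trC_self503]
      have h := hSh (v'.adicCompletion K) cv cv₀ hcv₀ hcv (-(t * fr)) (extU503 T f₀ v') Av h1
      rw [neg_neg] at h
      exact h
    · intro w' hw'
      by_cases hww : w' = w
      · subst hww
        beta_reduce
        rw [if_pos rfl, trC_self503]
        have h := hSh (w'.adicCompletion K') cw cw₀ hcw₀ hcw (-t) (extU503 T' φ₀ w') (A w')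
          (h2 w' hw')
        rw [neg_neg] at h
        exact h
      · beta_reduce
        rw [if_neg hww, trC_of_ne503 _ _ _ hww]
        exact h2 w' hw'
    · intro w' hw' huniq
      have hww : w = w' := huniq w hvw
      subst hww
      beta_reduce
      rw [if_pos rfl]
      have hfr : fr = ℓ := hinert huniq
      have h := isBC_shA503 ℓ (Ideal.absNorm v'.asIdeal) (-t) (A w) Av (h3 w hw' huniq)
      have he : -(t * (fr : ℤ)) = -t * (ℓ : ℤ) := by rw [hfr]; ring
      rw [he]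
      exact h
    · intro u hu hinj x y hx hy
      obtain ⟨hfr, j₀, hj₀, hj₀w⟩ := hsplit u hu hinj
      have he : -(t * (fr : ℤ)) = -t := by rw [hfr]; simp
      beta_reduce
      rw [he, satT_shA503 _ _ _ _ _ hx hy, h4 u hu hinj x y hx hy,
        ← Finset.mul_prod_erase (Finset.range ℓ) _ (Finset.mem_range.2 hj₀),
        ← Finset.mul_prod_erase (Finset.range ℓ)
          (fun j => satT893 (Ideal.absNorm v'.asIdeal)
            (if u j = w then shA503 (-t) (A w) else A (u j)) x y) (Finset.mem_range.2 hj₀)]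
      have h5 : satT893 (Ideal.absNorm v'.asIdeal)
          (if u j₀ = w then shA503 (-t) (A w) else A (u j₀)) x y
          = (x * y) ^ (-t) * satT893 (Ideal.absNorm v'.asIdeal) (A (u j₀)) x y := by
        rw [if_pos hj₀w, satT_shA503 _ _ _ _ _ hx hy, hj₀w]
      have h6 : ∏ j ∈ (Finset.range ℓ).erase j₀, satT893 (Ideal.absNorm v'.asIdeal)
          (if u j = w then shA503 (-t) (A w) else A (u j)) x y
          = ∏ j ∈ (Finset.range ℓ).erase j₀,
              satT893 (Ideal.absNorm v'.asIdeal) (A (u j)) x y := by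
        refine Finset.prod_congr rfl fun j hj => ?_
        have hjne : j ≠ j₀ := (Finset.mem_erase.1 hj).1
        have hjl : j < ℓ := Finset.mem_range.1 (Finset.mem_erase.1 hj).2
        have hne : u j ≠ w := fun h => hjne (hinj j j₀ hjl hj₀ (h.trans hj₀w.symm))
        rw [if_neg hne]
      rw [h5, h6]
      ring
  · have hvT : v' ∈ T := by
      rcases Finset.mem_union.1 hv' with h | h
      · exact h
      · exact absurd (Finset.mem_singleton.1 h) hvv
    obtain ⟨A, Av, h1, h2, h3, h4⟩ := hsph v' hvT hv0'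
    refine ⟨A, Av, ?_, ?_, h3, h4⟩
    · rw [trC_of_ne503 _ _ _ hvv, extU_of_mem503 f₀ hvT]
      exact h1
    · intro w' hw'
      have hww : w' ≠ w := fun h => hvv (H557.placeOver_unique_557 (h ▸ hw') hvw)
      have hwT : w' ∈ T' := (hOver w').2 ⟨v', hvT, hw'⟩
      rw [trC_of_ne503 _ _ _ hww, extU_of_mem503 φ₀ hwT]
      exact h2 w' hw'

end Sph

/-! ## 4. The local shape of the shifted pair -/

section Shape

variable {K K' : Type} [Field K] [NumberField K] [Field K'] [NumberField K'] [Algebra K K']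

/-- The archimedean clauses do not depend on the finite components. -/
theorem archOk_congr503 {D : CompData K K'} {μc : @Measure (GL (Fin 2) ℂ) (borel _)}
    {n : HeightOneSpectrum (𝓞 K') → ℕ} {m : HeightOneSpectrum (𝓞 K) → ℕ}
    {φ₀ φ₀' : ∀ w : HeightOneSpectrum (𝓞 K'), GL (Fin 2) (w.adicCompletion K') → ℂ}
    {Φ : InfinitePlace K' → GL (Fin 2) ℂ → ℂ}
    {f₀ f₀' : ∀ v : HeightOneSpectrum (𝓞 K), GL (Fin 2) (v.adicCompletion K) → ℂ}
    {F : InfinitePlace K → GL (Fin 2) ℂ → ℂ}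
    (h : ArchOk893 D μc n m φ₀ Φ f₀ F) : ArchOk893 D μc n m φ₀' Φ f₀' F := by
  obtain ⟨hL, hΦ, hF⟩ := h
  refine ⟨?_, hΦ, hF⟩
  exact
    { inv_up := fun v hv => absurd hv (Finset.notMem_empty v)
      inv_down := fun v hv => absurd hv (Finset.notMem_empty v)
      arch_up := hL.arch_up
      arch_down := hL.arch_down
      inert := fun v hv => absurd hv (Finset.notMem_empty v)
      split := fun v hv => absurd hv (Finset.notMem_empty v)
      arch := hL.arch }

open Classical in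
/-- **The local condition of the shifted components.** -/
theorem locA_new503 (hSh : SphShiftC503) (hUn : UnitSphC503) (B : L2Base K K')
    (𝔫 : Ideal (𝓞 K)) (μc : @Measure (GL (Fin 2) ℂ) (borel _))
    {T₀ T : Finset (HeightOneSpectrum (𝓞 K))} {T' : Finset (HeightOneSpectrum (𝓞 K'))}
    {n : HeightOneSpectrum (𝓞 K') → ℕ} {m : HeightOneSpectrum (𝓞 K) → ℕ}
    (hT₀ : T₀ ⊆ T) (hOver : IsOver305 T T')
    {φ₀ : ∀ w : HeightOneSpectrum (𝓞 K'), GL (Fin 2) (w.adicCompletion K') → ℂ}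
    {Φ : InfinitePlace K' → GL (Fin 2) ℂ → ℂ}
    {f₀ : ∀ v : HeightOneSpectrum (𝓞 K), GL (Fin 2) (v.adicCompletion K) → ℂ}
    {F : InfinitePlace K → GL (Fin 2) ℂ → ℂ}
    (hloc : LocA893 B 𝔫 μc T₀ n m T φ₀ Φ f₀ F)
    {v : HeightOneSpectrum (𝓞 K)} {w : HeightOneSpectrum (𝓞 K')} {fr : ℕ}
    (hv0 : v ∉ T₀) (hvw : PlaceOver K K' v w)
    (hinert : (∀ w' : HeightOneSpectrum (𝓞 K'), PlaceOver K K' v w' → w' = w) → fr = B.l)
    (hsplit : ∀ u : ℕ → HeightOneSpectrum (𝓞 K'), (∀ j : ℕ, PlaceOver K K' v (u j)) →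
      (∀ j j' : ℕ, j < B.l → j' < B.l → u j = u j' → j = j') →
      fr = 1 ∧ ∃ j : ℕ, j < B.l ∧ u j = w)
    {cw : GL (Fin 2) (w.adicCompletion K')} {cw₀ : w.adicCompletion K'}
    (hcw₀ : Valued.v cw₀ = WithZero.exp (-1 : ℤ))
    (hcw : (cw : Matrix (Fin 2) (Fin 2) (w.adicCompletion K')) = Matrix.diagonal (fun _ => cw₀))
    {cv : GL (Fin 2) (v.adicCompletion K)} {cv₀ : v.adicCompletion K}
    (hcv₀ : Valued.v cv₀ = WithZero.exp (-1 : ℤ))
    (hcv : (cv : Matrix (Fin 2) (Fin 2) (v.adicCompletion K)) = Matrix.diagonal (fun _ => cv₀))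
    (t : ℤ) :
    LocA893 B 𝔫 μc T₀ n m (T ∪ {v}) (trC503 w (cw ^ t) (extU503 T' φ₀)) Φ
      (trC503 v (cv ^ (t * fr)) (extU503 T f₀)) F := by
  obtain ⟨h1, h2, h3, h4⟩ := hloc
  refine ⟨?_, ?_, ?_, ?_⟩
  · intro v' hv'
    have hne : v' ≠ v := fun h => hv0 (h ▸ hv')
    rw [trC_of_ne503 _ _ _ hne, extU_of_mem503 f₀ (hT₀ hv')]
    exact h1 v' hv'
  · intro v' hv' w' hw'
    have hne : w' ≠ w := fun h =>
      hv0 ((H557.placeOver_unique_557 (h ▸ hw') hvw) ▸ hv')
    have hwT : w' ∈ T' := (hOver w').2 ⟨v', hT₀ hv', hw'⟩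
    rw [trC_of_ne503 _ _ _ hne, extU_of_mem503 φ₀ hwT]
    exact h2 v' hv' w' hw'
  · exact sphOut_new503 hSh hUn B.l hOver h3 hv0 hvw hinert hsplit hcw₀ hcw hcv₀ hcv t
  · exact archOk_congr503 h4

end Shape

/-! ## 5. The average of pure tensors of the shifted pair -/

section Avg

variable {K K' : Type} [Field K] [NumberField K] [Field K'] [NumberField K'] [Algebra K K']

theorem rtr_apply503 {F : Type} [Field F] [NumberField F] (z : G F) (φ : G F → ℂ) (g : G F) :
    rtr503 z φ g = φ (g * z) := rfl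

open Classical in
/-- **The shifted pair is an average of pure tensors with the local condition `LocA893`.** -/
theorem shape_new503 (hT : TrTestC503 K) (hT' : TrTestC503 K') (hSh : SphShiftC503)
    (hUn : UnitSphC503) (hPu : PureShiftC503 K) (hPu' : PureShiftC503 K')
    (B : L2Base K K') (𝔫 : Ideal (𝓞 K)) (μc : @Measure (GL (Fin 2) ℂ) (borel _))
    {T₀ : Finset (HeightOneSpectrum (𝓞 K))}
    {n : HeightOneSpectrum (𝓞 K') → ℕ} {m : HeightOneSpectrum (𝓞 K) → ℕ}
    {φ : G K' → ℂ} {f : G K → ℂ}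
    (hshape : IsAvgPure (upI (K' := K') 𝔫) 𝔫 T₀ (LocA893 B 𝔫 μc T₀ n m) 1 φ f)
    {v : HeightOneSpectrum (𝓞 K)} {w : HeightOneSpectrum (𝓞 K')} {fr : ℕ}
    (P : Finset (HeightOneSpectrum (𝓞 K')))
    (hP : ∀ w' : HeightOneSpectrum (𝓞 K'), w' ∈ P ↔ PlaceOver K K' v w')
    (hv0 : v ∉ T₀) (hvw : PlaceOver K K' v w)
    (hinert : (∀ w' : HeightOneSpectrum (𝓞 K'), PlaceOver K K' v w' → w' = w) → fr = B.l)
    (hsplit : ∀ u : ℕ → HeightOneSpectrum (𝓞 K'), (∀ j : ℕ, PlaceOver K K' v (u j)) →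
      (∀ j j' : ℕ, j < B.l → j' < B.l → u j = u j' → j = j') →
      fr = 1 ∧ ∃ j : ℕ, j < B.l ∧ u j = w)
    {z' : G K'} (hz' : IsScalarUniformizerAt w z') {z : G K} (hz : IsScalarUniformizerAt v z)
    (t : ℤ) :
    IsAvgPure (upI (K' := K') 𝔫) 𝔫 T₀ (LocA893 B 𝔫 μc T₀ n m) 1
      (rtr503 (z' ^ t) φ) (rtr503 (z ^ (t * fr)) f) := by
  obtain ⟨Ω, i1, i2, i3, i4, i5, i6, ν, i7, T, T', φ₀, Φc, f₀, Fc, hA, hB1, hB2, hC1, hC2,
    ⟨C', hC', hD1⟩, ⟨C, hC, hD2⟩, hE1, hE2⟩ := hshape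
  obtain ⟨cw₀, hcw₀, hcw⟩ := finGL_unif503 hz'
  obtain ⟨cv₀, hcv₀, hcv⟩ := finGL_unif503 hz
  have hwP : w ∈ P := (hP w).2 hvw
  have hvS : v ∈ ({v} : Finset (HeightOneSpectrum (𝓞 K))) := Finset.mem_singleton_self v
  -- the key identities
  have hup : ∀ (a : Ω) (h : G K'),
      pure305 (T' a ∪ P) (trC503 w (finGL305 w (z' ^ t)) (extU503 (T' a) (φ₀ a))) (Φc a) h
        = pure305 (T' a) (φ₀ a) (Φc a) (h * z' ^ t) := fun a h =>
    hPu' (T' a) P (φ₀ a) (Φc a) w hwP z' hz' t h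
  have hdn : ∀ (a : Ω) (h : G K),
      pure305 (T a ∪ {v}) (trC503 v (finGL305 v (z ^ (t * fr))) (extU503 (T a) (f₀ a)))
          (Fc a) h
        = pure305 (T a) (f₀ a) (Fc a) (h * z ^ (t * fr)) := fun a h =>
    hPu (T a) {v} (f₀ a) (Fc a) v hvS z hz (t * fr) h
  refine ⟨Ω, i1, i2, i3, i4, i5, i6, ν, i7, fun a => T a ∪ {v}, fun a => T' a ∪ P,
    fun a => trC503 w (finGL305 w (z' ^ t)) (extU503 (T' a) (φ₀ a)), Φc,
    fun a => trC503 v (finGL305 v (z ^ (t * fr))) (extU503 (T a) (f₀ a)), Fc,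
    ?_, ?_, ?_, ?_, ?_, ?_, ?_, ?_, ?_⟩
  · -- the local conditions
    intro a
    obtain ⟨hT₀, hOver, hloc⟩ := hA a
    refine ⟨fun x hx => Finset.mem_union_left _ (hT₀ hx), ?_, ?_⟩
    · intro w'
      constructor
      · intro hw'
        rcases Finset.mem_union.1 hw' with h | h
        · obtain ⟨v', hv', hvw'⟩ := (hOver w').1 h
          exact ⟨v', Finset.mem_union_left _ hv', hvw'⟩
        · exact ⟨v, Finset.mem_union_right _ hvS, (hP w').1 h⟩
      · rintro ⟨v', hv', hvw'⟩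
        rcases Finset.mem_union.1 hv' with h | h
        · exact Finset.mem_union_left _ ((hOver w').2 ⟨v', h, hvw'⟩)
        · have hvv : v' = v := Finset.mem_singleton.1 h
          exact Finset.mem_union_right _ ((hP w').2 (hvv ▸ hvw'))
    · have h1 : finGL305 w (z' ^ t) = finGL305 w z' ^ t := map_zpow _ _ _
      have h2 : finGL305 v (z ^ (t * fr)) = finGL305 v z ^ (t * fr) := map_zpow _ _ _
      rw [h1, h2]
      exact locA_new503 hSh hUn B 𝔫 μc hT₀ hOver hloc hv0 hvw hinert hsplit hcw₀ hcw hcv₀ hcv t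
  · intro a
    have h : pure305 (T' a ∪ P) (trC503 w (finGL305 w (z' ^ t)) (extU503 (T' a) (φ₀ a))) (Φc a)
        = rtr503 (z' ^ t) (pure305 (T' a) (φ₀ a) (Φc a)) := funext fun h => hup a h
    rw [h]
    exact hT' _ w z' hz' t _ (hB1 a)
  · intro a
    have h : (fun h => (1 : ℂ) * pure305 (T a ∪ {v})
          (trC503 v (finGL305 v (z ^ (t * fr))) (extU503 (T a) (f₀ a))) (Fc a) h)
        = rtr503 (z ^ (t * fr)) (fun h => (1 : ℂ) * pure305 (T a) (f₀ a) (Fc a) h) :=
      funext fun h => by rw [rtr_apply503, hdn a h]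
    rw [h]
    exact hT _ v z hz (t * fr) _ (hB2 a)
  · have h : (fun p : Ω × G K' => pure305 (T' p.1 ∪ P)
          (trC503 w (finGL305 w (z' ^ t)) (extU503 (T' p.1) (φ₀ p.1))) (Φc p.1) p.2)
        = (fun p : Ω × G K' => pure305 (T' p.1) (φ₀ p.1) (Φc p.1) p.2)
            ∘ fun p : Ω × G K' => (p.1, p.2 * z' ^ t) := funext fun p => hup p.1 p.2
    rw [h]
    exact hC1.comp (continuous_fst.prodMk (continuous_snd.mul continuous_const))
  · have h : (fun p : Ω × G K => (1 : ℂ) * pure305 (T p.1 ∪ {v})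
          (trC503 v (finGL305 v (z ^ (t * fr))) (extU503 (T p.1) (f₀ p.1))) (Fc p.1) p.2)
        = (fun p : Ω × G K => (1 : ℂ) * pure305 (T p.1) (f₀ p.1) (Fc p.1) p.2)
            ∘ fun p : Ω × G K => (p.1, p.2 * z ^ (t * fr)) :=
      funext fun p => by
        show (1 : ℂ) * _ = (1 : ℂ) * _
        rw [hdn p.1 p.2]
    rw [h]
    exact hC2.comp (continuous_fst.prodMk (continuous_snd.mul continuous_const))
  · refine ⟨(fun g : G K' => g * (z' ^ t)⁻¹) '' C',
      hC'.image (continuous_id.mul continuous_const), ?_⟩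
    intro a h hne
    rw [hup a h] at hne
    exact ⟨h * z' ^ t, hD1 a _ hne, by simp⟩
  · refine ⟨(fun g : G K => g * (z ^ (t * fr))⁻¹) '' C,
      hC.image (continuous_id.mul continuous_const), ?_⟩
    intro a h hne
    rw [hdn a h] at hne
    exact ⟨h * z ^ (t * fr), hD2 a _ hne, by simp⟩
  · intro h
    rw [rtr_apply503, hE1 (h * z' ^ t)]
    exact integral_congr_ae (Filter.Eventually.of_forall fun a => (hup a h).symm)
  · intro h
    rw [rtr_apply503, hE2 (h * z ^ (t * fr))]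
    refine integral_congr_ae (Filter.Eventually.of_forall fun a => ?_)
    show (1 : ℂ) * _ = (1 : ℂ) * _
    rw [hdn a h]

end Avg

/-! ## 6. The step -/

section Top

variable {K K' : Type} [Field K] [NumberField K] [Field K'] [NumberField K'] [Algebra K K']

/-- A place outside `S'` does not divide the base level. -/
theorem not_dvd_base503 {B : L2Base K K'} {𝔫 : Ideal (𝓞 K)} (hlev : Q797.IsLevel797 B 𝔫)
    {w : HeightOneSpectrum (𝓞 K')} (hwS : w ∉ B.S') : ¬ w.asIdeal ∣ B.𝔑₀ := by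
  intro h
  apply hwS
  rw [hlev.mem_S'_g]
  exact dvd_trans h (Ideal.dvd_iff_le.2 hlev.level_g)

/-- The place under a place outside `S'` does not divide the level. -/
theorem not_dvd_level503 {B : L2Base K K'} {𝔫 : Ideal (𝓞 K)} (hlev : Q797.IsLevel797 B 𝔫)
    {v : HeightOneSpectrum (𝓞 K)} {w : HeightOneSpectrum (𝓞 K')} (hvw : PlaceOver K K' v w)
    (hwS : w ∉ B.S') : ¬ v.asIdeal ∣ 𝔫 := by
  intro h
  apply hwS
  rw [hlev.mem_S'_g, Ideal.dvd_iff_le]
  show Ideal.map (algebraMap (𝓞 K) (𝓞 K')) 𝔫 ≤ w.asIdeal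
  rw [Ideal.map_le_iff_le_comap, ← (H557.placeOver_iff_557 v w).1 hvw]
  exact Ideal.dvd_iff_le.1 h

/-- **The shifted pairs are good**, for every integer shift. -/
theorem core503 (hU : UnifC503 K) (hU' : UnifC503 K') (hT : TrTestC503 K)
    (hT' : TrTestC503 K') (hE : TrEKC503 K) (hE' : TrEKC503 K') (hS : TrSuppC503 K)
    (hS' : TrSuppC503 K') (hPl : PlacesC503 K K') (hSh : SphShiftC503) (hUn : UnitSphC503)
    (hPu : PureShiftC503 K) (hPu' : PureShiftC503 K')
    {ℓ : ℕ} (hcyc : IsCycExt K K' ℓ) {Φ : HeckeEigensystem K' ℂ} {B : L2Base K K'}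
    (hB : IsL2Base ℓ Φ B) (hRam : B.RamIn) {𝔫 : Ideal (𝓞 K)} (hlev : Q797.IsLevel797 B 𝔫)
    (μc : @Measure (GL (Fin 2) ℂ) (borel _)) {T₀ : Finset (HeightOneSpectrum (𝓞 K))}
    {n n₀ : HeightOneSpectrum (𝓞 K') → ℕ} {m : HeightOneSpectrum (𝓞 K) → ℕ}
    (hexp : Q797.IsExp797 B 𝔫 T₀ n n₀ m) {w : HeightOneSpectrum (𝓞 K')} (hwS : w ∉ B.S')
    {φ : G K' → ℂ} {f : G K → ℂ} (hgood : IsGoodA981 LocA893 ℓ B 𝔫 μc T₀ n m φ f) :
    ∃ (v : HeightOneSpectrum (𝓞 K)) (fr : ℕ) (z' : G K') (z : G K),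
      HasResDeg K K' v w fr ∧ IsScalarUniformizerAt w z' ∧ IsScalarUniformizerAt v z ∧
      ¬ v.asIdeal ∣ 𝔫 ∧
      ∀ t : ℤ, IsGoodA981 LocA893 ℓ B 𝔫 μc T₀ n m (rtr503 (z' ^ t) φ)
        (rtr503 (z ^ (t * fr)) f) := by
  obtain ⟨v, fr, P, hres, -, hP, hunr⟩ := hPl ℓ hcyc w
  have hvw : PlaceOver K K' v w := hres.1
  obtain ⟨hinert, hsplit⟩ := hunr (hRam v w hvw hwS)
  obtain ⟨z', hz'⟩ := hU' w
  obtain ⟨z, hz⟩ := hU v
  have hvn : ¬ v.asIdeal ∣ 𝔫 := not_dvd_level503 hlev hvw hwS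
  have hv0 : v ∉ T₀ := fun h => hvn ((hexp.mem_T₀ v).1 h)
  have hdeg : B.l = ℓ := hB.deg
  have hinert' : (∀ w' : HeightOneSpectrum (𝓞 K'), PlaceOver K K' v w' → w' = w) → fr = B.l :=
    fun h => (hinert h).trans hdeg.symm
  have hsplit' : ∀ u : ℕ → HeightOneSpectrum (𝓞 K'), (∀ j : ℕ, PlaceOver K K' v (u j)) →
      (∀ j j' : ℕ, j < B.l → j' < B.l → u j = u j' → j = j') →
      fr = 1 ∧ ∃ j : ℕ, j < B.l ∧ u j = w := by
    rw [hdeg]
    exact hsplit
  have ho : ∀ j : ℕ, j < ℓ → B.o j ≠ w := fun j _ h => hwS (h ▸ hB.orbit_level j)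
  have hu : ∀ j : ℕ, j < 1 → (fun _ : ℕ => B.u) j ≠ v := by
    intro j _ h
    have h' : B.u = v := h
    obtain ⟨j', -, hj'⟩ := hB.orbit_all w (h' ▸ hvw)
    exact hwS (hj' ▸ hB.orbit_level j')
  refine ⟨v, fr, z', z, hres, hz', hz, hvn, fun t => ?_⟩
  exact
    { up_test := hT' _ w z' hz' t φ hgood.up_test
      up_ek := ⟨(hE' _ _ hB.frame'.frame w z' hz' t φ).1 hgood.up_ek.1,
        (hE' _ _ hB.frame'.frame w z' hz' t φ).2 hgood.up_ek.2⟩
      dn_test := hT _ v z hz (t * fr) f hgood.dn_test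
      dn_ek := ⟨(hE _ _ hB.frame.frame v z hz (t * fr) f).1 hgood.dn_ek.1,
        (hE _ _ hB.frame.frame v z hz (t * fr) f).2 hgood.dn_ek.2⟩
      up_supp := hS' ℓ B.o w z' hz' ho t φ hgood.up_supp
      dn_supp := hS 1 (fun _ => B.u) v z hz hu (t * fr) f hgood.dn_supp
      shape := shape_new503 hT hT' hSh hUn hPu hPu' B 𝔫 μc hgood.shape P hP hv0 hvw hinert'
        hsplit' hz' hz t }

variable (K K')

/-- **THE NODE `B981.StepSC981` FROM THE LEAVES** (the shape of record `H893.LocA893`). -/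
theorem stepSC_of503 (hU : UnifC503 K) (hU' : UnifC503 K') (hT : TrTestC503 K)
    (hT' : TrTestC503 K') (hE : TrEKC503 K) (hE' : TrEKC503 K') (hS : TrSuppC503 K)
    (hS' : TrSuppC503 K') (hO : TrOpC503 K) (hO' : TrOpC503 K') (hPl : PlacesC503 K K')
    (hSh : SphShiftC503) (hUn : UnitSphC503) (hPu : PureShiftC503 K)
    (hPu' : PureShiftC503 K') : B981.StepSC981 K K' H893.LocA893 := by
  intro ℓ hcyc _ _ Φ B hB hRam 𝔫 hlev μc _ T₀ n n₀ m hexp x hx hxout φ f hgood
  obtain ⟨w, hxw⟩ := hx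
  have hwS : w ∉ B.S' := by
    rcases hxw with h | h
    · rw [h] at hxout
      exact hxout
    · rw [h] at hxout
      exact hxout
  obtain ⟨v, fr, z', z, hres, hz', hz, hvn, hgood'⟩ :=
    core503 hU hU' hT hT' hE hE' hS hS' hPl hSh hUn hPu hPu' hcyc hB hRam hlev μc hexp hwS hgood
  have hwn : ¬ w.asIdeal ∣ B.𝔑₀ := not_dvd_base503 hlev hwS
  rcases hxw with h | h
  · -- `x = S_w`
    refine ⟨(rtr503 (z' ^ (-1 : ℤ)) φ, rtr503 (z ^ ((-1 : ℤ) * fr)) f), hgood' (-1), ?_⟩
    refine ⟨?_, ?_⟩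
    · intro χ C hχ y
      have h1 := (hO' _ _ hB.frame'.frame χ w (C.a w) (C.b w) (hχ.hecke w hwn) z' hz' 1 φ y).1
      rw [h, Gen.ev_S797]
      rw [Nat.cast_one, pow_one] at h1
      exact h1
    · intro χ c C hχ hBC y
      have hb : C.b w = c.b v ^ fr := (hBC.1 w hwS v fr hres).2
      have h1 := (hO _ _ hB.frame.frame χ v (c.a v) (c.b v) (hχ.hecke v hvn) z hz fr f y).1
      have he : ((-1 : ℤ) * (fr : ℤ)) = -((fr : ℕ) : ℤ) := by ring
      rw [h, Gen.ev_S797, hb]
      show T5.Rconv B.R.μ (rtr503 (z ^ ((-1 : ℤ) * fr)) f) χ y = _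
      rw [he]
      exact h1
  · -- `x = S_w⁻¹`
    refine ⟨(rtr503 (z' ^ (1 : ℤ)) φ, rtr503 (z ^ ((1 : ℤ) * fr)) f), hgood' 1, ?_⟩
    refine ⟨?_, ?_⟩
    · intro χ C hχ y
      have h1 := (hO' _ _ hB.frame'.frame χ w (C.a w) (C.b w) (hχ.hecke w hwn) z' hz' 1 φ y).2
      rw [h, Gen.ev_Sinv797]
      rw [Nat.cast_one, pow_one] at h1
      exact h1
    · intro χ c C hχ hBC y
      have hb : C.b w = c.b v ^ fr := (hBC.1 w hwS v fr hres).2
      have h1 := (hO _ _ hB.frame.frame χ v (c.a v) (c.b v) (hχ.hecke v hvn) z hz fr f y).2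
      have he : ((1 : ℤ) * (fr : ℤ)) = ((fr : ℕ) : ℤ) := by ring
      rw [h, Gen.ev_Sinv797, hb]
      show T5.Rconv B.R.μ (rtr503 (z ^ ((1 : ℤ) * fr)) f) χ y = _
      rw [he]
      exact h1

end Top

end Fermat.Agent.LT.T7.B981.SS503

end

end
-- ===== PACK-END LT/T7/B981/H503/StepSTop.lean

-- ===== PACK-BEGIN LT/T7/H445/StepMTop.lean
section



/-!
# Row LT, tower T7, node T7.L2.1.H2a.A.3 `B981.StepMC981` (sub-architect helper445, registry 2816):
# THE CUT -- proved top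

OFF-MAIN.  `stepMC_of445 : (the leaves of `StepMSpec.lean`) → B981.StepMC981 K K' H893.LocA893`
(VERBATIM, the form of record `LA = H893.LocA893`).  No hole, nothing assumed.
-/

set_option autoImplicit false

open AutomorphicForm IsDedekindDomain NumberField MeasureTheory
open scoped ComplexConjugate

noncomputable section

namespace Fermat.Agent.LT.T7.H445

open Fermat.Agent.LT.H556 Fermat.Agent.LT.H556.A0 Fermat.Agent.LT.T7
open Fermat.Agent.LT.T7.H305 Fermat.Agent.LT.T7.H893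

attribute [local instance] Fermat.Agent.LT.T5.instMeasurableSpaceG

/-- The iterated convolution up to `N` depends on the factors `0, …, N` only. -/
theorem convL305_congr445 (μc : @Measure (GL (Fin 2) ℂ) (borel _))
    {Ψ Ψ' : ℕ → GL (Fin 2) ℂ → ℂ} (N : ℕ) (h : ∀ j : ℕ, j ≤ N → Ψ j = Ψ' j) :
    convL305 μc Ψ N = convL305 μc Ψ' N := by
  induction N with
  | zero =>
    show Ψ 0 = Ψ' 0
    exact h 0 le_rfl
  | succ k ih =>
    show @T6.convInt _ _ (borel _) μc (convL305 μc Ψ k) (Ψ (k + 1))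
      = @T6.convInt _ _ (borel _) μc (convL305 μc Ψ' k) (Ψ' (k + 1))
    rw [ih (fun j hj => h j (Nat.le_succ_of_le hj)), h (k + 1) le_rfl]

section Upd

variable {K : Type} [Field K] [NumberField K]

theorem updArch445_same (F : InfinitePlace K → GL (Fin 2) ℂ → ℂ) (w : InfinitePlace K)
    (Ψ : GL (Fin 2) ℂ → ℂ) : updArch445 F w Ψ w = Ψ := by
  classical
  show (if w = w then Ψ else F w) = Ψ
  rw [if_pos rfl]

theorem updArch445_ne (F : InfinitePlace K → GL (Fin 2) ℂ → ℂ) (w : InfinitePlace K)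
    (Ψ : GL (Fin 2) ℂ → ℂ) {w' : InfinitePlace K} (h : w' ≠ w) : updArch445 F w Ψ w' = F w' := by
  classical
  show (if w' = w then Ψ else F w') = F w'
  rw [if_neg h]

/-- The components with the component at `w` replaced by its local sphere mean are good. -/
theorem updArch445_good (hArch : SphArchC445) {d : ℝ} {y : ℝ → ℝ → GL (Fin 2) ℂ}
    (hy : IsSphC445 d y) (F : InfinitePlace K → GL (Fin 2) ℂ → ℂ) (w : InfinitePlace K)
    (hF : ∀ w' : InfinitePlace K, IsArchGood445 (F w')) (w' : InfinitePlace K) :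
    IsArchGood445 (updArch445 F w (sphMeanC445 y (F w)) w') := by
  by_cases h : w' = w
  · subst h
    rw [updArch445_same]
    exact hArch d y hy _ (hF w')
  · rw [updArch445_ne F w _ h]
    exact hF w'

end Upd

variable (K K' : Type) [Field K] [NumberField K] [Field K'] [NumberField K'] [Algebra K K']

/-- The components of a pair with `H893.ArchOk893` are good. -/
theorem archGood_of_archOk445 {D : CompData K K'} {μc : @Measure (GL (Fin 2) ℂ) (borel _)}
    {n : HeightOneSpectrum (𝓞 K') → ℕ} {m : HeightOneSpectrum (𝓞 K) → ℕ}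
    {φ₀ : ∀ w : HeightOneSpectrum (𝓞 K'), GL (Fin 2) (w.adicCompletion K') → ℂ}
    {Φ : InfinitePlace K' → GL (Fin 2) ℂ → ℂ}
    {f₀ : ∀ v : HeightOneSpectrum (𝓞 K), GL (Fin 2) (v.adicCompletion K) → ℂ}
    {F : InfinitePlace K → GL (Fin 2) ℂ → ℂ} (h : ArchOk893 D μc n m φ₀ Φ f₀ F) :
    (∀ w : InfinitePlace K', IsArchGood445 (Φ w)) ∧ ∀ v : InfinitePlace K, IsArchGood445 (F v) :=
  ⟨fun w => ⟨(h.1.arch_up w).1, (h.1.arch_up w).2.1, (h.1.arch_up w).2.2,
      fun k₁ k₂ g h₁ h₂ => h.2.1 w k₁ k₂ g h₁ h₂⟩,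
    fun v => ⟨(h.1.arch_down v).1, (h.1.arch_down v).2.1, (h.1.arch_down v).2.2,
      fun k₁ k₂ g h₁ h₂ => h.2.2 v k₁ k₂ g h₁ h₂⟩⟩

/-- **`H893.ArchOk893` is preserved by the local sphere means at `w` and at `v = w ∩ K`.** -/
theorem archOk_step445 (hArch : SphArchC445) (hConv : SphConvC445)
    (hFib : ArchFibreC445 K K') {ℓ : ℕ} (hcyc : IsCycExt K K' ℓ) (htot : TotCplx K)
    {D : CompData K K'} (hD : D.l = ℓ)
    {μc : @Measure (GL (Fin 2) ℂ) (borel _)} (hμc : @Measure.IsHaarMeasure _ _ _ (borel _) μc)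
    {n : HeightOneSpectrum (𝓞 K') → ℕ} {m : HeightOneSpectrum (𝓞 K) → ℕ}
    {φ₀ : ∀ w : HeightOneSpectrum (𝓞 K'), GL (Fin 2) (w.adicCompletion K') → ℂ}
    {Φ : InfinitePlace K' → GL (Fin 2) ℂ → ℂ}
    {f₀ : ∀ v : HeightOneSpectrum (𝓞 K), GL (Fin 2) (v.adicCompletion K) → ℂ}
    {F : InfinitePlace K → GL (Fin 2) ℂ → ℂ} (h : ArchOk893 D μc n m φ₀ Φ f₀ F)
    {d : ℝ} {y : ℝ → ℝ → GL (Fin 2) ℂ} (hy : IsSphC445 d y) (w : InfinitePlace K') :
    ArchOk893 D μc n m φ₀ (updArch445 Φ w (sphMeanC445 y (Φ w))) f₀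
      (updArch445 F (w.comap (algebraMap K K'))
        (sphMeanC445 y (F (w.comap (algebraMap K K'))))) := by
  obtain ⟨hgΦ, hgF⟩ := archGood_of_archOk445 K K' h
  have hgΦ' := updArch445_good hArch hy Φ w hgΦ
  have hgF' := updArch445_good hArch hy F (w.comap (algebraMap K K')) hgF
  refine ⟨⟨h.1.inv_up, h.1.inv_down, fun w' => ⟨(hgΦ' w').1, (hgΦ' w').2.1, (hgΦ' w').2.2.1⟩,
    fun v' => ⟨(hgF' v').1, (hgF' v').2.1, (hgF' v').2.2.1⟩, h.1.inert, h.1.split, ?_⟩,
    fun w' k₁ k₂ g h₁ h₂ => (hgΦ' w').2.2.2 k₁ k₂ g h₁ h₂,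
    fun v' k₁ k₂ g h₁ h₂ => (hgF' v').2.2.2 k₁ k₂ g h₁ h₂⟩
  intro v' ws hover hinj
  have hold := h.1.arch v' ws hover hinj
  rw [hD] at hinj hold ⊢
  by_cases hv : v' = w.comap (algebraMap K K')
  · subst hv
    rw [updArch445_same]
    obtain ⟨j₀, hj₀, hw₀⟩ := hFib ℓ hcyc htot _ ws hover hinj w rfl
    have hj₀' : j₀ ≤ ℓ - 1 := Nat.le_sub_one_of_lt hj₀
    have hgood : ∀ j : ℕ, j ≤ ℓ - 1 → IsArchGood445 (Φ (ws j)) := fun j _ => hgΦ (ws j)
    have key := hConv μc hμc d y hy (ℓ - 1) (fun j => Φ (ws j)) hgood j₀ hj₀'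
    rw [hold, ← key]
    refine convL305_congr445 μc (ℓ - 1) fun j hj => ?_
    have hjl : j < ℓ := lt_of_le_of_lt hj (Nat.sub_lt (lt_of_le_of_lt (Nat.zero_le _) hj₀)
      Nat.one_pos)
    by_cases hjj : j = j₀
    · subst hjj
      show _ = updArch445 Φ w (sphMeanC445 y (Φ w)) (ws j)
      rw [if_pos rfl, hw₀, updArch445_same]
    · show _ = updArch445 Φ w (sphMeanC445 y (Φ w)) (ws j)
      rw [if_neg hjj]
      have hne : ws j ≠ w := fun hEq => hjj (hinj j j₀ hjl hj₀ (hEq.trans hw₀.symm))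
      rw [updArch445_ne Φ w _ hne]
  · rw [updArch445_ne F _ _ hv, hold]
    refine convL305_congr445 μc (ℓ - 1) fun j _ => ?_
    have hne : ws j ≠ w := fun hEq => hv (by rw [← hover j, hEq])
    show _ = updArch445 Φ w (sphMeanC445 y (Φ w)) (ws j)
    rw [updArch445_ne Φ w _ hne]

/-- **THE TOP OF THE CUT: `B981.StepMC981` for the local shape of record `H893.LocA893`.** -/
theorem stepMC_of445
    (hEx : SphExC445 K) (hEx' : SphExC445 K') (hExL : SphExLocC445)
    (hTest : SphTestC445 K) (hTest' : SphTestC445 K')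
    (hEK : SphEKC445 K) (hEK' : SphEKC445 K')
    (hSupp : SphSuppC445 K) (hSupp' : SphSuppC445 K')
    (hOp : SphOpC445 K) (hOp' : SphOpC445 K')
    (hPure : SphPureC445 K) (hPure' : SphPureC445 K')
    (hAvg : SphAvgC445 K) (hAvg' : SphAvgC445 K')
    (hArch : SphArchC445) (hConv : SphConvC445) (hFib : ArchFibreC445 K K') :
    B981.StepMC981 K K' H893.LocA893 := by
  intro ℓ hcyc _ htot Φe B hB _ 𝔫 _ μc hμc T₀ n n₀ m _ x hx hout φ f hgood
  obtain ⟨w, d, rfl⟩ := hx
  have hd : 0 < d := hout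
  have hvC : (w.comap (algebraMap K K')).IsComplex := htot _
  have hwC : w.IsComplex := by
    rw [← InfinitePlace.not_isReal_iff_isComplex]
    intro hr
    exact (InfinitePlace.not_isReal_iff_isComplex.mpr hvC) (hr.comap _)
  obtain ⟨Y', hY'⟩ := hEx' w hwC d
  obtain ⟨Y, hY⟩ := hEx (w.comap (algebraMap K K')) hvC d
  obtain ⟨y, hy⟩ := hExL d
  obtain ⟨Ω, iT, iC, iT2, iSC, iM, iB, ν, iF, T, T', φ₀, Φc, f₀, F, h1, h2, h3, h4, h5,
    h6, h7, h8, h9⟩ := hgood.shape
  -- the members upstairs and downstairs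
  have eU : ∀ (a : Ω) (h : G K'),
      pure305 (T' a) (φ₀ a) (updArch445 (Φc a) w (sphMeanC445 y (Φc a w))) h
        = sphMean445 Y' (pure305 (T' a) (φ₀ a) (Φc a)) h := fun a h =>
    (hPure' w hwC d Y' hY' y hy (T' a) (φ₀ a) (Φc a) h).symm
  have eD : ∀ (a : Ω) (h : G K),
      pure305 (T a) (f₀ a) (updArch445 (F a) (w.comap (algebraMap K K'))
          (sphMeanC445 y (F a (w.comap (algebraMap K K'))))) h
        = sphMean445 Y (pure305 (T a) (f₀ a) (F a)) h := fun a h =>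
    (hPure _ hvC d Y hY y hy (T a) (f₀ a) (F a) h).symm
  have h5' : Continuous (fun p : Ω × G K => pure305 (T p.1) (f₀ p.1) (F p.1) p.2) := by
    simpa only [one_mul] using h5
  obtain ⟨aU1, aU2, aU3⟩ := hAvg' w hwC d Y' hY' Ω ν
    (fun a => pure305 (T' a) (φ₀ a) (Φc a)) h4 h6
  obtain ⟨aD1, aD2, aD3⟩ := hAvg _ hvC d Y hY Ω ν
    (fun a => pure305 (T a) (f₀ a) (F a)) h5' h7
  have hφ : φ = fun h => ∫ a, pure305 (T' a) (φ₀ a) (Φc a) h ∂ν := funext h8
  have hf : f = fun h => ∫ a, pure305 (T a) (f₀ a) (F a) h ∂ν := by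
    funext h
    rw [h9 h]
    simp only [one_mul]
  refine ⟨(sphMean445 Y' φ, sphMean445 Y f), ⟨?_, ?_, ?_, ?_, ?_, ?_, ?_⟩, ⟨?_, ?_⟩⟩
  · exact hTest' _ w hwC d Y' hY' φ hgood.up_test
  · exact hEK' B.R' hB.frame' _ w hwC d Y' hY' φ hgood.up_test hgood.up_ek.1 hgood.up_ek.2
  · exact hTest _ _ hvC d Y hY f hgood.dn_test
  · exact hEK B.R hB.frame _ _ hvC d Y hY f hgood.dn_test hgood.dn_ek.1 hgood.dn_ek.2
  · obtain ⟨C, hC, hs⟩ := hgood.up_supp
    exact hSupp' w hwC d Y' hY' ℓ B.o C φ hC hs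
  · obtain ⟨C, hC, hs⟩ := hgood.dn_supp
    exact hSupp _ hvC d Y hY 1 (fun _ => B.u) C f hC hs
  · -- the local shape
    refine ⟨Ω, iT, iC, iT2, iSC, iM, iB, ν, iF, T, T', φ₀,
      fun a => updArch445 (Φc a) w (sphMeanC445 y (Φc a w)), f₀,
      fun a => updArch445 (F a) (w.comap (algebraMap K K'))
        (sphMeanC445 y (F a (w.comap (algebraMap K K')))), ?_, ?_, ?_, ?_, ?_, ?_, ?_, ?_, ?_⟩
    · intro a
      obtain ⟨hA1, hA2, hA3, hA4⟩ := (h1 a).2.2
      exact ⟨(h1 a).1, (h1 a).2.1, hA1, hA2, hA3,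
        archOk_step445 K K' hArch hConv hFib hcyc htot hB.deg hμc hA4 hy w⟩
    · intro a
      have := hTest' _ w hwC d Y' hY' _ (h2 a)
      rwa [show sphMean445 Y' (pure305 (T' a) (φ₀ a) (Φc a))
        = pure305 (T' a) (φ₀ a) (updArch445 (Φc a) w (sphMeanC445 y (Φc a w))) from
        funext fun h => (eU a h).symm] at this
    · intro a
      have h3a : T5.IsTestFn 𝔫 T5.trivType (pure305 (T a) (f₀ a) (F a)) := by
        have := h3 a
        simpa only [one_mul] using this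
      have := hTest _ _ hvC d Y hY _ h3a
      rw [show sphMean445 Y (pure305 (T a) (f₀ a) (F a))
        = pure305 (T a) (f₀ a) (updArch445 (F a) (w.comap (algebraMap K K'))
          (sphMeanC445 y (F a (w.comap (algebraMap K K'))))) from
        funext fun h => (eD a h).symm] at this
      simpa only [one_mul] using this
    · have : (fun p : Ω × G K' => pure305 (T' p.1) (φ₀ p.1)
          (updArch445 (Φc p.1) w (sphMeanC445 y (Φc p.1 w))) p.2)
          = fun p : Ω × G K' => sphMean445 Y' (pure305 (T' p.1) (φ₀ p.1) (Φc p.1)) p.2 :=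
        funext fun p => eU p.1 p.2
      rw [this]
      exact aU1
    · have : (fun p : Ω × G K => (1 : ℂ) * pure305 (T p.1) (f₀ p.1)
          (updArch445 (F p.1) (w.comap (algebraMap K K'))
            (sphMeanC445 y (F p.1 (w.comap (algebraMap K K'))))) p.2)
          = fun p : Ω × G K => sphMean445 Y (pure305 (T p.1) (f₀ p.1) (F p.1)) p.2 :=
        funext fun p => by rw [one_mul, eD p.1 p.2]
      rw [this]
      exact aD1
    · obtain ⟨C, hC, hs⟩ := aU2
      exact ⟨C, hC, fun a h hne => hs a h (by rwa [eU a h] at hne)⟩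
    · obtain ⟨C, hC, hs⟩ := aD2
      exact ⟨C, hC, fun a h hne => hs a h (by rwa [eD a h] at hne)⟩
    · intro h
      show sphMean445 Y' φ h = _
      rw [hφ, aU3 h]
      exact integral_congr_ae (Filter.Eventually.of_forall fun a => (eU a h).symm)
    · intro h
      show sphMean445 Y f h = _
      rw [hf, aD3 h]
      exact integral_congr_ae (Filter.Eventually.of_forall fun a => by
        show _ = (1 : ℂ) * _
        rw [one_mul, eD a h])
  · intro χ C hχ x
    exact hOp' B.R' hB.frame' _ w hwC d hd Y' hY' φ hgood.up_test _ ℓ B.o χ C hχ x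
  · intro χ c C hχ hBC x
    have := hOp B.R hB.frame _ _ hvC d hd Y hY f hgood.dn_test _ 1 (fun _ => B.u) χ c hχ x
    rw [this]
    show c.m (w.comap (algebraMap K K')) d * _ = C.m w d * _
    rw [hBC.2 w d]

end Fermat.Agent.LT.T7.H445

end

end
-- ===== PACK-END LT/T7/H445/StepMTop.lean

-- ===== PACK-BEGIN LT/T7/H32/StepMSph.lean
section




/-!
# Row LT, tower T7, node `B981.StepMC981` (cut of helper445, `T7/H445/StepMSpec.lean`):
# the leaves M.1 `SphTestC445`, M.2 `SphEKC445`, PROVED (helper32)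

OFF-MAIN, ADDITIVE.  Verbatim against the frozen Props of helper445:

    sphTestC32 K : H445.SphTestC445 K      (the sphere mean of a test function is a test
                                            function: smoothness at infinity included)
    sphEKC32 K   : H445.SphEKC445 K

from the kits `T5/H32/{ShiftKit, SphereSmooth, SphereTest}.lean` and `T1.t1Out`.
-/

set_option autoImplicit false
open IsDedekindDomain NumberField MeasureTheory
open scoped MatrixGroups ComplexConjugate Pointwise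
open Fermat.Agent.LT.H556.A0 Fermat.Agent.LT.T5 Fermat.Agent.LT.T5.H32

noncomputable section
namespace Fermat.Agent.LT.T7.H32

variable (K : Type) [Field K] [NumberField K]

attribute [local instance] Fermat.Agent.LT.T5.instMeasurableSpaceG

/-- **LEAF M.1 `SphTestC445`, VERBATIM.** -/
theorem sphTestC32 : H445.SphTestC445 K := by
  intro 𝔫 w hw d Y hY φ hφ
  exact isTestFn_sphere32 (T1.t1Out K) hφ hw d hY

/-- **LEAF M.2 `SphEKC445`, VERBATIM.** -/
theorem sphEKC32 : H445.SphEKC445 K := by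
  intro R hR 𝔫 w _ d Y hY φ hφ h1 h2
  exact isEKPair_sphere32 (T1.t1Out K) hR.frame hφ.cont hφ.supp ⟨h1, h2⟩ w d hY

end Fermat.Agent.LT.T7.H32

end

end
-- ===== PACK-END LT/T7/H32/StepMSph.lean

-- ===== PACK-BEGIN LT/T7/H868/SphOp.lean
section







/-!
# Row LT, tower T7, node `B981.StepMC981`, LEAF M.4 `SphOpC445` (helper868, spare of row 2896)

OFF-MAIN.  `sphOpC868 (K) : H445.SphOpC445 K` VERBATIM vs `T7/H445/StepMSpec.lean` (helper445,
sha256 95c0ff93), UNCONDITIONAL.  No hole, nothing assumed.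

Proof (header (a) of the spec).  `I(p) = ∫ φ(h Y_p) χ(x h) dμ(h)`, `J(q) = ∫ φ(h) χ(x h Y_q) dμ(h)`,
`I₀ = ∫ φ(h) χ(x h a⁻¹) dμ(h)`, `a = Y 0 0`.
* `I(p) = I₀`: right invariance of `μ` (`IsFrame.right_inv`), `Y_p⁻¹ = a⁻¹ k⁻¹`, `k = Y_p a⁻¹`
  in the compact group at `w`, `χ` right invariant.
* `J(q) = I₀`: `k' = Y_q W a`, `W = Y 0 π · a⁻¹` (component `rotY π`) is in the compact group at
  `w` (`torus d · rotY π · torus d = rotY π`, helper770), `k' a⁻¹ = Y_q W`; right invariance of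
  `μ`, `φ` and `χ` right invariant under the compact group.
* Fubini twice (`T2/H878/FubiniMean.lean fubini878`; supports in `supp φ · (Y(box))⁻¹`, resp.
  `supp φ`), `MeanEig` at `g = x h`.
-/

set_option autoImplicit false
set_option linter.unusedVariables false
set_option linter.unusedSectionVars false
set_option linter.style.haveILetI false

open AutomorphicForm IsDedekindDomain NumberField MeasureTheory
open scoped ComplexConjugate Pointwise

noncomputable section

namespace Fermat.Agent.LT.T7.H868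

open Fermat.Agent.LT.H556 Fermat.Agent.LT.H556.A0 Fermat.Agent.LT.T7 Fermat.Agent.LT
open Fermat.Agent.LT.T2.H770 Fermat.Agent.LT.T2.H472

attribute [local instance] Fermat.Agent.LT.T5.instMeasurableSpaceG

variable {K : Type} [Field K] [NumberField K]

/-- The box of the Euler angles. -/
def sphBox868 : Set (ℝ × ℝ) := Set.Ioc (0 : ℝ) (2 * Real.pi) ×ˢ Set.Ioc (0 : ℝ) Real.pi

/-- The closed box. -/
def sphBoxC868 : Set (ℝ × ℝ) := Set.Icc (0 : ℝ) (2 * Real.pi) ×ˢ Set.Icc (0 : ℝ) Real.pi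

theorem nuS_eq868 : nuS770 = (volume : Measure (ℝ × ℝ)).restrict sphBox868 := by
  unfold nuS770 sphBox868
  rw [Measure.prod_restrict]
  rfl

theorem measurableSet_sphBox868 : MeasurableSet sphBox868 :=
  measurableSet_Ioc.prod measurableSet_Ioc

theorem isCompact_sphBoxC868 : IsCompact sphBoxC868 := isCompact_Icc.prod isCompact_Icc

theorem sphBox_subset868 : sphBox868 ⊆ sphBoxC868 :=
  Set.prod_mono Set.Ioc_subset_Icc_self Set.Ioc_subset_Icc_self

/-- Right invariance of the measure of a frame, in integral form. -/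
theorem integral_mul_right868 {μ : Measure (G K)} {F : Set (G K)} (hF : T5.IsFrame μ F)
    (g : G K) (f : G K → ℂ) : ∫ h, f (h * g) ∂μ = ∫ h, f h ∂μ := by
  haveI : BorelSpace (G K) := ⟨rfl⟩
  have hmp : MeasurePreserving (MeasurableEquiv.mulRight g : G K ≃ᵐ G K) μ μ := by
    refine ⟨(MeasurableEquiv.mulRight g).measurable, ?_⟩
    ext A hA
    rw [Measure.map_apply (MeasurableEquiv.mulRight g).measurable hA]
    exact hF.right_inv g A hA
  exact hmp.integral_comp' f

/-- **LEAF M.4 = SPH-OP**, verbatim. -/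
theorem sphOpC868 (K : Type) [Field K] [NumberField K] : H445.SphOpC445 K := by
  intro R hR 𝔫 w hw d hd Y hY φ hφ 𝔫' l o χ C hχ x
  classical
  have hT : T1.T1Out K := T1.t1Out K
  haveI : T2Space (G K) := hT.locComp.2.2.1
  haveI : SecondCountableTopology (G K) := hT.locComp.2.2.2
  haveI : LocallyCompactSpace (G K) := hT.locComp.2.1
  haveI : BorelSpace (G K) := ⟨rfl⟩
  haveI : R.μ.IsHaarMeasure := hR.frame.haar
  have hYs : T2.IsSphereAt w d Y := hY
  have hYc : Continuous fun p : ℝ × ℝ => Y p.1 p.2 :=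
    T2.H546.continuous_sphere_h546 (subLocCont472 K) hYs
  have hnr : ¬ w.IsReal := InfinitePlace.not_isReal_iff_isComplex.2 hw
  -- bounds
  obtain ⟨Cφ, hCφ⟩ : ∃ C : ℝ, ∀ g : G K, ‖φ g‖ ≤ C :=
    hφ.cont.bounded_above_of_compact_support hφ.supp
  obtain ⟨Cχ, hCχ⟩ := hχ.inv.cusp.bdd
  have hχc : Continuous χ := hχ.inv.cusp.cont
  -- invariance under the compact group at `w`
  have hχk : ∀ (k : G K), IsArchCompact w k → ∀ g : G K, χ (g * k) = χ g := by
    intro k hk g
    have := hχ.inv.cusp.aut.arch_compact w k hk g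
    rw [this]
    show (1 : ℂ) * χ g = χ g
    rw [one_mul]
  have hφk : ∀ (k : G K), IsArchCompact w k → ∀ g : G K, φ (g * k) = φ g := by
    intro k hk g
    have := hφ.inv.arch_right w k hk g
    rw [this]
    show (1 : ℂ)⁻¹ * φ g = φ g
    rw [inv_one, one_mul]
  -- the elements
  set a : G K := Y 0 0 with ha
  set j : G K := Y 0 Real.pi with hj
  have hac : infComp w a = torus d := by
    rw [ha, (hY 0 0).2, rotZ_zero770, rotY_zero770, one_mul, one_mul]
  have hjc : infComp w j = rotY Real.pi * torus d := by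
    rw [hj, (hY 0 Real.pi).2, rotZ_zero770, one_mul]
  have hal : IsLocalAtInf w a := (hY 0 0).1
  have hjl : IsLocalAtInf w j := (hY 0 Real.pi).1
  have hal' : IsLocalAtInf w a⁻¹ := isLocalAtInf_inv472 hal
  have hta : torus d * infComp w a⁻¹ = 1 := by
    rw [← hac]
    exact infComp_mul_inv770 w a
  have hJc : infComp w (j * a⁻¹) = rotY Real.pi := by
    rw [infComp_mul770, hjc, mul_assoc, hta, mul_one]
  have hJ : IsArchCompact w (j * a⁻¹) :=
    ⟨isLocalAtInf_mul770 hjl hal', by rw [hJc]; exact rotY_unitary770 _,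
      fun h => absurd h hnr⟩
  have hku : ∀ α β : ℝ, (rotZ α * rotY β) * (rotZ α * rotY β).conjTranspose = 1 := fun α β =>
    unitary_mul770 (rotZ_unitary770 α) (rotY_unitary770 β)
  have hk : ∀ α β : ℝ, IsArchCompact w (Y α β * a⁻¹) := by
    intro α β
    have hc : infComp w (Y α β * a⁻¹) = rotZ α * rotY β := by
      rw [infComp_mul770, (hY α β).2, mul_assoc, hta, mul_one]
    exact ⟨isLocalAtInf_mul770 (hY α β).1 hal', by rw [hc]; exact hku α β,
      fun h => absurd h hnr⟩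
  have hk' : ∀ α β : ℝ, IsArchCompact w (Y α β * (j * a⁻¹) * a) := by
    intro α β
    have hc : infComp w (Y α β * (j * a⁻¹) * a) = rotZ α * rotY β * rotY Real.pi := by
      rw [infComp_mul770, infComp_mul770, (hY α β).2, hJc, hac, mul_assoc, mul_assoc,
        ← mul_assoc (torus d), torus_rotY_pi770]
    exact ⟨isLocalAtInf_mul770 (isLocalAtInf_mul770 (hY α β).1 hJ.1) hal,
      by rw [hc]; exact unitary_mul770 (hku α β) (rotY_unitary770 _), fun h => absurd h hnr⟩
  -- the three integrals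
  set I₀ : ℂ := ∫ h, φ h * χ (x * h * a⁻¹) ∂(R.μ) with hI₀
  have hI : ∀ α β : ℝ, ∫ h, φ (h * Y α β) * χ (x * h) ∂(R.μ) = I₀ := by
    intro α β
    have h1 := integral_mul_right868 hR.frame (Y α β)
      (fun h => φ h * χ (x * (h * (Y α β)⁻¹)))
    have e1 : (fun h : G K => φ (h * Y α β) * χ (x * (h * Y α β * (Y α β)⁻¹)))
        = fun h => φ (h * Y α β) * χ (x * h) := by
      funext h
      rw [mul_inv_cancel_right]
    rw [e1] at h1
    rw [h1, hI₀]
    congr 1
    funext h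
    have e2 : x * (h * (Y α β)⁻¹) = x * h * a⁻¹ * (Y α β * a⁻¹)⁻¹ := by group
    rw [e2]
    have := hχk (Y α β * a⁻¹) (hk α β) (x * h * a⁻¹ * (Y α β * a⁻¹)⁻¹)
    rw [inv_mul_cancel_right] at this
    rw [this]
  have hJq : ∀ α β : ℝ, ∫ h, φ h * χ (x * h * Y α β) ∂(R.μ) = I₀ := by
    intro α β
    have h1 := integral_mul_right868 hR.frame (Y α β * (j * a⁻¹) * a)
      (fun h => φ h * χ (x * h * a⁻¹))
    rw [hI₀, ← h1]
    congr 1
    funext h
    rw [hφk _ (hk' α β) h]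
    congr 1
    have e2 : x * (h * (Y α β * (j * a⁻¹) * a)) * a⁻¹ = x * h * Y α β * (j * a⁻¹) := by group
    rw [e2, hχk _ hJ]
  -- the sphere means as integrals over the box
  have hmφ : ∀ h : G K, H445.sphMean445 Y φ h
      = ∫ p in sphBox868, φ (h * Y p.1 p.2) * ((Real.sin p.2 : ℝ) : ℂ) := by
    intro h
    have := sphereMean_eq770 hYc hφ.cont hCφ h
    rw [nuS_eq868] at this
    exact this
  have hmχ : ∀ g : G K, (∫ p in sphBox868, χ (g * Y p.1 p.2) * ((Real.sin p.2 : ℝ) : ℂ))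
      = C.m w d * χ g := by
    intro g
    have h1 := sphereMean_eq770 hYc hχc hCχ g
    rw [nuS_eq868] at h1
    rw [← h1]
    exact hχ.mean w d hd Y hY g
  -- the two functions on the product
  have hsin : Continuous fun q : G K × (ℝ × ℝ) => ((Real.sin q.2.2 : ℝ) : ℂ) :=
    Complex.continuous_ofReal.comp (Real.continuous_sin.comp (continuous_snd.comp continuous_snd))
  have hYq : Continuous fun q : G K × (ℝ × ℝ) => Y q.2.1 q.2.2 := hYc.comp continuous_snd
  have hΦ1 : Continuous (Function.uncurry fun (h : G K) (p : ℝ × ℝ) =>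
      φ (h * Y p.1 p.2) * ((Real.sin p.2 : ℝ) : ℂ) * χ (x * h)) :=
    ((hφ.cont.comp (continuous_fst.mul hYq)).mul hsin).mul
      (hχc.comp (continuous_const.mul continuous_fst))
  have hΦ2 : Continuous (Function.uncurry fun (h : G K) (p : ℝ × ℝ) =>
      φ h * (χ (x * h * Y p.1 p.2) * ((Real.sin p.2 : ℝ) : ℂ))) :=
    (hφ.cont.comp continuous_fst).mul
      ((hχc.comp ((continuous_const.mul continuous_fst).mul hYq)).mul hsin)
  have hC1 : IsCompact (tsupport φ * ((fun p : ℝ × ℝ => Y p.1 p.2) '' sphBoxC868)⁻¹) :=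
    IsCompact.mul hφ.supp (isCompact_sphBoxC868.image hYc).inv
  have h01 : ∀ h : G K, h ∉ tsupport φ * ((fun p : ℝ × ℝ => Y p.1 p.2) '' sphBoxC868)⁻¹ →
      ∀ p ∈ sphBoxC868, φ (h * Y p.1 p.2) * ((Real.sin p.2 : ℝ) : ℂ) * χ (x * h) = 0 := by
    intro h hh p hp
    have : φ (h * Y p.1 p.2) = 0 := by
      by_contra hne
      apply hh
      rw [Set.mem_mul]
      refine ⟨h * Y p.1 p.2, subset_tsupport _ hne, (Y p.1 p.2)⁻¹,
        Set.inv_mem_inv.2 (Set.mem_image_of_mem _ hp), ?_⟩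
      rw [mul_inv_cancel_right]
    rw [this, zero_mul, zero_mul]
  have h02 : ∀ h : G K, h ∉ tsupport φ →
      ∀ p ∈ sphBoxC868, φ h * (χ (x * h * Y p.1 p.2) * ((Real.sin p.2 : ℝ) : ℂ)) = 0 := by
    intro h hh p _
    have : φ h = 0 := by
      by_contra hne
      exact hh (subset_tsupport _ hne)
    rw [this, zero_mul]
  have hF1 := T2.H878.fubini878 R.μ (volume : Measure (ℝ × ℝ)) hΦ1 hC1
    measurableSet_sphBox868 isCompact_sphBoxC868 sphBox_subset868 h01
  have hF2 := T2.H878.fubini878 R.μ (volume : Measure (ℝ × ℝ)) hΦ2 hφ.supp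
    measurableSet_sphBox868 isCompact_sphBoxC868 sphBox_subset868 h02
  -- assembly
  show (∫ y, H445.sphMean445 Y φ y * χ (x * y) ∂(R.μ)) = C.m w d * ∫ y, φ y * χ (x * y) ∂(R.μ)
  calc (∫ y, H445.sphMean445 Y φ y * χ (x * y) ∂(R.μ))
      = ∫ h, (∫ p in sphBox868,
          φ (h * Y p.1 p.2) * ((Real.sin p.2 : ℝ) : ℂ) * χ (x * h)
            ∂(volume : Measure (ℝ × ℝ))) ∂(R.μ) := by
        refine integral_congr_ae (Filter.Eventually.of_forall fun h => ?_)
        show H445.sphMean445 Y φ h * χ (x * h) = _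
        rw [hmφ h, ← integral_mul_const]
    _ = ∫ p in sphBox868, ∫ h,
          φ (h * Y p.1 p.2) * ((Real.sin p.2 : ℝ) : ℂ) * χ (x * h) ∂(R.μ) := hF1
    _ = ∫ p in sphBox868, ∫ h,
          φ h * (χ (x * h * Y p.1 p.2) * ((Real.sin p.2 : ℝ) : ℂ)) ∂(R.μ) := by
        refine integral_congr_ae (Filter.Eventually.of_forall fun p => ?_)
        show (∫ h, φ (h * Y p.1 p.2) * ((Real.sin p.2 : ℝ) : ℂ) * χ (x * h) ∂(R.μ))
          = ∫ h, φ h * (χ (x * h * Y p.1 p.2) * ((Real.sin p.2 : ℝ) : ℂ)) ∂(R.μ)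
        have e1 : (fun h : G K => φ (h * Y p.1 p.2) * ((Real.sin p.2 : ℝ) : ℂ) * χ (x * h))
            = fun h => (φ (h * Y p.1 p.2) * χ (x * h)) * ((Real.sin p.2 : ℝ) : ℂ) := by
          funext h
          ring
        have e2 : (fun h : G K => φ h * (χ (x * h * Y p.1 p.2) * ((Real.sin p.2 : ℝ) : ℂ)))
            = fun h => (φ h * χ (x * h * Y p.1 p.2)) * ((Real.sin p.2 : ℝ) : ℂ) := by
          funext h
          ring
        rw [e1, e2, integral_mul_const, integral_mul_const, hI p.1 p.2, hJq p.1 p.2]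
    _ = ∫ h, (∫ p in sphBox868,
          φ h * (χ (x * h * Y p.1 p.2) * ((Real.sin p.2 : ℝ) : ℂ))
            ∂(volume : Measure (ℝ × ℝ))) ∂(R.μ) := hF2.symm
    _ = ∫ h, φ h * (C.m w d * χ (x * h)) ∂(R.μ) := by
        refine integral_congr_ae (Filter.Eventually.of_forall fun h => ?_)
        show (∫ p in sphBox868, φ h * (χ (x * h * Y p.1 p.2) * ((Real.sin p.2 : ℝ) : ℂ)))
          = φ h * (C.m w d * χ (x * h))
        rw [integral_const_mul, hmχ (x * h)]
    _ = C.m w d * ∫ y, φ y * χ (x * y) ∂(R.μ) := by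
        rw [← integral_const_mul]
        congr 1
        funext h
        ring

end Fermat.Agent.LT.T7.H868

end

end
-- ===== PACK-END LT/T7/H868/SphOp.lean

-- ===== PACK-BEGIN LT/T7/H227/SphConv.lean
section




/-!
# Row LT, tower T7, node StepMC981 (cut of helper445, `T7/H445/StepMSpec.lean` 95c0ff93):
# the two leaves on `GL₂(ℂ)`, VERBATIM, UNCONDITIONAL

OFF-MAIN (helper227, SPARE of registry rows 2899 / 2900).

* `sphArchC227 : H445.SphArchC445` (LEAF M.7): the local sphere mean preserves continuity,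
  compact support, the invariance under the complex conjugation and bi-`U(2)`-invariance.
* `sphConvC227 : H445.SphConvC445` (LEAF M.8): the iterated convolution with ONE factor
  replaced by its local sphere mean is the local sphere mean of the iterated convolution.

Core: `SphConvCore.lean` (no tower Spec).  The definitions of the Spec are only unfolded by
definitional equality (`show`, `exact`).
-/

set_option autoImplicit false
set_option maxHeartbeats 400000
set_option linter.style.haveILetI false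

open MeasureTheory

noncomputable section

namespace Fermat.Agent.LT.T7.H227

theorem convL_eq227 (μc : @Measure (GL (Fin 2) ℂ) (borel _)) (Φ : ℕ → GL (Fin 2) ℂ → ℂ)
    (n : ℕ) : H305.convL305 μc Φ n = @convIt227 (borel _) μc Φ n := by
  induction n with
  | zero => rfl
  | succ n ih =>
    show @T6.convInt _ _ (borel _) μc (H305.convL305 μc Φ n) (Φ (n + 1))
      = fun g => @integral _ _ _ _ (borel _) μc
          (fun h => @convIt227 (borel _) μc Φ n h * Φ (n + 1) (h⁻¹ * g))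
    rw [ih]
    rfl

/-- **LEAF M.7 = SPH-ARCH**, verbatim. -/
theorem sphArchC227 : H445.SphArchC445 := by
  intro d y hy Φ hΦ
  obtain ⟨hc, hs, hconj, hU⟩ := hΦ
  have hy' : IsSph227 d y := hy
  have hyc := continuous_sph227 hy'
  exact ⟨continuous_sphM227 hyc hc, hasCompactSupport_sphM227 hyc hs,
    fun g => sphM_conj227 hy' hU hconj g, sphM_biU227 hy' hc hU⟩

/-- **LEAF M.8 = SPH-CONV**, verbatim. -/
theorem sphConvC227 : H445.SphConvC445 := by
  intro μc hμ d y hy N Ψ hΨ j₀ hj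
  letI : MeasurableSpace (GL (Fin 2) ℂ) := borel _
  haveI : BorelSpace (GL (Fin 2) ℂ) := ⟨rfl⟩
  haveI : Measure.IsHaarMeasure μc := hμ
  have hy' : IsSph227 d y := hy
  rw [convL_eq227, convL_eq227]
  exact sphConv227 μc hy' N Ψ
    (fun j hj' => ⟨(hΨ j hj').1, (hΨ j hj').2.1, (hΨ j hj').2.2.2⟩) j₀ hj

end Fermat.Agent.LT.T7.H227

end

end
-- ===== PACK-END LT/T7/H227/SphConv.lean

-- ===== PACK-BEGIN LT/T7/H315/SphInv.lean
section




/-!
# Row LT, tower T7, leaf T7.L2.1.H2b.3a `SphInvC893` (registry 2885) -- helper315, OFF-MAIN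

`sphInvC315 F : H893.SphInvC893 F` for every number field `F`, UNCONDITIONAL, VERBATIM vs
`LT/T7/H893/SupplySphSpec.lean` (helper893@dc5b9ccb3, sha256 03a16fa2).

A spherical function `φ = A ∘ cartan` (`A` finitely supported on dominant weights) on `GL₂(F_v)` is
bi-invariant under `GL₂(𝒪_v) = U(0)` and supported on finitely many cosets `x GL₂(𝒪_v)`.

Proof: `cartan` is bi-`GL₂(𝒪)`-invariant (`entryMax` and the valuation of the determinant are);
for a dominant `λ` the set `{cartan = λ}` has a finite coset system (the explicit system of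
helper305, `LT/T6/H305/Sys.lean`, for the residue data of a local field); the completion is a
local field (`instLocalC176`, helper176).  Imports are byte-identical copies.
-/

set_option autoImplicit false

open IsDedekindDomain NumberField

noncomputable section

namespace Fermat.Agent.LT.T7.H315

open Fermat.Agent.LT.T6 Fermat.Agent.LT.T6.H305

variable {k : Type} [Field k] [Valued k Γ₀]

theorem entryMax_mul_left_le315 (κ g : GL (Fin 2) k) (hκ : InK κ) :
    entryMax (κ * g) ≤ entryMax g := by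
  rw [entryMax_le_iff]
  intro i j
  rw [Units.val_mul, Matrix.mul_apply]
  refine Valuation.map_sum_le _ (fun l _ => ?_)
  rw [map_mul]
  calc Valued.v ((κ : Matrix (Fin 2) (Fin 2) k) i l)
        * Valued.v ((g : Matrix (Fin 2) (Fin 2) k) l j)
      ≤ 1 * entryMax g := mul_le_mul' (hκ.1 i l) (le_entryMax g l j)
    _ = entryMax g := one_mul _

theorem entryMax_mul_left315 (κ g : GL (Fin 2) k) (hκ : InK κ) :
    entryMax (κ * g) = entryMax g := by
  refine le_antisymm (entryMax_mul_left_le315 κ g hκ) ?_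
  have := entryMax_mul_left_le315 κ⁻¹ (κ * g) (inK_inv hκ)
  simpa using this

theorem val_det_mul_left315 (κ g : GL (Fin 2) k) (hκ : InK κ) :
    Valued.v ((κ * g : GL (Fin 2) k) : Matrix (Fin 2) (Fin 2) k).det
      = Valued.v (g : Matrix (Fin 2) (Fin 2) k).det := by
  rw [Units.val_mul, Matrix.det_mul, map_mul, ((inK_iff κ).1 hκ).2, one_mul]

/-- The Cartan invariant is right `GL₂(𝒪)`-invariant. -/
theorem cartan_mul_right315 (g κ : GL (Fin 2) k) (hκ : InK κ) : cartan (g * κ) = cartan g := by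
  unfold cartan
  rw [entryMax_mul g κ hκ, val_det_mul g κ hκ]

/-- The Cartan invariant is left `GL₂(𝒪)`-invariant. -/
theorem cartan_mul_left315 (κ g : GL (Fin 2) k) (hκ : InK κ) : cartan (κ * g) = cartan g := by
  unfold cartan
  rw [entryMax_mul_left315 κ g hκ, val_det_mul_left315 κ g hκ]

/-- Over a local field every dominant weight has a finite coset system. -/
theorem exists_cosetSys315 {q : ℕ} (hk : IsLocalField k q) (lam : ℤ × ℤ) (hlam : lam.2 ≤ lam.1) :
    ∃ H : Finset (GL (Fin 2) k), IsCosetSys lam H := by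
  obtain ⟨D, -⟩ := exists_resData hk
  obtain ⟨n, hn⟩ : ∃ n : ℕ, (n : ℤ) = lam.1 - lam.2 :=
    ⟨(lam.1 - lam.2).toNat, Int.toNat_of_nonneg (by omega)⟩
  have e : lam = ((n : ℤ) + lam.2, lam.2) := Prod.ext (by simp only; omega) rfl
  exact ⟨_, D.isCosetSys_image lam.2 n lam e⟩

/-- **The local statement**: over a local field a spherical function is bi-`GL₂(𝒪)`-invariant
and supported on finitely many cosets. -/
theorem sphInv_local315 {q : ℕ} (hk : IsLocalField k q) (φ : GL (Fin 2) k → ℂ)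
    (A : (ℤ × ℤ) →₀ ℂ) (h : Fermat.Agent.LT.T7.H893.IsSphFn893 φ A) :
    IsBiInv (InU 0) φ ∧ HasFinSupp (InU 0) φ := by
  classical
  obtain ⟨hdom, hφ⟩ := h
  constructor
  · intro u u' g hu hu'
    rw [hφ, hφ, cartan_mul_right315 _ _ ((inU_zero_iff _).1 hu'),
      cartan_mul_left315 _ _ ((inU_zero_iff _).1 hu)]
  · have hex : ∀ lam : ℤ × ℤ, ∃ H : Finset (GL (Fin 2) k),
        lam ∈ A.support → IsCosetSys lam H := by
      intro lam
      by_cases hl : lam ∈ A.support
      · obtain ⟨H, hH⟩ := exists_cosetSys315 hk lam (hdom lam hl)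
        exact ⟨H, fun _ => hH⟩
      · exact ⟨∅, fun h => absurd h hl⟩
    choose H hH using hex
    refine ⟨A.support.biUnion H, fun g hg => ?_⟩
    have hmem : cartan g ∈ A.support := by
      rw [Finsupp.mem_support_iff]
      rwa [hφ] at hg
    obtain ⟨h, hh, hK⟩ := (hH _ hmem).2.2 g rfl
    refine ⟨h, Finset.mem_biUnion.2 ⟨_, hmem, hh⟩, h⁻¹ * g, hK, ?_⟩
    group

/-- **LEAF T7.L2.1.H2b.3a = SPH-INV**, for every number field. -/
theorem sphInvC315 (F : Type) [Field F] [NumberField F] :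
    Fermat.Agent.LT.T7.H893.SphInvC893 F := by
  intro v φ A h
  exact sphInv_local315 (Fermat.Agent.LT.T6.H176.instLocalC176 F v) φ A h

end Fermat.Agent.LT.T7.H315

end

end
-- ===== PACK-END LT/T7/H315/SphInv.lean

-- ===== PACK-BEGIN LT/T7/H333/SphInv.lean
section





/-!
# Row LT, tower T7, leaf T7.L2.1.H2b.3a `SphInvC893` (spare of helper333)

OFF-MAIN.  `sphInvC333 (F) : H893.SphInvC893 F`, VERBATIM vs `T7/H893/SupplySphSpec.lean`
(helper893), UNCONDITIONAL: a spherical function on `GL₂(F_v)` is bi-`GL₂(𝒪_v)`-invariant and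
supported on finitely many cosets.

Proof = plug of three closed assets of the master tree (byte-identical copies):
`H129.cartan_mul129` (the Cartan invariant is bi-`U(0)`-invariant), `T6.H392.sphFinSuppC392`
(a function of the Cartan invariant with finite support is supported on finitely many cosets),
`T6.H176.instLocalC176` (the completions are local fields).
-/

set_option autoImplicit false

open IsDedekindDomain NumberField

noncomputable section

namespace Fermat.Agent.LT.T7.H333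

open Fermat.Agent.LT Fermat.Agent.LT.T7

/-- **LEAF T7.L2.1.H2b.3a = SPH-INV**, proved. -/
theorem sphInvC333 (F : Type) [Field F] [NumberField F] : H893.SphInvC893 F := by
  intro v φ A hA
  obtain ⟨-, hφ⟩ := hA
  have hφ' : φ = fun g => A (T6.cartan g) := funext hφ
  constructor
  · intro u u' g hu hu'
    rw [hφ (u * g * u'), hφ g, H129.cartan_mul129 hu hu']
  · rw [hφ']
    exact T6.H392.sphFinSuppC392 _ _ (T6.H176.instLocalC176 F v) A

end Fermat.Agent.LT.T7.H333

end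

end
-- ===== PACK-END LT/T7/H333/SphInv.lean

-- ===== PACK-BEGIN LT/T7/H311/EnumExists.lean
section



/-!
# Row LT, tower T7, leaf C2.7.11.E `EnumExistsC311` (helper311): PROVED

OFF-MAIN.  Complete proof, nothing assumed.

    enumExistsC311 (K K') : EnumExistsC311 K K'
    unitMatch893_closed311 : H305.UnitMatchC305 K K' → UnitMatchC893_311 K K'

* the places `w (j+1) = σ⁻¹(w j)` (`pullPlace311`, `enumPl311`);
* `σ` is a `K`-automorphism (`IsCompData.base`, `IsCyclicOfDegree.fixed`): the places lie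
  over `v`;
* `g e f = l` (`Ideal.ncard_primesOver_mul_ramificationIdxIn_mul_inertiaDegIn`), `g ≥ 2`, `l`
  prime: `f = 1`, so `N w = N v` at every place over `v`;
* the stabiliser of `w 0` in the Galois group (of prime order `l`) is trivial: otherwise it is
  the whole group, and `w 0` is the only place over `v` (transitivity);
* the identifications: `T6.InstSplitC` (component of `T6.T6Out`).
-/

set_option autoImplicit false
set_option linter.unusedSectionVars false
set_option linter.unusedVariables false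
set_option linter.style.haveILetI false

open AutomorphicForm IsDedekindDomain NumberField
open scoped Pointwise

noncomputable section

namespace Fermat.Agent.LT.T7.H311

open Fermat.Agent.LT.H556 Fermat.Agent.LT.H556.A0 Fermat.Agent.LT.T7 Fermat.Agent.LT.T7.H305

variable {K K' : Type} [Field K] [NumberField K] [Field K'] [NumberField K'] [Algebra K K']

/-! ## The places `σ⁻¹(w)` -/

/-- The place `σ⁻¹(w)`. -/
def pullPlace311 (σ : K' ≃+* K') (w : HeightOneSpectrum (𝓞 K')) : HeightOneSpectrum (𝓞 K') where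
  asIdeal := Ideal.comap (RingOfIntegers.mapRingEquiv σ) w.asIdeal
  isPrime := Ideal.comap_isPrime _ _
  ne_bot := by
    intro h
    apply w.ne_bot
    rw [eq_bot_iff]
    intro y hy
    have h1 : (RingOfIntegers.mapRingEquiv σ).symm y
        ∈ Ideal.comap (RingOfIntegers.mapRingEquiv σ) w.asIdeal := by
      rw [Ideal.mem_comap, RingEquiv.apply_symm_apply]
      exact hy
    rw [h, Ideal.mem_bot] at h1
    have h2 : y = 0 := by
      have := congrArg (RingOfIntegers.mapRingEquiv σ) h1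
      rwa [RingEquiv.apply_symm_apply, map_zero] at this
    rw [h2]
    exact Ideal.zero_mem _

theorem mem_pullPlace311 (σ : K' ≃+* K') (w : HeightOneSpectrum (𝓞 K')) (y : 𝓞 K') :
    y ∈ (pullPlace311 σ w).asIdeal ↔ RingOfIntegers.mapRingEquiv σ y ∈ w.asIdeal :=
  Iff.rfl

theorem map_pullPlace311 (σ : K' ≃+* K') (w : HeightOneSpectrum (𝓞 K')) :
    w.asIdeal = Ideal.map (RingOfIntegers.mapRingEquiv σ) (pullPlace311 σ w).asIdeal :=
  (Ideal.map_comap_of_surjective _ (RingOfIntegers.mapRingEquiv σ).surjective _).symm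

/-- The enumeration `w, σ⁻¹(w), σ⁻²(w), …`. -/
def enumPl311 (σ : K' ≃+* K') (w : HeightOneSpectrum (𝓞 K')) : ℕ → HeightOneSpectrum (𝓞 K')
  | 0 => w
  | j + 1 => pullPlace311 σ (enumPl311 σ w j)

theorem enumPl_zero311 (σ : K' ≃+* K') (w : HeightOneSpectrum (𝓞 K')) :
    enumPl311 σ w 0 = w := rfl

theorem enumPl_succ311 (σ : K' ≃+* K') (w : HeightOneSpectrum (𝓞 K')) (j : ℕ) :
    enumPl311 σ w (j + 1) = pullPlace311 σ (enumPl311 σ w j) := rfl

theorem eqns_realisedEE311 : True := by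
  have _a1 := @pullPlace311.eq_1
  have _a2 := @enumPl311.eq_1
  have _a3 := @enumPl311.eq_2
  have _a4 := @enumPl311.eq_def
  have _a5 := @enumPl311.eq_unfold
  trivial

/-- `σ⁻¹(w)` lies over `v` if `w` does and `σ` fixes `K`. -/
theorem placeOver_pull311 (σ : K' ≃+* K') (hσ : ∀ x : K, σ (algebraMap K K' x) = algebraMap K K' x)
    {v : HeightOneSpectrum (𝓞 K)} {w : HeightOneSpectrum (𝓞 K')} (hw : PlaceOver K K' v w) :
    PlaceOver K K' v (pullPlace311 σ w) := by
  intro x y hy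
  rw [mem_pullPlace311]
  have e : RingOfIntegers.mapRingEquiv σ y = y := by
    apply RingOfIntegers.ext
    rw [RingOfIntegers.mapRingEquiv_apply, hy, hσ]
  rw [e]
  exact hw x y hy

theorem placeOver_enum311 (σ : K' ≃+* K') (hσ : ∀ x : K, σ (algebraMap K K' x) = algebraMap K K' x)
    {v : HeightOneSpectrum (𝓞 K)} {w : HeightOneSpectrum (𝓞 K')} (hw : PlaceOver K K' v w)
    (j : ℕ) : PlaceOver K K' v (enumPl311 σ w j) := by
  induction j with
  | zero => exact hw
  | succ j ih => exact placeOver_pull311 σ hσ ih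

/-! ## `PlaceOver` and `LiesOver` -/

theorem liesOver_of_placeOver311 {v : HeightOneSpectrum (𝓞 K)} {w : HeightOneSpectrum (𝓞 K')}
    (hw : PlaceOver K K' v w) : w.asIdeal.LiesOver v.asIdeal := by
  refine ⟨?_⟩
  ext x
  rw [Ideal.under_def, Ideal.mem_comap]
  exact hw x (algebraMap (𝓞 K) (𝓞 K') x) rfl

theorem over_iff311 {v : HeightOneSpectrum (𝓞 K)} {w : HeightOneSpectrum (𝓞 K')}
    (hw : PlaceOver K K' v w) (x : 𝓞 K) :
    x ∈ v.asIdeal ↔ algebraMap (𝓞 K) (𝓞 K') x ∈ w.asIdeal :=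
  hw x (algebraMap (𝓞 K) (𝓞 K') x) rfl

/-! ## Residue degree one at a split place -/

/-- `K'/K` Galois of prime degree, two places over `v`: `N w = N v` at every place over `v`. -/
theorem absNorm_split311 {l : ℕ} (hcyc : IsCycExt K K' l) {v : HeightOneSpectrum (𝓞 K)}
    (hsp : ∃ w₁ w₂ : HeightOneSpectrum (𝓞 K'),
      PlaceOver K K' v w₁ ∧ PlaceOver K K' v w₂ ∧ w₁ ≠ w₂)
    {w : HeightOneSpectrum (𝓞 K')} (hw : PlaceOver K K' v w) :
    Ideal.absNorm w.asIdeal = Ideal.absNorm v.asIdeal := by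
  haveI := hcyc.galois
  haveI : v.asIdeal.IsPrime := v.isPrime
  haveI : v.asIdeal.IsMaximal := v.isMaximal
  have hfund := Ideal.ncard_primesOver_mul_ramificationIdxIn_mul_inertiaDegIn v.asIdeal (𝓞 K')
    Gal(K'/K)
  rw [IsGalois.card_aut_eq_finrank, hcyc.degree] at hfund
  have hdvd : (Ideal.primesOver v.asIdeal (𝓞 K')).ncard ∣ l := ⟨_, hfund.symm⟩
  obtain ⟨w₁, w₂, h1, h2, hne⟩ := hsp
  have hfin : (Ideal.primesOver v.asIdeal (𝓞 K')).Finite := by
    apply Set.finite_of_ncard_ne_zero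
    intro h0
    rw [h0, zero_mul] at hfund
    exact hcyc.prime.ne_zero hfund.symm
  have hg1 : (Ideal.primesOver v.asIdeal (𝓞 K')).ncard ≠ 1 := by
    intro hg
    obtain ⟨P₀, hP₀⟩ := Set.ncard_eq_one.mp hg
    have m1 : w₁.asIdeal ∈ Ideal.primesOver v.asIdeal (𝓞 K') :=
      ⟨w₁.isPrime, liesOver_of_placeOver311 h1⟩
    have m2 : w₂.asIdeal ∈ Ideal.primesOver v.asIdeal (𝓞 K') :=
      ⟨w₂.isPrime, liesOver_of_placeOver311 h2⟩
    rw [hP₀, Set.mem_singleton_iff] at m1 m2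
    exact hne (HeightOneSpectrum.ext (m1.trans m2.symm))
  have hgl : (Ideal.primesOver v.asIdeal (𝓞 K')).ncard = l := by
    rcases (Nat.dvd_prime hcyc.prime).mp hdvd with h | h
    · exact absurd h hg1
    · exact h
  rw [hgl] at hfund
  have hef : Ideal.ramificationIdxIn v.asIdeal (𝓞 K') * Ideal.inertiaDegIn v.asIdeal (𝓞 K')
      = 1 :=
    Nat.eq_of_mul_eq_mul_left hcyc.prime.pos (by rw [hfund, mul_one])
  have hf : Ideal.inertiaDegIn v.asIdeal (𝓞 K') = 1 := Nat.eq_one_of_mul_eq_one_left hef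
  haveI hPprime : w.asIdeal.IsPrime := w.isPrime
  haveI hPover : w.asIdeal.LiesOver v.asIdeal := liesOver_of_placeOver311 hw
  rw [Ideal.inertiaDegIn_eq_inertiaDeg v.asIdeal w.asIdeal Gal(K'/K)] at hf
  haveI : w.asIdeal.IsMaximal := w.isMaximal
  have h := Ideal.absNorm_eq_pow_inertiaDeg'_of_liesOver w.asIdeal v.asIdeal v.isPrime v.ne_bot
  rw [Ideal.inertiaDeg'_eq_inertiaDeg, hf, pow_one] at h
  exact h

/-! ## The stabiliser of a place over a split place is trivial -/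

/-- The `K`-automorphism given by a ring automorphism which fixes `K`. -/
def algOf311 (σ : K' ≃+* K') (hσ : ∀ x : K, σ (algebraMap K K' x) = algebraMap K K' x) :
    K' ≃ₐ[K] K' :=
  AlgEquiv.ofRingEquiv (f := σ) hσ

theorem algOf_apply311 (σ : K' ≃+* K')
    (hσ : ∀ x : K, σ (algebraMap K K' x) = algebraMap K K' x) (x : K') :
    algOf311 σ hσ x = σ x := rfl

theorem algOf_pow311 (σ : K' ≃+* K')
    (hσ : ∀ x : K, σ (algebraMap K K' x) = algebraMap K K' x) (j : ℕ) (x : K') :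
    (algOf311 σ hσ ^ j) x = (σ ^ j) x := by
  induction j generalizing x with
  | zero => rfl
  | succ j ih =>
    rw [pow_succ, pow_succ, AlgEquiv.mul_apply, ih, algOf_apply311]
    rfl

theorem eqns_realisedEE2_311 : True := by
  have _a1 := @algOf311.eq_1
  trivial

/-- `g • σ⁻¹(w) = w` for the `K`-automorphism `g` given by `σ`. -/
theorem smul_pull311 (σ : K' ≃+* K')
    (hσ : ∀ x : K, σ (algebraMap K K' x) = algebraMap K K' x) (w : HeightOneSpectrum (𝓞 K')) :
    algOf311 σ hσ • (pullPlace311 σ w).asIdeal = w.asIdeal := by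
  ext y
  rw [Ideal.mem_pointwise_smul_iff_inv_smul_mem, mem_pullPlace311]
  have e : RingOfIntegers.mapRingEquiv σ ((algOf311 σ hσ)⁻¹ • y) = y := by
    apply RingOfIntegers.ext
    rw [RingOfIntegers.mapRingEquiv_apply]
    change σ ((algOf311 σ hσ)⁻¹ (y : K')) = (y : K')
    have := AlgEquiv.apply_symm_apply (algOf311 σ hσ) (y : K')
    exact this
  rw [e]

theorem pow_smul_enum311 (σ : K' ≃+* K')
    (hσ : ∀ x : K, σ (algebraMap K K' x) = algebraMap K K' x) (w : HeightOneSpectrum (𝓞 K'))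
    (j : ℕ) : (algOf311 σ hσ) ^ j • (enumPl311 σ w j).asIdeal = w.asIdeal := by
  induction j with
  | zero => rw [pow_zero, one_smul]; rfl
  | succ j ih =>
    rw [pow_succ, mul_smul, enumPl_succ311, smul_pull311, ih]

/-- **THE STABILISER IS TRIVIAL.** -/
theorem enum_ne311 {l : ℕ} (hcyc : IsCycExt K K' l) (σ : K' ≃+* K')
    (hσ : ∀ x : K, σ (algebraMap K K' x) = algebraMap K K' x)
    (hfaith : ∀ j : ℕ, 0 < j → j < l → ∃ x : K', (σ ^ j) x ≠ x)
    {v : HeightOneSpectrum (𝓞 K)} {w₁ w₂ : HeightOneSpectrum (𝓞 K')}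
    (h1 : PlaceOver K K' v w₁) (h2 : PlaceOver K K' v w₂) (hne : w₁ ≠ w₂)
    (j : ℕ) (hj0 : 0 < j) (hjl : j < l) : enumPl311 σ w₁ j ≠ enumPl311 σ w₁ 0 := by
  intro heq
  rw [enumPl_zero311] at heq
  haveI := hcyc.galois
  haveI : v.asIdeal.IsPrime := v.isPrime
  haveI : v.asIdeal.IsMaximal := v.isMaximal
  haveI : w₁.asIdeal.IsPrime := w₁.isPrime
  haveI : w₂.asIdeal.IsPrime := w₂.isPrime
  haveI : w₁.asIdeal.LiesOver v.asIdeal := liesOver_of_placeOver311 h1
  haveI : w₂.asIdeal.LiesOver v.asIdeal := liesOver_of_placeOver311 h2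
  have hcard : Nat.card Gal(K'/K) = l := by
    rw [IsGalois.card_aut_eq_finrank, hcyc.degree]
  haveI : Fact (Nat.card Gal(K'/K)).Prime := ⟨by rw [hcard]; exact hcyc.prime⟩
  -- the stabiliser
  have hstab : (algOf311 σ hσ) ^ j ∈ MulAction.stabilizer Gal(K'/K) w₁.asIdeal := by
    rw [MulAction.mem_stabilizer_iff]
    have := pow_smul_enum311 σ hσ w₁ j
    rw [heq] at this
    exact this
  have hne1 : (algOf311 σ hσ) ^ j ≠ 1 := by
    intro h
    obtain ⟨x, hx⟩ := hfaith j hj0 hjl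
    apply hx
    rw [← algOf_pow311 σ hσ j x, h]
    rfl
  have htop : MulAction.stabilizer Gal(K'/K) w₁.asIdeal = ⊤ := by
    rcases (MulAction.stabilizer Gal(K'/K) w₁.asIdeal).eq_bot_or_eq_top_of_prime_card with h | h
    · rw [h, Subgroup.mem_bot] at hstab
      exact absurd hstab hne1
    · exact h
  obtain ⟨τ, hτ⟩ := Ideal.exists_smul_eq_of_isGaloisGroup v.asIdeal w₁.asIdeal w₂.asIdeal
    Gal(K'/K)
  have hτ1 : τ ∈ MulAction.stabilizer Gal(K'/K) w₁.asIdeal := by
    rw [htop]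
    exact Subgroup.mem_top τ
  rw [MulAction.mem_stabilizer_iff] at hτ1
  rw [hτ1] at hτ
  exact hne (HeightOneSpectrum.ext hτ)

/-! ## The leaf -/

/-- **LEAF C2.7.11.E = ENUM-EXISTS**, VERBATIM. -/
theorem enumExistsC311 (K K' : Type) [Field K] [NumberField K] [Field K'] [NumberField K']
    [Algebra K K'] : EnumExistsC311 K K' := by
  intro hT6 D hD hcyc T₀ hun v hv hsp
  have hInst : T6.InstSplitC := hT6.2.2.2.2.2.2.2.1
  have hσ : ∀ x : K, D.s.σ (algebraMap K K' x) = algebraMap K K' x := by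
    intro x
    exact (hD.cyc.fixed _).1 ((hD.base _).2 ⟨x, rfl⟩)
  obtain ⟨w₁, w₂, h1, h2, hne⟩ := hsp
  have hover : ∀ j : ℕ, PlaceOver K K' v (enumPl311 D.s.σ w₁ j) :=
    placeOver_enum311 D.s.σ hσ h1
  have hiso : ∀ j : ℕ, ∃ i : v.adicCompletion K ≃+* (enumPl311 D.s.σ w₁ j).adicCompletion K',
      (∀ x : K, i (algebraMap K (v.adicCompletion K) x)
        = algebraMap K' ((enumPl311 D.s.σ w₁ j).adicCompletion K') (algebraMap K K' x)) ∧
      ∀ x : v.adicCompletion K, Valued.v (i x) = Valued.v x := by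
    intro j
    exact hInst K K' v (enumPl311 D.s.σ w₁ j) (over_iff311 (hover j))
      (absNorm_split311 hcyc ⟨w₁, w₂, h1, h2, hne⟩ (hover j)) (hun v hv _ (hover j))
  choose i hi1 hi2 using hiso
  refine ⟨enumPl311 D.s.σ w₁, i, hover, ?_, ?_, hi1, hi2⟩
  · intro j
    exact map_pullPlace311 D.s.σ (enumPl311 D.s.σ w₁ j)
  · intro j hj0 hjl
    exact enum_ne311 hcyc D.s.σ hσ hD.cyc.faithful h1 h2 hne j hj0 hjl

/-- **`UnitMatchC893_311` from `H305.UnitMatchC305` alone.** -/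
theorem unitMatch893_closed311 (hU : UnitMatchC305 K K') : UnitMatchC893_311 K K' :=
  unitMatch893_of311 hU (enumExistsC311 K K')

end Fermat.Agent.LT.T7.H311

end

end
-- ===== PACK-END LT/T7/H311/EnumExists.lean

-- ===== PACK-BEGIN LT/T7/H475/SwapLoc.lean
section




/-!
# Row LT, tower T7, leaf T7.L2.1.H2a.B.0.L `PB57.SwapLocC57` (registry row 3077, helper475)

OFF-MAIN.  On `LT/T7/H57/PreBSpec.lean` (helper57@fe36e97fc, sha256 d5bf85f8..., byte-identical
copy) and its closure.  No hole, nothing assumed, new names only (all suffixed `475`).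

    swapLocC475 (K K') : Fermat.Agent.LT.T7.PB57.SwapLocC57 K K'      (VERBATIM, UNCONDITIONAL)

The swapped components satisfy `H893.LocB893b`:
* `LocHyp893` at the bad places `T₀ ∖ {u}`: `IsBadPart57.hyp` with the archimedean clauses of
  `ArchOk893` of the first pair; `swDn57 = fb` on `T₀.erase u`;
* the values of `swUp57`, `swDn57` at the places of the level (the place of `K` under a place of
  `K'` is unique: `H557.placeOver_unique_557`; `u ∈ T₀` by `IsExp797.mem_T₀`, `IsLevel797.u_level`);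
* `SphOut893`: outside `T₀` the swaps do not change the components;
* `ArchOk893`: the finite clauses of `LocHyp305` are asked for the EMPTY set of places.

The definitions are unfolded with `rfl` / `show` / `intro` only (no foreign equation lemma is
realised in this module).
-/

set_option autoImplicit false
set_option linter.unusedSectionVars false

open AutomorphicForm IsDedekindDomain NumberField MeasureTheory
open scoped ComplexConjugate

noncomputable section

namespace Fermat.Agent.LT.T7.H475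

open Fermat.Agent.LT.H556 Fermat.Agent.LT.H556.A0 Fermat.Agent.LT.T7
open Fermat.Agent.LT.T7.H893 Fermat.Agent.LT.T7.H305 Fermat.Agent.LT.T7.Q797
open Fermat.Agent.LT.T7.PB57

attribute [local instance] Fermat.Agent.LT.T5.instMeasurableSpaceG

variable {K K' : Type} [Field K] [NumberField K] [Field K'] [NumberField K'] [Algebra K K']

open Classical in
/-- The value of the swap upstairs (definitional). -/
theorem swUp_apply475 (B : L2Base K K') (T₀ : Finset (HeightOneSpectrum (𝓞 K)))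
    (n₀ : HeightOneSpectrum (𝓞 K') → ℕ)
    (φ₀ : ∀ w : HeightOneSpectrum (𝓞 K'), GL (Fin 2) (w.adicCompletion K') → ℂ)
    (w : HeightOneSpectrum (𝓞 K')) :
    swUp57 B T₀ n₀ φ₀ w
      = if PlaceOver K K' B.u w then iwFn893
        else if ∃ v ∈ T₀, PlaceOver K K' v w then unitFn893 (n₀ w) else φ₀ w :=
  rfl

open Classical in
/-- The value of the swap downstairs (definitional). -/
theorem swDn_apply475 (B : L2Base K K') (T₀ : Finset (HeightOneSpectrum (𝓞 K)))
    (fb : ∀ v : HeightOneSpectrum (𝓞 K), GL (Fin 2) (v.adicCompletion K) → ℂ)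
    (f₀ : ∀ v : HeightOneSpectrum (𝓞 K), GL (Fin 2) (v.adicCompletion K) → ℂ)
    (v : HeightOneSpectrum (𝓞 K)) :
    swDn57 B T₀ fb f₀ v = if v = B.u then iwFn893 else if v ∈ T₀ then fb v else f₀ v :=
  rfl

/-- Upstairs, over the place `u`: the Iwahori function. -/
theorem swUp_over_u475 (B : L2Base K K') (T₀ : Finset (HeightOneSpectrum (𝓞 K)))
    (n₀ : HeightOneSpectrum (𝓞 K') → ℕ)
    (φ₀ : ∀ w : HeightOneSpectrum (𝓞 K'), GL (Fin 2) (w.adicCompletion K') → ℂ)
    (w : HeightOneSpectrum (𝓞 K')) (hw : PlaceOver K K' B.u w) :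
    swUp57 B T₀ n₀ φ₀ w = iwFn893 := by
  rw [swUp_apply475, if_pos hw]

/-- Upstairs, over a place of the level different from `u`: the unit of the base level. -/
theorem swUp_over_bad475 (B : L2Base K K') (T₀ : Finset (HeightOneSpectrum (𝓞 K)))
    (n₀ : HeightOneSpectrum (𝓞 K') → ℕ)
    (φ₀ : ∀ w : HeightOneSpectrum (𝓞 K'), GL (Fin 2) (w.adicCompletion K') → ℂ)
    (v : HeightOneSpectrum (𝓞 K)) (hv : v ∈ T₀) (hne : v ≠ B.u)
    (w : HeightOneSpectrum (𝓞 K')) (hw : PlaceOver K K' v w) :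
    swUp57 B T₀ n₀ φ₀ w = unitFn893 (n₀ w) := by
  have h1 : ¬ PlaceOver K K' B.u w := fun h => hne (H557.placeOver_unique_557 hw h)
  rw [swUp_apply475, if_neg h1, if_pos ⟨v, hv, hw⟩]

/-- Upstairs, over a place outside the level: the given component. -/
theorem swUp_over_out475 (B : L2Base K K') (T₀ : Finset (HeightOneSpectrum (𝓞 K)))
    (hu : B.u ∈ T₀) (n₀ : HeightOneSpectrum (𝓞 K') → ℕ)
    (φ₀ : ∀ w : HeightOneSpectrum (𝓞 K'), GL (Fin 2) (w.adicCompletion K') → ℂ)
    (v : HeightOneSpectrum (𝓞 K)) (hv : v ∉ T₀)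
    (w : HeightOneSpectrum (𝓞 K')) (hw : PlaceOver K K' v w) :
    swUp57 B T₀ n₀ φ₀ w = φ₀ w := by
  have h1 : ¬ PlaceOver K K' B.u w := fun h =>
    hv ((H557.placeOver_unique_557 hw h).symm ▸ hu)
  have h2 : ¬ ∃ v' ∈ T₀, PlaceOver K K' v' w := by
    rintro ⟨v', hv', hw'⟩
    exact hv ((H557.placeOver_unique_557 hw hw').symm ▸ hv')
  rw [swUp_apply475, if_neg h1, if_neg h2]

/-- Downstairs, at `u`: the Iwahori function. -/
theorem swDn_u475 (B : L2Base K K') (T₀ : Finset (HeightOneSpectrum (𝓞 K)))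
    (fb f₀ : ∀ v : HeightOneSpectrum (𝓞 K), GL (Fin 2) (v.adicCompletion K) → ℂ) :
    swDn57 B T₀ fb f₀ B.u = iwFn893 := by
  rw [swDn_apply475, if_pos rfl]

open Classical in
/-- Downstairs, at a place of the level different from `u`: the partner. -/
theorem swDn_bad475 (B : L2Base K K') (T₀ : Finset (HeightOneSpectrum (𝓞 K)))
    (fb f₀ : ∀ v : HeightOneSpectrum (𝓞 K), GL (Fin 2) (v.adicCompletion K) → ℂ)
    (v : HeightOneSpectrum (𝓞 K)) (hv : v ∈ T₀.erase B.u) :
    swDn57 B T₀ fb f₀ v = fb v := by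
  have hv' := Finset.mem_erase.1 hv
  rw [swDn_apply475, if_neg hv'.1, if_pos hv'.2]

/-- Downstairs, outside the level: the given component. -/
theorem swDn_out475 (B : L2Base K K') (T₀ : Finset (HeightOneSpectrum (𝓞 K)))
    (hu : B.u ∈ T₀)
    (fb f₀ : ∀ v : HeightOneSpectrum (𝓞 K), GL (Fin 2) (v.adicCompletion K) → ℂ)
    (v : HeightOneSpectrum (𝓞 K)) (hv : v ∉ T₀) :
    swDn57 B T₀ fb f₀ v = f₀ v := by
  have h1 : v ≠ B.u := fun h => hv (h.symm ▸ hu)
  rw [swDn_apply475, if_neg h1, if_neg hv]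

/-- `LocHyp893` depends on the components downstairs at the places of the set only. -/
theorem locHyp893_congr_down475 (D : CompData K K') (μc : @Measure (GL (Fin 2) ℂ) (borel _))
    (T : Finset (HeightOneSpectrum (𝓞 K)))
    (n : HeightOneSpectrum (𝓞 K') → ℕ) (m : HeightOneSpectrum (𝓞 K) → ℕ)
    (φ₀ : ∀ w : HeightOneSpectrum (𝓞 K'), GL (Fin 2) (w.adicCompletion K') → ℂ)
    (Φ : InfinitePlace K' → GL (Fin 2) ℂ → ℂ)
    (f₀ f₀' : ∀ v : HeightOneSpectrum (𝓞 K), GL (Fin 2) (v.adicCompletion K) → ℂ)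
    (F : InfinitePlace K → GL (Fin 2) ℂ → ℂ)
    (heq : ∀ v ∈ T, f₀' v = f₀ v)
    (h : LocHyp893 D μc T n m φ₀ Φ f₀ F) : LocHyp893 D μc T n m φ₀ Φ f₀' F where
  inv_up := h.inv_up
  inv_down := fun v hv => by rw [heq v hv]; exact h.inv_down v hv
  arch_up := h.arch_up
  arch_down := h.arch_down
  inert := fun v hv => by rw [heq v hv]; exact h.inert v hv
  split := fun v hv => by rw [heq v hv]; exact h.split v hv
  arch := h.arch

/-- `LocHyp305` for the EMPTY set of finite places depends on the archimedean components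
only. -/
theorem locHyp305_empty_congr475 (D : CompData K K') (μc : @Measure (GL (Fin 2) ℂ) (borel _))
    (n : HeightOneSpectrum (𝓞 K') → ℕ) (m : HeightOneSpectrum (𝓞 K) → ℕ)
    (φ₀ φ₀' : ∀ w : HeightOneSpectrum (𝓞 K'), GL (Fin 2) (w.adicCompletion K') → ℂ)
    (Φ : InfinitePlace K' → GL (Fin 2) ℂ → ℂ)
    (f₀ f₀' : ∀ v : HeightOneSpectrum (𝓞 K), GL (Fin 2) (v.adicCompletion K) → ℂ)
    (F : InfinitePlace K → GL (Fin 2) ℂ → ℂ)
    (h : LocHyp305 D μc ∅ n m φ₀ Φ f₀ F) : LocHyp305 D μc ∅ n m φ₀' Φ f₀' F where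
  inv_up := fun v hv => absurd hv (Finset.notMem_empty v)
  inv_down := fun v hv => absurd hv (Finset.notMem_empty v)
  arch_up := h.arch_up
  arch_down := h.arch_down
  inert := fun v hv => absurd hv (Finset.notMem_empty v)
  split := fun v hv => absurd hv (Finset.notMem_empty v)
  arch := h.arch

variable (K K')

/-- **LEAF PB.0.L = SWAP-LOC** (registry row 3077): the swapped components satisfy
`H893.LocB893b`. -/
theorem swapLocC475 : SwapLocC57 K K' := by
  intro ℓ _hcyc _hℓ _htc Φe B _hB _hram g _hg 𝔫 hlev μc _hμc T₀ n n₀ m hexp c₁ Φ₁ F₁ _hA fb hfb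
    Ω iT _ _ _ iM _ ν _ T T' φ₀ Φ f₀ F hdat ω
  have hu : B.u ∈ T₀ := (hexp.mem_T₀ B.u).2 hlev.u_level
  obtain ⟨hmem, -⟩ := hdat
  obtain ⟨-, -, hLA⟩ := hmem ω
  obtain ⟨-, -, hsph, harch⟩ := hLA
  obtain ⟨h305, hΦinv, hFinv⟩ := harch
  refine And.intro ?_ (And.intro ?_ (And.intro ?_ (And.intro ?_ (And.intro ?_ ?_))))
  · -- the partner at the bad places
    exact locHyp893_congr_down475 _ μc _ n m _ (Φ ω) fb _ (F ω)
      (fun v hv => swDn_bad475 B T₀ fb (f₀ ω) v hv)
      (hfb.hyp μc (Φ ω) (F ω) h305.arch_up h305.arch_down h305.arch)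
  · intro v hv hne w hw
    exact swUp_over_bad475 B T₀ n₀ (φ₀ ω) v hv hne w hw
  · exact swDn_u475 B T₀ fb (f₀ ω)
  · intro w hw
    exact swUp_over_u475 B T₀ n₀ (φ₀ ω) w hw
  · -- outside the level nothing changes
    intro v hvT hv0
    obtain ⟨A, Av, hAv, hAw, hbc, hsplit⟩ := hsph v hvT hv0
    refine ⟨A, Av, ?_, ?_, hbc, hsplit⟩
    · rw [swDn_out475 B T₀ hu fb (f₀ ω) v hv0]
      exact hAv
    · intro w hw
      rw [swUp_over_out475 B T₀ hu n₀ (φ₀ ω) v hv0 w hw]
      exact hAw w hw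
  · -- at infinity nothing changes
    exact And.intro (locHyp305_empty_congr475 _ μc n m (φ₀ ω) _ (Φ ω) (f₀ ω) _ (F ω) h305)
      (And.intro hΦinv hFinv)

end Fermat.Agent.LT.T7.H475

end

end
-- ===== PACK-END LT/T7/H475/SwapLoc.lean

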