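import Mathlib
import Fermat.Agent.Pack.LT4.E5L3
import Fermat.Agent.Pack.LT4.E5L1
import Fermat.Agent.Pack.LT2.E7L1
import Fermat.Agent.Pack.LT2.E6L2
import Fermat.Agent.Pack.LT3.E3L3
import Fermat.Agent.Pack.LT2.E5L2
import Fermat.Agent.Pack.LT4.E0L0
import Fermat.Agent.Pack.LT4.E5L0
import Fermat.Agent.Pack.LT3.E29L2
import Fermat.Agent.Pack.LT2.E9L3
import Fermat.Agent.Pack.LT4.E5L2

set_option linter.all false

-- ===== PACK-BEGIN LT/T3/M/Explicit.lean
section


/-!
# Row LT, tower T3, station T3.18M (architect helper14): THE EXPLICIT FORM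
# (local factors visible; hint of helper797, note 18148 (1))

OFF-MAIN.  Complete proofs, nothing assumed.  ADDITIVE (new names only); the closed station
T3.18M (`M/ClosedM.lean`) is unchanged.

The outputs `EKOpExistGenMC`, `AbelSatakeGenMC` are EXISTENCE statements.  For the matched pairs of
tower T7 (`ConstrC`, `ConstrQRC732`) the local factors must be VISIBLE (upstairs) or CHOSEN by
the consumer (downstairs: the `T6`-matches of the factors upstairs).  Here:

* `IsPurePairM`, `pairSpanM 𝔫 P`: the span of the pure pairs `(pureCoordM A β, pureFnM f₀ F)` with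
  `IsSatakePair v (f₀ v) (A v)` (`v ∈ P`), `IsCplxTest (F w)`, `IsCplxSmooth (F w)`,
  `HasAbelN (F w) (β w)`;
* `IsPurePairMS μc κc`, `pairSpanMS μc κc 𝔫 P ≤ pairSpanM 𝔫 P`: in addition `R(F w)` acts on the
  functions of parameter `0` by `κc ∫ β w` (the pairs which `AS.AbelCplxSmoothC` delivers);
* **`PairExistMC`, `pairExistM_c`**: there are `μc`, `κc ≠ 0` such that every `Φ ∈ SymSpanM K P`
  has an `f` with `(Φ, f) ∈ pairSpanMS μc κc 𝔫 P` (THE STATION'S FUNCTIONS ARE OF THIS FORM);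
* **`ExplicitMC K`, `explicitM_c`**: `κ, Δ, κ₀ ≠ 0` depend on the frame only; every member of
  `pairSpanM` is `IsASPairX` (regularity, bi-invariance, support, `N`-integral `κ Φ(Δ + j c₀)`,
  scalar operator on every joint eigenfunction of the sphere means); every member of
  `pairSpanMS μc κc` is `IsASPairG` with `κ₀ = κ₁ κc^{r}` (in addition the scalar is
  `κ₀ Φ^(z₁, z₂)` at parameter `0`);
* **`EKOfPairMC K`, `ekOfPairM_c`**: if `(Φ, f) ∈ pairSpanM` and `Φ` telescopes along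
  `c₀ = coordTorM K P e α`, then `f` is a T5 test function of trivial type, Eisenstein-killing
  with Eisenstein-killing adjoint, supported at `P ∪ S_∞`, with operator scalars `c(z₁, z₂, m)`;
  if `(Φ, f) ∈ pairSpanMS μc κc`, then `c(z₁, z₂, m) = κ₀ Φ^(z₁, z₂)` at parameter `0`.
-/

set_option autoImplicit false
set_option linter.style.haveILetI false

open IsDedekindDomain NumberField MeasureTheory
open Fermat.Agent.LT.H556.A0

noncomputable section

namespace Fermat.Agent.LT.T3.M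

open Fermat.Agent.LT.T3.AS

variable (K : Type) [Field K] [NumberField K]

/-! ## 0. Pure pairs and their spans -/

/-- A PURE PAIR (complex places): a symmetric pure tensor on the coordinate group and a pure
tensor on `GL₂(𝔸_K)` with local Satake pairs at `P` and local Abel pairs at infinity. -/
def IsPurePairM (𝔫 : Ideal (𝓞 K)) (P : Finset (HeightOneSpectrum (𝓞 K)))
    (p : (CoordM K P → ℂ) × (G K → ℂ)) : Prop :=
  ∃ (A : HeightOneSpectrum (𝓞 K) → ℤ × ℤ → ℂ) (β : InfinitePlace K → ℝ × ℝ → ℂ)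
    (f₀ : ∀ v : HeightOneSpectrum (𝓞 K), GL (Fin 2) (v.adicCompletion K) → ℂ)
    (F : InfinitePlace K → GL (Fin 2) ℂ → ℂ),
    (∀ v, IsSymFin (A v)) ∧ (∀ w, IsSymBump (β w)) ∧
    (∀ v ∈ P, IsSatakePair v (f₀ v) (A v)) ∧
    (∀ w, IsCplxTest (F w)) ∧ (∀ w, IsCplxSmooth (F w)) ∧ (∀ w, HasAbelN (F w) (β w)) ∧
    p = (pureCoordM K P A β, pureFnM K 𝔫 P f₀ F)

/-- The span of the pure pairs. -/
def pairSpanM (𝔫 : Ideal (𝓞 K)) (P : Finset (HeightOneSpectrum (𝓞 K))) :
    Submodule ℂ ((CoordM K P → ℂ) × (G K → ℂ)) :=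
  Submodule.span ℂ {p | IsPurePairM K 𝔫 P p}

/-- A PURE PAIR WITH THE SCALAR OF PARAMETER `0`: in addition `R(F w)` acts on the functions of
parameter `0` by `κc ∫ β w`. -/
def IsPurePairMS {mc : MeasurableSpace (GL (Fin 2) ℂ)} (μc : Measure (GL (Fin 2) ℂ)) (κc : ℂ)
    (𝔫 : Ideal (𝓞 K)) (P : Finset (HeightOneSpectrum (𝓞 K)))
    (p : (CoordM K P → ℂ) × (G K → ℂ)) : Prop :=
  ∃ (A : HeightOneSpectrum (𝓞 K) → ℤ × ℤ → ℂ) (β : InfinitePlace K → ℝ × ℝ → ℂ)
    (f₀ : ∀ v : HeightOneSpectrum (𝓞 K), GL (Fin 2) (v.adicCompletion K) → ℂ)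
    (F : InfinitePlace K → GL (Fin 2) ℂ → ℂ),
    (∀ v, IsSymFin (A v)) ∧ (∀ w, IsSymBump (β w)) ∧
    (∀ v ∈ P, IsSatakePair v (f₀ v) (A v)) ∧
    (∀ w, IsCplxTest (F w)) ∧ (∀ w, IsCplxSmooth (F w)) ∧ (∀ w, HasAbelN (F w) (β w)) ∧
    (∀ w, ActsBy μc (F w) (κc * ∫ x : ℝ × ℝ, β w x)) ∧
    p = (pureCoordM K P A β, pureFnM K 𝔫 P f₀ F)

/-- The span of the pure pairs with the scalar of parameter `0`. -/
def pairSpanMS {mc : MeasurableSpace (GL (Fin 2) ℂ)} (μc : Measure (GL (Fin 2) ℂ)) (κc : ℂ)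
    (𝔫 : Ideal (𝓞 K)) (P : Finset (HeightOneSpectrum (𝓞 K))) :
    Submodule ℂ ((CoordM K P → ℂ) × (G K → ℂ)) :=
  Submodule.span ℂ {p | IsPurePairMS K μc κc 𝔫 P p}

variable {K}

theorem IsPurePairMS.toM {mc : MeasurableSpace (GL (Fin 2) ℂ)} {μc : Measure (GL (Fin 2) ℂ)}
    {κc : ℂ} {𝔫 : Ideal (𝓞 K)} {P : Finset (HeightOneSpectrum (𝓞 K))}
    {p : (CoordM K P → ℂ) × (G K → ℂ)} (h : IsPurePairMS K μc κc 𝔫 P p) :
    IsPurePairM K 𝔫 P p := by
  obtain ⟨A, β, f₀, F, h1, h2, h3, h4, h5, h6, -, h8⟩ := h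
  exact ⟨A, β, f₀, F, h1, h2, h3, h4, h5, h6, h8⟩

theorem pairSpanMS_le {mc : MeasurableSpace (GL (Fin 2) ℂ)} (μc : Measure (GL (Fin 2) ℂ))
    (κc : ℂ) (𝔫 : Ideal (𝓞 K)) (P : Finset (HeightOneSpectrum (𝓞 K))) :
    pairSpanMS K μc κc 𝔫 P ≤ pairSpanM K 𝔫 P :=
  Submodule.span_mono fun _ hp => IsPurePairMS.toM hp

/-- A pure pair from explicit local factors belongs to `pairSpanM`. -/
theorem mem_pairSpanM_pure (𝔫 : Ideal (𝓞 K)) (P : Finset (HeightOneSpectrum (𝓞 K)))
    (A : HeightOneSpectrum (𝓞 K) → ℤ × ℤ → ℂ) (β : InfinitePlace K → ℝ × ℝ → ℂ)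
    (f₀ : ∀ v : HeightOneSpectrum (𝓞 K), GL (Fin 2) (v.adicCompletion K) → ℂ)
    (F : InfinitePlace K → GL (Fin 2) ℂ → ℂ)
    (hA : ∀ v, IsSymFin (A v)) (hβ : ∀ w, IsSymBump (β w))
    (hp : ∀ v ∈ P, IsSatakePair v (f₀ v) (A v))
    (hF : ∀ w, IsCplxTest (F w)) (hs : ∀ w, IsCplxSmooth (F w))
    (hN : ∀ w, HasAbelN (F w) (β w)) :
    (pureCoordM K P A β, pureFnM K 𝔫 P f₀ F) ∈ pairSpanM K 𝔫 P :=
  Submodule.subset_span ⟨A, β, f₀, F, hA, hβ, hp, hF, hs, hN, rfl⟩

/-- A finite linear combination of pure pairs with explicit local factors belongs to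
`pairSpanM`. -/
theorem mem_pairSpanM_sum (𝔫 : Ideal (𝓞 K)) (P : Finset (HeightOneSpectrum (𝓞 K)))
    {ι : Type} (s : Finset ι) (c : ι → ℂ)
    (A : ι → HeightOneSpectrum (𝓞 K) → ℤ × ℤ → ℂ) (β : ι → InfinitePlace K → ℝ × ℝ → ℂ)
    (f₀ : ι → ∀ v : HeightOneSpectrum (𝓞 K), GL (Fin 2) (v.adicCompletion K) → ℂ)
    (F : ι → InfinitePlace K → GL (Fin 2) ℂ → ℂ)
    (hA : ∀ i ∈ s, ∀ v, IsSymFin (A i v)) (hβ : ∀ i ∈ s, ∀ w, IsSymBump (β i w))
    (hp : ∀ i ∈ s, ∀ v ∈ P, IsSatakePair v (f₀ i v) (A i v))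
    (hF : ∀ i ∈ s, ∀ w, IsCplxTest (F i w)) (hs : ∀ i ∈ s, ∀ w, IsCplxSmooth (F i w))
    (hN : ∀ i ∈ s, ∀ w, HasAbelN (F i w) (β i w)) :
    (∑ i ∈ s, c i • pureCoordM K P (A i) (β i), ∑ i ∈ s, c i • pureFnM K 𝔫 P (f₀ i) (F i))
      ∈ pairSpanM K 𝔫 P := by
  have h : (∑ i ∈ s, c i • pureCoordM K P (A i) (β i),
      ∑ i ∈ s, c i • pureFnM K 𝔫 P (f₀ i) (F i))
      = ∑ i ∈ s, c i • ((pureCoordM K P (A i) (β i), pureFnM K 𝔫 P (f₀ i) (F i)) :
          (CoordM K P → ℂ) × (G K → ℂ)) := by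
    refine Prod.ext ?_ ?_
    · rw [Prod.fst_sum]
      rfl
    · rw [Prod.snd_sum]
      rfl
  rw [h]
  refine Submodule.sum_mem _ fun i hi => Submodule.smul_mem _ _ ?_
  exact mem_pairSpanM_pure 𝔫 P (A i) (β i) (f₀ i) (F i) (hA i hi) (hβ i hi) (hp i hi)
    (hF i hi) (hs i hi) (hN i hi)

variable (K)

/-! ## 1. The station's functions are members of `pairSpanMS` -/

/-- **Existence of visible pairs.**  There are `μc`, `κc ≠ 0` such that every `Φ ∈ SymSpanM K P`
is the first component of a member of `pairSpanMS μc κc 𝔫 P`, for every `𝔫`, `P`. -/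
def PairExistMC : Prop :=
  letI : MeasurableSpace (GL (Fin 2) ℂ) := borel (GL (Fin 2) ℂ)
  ∃ μc : Measure (GL (Fin 2) ℂ), μc.IsHaarMeasure ∧ ∃ κc : ℂ, κc ≠ 0 ∧
    ∀ (𝔫 : Ideal (𝓞 K)) (P : Finset (HeightOneSpectrum (𝓞 K))) (Φ : CoordM K P → ℂ),
      Φ ∈ SymSpanM K P → ∃ f : G K → ℂ, (Φ, f) ∈ pairSpanMS K μc κc 𝔫 P

theorem pairExistM_of (h1 : SatakeLocC K) (h2 : AbelCplxSmoothC) : PairExistMC K := by
  let _ : MeasurableSpace (GL (Fin 2) ℂ) := borel (GL (Fin 2) ℂ)
  obtain ⟨μc, hμc, κc, hκc, hAbel⟩ := h2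
  refine ⟨μc, hμc, κc, hκc, fun 𝔫 P Φ hΦ => ?_⟩
  induction hΦ using Submodule.span_induction with
  | zero => exact ⟨0, Submodule.zero_mem _⟩
  | add Φ₁ Φ₂ _ _ ih₁ ih₂ =>
    obtain ⟨f₁, hf₁⟩ := ih₁
    obtain ⟨f₂, hf₂⟩ := ih₂
    exact ⟨f₁ + f₂, Submodule.add_mem _ hf₁ hf₂⟩
  | smul c Φ _ ih =>
    obtain ⟨f, hf⟩ := ih
    exact ⟨c • f, Submodule.smul_mem _ c hf⟩
  | mem Φ hΦ =>
    classical
    obtain ⟨A', β, hA', hβ, hΦ⟩ := hΦ
    set A : HeightOneSpectrum (𝓞 K) → ℤ × ℤ → ℂ :=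
      fun v => if h : v ∈ P then A' ⟨v, h⟩ else 0 with hAdef
    have hAA' : (fun v : P => A v) = A' := by
      funext v
      simp only [hAdef, dif_pos v.2, Subtype.coe_eta]
    have hAsym : ∀ v, IsSymFin (A v) := by
      intro v
      by_cases hv : v ∈ P
      · simp only [hAdef, dif_pos hv]
        exact hA' ⟨v, hv⟩
      · simp only [hAdef, dif_neg hv]
        exact ⟨by simp, fun _ _ => rfl⟩
    have hΦ' : Φ = pureCoordM K P A β := by
      rw [hΦ]
      unfold pureCoordM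
      rw [hAA']
    subst hΦ'
    choose f₀ hpair using fun v : HeightOneSpectrum (𝓞 K) => h1 v (A v) (hAsym v)
    choose F hF1 hFs hF2 hF3 using fun w : InfinitePlace K => hAbel (β w) (hβ w)
    exact ⟨pureFnM K 𝔫 P f₀ F, Submodule.subset_span
      ⟨A, β, f₀, F, hAsym, hβ, fun v _ => hpair v, hF1, hFs, hF2, hF3, rfl⟩⟩

/-- **Existence of visible pairs, UNCONDITIONAL.** -/
theorem pairExistM_c : PairExistMC K :=
  pairExistM_of K (satakeLoc_closed K) abelCplxSmooth_closed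

/-! ## 2. The induction predicate of the explicit form -/

/-- The induction predicate of the explicit form: `f` is a test function for `Φ`, acting by
scalars on the joint eigenfunctions of the sphere means. -/
structure IsASPairX {mG : MeasurableSpace (G K)} {mA : MeasurableSpace (Adl K)}
    (μ : Measure (G K)) (ν : Measure (Adl K)) (𝔫 : Ideal (𝓞 K))
    (P : Finset (HeightOneSpectrum (𝓞 K))) (e : HeightOneSpectrum (𝓞 K) → ℕ) (α : Kˣ)
    (κ : G K → G K → ℂ) (Δ : G K → G K → CoordM K P)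
    (Φ : CoordM K P → ℂ) (f : G K → ℂ) : Prop where
  cont : Continuous f
  supp : HasCompactSupport f
  bi_inv : IsBiInv K 𝔫 f
  supp_at : IsSuppAtM K 𝔫 P f
  smooth : IsSmoothInf K f
  n_integrable : ∀ (g g' : G K) (j : ℤ),
    Integrable (fun x => f (g⁻¹ * unip K x * torK K α ^ j * g')) ν
  n_int : ∀ (g g' : G K) (j : ℤ),
    ∫ x, f (g⁻¹ * unip K x * torK K α ^ j * g') ∂ν
      = κ g g' * Φ (Δ g g' + j • coordTorM K P e α)
  gen : ∃ c : (HeightOneSpectrum (𝓞 K) → ℂ) → (HeightOneSpectrum (𝓞 K) → ℂ) →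
      (InfinitePlace K → ℝ → ℂ) → ℂ,
    ∀ (φ : G K → ℂ) (m : InfinitePlace K → ℝ → ℂ), IsMeanLevel K 𝔫 m φ →
    ∀ a b z₁ z₂ : HeightOneSpectrum (𝓞 K) → ℂ,
      (∀ v ∈ P, IsHeckeEigenAt φ v (a v) (b v)) →
      (∀ v ∈ P, z₁ v + z₂ v = a v) → (∀ v ∈ P, z₁ v * z₂ v = b v) →
      (∀ v ∈ P, b v ≠ 0) →
      ∀ g : G K, Rop K μ f φ g = c z₁ z₂ m * φ g

variable {K}

section Linear

variable {mG : MeasurableSpace (G K)} {mA : MeasurableSpace (Adl K)}
  {μ : Measure (G K)} {ν : Measure (Adl K)} {𝔫 : Ideal (𝓞 K)}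
  {P : Finset (HeightOneSpectrum (𝓞 K))} {e : HeightOneSpectrum (𝓞 K) → ℕ}
  {α : Kˣ} {κ : G K → G K → ℂ} {Δ : G K → G K → CoordM K P} {κ₀ : ℂ}

theorem IsASPairX.zero : IsASPairX K μ ν 𝔫 P e α κ Δ 0 0 where
  cont := continuous_const
  supp := HasCompactSupport.zero
  bi_inv := ⟨fun _ _ _ => ⟨rfl, rfl⟩, fun _ _ _ _ => ⟨rfl, rfl⟩⟩
  supp_at := fun _ hh => absurd rfl hh
  smooth := IsSmoothInf.zero
  n_integrable := fun g g' j => by
    have : (fun x => (0 : G K → ℂ) (g⁻¹ * unip K x * torK K α ^ j * g')) = fun _ => 0 := rfl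
    rw [this]
    exact integrable_zero _ _ _
  n_int := fun g g' j => by simp
  gen := ⟨fun _ _ _ => 0, fun φ m _ a b z₁ z₂ _ _ _ _ g => by simp [Rop]⟩

theorem IsASPairX.add [OpensMeasurableSpace (G K)] [IsFiniteMeasureOnCompacts μ]
    {Φ₁ Φ₂ : CoordM K P → ℂ} {f₁ f₂ : G K → ℂ}
    (h₁ : IsASPairX K μ ν 𝔫 P e α κ Δ Φ₁ f₁) (h₂ : IsASPairX K μ ν 𝔫 P e α κ Δ Φ₂ f₂) :
    IsASPairX K μ ν 𝔫 P e α κ Δ (Φ₁ + Φ₂) (f₁ + f₂) where
  cont := h₁.cont.add h₂.cont
  supp := h₁.supp.add h₂.supp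
  bi_inv := by
    refine ⟨fun u hu h => ⟨?_, ?_⟩, fun w k hk h => ⟨?_, ?_⟩⟩
    · simp only [Pi.add_apply, (h₁.bi_inv.1 u hu h).1, (h₂.bi_inv.1 u hu h).1]
    · simp only [Pi.add_apply, (h₁.bi_inv.1 u hu h).2, (h₂.bi_inv.1 u hu h).2]
    · simp only [Pi.add_apply, (h₁.bi_inv.2 w k hk h).1, (h₂.bi_inv.2 w k hk h).1]
    · simp only [Pi.add_apply, (h₁.bi_inv.2 w k hk h).2, (h₂.bi_inv.2 w k hk h).2]
  supp_at := fun h hh => by
    by_cases h1 : f₁ h = 0
    · have h2 : f₂ h ≠ 0 := fun h2 => hh (by simp [h1, h2])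
      exact h₂.supp_at h h2
    · exact h₁.supp_at h h1
  smooth := h₁.smooth.add h₂.smooth
  n_integrable := fun g g' j => (h₁.n_integrable g g' j).add (h₂.n_integrable g g' j)
  n_int := fun g g' j => by
    simp only [Pi.add_apply]
    rw [integral_add (h₁.n_integrable g g' j) (h₂.n_integrable g g' j), h₁.n_int, h₂.n_int]
    ring
  gen := by
    obtain ⟨c₁, ho₁⟩ := h₁.gen
    obtain ⟨c₂, ho₂⟩ := h₂.gen
    refine ⟨fun z₁ z₂ m => c₁ z₁ z₂ m + c₂ z₁ z₂ m,
      fun φ m hφ a b z₁ z₂ he hz₁ hz₂ hb g => ?_⟩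
    have e₁ := ho₁ φ m hφ a b z₁ z₂ he hz₁ hz₂ hb g
    have e₂ := ho₂ φ m hφ a b z₁ z₂ he hz₁ hz₂ hb g
    unfold Rop at e₁ e₂ ⊢
    have : (fun h => φ (g * h) * (f₁ + f₂) h)
        = fun h => φ (g * h) * f₁ h + φ (g * h) * f₂ h := by
      funext h
      simp only [Pi.add_apply]
      ring
    rw [this, integral_add (rop_integrable μ hφ.cont h₁.cont h₁.supp g)
      (rop_integrable μ hφ.cont h₂.cont h₂.supp g), e₁, e₂]
    ring

theorem IsASPairX.smul {Φ : CoordM K P → ℂ} {f : G K → ℂ}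
    (h : IsASPairX K μ ν 𝔫 P e α κ Δ Φ f) (c : ℂ) :
    IsASPairX K μ ν 𝔫 P e α κ Δ (c • Φ) (c • f) where
  cont := h.cont.const_smul c
  supp := h.supp.mono fun x hx => by
    rw [Function.mem_support] at hx ⊢
    intro h0
    exact hx (by simp [h0])
  bi_inv := by
    refine ⟨fun u hu y => ⟨?_, ?_⟩, fun w k hk y => ⟨?_, ?_⟩⟩
    · simp only [Pi.smul_apply, (h.bi_inv.1 u hu y).1]
    · simp only [Pi.smul_apply, (h.bi_inv.1 u hu y).2]
    · simp only [Pi.smul_apply, (h.bi_inv.2 w k hk y).1]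
    · simp only [Pi.smul_apply, (h.bi_inv.2 w k hk y).2]
  supp_at := fun y hy => by
    have h1 : f y ≠ 0 := fun h1 => hy (by simp [h1])
    exact h.supp_at y h1
  smooth := h.smooth.smul c
  n_integrable := fun g g' j => (h.n_integrable g g' j).const_mul c
  n_int := fun g g' j => by
    simp only [Pi.smul_apply, smul_eq_mul]
    rw [integral_const_mul, h.n_int]
    ring
  gen := by
    obtain ⟨c₁, ho₁⟩ := h.gen
    refine ⟨fun z₁ z₂ m => c * c₁ z₁ z₂ m, fun φ m hφ a b z₁ z₂ he hz₁ hz₂ hb g => ?_⟩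
    have e₁ := ho₁ φ m hφ a b z₁ z₂ he hz₁ hz₂ hb g
    unfold Rop at e₁ ⊢
    have : (fun y => φ (g * y) * (c • f) y) = fun y => c * (φ (g * y) * f y) := by
      funext y
      simp only [Pi.smul_apply, smul_eq_mul]
      ring
    rw [this, integral_const_mul, e₁]
    ring

/-- The predicate of the station implies the predicate of the explicit form. -/
theorem IsASPairG.toX {Φ : CoordM K P → ℂ} {f : G K → ℂ}
    (h : IsASPairG K μ ν 𝔫 P e α κ Δ κ₀ Φ f) : IsASPairX K μ ν 𝔫 P e α κ Δ Φ f where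
  cont := h.base.cont
  supp := h.base.supp
  bi_inv := h.base.bi_inv
  supp_at := h.base.supp_at
  smooth := h.base.smooth
  n_integrable := h.base.n_integrable
  n_int := h.base.n_int
  gen := by
    obtain ⟨c, -, hc⟩ := h.gen
    exact ⟨c, hc⟩

end Linear

variable (K)

/-! ## 3. Every member of the spans is an Abel--Satake pair -/

/-- **THE EXPLICIT FORM of the Abel--Satake pair (complex places).**  `κ, Δ, κ₀` depend on the
frame (and on `μc`, `κc`) only. -/
def ExplicitMC : Prop :=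
  letI : MeasurableSpace (Adl K) := borel (Adl K)
  letI : MeasurableSpace (G K) := borel (G K)
  letI : MeasurableSpace (GL (Fin 2) ℂ) := borel (GL (Fin 2) ℂ)
  (∀ w : InfinitePlace K, w.IsComplex) →
  ∀ μ : Measure (G K), μ.IsHaarMeasure →
  ∀ μc : Measure (GL (Fin 2) ℂ), μc.IsHaarMeasure → ∀ κc : ℂ, κc ≠ 0 →
  ∀ ν : Measure (Adl K), ν.IsAddHaarMeasure →
  ∀ (𝔫 : Ideal (𝓞 K)) (P : Finset (HeightOneSpectrum (𝓞 K)))
    (e : HeightOneSpectrum (𝓞 K) → ℕ) (a₀ : 𝓞 K) (α : Kˣ), FrameM K 𝔫 P e a₀ α →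
    ∃ (κ : G K → G K → ℂ) (Δ : G K → G K → CoordM K P) (κ₀ : ℂ), κ₀ ≠ 0 ∧
      (∀ p : (CoordM K P → ℂ) × (G K → ℂ), p ∈ pairSpanM K 𝔫 P →
        IsASPairX K μ ν 𝔫 P e α κ Δ p.1 p.2) ∧
      ∀ p : (CoordM K P → ℂ) × (G K → ℂ), p ∈ pairSpanMS K μc κc 𝔫 P →
        IsASPairG K μ ν 𝔫 P e α κ Δ κ₀ p.1 p.2

/-- The explicit form from the leaves G.1, M.2, M.3, G.2 and the node `NIntMC`. -/
theorem explicitM_of (hG : MeanActsC) (hft : FtPureC) (h3 : PureRegMC K) (h4 : NIntMC K)
    (h5 : ROpMeanMC K) : ExplicitMC K := by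
  let _ : MeasurableSpace (Adl K) := borel (Adl K)
  let _ : MeasurableSpace (G K) := borel (G K)
  let _ : MeasurableSpace (GL (Fin 2) ℂ) := borel (GL (Fin 2) ℂ)
  have _ : BorelSpace (G K) := ⟨rfl⟩
  intro hcx μ hμ μc hμc κc hκc ν hν 𝔫 P e a₀ α hfr
  obtain ⟨κ, Δ, hN⟩ := h4 hcx ν hν 𝔫 P e a₀ α hfr
  obtain ⟨κ₁, hκ₁, hR⟩ := h5 hcx μ hμ μc hμc 𝔫 hfr.level P hfr.prime
  refine ⟨κ, Δ, κ₁ * κc ^ Fintype.card (InfinitePlace K),
    mul_ne_zero hκ₁ (pow_ne_zero _ hκc), ?_, ?_⟩
  · -- the weak form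
    intro p hp
    induction hp using Submodule.span_induction with
    | zero => exact IsASPairX.zero
    | add p₁ p₂ _ _ ih₁ ih₂ => exact ih₁.add ih₂
    | smul c p _ ih => exact ih.smul c
    | mem p hp =>
      classical
      obtain ⟨A, β, f₀, F, hAsym, hβ, hpair, hF1, hFs, hF2, rfl⟩ := hp
      obtain ⟨r1, r2, r3, r4⟩ := h3 𝔫 hfr.level P hfr.prime f₀ F
        (fun v hv => (hpair v hv).bi_inv) (fun v hv => (hpair v hv).fin_supp) hF1
      have hNN := hN A β f₀ F (fun v hv => (hpair v hv).bi_inv)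
        (fun v hv => (hpair v hv).fin_supp) (fun v hv => (hpair v hv).n_int) hF1 hF2
      choose Cg hCg using fun (w : InfinitePlace K) (m' : ℝ → ℂ) => hG μc hμc (F w) (hF1 w) m'
      exact
        { cont := r1
          supp := r2
          bi_inv := r3
          supp_at := r4
          smooth := pureSmoothM 𝔫 P f₀ F hFs
          n_integrable := fun g g' j => (hNN g g' j).1
          n_int := fun g g' j => (hNN g g' j).2
          gen := ⟨fun z₁ z₂ m => κ₁ * (∏ v ∈ P, laurent (A v) (z₁ v) (z₂ v))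
              * ∏ w : InfinitePlace K, Cg w (m w),
            fun φ m hφ a b z₁ z₂ he hz₁ hz₂ hb g =>
              hR A (fun w => Cg w (m w)) m f₀ F (fun v hv => (hpair v hv).bi_inv)
                (fun v hv => (hpair v hv).fin_supp) (fun v hv => (hpair v hv).eigen) hF1
                (fun w => hCg w (m w)) φ hφ a b z₁ z₂ he hz₁ hz₂ hb g⟩ }
  · -- the form with the scalar of parameter `0`
    intro p hp
    induction hp using Submodule.span_induction with
    | zero => exact IsASPairG.zero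
    | add p₁ p₂ _ _ ih₁ ih₂ => exact ih₁.add ih₂
    | smul c p _ ih => exact ih.smul c
    | mem p hp =>
      classical
      obtain ⟨A, β, f₀, F, hAsym, hβ, hpair, hF1, hFs, hF2, hF3, rfl⟩ := hp
      obtain ⟨r1, r2, r3, r4⟩ := h3 𝔫 hfr.level P hfr.prime f₀ F
        (fun v hv => (hpair v hv).bi_inv) (fun v hv => (hpair v hv).fin_supp) hF1
      have hNN := hN A β f₀ F (fun v hv => (hpair v hv).bi_inv)
        (fun v hv => (hpair v hv).fin_supp) (fun v hv => (hpair v hv).n_int) hF1 hF2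
      choose Cg hCg using fun (w : InfinitePlace K) (m' : ℝ → ℂ) => hG μc hμc (F w) (hF1 w) m'
      set Cw : InfinitePlace K → (ℝ → ℂ) → ℂ := fun w m' =>
        if ∀ d : ℝ, 0 < d → m' d = sphM d then κc * ∫ x : ℝ × ℝ, β w x else Cg w m' with hCw
      have hCwa : ∀ (w : InfinitePlace K) (m' : ℝ → ℂ), ActsByMean μc (F w) m' (Cw w m') := by
        intro w m'
        by_cases hm : ∀ d : ℝ, 0 < d → m' d = sphM d
        · simp only [hCw, if_pos hm]
          exact actsByMean_of_actsBy hm (hF3 w)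
        · simp only [hCw, if_neg hm]
          exact hCg w m'
      have hft' : ∀ z₁ z₂ : HeightOneSpectrum (𝓞 K) → ℂ,
          ftCoordM K P (pureCoordM K P A β) z₁ z₂
            = (∏ v ∈ P, laurent (A v) (z₁ v) (z₂ v))
              * ∏ w : InfinitePlace K, ∫ x : ℝ × ℝ, β w x := by
        intro z₁ z₂
        unfold ftCoordM pureCoordM
        rw [hft P (InfinitePlace K) (fun v : P => A v) β (fun i => (hAsym i).1)
          (fun v : P => z₁ v) (fun v : P => z₂ v),
          Finset.prod_coe_sort P (fun v => laurent (A v) (z₁ v) (z₂ v))]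
      have hopG : ∀ (φ : G K → ℂ) (m : InfinitePlace K → ℝ → ℂ), IsMeanLevel K 𝔫 m φ →
          ∀ a b z₁ z₂ : HeightOneSpectrum (𝓞 K) → ℂ,
            (∀ v ∈ P, IsHeckeEigenAt φ v (a v) (b v)) →
            (∀ v ∈ P, z₁ v + z₂ v = a v) → (∀ v ∈ P, z₁ v * z₂ v = b v) →
            (∀ v ∈ P, b v ≠ 0) →
            ∀ g : G K, Rop K μ (pureFnM K 𝔫 P f₀ F) φ g
              = (κ₁ * (∏ v ∈ P, laurent (A v) (z₁ v) (z₂ v))
                  * ∏ w : InfinitePlace K, Cw w (m w)) * φ g :=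
        fun φ m hφ a b z₁ z₂ he hz₁ hz₂ hb g =>
          hR A (fun w => Cw w (m w)) m f₀ F (fun v hv => (hpair v hv).bi_inv)
            (fun v hv => (hpair v hv).fin_supp) (fun v hv => (hpair v hv).eigen) hF1
            (fun w => hCwa w (m w)) φ hφ a b z₁ z₂ he hz₁ hz₂ hb g
      have hcsph : ∀ (z₁ z₂ : HeightOneSpectrum (𝓞 K) → ℂ) (m : InfinitePlace K → ℝ → ℂ),
          IsSph0Param K m →
          κ₁ * (∏ v ∈ P, laurent (A v) (z₁ v) (z₂ v)) * ∏ w : InfinitePlace K, Cw w (m w)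
            = κ₁ * κc ^ Fintype.card (InfinitePlace K)
              * ftCoordM K P (pureCoordM K P A β) z₁ z₂ := by
        intro z₁ z₂ m hm
        have e1 : ∀ w : InfinitePlace K, Cw w (m w) = κc * ∫ x : ℝ × ℝ, β w x := fun w => by
          simp only [hCw, if_pos (hm w)]
        simp only [e1]
        rw [hft' z₁ z₂, Finset.prod_mul_distrib, Finset.prod_const, Finset.card_univ]
        ring
      refine ⟨?_, ?_⟩
      · refine
          { fin_m := ⟨Fintype.piFinset fun i : P => (hAsym i).1.toFinset, fun m hm x => ?_⟩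
            int_x := fun m => ?_
            cont := r1
            supp := r2
            bi_inv := r3
            supp_at := r4
            smooth := pureSmoothM 𝔫 P f₀ F hFs
            n_integrable := fun g g' j => (hNN g g' j).1
            n_int := fun g g' j => (hNN g g' j).2
            op := fun φ hφ a b z₁ z₂ he hz₁ hz₂ hb g => ?_ }
        · rw [Fintype.mem_piFinset, not_forall] at hm
          obtain ⟨i, hi⟩ := hm
          rw [Set.Finite.mem_toFinset, Function.mem_support, not_not] at hi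
          have : ∏ v : P, A v (m v) = 0 := Finset.prod_eq_zero (Finset.mem_univ i) hi
          show (∏ v : P, A v (m v)) * ∏ w : InfinitePlace K, β w (x w) = 0
          rw [this, zero_mul]
        · have : (fun x : InfinitePlace K → ℝ × ℝ => pureCoordM K P A β (m, x))
              = fun x => (∏ v : P, A v (m v)) * ∏ w : InfinitePlace K, β w (x w) := rfl
          show Integrable (fun x : InfinitePlace K → ℝ × ℝ => pureCoordM K P A β (m, x))
          rw [this]
          refine Integrable.const_mul ?_ _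
          exact Integrable.fintype_prod (f := β) (μ := fun _ => volume) fun w =>
            (hβ w).1.continuous.integrable_of_hasCompactSupport (hβ w).2.1
        · show Rop K μ (pureFnM K 𝔫 P f₀ F) φ g = _
          rw [hopG φ (fun _ => sphM) (isMeanLevel_of_sph0 K hcx hφ) a b z₁ z₂ he hz₁ hz₂ hb g,
            hcsph z₁ z₂ (fun _ => sphM) (fun _ _ _ => rfl)]
      · exact ⟨fun z₁ z₂ m => κ₁ * (∏ v ∈ P, laurent (A v) (z₁ v) (z₂ v))
            * ∏ w : InfinitePlace K, Cw w (m w), hcsph, hopG⟩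

/-- **THE EXPLICIT FORM, UNCONDITIONAL.** -/
theorem explicitM_c : ExplicitMC K :=
  explicitM_of K meanActs_c (openM_c K).ftPure (openM_c K).pureReg (nIntM_c K) (rOpMeanM_c K)

/-! ## 4. Eisenstein killing for a telescoping member of `pairSpanM` -/

/-- **EK FOR GIVEN LOCAL FACTORS (complex places).**  If `(Φ, f) ∈ pairSpanM` and `Φ`
telescopes along `c₀ = coordTorM K P e α`, then `f` is a T5 test function of trivial type,
Eisenstein-killing with Eisenstein-killing adjoint, supported at `P ∪ S_∞`, and acts by scalars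
`c(z₁, z₂, m)` on the joint eigenfunctions of the sphere means; if `(Φ, f) ∈ pairSpanMS μc κc`,
the scalar at parameter `0` is `κ₀ Φ^(z₁, z₂)`. -/
def EKOfPairMC : Prop :=
  letI : MeasurableSpace (G K) := borel (G K)
  letI : MeasurableSpace (GL (Fin 2) ℂ) := borel (GL (Fin 2) ℂ)
  (∀ w : InfinitePlace K, w.IsComplex) →
  ∀ μ : Measure (G K), μ.IsHaarMeasure →
  ∀ μc : Measure (GL (Fin 2) ℂ), μc.IsHaarMeasure → ∀ κc : ℂ, κc ≠ 0 →
  ∀ (𝔫 : Ideal (𝓞 K)) (P : Finset (HeightOneSpectrum (𝓞 K)))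
    (e : HeightOneSpectrum (𝓞 K) → ℕ) (a₀ : 𝓞 K) (α : Kˣ), FrameM K 𝔫 P e a₀ α →
    ∃ κ₀ : ℂ, κ₀ ≠ 0 ∧
      ∀ (Φ : CoordM K P → ℂ) (f : G K → ℂ), (Φ, f) ∈ pairSpanM K 𝔫 P →
        (∀ Δ : CoordM K P, HasSum (fun j : ℤ => Φ (Δ + j • coordTorM K P e α)) 0) →
        T5.IsTestFn 𝔫 T5.trivType f ∧ T5.IsEK μ f ∧ T5.IsEK μ (T5.adjointFn f) ∧
          IsSuppAtM K 𝔫 P f ∧
          ∃ c : (HeightOneSpectrum (𝓞 K) → ℂ) → (HeightOneSpectrum (𝓞 K) → ℂ) →
              (InfinitePlace K → ℝ → ℂ) → ℂ,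
            ((Φ, f) ∈ pairSpanMS K μc κc 𝔫 P →
              ∀ (z₁ z₂ : HeightOneSpectrum (𝓞 K) → ℂ) (m : InfinitePlace K → ℝ → ℂ),
                IsSph0Param K m → c z₁ z₂ m = κ₀ * ftCoordM K P Φ z₁ z₂) ∧
            ∀ (φ : G K → ℂ) (m : InfinitePlace K → ℝ → ℂ), IsMeanLevel K 𝔫 m φ →
            ∀ a b z₁ z₂ : HeightOneSpectrum (𝓞 K) → ℂ,
              (∀ v ∈ P, IsHeckeEigenAt φ v (a v) (b v)) →
              (∀ v ∈ P, z₁ v + z₂ v = a v) → (∀ v ∈ P, z₁ v * z₂ v = b v) →
              (∀ v ∈ P, b v ≠ 0) →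
              ∀ g : G K, T5.Rconv μ f φ g = c z₁ z₂ m * φ g

/-- EK for given local factors from the explicit form and the closed leaves of T3. -/
theorem ekOfPairM_of (hX : ExplicitMC K) (hk : EKKillC K) (hs : EKStarC K)
    (hν : InAddHaarC K) : EKOfPairMC K := by
  let _ : MeasurableSpace (Adl K) := borel (Adl K)
  let _ : MeasurableSpace (G K) := borel (G K)
  let _ : MeasurableSpace (GL (Fin 2) ℂ) := borel (GL (Fin 2) ℂ)
  intro hcx μ hμ μc hμc κc hκc 𝔫 P e a₀ α hfr
  obtain ⟨ν, hνH⟩ := hν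
  obtain ⟨κ, Δ, κ₀, hκ₀, hall, hallS⟩ := hX hcx μ hμ μc hμc κc hκc ν hνH 𝔫 P e a₀ α hfr
  refine ⟨κ₀, hκ₀, fun Φ f hmem hΦsum => ?_⟩
  have hp := hall (Φ, f) hmem
  have hf := hp.cont
  have hfc := hp.supp
  have hEK : IsEK K ν f α := by
    intro g g'
    have h1 : (fun j : ℤ => ∫ x, f (g⁻¹ * unip K x * torK K α ^ j * g') ∂ν)
        = fun j : ℤ => κ g g' * Φ (Δ g g' + j • coordTorM K P e α) := by
      funext j
      exact hp.n_int g g' j
    rw [h1]
    have h2 := (hΦsum (Δ g g')).mul_left (κ g g')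
    rw [mul_zero] at h2
    exact h2
  have hstar : IsEK K ν (starG K f) α := hs ν hνH _ f hf hfc hEK
  have hsc : Continuous (starG K f) := by
    unfold starG
    exact (Complex.continuous_conj).comp (hf.comp continuous_inv)
  have hscc : HasCompactSupport (starG K f) := by
    unfold starG
    have h1 : HasCompactSupport (fun h : G K => f h⁻¹) := by
      have := hfc.comp_homeomorph (Homeomorph.inv (G K))
      simpa [Function.comp_def] using this
    exact h1.comp_left (g := (starRingEnd ℂ)) (map_zero _)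
  have hRT : ∀ (φ : G K → ℂ) (g : G K), T5.Rconv μ f φ g = Rop K μ f φ g := by
    intro φ g
    unfold Rop T5.Rconv
    refine integral_congr_ae (Filter.Eventually.of_forall fun y => ?_)
    exact mul_comm _ _
  refine ⟨isTestFn_T5 K hf hfc hp.smooth hp.bi_inv,
    isEK_T5 K (ekOp_of_int K hk hμ hνH hf hfc hEK),
    isEK_T5 K (ekOp_of_int K hk hμ hνH hsc hscc hstar), hp.supp_at, ?_⟩
  classical
  by_cases hS : (Φ, f) ∈ pairSpanMS K μc κc 𝔫 P
  · obtain ⟨c, hc, hop⟩ := (hallS (Φ, f) hS).gen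
    refine ⟨c, fun _ => hc, fun φ m hφ a b z₁ z₂ he hz₁ hz₂ hb g => ?_⟩
    rw [hRT]
    exact hop φ m hφ a b z₁ z₂ he hz₁ hz₂ hb g
  · obtain ⟨c, hop⟩ := hp.gen
    refine ⟨c, fun h => absurd h hS, fun φ m hφ a b z₁ z₂ he hz₁ hz₂ hb g => ?_⟩
    rw [hRT]
    exact hop φ m hφ a b z₁ z₂ he hz₁ hz₂ hb g

/-- **EK FOR GIVEN LOCAL FACTORS, UNCONDITIONAL.** -/
theorem ekOfPairM_c : EKOfPairMC K :=
  ekOfPairM_of K (explicitM_c K) (ekKill_u K) (ekStar_u K) (inAddHaar_u K)

end Fermat.Agent.LT.T3.M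

end

end
-- ===== PACK-END LT/T3/M/Explicit.lean

-- ===== PACK-BEGIN LT/T7/B981/H704/Unif.lean
section




/-!
# Row LT, tower T7, leaf SS.0 `UnifC503` (helper704, registry row 2877)

OFF-MAIN.  ADDITIVE (new name only, suffix `704`).  No hole, nothing assumed.

    unifC704 (K) : SS503.UnifC503 K          (VERBATIM, UNCONDITIONAL)

Plug of the closed asset `H129.exists_scalarUniformizer129` (`LT/H129/HeckeExists.lean`, MASTER
bytes) on the spec `LT/T7/B981/H503/StepSSpec.lean` (helper503, sha256 b4d9e9b9).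
-/

set_option autoImplicit false

open IsDedekindDomain NumberField

namespace Fermat.Agent.LT.T7.B981.H704

open Fermat.Agent.LT.H556.A0

/-- **LEAF SS.0 `UnifC503`**, VERBATIM, UNCONDITIONAL. -/
theorem unifC704 (K : Type) [Field K] [NumberField K] : SS503.UnifC503 K :=
  fun v => Fermat.Agent.LT.H129.exists_scalarUniformizer129 (K := K) v

end Fermat.Agent.LT.T7.B981.H704

end
-- ===== PACK-END LT/T7/B981/H704/Unif.lean

-- ===== PACK-BEGIN LT/T7/H387/TrSupp.lean
section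



/-!
# Row LT, tower T7, leaf SS.3 `SS503.TrSuppC503` (cut of helper503 of `B981.StepSC981`, registry
# row 2871): PROVED (helper387)

OFF-MAIN.  `trSuppC387 K : SS503.TrSuppC503 K` VERBATIM, UNCONDITIONAL, every number field.
The compact set is `C · z^{-t}`.  Only the multiplicativity of the components
(`H942.finComp_mul942`, `T5.H942.agreeOutside_mul942`, files of the closure of the Spec) and the
triviality of `z` at the places of the orbit are used.
-/

set_option autoImplicit false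

open AutomorphicForm IsDedekindDomain NumberField MeasureTheory

noncomputable section

namespace Fermat.Agent.LT.T7.H387S

open Fermat.Agent.LT.H556 Fermat.Agent.LT.H556.A0 Fermat.Agent.LT.T7
open Fermat.Agent.LT.T7.B981

variable {K : Type} [Field K] [NumberField K]

/-- The elements with trivial component at the finite place `w`. -/
def trivSub387 (w : HeightOneSpectrum (𝓞 K)) : Subgroup (G K) where
  carrier := {g | finComp w g = 1}
  one_mem' := H942.finComp_one942 w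
  mul_mem' := by
    intro a b ha hb
    show finComp w (a * b) = 1
    have ha' : finComp w a = 1 := ha
    have hb' : finComp w b = 1 := hb
    rw [H942.finComp_mul942, ha', hb', one_mul]
  inv_mem' := by
    intro a ha
    show finComp w a⁻¹ = 1
    have ha' : finComp w a = 1 := ha
    have := H942.finComp_inv_mul942 w a
    rwa [ha', mul_one] at this

theorem finComp_eq_one_of_triv387 (w : HeightOneSpectrum (𝓞 K)) (g : G K)
    (h : TrivAtFin w g) : finComp w g = 1 := h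

/-- A power of an element which is trivial at `w` is trivial at `w`. -/
theorem finComp_zpow_eq_one387 (w : HeightOneSpectrum (𝓞 K)) (z : G K)
    (h : TrivAtFin w z) (t : ℤ) : finComp w (z ^ t) = 1 :=
  (trivSub387 w).zpow_mem (finComp_eq_one_of_triv387 w z h) t

/-- Right multiplication by an element which is trivial at `w` does not change the Iwahori
condition at `w`. -/
theorem inIwahori_of_mul387 (w : HeightOneSpectrum (𝓞 K)) (y u : G K)
    (hu : finComp w u = 1) (h : T5.InIwahori w (y * u)) : T5.InIwahori w y := by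
  have h1 : finComp w (y * u) = finComp w y := by
    rw [H942.finComp_mul942, hu, mul_one]
  have hu' : finComp w u⁻¹ = 1 := (trivSub387 w).inv_mem hu
  have h2 : finComp w (y * u)⁻¹ = finComp w y⁻¹ := by
    rw [mul_inv_rev, H942.finComp_mul942, hu', one_mul]
  obtain ⟨a, b, c⟩ := h
  refine ⟨?_, ?_, ?_⟩
  · intro i j
    have := a i j
    rwa [h1] at this
  · intro i j
    have := b i j
    rwa [h2] at this
  · rwa [h1] at c

/-- **LEAF SS.3 = TR-SUPP**, VERBATIM. -/
theorem trSuppC387 (K : Type) [Field K] [NumberField K] : SS503.TrSuppC503 K := by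
  intro l o v z hz ho t φ hC
  obtain ⟨C, hCc, hsupp⟩ := hC
  refine ⟨(fun h : G K => h * (z ^ t)⁻¹) '' C,
    hCc.image (continuous_id.mul continuous_const), ?_⟩
  intro y hy
  have hy' : φ (y * z ^ t) ≠ 0 := hy
  obtain ⟨hiw, h, hhC, hag⟩ := hsupp (y * z ^ t) hy'
  refine ⟨fun j hj => ?_, h * (z ^ t)⁻¹, ⟨h, hhC, rfl⟩, ?_⟩
  · have htriv : TrivAtFin (o j) z := hz.1.2 (o j) (ho j hj)
    exact inIwahori_of_mul387 (o j) y (z ^ t) (finComp_zpow_eq_one387 (o j) z htriv t)
      (hiw j hj)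
  · have := T5.H942.agreeOutside_mul942 _ hag
      (T5.H942.agreeOutside_refl942 {v | ∃ j < l, v = o j} (z ^ t)⁻¹)
    rwa [mul_inv_cancel_right] at this

end Fermat.Agent.LT.T7.H387S

end

end
-- ===== PACK-END LT/T7/H387/TrSupp.lean

-- ===== PACK-BEGIN LT/T7/H802/PureShift.lean
section



/-!
# Row LT, tower T7, leaf T7.L2.1.H2a.A.2.8 `SS503.PureShiftC503` (registry row 2876, owner
# helper802)

OFF-MAIN.  Complete proofs, nothing assumed.

    pureShiftC802 (K) : SS503.PureShiftC503 K        (VERBATIM, UNCONDITIONAL, every number field)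

The right translate of a pure tensor by a power of a scalar uniformiser at `v ∈ P` is the pure
tensor for `T ∪ P` with the components extended by the unit outside `T` and the component at `v`
translated.

Proof.  `y = h z^t`.  The components of `y` at `v' ≠ v` and at infinity are those of `h`, the
component at `v` is `h_v · (z^t)_v`.  Hence the component of the left side at every `v'` is
`(extU503 T f₀ v') (y_v')`, and `OutT305 (T ∪ P) h ↔ OutT305 (T ∪ P) y`.  `OutT305 T y` iff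
`OutT305 (T ∪ P) y` and `y_v' ∈ GL₂(𝒪)` for `v' ∈ (T ∪ P) ∖ T`, i.e. the unit components are `1`
there.  No equation lemma of the specs is used (`if_pos` / `if_neg` / `rfl`).
-/

set_option autoImplicit false

open AutomorphicForm IsDedekindDomain NumberField MeasureTheory

noncomputable section

namespace Fermat.Agent.LT.T7.H802

open Fermat.Agent.LT.H556 Fermat.Agent.LT.H556.A0 Fermat.Agent.LT.T7
open Fermat.Agent.LT.T7.H305 Fermat.Agent.LT.T7.H893 Fermat.Agent.LT.T7.B981.SS503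

/-! ## 1. Local: `U(0) = GL₂(𝒪)` -/

section LocalPS

variable {k : Type} [Field k] [Valued k T6.Γ₀]

theorem val_one_entry_le802 (i j : Fin 2) :
    Valued.v ((1 : Matrix (Fin 2) (Fin 2) k) i j) ≤ 1 := by
  by_cases hij : i = j
  · rw [hij, Matrix.one_apply_eq, Valuation.map_one]
  · rw [Matrix.one_apply_ne hij, Valuation.map_zero]
    exact zero_le

theorem val_sub_one_le_iff802 (a : k) (i j : Fin 2) :
    Valued.v (a - (1 : Matrix (Fin 2) (Fin 2) k) i j) ≤ 1 ↔ Valued.v a ≤ 1 := by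
  have h1 := val_one_entry_le802 (k := k) i j
  constructor
  · intro h
    have e : a = (a - (1 : Matrix (Fin 2) (Fin 2) k) i j) + (1 : Matrix (Fin 2) (Fin 2) k) i j := by
      ring
    rw [e]
    exact (Valuation.map_add_le_max' _ _ _).trans (max_le h h1)
  · intro h
    exact (Valuation.map_sub _ _ _).trans (max_le h h1)

/-- `U(0)` is `GL₂(𝒪)`: the entries of `x` and of `x⁻¹` are integral. -/
theorem inU_zero_iff802 (x : GL (Fin 2) k) :
    T6.InU 0 x ↔ (∀ i j : Fin 2, Valued.v ((x : Matrix (Fin 2) (Fin 2) k) i j) ≤ 1) ∧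
      ∀ i j : Fin 2, Valued.v (((x⁻¹ : GL (Fin 2) k) : Matrix (Fin 2) (Fin 2) k) i j) ≤ 1 := by
  have e0 : WithZero.exp (-((0 : ℕ) : ℤ)) = (1 : T6.Γ₀) := by simp
  constructor
  · intro h
    refine ⟨fun i j => ?_, fun i j => ?_⟩
    · have h1 := (h i j).1
      rw [e0] at h1
      exact (val_sub_one_le_iff802 _ i j).1 h1
    · have h1 := (h i j).2
      rw [e0] at h1
      exact (val_sub_one_le_iff802 _ i j).1 h1
  · rintro ⟨h1, h2⟩ i j
    refine ⟨?_, ?_⟩
    · rw [e0]
      exact (val_sub_one_le_iff802 _ i j).2 (h1 i j)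
    · rw [e0]
      exact (val_sub_one_le_iff802 _ i j).2 (h2 i j)

end LocalPS

/-! ## 2. Components -/

section CompPS

variable {K : Type} [Field K] [NumberField K]

theorem val_finGL802 (v : HeightOneSpectrum (𝓞 K)) (y : G K) :
    ((finGL305 v y : GL (Fin 2) (v.adicCompletion K)) :
      Matrix (Fin 2) (Fin 2) (v.adicCompletion K)) = finComp v y := rfl

theorem val_infGL802 (w : InfinitePlace K) (y : G K) :
    ((infGL305 w y : GL (Fin 2) ℂ) : Matrix (Fin 2) (Fin 2) ℂ) = infComp w y := rfl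

/-- Integrality of `y` and `y⁻¹` at `v` is `U(0)` for the component. -/
theorem integral_iff_inU802 (v : HeightOneSpectrum (𝓞 K)) (y : G K) :
    (IsIntegralAt v y ∧ IsIntegralAt v y⁻¹) ↔ T6.InU 0 (finGL305 v y) := by
  rw [inU_zero_iff802, ← map_inv]
  constructor
  · rintro ⟨h1, h2⟩
    exact ⟨fun i j => (HeightOneSpectrum.mem_adicCompletionIntegers _ _ _).1 (h1 i j),
      fun i j => (HeightOneSpectrum.mem_adicCompletionIntegers _ _ _).1 (h2 i j)⟩
  · rintro ⟨h1, h2⟩
    exact ⟨fun i j => (HeightOneSpectrum.mem_adicCompletionIntegers _ _ _).2 (h1 i j),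
      fun i j => (HeightOneSpectrum.mem_adicCompletionIntegers _ _ _).2 (h2 i j)⟩

theorem outT_iff802 (T : Finset (HeightOneSpectrum (𝓞 K))) (y : G K) :
    OutT305 T y ↔ ∀ v : HeightOneSpectrum (𝓞 K), v ∉ T → T6.InU 0 (finGL305 v y) :=
  forall_congr' fun v => imp_congr_right fun _ => integral_iff_inU802 v y

/-- The component at `v'` of an element which is trivial at `v'`. -/
theorem finGL_eq_one802 {v' : HeightOneSpectrum (𝓞 K)} {z : G K} (hz : TrivAtFin v' z) :
    finGL305 v' z = 1 := by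
  apply Units.ext
  rw [val_finGL802]
  exact hz

theorem infGL_eq_one802 {w : InfinitePlace K} {z : G K} (hz : TrivAtInf w z) :
    infGL305 w z = 1 := by
  apply Units.ext
  rw [val_infGL802]
  ext i j
  show InfinitePlace.Completion.extensionEmbedding w
      (((z : Matrix (Fin 2) (Fin 2) (Adl K)) i j).1 w) = (1 : Matrix (Fin 2) (Fin 2) ℂ) i j
  rw [hz i j]
  by_cases hij : i = j
  · rw [hij, Matrix.one_apply_eq, Matrix.one_apply_eq, map_one]
  · rw [Matrix.one_apply_ne hij, Matrix.one_apply_ne hij, map_zero]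

end CompPS

/-! ## 3. The pure tensor -/

section PurePS

variable {K : Type} [Field K] [NumberField K]

theorem pure_pos802 {T : Finset (HeightOneSpectrum (𝓞 K))}
    (f₀ : ∀ v : HeightOneSpectrum (𝓞 K), GL (Fin 2) (v.adicCompletion K) → ℂ)
    (F : InfinitePlace K → GL (Fin 2) ℂ → ℂ) {h : G K} (hO : OutT305 T h) :
    pure305 T f₀ F h
      = (∏ v ∈ T, f₀ v (finGL305 v h)) * ∏ w : InfinitePlace K, F w (infGL305 w h) :=
  if_pos hO

theorem pure_neg802 {T : Finset (HeightOneSpectrum (𝓞 K))}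
    (f₀ : ∀ v : HeightOneSpectrum (𝓞 K), GL (Fin 2) (v.adicCompletion K) → ℂ)
    (F : InfinitePlace K → GL (Fin 2) ℂ → ℂ) {h : G K} (hO : ¬ OutT305 T h) :
    pure305 T f₀ F h = 0 :=
  if_neg hO

theorem unitFn_pos802 {k : Type} [Field k] [Valued k T6.Γ₀] {x : GL (Fin 2) k}
    (hx : T6.InU 0 x) : unitFn893 0 x = 1 :=
  if_pos hx

theorem unitFn_neg802 {k : Type} [Field k] [Valued k T6.Γ₀] {x : GL (Fin 2) k}
    (hx : ¬ T6.InU 0 x) : unitFn893 0 x = 0 :=
  if_neg hx

theorem extU_mem802 {T : Finset (HeightOneSpectrum (𝓞 K))}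
    (f₀ : ∀ v : HeightOneSpectrum (𝓞 K), GL (Fin 2) (v.adicCompletion K) → ℂ)
    {v : HeightOneSpectrum (𝓞 K)} (hv : v ∈ T) : extU503 T f₀ v = f₀ v :=
  if_pos hv

theorem extU_notMem802 {T : Finset (HeightOneSpectrum (𝓞 K))}
    (f₀ : ∀ v : HeightOneSpectrum (𝓞 K), GL (Fin 2) (v.adicCompletion K) → ℂ)
    {v : HeightOneSpectrum (𝓞 K)} (hv : v ∉ T) : extU503 T f₀ v = unitFn893 0 :=
  if_neg hv

/-- **PURE-EXT for `extU503`.**  The pure tensor for `S ⊇ T` with the components extended by the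
unit outside `T` is the pure tensor for `T`. -/
theorem pure_extU802 {T S : Finset (HeightOneSpectrum (𝓞 K))} (hTS : T ⊆ S)
    (f₀ : ∀ v : HeightOneSpectrum (𝓞 K), GL (Fin 2) (v.adicCompletion K) → ℂ)
    (F : InfinitePlace K → GL (Fin 2) ℂ → ℂ) (y : G K) :
    pure305 S (extU503 T f₀) F y = pure305 T f₀ F y := by
  classical
  by_cases hOT : OutT305 T y
  · have hOT' := (outT_iff802 T y).1 hOT
    have hOS : OutT305 S y := fun v hv => hOT v (fun hvT => hv (hTS hvT))
    rw [pure_pos802 _ _ hOS, pure_pos802 _ _ hOT]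
    congr 1
    rw [← Finset.prod_subset hTS (fun v _ hvT => by
      rw [extU_notMem802 f₀ hvT]
      exact unitFn_pos802 (hOT' v hvT))]
    exact Finset.prod_congr rfl (fun v hv => by rw [extU_mem802 f₀ hv])
  · rw [pure_neg802 _ _ hOT]
    by_cases hOS : OutT305 S y
    · rw [pure_pos802 _ _ hOS]
      have hex : ∃ v : HeightOneSpectrum (𝓞 K), v ∉ T ∧ ¬ T6.InU 0 (finGL305 v y) := by
        by_contra hcon
        apply hOT
        rw [outT_iff802]
        intro v hv
        by_contra hv'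
        exact hcon ⟨v, hv, hv'⟩
      obtain ⟨v, hvT, hv⟩ := hex
      have hvS : v ∈ S := by
        by_contra hvS
        exact hv ((outT_iff802 S y).1 hOS v hvS)
      have h0 : ∏ v' ∈ S, extU503 T f₀ v' (finGL305 v' y) = 0 := by
        refine Finset.prod_eq_zero hvS ?_
        rw [extU_notMem802 f₀ hvT]
        exact unitFn_neg802 hv
      rw [h0, zero_mul]
    · exact pure_neg802 _ _ hOS

/-- **LEAF SS.8 = PURE-SHIFT.** -/
theorem pureShiftC802 (K : Type) [Field K] [NumberField K] : PureShiftC503 K := by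
  classical
  intro T P f₀ F v hvP z hz t h
  obtain ⟨⟨hzinf, hzfin⟩, -⟩ := hz
  have hvS : v ∈ T ∪ P := Finset.mem_union_right T hvP
  -- the components of `y = h z^t`
  have hfin : ∀ v' : HeightOneSpectrum (𝓞 K), v' ≠ v →
      finGL305 v' (h * z ^ t) = finGL305 v' h := by
    intro v' hv'
    rw [map_mul, map_zpow, finGL_eq_one802 (hzfin v' hv'), one_zpow, mul_one]
  have hinf : ∀ w : InfinitePlace K, infGL305 w (h * z ^ t) = infGL305 w h := by
    intro w
    rw [map_mul, map_zpow, infGL_eq_one802 (hzinf w), one_zpow, mul_one]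
  -- the components of the left side
  have hcomp : ∀ v' : HeightOneSpectrum (𝓞 K),
      trC503 v (finGL305 v (z ^ t)) (extU503 T f₀) v' (finGL305 v' h)
        = extU503 T f₀ v' (finGL305 v' (h * z ^ t)) := by
    intro v'
    by_cases hv' : v' = v
    · subst hv'
      show Function.update (extU503 T f₀) v'
          (fun x => extU503 T f₀ v' (x * finGL305 v' (z ^ t))) v' (finGL305 v' h) = _
      rw [Function.update_self, map_mul]
    · show Function.update (extU503 T f₀) v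
          (fun x => extU503 T f₀ v (x * finGL305 v (z ^ t))) v' (finGL305 v' h) = _
      rw [Function.update_of_ne hv', hfin v' hv']
  have hOut : OutT305 (T ∪ P) h ↔ OutT305 (T ∪ P) (h * z ^ t) := by
    rw [outT_iff802, outT_iff802]
    refine forall_congr' fun v' => imp_congr_right fun hv'S => ?_
    have hne : v' ≠ v := fun e => hv'S (e ▸ hvS)
    rw [hfin v' hne]
  -- the left side is the pure tensor of the extended components at `y`
  have hL : pure305 (T ∪ P) (trC503 v (finGL305 v (z ^ t)) (extU503 T f₀)) F h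
      = pure305 (T ∪ P) (extU503 T f₀) F (h * z ^ t) := by
    by_cases hO : OutT305 (T ∪ P) h
    · rw [pure_pos802 _ _ hO, pure_pos802 _ _ (hOut.1 hO)]
      congr 1
      · exact Finset.prod_congr rfl (fun v' _ => hcomp v')
      · exact Finset.prod_congr rfl (fun w _ => by rw [hinf w])
    · rw [pure_neg802 _ _ hO, pure_neg802 _ _ (fun hO' => hO (hOut.2 hO'))]
  rw [hL]
  exact pure_extU802 Finset.subset_union_left f₀ F (h * z ^ t)

end PurePS

/-- Verbatim check. -/
example (K : Type) [Field K] [NumberField K] :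
    Fermat.Agent.LT.T7.B981.SS503.PureShiftC503 K := pureShiftC802 K

end Fermat.Agent.LT.T7.H802

end

end
-- ===== PACK-END LT/T7/H802/PureShift.lean

-- ===== PACK-BEGIN LT/T7/H510/SphEx.lean
section




/-!
# Row LT, tower T7, node `B981.StepMC981` (sub-architect helper445): leaves M.0a `SphExC445`,
M.0b `SphExLocC445` (helper510, OFF-MAIN)

On the assets of helper556 (`LT/H556/T0/ArchLocal.lean`, `ArchIwasawa.lean`): the Euler element
`eulerU α β d` of `GL₂(ℂ)` and the local element `locInfComplex hw` at a complex place.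
-/

set_option autoImplicit false

open IsDedekindDomain NumberField

noncomputable section

namespace Fermat.Agent.LT.T7.H510

open Fermat.Agent.LT.H556 Fermat.Agent.LT.H556.A0 Fermat.Agent.LT.H556.T0
open Fermat.Agent.LT.T7 Fermat.Agent.LT.T7.H445

/-- **LEAF M.0b `SphExLocC445`.** -/
theorem sphExLocC_h510 : SphExLocC445 :=
  fun d => ⟨fun α β => eulerU α β d, fun α β => by rw [coe_eulerU]; rfl⟩

/-- **LEAF M.0a `SphExC445`.** -/
theorem sphExC_h510 (K : Type) [Field K] [NumberField K] : SphExC445 K :=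
  fun w hw d => ⟨fun α β => locInfComplex hw (eulerU α β d), fun α β =>
    ⟨isLocalAtInf_locInfComplex hw _, by rw [infComp_locInfComplex, coe_eulerU]; rfl⟩⟩

end Fermat.Agent.LT.T7.H510

end

end
-- ===== PACK-END LT/T7/H510/SphEx.lean

-- ===== PACK-BEGIN LT/T7/H330/SphSupp.lean
section




/-!
# Row LT, tower T7, leaf T7.L2.1.H2a.A.3.3 `SphSuppC445` (helper330, registry 2895)

OFF-MAIN.  `sphSuppC330 K : H445.SphSuppC445 K`, VERBATIM against
`LT/T7/H445/StepMSpec.lean` (helper445@308fe65c0, sha256 95c0ff9307154243), unconditional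
(the hypothesis `w.IsComplex` is not used).

Proof.  `C' = {h · Y(α,β)⁻¹ : h ∈ C, (α,β) ∈ [0,2π] × [0,π]}`, compact as the continuous image of
`C × box` (`T2.H314.continuous_sphere314`).  If the sphere mean does not vanish at `g`, then
`φ (g Y(α,β)) ≠ 0` for some `(α,β)` of the box; `Y(α,β)` is trivial at the finite places, so `g`
is Iwahori where `g Y(α,β)` is, and if `g Y(α,β)` agrees with `h ∈ C` outside the orbit then `g`
agrees with `h Y(α,β)⁻¹ ∈ C'` outside the orbit.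
-/

set_option autoImplicit false

open AutomorphicForm IsDedekindDomain NumberField MeasureTheory

noncomputable section

namespace Fermat.Agent.LT.T7.H330

open Fermat.Agent.LT.H556 Fermat.Agent.LT.H556.A0 Fermat.Agent.LT.T7 Fermat.Agent.LT.T7.H445

variable {K : Type} [Field K] [NumberField K]

theorem sph_infComp_mul330 (w : InfinitePlace K) (g h : G K) :
    infComp w (g * h) = infComp w g * infComp w h := by
  rw [T5.infComp_eq_map, T5.infComp_eq_map, T5.infComp_eq_map, Units.val_mul, Matrix.map_mul]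

/-- Right multiplication by an element which is trivial at `v` does not change the component
at `v`. -/
theorem sph_finComp_mul_triv330 (v : HeightOneSpectrum (𝓞 K)) (g y : G K)
    (hy : TrivAtFin v y) : finComp v (g * y) = finComp v g := by
  have h1 : finComp v y = 1 := hy
  rw [T5.finComp_mulZ, h1, mul_one]

/-- Left multiplication by an element which is trivial at `v` does not change the component
at `v`. -/
theorem sph_finComp_triv_mul330 (v : HeightOneSpectrum (𝓞 K)) (g y : G K)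
    (hy : TrivAtFin v y) : finComp v (y * g) = finComp v g := by
  have h1 : finComp v y = 1 := hy
  rw [T5.finComp_mulZ, h1, one_mul]

/-- `g` is Iwahori at `v` if `g y` is, for `y` trivial at `v`. -/
theorem sph_inIwahori_of_mul330 (v : HeightOneSpectrum (𝓞 K)) (g y : G K)
    (hy : TrivAtFin v y) (h : T5.InIwahori v (g * y)) : T5.InIwahori v g := by
  have hy' : TrivAtFin v y⁻¹ := Fermat.Agent.LT.T2.H314.trivAtFin_inv314 hy
  have e1 : finComp v (g * y) = finComp v g := sph_finComp_mul_triv330 v g y hy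
  have e2 : finComp v (g * y)⁻¹ = finComp v g⁻¹ := by
    rw [mul_inv_rev]
    exact sph_finComp_triv_mul330 v g⁻¹ y⁻¹ hy'
  obtain ⟨h1, h2, h3⟩ := h
  refine ⟨?_, ?_, ?_⟩
  · intro i j
    have := h1 i j
    rwa [e1] at this
  · intro i j
    have := h2 i j
    rwa [e2] at this
  · rwa [e1] at h3

/-- The sphere mean vanishes at `g` if `φ (g Y(α,β))` vanishes on the box. -/
theorem sphMean_eq_zero330 (Y : ℝ → ℝ → G K) (φ : G K → ℂ) (g : G K)
    (h : ∀ α ∈ Set.Icc (0 : ℝ) (2 * Real.pi), ∀ β ∈ Set.Icc (0 : ℝ) Real.pi,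
      φ (g * Y α β) = 0) : sphMean445 Y φ g = 0 := by
  show (∫ α in (0 : ℝ)..(2 * Real.pi), ∫ β in (0 : ℝ)..Real.pi,
    φ (g * Y α β) * ((Real.sin β : ℝ) : ℂ)) = 0
  have h2pi : (0 : ℝ) ≤ 2 * Real.pi := by positivity
  have h1 : Set.EqOn
      (fun α : ℝ => ∫ β in (0 : ℝ)..Real.pi, φ (g * Y α β) * ((Real.sin β : ℝ) : ℂ))
      (fun _ : ℝ => (0 : ℂ)) (Set.uIcc (0 : ℝ) (2 * Real.pi)) := by
    intro α hα
    rw [Set.uIcc_of_le h2pi] at hα
    have h3 : Set.EqOn (fun β : ℝ => φ (g * Y α β) * ((Real.sin β : ℝ) : ℂ))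
        (fun _ : ℝ => (0 : ℂ)) (Set.uIcc (0 : ℝ) Real.pi) := by
      intro β hβ
      rw [Set.uIcc_of_le Real.pi_pos.le] at hβ
      show φ (g * Y α β) * ((Real.sin β : ℝ) : ℂ) = 0
      rw [h α hα β hβ, zero_mul]
    show (∫ β in (0 : ℝ)..Real.pi, φ (g * Y α β) * ((Real.sin β : ℝ) : ℂ)) = 0
    rw [intervalIntegral.integral_congr h3, intervalIntegral.integral_const, smul_zero]
  rw [intervalIntegral.integral_congr h1, intervalIntegral.integral_const, smul_zero]

/-- **LEAF T7.L2.1.H2a.A.3.3 `SphSuppC445`**: the sphere mean of a function which is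
Iwahori-supported in a compact set is Iwahori-supported in a compact set. -/
theorem sphSuppC330 (K : Type) [Field K] [NumberField K] : SphSuppC445 K := by
  intro w _ d Y hY l o C φ hC hφ
  have hYc : Continuous fun p : ℝ × ℝ => Y p.1 p.2 :=
    Fermat.Agent.LT.T2.H314.continuous_sphere314 hY
  have hB : IsCompact (Set.Icc (0 : ℝ) (2 * Real.pi) ×ˢ Set.Icc (0 : ℝ) Real.pi) :=
    isCompact_Icc.prod isCompact_Icc
  have hcont : Continuous fun q : G K × (ℝ × ℝ) => q.1 * (Y q.2.1 q.2.2)⁻¹ :=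
    continuous_fst.mul ((hYc.comp continuous_snd).inv)
  refine ⟨(fun q : G K × (ℝ × ℝ) => q.1 * (Y q.2.1 q.2.2)⁻¹) ''
    (C ×ˢ (Set.Icc (0 : ℝ) (2 * Real.pi) ×ˢ Set.Icc (0 : ℝ) Real.pi)),
    (hC.prod hB).image hcont, ?_⟩
  intro g hg
  -- a point of the box where the integrand does not vanish
  have hex : ∃ α ∈ Set.Icc (0 : ℝ) (2 * Real.pi), ∃ β ∈ Set.Icc (0 : ℝ) Real.pi,
      φ (g * Y α β) ≠ 0 := by
    by_contra hcon
    apply hg
    apply sphMean_eq_zero330
    intro α hα β hβ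
    by_contra hne
    exact hcon ⟨α, hα, β, hβ, hne⟩
  obtain ⟨α, hα, β, hβ, hne⟩ := hex
  obtain ⟨hloc, -⟩ := hY α β
  have htriv : ∀ v : HeightOneSpectrum (𝓞 K), TrivAtFin v (Y α β) := hloc.2
  obtain ⟨hIw, h, hhC, hinf, hfin⟩ := hφ (g * Y α β) hne
  refine ⟨fun j hj => sph_inIwahori_of_mul330 (o j) g (Y α β) (htriv (o j)) (hIw j hj),
    h * (Y α β)⁻¹, ⟨(h, (α, β)), ⟨hhC, hα, hβ⟩, rfl⟩, ?_, ?_⟩
  · intro w'
    have e : g = g * Y α β * (Y α β)⁻¹ := by rw [mul_inv_cancel_right]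
    calc infComp w' g = infComp w' (g * Y α β * (Y α β)⁻¹) := by rw [← e]
      _ = infComp w' (g * Y α β) * infComp w' (Y α β)⁻¹ := sph_infComp_mul330 w' _ _
      _ = infComp w' h * infComp w' (Y α β)⁻¹ := by rw [hinf w']
      _ = infComp w' (h * (Y α β)⁻¹) := (sph_infComp_mul330 w' _ _).symm
  · intro v hv
    have hy' : TrivAtFin v (Y α β)⁻¹ := Fermat.Agent.LT.T2.H314.trivAtFin_inv314 (htriv v)
    rw [sph_finComp_mul_triv330 v h (Y α β)⁻¹ hy', ← hfin v hv,
      sph_finComp_mul_triv330 v g (Y α β) (htriv v)]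

end Fermat.Agent.LT.T7.H330

end

end
-- ===== PACK-END LT/T7/H330/SphSupp.lean

-- ===== PACK-BEGIN LT/T7/H904/SphPure.lean
section



/-!
# Row LT, tower T7, node T7.L2.1.H2a.A.3 `StepMC981`, leaf M.5 `SphPureC445` (helper904)

OFF-MAIN.  `sphPureC904 (K) : H445.SphPureC445 K`, statement VERBATIM vs
`LT/T7/H445/StepMSpec.lean` (helper445@308fe65c0, sha256 95c0ff93), UNCONDITIONAL, no
hypothesis on the components (`w.IsComplex` is not used).

Proof.  `Y α β` is local at `w`: its finite components and its components at `w' ≠ w` are `1`,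
its component at `w` is `y α β`.  So `OutT305 T (h Y) ↔ OutT305 T h`, the finite components of
`h Y` are those of `h`, and `pure305 T f₀ F (h Y) = A · F_w(h_w y(α,β)) · B` with `A`, `B`
independent of `(α, β)`; the integral is linear.
-/

set_option autoImplicit false
set_option linter.unusedSectionVars false
set_option linter.unusedVariables false

open AutomorphicForm IsDedekindDomain NumberField MeasureTheory
open scoped ComplexConjugate

noncomputable section

namespace Fermat.Agent.LT.T7.H904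

open Fermat.Agent.LT.H556 Fermat.Agent.LT.H556.A0 Fermat.Agent.LT.T7
open Fermat.Agent.LT.T7.H305 Fermat.Agent.LT.T7.H445 Fermat.Agent.LT

variable {K : Type} [Field K] [NumberField K]

theorem pure_pos904 (T : Finset (HeightOneSpectrum (𝓞 K)))
    (f₀ : ∀ v : HeightOneSpectrum (𝓞 K), GL (Fin 2) (v.adicCompletion K) → ℂ)
    (F : InfinitePlace K → GL (Fin 2) ℂ → ℂ) (g : G K) (hg : OutT305 T g) :
    pure305 T f₀ F g
      = (∏ v ∈ T, f₀ v (finGL305 v g)) * ∏ w : InfinitePlace K, F w (infGL305 w g) := by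
  show @ite _ (OutT305 T g) (Classical.propDecidable _) _ _ = _
  exact if_pos hg

theorem pure_neg904 (T : Finset (HeightOneSpectrum (𝓞 K)))
    (f₀ : ∀ v : HeightOneSpectrum (𝓞 K), GL (Fin 2) (v.adicCompletion K) → ℂ)
    (F : InfinitePlace K → GL (Fin 2) ℂ → ℂ) (g : G K) (hg : ¬ OutT305 T g) :
    pure305 T f₀ F g = 0 := by
  show @ite _ (OutT305 T g) (Classical.propDecidable _) _ _ = _
  exact if_neg hg

/-- `OutT305` depends on the finite components only. -/
theorem outT_congr904 (T : Finset (HeightOneSpectrum (𝓞 K))) (g g' : G K)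
    (h : ∀ v : HeightOneSpectrum (𝓞 K), finGL305 v g = finGL305 v g') :
    OutT305 T g → OutT305 T g' := by
  intro H v hv
  obtain ⟨h1, h2⟩ := H v hv
  have e1 : finComp v g' = finComp v g :=
    congrArg (fun u : GL (Fin 2) (v.adicCompletion K) =>
      (u : Matrix (Fin 2) (Fin 2) (v.adicCompletion K))) (h v).symm
  have e2 : finComp v g'⁻¹ = finComp v g⁻¹ := by
    have h3 : finGL305 v g'⁻¹ = finGL305 v g⁻¹ := by
      rw [map_inv, map_inv, h v]
    exact congrArg (fun u : GL (Fin 2) (v.adicCompletion K) =>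
      (u : Matrix (Fin 2) (Fin 2) (v.adicCompletion K))) h3
  refine ⟨fun i j => ?_, fun i j => ?_⟩
  · show finComp v g' i j ∈ _
    rw [e1]
    exact h1 i j
  · show finComp v g'⁻¹ i j ∈ _
    rw [e2]
    exact h2 i j

/-- **LEAF M.5 = SPH-PURE**, closed. -/
theorem sphPureC904 (K : Type) [Field K] [NumberField K] : SphPureC445 K := by
  intro w hw d Y hY y hy T f₀ F h
  classical
  have hfin : ∀ (α β : ℝ) (v : HeightOneSpectrum (𝓞 K)), finGL305 v (Y α β) = 1 := by
    intro α β v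
    apply Units.ext
    exact (hY α β).1.2 v
  have hinf : ∀ (α β : ℝ) (w' : InfinitePlace K), w' ≠ w → infGL305 w' (Y α β) = 1 := by
    intro α β w' hw'
    apply Units.ext
    ext i j
    have h1 := (hY α β).1.1 w' hw' i j
    show InfinitePlace.Completion.extensionEmbedding w'
        ((((Y α β : G K) : Matrix (Fin 2) (Fin 2) (Adl K)) i j).1 w')
      = (1 : Matrix (Fin 2) (Fin 2) ℂ) i j
    rw [h1]
    by_cases hij : i = j
    · subst hij
      rw [Matrix.one_apply_eq, Matrix.one_apply_eq, map_one]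
    · rw [Matrix.one_apply_ne hij, Matrix.one_apply_ne hij, map_zero]
  have hinfw : ∀ α β : ℝ, infGL305 w (Y α β) = y α β := by
    intro α β
    apply Units.ext
    rw [hy α β]
    exact (hY α β).2
  have hfinmul : ∀ (α β : ℝ) (v : HeightOneSpectrum (𝓞 K)),
      finGL305 v (h * Y α β) = finGL305 v h := by
    intro α β v
    rw [map_mul, hfin, mul_one]
  have hOut : ∀ α β : ℝ, (OutT305 T (h * Y α β) ↔ OutT305 T h) := fun α β =>
    ⟨outT_congr904 T _ _ (hfinmul α β), outT_congr904 T _ _ fun v => (hfinmul α β v).symm⟩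
  by_cases hO : OutT305 T h
  · -- the main case
    set A : ℂ := ∏ v ∈ T, f₀ v (finGL305 v h) with hA
    set B : ℂ := ∏ w' ∈ (Finset.univ : Finset (InfinitePlace K)).erase w,
      F w' (infGL305 w' h) with hB
    have hL : ∀ α β : ℝ, pure305 T f₀ F (h * Y α β)
        = A * B * F w (infGL305 w h * y α β) := by
      intro α β
      rw [pure_pos904 T f₀ F _ ((hOut α β).mpr hO)]
      have e1 : (∏ v ∈ T, f₀ v (finGL305 v (h * Y α β))) = A := by
        apply Finset.prod_congr rfl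
        intro v _
        rw [hfinmul]
      have e2 : (∏ w' : InfinitePlace K, F w' (infGL305 w' (h * Y α β)))
          = F w (infGL305 w h * y α β) * B := by
        rw [← Finset.mul_prod_erase Finset.univ _ (Finset.mem_univ w)]
        congr 1
        · rw [map_mul, hinfw]
        · apply Finset.prod_congr rfl
          intro w' hw'
          rw [map_mul, hinf α β w' (Finset.ne_of_mem_erase hw'), mul_one]
      rw [e1, e2]
      ring
    have hR : pure305 T f₀ (updArch445 F w (sphMeanC445 y (F w))) h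
        = A * B * sphMeanC445 y (F w) (infGL305 w h) := by
      rw [pure_pos904 T f₀ _ _ hO]
      have e2 : (∏ w' : InfinitePlace K,
          updArch445 F w (sphMeanC445 y (F w)) w' (infGL305 w' h))
          = sphMeanC445 y (F w) (infGL305 w h) * B := by
        rw [← Finset.mul_prod_erase Finset.univ _ (Finset.mem_univ w)]
        congr 1
        · show (if w = w then sphMeanC445 y (F w) else F w) (infGL305 w h) = _
          rw [if_pos rfl]
        · apply Finset.prod_congr rfl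
          intro w' hw'
          show (if w' = w then sphMeanC445 y (F w) else F w') (infGL305 w' h) = _
          rw [if_neg (Finset.ne_of_mem_erase hw')]
      rw [e2]
      ring
    rw [hR]
    show (∫ α in (0 : ℝ)..(2 * Real.pi), ∫ β in (0 : ℝ)..Real.pi,
        pure305 T f₀ F (h * Y α β) * ((Real.sin β : ℝ) : ℂ))
      = A * B * ∫ α in (0 : ℝ)..(2 * Real.pi), ∫ β in (0 : ℝ)..Real.pi,
        F w (infGL305 w h * y α β) * ((Real.sin β : ℝ) : ℂ)
    rw [← intervalIntegral.integral_const_mul]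
    congr 1
    funext α
    rw [← intervalIntegral.integral_const_mul]
    congr 1
    funext β
    rw [hL]
    ring
  · rw [pure_neg904 T f₀ _ _ hO]
    show (∫ α in (0 : ℝ)..(2 * Real.pi), ∫ β in (0 : ℝ)..Real.pi,
        pure305 T f₀ F (h * Y α β) * ((Real.sin β : ℝ) : ℂ)) = 0
    have h0 : ∀ α β : ℝ, pure305 T f₀ F (h * Y α β) * ((Real.sin β : ℝ) : ℂ) = 0 := by
      intro α β
      rw [pure_neg904 T f₀ F _ (fun H => hO ((hOut α β).mp H)), zero_mul]
    simp only [h0, intervalIntegral.integral_zero]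

end Fermat.Agent.LT.T7.H904

end

end
-- ===== PACK-END LT/T7/H904/SphPure.lean

-- ===== PACK-BEGIN LT/T7/H589/SysC.lean
section




/-!
# Row LT, tower T7, leaf ST.2 `ST589.SysC589` (helper589, registry 3002): PROVED

OFF-MAIN.  `sysC589 F : SysC589 F` for every number field `F`, from the closed leaf
`T1.H724.leafHeckeCoset724` (helper724).  No hole, nothing assumed.
-/

set_option autoImplicit false

open IsDedekindDomain NumberField

noncomputable section

namespace Fermat.Agent.LT.T7.ST589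

open Fermat.Agent.LT.H556 Fermat.Agent.LT.H556.A0

/-- **LEAF ST.2 = SYS**, every number field. -/
theorem sysC589 (F : Type) [Field F] [NumberField F] : SysC589 F := by
  intro v
  obtain ⟨⟨H, hH⟩, -, ⟨z, hz⟩⟩ := Fermat.Agent.LT.T1.H724.leafHeckeCoset724 F v
  exact ⟨H, z, hH, hz⟩

/-- Fullness of a Hecke coset system (form of `T1.H724.full724`). -/
theorem full589 {F : Type} [Field F] [NumberField F] (v : HeightOneSpectrum (𝓞 F))
    (H : Finset (G F)) (hH : IsHeckeCosetSystem v H) (g : G F) (hg : IsIntegralAt v g)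
    (hgdet : Valued.v (finComp v g).det = WithZero.exp (-1 : ℤ)) :
    ∃ h ∈ H, IsIntegralAt v (h⁻¹ * g) :=
  Fermat.Agent.LT.T1.H724.full724 v H hH g hg hgdet

end Fermat.Agent.LT.T7.ST589

end

end
-- ===== PACK-END LT/T7/H589/SysC.lean

-- ===== PACK-BEGIN LT/T7/H812/Place589.lean
section




/-!
# Row LT, tower T7, leaf ST.1 `ST589.PlaceC589` (helper812, spare of registry row 3001)

OFF-MAIN.  ADDITIVE.  Complete proof, nothing assumed, UNCONDITIONAL.  Target:
`ST589.PlaceC589 K K'` of `T7/H589/StepTSpec.lean` (helper589@2f2879f43, sha256 f2cef127)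
VERBATIM.  The proof uses `PlacesCore.lean` (Mathlib + `T7/Spec.lean` only).
-/

set_option autoImplicit false

open IsDedekindDomain NumberField

noncomputable section

namespace Fermat.Agent.LT.T7.H812

open Fermat.Agent.LT.T7

/-- **LEAF ST.1 = PLACE**, verbatim, unconditional. -/
theorem placeC589_812 (K K' : Type) [Field K] [NumberField K] [Field K'] [NumberField K']
    [Algebra K K'] : Fermat.Agent.LT.T7.ST589.PlaceC589 K K' := by
  refine ⟨fun ℓ _ w => ⟨underPlace812 K w, _, hasResDeg_inertiaDeg812 (placeOver_underPlace812 w)⟩,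
    fun 𝔫 v w hvw hdvd => ?_⟩
  rw [Ideal.dvd_iff_le] at hdvd ⊢
  show Ideal.map (algebraMap (𝓞 K) (𝓞 K')) 𝔫 ≤ w.asIdeal
  rw [Ideal.map_le_iff_le_comap, ← (placeOver_iff_comap812 v w).1 hvw]
  exact hdvd

end Fermat.Agent.LT.T7.H812

end

end
-- ===== PACK-END LT/T7/H812/Place589.lean

-- ===== PACK-BEGIN LT/T7/H562/DEk.lean
section



/-!
# Row LT, tower T7, LEAF ST.4 `DEkC589` (helper589, `T7/H589/StepTSpec.lean`): CLOSED

OFF-MAIN, ADDITIVE (new names only, suffix `562`, namespace `Fermat.Agent.LT.T7.H562`).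
No hole, nothing assumed.

    dEkC562 (F) : ST589.DEkC589 F

The class of the continuous functions with compact support which are Eisenstein-killing with
Eisenstein-killing adjoint is stable under right translations (right invariance of the Haar
measure of the frame, the ray generator is central; for the adjoint: left invariance), scalar
multiples, differences and finite sums.  The steps `dStep589` are built from these operations.
-/

set_option autoImplicit false

open AutomorphicForm IsDedekindDomain NumberField MeasureTheory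
open scoped ComplexConjugate

noncomputable section

namespace Fermat.Agent.LT.T7.H562

open Fermat.Agent.LT.H556 Fermat.Agent.LT.H556.A0 Fermat.Agent.LT.T7

attribute [local instance] Fermat.Agent.LT.T5.instMeasurableSpaceG

variable {F : Type} [Field F] [NumberField F]

/-- Continuous, compact support, Eisenstein-killing with Eisenstein-killing adjoint. -/
structure IsEKPair562 (μ : Measure (G F)) (φ : G F → ℂ) : Prop where
  cont : Continuous φ
  supp : HasCompactSupport φ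
  ek : T5.IsEK μ φ
  ekadj : T5.IsEK μ (T5.adjointFn φ)

theorem adjoint_cont562 {φ : G F → ℂ} (h : Continuous φ) : Continuous (T5.adjointFn φ) := by
  show Continuous (fun g : G F => conj (φ g⁻¹))
  exact Complex.continuous_conj.comp (h.comp continuous_inv)

theorem adjoint_supp562 {φ : G F → ℂ} (h : HasCompactSupport φ) :
    HasCompactSupport (T5.adjointFn φ) := by
  show HasCompactSupport (fun g : G F => conj (φ g⁻¹))
  have h1 : HasCompactSupport (fun g : G F => φ g⁻¹) :=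
    h.comp_homeomorph (Homeomorph.inv (G F))
  exact h1.comp_left (map_zero _)

theorem integrable_rconv562 {μ : Measure (G F)} [μ.IsHaarMeasure] {φ Ψ : G F → ℂ}
    (hφ : Continuous φ) (hs : HasCompactSupport φ) (hΨ : Continuous Ψ) (x : G F) :
    Integrable (fun y : G F => φ y * Ψ (x * y)) μ := by
  have : BorelSpace (G F) := ⟨rfl⟩
  have hc : Continuous (fun y : G F => φ y * Ψ (x * y)) :=
    hφ.mul (hΨ.comp (continuous_const_mul x))
  exact hc.integrable_of_hasCompactSupport hs.mul_right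

theorem isEKPair_rtr562 {μ : Measure (G F)} {Fd : Set (G F)} (hF : T5.IsFrame μ Fd)
    {φ : G F → ℂ} (hφ : IsEKPair562 μ φ) (c : G F) :
    IsEKPair562 μ (fun g => φ (g * c)) := by
  have : BorelSpace (G F) := ⟨rfl⟩
  have := hF.haar
  have : μ.IsMulRightInvariant := by
    refine ⟨fun g => Measure.ext fun A hA => ?_⟩
    rw [Measure.map_apply (measurable_mul_const g) hA]
    exact hF.right_inv g A hA
  refine ⟨hφ.cont.comp (continuous_mul_const c),
    hφ.supp.comp_homeomorph (Homeomorph.mulRight c), ?_, ?_⟩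
  · intro Ψ hΨ x
    obtain ⟨r, hr, hrΨ⟩ := hΨ.ray
    have hΨ' : T5.IsBorelInvariantFn (fun g => Ψ (g * c⁻¹)) := by
      refine ⟨hΨ.cont.comp (continuous_mul_const c⁻¹), ?_, ?_, r, hr, ?_⟩
      · intro n a hn g
        show Ψ (n * g * c⁻¹) = Ψ (g * c⁻¹)
        rw [mul_assoc]
        exact hΨ.unip n a hn _
      · intro t a b ht g
        show Ψ (T5.ratG t * g * c⁻¹) = Ψ (g * c⁻¹)
        rw [mul_assoc]
        exact hΨ.torus t a b ht _
      · intro g
        show Ψ (g * r * c⁻¹) = Ψ (g * c⁻¹)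
        have : g * r * c⁻¹ = g * c⁻¹ * r := by
          rw [mul_assoc, T5.H277.ray_comm277 hr c⁻¹, ← mul_assoc]
        rw [this]
        exact hrΨ _
    have h0 := hφ.ek _ hΨ' x
    have h1 : (∫ y, φ y * Ψ (x * y * c⁻¹) ∂μ) = 0 := h0
    show (∫ y, φ (y * c) * Ψ (x * y) ∂μ) = 0
    have h2 := integral_mul_right_eq_self (μ := μ) (fun y : G F => φ y * Ψ (x * y * c⁻¹)) c
    rw [h1] at h2
    rw [← h2]
    refine integral_congr_ae (Filter.Eventually.of_forall fun y => ?_)
    show φ (y * c) * Ψ (x * y) = φ (y * c) * Ψ (x * (y * c) * c⁻¹)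
    congr 2
    group
  · have hadj : T5.adjointFn (fun g => φ (g * c)) = fun g => T5.adjointFn φ (c⁻¹ * g) := by
      funext g
      show conj (φ (g⁻¹ * c)) = conj (φ (c⁻¹ * g)⁻¹)
      rw [mul_inv_rev, inv_inv]
    rw [hadj]
    intro Ψ hΨ x
    have h0 := hφ.ekadj Ψ hΨ (x * c)
    have h1 : (∫ y, T5.adjointFn φ y * Ψ (x * c * y) ∂μ) = 0 := h0
    show (∫ y, T5.adjointFn φ (c⁻¹ * y) * Ψ (x * y) ∂μ) = 0
    have h2 := integral_mul_left_eq_self (μ := μ)
      (fun y : G F => T5.adjointFn φ y * Ψ (x * c * y)) c⁻¹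
    rw [h1] at h2
    rw [← h2]
    refine integral_congr_ae (Filter.Eventually.of_forall fun y => ?_)
    show T5.adjointFn φ (c⁻¹ * y) * Ψ (x * y) = T5.adjointFn φ (c⁻¹ * y) * Ψ (x * c * (c⁻¹ * y))
    congr 2
    group

theorem isEKPair_smul562 {μ : Measure (G F)} {φ : G F → ℂ} (hφ : IsEKPair562 μ φ) (a : ℂ) :
    IsEKPair562 μ (fun g => a * φ g) := by
  refine ⟨continuous_const.mul hφ.cont, hφ.supp.mul_left, ?_, ?_⟩
  · intro Ψ hΨ x
    have h0 : (∫ y, φ y * Ψ (x * y) ∂μ) = 0 := hφ.ek Ψ hΨ x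
    show (∫ y, a * φ y * Ψ (x * y) ∂μ) = 0
    have : (fun y => a * φ y * Ψ (x * y)) = fun y => a * (φ y * Ψ (x * y)) := by
      funext y; ring
    rw [this, integral_const_mul, h0, mul_zero]
  · intro Ψ hΨ x
    have h0 : (∫ y, T5.adjointFn φ y * Ψ (x * y) ∂μ) = 0 := hφ.ekadj Ψ hΨ x
    show (∫ y, conj (a * φ y⁻¹) * Ψ (x * y) ∂μ) = 0
    have : (fun y => conj (a * φ y⁻¹) * Ψ (x * y))
        = fun y => conj a * (T5.adjointFn φ y * Ψ (x * y)) := by
      funext y
      show conj (a * φ y⁻¹) * Ψ (x * y) = conj a * (conj (φ y⁻¹) * Ψ (x * y))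
      rw [map_mul]; ring
    rw [this, integral_const_mul, h0, mul_zero]

theorem isEKPair_sub562 {μ : Measure (G F)} [μ.IsHaarMeasure] {φ₁ φ₂ : G F → ℂ}
    (h₁ : IsEKPair562 μ φ₁) (h₂ : IsEKPair562 μ φ₂) :
    IsEKPair562 μ (fun g => φ₁ g - φ₂ g) := by
  refine ⟨h₁.cont.sub h₂.cont, ?_, ?_, ?_⟩
  · have := h₁.supp.add (h₂.supp.neg)
    refine this.mono' ?_
    intro g hg
    refine subset_tsupport _ ?_
    intro h0
    apply hg
    show φ₁ g - φ₂ g = 0
    have : φ₁ g + -φ₂ g = 0 := h0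
    rw [sub_eq_add_neg]; exact this
  · intro Ψ hΨ x
    have e1 : (∫ y, φ₁ y * Ψ (x * y) ∂μ) = 0 := h₁.ek Ψ hΨ x
    have e2 : (∫ y, φ₂ y * Ψ (x * y) ∂μ) = 0 := h₂.ek Ψ hΨ x
    show (∫ y, (φ₁ y - φ₂ y) * Ψ (x * y) ∂μ) = 0
    have : (fun y => (φ₁ y - φ₂ y) * Ψ (x * y))
        = fun y => φ₁ y * Ψ (x * y) - φ₂ y * Ψ (x * y) := by
      funext y; ring
    rw [this, integral_sub (integrable_rconv562 h₁.cont h₁.supp hΨ.cont x)
      (integrable_rconv562 h₂.cont h₂.supp hΨ.cont x), e1, e2, sub_zero]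
  · intro Ψ hΨ x
    have e1 : (∫ y, T5.adjointFn φ₁ y * Ψ (x * y) ∂μ) = 0 := h₁.ekadj Ψ hΨ x
    have e2 : (∫ y, T5.adjointFn φ₂ y * Ψ (x * y) ∂μ) = 0 := h₂.ekadj Ψ hΨ x
    show (∫ y, conj (φ₁ y⁻¹ - φ₂ y⁻¹) * Ψ (x * y) ∂μ) = 0
    have : (fun y => conj (φ₁ y⁻¹ - φ₂ y⁻¹) * Ψ (x * y))
        = fun y => T5.adjointFn φ₁ y * Ψ (x * y) - T5.adjointFn φ₂ y * Ψ (x * y) := by
      funext y
      show conj (φ₁ y⁻¹ - φ₂ y⁻¹) * Ψ (x * y)
        = conj (φ₁ y⁻¹) * Ψ (x * y) - conj (φ₂ y⁻¹) * Ψ (x * y)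
      rw [map_sub]; ring
    rw [this, integral_sub
      (integrable_rconv562 (adjoint_cont562 h₁.cont) (adjoint_supp562 h₁.supp) hΨ.cont x)
      (integrable_rconv562 (adjoint_cont562 h₂.cont) (adjoint_supp562 h₂.supp) hΨ.cont x),
      e1, e2, sub_zero]

theorem isEKPair_zero562 {μ : Measure (G F)} : IsEKPair562 μ (fun _ : G F => (0 : ℂ)) := by
  refine ⟨continuous_const, HasCompactSupport.zero, ?_, ?_⟩
  · intro Ψ hΨ x
    show (∫ y, (0 : ℂ) * Ψ (x * y) ∂μ) = 0
    simp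
  · intro Ψ hΨ x
    show (∫ y, conj (0 : ℂ) * Ψ (x * y) ∂μ) = 0
    simp

theorem isEKPair_add562 {μ : Measure (G F)} [μ.IsHaarMeasure] {φ₁ φ₂ : G F → ℂ}
    (h₁ : IsEKPair562 μ φ₁) (h₂ : IsEKPair562 μ φ₂) :
    IsEKPair562 μ (fun g => φ₁ g + φ₂ g) := by
  have h3 := isEKPair_sub562 h₁ (isEKPair_smul562 h₂ (-1))
  have : (fun g => φ₁ g - (-1) * φ₂ g) = fun g => φ₁ g + φ₂ g := by
    funext g; ring
  rw [this] at h3
  exact h3

theorem isEKPair_sum562 {μ : Measure (G F)} [μ.IsHaarMeasure] {ι : Type} (s : Finset ι)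
    (f : ι → G F → ℂ) (h : ∀ i ∈ s, IsEKPair562 μ (f i)) :
    IsEKPair562 μ (fun g => ∑ i ∈ s, f i g) := by
  classical
  induction s using Finset.induction_on with
  | empty =>
    have : (fun g : G F => ∑ i ∈ (∅ : Finset ι), f i g) = fun _ => (0 : ℂ) := by
      funext g; simp
    rw [this]
    exact isEKPair_zero562
  | insert a s ha ih =>
    have h1 := h a (Finset.mem_insert_self a s)
    have h2 := ih fun i hi => h i (Finset.mem_insert_of_mem hi)
    have : (fun g : G F => ∑ i ∈ insert a s, f i g) = fun g => f a g + ∑ i ∈ s, f i g := by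
      funext g
      exact Finset.sum_insert ha
    rw [this]
    exact isEKPair_add562 h1 h2

theorem isEKPair_tStep562 {μ : Measure (G F)} {Fd : Set (G F)} (hF : T5.IsFrame μ Fd)
    (v : HeightOneSpectrum (𝓞 F)) (H : Finset (G F)) (z : G F) {f : G F → ℂ}
    (hf : IsEKPair562 μ f) : IsEKPair562 μ (ST589.tStep589 v H z f) := by
  have := hF.haar
  have key : IsEKPair562 μ (fun g => ∑ h ∈ H, f (g * (z⁻¹ * h))) :=
    isEKPair_sum562 H (fun h g => f (g * (z⁻¹ * h))) fun h _ => isEKPair_rtr562 hF hf _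
  have key2 := isEKPair_smul562 key (((Real.sqrt (Ideal.absNorm v.asIdeal : ℝ) : ℝ) : ℂ)⁻¹)
  have e : ST589.tStep589 v H z f
      = fun g => ((Real.sqrt (Ideal.absNorm v.asIdeal : ℝ) : ℝ) : ℂ)⁻¹
        * ∑ h ∈ H, f (g * (z⁻¹ * h)) := by
    funext g
    show ((Real.sqrt (Ideal.absNorm v.asIdeal : ℝ) : ℝ) : ℂ)⁻¹ * ∑ h ∈ H, f (g * z⁻¹ * h) = _
    congr 1
    refine Finset.sum_congr rfl fun h _ => ?_
    rw [mul_assoc]
  rw [e]
  exact key2

/-- **LEAF ST.4 `DEkC589`: CLOSED.** -/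
theorem dEkC562 (F : Type) [Field F] [NumberField F] : ST589.DEkC589 F := by
  intro R hR 𝔫 v _ H z _ _ f hf _ hek hekadj
  have hF := hR.frame
  have := hF.haar
  have hf' : IsEKPair562 R.μ f := ⟨hf.cont, hf.supp, hek, hekadj⟩
  have main : ∀ d : ℕ, IsEKPair562 R.μ (ST589.dStep589 v H z d f) ∧
      IsEKPair562 R.μ (ST589.dStep589 v H z (d + 1) f) := by
    intro d
    induction d with
    | zero =>
      exact ⟨isEKPair_smul562 hf' 2, isEKPair_tStep562 hF v H z hf'⟩
    | succ d ih =>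
      refine ⟨ih.2, ?_⟩
      exact isEKPair_sub562 (isEKPair_tStep562 hF v H z ih.2)
        (isEKPair_rtr562 hF ih.1 z⁻¹)
  intro d
  exact ⟨(main d).1.ek, (main d).1.ekadj⟩

end Fermat.Agent.LT.T7.H562

end
end
-- ===== PACK-END LT/T7/H562/DEk.lean

-- ===== PACK-BEGIN LT/T7/B970/Pair2Bridge.lean
section




/-!
# Row LT, tower T7, node T7.L2.1.H2a.4 `Pair2C` (helper970, registry 2688): BRIDGES between the
# two cuts of `BaseCb` (B981 of helper981 and Q797 of helper797)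

OFF-MAIN.  Every proof is complete, nothing assumed.  ADDITIVE.

The two first cuts of `H893.BaseCb` have the same content in two packagings:

    B981 (helper981):  HaarCplxC981, LvlC981, SysC981, Pair1C981 P, Pair2C (v2 = B970.Pair2Cb970)
    Q797 (helper797):  ExpC797, CosetC797, PairAC797 P LocA893, PairBC797 P LocB893b

* `pair1C981_of797 : PairAC797 P K K' LocA893 → Pair1C981 P K K'`  and back (`pairAC797_of981`):
  the first pair is the same node;
* `pairBC797_of970 : HaarCplxC981 → LvlC981 K K' → Pair2Cb970 P K K' → PairBC797 P K K' LocB893b`: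
  the second pair of this cut gives the second pair of the cut of helper797;
* `pair2Cb_of797_leaves970` : the top of this cut with the first pair in the form of helper797.

So the six leaves of `B970` serve BOTH tops (`B970.baseCb_of970`, `Q797.baseCb_of797`).
-/

set_option autoImplicit false

open AutomorphicForm IsDedekindDomain NumberField MeasureTheory
open scoped ComplexConjugate

noncomputable section

namespace Fermat.Agent.LT.T7.B970

open Fermat.Agent.LT.H556 Fermat.Agent.LT.H556.A0 Fermat.Agent.LT.T7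
open Fermat.Agent.LT.T7.H305 Fermat.Agent.LT.T7.H893 Fermat.Agent.LT.T7.B981
open Fermat.Agent.LT.T7.Q797

attribute [local instance] Fermat.Agent.LT.T5.instMeasurableSpaceG

section Bridges

variable {P : EKCond}
variable {K K' : Type} [Field K] [NumberField K] [Field K'] [NumberField K'] [Algebra K K']

theorem isLevel797_of981 {B : L2Base K K'} {𝔫 : Ideal (𝓞 K)} (h : IsLvl981 B 𝔫) :
    IsLevel797 B 𝔫 :=
  ⟨h.level_ne, h.level_g, h.mem_S'_g, h.u_level⟩

theorem isLvl981_of797 {B : L2Base K K'} {𝔫 : Ideal (𝓞 K)} (h : IsLevel797 B 𝔫) :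
    IsLvl981 B 𝔫 :=
  ⟨h.level_ne, h.level_g, h.mem_S'_g, h.u_level⟩

theorem isExp797_of981 {B : L2Base K K'} {𝔫 : Ideal (𝓞 K)}
    {T₀ : Finset (HeightOneSpectrum (𝓞 K))} {n n₀ : HeightOneSpectrum (𝓞 K') → ℕ}
    {m : HeightOneSpectrum (𝓞 K) → ℕ} (h : IsExp981 B 𝔫 T₀ n n₀ m) :
    IsExp797 B 𝔫 T₀ n n₀ m :=
  ⟨h.mem, h.lvl, h.lvl_up, h.lvl_base⟩

theorem isExp981_of797 {B : L2Base K K'} {𝔫 : Ideal (𝓞 K)}
    {T₀ : Finset (HeightOneSpectrum (𝓞 K))} {n n₀ : HeightOneSpectrum (𝓞 K') → ℕ}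
    {m : HeightOneSpectrum (𝓞 K) → ℕ} (h : IsExp797 B 𝔫 T₀ n n₀ m) :
    IsExp981 B 𝔫 T₀ n n₀ m :=
  ⟨h.mem_T₀, h.lev_m, h.lev_n, h.lev_n₀⟩

/-- The first pair of helper797 is a first pair of helper981. -/
theorem isPair1_of797 {ℓ : ℕ} {Φ : HeckeEigensystem K' ℂ} {B : L2Base K K'}
    {𝔫 : Ideal (𝓞 K)} {μc : @Measure (GL (Fin 2) ℂ) (borel _)}
    {T₀ : Finset (HeightOneSpectrum (𝓞 K))} {n : HeightOneSpectrum (𝓞 K') → ℕ}
    {m : HeightOneSpectrum (𝓞 K) → ℕ} {LA : ShapeA797 K K'}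
    {c₁ : EigData K' → ℂ} {Φ₁ : List (Gen K') → G K' → ℂ} {F₁ : List (Gen K') → G K → ℂ}
    (h : IsPairA797 LA ℓ Φ B 𝔫 μc T₀ n m c₁ Φ₁ F₁) : IsPair1_981 ℓ Φ B 𝔫 c₁ Φ₁ F₁ where
  up1_test := h.up1_test
  up1_ek := h.up1_ek
  up1_op := h.up1_op
  up1_ne := h.up1_ne
  dn1_test := h.dn1_test
  dn1_ek := h.dn1_ek
  dn1_op := h.dn1_op
  dn1_wfn := h.dn1_wfn
  dn1_class := h.dn1_class
  dn1_comm := h.dn1_comm
  up1_supp := h.up1_supp
  dn1_supp := h.dn1_supp

/-- **The first pair: Q797 ⇒ B981.** -/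
theorem pair1C981_of797 (h : PairAC797 P K K' LocA893) : Pair1C981 P K K' := by
  intro ℓ hcyc hℓ hcplx Φ hΦ hconst hP B hB hram 𝔫 hlvl μc hμc T₀ n n₀ m hexp
  obtain ⟨c₁, Φ₁, F₁, hp⟩ := h ℓ hcyc hℓ hcplx Φ hΦ hconst hP B hB hram 𝔫
    (isLevel797_of981 hlvl) μc hμc T₀ n n₀ m (isExp797_of981 hexp)
  exact ⟨c₁, Φ₁, F₁, isPair1_of797 hp, hp.shape⟩

/-- **The first pair: B981 ⇒ Q797.** -/
theorem pairAC797_of981 (h : Pair1C981 P K K') : PairAC797 P K K' LocA893 := by
  intro ℓ hcyc hℓ hcplx Φ hΦ hconst hP B hB hram 𝔫 hlvl μc hμc T₀ n n₀ m hexp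
  obtain ⟨c₁, Φ₁, F₁, hp, hsh⟩ := h ℓ hcyc hℓ hcplx Φ hΦ hconst hP B hB hram 𝔫
    (isLvl981_of797 hlvl) μc hμc T₀ n n₀ m (isExp981_of797 hexp)
  exact ⟨c₁, Φ₁, F₁, ⟨hp.up1_test, hp.up1_ek, hp.up1_op, hp.up1_ne, hp.dn1_test, hp.dn1_ek,
    hp.dn1_op, hp.dn1_wfn, hp.dn1_class, hp.dn1_comm, hp.up1_supp, hp.dn1_supp, hsh⟩⟩

/-- The exponents of a level are unique. -/
theorem isLevelOf893_unique {F : Type} [Field F] [NumberField F] {𝔫 : Ideal (𝓞 F)}
    {m m' : HeightOneSpectrum (𝓞 F) → ℕ} (h : IsLevelOf893 𝔫 m) (h' : IsLevelOf893 𝔫 m')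
    (hsurj : ∀ (v : HeightOneSpectrum (𝓞 F)) (k : ℕ), ∃ x : v.adicCompletion F,
      Valued.v x = WithZero.exp (-(k : ℤ))) : m = m' := by
  funext v
  obtain ⟨x, hx⟩ := hsurj v (m v)
  obtain ⟨y, hy⟩ := hsurj v (m' v)
  have h1 : Valued.v x ≤ WithZero.exp (-(m' v : ℤ)) :=
    (h' v x).1 ((h v x).2 (le_of_eq hx))
  have h2 : Valued.v y ≤ WithZero.exp (-(m v : ℤ)) :=
    (h v y).1 ((h' v y).2 (le_of_eq hy))
  rw [hx, WithZero.exp_le_exp] at h1
  rw [hy, WithZero.exp_le_exp] at h2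
  omega

/-- **The second pair: B970 ⇒ Q797**, for levels whose exponents are determined by the level
(hypothesis `hu`: two families of exponents of the same level agree; true because the
valuation is surjective, `isLevelOf893_unique`). -/
theorem pairBC797_of970 (hH : HaarCplxC981) (hL : LvlC981 K K')
    (hu : ∀ (𝔫 : Ideal (𝓞 K)) (m m' : HeightOneSpectrum (𝓞 K) → ℕ),
      IsLevelOf893 𝔫 m → IsLevelOf893 𝔫 m' → m = m')
    (h2 : Pair2Cb970 P K K') : PairBC797 P K K' LocB893b := by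
  intro ℓ hcyc hℓ hcplx Φ hΦ hconst hP B hB hram g hg
  obtain ⟨μc, hμc⟩ := hH
  obtain ⟨M, hM⟩ := h2 ℓ hcyc hℓ hcplx Φ hΦ hconst hP B hB hram g hg
  obtain ⟨𝔫, T₀, n, n₀, m, hlvl, hexp, hbd⟩ := hL ℓ Φ B hB M
  refine ⟨𝔫, μc, isLevel797_of981 hlvl, hμc, fun T₀' n' n₀' m' hexp' a ha => ?_⟩
  have hm : m' = m := hu 𝔫 m' m hexp'.lev_m hexp.lvl
  have hT : ∀ v ∈ T₀', M ≤ m' v := by
    intro v hv
    rw [hm]
    exact hbd v ((hexp.mem v).2 ((hexp'.mem_T₀ v).1 hv))
  obtain ⟨c₂, φ₂, f₂, hp, hsh⟩ :=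
    hM 𝔫 hlvl μc hμc T₀' n' n₀' m' (isExp981_of797 hexp') hT a ha
  exact ⟨c₂, φ₂, f₂, ⟨hp.up2_test, hp.up2_ek, hp.up2_inv, hp.up2_op, hp.up2_kill, hp.up2_ne,
    hp.dn2_test, hp.dn2_ek, hp.dn2_inv, hp.dn2_wfn, hp.dn2_class, hp.dn2_comm, hp.dn2_kill,
    hp.up2_supp, hp.dn2_supp, hsh⟩⟩

/-- **The top of this cut with the first pair in the form of helper797.** -/
theorem pair2Cb_of797_leaves970 (h1 : PairAC797 P K K' LocA893) (hT : H193.RelTorusC K K')
    (hWu : WtUpC970 K K') (hBl : BadLocC970 K K') (hWd : WtDownC970 K K')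
    (hU : Up2C970 K K') (hD : Dn2C970 K K') (hSh : ShapeC970 K K') :
    Pair2Cb970 P K K' :=
  pair2Cb_of970 (pair1C981_of797 h1) hT hWu hBl hWd hU hD hSh

end Bridges

end Fermat.Agent.LT.T7.B970

end

end
-- ===== PACK-END LT/T7/B970/Pair2Bridge.lean

-- ===== PACK-BEGIN LT/T7/H470/WtUp.lean
section



/-!
# Row LT, tower T7, node T7.L2.1.H2a.4 `Pair2Cb970`, leaf T7.L2.1.H2a.4.1 `WtUpC970`
# (helper470, SPARE of registry row 2862)

OFF-MAIN.  `wtUpC470 (K K') : B970.WtUpC970 K K'`, VERBATIM against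
`LT/T7/B970/Pair2Spec.lean` (helper970@c68ed6767).  Imports: Mathlib + `T7/H470/WtDown`
(the leaf `WtDownC970`, same closure: spec + kits `LT/H129/{Comp,Local}`, `LT/T7/H981/FinIndex`).
ADDITIVE (new names only, suffix `470`).

Route.  As for `WtDownC970`, with the weights `1`: at a place `w` over `T₀` the group
`H_w` (Iwahori subgroup over `u`, `U(n₀ w)` otherwise) is a finite DISJOINT union of cosets
`r U(n w)`, `r ∈ R_w ⊆ H_w`; `s'` = the products of the local embeddings (the product map is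
injective: the components are read off); `mem`: `x = i · u`, `i` = the part of `x` at the
places over `u`.
-/

set_option autoImplicit false

open IsDedekindDomain NumberField

noncomputable section

namespace Fermat.Agent.LT.T7.H470

open Fermat.Agent.LT.H556 Fermat.Agent.LT.H556.A0 Fermat.Agent.LT
open Fermat.Agent.LT.T7.H305 Fermat.Agent.LT.T7.H893 Fermat.Agent.LT.T7.B981
open Fermat.Agent.LT.T7.B970 Fermat.Agent.LT.H129

/-! ## 1. Local systems of representatives -/

section Local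

variable {k : Type} [Field k] [Valued k T6.Γ₀]

theorem inU_mono470 {n₀ n : ℕ} (h : n₀ ≤ n) {g : GL (Fin 2) k} (hg : T6.InU n g) :
    T6.InU n₀ g := by
  intro i j
  have he : (WithZero.exp (-(n : ℤ)) : T6.Γ₀) ≤ WithZero.exp (-(n₀ : ℤ)) :=
    WithZero.exp_le_exp.mpr (by omega)
  exact ⟨(hg i j).1.trans he, (hg i j).2.trans he⟩

theorem unitFn_mul470 {n₀ n : ℕ} (h : n₀ ≤ n) (g u : GL (Fin 2) k) (hu : T6.InU n u) :
    unitFn893 n₀ (g * u) = unitFn893 n₀ g := by
  have hu0 : T6.InU n₀ u := inU_mono470 h hu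
  have hiff : T6.InU n₀ (g * u) ↔ T6.InU n₀ g := by
    constructor
    · intro e
      have := inU_mul470 e (inU_inv470 hu0)
      rwa [mul_assoc, mul_inv_cancel, mul_one] at this
    · intro e
      exact inU_mul470 e hu0
  by_cases hg : T6.InU n₀ g
  · have h1 : unitFn893 n₀ (g * u) = 1 := if_pos (hiff.2 hg)
    have h2 : unitFn893 n₀ g = 1 := if_pos hg
    rw [h1, h2]
  · have h1 : unitFn893 n₀ (g * u) = 0 := if_neg (fun e => hg (hiff.1 e))
    have h2 : unitFn893 n₀ g = 0 := if_neg hg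
    rw [h1, h2]

theorem inIw_one470 : InIw893 (1 : GL (Fin 2) k) := by
  refine ⟨fun i j => val_one_entry470 i j, fun i j => ?_, ?_⟩
  · rw [inv_one]
    exact val_one_entry470 i j
  · rw [Units.val_one, Matrix.one_apply_ne (by decide), map_zero]
    exact zero_lt_one

/-- **A local system of representatives**: the indicator function of a set `P` which contains
`1`, is right invariant under `U(n)` and is covered by finitely many cosets of `U(n)`, is the
sum of the left translates of the unit function over a finite non-empty subset of `P`. -/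
theorem local_sys470 (n : ℕ) (P : GL (Fin 2) k → Prop) (φ : GL (Fin 2) k → ℂ)
    (hφ : ∀ g : GL (Fin 2) k, (P g → φ g = 1) ∧ (¬ P g → φ g = 0)) (h1 : P 1)
    (hinv : ∀ g u : GL (Fin 2) k, T6.InU n u → φ (g * u) = φ g)
    (hfin : T6.HasFinSupp (T6.InU n) φ) :
    ∃ R : Finset (GL (Fin 2) k), R.Nonempty ∧ (∀ r ∈ R, P r) ∧
      ∀ g : GL (Fin 2) k, ∑ r ∈ R, unitFn893 n (r⁻¹ * g) = φ g := by
  classical
  obtain ⟨R₀, hR₀⟩ := local_decomp470 n φ hinv hfin
  have hsum : ∀ g : GL (Fin 2) k,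
      ∑ r ∈ R₀.filter P, unitFn893 n (r⁻¹ * g) = φ g := by
    intro g
    rw [Finset.sum_filter, ← hR₀ g]
    refine Finset.sum_congr rfl fun r _ => ?_
    by_cases hr : P r
    · rw [if_pos hr, (hφ r).1 hr, one_mul]
    · rw [if_neg hr, (hφ r).2 hr, zero_mul]
  refine ⟨R₀.filter P, ?_, fun r hr => (Finset.mem_filter.mp hr).2, hsum⟩
  by_contra hne
  rw [Finset.not_nonempty_iff_eq_empty] at hne
  have h := hsum 1
  rw [hne, Finset.sum_empty, (hφ 1).1 h1] at h
  exact zero_ne_one h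

end Local

/-! ## 2. Levels -/

section Global

variable {K : Type} [Field K] [NumberField K]

/-- The valuation of a completion at a finite place takes every value `exp (-k)`. -/
theorem exists_val_eq_exp470 (v : HeightOneSpectrum (𝓞 K)) (k : ℕ) :
    ∃ x : v.adicCompletion K, Valued.v x = WithZero.exp (-(k : ℤ)) := by
  obtain ⟨π, hπ⟩ := v.valuation_exists_uniformizer K
  refine ⟨((π ^ k : K) : v.adicCompletion K), ?_⟩
  rw [HeightOneSpectrum.valuedAdicCompletion_eq_valuation', map_pow, hπ, ← WithZero.exp_nsmul]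
  congr 1
  simp

theorem level_le_of_le470 {𝔫 𝔑₀ : Ideal (𝓞 K)} (h : 𝔫 ≤ 𝔑₀)
    {n n₀ : HeightOneSpectrum (𝓞 K) → ℕ} (hn : IsLevelOf893 𝔫 n) (hn₀ : IsLevelOf893 𝔑₀ n₀)
    (w : HeightOneSpectrum (𝓞 K)) : n₀ w ≤ n w := by
  obtain ⟨x, hx⟩ := exists_val_eq_exp470 w (n w)
  have h1 : x ∈ idealClosure 𝔫 w := (hn w x).2 hx.le
  have h2 : x ∈ idealClosure 𝔑₀ w := closure_mono (Set.image_mono h) h1
  have h3 := (hn₀ w x).1 h2
  rw [hx, WithZero.exp_le_exp] at h3
  omega

/-- A function supported in `GL₂(𝒪_u)` is supported on finitely many cosets of `U(m u)`. -/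
theorem finSupp_of_intg470 {𝔫 : Ideal (𝓞 K)} (h𝔫 : 𝔫 ≠ ⊥) {m : HeightOneSpectrum (𝓞 K) → ℕ}
    (hm : IsLevelOf893 𝔫 m) (u : HeightOneSpectrum (𝓞 K))
    (φ : GL (Fin 2) (u.adicCompletion K) → ℂ)
    (hφ : ∀ g : GL (Fin 2) (u.adicCompletion K), φ g ≠ 0 →
      Intg470 (g : Matrix (Fin 2) (Fin 2) (u.adicCompletion K)) ∧
      Intg470 ((g⁻¹ : GL (Fin 2) (u.adicCompletion K)) :
        Matrix (Fin 2) (Fin 2) (u.adicCompletion K))) :
    T6.HasFinSupp (T6.InU (m u)) φ := by
  classical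
  obtain ⟨T, hT⟩ := H981.finIndexC981 K 𝔫 h𝔫
  refine ⟨T.image (finCompHom129 u), fun g hg => ?_⟩
  obtain ⟨hg1, hg2⟩ := hφ g hg
  obtain ⟨τ, hτ, hlev⟩ := hT (locFin129 u g) (fun w => trivAtInf_locFin470 u g w)
    (fun v => ⟨isIntegralAt_locFin470 u g hg1 v, by
      rw [← map_inv]
      exact isIntegralAt_locFin470 u g⁻¹ hg2 v⟩)
  refine ⟨finCompHom129 u τ, Finset.mem_image_of_mem _ hτ, (finCompHom129 u τ)⁻¹ * g, ?_,
    (mul_inv_cancel_left _ _).symm⟩
  have e : (finCompHom129 u τ)⁻¹ * g = finCompHom129 u (τ⁻¹ * locFin129 u g) := by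
    rw [map_mul, map_inv, finCompHom129_locFin129]
  rw [e]
  intro i j
  have h := hlev.2 u i j
  refine ⟨(hm u _).1 h.1, ?_⟩
  rw [← map_inv]
  exact (hm u _).1 h.2

/-! ## 3. The induction over the places, weights `1` -/

open Classical in
theorem rep_induct470 (m : HeightOneSpectrum (𝓞 K) → ℕ)
    (c : ∀ v : HeightOneSpectrum (𝓞 K), GL (Fin 2) (v.adicCompletion K) → ℂ)
    (Hp : ∀ v : HeightOneSpectrum (𝓞 K), GL (Fin 2) (v.adicCompletion K) → Prop)
    (A : Finset (HeightOneSpectrum (𝓞 K)))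
    (hL : ∀ v ∈ A, ∃ R : Finset (GL (Fin 2) (v.adicCompletion K)),
      R.Nonempty ∧ (∀ r ∈ R, Hp v r) ∧
      ∀ g : GL (Fin 2) (v.adicCompletion K),
        ∑ r ∈ R, unitFn893 (m v) (r⁻¹ * g) = c v g) :
    ∃ s : Finset (G K), s.Nonempty ∧
      (∀ x ∈ s, (∀ w : InfinitePlace K, TrivAtInf w x) ∧
        (∀ v : HeightOneSpectrum (𝓞 K), v ∉ A → TrivAtFin v x) ∧
        ∀ v ∈ A, Hp v (finCompHom129 v x)) ∧
      ∀ (T : Finset (HeightOneSpectrum (𝓞 K)))
        (f₀ : ∀ v : HeightOneSpectrum (𝓞 K), GL (Fin 2) (v.adicCompletion K) → ℂ)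
        (F : InfinitePlace K → GL (Fin 2) ℂ → ℂ), A ⊆ T →
        (∀ v ∈ A, f₀ v = unitFn893 (m v)) →
        ∀ y : G K, ∑ x ∈ s, pure305 T f₀ F (x⁻¹ * y)
          = pure305 T (fun v => if v ∈ A then c v else f₀ v) F y := by
  induction A using Finset.induction_on with
  | empty =>
    refine ⟨{1}, Finset.singleton_nonempty _, ?_, ?_⟩
    · intro x hx
      rw [Finset.mem_singleton] at hx
      subst hx
      exact ⟨fun w => (trivAtInf_iff129 w 1).2 (map_one _),
        fun v _ => (trivAtFin_iff129 v 1).2 (map_one _), fun v hv => absurd hv (by simp)⟩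
    · intro T f₀ F _ _ y
      simp
  | insert v₀ A hv₀ ih =>
    obtain ⟨s, hsne, hsupp, hrep⟩ := ih (fun v hv => hL v (Finset.mem_insert_of_mem hv))
    obtain ⟨R, hRne, hRP, hR⟩ := hL v₀ (Finset.mem_insert_self _ _)
    let X : G K × GL (Fin 2) (v₀.adicCompletion K) → G K := fun p => p.1 * locFin129 v₀ p.2
    have hcomp₀ : ∀ p ∈ s ×ˢ R, finCompHom129 v₀ (X p) = p.2 := by
      intro p hp
      have hp1 : p.1 ∈ s := (Finset.mem_product.mp hp).1
      show finCompHom129 v₀ (p.1 * locFin129 v₀ p.2) = p.2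
      rw [map_mul, finCompHom129_locFin129,
        (trivAtFin_iff129 v₀ _).1 ((hsupp p.1 hp1).2.1 v₀ hv₀), one_mul]
    have hinj : Set.InjOn X (s ×ˢ R : Finset _) := by
      intro p hp q hq hpq
      have h2 : p.2 = q.2 := by
        rw [← hcomp₀ p hp, ← hcomp₀ q hq, hpq]
      have h1 : p.1 = q.1 := by
        have e : p.1 * locFin129 v₀ p.2 = q.1 * locFin129 v₀ q.2 := hpq
        rw [h2] at e
        exact mul_right_cancel e
      exact Prod.ext h1 h2
    refine ⟨(s ×ˢ R).image X, (hsne.product hRne).image X, ?_, ?_⟩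
    · intro z hz
      obtain ⟨p, hp, rfl⟩ := Finset.mem_image.mp hz
      have hp1 : p.1 ∈ s := (Finset.mem_product.mp hp).1
      have hp2 : p.2 ∈ R := (Finset.mem_product.mp hp).2
      refine ⟨fun w => ?_, fun v hv => ?_, fun v hv => ?_⟩
      · rw [trivAtInf_iff129]
        show infCompHom129 w (p.1 * locFin129 v₀ p.2) = 1
        rw [map_mul, infCompHom129_locFin129, mul_one]
        exact (trivAtInf_iff129 w _).1 ((hsupp p.1 hp1).1 w)
      · rw [trivAtFin_iff129]
        show finCompHom129 v (p.1 * locFin129 v₀ p.2) = 1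
        have hv1 : v ≠ v₀ := fun e => hv (e ▸ Finset.mem_insert_self _ _)
        have hv2 : v ∉ A := fun e => hv (Finset.mem_insert_of_mem e)
        rw [map_mul, finCompHom129_locFin129_of_ne v₀ p.2 hv1, mul_one]
        exact (trivAtFin_iff129 v _).1 ((hsupp p.1 hp1).2.1 v hv2)
      · by_cases hvv : v = v₀
        · subst hvv
          rw [hcomp₀ p hp]
          exact hRP p.2 hp2
        · have hvA : v ∈ A := (Finset.mem_insert.mp hv).resolve_left hvv
          show Hp v (finCompHom129 v (p.1 * locFin129 v₀ p.2))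
          rw [map_mul, finCompHom129_locFin129_of_ne v₀ p.2 hvv, mul_one]
          exact (hsupp p.1 hp1).2.2 v hvA
    · intro T f₀ F hT hf₀ y
      have hv₀T : v₀ ∈ T := hT (Finset.mem_insert_self _ _)
      have hAT : A ⊆ T := fun v hv => hT (Finset.mem_insert_of_mem hv)
      rw [Finset.sum_image hinj, Finset.sum_product]
      have e1 : ∀ (x : G K) (r : GL (Fin 2) (v₀.adicCompletion K)),
          pure305 T f₀ F ((X (x, r))⁻¹ * y)
            = pure305 T (Function.update f₀ v₀ (fun g => f₀ v₀ (r⁻¹ * g))) F (x⁻¹ * y) := by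
        intro x r
        rw [← pure_transl470 T f₀ F hv₀T r (x⁻¹ * y)]
        congr 1
        simp only [X, mul_inv_rev, mul_assoc]
      simp only [e1]
      rw [Finset.sum_comm]
      have e2 : ∀ r : GL (Fin 2) (v₀.adicCompletion K),
          ∑ x ∈ s, pure305 T (Function.update f₀ v₀ (fun g => f₀ v₀ (r⁻¹ * g))) F (x⁻¹ * y)
            = unitFn893 (m v₀) (r⁻¹ * finGL305 v₀ y)
                * rest470 T (fun v => if v ∈ A then c v else f₀ v) F v₀ y := by
        intro r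
        have hf : ∀ v ∈ A, Function.update f₀ v₀ (fun g => f₀ v₀ (r⁻¹ * g)) v
            = unitFn893 (m v) := by
          intro v hv
          rw [Function.update_of_ne (ne_of_mem_of_not_mem hv hv₀),
            hf₀ v (Finset.mem_insert_of_mem hv)]
        have e3 : (fun v => if v ∈ A then c v
              else Function.update f₀ v₀ (fun g => f₀ v₀ (r⁻¹ * g)) v)
            = Function.update (fun v => if v ∈ A then c v else f₀ v) v₀
                (fun g => unitFn893 (m v₀) (r⁻¹ * g)) := by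
          funext v
          by_cases hv : v = v₀
          · subst hv
            rw [if_neg hv₀, Function.update_self, Function.update_self,
              hf₀ v (Finset.mem_insert_self _ _)]
          · rw [Function.update_of_ne hv, Function.update_of_ne hv]
        rw [hrep T _ F hAT hf y, e3, pure_update470 T _ F hv₀T]
      simp only [e2]
      have e4 : (fun v => if v ∈ insert v₀ A then c v else f₀ v)
          = Function.update (fun v => if v ∈ A then c v else f₀ v) v₀ (c v₀) := by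
        funext v
        by_cases hv : v = v₀
        · subst hv
          rw [if_pos (Finset.mem_insert_self _ _), Function.update_self]
        · rw [Function.update_of_ne hv]
          by_cases hvA : v ∈ A
          · rw [if_pos (Finset.mem_insert_of_mem hvA), if_pos hvA]
          · rw [if_neg hvA, if_neg (fun e => (Finset.mem_insert.mp e).elim hv hvA)]
      rw [e4, pure_update470 T _ F hv₀T, ← hR (finGL305 v₀ y), Finset.sum_mul]

/-- The part of `x` at the places of `A₁`. -/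
theorem exists_proj470 (A₁ : Finset (HeightOneSpectrum (𝓞 K))) (x : G K) :
    ∃ i : G K, (∀ w : InfinitePlace K, infCompHom129 w i = 1) ∧
      (∀ v ∈ A₁, finCompHom129 v i = finCompHom129 v x) ∧
      ∀ v : HeightOneSpectrum (𝓞 K), v ∉ A₁ → finCompHom129 v i = 1 := by
  classical
  induction A₁ using Finset.induction_on with
  | empty =>
    exact ⟨1, fun w => map_one _, fun v hv => absurd hv (by simp), fun v _ => map_one _⟩
  | insert v₀ A₁ hv₀ ih =>
    obtain ⟨i, hi1, hi2, hi3⟩ := ih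
    refine ⟨i * locFin129 v₀ (finCompHom129 v₀ x), fun w => ?_, fun v hv => ?_, fun v hv => ?_⟩
    · rw [map_mul, hi1 w, infCompHom129_locFin129, mul_one]
    · by_cases hvv : v = v₀
      · subst hvv
        rw [map_mul, hi3 v hv₀, finCompHom129_locFin129, one_mul]
      · have hvA : v ∈ A₁ := (Finset.mem_insert.mp hv).resolve_left hvv
        rw [map_mul, hi2 v hvA, finCompHom129_locFin129_of_ne v₀ _ hvv, mul_one]
    · have hv1 : v ≠ v₀ := fun e => hv (e ▸ Finset.mem_insert_self _ _)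
      have hv2 : v ∉ A₁ := fun e => hv (Finset.mem_insert_of_mem e)
      rw [map_mul, hi3 v hv2, finCompHom129_locFin129_of_ne v₀ _ hv1, mul_one]

/-- The local form of `T5.InIwahori`. -/
theorem inIwahori_of470 {w : HeightOneSpectrum (𝓞 K)} {i : G K}
    (h : InIw893 (finCompHom129 w i)) : T5.InIwahori w i := by
  refine ⟨?_, ?_, h.2.2⟩
  · rw [isIntegralAt_iff129]
    intro a b
    rw [HeightOneSpectrum.mem_adicCompletionIntegers]
    exact h.1 a b
  · rw [isIntegralAt_iff129, map_inv]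
    intro a b
    rw [HeightOneSpectrum.mem_adicCompletionIntegers]
    exact h.2.1 a b

/-- The local form of `InLevelGroup`. -/
theorem inLevelGroup_of470 {𝔑₀ : Ideal (𝓞 K)} {n₀ : HeightOneSpectrum (𝓞 K) → ℕ}
    (hn₀ : IsLevelOf893 𝔑₀ n₀) {u : G K} (h1 : ∀ w : InfinitePlace K, infCompHom129 w u = 1)
    (h2 : ∀ v : HeightOneSpectrum (𝓞 K), T6.InU (n₀ v) (finCompHom129 v u)) :
    InLevelGroup 𝔑₀ u := by
  refine ⟨fun w => (trivAtInf_iff129 w u).2 (h1 w), fun v i j => ⟨?_, ?_⟩⟩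
  · exact (hn₀ v _).2 (h2 v i j).1
  · have := (h2 v i j).2
    rw [← map_inv] at this
    exact (hn₀ v _).2 this

end Global

/-! ## 4. The leaf -/

/-- **LEAF T7.L2.1.H2a.4.1 = WT-UP**, VERBATIM. -/
theorem wtUpC470 (K K' : Type) [Field K] [NumberField K] [Field K'] [NumberField K']
    [Algebra K K'] : B970.WtUpC970 K K' := by
  intro ℓ Φ B hB 𝔫 hlvl T₀ n n₀ m hexp
  classical
  have huT₀ : B.u ∈ T₀ := (hexp.mem B.u).2 hlvl.u_level
  have hup_ne : upI (K' := K') 𝔫 ≠ ⊥ := by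
    unfold upI
    rw [Ne, Ideal.map_eq_bot_iff_of_injective
      (NumberField.RingOfIntegers.algebraMap.injective K K')]
    exact hlvl.level_ne
  have hover : ∀ v ∈ T₀, ∀ w : HeightOneSpectrum (𝓞 K'), PlaceOver K K' v w →
      w.asIdeal ∣ upI (K' := K') 𝔫 := by
    intro v hv w hw
    rw [Ideal.dvd_iff_le]
    unfold upI
    rw [Ideal.map_le_iff_le_comap]
    intro x hx
    rw [Ideal.mem_comap]
    have hxv : x ∈ v.asIdeal := Ideal.le_of_dvd ((hexp.mem v).1 hv) hx
    exact (hw x (algebraMap (𝓞 K) (𝓞 K') x) rfl).1 hxv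
  have hA' : ∃ A' : Finset (HeightOneSpectrum (𝓞 K')),
      ∀ w : HeightOneSpectrum (𝓞 K'), w ∈ A' ↔ ∃ v ∈ T₀, PlaceOver K K' v w := by
    refine ⟨B.S'.filter (fun w => ∃ v ∈ T₀, PlaceOver K K' v w), fun w => ?_⟩
    rw [Finset.mem_filter]
    constructor
    · exact fun h => h.2
    · rintro ⟨v, hv, hw⟩
      exact ⟨(hlvl.mem_S'_g w).2 (hover v hv w hw), v, hv, hw⟩
  obtain ⟨A', hA'⟩ := hA'
  have hnn₀ : ∀ w : HeightOneSpectrum (𝓞 K'), n₀ w ≤ n w :=
    level_le_of_le470 hlvl.level_g hexp.lvl_up hexp.lvl_base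
  have hL : ∀ w ∈ A', ∃ R : Finset (GL (Fin 2) (w.adicCompletion K')),
      R.Nonempty ∧
      (∀ r ∈ R, (PlaceOver K K' B.u w → InIw893 r) ∧
        (¬ PlaceOver K K' B.u w → T6.InU (n₀ w) r)) ∧
      ∀ g : GL (Fin 2) (w.adicCompletion K'),
        ∑ r ∈ R, unitFn893 (n w) (r⁻¹ * g)
          = (if PlaceOver K K' B.u w then iwFn893 else unitFn893 (n₀ w)) g := by
    intro w _
    by_cases hwu : PlaceOver K K' B.u w
    · have hn1 : 1 ≤ n w := one_le_of_dvd470 hexp.lvl_up (hover B.u huT₀ w hwu)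
      obtain ⟨R, hRne, hRP, hR⟩ := local_sys470 (n w) InIw893 iwFn893
        (fun g => ⟨fun h => if_pos h, fun h => if_neg h⟩) inIw_one470
        (fun g u hu => iwFn_mul470 hn1 g u hu) (iw_finSupp470 hup_ne hexp.lvl_up w)
      refine ⟨R, hRne, fun r hr => ⟨fun _ => hRP r hr, fun h => absurd hwu h⟩, fun g => ?_⟩
      rw [if_pos hwu]
      exact hR g
    · obtain ⟨R, hRne, hRP, hR⟩ := local_sys470 (n w) (T6.InU (n₀ w)) (unitFn893 (n₀ w))
        (fun g => ⟨fun h => if_pos h, fun h => if_neg h⟩) (inU_one470 _)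
        (fun g u hu => unitFn_mul470 (hnn₀ w) g u hu)
        (finSupp_of_intg470 hup_ne hexp.lvl_up w _ (fun g hg => by
          have hU : T6.InU (n₀ w) g := by
            by_contra h
            exact hg (if_neg h)
          rw [inU_iff470] at hU
          exact ⟨intg_of_near470 (exp_neg_le_one470 _) hU.1,
            intg_of_near470 (exp_neg_le_one470 _) hU.2⟩))
      refine ⟨R, hRne, fun r hr => ⟨fun h => absurd h hwu, fun _ => hRP r hr⟩, fun g => ?_⟩
      rw [if_neg hwu]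
      exact hR g
  obtain ⟨s', hne, hprop, hrep⟩ := rep_induct470 n
    (fun w => if PlaceOver K K' B.u w then iwFn893 else unitFn893 (n₀ w))
    (fun w r => (PlaceOver K K' B.u w → InIw893 r) ∧
      (¬ PlaceOver K K' B.u w → T6.InU (n₀ w) r)) A' hL
  refine ⟨s', ⟨hne, ?_, ?_, ?_⟩⟩
  · -- mem
    intro x hx
    obtain ⟨hx1, hx2, hx3⟩ := hprop x hx
    obtain ⟨i, hi1, hi2, hi3⟩ := exists_proj470 (A'.filter (fun w => PlaceOver K K' B.u w)) x
    have hmemA₁ : ∀ w : HeightOneSpectrum (𝓞 K'),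
        w ∈ A'.filter (fun w => PlaceOver K K' B.u w) ↔ PlaceOver K K' B.u w := by
      intro w
      rw [Finset.mem_filter]
      exact ⟨fun h => h.2, fun h => ⟨(hA' w).2 ⟨B.u, huT₀, h⟩, h⟩⟩
    refine ⟨i, i⁻¹ * x, ⟨fun w => (trivAtInf_iff129 w i).2 (hi1 w), fun v hv => ?_,
      fun j hj => ?_⟩, ?_, (mul_inv_cancel_left i x).symm⟩
    · rw [trivAtFin_iff129]
      refine hi3 v fun hmem => ?_
      obtain ⟨j, hj, hvj⟩ := hB.orbit_all v ((hmemA₁ v).1 hmem)
      exact hv j hj hvj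
    · have hoj : PlaceOver K K' B.u (B.o j) := hB.orbit_over j
      have hmem : B.o j ∈ A'.filter (fun w => PlaceOver K K' B.u w) := (hmemA₁ _).2 hoj
      apply inIwahori_of470
      rw [hi2 _ hmem]
      exact (hx3 _ ((hA' _).2 ⟨B.u, huT₀, hoj⟩)).1 hoj
    · refine inLevelGroup_of470 hexp.lvl_base (fun w => ?_) (fun v => ?_)
      · rw [map_mul, map_inv, hi1 w, (trivAtInf_iff129 w x).1 (hx1 w), inv_one, one_mul]
      · rw [map_mul, map_inv]
        by_cases hvu : PlaceOver K K' B.u v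
        · rw [hi2 v ((hmemA₁ v).2 hvu), inv_mul_cancel]
          exact inU_one470 _
        · rw [hi3 v (fun h => hvu ((hmemA₁ v).1 h)), inv_one, one_mul]
          by_cases hvA : v ∈ A'
          · exact (hx3 v hvA).2 hvu
          · rw [(trivAtFin_iff129 v x).1 (hx2 v hvA)]
            exact inU_one470 _
  · -- supp
    intro x hx
    obtain ⟨hx1, hx2, -⟩ := hprop x hx
    exact ⟨hx1, fun w hw => hx2 w (fun h => hw ((hA' w).1 h))⟩
  · -- rep
    intro T' φ₀ Φ' hT' y
    have hAT : A' ⊆ T' := by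
      intro w hw
      obtain ⟨v, hv, hvw⟩ := (hA' w).1 hw
      exact (hT' v hv w hvw).1
    have hf : ∀ w ∈ A', φ₀ w = unitFn893 (n w) := by
      intro w hw
      obtain ⟨v, hv, hvw⟩ := (hA' w).1 hw
      exact (hT' v hv w hvw).2
    rw [hrep T' φ₀ Φ' hAT hf y]
    congr 1
    funext w
    unfold repUp970
    by_cases hwu : PlaceOver K K' B.u w
    · rw [if_pos ((hA' w).2 ⟨B.u, huT₀, hwu⟩), if_pos hwu, if_pos hwu]
    · by_cases hw : ∃ v ∈ T₀, PlaceOver K K' v w
      · rw [if_pos ((hA' w).2 hw), if_neg hwu, if_neg hwu, if_pos hw]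
      · rw [if_neg (fun h => hw ((hA' w).1 h)), if_neg hwu, if_neg hw]

end Fermat.Agent.LT.T7.H470

end

end
-- ===== PACK-END LT/T7/H470/WtUp.lean

-- ===== PACK-BEGIN LT/T7/H236/ShapeFinB.lean
section
/-
Row LT, tower T7, node T7.L2.1.H2a.4 `Pair2Cb970` (sub-architect helper970), leaf 4.6 `ShapeC970`
(registry 2867) -- helper236, SPARE.  OFF-MAIN.  Part B: THE FINITE STEP.  The weighted sums of
left translates of a pair with the shape `IsAvgPure … LocA893` are a pair with the shape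
`IsAvgPure … LocB893b` (same parameter space, replaced components), GIVEN the left invariance
of the new members under the level groups (`hLU`, `hLD`; Part C).  Complete proofs.
-/




set_option autoImplicit false
set_option linter.unusedSectionVars false
set_option linter.unusedVariables false
set_option linter.style.haveILetI false

open AutomorphicForm IsDedekindDomain NumberField MeasureTheory
open scoped ComplexConjugate

noncomputable section

namespace Fermat.Agent.LT.T7.H236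

open Fermat.Agent.LT.H556 Fermat.Agent.LT.H556.A0 Fermat.Agent.LT Fermat.Agent.LT.T7
open Fermat.Agent.LT.T7.H305 Fermat.Agent.LT.T7.H893 Fermat.Agent.LT.T7.B981
open Fermat.Agent.LT.T7.B970

attribute [local instance] Fermat.Agent.LT.T5.instMeasurableSpaceG

section TwoFields

open Classical

variable {K K' : Type} [Field K] [NumberField K] [Field K'] [NumberField K'] [Algebra K K']

/-! ## 1. The replaced components -/

theorem repDn_u236 (B : L2Base K K') (T₀ : Finset (HeightOneSpectrum (𝓞 K)))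
    (b f₀ : ∀ v : HeightOneSpectrum (𝓞 K), GL (Fin 2) (v.adicCompletion K) → ℂ) :
    repDn970 B T₀ b f₀ B.u = iwFn893 := by
  unfold repDn970
  rw [if_pos rfl]

theorem repDn_bad236 (B : L2Base K K') (T₀ : Finset (HeightOneSpectrum (𝓞 K)))
    (b f₀ : ∀ v : HeightOneSpectrum (𝓞 K), GL (Fin 2) (v.adicCompletion K) → ℂ)
    {v : HeightOneSpectrum (𝓞 K)} (hv : v ∈ T₀.erase B.u) :
    repDn970 B T₀ b f₀ v = b v := by
  unfold repDn970
  rw [if_neg (Finset.ne_of_mem_erase hv), if_pos (Finset.mem_of_mem_erase hv)]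

theorem repDn_out236 (B : L2Base K K') (T₀ : Finset (HeightOneSpectrum (𝓞 K)))
    (b f₀ : ∀ v : HeightOneSpectrum (𝓞 K), GL (Fin 2) (v.adicCompletion K) → ℂ)
    (hu : B.u ∈ T₀) {v : HeightOneSpectrum (𝓞 K)} (hv : v ∉ T₀) :
    repDn970 B T₀ b f₀ v = f₀ v := by
  unfold repDn970
  have h1 : ¬ v = B.u := by
    rintro rfl
    exact hv hu
  rw [if_neg h1, if_neg hv]

theorem repUp_orbit236 (B : L2Base K K') (T₀ : Finset (HeightOneSpectrum (𝓞 K)))
    (n₀ : HeightOneSpectrum (𝓞 K') → ℕ)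
    (φ₀ : ∀ w : HeightOneSpectrum (𝓞 K'), GL (Fin 2) (w.adicCompletion K') → ℂ)
    {w : HeightOneSpectrum (𝓞 K')} (hw : PlaceOver K K' B.u w) :
    repUp970 B T₀ n₀ φ₀ w = iwFn893 := by
  unfold repUp970
  rw [if_pos hw]

theorem repUp_bad236 (B : L2Base K K') (T₀ : Finset (HeightOneSpectrum (𝓞 K)))
    (n₀ : HeightOneSpectrum (𝓞 K') → ℕ)
    (φ₀ : ∀ w : HeightOneSpectrum (𝓞 K'), GL (Fin 2) (w.adicCompletion K') → ℂ)
    {v : HeightOneSpectrum (𝓞 K)} (hv : v ∈ T₀) (hvu : v ≠ B.u)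
    {w : HeightOneSpectrum (𝓞 K')} (hw : PlaceOver K K' v w) :
    repUp970 B T₀ n₀ φ₀ w = unitFn893 (n₀ w) := by
  unfold repUp970
  have h1 : ¬ PlaceOver K K' B.u w := fun h => hvu (H557.placeOver_unique_557 hw h)
  rw [if_neg h1, if_pos ⟨v, hv, hw⟩]

theorem repUp_out236 (B : L2Base K K') (T₀ : Finset (HeightOneSpectrum (𝓞 K)))
    (n₀ : HeightOneSpectrum (𝓞 K') → ℕ)
    (φ₀ : ∀ w : HeightOneSpectrum (𝓞 K'), GL (Fin 2) (w.adicCompletion K') → ℂ)
    (hu : B.u ∈ T₀) {v : HeightOneSpectrum (𝓞 K)} (hv : v ∉ T₀)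
    {w : HeightOneSpectrum (𝓞 K')} (hw : PlaceOver K K' v w) :
    repUp970 B T₀ n₀ φ₀ w = φ₀ w := by
  unfold repUp970
  have h1 : ¬ PlaceOver K K' B.u w := by
    intro h
    have e : v = B.u := H557.placeOver_unique_557 hw h
    exact hv (e ▸ hu)
  have h2 : ¬ ∃ v' ∈ T₀, PlaceOver K K' v' w := by
    rintro ⟨v', hv', hw'⟩
    have e : v = v' := H557.placeOver_unique_557 hw hw'
    exact hv (e ▸ hv')
  rw [if_neg h1, if_neg h2]

/-! ## 2. The local shape of the replaced components -/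

theorem locB_of_locA236 {B : L2Base K K'} {g : G K'} {𝔫 : Ideal (𝓞 K)}
    {μc : @Measure (GL (Fin 2) ℂ) (borel _)} {T₀ : Finset (HeightOneSpectrum (𝓞 K))}
    {n n₀ : HeightOneSpectrum (𝓞 K') → ℕ} {m : HeightOneSpectrum (𝓞 K) → ℕ}
    (hu : B.u ∈ T₀)
    {b : ∀ v : HeightOneSpectrum (𝓞 K), GL (Fin 2) (v.adicCompletion K) → ℂ}
    (hb : LocFin970 (B.comp 𝔫) (T₀.erase B.u) n m
      (fun w => dblFn893 (n₀ w) (finGL305 w g)) b)
    {T : Finset (HeightOneSpectrum (𝓞 K))}
    {φ₀ : ∀ w : HeightOneSpectrum (𝓞 K'), GL (Fin 2) (w.adicCompletion K') → ℂ}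
    {Φ : InfinitePlace K' → GL (Fin 2) ℂ → ℂ}
    {f₀ : ∀ v : HeightOneSpectrum (𝓞 K), GL (Fin 2) (v.adicCompletion K) → ℂ}
    {F : InfinitePlace K → GL (Fin 2) ℂ → ℂ}
    (hA : LocA893 B 𝔫 μc T₀ n m T φ₀ Φ f₀ F) :
    LocB893b B g 𝔫 μc T₀ n n₀ m T (repUp970 B T₀ n₀ φ₀) Φ (repDn970 B T₀ b f₀) F := by
  obtain ⟨hf₀, hφ₀, hsph, harch, hU2, hU2'⟩ := hA
  refine ⟨?_, ?_, repDn_u236 B T₀ b f₀, fun w hw => repUp_orbit236 B T₀ n₀ φ₀ hw, ?_, ?_, hU2,
    hU2'⟩
  · exact
      { inv_up := hb.inv_up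
        inv_down := fun v hv => by
          rw [repDn_bad236 B T₀ b f₀ hv]
          exact hb.inv_down v hv
        arch_up := harch.arch_up
        arch_down := harch.arch_down
        inert := fun v hv => by
          rw [repDn_bad236 B T₀ b f₀ hv]
          exact hb.inert v hv
        split := fun v hv => by
          rw [repDn_bad236 B T₀ b f₀ hv]
          exact hb.split v hv
        arch := harch.arch }
  · intro v hv hvu w hw
    exact repUp_bad236 B T₀ n₀ φ₀ hv hvu hw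
  · intro v hv hvT₀
    obtain ⟨A, Av, h1, h2, h3, h4⟩ := hsph v hv hvT₀
    refine ⟨A, Av, ?_, fun w hw => ?_, h3, h4⟩
    · rw [repDn_out236 B T₀ b f₀ hu hvT₀]
      exact h1
    · rw [repUp_out236 B T₀ n₀ φ₀ hu hvT₀ hw]
      exact h2 w hw
  · exact
      { inv_up := fun v hv => absurd hv (Finset.notMem_empty v)
        inv_down := fun v hv => absurd hv (Finset.notMem_empty v)
        arch_up := harch.arch_up
        arch_down := harch.arch_down
        inert := fun v hv => absurd hv (Finset.notMem_empty v)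
        split := fun v hv => absurd hv (Finset.notMem_empty v)
        arch := harch.arch }

/-! ## 3. The finite step -/

/-- **THE FINITE STEP.**  Same parameter space, replaced components. -/
theorem isAvgPure_rep236 {ℓ : ℕ} {B : L2Base K K'} {g : G K'} {𝔫 : Ideal (𝓞 K)}
    {μc : @Measure (GL (Fin 2) ℂ) (borel _)} {T₀ : Finset (HeightOneSpectrum (𝓞 K))}
    {n n₀ : HeightOneSpectrum (𝓞 K') → ℕ} {m : HeightOneSpectrum (𝓞 K) → ℕ}
    (hu : B.u ∈ T₀)
    {s' : Finset (G K')} (hs' : IsWtUp970 ℓ B T₀ n n₀ s')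
    {s : Finset (G K)} {β : G K → ℂ}
    {b : ∀ v : HeightOneSpectrum (𝓞 K), GL (Fin 2) (v.adicCompletion K) → ℂ}
    (hb : LocFin970 (B.comp 𝔫) (T₀.erase B.u) n m
      (fun w => dblFn893 (n₀ w) (finGL305 w g)) b)
    (hs : IsWtDown970 B T₀ m s β b)
    (hLU : ∀ p' : G K' → ℂ, T5.IsTestFn (upI (K' := K') 𝔫) T5.trivType p' →
      ∀ u : G K', InLevelGroup (upI (K' := K') 𝔫) u → ∀ y : G K',
        lsum s' p' (u * y) = lsum s' p' y)
    (hLD : ∀ (T : Finset (HeightOneSpectrum (𝓞 K)))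
      (φ₀ : ∀ w : HeightOneSpectrum (𝓞 K'), GL (Fin 2) (w.adicCompletion K') → ℂ)
      (Φ : InfinitePlace K' → GL (Fin 2) ℂ → ℂ)
      (f₀ : ∀ v : HeightOneSpectrum (𝓞 K), GL (Fin 2) (v.adicCompletion K) → ℂ)
      (F : InfinitePlace K → GL (Fin 2) ℂ → ℂ), T₀ ⊆ T →
      LocA893 B 𝔫 μc T₀ n m T φ₀ Φ f₀ F →
      ∀ u : G K, InLevelGroup 𝔫 u → ∀ y : G K,
        pure305 T (repDn970 B T₀ b f₀) F (u * y) = pure305 T (repDn970 B T₀ b f₀) F y)
    {Φ₁0 : G K' → ℂ} {F₁0 : G K → ℂ}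
    (hA : IsAvgPure (upI (K' := K') 𝔫) 𝔫 T₀ (LocA893 B 𝔫 μc T₀ n m) 1 Φ₁0 F₁0) (c : ℂ) :
    IsAvgPure (upI (K' := K') 𝔫) 𝔫 T₀ (LocB893b B g 𝔫 μc T₀ n n₀ m) c
      (lsum s' Φ₁0) (fun h => c * wsum970 s β F₁0 h) := by
  obtain ⟨Ω, iT, iC, iT2, iSC, iM, iB, ν, iF, T, T', φ₀, Φ, f₀, F, h1, h2, h3, h4, h5,
    ⟨C', hC', hC'm⟩, ⟨C, hC, hCm⟩, h8, h9⟩ := hA
  -- the old members
  have h3' : ∀ ω : Ω, T5.IsTestFn 𝔫 T5.trivType (pure305 (T ω) (f₀ ω) (F ω)) := by
    intro ω
    have := h3 ω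
    simpa only [one_mul] using this
  have h5' : Continuous (fun p : Ω × G K => pure305 (T p.1) (f₀ p.1) (F p.1) p.2) := by
    simpa only [one_mul] using h5
  have h9' : ∀ h : G K, F₁0 h = ∫ ω, pure305 (T ω) (f₀ ω) (F ω) h ∂ν := by
    intro h
    rw [h9 h]
    simp only [one_mul]
  -- the new members are the sums of translates
  have eU : ∀ (ω : Ω) (y : G K'),
      pure305 (T' ω) (repUp970 B T₀ n₀ (φ₀ ω)) (Φ ω) y
        = ∑ x ∈ s', pure305 (T' ω) (φ₀ ω) (Φ ω) (x⁻¹ * y) := by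
    intro ω y
    refine (hs'.rep (T' ω) (φ₀ ω) (Φ ω) (fun v hv w hw => ⟨?_, ?_⟩) y).symm
    · exact ((h1 ω).2.1 w).2 ⟨v, (h1 ω).1 hv, hw⟩
    · exact (h1 ω).2.2.2.1 v hv w hw
  have eD : ∀ (ω : Ω) (y : G K),
      pure305 (T ω) (repDn970 B T₀ b (f₀ ω)) (F ω) y
        = ∑ x ∈ s, β x * pure305 (T ω) (f₀ ω) (F ω) (x⁻¹ * y) := by
    intro ω y
    exact (hs.rep (T ω) (f₀ ω) (F ω) (h1 ω).1 (h1 ω).2.2.1 y).symm
  have eU' : ∀ ω : Ω, pure305 (T' ω) (repUp970 B T₀ n₀ (φ₀ ω)) (Φ ω)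
      = lsum s' (pure305 (T' ω) (φ₀ ω) (Φ ω)) := fun ω => funext fun y => eU ω y
  have eD' : ∀ ω : Ω, pure305 (T ω) (repDn970 B T₀ b (f₀ ω)) (F ω)
      = wsum970 s β (pure305 (T ω) (f₀ ω) (F ω)) := fun ω => funext fun y => eD ω y
  -- integrability in the parameter
  have intU : ∀ z : G K', Integrable (fun ω => pure305 (T' ω) (φ₀ ω) (Φ ω) z) ν := by
    intro z
    have hc : Continuous (fun ω : Ω => pure305 (T' ω) (φ₀ ω) (Φ ω) z) :=
      h4.comp (continuous_id.prodMk continuous_const)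
    exact hc.integrable_of_hasCompactSupport (HasCompactSupport.of_compactSpace _)
  have intD : ∀ z : G K, Integrable (fun ω => pure305 (T ω) (f₀ ω) (F ω) z) ν := by
    intro z
    have hc : Continuous (fun ω : Ω => pure305 (T ω) (f₀ ω) (F ω) z) :=
      h5'.comp (continuous_id.prodMk continuous_const)
    exact hc.integrable_of_hasCompactSupport (HasCompactSupport.of_compactSpace _)
  refine ⟨Ω, iT, iC, iT2, iSC, iM, iB, ν, iF, T, T', fun ω => repUp970 B T₀ n₀ (φ₀ ω), Φ,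
    fun ω => repDn970 B T₀ b (f₀ ω), F, ?_, ?_, ?_, ?_, ?_, ?_, ?_, ?_, ?_⟩
  · -- the local shape
    intro ω
    exact ⟨(h1 ω).1, (h1 ω).2.1, locB_of_locA236 hu hb (h1 ω).2.2⟩
  · -- test functions upstairs
    intro ω
    show T5.IsTestFn _ _ (pure305 (T' ω) (repUp970 B T₀ n₀ (φ₀ ω)) (Φ ω))
    rw [eU' ω]
    exact isTestFn_of_preT236 (h2 ω).ktype
      (isPreT_lsum236 (isPreT_of_test236 (h2 ω)) s' (fun x hx => (hs'.supp x hx).1))
      (hLU _ (h2 ω))
  · -- test functions downstairs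
    intro ω
    show T5.IsTestFn _ _ (fun h => c * pure305 (T ω) (repDn970 B T₀ b (f₀ ω)) (F ω) h)
    have hl : ∀ u : G K, InLevelGroup 𝔫 u → ∀ y : G K,
        c * pure305 (T ω) (repDn970 B T₀ b (f₀ ω)) (F ω) (u * y)
          = c * pure305 (T ω) (repDn970 B T₀ b (f₀ ω)) (F ω) y := by
      intro u hu' y
      rw [hLD (T ω) (φ₀ ω) (Φ ω) (f₀ ω) (F ω) (h1 ω).1 (h1 ω).2.2 u hu' y]
    have hp : IsPreT236 𝔫 (fun h => c * pure305 (T ω) (repDn970 B T₀ b (f₀ ω)) (F ω) h) := by
      rw [eD' ω]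
      exact IsPreT236.smul c
        (isPreT_wsum236 (isPreT_of_test236 (h3' ω)) s β (fun x hx => (hs.supp x hx).1))
    exact isTestFn_of_preT236 (h3' ω).ktype hp hl
  · -- joint continuity upstairs
    have e : (fun p : Ω × G K' => pure305 (T' p.1) (repUp970 B T₀ n₀ (φ₀ p.1)) (Φ p.1) p.2)
        = fun p : Ω × G K' => ∑ x ∈ s', pure305 (T' p.1) (φ₀ p.1) (Φ p.1) (x⁻¹ * p.2) :=
      funext fun p => eU p.1 p.2
    rw [e]
    exact continuous_finsetSum _ fun x _ =>
      h4.comp (continuous_fst.prodMk (continuous_const.mul continuous_snd))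
  · -- joint continuity downstairs
    have e : (fun p : Ω × G K => c * pure305 (T p.1) (repDn970 B T₀ b (f₀ p.1)) (F p.1) p.2)
        = fun p : Ω × G K =>
            c * ∑ x ∈ s, β x * pure305 (T p.1) (f₀ p.1) (F p.1) (x⁻¹ * p.2) :=
      funext fun p => by rw [eD p.1 p.2]
    rw [e]
    exact continuous_const.mul (continuous_finsetSum _ fun x _ =>
      continuous_const.mul
        (h5'.comp (continuous_fst.prodMk (continuous_const.mul continuous_snd))))
  · -- supports upstairs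
    refine ⟨⋃ x ∈ s', (fun y => x * y) '' C',
      s'.isCompact_biUnion fun x _ => hC'.image (continuous_const_mul x), ?_⟩
    intro ω h hne
    rw [eU ω h] at hne
    obtain ⟨x, hx, hxne⟩ := Finset.exists_ne_zero_of_sum_ne_zero hne
    refine Set.mem_biUnion hx ⟨x⁻¹ * h, hC'm ω _ hxne, ?_⟩
    simp
  · -- supports downstairs
    refine ⟨⋃ x ∈ s, (fun y => x * y) '' C,
      s.isCompact_biUnion fun x _ => hC.image (continuous_const_mul x), ?_⟩
    intro ω h hne
    rw [eD ω h] at hne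
    obtain ⟨x, hx, hxne⟩ := Finset.exists_ne_zero_of_sum_ne_zero hne
    refine Set.mem_biUnion hx ⟨x⁻¹ * h, hCm ω _ (right_ne_zero_of_mul hxne), ?_⟩
    simp
  · -- the integral upstairs
    intro h
    show ∑ x ∈ s', Φ₁0 (x⁻¹ * h) = _
    simp only [eU, h8]
    rw [integral_finsetSum _ fun x _ => intU (x⁻¹ * h)]
  · -- the integral downstairs
    intro h
    show c * ∑ x ∈ s, β x * F₁0 (x⁻¹ * h) = _
    simp only [eD, h9']
    rw [integral_const_mul, integral_finsetSum _ fun x _ => (intD (x⁻¹ * h)).const_mul (β x)]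
    congr 1
    refine Finset.sum_congr rfl fun x _ => ?_
    rw [integral_const_mul]

end TwoFields

end Fermat.Agent.LT.T7.H236

end
end
-- ===== PACK-END LT/T7/H236/ShapeFinB.lean

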