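import Mathlib
import Fermat.Agent.Pack.LT4.E6L3
import Fermat.Agent.Pack.LT3.E29L2
import Fermat.Agent.Pack.LT4.E6L1
import Fermat.Agent.Pack.LT4.E6L2
import Fermat.Agent.Pack.LT4.E5L1
import Fermat.Agent.Pack.LT3.E29L3
import Fermat.Agent.Pack.LT4.E2L2
import Fermat.Agent.Pack.LT4.E5L0
import Fermat.Agent.Pack.LT3.E21L1
import Fermat.Agent.Pack.LT4.E5L3
import Fermat.Agent.Pack.LT2.E7L1
import Fermat.Agent.Pack.LT3.E17L1
import Fermat.Agent.Pack.LT4.E5L2
import Fermat.Agent.Pack.LT4.E0L0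
import Fermat.Agent.Pack.LT2.E2L3
import Fermat.Agent.Pack.LT2.E3L0
import Fermat.Agent.Pack.LT2.E7L2

set_option linter.all false

-- ===== PACK-BEGIN LT/T7/B981/PairBaseSpec.lean
section




/-!
# Row LT, tower T7, node T7.L2.1.H2a.A.0 `BaseAC981` (sub-architect helper981, registry 2817):
# THIRD CUT -- Spec

OFF-MAIN.  Definitions and frozen Props only (the proved top is `PairBaseTop.lean`).  No hole,
nothing assumed.  ADDITIVE (new names only, suffix `981`).  Vocabulary: the second cut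
(`PairASpec.lean`), the explicit form of station T3.18M (helper14, `T3/M/Explicit.lean`:
`pureFnM`, `pairSpanM`, `ekOfPairM_c`), byte-identical copies.

    baseAC_of981 : DatC981 K K' → UpGoodC981 K K' → DnGoodC981 K K' → IwSuppC981 K'
        → IwSuppC981 K → DnStabC981 K K' → ShapeC981 K K'
        → BaseAC981 T7.ekMulti K K' H893.LocA893                                (VERBATIM)

## The cut: THE DATA are separated from their CONSEQUENCES

`Dat981 K K'` = the explicit local factors of the base pair: finitely many (`N`) pure tensors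
upstairs `pureFnM K' 𝔑 P' (φ₀ i) (Φ i)` with their coordinates `(A' i, β' i)`, and downstairs
`pureFnM K 𝔫 P (f₀ i) (F i)` with `(A i, β i)` (NO coefficients: they are absorbed in the
components at one infinite place).  `D.up 𝔑`, `D.dn 𝔫` = the sums.

`IsDat981` = the properties of the data:
* the frames `FrameM` upstairs (the datum of `T7.GoodEKM` for `𝔑 = 𝔫 𝒪_{K'}` and `S'`) and
  downstairs (the norm datum: `P` = the places under `P'`, `a₀ = N_{K'/K} a₀'`);
* local Satake pairs at `P'`, `P` and local Abel pairs at infinity (so that both sums are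
  members of `T3.M.pairSpanM`, upstairs of `pairSpanMS μc κc`);
* the coordinates TELESCOPE upstairs (core of T3) AND downstairs (push-forward under the norm
  of the tori), and the Fourier transform upstairs does not vanish at the good parameters;
* the local shape: `LocA893 … (T₀ ∪ P) (φ₀ i) (Φ i) (f₀ i) (F i)` for every `i` (unit components
  at the level, spherical components matched by base change outside, convolution products at
  infinity), and unit components `1_{GL₂(𝒪_w)}` at the places over `P` which are not in `P'`.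

* **`DatC981`** (NODE; existence of the data: T3 core + T6 base change + push-forward).
* **`UpGoodC981`**, **`DnGoodC981`** (leaves; `T3.M.ekOfPairM_c`): test function,
  Eisenstein-killing with adjoint, support at `P ∪ S_∞`, scalars.
* **`IwSuppC981 K`** (leaf, one field): support at `P ∪ S_∞` gives the Iwahori support.
* **`DnStabC981`** (leaf): the three properties of `R(f)` downstairs.
* **`ShapeC981`** (leaf; bookkeeping): `IsAvgPure` for the finite parameter space `Fin N`.
-/

set_option autoImplicit false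

open AutomorphicForm IsDedekindDomain NumberField MeasureTheory
open scoped ComplexConjugate

noncomputable section

namespace Fermat.Agent.LT.T7.B981

open Fermat.Agent.LT.H556 Fermat.Agent.LT.H556.A0 Fermat.Agent.LT.T7
open Fermat.Agent.LT.T7.H305 Fermat.Agent.LT.T7.H893

attribute [local instance] Fermat.Agent.LT.T5.instMeasurableSpaceG

/-! ## 1. The data -/

/-- **THE DATA OF THE BASE PAIR**: the frames and the local factors of `N` pure tensors
upstairs and downstairs. -/
structure Dat981 (K K' : Type) [Field K] [NumberField K] [Field K'] [NumberField K'] where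
  /-- the number of pure tensors -/
  N : ℕ
  /-- the Eisenstein-killing places upstairs -/
  P' : Finset (HeightOneSpectrum (𝓞 K'))
  /-- the exponents upstairs -/
  e' : HeightOneSpectrum (𝓞 K') → ℕ
  /-- the generator upstairs -/
  a₀' : 𝓞 K'
  /-- the generator upstairs as a unit of `K'` -/
  α' : K'ˣ
  /-- the places downstairs (under `P'`) -/
  P : Finset (HeightOneSpectrum (𝓞 K))
  /-- the exponents downstairs -/
  e : HeightOneSpectrum (𝓞 K) → ℕ
  /-- the generator downstairs (the norm) -/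
  a₀ : 𝓞 K
  /-- the generator downstairs as a unit of `K` -/
  α : Kˣ
  /-- the constant of the Abel pairs upstairs for the Haar measure `μc` -/
  κc : ℂ
  /-- the Satake coefficients upstairs -/
  A' : Fin N → HeightOneSpectrum (𝓞 K') → ℤ × ℤ → ℂ
  /-- the Abel transforms upstairs -/
  β' : Fin N → InfinitePlace K' → ℝ × ℝ → ℂ
  /-- the components upstairs at the finite places -/
  φ₀ : Fin N → ∀ w : HeightOneSpectrum (𝓞 K'), GL (Fin 2) (w.adicCompletion K') → ℂ
  /-- the components upstairs at the infinite places -/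
  Φ : Fin N → InfinitePlace K' → GL (Fin 2) ℂ → ℂ
  /-- the Satake coefficients downstairs -/
  A : Fin N → HeightOneSpectrum (𝓞 K) → ℤ × ℤ → ℂ
  /-- the Abel transforms downstairs -/
  β : Fin N → InfinitePlace K → ℝ × ℝ → ℂ
  /-- the components downstairs at the finite places -/
  f₀ : Fin N → ∀ v : HeightOneSpectrum (𝓞 K), GL (Fin 2) (v.adicCompletion K) → ℂ
  /-- the components downstairs at the infinite places -/
  F : Fin N → InfinitePlace K → GL (Fin 2) ℂ → ℂ

section Dat

variable {K K' : Type} [Field K] [NumberField K] [Field K'] [NumberField K'] [Algebra K K']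

/-- The function upstairs: the sum of the pure tensors (`T3.M.pureFnM`) of level `𝔑`. -/
def Dat981.up (D : Dat981 K K') (𝔑 : Ideal (𝓞 K')) : G K' → ℂ := fun g =>
  ∑ i : Fin D.N, T3.M.pureFnM K' 𝔑 D.P' (D.φ₀ i) (D.Φ i) g

/-- The function downstairs: the sum of the pure tensors of level `𝔫`. -/
def Dat981.dn (D : Dat981 K K') (𝔫 : Ideal (𝓞 K)) : G K → ℂ := fun g =>
  ∑ i : Fin D.N, T3.M.pureFnM K 𝔫 D.P (D.f₀ i) (D.F i) g

/-- The coordinates upstairs. -/
def Dat981.crdUp (D : Dat981 K K') : T3.M.CoordM K' D.P' → ℂ := fun p =>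
  ∑ i : Fin D.N, T3.M.pureCoordM K' D.P' (D.A' i) (D.β' i) p

/-- The coordinates downstairs. -/
def Dat981.crdDn (D : Dat981 K K') : T3.M.CoordM K D.P → ℂ := fun p =>
  ∑ i : Fin D.N, T3.M.pureCoordM K D.P (D.A i) (D.β i) p

open Classical in
/-- **THE PROPERTIES OF THE DATA.** -/
structure IsDat981 (Φe : HeckeEigensystem K' ℂ) (B : L2Base K K') (𝔫 : Ideal (𝓞 K))
    (μc : @Measure (GL (Fin 2) ℂ) (borel _)) (T₀ : Finset (HeightOneSpectrum (𝓞 K)))
    (n : HeightOneSpectrum (𝓞 K') → ℕ) (m : HeightOneSpectrum (𝓞 K) → ℕ)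
    (D : Dat981 K K') : Prop where
  /-- the frame upstairs (the datum of `T7.GoodEKM` for `𝔫 𝒪_{K'}`) -/
  frame_up : T3.M.FrameM K' (upI (K' := K') 𝔫) D.P' D.e' D.a₀' D.α'
  /-- the frame downstairs (the norm datum) -/
  frame_dn : T3.M.FrameM K 𝔫 D.P D.e D.a₀ D.α
  /-- the places of `P'` are outside `S'` -/
  out : ∀ w ∈ D.P', w ∉ B.S'
  /-- the non-vanishing clause of `T7.GoodEKM` -/
  good : ∀ z : HeightOneSpectrum (𝓞 K') → ℂ,
    (∀ w ∈ D.P', z w ^ 2 - Φe.a w * z w + Φe.b w = 0) → ∏ w ∈ D.P', z w ^ D.e' w ≠ 1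
  /-- `P` is the set of the places under `P'` -/
  under : ∀ v : HeightOneSpectrum (𝓞 K), v ∈ D.P ↔ ∃ w ∈ D.P', PlaceOver K K' v w
  κc_ne : D.κc ≠ 0
  symA' : ∀ (i : Fin D.N) (w : HeightOneSpectrum (𝓞 K')), T3.AS.IsSymFin (D.A' i w)
  symβ' : ∀ (i : Fin D.N) (w : InfinitePlace K'), T3.AS.IsSymBump (D.β' i w)
  sat_up : ∀ (i : Fin D.N), ∀ w ∈ D.P', T3.AS.IsSatakePair w (D.φ₀ i w) (D.A' i w)
  test_up : ∀ (i : Fin D.N) (w : InfinitePlace K'), T3.AS.IsCplxTest (D.Φ i w)
  smooth_up : ∀ (i : Fin D.N) (w : InfinitePlace K'), T3.AS.IsCplxSmooth (D.Φ i w)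
  abel_up : ∀ (i : Fin D.N) (w : InfinitePlace K'), T3.AS.HasAbelN (D.Φ i w) (D.β' i w)
  acts_up : ∀ (i : Fin D.N) (w : InfinitePlace K'),
    T3.AS.ActsBy μc (D.Φ i w) (D.κc * ∫ x : ℝ × ℝ, D.β' i w x)
  symA : ∀ (i : Fin D.N) (v : HeightOneSpectrum (𝓞 K)), T3.AS.IsSymFin (D.A i v)
  symβ : ∀ (i : Fin D.N) (v : InfinitePlace K), T3.AS.IsSymBump (D.β i v)
  sat_dn : ∀ (i : Fin D.N), ∀ v ∈ D.P, T3.AS.IsSatakePair v (D.f₀ i v) (D.A i v)
  test_dn : ∀ (i : Fin D.N) (v : InfinitePlace K), T3.AS.IsCplxTest (D.F i v)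
  smooth_dn : ∀ (i : Fin D.N) (v : InfinitePlace K), T3.AS.IsCplxSmooth (D.F i v)
  abel_dn : ∀ (i : Fin D.N) (v : InfinitePlace K), T3.AS.HasAbelN (D.F i v) (D.β i v)
  /-- the coordinates upstairs telescope along `c₀' = coordTorM K' P' e' α'` -/
  tel_up : ∀ Δ : T3.M.CoordM K' D.P',
    HasSum (fun j : ℤ => D.crdUp (Δ + j • T3.M.coordTorM K' D.P' D.e' D.α')) 0
  /-- the coordinates downstairs telescope along `c₀ = coordTorM K P e α` -/
  tel_dn : ∀ Δ : T3.M.CoordM K D.P,
    HasSum (fun j : ℤ => D.crdDn (Δ + j • T3.M.coordTorM K D.P D.e D.α)) 0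
  /-- the Fourier transform upstairs does not vanish at the good parameters -/
  ft_ne : ∀ z₁ z₂ : HeightOneSpectrum (𝓞 K') → ℂ,
    (∀ w ∈ D.P', z₁ w ≠ 0) → (∀ w ∈ D.P', z₂ w ≠ 0) →
    (∀ z : HeightOneSpectrum (𝓞 K') → ℂ, (∀ w ∈ D.P', z w = z₁ w ∨ z w = z₂ w) →
      ∏ w ∈ D.P', z w ^ D.e' w ≠ 1) →
    T3.M.ftCoordM K' D.P' D.crdUp z₁ z₂ ≠ 0
  /-- unit components at the places over `P` which are not in `P'` -/
  unit_rest : ∀ (i : Fin D.N) (w : HeightOneSpectrum (𝓞 K')), w ∉ D.P' →
    (∃ v ∈ D.P, PlaceOver K K' v w) → D.φ₀ i w = unitFn893 0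
  /-- the local shape of every pair of pure tensors, for the set `T = T₀ ∪ P` -/
  loc : ∀ i : Fin D.N,
    LocA893 B 𝔫 μc T₀ n m (T₀ ∪ D.P) (D.φ₀ i) (D.Φ i) (D.f₀ i) (D.F i)

end Dat

/-! ## 2. The node and the leaves -/

section Nodes

variable (K K' : Type) [Field K] [NumberField K] [Field K'] [NumberField K'] [Algebra K K']

/-- **NODE A.0.D = DATA (existence; T3 core + T6 base change + push-forward).**  For a cusp
form `Φ` with good multi-place EK data, a common part which contains the ramified places,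
every level with the level properties, every Haar measure of `GL₂(ℂ)` and the exponents of the
level there are data with `IsDat981`.
Construction.  `(P', e', a₀')` from `T7.GoodEKM K' Φ (𝔫 𝒪_{K'}) S'`; `Φ' ∈ SymSpanM K' P'`
telescoping with non-vanishing Fourier transform from `T3.M.EKCoreC` (closed), written as a
finite sum of symmetric pure tensors `pureCoordM (A' i) (β' i)` (the coefficients absorbed in
`β' i w₀`); `φ₀ i w` from `T3.AS.SatakeLocC` at `w ∈ P'`, `unitFn893 (n w)` elsewhere;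
`Φ i w` from `T3.AS.AbelCplxSmoothC` (rescaled to the given `μc`: uniqueness of the Haar
measure).  Downstairs: `P` = the places under `P'`, `e v = ∑_{w ∣ v, w ∈ P'} f_w e'_w`,
`a₀ = N_{K'/K} a₀'`; `A i v` = the push-forward of `⊗_{w ∣ v} A' i w` under
`(m_w) ↦ ∑ f_w m_w` (`laurent (A i v) x y = ∏_w laurent (A' i w) (x^{f_w}) (y^{f_w})`),
`f₀ i v` from `T3.AS.SatakeLocC` at `v ∈ P`, `unitFn893 (m v)` elsewhere;
`F i v = convL305 μc (Φ i (w j))` (independent of the enumeration: the bi-`U(2)`-invariant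
functions commute), `β i v = c_μ^{ℓ-1} ·` the convolution of the `β' i w` (the Abel transform
is multiplicative).  Telescoping downstairs: the coordinates downstairs are the push-forward
of the coordinates upstairs under the norm of the coordinate groups (fibre sums and fibre
integrals), the push-forward commutes with the translations, `N(c₀') = c₀`, and for fixed `Δ`
only finitely many `j` contribute.  The shape: bridge between the Satake pairs of T3 and the
spherical functions of T6 (`IsSphFn893`, `satT893 q Av x y = laurent A x y`: same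
normalisation `T = √q (x + y)`, `S = x y`). -/
def DatC981 : Prop :=
  ∀ ℓ : ℕ, IsCycExt K K' ℓ → ℓ ≠ 2 → TotCplx K →
    ∀ Φ : HeckeEigensystem K' ℂ, A0.IsCuspAdelicSph0 K' Φ → ConstOnFibres K Φ → GoodEKM K' Φ →
      ∀ B : L2Base K K', IsL2Base ℓ Φ B → B.RamIn →
      ∀ 𝔫 : Ideal (𝓞 K), Q797.IsLevel797 B 𝔫 →
      ∀ μc : @Measure (GL (Fin 2) ℂ) (borel _), @Measure.IsHaarMeasure _ _ _ (borel _) μc →
      ∀ (T₀ : Finset (HeightOneSpectrum (𝓞 K)))
        (n n₀ : HeightOneSpectrum (𝓞 K') → ℕ) (m : HeightOneSpectrum (𝓞 K) → ℕ),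
        Q797.IsExp797 B 𝔫 T₀ n n₀ m →
        ∃ D : Dat981 K K', IsDat981 Φ B 𝔫 μc T₀ n m D

/-- **LEAF A.0.U = UP** (`T3.M.ekOfPairM_c` for `K'`).  The sum upstairs is a test function of
level `𝔫 𝒪_{K'}`, Eisenstein-killing with Eisenstein-killing adjoint, supported at
`P' ∪ S_∞`, acts by a scalar `c₁(C)` on the eigenfunctions of the base level, `c₁ ≠ 0` on the
class of `Φ`.
Proof.  `K'` is totally complex.  `(D.crdUp, D.up 𝔑) ∈ pairSpanMS K' μc κc 𝔑 P'`
(`mem_pairSpanM_sum` with coefficients `1`; `Submodule.sum_mem`), `tel_up`, `frame_up`: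
`ekOfPairM_c` gives the first four properties and scalars `c z₁ z₂ m` with
`c = κ₀ ftCoordM crdUp z₁ z₂` at parameter `0`.  `c₁ C = 1` if `C.b w = 0` for some `w ∈ P'`
(then `χ = 0`: `H732.eq_zero_of_b_eq_zero732`), `= c (root1) (root2) C.m` otherwise
(`H732.roots_spec732`; model: `T3.M.ekOpExistGenM_of`).  `IsEigFn 𝔑₀ … χ C` gives
`IsMeanLevel K' 𝔑 C.m χ` (`𝔑 ≤ 𝔑₀`) and `IsHeckeEigenAt χ w (C.a w) (C.b w)` at `w ∈ P'`
(`w ∉ S'`, `IsL2Base.mem_S'`).  `c₁ ≠ 0`: `ft_ne`, `good`, `C.m = sph0` at the positive radii. -/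
def UpGoodC981 : Prop :=
  ∀ ℓ : ℕ, IsCycExt K K' ℓ → TotCplx K →
    ∀ (Φ : HeckeEigensystem K' ℂ) (B : L2Base K K'), IsL2Base ℓ Φ B →
      ∀ 𝔫 : Ideal (𝓞 K), Q797.IsLevel797 B 𝔫 →
      ∀ μc : @Measure (GL (Fin 2) ℂ) (borel _), @Measure.IsHaarMeasure _ _ _ (borel _) μc →
      ∀ (T₀ : Finset (HeightOneSpectrum (𝓞 K)))
        (n : HeightOneSpectrum (𝓞 K') → ℕ) (m : HeightOneSpectrum (𝓞 K) → ℕ)
        (D : Dat981 K K'), IsDat981 Φ B 𝔫 μc T₀ n m D →
        T5.IsTestFn (upI (K' := K') 𝔫) T5.trivType (D.up (upI (K' := K') 𝔫)) ∧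
        T5.IsEK B.R'.μ (D.up (upI (K' := K') 𝔫)) ∧
        T5.IsEK B.R'.μ (T5.adjointFn (D.up (upI (K' := K') 𝔫))) ∧
        T3.M.IsSuppAtM K' (upI (K' := K') 𝔫) D.P' (D.up (upI (K' := K') 𝔫)) ∧
        ∃ c₁ : EigData K' → ℂ,
          (∀ (χ : G K' → ℂ) (C : EigData K'), IsEigFn B.𝔑₀ B.R'.r ℓ B.o χ C →
            ∀ y : G K', T5.Rconv B.R'.μ (D.up (upI (K' := K') 𝔫)) χ y = c₁ C * χ y) ∧
          ∀ C : EigData K', C.AgreeOut B.S' (eigOf Φ) → c₁ C ≠ 0

/-- **LEAF A.0.W = DOWN** (`T3.M.ekOfPairM_c` for `K`).  The sum downstairs is a test function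
of level `𝔫`, Eisenstein-killing with Eisenstein-killing adjoint, supported at `P ∪ S_∞`, and
acts by scalars on the joint eigenfunctions (`IsMeanLevel`, Hecke-eigen at the places of `P`).
Proof.  `(D.crdDn, D.dn 𝔫) ∈ pairSpanM K 𝔫 P` (`mem_pairSpanM_sum`), `tel_dn`, `frame_dn`:
`ekOfPairM_c`; the case `b v = 0` as in `T3.M.ekOpExistGenM_of` (`φ = 0`). -/
def DnGoodC981 : Prop :=
  ∀ ℓ : ℕ, IsCycExt K K' ℓ → TotCplx K →
    ∀ (Φ : HeckeEigensystem K' ℂ) (B : L2Base K K'), IsL2Base ℓ Φ B →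
      ∀ 𝔫 : Ideal (𝓞 K), Q797.IsLevel797 B 𝔫 →
      ∀ μc : @Measure (GL (Fin 2) ℂ) (borel _), @Measure.IsHaarMeasure _ _ _ (borel _) μc →
      ∀ (T₀ : Finset (HeightOneSpectrum (𝓞 K)))
        (n : HeightOneSpectrum (𝓞 K') → ℕ) (m : HeightOneSpectrum (𝓞 K) → ℕ)
        (D : Dat981 K K'), IsDat981 Φ B 𝔫 μc T₀ n m D →
        T5.IsTestFn 𝔫 T5.trivType (D.dn 𝔫) ∧
        T5.IsEK B.R.μ (D.dn 𝔫) ∧ T5.IsEK B.R.μ (T5.adjointFn (D.dn 𝔫)) ∧
        T3.M.IsSuppAtM K 𝔫 D.P (D.dn 𝔫) ∧
        ∃ c : (HeightOneSpectrum (𝓞 K) → ℂ) → (HeightOneSpectrum (𝓞 K) → ℂ) →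
            (InfinitePlace K → ℝ → ℂ) → ℂ,
          ∀ (φ : G K → ℂ) (mv : InfinitePlace K → ℝ → ℂ), T3.M.IsMeanLevel K 𝔫 mv φ →
          ∀ a b : HeightOneSpectrum (𝓞 K) → ℂ,
            (∀ v ∈ D.P, IsHeckeEigenAt φ v (a v) (b v)) →
            ∀ g : G K, T5.Rconv B.R.μ (D.dn 𝔫) φ g = c a b mv * φ g

end Nodes

section OneField

variable (K : Type) [Field K] [NumberField K]

/-- **LEAF A.0.S = IW-SUPP (one field).**  A function of compact support which is supported at
`P ∪ S_∞` (`T3.M.IsSuppAtM`: on the support the components at the finite places outside `P`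
lie in `U(𝔫)_v`) is Iwahori-supported along places `o j ∣ 𝔫` outside `P`, in a compact set.
Proof.  `C = tsupport f` (`T5.H32.isIwSupported_of_support32`); at `o j` the entries of
`y - 1`, `y⁻¹ - 1` lie in the closure of `𝔫`, which is contained in the maximal ideal:
`y`, `y⁻¹` are integral and the lower left entry of `y` has valuation `< 1`. -/
def IwSuppC981 : Prop :=
  ∀ (𝔫 : Ideal (𝓞 K)) (P : Finset (HeightOneSpectrum (𝓞 K))) (l : ℕ)
    (o : ℕ → HeightOneSpectrum (𝓞 K)),
    (∀ j < l, (o j).asIdeal ∣ 𝔫) → (∀ j < l, o j ∉ P) →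
    ∀ f : G K → ℂ, HasCompactSupport f → T3.M.IsSuppAtM K 𝔫 P f →
      ∃ C : Set (G K), IsCompact C ∧ T5.H32.IsIwSupported32 l o C f

end OneField

section Nodes2

variable (K K' : Type) [Field K] [NumberField K] [Field K'] [NumberField K'] [Algebra K K']

/-- **LEAF A.0.C = DN-STAB.**  A test function `f` of level `𝔫` downstairs which is supported
at `P ∪ S_∞` (`P` prime to `𝔫`) and acts by scalars on the joint eigenfunctions has the three
properties of `IsDnStab981`.
Proof (POINTWISE in `y`, no splitting of the Haar measure).  On the support of `f` the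
component `y_u` lies in `U(𝔫)_u ⊆ I_u` (`IsSuppAtM`, `u ∉ P` because `u ∣ 𝔫`); write
`y = y^u y_u` (`y^u` trivial at `u`).  For `ψ` right invariant under `U(𝔫)` and under the Iwahori
subgroup at `u` and `h` supported at `u`: `ψ(x h y) = ψ(x h y^u) = ψ(x y^u h)`.
* Iwahori-invariance of `R(f) ψ`: for `k ∈ I_u`, `ψ(x k y) = ψ(x y^u k) = ψ(x y^u) = ψ(x y)`.
* `iwOp`: `∑_h ψ(x h y) = ∑_h ψ(x y^u h) = ∑_h ψ(x y^u y_u h) = ∑_h ψ(x y h)`: left
  multiplication by `y_u ∈ I_u` permutes the cosets `h I_u` (`H` is a FULL system of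
  representatives of `I t I / I`: `q` pairwise inequivalent elements; kits helper340 / helper701
  / helper83).
* `shiftOp`: `z` is central.
`wfn`: `R(f) ψ` is a cusp function (left invariance; level: on the support `ψ(x u y)` with
`f` left invariant under `U(𝔫)`: substitution `y ↦ u⁻¹ y`; `K_∞`: the same; ray: `r` is central;
constant term: Fubini; bounded, continuous: `f` continuous of compact support), invariant under
the positive scalars (central), Iwahori-invariant at `u` (above).  `cls`: `ψ` is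
`IsMeanLevel K 𝔫 c.m`, Hecke-eigen at `v ∈ P` (`v ∤ 𝔫`), so `R(f) ψ = c ψ`, and `IsEigFn` is
stable under scalars.  `comm`: above. -/
def DnStabC981 : Prop :=
  ∀ ℓ : ℕ, IsCycExt K K' ℓ → TotCplx K →
    ∀ (Φ : HeckeEigensystem K' ℂ) (B : L2Base K K'), IsL2Base ℓ Φ B →
      ∀ 𝔫 : Ideal (𝓞 K), Q797.IsLevel797 B 𝔫 →
      ∀ (P : Finset (HeightOneSpectrum (𝓞 K))), (∀ v ∈ P, ¬ v.asIdeal ∣ 𝔫) →
      ∀ f : G K → ℂ, T5.IsTestFn 𝔫 T5.trivType f → T3.M.IsSuppAtM K 𝔫 P f →
        (∃ c : (HeightOneSpectrum (𝓞 K) → ℂ) → (HeightOneSpectrum (𝓞 K) → ℂ) →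
            (InfinitePlace K → ℝ → ℂ) → ℂ,
          ∀ (φ : G K → ℂ) (mv : InfinitePlace K → ℝ → ℂ), T3.M.IsMeanLevel K 𝔫 mv φ →
          ∀ a b : HeightOneSpectrum (𝓞 K) → ℂ,
            (∀ v ∈ P, IsHeckeEigenAt φ v (a v) (b v)) →
            ∀ g : G K, T5.Rconv B.R.μ f φ g = c a b mv * φ g) →
        IsDnStab981 B 𝔫 f

/-- **LEAF A.0.P = SHAPE (bookkeeping).**  The sums of the data are an average of pure tensors
with the local shape `LocA893`, constant `1`: `Ω = Fin N` (discrete, counting measure),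
`T a = T₀ ∪ P`, `T' a` = the finite set of the places over `T₀ ∪ P`.
Proof.  BRIDGE `pureFnM K' 𝔑 P' (φ₀ i) (Φ i) = pure305 T' (φ₀ i) (Φ i)`: at a finite place
`w ∉ P'` the condition of `OutsideUM` (`y - 1`, `y⁻¹ - 1` in the closure of `𝔑`) is
`InU (n w)` (`IsExp797.lev_n`; `n w = 0` and the closure is `𝒪_w` outside the level), i.e. the
component `unitFn893 (n w)` is `1` (`loc`: unit components over `T₀`; `unit_rest`) resp. the
condition of `OutT305`; the same downstairs.  Every member is a test function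
(`T3.M.PureRegMC`, `pureSmoothM`, `isTestFn_T5`: closed, `T3.M.openM_c`).  Joint continuity and
the common compact support: `Fin N` is finite and discrete.  The integral over the counting
measure is the sum. -/
def ShapeC981 : Prop :=
  ∀ ℓ : ℕ, IsCycExt K K' ℓ → TotCplx K →
    ∀ (Φ : HeckeEigensystem K' ℂ) (B : L2Base K K'), IsL2Base ℓ Φ B →
      ∀ 𝔫 : Ideal (𝓞 K), Q797.IsLevel797 B 𝔫 →
      ∀ μc : @Measure (GL (Fin 2) ℂ) (borel _), @Measure.IsHaarMeasure _ _ _ (borel _) μc →
      ∀ (T₀ : Finset (HeightOneSpectrum (𝓞 K)))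
        (n n₀ : HeightOneSpectrum (𝓞 K') → ℕ) (m : HeightOneSpectrum (𝓞 K) → ℕ),
        Q797.IsExp797 B 𝔫 T₀ n n₀ m →
        ∀ D : Dat981 K K', IsDat981 Φ B 𝔫 μc T₀ n m D →
          IsAvgPure (upI (K' := K') 𝔫) 𝔫 T₀ (LocA893 B 𝔫 μc T₀ n m) 1
            (D.up (upI (K' := K') 𝔫)) (D.dn 𝔫)

end Nodes2

end Fermat.Agent.LT.T7.B981

end

end
-- ===== PACK-END LT/T7/B981/PairBaseSpec.lean

-- ===== PACK-BEGIN LT/T7/H90/DStep311.lean
section



/-!
# Row LT, tower T7, cut of `ShapeTC589` (helper311): LEAVES ShT.4 `DContC311`, ShT.5 `DSuppC311`,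
# ShT.6 `DIntC311` (helper90, spares)

OFF-MAIN.  Spec: `T7/H311/ShapeTSpec.lean` (helper311, byte-identical copy, with its closure).
No hole, nothing assumed, UNCONDITIONAL.

    dContC311_h90 (F) : H311.DContC311 F
    dSuppC311_h90 (F) : H311.DSuppC311 F
    dIntC311_h90  (F) : H311.DIntC311 F

Two-step inductions on `d` along the recursion of `ST589.dStep589` (used through `rfl` only).
-/

set_option autoImplicit false
set_option linter.style.haveILetI false

open AutomorphicForm IsDedekindDomain NumberField MeasureTheory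

noncomputable section

namespace Fermat.Agent.LT.T7.H90D

open Fermat.Agent.LT.H556 Fermat.Agent.LT.H556.A0 Fermat.Agent.LT.T7
open Fermat.Agent.LT.T7.ST589

variable {F : Type} [Field F] [NumberField F]

/-! ## The recursion -/

theorem dStep_zero90 (v : HeightOneSpectrum (𝓞 F)) (H : Finset (G F)) (z : G F) (f : G F → ℂ)
    (g : G F) : dStep589 v H z 0 f g = 2 * f g := rfl

theorem dStep_one90 (v : HeightOneSpectrum (𝓞 F)) (H : Finset (G F)) (z : G F) (f : G F → ℂ)
    (g : G F) : dStep589 v H z 1 f g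
      = ((Real.sqrt (Ideal.absNorm v.asIdeal : ℝ) : ℝ) : ℂ)⁻¹ * ∑ h ∈ H, f (g * z⁻¹ * h) := rfl

theorem dStep_succ90 (v : HeightOneSpectrum (𝓞 F)) (H : Finset (G F)) (z : G F) (d : ℕ)
    (f : G F → ℂ) (g : G F) : dStep589 v H z (d + 2) f g
      = ((Real.sqrt (Ideal.absNorm v.asIdeal : ℝ) : ℝ) : ℂ)⁻¹
          * ∑ h ∈ H, dStep589 v H z (d + 1) f (g * z⁻¹ * h)
        - dStep589 v H z d f (g * z⁻¹) := rfl

/-- Two-step induction. -/
theorem two_step90 (P : ℕ → Prop) (h0 : P 0) (h1 : P 1)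
    (hs : ∀ d, P d → P (d + 1) → P (d + 2)) : ∀ d, P d := by
  have key : ∀ d, P d ∧ P (d + 1) := by
    intro d
    induction d with
    | zero => exact ⟨h0, h1⟩
    | succ d ih => exact ⟨ih.2, hs d ih.1 ih.2⟩
  exact fun d => (key d).1

/-! ## ShT.4 -/

/-- **LEAF ShT.4 `DContC311`**, VERBATIM. -/
theorem dContC311_h90 (F : Type) [Field F] [NumberField F] : H311.DContC311 F := by
  intro Ω _ f hf v H z d
  refine two_step90 (fun d => Continuous (fun p : Ω × G F => dStep589 v H z d (f p.1) p.2))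
    ?_ ?_ ?_ d
  · show Continuous (fun p : Ω × G F => 2 * f p.1 p.2)
    exact continuous_const.mul hf
  · show Continuous (fun p : Ω × G F =>
      ((Real.sqrt (Ideal.absNorm v.asIdeal : ℝ) : ℝ) : ℂ)⁻¹ * ∑ h ∈ H, f p.1 (p.2 * z⁻¹ * h))
    refine continuous_const.mul (continuous_finsetSum _ fun h _ => ?_)
    have hm : Continuous fun p : Ω × G F => (p.1, p.2 * z⁻¹ * h) :=
      continuous_fst.prodMk ((continuous_snd.mul continuous_const).mul continuous_const)
    exact hf.comp hm
  · intro d hd hd1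
    show Continuous (fun p : Ω × G F =>
      ((Real.sqrt (Ideal.absNorm v.asIdeal : ℝ) : ℝ) : ℂ)⁻¹
          * ∑ h ∈ H, dStep589 v H z (d + 1) (f p.1) (p.2 * z⁻¹ * h)
        - dStep589 v H z d (f p.1) (p.2 * z⁻¹))
    refine Continuous.sub (continuous_const.mul (continuous_finsetSum _ fun h _ => ?_)) ?_
    · have hm : Continuous fun p : Ω × G F => (p.1, p.2 * z⁻¹ * h) :=
        continuous_fst.prodMk ((continuous_snd.mul continuous_const).mul continuous_const)
      exact hd1.comp hm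
    · have hm : Continuous fun p : Ω × G F => (p.1, p.2 * z⁻¹) :=
        continuous_fst.prodMk (continuous_snd.mul continuous_const)
      exact hd.comp hm

/-! ## ShT.5 -/

/-- **LEAF ShT.5 `DSuppC311`**, VERBATIM. -/
theorem dSuppC311_h90 (F : Type) [Field F] [NumberField F] : H311.DSuppC311 F := by
  intro Ω f C hC hfC v H z d
  -- the translates
  have hT : ∀ C₁ : Set (G F), IsCompact C₁ →
      IsCompact (⋃ h ∈ H, (fun g : G F => g * (z⁻¹ * h)⁻¹) '' C₁) := by
    intro C₁ hC₁
    exact H.finite_toSet.isCompact_biUnion fun h _ =>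
      hC₁.image (continuous_id.mul continuous_const)
  have hTmem : ∀ (C₁ : Set (G F)) (g h : G F), h ∈ H → g * z⁻¹ * h ∈ C₁ →
      g ∈ ⋃ h ∈ H, (fun g : G F => g * (z⁻¹ * h)⁻¹) '' C₁ := by
    intro C₁ g h hh hg
    refine Set.mem_biUnion (show h ∈ (H : Set (G F)) from hh) ⟨g * z⁻¹ * h, hg, ?_⟩
    show g * z⁻¹ * h * (z⁻¹ * h)⁻¹ = g
    group
  refine two_step90 (fun d => ∃ C' : Set (G F), IsCompact C' ∧
      ∀ (a : Ω) (h : G F), dStep589 v H z d (f a) h ≠ 0 → h ∈ C') ?_ ?_ ?_ d
  · refine ⟨C, hC, fun a h hne => hfC a h ?_⟩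
    intro h0
    apply hne
    rw [dStep_zero90, h0, mul_zero]
  · refine ⟨_, hT C hC, fun a g hne => ?_⟩
    rw [dStep_one90] at hne
    have hsum : ∑ h ∈ H, f a (g * z⁻¹ * h) ≠ 0 := right_ne_zero_of_mul hne
    obtain ⟨h, hh, hne'⟩ := Finset.exists_ne_zero_of_sum_ne_zero hsum
    exact hTmem C g h hh (hfC a _ hne')
  · rintro d ⟨C₀, hC₀, h₀⟩ ⟨C₁, hC₁, h₁⟩
    refine ⟨(⋃ h ∈ H, (fun g : G F => g * (z⁻¹ * h)⁻¹) '' C₁) ∪ (fun g : G F => g * z) '' C₀,
      (hT C₁ hC₁).union (hC₀.image (continuous_id.mul continuous_const)), fun a g hne => ?_⟩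
    rw [dStep_succ90] at hne
    by_cases hs : dStep589 v H z d (f a) (g * z⁻¹) = 0
    · rw [hs, sub_zero] at hne
      have hsum : ∑ h ∈ H, dStep589 v H z (d + 1) (f a) (g * z⁻¹ * h) ≠ 0 :=
        right_ne_zero_of_mul hne
      obtain ⟨h, hh, hne'⟩ := Finset.exists_ne_zero_of_sum_ne_zero hsum
      exact Or.inl (hTmem C₁ g h hh (h₁ a _ hne'))
    · refine Or.inr ⟨g * z⁻¹, h₀ a _ hs, ?_⟩
      show g * z⁻¹ * z = g
      group

/-! ## ShT.6 -/

/-- **LEAF ShT.6 `DIntC311`**, VERBATIM. -/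
theorem dIntC311_h90 (F : Type) [Field F] [NumberField F] : H311.DIntC311 F := by
  intro Ω _ _ _ _ ν _ f hf φ hφ v H z d
  have hcont := dContC311_h90 F Ω f hf v H z
  -- integrability of the sections
  have hint : ∀ (d : ℕ) (g : G F), Integrable (fun a : Ω => dStep589 v H z d (f a) g) ν := by
    intro d g
    have hc : Continuous fun a : Ω => dStep589 v H z d (f a) g :=
      (hcont d).comp (continuous_id.prodMk continuous_const)
    exact hc.integrable_of_hasCompactSupport (HasCompactSupport.of_compactSpace _)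
  refine two_step90 (fun d => ∀ h : G F, dStep589 v H z d φ h
      = ∫ a, dStep589 v H z d (f a) h ∂ν) ?_ ?_ ?_ d
  · intro h
    simp only [dStep_zero90]
    rw [integral_const_mul, hφ h]
  · intro h
    simp only [dStep_one90]
    rw [integral_const_mul, integral_finsetSum]
    · congr 1
      exact Finset.sum_congr rfl fun x _ => hφ _
    · intro x _
      have := hint 0 (h * z⁻¹ * x)
      simp only [dStep_zero90] at this
      have h2 : Integrable (fun a : Ω => (2 : ℂ)⁻¹ * (2 * f a (h * z⁻¹ * x))) ν :=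
        this.const_mul _
      refine h2.congr (Filter.Eventually.of_forall fun a => ?_)
      show (2 : ℂ)⁻¹ * (2 * f a (h * z⁻¹ * x)) = f a (h * z⁻¹ * x)
      rw [← mul_assoc, inv_mul_cancel₀ (two_ne_zero), one_mul]
  · intro d hd hd1 h
    simp only [dStep_succ90]
    rw [integral_sub, integral_const_mul, integral_finsetSum]
    · congr 1
      · congr 1
        exact Finset.sum_congr rfl fun x _ => hd1 _
      · exact hd _
    · intro x _
      exact hint (d + 1) _
    · refine Integrable.const_mul ?_ _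
      exact integrable_finsetSum _ fun x _ => hint (d + 1) _
    · exact hint d _

end Fermat.Agent.LT.T7.H90D

end

end
-- ===== PACK-END LT/T7/H90/DStep311.lean

-- ===== PACK-BEGIN LT/T7/H448/RegOp.lean
section





/-!
# Row LT, tower T7, leaf T7.L2.1.H2b.G2.6 `P51.RegOpC51` (helper448, registry row 2938): PROVED

OFF-MAIN.  No hole, nothing assumed.

    regOpC448 (K K') : P51.RegOpC51 K K'

VERBATIM vs `T7/P51/ConvAvgSpec.lean` (helper51, sha256 dc819a38).  The components of a pure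
tensor of the shape `LocOp51` are regular at the places of `T` and at infinity:

* bad places (`v ∈ T₀`, `v ≠ u`): the clauses `inv_up`, `inv_down` of the `LocHyp893` contained
  in `LocB893b` (double coset functions upstairs, the partner downstairs);
* the place `u` and its orbit: `regLoc51` of the Iwahori function and the Iwahori function are
  bi-invariant under the Iwahori subgroup with finite support (helper409,
  `isIwReg_regLoc409`, `isIwReg_iwFn409`), and `U(n) ⊆ I` for `n ≥ 1` (`one_le_level409`);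
* outside the level: the levels vanish (`levelAtC644`, helper644) and spherical functions are
  bi-`GL₂(𝒪)`-invariant with finite support (`sphInvC333`, helper333);
* at infinity: the clauses `arch_up`, `arch_down` of the same `LocHyp893`.
-/

set_option autoImplicit false

open AutomorphicForm IsDedekindDomain NumberField MeasureTheory
open scoped ComplexConjugate

noncomputable section

namespace Fermat.Agent.LT.T7.H448

open Fermat.Agent.LT.H556 Fermat.Agent.LT.H556.A0 Fermat.Agent.LT.T7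
open Fermat.Agent.LT.T7.H305 Fermat.Agent.LT.T7.H893 Fermat.Agent.LT.T7.P51
open Fermat.Agent.LT.T7.H409

variable (K K' : Type) [Field K] [NumberField K] [Field K'] [NumberField K'] [Algebra K K']

/-- **LEAF P.G2.6 = REG-OP of helper51's cut of `ProdMtCb`: PROVED.** -/
theorem regOpC448 : Fermat.Agent.LT.T7.P51.RegOpC51 K K' := by
  classical
  intro ℓ Φ B g 𝔫 μc T₀ n n₀ m hctx H' z' H z hsys k j T φ₀ Φ' f₀ F hT hop
  obtain ⟨φ₂, f₂, hB, hbad, hfu, hφ0, hφi, hout⟩ := hop
  obtain ⟨hLH, -, -, -, hsph, -⟩ := hB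
  have hlev : IsLevelAt305 T₀ n m :=
    Fermat.Agent.LT.T7.H644.levelAtC644 K K' 𝔫 T₀ n m hctx.mem_T₀ hctx.lev_m hctx.lev_n
  have hup : upI (K' := K') 𝔫 ≠ ⊥ := by
    show Ideal.map (algebraMap (𝓞 K) (𝓞 K')) 𝔫 ≠ ⊥
    intro h0
    exact hsys.level_ne ((Ideal.map_eq_bot_iff_of_injective
      (FaithfulSMul.algebraMap_injective (𝓞 K) (𝓞 K'))).mp h0)
  refine ⟨fun v hv => ?_, fun w => ⟨(hLH.arch_up w).1, (hLH.arch_up w).2.1⟩,
    fun v => ⟨(hLH.arch_down v).1, (hLH.arch_down v).2.1⟩⟩
  by_cases hv0 : v ∈ T₀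
  · by_cases hvu : v = B.u
    · -- the place `u` and its orbit
      subst hvu
      refine ⟨fun w hw => ?_, ?_⟩
      · obtain ⟨i, hi, rfl⟩ := hctx.base.orbit_all w hw
        have hn1 : 1 ≤ n (B.o i) :=
          one_le_level409 hup hctx.lev_n
            ((hsys.mem_S'_g (B.o i)).mp (hctx.base.orbit_level i))
        have hreg : IsIwReg409 (B.o i) (n (B.o i)) (φ₀ (B.o i)) := by
          by_cases hi0 : B.o i = B.o 0
          · rw [hi0, hφ0]
            exact isIwReg_regLoc409 _ hsys.sys' hsys.unif' k j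
          · have hipos : 0 < i := by
              rcases Nat.eq_zero_or_pos i with h | h
              · exact absurd (by rw [h]) hi0
              · exact h
            rw [hφi i hipos (by rw [hctx.base.deg]; exact hi)]
            exact isIwReg_iwFn409 _
        exact ⟨isBiInv_of_isIwReg409 hn1 hreg, hreg.2.2⟩
      · have hm1 : 1 ≤ m B.u := one_le_level409 hsys.level_ne hctx.lev_m hsys.u_level
        have hreg : IsIwReg409 B.u (m B.u) (f₀ B.u) := by
          rw [hfu]
          exact isIwReg_regLoc409 _ hsys.sys hsys.unif k j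
        exact ⟨isBiInv_of_isIwReg409 hm1 hreg, hreg.2.2⟩
    · -- the bad places
      obtain ⟨hf, hφ⟩ := hbad v hv0 hvu
      refine ⟨fun w hw => ?_, ?_⟩
      · rw [hφ w hw]
        exact hLH.inv_up v (Finset.mem_erase.2 ⟨hvu, hv0⟩) w hw
      · rw [hf]
        exact hLH.inv_down v (Finset.mem_erase.2 ⟨hvu, hv0⟩)
  · -- outside the level
    obtain ⟨hf, hφ⟩ := hout v hv hv0
    obtain ⟨A, Av, hAv, hA, -, -⟩ := hsph v hv hv0
    refine ⟨fun w hw => ?_, ?_⟩
    · rw [hφ w hw, hlev.2 v w hv0 hw]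
      exact Fermat.Agent.LT.T7.H333.sphInvC333 K' w (φ₂ w) (A w) (hA w hw)
    · rw [hf, hlev.1 v hv0]
      exact Fermat.Agent.LT.T7.H333.sphInvC333 K v (f₂ v) Av hAv

end Fermat.Agent.LT.T7.H448

end

end
-- ===== PACK-END LT/T7/H448/RegOp.lean

-- ===== PACK-BEGIN LT/T7/H615/RegSph.lean
section





/-!
# Row LT, tower T7, leaf T7.L2.1.H2b.L2 `RegSphC51` (registry 2828) -- helper615, OFF-MAIN

    regSphC615 (K K') : P51.RegSphC51 K K'        VERBATIM, UNCONDITIONAL

Spec: `LT/T7/P51/ProdMtSpec.lean` (helper51@818b57489, sha256 4b4a6c6c) on the master bytes of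
its closure (`T6/Spec` c1b839bc, `T5/Spec` 8bcd82df, `T7/H305/MatchSpec` 0e8798b2).

Proof.  Outside the level the exponents vanish (`levelAtC644`, helper644), so the groups are
`U(0) = GL₂(𝒪)`.  By the clause "outside the level" of `LocProd51` the components are
convolution products (`T6.IsConv (T6.InU 0)`) of two factors, each of which is a spherical
function (`SphOut893` of `LocA893` / `LocB893b`) or the unit `unitFn893 0`.  The factors are
bi-invariant with finite support modulo `U(0)` (`sphInvC315`, helper315, for the spherical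
functions; directly for the unit), and these properties pass to convolution products
(`isConv_reg615`, for every group and every subgroup predicate: the sum over a system of
representatives of a right invariant function does not depend on the system).
-/

set_option autoImplicit false

open AutomorphicForm IsDedekindDomain NumberField MeasureTheory

noncomputable section

namespace Fermat.Agent.LT.T7.H615

open Fermat.Agent.LT.H556 Fermat.Agent.LT.H556.A0 Fermat.Agent.LT.T7
open Fermat.Agent.LT.T7.H305 Fermat.Agent.LT.T7.H893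

/-! ## 1. Convolution products: the general core (any group, any subgroup predicate) -/

section Core

variable {Γ : Type} [Group Γ]

/-- The sum of a right `U`-invariant function over a system of representatives of distinct
cosets which covers its support does not depend on the system; more generally two such sums
for `f` on `R'` and `F` on `R` agree when `f h = F (a * h)`. -/
theorem sum_transl_reps615 (U : Γ → Prop) (hmul : ∀ a b : Γ, U a → U b → U (a * b))
    (hinv : ∀ a : Γ, U a → U a⁻¹) (F f : Γ → ℂ) (a : Γ)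
    (hF : ∀ h u : Γ, U u → F (h * u) = F h) (hf : ∀ h : Γ, f h = F (a * h))
    (R R' : Finset Γ)
    (hRd : ∀ h ∈ R, ∀ h' ∈ R, (∃ u : Γ, U u ∧ h' = h * u) → h = h')
    (hRc : ∀ h : Γ, F h ≠ 0 → ∃ h' ∈ R, ∃ u : Γ, U u ∧ h = h' * u)
    (hR'd : ∀ h ∈ R', ∀ h' ∈ R', (∃ u : Γ, U u ∧ h' = h * u) → h = h')
    (hR'c : ∀ h : Γ, f h ≠ 0 → ∃ h' ∈ R', ∃ u : Γ, U u ∧ h = h' * u) :
    ∑ h ∈ R', f h = ∑ h ∈ R, F h := by
  classical
  have hex : ∀ h : Γ, f h ≠ 0 → ∃ r ∈ R, ∃ u : Γ, U u ∧ a * h = r * u := fun h hh =>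
    hRc (a * h) (by rwa [← hf])
  choose! ρ hρR w hw hρ using hex
  refine Finset.sum_bij_ne_zero (fun h _ _ => ρ h) (fun h _ hh => hρR h hh) ?_ ?_ ?_
  · intro h₁ hm₁ hh₁ h₂ hm₂ hh₂ he
    have he' : ρ h₁ = ρ h₂ := he
    refine hR'd h₁ hm₁ h₂ hm₂ ⟨(w h₁)⁻¹ * w h₂, hmul _ _ (hinv _ (hw h₁ hh₁)) (hw h₂ hh₂), ?_⟩
    have e₁ := hρ h₁ hh₁
    have e₂ := hρ h₂ hh₂
    have : a * h₂ = a * (h₁ * ((w h₁)⁻¹ * w h₂)) := by
      calc a * h₂ = ρ h₁ * w h₂ := by rw [e₂, he']
        _ = (a * h₁) * ((w h₁)⁻¹ * w h₂) := by rw [e₁, mul_assoc, mul_inv_cancel_left]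
        _ = a * (h₁ * ((w h₁)⁻¹ * w h₂)) := mul_assoc _ _ _
    exact mul_left_cancel this
  · intro r hr hFr
    have hfne : f (a⁻¹ * r) ≠ 0 := by rw [hf, mul_inv_cancel_left]; exact hFr
    obtain ⟨h, hh, u, hu, e⟩ := hR'c _ hfne
    have e'' : a * h = r * u⁻¹ := by
      rw [eq_mul_inv_iff_mul_eq, mul_assoc, ← e, mul_inv_cancel_left]
    have hfh : f h ≠ 0 := by
      rw [hf, e'', hF r _ (hinv _ hu)]; exact hFr
    refine ⟨h, hh, hfh, ?_⟩
    refine (hRd r hr _ (hρR h hfh)
      ⟨u⁻¹ * (w h)⁻¹, hmul _ _ (hinv _ hu) (hinv _ (hw h hfh)), ?_⟩).symm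
    rw [← mul_assoc, ← e'', hρ h hfh, mul_inv_cancel_right]
  · intro h _ hh
    show f h = F (ρ h)
    rw [hf, hρ h hh, hF _ _ (hw h hh)]

/-- **Convolution products of bi-invariant functions with finite support are bi-invariant with
finite support** (`T6.IsConv`; any group, any subgroup predicate). -/
theorem isConv_reg615 (U : Γ → Prop) (hone : U 1) (hmul : ∀ a b : Γ, U a → U b → U (a * b))
    (hinv : ∀ a : Γ, U a → U a⁻¹) (φ ψ χ : Γ → ℂ)
    (hφ : T6.IsBiInv U φ) (hψ : T6.IsBiInv U ψ)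
    (hφf : T6.HasFinSupp U φ) (hψf : T6.HasFinSupp U ψ)
    (h : T6.IsConv U φ ψ χ) : T6.IsBiInv U χ ∧ T6.HasFinSupp U χ := by
  classical
  have hφr : ∀ x u : Γ, U u → φ (x * u) = φ x := fun x u hu => by
    have := hφ 1 u x hone hu
    rwa [one_mul] at this
  have hφl : ∀ x u : Γ, U u → φ (u * x) = φ x := fun x u hu => by
    have := hφ u 1 x hu hone
    rwa [mul_one] at this
  have hψr : ∀ x u : Γ, U u → ψ (x * u) = ψ x := fun x u hu => by
    have := hψ 1 u x hone hu
    rwa [one_mul] at this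
  have hψl : ∀ x u : Γ, U u → ψ (u * x) = ψ x := fun x u hu => by
    have := hψ u 1 x hu hone
    rwa [mul_one] at this
  constructor
  · intro u u' g hu hu'
    obtain ⟨R, hRd, hRc, hR⟩ := h g
    obtain ⟨R', hR'd, hR'c, hR'⟩ := h (u * g * u')
    rw [hR, hR']
    refine sum_transl_reps615 U hmul hinv (fun h => φ h * ψ (h⁻¹ * g))
      (fun h => φ h * ψ (h⁻¹ * (u * g * u'))) u⁻¹ ?_ ?_ R R' hRd hRc hR'd hR'c
    · intro x w hw
      show φ (x * w) * ψ ((x * w)⁻¹ * g) = φ x * ψ (x⁻¹ * g)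
      rw [hφr x w hw, mul_inv_rev, mul_assoc, hψl _ _ (hinv _ hw)]
    · intro x
      show φ x * ψ (x⁻¹ * (u * g * u')) = φ (u⁻¹ * x) * ψ ((u⁻¹ * x)⁻¹ * g)
      rw [hφl x _ (hinv _ hu), mul_inv_rev, inv_inv]
      have : x⁻¹ * (u * g * u') = x⁻¹ * u * g * u' := by group
      rw [this, hψr _ _ hu']
  · obtain ⟨Fφ, hFφ⟩ := hφf
    obtain ⟨Fψ, hFψ⟩ := hψf
    refine ⟨(Fφ ×ˢ Fψ).image (fun p => p.1 * p.2), fun g hg => ?_⟩
    obtain ⟨R, -, -, hR⟩ := h g
    rw [hR] at hg
    obtain ⟨x, -, hx⟩ := Finset.exists_ne_zero_of_sum_ne_zero hg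
    have hφx : φ x ≠ 0 := left_ne_zero_of_mul hx
    have hψx : ψ (x⁻¹ * g) ≠ 0 := right_ne_zero_of_mul hx
    obtain ⟨a, ha, u, hu, e⟩ := hFφ x hφx
    have hψa : ψ (a⁻¹ * g) ≠ 0 := by
      have : a⁻¹ * g = u * (x⁻¹ * g) := by rw [e]; group
      rw [this, hψl _ _ hu]; exact hψx
    obtain ⟨b, hb, u', hu', e'⟩ := hFψ _ hψa
    refine ⟨a * b, Finset.mem_image.2 ⟨(a, b), Finset.mem_product.2 ⟨ha, hb⟩, rfl⟩, u', hu', ?_⟩
    rw [mul_assoc, ← e', mul_inv_cancel_left]

end Core

/-! ## 2. The factors at a place outside the level -/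

section Local

variable {k : Type} [Field k] [Valued k T6.Γ₀]

theorem inU_zero_one615 : T6.InU 0 (1 : GL (Fin 2) k) :=
  (T6.H305.inU_zero_iff _).2 T6.H305.inK_one

theorem inU_zero_mul615 (a b : GL (Fin 2) k) (ha : T6.InU 0 a) (hb : T6.InU 0 b) :
    T6.InU 0 (a * b) :=
  (T6.H305.inU_zero_iff _).2
    (T6.H305.inK_mul ((T6.H305.inU_zero_iff _).1 ha) ((T6.H305.inU_zero_iff _).1 hb))

theorem inU_zero_inv615 (a : GL (Fin 2) k) (ha : T6.InU 0 a) : T6.InU 0 a⁻¹ :=
  (T6.H305.inU_zero_iff _).2 (T6.H305.inK_inv ((T6.H305.inU_zero_iff _).1 ha))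

/-- The unit function of level `0` is bi-invariant with finite support. -/
theorem unitFn_reg615 :
    T6.IsBiInv (T6.InU 0) (unitFn893 (k := k) 0)
      ∧ T6.HasFinSupp (T6.InU 0) (unitFn893 (k := k) 0) := by
  classical
  constructor
  · intro u u' g hu hu'
    have hiff : T6.InU 0 (u * g * u') ↔ T6.InU 0 g := by
      constructor
      · intro h
        have h1 := inU_zero_mul615 _ _ (inU_zero_mul615 _ _ (inU_zero_inv615 _ hu) h)
          (inU_zero_inv615 _ hu')
        have e : u⁻¹ * (u * g * u') * u'⁻¹ = g := by group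
        rwa [e] at h1
      · intro h
        exact inU_zero_mul615 _ _ (inU_zero_mul615 _ _ hu h) hu'
    unfold unitFn893
    by_cases hg : T6.InU 0 g
    · rw [if_pos hg, if_pos (hiff.2 hg)]
    · rw [if_neg hg, if_neg (fun h => hg (hiff.1 h))]
  · refine ⟨{1}, fun g hg => ⟨1, Finset.mem_singleton_self _, g, ?_, (one_mul g).symm⟩⟩
    by_contra hn
    exact hg (by unfold unitFn893; rw [if_neg hn])

end Local

/-! ## 3. The leaf -/

section Leaf

variable (K K' : Type) [Field K] [NumberField K] [Field K'] [NumberField K'] [Algebra K K']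

/-- **LEAF T7.L2.1.H2b.L2 = REG-SPH** (`P51.RegSphC51 K K'`, VERBATIM, UNCONDITIONAL). -/
theorem regSphC615 : P51.RegSphC51 K K' := by
  classical
  intro ℓ Φ B g 𝔫 μc T₀ n n₀ m H' z' H z t k j T φ₀ Φ' f₀ F hloc v hvT hv
  obtain ⟨hctx, -, -, hprod⟩ := hloc
  obtain ⟨hm0, hn0⟩ := H644.levelAtC644 K K' 𝔫 T₀ n m hctx.mem_T₀ hctx.lev_m hctx.lev_n
  obtain ⟨T₁, T₂, φ₁, Φ₁, f₁, F₁, φ₂, Φ₂, f₂, F₂, hT, -, -, hA, hBb, -, -, -, -, hout, -, -⟩ :=
    hprod
  obtain ⟨hcv, hcw⟩ := hout v hvT hv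
  have hsphA : SphOut893 B.l T₀ T₁ φ₁ f₁ := hA.2.2.1
  have hsphB : SphOut893 B.l T₀ T₂ φ₂ f₂ := hBb.2.2.2.2.1
  -- the factors downstairs
  have hf1 : T6.IsBiInv (T6.InU 0) (if v ∈ T₁ then f₁ v else unitFn893 0)
      ∧ T6.HasFinSupp (T6.InU 0) (if v ∈ T₁ then f₁ v else unitFn893 0) := by
    by_cases h1 : v ∈ T₁
    · rw [if_pos h1]
      obtain ⟨A, Av, hAv, -, -, -⟩ := hsphA v h1 hv
      exact H315.sphInvC315 K v _ Av hAv
    · rw [if_neg h1]; exact unitFn_reg615
  have hf2 : T6.IsBiInv (T6.InU 0) (if v ∈ T₂ then f₂ v else unitFn893 0)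
      ∧ T6.HasFinSupp (T6.InU 0) (if v ∈ T₂ then f₂ v else unitFn893 0) := by
    by_cases h2 : v ∈ T₂
    · rw [if_pos h2]
      obtain ⟨A, Av, hAv, -, -, -⟩ := hsphB v h2 hv
      exact H315.sphInvC315 K v _ Av hAv
    · rw [if_neg h2]; exact unitFn_reg615
  refine ⟨fun w hw => ?_, ?_⟩
  · -- upstairs
    have hp1 : T6.IsBiInv (T6.InU 0) (if v ∈ T₁ then φ₁ w else unitFn893 0)
        ∧ T6.HasFinSupp (T6.InU 0) (if v ∈ T₁ then φ₁ w else unitFn893 0) := by
      by_cases h1 : v ∈ T₁
      · rw [if_pos h1]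
        obtain ⟨A, Av, -, hAw, -, -⟩ := hsphA v h1 hv
        exact H315.sphInvC315 K' w _ (A w) (hAw w hw)
      · rw [if_neg h1]; exact unitFn_reg615
    have hp2 : T6.IsBiInv (T6.InU 0) (if v ∈ T₂ then φ₂ w else unitFn893 0)
        ∧ T6.HasFinSupp (T6.InU 0) (if v ∈ T₂ then φ₂ w else unitFn893 0) := by
      by_cases h2 : v ∈ T₂
      · rw [if_pos h2]
        obtain ⟨A, Av, -, hAw, -, -⟩ := hsphB v h2 hv
        exact H315.sphInvC315 K' w _ (A w) (hAw w hw)
      · rw [if_neg h2]; exact unitFn_reg615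
    rw [hn0 v w hv hw]
    exact isConv_reg615 (T6.InU 0) inU_zero_one615 inU_zero_mul615 inU_zero_inv615 _ _ _
      hp1.1 hp2.1 hp1.2 hp2.2 (hcw w hw)
  · rw [hm0 v hv]
    exact isConv_reg615 (T6.InU 0) inU_zero_one615 inU_zero_mul615 inU_zero_inv615 _ _ _
      hf1.1 hf2.1 hf1.2 hf2.2 hcv

end Leaf

end Fermat.Agent.LT.T7.H615

end

end
-- ===== PACK-END LT/T7/H615/RegSph.lean

-- ===== PACK-BEGIN LT/T7/H681/SphHyp.lean
section






/-!
# Row LT, tower T7, node T7.L2.1.H2b.3 `H893.SphHypC893` (helper681, SPARE), OFF-MAIN -- part 2: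
# the node from the tower Prop of T6

No hole, nothing assumed.  ADDITIVE (new names only, suffix `681`, namespace
`Fermat.Agent.LT.T7.H681`).

    sphHyp_of681 (K K') : T6.T6Out → H893.SphHypC893 K K'        (VERBATIM)

Proof.  Places of `T₀`: the hypothesis.  `v ∈ T ∖ T₀`: the levels are `0` (`IsLevelAt305`), the
components are spherical (`SphOut893`).
* `inv_up`, `inv_down`: the Cartan invariant is bi-`GL₂(𝒪)`-invariant; the explicit system of
  representatives `T3.H681.sphSys681`.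
* `inert`: `e = 1` (`H938.e_eq_one938`), the residue fields (`H938.inert_data938`), the
  fundamental lemma `T6.FundLemmaC` for `T6.IsBC` (clause of `SphOut893`).
* `split`: the enumeration of helper311 (`H311.enumExistsC311`); it is injective on `[0, l)`
  (`sh_enum_inj681`), so the clause of `SphOut893` gives the Satake transform of the component
  downstairs; the convolution product of the components upstairs is spherical with the same
  Satake transform (`T3.H681.split_sph681`), and the Satake transform is injective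
  (`satT_inj681`).
-/

set_option autoImplicit false
set_option linter.unusedSectionVars false
set_option linter.unusedVariables false

open AutomorphicForm IsDedekindDomain NumberField MeasureTheory
open scoped ComplexConjugate

noncomputable section

namespace Fermat.Agent.LT.T7.H681

open Fermat.Agent.LT.H556 Fermat.Agent.LT.H556.A0 Fermat.Agent.LT.T7 Fermat.Agent.LT.T7.H305
open Fermat.Agent.LT.T7.H893
open Fermat.Agent.LT

/-! ## 1. Local lemmas -/

section Local

variable {k k' : Type} [Field k] [Valued k T6.Γ₀] [Field k'] [Valued k' T6.Γ₀]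

theorem sh_map_apply681 (i : k ≃+* k') (g : GL (Fin 2) k) (a b : Fin 2) :
    ((Matrix.GeneralLinearGroup.map (i : k →+* k') g : GL (Fin 2) k') :
        Matrix (Fin 2) (Fin 2) k') a b = i ((g : Matrix (Fin 2) (Fin 2) k) a b) := by
  simp

theorem sh_map_det681 (i : k ≃+* k') (g : GL (Fin 2) k) :
    ((Matrix.GeneralLinearGroup.map (i : k →+* k') g : GL (Fin 2) k') :
        Matrix (Fin 2) (Fin 2) k').det = i ((g : Matrix (Fin 2) (Fin 2) k).det) := by
  rw [Matrix.det_fin_two, Matrix.det_fin_two, sh_map_apply681, sh_map_apply681, sh_map_apply681,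
    sh_map_apply681, map_sub, map_mul, map_mul]

theorem sh_entryMax_map681 (i : k ≃+* k') (hi : ∀ x : k, Valued.v (i x) = Valued.v x)
    (g : GL (Fin 2) k) :
    T6.entryMax (Matrix.GeneralLinearGroup.map (i : k →+* k') g) = T6.entryMax g := by
  unfold T6.entryMax
  refine Finset.sup'_congr _ rfl (fun p _ => ?_)
  rw [sh_map_apply681, hi]

/-- A valuation preserving isomorphism preserves the Cartan invariant. -/
theorem sh_cartan_map681 (i : k ≃+* k') (hi : ∀ x : k, Valued.v (i x) = Valued.v x)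
    (g : GL (Fin 2) k) :
    T6.cartan (Matrix.GeneralLinearGroup.map (i : k →+* k') g) = T6.cartan g := by
  unfold T6.cartan
  rw [sh_entryMax_map681 i hi g, sh_map_det681, hi]

/-- A spherical function is bi-`GL₂(𝒪)`-invariant. -/
theorem sh_biInv681 (A : (ℤ × ℤ) →₀ ℂ) :
    T6.IsBiInv (T6.InU 0) (fun g : GL (Fin 2) k => A (T6.cartan g)) := by
  intro u u' g hu hu'
  show A (T6.cartan (u * g * u')) = A (T6.cartan g)
  rw [T3.H681.cartan_mul_right681 _ _ ((T6.H305.inU_zero_iff _).1 hu'),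
    T3.H681.cartan_mul_left681 _ _ ((T6.H305.inU_zero_iff _).1 hu)]

/-- A spherical function has finite support modulo `GL₂(𝒪)`. -/
theorem sh_finSupp681 (D : T6.H305.ResData k) (A : (ℤ × ℤ) →₀ ℂ) (hA : T6.IsDominant A) :
    T6.HasFinSupp (T6.InU 0) (fun g : GL (Fin 2) k => A (T6.cartan g)) := by
  obtain ⟨_, hcov⟩ := T3.H681.sph_rep681 D A hA
  refine ⟨T3.H681.sphSys681 D A, fun g hg => ?_⟩
  obtain ⟨h, hh, hK⟩ := hcov g hg
  exact ⟨h, hh, h⁻¹ * g, (T6.H305.inU_zero_iff _).2 hK, by group⟩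

end Local

/-! ## 2. The enumeration is injective -/

/-- A sequence with `R (w (j+1)) (w j)` for a right-unique relation `R` and `w j ≠ w 0` for
`0 < j < l` is injective on `[0, l)`. -/
theorem sh_enum_inj681 {X : Type} (R : X → X → Prop)
    (hR : ∀ a b b' : X, R a b → R a b' → b = b') (l : ℕ) (w : ℕ → X)
    (hrel : ∀ j : ℕ, R (w (j + 1)) (w j)) (hne : ∀ j : ℕ, 0 < j → j < l → w j ≠ w 0) :
    ∀ j j' : ℕ, j < l → j' < l → w j = w j' → j = j' := by
  have key : ∀ d j : ℕ, w j = w (j + d) → w 0 = w d := by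
    intro d j
    induction j with
    | zero =>
      intro h
      rw [Nat.zero_add] at h
      exact h
    | succ j ih =>
      intro h
      apply ih
      have h1 := hrel j
      have h2 := hrel (j + d)
      have e : j + 1 + d = j + d + 1 := by omega
      rw [e] at h
      rw [h] at h1
      exact hR _ _ _ h1 h2
  intro j j' hj hj' hww
  by_contra hjj
  rcases Nat.lt_or_gt_of_ne hjj with hlt | hlt
  · have h1 : w j = w (j + (j' - j)) := by
      rw [Nat.add_sub_cancel' hlt.le]
      exact hww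
    exact hne (j' - j) (by omega) (by omega) (key (j' - j) j h1).symm
  · have h1 : w j' = w (j' + (j - j')) := by
      rw [Nat.add_sub_cancel' hlt.le]
      exact hww.symm
    exact hne (j - j') (by omega) (by omega) (key (j - j') j' h1).symm

/-! ## 3. The node -/

variable (K K' : Type) [Field K] [NumberField K] [Field K'] [NumberField K'] [Algebra K K']

/-- **NODE T7.L2.1.H2b.3 = SPH-HYP** from the tower Prop of T6 (VERBATIM
`H893.SphHypC893`). -/
theorem sphHyp_of681 (hT6 : T6.T6Out) : H893.SphHypC893 K K' := by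
  intro D hD hc _ _ μc _ T₀ hun n m hlev T hT₀T φ₀ Φ f₀ F hyp hsph
  have hT6' := hT6
  obtain ⟨_, _, _, _, _, hIL, hIE, _, _, _, _, _, _, hFL, _⟩ := hT6
  classical
  have hm0 : ∀ v, v ∉ T₀ → m v = 0 := fun v hv => hlev.1 v hv
  have hn0 : ∀ v, v ∉ T₀ → ∀ w, PlaceOver K K' v w → n w = 0 := fun v hv w hvw =>
    hlev.2 v w hv hvw
  refine { inv_up := ?_, inv_down := ?_, arch_up := hyp.arch_up, arch_down := hyp.arch_down,
           inert := ?_, split := ?_, arch := hyp.arch }
  · -- inv_up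
    intro v hv w hvw
    by_cases hv0 : v ∈ T₀
    · exact hyp.inv_up v hv0 w hvw
    · obtain ⟨A, Av, hfv, hφw, -, -⟩ := hsph v hv hv0
      obtain ⟨Dw, -⟩ := T6.H305.exists_resData (hIL K' w)
      have e : φ₀ w = fun g => A w (T6.cartan g) := funext (hφw w hvw).2
      rw [hn0 v hv0 w hvw, e]
      exact ⟨sh_biInv681 _, sh_finSupp681 Dw _ (hφw w hvw).1⟩
  · -- inv_down
    intro v hv
    by_cases hv0 : v ∈ T₀
    · exact hyp.inv_down v hv0
    · obtain ⟨A, Av, hfv, -, -, -⟩ := hsph v hv hv0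
      obtain ⟨Dv, -⟩ := T6.H305.exists_resData (hIL K v)
      have e : f₀ v = fun g => Av (T6.cartan g) := funext hfv.2
      rw [hm0 v hv0, e]
      exact ⟨sh_biInv681 _, sh_finSupp681 Dv _ hfv.1⟩
  · -- inert
    intro v hv w hvw huniq e i sw hi hsw hext
    by_cases hv0 : v ∈ T₀
    · exact hyp.inert v hv0 w hvw huniq e i sw hi hsw hext
    · obtain ⟨A, Av, hfv, hφw, hbc, -⟩ := hsph v hv hv0
      have hunr := hun v hv0 w hvw
      have he : e = 1 := H938.e_eq_one938 hunr e hext.e_pos i hi hext.val_i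
      subst he
      obtain ⟨hk, hk'⟩ := H938.inert_data938 hIL hIE D.l hc hvw huniq hunr
      have e1 : φ₀ w = fun g => A w (T6.cartan g) := funext (hφw w hvw).2
      have e2 : f₀ v = fun g => Av (T6.cartan g) := funext hfv.2
      rw [hn0 v hv0 w hvw, hm0 v hv0, e1, e2]
      exact ⟨fun δ γ c c' hreg hconj hc1 hc2 =>
          hFL.1 _ _ _ D.l i sw hk hk' hext hc.prime _ _ (hφw w hvw).1 hfv.1
            (hbc w hvw huniq) δ γ c c' hreg trivial hconj hc1 hc2,
        fun γ c' hreg hnn hc2 =>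
          hFL.2 _ _ _ D.l i sw hk hk' hext hc.prime _ _ (hφw w hvw).1 hfv.1
            (hbc w hvw huniq) γ c' hreg hnn hc2⟩
  · -- split
    intro v hv hsp
    by_cases hv0 : v ∈ T₀
    · exact hyp.split v hv0 hsp
    · obtain ⟨A, Av, hfv, hφw, -, hsplit⟩ := hsph v hv hv0
      obtain ⟨w, i, hover, hrel, hne, hi1, hi2⟩ :=
        H311.enumExistsC311 K K' hT6' D hD hc T₀ hun v hv0 hsp
      refine ⟨w, i, hover, hrel, hne, hi1, hi2,
        fun j => by rw [hn0 v hv0 (w j) (hover j), hm0 v hv0], ?_⟩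
      have hinj : ∀ j j' : ℕ, j < D.l → j' < D.l → w j = w j' → j = j' :=
        sh_enum_inj681 (fun a b : HeightOneSpectrum (𝓞 K') => T5.PlaceRel D.s a b)
          (fun a b b' h1 h2 => HeightOneSpectrum.ext (h1.trans h2.symm)) D.l w hrel hne
      have hsat := hsplit w hover hinj
      obtain ⟨Dv, hDv⟩ := T6.H305.exists_resData (hIL K v)
      obtain ⟨Av', hAv', hprod, hsat', -⟩ := T3.H681.split_sph681 v D.l hc.prime.pos
        (fun j => A (w j)) (fun j _ => (hφw (w j) (hover j)).1)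
      have hAvEq : Av = Av' := by
        apply satT_inj681 Dv Av Av' hfv.1 hAv'
        intro x y hx hy
        rw [hDv, hsat' x y hx hy]
        exact hsat x y hx hy
      have e1 : (fun (j : ℕ) (g : GL (Fin 2) (v.adicCompletion K)) =>
          φ₀ (w j) (Matrix.GeneralLinearGroup.map
            ((i j : v.adicCompletion K ≃+* _) :
              v.adicCompletion K →+* (w j).adicCompletion K') g))
          = fun j g => A (w j) (T6.cartan g) := by
        funext j g
        rw [(hφw (w j) (hover j)).2, sh_cartan_map681 (i j) (hi2 j) g]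
      have e2 : f₀ v = fun g => Av' (T6.cartan g) := by
        funext g
        rw [hfv.2 g, hAvEq]
      rw [hm0 v hv0, e1, e2]
      exact hprod

example (hT6 : T6.T6Out) : H893.SphHypC893 K K' := sphHyp_of681 K K' hT6

end Fermat.Agent.LT.T7.H681

end

end
-- ===== PACK-END LT/T7/H681/SphHyp.lean

-- ===== PACK-BEGIN LT/T7/H309/Dn2Top.lean
section



/-!
# Row LT, tower T7, leaf T7.L2.1.H2a.4.5 `Dn2C970` (helper309, registry 2866): CUT BY FIELDS -- Top

OFF-MAIN.  PROVED, nothing assumed: the five leaves of `Dn2Spec.lean` give `B970.Dn2C970`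
VERBATIM.
-/

set_option autoImplicit false

open AutomorphicForm IsDedekindDomain NumberField MeasureTheory
open scoped ComplexConjugate

noncomputable section

namespace Fermat.Agent.LT.T7.H309.Dn2

open Fermat.Agent.LT.H556 Fermat.Agent.LT.H556.A0 Fermat.Agent.LT.T7
open Fermat.Agent.LT.T7.H305 Fermat.Agent.LT.T7.H893 Fermat.Agent.LT.T7.B981
open Fermat.Agent.LT.T7.B970

attribute [local instance] Fermat.Agent.LT.T5.instMeasurableSpaceG

variable {K K' : Type} [Field K] [NumberField K] [Field K'] [NumberField K'] [Algebra K K']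

/-- **THE TOP OF THE CUT BY FIELDS.** -/
theorem dn2C_of309 (hA : Dn2NatC309 K K') (hB : Dn2WfnC309 K K') (hC : Dn2ClassC309 K K')
    (hD : Dn2CommC309 K K') (hE : Dn2SuppC309 K K') : B970.Dn2C970 K K' := by
  intro ℓ hcyc hℓ htot Φ hcusp hfib B hB0 hram 𝔫 hlvl μc hμc T₀ n n₀ m hexp a D a' D' hrel
    s β b hb hwt c₁ Φ₁ F₁ hpair hshape c
  have hyp : IsDn2Hyp309 ℓ Φ B 𝔫 μc T₀ n n₀ m a D a' D' s β b c₁ Φ₁ F₁ :=
    ⟨hcyc, hℓ, htot, hcusp, hfib, hB0, hram, hlvl, hμc, hexp, hrel, hb, hwt, hpair, hshape⟩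
  obtain ⟨h1, h2, h3, h7⟩ :=
    hA ℓ Φ B 𝔫 μc T₀ n n₀ m a D a' D' s β b c₁ Φ₁ F₁ hyp c
  have h4 := hB ℓ Φ B 𝔫 μc T₀ n n₀ m a D a' D' s β b c₁ Φ₁ F₁ hyp c
  have h5 := hC ℓ Φ B 𝔫 μc T₀ n n₀ m a D a' D' s β b c₁ Φ₁ F₁ hyp c
  have h6 := hD ℓ Φ B 𝔫 μc T₀ n n₀ m a D a' D' s β b c₁ Φ₁ F₁ hyp c
  have h8 := hE ℓ Φ B 𝔫 μc T₀ n n₀ m a D a' D' s β b c₁ Φ₁ F₁ hyp c
  exact
    { dn2_test := h1
      dn2_ek := h2
      dn2_inv := h3
      dn2_wfn := h4
      dn2_class := fun ψ e he =>
        ⟨h4 ψ he.inv, (h5 ψ e he).1, (h5 ψ e he).2⟩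
      dn2_comm := h6
      dn2_kill := h7
      dn2_supp := h8 }

end Fermat.Agent.LT.T7.H309.Dn2

end

end
-- ===== PACK-END LT/T7/H309/Dn2Top.lean

-- ===== PACK-BEGIN LT/T7/H661/Dn2Comm.lean
section



/-!
# Row LT, tower T7, leaf T7.L2.1.H2a.4.5.D `Dn2CommC309` (helper661, registry 3032)

OFF-MAIN.  ADDITIVE (new names only, suffix `661`).  Vocabulary: `T7/H309/Dn2Spec` (helper309,
sha256 2e8b57c8), kit `T7/H340/IwKit` (helper340, sha256 93078bb8) with the tools of helper129;
byte-identical copies.  No hole, nothing assumed beyond the two sister leaves.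

    dn2Comm661 : Dn2NatC309 K K' → Dn2SuppC309 K K' → Dn2CommC309 K K'      (CONDITIONAL FORM)

The sister leaf `Dn2NatC309` is used ONLY through its first clause (`f₂` is a test function:
continuous with compact support, so that the finite sum can be taken out of the integral), and
`Dn2SuppC309` ONLY through `f₂ y ≠ 0 → InIwahori u y`.

* `central_scalar661` : a scalar uniformiser is central.
* `rconv_shift661` : `R(φ)` commutes with the translation by `z ^ k` (every `φ`, `ψ`, `μ`).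
* `iwSum_swap661` : for `y` in the Iwahori subgroup at `u` and `ψ` right invariant under the
  local elements of the Iwahori subgroup at `u`:  `∑_h ψ(x y h) = ∑_h ψ(x h y)`.
* `rconv_iwOp661` : `R(φ)` commutes with the Iwahori operator at `u` for `φ` continuous with
  compact support, supported in `{y : y_u ∈ I_u}`, `ψ` continuous and Iwahori invariant.
-/

set_option autoImplicit false

open AutomorphicForm IsDedekindDomain NumberField MeasureTheory
open scoped ComplexConjugate

noncomputable section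

namespace Fermat.Agent.LT.T7.H661

open Fermat.Agent.LT.H556 Fermat.Agent.LT.H556.A0 Fermat.Agent.LT.T7 Fermat.Agent.LT.H129
open Fermat.Agent.LT.T7.H305 Fermat.Agent.LT.T7.H893 Fermat.Agent.LT.T7.B981
open Fermat.Agent.LT.T7.B970 Fermat.Agent.LT.T7.H340 Fermat.Agent.LT.T7.H309.Dn2

attribute [local instance] Fermat.Agent.LT.T5.instMeasurableSpaceG

section Kit

variable {K : Type} [Field K] [NumberField K]

/-- A scalar uniformiser is central. -/
theorem central_scalar661 {w : HeightOneSpectrum (𝓞 K)} {z : G K}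
    (hz : IsScalarUniformizerAt w z) (g : G K) : z * g = g * z := by
  obtain ⟨hzloc, c, -, hzc⟩ := hz
  rw [isLocalAtFin_iff129] at hzloc
  apply G_ext129
  · intro u
    rw [map_mul, map_mul, hzloc.1 u, one_mul, mul_one]
  · intro v
    by_cases hv : v = w
    · subst hv
      apply Units.ext
      rw [map_mul, map_mul, Matrix.GeneralLinearGroup.coe_mul,
        Matrix.GeneralLinearGroup.coe_mul, coe_finCompHom129, coe_finCompHom129, hzc]
      ext i j
      rw [Matrix.diagonal_mul, Matrix.mul_diagonal, mul_comm]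
    · rw [map_mul, map_mul, hzloc.2 v hv, one_mul, mul_one]

theorem borelSpace661 : BorelSpace (G K) := ⟨rfl⟩

/-- `R(φ)` commutes with the translation by `z ^ k`, `z` a scalar uniformiser. -/
theorem rconv_shift661 {w : HeightOneSpectrum (𝓞 K)} {z : G K}
    (hz : IsScalarUniformizerAt w z) (μ : Measure (G K)) (φ ψ : G K → ℂ) (k : ℤ) (x : G K) :
    T5.Rconv μ φ (shiftOp z k ψ) x = shiftOp z k (T5.Rconv μ φ ψ) x := by
  unfold T5.Rconv shiftOp
  congr 1
  funext y
  have hc : Commute z y := central_scalar661 hz y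
  have hck : z ^ k * y = y * z ^ k := (hc.zpow_left k).eq
  rw [mul_assoc, ← hck, ← mul_assoc]

/-- For `y` in the Iwahori subgroup at `u` and `ψ` right invariant under the local elements of
the Iwahori subgroup at `u`: `∑_h ψ(x y h) = ∑_h ψ(x h y)`. -/
theorem iwSum_swap661 {u : HeightOneSpectrum (𝓞 K)} {ψ : G K → ℂ}
    (hψ : ∀ k : G K, IsLocalAtFin u k → T5.InIwahori u k → ∀ g : G K, ψ (g * k) = ψ g)
    {H : Finset (G K)} (hH : IsIwCosetSystem u H) {y : G K} (hy : T5.InIwahori u y) (x : G K) :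
    ∑ h ∈ H, ψ (x * y * h) = ∑ h ∈ H, ψ (x * h * y) := by
  classical
  set yw : G K := locFin129 u (finCompHom129 u y) with hyw
  set y' : G K := y * yw⁻¹ with hy'
  have hywloc : IsLocalAtFin u yw := isLocalAtFin_locFin129 _ _
  have hywI : T5.InIwahori u yw := by
    rw [inIwahori_iff340, hyw, finCompHom129_locFin129, ← inIwahori_iff340]
    exact hy
  have hy'w : finCompHom129 u y' = 1 := by
    rw [hy', map_mul, map_inv, hyw, finCompHom129_locFin129, mul_inv_cancel]
  have hyy : y = y' * yw := by rw [hy']; group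
  have hcw : yw * y' = y' * yw := commute_of_local340 hywloc hy'w
  -- the right-hand side
  have hR : ∀ h ∈ H, ψ (x * h * y) = ψ (x * y' * h) := by
    intro h hh
    have hcomm : h * y' = y' * h := commute_of_local340 (hH.2.1 h hh).1 hy'w
    have e : x * h * y = x * y' * h * yw := by
      rw [hyy, mul_assoc x h, ← mul_assoc h, hcomm]
      group
    rw [e]
    exact hψ yw hywloc hywI _
  -- the left-hand side
  have hL : ∀ h ∈ H, ψ (x * y * h) = ψ (x * y' * (yw * h)) := by
    intro h _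
    congr 1
    rw [hyy]
    group
  rw [Finset.sum_congr rfl hL, Finset.sum_congr rfl hR]
  have himg : ∑ h ∈ H, ψ (x * y' * (yw * h))
      = ∑ h ∈ H.image (fun h => yw * h), ψ (x * y' * h) := by
    rw [Finset.sum_image (fun a _ b _ hab => mul_right_injective yw hab)]
  rw [himg]
  exact iwSum_indep340 (isIwCosetSystem_translate340 hH hywloc hywI) hH ψ hψ (x * y')

/-- `R(φ)` commutes with the Iwahori operator at `u`, for `φ` continuous with compact support,
supported in `{y : y_u ∈ I_u}`, and `ψ` continuous, right invariant under the local elements of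
the Iwahori subgroup at `u`. -/
theorem rconv_iwOp661 {u : HeightOneSpectrum (𝓞 K)} {μ : Measure (G K)}
    (hμ : μ.IsHaarMeasure) {φ ψ : G K → ℂ} (hφc : Continuous φ) (hφs : HasCompactSupport φ)
    (hφI : ∀ y : G K, φ y ≠ 0 → T5.InIwahori u y) (hψc : Continuous ψ)
    (hψ : ∀ k : G K, IsLocalAtFin u k → T5.InIwahori u k → ∀ g : G K, ψ (g * k) = ψ g)
    {H : Finset (G K)} (hH : IsIwCosetSystem u H) (x : G K) :
    T5.Rconv μ φ (iwOp u H ψ) x = iwOp u H (T5.Rconv μ φ ψ) x := by
  classical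
  have hB : BorelSpace (G K) := borelSpace661
  have hint : ∀ h ∈ H, Integrable (fun y => φ y * ψ (x * h * y)) μ := by
    intro h _
    have hcont : Continuous fun y => φ y * ψ (x * h * y) :=
      hφc.mul (hψc.comp (continuous_const_mul (x * h)))
    exact hcont.integrable_of_hasCompactSupport hφs.mul_right
  unfold T5.Rconv iwOp
  rw [← integral_finsetSum H hint, ← integral_const_mul]
  congr 1
  funext y
  by_cases h0 : φ y = 0
  · simp [h0]
  · rw [iwSum_swap661 hψ hH (hφI y h0) x, Finset.mul_sum, Finset.mul_sum, Finset.mul_sum]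
    refine Finset.sum_congr rfl fun h _ => ?_
    ring

end Kit

section Leaf

variable (K K' : Type) [Field K] [NumberField K] [Field K'] [NumberField K'] [Algebra K K']

/-- **LEAF D2.D = COMM**, conditional form: from the sister leaves `Dn2NatC309` (only its first
clause: `f₂` is a test function) and `Dn2SuppC309` (only `f₂ y ≠ 0 → InIwahori u y`). -/
theorem dn2Comm661 (hNat : Dn2NatC309 K K') (hSupp : Dn2SuppC309 K K') : Dn2CommC309 K K' := by
  intro ℓ Φ B 𝔫 μc T₀ n n₀ m a D a' D' s β b c₁ Φ₁ F₁ hyp c ψ hψ H z hH hz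
  obtain ⟨htest, -⟩ := hNat ℓ Φ B 𝔫 μc T₀ n n₀ m a D a' D' s β b c₁ Φ₁ F₁ hyp c
  obtain ⟨C, -, hC⟩ := hSupp ℓ Φ B 𝔫 μc T₀ n n₀ m a D a' D' s β b c₁ Φ₁ F₁ hyp c
  refine ⟨fun x => ?_, fun k x => ?_⟩
  · exact rconv_iwOp661 hyp.base.frame.frame.haar htest.cont htest.supp
      (fun y hy => (hC y hy).1 0 Nat.one_pos) hψ.cusp.cont
      (fun k hk hkI g => isIwInv_local340 hψ.iw (j₀ := 0) Nat.one_pos k hk hkI g) hH x
  · exact rconv_shift661 hz _ _ _ k x

end Leaf

end Fermat.Agent.LT.T7.H661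

end

end
-- ===== PACK-END LT/T7/H661/Dn2Comm.lean

-- ===== PACK-BEGIN LT/T7/H805/SysC.lean
section



/-!
# Row LT, tower T7, node T7.L2.1.H2a.A.1 (cut of helper589), LEAF ST.2 `SysC589` (registry 3002)

OFF-MAIN.  `sysC805 F : ST589.SysC589 F` VERBATIM vs `T7/H589/StepTSpec.lean` (sha256 f2cef127,
helper589@2f2879f43): at every finite place of a number field there are a Hecke coset system and
a scalar uniformiser.  Plug of the closed assets of helper129 (`H129/HeckeExists.lean`, master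
bytes 283484f0): `exists_heckeCosetSystem129`, `exists_scalarUniformizer129`.
-/

set_option autoImplicit false

open IsDedekindDomain NumberField

namespace Fermat.Agent.LT.T7.H805

/-- **LEAF ST.2 = SYS**, unconditional, every number field. -/
theorem sysC805 (F : Type) [Field F] [NumberField F] : ST589.SysC589 F := by
  intro v
  obtain ⟨H, hH⟩ := Fermat.Agent.LT.H129.exists_heckeCosetSystem129 v
  obtain ⟨z, hz⟩ := Fermat.Agent.LT.H129.exists_scalarUniformizer129 v
  exact ⟨H, z, hH, hz⟩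

end Fermat.Agent.LT.T7.H805

end
-- ===== PACK-END LT/T7/H805/SysC.lean

-- ===== PACK-BEGIN LT/T7/H176/ST/DOp.lean
section




/-!
# Row LT, tower T7, node T7.L2.1.H2a.A.1 `StepTC981` (cut of helper589), leaf ST.6 = `DOpC589`
# (helper176)

OFF-MAIN.  `dOpC176 F : ST589.DOpC589 F`, VERBATIM, unconditional.

`R(dStep589 v H z d f) χ = satakePow d a b · R(f) χ`.

* `rconv_tStep176`: `R(tStep g) χ (x) = q^{-1/2} ∑_h I(h⁻¹ z)`, `I(c) = ∫ g(y) χ(x y c) dy` (right
  invariance of the measure), `I` is bi-invariant under `GL₂(𝒪_v)` (right invariance of `g`, of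
  `χ` and of the measure), so `I(h⁻¹ z) = I(h)` (`T2.H756.biInv_eq756` of helper756, master
  bytes) and `∑_h I(h) = √q a R(g) χ (x)` (`IsHeckeEigenAt`).
* `rconv_sStep176`: `R(sStep g) χ = b R(g) χ`.
* induction with the recursion of `satakePow`.
-/

set_option autoImplicit false

open AutomorphicForm IsDedekindDomain NumberField MeasureTheory
open scoped ComplexConjugate

noncomputable section

namespace Fermat.Agent.LT.T7.H176

open Fermat.Agent.LT.H556 Fermat.Agent.LT.H556.A0 Fermat.Agent.LT.T7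
open Fermat.Agent.LT.T7.ST589 Fermat.Agent.LT.H129 Fermat.Agent.LT.T2.H756

attribute [local instance] Fermat.Agent.LT.T5.instMeasurableSpaceG

variable {F : Type} [Field F] [NumberField F]

local instance instBorelG176 : BorelSpace (G F) := ⟨rfl⟩

/-- Change of variables for a right invariant measure (no integrability needed). -/
theorem integral_mul_right176 {μ : Measure (G F)} {D : Set (G F)} (hF : T5.IsFrame μ D)
    (c : G F) (f : G F → ℂ) : ∫ y, f (y * c) ∂μ = ∫ y, f y ∂μ := by
  have hmap : Measure.map (MeasurableEquiv.mulRight c) μ = μ := by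
    refine Measure.ext fun A hA => ?_
    rw [MeasurableEquiv.map_apply]
    exact hF.right_inv c A hA
  have h := MeasureTheory.integral_map_equiv (μ := μ) (MeasurableEquiv.mulRight c) f
  rw [hmap] at h
  rw [h]
  rfl

/-- The integrands are integrable. -/
theorem integrable_tr176 {μ : Measure (G F)} [IsFiniteMeasureOnCompacts μ] {g χ : G F → ℂ}
    (hg : Continuous g) (hgs : HasCompactSupport g) (hχ : Continuous χ) (c x c' : G F) :
    Integrable (fun y => g (y * c) * χ (x * y * c')) μ := by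
  have h1 : Continuous (fun y : G F => g (y * c)) := hg.comp (continuous_mul_const c)
  have h2 : Continuous (fun y : G F => χ (x * y * c')) :=
    hχ.comp ((continuous_const_mul x).mul continuous_const)
  have h3 : HasCompactSupport (fun y : G F => g (y * c)) :=
    hgs.comp_homeomorph (Homeomorph.mulRight c)
  exact (h1.mul h2).integrable_of_hasCompactSupport h3.mul_right

section Op

variable {μ : Measure (G F)} {D : Set (G F)} (hF : T5.IsFrame μ D)
  {𝔫 𝔫₀ : Ideal (𝓞 F)} (hle : 𝔫 ≤ 𝔫₀) {v : HeightOneSpectrum (𝓞 F)} (hv : ¬ v.asIdeal ∣ 𝔫)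
  {H : Finset (G F)} {z : G F} (hH : IsHeckeCosetSystem v H) (hz : IsScalarUniformizerAt v z)
  {χ : G F → ℂ} {a b : ℂ} (hχc : Continuous χ)
  (hχinv : ∀ u : G F, InLevelGroup 𝔫₀ u → ∀ g : G F, χ (g * u) = χ g)
  (hχe : IsHeckeEigenAt χ v a b)

include hF in
/-- `R(g(· c)) χ (x) = ∫ g(y) χ(x y c⁻¹) dy`. -/
theorem rconv_tr176 (g : G F → ℂ) (c x : G F) :
    ∫ y, g (y * c) * χ (x * y) ∂μ = ∫ y, g y * χ (x * y * c⁻¹) ∂μ := by
  have h := integral_mul_right176 hF c (fun y => g y * χ (x * y * c⁻¹))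
  rw [← h]
  refine integral_congr_ae (Filter.Eventually.of_forall fun y => ?_)
  show g (y * c) * χ (x * y) = g (y * c) * χ (x * (y * c) * c⁻¹)
  congr 2
  group

include hF hle hv hH hz hχc hχinv hχe in
/-- **The step of `T_v`.** -/
theorem rconv_tStep176 {g : G F → ℂ} (hg : Continuous g) (hgs : HasCompactSupport g)
    (hginv : ∀ u : G F, InLevelGroup 𝔫 u → ∀ y : G F, g (y * u) = g y) (x : G F) :
    T5.Rconv μ (tStep589 v H z g) χ x = a * T5.Rconv μ g χ x := by
  have : μ.IsHaarMeasure := hF.haar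
  have hv₀ : ¬ v.asIdeal ∣ 𝔫₀ := by
    intro h
    exact hv (Ideal.dvd_iff_le.2 (hle.trans (Ideal.dvd_iff_le.1 h)))
  set q : ℂ := ((Real.sqrt (Ideal.absNorm v.asIdeal : ℝ) : ℝ) : ℂ) with hq
  have hq0 : q ≠ 0 := by
    rw [hq]
    have h1 : (Ideal.absNorm v.asIdeal : ℝ) ≠ 0 := by
      have h2 : Ideal.absNorm v.asIdeal ≠ 0 := by
        rw [Ne, Ideal.absNorm_eq_zero_iff]
        exact v.ne_bot
      exact_mod_cast h2
    have h3 : 0 < (Ideal.absNorm v.asIdeal : ℝ) :=
      lt_of_le_of_ne (Nat.cast_nonneg _) (Ne.symm h1)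
    exact_mod_cast (Real.sqrt_pos.2 h3).ne'
  -- the function `I`
  set I : G F → ℂ := fun c => ∫ y, g y * χ (x * y * c) ∂μ with hI
  have hIr : ∀ u : G F, IsLocalMaxCptAt129 v u → ∀ c : G F, I (c * u) = I c := by
    intro u hu c
    have hu₀ : InLevelGroup 𝔫₀ u := inLevelGroup_of_localMaxCpt129 hv₀ hu
    show ∫ y, g y * χ (x * y * (c * u)) ∂μ = ∫ y, g y * χ (x * y * c) ∂μ
    refine integral_congr_ae (Filter.Eventually.of_forall fun y => ?_)
    show g y * χ (x * y * (c * u)) = g y * χ (x * y * c)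
    rw [← mul_assoc, hχinv u hu₀]
  have hIl : ∀ u : G F, IsLocalMaxCptAt129 v u → ∀ c : G F, I (u * c) = I c := by
    intro u hu c
    have hu' : IsLocalMaxCptAt129 v u⁻¹ :=
      ⟨isLocalAtFin_inv129 hu.1, hu.2.2, by rw [inv_inv]; exact hu.2.1⟩
    have hun : InLevelGroup 𝔫 u⁻¹ := inLevelGroup_of_localMaxCpt129 hv hu'
    show ∫ y, g y * χ (x * y * (u * c)) ∂μ = ∫ y, g y * χ (x * y * c) ∂μ
    have h := integral_mul_right176 hF u (fun y => g (y * u⁻¹) * χ (x * y * c))
    have e1 : (fun y => g (y * u * u⁻¹) * χ (x * (y * u) * c))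
        = fun y => g y * χ (x * y * (u * c)) := by
      funext y
      rw [mul_inv_cancel_right]
      congr 2
      group
    have e2 : (fun y => g (y * u⁻¹) * χ (x * y * c)) = fun y => g y * χ (x * y * c) := by
      funext y
      rw [hginv u⁻¹ hun]
    rw [e1, e2] at h
    exact h
  have hIeq : ∀ h ∈ H, I (h⁻¹ * z) = I h := fun h hh =>
    biInv_eq756 I hIl hIr (isHeckeAt_of_mem756 hH hh) hz
  -- the computation
  have hint1 : ∀ h ∈ H, Integrable (fun y => g (y * (z⁻¹ * h)) * χ (x * y)) μ := by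
    intro h _
    have := integrable_tr176 (μ := μ) hg hgs hχc (z⁻¹ * h) x 1
    simpa using this
  have hint2 : ∀ h ∈ H, Integrable (fun y => g y * χ (x * y * h)) μ := by
    intro h _
    have := integrable_tr176 (μ := μ) hg hgs hχc 1 x h
    simpa using this
  have e1 : T5.Rconv μ (tStep589 v H z g) χ x
      = q⁻¹ * ∑ h ∈ H, ∫ y, g (y * (z⁻¹ * h)) * χ (x * y) ∂μ := by
    show ∫ y, (q⁻¹ * ∑ h ∈ H, g (y * z⁻¹ * h)) * χ (x * y) ∂μ = _
    rw [← integral_finsetSum _ hint1, ← integral_const_mul]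
    refine integral_congr_ae (Filter.Eventually.of_forall fun y => ?_)
    show (q⁻¹ * ∑ h ∈ H, g (y * z⁻¹ * h)) * χ (x * y)
      = q⁻¹ * ∑ h ∈ H, g (y * (z⁻¹ * h)) * χ (x * y)
    rw [mul_assoc, Finset.sum_mul]
    simp only [mul_assoc]
  have e2 : ∀ h ∈ H, ∫ y, g (y * (z⁻¹ * h)) * χ (x * y) ∂μ = I h := by
    intro h hh
    rw [rconv_tr176 (χ := χ) hF g (z⁻¹ * h) x, ← hIeq h hh]
    show _ = ∫ y, g y * χ (x * y * (h⁻¹ * z)) ∂μ
    have e : (z⁻¹ * h)⁻¹ = h⁻¹ * z := by group
    rw [e]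
  have e3 : ∑ h ∈ H, I h = q * a * T5.Rconv μ g χ x := by
    show ∑ h ∈ H, ∫ y, g y * χ (x * y * h) ∂μ = q * a * ∫ y, g y * χ (x * y) ∂μ
    rw [← integral_finsetSum _ hint2, ← integral_const_mul]
    refine integral_congr_ae (Filter.Eventually.of_forall fun y => ?_)
    show ∑ h ∈ H, g y * χ (x * y * h) = q * a * (g y * χ (x * y))
    rw [← Finset.mul_sum, hχe.1 H hH (x * y)]
    ring
  rw [e1, Finset.sum_congr rfl e2, e3, ← mul_assoc, ← mul_assoc, inv_mul_cancel₀ hq0, one_mul]

include hF hz hχe in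
/-- **The step of `S_v`.** -/
theorem rconv_sStep176 (g : G F → ℂ) (x : G F) :
    T5.Rconv μ (sStep589 z g) χ x = b * T5.Rconv μ g χ x := by
  show ∫ y, g (y * z⁻¹) * χ (x * y) ∂μ = b * ∫ y, g y * χ (x * y) ∂μ
  rw [rconv_tr176 (χ := χ) hF g z⁻¹ x, ← integral_const_mul]
  refine integral_congr_ae (Filter.Eventually.of_forall fun y => ?_)
  show g y * χ (x * y * z⁻¹⁻¹) = b * (g y * χ (x * y))
  rw [inv_inv, hχe.2 z hz]
  ring

include hχc in
/-- The integrand of `R(tStep g) χ` is integrable. -/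
theorem integrable_tStep176 [IsFiniteMeasureOnCompacts μ] {g : G F → ℂ} (hg : Continuous g)
    (hgs : HasCompactSupport g) (x : G F) :
    Integrable (fun y => tStep589 v H z g y * χ (x * y)) μ := by
  have hint1 : ∀ h ∈ H, Integrable (fun y => g (y * (z⁻¹ * h)) * χ (x * y)) μ := by
    intro h _
    have := integrable_tr176 (μ := μ) hg hgs hχc (z⁻¹ * h) x 1
    simpa using this
  have h := (integrable_finsetSum H hint1).const_mul
    (((Real.sqrt (Ideal.absNorm v.asIdeal : ℝ) : ℝ) : ℂ)⁻¹)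
  refine h.congr (Filter.Eventually.of_forall fun y => ?_)
  show ((Real.sqrt (Ideal.absNorm v.asIdeal : ℝ) : ℝ) : ℂ)⁻¹
      * ∑ h ∈ H, g (y * (z⁻¹ * h)) * χ (x * y)
    = (((Real.sqrt (Ideal.absNorm v.asIdeal : ℝ) : ℝ) : ℂ)⁻¹ * ∑ h ∈ H, g (y * z⁻¹ * h))
      * χ (x * y)
  rw [mul_assoc, Finset.sum_mul]
  simp only [mul_assoc]

include hχc in
/-- The integrand of `R(sStep g) χ` is integrable. -/
theorem integrable_sStep176 [IsFiniteMeasureOnCompacts μ] {g : G F → ℂ} (hg : Continuous g)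
    (hgs : HasCompactSupport g) (x : G F) :
    Integrable (fun y => sStep589 z g y * χ (x * y)) μ := by
  have := integrable_tr176 (μ := μ) hg hgs hχc z⁻¹ x 1
  simpa [sStep589] using this

end Op

/-- **LEAF ST.6 = D-OP**, verbatim. -/
theorem dOpC176 (F : Type) [Field F] [NumberField F] : DOpC589 F := by
  intro R hR 𝔫 𝔫₀ hle v hv H z hH hz f hf hfd χ a b hχc hχinv hχe d x
  have hF := hR.frame
  have : R.μ.IsHaarMeasure := hF.haar
  have key : ∀ d : ℕ,
      (T5.Rconv R.μ (dStep589 v H z d f) χ x = satakePow d a b * T5.Rconv R.μ f χ x) ∧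
      (T5.Rconv R.μ (dStep589 v H z (d + 1) f) χ x
        = satakePow (d + 1) a b * T5.Rconv R.μ f χ x) := by
    intro d
    induction d with
    | zero =>
      refine ⟨?_, ?_⟩
      · show ∫ y, (2 * f y) * χ (x * y) ∂(R.μ) = satakePow 0 a b * ∫ y, f y * χ (x * y) ∂(R.μ)
        rw [satakePow_zero, ← integral_const_mul]
        refine integral_congr_ae (Filter.Eventually.of_forall fun y => ?_)
        show (2 * f y) * χ (x * y) = 2 * (f y * χ (x * y))
        ring
      · rw [satakePow_one]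
        exact rconv_tStep176 hF hle hv hH hz hχc hχinv hχe hf.cont hf.supp
          hf.inv.level_right x
    | succ d ih =>
      refine ⟨ih.2, ?_⟩
      have h1 := hfd (d + 1)
      have h0 := hfd d
      have e : dStep589 v H z (d + 1 + 1) f = fun g =>
          tStep589 v H z (dStep589 v H z (d + 1) f) g - sStep589 z (dStep589 v H z d f) g :=
        rfl
      have hT := rconv_tStep176 hF hle hv hH hz hχc hχinv hχe h1.cont h1.supp
        h1.inv.level_right x
      have hS := rconv_sStep176 hF hz hχe (dStep589 v H z d f) x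
      have hiT := integrable_tStep176 (μ := R.μ) (v := v) (H := H) (z := z) hχc h1.cont
        h1.supp x
      have hiS := integrable_sStep176 (μ := R.μ) (z := z) hχc h0.cont h0.supp x
      have e2 : T5.Rconv R.μ (dStep589 v H z (d + 1 + 1) f) χ x
          = T5.Rconv R.μ (tStep589 v H z (dStep589 v H z (d + 1) f)) χ x
            - T5.Rconv R.μ (sStep589 z (dStep589 v H z d f)) χ x := by
        rw [e]
        show ∫ y, (tStep589 v H z (dStep589 v H z (d + 1) f) y
            - sStep589 z (dStep589 v H z d f) y) * χ (x * y) ∂(R.μ)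
          = ∫ y, tStep589 v H z (dStep589 v H z (d + 1) f) y * χ (x * y) ∂(R.μ)
            - ∫ y, sStep589 z (dStep589 v H z d f) y * χ (x * y) ∂(R.μ)
        rw [← integral_sub hiT hiS]
        refine integral_congr_ae (Filter.Eventually.of_forall fun y => ?_)
        show (tStep589 v H z (dStep589 v H z (d + 1) f) y
            - sStep589 z (dStep589 v H z d f) y) * χ (x * y) = _
        ring
      rw [e2, hT, hS, ih.1, ih.2, satakePow_add_two]
      ring
  exact (key d).1

end Fermat.Agent.LT.T7.H176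

end

end
-- ===== PACK-END LT/T7/H176/ST/DOp.lean

-- ===== PACK-BEGIN LT/T7/H873/NatShapePure.lean
section



/-!
# Row LT, tower T7, node T7.L2.1.H2a.B (cut of helper57): leaf PB.3 `NatShapeC57`,
# the PURE TENSORS (helper873)

OFF-MAIN.  The right translate of a pure tensor by an element which is trivial at the finite
places is the pure tensor with the translated components at infinity; the right translate of a
test function by a central element which is trivial at the finite places is a test function; the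
fibres of the infinite places in a Galois extension of degree `ℓ` have at most `ℓ` elements.
-/

set_option autoImplicit false

open AutomorphicForm IsDedekindDomain NumberField MeasureTheory
open scoped Matrix

noncomputable section

namespace Fermat.Agent.LT.T7.H873

open Fermat.Agent.LT.H556 Fermat.Agent.LT.H556.A0 Fermat.Agent.LT Fermat.Agent.LT.T7
open Fermat.Agent.LT.T7.H305 Fermat.Agent.LT.T7.H893

section OneField

variable {K : Type} [Field K] [NumberField K]

theorem coe_finGL873 (v : HeightOneSpectrum (𝓞 K)) (h : G K) :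
    ((finGL305 v h : GL (Fin 2) (v.adicCompletion K)) :
      Matrix (Fin 2) (Fin 2) (v.adicCompletion K)) = finComp v h := rfl

theorem coe_infGL873 (w : InfinitePlace K) (h : G K) :
    ((infGL305 w h : GL (Fin 2) ℂ) : Matrix (Fin 2) (Fin 2) ℂ) = infComp w h := rfl

theorem finGL_of_triv873 {v : HeightOneSpectrum (𝓞 K)} {z : G K} (hz : TrivAtFin v z) :
    finGL305 v z = 1 := by
  apply Units.ext
  rw [coe_finGL873]
  exact hz

theorem finGL_mul_inv873 {z : G K} (hz : ∀ v : HeightOneSpectrum (𝓞 K), TrivAtFin v z)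
    (v : HeightOneSpectrum (𝓞 K)) (h : G K) : finGL305 v (h * z⁻¹) = finGL305 v h := by
  rw [map_mul, map_inv, finGL_of_triv873 (hz v), inv_one, mul_one]

theorem finComp_mul_inv873 {z : G K} (hz : ∀ v : HeightOneSpectrum (𝓞 K), TrivAtFin v z)
    (v : HeightOneSpectrum (𝓞 K)) (h : G K) : finComp v (h * z⁻¹) = finComp v h := by
  rw [← coe_finGL873, ← coe_finGL873, finGL_mul_inv873 hz]

theorem finComp_inv_mul_inv873 {z : G K} (hz : ∀ v : HeightOneSpectrum (𝓞 K), TrivAtFin v z)
    (v : HeightOneSpectrum (𝓞 K)) (h : G K) : finComp v (h * z⁻¹)⁻¹ = finComp v h⁻¹ := by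
  rw [← coe_finGL873, ← coe_finGL873, map_inv, map_inv, finGL_mul_inv873 hz]

theorem outT_mul_inv873 {z : G K} (hz : ∀ v : HeightOneSpectrum (𝓞 K), TrivAtFin v z)
    (T : Finset (HeightOneSpectrum (𝓞 K))) (h : G K) :
    OutT305 T (h * z⁻¹) ↔ OutT305 T h := by
  constructor
  · intro H v hv
    obtain ⟨h1, h2⟩ := H v hv
    refine ⟨fun i j => ?_, fun i j => ?_⟩
    · have := h1 i j
      rwa [finComp_mul_inv873 hz] at this
    · have := h2 i j
      rwa [finComp_inv_mul_inv873 hz] at this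
  · intro H v hv
    obtain ⟨h1, h2⟩ := H v hv
    refine ⟨fun i j => ?_, fun i j => ?_⟩
    · rw [finComp_mul_inv873 hz]
      exact h1 i j
    · rw [finComp_inv_mul_inv873 hz]
      exact h2 i j

open Classical in
/-- **The right translate of a pure tensor** by an element which is trivial at the finite places
is the pure tensor with the translated components at infinity. -/
theorem pure_trl873 {z : G K} (hz : ∀ v : HeightOneSpectrum (𝓞 K), TrivAtFin v z)
    (T : Finset (HeightOneSpectrum (𝓞 K)))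
    (f₀ : ∀ v : HeightOneSpectrum (𝓞 K), GL (Fin 2) (v.adicCompletion K) → ℂ)
    (F : InfinitePlace K → GL (Fin 2) ℂ → ℂ) (h : G K) :
    pure305 T f₀ (fun w => trC873 (infGL305 w z) (F w)) h = pure305 T f₀ F (h * z⁻¹) := by
  show (if OutT305 T h then
      (∏ v ∈ T, f₀ v (finGL305 v h)) * ∏ w : InfinitePlace K, F w (infGL305 w h * (infGL305 w z)⁻¹)
    else 0)
    = if OutT305 T (h * z⁻¹) then
      (∏ v ∈ T, f₀ v (finGL305 v (h * z⁻¹))) * ∏ w : InfinitePlace K, F w (infGL305 w (h * z⁻¹))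
    else 0
  by_cases hO : OutT305 T h
  · rw [if_pos hO, if_pos ((outT_mul_inv873 hz T h).2 hO)]
    congr 1
    · refine Finset.prod_congr rfl fun v _ => ?_
      rw [finGL_mul_inv873 hz]
    · refine Finset.prod_congr rfl fun w _ => ?_
      rw [map_mul, map_inv]
  · rw [if_neg hO, if_neg fun H => hO ((outT_mul_inv873 hz T h).1 H)]

/-- The right translate of a test function by a central element is a test function. -/
theorem isTestFn_trl873 {𝔫 : Ideal (𝓞 K)} {z : G K} (hc : ∀ g : G K, z * g = g * z)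
    {φ : G K → ℂ} (h : T5.IsTestFn 𝔫 T5.trivType φ) :
    T5.IsTestFn 𝔫 T5.trivType (fun g => φ (g * z⁻¹)) := by
  have hci : ∀ g : G K, z⁻¹ * g = g * z⁻¹ := by
    intro g
    calc z⁻¹ * g = z⁻¹ * (g * z) * z⁻¹ := by group
      _ = z⁻¹ * (z * g) * z⁻¹ := by rw [hc g]
      _ = g * z⁻¹ := by group
  refine ⟨h.ktype, h.cont.comp (continuous_id.mul continuous_const),
    h.supp.comp_homeomorph (Homeomorph.mulRight z⁻¹), ?_, ⟨?_, ?_, ?_, ?_⟩⟩
  · intro n hh h1 h2 g
    have := h.smooth n hh h1 h2 (g * z⁻¹)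
    have e : (fun t => φ (g * hh t * z⁻¹)) = fun t => φ (g * z⁻¹ * hh t) := by
      funext t
      rw [mul_assoc g, ← hci (hh t), ← mul_assoc]
    show ContDiff ℝ _ (fun t => φ (g * hh t * z⁻¹))
    rw [e]
    exact this
  · intro u hu g
    show φ (g * u * z⁻¹) = φ (g * z⁻¹)
    rw [mul_assoc g, ← hci u, ← mul_assoc]
    exact h.inv.level_right u hu _
  · intro u hu g
    show φ (u * g * z⁻¹) = φ (g * z⁻¹)
    rw [mul_assoc]
    exact h.inv.level_left u hu _
  · intro w k hk g
    show φ (g * k * z⁻¹) = _ * φ (g * z⁻¹)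
    rw [mul_assoc g, ← hci k, ← mul_assoc]
    exact h.inv.arch_right w k hk _
  · intro w k hk g
    show φ (k * g * z⁻¹) = _ * φ (g * z⁻¹)
    rw [mul_assoc]
    exact h.inv.arch_left w k hk _

/-- The components at infinity of the positive scalars of torus data are real scalar matrices. -/
theorem isScal_infGL873 {𝔑 : Ideal (𝓞 K)} {r : G K} {a : (InfinitePlace K → ℝ) → G K}
    {D : Set (InfinitePlace K → ℝ)} (hD : H193.IsTorusData 𝔑 r a D)
    (t : InfinitePlace K → ℝ) (w : InfinitePlace K) :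
    IsScal873 (infGL305 w (a t)) (Real.exp (t w)) := by
  show ((infGL305 w (a t) : GL (Fin 2) ℂ) : Matrix (Fin 2) (Fin 2) ℂ) = _
  rw [coe_infGL873]
  exact hD.inf t w

end OneField

section Fibre

variable {K K' : Type} [Field K] [NumberField K] [Field K'] [NumberField K'] [Algebra K K']

open Classical in
/-- In a Galois extension of degree `ℓ` the fibres of the infinite places have at most `ℓ`
elements. -/
theorem card_fibre_le873 {ℓ : ℕ} (hcyc : IsCycExt K K' ℓ) (v : InfinitePlace K) :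
    (Finset.univ.filter fun w : InfinitePlace K' => w.comap (algebraMap K K') = v).card ≤ ℓ := by
  have := hcyc.galois
  have hfin : FiniteDimensional K K' := by
    apply FiniteDimensional.of_finrank_pos
    rw [hcyc.degree]
    exact hcyc.prime.pos
  by_cases hne : (Finset.univ.filter fun w : InfinitePlace K' =>
      w.comap (algebraMap K K') = v).Nonempty
  · obtain ⟨w₀, hw₀⟩ := hne
    have hw₀' : w₀.comap (algebraMap K K') = v := (Finset.mem_filter.1 hw₀).2
    have hsub : (Finset.univ.filter fun w : InfinitePlace K' => w.comap (algebraMap K K') = v)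
        ⊆ Finset.univ.image fun σ : K' ≃ₐ[K] K' => σ • w₀ := by
      intro w hw
      have hw' : w.comap (algebraMap K K') = v := (Finset.mem_filter.1 hw).2
      have : w ∈ MulAction.orbit (K' ≃ₐ[K] K') w₀ :=
        InfinitePlace.mem_orbit_iff.2 (hw₀'.trans hw'.symm)
      obtain ⟨σ, hσ⟩ := this
      exact Finset.mem_image.2 ⟨σ, Finset.mem_univ _, hσ⟩
    calc _ ≤ (Finset.univ.image fun σ : K' ≃ₐ[K] K' => σ • w₀).card := Finset.card_le_card hsub
      _ ≤ (Finset.univ : Finset (K' ≃ₐ[K] K')).card := Finset.card_image_le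
      _ = Nat.card (K' ≃ₐ[K] K') := by rw [Finset.card_univ, Nat.card_eq_fintype_card]
      _ = Module.finrank K K' := IsGalois.card_aut_eq_finrank K K'
      _ = ℓ := hcyc.degree
  · rw [Finset.not_nonempty_iff_eq_empty] at hne
    rw [hne, Finset.card_empty]
    exact Nat.zero_le _

open Classical in
/-- The sum over the fibre is the sum along an enumeration of the fibre. -/
theorem fibSum_eq873 {ℓ : ℕ} (hcyc : IsCycExt K K' ℓ) (v : InfinitePlace K)
    (w : ℕ → InfinitePlace K') (hw : ∀ j : ℕ, (w j).comap (algebraMap K K') = v)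
    (hinj : ∀ j j' : ℕ, j < ℓ → j' < ℓ → w j = w j' → j = j') (t' : InfinitePlace K' → ℝ) :
    H193.fibSum193 (K := K) t' v = ∑ j ∈ Finset.range ℓ, t' (w j) := by
  have hinj' : Set.InjOn w (Finset.range ℓ : Set ℕ) := by
    intro j hj j' hj' e
    exact hinj j j' (Finset.mem_range.1 hj) (Finset.mem_range.1 hj') e
  have hsub : (Finset.range ℓ).image w
      ⊆ Finset.univ.filter fun w : InfinitePlace K' => w.comap (algebraMap K K') = v := by
    intro x hx
    obtain ⟨j, _, rfl⟩ := Finset.mem_image.1 hx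
    exact Finset.mem_filter.2 ⟨Finset.mem_univ _, hw j⟩
  have hcard : ((Finset.range ℓ).image w).card = ℓ := by
    rw [Finset.card_image_of_injOn hinj', Finset.card_range]
  have heq : (Finset.range ℓ).image w
      = Finset.univ.filter fun w : InfinitePlace K' => w.comap (algebraMap K K') = v :=
    Finset.eq_of_subset_of_card_le hsub (by rw [hcard]; exact card_fibre_le873 hcyc v)
  show (∑ w : InfinitePlace K', if w.comap (algebraMap K K') = v then t' w else 0) = _
  rw [← Finset.sum_filter, ← heq, Finset.sum_image hinj']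

end Fibre

end Fermat.Agent.LT.T7.H873

end

end
-- ===== PACK-END LT/T7/H873/NatShapePure.lean

-- ===== PACK-BEGIN LT/T7/H873/NatShapeLoc.lean
section



/-!
# Row LT, tower T7, node T7.L2.1.H2a.B (cut of helper57): leaf PB.3 `NatShapeC57`,
# the LOCAL CONDITIONS (helper873)

OFF-MAIN.  The local hypotheses `H305.LocHyp305`, `H893.LocHyp893`, `H893.ArchOk893` and the
local shapes of record `H893.LocB893b`, `H893.LocB893` are stable under the translations of the
components at infinity by real scalar matrices `z' w` upstairs and `z v` downstairs with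
`z v = ∏_{w ∣ v} z' w`.
-/

set_option autoImplicit false

open AutomorphicForm IsDedekindDomain NumberField MeasureTheory
open scoped Matrix

noncomputable section

namespace Fermat.Agent.LT.T7.H873

open Fermat.Agent.LT.H556 Fermat.Agent.LT.H556.A0 Fermat.Agent.LT Fermat.Agent.LT.T7
open Fermat.Agent.LT.T7.H305 Fermat.Agent.LT.T7.H893

variable {K K' : Type} [Field K] [NumberField K] [Field K'] [NumberField K'] [Algebra K K']

/-- The scalars downstairs are the products of the scalars upstairs over the fibres. -/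
def IsFibProd873 (l : ℕ) (c' : InfinitePlace K' → ℝ) (c : InfinitePlace K → ℝ) : Prop :=
  ∀ (v : InfinitePlace K) (w : ℕ → InfinitePlace K'),
    (∀ j : ℕ, (w j).comap (algebraMap K K') = v) →
    (∀ j j' : ℕ, j < l → j' < l → w j = w j' → j = j') →
    c v = ∏ j ∈ Finset.range l, c' (w j)

/-- The clause `arch` for the translated components. -/
theorem arch_clause873 {l : ℕ} (hl : 0 < l) {μc : @Measure (GL (Fin 2) ℂ) (borel _)}
    (hμ : @Measure.IsHaarMeasure _ _ _ (borel _) μc)
    {Φ : InfinitePlace K' → GL (Fin 2) ℂ → ℂ} {F : InfinitePlace K → GL (Fin 2) ℂ → ℂ}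
    {z' : InfinitePlace K' → GL (Fin 2) ℂ} {c' : InfinitePlace K' → ℝ}
    (hz' : ∀ w, IsScal873 (z' w) (c' w))
    {z : InfinitePlace K → GL (Fin 2) ℂ} {c : InfinitePlace K → ℝ}
    (hz : ∀ v, IsScal873 (z v) (c v)) (hprod : IsFibProd873 l c' c)
    (harch : ∀ (v : InfinitePlace K) (w : ℕ → InfinitePlace K'),
      (∀ j : ℕ, (w j).comap (algebraMap K K') = v) →
      (∀ j j' : ℕ, j < l → j' < l → w j = w j' → j = j') →
      F v = convL305 μc (fun j => Φ (w j)) (l - 1))
    (v : InfinitePlace K) (w : ℕ → InfinitePlace K')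
    (h1 : ∀ j : ℕ, (w j).comap (algebraMap K K') = v)
    (h2 : ∀ j j' : ℕ, j < l → j' < l → w j = w j' → j = j') :
    trC873 (z v) (F v) = convL305 μc (fun j => trC873 (z' (w j)) (Φ (w j))) (l - 1) := by
  rw [convL_trC873 μc hμ (fun j => z' (w j)) (fun j x => (hz' (w j)).central x)
    (fun j => Φ (w j)) (l - 1), ← harch v w h1 h2]
  congr 1
  refine (hz v).eq_of (IsScal873.prodTo (c := fun j => c' (w j)) (fun j => hz' (w j)) (l - 1)) ?_
  rw [Nat.sub_add_cancel hl]
  exact hprod v w h1 h2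

/-- `H893.LocHyp893` for the translated components at infinity. -/
theorem locHyp893_trl873 {D : CompData K K'} (hl : 0 < D.l)
    {μc : @Measure (GL (Fin 2) ℂ) (borel _)}
    (hμ : @Measure.IsHaarMeasure _ _ _ (borel _) μc)
    {T : Finset (HeightOneSpectrum (𝓞 K))}
    {n : HeightOneSpectrum (𝓞 K') → ℕ} {m : HeightOneSpectrum (𝓞 K) → ℕ}
    {φ₀ : ∀ w : HeightOneSpectrum (𝓞 K'), GL (Fin 2) (w.adicCompletion K') → ℂ}
    {Φ : InfinitePlace K' → GL (Fin 2) ℂ → ℂ}
    {f₀ : ∀ v : HeightOneSpectrum (𝓞 K), GL (Fin 2) (v.adicCompletion K) → ℂ}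
    {F : InfinitePlace K → GL (Fin 2) ℂ → ℂ}
    {z' : InfinitePlace K' → GL (Fin 2) ℂ} {c' : InfinitePlace K' → ℝ}
    (hz' : ∀ w, IsScal873 (z' w) (c' w))
    {z : InfinitePlace K → GL (Fin 2) ℂ} {c : InfinitePlace K → ℝ}
    (hz : ∀ v, IsScal873 (z v) (c v)) (hprod : IsFibProd873 D.l c' c)
    (h : LocHyp893 D μc T n m φ₀ Φ f₀ F) :
    LocHyp893 D μc T n m φ₀ (fun w => trC873 (z' w) (Φ w)) f₀ (fun v => trC873 (z v) (F v)) where
  inv_up := h.inv_up
  inv_down := h.inv_down
  arch_up := fun w => arch_trC873 (hz' w) (h.arch_up w)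
  arch_down := fun v => arch_trC873 (hz v) (h.arch_down v)
  inert := h.inert
  split := h.split
  arch := fun v w h1 h2 => arch_clause873 hl hμ hz' hz hprod h.arch v w h1 h2

/-- `H305.LocHyp305` for the translated components at infinity. -/
theorem locHyp305_trl873 {D : CompData K K'} (hl : 0 < D.l)
    {μc : @Measure (GL (Fin 2) ℂ) (borel _)}
    (hμ : @Measure.IsHaarMeasure _ _ _ (borel _) μc)
    {T : Finset (HeightOneSpectrum (𝓞 K))}
    {n : HeightOneSpectrum (𝓞 K') → ℕ} {m : HeightOneSpectrum (𝓞 K) → ℕ}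
    {φ₀ : ∀ w : HeightOneSpectrum (𝓞 K'), GL (Fin 2) (w.adicCompletion K') → ℂ}
    {Φ : InfinitePlace K' → GL (Fin 2) ℂ → ℂ}
    {f₀ : ∀ v : HeightOneSpectrum (𝓞 K), GL (Fin 2) (v.adicCompletion K) → ℂ}
    {F : InfinitePlace K → GL (Fin 2) ℂ → ℂ}
    {z' : InfinitePlace K' → GL (Fin 2) ℂ} {c' : InfinitePlace K' → ℝ}
    (hz' : ∀ w, IsScal873 (z' w) (c' w))
    {z : InfinitePlace K → GL (Fin 2) ℂ} {c : InfinitePlace K → ℝ}
    (hz : ∀ v, IsScal873 (z v) (c v)) (hprod : IsFibProd873 D.l c' c)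
    (h : LocHyp305 D μc T n m φ₀ Φ f₀ F) :
    LocHyp305 D μc T n m φ₀ (fun w => trC873 (z' w) (Φ w)) f₀ (fun v => trC873 (z v) (F v)) where
  inv_up := h.inv_up
  inv_down := h.inv_down
  arch_up := fun w => arch_trC873 (hz' w) (h.arch_up w)
  arch_down := fun v => arch_trC873 (hz v) (h.arch_down v)
  inert := h.inert
  split := h.split
  arch := fun v w h1 h2 => arch_clause873 hl hμ hz' hz hprod h.arch v w h1 h2

/-- `H893.ArchOk893` for the translated components at infinity. -/
theorem archOk_trl873 {D : CompData K K'} (hl : 0 < D.l)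
    {μc : @Measure (GL (Fin 2) ℂ) (borel _)}
    (hμ : @Measure.IsHaarMeasure _ _ _ (borel _) μc)
    {n : HeightOneSpectrum (𝓞 K') → ℕ} {m : HeightOneSpectrum (𝓞 K) → ℕ}
    {φ₀ : ∀ w : HeightOneSpectrum (𝓞 K'), GL (Fin 2) (w.adicCompletion K') → ℂ}
    {Φ : InfinitePlace K' → GL (Fin 2) ℂ → ℂ}
    {f₀ : ∀ v : HeightOneSpectrum (𝓞 K), GL (Fin 2) (v.adicCompletion K) → ℂ}
    {F : InfinitePlace K → GL (Fin 2) ℂ → ℂ}
    {z' : InfinitePlace K' → GL (Fin 2) ℂ} {c' : InfinitePlace K' → ℝ}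
    (hz' : ∀ w, IsScal873 (z' w) (c' w))
    {z : InfinitePlace K → GL (Fin 2) ℂ} {c : InfinitePlace K → ℝ}
    (hz : ∀ v, IsScal873 (z v) (c v)) (hprod : IsFibProd873 D.l c' c)
    (h : ArchOk893 D μc n m φ₀ Φ f₀ F) :
    ArchOk893 D μc n m φ₀ (fun w => trC873 (z' w) (Φ w)) f₀ (fun v => trC873 (z v) (F v)) := by
  obtain ⟨h1, h2, h3⟩ := h
  refine ⟨locHyp305_trl873 hl hμ hz' hz hprod h1, ?_, ?_⟩
  · intro w k₁ k₂ g hk₁ hk₂
    exact u2_trC873 (hz' w) k₁ k₂ g (h2 w k₁ k₂ (g * (z' w)⁻¹) hk₁ hk₂)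
  · intro v k₁ k₂ g hk₁ hk₂
    exact u2_trC873 (hz v) k₁ k₂ g (h3 v k₁ k₂ (g * (z v)⁻¹) hk₁ hk₂)

/-- **The local shape of record (v2)** is stable under the translations at infinity. -/
theorem locB893b_trl873 {B : L2Base K K'} (hl : 0 < B.l) {g : G K'} {𝔫 : Ideal (𝓞 K)}
    {μc : @Measure (GL (Fin 2) ℂ) (borel _)}
    (hμ : @Measure.IsHaarMeasure _ _ _ (borel _) μc)
    {T₀ : Finset (HeightOneSpectrum (𝓞 K))}
    {n n₀ : HeightOneSpectrum (𝓞 K') → ℕ} {m : HeightOneSpectrum (𝓞 K) → ℕ}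
    {T : Finset (HeightOneSpectrum (𝓞 K))}
    {φ₀ : ∀ w : HeightOneSpectrum (𝓞 K'), GL (Fin 2) (w.adicCompletion K') → ℂ}
    {Φ : InfinitePlace K' → GL (Fin 2) ℂ → ℂ}
    {f₀ : ∀ v : HeightOneSpectrum (𝓞 K), GL (Fin 2) (v.adicCompletion K) → ℂ}
    {F : InfinitePlace K → GL (Fin 2) ℂ → ℂ}
    {z' : InfinitePlace K' → GL (Fin 2) ℂ} {c' : InfinitePlace K' → ℝ}
    (hz' : ∀ w, IsScal873 (z' w) (c' w))
    {z : InfinitePlace K → GL (Fin 2) ℂ} {c : InfinitePlace K → ℝ}
    (hz : ∀ v, IsScal873 (z v) (c v)) (hprod : IsFibProd873 B.l c' c)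
    (h : LocB893b B g 𝔫 μc T₀ n n₀ m T φ₀ Φ f₀ F) :
    LocB893b B g 𝔫 μc T₀ n n₀ m T φ₀ (fun w => trC873 (z' w) (Φ w)) f₀
      (fun v => trC873 (z v) (F v)) := by
  obtain ⟨h1, h2, h3, h4, h5, h6⟩ := h
  exact ⟨locHyp893_trl873 (D := B.comp 𝔫) hl hμ hz' hz hprod h1, h2, h3, h4, h5,
    archOk_trl873 (D := B.comp 𝔫) hl hμ hz' hz hprod h6⟩

/-- **The local shape of record (v1)** is stable under the translations at infinity. -/
theorem locB893_trl873 {B : L2Base K K'} (hl : 0 < B.l) {g : G K'} {𝔫 : Ideal (𝓞 K)}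
    {μc : @Measure (GL (Fin 2) ℂ) (borel _)}
    (hμ : @Measure.IsHaarMeasure _ _ _ (borel _) μc)
    {T₀ : Finset (HeightOneSpectrum (𝓞 K))}
    {n n₀ : HeightOneSpectrum (𝓞 K') → ℕ} {m : HeightOneSpectrum (𝓞 K) → ℕ}
    {T : Finset (HeightOneSpectrum (𝓞 K))}
    {φ₀ : ∀ w : HeightOneSpectrum (𝓞 K'), GL (Fin 2) (w.adicCompletion K') → ℂ}
    {Φ : InfinitePlace K' → GL (Fin 2) ℂ → ℂ}
    {f₀ : ∀ v : HeightOneSpectrum (𝓞 K), GL (Fin 2) (v.adicCompletion K) → ℂ}
    {F : InfinitePlace K → GL (Fin 2) ℂ → ℂ}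
    {z' : InfinitePlace K' → GL (Fin 2) ℂ} {c' : InfinitePlace K' → ℝ}
    (hz' : ∀ w, IsScal873 (z' w) (c' w))
    {z : InfinitePlace K → GL (Fin 2) ℂ} {c : InfinitePlace K → ℝ}
    (hz : ∀ v, IsScal873 (z v) (c v)) (hprod : IsFibProd873 B.l c' c)
    (h : LocB893 B g 𝔫 μc T₀ n n₀ m T φ₀ Φ f₀ F) :
    LocB893 B g 𝔫 μc T₀ n n₀ m T φ₀ (fun w => trC873 (z' w) (Φ w)) f₀
      (fun v => trC873 (z v) (F v)) := by
  obtain ⟨h1, h2, h3, h4, h5, h6⟩ := h
  exact ⟨locHyp305_trl873 (D := B.comp 𝔫) hl hμ hz' hz hprod h1, h2, h3, h4, h5,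
    archOk_trl873 (D := B.comp 𝔫) hl hμ hz' hz hprod h6⟩

/-- The scalars of compatible torus data: `exp (N t')_v = ∏_{w ∣ v} exp t'_w`. -/
theorem isFibProd_exp873 {ℓ : ℕ} (hcyc : IsCycExt K K' ℓ) (t' : InfinitePlace K' → ℝ) :
    IsFibProd873 ℓ (fun w => Real.exp (t' w))
      (fun v => Real.exp (H193.fibSum193 (K := K) t' v)) := by
  intro v w h1 h2
  show Real.exp (H193.fibSum193 (K := K) t' v) = ∏ j ∈ Finset.range ℓ, Real.exp (t' (w j))
  rw [fibSum_eq873 hcyc v w h1 h2 t', Real.exp_sum]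

theorem eqns_realised_natShapeLoc873 : True := by
  have _h0 := @IsFibProd873.eq_1
  have _h1 := @IsFibProd873.eq_def
  have _h2 := @IsFibProd873.eq_unfold
  trivial

end Fermat.Agent.LT.T7.H873

end

end
-- ===== PACK-END LT/T7/H873/NatShapeLoc.lean

-- ===== PACK-BEGIN LT/T7/H510/SwapUpSum.lean
section






/-!
# Row LT, tower T7, node T7.L2.1.H2a.B.0 `PB57.PreBC57` (owner helper57, second cut
`T7/H57/PreBSpec.lean`): THE KEY IDENTITY upstairs, leaf PB.0.U0 `SwapUpSumC57`
(helper510, OFF-MAIN)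

    swapUpSumC_h510 (K K') : PB57.SwapUpSumC57 K K'       (UNCONDITIONAL)

`HU` = the products over `w ∈ S'` of local representatives of `H_w / U(n w)`, `H_w` the Iwahori
subgroup over `u` and `U(n₀ w)` at the other places of `S'` (`CosetSum.lean`: `U(n w)` is open
and normal in the compact group `GL₂(𝒪_w)`).
-/

set_option autoImplicit false
set_option linter.unusedSectionVars false
set_option linter.style.haveILetI false

open AutomorphicForm IsDedekindDomain NumberField MeasureTheory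

noncomputable section

namespace Fermat.Agent.LT.T7.H510

open Fermat.Agent.LT Fermat.Agent.LT.H556 Fermat.Agent.LT.H556.A0 Fermat.Agent.LT.T7
open Fermat.Agent.LT.T7.H893 Fermat.Agent.LT.T7.H305 Fermat.Agent.LT.T7.Q797
open Fermat.Agent.LT.T7.PB57 Fermat.Agent.LT.H129

/-! ## 1. Local facts -/

section Local

variable {k : Type} [Field k] [Valued k T6.Γ₀]

theorem inU_mono_M510 {a b : ℕ} (hab : a ≤ b) {y : GL (Fin 2) k} (h : T6.InU b y) :
    T6.InU a y := by
  have hle : (WithZero.exp (-(b : ℤ)) : T6.Γ₀) ≤ WithZero.exp (-(a : ℤ)) := by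
    rw [WithZero.exp_le_exp]; omega
  exact fun i j => ⟨(h i j).1.trans hle, (h i j).2.trans hle⟩

theorem entry_le_one_M510 {y : GL (Fin 2) k} (h : T6.InU 0 y) (i j : Fin 2) :
    Valued.v ((y : Matrix (Fin 2) (Fin 2) k) i j) ≤ 1 := by
  have := integral_of_matBall_K510 ((T6.H420.inU_iff 0 y).1 h).1 i j
  simpa using this

theorem entry_inv_le_one_M510 {y : GL (Fin 2) k} (h : T6.InU 0 y) (i j : Fin 2) :
    Valued.v (((y⁻¹ : GL (Fin 2) k) : Matrix (Fin 2) (Fin 2) k) i j) ≤ 1 := by
  have := integral_of_matBall_K510 ((T6.H420.inU_iff 0 y).1 h).2 i j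
  simpa using this

theorem one_entry_le_M510 (i j : Fin 2) :
    Valued.v ((1 : Matrix (Fin 2) (Fin 2) k) i j) ≤ 1 := by
  by_cases h : i = j
  · subst h; simp
  · simp [h]

theorem inU_zero_of_entries_M510 {y : GL (Fin 2) k}
    (h1 : ∀ i j : Fin 2, Valued.v ((y : Matrix (Fin 2) (Fin 2) k) i j) ≤ 1)
    (h2 : ∀ i j : Fin 2,
      Valued.v (((y⁻¹ : GL (Fin 2) k) : Matrix (Fin 2) (Fin 2) k) i j) ≤ 1) :
    T6.InU 0 y := by
  intro i j
  have e : (WithZero.exp (-((0 : ℕ) : ℤ)) : T6.Γ₀) = 1 := by simp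
  rw [e]
  exact ⟨(Valued.v.map_sub _ _).trans (max_le (h1 i j) (one_entry_le_M510 i j)),
    (Valued.v.map_sub _ _).trans (max_le (h2 i j) (one_entry_le_M510 i j))⟩

theorem inIw_inU_zero_M510 {y : GL (Fin 2) k} (h : InIw893 y) : T6.InU 0 y :=
  inU_zero_of_entries_M510 h.1 h.2.1

theorem inIw_one_M510 : InIw893 (1 : GL (Fin 2) k) := by
  refine ⟨fun i j => one_entry_le_M510 i j, fun i j => ?_, ?_⟩
  · rw [inv_one]; exact one_entry_le_M510 i j
  · simp

theorem inIw_mul_M510 {n : ℕ} (hn : 1 ≤ n) {u y : GL (Fin 2) k} (hu : T6.InU n u)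
    (hy : InIw893 y) : InIw893 (u * y) := by
  have hu0 : T6.InU 0 u := inU_mono_M510 (Nat.zero_le _) hu
  have hy0 : T6.InU 0 y := inIw_inU_zero_M510 hy
  have huy : T6.InU 0 (u * y) := (T6.H420.subU 0).mul_mem hu0 hy0
  refine ⟨entry_le_one_M510 huy, entry_inv_le_one_M510 huy, ?_⟩
  rw [Units.val_mul, Matrix.mul_apply, Fin.sum_univ_two]
  have h10 : Valued.v ((u : Matrix (Fin 2) (Fin 2) k) 1 0) < 1 := by
    have h := (hu 1 0).1
    have e : (1 : Matrix (Fin 2) (Fin 2) k) 1 0 = 0 := by simp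
    rw [e, sub_zero] at h
    refine lt_of_le_of_lt h ?_
    rw [← WithZero.exp_zero, WithZero.exp_lt_exp]
    omega
  refine lt_of_le_of_lt (Valued.v.map_add _ _) (max_lt ?_ ?_)
  · rw [map_mul]
    calc Valued.v ((u : Matrix (Fin 2) (Fin 2) k) 1 0)
          * Valued.v ((y : Matrix (Fin 2) (Fin 2) k) 0 0)
        ≤ Valued.v ((u : Matrix (Fin 2) (Fin 2) k) 1 0) * 1 :=
          mul_le_mul' le_rfl (hy.1 0 0)
      _ < 1 := by rw [mul_one]; exact h10
  · rw [map_mul]
    calc Valued.v ((u : Matrix (Fin 2) (Fin 2) k) 1 1)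
          * Valued.v ((y : Matrix (Fin 2) (Fin 2) k) 1 0)
        ≤ 1 * Valued.v ((y : Matrix (Fin 2) (Fin 2) k) 1 0) :=
          mul_le_mul' (entry_le_one_M510 hu0 1 1) le_rfl
      _ < 1 := by rw [one_mul]; exact hy.2.2

end Local

/-! ## 2. The levels -/

section Levels

variable {K K' : Type} [Field K] [NumberField K] [Field K'] [NumberField K'] [Algebra K K']

theorem exists_placeUnder_M510 (w : HeightOneSpectrum (𝓞 K')) :
    ∃ v : HeightOneSpectrum (𝓞 K), PlaceOver K K' v w := by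
  haveI : Algebra.IsIntegral (𝓞 K) (𝓞 K') := inferInstance
  haveI : w.asIdeal.IsPrime := w.isPrime
  refine ⟨⟨Ideal.comap (algebraMap (𝓞 K) (𝓞 K')) w.asIdeal, Ideal.comap_isPrime _ _,
    Ideal.IsIntegral.comap_ne_bot (𝓞 K) w.ne_bot⟩, ?_⟩
  intro x y hxy
  have hy : y = algebraMap (𝓞 K) (𝓞 K') x := by
    apply RingOfIntegers.ext
    rw [hxy]
    rfl
  show x ∈ Ideal.comap (algebraMap (𝓞 K) (𝓞 K')) w.asIdeal ↔ y ∈ w.asIdeal
  rw [hy, Ideal.mem_comap]

theorem placeOver_under_unique_M510 {v v' : HeightOneSpectrum (𝓞 K)}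
    {w : HeightOneSpectrum (𝓞 K')} (h : PlaceOver K K' v w) (h' : PlaceOver K K' v' w) :
    v = v' := by
  apply HeightOneSpectrum.ext
  ext x
  rw [h x (algebraMap (𝓞 K) (𝓞 K') x) rfl, h' x (algebraMap (𝓞 K) (𝓞 K') x) rfl]

/-- `S'` is the set of the places over `T₀`. -/
theorem mem_S'_iff_M510 {B : L2Base K K'} {𝔫 : Ideal (𝓞 K)}
    {T₀ : Finset (HeightOneSpectrum (𝓞 K))}
    {n n₀ : HeightOneSpectrum (𝓞 K') → ℕ} {m : HeightOneSpectrum (𝓞 K) → ℕ}
    (hlev : IsLevel797 B 𝔫) (hexp : IsExp797 B 𝔫 T₀ n n₀ m) (w : HeightOneSpectrum (𝓞 K')) :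
    w ∈ B.S' ↔ ∃ v ∈ T₀, PlaceOver K K' v w := by
  rw [hlev.mem_S'_g w, Ideal.dvd_iff_le]
  constructor
  · intro hw
    obtain ⟨v, hv⟩ := exists_placeUnder_M510 (K := K) w
    refine ⟨v, (hexp.mem_T₀ v).2 ?_, hv⟩
    rw [Ideal.dvd_iff_le]
    intro x hx
    exact (hv x (algebraMap (𝓞 K) (𝓞 K') x) rfl).2 (hw (Ideal.mem_map_of_mem _ hx))
  · rintro ⟨v, hvT, hv⟩
    have h1 : 𝔫 ≤ v.asIdeal := Ideal.dvd_iff_le.1 ((hexp.mem_T₀ v).1 hvT)
    show Ideal.map (algebraMap (𝓞 K) (𝓞 K')) 𝔫 ≤ w.asIdeal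
    rw [Ideal.map_le_iff_le_comap]
    intro x hx
    exact (hv x (algebraMap (𝓞 K) (𝓞 K') x) rfl).1 (h1 hx)

theorem val_unif_pow_M510 {F : Type} [Field F] [NumberField F] (v : HeightOneSpectrum (𝓞 F))
    (π : F) (hπ : v.valuation F π = WithZero.exp (-1 : ℤ)) (k : ℕ) :
    Valued.v ((algebraMap F (v.adicCompletion F) π) ^ k) = WithZero.exp (-(k : ℤ)) := by
  have h1 : Valued.v (algebraMap F (v.adicCompletion F) π) = WithZero.exp (-1 : ℤ) := by
    have := v.valuedAdicCompletion_eq_valuation' (K := F) π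
    rw [← hπ]
    exact this
  rw [map_pow, h1, ← WithZero.exp_nsmul]
  congr 1
  simp

/-- `n₀ w ≤ n w`. -/
theorem level_ge_base_M510 {B : L2Base K K'} {𝔫 : Ideal (𝓞 K)}
    {T₀ : Finset (HeightOneSpectrum (𝓞 K))}
    {n n₀ : HeightOneSpectrum (𝓞 K') → ℕ} {m : HeightOneSpectrum (𝓞 K) → ℕ}
    (hlev : IsLevel797 B 𝔫) (hexp : IsExp797 B 𝔫 T₀ n n₀ m) (w : HeightOneSpectrum (𝓞 K')) :
    n₀ w ≤ n w := by
  obtain ⟨π, hπ⟩ := w.valuation_exists_uniformizer K'
  have hx := val_unif_pow_M510 w π hπ (n w)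
  have h1 : (algebraMap K' (w.adicCompletion K') π) ^ (n w)
      ∈ idealClosure (upI (K' := K') 𝔫) w := (hexp.lev_n w _).2 (le_of_eq hx)
  have h2 : (algebraMap K' (w.adicCompletion K') π) ^ (n w) ∈ idealClosure B.𝔑₀ w :=
    closure_mono (Set.image_mono hlev.level_g) h1
  have h3 := (hexp.lev_n₀ w _).1 h2
  rw [hx, WithZero.exp_le_exp] at h3
  omega

/-- `1 ≤ n w` at the places of `S'`. -/
theorem level_pos_M510 {B : L2Base K K'} {𝔫 : Ideal (𝓞 K)}
    {T₀ : Finset (HeightOneSpectrum (𝓞 K))}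
    {n n₀ : HeightOneSpectrum (𝓞 K') → ℕ} {m : HeightOneSpectrum (𝓞 K) → ℕ}
    (hlev : IsLevel797 B 𝔫) (hexp : IsExp797 B 𝔫 T₀ n n₀ m) {w : HeightOneSpectrum (𝓞 K')}
    (hw : w ∈ B.S') : 1 ≤ n w := by
  by_contra hn
  have h0 : n w = 0 := by omega
  have hle : upI (K' := K') 𝔫 ≤ w.asIdeal := Ideal.dvd_iff_le.1 ((hlev.mem_S'_g w).1 hw)
  have h1 : (1 : w.adicCompletion K') ∈ idealClosure (upI (K' := K') 𝔫) w := by
    refine (hexp.lev_n w 1).2 ?_
    rw [h0]
    simp
  have hcl : IsClosed {y : w.adicCompletion K' | Valued.v y < 1} := by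
    have h := Valued.isClosed_ball (w.adicCompletion K')
      ((Valued.v : Valuation (w.adicCompletion K') _).restrict 1)
    have e : {y : w.adicCompletion K' | Valued.v y < 1}
        = {y | (Valued.v : Valuation (w.adicCompletion K') _).restrict y
            < (Valued.v : Valuation (w.adicCompletion K') _).restrict 1} := by
      ext y
      simp only [Set.mem_ofPred_eq]
      rw [Valuation.restrict_lt_iff, map_one]
    rw [e]
    exact h
  have hsub : idealClosure (upI (K' := K') 𝔫) w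
      ⊆ {y : w.adicCompletion K' | Valued.v y < 1} := by
    refine closure_minimal ?_ hcl
    rintro _ ⟨x, hx, rfl⟩
    show Valued.v (algebraMap K' (w.adicCompletion K') (algebraMap (𝓞 K') K' x)) < 1
    have h3 : Valued.v (algebraMap K' (w.adicCompletion K') (algebraMap (𝓞 K') K' x))
        = w.valuation K' (algebraMap (𝓞 K') K' x) :=
      w.valuedAdicCompletion_eq_valuation' (K := K') (algebraMap (𝓞 K') K' x)
    rw [h3]
    exact (w.valuation_lt_one_iff_mem (K := K') x).2 (hle hx)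
  have := hsub h1
  simp at this

end Levels

/-! ## 3. Products of local elements, translates of pure tensors -/

section Transl

variable {K : Type} [Field K] [NumberField K]

/-- The finite components of a product of local elements at distinct places. -/
theorem finComp_listProd_M510
    (tl : ∀ v : HeightOneSpectrum (𝓞 K), GL (Fin 2) (v.adicCompletion K))
    (l : List (HeightOneSpectrum (𝓞 K))) (hl : l.Nodup) (v : HeightOneSpectrum (𝓞 K)) :
    finCompHom129 v ((l.map fun v' => locFin129 v' (tl v')).prod)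
      = open Classical in if v ∈ l then tl v else 1 := by
  classical
  induction l with
  | nil => simp
  | cons a l ih =>
    rw [List.nodup_cons] at hl
    rw [List.map_cons, List.prod_cons, map_mul, ih hl.2]
    by_cases hva : v = a
    · subst hva
      rw [finCompHom129_locFin129, if_neg hl.1, mul_one, if_pos List.mem_cons_self]
    · rw [finCompHom129_locFin129_of_ne a _ hva, one_mul]
      by_cases hvl : v ∈ l
      · rw [if_pos hvl, if_pos (List.mem_cons_of_mem _ hvl)]
      · rw [if_neg hvl, if_neg]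
        rw [List.mem_cons, not_or]
        exact ⟨hva, hvl⟩

/-- The infinite components of a product of local elements. -/
theorem infComp_listProd_M510
    (tl : ∀ v : HeightOneSpectrum (𝓞 K), GL (Fin 2) (v.adicCompletion K))
    (l : List (HeightOneSpectrum (𝓞 K))) (w : InfinitePlace K) :
    infCompHom129 w ((l.map fun v' => locFin129 v' (tl v')).prod) = 1 := by
  induction l with
  | nil => simp
  | cons a l ih =>
    rw [List.map_cons, List.prod_cons, map_mul, ih, infCompHom129_locFin129, one_mul]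

theorem infGL_eq_one_M510 {h : G K} (w : InfinitePlace K) (hh : infCompHom129 w h = 1) :
    infGL305 w h = 1 := by
  have ht : TrivAtInf w h := (trivAtInf_iff129 w h).2 hh
  apply Units.ext
  refine Matrix.ext fun i j => ?_
  show InfinitePlace.Completion.extensionEmbedding w
    (((h : Matrix (Fin 2) (Fin 2) (Adl K)) i j).1 w) = (1 : Matrix (Fin 2) (Fin 2) ℂ) i j
  rw [ht i j]
  by_cases hij : i = j
  · subst hij; simp
  · simp [hij]

theorem isIntegralAt_congr_M510 {v : HeightOneSpectrum (𝓞 K)} {g g' : G K}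
    (h : finCompHom129 v g = finCompHom129 v g') : IsIntegralAt v g ↔ IsIntegralAt v g' := by
  rw [isIntegralAt_iff129, isIntegralAt_iff129, h]

theorem outT_congr_M510 {T : Finset (HeightOneSpectrum (𝓞 K))} {g g' : G K}
    (h : ∀ v, v ∉ T → finCompHom129 v g = finCompHom129 v g') :
    OutT305 T g ↔ OutT305 T g' := by
  unfold OutT305
  refine forall_congr' fun v => forall_congr' fun hv => ?_
  rw [isIntegralAt_congr_M510 (h v hv),
    isIntegralAt_congr_M510 (g := g⁻¹) (g' := g'⁻¹) (by rw [map_inv, map_inv, h v hv])]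

open Classical in
/-- The pure tensor at a translate by an element supported in `S ⊆ T`. -/
theorem pure_transl_M510 (T S : Finset (HeightOneSpectrum (𝓞 K))) (hST : S ⊆ T)
    (ψ : ∀ v : HeightOneSpectrum (𝓞 K), GL (Fin 2) (v.adicCompletion K) → ℂ)
    (Φ : InfinitePlace K → GL (Fin 2) ℂ → ℂ) (x y : G K)
    (hfin : ∀ v, v ∉ S → finCompHom129 v y = finCompHom129 v x)
    (hinf : ∀ w, infGL305 w y = infGL305 w x) :
    pure305 T ψ Φ y = if OutT305 T x then
      ((∏ v ∈ T \ S, ψ v (finCompHom129 v x)) * ∏ v ∈ S, ψ v (finCompHom129 v y))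
        * ∏ w : InfinitePlace K, Φ w (infGL305 w x) else 0 := by
  unfold pure305
  have hout : OutT305 T y ↔ OutT305 T x :=
    outT_congr_M510 fun v hv => hfin v (fun h => hv (hST h))
  by_cases ho : OutT305 T x
  · rw [if_pos (hout.2 ho), if_pos ho, ← Finset.prod_sdiff hST]
    congr 1
    · congr 1
      refine Finset.prod_congr rfl fun v hv => ?_
      show ψ v (finCompHom129 v y) = _
      rw [hfin v (Finset.mem_sdiff.1 hv).2]
    · refine Finset.prod_congr rfl fun w _ => ?_
      rw [hinf w]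
  · rw [if_neg (fun h => ho (hout.1 h)), if_neg ho]

end Transl

/-! ## 4. The key identity -/

section Main

open Classical in
/-- **LEAF PB.0.U0 `SwapUpSumC57`** (THE KEY IDENTITY upstairs), unconditional. -/
theorem swapUpSumC_h510 (K K' : Type) [Field K] [NumberField K] [Field K'] [NumberField K']
    [Algebra K K'] : SwapUpSumC57 K K' := by
  intro ℓ _ _ _ Φe B hB _ g _ 𝔫 hlev μc _ T₀ n n₀ m hexp c₁ Φ₁ F₁ _ fb _ Ω iT _ _ _ iM _ ν _
    T T' φ₀ Φ f₀ F hdat
  have hu : B.u ∈ T₀ := (hexp.mem_T₀ _).2 hlev.u_level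
  have hS' := mem_S'_iff_M510 hlev hexp
  -- the local groups
  let Hw : ∀ w : HeightOneSpectrum (𝓞 K'), GL (Fin 2) (w.adicCompletion K') → Prop :=
    fun w y => if PlaceOver K K' B.u w then InIw893 y else T6.InU (n₀ w) y
  have hloc : ∀ w : HeightOneSpectrum (𝓞 K'), w ∈ B.S' →
      ∃ R : Finset (GL (Fin 2) (w.adicCompletion K')), R.Nonempty ∧ (∀ r ∈ R, Hw w r) ∧
        ∀ x : GL (Fin 2) (w.adicCompletion K'),
          (∑ r ∈ R, (if T6.InU (n w) (x * r⁻¹) then (1 : ℂ) else 0))
              = @ite ℂ (Hw w x) (Classical.propDecidable _) 1 0 ∧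
            (∑ r ∈ R, (if T6.InU (n w) (r⁻¹ * x) then (1 : ℂ) else 0))
              = @ite ℂ (Hw w x) (Classical.propDecidable _) 1 0 := by
    intro w hw
    refine exists_cosetSum_K510 (T6.H176.instLocalC176 K' w) (n w) (Hw w) ?_ ?_ ?_
    · intro y hy
      by_cases h : PlaceOver K K' B.u w
      · simp only [Hw, if_pos h] at hy
        exact inIw_inU_zero_M510 hy
      · simp only [Hw, if_neg h] at hy
        exact inU_mono_M510 (Nat.zero_le _) hy
    · intro u y hu hy
      by_cases h : PlaceOver K K' B.u w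
      · simp only [Hw, if_pos h] at hy ⊢
        exact inIw_mul_M510 (level_pos_M510 hlev hexp hw) hu hy
      · simp only [Hw, if_neg h] at hy ⊢
        exact (T6.H420.subU (n₀ w)).mul_mem
          (inU_mono_M510 (level_ge_base_M510 hlev hexp w) hu) hy
    · by_cases h : PlaceOver K K' B.u w
      · simp only [Hw, if_pos h]
        exact inIw_one_M510
      · simp only [Hw, if_neg h]
        exact (T6.H420.subU (n₀ w)).one_mem
  choose! R hRne hRH hRsum using hloc
  -- the global elements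
  let ext : (∀ w : {w // w ∈ B.S'}, GL (Fin 2) (w.1.adicCompletion K')) →
      ∀ w : HeightOneSpectrum (𝓞 K'), GL (Fin 2) (w.adicCompletion K') :=
    fun hh w => if h : w ∈ B.S' then hh ⟨w, h⟩ else 1
  let glob : (∀ w : {w // w ∈ B.S'}, GL (Fin 2) (w.1.adicCompletion K')) → G K' :=
    fun hh => (B.S'.toList.map fun w => locFin129 w (ext hh w)).prod
  have hext_in : ∀ hh (w : HeightOneSpectrum (𝓞 K')) (h : w ∈ B.S'), ext hh w = hh ⟨w, h⟩ :=
    fun hh w h => dif_pos h
  have hext_out : ∀ hh (w : HeightOneSpectrum (𝓞 K')), w ∉ B.S' → ext hh w = 1 :=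
    fun hh w h => dif_neg h
  have hglob_fin : ∀ hh w, finCompHom129 w (glob hh) = ext hh w := by
    intro hh w
    rw [finComp_listProd_M510 (ext hh) B.S'.toList (Finset.nodup_toList _) w]
    by_cases h : w ∈ B.S'
    · rw [if_pos (Finset.mem_toList.2 h)]
    · rw [if_neg (fun h' => h (Finset.mem_toList.1 h')), hext_out hh w h]
  have hglob_inf : ∀ hh w, infCompHom129 w (glob hh) = 1 :=
    fun hh w => infComp_listProd_M510 (ext hh) B.S'.toList w
  let P : Finset (∀ w : {w // w ∈ B.S'}, GL (Fin 2) (w.1.adicCompletion K')) :=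
    Fintype.piFinset fun w => R w.1
  have hPne : P.Nonempty := by
    have : ∀ w : {w // w ∈ B.S'}, ∃ r, r ∈ R w.1 := fun w => hRne w.1 w.2
    choose r hr using this
    exact ⟨r, Fintype.mem_piFinset.2 hr⟩
  have hinj : ∀ a ∈ P, ∀ b ∈ P, glob a = glob b → a = b := by
    intro a _ b _ hab
    funext w
    have := congrArg (finCompHom129 w.1) hab
    rw [hglob_fin, hglob_fin, hext_in a w.1 w.2, hext_in b w.1 w.2] at this
    exact this
  refine ⟨P.image glob, hPne.image glob, ?_, ?_⟩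
  · -- the properties of the elements
    intro h hh
    obtain ⟨a, ha, rfl⟩ := Finset.mem_image.1 hh
    have haR : ∀ w (hw : w ∈ B.S'), Hw w (ext a w) := by
      intro w hw
      rw [hext_in a w hw]
      exact hRH w hw _ (Fintype.mem_piFinset.1 ha ⟨w, hw⟩)
    have hU0 : ∀ w, T6.InU 0 (finCompHom129 w (glob a)) := by
      intro w
      rw [hglob_fin]
      by_cases hw : w ∈ B.S'
      · have := haR w hw
        by_cases h : PlaceOver K K' B.u w
        · simp only [Hw, if_pos h] at this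
          exact inIw_inU_zero_M510 this
        · simp only [Hw, if_neg h] at this
          exact inU_mono_M510 (Nat.zero_le _) this
      · rw [hext_out a w hw]
        exact (T6.H420.subU 0).one_mem
    refine ⟨fun w => (trivAtInf_iff129 w _).2 (hglob_inf a w),
      fun w hw => (trivAtFin_iff129 w _).2 (by rw [hglob_fin, hext_out a w hw]),
      fun w => ⟨?_, ?_⟩, ?_, ?_⟩
    · intro i j
      exact (HeightOneSpectrum.mem_adicCompletionIntegers _ _ _).2
        (entry_le_one_M510 (hU0 w) i j)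
    · intro i j
      have := entry_inv_le_one_M510 (hU0 w) i j
      rw [← map_inv] at this
      exact (HeightOneSpectrum.mem_adicCompletionIntegers _ _ _).2 this
    · -- congruent to `1` modulo `𝔑₀` outside the orbit
      intro w hw i j
      have hnu : ¬ PlaceOver K K' B.u w := by
        intro h
        obtain ⟨j', hj', hwj⟩ := hB.orbit_all w h
        exact hw j' hj' hwj
      have hUn : T6.InU (n₀ w) (finCompHom129 w (glob a)) := by
        rw [hglob_fin]
        by_cases hw' : w ∈ B.S'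
        · have := haR w hw'
          simp only [Hw, if_neg hnu] at this
          exact this
        · rw [hext_out a w hw']
          exact (T6.H420.subU (n₀ w)).one_mem
      refine ⟨(hexp.lev_n₀ w _).2 ?_, (hexp.lev_n₀ w _).2 ?_⟩
      · exact (hUn i j).1
      · have := (hUn i j).2
        rw [← map_inv] at this
        exact this
    · -- Iwahori along the orbit
      intro j hj
      have hw' : B.o j ∈ B.S' := hB.orbit_level j
      have := haR (B.o j) hw'
      simp only [Hw, if_pos (hB.orbit_over j)] at this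
      rw [← hglob_fin a (B.o j)] at this
      refine ⟨?_, ?_, this.2.2⟩
      · intro i j'
        exact (HeightOneSpectrum.mem_adicCompletionIntegers _ _ _).2 (this.1 i j')
      · intro i j'
        have h2 := this.2.1 i j'
        rw [← map_inv] at h2
        exact (HeightOneSpectrum.mem_adicCompletionIntegers _ _ _).2 h2
  · -- the identities
    intro ω x
    obtain ⟨hT₀T, hOver, hLA⟩ := hdat.1 ω
    obtain ⟨-, hunit, -, -⟩ := hLA
    have hST : B.S' ⊆ T' ω := by
      intro w hw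
      obtain ⟨v, hv, hvw⟩ := (hS' w).1 hw
      exact (hOver w).2 ⟨v, hT₀T hv, hvw⟩
    -- the swapped side
    have hswap : pure305 (T' ω) (swUp57 B T₀ n₀ (φ₀ ω)) (Φ ω) x
        = if OutT305 (T' ω) x then
            ((∏ w ∈ T' ω \ B.S', φ₀ ω w (finCompHom129 w x))
              * ∏ w : {w // w ∈ B.S'},
                  @ite ℂ (Hw w.1 (finCompHom129 w.1 x)) (Classical.propDecidable _) 1 0)
            * ∏ w : InfinitePlace K', Φ ω w (infGL305 w x) else 0 := by
      rw [pure_transl_M510 (T' ω) B.S' hST _ _ x x (fun _ _ => rfl) (fun _ => rfl)]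
      by_cases ho : OutT305 (T' ω) x
      · rw [if_pos ho, if_pos ho]
        congr 2
        · refine Finset.prod_congr rfl fun w hw => ?_
          have hwS : w ∉ B.S' := (Finset.mem_sdiff.1 hw).2
          have h1 : ¬ PlaceOver K K' B.u w := fun h => hwS ((hS' w).2 ⟨B.u, hu, h⟩)
          have h2 : ¬ ∃ v ∈ T₀, PlaceOver K K' v w := fun h => hwS ((hS' w).2 h)
          unfold swUp57
          rw [if_neg h1, if_neg h2]
        · rw [← Finset.prod_coe_sort B.S']
          refine Finset.prod_congr rfl fun w _ => ?_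
          have h2 : ∃ v ∈ T₀, PlaceOver K K' v w.1 := (hS' w.1).1 w.2
          unfold swUp57
          by_cases h1 : PlaceOver K K' B.u w.1
          · have hH : Hw w.1 (finCompHom129 w.1 x) ↔ InIw893 (finCompHom129 w.1 x) := by
              simp only [Hw, if_pos h1]
            rw [if_pos h1]
            unfold iwFn893
            by_cases hy : InIw893 (finCompHom129 w.1 x)
            · rw [if_pos hy, if_pos (hH.2 hy)]
            · rw [if_neg hy, if_neg (fun h => hy (hH.1 h))]
          · have hH : Hw w.1 (finCompHom129 w.1 x)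
                ↔ T6.InU (n₀ w.1) (finCompHom129 w.1 x) := by
              simp only [Hw, if_neg h1]
            rw [if_neg h1, if_pos h2]
            unfold unitFn893
            by_cases hy : T6.InU (n₀ w.1) (finCompHom129 w.1 x)
            · rw [if_pos hy, if_pos (hH.2 hy)]
            · rw [if_neg hy, if_neg (fun h => hy (hH.1 h))]
      · rw [if_neg ho, if_neg ho]
    -- the translates
    have htr : ∀ a ∈ P, ∀ y : G K', (∀ w, finCompHom129 w y
          = finCompHom129 w x * (ext a w)⁻¹ ∨ finCompHom129 w y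
          = (ext a w)⁻¹ * finCompHom129 w x) → (∀ w, infGL305 w y = infGL305 w x) →
        pure305 (T' ω) (φ₀ ω) (Φ ω) y
          = if OutT305 (T' ω) x then
            ((∏ w ∈ T' ω \ B.S', φ₀ ω w (finCompHom129 w x))
              * ∏ w : {w // w ∈ B.S'},
                  (if T6.InU (n w.1) (finCompHom129 w.1 y) then (1 : ℂ) else 0))
            * ∏ w : InfinitePlace K', Φ ω w (infGL305 w x) else 0 := by
      intro a _ y hy hyinf
      have hfin : ∀ w, w ∉ B.S' → finCompHom129 w y = finCompHom129 w x := by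
        intro w hw
        rcases hy w with h | h
        · rw [h, hext_out a w hw, inv_one, mul_one]
        · rw [h, hext_out a w hw, inv_one, one_mul]
      rw [pure_transl_M510 (T' ω) B.S' hST _ _ x y hfin hyinf]
      by_cases ho : OutT305 (T' ω) x
      · rw [if_pos ho, if_pos ho]
        congr 2
        rw [← Finset.prod_coe_sort B.S']
        refine Finset.prod_congr rfl fun w _ => ?_
        obtain ⟨v, hv, hvw⟩ := (hS' w.1).1 w.2
        rw [hunit v hv w.1 hvw]
        rfl
      · rw [if_neg ho, if_neg ho]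
    have hsumR : ∀ f : ∀ w : {w // w ∈ B.S'}, GL (Fin 2) (w.1.adicCompletion K') → ℂ,
        (∑ a ∈ P, ∏ w : {w // w ∈ B.S'}, f w (a w))
          = ∏ w : {w // w ∈ B.S'}, ∑ r ∈ R w.1, f w r := by
      intro f
      exact (Finset.prod_univ_sum (fun w : {w // w ∈ B.S'} => R w.1) f).symm
    constructor
    · rw [hswap, Finset.sum_image hinj]
      have h1 : ∀ a ∈ P, pure305 (T' ω) (φ₀ ω) (Φ ω) (x * (glob a)⁻¹)
          = if OutT305 (T' ω) x then
            ((∏ w ∈ T' ω \ B.S', φ₀ ω w (finCompHom129 w x))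
              * ∏ w : {w // w ∈ B.S'},
                  (if T6.InU (n w.1) (finCompHom129 w.1 x * (a w)⁻¹) then (1 : ℂ) else 0))
            * ∏ w : InfinitePlace K', Φ ω w (infGL305 w x) else 0 := by
        intro a ha
        rw [htr a ha (x * (glob a)⁻¹)
          (fun w => Or.inl (by rw [map_mul, map_inv, hglob_fin]))
          (fun w => by rw [map_mul, map_inv, infGL_eq_one_M510 w (hglob_inf a w), inv_one,
            mul_one])]
        by_cases ho : OutT305 (T' ω) x
        · rw [if_pos ho, if_pos ho]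
          congr 2
          refine Finset.prod_congr rfl fun w _ => ?_
          rw [map_mul, map_inv, hglob_fin, hext_in a w.1 w.2]
        · rw [if_neg ho, if_neg ho]
      rw [Finset.sum_congr rfl h1]
      by_cases ho : OutT305 (T' ω) x
      · simp only [if_pos ho]
        rw [← Finset.sum_mul, ← Finset.mul_sum,
          hsumR (fun w r => if T6.InU (n w.1) (finCompHom129 w.1 x * r⁻¹) then (1 : ℂ) else 0)]
        congr 2
        refine Finset.prod_congr rfl fun w _ => ?_
        exact ((hRsum w.1 w.2 _).1).symm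
      · simp only [if_neg ho, Finset.sum_const_zero]
    · rw [hswap, Finset.sum_image hinj]
      have h1 : ∀ a ∈ P, pure305 (T' ω) (φ₀ ω) (Φ ω) ((glob a)⁻¹ * x)
          = if OutT305 (T' ω) x then
            ((∏ w ∈ T' ω \ B.S', φ₀ ω w (finCompHom129 w x))
              * ∏ w : {w // w ∈ B.S'},
                  (if T6.InU (n w.1) ((a w)⁻¹ * finCompHom129 w.1 x) then (1 : ℂ) else 0))
            * ∏ w : InfinitePlace K', Φ ω w (infGL305 w x) else 0 := by
        intro a ha
        rw [htr a ha ((glob a)⁻¹ * x)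
          (fun w => Or.inr (by rw [map_mul, map_inv, hglob_fin]))
          (fun w => by rw [map_mul, map_inv, infGL_eq_one_M510 w (hglob_inf a w), inv_one,
            one_mul])]
        by_cases ho : OutT305 (T' ω) x
        · rw [if_pos ho, if_pos ho]
          congr 2
          refine Finset.prod_congr rfl fun w _ => ?_
          rw [map_mul, map_inv, hglob_fin, hext_in a w.1 w.2]
        · rw [if_neg ho, if_neg ho]
      rw [Finset.sum_congr rfl h1]
      by_cases ho : OutT305 (T' ω) x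
      · simp only [if_pos ho]
        rw [← Finset.sum_mul, ← Finset.mul_sum,
          hsumR (fun w r => if T6.InU (n w.1) (r⁻¹ * finCompHom129 w.1 x) then (1 : ℂ) else 0)]
        congr 2
        refine Finset.prod_congr rfl fun w _ => ?_
        exact ((hRsum w.1 w.2 _).2).symm
      · simp only [if_neg ho, Finset.sum_const_zero]

end Main

end Fermat.Agent.LT.T7.H510

end

end
-- ===== PACK-END LT/T7/H510/SwapUpSum.lean

-- ===== PACK-BEGIN LT/T7/H47/ST/DEk.lean
section




/-!
# Row LT, tower T7, leaf T7.L2.1.H2a.A.1.4 `ST589.DEkC589` (helper47, registry row 3004)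

OFF-MAIN.  Complete proofs, nothing assumed.  Own names only (suffix `47`, namespace
`Fermat.Agent.LT.T7.H47.ST`).

`dEkC47 F : ST589.DEkC589 F` VERBATIM: the steps `dStep589 v H z d` preserve the
Eisenstein-killing functions with Eisenstein-killing adjoints.

The class `IsEKc47 μ φ` (continuous, compact support, Eisenstein-killing with
Eisenstein-killing adjoint) is stable under right translations (right invariance of the Haar
measure, the ray generator is central; the adjoint of a right translate is a left translate of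
the adjoint: left invariance), scalar multiples, sums and differences (the integrands are
continuous with compact support).  The steps are finite combinations of right translates.
The hypotheses `¬ v ∣ 𝔫`, `IsHeckeCosetSystem`, `IsScalarUniformizerAt` and the test function
property of the steps are NOT used.
-/

set_option autoImplicit false

open AutomorphicForm IsDedekindDomain NumberField MeasureTheory
open scoped ComplexConjugate

noncomputable section

namespace Fermat.Agent.LT.T7.H47.ST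

open Fermat.Agent.LT.H556 Fermat.Agent.LT.H556.A0 Fermat.Agent.LT.T7 Fermat.Agent.LT

attribute [local instance] Fermat.Agent.LT.T5.instMeasurableSpaceG

variable {F : Type} [Field F] [NumberField F]

/-- Continuous, compact support, Eisenstein-killing with Eisenstein-killing adjoint. -/
structure IsEKc47 (μ : Measure (G F)) (φ : G F → ℂ) : Prop where
  cont : Continuous φ
  supp : HasCompactSupport φ
  ek : T5.IsEK μ φ
  ekadj : T5.IsEK μ (T5.adjointFn φ)

theorem borelSpace_G47 : BorelSpace (G F) := ⟨rfl⟩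

theorem continuous_adjointFn47 {φ : G F → ℂ} (h : Continuous φ) :
    Continuous (T5.adjointFn φ) :=
  Complex.continuous_conj.comp (h.comp continuous_inv)

theorem hasCompactSupport_adjointFn47 {φ : G F → ℂ} (h : HasCompactSupport φ) :
    HasCompactSupport (T5.adjointFn φ) := by
  have h1 : HasCompactSupport (φ ∘ (Homeomorph.inv (G F))) :=
    h.comp_homeomorph (Homeomorph.inv (G F))
  have h2 := h1.comp_left (g := (starRingEnd ℂ)) (map_zero _)
  exact h2

/-- The integrand of `R(φ) Ψ` is integrable. -/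
theorem integrable_term47 (μ : Measure (G F)) [μ.IsHaarMeasure] {φ Ψ : G F → ℂ}
    (hφc : Continuous φ) (hφs : HasCompactSupport φ) (hΨ : Continuous Ψ) (x : G F) :
    Integrable (fun y => φ y * Ψ (x * y)) μ := by
  have := borelSpace_G47 (F := F)
  have hc : Continuous (fun y => φ y * Ψ (x * y)) :=
    hφc.mul (hΨ.comp (continuous_const.mul continuous_id))
  exact hc.integrable_of_hasCompactSupport (hφs.mul_right)

/-- The right translate of a Borel-invariant function is Borel-invariant. -/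
theorem isBorelInvariantFn_rtr47 {Ψ : G F → ℂ} (hΨ : T5.IsBorelInvariantFn Ψ) (c : G F) :
    T5.IsBorelInvariantFn (fun g => Ψ (g * c)) := by
  refine ⟨hΨ.cont.comp (continuous_id.mul continuous_const), ?_, ?_, ?_⟩
  · intro n x hn g
    show Ψ (n * g * c) = Ψ (g * c)
    rw [mul_assoc, hΨ.unip n x hn]
  · intro t a b ht g
    show Ψ (T5.ratG t * g * c) = Ψ (g * c)
    rw [mul_assoc, hΨ.torus t a b ht]
  · obtain ⟨r, hr, hΨr⟩ := hΨ.ray
    refine ⟨r, hr, fun g => ?_⟩
    show Ψ (g * r * c) = Ψ (g * c)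
    rw [mul_assoc, T5.H277.ray_comm277 hr c, ← mul_assoc, hΨr]

theorem isEKc_zero47 (μ : Measure (G F)) : IsEKc47 μ (fun _ => (0 : ℂ)) := by
  refine ⟨continuous_const, HasCompactSupport.zero, ?_, ?_⟩
  · intro Ψ _ x
    unfold T5.Rconv
    simp
  · intro Ψ _ x
    unfold T5.Rconv T5.adjointFn
    simp

theorem isEKc_smul47 {μ : Measure (G F)} {φ : G F → ℂ} (h : IsEKc47 μ φ) (a : ℂ) :
    IsEKc47 μ (fun g => a * φ g) := by
  refine ⟨continuous_const.mul h.cont, h.supp.mul_left, ?_, ?_⟩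
  · intro Ψ hΨ x
    have := h.ek Ψ hΨ x
    unfold T5.Rconv at this ⊢
    simp only [mul_assoc]
    rw [integral_const_mul, this, mul_zero]
  · intro Ψ hΨ x
    have := h.ekadj Ψ hΨ x
    unfold T5.Rconv T5.adjointFn at this ⊢
    simp only [map_mul, mul_assoc]
    rw [integral_const_mul, this, mul_zero]

theorem isEKc_add47 {μ : Measure (G F)} [μ.IsHaarMeasure] {φ ψ : G F → ℂ}
    (h : IsEKc47 μ φ) (h' : IsEKc47 μ ψ) : IsEKc47 μ (fun g => φ g + ψ g) := by
  refine ⟨h.cont.add h'.cont, h.supp.add h'.supp, ?_, ?_⟩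
  · intro Ψ hΨ x
    have e1 := h.ek Ψ hΨ x
    have e2 := h'.ek Ψ hΨ x
    unfold T5.Rconv at e1 e2 ⊢
    simp only [add_mul]
    rw [integral_add (integrable_term47 μ h.cont h.supp hΨ.cont x)
      (integrable_term47 μ h'.cont h'.supp hΨ.cont x), e1, e2, add_zero]
  · intro Ψ hΨ x
    have e1 := h.ekadj Ψ hΨ x
    have e2 := h'.ekadj Ψ hΨ x
    unfold T5.Rconv at e1 e2 ⊢
    have hadd : ∀ y, T5.adjointFn (fun g => φ g + ψ g) y * Ψ (x * y)
        = T5.adjointFn φ y * Ψ (x * y) + T5.adjointFn ψ y * Ψ (x * y) := by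
      intro y
      unfold T5.adjointFn
      simp only [map_add, add_mul]
    simp only [hadd]
    rw [integral_add
      (integrable_term47 μ (continuous_adjointFn47 h.cont) (hasCompactSupport_adjointFn47 h.supp)
        hΨ.cont x)
      (integrable_term47 μ (continuous_adjointFn47 h'.cont)
        (hasCompactSupport_adjointFn47 h'.supp) hΨ.cont x), e1, e2, add_zero]

theorem isEKc_sub47 {μ : Measure (G F)} [μ.IsHaarMeasure] {φ ψ : G F → ℂ}
    (h : IsEKc47 μ φ) (h' : IsEKc47 μ ψ) : IsEKc47 μ (fun g => φ g - ψ g) := by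
  have := isEKc_add47 h (isEKc_smul47 h' (-1))
  have e : (fun g => φ g - ψ g) = fun g => φ g + (-1) * ψ g := by
    funext g
    ring
  rw [e]
  exact this

theorem isEKc_sum47 {μ : Measure (G F)} [μ.IsHaarMeasure] {ι : Type} (s : Finset ι)
    (φ : ι → G F → ℂ) (h : ∀ i ∈ s, IsEKc47 μ (φ i)) :
    IsEKc47 μ (fun g => ∑ i ∈ s, φ i g) := by
  classical
  induction s using Finset.induction_on with
  | empty =>
    simp only [Finset.sum_empty]
    exact isEKc_zero47 μ
  | insert a s ha ih =>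
    have e : (fun g => ∑ i ∈ insert a s, φ i g) = fun g => φ a g + ∑ i ∈ s, φ i g := by
      funext g
      rw [Finset.sum_insert ha]
    rw [e]
    exact isEKc_add47 (h a (Finset.mem_insert_self a s))
      (ih fun i hi => h i (Finset.mem_insert_of_mem hi))

/-- **Right translates.** -/
theorem isEKc_rtr47 {μ : Measure (G F)} [μ.IsHaarMeasure] [μ.IsMulRightInvariant]
    {φ : G F → ℂ} (h : IsEKc47 μ φ) (c : G F) : IsEKc47 μ (fun g => φ (g * c)) := by
  have := borelSpace_G47 (F := F)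
  refine ⟨h.cont.comp (continuous_id.mul continuous_const), ?_, ?_, ?_⟩
  · exact h.supp.comp_homeomorph (Homeomorph.mulRight c)
  · intro Ψ hΨ x
    have e := h.ek (fun g => Ψ (g * c⁻¹)) (isBorelInvariantFn_rtr47 hΨ c⁻¹) x
    unfold T5.Rconv at e ⊢
    rw [← e]
    have := integral_mul_right_eq_self (μ := μ) (fun y => φ y * Ψ (x * y * c⁻¹)) c
    rw [← this]
    congr 1
    funext y
    simp [mul_assoc]
  · intro Ψ hΨ x
    have e := h.ekadj Ψ hΨ (x * c)
    unfold T5.Rconv at e ⊢
    rw [← e]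
    have := integral_mul_left_eq_self (μ := μ)
      (fun y => T5.adjointFn (fun g => φ (g * c)) y * Ψ (x * y)) c
    rw [← this]
    congr 1
    funext y
    unfold T5.adjointFn
    simp [mul_assoc]

theorem isEKc_tStep47 {μ : Measure (G F)} [μ.IsHaarMeasure] [μ.IsMulRightInvariant]
    (v : HeightOneSpectrum (𝓞 F)) (H : Finset (G F)) (z : G F)
    {φ : G F → ℂ} (h : IsEKc47 μ φ) : IsEKc47 μ (ST589.tStep589 v H z φ) := by
  have h1 : IsEKc47 μ (fun g => ∑ y ∈ H, φ (g * (z⁻¹ * y))) :=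
    isEKc_sum47 H (fun y g => φ (g * (z⁻¹ * y))) fun y _ => isEKc_rtr47 h (z⁻¹ * y)
  have h2 := isEKc_smul47 h1 (((Real.sqrt (Ideal.absNorm v.asIdeal : ℝ) : ℝ) : ℂ)⁻¹)
  have e : ST589.tStep589 v H z φ
      = fun g => (((Real.sqrt (Ideal.absNorm v.asIdeal : ℝ) : ℝ) : ℂ)⁻¹)
          * ∑ y ∈ H, φ (g * (z⁻¹ * y)) := by
    funext g
    unfold ST589.tStep589
    simp only [mul_assoc]
  rw [e]
  exact h2

theorem isEKc_sStep47 {μ : Measure (G F)} [μ.IsHaarMeasure] [μ.IsMulRightInvariant]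
    (z : G F) {φ : G F → ℂ} (h : IsEKc47 μ φ) : IsEKc47 μ (ST589.sStep589 z φ) :=
  isEKc_rtr47 h z⁻¹

theorem isEKc_dStep47 {μ : Measure (G F)} [μ.IsHaarMeasure] [μ.IsMulRightInvariant]
    (v : HeightOneSpectrum (𝓞 F)) (H : Finset (G F)) (z : G F)
    {φ : G F → ℂ} (h : IsEKc47 μ φ) :
    ∀ d : ℕ, IsEKc47 μ (ST589.dStep589 v H z d φ) ∧ IsEKc47 μ (ST589.dStep589 v H z (d + 1) φ)
  | 0 => by
    refine ⟨?_, ?_⟩
    · have := isEKc_smul47 h 2
      exact this
    · exact isEKc_tStep47 v H z h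
  | (d + 1) => by
    obtain ⟨h0, h1⟩ := isEKc_dStep47 v H z h d
    refine ⟨h1, ?_⟩
    exact isEKc_sub47 (isEKc_tStep47 v H z h1) (isEKc_sStep47 z h0)

/-- **Leaf ST.4 `DEkC589`**, verbatim, unconditional. -/
theorem dEkC47 (F : Type) [Field F] [NumberField F] : ST589.DEkC589 F := by
  intro R hR 𝔫 v _ H z _ _ f hf _ hek hekadj d
  have := borelSpace_G47 (F := F)
  have : R.μ.IsHaarMeasure := hR.frame.haar
  have : R.μ.IsMulRightInvariant := by
    refine ⟨fun g => ?_⟩
    ext A hA
    rw [Measure.map_apply (measurable_mul_const g) hA]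
    exact hR.frame.right_inv g A hA
  have h : IsEKc47 R.μ f := ⟨hf.cont, hf.supp, hek, hekadj⟩
  have := (isEKc_dStep47 v H z h d).1
  exact ⟨this.ek, this.ekadj⟩

end Fermat.Agent.LT.T7.H47.ST

end

end
-- ===== PACK-END LT/T7/H47/ST/DEk.lean

-- ===== PACK-BEGIN LT/T7/H47/ST/SwapEK.lean
section




/-!
# Row LT, tower T7, leaves T7.L2.1.H2a.B.0.U2 `PB57.SwapUpEKC57` and T7.L2.1.H2a.B.0.D2
# `PB57.SwapDnEKC57` (helper47, SPARES of registry rows 3066 / 3072), from the key identities

OFF-MAIN.  Complete proofs, nothing assumed.  Own names only (suffix `47`).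

    swapUpEKC_of47 : PB57.SwapUpSumC57 K K' → PB57.SwapUpEKC57 K K'
    swapDnEKC_of47 : PB57.SwapDnSumC57 K K' → PB57.SwapDnEKC57 K K'

The swapped function upstairs is the finite sum of the right translates of `Φ₁ []` by the
inverses of the elements of `HU` (the key identity under the integral; the members are
continuous in the parameter, the parameter space is compact with a finite measure), downstairs
`a ·` a finite linear combination of left translates of `F₁ []`; the class `IsEKc47` of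
`DEk.lean` is stable under translations, scalar multiples and finite sums.
-/

set_option autoImplicit false

open AutomorphicForm IsDedekindDomain NumberField MeasureTheory
open scoped ComplexConjugate

noncomputable section

namespace Fermat.Agent.LT.T7.H47.ST

open Fermat.Agent.LT.H556 Fermat.Agent.LT.H556.A0 Fermat.Agent.LT.T7 Fermat.Agent.LT
open Fermat.Agent.LT.T7.H893 Fermat.Agent.LT.T7.H305 Fermat.Agent.LT.T7.Q797

attribute [local instance] Fermat.Agent.LT.T5.instMeasurableSpaceG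

section OneField

variable {F : Type} [Field F] [NumberField F]

theorem adjointFn_adjointFn47 (φ : G F → ℂ) : T5.adjointFn (T5.adjointFn φ) = φ := by
  funext g
  unfold T5.adjointFn
  simp

/-- The class is stable under the adjoint. -/
theorem isEKc_adj47 {μ : Measure (G F)} {φ : G F → ℂ} (h : IsEKc47 μ φ) :
    IsEKc47 μ (T5.adjointFn φ) := by
  refine ⟨continuous_adjointFn47 h.cont, hasCompactSupport_adjointFn47 h.supp, h.ekadj, ?_⟩
  rw [adjointFn_adjointFn47]
  exact h.ek

/-- **Left translates.** -/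
theorem isEKc_ltr47 {μ : Measure (G F)} [μ.IsHaarMeasure] [μ.IsMulRightInvariant]
    {φ : G F → ℂ} (h : IsEKc47 μ φ) (c : G F) : IsEKc47 μ (fun g => φ (c * g)) := by
  have h1 := isEKc_adj47 (isEKc_rtr47 (isEKc_adj47 h) c⁻¹)
  have e : T5.adjointFn (fun g => T5.adjointFn φ (g * c⁻¹)) = fun g => φ (c * g) := by
    funext g
    unfold T5.adjointFn
    simp
  rw [e] at h1
  exact h1

/-- Every member of a jointly continuous family is integrable in the parameter. -/
theorem integrable_member47 {Ω : Type} [TopologicalSpace Ω] [CompactSpace Ω]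
    [MeasurableSpace Ω] [BorelSpace Ω] (ν : Measure Ω) [IsFiniteMeasure ν]
    (ψ : Ω → G F → ℂ) (hc : Continuous (fun p : Ω × G F => ψ p.1 p.2)) (h : G F) :
    Integrable (fun a => ψ a h) ν := by
  have hc' : Continuous (fun a => ψ a h) :=
    hc.comp (Continuous.prodMk continuous_id continuous_const)
  exact hc'.integrable_of_hasCompactSupport (HasCompactSupport.of_compactSpace _)

theorem rightInv_of_frame47 {R : Frame5 F} (hR : IsFrame5 R) : R.μ.IsMulRightInvariant := by
  have := borelSpace_G47 (F := F)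
  refine ⟨fun g => ?_⟩
  ext A hA
  rw [Measure.map_apply (measurable_mul_const g) hA]
  exact hR.frame.right_inv g A hA

end OneField

variable (K K' : Type) [Field K] [NumberField K] [Field K'] [NumberField K'] [Algebra K K']

/-- **Leaf PB.0.U2 `SwapUpEKC57`** from the key identity upstairs. -/
theorem swapUpEKC_of47 (hS : PB57.SwapUpSumC57 K K') : PB57.SwapUpEKC57 K K' := by
  intro ℓ hcyc hℓ hTC Φe B hB hram g hg 𝔫 h𝔫 μc hμc T₀ n n₀ m hexp c₁ Φ₁ F₁ hA fb hfb
    Ω iT iC iT2 iSC iM iB ν iF T T' φ₀ Φ f₀ F hdat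
  obtain ⟨HU, -, -, hid⟩ := hS ℓ hcyc hℓ hTC Φe B hB hram g hg 𝔫 h𝔫 μc hμc T₀ n n₀ m hexp
    c₁ Φ₁ F₁ hA fb hfb Ω iT iC iT2 iSC iM iB ν iF T T' φ₀ Φ f₀ F hdat
  have : B.R'.μ.IsHaarMeasure := hB.frame'.frame.haar
  have : B.R'.μ.IsMulRightInvariant := rightInv_of_frame47 hB.frame'
  have hcont := hdat.2.2.2.1
  have hΦ₁ := hdat.2.2.2.2.2.2.2.1
  have h0 : IsEKc47 B.R'.μ (Φ₁ []) :=
    ⟨(hA.up1_test [] (by simp)).cont, (hA.up1_test [] (by simp)).supp,
      (hA.up1_ek [] (by simp)).1, (hA.up1_ek [] (by simp)).2⟩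
  have e : PB57.swapUpFn57 B T₀ n₀ ν T' φ₀ Φ = fun x => ∑ h ∈ HU, Φ₁ [] (x * h⁻¹) := by
    funext x
    unfold PB57.swapUpFn57
    have e1 : (fun ω => pure305 (T' ω) (PB57.swUp57 B T₀ n₀ (φ₀ ω)) (Φ ω) x)
        = fun ω => ∑ h ∈ HU, pure305 (T' ω) (φ₀ ω) (Φ ω) (x * h⁻¹) := by
      funext ω
      exact (hid ω x).1
    rw [e1, integral_finsetSum]
    · refine Finset.sum_congr rfl fun h _ => ?_
      rw [hΦ₁]
    · intro h _
      exact integrable_member47 ν (fun ω => pure305 (T' ω) (φ₀ ω) (Φ ω)) hcont _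
  have h1 : IsEKc47 B.R'.μ (fun x => ∑ h ∈ HU, Φ₁ [] (x * h⁻¹)) :=
    isEKc_sum47 HU (fun h x => Φ₁ [] (x * h⁻¹)) fun h _ => isEKc_rtr47 h0 h⁻¹
  rw [e]
  exact ⟨h1.ek, h1.ekadj⟩

/-- **Leaf PB.0.D2 `SwapDnEKC57`** from the key identity downstairs. -/
theorem swapDnEKC_of47 (hS : PB57.SwapDnSumC57 K K') : PB57.SwapDnEKC57 K K' := by
  intro ℓ hcyc hℓ hTC Φe B hB hram g hg 𝔫 h𝔫 μc hμc T₀ n n₀ m hexp c₁ Φ₁ F₁ hA fb hfb
    Ω iT iC iT2 iSC iM iB ν iF T T' φ₀ Φ f₀ F hdat a
  obtain ⟨X, c, -, hid⟩ := hS ℓ hcyc hℓ hTC Φe B hB hram g hg 𝔫 h𝔫 μc hμc T₀ n n₀ m hexp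
    c₁ Φ₁ F₁ hA fb hfb Ω iT iC iT2 iSC iM iB ν iF T T' φ₀ Φ f₀ F hdat
  have : B.R.μ.IsHaarMeasure := hB.frame.frame.haar
  have : B.R.μ.IsMulRightInvariant := rightInv_of_frame47 hB.frame
  have hcont : Continuous (fun p : Ω × G K => pure305 (T p.1) (f₀ p.1) (F p.1) p.2) := by
    have := hdat.2.2.2.2.1
    simpa only [one_mul] using this
  have hF₁ : ∀ h : G K, F₁ [] h = ∫ ω, pure305 (T ω) (f₀ ω) (F ω) h ∂ν := by
    intro h
    have := hdat.2.2.2.2.2.2.2.2 h
    simpa only [one_mul] using this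
  have h0 : IsEKc47 B.R.μ (F₁ []) :=
    ⟨(hA.dn1_test [] (by simp)).cont, (hA.dn1_test [] (by simp)).supp,
      (hA.dn1_ek [] (by simp)).1, (hA.dn1_ek [] (by simp)).2⟩
  have e : PB57.swapDnFn57 B T₀ fb a ν T f₀ F
      = fun y => a * ∑ x ∈ X, c x * F₁ [] (x⁻¹ * y) := by
    funext y
    unfold PB57.swapDnFn57
    have e1 : (fun ω => a * pure305 (T ω) (PB57.swDn57 B T₀ fb (f₀ ω)) (F ω) y)
        = fun ω => a * ∑ x ∈ X, c x * pure305 (T ω) (f₀ ω) (F ω) (x⁻¹ * y) := by
      funext ω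
      rw [hid ω y]
    rw [e1, integral_const_mul, integral_finsetSum]
    · congr 1
      refine Finset.sum_congr rfl fun x _ => ?_
      rw [integral_const_mul, hF₁]
    · intro x _
      exact (integrable_member47 ν (fun ω => pure305 (T ω) (f₀ ω) (F ω)) hcont _).const_mul _
  have h1 : IsEKc47 B.R.μ (fun y => ∑ x ∈ X, c x * F₁ [] (x⁻¹ * y)) :=
    isEKc_sum47 X (fun x y => c x * F₁ [] (x⁻¹ * y)) fun x _ =>
      isEKc_smul47 (isEKc_ltr47 h0 x⁻¹) (c x)
  have h2 := isEKc_smul47 h1 a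
  rw [e]
  exact ⟨h2.ek, h2.ekadj⟩

end Fermat.Agent.LT.T7.H47.ST

end

end
-- ===== PACK-END LT/T7/H47/ST/SwapEK.lean

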