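import Mathlib
import Fermat.Agent.Pack.LT4.E5L3
import Fermat.Agent.Pack.LT2.E9L3
import Fermat.Agent.Pack.LT3.E27L1
import Fermat.Agent.Pack.LT4.E2L0
import Fermat.Agent.Pack.LT4.E5L0

set_option linter.all false

-- ===== PACK-BEGIN LT/T7/H16/DTest.lean
section






/-!
# Row LT, tower T7, node `B981.StepTC981` (cut of helper589, `StepTSpec.lean` f2cef127):
# the leaf ST.3 = D-TEST (helper16, OFF-MAIN, never land)

    dTestC589_16 (F) : ST589.DTestC589 F                                   (VERBATIM)

The steps `dStep589 v H z d` at a place `v` prime to the level preserve the test functions of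
the level (trivial type).

* `central_scalar16` : a scalar uniformiser is central;
* `comm_inf_fin16` : an element trivial at the finite places commutes with an element trivial at
  the infinite places;
* `isHeckeSys_translate16` : the left translate of a Hecke coset system by a local element of
  `GL₂(𝒪_v)` is a Hecke coset system;
* `heckeSum_level16` : `∑_h f (x (u h)) = ∑_h f (x h)` for `u ∈ U(𝔫)`, `v ∤ 𝔫`, `f` right
  invariant under `U(𝔫)` (FULLNESS of the coset system, `heckeSum_indep_level129`);
* `isTestFn_tStep16`, `isTestFn_sStep16`, `isTestFn_sub16`, `isTestFn_smul16`.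
-/

set_option autoImplicit false
set_option linter.unusedSectionVars false

open IsDedekindDomain NumberField WithZero
open scoped ContDiff

noncomputable section

namespace Fermat.Agent.LT.T7.H16

open Fermat.Agent.LT.H556 Fermat.Agent.LT.H556.A0 Fermat.Agent.LT.H129
open Fermat.Agent.LT.T7 Fermat.Agent.LT.T7.ST589 Fermat.Agent.LT.T7.H340

variable {F : Type} [Field F] [NumberField F]

/-! ## 1. Commutation -/

/-- A scalar uniformiser is central. -/
theorem central_scalar16 {v : HeightOneSpectrum (𝓞 F)} {z : G F}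
    (hz : IsScalarUniformizerAt v z) (g : G F) : g * z = z * g := by
  obtain ⟨hzloc, c, -, hzc⟩ := hz
  rw [isLocalAtFin_iff129] at hzloc
  apply G_ext129
  · intro u
    rw [map_mul, map_mul, hzloc.1 u, mul_one, one_mul]
  · intro v'
    by_cases hv : v' = v
    · subst hv
      apply Units.ext
      rw [map_mul, map_mul, Matrix.GeneralLinearGroup.coe_mul,
        Matrix.GeneralLinearGroup.coe_mul, coe_finCompHom129, coe_finCompHom129, hzc]
      refine Matrix.ext fun i j => ?_
      rw [Matrix.diagonal_mul, Matrix.mul_diagonal, mul_comm]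
    · rw [map_mul, map_mul, hzloc.2 v' hv, mul_one, one_mul]

/-- The inverse of a central element is central. -/
theorem central_inv16 {c : G F} (hc : ∀ g : G F, g * c = c * g) (g : G F) :
    g * c⁻¹ = c⁻¹ * g := by
  have h := hc (c⁻¹ * g * c⁻¹)
  calc g * c⁻¹ = c * (c⁻¹ * g * c⁻¹) := by group
    _ = c⁻¹ * g * c⁻¹ * c := (hc _).symm
    _ = c⁻¹ * g := by group

/-- An element trivial at the finite places commutes with an element trivial at the infinite
places. -/
theorem comm_inf_fin16 {x y : G F} (hx : ∀ v : HeightOneSpectrum (𝓞 F), TrivAtFin v x)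
    (hy : ∀ w : InfinitePlace F, TrivAtInf w y) : x * y = y * x := by
  apply G_ext129
  · intro u
    rw [map_mul, map_mul, (trivAtInf_iff129 u y).1 (hy u), mul_one, one_mul]
  · intro v
    rw [map_mul, map_mul, (trivAtFin_iff129 v x).1 (hx v), mul_one, one_mul]

/-! ## 2. Fullness: the Hecke sum is right invariant under the level group -/

/-- The determinant of a local element of `GL₂(𝒪_v)` is a unit. -/
theorem v_det_maxCpt16 {v : HeightOneSpectrum (𝓞 F)} {k : G F} (hk : IsIntegralAt v k)
    (hk' : IsIntegralAt v k⁻¹) : Valued.v (finComp v k).det = 1 := by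
  have h1 : Valued.v (finComp v k).det ≤ 1 :=
    v_det_le16 (fun i j => by
      have := hk i j
      rwa [HeightOneSpectrum.mem_adicCompletionIntegers] at this)
  have h2 : Valued.v (finComp v k⁻¹).det ≤ 1 :=
    v_det_le16 (fun i j => by
      have := hk' i j
      rwa [HeightOneSpectrum.mem_adicCompletionIntegers] at this)
  have hmul : (finComp v k).det * (finComp v k⁻¹).det = 1 := by
    rw [← Matrix.det_mul, ← finComp_mul16, mul_inv_cancel, finComp_one16, Matrix.det_one]
  have hm : Valued.v (finComp v k).det * Valued.v (finComp v k⁻¹).det = 1 := by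
    rw [← map_mul, hmul, map_one]
  refine le_antisymm h1 ?_
  calc (1 : ℤᵐ⁰) = Valued.v (finComp v k).det * Valued.v (finComp v k⁻¹).det := hm.symm
    _ ≤ Valued.v (finComp v k).det * 1 := mul_le_mul' le_rfl h2
    _ = Valued.v (finComp v k).det := mul_one _

/-- The left translate of a Hecke coset system by a local element of `GL₂(𝒪_v)` is a Hecke
coset system. -/
theorem isHeckeSys_translate16 {v : HeightOneSpectrum (𝓞 F)} {H : Finset (G F)}
    (hH : IsHeckeCosetSystem v H) {k : G F} (hk : IsLocalMaxCptAt129 v k)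
    [DecidableEq (G F)] : IsHeckeCosetSystem v (H.image fun h => k * h) := by
  obtain ⟨hcard, hmem, hne⟩ := hH
  obtain ⟨hkl, hki, hki'⟩ := hk
  refine ⟨?_, ?_, ?_⟩
  · rw [Finset.card_image_of_injective _ (mul_right_injective k), hcard]
  · intro h hh
    obtain ⟨a, ha, rfl⟩ := Finset.mem_image.mp hh
    refine ⟨isLocalAtFin_mul129 hkl (hmem a ha).1, ?_, ?_⟩
    · have := isInt129_mul ((isInt129_finCompHom_iff v k).2 hki)
        ((isInt129_finCompHom_iff v a).2 (hmem a ha).2.1)
      rw [← map_mul] at this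
      exact (isInt129_finCompHom_iff v (k * a)).1 this
    · rw [finComp_mul16, Matrix.det_mul, map_mul, v_det_maxCpt16 hki hki', one_mul]
      exact (hmem a ha).2.2
  · intro h hh h' hh' hhh
    obtain ⟨a, ha, rfl⟩ := Finset.mem_image.mp hh
    obtain ⟨b, hb, rfl⟩ := Finset.mem_image.mp hh'
    have e : (k * a)⁻¹ * (k * b) = a⁻¹ * b := by group
    rw [e]
    exact hne a ha b hb (fun e' => hhh (by rw [e']))

/-- **Fullness.**  For `v ∤ 𝔫`, `u ∈ U(𝔫)` and `f` right invariant under `U(𝔫)`:
`∑_h f (x (u h)) = ∑_h f (x h)`. -/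
theorem heckeSum_level16 {𝔫 : Ideal (𝓞 F)} {v : HeightOneSpectrum (𝓞 F)}
    (hv : ¬ v.asIdeal ∣ 𝔫) {H : Finset (G F)} (hH : IsHeckeCosetSystem v H) {f : G F → ℂ}
    (hf : ∀ u : G F, InLevelGroup 𝔫 u → ∀ g : G F, f (g * u) = f g) {u : G F}
    (hu : InLevelGroup 𝔫 u) (x : G F) :
    ∑ h ∈ H, f (x * (u * h)) = ∑ h ∈ H, f (x * h) := by
  classical
  obtain ⟨kw, k', hkk, hkwl, hkww, hk'w, hk'v, hk'inf⟩ := split16 v u
  have hk'lvl : InLevelGroup 𝔫 k' := inLevelGroup_away16 hu hk'w hk'v hk'inf
  have hint := inLevelGroup_int16 hu v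
  have hkw : IsLocalMaxCptAt129 v kw := by
    refine ⟨hkwl, ?_, ?_⟩
    · rw [← isInt129_finCompHom_iff, hkww, isInt129_finCompHom_iff]
      exact hint.1
    · rw [← isInt129_finCompHom_iff, map_inv, hkww, ← map_inv, isInt129_finCompHom_iff]
      exact hint.2
  have hterm : ∀ h ∈ H, f (x * (u * h)) = f (x * (kw * h)) := by
    intro h hh
    have hcomm : k' * h = h * k' := (commute_of_local340 (hH.2.1 h hh).1 hk'w).symm
    have e : x * (u * h) = x * (kw * h) * k' := by
      rw [hkk, mul_assoc kw, hcomm]
      group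
    rw [e]
    exact hf k' hk'lvl _
  rw [Finset.sum_congr rfl hterm]
  have himg : ∑ h ∈ H, f (x * (kw * h)) = ∑ h ∈ H.image (fun h => kw * h), f (x * h) := by
    rw [Finset.sum_image (fun a _ b _ hab => mul_right_injective kw hab)]
  rw [himg]
  exact heckeSum_indep_level129 hv (isHeckeSys_translate16 hH hkw) hH f hf x

/-! ## 3. Test functions: closure properties -/

/-- A scalar multiple of a test function is a test function. -/
theorem isTestFn_smul16 {𝔫 : Ideal (𝓞 F)} {τ : G F → ℂ} (c : ℂ) {φ : G F → ℂ}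
    (hφ : T5.IsTestFn 𝔫 τ φ) : T5.IsTestFn 𝔫 τ (fun g => c * φ g) where
  ktype := hφ.ktype
  cont := continuous_const.mul hφ.cont
  supp := hφ.supp.mul_left
  smooth := fun n h hfin hsm g => contDiff_const.mul (hφ.smooth n h hfin hsm g)
  inv :=
    { level_right := fun u hu g => by
        show c * φ (g * u) = c * φ g
        rw [hφ.inv.level_right u hu g]
      level_left := fun u hu g => by
        show c * φ (u * g) = c * φ g
        rw [hφ.inv.level_left u hu g]
      arch_right := fun w k hk g => by
        show c * φ (g * k) = (τ k)⁻¹ * (c * φ g)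
        rw [hφ.inv.arch_right w k hk g]
        ring
      arch_left := fun w k hk g => by
        show c * φ (k * g) = (τ k)⁻¹ * (c * φ g)
        rw [hφ.inv.arch_left w k hk g]
        ring }

/-- The difference of two test functions is a test function. -/
theorem isTestFn_sub16 {𝔫 : Ideal (𝓞 F)} {τ : G F → ℂ} {φ ψ : G F → ℂ}
    (hφ : T5.IsTestFn 𝔫 τ φ) (hψ : T5.IsTestFn 𝔫 τ ψ) :
    T5.IsTestFn 𝔫 τ (fun g => φ g - ψ g) where
  ktype := hφ.ktype
  cont := hφ.cont.sub hψ.cont
  supp := hφ.supp.sub hψ.supp
  smooth := fun n h hfin hsm g => (hφ.smooth n h hfin hsm g).sub (hψ.smooth n h hfin hsm g)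
  inv :=
    { level_right := fun u hu g => by
        show φ (g * u) - ψ (g * u) = φ g - ψ g
        rw [hφ.inv.level_right u hu g, hψ.inv.level_right u hu g]
      level_left := fun u hu g => by
        show φ (u * g) - ψ (u * g) = φ g - ψ g
        rw [hφ.inv.level_left u hu g, hψ.inv.level_left u hu g]
      arch_right := fun w k hk g => by
        show φ (g * k) - ψ (g * k) = (τ k)⁻¹ * (φ g - ψ g)
        rw [hφ.inv.arch_right w k hk g, hψ.inv.arch_right w k hk g]
        ring
      arch_left := fun w k hk g => by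
        show φ (k * g) - ψ (k * g) = (τ k)⁻¹ * (φ g - ψ g)
        rw [hφ.inv.arch_left w k hk g, hψ.inv.arch_left w k hk g]
        ring }

/-- The step of `S_v` preserves the test functions. -/
theorem isTestFn_sStep16 {𝔫 : Ideal (𝓞 F)} {τ : G F → ℂ} {v : HeightOneSpectrum (𝓞 F)}
    {z : G F} (hz : IsScalarUniformizerAt v z) {φ : G F → ℂ} (hφ : T5.IsTestFn 𝔫 τ φ) :
    T5.IsTestFn 𝔫 τ (sStep589 z φ) := by
  have hc : ∀ g : G F, g * z⁻¹ = z⁻¹ * g := central_inv16 (central_scalar16 hz)
  exact
  { ktype := hφ.ktype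
    cont := hφ.cont.comp (continuous_id.mul continuous_const)
    supp := hφ.supp.comp_homeomorph (Homeomorph.mulRight z⁻¹)
    smooth := by
      intro n h hfin hsm g
      have he : (fun t => sStep589 z φ (g * h t)) = fun t => φ (g * z⁻¹ * h t) := by
        funext t
        show φ (g * h t * z⁻¹) = φ (g * z⁻¹ * h t)
        rw [mul_assoc, hc (h t), ← mul_assoc]
      rw [he]
      exact hφ.smooth n h hfin hsm (g * z⁻¹)
    inv :=
      { level_right := fun u hu g => by
          show φ (g * u * z⁻¹) = φ (g * z⁻¹)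
          rw [mul_assoc, hc u, ← mul_assoc]
          exact hφ.inv.level_right u hu (g * z⁻¹)
        level_left := fun u hu g => by
          show φ (u * g * z⁻¹) = φ (g * z⁻¹)
          rw [mul_assoc]
          exact hφ.inv.level_left u hu (g * z⁻¹)
        arch_right := fun w k hk g => by
          show φ (g * k * z⁻¹) = (τ k)⁻¹ * φ (g * z⁻¹)
          rw [mul_assoc, hc k, ← mul_assoc]
          exact hφ.inv.arch_right w k hk (g * z⁻¹)
        arch_left := fun w k hk g => by
          show φ (k * g * z⁻¹) = (τ k)⁻¹ * φ (g * z⁻¹)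
          rw [mul_assoc]
          exact hφ.inv.arch_left w k hk (g * z⁻¹) } }

/-- A finite sum of functions with compact support has compact support. -/
theorem hasCompactSupport_sum16 {X : Type*} [TopologicalSpace X] {ι : Type*} (s : Finset ι)
    (φ : ι → X → ℂ) (h : ∀ i ∈ s, HasCompactSupport (φ i)) :
    HasCompactSupport fun x => ∑ i ∈ s, φ i x := by
  classical
  induction s using Finset.induction_on with
  | empty =>
    simp only [Finset.sum_empty]
    exact HasCompactSupport.zero
  | insert a s ha ih =>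
    simp only [Finset.sum_insert ha]
    exact (h a (Finset.mem_insert_self a s)).add
      (ih fun i hi => h i (Finset.mem_insert_of_mem hi))

/-- The step of `T_v` preserves the test functions of a level prime to `v`. -/
theorem isTestFn_tStep16 {𝔫 : Ideal (𝓞 F)} {τ : G F → ℂ} {v : HeightOneSpectrum (𝓞 F)}
    (hv : ¬ v.asIdeal ∣ 𝔫) {H : Finset (G F)} {z : G F} (hH : IsHeckeCosetSystem v H)
    (hz : IsScalarUniformizerAt v z) {φ : G F → ℂ} (hφ : T5.IsTestFn 𝔫 τ φ) :
    T5.IsTestFn 𝔫 τ (tStep589 v H z φ) := by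
  have hc : ∀ g : G F, g * z⁻¹ = z⁻¹ * g := central_inv16 (central_scalar16 hz)
  have hloc : ∀ h ∈ H, ∀ w : InfinitePlace F, TrivAtInf w (z⁻¹ * h) := fun h hh =>
    (isLocalAtFin_mul129 (isLocalAtFin_inv129 hz.1) (hH.2.1 h hh).1).1
  -- an element trivial at the finite places moves to the right
  have hmove : ∀ (k : G F), (∀ v' : HeightOneSpectrum (𝓞 F), TrivAtFin v' k) →
      ∀ g : G F, ∀ h ∈ H, g * k * z⁻¹ * h = g * z⁻¹ * h * k := by
    intro k hk g h hh
    have := comm_inf_fin16 hk (hloc h hh)
    calc g * k * z⁻¹ * h = g * (k * (z⁻¹ * h)) := by group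
      _ = g * (z⁻¹ * h * k) := by rw [this]
      _ = g * z⁻¹ * h * k := by group
  exact
  { ktype := hφ.ktype
    cont := continuous_const.mul (continuous_finsetSum _ fun h _ =>
      hφ.cont.comp ((continuous_id.mul continuous_const).mul continuous_const))
    supp := by
      refine HasCompactSupport.mul_left (f := fun _ => _) ?_
      exact hasCompactSupport_sum16 H (fun h g => φ (g * z⁻¹ * h)) fun h _ =>
        hφ.supp.comp_homeomorph ((Homeomorph.mulRight z⁻¹).trans (Homeomorph.mulRight h))
    smooth := by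
      intro n h hfin hsm g
      have he : (fun t => tStep589 v H z φ (g * h t))
          = fun t => ((Real.sqrt (Ideal.absNorm v.asIdeal : ℝ) : ℝ) : ℂ)⁻¹
              * ∑ x ∈ H, φ (g * z⁻¹ * x * h t) := by
        funext t
        show _ * ∑ x ∈ H, φ (g * h t * z⁻¹ * x) = _
        congr 1
        exact Finset.sum_congr rfl fun x hx => by rw [hmove (h t) (hfin t) g x hx]
      rw [he]
      exact contDiff_const.mul (ContDiff.sum fun x _ => hφ.smooth n h hfin hsm (g * z⁻¹ * x))
    inv :=
      { level_right := fun u hu g => by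
          show _ * ∑ h ∈ H, φ (g * u * z⁻¹ * h) = _ * ∑ h ∈ H, φ (g * z⁻¹ * h)
          congr 1
          have e1 : ∀ h ∈ H, φ (g * u * z⁻¹ * h) = φ (g * z⁻¹ * (u * h)) := by
            intro h _
            congr 1
            rw [mul_assoc g u, hc u]
            group
          rw [Finset.sum_congr rfl e1]
          exact heckeSum_level16 hv hH hφ.inv.level_right hu (g * z⁻¹)
        level_left := fun u hu g => by
          show _ * ∑ h ∈ H, φ (u * g * z⁻¹ * h) = _ * ∑ h ∈ H, φ (g * z⁻¹ * h)
          congr 1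
          refine Finset.sum_congr rfl fun h _ => ?_
          rw [mul_assoc u, mul_assoc u]
          exact hφ.inv.level_left u hu _
        arch_right := fun w k hk g => by
          show _ * ∑ h ∈ H, φ (g * k * z⁻¹ * h) = (τ k)⁻¹ * (_ * ∑ h ∈ H, φ (g * z⁻¹ * h))
          have e1 : ∀ h ∈ H, φ (g * k * z⁻¹ * h) = (τ k)⁻¹ * φ (g * z⁻¹ * h) := by
            intro h hh
            rw [hmove k hk.1.2 g h hh]
            exact hφ.inv.arch_right w k hk _
          rw [Finset.sum_congr rfl e1, ← Finset.mul_sum]
          ring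
        arch_left := fun w k hk g => by
          show _ * ∑ h ∈ H, φ (k * g * z⁻¹ * h) = (τ k)⁻¹ * (_ * ∑ h ∈ H, φ (g * z⁻¹ * h))
          have e1 : ∀ h ∈ H, φ (k * g * z⁻¹ * h) = (τ k)⁻¹ * φ (g * z⁻¹ * h) := by
            intro h _
            rw [mul_assoc k, mul_assoc k]
            exact hφ.inv.arch_left w k hk _
          rw [Finset.sum_congr rfl e1, ← Finset.mul_sum]
          ring } }

/-! ## 4. The leaf -/

/-- **LEAF ST.3 = D-TEST**, VERBATIM. -/
theorem dTestC589_16 (F : Type) [Field F] [NumberField F] : DTestC589 F := by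
  intro 𝔫 v hv H z hH hz f hf d
  have key : ∀ d : ℕ, T5.IsTestFn 𝔫 T5.trivType (dStep589 v H z d f) ∧
      T5.IsTestFn 𝔫 T5.trivType (dStep589 v H z (d + 1) f) := by
    intro d
    induction d with
    | zero => exact ⟨isTestFn_smul16 2 hf, isTestFn_tStep16 hv hH hz hf⟩
    | succ d ih =>
      exact ⟨ih.2, isTestFn_sub16 (isTestFn_tStep16 hv hH hz ih.2) (isTestFn_sStep16 hz ih.1)⟩
  exact (key d).1

end Fermat.Agent.LT.T7.H16

end

end
-- ===== PACK-END LT/T7/H16/DTest.lean

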