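import Mathlib
import Fermat.Agent.Pack.LT4.E4L2
import Fermat.Agent.Pack.LT4.E5L3
import Fermat.Agent.Pack.LT2.E16L2
import Fermat.Agent.Pack.LT4.E5L1
import Fermat.Agent.Pack.LT4.E5L0
import Fermat.Agent.Pack.LT4.E5L2
import Fermat.Agent.Pack.LT3.E27L1
import Fermat.Agent.Pack.LT3.E25L0
import Fermat.Agent.Pack.LT4.E6L2
import Fermat.Agent.Pack.LT4.E6L3
import Fermat.Agent.Pack.LT4.E4L1
import Fermat.Agent.Pack.LT3.E7L2
import Fermat.Agent.Pack.LT3.E26L3
import Fermat.Agent.Pack.LT3.E24L3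
import Fermat.Agent.Pack.LT3.E23L2
import Fermat.Agent.Pack.LT3.E23L3
import Fermat.Agent.Pack.LT4.E1L3
import Fermat.Agent.Pack.LT3.E29L3
import Fermat.Agent.Pack.LT3.E4L2
import Fermat.Agent.Pack.LT2.E2L3
import Fermat.Agent.Pack.LT4.E0L2
import Fermat.Agent.Pack.LT3.E0L1
import Fermat.Agent.Pack.LT3.E0L3
import Fermat.Agent.Pack.LT4.E2L2
import Fermat.Agent.Pack.LT4.E1L0
import Fermat.Agent.Pack.LT3.E21L3
import Fermat.Agent.Pack.LT4.E6L0

set_option linter.all false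

-- ===== PACK-BEGIN LT/T2/AdapterW.lean
section




/-!
# Row LT, tower T2 → T7 level 2: the eigenbasis of T2 in the vocabulary of `T7/Level2.lean`
(helper130, architect of T2)

OFF-MAIN.  ADDITIVE.  Vocabulary: `T7/Level2.lean` (helper797@819237e8b, sha256 15516646),
`T5/Spec.lean` v4 (sha256 f2d97e70), `T2/Spec.lean` v3 (sha256 b934629a); byte-identical copies.

The class of `T2/Spec.lean` v3 (`T2.IsCuspFn 𝔫`: trivial `K_∞`-type, invariant under the positive
scalars at EVERY infinite place) IS the class `T7.IsWFn 𝔫 r 0 o` of level 2 (cusp functions of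
the class of T5 of trivial type which are invariant under the positive scalars at infinity; no
Iwahori condition for `l = 0`).  So `T2.cuspSpec_closed` is the restricted `CuspSpec`.

* `frameOf130 R hR : T2.Frame K` for `hR : T7.IsFrame5 R` (same measure, same domain);
  `pair_frameOf130 : T2.pair (frameOf130 R hR) = T5.innerD R.μ R.F`;
* `isWFn_zero_iff130 : T5.IsRayGen r → (T7.IsWFn 𝔫 r 0 o ψ ↔ T2.IsCuspFn 𝔫 ψ)`;
* `meanEig_iff130 : T7.MeanEig ψ w m ↔ T2.MeanEigC ψ w m`;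
* `IsWBasis130 𝔫 R l o u C`: an orthonormal family of `T7.IsEigFn 𝔫 R.r l o (u j) (C j)`,
  complete for `T7.IsWFn 𝔫 R.r l o`, with unitary eigen-data outside the level and a countable
  index type;
* **`wBasis0_130`**: for a totally complex `K`, every level `𝔫 ≠ 0` and every frame of T5 there
  is an `IsWBasis130 𝔫 R 0 o`.  UNCONDITIONAL.
-/

set_option autoImplicit false

open IsDedekindDomain NumberField MeasureTheory AutomorphicForm
open Fermat.Agent.LT.H556 Fermat.Agent.LT.H556.A0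
open scoped ComplexConjugate

noncomputable section

namespace Fermat.Agent.LT.T2

variable {K : Type} [Field K] [NumberField K]

attribute [local instance] borelG

/-! ## 1. Frames and pairings -/

/-- The frame of T2 of a frame of T5: same Haar measure, same fundamental domain. -/
def frameOf130 (R : T7.Frame5 K) (hR : T7.IsFrame5 R) : Frame K where
  μ := R.μ
  haar := hR.frame.haar
  D := R.F
  meas := hR.frame.meas
  sub := hR.frame.sub
  strict := hR.frame.strict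
  fin := hR.frame.finite

theorem pair_frameOf130 (R : T7.Frame5 K) (hR : T7.IsFrame5 R) (φ ψ : G K → ℂ) :
    pair (frameOf130 R hR) φ ψ = T5.innerD R.μ R.F φ ψ := rfl

theorem nsq_frameOf130 (R : T7.Frame5 K) (hR : T7.IsFrame5 R) (φ : G K → ℂ) :
    nsq (frameOf130 R hR) φ = (T5.innerD R.μ R.F φ φ).re := rfl

/-- A ray generator is a diagonal positive scalar. -/
theorem isDiagPosScalar_of_rayGen130 {r : G K} (hr : T5.IsRayGen r) : IsDiagPosScalar r :=
  ⟨hr.1, hr.2.choose, hr.2.choose_spec.1, hr.2.choose_spec.2.2⟩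

/-! ## 2. The classes -/

/-- An element which is trivial at every place is `1`. -/
theorem eq_one_of_triv130 {h : G K} (hI : ∀ w : InfinitePlace K, TrivAtInf w h)
    (hF : ∀ v : HeightOneSpectrum (𝓞 K), TrivAtFin v h) : h = 1 := by
  refine H129.G_ext129 (fun w => ?_) (fun v => ?_)
  · rw [map_one]
    exact (H129.trivAtInf_iff129 w h).1 (hI w)
  · rw [map_one]
    exact (H129.trivAtFin_iff129 v h).1 (hF v)

/-- The cusp functions of `T2/Spec.lean` are cusp functions of the class of T5 (trivial type). -/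
theorem isCuspFn5_of_isCuspFn130 {𝔫 : Ideal (𝓞 K)} {r : G K} (hr : T5.IsRayGen r)
    {ψ : G K → ℂ} (h : IsCuspFn 𝔫 ψ) : T5.IsCuspFn 𝔫 T5.trivType r ψ where
  cont := h.cont
  bdd := h.bdd
  aut :=
    { left_inv := h.left_inv
      level_inv := h.level_inv
      arch_compact := fun w k hk g => by
        rw [h.arch_compact w k hk g]
        show ψ g = 1 * ψ g
        rw [one_mul]
      ray := fun g => H429.cusp_diag_inv429 h r (isDiagPosScalar_of_rayGen130 hr) g }
  cuspidal := h.cuspidal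

/-- **The class of `T2/Spec.lean` is the class `IsWFn` of level 2 without Iwahori condition.** -/
theorem isWFn_zero_iff130 {𝔫 : Ideal (𝓞 K)} {r : G K} (hr : T5.IsRayGen r)
    (o : ℕ → HeightOneSpectrum (𝓞 K)) (ψ : G K → ℂ) :
    T7.IsWFn 𝔫 r 0 o ψ ↔ IsCuspFn 𝔫 ψ := by
  constructor
  · intro h
    exact
      { cont := h.cusp.cont
        bdd := h.cusp.bdd
        left_inv := h.cusp.aut.left_inv
        level_inv := h.cusp.aut.level_inv
        arch_scalar := h.arch_scalar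
        arch_compact := fun w k hk g => by
          rw [h.cusp.aut.arch_compact w k hk g]
          show 1 * ψ g = ψ g
          rw [one_mul]
        cuspidal := h.cusp.cuspidal }
  · intro h
    refine ⟨isCuspFn5_of_isCuspFn130 hr h, h.arch_scalar, ?_⟩
    intro x hI hF _ g
    have hx : x = 1 := eq_one_of_triv130 hI (fun v => hF v (fun j hj => absurd hj (Nat.not_lt_zero j)))
    rw [hx, mul_one]

/-- A function of the class `IsWFn` (any Iwahori condition) is a cusp function of T2. -/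
theorem isCuspFn_of_isWFn130 {𝔫 : Ideal (𝓞 K)} {r : G K} {l : ℕ}
    {o : ℕ → HeightOneSpectrum (𝓞 K)} {ψ : G K → ℂ} (h : T7.IsWFn 𝔫 r l o ψ) :
    IsCuspFn 𝔫 ψ where
  cont := h.cusp.cont
  bdd := h.cusp.bdd
  left_inv := h.cusp.aut.left_inv
  level_inv := h.cusp.aut.level_inv
  arch_scalar := h.arch_scalar
  arch_compact := fun w k hk g => by
    rw [h.cusp.aut.arch_compact w k hk g]
    show 1 * ψ g = ψ g
    rw [one_mul]
  cuspidal := h.cusp.cuspidal

/-- The eigen-condition of level 2 at an infinite place is `T2.MeanEigC`. -/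
theorem meanEig_iff130 (ψ : G K → ℂ) (w : InfinitePlace K) (m : ℝ → ℂ) :
    T7.MeanEig ψ w m ↔ MeanEigC ψ w m := Iff.rfl

/-! ## 3. The basis -/

/-- An orthonormal family of joint eigenfunctions of the class `IsWFn 𝔫 R.r l o` of level 2,
complete for this class, with unitary eigen-data outside the level; the index type is
countable. -/
structure IsWBasis130 (𝔫 : Ideal (𝓞 K)) (R : T7.Frame5 K) (l : ℕ)
    (o : ℕ → HeightOneSpectrum (𝓞 K)) {ι : Type} (u : ι → G K → ℂ) (C : ι → T7.EigData K) :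
    Prop where
  eig : ∀ j, T7.IsEigFn 𝔫 R.r l o (u j) (C j)
  norm_one : ∀ j, T5.innerD R.μ R.F (u j) (u j) = 1
  orth : ∀ i j, i ≠ j → T5.innerD R.μ R.F (u i) (u j) = 0
  parseval : ∀ ψ : G K → ℂ, T7.IsWFn 𝔫 R.r l o ψ →
    HasSum (fun j => ‖T5.innerD R.μ R.F ψ (u j)‖ ^ 2) (T5.innerD R.μ R.F ψ ψ).re
  unitary : ∀ (j : ι) (S : Finset (HeightOneSpectrum (𝓞 K))),
    (∀ v : HeightOneSpectrum (𝓞 K), v.asIdeal ∣ 𝔫 → v ∈ S) → (C j).IsUnitaryOut S
  countable : Countable ι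

/-- A basis of T2 (with the extras) is a basis of the class `IsWFn 𝔫 R.r 0 o`. -/
theorem isWBasis_of_plus130 (hcx : ∀ w : InfinitePlace K, w.IsComplex) {𝔫 : Ideal (𝓞 K)}
    (h𝔫 : 𝔫 ≠ ⊥) (R : T7.Frame5 K) (hR : T7.IsFrame5 R) (o : ℕ → HeightOneSpectrum (𝓞 K))
    {ι : Type} {u : ι → G K → ℂ} {m : ι → InfinitePlace K → ℝ → ℂ}
    {a b : ι → HeightOneSpectrum (𝓞 K) → ℂ}
    (hB : IsCuspBasisPlus 𝔫 (frameOf130 R hR) u m a b) :
    IsWBasis130 𝔫 R 0 o u (fun j => ⟨a j, b j, m j⟩) where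
  eig := fun j =>
    { inv := (isWFn_zero_iff130 hR.ray o (u j)).2 (hB.basis.cusp j)
      hecke := fun v hv => hB.basis.hecke j v hv
      mean := fun w => hB.basis.eig_complex j w (hcx w) }
  norm_one := fun j => hB.basis.norm_one j
  orth := fun i j hij => hB.basis.orth i j hij
  parseval := fun ψ hψ => hB.basis.parseval ψ ((isWFn_zero_iff130 hR.ray o ψ).1 hψ)
  unitary := fun j _ hS =>
    ⟨fun v hv =>
      have hv' : ¬ v.asIdeal ∣ 𝔫 := fun h => hv (hS v h)
      ⟨hB.basis.unit_b j v hv', hB.basis.conj_a j v hv', hB.basis.bound_a j v hv'⟩,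
      fun w d hd => ⟨hB.basis.real_m j w d hd, hB.bound_m j w d hd⟩⟩
  countable :=
    countable_index130 h𝔫 hB.basis.cusp hB.basis.norm_one hB.basis.orth hB.eig_op

/-- **THE RESTRICTED `CuspSpec` OF LEVEL 2** (no Iwahori condition): for a totally complex field,
every level `𝔫 ≠ 0` and every frame of T5 there is an orthonormal family of joint eigenfunctions
of the class `IsWFn 𝔫 R.r 0 o`, complete for this class.  UNCONDITIONAL. -/
theorem wBasis0_130 (K : Type) [Field K] [NumberField K]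
    (hcx : ∀ w : InfinitePlace K, w.IsComplex) (𝔫 : Ideal (𝓞 K)) (h𝔫 : 𝔫 ≠ ⊥)
    (R : T7.Frame5 K) (hR : T7.IsFrame5 R) (o : ℕ → HeightOneSpectrum (𝓞 K)) :
    ∃ (ι : Type) (u : ι → G K → ℂ) (C : ι → T7.EigData K), IsWBasis130 𝔫 R 0 o u C := by
  obtain ⟨ι, u, m, a, b, hB⟩ := cuspSpecPlus_closed K 𝔫 h𝔫 (frameOf130 R hR)
  exact ⟨ι, u, fun j => ⟨a j, b j, m j⟩, isWBasis_of_plus130 hcx h𝔫 R hR o hB⟩

end Fermat.Agent.LT.T2

end
end
-- ===== PACK-END LT/T2/AdapterW.lean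

-- ===== PACK-BEGIN LT/T7/H561/NonVanClosed.lean
section











/-!
# Row LT, tower T7, node T7.L2.2.N `NonVanC561` (helper561, integrator): CLOSED

OFF-MAIN.  Every proof is complete, nothing assumed.  ADDITIVE (new names only, ending in `561`).
The state `nonVanC561_open817` of helper817 (registry row 2191) with its six open leaves closed:

* `H963.ClassFinC` : helper78 `classFinC78`;
* `H963.ClassLinC` : helper454 `classLinC454`;
* `H963.ClassOpC` : helper793 `classOpC793`;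
* `H963.SimpleC` : the top `simpleC_of_open` of helper963 on the three leaves above,
  `BadSystemExistsC`, `IwSystemExistsC` (helper593 `badSystemExistsC593`, `iwSystemExistsC593`) and
  `StepArchC` (helper258 `stepArchC258`);
* `CM616.NontrivC616` : helper938 `nontrivC938`;
* `CM616.MulGC616` : helper270 `mulGC270`.

    simpleC_closed561 (K) : H963.SimpleC K
    nonVanC_closed561     : NonVanC561 K K'
-/

set_option autoImplicit false

open AutomorphicForm IsDedekindDomain NumberField MeasureTheory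

noncomputable section

namespace Fermat.Agent.LT.T7.H561

open Fermat.Agent.LT.H556 Fermat.Agent.LT.H556.A0 Fermat.Agent.LT.T7

/-- **MULTIPLICITY ONE IN MODULE FORM** (the node `SimpleC` of helper963), CLOSED. -/
theorem simpleC_closed561 (K : Type) [Field K] [NumberField K] :
    Fermat.Agent.LT.T7.H963.SimpleC K :=
  Fermat.Agent.LT.T7.H963.simpleC_of_open (Fermat.Agent.LT.T7.H78.classFinC78 K)
    (Fermat.Agent.LT.T7.H454.classLinC454 K) (Fermat.Agent.LT.T7.H793.classOpC793 K)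
    (Fermat.Agent.LT.T7.H593DS.badSystemExistsC593 K)
    (Fermat.Agent.LT.T7.H593DS.iwSystemExistsC593 K) (Fermat.Agent.LT.T7.H258.stepArchC258 K)

variable {K K' : Type} [Field K] [NumberField K] [Field K'] [NumberField K'] [Algebra K K']

/-- **`NonVanC561` CLOSED** (registry row 2191). -/
theorem nonVanC_closed561 : NonVanC561 K K' :=
  Fermat.Agent.LT.T7.H817.nonVanC561_open817 K K' (Fermat.Agent.LT.T7.H78.classFinC78 K')
    (Fermat.Agent.LT.T7.H454.classLinC454 K') (Fermat.Agent.LT.T7.H793.classOpC793 K')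
    (simpleC_closed561 K') (Fermat.Agent.LT.T7.H938.nontrivC938 K K')
    (Fermat.Agent.LT.T7.H270.mulGC270 K K')

end Fermat.Agent.LT.T7.H561

end

end
-- ===== PACK-END LT/T7/H561/NonVanClosed.lean

-- ===== PACK-BEGIN LT/T7/P51/ConvAvgTop.lean
section



/-!
# Row LT, tower T7, node T7.L2.1.H2b.G2 `ConvAvgC51` (helper51): the PROVED top

OFF-MAIN.  No hole, nothing assumed.  ADDITIVE.

    convAvgC_of51 : ConvFamC51 K' → ConvFamC51 K → TestSmulC51 K → LocConvExC51 → UnitConvC51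
        → UnitRegC51 → RegAC51 K K' → RegOpC51 K K' → OverFinC51 K K' → BelowUniqC51 K K'
        → BelowExC51 K K' → TotCplxUpC51 K K' → LevelAtC51 K K' → ConvAvgC51 K K'
-/

set_option autoImplicit false

open AutomorphicForm IsDedekindDomain NumberField MeasureTheory
open scoped ComplexConjugate

noncomputable section

namespace Fermat.Agent.LT.T7.P51

open Fermat.Agent.LT.H556 Fermat.Agent.LT.H556.A0 Fermat.Agent.LT.T7
open Fermat.Agent.LT.T7.H305 Fermat.Agent.LT.T7.H893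

attribute [local instance] Fermat.Agent.LT.T5.instMeasurableSpaceG

section OneField

variable {F : Type} [Field F] [NumberField F]

/-- A pure tensor is linear in the component at a place of `T`. -/
theorem pure305_scale51 (T : Finset (HeightOneSpectrum (𝓞 F)))
    (f₀ f₀' : ∀ v : HeightOneSpectrum (𝓞 F), GL (Fin 2) (v.adicCompletion F) → ℂ)
    (Φ : InfinitePlace F → GL (Fin 2) ℂ → ℂ) (u : HeightOneSpectrum (𝓞 F)) (hu : u ∈ T)
    (t : ℂ) (h1 : ∀ x, f₀' u x = t * f₀ u x) (h2 : ∀ v, v ≠ u → f₀' v = f₀ v) (h : G F) :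
    pure305 T f₀' Φ h = t * pure305 T f₀ Φ h := by
  classical
  unfold pure305
  split_ifs with hO
  · rw [← Finset.mul_prod_erase T _ hu, ← Finset.mul_prod_erase T (fun v => f₀ v (finGL305 v h)) hu,
      h1]
    have : ∏ v ∈ T.erase u, f₀' v (finGL305 v h) = ∏ v ∈ T.erase u, f₀ v (finGL305 v h) :=
      Finset.prod_congr rfl fun v hv => by rw [h2 v (Finset.ne_of_mem_erase hv)]
    rw [this]
    ring
  · simp

/-- The upper ideal of a non-zero ideal is not zero. -/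
theorem upI_ne_bot51 {K K' : Type} [Field K] [NumberField K] [Field K'] [NumberField K']
    [Algebra K K'] (𝔫 : Ideal (𝓞 K)) (h : 𝔫 ≠ ⊥) : upI (K' := K') 𝔫 ≠ ⊥ := by
  unfold upI
  intro h0
  exact h ((Ideal.map_eq_bot_iff_of_injective
    (FaithfulSMul.algebraMap_injective (𝓞 K) (𝓞 K'))).1 h0)

/-- `conv` is linear in the second argument. -/
theorem conv_const_mul51 (μ : Measure (G F)) (φ ψ : G F → ℂ) (a : ℂ) (h : G F) :
    T5.conv μ φ (fun x => a * ψ x) h = a * T5.conv μ φ ψ h := by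
  unfold T5.conv
  rw [← integral_const_mul]
  congr 1
  funext y
  ring

end OneField

section Top

variable {K K' : Type} [Field K] [NumberField K] [Field K'] [NumberField K'] [Algebra K K']

/-- Membership upstairs in terms of the place below. -/
theorem mem_over_iff51 (hBU : BelowUniqC51 K K') {T : Finset (HeightOneSpectrum (𝓞 K))}
    {T' : Finset (HeightOneSpectrum (𝓞 K'))} (hT : IsOver305 T T')
    {v : HeightOneSpectrum (𝓞 K)} {w : HeightOneSpectrum (𝓞 K')} (hw : PlaceOver K K' v w) :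
    w ∈ T' ↔ v ∈ T := by
  constructor
  · intro h
    obtain ⟨v', hv', hw'⟩ := (hT w).1 h
    rwa [hBU v v' w hw hw']
  · intro h
    exact (hT w).2 ⟨v, h, hw⟩

/-- **THE NODE `ConvAvgC51` from the one-field node and the small leaves.** -/
theorem convAvgC_of51 (hU' : ConvFamC51 K') (hD : ConvFamC51 K) (hTS : TestSmulC51 K)
    (hEx : LocConvExC51) (hUn : UnitConvC51) (hUR : UnitRegC51) (hRA : RegAC51 K K')
    (hRO : RegOpC51 K K') (hOF : OverFinC51 K K') (hBU : BelowUniqC51 K K')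
    (hBE : BelowExC51 K K') (hTC : TotCplxUpC51 K K') (hLA : LevelAtC51 K K') :
    ConvAvgC51 K K' := by
  classical
  intro ℓ Φ B g 𝔫 μc T₀ n n₀ m hctx
  by_cases h𝔫 : 𝔫 = ⊥
  · exact ⟨1, one_ne_zero, fun t a _ _ H' z' H z hsys => absurd h𝔫 hsys.level_ne⟩
  have h𝔑 : upI (K' := K') 𝔫 ≠ ⊥ := upI_ne_bot51 𝔫 h𝔫
  have hlev := hLA 𝔫 T₀ n m hctx.mem_T₀ hctx.lev_m hctx.lev_n
  obtain ⟨T₀', hT₀'⟩ := hOF T₀
  have hn0 : ∀ w : HeightOneSpectrum (𝓞 K'), w ∉ T₀' → n w = 0 := by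
    intro w hw
    obtain ⟨v, hv⟩ := hBE w
    exact hlev.2 v w (fun hv0 => hw ((hT₀' w).2 ⟨v, hv0, hv⟩)) hv
  obtain ⟨cu, hcu, hUp⟩ := hU' (hTC hctx.tc) B.R'.μ hctx.base.frame'.frame.haar μc hctx.haar
    T₀' n hn0 (upI (K' := K') 𝔫) h𝔑
  obtain ⟨cd, hcd, hDn⟩ := hD hctx.tc B.R.μ hctx.base.frame.frame.haar μc hctx.haar
    T₀ m hlev.1 𝔫 h𝔫
  have hcuC : (cu : ℂ) ≠ 0 := by exact_mod_cast hcu
  have hcdC : (cd : ℂ) ≠ 0 := by exact_mod_cast hcd
  refine ⟨(cd : ℂ) / (cu : ℂ), div_ne_zero hcdC hcuC, ?_⟩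
  intro t a ht ha H' z' H z hsys k j φ₁' φ₂' f₁ f₂ hA hB
  obtain ⟨Ω₁, i11, i12, i13, i14, i15, i16, ν₁, i17, T₁, T₁', φ1, Φ1, f1, F1, A1, A2, A3, A4,
    A5, A6, A7, A8, A9⟩ := hA
  obtain ⟨Ω₂, i21, i22, i23, i24, i25, i26, ν₂, i27, T₂, T₂', φ2, Φ2, f2, F2, B1, B2, B3, B4,
    B5, B6, B7, B8, B9⟩ := hB
  -- the original components of the second pair
  have hB1' : ∀ b : Ω₂, ∃ (φo : ∀ w : HeightOneSpectrum (𝓞 K'), GL (Fin 2) (w.adicCompletion K') → ℂ)
      (fo : ∀ v : HeightOneSpectrum (𝓞 K), GL (Fin 2) (v.adicCompletion K) → ℂ),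
      LocB893b B g 𝔫 μc T₀ n n₀ m (T₂ b) φo (Φ2 b) fo (F2 b) ∧
      (∀ v ∈ T₀, v ≠ B.u → f2 b v = fo v ∧
        ∀ w : HeightOneSpectrum (𝓞 K'), PlaceOver K K' v w →
          φ2 b w = dblFn893 (n₀ w) (finGL305 w g)) ∧
      f2 b B.u = regLoc51 B.u z H k j iwFn893 ∧
      φ2 b (B.o 0) = regLoc51 (B.o 0) z' H' k j iwFn893 ∧
      (∀ i : ℕ, 0 < i → i < B.l → φ2 b (B.o i) = iwFn893) ∧
      ∀ v ∈ T₂ b, v ∉ T₀ → f2 b v = fo v ∧
        ∀ w : HeightOneSpectrum (𝓞 K'), PlaceOver K K' v w → φ2 b w = φo w :=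
    fun b => (B1 b).2.2
  choose φo fo hLB hbad hfu hφ0 hφi hout using hB1'
  have hRA1 := fun a : Ω₁ => hRA ℓ Φ B g 𝔫 μc T₀ n n₀ m hctx (T₁ a) (φ1 a) (Φ1 a) (f1 a) (F1 a)
    (A1 a).1 (A1 a).2.2
  have hRO1 := fun b : Ω₂ => hRO ℓ Φ B g 𝔫 μc T₀ n n₀ m hctx H' z' H z hsys k j (T₂ b) (φ2 b)
    (Φ2 b) (f2 b) (F2 b) (B1 b).1 (B1 b).2.2
  have hsubT₀' : ∀ {T : Finset (HeightOneSpectrum (𝓞 K))}
      {T' : Finset (HeightOneSpectrum (𝓞 K'))}, T₀ ⊆ T → IsOver305 T T' → T₀' ⊆ T' := by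
    intro T T' hT hO w hw
    obtain ⟨v, hv, hvw⟩ := (hT₀' w).1 hw
    exact (hO w).2 ⟨v, hT hv, hvw⟩
  have hu0 : B.u ∈ T₀ := (hctx.mem_T₀ B.u).2 hsys.u_level
  -- the four families
  have famU1 : IsFam51 (upI (K' := K') 𝔫) n T₀' T₁' φ1 Φ1 :=
    { sub := fun a => hsubT₀' (A1 a).1 (A1 a).2.1
      test := A2
      cont := A4
      supp := A6
      reg := fun a w hw => by
        obtain ⟨v, hv, hvw⟩ := ((A1 a).2.1 w).1 hw
        exact ((hRA1 a).1 v hv).1 w hvw
      arch := fun a w => (hRA1 a).2.1 w }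
  have famU2 : IsFam51 (upI (K' := K') 𝔫) n T₀' T₂' φ2 Φ2 :=
    { sub := fun b => hsubT₀' (B1 b).1 (B1 b).2.1
      test := B2
      cont := B4
      supp := B6
      reg := fun b w hw => by
        obtain ⟨v, hv, hvw⟩ := ((B1 b).2.1 w).1 hw
        exact ((hRO1 b).1 v hv).1 w hvw
      arch := fun b w => (hRO1 b).2.1 w }
  have famD1 : IsFam51 𝔫 m T₀ T₁ f1 F1 :=
    { sub := fun a => (A1 a).1
      test := fun a => by
        have := A3 a
        simp only [one_mul] at this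
        exact this
      cont := by
        have := A5
        simp only [one_mul] at this
        exact this
      supp := A7
      reg := fun a v hv => ((hRA1 a).1 v hv).2
      arch := fun a v => (hRA1 a).2.2 v }
  have famD2 : IsFam51 𝔫 m T₀ T₂ f2 F2 :=
    { sub := fun b => (B1 b).1
      test := fun b => by
        have := hTS 𝔫 _ a⁻¹ (B3 b)
        simp only [inv_mul_cancel_left₀ ha] at this
        exact this
      cont := by
        have := (continuous_const (y := a⁻¹)).mul B5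
        exact this.congr fun p => inv_mul_cancel_left₀ ha _
      supp := B7
      reg := fun b v hv => ((hRO1 b).1 v hv).2
      arch := fun b v => (hRO1 b).2.2 v }
  -- regularity of the extended components outside the level
  have hextU : ∀ {Ω : Type} [TopologicalSpace Ω] (T : Ω → Finset (HeightOneSpectrum (𝓞 K')))
      (φ : Ω → ∀ w : HeightOneSpectrum (𝓞 K'), GL (Fin 2) (w.adicCompletion K') → ℂ)
      (Φ' : Ω → InfinitePlace K' → GL (Fin 2) ℂ → ℂ),
      IsFam51 (upI (K' := K') 𝔫) n T₀' T φ Φ' → ∀ (a : Ω) (w : HeightOneSpectrum (𝓞 K')),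
      w ∉ T₀' → T6.IsBiInv (T6.InU 0) (ext51 (T a) (φ a) w) ∧
        T6.HasFinSupp (T6.InU 0) (ext51 (T a) (φ a) w) := by
    intro Ω _ T φ Φ' hfam a w hw
    unfold ext51
    split_ifs with h
    · have := hfam.reg a w h
      rwa [hn0 w hw] at this
    · exact hUR _ 0
  have hextD : ∀ {Ω : Type} [TopologicalSpace Ω] (T : Ω → Finset (HeightOneSpectrum (𝓞 K)))
      (φ : Ω → ∀ w : HeightOneSpectrum (𝓞 K), GL (Fin 2) (w.adicCompletion K) → ℂ)
      (Φ' : Ω → InfinitePlace K → GL (Fin 2) ℂ → ℂ),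
      IsFam51 𝔫 m T₀ T φ Φ' → ∀ (a : Ω) (w : HeightOneSpectrum (𝓞 K)),
      w ∉ T₀ → T6.IsBiInv (T6.InU 0) (ext51 (T a) (φ a) w) ∧
        T6.HasFinSupp (T6.InU 0) (ext51 (T a) (φ a) w) := by
    intro Ω _ T φ Φ' hfam a w hw
    unfold ext51
    split_ifs with h
    · have := hfam.reg a w h
      rwa [hlev.1 w hw] at this
    · exact hUR _ 0
  -- the components of the products
  obtain ⟨χu, hχu1, hχu2⟩ : ∃ χu : Ω₁ × Ω₂ → ∀ w : HeightOneSpectrum (𝓞 K'),
      GL (Fin 2) (w.adicCompletion K') → ℂ,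
      (∀ (p : Ω₁ × Ω₂) (w : HeightOneSpectrum (𝓞 K')), w ∈ T₀' → χu p w = φ2 p.2 w) ∧
      ∀ (p : Ω₁ × Ω₂) (w : HeightOneSpectrum (𝓞 K')), w ∉ T₀' →
        T6.IsConv (T6.InU 0) (ext51 (T₁' p.1) (φ1 p.1) w) (ext51 (T₂' p.2) (φ2 p.2) w)
          (χu p w) := by
    have hex : ∀ (p : Ω₁ × Ω₂) (w : HeightOneSpectrum (𝓞 K')), w ∉ T₀' →
        ∃ χ, T6.IsConv (T6.InU 0) (ext51 (T₁' p.1) (φ1 p.1) w) (ext51 (T₂' p.2) (φ2 p.2) w) χ :=
      fun p w hw => hEx _ 0 _ _ (hextU T₁' φ1 Φ1 famU1 p.1 w hw).1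
        (hextU T₁' φ1 Φ1 famU1 p.1 w hw).2 (hextU T₂' φ2 Φ2 famU2 p.2 w hw).1
        (hextU T₂' φ2 Φ2 famU2 p.2 w hw).2
    refine ⟨fun p w => if hw : w ∈ T₀' then φ2 p.2 w else (hex p w hw).choose, ?_, ?_⟩
    · intro p w hw
      simp only [dif_pos hw]
    · intro p w hw
      simp only [dif_neg hw]
      exact (hex p w hw).choose_spec
  obtain ⟨χd0, hχd01, hχd02⟩ : ∃ χd0 : Ω₁ × Ω₂ → ∀ v : HeightOneSpectrum (𝓞 K),
      GL (Fin 2) (v.adicCompletion K) → ℂ,
      (∀ (p : Ω₁ × Ω₂) (v : HeightOneSpectrum (𝓞 K)), v ∈ T₀ → χd0 p v = f2 p.2 v) ∧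
      ∀ (p : Ω₁ × Ω₂) (v : HeightOneSpectrum (𝓞 K)), v ∉ T₀ →
        T6.IsConv (T6.InU 0) (ext51 (T₁ p.1) (f1 p.1) v) (ext51 (T₂ p.2) (f2 p.2) v)
          (χd0 p v) := by
    have hex : ∀ (p : Ω₁ × Ω₂) (v : HeightOneSpectrum (𝓞 K)), v ∉ T₀ →
        ∃ χ, T6.IsConv (T6.InU 0) (ext51 (T₁ p.1) (f1 p.1) v) (ext51 (T₂ p.2) (f2 p.2) v) χ :=
      fun p v hv => hEx _ 0 _ _ (hextD T₁ f1 F1 famD1 p.1 v hv).1
        (hextD T₁ f1 F1 famD1 p.1 v hv).2 (hextD T₂ f2 F2 famD2 p.2 v hv).1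
        (hextD T₂ f2 F2 famD2 p.2 v hv).2
    refine ⟨fun p v => if hv : v ∈ T₀ then f2 p.2 v else (hex p v hv).choose, ?_, ?_⟩
    · intro p v hv
      simp only [dif_pos hv]
    · intro p v hv
      simp only [dif_neg hv]
      exact (hex p v hv).choose_spec
  obtain ⟨χd, hχd1, hχd2⟩ : ∃ χd : Ω₁ × Ω₂ → ∀ v : HeightOneSpectrum (𝓞 K),
      GL (Fin 2) (v.adicCompletion K) → ℂ,
      (∀ (p : Ω₁ × Ω₂) (x : GL (Fin 2) (B.u.adicCompletion K)),
        χd p B.u x = t * χd0 p B.u x) ∧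
      ∀ (p : Ω₁ × Ω₂) (v : HeightOneSpectrum (𝓞 K)), v ≠ B.u → χd p v = χd0 p v := by
    refine ⟨fun p v => if v = B.u then (fun x => t * χd0 p v x) else χd0 p v, ?_, ?_⟩
    · intro p x
      simp only [if_true]
    · intro p v hv
      simp only [if_neg hv]
  -- the local convolutions at the places of the products
  have hconvU : ∀ (p : Ω₁ × Ω₂) (w : HeightOneSpectrum (𝓞 K')), w ∈ T₁' p.1 ∪ T₂' p.2 →
      T6.IsConv (T6.InU (n w)) (ext51 (T₁' p.1) (φ1 p.1) w) (ext51 (T₂' p.2) (φ2 p.2) w)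
        (χu p w) := by
    intro p w _
    by_cases hw : w ∈ T₀'
    · obtain ⟨v, hv, hvw⟩ := (hT₀' w).1 hw
      have e1 : ext51 (T₁' p.1) (φ1 p.1) w = unitFn893 (n w) := by
        unfold ext51
        rw [if_pos (famU1.sub p.1 hw)]
        exact (A1 p.1).2.2.2.1 v hv w hvw
      have e2 : ext51 (T₂' p.2) (φ2 p.2) w = φ2 p.2 w := by
        unfold ext51
        rw [if_pos (famU2.sub p.2 hw)]
      rw [e1, e2, hχu1 p w hw]
      exact hUn _ (n w) _ (famU2.reg p.2 w (famU2.sub p.2 hw)).1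
    · rw [hn0 w hw]
      exact hχu2 p w hw
  have hconvD : ∀ (p : Ω₁ × Ω₂) (v : HeightOneSpectrum (𝓞 K)), v ∈ T₁ p.1 ∪ T₂ p.2 →
      T6.IsConv (T6.InU (m v)) (ext51 (T₁ p.1) (f1 p.1) v) (ext51 (T₂ p.2) (f2 p.2) v)
        (χd0 p v) := by
    intro p v _
    by_cases hv : v ∈ T₀
    · have e1 : ext51 (T₁ p.1) (f1 p.1) v = unitFn893 (m v) := by
        unfold ext51
        rw [if_pos (famD1.sub p.1 hv)]
        exact (A1 p.1).2.2.1 v hv
      have e2 : ext51 (T₂ p.2) (f2 p.2) v = f2 p.2 v := by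
        unfold ext51
        rw [if_pos (famD2.sub p.2 hv)]
      rw [e1, e2, hχd01 p v hv]
      exact hUn _ (m v) _ (famD2.reg p.2 v (famD2.sub p.2 hv)).1
    · rw [hlev.1 v hv]
      exact hχd02 p v hv
  obtain ⟨testU, contU, suppU, intU⟩ :=
    hUp Ω₁ ν₁ Ω₂ ν₂ T₁' φ1 Φ1 T₂' φ2 Φ2 χu famU1 famU2 hconvU
  obtain ⟨testD, contD, suppD, intD⟩ :=
    hDn Ω₁ ν₁ Ω₂ ν₂ T₁ f1 F1 T₂ f2 F2 χd0 famD1 famD2 hconvD
  have hscale : ∀ (p : Ω₁ × Ω₂) (h : G K),
      pure305 (T₁ p.1 ∪ T₂ p.2) (χd p)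
          (fun v => @T6.convInt _ _ (borel _) μc (F1 p.1 v) (F2 p.2 v)) h
        = t * pure305 (T₁ p.1 ∪ T₂ p.2) (χd0 p)
          (fun v => @T6.convInt _ _ (borel _) μc (F1 p.1 v) (F2 p.2 v)) h :=
    fun p h => pure305_scale51 _ (χd0 p) (χd p) _ B.u
      (Finset.mem_union_left _ ((A1 p.1).1 hu0)) t (hχd1 p) (hχd2 p) h
  have hCt : ∀ x : ℂ, a * ((cd : ℂ) / (cu : ℂ)) / t * (t * x)
      = a * ((cd : ℂ) / (cu : ℂ)) * x := by
    intro x
    field_simp
  refine ⟨Ω₁ × Ω₂, inferInstance, inferInstance, inferInstance, inferInstance, inferInstance,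
    inferInstance, cu • (ν₁.prod ν₂), inferInstance,
    fun p => T₁ p.1 ∪ T₂ p.2, fun p => T₁' p.1 ∪ T₂' p.2, χu,
    fun p w => @T6.convInt _ _ (borel _) μc (Φ1 p.1 w) (Φ2 p.2 w), χd,
    fun p v => @T6.convInt _ _ (borel _) μc (F1 p.1 v) (F2 p.2 v), ?_, ?_, ?_, ?_, ?_, ?_, ?_,
    ?_, ?_⟩
  · -- the local shape
    intro p
    refine ⟨fun v hv => Finset.mem_union_left _ ((A1 p.1).1 hv), ?_, ?_⟩
    · intro w
      rw [Finset.mem_union, (A1 p.1).2.1 w, (B1 p.2).2.1 w]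
      constructor
      · rintro (⟨v, hv, hw⟩ | ⟨v, hv, hw⟩)
        · exact ⟨v, Finset.mem_union_left _ hv, hw⟩
        · exact ⟨v, Finset.mem_union_right _ hv, hw⟩
      · rintro ⟨v, hv, hw⟩
        rcases Finset.mem_union.1 hv with h | h
        · exact Or.inl ⟨v, h, hw⟩
        · exact Or.inr ⟨v, h, hw⟩
    · refine ⟨T₁ p.1, T₂ p.2, φ1 p.1, Φ1 p.1, f1 p.1, F1 p.1, φo p.2, Φ2 p.2, fo p.2, F2 p.2,
        rfl, (A1 p.1).1, (B1 p.2).1, (A1 p.1).2.2, hLB p.2, ?_, ?_, ?_, ?_, ?_, ?_, ?_⟩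
      · intro v hv hvu
        refine ⟨?_, fun w hw => ?_⟩
        · rw [hχd2 p v hvu, hχd01 p v hv]
          exact (hbad p.2 v hv hvu).1
        · rw [hχu1 p w ((hT₀' w).2 ⟨v, hv, hw⟩)]
          exact (hbad p.2 v hv hvu).2 w hw
      · funext x
        rw [hχd1 p x, hχd01 p B.u hu0, hfu p.2]
      · rw [hχu1 p (B.o 0) ((hT₀' _).2 ⟨B.u, hu0, hctx.base.orbit_over 0⟩)]
        exact hφ0 p.2
      · intro i hi hil
        rw [hχu1 p (B.o i) ((hT₀' _).2 ⟨B.u, hu0, hctx.base.orbit_over i⟩)]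
        exact hφi p.2 i hi hil
      · intro v hv hv0
        have hvu : v ≠ B.u := fun e => hv0 (e ▸ hu0)
        refine ⟨?_, fun w hw => ?_⟩
        · have h1 := hχd02 p v hv0
          rw [hχd2 p v hvu]
          have e2 : ext51 (T₂ p.2) (f2 p.2) v
              = if v ∈ T₂ p.2 then fo p.2 v else unitFn893 0 := by
            unfold ext51
            by_cases h : v ∈ T₂ p.2
            · rw [if_pos h, if_pos h]
              exact (hout p.2 v h hv0).1
            · rw [if_neg h, if_neg h]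
          rw [e2] at h1
          exact h1
        · have hw0 : w ∉ T₀' := fun h => hv0 ((mem_over_iff51 hBU hT₀' hw).1 h)
          have h1 := hχu2 p w hw0
          have e1 : ext51 (T₁' p.1) (φ1 p.1) w
              = if v ∈ T₁ p.1 then φ1 p.1 w else unitFn893 0 := by
            unfold ext51
            by_cases h : v ∈ T₁ p.1
            · rw [if_pos h, if_pos ((mem_over_iff51 hBU (A1 p.1).2.1 hw).2 h)]
            · rw [if_neg h, if_neg (fun h' => h ((mem_over_iff51 hBU (A1 p.1).2.1 hw).1 h'))]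
          have e2 : ext51 (T₂' p.2) (φ2 p.2) w
              = if v ∈ T₂ p.2 then φo p.2 w else unitFn893 0 := by
            unfold ext51
            by_cases h : v ∈ T₂ p.2
            · rw [if_pos h, if_pos ((mem_over_iff51 hBU (B1 p.2).2.1 hw).2 h)]
              exact (hout p.2 v h hv0).2 w hw
            · rw [if_neg h, if_neg (fun h' => h ((mem_over_iff51 hBU (B1 p.2).2.1 hw).1 h'))]
          rw [e1, e2] at h1
          exact h1
      · intro w
        rfl
      · intro v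
        rfl
  · exact testU
  · intro p
    have := hTS 𝔫 _ (a * ((cd : ℂ) / (cu : ℂ))) (testD p)
    have e : (fun h : G K => a * ((cd : ℂ) / (cu : ℂ)) / t
          * pure305 (T₁ p.1 ∪ T₂ p.2) (χd p)
            (fun v => @T6.convInt _ _ (borel _) μc (F1 p.1 v) (F2 p.2 v)) h)
        = fun h : G K => a * ((cd : ℂ) / (cu : ℂ))
          * pure305 (T₁ p.1 ∪ T₂ p.2) (χd0 p)
            (fun v => @T6.convInt _ _ (borel _) μc (F1 p.1 v) (F2 p.2 v)) h := by
      funext h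
      rw [hscale p h, hCt]
    rw [e]
    exact this
  · exact contU
  · have := (continuous_const (y := a * ((cd : ℂ) / (cu : ℂ)))).mul contD
    refine this.congr fun q => ?_
    rw [hscale q.1 q.2, hCt]
    rfl
  · exact suppU
  · obtain ⟨C, hC, hC'⟩ := suppD
    refine ⟨C, hC, fun p h hne => hC' p h fun h0 => hne ?_⟩
    rw [hscale p h, h0, mul_zero]
  · intro h
    have e1 : φ₁' = fun x => ∫ a, pure305 (T₁' a) (φ1 a) (Φ1 a) x ∂ν₁ := funext A8
    have e2 : φ₂' = fun x => ∫ b, pure305 (T₂' b) (φ2 b) (Φ2 b) x ∂ν₂ := funext B8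
    rw [e1, e2]
    exact intU h
  · intro h
    have e1 : f₁ = fun x => ∫ a, pure305 (T₁ a) (f1 a) (F1 a) x ∂ν₁ := by
      funext x
      rw [A9 x]
      simp only [one_mul]
    have e2 : f₂ = fun x => a * ∫ b, pure305 (T₂ b) (f2 b) (F2 b) x ∂ν₂ := by
      funext x
      rw [B9 x, integral_const_mul]
    rw [e1, e2, conv_const_mul51, intD h, integral_smul_nnreal_measure,
      integral_smul_nnreal_measure]
    have e3 : (fun p : Ω₁ × Ω₂ => a * ((cd : ℂ) / (cu : ℂ)) / t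
          * pure305 (T₁ p.1 ∪ T₂ p.2) (χd p)
            (fun v => @T6.convInt _ _ (borel _) μc (F1 p.1 v) (F2 p.2 v)) h)
        = fun p : Ω₁ × Ω₂ => a * ((cd : ℂ) / (cu : ℂ))
          * pure305 (T₁ p.1 ∪ T₂ p.2) (χd0 p)
            (fun v => @T6.convInt _ _ (borel _) μc (F1 p.1 v) (F2 p.2 v)) h := by
      funext p
      rw [hscale p h, hCt]
    rw [e3, integral_const_mul, NNReal.smul_def, NNReal.smul_def, Complex.real_smul,
      Complex.real_smul]
    have hcu' : ((cu : ℝ) : ℂ) ≠ 0 := by exact_mod_cast hcu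
    field_simp

end Top

end Fermat.Agent.LT.T7.P51

end

end
-- ===== PACK-END LT/T7/P51/ConvAvgTop.lean

-- ===== PACK-BEGIN LT/T7/H236/ShapeFinC.lean
section
/-
Row LT, tower T7, node T7.L2.1.H2a.4 `Pair2Cb970` (sub-architect helper970), leaf 4.6 `ShapeC970`
(registry 2867) -- helper236, SPARE.  OFF-MAIN.  Part C: THE LEFT INVARIANCE of the new members
under the level groups.  Upstairs: the representatives normalise `U(𝔫 𝒪_{K'})` (they are
integral, `inLevelGroup_conj420` of helper420).  Downstairs: componentwise (the partners `b v`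
are bi-invariant under `U(m v)`, the Iwahori function under `U(m u)`, `m u ≥ 1`, the spherical
components under `GL₂(𝒪_v)`: `cartan_mul_mul_h687` of helper687).  Complete proofs.
-/





set_option autoImplicit false
set_option linter.unusedSectionVars false
set_option linter.unusedVariables false
set_option linter.style.haveILetI false

open AutomorphicForm IsDedekindDomain NumberField MeasureTheory
open scoped ComplexConjugate

noncomputable section

namespace Fermat.Agent.LT.T7.H236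

open Fermat.Agent.LT.H556 Fermat.Agent.LT.H556.A0 Fermat.Agent.LT Fermat.Agent.LT.T7
open Fermat.Agent.LT.T7.H305 Fermat.Agent.LT.T7.H893 Fermat.Agent.LT.T7.B981
open Fermat.Agent.LT.T7.B970

attribute [local instance] Fermat.Agent.LT.T5.instMeasurableSpaceG

/-! ## 1. Local lemmas -/

section Local

variable {k : Type} [Field k] [Valued k T6.Γ₀]

theorem inU_one236 (n : ℕ) : T6.InU n (1 : GL (Fin 2) k) := by
  intro i j
  simp

theorem inU_inv236 {n : ℕ} {g : GL (Fin 2) k} (h : T6.InU n g) : T6.InU n g⁻¹ := by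
  intro i j
  refine ⟨(h i j).2, ?_⟩
  rw [inv_inv]
  exact (h i j).1

theorem exp_neg_le_one236 (n : ℕ) : (WithZero.exp (-(n : ℤ)) : T6.Γ₀) ≤ 1 := by
  rw [← WithZero.exp_zero, WithZero.exp_le_exp]
  omega

theorem exp_neg_lt_one236 {n : ℕ} (hn : 1 ≤ n) : (WithZero.exp (-(n : ℤ)) : T6.Γ₀) < 1 := by
  rw [← WithZero.exp_zero, WithZero.exp_lt_exp]
  omega

theorem one_entry_le236 (i j : Fin 2) :
    Valued.v ((1 : Matrix (Fin 2) (Fin 2) k) i j) ≤ (1 : T6.Γ₀) := by
  by_cases hij : i = j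
  · subst hij
    rw [Matrix.one_apply_eq, map_one]
  · rw [Matrix.one_apply_ne hij, map_zero]
    exact zero_le

theorem entry_le_of_inU236 {n : ℕ} {g : GL (Fin 2) k} (h : T6.InU n g) (i j : Fin 2) :
    Valued.v ((g : Matrix (Fin 2) (Fin 2) k) i j) ≤ 1 := by
  have e : (g : Matrix (Fin 2) (Fin 2) k) i j
      = ((g : Matrix (Fin 2) (Fin 2) k) i j - (1 : Matrix (Fin 2) (Fin 2) k) i j)
        + (1 : Matrix (Fin 2) (Fin 2) k) i j := by ring
  rw [e]
  exact (Valuation.map_add _ _ _).trans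
    (max_le ((h i j).1.trans (exp_neg_le_one236 n)) (one_entry_le236 i j))

theorem entry10_lt_of_inU236 {n : ℕ} (hn : 1 ≤ n) {g : GL (Fin 2) k} (h : T6.InU n g) :
    Valued.v ((g : Matrix (Fin 2) (Fin 2) k) 1 0) < 1 := by
  have h1 := (h 1 0).1
  rw [Matrix.one_apply_ne (by decide), sub_zero] at h1
  exact lt_of_le_of_lt h1 (exp_neg_lt_one236 hn)

theorem v_mul_le_one236 {x y : k} (hx : Valued.v x ≤ (1 : T6.Γ₀)) (hy : Valued.v y ≤ (1 : T6.Γ₀)) :
    Valued.v (x * y) ≤ (1 : T6.Γ₀) := by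
  rw [map_mul]
  exact mul_le_one' hx hy

theorem v_mul_lt_one236 {x y : k} (hx : Valued.v x < (1 : T6.Γ₀)) (hy : Valued.v y ≤ (1 : T6.Γ₀)) :
    Valued.v (x * y) < (1 : T6.Γ₀) := by
  rw [map_mul]
  calc Valued.v x * Valued.v y ≤ Valued.v x * 1 := mul_le_mul' le_rfl hy
    _ = Valued.v x := mul_one _
    _ < 1 := hx

theorem v_mul_lt_one236' {x y : k} (hx : Valued.v x ≤ (1 : T6.Γ₀)) (hy : Valued.v y < (1 : T6.Γ₀)) :
    Valued.v (x * y) < (1 : T6.Γ₀) := by
  rw [mul_comm]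
  exact v_mul_lt_one236 hy hx

/-- The Iwahori subgroup is stable under left multiplication by `U(n)`, `n ≥ 1`. -/
theorem inIw_mul_left236 {n : ℕ} (hn : 1 ≤ n) {κ x : GL (Fin 2) k} (hκ : T6.InU n κ)
    (hx : InIw893 x) : InIw893 (κ * x) := by
  obtain ⟨h1, h2, h3⟩ := hx
  have hκ' := inU_inv236 hκ
  refine ⟨fun i j => ?_, fun i j => ?_, ?_⟩
  · rw [Units.val_mul, Matrix.mul_apply, Fin.sum_univ_two]
    exact (Valuation.map_add _ _ _).trans
      (max_le (v_mul_le_one236 (entry_le_of_inU236 hκ i 0) (h1 0 j))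
        (v_mul_le_one236 (entry_le_of_inU236 hκ i 1) (h1 1 j)))
  · rw [mul_inv_rev, Units.val_mul, Matrix.mul_apply, Fin.sum_univ_two]
    exact (Valuation.map_add _ _ _).trans
      (max_le (v_mul_le_one236 (h2 i 0) (entry_le_of_inU236 hκ' 0 j))
        (v_mul_le_one236 (h2 i 1) (entry_le_of_inU236 hκ' 1 j)))
  · rw [Units.val_mul, Matrix.mul_apply, Fin.sum_univ_two]
    exact lt_of_le_of_lt (Valuation.map_add _ _ _)
      (max_lt (v_mul_lt_one236 (entry10_lt_of_inU236 hn hκ) (h1 0 0))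
        (v_mul_lt_one236' (entry_le_of_inU236 hκ 1 1) h3))

open Classical in
theorem iwFn_mul_left236 {n : ℕ} (hn : 1 ≤ n) {κ : GL (Fin 2) k} (hκ : T6.InU n κ)
    (x : GL (Fin 2) k) : iwFn893 (κ * x) = iwFn893 x := by
  have hiff : InIw893 (κ * x) ↔ InIw893 x := by
    constructor
    · intro h
      have := inIw_mul_left236 hn (inU_inv236 hκ) h
      rwa [inv_mul_cancel_left] at this
    · exact inIw_mul_left236 hn hκ
  unfold iwFn893
  by_cases h : InIw893 x
  · rw [if_pos h, if_pos (hiff.2 h)]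
  · rw [if_neg h, if_neg (fun h' => h (hiff.1 h'))]

theorem biInv_left236 {n : ℕ} {φ : GL (Fin 2) k → ℂ} (hφ : T6.IsBiInv (T6.InU n) φ)
    {κ : GL (Fin 2) k} (hκ : T6.InU n κ) (x : GL (Fin 2) k) : φ (κ * x) = φ x := by
  have := hφ κ 1 x hκ (inU_one236 n)
  rwa [mul_one] at this

theorem sph_left236 {φ : GL (Fin 2) k → ℂ} {A : (ℤ × ℤ) →₀ ℂ} (hφ : IsSphFn893 φ A)
    {κ : GL (Fin 2) k} (hκ : T6.InU 0 κ) (x : GL (Fin 2) k) : φ (κ * x) = φ x := by
  rw [hφ.2, hφ.2]
  have := T6.H687.cartan_mul_mul_h687 x hκ (inU_one236 (k := k) 0)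
  rw [mul_one] at this
  rw [this]

end Local

/-! ## 2. Adelic lemmas (one field) -/

section OneField

variable {F : Type} [Field F] [NumberField F]

theorem infGL_of_triv236 {u : G F} (hu : ∀ w : InfinitePlace F, TrivAtInf w u)
    (w : InfinitePlace F) : infGL305 w u = 1 := by
  apply Units.ext
  ext i j
  show InfinitePlace.Completion.extensionEmbedding w
    (((u : Matrix (Fin 2) (Fin 2) (Adl F)) i j).1 w) = (1 : Matrix (Fin 2) (Fin 2) ℂ) i j
  rw [hu w i j]
  by_cases hij : i = j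
  · subst hij
    rw [Matrix.one_apply_eq, Matrix.one_apply_eq, map_one]
  · rw [Matrix.one_apply_ne hij, Matrix.one_apply_ne hij, map_zero]

theorem isIntegralAt_mul236 {v : HeightOneSpectrum (𝓞 F)} {a b : G F}
    (ha : IsIntegralAt v a) (hb : IsIntegralAt v b) : IsIntegralAt v (a * b) := by
  intro i j
  rw [H271.finComp_mul271, Matrix.mul_apply, Fin.sum_univ_two]
  exact add_mem (mul_mem (ha i 0) (hb 0 j)) (mul_mem (ha i 1) (hb 1 j))

theorem outT_level_mul236 {𝔫 : Ideal (𝓞 F)} {u : G F} (hu : InLevelGroup 𝔫 u)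
    (T : Finset (HeightOneSpectrum (𝓞 F))) (y : G F) : OutT305 T (u * y) ↔ OutT305 T y := by
  unfold OutT305
  refine forall_congr' fun v => forall_congr' fun _ => ?_
  have hi := H281.isIntegralAt_of_level281 hu v
  constructor
  · rintro ⟨h1, h2⟩
    refine ⟨?_, ?_⟩
    · have := isIntegralAt_mul236 hi.2 h1
      rwa [inv_mul_cancel_left] at this
    · have := isIntegralAt_mul236 h2 hi.1
      rwa [mul_inv_rev, inv_mul_cancel_right] at this
  · rintro ⟨h1, h2⟩
    refine ⟨isIntegralAt_mul236 hi.1 h1, ?_⟩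
    rw [mul_inv_rev]
    exact isIntegralAt_mul236 h2 hi.2

theorem inU_of_level236 {𝔫 : Ideal (𝓞 F)} {m : HeightOneSpectrum (𝓞 F) → ℕ}
    (hm : IsLevelOf893 𝔫 m) {u : G F} (hu : InLevelGroup 𝔫 u) (v : HeightOneSpectrum (𝓞 F)) :
    T6.InU (m v) (finGL305 v u) := by
  intro i j
  refine ⟨(hm v _).1 (hu.2 v i j).1, ?_⟩
  rw [← map_inv]
  exact (hm v _).1 (hu.2 v i j).2

theorem inU_zero_of_level236 {𝔫 : Ideal (𝓞 F)} {u : G F} (hu : InLevelGroup 𝔫 u)
    (v : HeightOneSpectrum (𝓞 F)) : T6.InU 0 (finGL305 v u) := by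
  intro i j
  have e : (WithZero.exp (-((0 : ℕ) : ℤ)) : T6.Γ₀) = 1 := by simp
  rw [e]
  refine ⟨H281.ic_le_one281 𝔫 v (hu.2 v i j).1, ?_⟩
  rw [← map_inv]
  exact H281.ic_le_one281 𝔫 v (hu.2 v i j).2

theorem one_le_level236 {𝔫 : Ideal (𝓞 F)} {m : HeightOneSpectrum (𝓞 F) → ℕ}
    (hm : IsLevelOf893 𝔫 m) {v : HeightOneSpectrum (𝓞 F)} (hv : v.asIdeal ∣ 𝔫) : 1 ≤ m v := by
  by_contra hcon
  have h0 : m v = 0 := by omega
  have h1 : (1 : v.adicCompletion F) ∈ idealClosure 𝔫 v := by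
    rw [hm v 1, h0, map_one]
    simp
  have := H439.ic_lt_one439 hv h1
  rw [map_one] at this
  exact lt_irrefl _ this

/-- A pure tensor is left invariant under an element of the level group if its components at
the places of `T` are left invariant under the components of the element. -/
theorem pure_left_inv236 {𝔫 : Ideal (𝓞 F)} {u : G F} (hu : InLevelGroup 𝔫 u)
    (T : Finset (HeightOneSpectrum (𝓞 F)))
    (c : ∀ v : HeightOneSpectrum (𝓞 F), GL (Fin 2) (v.adicCompletion F) → ℂ)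
    (Φ : InfinitePlace F → GL (Fin 2) ℂ → ℂ)
    (hc : ∀ v ∈ T, ∀ x : GL (Fin 2) (v.adicCompletion F), c v (finGL305 v u * x) = c v x)
    (y : G F) : pure305 T c Φ (u * y) = pure305 T c Φ y := by
  classical
  unfold pure305
  by_cases hO : OutT305 T y
  · rw [if_pos hO, if_pos ((outT_level_mul236 hu T y).2 hO)]
    congr 1
    · refine Finset.prod_congr rfl fun v hv => ?_
      rw [map_mul, hc v hv]
    · refine Finset.prod_congr rfl fun w _ => ?_
      rw [map_mul, infGL_of_triv236 hu.1 w, one_mul]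
  · rw [if_neg hO, if_neg (fun h => hO ((outT_level_mul236 hu T y).1 h))]

end OneField

/-! ## 3. The left invariance of the new members -/

section TwoFields

open Classical

variable {K K' : Type} [Field K] [NumberField K] [Field K'] [NumberField K'] [Algebra K K']

/-- **LEFT-UP.**  The sum of the left translates over the representatives of a function which
is left invariant under `U(𝔑)` is left invariant under `U(𝔑)`. -/
theorem lsum_left_inv236 {ℓ : ℕ} {B : L2Base K K'} {T₀ : Finset (HeightOneSpectrum (𝓞 K))}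
    {n n₀ : HeightOneSpectrum (𝓞 K') → ℕ} {s' : Finset (G K')}
    (hs' : IsWtUp970 ℓ B T₀ n n₀ s') {𝔑 : Ideal (𝓞 K')} (p' : G K' → ℂ)
    (hp : T5.IsTestFn 𝔑 T5.trivType p') (u : G K') (hu : InLevelGroup 𝔑 u) (y : G K') :
    lsum s' p' (u * y) = lsum s' p' y := by
  unfold lsum
  refine Finset.sum_congr rfl fun x hx => ?_
  have hinf : ∀ w : InfinitePlace K', TrivAtInf w x := (hs'.supp x hx).1
  have hint : ∀ v : HeightOneSpectrum (𝓞 K'), IsIntegralAt v x ∧ IsIntegralAt v x⁻¹ := by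
    intro v
    obtain ⟨i, u₀, hi, hu₀, rfl⟩ := hs'.mem x hx
    have h1 := H420W.integral_of_iw420 hi.2.1 hi.2.2 v
    have h2 := H281.isIntegralAt_of_level281 hu₀ v
    refine ⟨isIntegralAt_mul236 h1.1 h2.1, ?_⟩
    rw [mul_inv_rev]
    exact isIntegralAt_mul236 h2.2 h1.2
  have hc := H420W.inLevelGroup_conj420 hinf hint hu
  have e : x⁻¹ * (u * y) = (x⁻¹ * u * x) * (x⁻¹ * y) := by group
  rw [e, hp.inv.level_left _ hc]

/-- **LEFT-DOWN.**  The pure tensor with the replaced components downstairs is left invariant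
under `U(𝔫)`. -/
theorem repDn_left_inv236 {B : L2Base K K'} {g : G K'} {𝔫 : Ideal (𝓞 K)}
    {μc : @Measure (GL (Fin 2) ℂ) (borel _)} {T₀ : Finset (HeightOneSpectrum (𝓞 K))}
    {n n₀ : HeightOneSpectrum (𝓞 K') → ℕ} {m : HeightOneSpectrum (𝓞 K) → ℕ}
    (hlvl : IsLvl981 B 𝔫) (hexp : IsExp981 B 𝔫 T₀ n n₀ m)
    {b : ∀ v : HeightOneSpectrum (𝓞 K), GL (Fin 2) (v.adicCompletion K) → ℂ}
    (hb : LocFin970 (B.comp 𝔫) (T₀.erase B.u) n m
      (fun w => dblFn893 (n₀ w) (finGL305 w g)) b)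
    (T : Finset (HeightOneSpectrum (𝓞 K)))
    (φ₀ : ∀ w : HeightOneSpectrum (𝓞 K'), GL (Fin 2) (w.adicCompletion K') → ℂ)
    (Φ : InfinitePlace K' → GL (Fin 2) ℂ → ℂ)
    (f₀ : ∀ v : HeightOneSpectrum (𝓞 K), GL (Fin 2) (v.adicCompletion K) → ℂ)
    (F : InfinitePlace K → GL (Fin 2) ℂ → ℂ) (hT : T₀ ⊆ T)
    (hA : LocA893 B 𝔫 μc T₀ n m T φ₀ Φ f₀ F)
    (u : G K) (hu : InLevelGroup 𝔫 u) (y : G K) :
    pure305 T (repDn970 B T₀ b f₀) F (u * y) = pure305 T (repDn970 B T₀ b f₀) F y := by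
  have huT : B.u ∈ T₀ := (hexp.mem B.u).2 hlvl.u_level
  obtain ⟨-, -, hsph, -⟩ := hA
  refine pure_left_inv236 hu T _ F (fun v hv x => ?_) y
  by_cases hvu : v = B.u
  · subst hvu
    rw [repDn_u236]
    exact iwFn_mul_left236 (one_le_level236 hexp.lvl hlvl.u_level)
      (inU_of_level236 hexp.lvl hu B.u) x
  · by_cases hvT : v ∈ T₀
    · have hve : v ∈ T₀.erase B.u := Finset.mem_erase.2 ⟨hvu, hvT⟩
      rw [repDn_bad236 B T₀ b f₀ hve]
      exact biInv_left236 (hb.inv_down v hve).1 (inU_of_level236 hexp.lvl hu v) x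
    · rw [repDn_out236 B T₀ b f₀ huT hvT]
      obtain ⟨A, Av, h1, -⟩ := hsph v hv hvT
      exact sph_left236 h1 (inU_zero_of_level236 hu v) x

/-- **THE FINITE STEP, unconditional.** -/
theorem shapeFin236 {ℓ : ℕ} {B : L2Base K K'} {g : G K'} {𝔫 : Ideal (𝓞 K)}
    {μc : @Measure (GL (Fin 2) ℂ) (borel _)} {T₀ : Finset (HeightOneSpectrum (𝓞 K))}
    {n n₀ : HeightOneSpectrum (𝓞 K') → ℕ} {m : HeightOneSpectrum (𝓞 K) → ℕ}
    (hlvl : IsLvl981 B 𝔫) (hexp : IsExp981 B 𝔫 T₀ n n₀ m)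
    {s' : Finset (G K')} (hs' : IsWtUp970 ℓ B T₀ n n₀ s')
    {s : Finset (G K)} {β : G K → ℂ}
    {b : ∀ v : HeightOneSpectrum (𝓞 K), GL (Fin 2) (v.adicCompletion K) → ℂ}
    (hb : LocFin970 (B.comp 𝔫) (T₀.erase B.u) n m
      (fun w => dblFn893 (n₀ w) (finGL305 w g)) b)
    (hs : IsWtDown970 B T₀ m s β b)
    {Φ₁0 : G K' → ℂ} {F₁0 : G K → ℂ}
    (hA : IsAvgPure (upI (K' := K') 𝔫) 𝔫 T₀ (LocA893 B 𝔫 μc T₀ n m) 1 Φ₁0 F₁0) (c : ℂ) :
    IsAvgPure (upI (K' := K') 𝔫) 𝔫 T₀ (LocB893b B g 𝔫 μc T₀ n n₀ m) c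
      (lsum s' Φ₁0) (fun h => c * wsum970 s β F₁0 h) :=
  isAvgPure_rep236 ((hexp.mem B.u).2 hlvl.u_level) hs' hb hs
    (fun p' hp u hu y => lsum_left_inv236 hs' p' hp u hu y)
    (fun T φ₀ Φ f₀ F hT hL u hu y => repDn_left_inv236 hlvl hexp hb T φ₀ Φ f₀ F hT hL u hu y)
    hA c

end TwoFields

end Fermat.Agent.LT.T7.H236

end
end
-- ===== PACK-END LT/T7/H236/ShapeFinC.lean

-- ===== PACK-BEGIN LT/T7/H553/Dn2Class.lean
section








/-!
# Row LT, tower T7, leaf T7.L2.1.H2a.4.5.C `Dn2ClassC309` (helper553, registry row 3031)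

OFF-MAIN.  `dn2ClassC553 K K' : H309.Dn2.Dn2ClassC309 K K'`, VERBATIM against
`LT/T7/H309/Dn2Spec.lean` (helper309, sha256 2e8b57c8), unconditional.  Complete proofs, nothing
assumed.  ADDITIVE (new names only, all ending in `553`).

Proof.  `W = wsum970 s β F₁0`, `f₂ = c · W♮`.  For the invariant cusp function `ψ`:

* `R(f₂) ψ = c · R(W♮) ψ` (linearity of the integral);
* `R(W♮) ψ = R(W) (P_∞ ψ)` (`H392.natOpC392`, `W` continuous of compact support) and
  `P_∞ ψ = ψ` (`H887.torAvgFixC887`, `ψ` is invariant under the positive scalars at infinity);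
* `R(W) ψ = ∑_{x ∈ s} β(x) (R(F₁0) ψ)(· x)` (`H439.Rconv_ltr439`, finite sums of integrable
  functions);
* `Θ = R(F₁0) ψ` has the eigen-data `e` (`dn1_class`), and every `x ∈ s` is trivial at infinity
  and outside `T₀` = the prime divisors of `𝔫`, i.e. a good translation of helper281's kit
  `T7/H281/TranslEig`: the weighted sum of the right translates of `Θ` is an eigenfunction of
  the Hecke operators outside the level (conjugate coset systems) and of the sphere means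
  (elements trivial at infinity commute with the spheres), with the same eigenvalues.
-/

set_option autoImplicit false

open AutomorphicForm IsDedekindDomain NumberField MeasureTheory
open scoped ComplexConjugate

noncomputable section

namespace Fermat.Agent.LT.T7.H553

open Fermat.Agent.LT.H556 Fermat.Agent.LT.H556.A0 Fermat.Agent.LT.T7
open Fermat.Agent.LT.T7.H305 Fermat.Agent.LT.T7.H893 Fermat.Agent.LT.T7.B981
open Fermat.Agent.LT.T7.B970 Fermat.Agent.LT.H129
open Fermat.Agent.LT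

attribute [local instance] Fermat.Agent.LT.T5.instMeasurableSpaceG

section Kit

variable {K : Type} [Field K] [NumberField K]

/-- The weighted translation operator `ψ ↦ ∑_{x ∈ s} β(x) ψ(· x)`. -/
def wtrDC553 (s : Finset (G K)) (β : G K → ℂ) (ψ : G K → ℂ) : G K → ℂ :=
  fun g => ∑ x ∈ s, β x * ψ (g * x)

/-- The Hecke operators at the places prime to the level commute with the weighted sums of good
translations. -/
theorem hecke_wtrDC553 {𝔫₀ : Ideal (𝓞 K)} {s : Finset (G K)} (β : G K → ℂ)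
    (hs : ∀ t ∈ s, H281.IsGoodTransl281 𝔫₀ t) {ψ : G K → ℂ} {v : HeightOneSpectrum (𝓞 K)}
    (hv : ¬ v.asIdeal ∣ 𝔫₀) {a b : ℂ} (hψ : IsHeckeEigenAt ψ v a b) :
    IsHeckeEigenAt (wtrDC553 s β ψ) v a b := by
  classical
  refine ⟨?_, ?_⟩
  · intro H hH g
    show ∑ h ∈ H, ∑ t ∈ s, β t * ψ (g * h * t)
      = ((Real.sqrt (Ideal.absNorm v.asIdeal : ℝ) : ℝ) : ℂ) * a * ∑ t ∈ s, β t * ψ (g * t)
    have e : ∀ t ∈ s, ∑ h ∈ H, β t * ψ (g * h * t)
        = ((Real.sqrt (Ideal.absNorm v.asIdeal : ℝ) : ℝ) : ℂ) * a * (β t * ψ (g * t)) := by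
      intro t ht
      have hT : ∀ t' ∈ ({t} : Finset (G K)), H281.IsGoodTransl281 𝔫₀ t' := by
        intro t' ht'
        rw [Finset.mem_singleton] at ht'
        rw [ht']
        exact hs t ht
      have h1 : ∑ h ∈ H, β t * ∑ t' ∈ ({t} : Finset (G K)), ψ (g * h * t')
          = ((Real.sqrt (Ideal.absNorm v.asIdeal : ℝ) : ℝ) : ℂ) * a
            * (β t * ∑ t' ∈ ({t} : Finset (G K)), ψ (g * t')) :=
        (H281.hecke_translOp281 (β t) hT hv hψ).1 H hH g
      simp only [Finset.sum_singleton] at h1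
      exact h1
    rw [Finset.sum_comm, Finset.sum_congr rfl e, ← Finset.mul_sum]
  · intro z hz g
    show ∑ t ∈ s, β t * ψ (g * z * t) = b * ∑ t ∈ s, β t * ψ (g * t)
    have e : ∀ t ∈ s, β t * ψ (g * z * t) = b * (β t * ψ (g * t)) := by
      intro t _
      rw [mul_assoc g, H281.commute_scalar_all281 hz t, ← mul_assoc, hψ.2 z hz (g * t)]
      ring
    rw [Finset.sum_congr rfl e, ← Finset.mul_sum]

/-- The sphere means commute with the weighted sums of translations which are trivial at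
infinity. -/
theorem mean_wtrDC553 {s : Finset (G K)} (β : G K → ℂ)
    (hs : ∀ t ∈ s, ∀ w : InfinitePlace K, TrivAtInf w t) {ψ : G K → ℂ} (hc : Continuous ψ)
    {w : InfinitePlace K} {m : ℝ → ℂ} (hψ : MeanEig ψ w m) :
    MeanEig (wtrDC553 s β ψ) w m := by
  intro d hd Y hY g
  have hYc := H281.continuous_sphere281 hY
  -- the integrands
  obtain ⟨F, hF⟩ : ∃ F : G K → ℝ → ℝ → ℂ,
      F = fun t α θ => ψ (g * t * Y α θ) * ((Real.sin θ : ℝ) : ℂ) := ⟨_, rfl⟩
  have hFc : ∀ t : G K, Continuous (Function.uncurry (F t)) := by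
    intro t
    rw [hF]
    have h1 : Continuous fun p : ℝ × ℝ => ψ (g * t * Y p.1 p.2) :=
      hc.comp (continuous_const.mul hYc)
    have h2 : Continuous fun p : ℝ × ℝ => ((Real.sin p.2 : ℝ) : ℂ) := by fun_prop
    exact h1.mul h2
  have hFi : ∀ (t : G K) (α : ℝ), Continuous fun θ : ℝ => F t α θ := fun t α =>
    (hFc t).comp (Continuous.prodMk_right α)
  have hGc : ∀ t : G K, Continuous fun α : ℝ => ∫ θ in (0 : ℝ)..Real.pi, F t α θ := fun t =>
    intervalIntegral.continuous_parametric_intervalIntegral_of_continuous' (hFc t) 0 Real.pi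
  -- the eigen-equation for each translate
  have hev : ∀ t : G K,
      (∫ α in (0 : ℝ)..(2 * Real.pi), ∫ θ in (0 : ℝ)..Real.pi, F t α θ) = m d * ψ (g * t) := by
    intro t
    rw [hF]
    exact hψ d hd Y hY (g * t)
  -- the pointwise identity
  have hpt : ∀ α θ : ℝ, wtrDC553 s β ψ (g * Y α θ) * ((Real.sin θ : ℝ) : ℂ)
      = ∑ t ∈ s, β t * F t α θ := by
    intro α θ
    show (∑ t ∈ s, β t * ψ (g * Y α θ * t)) * ((Real.sin θ : ℝ) : ℂ) = ∑ t ∈ s, β t * F t α θ
    rw [Finset.sum_mul]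
    refine Finset.sum_congr rfl fun t ht => ?_
    rw [hF]
    simp only
    rw [mul_assoc g, H281.commute_fin_inf281 (hs t ht) (hY α θ).1.2, ← mul_assoc,
      mul_assoc (β t)]
  have hin : ∀ α : ℝ,
      (∫ θ in (0 : ℝ)..Real.pi, wtrDC553 s β ψ (g * Y α θ) * ((Real.sin θ : ℝ) : ℂ))
        = ∑ t ∈ s, β t * ∫ θ in (0 : ℝ)..Real.pi, F t α θ := by
    intro α
    have e : (fun θ : ℝ => wtrDC553 s β ψ (g * Y α θ) * ((Real.sin θ : ℝ) : ℂ))
        = fun θ : ℝ => ∑ t ∈ s, β t * F t α θ := funext fun θ => hpt α θ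
    have hint : ∀ t ∈ s, IntervalIntegrable (fun θ : ℝ => β t * F t α θ) volume 0 Real.pi :=
      fun t _ => (Continuous.mul continuous_const (hFi t α)).intervalIntegrable _ _
    rw [e, intervalIntegral.integral_finsetSum hint]
    refine Finset.sum_congr rfl fun t _ => ?_
    rw [intervalIntegral.integral_const_mul]
  have e2 : (fun α : ℝ =>
      ∫ θ in (0 : ℝ)..Real.pi, wtrDC553 s β ψ (g * Y α θ) * ((Real.sin θ : ℝ) : ℂ))
        = fun α : ℝ => ∑ t ∈ s, β t * ∫ θ in (0 : ℝ)..Real.pi, F t α θ := funext hin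
  have hint2 : ∀ t ∈ s, IntervalIntegrable
      (fun α : ℝ => β t * ∫ θ in (0 : ℝ)..Real.pi, F t α θ) volume 0 (2 * Real.pi) :=
    fun t _ => (Continuous.mul continuous_const (hGc t)).intervalIntegrable _ _
  rw [e2, intervalIntegral.integral_finsetSum hint2]
  have e3 : ∀ t ∈ s, (∫ α in (0 : ℝ)..(2 * Real.pi), β t * ∫ θ in (0 : ℝ)..Real.pi, F t α θ)
      = m d * (β t * ψ (g * t)) := by
    intro t _
    rw [intervalIntegral.integral_const_mul, hev t]
    ring
  rw [Finset.sum_congr rfl e3]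
  show ∑ t ∈ s, m d * (β t * ψ (g * t)) = m d * ∑ t ∈ s, β t * ψ (g * t)
  rw [Finset.mul_sum]

/-- An element which is trivial at infinity and outside the prime divisors of the level is a good
translation. -/
theorem good_of_trivDC553 {𝔫 : Ideal (𝓞 K)} {T₀ : Finset (HeightOneSpectrum (𝓞 K))}
    (hmem : ∀ v : HeightOneSpectrum (𝓞 K), v ∈ T₀ ↔ v.asIdeal ∣ 𝔫) {x : G K}
    (hx : (∀ w : InfinitePlace K, TrivAtInf w x) ∧
      ∀ v : HeightOneSpectrum (𝓞 K), v ∉ T₀ → TrivAtFin v x) :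
    H281.IsGoodTransl281 𝔫 x := by
  refine ⟨hx.1, fun v hv => ?_⟩
  have hv' : v ∉ T₀ := fun h => hv ((hmem v).1 h)
  have h1 : finCompHom129 v x = 1 := (trivAtFin_iff129 v x).1 (hx.2 v hv')
  constructor
  · rw [← isInt129_finCompHom_iff, h1]
    exact isInt129_one _
  · rw [← isInt129_finCompHom_iff, map_inv, h1, inv_one]
    exact isInt129_one _

/-- The weighted sum of the left translates of a continuous function is continuous. -/
theorem continuous_wsumDC553 (s : Finset (G K)) (β : G K → ℂ) {φ : G K → ℂ}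
    (h : Continuous φ) : Continuous (wsum970 s β φ) := by
  show Continuous fun y => ∑ x ∈ s, β x * φ (x⁻¹ * y)
  exact continuous_finsetSum _ fun b _ =>
    continuous_const.mul (h.comp (continuous_const.mul continuous_id))

/-- The weighted sum of the left translates of a function of compact support has compact
support. -/
theorem hasCompactSupport_wsumDC553 (s : Finset (G K)) (β : G K → ℂ) {φ : G K → ℂ}
    (h : HasCompactSupport φ) : HasCompactSupport (wsum970 s β φ) := by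
  classical
  have e : wsum970 s β φ = fun y => ∑ b ∈ s, β b * ltr b φ y := rfl
  rw [e]
  clear e
  induction s using Finset.induction_on with
  | empty =>
    simp only [Finset.sum_empty]
    exact HasCompactSupport.zero
  | insert a s ha ih =>
    have e' : (fun y => ∑ b ∈ insert a s, β b * ltr b φ y)
        = ((fun _ => β a) * ltr a φ) + fun y => ∑ b ∈ s, β b * ltr b φ y := by
      funext y
      simp [Finset.sum_insert ha]
    rw [e']
    exact ((H439.hasCompactSupport_ltr439 a h).mul_left).add ih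

variable {μ : Measure (G K)} {F : Set (G K)}

/-- `R(wsum s β φ) ψ = ∑_{x ∈ s} β(x) (R(φ) ψ)(· x)`. -/
theorem Rconv_wsumDC553 (hF : T5.IsFrame μ F) (s : Finset (G K)) (β : G K → ℂ)
    {φ ψ : G K → ℂ} (hφ : Continuous φ) (hφs : HasCompactSupport φ) (hψ : Continuous ψ)
    (x : G K) :
    T5.Rconv μ (wsum970 s β φ) ψ x = wtrDC553 s β (T5.Rconv μ φ ψ) x := by
  have h1 : T5.Rconv μ (wsum970 s β φ) ψ x = ∑ b ∈ s, β b * T5.Rconv μ (ltr b φ) ψ x := by
    show ∫ y, (∑ b ∈ s, β b * φ (b⁻¹ * y)) * ψ (x * y) ∂μ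
      = ∑ b ∈ s, β b * ∫ y, φ (b⁻¹ * y) * ψ (x * y) ∂μ
    have e : ∀ b ∈ s, β b * ∫ y, φ (b⁻¹ * y) * ψ (x * y) ∂μ
        = ∫ y, β b * φ (b⁻¹ * y) * ψ (x * y) ∂μ := by
      intro b _
      rw [← integral_const_mul]
      congr 1
      funext y
      ring
    rw [Finset.sum_congr rfl e, ← integral_finsetSum]
    · congr 1
      funext y
      rw [Finset.sum_mul]
    · intro b _
      have hi := (H439.integrable_mul439 hF (H439.continuous_ltr439 b hφ)
        (H439.hasCompactSupport_ltr439 b hφs) hψ x).const_mul (β b)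
      refine hi.congr (Filter.Eventually.of_forall fun y => ?_)
      show β b * (φ (b⁻¹ * y) * ψ (x * y)) = β b * φ (b⁻¹ * y) * ψ (x * y)
      ring
  rw [h1]
  show ∑ b ∈ s, β b * T5.Rconv μ (ltr b φ) ψ x = ∑ b ∈ s, β b * T5.Rconv μ φ ψ (x * b)
  exact Finset.sum_congr rfl fun b _ => by rw [H439.Rconv_ltr439 hF b φ ψ x]

end Kit

section Main

variable (K K' : Type) [Field K] [NumberField K] [Field K'] [NumberField K'] [Algebra K K']

/-- **LEAF T7.L2.1.H2a.4.5.C `Dn2ClassC309`** (VERBATIM). -/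
theorem dn2ClassC553 : H309.Dn2.Dn2ClassC309 K K' := by
  intro ℓ Φ B 𝔫 μc T₀ n n₀ m a D a' D' s β b c₁ Φ₁ F₁ hyp c ψ e hψ
  have hfr : T5.IsFrame B.R.μ B.R.F := hyp.base.frame.frame
  have hFt : T5.IsTestFn 𝔫 T5.trivType (F₁ []) :=
    hyp.pair.dn1_test [] (fun x hx => absurd hx (List.not_mem_nil))
  have hψc : Continuous ψ := hψ.inv.cusp.cont
  have hWc : Continuous (wsum970 s β (F₁ [])) := continuous_wsumDC553 s β hFt.cont
  have hWs : HasCompactSupport (wsum970 s β (F₁ [])) :=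
    hasCompactSupport_wsumDC553 s β hFt.supp
  have hΘ := hyp.pair.dn1_class ψ e hψ
  have key : T5.Rconv B.R.μ (fun h => c * H193.nat193 a D (wsum970 s β (F₁ [])) h) ψ
      = wtrDC553 s (fun x => c * β x) (T5.Rconv B.R.μ (F₁ []) ψ) := by
    funext g
    have h1 : T5.Rconv B.R.μ (fun h => c * H193.nat193 a D (wsum970 s β (F₁ [])) h) ψ g
        = c * T5.Rconv B.R.μ (H193.nat193 a D (wsum970 s β (F₁ []))) ψ g := by
      show ∫ y, c * H193.nat193 a D (wsum970 s β (F₁ [])) y * ψ (g * y) ∂B.R.μ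
        = c * ∫ y, H193.nat193 a D (wsum970 s β (F₁ [])) y * ψ (g * y) ∂B.R.μ
      rw [← integral_const_mul]
      congr 1
      funext y
      ring
    have h2 := H392.natOpC392 K (T1.t1Out K) B.R hyp.base.frame 𝔫 B.R.r a D hyp.rel.down
      (wsum970 s β (F₁ [])) hWc hWs ψ hψc g
    have h3 : H193.torAvg a D ψ = ψ := funext fun g' =>
      H887.torAvgFixC887 K 𝔫 B.R.r a D hyp.rel.down ψ hψ.inv.arch_scalar g'
    rw [h1, h2, h3, Rconv_wsumDC553 hfr s β hFt.cont hFt.supp hψc g]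
    show c * ∑ x ∈ s, β x * T5.Rconv B.R.μ (F₁ []) ψ (g * x)
      = ∑ x ∈ s, c * β x * T5.Rconv B.R.μ (F₁ []) ψ (g * x)
    rw [Finset.mul_sum]
    exact Finset.sum_congr rfl fun x _ => by ring
  rw [key]
  have hgood : ∀ t ∈ s, H281.IsGoodTransl281 𝔫 t := fun t ht =>
    good_of_trivDC553 hyp.exp.mem (hyp.wt.supp t ht)
  exact ⟨fun v hv => hecke_wtrDC553 _ hgood hv (hΘ.hecke v hv),
    fun w => mean_wtrDC553 _ (fun t ht => (hgood t ht).1) hΘ.inv.cusp.cont (hΘ.mean w)⟩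

end Main

end Fermat.Agent.LT.T7.H553

end

end
-- ===== PACK-END LT/T7/H553/Dn2Class.lean

-- ===== PACK-BEGIN LT/T7/H165/SphInert.lean
section



/-!
# Row LT, tower T7, leaf T7.L2.1.H2b.3b `SphInertC893` (cut of helper893; helper165)

OFF-MAIN.  `sphInertC165 K K' : H893.SphInertC893 K K'` VERBATIM, unconditional (the hypothesis
`T6Out` is in the Prop).

Proof.  `e = 1`: the element `x ∈ v`, `x ∉ w²` of `UnramOut305` and `IsLocalExt.val_i`.
`T6.InstLocalC`: `K_v`, `K'_w` are local fields; `T6.InstExtC` for a generator of the Galois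
group: `N w = (N v) ^ (l / e₀)` and `e₀ = e = 1` (the ramification index is determined by the
restriction to `K`).  The components are `fun g => A (cartan g)`: `T6.FundLemmaC` (`FLMatch`
for all regular `γ`, `FLVanishC`).
-/

set_option autoImplicit false
set_option linter.style.haveILetI false
set_option linter.unusedSectionVars false

open AutomorphicForm IsDedekindDomain NumberField MeasureTheory
open scoped ComplexConjugate

noncomputable section

namespace Fermat.Agent.LT.T7.H165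

open Fermat.Agent.LT.H556 Fermat.Agent.LT.H556.A0 Fermat.Agent.LT Fermat.Agent.LT.T7
open Fermat.Agent.LT.T7.H305 Fermat.Agent.LT.T7.H893

section TwoFields

variable {K K' : Type} [Field K] [NumberField K] [Field K'] [NumberField K'] [Algebra K K']

/-- The ramification index of a local embedding is determined by its restriction to `K`. -/
theorem ramIdx_uniqueS165 (v : HeightOneSpectrum (𝓞 K)) (w : HeightOneSpectrum (𝓞 K'))
    (e e₀ : ℕ) (i i₀ : v.adicCompletion K →+* w.adicCompletion K')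
    (hi : ∀ x : K, i (algebraMap K (v.adicCompletion K) x)
      = algebraMap K' (w.adicCompletion K') (algebraMap K K' x))
    (hi₀ : ∀ x : K, i₀ (algebraMap K (v.adicCompletion K) x)
      = algebraMap K' (w.adicCompletion K') (algebraMap K K' x))
    (hv : ∀ x : v.adicCompletion K, Valued.v (i x) = Valued.v x ^ e)
    (hv₀ : ∀ x : v.adicCompletion K, Valued.v (i₀ x) = Valued.v x ^ e₀) : e = e₀ := by
  obtain ⟨π, hπ⟩ := v.valuation_exists_uniformizer K
  have h1 := hv (algebraMap K _ π)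
  have h2 := hv₀ (algebraMap K _ π)
  rw [hi] at h1
  rw [hi₀] at h2
  have h3 : Valued.v (algebraMap K (v.adicCompletion K) π) = WithZero.exp (-1 : ℤ) := by
    rw [← hπ]
    exact v.valuedAdicCompletion_eq_valuation' π
  rw [h3] at h1 h2
  have h4 : WithZero.exp (-1 : ℤ) ^ e = WithZero.exp (-1 : ℤ) ^ e₀ := h1.symm.trans h2
  rw [← WithZero.exp_nsmul, ← WithZero.exp_nsmul, WithZero.exp_inj] at h4
  have h5 : (e : ℤ) * (-1) = (e₀ : ℤ) * (-1) := by simpa using h4
  omega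

theorem exists_genS165 (l : ℕ) (h : IsCycExt K K' l) :
    ∃ s : K' ≃ₐ[K] K', ∀ t : K' ≃ₐ[K] K', t ∈ Subgroup.zpowers s := by
  haveI := h.galois
  haveI : Fact l.Prime := ⟨h.prime⟩
  have hcard : Nat.card (K' ≃ₐ[K] K') = l := by
    rw [IsGalois.card_aut_eq_finrank, h.degree]
  haveI : IsCyclic (K' ≃ₐ[K] K') := isCyclic_of_prime_card hcard
  exact IsCyclic.exists_generator

theorem coe_algebraMapS165 (x : 𝓞 K) :
    ((algebraMap (𝓞 K) (𝓞 K') x : 𝓞 K') : K') = algebraMap K K' (x : K) := rfl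

theorem placeOver_iffS165 {v : HeightOneSpectrum (𝓞 K)} {w : HeightOneSpectrum (𝓞 K')}
    (h : PlaceOver K K' v w) (x : 𝓞 K) :
    x ∈ v.asIdeal ↔ algebraMap (𝓞 K) (𝓞 K') x ∈ w.asIdeal :=
  h x _ (coe_algebraMapS165 x)

theorem placeOver_of_leS165 {v : HeightOneSpectrum (𝓞 K)} {w : HeightOneSpectrum (𝓞 K')}
    (h : ∀ x : 𝓞 K, x ∈ v.asIdeal → algebraMap (𝓞 K) (𝓞 K') x ∈ w.asIdeal) :
    PlaceOver K K' v w := by
  intro x y hxy
  have hy : y = algebraMap (𝓞 K) (𝓞 K') x := by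
    exact RingOfIntegers.ext (hxy.trans (coe_algebraMapS165 x).symm)
  subst hy
  refine ⟨h x, fun hx => ?_⟩
  by_contra hxv
  haveI : v.asIdeal.IsMaximal := v.isMaximal
  obtain ⟨a, b, hb, hab⟩ := Ideal.IsMaximal.exists_inv (I := v.asIdeal) inferInstance hxv
  have h1 : algebraMap (𝓞 K) (𝓞 K') (a * x + b) ∈ w.asIdeal := by
    rw [map_add, map_mul]
    exact w.asIdeal.add_mem (w.asIdeal.mul_mem_left _ hx) (h b hb)
  rw [hab, map_one] at h1
  exact w.isPrime.ne_top ((Ideal.eq_top_iff_one _).mpr h1)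

/-- The valuation of an integer in the completion. -/
theorem val_intS165 {F : Type} [Field F] [NumberField F] (v : HeightOneSpectrum (𝓞 F))
    (x : 𝓞 F) :
    Valued.v (algebraMap F (v.adicCompletion F) (algebraMap (𝓞 F) F x)) = v.intValuation x := by
  have h3 : Valued.v (algebraMap F (v.adicCompletion F) (algebraMap (𝓞 F) F x))
      = v.valuation F (algebraMap (𝓞 F) F x) :=
    v.valuedAdicCompletion_eq_valuation' _
  rw [h3, HeightOneSpectrum.valuation_of_algebraMap]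

/-- **`e = 1` at an unramified place.** -/
theorem ramIdx_eq_oneS165 (v : HeightOneSpectrum (𝓞 K)) (w : HeightOneSpectrum (𝓞 K'))
    (x : 𝓞 K) (hxv : x ∈ v.asIdeal) (hxw : algebraMap (𝓞 K) (𝓞 K') x ∉ w.asIdeal ^ 2)
    (e : ℕ) (he : 0 < e) (i : v.adicCompletion K →+* w.adicCompletion K')
    (hi : ∀ x : K, i (algebraMap K (v.adicCompletion K) x)
      = algebraMap K' (w.adicCompletion K') (algebraMap K K' x))
    (hv : ∀ x : v.adicCompletion K, Valued.v (i x) = Valued.v x ^ e) : e = 1 := by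
  have h1 := hv (algebraMap K _ (algebraMap (𝓞 K) K x))
  rw [hi, val_intS165 v x] at h1
  have h2 : Valued.v (algebraMap K' (w.adicCompletion K')
      (algebraMap K K' (algebraMap (𝓞 K) K x))) = w.intValuation (algebraMap (𝓞 K) (𝓞 K') x) :=
    val_intS165 w (algebraMap (𝓞 K) (𝓞 K') x)
  rw [h2] at h1
  -- `v(x) ≤ exp (-1)`
  have h3 : v.intValuation x ≤ WithZero.exp (-((1 : ℕ) : ℤ)) := by
    rw [v.intValuation_le_pow_iff_mem x 1, pow_one]
    exact hxv
  -- `w(x) > exp (-2)`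
  have h4 : ¬ w.intValuation (algebraMap (𝓞 K) (𝓞 K') x) ≤ WithZero.exp (-((2 : ℕ) : ℤ)) := by
    rw [w.intValuation_le_pow_iff_mem _ 2]
    exact hxw
  rw [h1] at h4
  by_contra hne
  have he2 : 2 ≤ e := by omega
  apply h4
  calc v.intValuation x ^ e ≤ WithZero.exp (-((1 : ℕ) : ℤ)) ^ e := pow_le_pow_left₀ zero_le h3 e
    _ = WithZero.exp (-(e : ℤ)) := by
      rw [← WithZero.exp_nsmul]
      simp
    _ ≤ WithZero.exp (-((2 : ℕ) : ℤ)) := by
      rw [WithZero.exp_le_exp]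
      push_cast
      omega

end TwoFields

section Leaf

variable (K K' : Type) [Field K] [NumberField K] [Field K'] [NumberField K'] [Algebra K K']

/-- **LEAF T7.L2.1.H2b.3b = SPH-INERT**, VERBATIM. -/
theorem sphInertC165 : SphInertC893 K K' := by
  intro hT6 D _hD hcyc _hl2 _hTC T₀ hunram v hv w hvw huniq nw mv hnw hmv φ f A Av hφ hf hBC
    e i sw hi hsw hext
  obtain ⟨_, _, _, _, _, hInstLoc, hInstExt, _, _, _, _, _, _, hFL, _⟩ := hT6
  subst hnw hmv
  -- `e = 1`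
  obtain ⟨x, hxv, hxw⟩ := hunram v hv w hvw
  have he : e = 1 := ramIdx_eq_oneS165 v w x hxv hxw e hext.e_pos i hi hext.val_i
  subst he
  -- the local fields
  have hkv := hInstLoc K v
  have hkw := hInstLoc K' w
  have hkw' : T6.IsLocalField (w.adicCompletion K') (Ideal.absNorm v.asIdeal ^ D.l) := by
    haveI := hcyc.galois
    obtain ⟨s, hs⟩ := exists_genS165 D.l hcyc
    obtain ⟨e₀, i₀, sw₀, hi₀, _, hext₀, hN₀⟩ :=
      hInstExt K K' s hs (hcyc.degree ▸ hcyc.prime) v w (placeOver_iffS165 hvw)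
        (fun w' hw' => huniq w' (placeOver_of_leS165 hw'))
    have he : 1 = e₀ := ramIdx_uniqueS165 v w 1 e₀ i i₀ hi hi₀ hext.val_i hext₀.val_i
    rw [← he, Nat.div_one, hcyc.degree] at hN₀
    rw [← hN₀]
    exact hkw
  -- the functions
  have hφe : φ = fun g => A (T6.cartan g) := funext hφ.2
  have hfe : f = fun g => Av (T6.cartan g) := funext hf.2
  subst hφe hfe
  refine ⟨?_, ?_⟩
  · intro δ γ c c' hreg hconj hc hc'
    exact hFL.1 (v.adicCompletion K) (w.adicCompletion K') (Ideal.absNorm v.asIdeal) D.l i sw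
      hkv hkw' hext hcyc.prime A Av hφ.1 hf.1 hBC δ γ c c' hreg trivial hconj hc hc'
  · intro γ c' hreg hnn hc'
    exact hFL.2 (v.adicCompletion K) (w.adicCompletion K') (Ideal.absNorm v.asIdeal) D.l i sw
      hkv hkw' hext hcyc.prime A Av hφ.1 hf.1 hBC γ c' hreg hnn hc'

end Leaf

end Fermat.Agent.LT.T7.H165

end

end
-- ===== PACK-END LT/T7/H165/SphInert.lean

-- ===== PACK-BEGIN LT/T7/H165/SphInv.lean
section






/-!
# Row LT, tower T7, leaf T7.L2.1.H2b.3a `SphInvC893` (cut of helper893; helper165)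

OFF-MAIN.  `sphInvC165 F : H893.SphInvC893 F` VERBATIM, unconditional: a spherical function
`φ = A ∘ cartan` on `GL₂(F_v)` is bi-`GL₂(𝒪_v)`-invariant (`cartan_mul_mul_h687`, helper687) and
supported on finitely many cosets `x GL₂(𝒪_v)` (the support lies in a bounded set
`{entries ≤ exp B, |det| ≥ exp (-B)}`, which is covered by finitely many cosets:
`cptG_core162`, helper162; `F_v` is a local field: `instLocalC176`, helper176).
-/

set_option autoImplicit false

open AutomorphicForm IsDedekindDomain NumberField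

noncomputable section

namespace Fermat.Agent.LT.T7.H165

open Fermat.Agent.LT Fermat.Agent.LT.T7 Fermat.Agent.LT.T7.H893

theorem entryMax_ne_zeroV165 {k : Type} [Field k] [Valued k T6.Γ₀] (g : GL (Fin 2) k) :
    T6.entryMax g ≠ 0 := by
  intro h0
  have hz : ∀ i j : Fin 2, (g : Matrix (Fin 2) (Fin 2) k) i j = 0 := by
    intro i j
    have := T6.H687.v_entry_le_entryMax_h687 g i j
    rw [h0] at this
    exact (Valuation.zero_iff _).1 (le_antisymm this zero_le)
  have hdet : (g : Matrix (Fin 2) (Fin 2) k).det = 0 := by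
    rw [Matrix.det_fin_two, hz 0 0, hz 0 1]
    ring
  have hunit : IsUnit (g : Matrix (Fin 2) (Fin 2) k).det :=
    (Matrix.isUnit_iff_isUnit_det _).1 (Units.isUnit g)
  rw [hdet] at hunit
  exact not_isUnit_zero hunit

theorem cartan_fstV165 {k : Type} [Field k] [Valued k T6.Γ₀] (g : GL (Fin 2) k) :
    (T6.cartan g).1 = WithZero.log (T6.entryMax g)
      - WithZero.log (Valued.v (g : Matrix (Fin 2) (Fin 2) k).det) := rfl

theorem cartan_sndV165 {k : Type} [Field k] [Valued k T6.Γ₀] (g : GL (Fin 2) k) :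
    (T6.cartan g).2 = - WithZero.log (T6.entryMax g) := rfl

theorem val_det_ne_zeroV165 {k : Type} [Field k] [Valued k T6.Γ₀] (g : GL (Fin 2) k) :
    Valued.v (g : Matrix (Fin 2) (Fin 2) k).det ≠ 0 := by
  rw [Valuation.ne_zero_iff]
  exact ((Matrix.isUnit_iff_isUnit_det _).1 (Units.isUnit g)).ne_zero

/-- **LEAF T7.L2.1.H2b.3a = SPH-INV**, VERBATIM. -/
theorem sphInvC165 (F : Type) [Field F] [NumberField F] : SphInvC893 F := by
  classical
  intro v φ A hφ
  obtain ⟨_, hval⟩ := hφ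
  refine ⟨?_, ?_⟩
  · intro u u' g hu hu'
    rw [hval, hval, T6.H687.cartan_mul_mul_h687 g hu hu']
  · have hk := T6.H176.instLocalC176 F v
    let B : ℤ := ∑ lam ∈ A.support, (|lam.1| + |lam.2|)
    obtain ⟨S, -, hS⟩ := T6.H162.cptG_core162 hk B 0
    refine ⟨S, fun g hg => ?_⟩
    have hmem : T6.cartan g ∈ A.support := by
      rw [Finsupp.mem_support_iff, ← hval]
      exact hg
    have hB : |(T6.cartan g).1| + |(T6.cartan g).2| ≤ B :=
      Finset.single_le_sum (f := fun lam : ℤ × ℤ => |lam.1| + |lam.2|)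
        (fun _ _ => by positivity) hmem
    have e1 := cartan_fstV165 g
    have e2 := cartan_sndV165 g
    have hE0 := entryMax_ne_zeroV165 g
    have hD0 := val_det_ne_zeroV165 g
    have a1 := abs_le.1 (le_trans (le_add_of_nonneg_right (abs_nonneg (T6.cartan g).2)) hB)
    have a2 := abs_le.1 (le_trans (le_add_of_nonneg_left (abs_nonneg (T6.cartan g).1)) hB)
    have a3 := neg_abs_le (T6.cartan g).1
    have a4 := neg_abs_le (T6.cartan g).2
    have a5 := le_abs_self (T6.cartan g).1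
    have a6 := le_abs_self (T6.cartan g).2
    refine hS g ?_ ?_
    · rw [← WithZero.exp_log hE0, WithZero.exp_le_exp]
      omega
    · rw [← WithZero.exp_log hD0, WithZero.exp_le_exp]
      omega

end Fermat.Agent.LT.T7.H165

end

end
-- ===== PACK-END LT/T7/H165/SphInv.lean

-- ===== PACK-BEGIN LT/T7/H963/SwapMemUp.lean
section



/-!
# Row LT, tower T7, leaf PB.0.U6 `PB57.SwapMemUpC57` (registry row 3070, helper963, OFF-MAIN)

`swapMemUpC_of963 (K K') : PB57.SwapUpSumC57 K K' → PB57.SwapMemUpC57 K K'` VERBATIM: the members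
of the average upstairs with the swapped components are test functions of the level, jointly
continuous and supported in one compact set, CONDITIONAL on the key identity `SwapUpSumC57`
(leaf PB.0.U0, as allowed by the Spec).  Only the two identities (sum of right translates = sum
of left translates) and the finiteness of `HU` are used; no normality of the level group, no
property of the elements of `HU`.

Additive: new names only, suffix `963`.
-/

set_option autoImplicit false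

open AutomorphicForm IsDedekindDomain NumberField MeasureTheory

noncomputable section

namespace Fermat.Agent.LT.T7.H963.SMU

open Fermat.Agent.LT.H556 Fermat.Agent.LT.H556.A0 Fermat.Agent.LT.T7
open Fermat.Agent.LT.T7.H893 Fermat.Agent.LT.T7.H305 Fermat.Agent.LT.T7.Q797
open Fermat.Agent.LT.T7.PB57

attribute [local instance] Fermat.Agent.LT.T5.instMeasurableSpaceG

section Abs

variable {F : Type} [Field F] [NumberField F]

/-- The finite union of the right translates of a compact set is compact. -/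
lemma isCompact_translates963 (HU : Finset (G F)) {C : Set (G F)} (hC : IsCompact C) :
    IsCompact (⋃ h ∈ HU, (fun x : G F => x * h) '' C) :=
  HU.isCompact_biUnion fun h _ => hC.image (continuous_mul_const h)

lemma mem_translates963 (HU : Finset (G F)) {C : Set (G F)} {x h : G F} (hh : h ∈ HU)
    (hx : x * h⁻¹ ∈ C) : x ∈ ⋃ h ∈ HU, (fun x : G F => x * h) '' C := by
  rw [Set.mem_iUnion₂]
  exact ⟨h, hh, x * h⁻¹, hx, by simp⟩

/-- **THE ABSTRACT STEP**: a function which is the sum of the right translates and the sum of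
the left translates of a test function by a finite set is a test function of the same level. -/
theorem isTestFn_of_sums963 {𝔑 : Ideal (𝓞 F)} {φ ψ : G F → ℂ} (HU : Finset (G F))
    (hφ : T5.IsTestFn 𝔑 T5.trivType φ)
    (hr : ∀ x : G F, ψ x = ∑ h ∈ HU, φ (x * h⁻¹))
    (hl : ∀ x : G F, ψ x = ∑ h ∈ HU, φ (h⁻¹ * x)) :
    T5.IsTestFn 𝔑 T5.trivType ψ := by
  refine ⟨hφ.ktype, ?_, ?_, ?_, ⟨?_, ?_, ?_, ?_⟩⟩
  · -- continuity
    have : ψ = fun x => ∑ h ∈ HU, φ (x * h⁻¹) := funext hr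
    rw [this]
    exact continuous_finset_sum _ fun h _ => hφ.cont.comp (continuous_mul_const h⁻¹)
  · -- compact support
    apply HasCompactSupport.intro (isCompact_translates963 HU hφ.supp)
    intro x hx
    rw [hr]
    apply Finset.sum_eq_zero
    intro h hh
    by_contra hne
    apply hx
    apply mem_translates963 HU hh
    exact subset_tsupport _ hne
  · -- smoothness at infinity
    intro n h ht hs g
    have : (fun t => ψ (g * h t)) = fun t => ∑ k ∈ HU, φ (k⁻¹ * g * h t) := by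
      funext t
      rw [hl]
      apply Finset.sum_congr rfl
      intro k _
      rw [mul_assoc]
    rw [this]
    exact ContDiff.sum fun k _ => hφ.smooth n h ht hs (k⁻¹ * g)
  · -- level, right
    intro u hu g
    rw [hl, hl]
    apply Finset.sum_congr rfl
    intro k _
    rw [← mul_assoc, hφ.inv.level_right u hu]
  · -- level, left
    intro u hu g
    rw [hr, hr]
    apply Finset.sum_congr rfl
    intro k _
    rw [mul_assoc, hφ.inv.level_left u hu]
  · -- type, right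
    intro w k hk g
    rw [hl, hl, Finset.mul_sum]
    apply Finset.sum_congr rfl
    intro k' _
    rw [← mul_assoc, hφ.inv.arch_right w k hk]
  · -- type, left
    intro w k hk g
    rw [hr, hr, Finset.mul_sum]
    apply Finset.sum_congr rfl
    intro k' _
    rw [mul_assoc, hφ.inv.arch_left w k hk]

end Abs

variable (K K' : Type) [Field K] [NumberField K] [Field K'] [NumberField K'] [Algebra K K']

/-- **LEAF PB.0.U6 `SwapMemUpC57`** from the key identity `SwapUpSumC57`, VERBATIM. -/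
theorem swapMemUpC_of963 (hS : SwapUpSumC57 K K') : SwapMemUpC57 K K' := by
  intro ℓ hcyc hℓ htc Φe B hB hram g hg 𝔫 h𝔫 μc hμc T₀ n n₀ m hexp c₁ Φ₁ F₁ hpair fb hfb
    Ω iT iC iT2 iSC iM iB ν iF T T' φ₀ Φ f₀ F hdat
  obtain ⟨HU, -, -, hid⟩ := hS ℓ hcyc hℓ htc Φe B hB hram g hg 𝔫 h𝔫 μc hμc T₀ n n₀ m hexp
    c₁ Φ₁ F₁ hpair fb hfb Ω iT iC iT2 iSC iM iB ν iF T T' φ₀ Φ f₀ F hdat
  obtain ⟨-, htest, -, hcont, -, ⟨C, hC, hsupp⟩, -, -, -⟩ := hdat
  refine ⟨?_, ?_, ?_⟩
  · intro ω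
    exact isTestFn_of_sums963 HU (htest ω) (fun x => (hid ω x).1) (fun x => (hid ω x).2)
  · have : (fun p : Ω × G K' => pure305 (T' p.1) (swUp57 B T₀ n₀ (φ₀ p.1)) (Φ p.1) p.2)
        = fun p : Ω × G K' => ∑ h ∈ HU, pure305 (T' p.1) (φ₀ p.1) (Φ p.1) (p.2 * h⁻¹) := by
      funext p
      exact (hid p.1 p.2).1
    rw [this]
    refine continuous_finset_sum _ fun h _ => ?_
    exact hcont.comp (continuous_fst.prodMk (continuous_snd.mul continuous_const))
  · refine ⟨⋃ h ∈ HU, (fun x : G K' => x * h) '' C, isCompact_translates963 HU hC, ?_⟩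
    intro ω x hx
    rw [(hid ω x).1] at hx
    obtain ⟨h, hh, hne⟩ := Finset.exists_ne_zero_of_sum_ne_zero hx
    exact mem_translates963 HU hh (hsupp ω _ hne)

end Fermat.Agent.LT.T7.H963.SMU

end

section Check963SMU
open Fermat.Agent.LT.T7.H963.SMU in
example (K K' : Type) [Field K] [NumberField K] [Field K'] [NumberField K'] [Algebra K K'] :
    Fermat.Agent.LT.T7.PB57.SwapUpSumC57 K K' → Fermat.Agent.LT.T7.PB57.SwapMemUpC57 K K' :=
  swapMemUpC_of963 K K'
end Check963SMU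

end
-- ===== PACK-END LT/T7/H963/SwapMemUp.lean

-- ===== PACK-BEGIN LT/T7/H963/SwapUpKit.lean
section



/-!
# Row LT, tower T7, node PB.0 (helper57 `PreBSpec`): THE SWAP UPSTAIRS, kit + SPARES of the
leaves PB.0.U1 `SwapUpTestC57` and PB.0.U2 `SwapUpEKC57` (helper963, OFF-MAIN)

From the key identity `SwapUpSumC57` (leaf PB.0.U0):

* `swapUpFn_eq963`: `swapUpFn57 … = ∑_{h ∈ HU} Φ₁ [] (· h⁻¹) = ∑_{h ∈ HU} Φ₁ [] (h⁻¹ ·)`;
* `swapUpTestC_of963 : SwapUpSumC57 K K' → SwapUpTestC57 K K'` (VERBATIM);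
* `swapUpEKC_of963 : SwapUpSumC57 K K' → SwapUpEKC57 K K'` (VERBATIM; only the left invariance of
  the Haar measure is used: `R(φ(c ·)) Ψ (x) = R(φ) Ψ (x c⁻¹)`).

Additive: new names only, suffix `963`.
-/

set_option autoImplicit false

open AutomorphicForm IsDedekindDomain NumberField MeasureTheory
open scoped ComplexConjugate

noncomputable section

namespace Fermat.Agent.LT.T7.H963.SMU

open Fermat.Agent.LT.H556 Fermat.Agent.LT.H556.A0 Fermat.Agent.LT.T7
open Fermat.Agent.LT.T7.H893 Fermat.Agent.LT.T7.H305 Fermat.Agent.LT.T7.Q797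
open Fermat.Agent.LT.T7.PB57

attribute [local instance] Fermat.Agent.LT.T5.instMeasurableSpaceG

section Abs

variable {F : Type} [Field F] [NumberField F]

/-- The σ-algebra of `GL₂(𝔸_F)` is the Borel σ-algebra. -/
theorem borelSpaceG963 : @BorelSpace (G F) _ (T5.instMeasurableSpaceG) := ⟨rfl⟩

/-- **EK is stable under finite sums of left translates** (left invariance of the Haar measure
only). -/
theorem isEK_of_left_sums963 {μ : Measure (G F)} (hμ : μ.IsHaarMeasure) {φ ψ : G F → ℂ}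
    (HU : Finset (G F)) (c : G F → G F) (hφc : Continuous φ) (hφs : HasCompactSupport φ)
    (hφ : T5.IsEK μ φ) (hl : ∀ x : G F, ψ x = ∑ h ∈ HU, φ (c h * x)) : T5.IsEK μ ψ := by
  intro Ψ hΨ x
  have : BorelSpace (G F) := borelSpaceG963
  show ∫ y, ψ y * Ψ (x * y) ∂μ = 0
  have h1 : (fun y => ψ y * Ψ (x * y)) = fun y => ∑ h ∈ HU, φ (c h * y) * Ψ (x * y) := by
    funext y
    rw [hl, Finset.sum_mul]
  rw [h1, integral_finset_sum]
  · apply Finset.sum_eq_zero
    intro h _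
    have h2 : (fun y => φ (c h * y) * Ψ (x * y))
        = fun y => (fun z => φ z * Ψ (x * (c h)⁻¹ * z)) (c h * y) := by
      funext y
      show _ = φ (c h * y) * Ψ (x * (c h)⁻¹ * (c h * y))
      rw [mul_assoc x, inv_mul_cancel_left]
    rw [h2, integral_mul_left_eq_self (fun z => φ z * Ψ (x * (c h)⁻¹ * z)) (c h)]
    exact hφ Ψ hΨ (x * (c h)⁻¹)
  · intro h _
    have hc : Continuous (fun y => φ (c h * y) * Ψ (x * y)) :=
      (hφc.comp (continuous_const.mul continuous_id)).mul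
        (hΨ.cont.comp (continuous_const.mul continuous_id))
    apply hc.integrable_of_hasCompactSupport
    exact (hφs.comp_homeomorph (Homeomorph.mulLeft (c h))).mul_right

lemma continuous_adjointFn963 {φ : G F → ℂ} (hφ : Continuous φ) :
    Continuous (T5.adjointFn φ) := by
  unfold T5.adjointFn
  exact Complex.continuous_conj.comp (hφ.comp continuous_inv)

lemma hasCompactSupport_adjointFn963 {φ : G F → ℂ} (hφ : HasCompactSupport φ) :
    HasCompactSupport (T5.adjointFn φ) := by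
  have h1 : HasCompactSupport (fun g : G F => φ g⁻¹) :=
    hφ.comp_homeomorph (Homeomorph.inv (G F))
  have h2 : T5.adjointFn φ = (fun z : ℂ => conj z) ∘ fun g : G F => φ g⁻¹ := rfl
  rw [h2]
  exact h1.comp_left (map_zero _)

/-- The adjoint of a sum of right translates is a sum of left translates of the adjoint. -/
lemma adjointFn_sums963 {φ ψ : G F → ℂ} (HU : Finset (G F))
    (hr : ∀ x : G F, ψ x = ∑ h ∈ HU, φ (x * h⁻¹)) (x : G F) :
    T5.adjointFn ψ x = ∑ h ∈ HU, T5.adjointFn φ (h * x) := by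
  unfold T5.adjointFn
  rw [hr, map_sum]
  apply Finset.sum_congr rfl
  intro h _
  rw [mul_inv_rev]

end Abs

variable {K K' : Type} [Field K] [NumberField K] [Field K'] [NumberField K'] [Algebra K K']

/-- **THE SWAPPED FUNCTION UPSTAIRS IS A SUM OF TRANSLATES OF THE FIRST PAIR.** -/
theorem swapUpFn_eq963 {Ω : Type} [TopologicalSpace Ω] [CompactSpace Ω] [MeasurableSpace Ω]
    [BorelSpace Ω] (ν : Measure Ω) [IsFiniteMeasure ν]
    (B : L2Base K K') (T₀ : Finset (HeightOneSpectrum (𝓞 K)))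
    (n₀ : HeightOneSpectrum (𝓞 K') → ℕ)
    (T' : Ω → Finset (HeightOneSpectrum (𝓞 K')))
    (φ₀ : Ω → ∀ w : HeightOneSpectrum (𝓞 K'), GL (Fin 2) (w.adicCompletion K') → ℂ)
    (Φ : Ω → InfinitePlace K' → GL (Fin 2) ℂ → ℂ) (HU : Finset (G K')) (φ' : G K' → ℂ)
    (hcont : Continuous (fun p : Ω × G K' => pure305 (T' p.1) (φ₀ p.1) (Φ p.1) p.2))
    (hφ' : ∀ h : G K', φ' h = ∫ a, pure305 (T' a) (φ₀ a) (Φ a) h ∂ν)
    (hid : ∀ (ω : Ω) (x : G K'),
      pure305 (T' ω) (swUp57 B T₀ n₀ (φ₀ ω)) (Φ ω) x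
          = ∑ h ∈ HU, pure305 (T' ω) (φ₀ ω) (Φ ω) (x * h⁻¹) ∧
        pure305 (T' ω) (swUp57 B T₀ n₀ (φ₀ ω)) (Φ ω) x
          = ∑ h ∈ HU, pure305 (T' ω) (φ₀ ω) (Φ ω) (h⁻¹ * x)) (x : G K') :
    swapUpFn57 B T₀ n₀ ν T' φ₀ Φ x = ∑ h ∈ HU, φ' (x * h⁻¹) ∧
      swapUpFn57 B T₀ n₀ ν T' φ₀ Φ x = ∑ h ∈ HU, φ' (h⁻¹ * x) := by
  have hint : ∀ y : G K', Integrable (fun ω => pure305 (T' ω) (φ₀ ω) (Φ ω) y) ν := by
    intro y
    have hc : Continuous (fun ω => pure305 (T' ω) (φ₀ ω) (Φ ω) y) :=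
      hcont.comp (continuous_id.prodMk continuous_const)
    exact hc.integrable_of_hasCompactSupport (HasCompactSupport.of_compactSpace _)
  constructor
  · show ∫ ω, pure305 (T' ω) (swUp57 B T₀ n₀ (φ₀ ω)) (Φ ω) x ∂ν = _
    have : (fun ω => pure305 (T' ω) (swUp57 B T₀ n₀ (φ₀ ω)) (Φ ω) x)
        = fun ω => ∑ h ∈ HU, pure305 (T' ω) (φ₀ ω) (Φ ω) (x * h⁻¹) :=
      funext fun ω => (hid ω x).1
    rw [this, integral_finset_sum _ fun h _ => hint _]
    exact Finset.sum_congr rfl fun h _ => (hφ' _).symm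
  · show ∫ ω, pure305 (T' ω) (swUp57 B T₀ n₀ (φ₀ ω)) (Φ ω) x ∂ν = _
    have : (fun ω => pure305 (T' ω) (swUp57 B T₀ n₀ (φ₀ ω)) (Φ ω) x)
        = fun ω => ∑ h ∈ HU, pure305 (T' ω) (φ₀ ω) (Φ ω) (h⁻¹ * x) :=
      funext fun ω => (hid ω x).2
    rw [this, integral_finset_sum _ fun h _ => hint _]
    exact Finset.sum_congr rfl fun h _ => (hφ' _).symm

variable (K K')

/-- **SPARE of LEAF PB.0.U1 `SwapUpTestC57`** from the key identity, VERBATIM. -/
theorem swapUpTestC_of963 (hS : SwapUpSumC57 K K') : SwapUpTestC57 K K' := by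
  intro ℓ hcyc hℓ htc Φe B hB hram g hg 𝔫 h𝔫 μc hμc T₀ n n₀ m hexp c₁ Φ₁ F₁ hpair fb hfb
    Ω iT iC iT2 iSC iM iB ν iF T T' φ₀ Φ f₀ F hdat
  obtain ⟨HU, -, -, hid⟩ := hS ℓ hcyc hℓ htc Φe B hB hram g hg 𝔫 h𝔫 μc hμc T₀ n n₀ m hexp
    c₁ Φ₁ F₁ hpair fb hfb Ω iT iC iT2 iSC iM iB ν iF T T' φ₀ Φ f₀ F hdat
  obtain ⟨-, -, -, hcont, -, -, -, hφ', -⟩ := hdat
  have key := swapUpFn_eq963 ν B T₀ n₀ T' φ₀ Φ HU (Φ₁ []) hcont hφ' hid
  exact isTestFn_of_sums963 HU (hpair.up1_test [] (by simp)) (fun x => (key x).1)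
    (fun x => (key x).2)

/-- **SPARE of LEAF PB.0.U2 `SwapUpEKC57`** from the key identity, VERBATIM. -/
theorem swapUpEKC_of963 (hS : SwapUpSumC57 K K') : SwapUpEKC57 K K' := by
  intro ℓ hcyc hℓ htc Φe B hB hram g hg 𝔫 h𝔫 μc hμc T₀ n n₀ m hexp c₁ Φ₁ F₁ hpair fb hfb
    Ω iT iC iT2 iSC iM iB ν iF T T' φ₀ Φ f₀ F hdat
  obtain ⟨HU, -, -, hid⟩ := hS ℓ hcyc hℓ htc Φe B hB hram g hg 𝔫 h𝔫 μc hμc T₀ n n₀ m hexp
    c₁ Φ₁ F₁ hpair fb hfb Ω iT iC iT2 iSC iM iB ν iF T T' φ₀ Φ f₀ F hdat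
  obtain ⟨-, -, -, hcont, -, -, -, hφ', -⟩ := hdat
  have key := swapUpFn_eq963 ν B T₀ n₀ T' φ₀ Φ HU (Φ₁ []) hcont hφ' hid
  have htest := hpair.up1_test [] (by simp)
  have hek := hpair.up1_ek [] (by simp)
  have hμ : B.R'.μ.IsHaarMeasure := hB.frame'.frame.haar
  constructor
  · exact isEK_of_left_sums963 hμ HU (fun h => h⁻¹) htest.cont htest.supp hek.1
      (fun x => (key x).2)
  · exact isEK_of_left_sums963 hμ HU (fun h => h) (continuous_adjointFn963 htest.cont)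
      (hasCompactSupport_adjointFn963 htest.supp) hek.2
      (fun x => adjointFn_sums963 HU (fun y => (key y).1) x)

end Fermat.Agent.LT.T7.H963.SMU

end

section Check963SUK
open Fermat.Agent.LT.T7.H963.SMU in
example (K K' : Type) [Field K] [NumberField K] [Field K'] [NumberField K'] [Algebra K K'] :
    Fermat.Agent.LT.T7.PB57.SwapUpSumC57 K K' → Fermat.Agent.LT.T7.PB57.SwapUpTestC57 K K' :=
  swapUpTestC_of963 K K'
open Fermat.Agent.LT.T7.H963.SMU in
example (K K' : Type) [Field K] [NumberField K] [Field K'] [NumberField K'] [Algebra K K'] :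
    Fermat.Agent.LT.T7.PB57.SwapUpSumC57 K K' → Fermat.Agent.LT.T7.PB57.SwapUpEKC57 K K' :=
  swapUpEKC_of963 K K'
end Check963SUK

end
-- ===== PACK-END LT/T7/H963/SwapUpKit.lean

-- ===== PACK-BEGIN LT/T7/H698/SphConv.lean
section







/-!
# Row LT, tower T7, leaf T7.L2.1.H2a.A.3 M.8 `H445.SphConvC445` (helper698)

OFF-MAIN.  Spec: `LT/T7/H445/StepMSpec.lean` (helper445, sha256 95c0ff93), byte-identical copy.

    sphConvC_of698 : H445.SphArchC445 → H445.SphConvC445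

The iterated convolution on `GL₂(ℂ)` with ONE factor replaced by its local sphere mean is the
local sphere mean of the iterated convolution.

Proof.  `M` = the sphere mean, `C_n = Ψ_0 ⋆ ⋯ ⋆ Ψ_n`.
* F1 (`conv_mean_sc698`, Fubini): `A ⋆ M B = M (A ⋆ B)`.
* F2 (`mean_conv_sc698`): `M A ⋆ B = A ⋆ M B` for `A` right `U(2)`-invariant, `B`
  bi-invariant: `y(α,β) = k a_d`, `k = rotZ α rotY β ∈ U(2)`, `y* = a_d k⁻¹`; every Haar measure
  of `GL₂(ℂ)` is right invariant (`H8.rightInv_GL2C8`); a bi-`U(2)`-invariant function is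
  invariant under `g ↦ g*` (singular value decomposition `H555.svd555`), applied to `B` and to
  `M B` (bi-invariant by `SphArchC445`): `(M B)(h) = (M B)(h*) = ∫∫ B(y* h) sin β`.
* `C_n` is continuous with compact support and right `U(2)`-invariant.
* Induction on `n`: `n < j₀`: nothing changes; `n = j₀`: F1; `n > j₀`: F2 then F1.
-/

set_option autoImplicit false

open MeasureTheory Matrix
open scoped ComplexConjugate

noncomputable section

namespace Fermat.Agent.LT.T7.H698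

open Fermat.Agent.LT.H556 Fermat.Agent.LT.H556.A0 Fermat.Agent.LT.T7
open Fermat.Agent.LT.T7.H305 Fermat.Agent.LT.T7.H445 Fermat.Agent.LT

/-! ## 1. The matrices -/

theorem det_rotZ_sv698 (α : ℝ) : (rotZ α).det = 1 := by
  show (!![Complex.exp (Complex.I * ((α / 2 : ℝ) : ℂ)), 0;
     0, Complex.exp (-(Complex.I * ((α / 2 : ℝ) : ℂ)))] : Matrix (Fin 2) (Fin 2) ℂ).det = 1
  rw [Matrix.det_fin_two_of, mul_zero, sub_zero, ← Complex.exp_add, add_neg_cancel,
    Complex.exp_zero]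

theorem det_rotY_sv698 (β : ℝ) : (rotY β).det = 1 := by
  show (!![((Real.cos (β / 2) : ℝ) : ℂ), -((Real.sin (β / 2) : ℝ) : ℂ);
     ((Real.sin (β / 2) : ℝ) : ℂ), ((Real.cos (β / 2) : ℝ) : ℂ)] :
       Matrix (Fin 2) (Fin 2) ℂ).det = 1
  rw [Matrix.det_fin_two_of]
  have h := Real.cos_sq_add_sin_sq (β / 2)
  have h' : ((Real.cos (β / 2) : ℝ) : ℂ) ^ 2 + ((Real.sin (β / 2) : ℝ) : ℂ) ^ 2 = 1 := by
    exact_mod_cast h
  linear_combination h'

theorem det_torus_sv698 (d : ℝ) : (torus d).det = 1 := by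
  show (!![((Real.exp (d / 2) : ℝ) : ℂ), 0;
     0, ((Real.exp (-(d / 2)) : ℝ) : ℂ)] : Matrix (Fin 2) (Fin 2) ℂ).det = 1
  rw [Matrix.det_fin_two_of, mul_zero, sub_zero, ← Complex.ofReal_mul, ← Real.exp_add,
    add_neg_cancel, Real.exp_zero, Complex.ofReal_one]

theorem mul_conjT_two_sv698 (a b c d : ℂ) :
    (!![a, b; c, d] : Matrix (Fin 2) (Fin 2) ℂ) * (!![a, b; c, d] : Matrix (Fin 2) (Fin 2) ℂ)ᴴ
      = !![a * conj a + b * conj b, a * conj c + b * conj d;
          c * conj a + d * conj b, c * conj c + d * conj d] := by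
  ext i j
  fin_cases i <;> fin_cases j <;>
    simp [Matrix.mul_apply, Fin.sum_univ_two, Matrix.conjTranspose_apply]

theorem conjT_two_sv698 (a b c d : ℂ) :
    (!![a, b; c, d] : Matrix (Fin 2) (Fin 2) ℂ)ᴴ = !![conj a, conj c; conj b, conj d] := by
  ext i j
  fin_cases i <;> fin_cases j <;> simp [Matrix.conjTranspose_apply]

theorem rotZ_unitary_sv698 (α : ℝ) : rotZ α * (rotZ α)ᴴ = 1 := by
  have h1 : conj (Complex.exp (Complex.I * ((α / 2 : ℝ) : ℂ)))
      = Complex.exp (-(Complex.I * ((α / 2 : ℝ) : ℂ))) := by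
    rw [← Complex.exp_conj, map_mul, Complex.conj_I, Complex.conj_ofReal, neg_mul]
  have h2 : conj (Complex.exp (-(Complex.I * ((α / 2 : ℝ) : ℂ))))
      = Complex.exp (Complex.I * ((α / 2 : ℝ) : ℂ)) := by
    rw [← Complex.exp_conj, map_neg, map_mul, Complex.conj_I, Complex.conj_ofReal, neg_mul,
      neg_neg]
  have e1 : Complex.exp (Complex.I * ((α / 2 : ℝ) : ℂ)) *
      Complex.exp (-(Complex.I * ((α / 2 : ℝ) : ℂ))) = 1 := by
    rw [← Complex.exp_add, add_neg_cancel, Complex.exp_zero]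
  have e2 : Complex.exp (-(Complex.I * ((α / 2 : ℝ) : ℂ))) *
      Complex.exp (Complex.I * ((α / 2 : ℝ) : ℂ)) = 1 := by
    rw [mul_comm]; exact e1
  show (!![Complex.exp (Complex.I * ((α / 2 : ℝ) : ℂ)), 0;
     0, Complex.exp (-(Complex.I * ((α / 2 : ℝ) : ℂ)))] : Matrix (Fin 2) (Fin 2) ℂ) *
    (!![Complex.exp (Complex.I * ((α / 2 : ℝ) : ℂ)), 0;
     0, Complex.exp (-(Complex.I * ((α / 2 : ℝ) : ℂ)))] : Matrix (Fin 2) (Fin 2) ℂ)ᴴ = 1
  simp only [mul_conjT_two_sv698, h1, h2, e1, e2, map_zero, mul_zero, zero_mul, add_zero,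
    zero_add, Matrix.one_fin_two]

theorem rotY_unitary_sv698 (β : ℝ) : rotY β * (rotY β)ᴴ = 1 := by
  have h := Real.cos_sq_add_sin_sq (β / 2)
  have hc : ((Real.cos (β / 2) : ℝ) : ℂ) * ((Real.cos (β / 2) : ℝ) : ℂ) +
      ((Real.sin (β / 2) : ℝ) : ℂ) * ((Real.sin (β / 2) : ℝ) : ℂ) = 1 := by
    have h' : ((Real.cos (β / 2) : ℝ) : ℂ) ^ 2 + ((Real.sin (β / 2) : ℝ) : ℂ) ^ 2 = 1 := by
      exact_mod_cast h
    linear_combination h'
  show (!![((Real.cos (β / 2) : ℝ) : ℂ), -((Real.sin (β / 2) : ℝ) : ℂ);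
     ((Real.sin (β / 2) : ℝ) : ℂ), ((Real.cos (β / 2) : ℝ) : ℂ)] : Matrix (Fin 2) (Fin 2) ℂ) *
    (!![((Real.cos (β / 2) : ℝ) : ℂ), -((Real.sin (β / 2) : ℝ) : ℂ);
     ((Real.sin (β / 2) : ℝ) : ℂ), ((Real.cos (β / 2) : ℝ) : ℂ)] :
       Matrix (Fin 2) (Fin 2) ℂ)ᴴ = 1
  rw [mul_conjT_two_sv698, map_neg, Complex.conj_ofReal, Complex.conj_ofReal, Matrix.one_fin_two]
  have e00 : ((Real.cos (β / 2) : ℝ) : ℂ) * ((Real.cos (β / 2) : ℝ) : ℂ) +
      -((Real.sin (β / 2) : ℝ) : ℂ) * -((Real.sin (β / 2) : ℝ) : ℂ) = 1 := by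
    linear_combination hc
  have e01 : ((Real.cos (β / 2) : ℝ) : ℂ) * ((Real.sin (β / 2) : ℝ) : ℂ) +
      -((Real.sin (β / 2) : ℝ) : ℂ) * ((Real.cos (β / 2) : ℝ) : ℂ) = 0 := by ring
  have e10 : ((Real.sin (β / 2) : ℝ) : ℂ) * ((Real.cos (β / 2) : ℝ) : ℂ) +
      ((Real.cos (β / 2) : ℝ) : ℂ) * -((Real.sin (β / 2) : ℝ) : ℂ) = 0 := by ring
  have e11 : ((Real.sin (β / 2) : ℝ) : ℂ) * ((Real.sin (β / 2) : ℝ) : ℂ) +
      ((Real.cos (β / 2) : ℝ) : ℂ) * ((Real.cos (β / 2) : ℝ) : ℂ) = 1 := by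
    linear_combination hc
  rw [e00, e01, e10, e11]

theorem torus_star_sv698 (d : ℝ) : (torus d)ᴴ = torus d := by
  show (!![((Real.exp (d / 2) : ℝ) : ℂ), 0;
     0, ((Real.exp (-(d / 2)) : ℝ) : ℂ)] : Matrix (Fin 2) (Fin 2) ℂ)ᴴ
    = !![((Real.exp (d / 2) : ℝ) : ℂ), 0; 0, ((Real.exp (-(d / 2)) : ℝ) : ℂ)]
  rw [conjT_two_sv698, Complex.conj_ofReal, Complex.conj_ofReal, map_zero]

theorem rot_unitary_sv698 (α β : ℝ) : (rotZ α * rotY β) * (rotZ α * rotY β)ᴴ = 1 := by
  rw [Matrix.conjTranspose_mul, Matrix.mul_assoc, ← Matrix.mul_assoc (rotY β),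
    rotY_unitary_sv698, Matrix.one_mul, rotZ_unitary_sv698]

/-- The unitary part `k(α, β) = rotZ α * rotY β` in `GL₂(ℂ)`. -/
def kGL_sv698 (α β : ℝ) : GL (Fin 2) ℂ :=
  ⟨rotZ α * rotY β, (rotZ α * rotY β)ᴴ, rot_unitary_sv698 α β,
    mul_eq_one_comm.mp (rot_unitary_sv698 α β)⟩

/-- The torus part `a_d` in `GL₂(ℂ)`. -/
def tGL_sv698 (d : ℝ) : GL (Fin 2) ℂ :=
  Matrix.GeneralLinearGroup.mkOfDetNeZero (torus d) (by rw [det_torus_sv698]; exact one_ne_zero)

theorem kGL_unitary_sv698 (α β : ℝ) :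
    ((kGL_sv698 α β : GL (Fin 2) ℂ) : Matrix (Fin 2) (Fin 2) ℂ) *
      ((kGL_sv698 α β : GL (Fin 2) ℂ) : Matrix (Fin 2) (Fin 2) ℂ).conjTranspose = 1 :=
  rot_unitary_sv698 α β

theorem star_kGL_sv698 (α β : ℝ) : star (kGL_sv698 α β) = (kGL_sv698 α β)⁻¹ := by
  apply Units.ext
  rw [Units.coe_star]
  rfl

theorem star_tGL_sv698 (d : ℝ) : star (tGL_sv698 d) = tGL_sv698 d := by
  apply Units.ext
  rw [Units.coe_star]
  exact torus_star_sv698 d

theorem sph_eq_sv698 {d : ℝ} {y : ℝ → ℝ → GL (Fin 2) ℂ} (hy : IsSphC445 d y) (α β : ℝ) :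
    y α β = kGL_sv698 α β * tGL_sv698 d := by
  apply Units.ext
  rw [hy α β]
  rfl

theorem star_sph_sv698 {d : ℝ} {y : ℝ → ℝ → GL (Fin 2) ℂ} (hy : IsSphC445 d y) (α β : ℝ) :
    star (y α β) = tGL_sv698 d * (kGL_sv698 α β)⁻¹ := by
  rw [sph_eq_sv698 hy, star_mul, star_tGL_sv698, star_kGL_sv698]

/-! ## 2. Continuity of the sphere family -/

theorem continuous_rotZ_sv698 : Continuous rotZ := by
  refine continuous_matrix fun i j => ?_
  fin_cases i <;> fin_cases j
  · show Continuous fun α : ℝ => Complex.exp (Complex.I * ((α / 2 : ℝ) : ℂ))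
    fun_prop
  · exact continuous_const
  · exact continuous_const
  · show Continuous fun α : ℝ => Complex.exp (-(Complex.I * ((α / 2 : ℝ) : ℂ)))
    fun_prop

theorem continuous_rotY_sv698 : Continuous rotY := by
  refine continuous_matrix fun i j => ?_
  fin_cases i <;> fin_cases j
  · show Continuous fun β : ℝ => ((Real.cos (β / 2) : ℝ) : ℂ)
    fun_prop
  · show Continuous fun β : ℝ => -((Real.sin (β / 2) : ℝ) : ℂ)
    fun_prop
  · show Continuous fun β : ℝ => ((Real.sin (β / 2) : ℝ) : ℂ)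
    fun_prop
  · show Continuous fun β : ℝ => ((Real.cos (β / 2) : ℝ) : ℂ)
    fun_prop

theorem continuous_kGL_sv698 : Continuous fun p : ℝ × ℝ => kGL_sv698 p.1 p.2 := by
  have h1 : Continuous fun p : ℝ × ℝ => rotZ p.1 * rotY p.2 :=
    (continuous_rotZ_sv698.comp continuous_fst).matrix_mul
      (continuous_rotY_sv698.comp continuous_snd)
  rw [Units.continuous_iff]
  constructor
  · exact h1
  · show Continuous fun p : ℝ × ℝ => (rotZ p.1 * rotY p.2)ᴴ
    exact h1.matrix_conjTranspose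

theorem continuous_sph_sv698 {d : ℝ} {y : ℝ → ℝ → GL (Fin 2) ℂ} (hy : IsSphC445 d y) :
    Continuous fun p : ℝ × ℝ => y p.1 p.2 := by
  have h : (fun p : ℝ × ℝ => y p.1 p.2) = fun p : ℝ × ℝ => kGL_sv698 p.1 p.2 * tGL_sv698 d := by
    funext p
    exact sph_eq_sv698 hy p.1 p.2
  rw [h]
  exact continuous_kGL_sv698.mul continuous_const

/-! ## 3. Bi-invariant functions are invariant under `g ↦ g*` -/

theorem isBiU_left_sv698 {Φ : GL (Fin 2) ℂ → ℂ} (hΦ : IsBiU445 Φ) (k g : GL (Fin 2) ℂ)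
    (hk : (k : Matrix (Fin 2) (Fin 2) ℂ) * (k : Matrix (Fin 2) (Fin 2) ℂ).conjTranspose = 1) :
    Φ (k * g) = Φ g := by
  have h := hΦ k 1 g hk (by simp)
  rwa [mul_one] at h

theorem isBiU_right_sv698 {Φ : GL (Fin 2) ℂ → ℂ} (hΦ : IsBiU445 Φ) (k g : GL (Fin 2) ℂ)
    (hk : (k : Matrix (Fin 2) (Fin 2) ℂ) * (k : Matrix (Fin 2) (Fin 2) ℂ).conjTranspose = 1) :
    Φ (g * k) = Φ g := by
  have h := hΦ 1 k g (by simp) hk
  rwa [one_mul] at h

theorem isBiU_star_sv698 {Φ : GL (Fin 2) ℂ → ℂ} (hΦ : IsBiU445 Φ) (g : GL (Fin 2) ℂ) :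
    Φ (star g) = Φ g := by
  have hdet : (g : Matrix (Fin 2) (Fin 2) ℂ).det ≠ 0 := by
    have h := (Matrix.isUnit_iff_isUnit_det _).1 g.isUnit
    exact h.ne_zero
  obtain ⟨k₁, k₂, dd, h1, h2, -, hg⟩ := T2.H555.svd555 (g : Matrix (Fin 2) (Fin 2) ℂ) hdet
  have h1' : k₁ᴴ * k₁ = 1 := mul_eq_one_comm.mp h1
  have h2' : k₂ᴴ * k₂ = 1 := mul_eq_one_comm.mp h2
  let K₁ : GL (Fin 2) ℂ := ⟨k₁, k₁ᴴ, h1, h1'⟩
  let K₂ : GL (Fin 2) ℂ := ⟨k₂, k₂ᴴ, h2, h2'⟩
  let Dg : GL (Fin 2) ℂ := K₁⁻¹ * g * K₂⁻¹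
  have hD : (Dg : Matrix (Fin 2) (Fin 2) ℂ) = Matrix.diagonal (fun i => ((dd i : ℝ) : ℂ)) := by
    show k₁ᴴ * (g : Matrix (Fin 2) (Fin 2) ℂ) * k₂ᴴ = _
    rw [hg]
    calc k₁ᴴ * (k₁ * Matrix.diagonal (fun i => ((dd i : ℝ) : ℂ)) * k₂) * k₂ᴴ
        = (k₁ᴴ * k₁) * Matrix.diagonal (fun i => ((dd i : ℝ) : ℂ)) * (k₂ * k₂ᴴ) := by
          simp only [Matrix.mul_assoc]
      _ = Matrix.diagonal (fun i => ((dd i : ℝ) : ℂ)) := by
          rw [h1', h2, Matrix.one_mul, Matrix.mul_one]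
  have hDs : star Dg = Dg := by
    apply Units.ext
    rw [Units.coe_star, hD]
    show (Matrix.diagonal fun i => ((dd i : ℝ) : ℂ))ᴴ = _
    rw [Matrix.diagonal_conjTranspose]
    congr 1
    funext i
    exact Complex.conj_ofReal _
  have hgK : g = K₁ * Dg * K₂ := by
    show g = K₁ * (K₁⁻¹ * g * K₂⁻¹) * K₂
    group
  have hK₁ : (K₁ : Matrix (Fin 2) (Fin 2) ℂ) * (K₁ : Matrix (Fin 2) (Fin 2) ℂ).conjTranspose = 1 :=
    h1
  have hK₂ : (K₂ : Matrix (Fin 2) (Fin 2) ℂ) * (K₂ : Matrix (Fin 2) (Fin 2) ℂ).conjTranspose = 1 :=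
    h2
  have hsK₁ : ((star K₁ : GL (Fin 2) ℂ) : Matrix (Fin 2) (Fin 2) ℂ) *
      ((star K₁ : GL (Fin 2) ℂ) : Matrix (Fin 2) (Fin 2) ℂ).conjTranspose = 1 := by
    rw [Units.coe_star]
    show k₁ᴴ * k₁ᴴᴴ = 1
    rw [Matrix.conjTranspose_conjTranspose]
    exact h1'
  have hsK₂ : ((star K₂ : GL (Fin 2) ℂ) : Matrix (Fin 2) (Fin 2) ℂ) *
      ((star K₂ : GL (Fin 2) ℂ) : Matrix (Fin 2) (Fin 2) ℂ).conjTranspose = 1 := by
    rw [Units.coe_star]
    show k₂ᴴ * k₂ᴴᴴ = 1
    rw [Matrix.conjTranspose_conjTranspose]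
    exact h2'
  have e1 : Φ g = Φ Dg := by
    rw [hgK]
    exact hΦ K₁ K₂ Dg hK₁ hK₂
  have e2 : Φ (star g) = Φ Dg := by
    rw [hgK, star_mul, star_mul, hDs, ← mul_assoc]
    exact hΦ (star K₂) (star K₁) Dg hsK₂ hsK₁
  rw [e1, e2]

/-! ## 4. The measure -/

/-- The Borel `σ`-algebra of `GL₂(ℂ)` (LOCAL instance of this file). -/
local instance borelGLC_sv698 : MeasurableSpace (GL (Fin 2) ℂ) := borel _

local instance borelSpaceGLC_sv698 : BorelSpace (GL (Fin 2) ℂ) := ⟨rfl⟩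

/-- The weight `sin β`. -/
def sinW_sv698 (β : ℝ) : ℂ := ((Real.sin β : ℝ) : ℂ)

theorem continuous_sinW_sv698 : Continuous sinW_sv698 :=
  Complex.continuous_ofReal.comp Real.continuous_sin

theorem sphMean_eq_sv698 (y : ℝ → ℝ → GL (Fin 2) ℂ) (Φ : GL (Fin 2) ℂ → ℂ) :
    sphMeanC445 y Φ = mean2_sc698 0 (2 * Real.pi) 0 Real.pi sinW_sv698 y Φ := rfl

theorem convL_zero_sv698 (μc : Measure (GL (Fin 2) ℂ)) (Φ : ℕ → GL (Fin 2) ℂ → ℂ) :
    convL305 μc Φ 0 = Φ 0 := rfl

theorem convL_succ_sv698 (μc : Measure (GL (Fin 2) ℂ)) (Φ : ℕ → GL (Fin 2) ℂ → ℂ) (j : ℕ) :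
    convL305 μc Φ (j + 1) = T6.convInt μc (convL305 μc Φ j) (Φ (j + 1)) := rfl

/-- Right `U(2)`-invariance. -/
def IsRightU_sv698 (Φ : GL (Fin 2) ℂ → ℂ) : Prop :=
  ∀ k g : GL (Fin 2) ℂ,
    (k : Matrix (Fin 2) (Fin 2) ℂ) * (k : Matrix (Fin 2) (Fin 2) ℂ).conjTranspose = 1 →
    Φ (g * k) = Φ g

theorem isRightU_conv_sv698 (μc : Measure (GL (Fin 2) ℂ)) (A : GL (Fin 2) ℂ → ℂ)
    {B : GL (Fin 2) ℂ → ℂ} (hB : IsRightU_sv698 B) : IsRightU_sv698 (T6.convInt μc A B) := by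
  intro k g hk
  rw [T6.H698.convInt_mul_right698, T6.H698.convInt_apply698]
  congr 1
  funext x
  rw [hB k (x⁻¹ * g) hk]

/-- The iterated convolutions of good functions are continuous with compact support and right
`U(2)`-invariant. -/
theorem convL_good_sv698 (μc : Measure (GL (Fin 2) ℂ)) [Measure.IsHaarMeasure μc]
    (Ψ : ℕ → GL (Fin 2) ℂ → ℂ) (N : ℕ) (hΨ : ∀ j : ℕ, j ≤ N → IsArchGood445 (Ψ j)) :
    ∀ n : ℕ, n ≤ N → Continuous (convL305 μc Ψ n) ∧ HasCompactSupport (convL305 μc Ψ n) ∧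
      IsRightU_sv698 (convL305 μc Ψ n) := by
  have := T6.H8.locallyCompactSpace_GL2C8
  have := T6.H8.secondCountableTopology_GL2C8
  intro n
  induction n with
  | zero =>
    intro h0
    obtain ⟨h1, h2, -, h4⟩ := hΨ 0 h0
    exact ⟨h1, h2, fun k g hk => isBiU_right_sv698 h4 k g hk⟩
  | succ n ih =>
    intro hn
    obtain ⟨c1, c2, -⟩ := ih (Nat.le_of_succ_le hn)
    obtain ⟨h1, h2, -, h4⟩ := hΨ (n + 1) hn
    rw [convL_succ_sv698]
    exact ⟨T6.H698.continuous_convInt698 μc c1 c2 h1,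
      T6.H698.hasCompactSupport_convInt698 μc c2 h2,
      isRightU_conv_sv698 μc _ fun k g hk => isBiU_right_sv698 h4 k g hk⟩

/-! ## 5. The leaf -/

/-- **LEAF M.8 = SPH-CONV**, from `SphArchC445`. -/
theorem sphConvC_of698 (hArch : SphArchC445) : SphConvC445 := by
  intro μc hμ d y hy N Ψ hΨ j₀ hj₀
  have := hμ
  have := T6.H8.locallyCompactSpace_GL2C8
  have := T6.H8.secondCountableTopology_GL2C8
  have hri : μc.IsMulRightInvariant := ⟨(T6.H8.rightInv_GL2C8 μc).1⟩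
  have hyc := continuous_sph_sv698 hy
  have hy'c : Continuous fun p : ℝ × ℝ => star (y p.1 p.2) := continuous_star.comp hyc
  have hgood := convL_good_sv698 μc Ψ N hΨ
  -- F1 and F2 for the sphere mean
  have F1 : ∀ A B : GL (Fin 2) ℂ → ℂ, Continuous A → HasCompactSupport A → Continuous B →
      T6.convInt μc A (sphMeanC445 y B) = sphMeanC445 y (T6.convInt μc A B) := by
    intro A B hA hAs hB
    funext g
    rw [sphMean_eq_sv698, sphMean_eq_sv698]
    exact conv_mean_sc698 μc 0 (2 * Real.pi) 0 Real.pi continuous_sinW_sv698 hyc hA hAs hB g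
  have F2 : ∀ A B : GL (Fin 2) ℂ → ℂ, Continuous A → HasCompactSupport A →
      IsRightU_sv698 A → IsArchGood445 B →
      T6.convInt μc (sphMeanC445 y A) B = T6.convInt μc A (sphMeanC445 y B) := by
    intro A B hA hAs hAr hB
    obtain ⟨hBc, hBs, hBj, hBu⟩ := hB
    have hMBu : IsBiU445 (sphMeanC445 y B) := (hArch d y hy B ⟨hBc, hBs, hBj, hBu⟩).2.2.2
    funext g
    rw [sphMean_eq_sv698, sphMean_eq_sv698]
    refine mean_conv_sc698 μc 0 (2 * Real.pi) 0 Real.pi continuous_sinW_sv698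
      (y' := fun α β => star (y α β)) hyc hy'c hA hAs hBc hBs ?_ ?_ g
    · intro α β
      refine ⟨kGL_sv698 α β, tGL_sv698 d, sph_eq_sv698 hy α β, star_sph_sv698 hy α β, ?_, ?_⟩
      · intro x
        exact hAr _ x (kGL_unitary_sv698 α β)
      · intro h
        exact isBiU_left_sv698 hBu _ h (kGL_unitary_sv698 α β)
    · intro h
      rw [← sphMean_eq_sv698, ← isBiU_star_sv698 hMBu h]
      show (∫ α in (0 : ℝ)..(2 * Real.pi), ∫ β in (0 : ℝ)..Real.pi,
          B (star h * y α β) * ((Real.sin β : ℝ) : ℂ)) = _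
      congr 1
      funext α
      congr 1
      funext β
      rw [← isBiU_star_sv698 hBu (star h * y α β), star_mul, star_star]
      rfl
  -- the induction
  set Ψ' : ℕ → GL (Fin 2) ℂ → ℂ := fun j => if j = j₀ then sphMeanC445 y (Ψ j₀) else Ψ j
    with hΨ'
  have key : ∀ n : ℕ, n ≤ N →
      (n < j₀ → convL305 μc Ψ' n = convL305 μc Ψ n) ∧
        (j₀ ≤ n → convL305 μc Ψ' n = sphMeanC445 y (convL305 μc Ψ n)) := by
    intro n
    induction n with
    | zero =>
      intro _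
      constructor
      · intro h0
        rw [convL_zero_sv698, convL_zero_sv698]
        show (if 0 = j₀ then sphMeanC445 y (Ψ j₀) else Ψ 0) = Ψ 0
        rw [if_neg (Nat.ne_of_lt h0)]
      · intro h0
        have hj : j₀ = 0 := Nat.le_zero.1 h0
        rw [convL_zero_sv698, convL_zero_sv698]
        show (if 0 = j₀ then sphMeanC445 y (Ψ j₀) else Ψ 0) = sphMeanC445 y (Ψ 0)
        rw [if_pos hj.symm, hj]
    | succ n ih =>
      intro hn
      have hn' : n ≤ N := Nat.le_of_succ_le hn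
      obtain ⟨ih1, ih2⟩ := ih hn'
      obtain ⟨c1, c2, c3⟩ := hgood n hn'
      have hB := hΨ (n + 1) hn
      constructor
      · intro hlt
        rw [convL_succ_sv698, convL_succ_sv698, ih1 (Nat.lt_of_succ_lt hlt)]
        show T6.convInt μc (convL305 μc Ψ n)
          (if n + 1 = j₀ then sphMeanC445 y (Ψ j₀) else Ψ (n + 1)) = _
        rw [if_neg (Nat.ne_of_lt hlt)]
      · intro hle
        rcases Nat.eq_or_lt_of_le hle with heq | hlt
        · -- n + 1 = j₀
          rw [convL_succ_sv698, convL_succ_sv698, ih1 (by omega)]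
          show T6.convInt μc (convL305 μc Ψ n)
            (if n + 1 = j₀ then sphMeanC445 y (Ψ j₀) else Ψ (n + 1)) = _
          rw [if_pos heq.symm, heq]
          rw [← heq] at hB ⊢
          exact F1 _ _ c1 c2 hB.1
        · -- j₀ ≤ n
          rw [convL_succ_sv698, convL_succ_sv698, ih2 (by omega)]
          show T6.convInt μc (sphMeanC445 y (convL305 μc Ψ n))
            (if n + 1 = j₀ then sphMeanC445 y (Ψ j₀) else Ψ (n + 1)) = _
          rw [if_neg (by omega), F2 _ _ c1 c2 c3 hB, F1 _ _ c1 c2 hB.1]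
  exact (key N le_rfl).2 hj₀

end Fermat.Agent.LT.T7.H698

end

end
-- ===== PACK-END LT/T7/H698/SphConv.lean

-- ===== PACK-BEGIN LT/T7/H266/SphFubini.lean
section




/-!
# Row LT, tower T7, node T7.L2.1.H2a.A.3 `StepMC981`, leaf M.8 `SphConvC445`
# (helper266, SPARE, OFF-MAIN): the sphere family is continuous; FUBINI

* `continuous_sph266` : a sphere family of `GL₂(ℂ)` (`H445.IsSphC445`) is jointly continuous;
* `sphMean_convInt266` : `M (A ⋆ B) = A ⋆ M B` for continuous functions with compact support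
  (`M` = the local sphere mean `H445.sphMeanC445`, `⋆` = `T6.convInt`), every Haar measure.

No hole, nothing assumed.  No equation lemma of a foreign definition is realised.
-/

set_option autoImplicit false
set_option linter.unusedSectionVars false
set_option linter.unusedVariables false
set_option linter.style.haveILetI false

open MeasureTheory
open scoped ENNReal

noncomputable section

namespace Fermat.Agent.LT.T7.H266

open Fermat.Agent.LT Fermat.Agent.LT.H556 Fermat.Agent.LT.H556.A0 Fermat.Agent.LT.T7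
  Fermat.Agent.LT.T7.H305

/-! ## 1. The sphere family -/

theorem det_rotZ266 (α : ℝ) : (rotZ α).det = 1 := by
  show (!![Complex.exp (Complex.I * ((α / 2 : ℝ) : ℂ)), 0;
     0, Complex.exp (-(Complex.I * ((α / 2 : ℝ) : ℂ)))] : Matrix (Fin 2) (Fin 2) ℂ).det = 1
  rw [Matrix.det_fin_two_of, mul_zero, sub_zero, ← Complex.exp_add, add_neg_cancel,
    Complex.exp_zero]

theorem det_rotY266 (β : ℝ) : (rotY β).det = 1 := by
  show (!![((Real.cos (β / 2) : ℝ) : ℂ), -((Real.sin (β / 2) : ℝ) : ℂ);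
     ((Real.sin (β / 2) : ℝ) : ℂ), ((Real.cos (β / 2) : ℝ) : ℂ)] :
       Matrix (Fin 2) (Fin 2) ℂ).det = 1
  rw [Matrix.det_fin_two_of]
  have h := Real.cos_sq_add_sin_sq (β / 2)
  have h' : ((Real.cos (β / 2) : ℝ) : ℂ) ^ 2 + ((Real.sin (β / 2) : ℝ) : ℂ) ^ 2 = 1 := by
    exact_mod_cast h
  linear_combination h'

theorem det_torus266 (d : ℝ) : (torus d).det = 1 := by
  show (!![((Real.exp (d / 2) : ℝ) : ℂ), 0;
     0, ((Real.exp (-(d / 2)) : ℝ) : ℂ)] : Matrix (Fin 2) (Fin 2) ℂ).det = 1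
  rw [Matrix.det_fin_two_of, mul_zero, sub_zero]
  have h : Real.exp (d / 2) * Real.exp (-(d / 2)) = 1 := by
    rw [← Real.exp_add, add_neg_cancel, Real.exp_zero]
  exact_mod_cast h

theorem continuous_rotZ266 : Continuous rotZ := by
  show Continuous fun α : ℝ => (!![Complex.exp (Complex.I * ((α / 2 : ℝ) : ℂ)), 0;
     0, Complex.exp (-(Complex.I * ((α / 2 : ℝ) : ℂ)))] : Matrix (Fin 2) (Fin 2) ℂ)
  refine continuous_matrix fun i j => ?_
  fin_cases i <;> fin_cases j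
  · show Continuous fun α : ℝ => Complex.exp (Complex.I * ((α / 2 : ℝ) : ℂ))
    fun_prop
  · show Continuous fun _ : ℝ => (0 : ℂ)
    fun_prop
  · show Continuous fun _ : ℝ => (0 : ℂ)
    fun_prop
  · show Continuous fun α : ℝ => Complex.exp (-(Complex.I * ((α / 2 : ℝ) : ℂ)))
    fun_prop

theorem continuous_rotY266 : Continuous rotY := by
  show Continuous fun β : ℝ => (!![((Real.cos (β / 2) : ℝ) : ℂ), -((Real.sin (β / 2) : ℝ) : ℂ);
     ((Real.sin (β / 2) : ℝ) : ℂ), ((Real.cos (β / 2) : ℝ) : ℂ)] : Matrix (Fin 2) (Fin 2) ℂ)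
  refine continuous_matrix fun i j => ?_
  fin_cases i <;> fin_cases j
  · show Continuous fun β : ℝ => ((Real.cos (β / 2) : ℝ) : ℂ)
    fun_prop
  · show Continuous fun β : ℝ => -((Real.sin (β / 2) : ℝ) : ℂ)
    fun_prop
  · show Continuous fun β : ℝ => ((Real.sin (β / 2) : ℝ) : ℂ)
    fun_prop
  · show Continuous fun β : ℝ => ((Real.cos (β / 2) : ℝ) : ℂ)
    fun_prop

/-- The matrix of a sphere family is jointly continuous. -/
theorem continuous_sphMat266 (d : ℝ) :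
    Continuous fun p : ℝ × ℝ => rotZ p.1 * rotY p.2 * torus d :=
  ((continuous_rotZ266.comp continuous_fst).matrix_mul
    (continuous_rotY266.comp continuous_snd)).matrix_mul continuous_const

/-- **A sphere family of `GL₂(ℂ)` is jointly continuous.** -/
theorem continuous_sph266 (d : ℝ) (y : ℝ → ℝ → GL (Fin 2) ℂ) (hy : H445.IsSphC445 d y) :
    Continuous fun p : ℝ × ℝ => y p.1 p.2 := by
  have hval : ∀ p : ℝ × ℝ, ((y p.1 p.2 : GL (Fin 2) ℂ) : Matrix (Fin 2) (Fin 2) ℂ)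
      = rotZ p.1 * rotY p.2 * torus d := fun p => hy p.1 p.2
  have hdet : ∀ p : ℝ × ℝ, (rotZ p.1 * rotY p.2 * torus d).det = 1 := by
    intro p
    rw [Matrix.det_mul, Matrix.det_mul, det_rotZ266, det_rotY266, det_torus266, mul_one,
      mul_one]
  have hinv : ∀ p : ℝ × ℝ, (((y p.1 p.2)⁻¹ : GL (Fin 2) ℂ) : Matrix (Fin 2) (Fin 2) ℂ)
      = (rotZ p.1 * rotY p.2 * torus d).adjugate := by
    intro p
    refine Units.inv_eq_of_mul_eq_one_right ?_
    rw [hval p, Matrix.mul_adjugate, hdet p, one_smul]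
  refine Units.continuous_iff.2 ⟨?_, ?_⟩
  · show Continuous fun p : ℝ × ℝ => ((y p.1 p.2 : GL (Fin 2) ℂ) : Matrix (Fin 2) (Fin 2) ℂ)
    simp only [hval]
    exact continuous_sphMat266 d
  · show Continuous fun p : ℝ × ℝ =>
      (((y p.1 p.2)⁻¹ : GL (Fin 2) ℂ) : Matrix (Fin 2) (Fin 2) ℂ)
    simp only [hinv]
    exact (continuous_sphMat266 d).matrix_adjugate

/-! ## 2. Fubini -/

section Fubini

variable (μc : @Measure (GL (Fin 2) ℂ) (borel _))
  (hμ : @Measure.IsHaarMeasure _ _ _ (borel _) μc)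

include hμ

/-- **`M (A ⋆ B) = A ⋆ M B`.** -/
theorem sphMean_convInt266 (d : ℝ) (y : ℝ → ℝ → GL (Fin 2) ℂ) (hy : H445.IsSphC445 d y)
    (A B : GL (Fin 2) ℂ → ℂ) (hA : Continuous A) (hAc : HasCompactSupport A)
    (hB : Continuous B) (hBc : HasCompactSupport B) :
    H445.sphMeanC445 y (@T6.convInt _ _ (borel _) μc A B)
      = @T6.convInt _ _ (borel _) μc A (H445.sphMeanC445 y B) := by
  letI : MeasurableSpace (GL (Fin 2) ℂ) := borel _
  haveI : BorelSpace (GL (Fin 2) ℂ) := ⟨rfl⟩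
  haveI := hμ
  haveI := Fermat.Agent.LT.T6.H8.locallyCompactSpace_GL2C8
  haveI := Fermat.Agent.LT.T6.H8.secondCountableTopology_GL2C8
  funext g
  have hyc := continuous_sph266 d y hy
  obtain ⟨MA, hMA⟩ := hA.bounded_above_of_compact_support hAc
  obtain ⟨MB, hMB⟩ := hB.bounded_above_of_compact_support hBc
  have hMA0 : 0 ≤ MA := le_trans (norm_nonneg _) (hMA 1)
  have hMB0 : 0 ≤ MB := le_trans (norm_nonneg _) (hMB 1)
  set Kc : Set (GL (Fin 2) ℂ) := tsupport A with hKc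
  have hKcomp : IsCompact Kc := hAc
  have hKm : MeasurableSet Kc := hKcomp.isClosed.measurableSet
  -- the integrand
  set f : GL (Fin 2) ℂ → ℝ → ℝ → ℂ :=
    fun h α β => A h * B (h⁻¹ * (g * y α β)) * ((Real.sin β : ℝ) : ℂ) with hf
  have hfc : Continuous fun q : (ℝ × GL (Fin 2) ℂ) × ℝ => f q.1.2 q.1.1 q.2 := by
    have h1 : Continuous fun q : (ℝ × GL (Fin 2) ℂ) × ℝ => y q.1.1 q.2 :=
      hyc.comp ((continuous_fst.comp continuous_fst).prodMk continuous_snd)
    have h2 : Continuous fun q : (ℝ × GL (Fin 2) ℂ) × ℝ => q.1.2 :=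
      continuous_snd.comp continuous_fst
    have h3 : Continuous fun q : (ℝ × GL (Fin 2) ℂ) × ℝ => ((Real.sin q.2 : ℝ) : ℂ) :=
      Complex.continuous_ofReal.comp (Real.continuous_sin.comp continuous_snd)
    exact ((hA.comp h2).mul (hB.comp (h2.inv.mul (continuous_const.mul h1)))).mul h3
  have hfb : ∀ h α β, ‖f h α β‖ ≤ MA * MB := by
    intro h α β
    show ‖A h * B (h⁻¹ * (g * y α β)) * ((Real.sin β : ℝ) : ℂ)‖ ≤ MA * MB
    rw [norm_mul, norm_mul, Complex.norm_real]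
    have hs : ‖Real.sin β‖ ≤ 1 := by
      rw [Real.norm_eq_abs]
      exact Real.abs_sin_le_one β
    calc ‖A h‖ * ‖B (h⁻¹ * (g * y α β))‖ * ‖Real.sin β‖
        ≤ MA * MB * 1 := by
          gcongr
          · exact hMA h
          · exact hMB _
      _ = MA * MB := mul_one _
  have hf0 : ∀ h α β, h ∉ Kc → f h α β = 0 := by
    intro h α β hh
    show A h * B (h⁻¹ * (g * y α β)) * ((Real.sin β : ℝ) : ℂ) = 0
    rw [image_eq_zero_of_notMem_tsupport hh, zero_mul, zero_mul]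
  set να : Measure ℝ := volume.restrict (Set.Ioc 0 (2 * Real.pi)) with hνα
  set νβ : Measure ℝ := volume.restrict (Set.Ioc 0 Real.pi) with hνβ
  -- step 1: swap `h` and `β`
  have hint1 : ∀ α : ℝ, Integrable (Function.uncurry fun (β : ℝ) (h : GL (Fin 2) ℂ) => f h α β)
      (νβ.prod μc) := by
    intro α
    have hc : Continuous (Function.uncurry fun (β : ℝ) (h : GL (Fin 2) ℂ) => f h α β) :=
      hfc.comp ((continuous_const.prodMk continuous_snd).prodMk continuous_fst)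
    have hS : MeasurableSet ((Set.univ : Set ℝ) ×ˢ Kc) := MeasurableSet.univ.prod hKm
    have hfin : (νβ.prod μc) ((Set.univ : Set ℝ) ×ˢ Kc) < ⊤ := by
      rw [Measure.prod_prod]
      exact ENNReal.mul_lt_top (measure_lt_top _ _) hKcomp.measure_lt_top
    have hg : Integrable (((Set.univ : Set ℝ) ×ˢ Kc).indicator fun _ => (MA * MB : ℝ))
        (νβ.prod μc) :=
      (integrable_indicator_iff hS).2 (integrableOn_const hfin.ne)
    refine hg.mono' hc.aestronglyMeasurable (Filter.Eventually.of_forall fun q => ?_)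
    obtain ⟨β, h⟩ := q
    show ‖f h α β‖ ≤ _
    by_cases hh : h ∈ Kc
    · rw [Set.indicator_of_mem (Set.mk_mem_prod (Set.mem_univ β) hh)]
      exact hfb h α β
    · rw [hf0 h α β hh, norm_zero]
      exact Set.indicator_nonneg (fun _ _ => mul_nonneg hMA0 hMB0) _
  -- step 2: swap `h` and `α`
  have hint2 : Integrable (Function.uncurry fun (α : ℝ) (h : GL (Fin 2) ℂ) =>
      ∫ β, f h α β ∂νβ) (να.prod μc) := by
    have hm : AEStronglyMeasurable (fun p : ℝ × GL (Fin 2) ℂ => ∫ β, f p.2 p.1 β ∂νβ)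
        (να.prod μc) :=
      (hfc.aestronglyMeasurable (μ := (να.prod μc).prod νβ)).integral_prod_right'
    have hS : MeasurableSet ((Set.univ : Set ℝ) ×ˢ Kc) := MeasurableSet.univ.prod hKm
    have hfin : (να.prod μc) ((Set.univ : Set ℝ) ×ˢ Kc) < ⊤ := by
      rw [Measure.prod_prod]
      exact ENNReal.mul_lt_top (measure_lt_top _ _) hKcomp.measure_lt_top
    have hg : Integrable (((Set.univ : Set ℝ) ×ˢ Kc).indicator
        fun _ => (MA * MB * (νβ Set.univ).toReal : ℝ)) (να.prod μc) :=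
      (integrable_indicator_iff hS).2 (integrableOn_const hfin.ne)
    refine hg.mono' hm (Filter.Eventually.of_forall fun q => ?_)
    obtain ⟨α, h⟩ := q
    show ‖∫ β, f h α β ∂νβ‖ ≤ _
    by_cases hh : h ∈ Kc
    · rw [Set.indicator_of_mem (Set.mk_mem_prod (Set.mem_univ α) hh)]
      have := norm_integral_le_of_norm_le_const (μ := νβ) (f := fun β => f h α β)
        (C := MA * MB) (Filter.Eventually.of_forall fun β => hfb h α β)
      simpa [Measure.real] using this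
    · have h0 : (fun β => f h α β) = fun _ => (0 : ℂ) := funext fun β => hf0 h α β hh
      rw [h0, integral_zero, norm_zero]
      exact Set.indicator_nonneg
        (fun _ _ => mul_nonneg (mul_nonneg hMA0 hMB0) ENNReal.toReal_nonneg) _
  -- assembling
  have hπ : (0 : ℝ) ≤ Real.pi := Real.pi_pos.le
  have h2π : (0 : ℝ) ≤ 2 * Real.pi := by positivity
  show (∫ α in (0 : ℝ)..(2 * Real.pi), ∫ β in (0 : ℝ)..Real.pi,
      (∫ h, A h * B (h⁻¹ * (g * y α β)) ∂μc) * ((Real.sin β : ℝ) : ℂ))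
    = ∫ h, A h * (∫ α in (0 : ℝ)..(2 * Real.pi), ∫ β in (0 : ℝ)..Real.pi,
        B (h⁻¹ * g * y α β) * ((Real.sin β : ℝ) : ℂ)) ∂μc
  have hL : (∫ α in (0 : ℝ)..(2 * Real.pi), ∫ β in (0 : ℝ)..Real.pi,
      (∫ h, A h * B (h⁻¹ * (g * y α β)) ∂μc) * ((Real.sin β : ℝ) : ℂ))
      = ∫ α, ∫ β, ∫ h, f h α β ∂μc ∂νβ ∂να := by
    rw [intervalIntegral.integral_of_le h2π]
    refine integral_congr_ae (Filter.Eventually.of_forall fun α => ?_)
    show (∫ β in (0 : ℝ)..Real.pi,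
      (∫ h, A h * B (h⁻¹ * (g * y α β)) ∂μc) * ((Real.sin β : ℝ) : ℂ)) = _
    rw [intervalIntegral.integral_of_le hπ]
    refine integral_congr_ae (Filter.Eventually.of_forall fun β => ?_)
    show (∫ h, A h * B (h⁻¹ * (g * y α β)) ∂μc) * ((Real.sin β : ℝ) : ℂ) = ∫ h, f h α β ∂μc
    rw [← integral_mul_const]
  have hR : (∫ h, A h * (∫ α in (0 : ℝ)..(2 * Real.pi), ∫ β in (0 : ℝ)..Real.pi,
        B (h⁻¹ * g * y α β) * ((Real.sin β : ℝ) : ℂ)) ∂μc)
      = ∫ h, ∫ α, ∫ β, f h α β ∂νβ ∂να ∂μc := by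
    refine integral_congr_ae (Filter.Eventually.of_forall fun h => ?_)
    show A h * (∫ α in (0 : ℝ)..(2 * Real.pi), ∫ β in (0 : ℝ)..Real.pi,
        B (h⁻¹ * g * y α β) * ((Real.sin β : ℝ) : ℂ)) = ∫ α, ∫ β, f h α β ∂νβ ∂να
    rw [intervalIntegral.integral_of_le h2π, ← integral_const_mul]
    refine integral_congr_ae (Filter.Eventually.of_forall fun α => ?_)
    show A h * (∫ β in (0 : ℝ)..Real.pi,
        B (h⁻¹ * g * y α β) * ((Real.sin β : ℝ) : ℂ)) = ∫ β, f h α β ∂νβ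
    rw [intervalIntegral.integral_of_le hπ, ← integral_const_mul]
    refine integral_congr_ae (Filter.Eventually.of_forall fun β => ?_)
    show A h * (B (h⁻¹ * g * y α β) * ((Real.sin β : ℝ) : ℂ))
      = A h * B (h⁻¹ * (g * y α β)) * ((Real.sin β : ℝ) : ℂ)
    rw [mul_assoc h⁻¹ g, mul_assoc]
  rw [hL, hR]
  have hs1 : ∀ α : ℝ, (∫ β, ∫ h, f h α β ∂μc ∂νβ) = ∫ h, ∫ β, f h α β ∂νβ ∂μc := fun α =>
    integral_integral_swap (hint1 α)
  simp only [hs1]
  exact integral_integral_swap hint2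

end Fubini

end Fermat.Agent.LT.T7.H266

end

end
-- ===== PACK-END LT/T7/H266/SphFubini.lean

-- ===== PACK-BEGIN LT/T3/H830/ActsSph.lean
section




/-!
# Row LT, quadratic step `F/ℚ`: THE SCALARS of the test functions on the eigenfunctions
# ARE THE SPHERICAL TRANSFORMS; base change `s ↦ 2 s` of the scalars (helper830, deputy F/Q)

OFF-MAIN.  PROVED, UNCONDITIONAL, no hole, nothing assumed.  ADDITIVE (new names, suffix `830`).
Vocabulary: `LT/T3/R/Spec.lean` (`R.ActsOnR`, `R.locClassR`), `LT/T3/M/GenSpec.lean`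
(`M.ActsByMean`, `M.IsLocMean`), `LT/T6/SpecArch.lean` (`sphRad`, `sphC`, `sphTransR`,
`sphTransC`); inputs: `R.H96.actsOnR96`, `M.H96.actsByMean96` (helper96: the scalars as
integrals), `archWire830`.  Byte-identical copies.

* `actsOnR_sph830` (real place): a test function `F` of weight `n` acts on the joint
  eigenfunctions of the circle means with eigenvalue function `t ↦ sphRad n s (cosh t)`
  (class `R.locClassR n _`) by the scalar `sphTransR μ n F s`.
* `actsByMean_sph830` (complex place): a bi-`U(2)`-invariant `φ` acts on the eigenfunctions of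
  the sphere means with eigenvalue function `d ↦ 4π sphC ν (cosh d)` by `sphTransC μ' φ ν`.
* `scalarBC830` (BASE CHANGE OF THE SCALARS): with the constants `c`, `c₀`, `c₁` of
  `archWire830`: if `φ` has the `N`-integral `β'` and `f₀`, `f₁` have the `N`-integral
  `half830 c β'`, then for every `s` the scalars of `f₀`, `f₁` on the classes of parameter `s`
  (weights `0`, `n`) are `c₀`, `c₁` times the scalar of `φ` on the class of parameter `2 s`.
  These are the eigenvalue functions of `L2Q.IsBCDataQ` (`c.m = 2π sphRad n s ∘ cosh`,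
  `Ĉ.m = 4π sphC (2 s) ∘ cosh`): the clause `op_down` of `L2Q.IsL2QData` at the real place.
-/

set_option autoImplicit false
set_option linter.style.haveILetI false

open MeasureTheory
open Fermat.Agent.LT.T6 Fermat.Agent.LT.T6.H830 Fermat.Agent.LT.T6.H131
open Fermat.Agent.LT.T6.H162 Fermat.Agent.LT.T6.H543

noncomputable section

namespace Fermat.Agent.LT.T3.H830

open Fermat.Agent.LT.T3.AS Fermat.Agent.LT.T3.R Fermat.Agent.LT.T3.M

/-! ## Values at the origin -/

theorem sphR0_one830 (s : ℂ) : sphR0 s 1 = 1 := by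
  unfold sphR0
  have h : ∀ u : ℝ, ((1 - Real.cos u * Real.sqrt ((1 : ℝ) ^ 2 - 1) : ℝ) : ℂ) ^ (-s - 1 / 2)
      = 1 := by
    intro u
    simp
  simp_rw [h]
  rw [intervalIntegral.integral_const]
  have hpi : (Real.pi : ℂ) ≠ 0 := by exact_mod_cast Real.pi_ne_zero
  simp only [sub_zero, Complex.real_smul, mul_one]
  push_cast
  field_simp

theorem sphR1_one830 (s : ℂ) : sphR1 s 1 = 1 := by
  unfold sphR1
  have h : ∀ u : ℝ,
      ((Real.sqrt (((1 : ℝ) + 1) / 2) - Real.cos u * Real.sqrt (((1 : ℝ) - 1) / 2) : ℝ) : ℂ) *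
        ((1 - Real.cos u * Real.sqrt ((1 : ℝ) ^ 2 - 1) : ℝ) : ℂ) ^ (-s - 1) = 1 := by
    intro u
    simp
  simp_rw [h]
  rw [intervalIntegral.integral_const]
  have hpi : (Real.pi : ℂ) ≠ 0 := by exact_mod_cast Real.pi_ne_zero
  simp only [sub_zero, Complex.real_smul, mul_one]
  push_cast
  field_simp

theorem sphRad_one830 (n : ℤ) (s : ℂ) : sphRad n s 1 = 1 := by
  unfold sphRad
  split_ifs
  · exact sphR0_one830 s
  · exact sphR1_one830 s

theorem sphC_one830 (ν : ℂ) : sphC ν 1 = 1 := by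
  unfold sphC
  have h : ∀ x : ℝ, ((1 + x * Real.sqrt ((1 : ℝ) ^ 2 - 1) : ℝ) : ℂ) ^ (-1 - ν) = 1 := by
    intro x
    simp
  simp_rw [h]
  rw [intervalIntegral.integral_const]
  simp only [Complex.real_smul, mul_one]
  push_cast
  norm_num

/-! ## The real place -/

/-- The eigenvalue function of parameter `s` and weight `n`. -/
def mSphR830 (n : ℤ) (s : ℂ) : ℝ → ℂ := fun t => sphRad n s (Real.cosh t)

theorem mT_sph830 (n : ℤ) (s : ℂ) (t : ℝ) :
    R.H96.mT96 (mSphR830 n s) t = sphRad n s (Real.cosh t) := by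
  unfold R.H96.mT96
  split_ifs with h
  · rw [h, Real.cosh_zero, sphRad_one830]
  · rfl

theorem sphFn_cartan830 (n : ℤ) (s : ℂ) (α β ζ t : ℝ) :
    sphFn n s (rotR α * bR ζ t 0 * rotR β)
      = wtChar n (rotR α) * wtChar n (rotR β) * R.H96.mT96 (mSphR830 n s) t := by
  unfold sphFn
  rw [wtPhase_cartan162, rhoR_cartan162, mT_sph830, wtChar_rotR_h131, wtChar_rotR_h131,
    ← Complex.exp_add]
  congr 2
  ring

/-- The function of helper96 is the spherical function. -/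
theorem phiR_eq_sphFn830 (n : ℤ) (s : ℂ) (h : GL (Fin 2) ℝ)
    (hd : 0 < (h : Matrix (Fin 2) (Fin 2) ℝ).det) :
    R.H96.phiR96 n (mSphR830 n s) h = sphFn n s h := by
  have hspec := (cartanRC_h543 h hd).choose_spec.choose_spec.choose_spec.choose_spec
  have key := sphFn_cartan830 n s (cartanRC_h543 h hd).choose_spec.choose
    (cartanRC_h543 h hd).choose_spec.choose_spec.choose (cartanRC_h543 h hd).choose
    (cartanRC_h543 h hd).choose_spec.choose_spec.choose_spec.choose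
  rw [← hspec.2] at key
  rw [key, R.H96.phiR96, dif_pos hd]

section RealCore

local instance borelGLR830 : MeasurableSpace (GL (Fin 2) ℝ) := borel (GL (Fin 2) ℝ)

/-- **THE SCALAR AT THE REAL PLACE is the spherical transform.** -/
theorem actsOnR_sph830 (μ : Measure (GL (Fin 2) ℝ)) [μ.IsHaarMeasure] (n : ℤ)
    (F : GL (Fin 2) ℝ → ℂ) (hF : IsArchTestR n F) (s : ℂ) :
    ActsOnR μ F (locClassR n (mSphR830 n s)) (sphTransR μ n F s) := by
  have h := R.H96.actsOnR96 μ n F hF (mSphR830 n s)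
  have e : (∫ h in tsupport F, R.H96.phiR96 n (mSphR830 n s) h * F h ∂μ)
      = sphTransR μ n F s := by
    rw [setIntegral_eq_integral_of_forall_compl_eq_zero
      (fun h hh => by rw [image_eq_zero_of_notMem_tsupport hh, mul_zero])]
    unfold sphTransR
    refine integral_congr_ae (Filter.Eventually.of_forall fun y => ?_)
    show R.H96.phiR96 n (mSphR830 n s) y * F y = F y * sphFn n s y
    by_cases hy : F y = 0
    · rw [hy, mul_zero, zero_mul]
    · rw [phiR_eq_sphFn830 n s y (hF.pos y hy), mul_comm]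
  rw [e] at h
  exact h

end RealCore

/-! ## The complex place -/

/-- The eigenvalue function of parameter `ν` at a complex place. -/
def mSphC830 (ν : ℂ) : ℝ → ℂ := fun d => ((4 * Real.pi : ℝ) : ℂ) * sphC ν (Real.cosh d)

theorem chD_eq_rhoC830 (y : GL (Fin 2) ℂ) :
    H614.chD614 (y : Matrix (Fin 2) (Fin 2) ℂ) = rhoC y := by
  unfold H614.chD614 rhoC
  congr 1
  have h1 := H614.hsq614_eq_trace (y : Matrix (Fin 2) (Fin 2) ℂ)
  rw [Matrix.trace_mul_comm] at h1
  rw [← h1, Complex.ofReal_re]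

theorem one_le_rhoC830 (y : GL (Fin 2) ℂ) : 1 ≤ rhoC y := by
  rw [← chD_eq_rhoC830]
  exact H614.one_le_chD614 _ (by
    have := y.isUnit
    exact (Matrix.isUnit_iff_isUnit_det _).1 (Units.isUnit y) |>.ne_zero)

theorem phiM_sph830 (ν : ℂ) (X : ℝ) (hX : 1 ≤ X) :
    M.H96.phiM96 (mSphC830 ν) X = sphC ν X := by
  unfold M.H96.phiM96
  split_ifs with h
  · have : X = 1 := le_antisymm h hX
    rw [this, sphC_one830]
  · unfold mSphC830
    rw [Real.cosh_arcosh hX]
    have hpi : ((4 * Real.pi : ℝ) : ℂ) ≠ 0 := by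
      exact_mod_cast (by positivity : (4 * Real.pi : ℝ) ≠ 0)
    field_simp

section CplxCore

local instance borelGLC830 : MeasurableSpace (GL (Fin 2) ℂ) := borel (GL (Fin 2) ℂ)

/-- **THE SCALAR AT THE COMPLEX PLACE is the spherical transform.** -/
theorem actsByMean_sph830 (μ' : Measure (GL (Fin 2) ℂ)) [μ'.IsHaarMeasure]
    (φ : GL (Fin 2) ℂ → ℂ) (hφ : IsCplxTest φ) (ν : ℂ) :
    ActsByMean μ' φ (mSphC830 ν) (sphTransC μ' φ ν) := by
  have h := M.H96.actsByMean96 μ' φ hφ (mSphC830 ν)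
  have e : (∫ h in tsupport φ,
        M.H96.phiM96 (mSphC830 ν) (H614.chD614 (h : Matrix (Fin 2) (Fin 2) ℂ)) * φ h ∂μ')
      = sphTransC μ' φ ν := by
    rw [setIntegral_eq_integral_of_forall_compl_eq_zero
      (fun h hh => by rw [image_eq_zero_of_notMem_tsupport hh, mul_zero])]
    unfold sphTransC
    refine integral_congr_ae (Filter.Eventually.of_forall fun y => ?_)
    show M.H96.phiM96 (mSphC830 ν) (H614.chD614 (y : Matrix (Fin 2) (Fin 2) ℂ)) * φ y
      = φ y * sphC ν (rhoC y)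
    rw [chD_eq_rhoC830, phiM_sph830 ν _ (_root_.Fermat.Agent.LT.T3.H830.one_le_rhoC830 y), mul_comm]
  rw [e] at h
  exact h

end CplxCore

/-! ## The base change of the scalars -/

/-- A test function of T6 on `GL₂(ℂ)` is a test function of T3. -/
theorem isCplxTest_of830 {φ : GL (Fin 2) ℂ → ℂ} (hφ : IsArchTestC φ) : IsCplxTest φ := by
  refine ⟨hφ.cont, hφ.supp, fun k k' g hk hk' => ?_⟩
  rw [hφ.right k' (k * g) hk', hφ.left k g hk]

section BC

local instance borelGLR830b : MeasurableSpace (GL (Fin 2) ℝ) := borel (GL (Fin 2) ℝ)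

local instance borelGLC830b : MeasurableSpace (GL (Fin 2) ℂ) := borel (GL (Fin 2) ℂ)

/-- **THE BASE CHANGE OF THE SCALARS AT THE REAL PLACE.**  See the header. -/
theorem scalarBC830 (μ : Measure (GL (Fin 2) ℝ)) (μ' : Measure (GL (Fin 2) ℂ))
    [hμ : μ.IsHaarMeasure] [hμ' : μ'.IsHaarMeasure] :
    ∃ c : ℝ, 0 < c ∧ ∀ n : ℤ, n = 1 ∨ n = -1 →
      ∃ c₀ c₁ : ℂ, c₀ ≠ 0 ∧ c₁ ≠ 0 ∧
        ∀ (φ : GL (Fin 2) ℂ → ℂ) (f₀ f₁ : GL (Fin 2) ℝ → ℂ) (β' : ℝ × ℝ → ℂ),
          IsArchTestC φ → IsArchTestR 0 f₀ → IsArchTestR n f₁ → HasAbelN φ β' →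
          R.HasAbelNR f₀ (half830 (c : ℂ) β') → R.HasAbelNR f₁ (half830 (c : ℂ) β') →
            IsArchMatch μ μ' φ (fun g => f₀ g + f₁ g) ∧
            ∀ s : ℂ, ∃ C : ℂ, ActsByMean μ' φ (mSphC830 (2 * s)) C ∧
              ActsOnR μ f₀ (locClassR 0 (mSphR830 0 s)) (c₀ * C) ∧
              ActsOnR μ f₁ (locClassR n (mSphR830 n s)) (c₁ * C) := by
  obtain ⟨c, hc, hw⟩ := archWire830 μ μ' hμ hμ'
  refine ⟨c, hc, fun n hn => ?_⟩
  obtain ⟨c₀, c₁, h0, h1, hall⟩ := hw n hn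
  refine ⟨c₀, c₁, h0, h1, fun φ f₀ f₁ β' hφ hf₀ hf₁ hN hN0 hN1 => ?_⟩
  obtain ⟨hm, hs0, hs1⟩ := hall φ f₀ f₁ β' hφ hf₀ hf₁ hN hN0 hN1
  refine ⟨hm, fun s => ⟨sphTransC μ' φ (2 * s), ?_, ?_, ?_⟩⟩
  · exact actsByMean_sph830 μ' φ (isCplxTest_of830 hφ) (2 * s)
  · rw [← hs0 s]
    exact actsOnR_sph830 μ 0 f₀ hf₀ s
  · rw [← hs1 s]
    exact actsOnR_sph830 μ n f₁ hf₁ s

end BC

end Fermat.Agent.LT.T3.H830

end

end
-- ===== PACK-END LT/T3/H830/ActsSph.lean

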