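import Mathlib
import Fermat.Agent.Pack.LT3.E23L0
import Fermat.Agent.Pack.LT4.E5L0
import Fermat.Agent.Pack.LT4.E6L0
import Fermat.Agent.Pack.LT2.E8L2
import Fermat.Agent.Pack.LT4.E6L2
import Fermat.Agent.Pack.LT3.E29L3
import Fermat.Agent.Pack.LT4.E5L3
import Fermat.Agent.Pack.LT4.E2L1
import Fermat.Agent.Pack.LT4.E5L1
import Fermat.Agent.Pack.LT4.E4L1
import Fermat.Agent.Pack.LT3.E18L2
import Fermat.Agent.Pack.LT3.E21L2
import Fermat.Agent.Pack.LT4.E1L0
import Fermat.Agent.Pack.LT4.E1L3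
import Fermat.Agent.Pack.LT4.E1L2
import Fermat.Agent.Pack.LT4.E1L1
import Fermat.Agent.Pack.LT4.E2L3

set_option linter.all false

-- ===== PACK-BEGIN LT/T7/H826/Level2QClosed.lean
section




/-!
# Row LT, tower T7, quadratic step `F/ℚ`: `SpecIdQC` CLOSED (helper826)

OFF-MAIN.  INTEGRATION (pattern of `T7/H231/Level2Closed.lean`, helper231): byte-identical
copies of the owners' files in ONE closure (bytes of record: origin/helper17).

| item | state |
|---|---|
| `L2Q.GeomQC F` (class bijection over `ℚ`, two types) | CLOSED: `geomQC826` (`GeomQ.lean`) |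
| `L2Q.SpecIdQC F` (spectral identity for matched triples) | CLOSED HERE: `specIdQC_closed826` = `specIdQC_of_towers826` + the closed tower T5 / T4 (`T5.tower_closed`, helper32: every number field, every level `≠ 0`, every `K_∞`-type, so also `ℚ` with the types `1` and `wtOne`) + `T6.NormClassC` (helper981) + `T6.NormInjC` (helper848) |

So the quadratic step is `TraceWordsQRegP P F ⇐ Supply + SpecUp (core) + SpecDown`:
`traceWordsQRegP_of_level2Q826` (plain nodes of `Level2Q.lean`).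
-/

set_option autoImplicit false

open IsDedekindDomain NumberField

noncomputable section

namespace Fermat.Agent.LT.T7.L2Q

open Fermat.Agent.LT Fermat.Agent.LT.T7

/-- **The spectral identity for matched triples over `ℚ` is CLOSED** (unconditional). -/
theorem specIdQC_closed826 (F : Type) [Field F] [NumberField F] : SpecIdQC F :=
  specIdQC_of_towers826 F
    (fun D hD => Fermat.Agent.LT.T7.H32.tower_up32 D hD)
    (fun 𝔫 h𝔫 => T4.tower_closed ℚ 𝔫 T5.trivType h𝔫)
    (fun 𝔫 h𝔫 => T4.tower_closed ℚ 𝔫 wtOne h𝔫)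
    Fermat.Agent.LT.T6.H981.normClassC_h981 Fermat.Agent.LT.T6.H848.normInjC848

/-- The node `TraceWordsQRegP P F` from the three nodes of level 2 over `ℚ` (plain forms). -/
theorem traceWordsQRegP_of_level2Q826 (P : EKCond) (F : Type) [Field F] [NumberField F]
    (hS : SupplyQC P F) (hU : SpecUpQC F) (hD : SpecDownQC F) : TraceWordsQRegP P F :=
  traceWordsQRegP_of hS hU hD (specIdQC_closed826 F)

end Fermat.Agent.LT.T7.L2Q

end

end
-- ===== PACK-END LT/T7/H826/Level2QClosed.lean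

-- ===== PACK-BEGIN LT/T7/H16/DOp.lean
section




/-!
# Row LT, tower T7, node `B981.StepTC981` (cut of helper589, `StepTSpec.lean` f2cef127):
# the leaf ST.6 = D-OP (helper16, OFF-MAIN, never land)

    dOpC589_16 (F) : ST589.DOpC589 F                                       (VERBATIM)

`R(dStep589 v H z d f) χ = satakePow d a b · R(f) χ` for `χ` continuous, right invariant under a
level group prime to `v`, with `IsHeckeEigenAt χ v a b`.

* `integral_mulRight16` : change of variables `y ↦ y c` for the measure of a frame;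
* `rconv_sStep16` : `R(sStep589 z φ) χ = b R(φ) χ`;
* `rconv_tStep16` : `R(tStep589 v H z φ) χ = a R(φ) χ`.  TERM BY TERM: for every `h` of the coset
  system `(z⁻¹ h)⁻¹ = h⁻¹ z = u₁ h u₂` with `u₁, u₂ ∈ GL₂(𝒪_v)` (`exists_localMaxCpt_inv886`,
  helper886: ONE double coset), so `∫ φ(y z⁻¹ h) χ(x y) dy = ∫ φ(y) χ(x y u₁ h u₂) dy
  = ∫ φ(y u₁⁻¹) χ(x y h) dy = ∫ φ(y) χ(x y h) dy`; then the eigen-equation of `χ`.
-/

set_option autoImplicit false
set_option linter.unusedSectionVars false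

open IsDedekindDomain NumberField WithZero MeasureTheory AutomorphicForm

noncomputable section

namespace Fermat.Agent.LT.T7.H16

open Fermat.Agent.LT.H556 Fermat.Agent.LT.H556.A0 Fermat.Agent.LT.H129
open Fermat.Agent.LT.T7 Fermat.Agent.LT.T7.ST589 Fermat.Agent.LT.T7.H340

attribute [local instance] Fermat.Agent.LT.T5.instMeasurableSpaceG

variable {F : Type} [Field F] [NumberField F]

/-! ## 1. Change of variables -/

/-- Change of variables `y ↦ y c` for the measure of a frame. -/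
theorem integral_mulRight16 {μ : Measure (G F)} {D : Set (G F)} (hF : T5.IsFrame μ D)
    (c : G F) (f : G F → ℂ) : ∫ y, f (y * c) ∂μ = ∫ y, f y ∂μ := by
  haveI : BorelSpace (G F) := ⟨rfl⟩
  have hm : Measurable (fun x : G F => x * c) :=
    (continuous_id.mul continuous_const).measurable
  have hmap : Measure.map (⇑(Homeomorph.mulRight c).toMeasurableEquiv) μ = μ := by
    ext A hA
    rw [Measure.map_apply (Homeomorph.mulRight c).toMeasurableEquiv.measurable hA]
    exact hF.right_inv c A hA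
  have h := MeasureTheory.integral_map_equiv (μ := μ)
    (Homeomorph.mulRight c).toMeasurableEquiv f
  rw [hmap] at h
  exact h.symm

/-- `∫ φ(y c) χ(x y) dy = ∫ φ(y) χ(x y c⁻¹) dy`. -/
theorem rconv_translate16 {μ : Measure (G F)} {D : Set (G F)} (hF : T5.IsFrame μ D)
    (c : G F) (φ χ : G F → ℂ) (x : G F) :
    ∫ y, φ (y * c) * χ (x * y) ∂μ = ∫ y, φ y * χ (x * y * c⁻¹) ∂μ := by
  rw [← integral_mulRight16 hF c (fun y => φ y * χ (x * y * c⁻¹))]
  refine integral_congr_ae (Filter.Eventually.of_forall fun y => ?_)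
  show φ (y * c) * χ (x * y) = φ (y * c) * χ (x * (y * c) * c⁻¹)
  have : x * (y * c) * c⁻¹ = x * y := by group
  rw [this]

/-- The integrands of `R(φ) χ` are integrable. -/
theorem integrable_rconv16 {μ : Measure (G F)} {D : Set (G F)} (hF : T5.IsFrame μ D)
    {φ χ : G F → ℂ} (hφc : Continuous φ) (hφs : HasCompactSupport φ) (hχ : Continuous χ)
    {a : G F → G F} (ha : Continuous a) : Integrable (fun y => φ y * χ (a y)) μ := by
  haveI : BorelSpace (G F) := ⟨rfl⟩
  haveI := hF.haar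
  exact (hφc.mul (hχ.comp ha)).integrable_of_hasCompactSupport hφs.mul_right

/-! ## 2. The operators of the steps -/

/-- `R(c φ) χ = c R(φ) χ`. -/
theorem rconv_smul16 (μ : Measure (G F)) (c : ℂ) (φ χ : G F → ℂ) (x : G F) :
    T5.Rconv μ (fun g => c * φ g) χ x = c * T5.Rconv μ φ χ x := by
  show ∫ y, c * φ y * χ (x * y) ∂μ = c * ∫ y, φ y * χ (x * y) ∂μ
  rw [← integral_const_mul]
  refine integral_congr_ae (Filter.Eventually.of_forall fun y => ?_)
  show c * φ y * χ (x * y) = c * (φ y * χ (x * y))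
  ring

/-- `R(φ - ψ) χ = R(φ) χ - R(ψ) χ`. -/
theorem rconv_sub16 {μ : Measure (G F)} {D : Set (G F)} (hF : T5.IsFrame μ D)
    {φ ψ χ : G F → ℂ} (hφc : Continuous φ) (hφs : HasCompactSupport φ) (hψc : Continuous ψ)
    (hψs : HasCompactSupport ψ) (hχ : Continuous χ) (x : G F) :
    T5.Rconv μ (fun g => φ g - ψ g) χ x = T5.Rconv μ φ χ x - T5.Rconv μ ψ χ x := by
  show ∫ y, (φ y - ψ y) * χ (x * y) ∂μ
    = (∫ y, φ y * χ (x * y) ∂μ) - ∫ y, ψ y * χ (x * y) ∂μ
  have h1 := integrable_rconv16 hF hφc hφs hχ (a := fun y => x * y)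
    (continuous_const.mul continuous_id)
  have h2 := integrable_rconv16 hF hψc hψs hχ (a := fun y => x * y)
    (continuous_const.mul continuous_id)
  rw [← integral_sub h1 h2]
  refine integral_congr_ae (Filter.Eventually.of_forall fun y => ?_)
  show (φ y - ψ y) * χ (x * y) = φ y * χ (x * y) - ψ y * χ (x * y)
  ring

/-- `R(sStep589 z φ) χ = b R(φ) χ`. -/
theorem rconv_sStep16 {μ : Measure (G F)} {D : Set (G F)} (hF : T5.IsFrame μ D)
    {v : HeightOneSpectrum (𝓞 F)} {z : G F} (hz : IsScalarUniformizerAt v z)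
    {χ : G F → ℂ} {a b : ℂ} (hχ : IsHeckeEigenAt χ v a b) (φ : G F → ℂ) (x : G F) :
    T5.Rconv μ (sStep589 z φ) χ x = b * T5.Rconv μ φ χ x := by
  show ∫ y, φ (y * z⁻¹) * χ (x * y) ∂μ = b * ∫ y, φ y * χ (x * y) ∂μ
  rw [rconv_translate16 hF z⁻¹ φ χ x, ← integral_const_mul]
  refine integral_congr_ae (Filter.Eventually.of_forall fun y => ?_)
  show φ y * χ (x * y * z⁻¹⁻¹) = b * (φ y * χ (x * y))
  rw [inv_inv, hχ.2 z hz (x * y)]
  ring

/-- TERM BY TERM: `∫ φ(y z⁻¹ h) χ(x y) dy = ∫ φ(y) χ(x y h) dy` for `h` of a coset system. -/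
theorem rconv_term16 {μ : Measure (G F)} {D : Set (G F)} (hF : T5.IsFrame μ D)
    {𝔫 𝔫₀ : Ideal (𝓞 F)} {v : HeightOneSpectrum (𝓞 F)} (hv : ¬ v.asIdeal ∣ 𝔫)
    (hv₀ : ¬ v.asIdeal ∣ 𝔫₀) {H : Finset (G F)} {z : G F} (hH : IsHeckeCosetSystem v H)
    (hz : IsScalarUniformizerAt v z) {φ : G F → ℂ}
    (hφ : ∀ u : G F, InLevelGroup 𝔫 u → ∀ g : G F, φ (g * u) = φ g) {χ : G F → ℂ}
    (hχ : ∀ u : G F, InLevelGroup 𝔫₀ u → ∀ g : G F, χ (g * u) = χ g) (x : G F)
    {h : G F} (hh : h ∈ H) :
    ∫ y, φ (y * z⁻¹ * h) * χ (x * y) ∂μ = ∫ y, φ y * χ (x * y * h) ∂μ := by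
  have hcz : ∀ g : G F, g * z = z * g := central_scalar16 hz
  obtain ⟨hl, hi, hd⟩ := hH.2.1 h hh
  obtain ⟨u₁, u₂, hu₁, hu₂, e⟩ := Fermat.Agent.LT.H886.exists_localMaxCpt_inv886 hl hi hd hl hi hd hz
  have hu₁' : InLevelGroup 𝔫 u₁ := inLevelGroup_of_localMaxCpt129 hv hu₁
  have hu₂' : InLevelGroup 𝔫₀ u₂ := inLevelGroup_of_localMaxCpt129 hv₀ hu₂
  have e' : (z⁻¹ * h)⁻¹ = u₁ * h * u₂ := by
    calc (z⁻¹ * h)⁻¹ = h⁻¹ * z := by rw [mul_inv_rev, inv_inv]
      _ = u₁ * (z⁻¹ * h) * u₂ * z := by rw [e]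
      _ = z * (u₁ * (z⁻¹ * h) * u₂) := hcz _
      _ = z * u₁ * (z⁻¹ * h * u₂) := by group
      _ = u₁ * z * (z⁻¹ * h * u₂) := by rw [hcz u₁]
      _ = u₁ * h * u₂ := by group
  have s1 : ∫ y, φ (y * z⁻¹ * h) * χ (x * y) ∂μ
      = ∫ y, φ y * χ (x * y * (z⁻¹ * h)⁻¹) ∂μ := by
    rw [← rconv_translate16 hF (z⁻¹ * h) φ χ x]
    refine integral_congr_ae (Filter.Eventually.of_forall fun y => ?_)
    show φ (y * z⁻¹ * h) * χ (x * y) = φ (y * (z⁻¹ * h)) * χ (x * y)
    rw [mul_assoc]
  have s2 : ∫ y, φ y * χ (x * y * (z⁻¹ * h)⁻¹) ∂μ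
      = ∫ y, (fun y' => φ (y' * u₁⁻¹) * χ (x * y' * h)) (y * u₁) ∂μ := by
    refine integral_congr_ae (Filter.Eventually.of_forall fun y => ?_)
    show φ y * χ (x * y * (z⁻¹ * h)⁻¹) = φ (y * u₁ * u₁⁻¹) * χ (x * (y * u₁) * h)
    have a1 : x * y * (z⁻¹ * h)⁻¹ = x * (y * u₁) * h * u₂ := by
      rw [e']
      group
    have a2 : y * u₁ * u₁⁻¹ = y := by group
    rw [a1, a2, hχ u₂ hu₂' _]
  have s3 : ∫ y, φ (y * u₁⁻¹) * χ (x * y * h) ∂μ = ∫ y, φ y * χ (x * y * h) ∂μ := by
    refine integral_congr_ae (Filter.Eventually.of_forall fun y => ?_)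
    show φ (y * u₁⁻¹) * χ (x * y * h) = φ y * χ (x * y * h)
    have a3 : φ (y * u₁⁻¹) = φ y := by
      have := hφ u₁ hu₁' (y * u₁⁻¹)
      rw [inv_mul_cancel_right] at this
      exact this.symm
    rw [a3]
  rw [s1, s2, integral_mulRight16 hF u₁ (fun y' => φ (y' * u₁⁻¹) * χ (x * y' * h)), s3]

/-- `√q_v ≠ 0`. -/
theorem sqrt_absNorm_ne_zero16 (v : HeightOneSpectrum (𝓞 F)) :
    ((Real.sqrt (Ideal.absNorm v.asIdeal : ℝ) : ℝ) : ℂ) ≠ 0 := by
  have h0 : Ideal.absNorm v.asIdeal ≠ 0 := by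
    rw [ne_eq, Ideal.absNorm_eq_zero_iff]
    exact v.ne_bot
  have h1 : (0 : ℝ) < (Ideal.absNorm v.asIdeal : ℝ) := by
    exact_mod_cast Nat.pos_of_ne_zero h0
  exact Complex.ofReal_ne_zero.2 (Real.sqrt_pos.2 h1).ne'

/-- `R(tStep589 v H z φ) χ = a R(φ) χ`. -/
theorem rconv_tStep16 {μ : Measure (G F)} {D : Set (G F)} (hF : T5.IsFrame μ D)
    {𝔫 𝔫₀ : Ideal (𝓞 F)} {v : HeightOneSpectrum (𝓞 F)} (hv : ¬ v.asIdeal ∣ 𝔫)
    (hv₀ : ¬ v.asIdeal ∣ 𝔫₀) {H : Finset (G F)} {z : G F} (hH : IsHeckeCosetSystem v H)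
    (hz : IsScalarUniformizerAt v z) {φ : G F → ℂ} (hφc : Continuous φ)
    (hφs : HasCompactSupport φ)
    (hφ : ∀ u : G F, InLevelGroup 𝔫 u → ∀ g : G F, φ (g * u) = φ g) {χ : G F → ℂ} {a b : ℂ}
    (hχc : Continuous χ)
    (hχ : ∀ u : G F, InLevelGroup 𝔫₀ u → ∀ g : G F, χ (g * u) = χ g)
    (hχe : IsHeckeEigenAt χ v a b) (x : G F) :
    T5.Rconv μ (tStep589 v H z φ) χ x = a * T5.Rconv μ φ χ x := by
  set c : ℂ := ((Real.sqrt (Ideal.absNorm v.asIdeal : ℝ) : ℝ) : ℂ) with hc
  have hc0 : c ≠ 0 := sqrt_absNorm_ne_zero16 v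
  show ∫ y, (c⁻¹ * ∑ h ∈ H, φ (y * z⁻¹ * h)) * χ (x * y) ∂μ = a * ∫ y, φ y * χ (x * y) ∂μ
  have i1 : ∀ h ∈ H, Integrable (fun y => φ (y * z⁻¹ * h) * χ (x * y)) μ := by
    intro h _
    exact integrable_rconv16 hF (φ := fun y => φ (y * z⁻¹ * h))
      (hφc.comp ((continuous_id.mul continuous_const).mul continuous_const))
      (hφs.comp_homeomorph ((Homeomorph.mulRight z⁻¹).trans (Homeomorph.mulRight h))) hχc
      (a := fun y => x * y) (continuous_const.mul continuous_id)
  have i2 : ∀ h ∈ H, Integrable (fun y => φ y * χ (x * y * h)) μ := by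
    intro h _
    exact integrable_rconv16 hF hφc hφs hχc (a := fun y => x * y * h)
      ((continuous_const.mul continuous_id).mul continuous_const)
  have e1 : ∫ y, (c⁻¹ * ∑ h ∈ H, φ (y * z⁻¹ * h)) * χ (x * y) ∂μ
      = c⁻¹ * ∑ h ∈ H, ∫ y, φ (y * z⁻¹ * h) * χ (x * y) ∂μ := by
    rw [← integral_finsetSum H i1, ← integral_const_mul]
    refine integral_congr_ae (Filter.Eventually.of_forall fun y => ?_)
    show (c⁻¹ * ∑ h ∈ H, φ (y * z⁻¹ * h)) * χ (x * y)
      = c⁻¹ * ∑ h ∈ H, φ (y * z⁻¹ * h) * χ (x * y)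
    rw [mul_assoc, Finset.sum_mul]
  have e2 : ∑ h ∈ H, ∫ y, φ (y * z⁻¹ * h) * χ (x * y) ∂μ
      = ∑ h ∈ H, ∫ y, φ y * χ (x * y * h) ∂μ :=
    Finset.sum_congr rfl fun h hh => rconv_term16 hF hv hv₀ hH hz hφ hχ x hh
  have e3 : ∑ h ∈ H, ∫ y, φ y * χ (x * y * h) ∂μ
      = c * a * ∫ y, φ y * χ (x * y) ∂μ := by
    rw [← integral_finsetSum H i2, ← integral_const_mul]
    refine integral_congr_ae (Filter.Eventually.of_forall fun y => ?_)
    show ∑ h ∈ H, φ y * χ (x * y * h) = c * a * (φ y * χ (x * y))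
    rw [← Finset.mul_sum, hχe.1 H hH (x * y)]
    ring
  rw [e1, e2, e3]
  field_simp

/-! ## 3. The leaf -/

/-- **LEAF ST.6 = D-OP**, VERBATIM. -/
theorem dOpC589_16 (F : Type) [Field F] [NumberField F] : DOpC589 F := by
  intro R hR 𝔫 𝔫₀ hle v hv H z hH hz f hf hfd χ a b hχc hχinv hχe d x
  have hF := hR.frame
  have hv₀ : ¬ v.asIdeal ∣ 𝔫₀ := by
    intro h
    apply hv
    rw [Ideal.dvd_iff_le] at h ⊢
    exact le_trans hle h
  have hT : ∀ (φ : G F → ℂ), T5.IsTestFn 𝔫 T5.trivType φ → ∀ x : G F,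
      T5.Rconv R.μ (tStep589 v H z φ) χ x = a * T5.Rconv R.μ φ χ x := fun φ hφ x =>
    rconv_tStep16 hF hv hv₀ hH hz hφ.cont hφ.supp hφ.inv.level_right hχc hχinv hχe x
  have key : ∀ d : ℕ,
      (∀ x : G F, T5.Rconv R.μ (dStep589 v H z d f) χ x
        = satakePow d a b * T5.Rconv R.μ f χ x) ∧
      ∀ x : G F, T5.Rconv R.μ (dStep589 v H z (d + 1) f) χ x
        = satakePow (d + 1) a b * T5.Rconv R.μ f χ x := by
    intro d
    induction d with
    | zero =>
      refine ⟨fun x => ?_, fun x => ?_⟩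
      · exact rconv_smul16 R.μ 2 f χ x
      · exact hT f hf x
    | succ d ih =>
      refine ⟨ih.2, fun x => ?_⟩
      have ht := isTestFn_tStep16 hv hH hz (hfd (d + 1))
      have hs := isTestFn_sStep16 hz (hfd d)
      have e := rconv_sub16 hF ht.cont ht.supp hs.cont hs.supp hχc x
      show T5.Rconv R.μ (fun g => tStep589 v H z (dStep589 v H z (d + 1) f) g
        - sStep589 z (dStep589 v H z d f) g) χ x = _
      rw [e, hT _ (hfd (d + 1)) x, rconv_sStep16 hF hz hχe _ x, ih.2 x, ih.1 x,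
        satakePow_add_two]
      ring
  exact (key d).1 x

end Fermat.Agent.LT.T7.H16

end

end
-- ===== PACK-END LT/T7/H16/DOp.lean

-- ===== PACK-BEGIN LT/T7/H869/RegA.lean
section




/-!
# Row LT, tower T7, leaf T7.L2.1.H2b.G2.5 `RegAC51` (registry row 2937, helper869): ASSEMBLY

OFF-MAIN.  New names only (suffix `869`).  No hole, nothing assumed.

    regAC_of869 : P51.LevelAtC51 K K' → H893.SphInvC893 K → H893.SphInvC893 K' → P51.UnitRegC51
        → P51.RegAC51 K K'                                                      (VERBATIM)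

The components of the shape `LocA893` are the unit functions at the places of the level
(`UnitRegC51`), spherical functions outside the level, where the exponents of the levels
vanish (`LevelAtC51`, `SphInvC893`), and the clauses `arch_up`, `arch_down` of `LocHyp305` at
the infinite places.
-/

set_option autoImplicit false

open AutomorphicForm IsDedekindDomain NumberField MeasureTheory

noncomputable section

namespace Fermat.Agent.LT.T7.H869

open Fermat.Agent.LT.H556 Fermat.Agent.LT.H556.A0 Fermat.Agent.LT.T7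
open Fermat.Agent.LT.T7.H305 Fermat.Agent.LT.T7.H893 Fermat.Agent.LT.T7.P51

variable (K K' : Type) [Field K] [NumberField K] [Field K'] [NumberField K'] [Algebra K K']

/-- **`RegAC51` from the level bookkeeping and the local regularity of the unit and of the
spherical functions.** -/
theorem regAC_of869 (hL : LevelAtC51 K K') (hS : SphInvC893 K) (hS' : SphInvC893 K')
    (hU : UnitRegC51) : RegAC51 K K' := by
  intro ℓ Φ B g 𝔫 μc T₀ n n₀ m hctx T φ₀ Φ' f₀ F _hT hA
  obtain ⟨hunit_dn, hunit_up, hsph, harch⟩ := hA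
  have hlev := hL 𝔫 T₀ n m hctx.mem_T₀ hctx.lev_m hctx.lev_n
  refine ⟨?_, ?_, ?_⟩
  · intro v hv
    by_cases hv0 : v ∈ T₀
    · refine ⟨fun w hw => ?_, ?_⟩
      · rw [hunit_up v hv0 w hw]
        exact hU (w.adicCompletion K') (n w)
      · rw [hunit_dn v hv0]
        exact hU (v.adicCompletion K) (m v)
    · obtain ⟨A, Av, hf, hφ, -, -⟩ := hsph v hv hv0
      refine ⟨fun w hw => ?_, ?_⟩
      · rw [hlev.2 v w hv0 hw]
        exact hS' w (φ₀ w) (A w) (hφ w hw)
      · rw [hlev.1 v hv0]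
        exact hS v (f₀ v) Av hf
  · intro w
    exact ⟨(harch.1.arch_up w).1, (harch.1.arch_up w).2.1⟩
  · intro v
    exact ⟨(harch.1.arch_down v).1, (harch.1.arch_down v).2.1⟩

end Fermat.Agent.LT.T7.H869

end

end
-- ===== PACK-END LT/T7/H869/RegA.lean

-- ===== PACK-BEGIN LT/T7/H869/UnitReg.lean
section



/-!
# Row LT, tower T7: the unit function `1_{U(n)}` is regular (helper869; used by `RegA.lean`)

OFF-MAIN.  New names only (suffix `869`).
-/

set_option autoImplicit false

open AutomorphicForm IsDedekindDomain NumberField MeasureTheory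

noncomputable section

namespace Fermat.Agent.LT.T7.H869

open Fermat.Agent.LT.H556 Fermat.Agent.LT.H556.A0 Fermat.Agent.LT.T7
open Fermat.Agent.LT.T7.H305 Fermat.Agent.LT.T7.H893 Fermat.Agent.LT.T7.P51

section Local

variable {k : Type} [Field k] [Valued k T6.Γ₀]

/-- The entries of `M` have valuation at most `e`. -/
def EntLe869 (e : T6.Γ₀) (M : Matrix (Fin 2) (Fin 2) k) : Prop :=
  ∀ i j : Fin 2, Valued.v (M i j) ≤ e

theorem entLe_add869 {e : T6.Γ₀} {M N : Matrix (Fin 2) (Fin 2) k} (hM : EntLe869 e M)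
    (hN : EntLe869 e N) : EntLe869 e (M + N) := by
  intro i j
  rw [Matrix.add_apply]
  exact (Valued.v.map_add _ _).trans (max_le (hM i j) (hN i j))

theorem entLe_mul869 {e : T6.Γ₀} (he : e ≤ 1) {M N : Matrix (Fin 2) (Fin 2) k}
    (hM : EntLe869 e M) (hN : EntLe869 e N) : EntLe869 e (M * N) := by
  intro i j
  rw [Matrix.mul_apply, Fin.sum_univ_two]
  have h : ∀ l : Fin 2, Valued.v (M i l * N l j) ≤ e := by
    intro l
    rw [map_mul]
    calc Valued.v (M i l) * Valued.v (N l j) ≤ e * 1 :=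
          mul_le_mul' (hM i l) ((hN l j).trans he)
      _ = e := mul_one e
  exact (Valued.v.map_add _ _).trans (max_le (h 0) (h 1))

theorem inU_iff869 (n : ℕ) (g : GL (Fin 2) k) :
    T6.InU n g ↔ EntLe869 (WithZero.exp (-(n : ℤ)))
        ((g : Matrix (Fin 2) (Fin 2) k) - 1) ∧
      EntLe869 (WithZero.exp (-(n : ℤ)))
        (((g⁻¹ : GL (Fin 2) k) : Matrix (Fin 2) (Fin 2) k) - 1) := by
  constructor
  · intro h
    exact ⟨fun i j => by rw [Matrix.sub_apply]; exact (h i j).1,
      fun i j => by rw [Matrix.sub_apply]; exact (h i j).2⟩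
  · intro h i j
    have h1 := h.1 i j
    have h2 := h.2 i j
    rw [Matrix.sub_apply] at h1 h2
    exact ⟨h1, h2⟩

theorem exp_neg_le_one869 (n : ℕ) : (WithZero.exp (-(n : ℤ)) : T6.Γ₀) ≤ 1 := by
  rw [← WithZero.exp_zero, WithZero.exp_le_exp]
  omega

theorem inU_one869 (n : ℕ) : T6.InU n (1 : GL (Fin 2) k) := by
  rw [inU_iff869]
  constructor <;> intro i j <;> simp

theorem inU_inv869 {n : ℕ} {g : GL (Fin 2) k} (h : T6.InU n g) : T6.InU n g⁻¹ := by
  intro i j
  rw [inv_inv]
  exact ⟨(h i j).2, (h i j).1⟩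

theorem entLe_mul_sub_one869 {e : T6.Γ₀} (he : e ≤ 1) {A B : Matrix (Fin 2) (Fin 2) k}
    (hA : EntLe869 e (A - 1)) (hB : EntLe869 e (B - 1)) : EntLe869 e (A * B - 1) := by
  have : A * B - 1 = (A - 1) * (B - 1) + ((A - 1) + (B - 1)) := by
    noncomm_ring
  rw [this]
  exact entLe_add869 (entLe_mul869 he hA hB) (entLe_add869 hA hB)

theorem inU_mul869 {n : ℕ} {g h : GL (Fin 2) k} (hg : T6.InU n g) (hh : T6.InU n h) :
    T6.InU n (g * h) := by
  rw [inU_iff869] at hg hh ⊢
  refine ⟨?_, ?_⟩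
  · rw [Units.val_mul]
    exact entLe_mul_sub_one869 (exp_neg_le_one869 n) hg.1 hh.1
  · rw [mul_inv_rev, Units.val_mul]
    exact entLe_mul_sub_one869 (exp_neg_le_one869 n) hh.2 hg.2

theorem inU_mul_iff_left869 {n : ℕ} {u g : GL (Fin 2) k} (hu : T6.InU n u) :
    T6.InU n (u * g) ↔ T6.InU n g := by
  constructor
  · intro h
    have := inU_mul869 (inU_inv869 hu) h
    rwa [inv_mul_cancel_left] at this
  · exact inU_mul869 hu

theorem inU_mul_iff_right869 {n : ℕ} {u g : GL (Fin 2) k} (hu : T6.InU n u) :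
    T6.InU n (g * u) ↔ T6.InU n g := by
  constructor
  · intro h
    have := inU_mul869 h (inU_inv869 hu)
    rwa [mul_inv_cancel_right] at this
  · exact fun h => inU_mul869 h hu

end Local

/-- **LEAF P.G2.10 `UnitRegC51`** (spare proof, used for the plug of `RegAC51`). -/
theorem unitRegC869 : UnitRegC51 := by
  intro k _ _ n
  refine ⟨?_, ?_⟩
  · intro u u' g hu hu'
    have h : T6.InU n (u * g * u') ↔ T6.InU n g := by
      rw [inU_mul_iff_right869 hu', inU_mul_iff_left869 hu]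
    delta unitFn893
    beta_reduce
    by_cases hg : T6.InU n g
    · rw [if_pos (h.mpr hg), if_pos hg]
    · rw [if_neg (fun h' => hg (h.mp h')), if_neg hg]
  · refine ⟨{1}, fun g hg => ⟨1, Finset.mem_singleton_self 1, g, ?_, (one_mul g).symm⟩⟩
    by_contra h
    apply hg
    delta unitFn893
    beta_reduce
    rw [if_neg h]

end Fermat.Agent.LT.T7.H869

end

end
-- ===== PACK-END LT/T7/H869/UnitReg.lean

-- ===== PACK-BEGIN LT/T7/H547/Dn2Supp.lean
section



/-!
# Row LT, tower T7, leaf T7.L2.1.H2a.4.5.E `Dn2SuppC309` (helper547, registry row 3033)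

OFF-MAIN.  `dn2SuppC547 K K' : H309.Dn2.Dn2SuppC309 K K'` VERBATIM against the byte-identical
copy of `LT/T7/H309/Dn2Spec.lean` (helper309, sha256 2e8b57c8).

`f₂ = c · nat193 a D W`, `W = wsum970 s β (F₁ [])`.

* `W y = ∫ pure305 (T ω) (repDn970 B T₀ b (f₀ ω)) (F ω) y dν` (shape of the first pair, sum and
  integral exchanged, `IsWtDown970.rep`);
* `W y ≠ 0` ⟹ a member does not vanish at `y` ⟹ its component `1_{I_u}` at `u ∈ T₀ ⊆ T ω`
  does not vanish ⟹ `InIwahori u y`;
* `f₂ y ≠ 0` ⟹ `W (y a(t)⁻¹) ≠ 0` for some `t ∈ D`; `a t` is trivial at the finite places;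
* the support: `W` is supported in `⋃_{x ∈ s} x C₁`, `f₂` in the compact set
  `(⋃_{x ∈ s} x C₁) · a(closure D)`.

ADDITIVE (new names only, suffix `547`).  Nothing assumed.
-/

set_option autoImplicit false

open AutomorphicForm IsDedekindDomain NumberField MeasureTheory
open scoped ComplexConjugate

noncomputable section

namespace Fermat.Agent.LT.T7.H547

open Fermat.Agent.LT.H556 Fermat.Agent.LT.H556.A0 Fermat.Agent.LT.T7
open Fermat.Agent.LT.T7.H305 Fermat.Agent.LT.T7.H893 Fermat.Agent.LT.T7.B981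
open Fermat.Agent.LT.T7.B970 Fermat.Agent.LT.T7.H309.Dn2

attribute [local instance] Fermat.Agent.LT.T5.instMeasurableSpaceG

section OneField

variable {K : Type} [Field K] [NumberField K]

/-- The local Iwahori condition on the component gives the global one. -/
theorem inIwahori_of_inIw547 (u : HeightOneSpectrum (𝓞 K)) (y : G K)
    (h : InIw893 (finGL305 u y)) : T5.InIwahori u y := by
  obtain ⟨h1, h2, h3⟩ := h
  refine ⟨fun i j => ?_, fun i j => ?_, h3⟩
  · exact (HeightOneSpectrum.mem_adicCompletionIntegers _ _ _).2 (h1 i j)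
  · have h4 := h2 i j
    rw [← map_inv] at h4
    exact (HeightOneSpectrum.mem_adicCompletionIntegers _ _ _).2 h4

/-- A pure tensor which does not vanish at `h` has non-vanishing components on `T`. -/
theorem comp_ne_zero_of_pure547 {T : Finset (HeightOneSpectrum (𝓞 K))}
    {f₀ : ∀ v : HeightOneSpectrum (𝓞 K), GL (Fin 2) (v.adicCompletion K) → ℂ}
    {F : InfinitePlace K → GL (Fin 2) ℂ → ℂ} {h : G K} (hne : pure305 T f₀ F h ≠ 0)
    {u : HeightOneSpectrum (𝓞 K)} (hu : u ∈ T) : f₀ u (finGL305 u h) ≠ 0 := by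
  intro h0
  apply hne
  unfold pure305
  split_ifs
  · rw [Finset.prod_eq_zero hu h0, zero_mul]
  · rfl

/-- The Iwahori function does not vanish on the Iwahori subgroup only. -/
theorem inIw_of_iwFn_ne_zero547 {k : Type} [Field k] [Valued k (WithZero (Multiplicative ℤ))]
    {x : GL (Fin 2) k} (h : iwFn893 x ≠ 0) : InIw893 x := by
  by_contra hx
  apply h
  unfold iwFn893
  rw [if_neg hx]

/-- The component at a finite place of a right translate by an element which is trivial at the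
finite place. -/
theorem finGL_mul_inv_triv547 (u : HeightOneSpectrum (𝓞 K)) (y z : G K)
    (hz : TrivAtFin u z) : finGL305 u (y * z⁻¹) = finGL305 u y := by
  have h1 : finGL305 u z = 1 := Units.ext hz
  rw [map_mul, map_inv, h1, inv_one, mul_one]

end OneField

section Main

variable (K K' : Type) [Field K] [NumberField K] [Field K'] [NumberField K'] [Algebra K K']

/-- **T7.L2.1.H2a.4.5.E `Dn2SuppC309`, PROVED** (registry row 3033). -/
theorem dn2SuppC547 : Dn2SuppC309 K K' := by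
  intro ℓ Φ B 𝔫 μc T₀ n n₀ m a D a' D' s β b c₁ Φ₁ F₁ hyp c
  obtain ⟨Ω, iT, iC, iT2, iSC, iM, iB, ν, iF, T, T', φ₀, Φa, f₀, F, hloc, -, -, -, hcont, -,
    hsupp, -, hf⟩ := hyp.shape
  obtain ⟨C₁, hC₁, hC₁s⟩ := hsupp
  have hu : B.u ∈ T₀ := (hyp.exp.mem B.u).2 hyp.lvl.u_level
  have hdown := hyp.rel.down
  -- integrability of the members in the parameter
  have hint : ∀ z : G K, Integrable (fun ω : Ω => pure305 (T ω) (f₀ ω) (F ω) z) ν := by
    intro z
    have hc1 : Continuous (fun ω : Ω => (1 : ℂ) * pure305 (T ω) (f₀ ω) (F ω) z) :=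
      hcont.comp (continuous_id.prodMk continuous_const)
    have hc2 : Continuous (fun ω : Ω => pure305 (T ω) (f₀ ω) (F ω) z) := by
      simpa only [one_mul] using hc1
    exact hc2.integrable_of_hasCompactSupport (HasCompactSupport.of_compactSpace _)
  -- `W` as an average of pure tensors
  have hW : ∀ y : G K, wsum970 s β (F₁ []) y
      = ∫ ω, pure305 (T ω) (repDn970 B T₀ b (f₀ ω)) (F ω) y ∂ν := by
    intro y
    have e1 : wsum970 s β (F₁ []) y
        = ∑ x ∈ s, ∫ ω, β x * pure305 (T ω) (f₀ ω) (F ω) (x⁻¹ * y) ∂ν := by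
      unfold wsum970
      refine Finset.sum_congr rfl fun x _ => ?_
      rw [hf (x⁻¹ * y), ← integral_const_mul]
      simp only [one_mul]
    rw [e1, ← integral_finsetSum s (fun x _ => (hint (x⁻¹ * y)).const_mul (β x))]
    refine integral_congr_ae (Filter.Eventually.of_forall fun ω => ?_)
    exact hyp.wt.rep (T ω) (f₀ ω) (F ω) (hloc ω).1 (hloc ω).2.2.1 y
  -- the support of `W` is Iwahori at `u`
  have hWiw : ∀ y : G K, wsum970 s β (F₁ []) y ≠ 0 → InIw893 (finGL305 B.u y) := by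
    intro y hy
    rw [hW y] at hy
    have hex : ∃ ω : Ω, pure305 (T ω) (repDn970 B T₀ b (f₀ ω)) (F ω) y ≠ 0 := by
      by_contra hno
      push Not at hno
      apply hy
      simp only [hno, integral_zero]
    obtain ⟨ω, hω⟩ := hex
    have h1 := comp_ne_zero_of_pure547 hω ((hloc ω).1 hu)
    have h2 : repDn970 B T₀ b (f₀ ω) B.u = iwFn893 := by
      unfold repDn970
      rw [if_pos rfl]
    rw [h2] at h1
    exact inIw_of_iwFn_ne_zero547 h1
  -- the support of `W` is contained in a compact set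
  have hWsupp : ∀ y : G K, wsum970 s β (F₁ []) y ≠ 0 →
      y ∈ ⋃ x ∈ s, (fun h : G K => x * h) '' C₁ := by
    intro y hy
    have hex : ∃ x ∈ s, F₁ [] (x⁻¹ * y) ≠ 0 := by
      by_contra hno
      push Not at hno
      apply hy
      unfold wsum970
      refine Finset.sum_eq_zero fun x hx => ?_
      rw [hno x hx, mul_zero]
    obtain ⟨x, hx, hxy⟩ := hex
    rw [hf (x⁻¹ * y)] at hxy
    have hex2 : ∃ ω : Ω, pure305 (T ω) (f₀ ω) (F ω) (x⁻¹ * y) ≠ 0 := by
      by_contra hno
      push Not at hno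
      apply hxy
      simp only [hno, mul_zero, integral_zero]
    obtain ⟨ω, hω⟩ := hex2
    refine Set.mem_biUnion hx ⟨x⁻¹ * y, hC₁s ω _ hω, ?_⟩
    show x * (x⁻¹ * y) = y
    rw [mul_inv_cancel_left]
  have hC₂ : IsCompact (⋃ x ∈ s, (fun h : G K => x * h) '' C₁) :=
    s.isCompact_biUnion fun x _ => hC₁.image (continuous_const.mul continuous_id)
  have hcl : IsCompact (closure D) := hdown.bdd.isCompact_closure
  have hC₃ : IsCompact ((fun p : G K × (InfinitePlace K → ℝ) => p.1 * a p.2) ''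
      ((⋃ x ∈ s, (fun h : G K => x * h) '' C₁) ×ˢ closure D)) :=
    (hC₂.prod hcl).image (continuous_fst.mul (hdown.cont.comp continuous_snd))
  -- the function `f₂`
  have hf₂ : ∀ y : G K, c * H193.nat193 a D (wsum970 s β (F₁ [])) y ≠ 0 →
      ∃ t ∈ D, wsum970 s β (F₁ []) (y * (a t)⁻¹) ≠ 0 := by
    intro y hy
    by_contra hno
    push Not at hno
    apply hy
    unfold H193.nat193
    rw [setIntegral_congr_fun hdown.meas (g := fun _ => (0 : ℂ)) (fun t ht => hno t ht)]
    simp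
  refine ⟨_, hC₃, fun y hy => ?_⟩
  obtain ⟨t, ht, hyt⟩ := hf₂ y hy
  refine ⟨fun j _ => ?_, y, ?_, T5.H942.agreeOutside_refl942 _ y⟩
  · have h1 := hWiw _ hyt
    rw [finGL_mul_inv_triv547 B.u y (a t) (hdown.fin t B.u)] at h1
    exact inIwahori_of_inIw547 B.u y h1
  · refine ⟨(y * (a t)⁻¹, t), ⟨hWsupp _ hyt, subset_closure ht⟩, ?_⟩
    show y * (a t)⁻¹ * a t = y
    rw [inv_mul_cancel_right]

end Main

end Fermat.Agent.LT.T7.H547

end

end
-- ===== PACK-END LT/T7/H547/Dn2Supp.lean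

-- ===== PACK-BEGIN LT/T7/H861/PlaceT.lean
section



/-!
# Row LT, tower T7, leaf ST.1 `ST589.PlaceC589` (registry row 3001): proof by helper861

OFF-MAIN, additive (new names only, suffix `861`, namespace `Fermat.Agent.LT.T7.H861`).
Spec: `T7/H589/StepTSpec.lean` (helper589, sha256 f2cef127), byte-identical copy.

    placeC861 (K K') : ST589.PlaceC589 K K'                     (VERBATIM, UNCONDITIONAL)

Proof.  `v = w ∩ 𝓞_K` (`Ideal.under_ne_bot`), the residue degree is the inertia degree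
(`Ideal.absNorm_eq_pow_inertiaDeg'_of_liesOver`); `𝔫 ≤ v` gives `𝔫 𝓞_{K'} ≤ w` by `PlaceOver`.
-/

set_option autoImplicit false

open IsDedekindDomain NumberField

namespace Fermat.Agent.LT.T7.H861

section TwoFields

variable {K K' : Type} [Field K] [NumberField K] [Field K'] [NumberField K'] [Algebra K K']

/-- The place of `K` under the place `w` of `K'`. -/
def underT861 (w : HeightOneSpectrum (𝓞 K')) : HeightOneSpectrum (𝓞 K) where
  asIdeal := Ideal.comap (algebraMap (𝓞 K) (𝓞 K')) w.asIdeal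
  isPrime := Ideal.comap_isPrime _ _
  ne_bot := Ideal.under_ne_bot (𝓞 K) w.ne_bot

theorem underT861_asIdeal (w : HeightOneSpectrum (𝓞 K')) :
    (underT861 (K := K) w).asIdeal = Ideal.comap (algebraMap (𝓞 K) (𝓞 K')) w.asIdeal := rfl

theorem placeOver_underT861 (w : HeightOneSpectrum (𝓞 K')) :
    PlaceOver K K' (underT861 (K := K) w) w := by
  intro x y hxy
  have hy : y = algebraMap (𝓞 K) (𝓞 K') x := by
    apply NumberField.RingOfIntegers.ext
    rw [hxy]
    rfl
  subst hy
  exact Ideal.mem_comap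

theorem absNorm_underT861 (w : HeightOneSpectrum (𝓞 K')) :
    ∃ d : ℕ, Ideal.absNorm w.asIdeal = Ideal.absNorm (underT861 (K := K) w).asIdeal ^ d := by
  haveI : w.asIdeal.LiesOver (underT861 (K := K) w).asIdeal := ⟨rfl⟩
  exact ⟨_, Ideal.absNorm_eq_pow_inertiaDeg'_of_liesOver w.asIdeal
    (underT861 (K := K) w).asIdeal (underT861 (K := K) w).isPrime (underT861 (K := K) w).ne_bot⟩

variable (K K')

/-- **LEAF ST.1 `PlaceC589`.** -/
theorem placeC861 : ST589.PlaceC589 K K' := by
  refine ⟨?_, ?_⟩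
  · intro ℓ _ w
    obtain ⟨d, hd⟩ := absNorm_underT861 (K := K) w
    exact ⟨underT861 (K := K) w, d, placeOver_underT861 w, hd⟩
  · intro 𝔫 v w hvw hdvd
    rw [Ideal.dvd_iff_le] at hdvd ⊢
    change Ideal.map (algebraMap (𝓞 K) (𝓞 K')) 𝔫 ≤ w.asIdeal
    rw [Ideal.map_le_iff_le_comap]
    intro x hx
    exact (hvw x (algebraMap (𝓞 K) (𝓞 K') x) rfl).1 (hdvd hx)

end TwoFields

end Fermat.Agent.LT.T7.H861

end
-- ===== PACK-END LT/T7/H861/PlaceT.lean

-- ===== PACK-BEGIN LT/T7/H32/StepSTr.lean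
section



/-!
# Row LT, tower T7, node `B981.StepSC981` (cut of helper503, `T7/B981/H503/StepSSpec.lean`,
# sha256 b4d9e9b9): the four translation leaves, PROVED (helper32, spare)

OFF-MAIN, ADDITIVE.  Verbatim against the frozen Props of helper503:

    trTestC32 K : SS503.TrTestC503 K        trEKC32 K : SS503.TrEKC503 K
    trSuppC32 K : SS503.TrSuppC503 K        trOpC32 K : SS503.TrOpC503 K

from the kit `T5/H32/ShiftKit.lean` (right translates: `Rconv_shift32`, `isEK_shift32`,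
`isEK_adjoint_shift32`, `isIwSupported_shift32`).  General forms (ANY central element, ANY
translating element) are stated first.
-/

set_option autoImplicit false
open IsDedekindDomain NumberField MeasureTheory
open scoped MatrixGroups ComplexConjugate Pointwise
open Fermat.Agent.LT.H556.A0 Fermat.Agent.LT.T5 Fermat.Agent.LT.H942 Fermat.Agent.LT.T5.H942
open Fermat.Agent.LT.T5.H32

noncomputable section
namespace Fermat.Agent.LT.T7.H32

open Fermat.Agent.LT.T7.B981

variable {K : Type} [Field K] [NumberField K]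

attribute [local instance] Fermat.Agent.LT.T5.instMeasurableSpaceG

/-! ## 1. General forms -/

/-- **The right translate of a test function by a CENTRAL element is a test function** (same
level, same type). -/
theorem isTestFn_shift_central32 {𝔫 : Ideal (𝓞 K)} {τ φ : G K → ℂ} (hφ : IsTestFn 𝔫 τ φ)
    {z : G K} (hz : ∀ g : G K, z * g = g * z) : IsTestFn 𝔫 τ (fun g => φ (g * z)) := by
  have hsw : ∀ g u : G K, g * u * z = g * z * u := fun g u => by
    rw [mul_assoc, ← hz u, ← mul_assoc]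
  refine ⟨hφ.ktype, continuous_shift32 hφ.cont z, hasCompactSupport_shift32 hφ.supp z, ?_, ?_⟩
  · intro n h hfin hsm g
    have := hφ.smooth n h hfin hsm (g * z)
    have e : (fun t => φ (g * h t * z)) = fun t => φ (g * z * h t) := by
      funext t
      rw [hsw]
    show ContDiff ℝ _ (fun t => φ (g * h t * z))
    rw [e]
    exact this
  · refine ⟨fun u hu g => ?_, fun u hu g => ?_, fun w k hk g => ?_, fun w k hk g => ?_⟩
    · show φ (g * u * z) = φ (g * z)
      rw [hsw, hφ.inv.level_right u hu]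
    · show φ (u * g * z) = φ (g * z)
      rw [mul_assoc, hφ.inv.level_left u hu]
    · show φ (g * k * z) = (τ k)⁻¹ * φ (g * z)
      rw [hsw, hφ.inv.arch_right w k hk]
    · show φ (k * g * z) = (τ k)⁻¹ * φ (g * z)
      rw [mul_assoc, hφ.inv.arch_left w k hk]

/-- A scalar uniformiser is a scalar matrix of `GL₂(𝔸_K)`. -/
theorem isScalarG_of_uniformizer32 {v : HeightOneSpectrum (𝓞 K)} {z : G K}
    (hz : IsScalarUniformizerAt v z) : IsScalarG942 z := by
  classical
  obtain ⟨⟨hinf, hfin⟩, c, -, hc⟩ := hz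
  refine ⟨(z : Matrix (Fin 2) (Fin 2) (Adl K)) 0 0, ?_⟩
  have hf : ∀ (v' : HeightOneSpectrum (𝓞 K)) (i j : Fin 2),
      ((z : Matrix (Fin 2) (Fin 2) (Adl K)) i j).2 v'
        = (Matrix.diagonal fun _ => ((z : Matrix (Fin 2) (Fin 2) (Adl K)) 0 0).2 v') i j := by
    intro v' i j
    by_cases hv : v' = v
    · subst hv
      have h1 : ∀ i j : Fin 2, ((z : Matrix (Fin 2) (Fin 2) (Adl K)) i j).2 v'
          = (Matrix.diagonal fun _ => c) i j := fun i j => congrFun (congrFun hc i) j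
      rw [h1 i j, h1 0 0, Matrix.diagonal_apply_eq]
    · have h1 : ∀ i j : Fin 2, ((z : Matrix (Fin 2) (Fin 2) (Adl K)) i j).2 v'
          = (1 : Matrix (Fin 2) (Fin 2) (v'.adicCompletion K)) i j :=
        fun i j => congrFun (congrFun (hfin v' hv) i) j
      rw [h1 i j, h1 0 0, Matrix.one_apply_eq]
      by_cases hij : i = j
      · subst hij
        rw [Matrix.one_apply_eq, Matrix.diagonal_apply_eq]
      · rw [Matrix.one_apply_ne hij, Matrix.diagonal_apply_ne _ hij]
  have hi : ∀ (w : InfinitePlace K) (i j : Fin 2),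
      ((z : Matrix (Fin 2) (Fin 2) (Adl K)) i j).1 w
        = (Matrix.diagonal fun _ => ((z : Matrix (Fin 2) (Fin 2) (Adl K)) 0 0).1 w) i j := by
    intro w i j
    rw [hinf w i j, hinf w 0 0, Matrix.one_apply_eq]
    by_cases hij : i = j
    · subst hij
      rw [Matrix.one_apply_eq, Matrix.diagonal_apply_eq]
    · rw [Matrix.one_apply_ne hij, Matrix.diagonal_apply_ne _ hij]
  ext i j
  refine Prod.ext ?_ ?_
  · funext w
    rw [hi w i j]
    by_cases hij : i = j
    · subst hij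
      rw [Matrix.diagonal_apply_eq, Matrix.diagonal_apply_eq]
    · rw [Matrix.diagonal_apply_ne _ hij, Matrix.diagonal_apply_ne _ hij]
      rfl
  · apply RestrictedProduct.ext
    intro v'
    have := hf v' i j
    by_cases hij : i = j
    · subst hij
      rw [Matrix.diagonal_apply_eq] at this ⊢
      exact this
    · rw [Matrix.diagonal_apply_ne _ hij] at this ⊢
      exact this

/-- A scalar uniformiser is central, and so are its powers. -/
theorem uniformizer_zpow_comm32 {v : HeightOneSpectrum (𝓞 K)} {z : G K}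
    (hz : IsScalarUniformizerAt v z) (t : ℤ) (g : G K) : z ^ t * g = g * z ^ t :=
  ((Commute.zpow_left ((isScalarG_of_uniformizer32 hz).commute g : Commute z g)) t).eq

theorem trivAtFin_mul32 {w : HeightOneSpectrum (𝓞 K)} {a b : G K} (ha : TrivAtFin w a)
    (hb : TrivAtFin w b) : TrivAtFin w (a * b) := by
  show finComp w (a * b) = 1
  rw [finComp_mul942, (ha : finComp w a = 1), (hb : finComp w b = 1), one_mul]

theorem trivAtFin_pow32 {w : HeightOneSpectrum (𝓞 K)} {a : G K} (ha : TrivAtFin w a) (n : ℕ) :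
    TrivAtFin w (a ^ n) := by
  induction n with
  | zero =>
    rw [pow_zero]
    exact finComp_one942 w
  | succ n ih =>
    rw [pow_succ]
    exact trivAtFin_mul32 ih ha

theorem trivAtFin_zpow32 {w : HeightOneSpectrum (𝓞 K)} {a : G K} (ha : TrivAtFin w a) (t : ℤ) :
    TrivAtFin w (a ^ t) := by
  cases t with
  | ofNat n =>
    rw [Int.ofNat_eq_natCast, zpow_natCast]
    exact trivAtFin_pow32 ha n
  | negSucc n =>
    rw [zpow_negSucc]
    exact trivAtFin_inv32 (trivAtFin_pow32 ha (n + 1))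

/-- The eigen-equation of the scalar uniformiser, iterated. -/
theorem eigen_pow32 {χ : G K → ℂ} {z : G K} {b : ℂ} (h : ∀ g : G K, χ (g * z) = b * χ g)
    (k : ℕ) (g : G K) : χ (g * z ^ k) = b ^ k * χ g := by
  induction k generalizing g with
  | zero => simp
  | succ k ih =>
    rw [pow_succ, ← mul_assoc, h, ih, pow_succ]
    ring

/-! ## 2. The leaves of helper503, verbatim -/

variable (K)

/-- **LEAF SS.1 `TrTestC503`, VERBATIM.** -/
theorem trTestC32 : SS503.TrTestC503 K := by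
  intro 𝔫 v z hz t φ hφ
  exact isTestFn_shift_central32 hφ (uniformizer_zpow_comm32 hz t)

/-- **LEAF SS.2 `TrEKC503`, VERBATIM.** -/
theorem trEKC32 : SS503.TrEKC503 K := by
  intro μ F hF v z _ t φ
  exact ⟨fun h => isEK_shift32 hF h (z ^ t), fun h => isEK_adjoint_shift32 hF h (z ^ t)⟩

/-- **LEAF SS.3 `TrSuppC503`, VERBATIM.** -/
theorem trSuppC32 : SS503.TrSuppC503 K := by
  intro l o v z hz ho t φ hC
  obtain ⟨C, hCc, hCφ⟩ := hC
  refine ⟨C * {(z ^ t)⁻¹}, hCc.mul isCompact_singleton, ?_⟩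
  exact isIwSupported_shift32 hCφ fun j hj => trivAtFin_zpow32 (hz.1.2 (o j) (ho j hj)) t

/-- **LEAF SS.4 `TrOpC503`, VERBATIM.** -/
theorem trOpC32 : SS503.TrOpC503 K := by
  intro μ F hF χ v a b hχ z hz k φ y
  have hb : ∀ g : G K, χ (g * z) = b * χ g := hχ.2 z hz
  have hpow : ∀ g : G K, χ (g * z ^ k) = b ^ k * χ g := eigen_pow32 hb k
  have hsm : ∀ (c : ℂ) (e : G K → ℂ), Rconv μ φ (fun u => c * e u) y = c * Rconv μ φ e y := by
    intro c e
    unfold Rconv
    rw [← integral_const_mul]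
    congr 1
    funext u
    ring
  constructor
  · show Rconv μ (fun g => φ (g * z ^ (-(k : ℤ)))) χ y = b ^ k * Rconv μ φ χ y
    rw [Rconv_shift32 hF, ← hsm]
    congr 1
    funext u
    rw [zpow_neg, inv_inv, zpow_natCast]
    exact hpow u
  · show Rconv μ (fun g => φ (g * z ^ (k : ℤ))) χ y = (b ^ k)⁻¹ * Rconv μ φ χ y
    rw [Rconv_shift32 hF, ← hsm]
    congr 1
    funext u
    rw [zpow_natCast]
    have h1 : χ u = b ^ k * χ (u * (z ^ k)⁻¹) := by
      have := hpow (u * (z ^ k)⁻¹)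
      rw [inv_mul_cancel_right] at this
      exact this
    by_cases hbk : b ^ k = 0
    · have hu0 : ∀ u' : G K, χ u' = 0 := by
        intro u'
        have := hpow (u' * (z ^ k)⁻¹)
        rw [inv_mul_cancel_right, hbk, zero_mul] at this
        exact this
      rw [hu0, hu0, mul_zero]
    · rw [h1, ← mul_assoc, inv_mul_cancel₀ hbk, one_mul]

end Fermat.Agent.LT.T7.H32

end

end
-- ===== PACK-END LT/T7/H32/StepSTr.lean

-- ===== PACK-BEGIN LT/T7/H32/StepTEk.lean
section



/-!
# Row LT, tower T7, node `B981.StepTC981` (cut of helper589, `T7/H589/StepTSpec.lean`):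
# the leaves ST.4 `DEkC589` and ST.5 `DSuppC589`, PROVED (helper32)

OFF-MAIN, ADDITIVE.  Verbatim against the frozen Props of helper589:

    dEkC32 F   : ST589.DEkC589 F          dSuppC32 F : ST589.DSuppC589 F

from the kit `T5/H32/ShiftKit.lean` (finite linear combinations of right translates).  The
equation lemmas of `ST589.dStep589` are those realised in the Spec (cited, not regenerated).
-/

set_option autoImplicit false
open IsDedekindDomain NumberField MeasureTheory
open scoped MatrixGroups ComplexConjugate Pointwise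
open Fermat.Agent.LT.H556.A0 Fermat.Agent.LT.T5 Fermat.Agent.LT.T5.H32
open Fermat.Agent.LT.H942 Fermat.Agent.LT.T5.H942

noncomputable section
namespace Fermat.Agent.LT.T7.H32

open Fermat.Agent.LT.T7.ST589

variable {F : Type} [Field F] [NumberField F]

attribute [local instance] Fermat.Agent.LT.T5.instMeasurableSpaceG

variable {μ : Measure (G F)} {D : Set (G F)}

/-! ## 1. The steps as linear combinations of right translates -/

theorem tStep_eq32 (v : HeightOneSpectrum (𝓞 F)) (H : Finset (G F)) (z : G F) (ψ : G F → ℂ) :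
    tStep589 v H z ψ = fun g => ∑ h ∈ H,
      ((Real.sqrt (Ideal.absNorm v.asIdeal : ℝ) : ℝ) : ℂ)⁻¹ * ψ (g * (z⁻¹ * h)) := by
  funext g
  show ((Real.sqrt (Ideal.absNorm v.asIdeal : ℝ) : ℝ) : ℂ)⁻¹ * ∑ h ∈ H, ψ (g * z⁻¹ * h) = _
  rw [Finset.mul_sum]
  refine Finset.sum_congr rfl fun h _ => ?_
  rw [mul_assoc]

theorem sStep_eq32 (z : G F) (ψ : G F → ℂ) : sStep589 z ψ = fun g => ψ (g * z⁻¹) := rfl

theorem hasCompactSupport_sum32 {ι : Type} (s : Finset ι) (φ : ι → G F → ℂ)
    (h : ∀ i ∈ s, HasCompactSupport (φ i)) : HasCompactSupport (fun g => ∑ i ∈ s, φ i g) := by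
  classical
  induction s using Finset.induction_on with
  | empty =>
    simp only [Finset.sum_empty]
    exact HasCompactSupport.zero
  | insert a s ha ih =>
    have e : (fun g => ∑ i ∈ insert a s, φ i g) = fun g => φ a g + ∑ i ∈ s, φ i g := by
      funext g
      rw [Finset.sum_insert ha]
    rw [e]
    exact (h a (Finset.mem_insert_self a s)).add
      (ih fun i hi => h i (Finset.mem_insert_of_mem hi))

theorem continuous_tStep32 (v : HeightOneSpectrum (𝓞 F)) (H : Finset (G F)) (z : G F)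
    {ψ : G F → ℂ} (hψ : Continuous ψ) : Continuous (tStep589 v H z ψ) := by
  rw [tStep_eq32]
  exact continuous_finset_sum _ fun h _ =>
    continuous_const.mul (continuous_shift32 hψ (z⁻¹ * h))

theorem hasCompactSupport_tStep32 (v : HeightOneSpectrum (𝓞 F)) (H : Finset (G F)) (z : G F)
    {ψ : G F → ℂ} (hψ : HasCompactSupport ψ) : HasCompactSupport (tStep589 v H z ψ) := by
  rw [tStep_eq32]
  exact hasCompactSupport_sum32 H _ fun h _ => (hasCompactSupport_shift32 hψ (z⁻¹ * h)).mul_left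

/-- A pair: Eisenstein-killing with Eisenstein-killing adjoint, continuous, compact support. -/
def IsEKc32 (μ : Measure (G F)) (ψ : G F → ℂ) : Prop :=
  Continuous ψ ∧ HasCompactSupport ψ ∧ IsEK μ ψ ∧ IsEK μ (adjointFn ψ)

theorem isEKc_tStep32 (hF : IsFrame μ D) (v : HeightOneSpectrum (𝓞 F)) (H : Finset (G F))
    (z : G F) {ψ : G F → ℂ} (hψ : IsEKc32 μ ψ) : IsEKc32 μ (tStep589 v H z ψ) := by
  obtain ⟨hc, hs, h1, h2⟩ := hψ
  refine ⟨continuous_tStep32 v H z hc, hasCompactSupport_tStep32 v H z hs, ?_, ?_⟩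
  · rw [tStep_eq32]
    exact isEK_sum_shift32 hF H _ _ hc hs h1
  · rw [tStep_eq32]
    exact isEK_adjoint_sum_shift32 hF H _ _ hc hs h2

theorem isEKc_sStep32 (hF : IsFrame μ D) (z : G F) {ψ : G F → ℂ} (hψ : IsEKc32 μ ψ) :
    IsEKc32 μ (sStep589 z ψ) := by
  obtain ⟨hc, hs, h1, h2⟩ := hψ
  exact ⟨continuous_shift32 hc z⁻¹, hasCompactSupport_shift32 hs z⁻¹, isEK_shift32 hF h1 z⁻¹,
    isEK_adjoint_shift32 hF h2 z⁻¹⟩

theorem isEKc_smul32 (c : ℂ) {ψ : G F → ℂ} (hψ : IsEKc32 μ ψ) :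
    IsEKc32 μ (fun g => c * ψ g) := by
  obtain ⟨hc, hs, h1, h2⟩ := hψ
  refine ⟨continuous_const.mul hc, hs.mul_left, isEK_smul32 h1 c, ?_⟩
  rw [adjointFn_smul32]
  exact isEK_smul32 h2 _

theorem isEK_sub32 (hF : IsFrame μ D) {a b : G F → ℂ} (hac : Continuous a)
    (has : HasCompactSupport a) (hbc : Continuous b) (hbs : HasCompactSupport b)
    (ha : IsEK μ a) (hb : IsEK μ b) : IsEK μ (fun g => a g - b g) := by
  intro Ψ hΨ x
  have h1 := integrable_Rconv32 hF hac has hΨ.cont x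
  have h2 := integrable_Rconv32 hF hbc hbs hΨ.cont x
  have ea : ∫ y, a y * Ψ (x * y) ∂μ = 0 := ha Ψ hΨ x
  have eb : ∫ y, b y * Ψ (x * y) ∂μ = 0 := hb Ψ hΨ x
  show ∫ y, (a y - b y) * Ψ (x * y) ∂μ = 0
  have e : (fun y => (a y - b y) * Ψ (x * y)) = fun y => a y * Ψ (x * y) - b y * Ψ (x * y) := by
    funext y
    ring
  rw [e, integral_sub h1 h2, ea, eb, sub_zero]

theorem isEKc_sub32 (hF : IsFrame μ D) {a b : G F → ℂ} (ha : IsEKc32 μ a) (hb : IsEKc32 μ b) :
    IsEKc32 μ (fun g => a g - b g) := by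
  obtain ⟨hac, has, ha1, ha2⟩ := ha
  obtain ⟨hbc, hbs, hb1, hb2⟩ := hb
  refine ⟨hac.sub hbc, has.sub hbs, isEK_sub32 hF hac has hbc hbs ha1 hb1, ?_⟩
  have e : adjointFn (fun g => a g - b g) = fun g => adjointFn a g - adjointFn b g := by
    funext g
    simp only [adjointFn, map_sub]
  rw [e]
  exact isEK_sub32 hF (continuous_adjointFn32 hac) (hasCompactSupport_adjointFn32 has)
    (continuous_adjointFn32 hbc) (hasCompactSupport_adjointFn32 hbs) ha2 hb2

/-- **The Dickson steps preserve the Eisenstein-killing pairs** (no hypothesis on `v`, `H`, `z`). -/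
theorem isEKc_dStep32 (hF : IsFrame μ D) (v : HeightOneSpectrum (𝓞 F)) (H : Finset (G F))
    (z : G F) {f : G F → ℂ} (hf : IsEKc32 μ f) (d : ℕ) : IsEKc32 μ (dStep589 v H z d f) := by
  have key : ∀ d : ℕ, IsEKc32 μ (dStep589 v H z d f) ∧ IsEKc32 μ (dStep589 v H z (d + 1) f) := by
    intro d
    induction d with
    | zero =>
      refine ⟨?_, ?_⟩
      · rw [ST589.dStep589.eq_1]
        exact isEKc_smul32 2 hf
      · rw [ST589.dStep589.eq_2]
        exact isEKc_tStep32 hF v H z hf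
    | succ d ih =>
      refine ⟨ih.2, ?_⟩
      rw [ST589.dStep589.eq_3]
      exact isEKc_sub32 hF (isEKc_tStep32 hF v H z ih.2) (isEKc_sStep32 hF z ih.1)
  exact (key d).1

/-! ## 2. Iwahori supports -/

theorem isIwSupp_sub32 {l : ℕ} {o : ℕ → HeightOneSpectrum (𝓞 F)} {C₁ C₂ : Set (G F)}
    {a b : G F → ℂ} (ha : IsIwSupported32 l o C₁ a) (hb : IsIwSupported32 l o C₂ b) :
    IsIwSupported32 l o (C₁ ∪ C₂) (fun g => a g - b g) := by
  intro y hy
  by_cases h1 : a y = 0
  · have h2 : b y ≠ 0 := by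
      intro h2
      apply hy
      show a y - b y = 0
      rw [h1, h2, sub_zero]
    exact (hb.mono Set.subset_union_right) y h2
  · exact (ha.mono Set.subset_union_left) y h1

/-- The existence form: Iwahori-supported in SOME compact set. -/
def IsIwC32 (l : ℕ) (o : ℕ → HeightOneSpectrum (𝓞 F)) (ψ : G F → ℂ) : Prop :=
  ∃ C : Set (G F), IsCompact C ∧ IsIwSupported32 l o C ψ

theorem isIwC_dStep32 {l : ℕ} {o : ℕ → HeightOneSpectrum (𝓞 F)} {v : HeightOneSpectrum (𝓞 F)}
    (ho : ∀ j : ℕ, j < l → o j ≠ v) {H : Finset (G F)} {z : G F}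
    (hH : IsHeckeCosetSystem v H) (hz : IsScalarUniformizerAt v z) {f : G F → ℂ}
    (hf : IsIwC32 l o f) (d : ℕ) : IsIwC32 l o (dStep589 v H z d f) := by
  have hzt : ∀ j : ℕ, j < l → TrivAtFin (o j) z⁻¹ := fun j hj =>
    trivAtFin_inv32 (hz.1.2 (o j) (ho j hj))
  have hht : ∀ h ∈ H, ∀ j : ℕ, j < l → TrivAtFin (o j) (z⁻¹ * h) := by
    intro h hh j hj
    show finComp (o j) (z⁻¹ * h) = 1
    rw [finComp_mul942, (hzt j hj : finComp (o j) z⁻¹ = 1),
      ((hH.2.1 h hh).1.2 (o j) (ho j hj) : finComp (o j) h = 1), one_mul]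
  have hT : ∀ ψ : G F → ℂ, IsIwC32 l o ψ → IsIwC32 l o (tStep589 v H z ψ) := by
    rintro ψ ⟨C, hC, hψ⟩
    rw [tStep_eq32]
    refine ⟨C * ((fun i => (z⁻¹ * i)⁻¹) '' (H : Set (G F))), ?_, ?_⟩
    · exact hC.mul ((H.finite_toSet.image _).isCompact)
    · exact isIwSupported_sum_shift32 H _ (fun h => z⁻¹ * h) hψ hht
  have hS : ∀ ψ : G F → ℂ, IsIwC32 l o ψ → IsIwC32 l o (sStep589 z ψ) := by
    rintro ψ ⟨C, hC, hψ⟩
    exact ⟨C * {(z⁻¹)⁻¹}, hC.mul isCompact_singleton, isIwSupported_shift32 hψ hzt⟩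
  have key : ∀ d : ℕ, IsIwC32 l o (dStep589 v H z d f) ∧ IsIwC32 l o (dStep589 v H z (d + 1) f) := by
    intro d
    induction d with
    | zero =>
      refine ⟨?_, ?_⟩
      · rw [ST589.dStep589.eq_1]
        obtain ⟨C, hC, hCf⟩ := hf
        refine ⟨C, hC, fun y hy => hCf y ?_⟩
        intro h0
        apply hy
        show (2 : ℂ) * f y = 0
        rw [h0, mul_zero]
      · rw [ST589.dStep589.eq_2]
        exact hT f hf
    | succ d ih =>
      refine ⟨ih.2, ?_⟩
      rw [ST589.dStep589.eq_3]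
      obtain ⟨C₁, hC₁, h₁⟩ := hT _ ih.2
      obtain ⟨C₂, hC₂, h₂⟩ := hS _ ih.1
      exact ⟨C₁ ∪ C₂, hC₁.union hC₂, isIwSupp_sub32 h₁ h₂⟩
  exact (key d).1

/-! ## 3. The leaves of helper589, verbatim -/

variable (F)

/-- **LEAF ST.4 `DEkC589`, VERBATIM.** -/
theorem dEkC32 : ST589.DEkC589 F := by
  intro R hR 𝔫 v _ H z _ _ f hf _ h1 h2 d
  have := isEKc_dStep32 hR.frame v H z (f := f) ⟨hf.cont, hf.supp, h1, h2⟩ d
  exact ⟨this.2.2.1, this.2.2.2⟩

/-- **LEAF ST.5 `DSuppC589`, VERBATIM.** -/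
theorem dSuppC32 : ST589.DSuppC589 F := by
  intro l o v ho H z hH hz f hf d
  exact isIwC_dStep32 ho hH hz hf d

end Fermat.Agent.LT.T7.H32

end

end
-- ===== PACK-END LT/T7/H32/StepTEk.lean

-- ===== PACK-BEGIN LT/T7/H32/StepTTest.lean
section





/-!
# Row LT, tower T7, node `B981.StepTC981` (cut of helper589, `T7/H589/StepTSpec.lean`):
# the leaf ST.3 `DTestC589`, PROVED (helper32)

OFF-MAIN, ADDITIVE.  Verbatim against the frozen Prop of helper589:

    dTestC32 F : ST589.DTestC589 F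

The Dickson steps at a place prime to the level preserve the test functions of the level.
Level invariance of the Hecke sum: the closed T2 asset `T2.H655.heckeSum_level_inv655`
(completeness of the coset system).  Smoothness at infinity and the archimedean invariances:
the translating elements are trivial at the infinite places (`comm_fin_inf32`).
-/

set_option autoImplicit false
open IsDedekindDomain NumberField MeasureTheory
open scoped MatrixGroups ComplexConjugate Pointwise ContDiff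
open Fermat.Agent.LT.H556.A0 Fermat.Agent.LT.T5 Fermat.Agent.LT.T5.H32
open Fermat.Agent.LT.H942 Fermat.Agent.LT.T5.H942

noncomputable section
namespace Fermat.Agent.LT.T7.H32

open Fermat.Agent.LT.T7.ST589

variable {F : Type} [Field F] [NumberField F]

attribute [local instance] Fermat.Agent.LT.T5.instMeasurableSpaceG

/-! ## 1. Linear combinations of test functions -/

theorem isTestFn_smul32 {𝔫 : Ideal (𝓞 F)} {τ φ : G F → ℂ} (c : ℂ) (hφ : IsTestFn 𝔫 τ φ) :
    IsTestFn 𝔫 τ (fun g => c * φ g) := by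
  refine ⟨hφ.ktype, continuous_const.mul hφ.cont, hφ.supp.mul_left, ?_, ?_⟩
  · intro n h hfin hsm g
    exact contDiff_const.mul (hφ.smooth n h hfin hsm g)
  · refine ⟨fun u hu g => ?_, fun u hu g => ?_, fun w k hk g => ?_, fun w k hk g => ?_⟩
    · show c * φ (g * u) = c * φ g
      rw [hφ.inv.level_right u hu]
    · show c * φ (u * g) = c * φ g
      rw [hφ.inv.level_left u hu]
    · show c * φ (g * k) = (τ k)⁻¹ * (c * φ g)
      rw [hφ.inv.arch_right w k hk]
      ring
    · show c * φ (k * g) = (τ k)⁻¹ * (c * φ g)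
      rw [hφ.inv.arch_left w k hk]
      ring

theorem isTestFn_sub32 {𝔫 : Ideal (𝓞 F)} {τ a b : G F → ℂ} (ha : IsTestFn 𝔫 τ a)
    (hb : IsTestFn 𝔫 τ b) : IsTestFn 𝔫 τ (fun g => a g - b g) := by
  refine ⟨ha.ktype, ha.cont.sub hb.cont, ha.supp.sub hb.supp, ?_, ?_⟩
  · intro n h hfin hsm g
    exact (ha.smooth n h hfin hsm g).sub (hb.smooth n h hfin hsm g)
  · refine ⟨fun u hu g => ?_, fun u hu g => ?_, fun w k hk g => ?_, fun w k hk g => ?_⟩
    · show a (g * u) - b (g * u) = a g - b g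
      rw [ha.inv.level_right u hu, hb.inv.level_right u hu]
    · show a (u * g) - b (u * g) = a g - b g
      rw [ha.inv.level_left u hu, hb.inv.level_left u hu]
    · show a (g * k) - b (g * k) = (τ k)⁻¹ * (a g - b g)
      rw [ha.inv.arch_right w k hk, hb.inv.arch_right w k hk]
      ring
    · show a (k * g) - b (k * g) = (τ k)⁻¹ * (a g - b g)
      rw [ha.inv.arch_left w k hk, hb.inv.arch_left w k hk]
      ring

/-! ## 2. Commutation -/

theorem infComp_inv_of_one32 {w : InfinitePlace F} {a : G F} (ha : infComp w a = 1) :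
    infComp w a⁻¹ = 1 := by
  have := infComp_mul942 w a⁻¹ a
  rw [inv_mul_cancel, infComp_one942, ha, mul_one] at this
  exact this.symm

/-- An element which is trivial at the infinite places commutes with an element which is trivial
at the finite places. -/
theorem comm_fin_inf32 {a b : G F} (ha : ∀ w : InfinitePlace F, infComp w a = 1)
    (hb : ∀ v : HeightOneSpectrum (𝓞 F), finComp v b = 1) : a * b = b * a :=
  comm_of_disjoint32 (fun w => Or.inl (ha w)) (fun v => Or.inr (hb v))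

/-- The translating elements `z⁻¹ h` of the step of `T_v` are trivial at infinity. -/
theorem infComp_step32 {v : HeightOneSpectrum (𝓞 F)} {H : Finset (G F)} {z : G F}
    (hH : IsHeckeCosetSystem v H) (hz : IsScalarUniformizerAt v z) {h : G F} (hh : h ∈ H)
    (w : InfinitePlace F) : infComp w (z⁻¹ * h) = 1 := by
  rw [infComp_mul942, infComp_inv_of_one32 (infComp_of_trivAtInf32 (hz.1.1 w)),
    infComp_of_trivAtInf32 ((hH.2.1 h hh).1.1 w), one_mul]

/-! ## 3. The steps -/

theorem isTestFn_sStep32 {𝔫 : Ideal (𝓞 F)} {τ ψ : G F → ℂ} {v : HeightOneSpectrum (𝓞 F)}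
    {z : G F} (hz : IsScalarUniformizerAt v z) (hψ : IsTestFn 𝔫 τ ψ) :
    IsTestFn 𝔫 τ (sStep589 z ψ) := by
  have hc : ∀ g : G F, z⁻¹ * g = g * z⁻¹ := fun g => by
    have := uniformizer_zpow_comm32 hz (-1) g
    rwa [zpow_neg_one] at this
  exact isTestFn_shift_central32 hψ hc

theorem isTestFn_tStep32 {𝔫 : Ideal (𝓞 F)} {τ ψ : G F → ℂ} {v : HeightOneSpectrum (𝓞 F)}
    (hv : ¬ v.asIdeal ∣ 𝔫) {H : Finset (G F)} {z : G F} (hH : IsHeckeCosetSystem v H)
    (hz : IsScalarUniformizerAt v z) (hψ : IsTestFn 𝔫 τ ψ) :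
    IsTestFn 𝔫 τ (tStep589 v H z ψ) := by
  have hzc : ∀ g : G F, z⁻¹ * g = g * z⁻¹ := fun g => by
    have := uniformizer_zpow_comm32 hz (-1) g
    rwa [zpow_neg_one] at this
  refine ⟨hψ.ktype, continuous_tStep32 v H z hψ.cont, hasCompactSupport_tStep32 v H z hψ.supp,
    ?_, ?_⟩
  · intro n h hfin hsm g
    have e : (fun t => tStep589 v H z ψ (g * h t))
        = fun t => ∑ h' ∈ H, ((Real.sqrt (Ideal.absNorm v.asIdeal : ℝ) : ℝ) : ℂ)⁻¹
            * ψ (g * (z⁻¹ * h') * h t) := by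
      funext t
      rw [tStep_eq32]
      refine Finset.sum_congr rfl fun h' hh' => ?_
      rw [mul_assoc g (h t), ← comm_fin_inf32 (infComp_step32 hH hz hh') (hfin t), ← mul_assoc]
    show ContDiff ℝ ∞ (fun t => tStep589 v H z ψ (g * h t))
    rw [e]
    exact ContDiff.sum fun h' _ => contDiff_const.mul (hψ.smooth n h hfin hsm (g * (z⁻¹ * h')))
  · refine ⟨fun u hu g => ?_, fun u hu g => ?_, fun w k hk g => ?_, fun w k hk g => ?_⟩
    · -- level, right: completeness of the coset system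
      show ((Real.sqrt (Ideal.absNorm v.asIdeal : ℝ) : ℝ) : ℂ)⁻¹ * ∑ h ∈ H, ψ (g * u * z⁻¹ * h)
        = ((Real.sqrt (Ideal.absNorm v.asIdeal : ℝ) : ℝ) : ℂ)⁻¹ * ∑ h ∈ H, ψ (g * z⁻¹ * h)
      congr 1
      have e : ∀ h : G F, g * u * z⁻¹ * h = g * z⁻¹ * u * h := fun h => by
        rw [mul_assoc g u, ← hzc u, ← mul_assoc]
      simp only [e]
      exact T2.H655.heckeSum_level_inv655 hv hH hψ.inv.level_right hu (g * z⁻¹)
    · show ((Real.sqrt (Ideal.absNorm v.asIdeal : ℝ) : ℝ) : ℂ)⁻¹ * ∑ h ∈ H, ψ (u * g * z⁻¹ * h)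
        = ((Real.sqrt (Ideal.absNorm v.asIdeal : ℝ) : ℝ) : ℂ)⁻¹ * ∑ h ∈ H, ψ (g * z⁻¹ * h)
      congr 1
      refine Finset.sum_congr rfl fun h _ => ?_
      rw [mul_assoc u, mul_assoc u, hψ.inv.level_left u hu]
    · show ((Real.sqrt (Ideal.absNorm v.asIdeal : ℝ) : ℝ) : ℂ)⁻¹ * ∑ h ∈ H, ψ (g * k * z⁻¹ * h)
        = (τ k)⁻¹ * (((Real.sqrt (Ideal.absNorm v.asIdeal : ℝ) : ℝ) : ℂ)⁻¹
            * ∑ h ∈ H, ψ (g * z⁻¹ * h))
      have e : ∀ h ∈ H, ψ (g * k * z⁻¹ * h) = (τ k)⁻¹ * ψ (g * z⁻¹ * h) := by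
        intro h hh
        have hcomm : (z⁻¹ * h) * k = k * (z⁻¹ * h) :=
          comm_fin_inf32 (infComp_step32 hH hz hh) (fun v' => hk.1.2 v')
        rw [mul_assoc (g * k), mul_assoc g k, ← hcomm, ← mul_assoc g, hψ.inv.arch_right w k hk,
          mul_assoc g]
      rw [Finset.sum_congr rfl e, ← Finset.mul_sum]
      ring
    · show ((Real.sqrt (Ideal.absNorm v.asIdeal : ℝ) : ℝ) : ℂ)⁻¹ * ∑ h ∈ H, ψ (k * g * z⁻¹ * h)
        = (τ k)⁻¹ * (((Real.sqrt (Ideal.absNorm v.asIdeal : ℝ) : ℝ) : ℂ)⁻¹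
            * ∑ h ∈ H, ψ (g * z⁻¹ * h))
      have e : ∀ h ∈ H, ψ (k * g * z⁻¹ * h) = (τ k)⁻¹ * ψ (g * z⁻¹ * h) := by
        intro h _
        rw [mul_assoc k, mul_assoc k, hψ.inv.arch_left w k hk]
      rw [Finset.sum_congr rfl e, ← Finset.mul_sum]
      ring

/-- **The Dickson steps preserve the test functions of a level prime to `v`.** -/
theorem isTestFn_dStep32 {𝔫 : Ideal (𝓞 F)} {τ f : G F → ℂ} {v : HeightOneSpectrum (𝓞 F)}
    (hv : ¬ v.asIdeal ∣ 𝔫) {H : Finset (G F)} {z : G F} (hH : IsHeckeCosetSystem v H)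
    (hz : IsScalarUniformizerAt v z) (hf : IsTestFn 𝔫 τ f) (d : ℕ) :
    IsTestFn 𝔫 τ (dStep589 v H z d f) := by
  have key : ∀ d : ℕ, IsTestFn 𝔫 τ (dStep589 v H z d f) ∧
      IsTestFn 𝔫 τ (dStep589 v H z (d + 1) f) := by
    intro d
    induction d with
    | zero =>
      refine ⟨?_, ?_⟩
      · rw [ST589.dStep589.eq_1]
        exact isTestFn_smul32 2 hf
      · rw [ST589.dStep589.eq_2]
        exact isTestFn_tStep32 hv hH hz hf
    | succ d ih =>
      refine ⟨ih.2, ?_⟩
      rw [ST589.dStep589.eq_3]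
      exact isTestFn_sub32 (isTestFn_tStep32 hv hH hz ih.2) (isTestFn_sStep32 hz ih.1)
  exact (key d).1

variable (F)

/-- **LEAF ST.3 `DTestC589`, VERBATIM.** -/
theorem dTestC32 : ST589.DTestC589 F := by
  intro 𝔫 v hv H z hH hz f hf d
  exact isTestFn_dStep32 hv hH hz hf d

end Fermat.Agent.LT.T7.H32

end

end
-- ===== PACK-END LT/T7/H32/StepTTest.lean

-- ===== PACK-BEGIN LT/T3/R/Closed.lean
section




/-!
# Row LT, tower T3, station T3.18R (architect helper14): STATE OF THE STATION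

OFF-MAIN.  Complete proofs, nothing assumed.  On the closed tower T3, the closed tower T1 and the
closed station T3.18M (`M/ClosedM.lean`).

`OpenR K` = the leaves of the station which are still open (registry rows 2298--2307 and the
input `InHaarRC`).  Everything else is discharged here:

* REUSED from the closed stations, as they are: `AS.SatakeLocC`, `M.EKCoreC`, `M.FtPureC`,
  N.1 `IwasawaFormC`, N.4 `AffineC`, M.6 `OutsideCosetMC`, M.8 `LocValFinMC`, `EKKillC`,
  `EKStarC`, `InScalarUnifC`, `InAddHaarC`.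
* PROVED tops: `nIntR_of`, `abelSatakeR_of`, `ekOpExistR_of`, `ekOpExistMeanR_of`.
-/

set_option autoImplicit false
set_option linter.style.haveILetI false

open IsDedekindDomain NumberField MeasureTheory
open Fermat.Agent.LT.H556.A0

noncomputable section

namespace Fermat.Agent.LT.T3.R

open Fermat.Agent.LT.T3.AS Fermat.Agent.LT.T3.M

variable (K : Type) [Field K] [NumberField K]

/-- THE OPEN PART of station T3.18R, for the output `EKOpExistRC` (abstract local classes). -/
structure OpenR : Prop where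
  /-- R.1 (registry 2298). -/
  abelReal : AbelRealC
  /-- R.3 (registry 2300). -/
  pureReg : PureRegRC K
  /-- R.4 (registry 2301). -/
  rOp : ROpRC K
  /-- R.5 (registry 2302). -/
  pureUpper : PureUpperRC K
  /-- R.6 (registry 2303). -/
  split : SplitRC K
  /-- R.7 (registry 2304). -/
  locValInf : LocValInfRC K
  /-- R.8 (registry 2305). -/
  prodForm : ProdFormRC K
  /-- R.9 (registry 2306). -/
  type : TypeRC K

/-- THE OPEN PART for the output `EKOpExistMeanRC` (joint eigenfunctions of the circle means). -/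
structure OpenMeanR : Prop extends OpenR K where
  /-- R.2 (registry 2299). -/
  meanActs : MeanActsRC
  /-- R.10 (registry 2307). -/
  locOfMean : LocOfMeanRC K
  /-- INPUT: a Haar measure of `GL₂(ℝ)`. -/
  haarR : InHaarRC

/-- The `N`-integral at real places from the open leaves. -/
theorem nIntR_of_open (O : OpenR K) : NIntRC K :=
  nIntR_of K (H543.iwasawaFormC_of_h543 K (T1.t1Out K).iwasawa) O.pureUpper
    (openM_c K).outsideCoset (H162.affineC162 K (T1.t1Out K).locComp) O.split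
    (openM_c K).locValFin O.locValInf O.prodForm

/-- The Abel--Satake pair at real places from the open leaves. -/
theorem abelSatakeR_of_open (O : OpenR K) : AbelSatakeRC K :=
  abelSatakeR_of K (satakeLoc_closed K) O.abelReal (openM_c K).ftPure O.pureReg
    (nIntR_of_open K O) O.rOp

/-- **THE OUTPUT of station T3.18R from the open leaves.** -/
theorem ekOpExistR_of_open (O : OpenR K) : EKOpExistRC K :=
  ekOpExistR_of K (abelSatakeR_of_open K O) (openM_c K).core (inScalarUnif_u K) (ekKill_u K)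
    (ekStar_u K) (inAddHaar_u K) O.type

/-- **THE OUTPUT for the joint eigenfunctions of the circle means from the open leaves.** -/
theorem ekOpExistMeanR_of_open (O : OpenMeanR K) : EKOpExistMeanRC K :=
  ekOpExistMeanR_of K (ekOpExistR_of_open K O.toOpenR) O.meanActs O.locOfMean O.haarR

end Fermat.Agent.LT.T3.R

end

end
-- ===== PACK-END LT/T3/R/Closed.lean

-- ===== PACK-BEGIN LT/T3/R/ClosedR.lean
section













/-!
# Row LT, tower T3, station T3.18R (architect helper14): THE STATION MODULO R.4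

OFF-MAIN.  Complete proofs, nothing assumed.  All leaves of `R/Spec.lean` (a528b35a) except
R.4 `ROpRC` are discharged here from the files of their owners (byte-identical copies):

| leaf | owner | file |
|---|---|---|
| R.1 `AbelRealC` | helper134 (adapter), helper626 (`abelExistC626_closed`) | `R/H134/AbelReal.lean` |
| R.2 `MeanActsRC` | helper96 | `R/H96/MeanActsR.lean` |
| R.3 `PureRegRC` | helper709 | `R/H709/PureRegR.lean` |
| R.5 `PureUpperRC` | helper857 | `R/H857/PureUpperR.lean` |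
| R.6 `SplitRC` | helper129 | `R/H129/SplitR.lean` |
| R.7 `LocValInfRC` | helper611 | `R/H611/LocValInfR.lean` |
| R.8 `ProdFormRC` | helper969 | `R/H969/ProdFormR.lean` |
| R.9 `TypeRC` | helper505 | `R/H505/TypeR.lean` |
| R.10 `LocOfMeanRC` | helper981 | `R/H981/LocOfMean.lean` |
| R.12 `InHaarRC` | helper247 | `R/H247/InHaarR.lean` |

UNCONDITIONAL here: `abelRealC_c`, `nIntR_c`.  From R.4 alone: `openR_of_rOp`,
`abelSatakeR_of_rOp`, `ekOpExistR_of_rOp`, `openMeanR_of_rOp`, `ekOpExistMeanR_of_rOp`.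
-/

set_option autoImplicit false
set_option linter.style.haveILetI false

open IsDedekindDomain NumberField MeasureTheory
open Fermat.Agent.LT.H556.A0

noncomputable section

namespace Fermat.Agent.LT.T3.R

open Fermat.Agent.LT.T3.AS Fermat.Agent.LT.T3.M

/-- **R.1 CLOSED**: Abel inversion on `GL₂(ℝ)`, weights `0, ±1` (composition of the closed complex
Abel inversion of tower T3 and the closed Abel relation T6.20a of helper626). -/
theorem abelRealC_c : AbelRealC :=
  H134.abelRealC_of134 abelCplxSmooth_closed T6.H626.abelExistC626_closed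

variable (K : Type) [Field K] [NumberField K]

/-- **The `N`-integral at real places, UNCONDITIONAL.** -/
theorem nIntR_c : NIntRC K :=
  nIntR_of K (H543.iwasawaFormC_of_h543 K (T1.t1Out K).iwasawa) (H857.pureUpperRC857 K)
    (openM_c K).outsideCoset (H162.affineC162 K (T1.t1Out K).locComp) (H129.splitRC129 K)
    (openM_c K).locValFin (H611.locValInfRC611 K) (H969.prodFormRC969 K)

/-- The open part of the station from R.4 alone. -/
theorem openR_of_rOp (h : ROpRC K) : OpenR K where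
  abelReal := abelRealC_c
  pureReg := H709.pureRegRC709 K
  rOp := h
  pureUpper := H857.pureUpperRC857 K
  split := H129.splitRC129 K
  locValInf := H611.locValInfRC611 K
  prodForm := H969.prodFormRC969 K
  type := H505.typeRC505 K

/-- The open part (joint eigenfunctions of the circle means) from R.4 alone. -/
theorem openMeanR_of_rOp (h : ROpRC K) : OpenMeanR K where
  toOpenR := openR_of_rOp K h
  meanActs := H96.meanActsRC96
  locOfMean := H981.locOfMeanRC981 K
  haarR := H247.inHaarRC247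

/-- The Abel--Satake pair at real places from R.4 alone. -/
theorem abelSatakeR_of_rOp (h : ROpRC K) : AbelSatakeRC K :=
  abelSatakeR_of_open K (openR_of_rOp K h)

/-- **THE OUTPUT of station T3.18R from R.4 alone.** -/
theorem ekOpExistR_of_rOp (h : ROpRC K) : EKOpExistRC K :=
  ekOpExistR_of_open K (openR_of_rOp K h)

/-- **THE OUTPUT for the joint eigenfunctions of the circle means from R.4 alone.** -/
theorem ekOpExistMeanR_of_rOp (h : ROpRC K) : EKOpExistMeanRC K :=
  ekOpExistMeanR_of_open K (openMeanR_of_rOp K h)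

end Fermat.Agent.LT.T3.R

end

end
-- ===== PACK-END LT/T3/R/ClosedR.lean

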