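import Mathlib
import Fermat.Agent.Pack.LT4.E4L2
import Fermat.Agent.Pack.LT4.E5L3
import Fermat.Agent.Pack.LT4.E5L0
import Fermat.Agent.Pack.LT3.E29L1
import Fermat.Agent.Pack.LT4.E6L2
import Fermat.Agent.Pack.LT4.E6L1
import Fermat.Agent.Pack.LT4.E6L3
import Fermat.Agent.Pack.LT2.E2L3
import Fermat.Agent.Pack.LT4.E5L2
import Fermat.Agent.Pack.LT3.E29L3
import Fermat.Agent.Pack.LT4.E1L0
import Fermat.Agent.Pack.LT4.E0L3
import Fermat.Agent.Pack.LT2.E13L2
import Fermat.Agent.Pack.LT4.E5L1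
import Fermat.Agent.Pack.LT4.E0L2
import Fermat.Agent.Pack.LT3.E12L1

set_option linter.all false

-- ===== PACK-BEGIN LT/T2/Admissible.lean
section



/-!
# Row LT, tower T2: ADMISSIBILITY (helper130, architect)

OFF-MAIN.  ADDITIVE, PROVED, UNCONDITIONAL (totally complex fields).

For a totally complex field the members of a joint eigenbasis of T2 which have the same
eigenvalue functions of the sphere means at the infinite places are FINITE in number: the space
of cusp functions of level `U(𝔫)` with given archimedean parameters has finite dimension.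

Proof.  `B_u(h) = ∫_D u(g h) conj u(g) dμ(g)` (matrix coefficient).
* `B_u` is bi-invariant under the compact groups at infinity and right invariant under the
  positive scalars and under `U(𝔫)` (`H770.B_left770`, unitarity of the right translations);
* for `a` of component `torus d` at `w` and `h'` trivial at `w`:
  `4π B_u(a h') = m_w(d) B_u(h')` (Fubini, `fubini_pair130`, and `sphereMean Y u = m_w(d) u`);
* Cartan decomposition at each infinite place (`subCartanInf555`), induction over the places: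
  `B_u = B_{u'}` on the elements which are trivial at the finite places when `u`, `u'` have the
  same eigenvalue functions (`coeff_eq130`);
* Fubini again: the eigenvalue of `R(f)` on `u` is `∫ f(h) B_u(h) dμ(h)`; for the approximate
  identity of helper907 (supported in `GL₂(K_∞) U(𝔫)`) it depends on the eigenvalue functions
  only (`convEig_eq130`);
* Hilbert--Schmidt (`finite_large130`) and approximate identity (`large_of_approx130`).
-/

set_option autoImplicit false
set_option linter.unusedSectionVars false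
set_option linter.style.haveILetI false

open IsDedekindDomain NumberField MeasureTheory Filter Topology
open Fermat.Agent.LT.H556.A0
open scoped ComplexConjugate Matrix

noncomputable section

namespace Fermat.Agent.LT.T2

attribute [local instance] Fermat.Agent.LT.T2.borelG

/-! ## 1. Fubini -/

/-- Fubini for the pairing of a mean: `⟨∫_p s(p) R(y_p) φ dν, ψ⟩ = ∫_p s(p) ⟨R(y_p) φ, ψ⟩ dν`. -/
theorem fubini_pair130 {G P : Type*} [Group G] [TopologicalSpace G] [IsTopologicalGroup G]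
    [MeasurableSpace G] [BorelSpace G] [TopologicalSpace P] [SecondCountableTopology P]
    [MeasurableSpace P] [BorelSpace P] (μ : Measure G) (D : Set G) (hD : μ D < ⊤)
    (ν : Measure P) [SFinite ν] {φ ψ : G → ℂ} (hφ : Continuous φ) (hψ : Continuous ψ)
    {Cφ Cψ : ℝ} (hCφ : ∀ g, ‖φ g‖ ≤ Cφ) (hCψ : ∀ g, ‖ψ g‖ ≤ Cψ) {y : P → G} (hy : Continuous y)
    {s : P → ℂ} (hs : Continuous s) (hsi : Integrable s ν) :
    ∫ g in D, (∫ p, φ (g * y p) * s p ∂ν) * conj (ψ g) ∂μ
      = ∫ p, s p * ∫ g in D, φ (g * y p) * conj (ψ g) ∂μ ∂ν := by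
  have : IsFiniteMeasure (μ.restrict D) := ⟨by rw [Measure.restrict_apply_univ]; exact hD⟩
  have hCφ0 : 0 ≤ Cφ := (norm_nonneg _).trans (hCφ 1)
  have hCψ0 : 0 ≤ Cψ := (norm_nonneg _).trans (hCψ 1)
  have hmul : Continuous fun q : G × P => q.1 * y q.2 :=
    continuous_fst.mul (hy.comp continuous_snd)
  have hc1 : Continuous fun q : G × P => φ (q.1 * y q.2) * s q.2 * conj (ψ q.1) :=
    ((hφ.comp hmul).mul (hs.comp continuous_snd)).mul
      (Complex.continuous_conj.comp (hψ.comp continuous_fst))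
  have hg0 : Integrable (fun q : G × P => Cφ * Cψ * ‖s q.2‖) ((μ.restrict D).prod ν) :=
    (hsi.norm.const_mul (Cφ * Cψ)).comp_snd (μ.restrict D)
  have hi1 : Integrable (Function.uncurry fun (g : G) (p : P) =>
      φ (g * y p) * s p * conj (ψ g)) ((μ.restrict D).prod ν) := by
    refine hg0.mono' hc1.aestronglyMeasurable (Filter.Eventually.of_forall fun q => ?_)
    show ‖φ (q.1 * y q.2) * s q.2 * conj (ψ q.1)‖ ≤ _
    rw [norm_mul, norm_mul, RCLike.norm_conj]
    calc ‖φ (q.1 * y q.2)‖ * ‖s q.2‖ * ‖ψ q.1‖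
        ≤ Cφ * ‖s q.2‖ * Cψ :=
          mul_le_mul (mul_le_mul_of_nonneg_right (hCφ _) (norm_nonneg _)) (hCψ _)
            (norm_nonneg _) (mul_nonneg hCφ0 (norm_nonneg _))
      _ = Cφ * Cψ * ‖s q.2‖ := by ring
  calc ∫ g in D, (∫ p, φ (g * y p) * s p ∂ν) * conj (ψ g) ∂μ
      = ∫ g in D, ∫ p, φ (g * y p) * s p * conj (ψ g) ∂ν ∂μ := by
        congr 1
        funext g
        rw [integral_mul_const]
    _ = ∫ p, ∫ g in D, φ (g * y p) * s p * conj (ψ g) ∂μ ∂ν :=
        integral_integral_swap hi1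
    _ = ∫ p, s p * ∫ g in D, φ (g * y p) * conj (ψ g) ∂μ ∂ν := by
        congr 1
        funext p
        rw [← integral_const_mul]
        congr 1
        funext g
        ring

/-! ## 2. The Cartan decomposition with a torus element -/

theorem torus_eq130 (d : ℝ) :
    torus d = Matrix.diagonal ![((Real.exp (d / 2) : ℝ) : ℂ), ((Real.exp (-(d / 2)) : ℝ) : ℂ)] := by
  unfold torus
  ext i j
  fin_cases i <;> fin_cases j <;> simp

/-- A positive diagonal matrix `diag(p, q)`, `p ≥ q`, is a positive scalar times a torus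
element of non-negative parameter. -/
theorem posDiag_eq130 {p q : ℝ} (hq : 0 < q) (hpq : q ≤ p) :
    ∃ d r : ℝ, 0 ≤ d ∧ 0 < r ∧
      (Matrix.diagonal ![(p : ℂ), (q : ℂ)] : Matrix (Fin 2) (Fin 2) ℂ)
        = torus d * Matrix.diagonal (fun _ => (r : ℂ)) := by
  have hp : 0 < p := lt_of_lt_of_le hq hpq
  have hpq0 : 0 < p * q := mul_pos hp hq
  set d : ℝ := Real.log (p / q) with hd
  set r : ℝ := Real.sqrt (p * q) with hr
  have hrpos : 0 < r := Real.sqrt_pos.2 hpq0
  have hr2 : r * r = p * q := Real.mul_self_sqrt hpq0.le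
  have hepos : 0 < Real.exp (d / 2) := Real.exp_pos _
  have he : Real.exp (d / 2) * Real.exp (d / 2) = p / q := by
    rw [← Real.exp_add, add_halves, hd, Real.exp_log (div_pos hp hq)]
  have h1 : Real.exp (d / 2) * r = p := by
    have hsq : (Real.exp (d / 2) * r) ^ 2 = p ^ 2 := by
      calc (Real.exp (d / 2) * r) ^ 2
          = (Real.exp (d / 2) * Real.exp (d / 2)) * (r * r) := by ring
        _ = p / q * (p * q) := by rw [he, hr2]
        _ = p ^ 2 := by field_simp
    exact (sq_eq_sq₀ (mul_pos hepos hrpos).le hp.le).1 hsq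
  have h2 : Real.exp (-(d / 2)) * r = q := by
    have h3 : Real.exp (-(d / 2)) * Real.exp (d / 2) = 1 := by
      rw [← Real.exp_add, neg_add_cancel, Real.exp_zero]
    have h4 : Real.exp (-(d / 2)) * r * p = q * p := by
      calc Real.exp (-(d / 2)) * r * p
          = Real.exp (-(d / 2)) * r * (Real.exp (d / 2) * r) := by rw [h1]
        _ = (Real.exp (-(d / 2)) * Real.exp (d / 2)) * (r * r) := by ring
        _ = q * p := by rw [h3, hr2]; ring
    exact mul_right_cancel₀ hp.ne' h4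
  refine ⟨d, r, Real.log_nonneg ((one_le_div hq).2 hpq), hrpos, ?_⟩
  rw [torus_eq130, Matrix.diagonal_mul_diagonal]
  congr 1
  funext i
  fin_cases i
  · show (p : ℂ) = ((Real.exp (d / 2) : ℝ) : ℂ) * (r : ℂ)
    rw [← Complex.ofReal_mul, h1]
  · show (q : ℂ) = ((Real.exp (-(d / 2)) : ℝ) : ℂ) * (r : ℂ)
    rw [← Complex.ofReal_mul, h2]

theorem rotY_neg_pi130 : rotY (-Real.pi) = !![0, 1; -1, 0] := by
  unfold rotY
  ext i j
  fin_cases i <;> fin_cases j <;> simp [neg_div]

/-- The Weyl element exchanges the entries of a diagonal matrix. -/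
theorem weyl_diag130 (p q : ℂ) :
    rotY Real.pi * Matrix.diagonal ![p, q] * rotY (-Real.pi)
      = (Matrix.diagonal ![q, p] : Matrix (Fin 2) (Fin 2) ℂ) := by
  have e : ∀ x y : ℂ, (Matrix.diagonal ![x, y] : Matrix (Fin 2) (Fin 2) ℂ) = !![x, 0; 0, y] := by
    intro x y
    ext i j
    fin_cases i <;> fin_cases j <;> simp
  rw [H770.rotY_pi770, rotY_neg_pi130, e, e]
  ext i j
  fin_cases i <;> fin_cases j <;> simp [Matrix.mul_apply, Fin.sum_univ_two]

theorem diag_unitary130 {a b : ℂ} (ha : a ≠ 0) (hb : b ≠ 0) :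
    (Matrix.diagonal ![a / (‖a‖ : ℂ), b / (‖b‖ : ℂ)] : Matrix (Fin 2) (Fin 2) ℂ)
      * (Matrix.diagonal ![a / (‖a‖ : ℂ), b / (‖b‖ : ℂ)] : Matrix (Fin 2) (Fin 2) ℂ)ᴴ = 1 := by
  have key : ∀ c : ℂ, c ≠ 0 → c / (‖c‖ : ℂ) * conj (c / (‖c‖ : ℂ)) = 1 := by
    intro c hc
    have hn : (‖c‖ : ℂ) ≠ 0 := by
      rw [Ne, Complex.ofReal_eq_zero]
      exact norm_ne_zero_iff.2 hc
    rw [map_div₀, Complex.conj_ofReal, div_mul_div_comm, Complex.mul_conj, Complex.normSq_eq_norm_sq,
      Complex.ofReal_pow, sq]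
    exact div_self (mul_ne_zero hn hn)
  have e : (Matrix.diagonal ![a / (‖a‖ : ℂ), b / (‖b‖ : ℂ)] : Matrix (Fin 2) (Fin 2) ℂ)
      = !![a / (‖a‖ : ℂ), 0; 0, b / (‖b‖ : ℂ)] := by
    ext i j
    fin_cases i <;> fin_cases j <;> simp
  rw [e]
  exact H770.diag_unitary770 (key a ha) (key b hb)

theorem diag_polar130 {a b : ℂ} (ha : a ≠ 0) (hb : b ≠ 0) :
    (Matrix.diagonal ![a, b] : Matrix (Fin 2) (Fin 2) ℂ)
      = Matrix.diagonal ![a / (‖a‖ : ℂ), b / (‖b‖ : ℂ)]
        * Matrix.diagonal ![((‖a‖ : ℝ) : ℂ), ((‖b‖ : ℝ) : ℂ)] := by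
  have key : ∀ c : ℂ, c ≠ 0 → c / (‖c‖ : ℂ) * (‖c‖ : ℂ) = c := by
    intro c hc
    have hn : (‖c‖ : ℂ) ≠ 0 := by
      rw [Ne, Complex.ofReal_eq_zero]
      exact norm_ne_zero_iff.2 hc
    exact div_mul_cancel₀ c hn
  rw [Matrix.diagonal_mul_diagonal]
  congr 1
  funext i
  fin_cases i
  · exact (key a ha).symm
  · exact (key b hb).symm

/-- A scalar matrix commutes with every matrix. -/
theorem scalar_comm130 (r : ℂ) (M : Matrix (Fin 2) (Fin 2) ℂ) :
    Matrix.diagonal (fun _ => r) * M = M * Matrix.diagonal (fun _ => r) := by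
  ext i j
  rw [Matrix.diagonal_mul, Matrix.mul_diagonal, mul_comm]

/-- **The Cartan decomposition with a torus element**: every invertible complex matrix is
`U₁ · torus d · U₂ · r` with `U₁`, `U₂` unitary, `d ≥ 0` and `r > 0`. -/
theorem cartan_torus130 (X : Matrix (Fin 2) (Fin 2) ℂ) (hX : X.det ≠ 0) :
    ∃ (U₁ U₂ : Matrix (Fin 2) (Fin 2) ℂ) (d r : ℝ), U₁ * U₁ᴴ = 1 ∧ U₂ * U₂ᴴ = 1 ∧ 0 ≤ d ∧
      0 < r ∧ X = U₁ * torus d * U₂ * Matrix.diagonal (fun _ => (r : ℂ)) := by
  obtain ⟨k₁, k₂, a, b, hk₁, hk₂, hXe, -⟩ := H555.subCartanInf555 X hX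
  have hab : a * b ≠ 0 := by
    intro h0
    apply hX
    rw [hXe, Matrix.det_mul, Matrix.det_mul, Matrix.det_diagonal, Fin.prod_univ_two]
    simp only [Matrix.cons_val_zero, Matrix.cons_val_one]
    rw [h0, mul_zero, zero_mul]
  have ha : a ≠ 0 := left_ne_zero_of_mul hab
  have hb : b ≠ 0 := right_ne_zero_of_mul hab
  have hna : 0 < ‖a‖ := norm_pos_iff.2 ha
  have hnb : 0 < ‖b‖ := norm_pos_iff.2 hb
  have hE := diag_unitary130 ha hb
  set E : Matrix (Fin 2) (Fin 2) ℂ := Matrix.diagonal ![a / (‖a‖ : ℂ), b / (‖b‖ : ℂ)] with hEdef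
  rcases le_total ‖b‖ ‖a‖ with hle | hle
  · obtain ⟨d, r, hd, hr, hdr⟩ := posDiag_eq130 hnb hle
    refine ⟨k₁ * E, k₂, d, r, H770.unitary_mul770 hk₁ hE, hk₂, hd, hr, ?_⟩
    rw [hXe, diag_polar130 ha hb, hdr]
    simp only [Matrix.mul_assoc]
    rw [scalar_comm130 (r : ℂ) k₂]
  · obtain ⟨d, r, hd, hr, hdr⟩ := posDiag_eq130 hna hle
    have hJ : rotY Real.pi * (rotY Real.pi)ᴴ = 1 := H770.rotY_unitary770 _
    have hJ' : rotY (-Real.pi) * (rotY (-Real.pi))ᴴ = 1 := H770.rotY_unitary770 _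
    refine ⟨k₁ * E * rotY Real.pi, rotY (-Real.pi) * k₂, d, r,
      H770.unitary_mul770 (H770.unitary_mul770 hk₁ hE) hJ, H770.unitary_mul770 hJ' hk₂, hd, hr, ?_⟩
    have hsw : (Matrix.diagonal ![((‖a‖ : ℝ) : ℂ), ((‖b‖ : ℝ) : ℂ)] : Matrix (Fin 2) (Fin 2) ℂ)
        = rotY Real.pi * (torus d * Matrix.diagonal (fun _ => (r : ℂ))) * rotY (-Real.pi) := by
      rw [← hdr, weyl_diag130]
    rw [hXe, diag_polar130 ha hb, hsw]
    simp only [Matrix.mul_assoc]
    rw [scalar_comm130 (r : ℂ) (rotY (-Real.pi) * k₂)]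
    simp only [Matrix.mul_assoc]
    rfl

/-! ## 3. The matrix coefficient -/

section Coeff

variable {K : Type} [Field K] [NumberField K]

/-- An element supported at `w` commutes with an element which is trivial at `w`. -/
theorem commute_local_triv130 {w : InfinitePlace K} {x h : G K} (hx : IsLocalAtInf w x)
    (hh : TrivAtInf w h) : x * h = h * x := by
  rw [H429.isLocalAtInf_iff429] at hx
  refine H429.commute_of_disjoint429 (fun w' => ?_) (fun v => Or.inl (hx.2 v))
  by_cases hw : w' = w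
  · subst hw
    exact Or.inr ((H129.trivAtInf_iff129 _ h).1 hh)
  · exact Or.inl (hx.1 w' hw)

/-- The mass of the sphere: `∫ sin β dα dβ = 4π`. -/
theorem sphereMass130 :
    ∫ p, ((Real.sin p.2 : ℝ) : ℂ) ∂H770.nuS770 = ((4 * Real.pi : ℝ) : ℂ) := by
  have hpi : (0 : ℝ) ≤ Real.pi := Real.pi_pos.le
  have h2pi : (0 : ℝ) ≤ 2 * Real.pi := by positivity
  unfold H770.nuS770
  rw [integral_fun_snd (μ := volume.restrict (Set.Ioc (0 : ℝ) (2 * Real.pi)))
    (ν := volume.restrict (Set.Ioc (0 : ℝ) Real.pi)) (fun β : ℝ => ((Real.sin β : ℝ) : ℂ))]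
  have h1 : (volume.restrict (Set.Ioc (0 : ℝ) (2 * Real.pi))).real Set.univ = 2 * Real.pi := by
    rw [Measure.real, Measure.restrict_apply_univ, Real.volume_Ioc, sub_zero,
      ENNReal.toReal_ofReal h2pi]
  have h2a : ∫ β in Set.Ioc (0 : ℝ) Real.pi, ((Real.sin β : ℝ) : ℂ)
      = ((∫ β in Set.Ioc (0 : ℝ) Real.pi, Real.sin β : ℝ) : ℂ) :=
    integral_ofReal (μ := volume.restrict (Set.Ioc (0 : ℝ) Real.pi)) (𝕜 := ℂ)
      (f := fun β => Real.sin β)
  have h2 : ∫ β in Set.Ioc (0 : ℝ) Real.pi, ((Real.sin β : ℝ) : ℂ) = ((2 : ℝ) : ℂ) := by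
    rw [h2a, ← intervalIntegral.integral_of_le hpi, integral_sin, Real.cos_zero, Real.cos_pi]
    norm_num
  rw [h1, h2, Complex.real_smul, ← Complex.ofReal_mul]
  congr 1
  ring

theorem sphereMass_ne_zero130 : ∫ p, ((Real.sin p.2 : ℝ) : ℂ) ∂H770.nuS770 ≠ 0 := by
  rw [sphereMass130, Ne, Complex.ofReal_eq_zero]
  positivity

variable (F : Frame K) {𝔫 : Ideal (𝓞 K)}

theorem coef_right_level130 (u ψ : G K → ℂ)
    (hu : ∀ k : G K, InLevelGroup 𝔫 k → ∀ g : G K, u (g * k) = u g) {k : G K}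
    (hk : InLevelGroup 𝔫 k) (h : G K) : H770.B770 F u ψ (h * k) = H770.B770 F u ψ h := by
  unfold H770.B770
  congr 1
  funext g
  rw [← mul_assoc, hu k hk]

theorem coef_right_scalar130 {u : G K → ℂ} (hu : IsCuspFn 𝔫 u) (ψ : G K → ℂ)
    {w : InfinitePlace K} {z : G K} (hz : IsArchPosScalar w z) (h : G K) :
    H770.B770 F u ψ (h * z) = H770.B770 F u ψ h := by
  unfold H770.B770
  congr 1
  funext g
  rw [← mul_assoc, hu.arch_scalar w z hz]

theorem coef_right_cpt130 {u : G K → ℂ} (hu : IsCuspFn 𝔫 u) (ψ : G K → ℂ)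
    {w : InfinitePlace K} {k : G K} (hk : IsArchCompact w k) (h : G K) :
    H770.B770 F u ψ (h * k) = H770.B770 F u ψ h := by
  unfold H770.B770
  congr 1
  funext g
  rw [← mul_assoc, hu.arch_compact w k hk]

theorem coef_one130 (u : G K → ℂ) : H770.B770 F u u 1 = pair F u u := by
  unfold H770.B770 pair
  congr 1
  funext g
  rw [mul_one]

/-- **The functional equation of the matrix coefficient**: for `a` of component `torus d` at the
complex place `w` and `h'` trivial at `w`, `4π B(a h') = m(d) B(h')`. -/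
theorem coef_torus130 (hcx : ∀ w : InfinitePlace K, w.IsComplex) {u : G K → ℂ}
    (hu : IsCuspFn 𝔫 u) {w : InfinitePlace K} {m : ℝ → ℂ} (hm : MeanEigC u w m) {d : ℝ}
    (hd : 0 < d) {a h' : G K} (ha : IsLocalAtInf w a) (hac : infComp w a = torus d)
    (hh' : TrivAtInf w h') :
    (∫ p, ((Real.sin p.2 : ℝ) : ℂ) ∂H770.nuS770) * H770.B770 F u u (a * h')
      = m d * H770.B770 F u u h' := by
  have hT1 := T1.t1Out K
  obtain ⟨-, hLC', hT2, hSC⟩ := hT1.locComp
  have := hLC'
  have := hT2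
  have := hSC
  have hBor : BorelSpace (G K) := ⟨rfl⟩
  have := F.haar
  have hfin := H770.isFiniteMeasure_nuS770
  have hnr : ¬ w.IsReal := InfinitePlace.not_isReal_iff_isComplex.2 (hcx w)
  have hex : ∀ α β : ℝ, ∃ k : G K, IsArchCompact w k ∧ infComp w k = rotZ α * rotY β :=
    fun α β => H878.exists_archCompact878 w _
      (H770.unitary_mul770 (H770.rotZ_unitary770 α) (H770.rotY_unitary770 β))
      (fun h => absurd h hnr)
  choose k hk using hex
  set Y : ℝ → ℝ → G K := fun α β => k α β * a with hYdef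
  have hY : IsSphereAt w d Y := fun α β =>
    ⟨H878.isLocalAtInf_mul878 (hk α β).1.1 ha, by
      rw [hYdef, H878.infComp_mul878, (hk α β).2, hac]⟩
  have hYc : Continuous fun p : ℝ × ℝ => Y p.1 p.2 :=
    H546.continuous_sphere_h546 (H472.subLocCont472 K) hY
  obtain ⟨C, hC⟩ := hu.bdd
  have hφc : Continuous fun g : G K => u (g * h') :=
    hu.cont.comp (continuous_id.mul continuous_const)
  have hs : Continuous fun p : ℝ × ℝ => ((Real.sin p.2 : ℝ) : ℂ) :=
    Complex.continuous_ofReal.comp (Real.continuous_sin.comp continuous_snd)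
  have hsi : Integrable (fun p : ℝ × ℝ => ((Real.sin p.2 : ℝ) : ℂ)) H770.nuS770 := by
    refine Integrable.of_bound hs.aestronglyMeasurable 1 (Filter.Eventually.of_forall fun p => ?_)
    rw [Complex.norm_real, Real.norm_eq_abs]
    exact Real.abs_sin_le_one _
  have key := fubini_pair130 F.μ F.D F.fin H770.nuS770 hφc hu.cont (fun g => hC (g * h')) hC hYc
    hs hsi
  -- the left side
  have hL : ∀ g : G K,
      ∫ p, u (g * Y p.1 p.2 * h') * ((Real.sin p.2 : ℝ) : ℂ) ∂H770.nuS770 = m d * u (g * h') := by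
    intro g
    have e : ∀ p : ℝ × ℝ, g * Y p.1 p.2 * h' = g * h' * Y p.1 p.2 := fun p => by
      rw [mul_assoc, commute_local_triv130 (hY p.1 p.2).1 hh', ← mul_assoc]
    simp only [e]
    rw [← H770.sphereMean_eq770 hYc hu.cont hC (g * h')]
    exact hm d hd Y hY (g * h')
  -- the right side
  have hR : ∀ p : ℝ × ℝ, ∫ g in F.D, u (g * Y p.1 p.2 * h') * conj (u g) ∂F.μ
      = H770.B770 F u u (a * h') := by
    intro p
    have e : H770.B770 F u u (k p.1 p.2 * (a * h')) = H770.B770 F u u (a * h') :=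
      H770.B_left770 (H429.subTransl429 K) hT1 F hu hu (hk p.1 p.2).1 (a * h')
    rw [← e]
    unfold H770.B770
    congr 1
    funext g
    rw [hYdef]
    simp only [mul_assoc]
  simp only [hL, hR] at key
  have e2 : ∫ g in F.D, m d * u (g * h') * conj (u g) ∂F.μ = m d * H770.B770 F u u h' := by
    unfold H770.B770
    rw [← integral_const_mul]
    congr 1
    funext g
    ring
  have e3 : ∫ p, ((Real.sin p.2 : ℝ) : ℂ) * H770.B770 F u u (a * h') ∂H770.nuS770
      = (∫ p, ((Real.sin p.2 : ℝ) : ℂ) ∂H770.nuS770) * H770.B770 F u u (a * h') :=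
    integral_mul_const _ _
  rw [← e3, ← key, e2]

/-- The matrix coefficient at `x h'`, `x` supported at `w`, `h'` trivial at `w`, is the matrix
coefficient at `a h'` for a torus element `a` at `w` of parameter `d ≥ 0` which depends on `x`
only. -/
theorem coef_cartan130 (hcx : ∀ w : InfinitePlace K, w.IsComplex) {w : InfinitePlace K}
    {x : G K} (hx : IsLocalAtInf w x) :
    ∃ (d : ℝ) (a : G K), 0 ≤ d ∧ IsLocalAtInf w a ∧ infComp w a = torus d ∧
      ∀ (u : G K → ℂ), IsCuspFn 𝔫 u → ∀ h' : G K, TrivAtInf w h' →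
        H770.B770 F u u (x * h') = H770.B770 F u u (a * h') := by
  have hT1 := T1.t1Out K
  have hnr : ¬ w.IsReal := InfinitePlace.not_isReal_iff_isComplex.2 (hcx w)
  obtain ⟨U₁, U₂, d, r, hU₁, hU₂, hd, hr, hX⟩ :=
    cartan_torus130 (infComp w x) (H907.det_infComp_ne_zero907 w x)
  obtain ⟨κ₁, hκ₁, hκ₁c⟩ := H878.exists_archCompact878 w U₁ hU₁ (fun h => absurd h hnr)
  obtain ⟨κ₂, hκ₂, hκ₂c⟩ := H878.exists_archCompact878 w U₂ hU₂ (fun h => absurd h hnr)
  obtain ⟨a, ha, hac⟩ := H878.exists_local878 w (torus d) (H878.det_torus878 d)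
    (fun h => absurd h hnr)
  have hrdet : (Matrix.diagonal (fun _ : Fin 2 => (r : ℂ))).det ≠ 0 := by
    rw [Matrix.det_diagonal, Fin.prod_univ_two]
    have : (r : ℂ) ≠ 0 := by
      rw [Ne, Complex.ofReal_eq_zero]
      exact hr.ne'
    exact mul_ne_zero this this
  obtain ⟨z, hz, hzc⟩ := H878.exists_local878 w (Matrix.diagonal (fun _ : Fin 2 => (r : ℂ)))
    hrdet (fun h => absurd h hnr)
  have hzs : IsArchPosScalar w z := ⟨hz, r, hr, hzc⟩
  have hprod : IsLocalAtInf w (κ₁ * a * κ₂ * z) :=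
    H878.isLocalAtInf_mul878 (H878.isLocalAtInf_mul878 (H878.isLocalAtInf_mul878 hκ₁.1 ha) hκ₂.1)
      hz
  have hxe : x = κ₁ * a * κ₂ * z := by
    refine H878.local_unique878 hx hprod ?_
    rw [H878.infComp_mul878, H878.infComp_mul878, H878.infComp_mul878, hκ₁c, hac, hκ₂c, hzc]
    exact hX
  refine ⟨d, a, hd, ha, hac, fun u hu h' hh' => ?_⟩
  have hκz : IsLocalAtInf w (κ₂ * z) := H878.isLocalAtInf_mul878 hκ₂.1 hz
  have e1 : x * h' = κ₁ * (a * h' * κ₂ * z) := by
    rw [hxe]
    have := commute_local_triv130 hκz hh'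
    calc κ₁ * a * κ₂ * z * h' = κ₁ * a * (κ₂ * z * h') := by simp only [mul_assoc]
      _ = κ₁ * a * (h' * (κ₂ * z)) := by rw [this]
      _ = κ₁ * (a * h' * κ₂ * z) := by simp only [mul_assoc]
  rw [e1, H770.B_left770 (H429.subTransl429 K) hT1 F hu hu hκ₁ (a * h' * κ₂ * z),
    coef_right_scalar130 F hu u hzs, coef_right_cpt130 F hu u hκ₂]

/-- One step of the induction over the places. -/
theorem coef_step130 (hcx : ∀ w : InfinitePlace K, w.IsComplex) {u u' : G K → ℂ}
    (hu : IsCuspFn 𝔫 u) (hu' : IsCuspFn 𝔫 u') {w : InfinitePlace K} {m : ℝ → ℂ}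
    (hm : MeanEigC u w m) (hm' : MeanEigC u' w m) {x h' : G K} (hx : IsLocalAtInf w x)
    (hh' : TrivAtInf w h') (hIH : H770.B770 F u u h' = H770.B770 F u' u' h') :
    H770.B770 F u u (x * h') = H770.B770 F u' u' (x * h') := by
  obtain ⟨d, a, hd, ha, hac, hred⟩ := coef_cartan130 (𝔫 := 𝔫) F hcx hx
  rw [hred u hu h' hh', hred u' hu' h' hh']
  rcases hd.eq_or_lt with h0 | hpos
  · have ha1 : a = 1 := by
      refine H878.local_unique878 ha ⟨fun w' _ => ?_, fun v => ?_⟩ ?_
      · exact (H129.trivAtInf_iff129 w' 1).2 (map_one _)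
      · exact (H129.trivAtFin_iff129 v 1).2 (map_one _)
      · rw [hac, ← h0, H879.torus_zero879, H878.infComp_one878]
    rw [ha1, one_mul]
    exact hIH
  · have h1 := coef_torus130 F hcx hu hm hpos ha hac hh'
    have h2 := coef_torus130 F hcx hu' hm' hpos ha hac hh'
    rw [hIH, ← h2] at h1
    exact mul_left_cancel₀ sphereMass_ne_zero130 h1

/-- **The matrix coefficients of two unit eigenfunctions with the same eigenvalue functions of
the sphere means agree on the elements which are trivial at the finite places.** -/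
theorem coef_eq130 (hcx : ∀ w : InfinitePlace K, w.IsComplex) {u u' : G K → ℂ}
    (hu : IsCuspFn 𝔫 u) (hu' : IsCuspFn 𝔫 u') (h1 : pair F u u = 1) (h1' : pair F u' u' = 1)
    {m : InfinitePlace K → ℝ → ℂ} (hm : ∀ w, MeanEigC u w (m w))
    (hm' : ∀ w, MeanEigC u' w (m w)) (S : Finset (InfinitePlace K)) :
    ∀ h : G K, (∀ v : HeightOneSpectrum (𝓞 K), TrivAtFin v h) →
      (∀ w : InfinitePlace K, w ∉ S → TrivAtInf w h) →
      H770.B770 F u u h = H770.B770 F u' u' h := by
  classical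
  induction S using Finset.induction_on with
  | empty =>
    intro h hF hI
    have e : h = 1 := by
      refine H129.G_ext129 (fun w => ?_) (fun v => ?_)
      · rw [map_one]
        exact (H129.trivAtInf_iff129 w h).1 (hI w (Finset.notMem_empty w))
      · rw [map_one]
        exact (H129.trivAtFin_iff129 v h).1 (hF v)
    rw [e, coef_one130, coef_one130, h1, h1']
  | insert w S hw ih =>
    intro h hF hI
    set x : G K := H429.locInf429 w (H129.infCompHom129 w h) with hxdef
    have hx : IsLocalAtInf w x := H429.isLocalAtInf_locInf429 w _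
    have hx' := (H429.isLocalAtInf_iff429 w x).1 hx
    set h' : G K := x⁻¹ * h with hh'def
    have hh'w : TrivAtInf w h' := by
      rw [H129.trivAtInf_iff129, hh'def, map_mul, map_inv, hxdef, H429.infCompHom_locInf429,
        inv_mul_cancel]
    have hh'F : ∀ v : HeightOneSpectrum (𝓞 K), TrivAtFin v h' := fun v => by
      rw [H129.trivAtFin_iff129, hh'def, map_mul, map_inv, hx'.2 v, inv_one, one_mul]
      exact (H129.trivAtFin_iff129 v h).1 (hF v)
    have hh'I : ∀ w' : InfinitePlace K, w' ∉ S → TrivAtInf w' h' := fun w' hw' => by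
      by_cases e : w' = w
      · subst e
        exact hh'w
      · rw [H129.trivAtInf_iff129, hh'def, map_mul, map_inv, hx'.1 w' e, inv_one, one_mul]
        refine (H129.trivAtInf_iff129 w' h).1 (hI w' ?_)
        rw [Finset.mem_insert, not_or]
        exact ⟨e, hw'⟩
    have hxe : h = x * h' := by
      rw [hh'def, mul_inv_cancel_left]
    rw [hxe]
    exact coef_step130 F hcx hu hu' (hm w) (hm' w) hx hh'w (ih h' hh'F hh'I)

/-- The pairing `⟨R(f) u, u⟩` is the integral of `f` against the matrix coefficient. -/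
theorem pair_conv_eq130 {u : G K → ℂ} (hu : IsCuspFn 𝔫 u) {f : G K → ℂ} (hf : IsTestFn 𝔫 f) :
    pair F (conv F f u) u = ∫ h, f h * H770.B770 F u u h ∂F.μ := by
  have hT1 := T1.t1Out K
  obtain ⟨-, hLC', hT2, hSC⟩ := hT1.locComp
  have := hLC'
  have := hT2
  have := hSC
  have hBor : BorelSpace (G K) := ⟨rfl⟩
  have := F.haar
  obtain ⟨C, hC⟩ := hu.bdd
  have hfint : Integrable f F.μ := hf.cont.integrable_of_hasCompactSupport hf.cpt
  have key := fubini_pair130 F.μ F.D F.fin F.μ hu.cont hu.cont hC hC (y := fun h : G K => h)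
    continuous_id hf.cont hfint
  exact key

/-- **The eigenvalue of `R(f)` depends on the eigenvalue functions of the sphere means only**, for
a test function `f` which is supported in `GL₂(K_∞) U(𝔫)`. -/
theorem convEig_eq130 (hcx : ∀ w : InfinitePlace K, w.IsComplex) {u u' : G K → ℂ}
    (hu : IsCuspFn 𝔫 u) (hu' : IsCuspFn 𝔫 u') (h1 : pair F u u = 1) (h1' : pair F u' u' = 1)
    {m : InfinitePlace K → ℝ → ℂ} (hm : ∀ w, MeanEigC u w (m w))
    (hm' : ∀ w, MeanEigC u' w (m w)) {f : G K → ℂ} (hf : IsTestFn 𝔫 f)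
    (hsupp : ∀ g : G K, f g ≠ 0 → H437.FinLevel437 𝔫 g) :
    pair F (conv F f u) u = pair F (conv F f u') u' := by
  rw [pair_conv_eq130 F hu hf, pair_conv_eq130 F hu' hf]
  congr 1
  funext h
  by_cases h0 : f h = 0
  · rw [h0, zero_mul, zero_mul]
  · congr 1
    have hlev : InLevelGroup 𝔫 ((H437.pInf437 h)⁻¹ * h) :=
      H437.inLevelGroup_finPart437 (hsupp h h0)
    have hdec : h = H437.pInf437 h * ((H437.pInf437 h)⁻¹ * h) := by
      rw [mul_inv_cancel_left]
    have hF : ∀ v : HeightOneSpectrum (𝓞 K), TrivAtFin v (H437.pInf437 h) := fun v => by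
      have := congrArg Units.val (H437.fGL_pInf437 v h)
      rwa [H437.fGL_val437, Units.val_one] at this
    have e := coef_eq130 F hcx hu hu' h1 h1' hm hm' Finset.univ (H437.pInf437 h) hF
      (fun w hw => absurd (Finset.mem_univ w) hw)
    rw [hdec, coef_right_level130 F u u hu.level_inv hlev,
      coef_right_level130 F u' u' hu'.level_inv hlev]
    exact e

end Coeff

/-! ## 4. Admissibility -/

section Adm

open Fermat.Agent.LT.T8.H864 Fermat.Agent.LT.H51.MS4 Fermat.Agent.LT.T2.H907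

variable {K : Type} [Field K] [NumberField K]

/-- The test functions of helper907 are supported in `GL₂(K_∞) U(𝔫)`. -/
theorem finLevel_of_apx130 (F : Frame K) {𝔫 : Ideal (𝓞 K)} {η : ℝ} (hη : 0 < η) {g : G K}
    (hg : apx907 F 𝔫 η g ≠ 0) : H437.FinLevel437 𝔫 g := by
  intro v i j
  have hb : bump907 𝔫 η g ≠ 0 := by
    intro h0
    apply hg
    unfold apx907 testFn907
    rw [h0, mul_zero, Complex.ofReal_zero]
  have hP := (pfin_of_bump907_ne_zero hη hb).1 v i j
  refine ⟨?_, ?_⟩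
  · rw [← coe_finCompHom]
    exact hP.1
  · rw [← coe_finCompHom, map_inv]
    exact hP.2

/-- The approximate identity of `approxSeq130`, with its support. -/
theorem approxSeqSupp130 (K : Type) [Field K] [NumberField K] (𝔫 : Ideal (𝓞 K)) (h𝔫 : 𝔫 ≠ ⊥)
    (F : Frame K) :
    ∃ f : ℕ → G K → ℂ, (∀ k, IsSphTestFn 𝔫 (f k)) ∧
      (∀ k (g : G K), f k g ≠ 0 → H437.FinLevel437 𝔫 g) ∧
      ∀ φ : G K → ℂ, IsCuspFn 𝔫 φ →
        Tendsto (fun k => nsq F (fun g => conv F (f k) φ g - φ g)) atTop (𝓝 0) := by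
  have hC : ConvCusp K 𝔫 := convCusp_closed K 𝔫 h𝔫
  have := borelSpace_G907 (K := K)
  have := F.haar
  set η : ℕ → ℝ := fun k => 1 / ((k : ℝ) + 1) with hη
  have hηpos : ∀ k, 0 < η k := fun k => by positivity
  have hη1 : ∀ k, η k ≤ 1 := fun k => by
    rw [hη, div_le_one (by positivity)]
    have : (0 : ℝ) ≤ k := Nat.cast_nonneg k
    linarith
  refine ⟨fun k => apx907 F 𝔫 (η k), fun k => isSphTestFn_testFn907 h𝔫 (hηpos k) (hη1 k) _,
    fun k g hg => finLevel_of_apx130 F (hηpos k) hg, fun φ hφ => ?_⟩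
  obtain ⟨B, hB⟩ := hφ.bdd
  have hB0 : 0 ≤ B := (norm_nonneg _).trans (hB 1)
  set ψ : ℕ → G K → ℂ := fun k g => conv F (apx907 F 𝔫 (η k)) φ g - φ g with hψ
  have hψc : ∀ k, Continuous (ψ k) := fun k =>
    ((hC F).2.2.1 _ φ (isTestFn_testFn907 h𝔫 (hηpos k) (hη1 k) _) hφ).cont.sub hφ.cont
  have hψb : ∀ k g, ‖ψ k g‖ ≤ 2 * B := fun k g => by
    refine norm_conv_sub_le907 F h𝔫 (hηpos k) (hη1 k) hφ.cont g fun h _ => ?_
    calc ‖φ (g * h) - φ g‖ ≤ ‖φ (g * h)‖ + ‖φ g‖ := norm_sub_le _ _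
      _ ≤ B + B := add_le_add (hB _) (hB _)
      _ = 2 * B := by ring
  have hψlim : ∀ g, Tendsto (fun k => ψ k g) atTop (𝓝 0) := fun g => by
    rw [Metric.tendsto_atTop]
    intro ε' hε'
    obtain ⟨k₀, hk₀⟩ := exists_close907 h𝔫 hφ.cont hφ.level_inv hφ.arch_compact g
      (half_pos hε')
    refine ⟨k₀, fun k hk => ?_⟩
    rw [dist_zero_right]
    have hle : ‖ψ k g‖ ≤ ε' / 2 := by
      refine norm_conv_sub_le907 F h𝔫 (hηpos k) (hη1 k) hφ.cont g fun h hb => ?_
      obtain ⟨hP, hD⟩ := pfin_of_bump907_ne_zero (hηpos k) hb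
      refine (hk₀ h hP (hD.le.trans ?_)).le
      rw [hη]
      apply one_div_le_one_div_of_le (by positivity)
      have : (k₀ : ℝ) ≤ k := Nat.cast_le.mpr hk
      linarith
    linarith
  have hfin : IsFiniteMeasure (F.μ.restrict F.D) :=
    ⟨by rw [Measure.restrict_apply_univ]; exact F.fin⟩
  have hlim : Tendsto (fun k => ∫ g in F.D, ψ k g * (starRingEnd ℂ) (ψ k g) ∂F.μ) atTop
      (𝓝 (∫ _ in F.D, (0 : ℂ) ∂F.μ)) := by
    refine tendsto_integral_of_dominated_convergence (fun _ => (2 * B) ^ 2)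
      (fun k => ?_) (integrable_const _) (fun k => Eventually.of_forall fun g => ?_)
      (Eventually.of_forall fun g => ?_)
    · exact ((hψc k).mul (Complex.continuous_conj.comp (hψc k))).aestronglyMeasurable
    · rw [norm_mul, RCLike.norm_conj, ← sq]
      exact pow_le_pow_left₀ (norm_nonneg _) (hψb k g) 2
    · have := (hψlim g).mul ((Complex.continuous_conj.tendsto 0).comp (hψlim g))
      simpa using this
  rw [integral_zero] at hlim
  have h0 : Tendsto (fun k => (∫ g in F.D, ψ k g * (starRingEnd ℂ) (ψ k g) ∂F.μ).re) atTop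
      (𝓝 ((0 : ℂ).re)) := (Complex.continuous_re.tendsto 0).comp hlim
  rw [Complex.zero_re] at h0
  exact h0

/-- **ADMISSIBILITY.**  For a totally complex field: the members of an orthonormal family of
joint eigen-cusp-functions of level `U(𝔫)` which have the same eigenvalue functions of the sphere
means as a given member are finite in number. -/
theorem finite_meanClass130 (hcx : ∀ w : InfinitePlace K, w.IsComplex) {𝔫 : Ideal (𝓞 K)}
    (h𝔫 : 𝔫 ≠ ⊥) {F : Frame K} {ι : Type} {u : ι → G K → ℂ}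
    {m : ι → InfinitePlace K → ℝ → ℂ} (hcusp : ∀ j, IsCuspFn 𝔫 (u j))
    (hone : ∀ j, pair F (u j) (u j) = 1) (horth : ∀ i j, i ≠ j → pair F (u i) (u j) = 0)
    (hmean : ∀ j w, MeanEigC (u j) w (m j w))
    (heig : ∀ T, IsOp 𝔫 F T → ∀ j, ∃ c : ℂ, T (u j) = c • u j) (j₀ : ι) :
    {j : ι | ∀ (w : InfinitePlace K) (d : ℝ), 0 < d → m j w d = m j₀ w d}.Finite := by
  obtain ⟨f, hsph, hsupp, hlim⟩ := approxSeqSupp130 K 𝔫 h𝔫 F
  have hHS : HSBound K 𝔫 := (estimates_closed K 𝔫 h𝔫).2.2.2.2.2.1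
  have hex : ∀ (k : ℕ) (j : ι), ∃ c : ℂ, conv F (f k) (u j) = c • u j := fun k j =>
    heig (conv F (f k)) (IsOp.conv (f k) (hsph k)) j
  choose c hc using hex
  obtain ⟨k, hk⟩ := large_of_approx130 (hone j₀) (hlim (u j₀) (hcusp j₀)) (fun k => c k j₀)
    (fun k => hc k j₀)
  have hcp : ∀ j, c k j = pair F (conv F (f k) (u j)) (u j) := fun j => by
    rw [hc k j, H566.pair_smul_left566, hone j, mul_one]
  refine (finite_large130 hHS hcusp hone horth (f k) (hsph k).test (c k) (hc k)).subset ?_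
  intro j hj
  have hm' : ∀ w, MeanEigC (u j) w (m j₀ w) := fun w d hd Y hY g => by
    rw [← hj w d hd]
    exact hmean j w d hd Y hY g
  have e : c k j = c k j₀ := by
    rw [hcp j, hcp j₀]
    exact convEig_eq130 F hcx (hcusp j) (hcusp j₀) (hone j) (hone j₀) hm' (hmean j₀)
      (hsph k).test (hsupp k)
  show 1 / 2 < ‖c k j‖
  rw [e]
  exact hk

end Adm

end Fermat.Agent.LT.T2

end
end
-- ===== PACK-END LT/T2/Admissible.lean

-- ===== PACK-BEGIN LT/T7/H893/SupplyClosed5.lean
section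




/-!
# Row LT, tower T7, node T7.L2.1 `SupplySC` (sub-architect helper893): INTEGRATION v5

OFF-MAIN.  No `sorry`, nothing assumed.  ADDITIVE.  Integration v4 (all bookkeeping leaves
discharged, ONE closure) with the geometric core in the form v2 of the fifth cut
(`SupplyConstrSpec2.lean`: ONE enumeration at the split places).

OPEN (the structure `OpenSupply893e`) = THE GEOMETRIC CORE:
`GlobMatchC893` (helper305: `H305.GlobMatchC305` for `LocHyp893`), `AvgMatchC893`,
`BaseCb P`, `ProdMtCb κ` (every nowhere zero `κ`).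

    supplySC_of_open893e : OpenSupply893e P K K' → T7.SupplySC P K K'
-/

set_option autoImplicit false

open AutomorphicForm IsDedekindDomain NumberField MeasureTheory
open scoped ComplexConjugate

noncomputable section

namespace Fermat.Agent.LT.T7.H893

open Fermat.Agent.LT Fermat.Agent.LT.H556 Fermat.Agent.LT.H556.A0 Fermat.Agent.LT.T7

attribute [local instance] Fermat.Agent.LT.T5.instMeasurableSpaceG

section Closed

variable (P : EKCond)
variable (K K' : Type) [Field K] [NumberField K] [Field K'] [NumberField K'] [Algebra K K']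

/-- **THE OPEN WALL of `SupplySC`** (integration v5): the geometric core, v2. -/
structure OpenSupply893e : Prop where
  globMatch : GlobMatchC893 K K'
  avgMatch : AvgMatchC893 K K'
  base : BaseCb P K K'
  prodMt : ∀ κ : KapFn K K', (∀ D μc T₀ n m, κ D μc T₀ n m ≠ 0) → ProdMtCb K K' κ

variable {P K K'}

/-- **THE STABLE SUPPLY from the open wall (v5).** -/
theorem supplySC_of_open893e (h : OpenSupply893e P K K') : SupplySC P K K' := by
  obtain ⟨κ, hκ0, hκ⟩ := exists_goodKap893b h.globMatch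
  exact supplySC_of_core893 (globC_of893b hκ h.avgMatch)
    (constrRC_of893b h.base (h.prodMt κ hκ0))

end Closed

end Fermat.Agent.LT.T7.H893

end

end
-- ===== PACK-END LT/T7/H893/SupplyClosed5.lean

-- ===== PACK-BEGIN LT/T7/H644/ConvSmall.lean
section



/-!
# Row LT, tower T7, node `ConvAvgC51` (second sub-cut of helper51): EIGHT SMALL LEAVES

OFF-MAIN.  Spec: `T7/P51/ConvAvgSpec.lean` (helper51@0cc224cc9, sha256 dc819a38).  Imports ONLY
Mathlib and the Spec.

    locConvExC644         : P51.LocConvExC51          (P.G2.3)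
    unitConvC644          : P51.UnitConvC51           (P.G2.4, row 2935)
    unitRegC644           : P51.UnitRegC51            (P.G2.10, row 2936)
    testSmulC644 (F)      : P51.TestSmulC51 F         (P.G2.2)
    overFinC644 (K K')    : P51.OverFinC51 K K'       (P.G2.7)
    belowUniqC644 (K K')  : P51.BelowUniqC51 K K'     (P.G2.8)
    belowExC644 (K K')    : P51.BelowExC51 K K'       (P.G2.11)
    totCplxUpC644 (K K')  : P51.TotCplxUpC51 K K'     (P.G2.9)

all VERBATIM, UNCONDITIONAL.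
-/

set_option autoImplicit false
set_option linter.unusedSectionVars false
set_option linter.unusedVariables false
set_option linter.deprecated false
set_option linter.style.haveILetI false

open AutomorphicForm IsDedekindDomain NumberField MeasureTheory
open scoped ContDiff

noncomputable section

namespace Fermat.Agent.LT.T7.H644

open Fermat.Agent.LT.H556 Fermat.Agent.LT.H556.A0 Fermat.Agent.LT.T7
open Fermat.Agent.LT.T7.H305 Fermat.Agent.LT.T7.H893

/-! ## 1. The local leaves -/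

section Local

variable {k : Type} [Field k] [Valued k T6.Γ₀]

theorem exp_neg_le_one644c (n : ℕ) : (WithZero.exp (-(n : ℤ)) : T6.Γ₀) ≤ 1 := by
  rw [← WithZero.exp_zero]
  exact WithZero.exp_le_exp.mpr (by omega)

/-- The entries of `M - 1` have valuation at most `exp (-n)`. -/
def Near644c (n : ℕ) (M : Matrix (Fin 2) (Fin 2) k) : Prop :=
  ∀ i j : Fin 2, Valued.v (M i j - (1 : Matrix (Fin 2) (Fin 2) k) i j) ≤ WithZero.exp (-(n : ℤ))

theorem inU_iff644c (n : ℕ) (g : GL (Fin 2) k) :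
    T6.InU n g ↔ Near644c n (g : Matrix (Fin 2) (Fin 2) k) ∧
      Near644c n ((g⁻¹ : GL (Fin 2) k) : Matrix (Fin 2) (Fin 2) k) :=
  ⟨fun h => ⟨fun i j => (h i j).1, fun i j => (h i j).2⟩, fun h i j => ⟨h.1 i j, h.2 i j⟩⟩

theorem near_mul644c (n : ℕ) {A B : Matrix (Fin 2) (Fin 2) k} (hA : Near644c n A)
    (hB : Near644c n B) : Near644c n (A * B) := by
  intro i j
  have e : A * B - 1 = (A - 1) * (B - 1) + (A - 1) + (B - 1) := by noncomm_ring
  have e' : (A * B) i j - (1 : Matrix (Fin 2) (Fin 2) k) i j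
      = ((A - 1) * (B - 1)) i j + (A i j - (1 : Matrix (Fin 2) (Fin 2) k) i j)
        + (B i j - (1 : Matrix (Fin 2) (Fin 2) k) i j) := by
    have := congrFun (congrFun e i) j
    simpa [Matrix.sub_apply, Matrix.add_apply] using this
  rw [e']
  refine Valuation.map_add_le _ (Valuation.map_add_le _ ?_ (hA i j)) (hB i j)
  rw [Matrix.mul_apply]
  refine Valuation.map_sum_le _ (fun l _ => ?_)
  rw [Valuation.map_mul]
  calc Valued.v ((A - 1) i l) * Valued.v ((B - 1) l j)
      ≤ WithZero.exp (-(n : ℤ)) * 1 :=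
        mul_le_mul' (by simpa [Matrix.sub_apply] using hA i l)
          (le_trans (by simpa [Matrix.sub_apply] using hB l j) (exp_neg_le_one644c n))
    _ = WithZero.exp (-(n : ℤ)) := mul_one _

theorem inU_mul644c (n : ℕ) (g h : GL (Fin 2) k) (hg : T6.InU n g) (hh : T6.InU n h) :
    T6.InU n (g * h) := by
  rw [inU_iff644c] at hg hh ⊢
  refine ⟨?_, ?_⟩
  · rw [Units.val_mul]
    exact near_mul644c n hg.1 hh.1
  · rw [mul_inv_rev, Units.val_mul]
    exact near_mul644c n hh.2 hg.2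

theorem inU_inv644c (n : ℕ) (g : GL (Fin 2) k) (hg : T6.InU n g) : T6.InU n g⁻¹ := by
  rw [inU_iff644c] at hg ⊢
  rw [inv_inv]
  exact ⟨hg.2, hg.1⟩

theorem inU_one644c (n : ℕ) : T6.InU n (1 : GL (Fin 2) k) := by
  intro i j
  simp

theorem unitFn_one644c (n : ℕ) : unitFn893 (k := k) n 1 = 1 := by
  classical
  unfold unitFn893
  rw [if_pos (inU_one644c n)]

theorem unitFn_ne_zero644c (n : ℕ) {g : GL (Fin 2) k} (h : unitFn893 n g ≠ 0) : T6.InU n g := by
  classical
  unfold unitFn893 at h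
  by_contra hg
  rw [if_neg hg] at h
  exact h rfl

end Local

/-- **LEAF P.G2.4 = UNIT-CONV** (`P51.UnitConvC51`, VERBATIM). -/
theorem unitConvC644 : P51.UnitConvC51 := by
  classical
  intro k _ _ n X _ g
  refine ⟨{1}, ?_, ?_, ?_⟩
  · intro h hh h' hh' _
    rw [Finset.mem_singleton] at hh hh'
    rw [hh, hh']
  · intro h hne
    have h1 : unitFn893 n h ≠ 0 := fun h0 => hne (by rw [h0, zero_mul])
    exact ⟨1, Finset.mem_singleton_self _, h, unitFn_ne_zero644c n h1, (one_mul h).symm⟩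
  · rw [Finset.sum_singleton, unitFn_one644c, one_mul, inv_one, one_mul]

/-- **LEAF P.G2.10 = UNIT-REG** (`P51.UnitRegC51`, VERBATIM). -/
theorem unitRegC644 : P51.UnitRegC51 := by
  classical
  intro k _ _ n
  refine ⟨?_, ⟨{1}, ?_⟩⟩
  · intro u u' g hu hu'
    have hiff : T6.InU n (u * g * u') ↔ T6.InU n g := by
      constructor
      · intro h
        have h1 := inU_mul644c n _ _ (inU_mul644c n _ _ (inU_inv644c n u hu) h)
          (inU_inv644c n u' hu')
        have e : u⁻¹ * (u * g * u') * u'⁻¹ = g := by group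
        rwa [e] at h1
      · intro h
        exact inU_mul644c n _ _ (inU_mul644c n _ _ hu h) hu'
    unfold unitFn893
    by_cases hg : T6.InU n g
    · rw [if_pos hg, if_pos (hiff.2 hg)]
    · rw [if_neg hg, if_neg (fun h => hg (hiff.1 h))]
  · intro g hg
    exact ⟨1, Finset.mem_singleton_self _, g, unitFn_ne_zero644c n hg, (one_mul g).symm⟩

/-- A finite set has a system of representatives modulo `U(n)` on the right. -/
theorem exists_reps644c {k : Type} [Field k] [Valued k T6.Γ₀] (n : ℕ)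
    (F : Finset (GL (Fin 2) k)) :
    ∃ R : Finset (GL (Fin 2) k),
      (∀ h ∈ R, ∀ h' ∈ R, (∃ u : GL (Fin 2) k, T6.InU n u ∧ h' = h * u) → h = h') ∧
      ∀ x ∈ F, ∃ h' ∈ R, ∃ u : GL (Fin 2) k, T6.InU n u ∧ x = h' * u := by
  classical
  induction F using Finset.induction_on with
  | empty => exact ⟨∅, fun h hh => absurd hh (Finset.notMem_empty h),
      fun x hx => absurd hx (Finset.notMem_empty x)⟩
  | insert a F _ ih =>
    obtain ⟨R, hR1, hR2⟩ := ih
    by_cases ha : ∃ h' ∈ R, ∃ u : GL (Fin 2) k, T6.InU n u ∧ a = h' * u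
    · refine ⟨R, hR1, fun x hx => ?_⟩
      rcases Finset.mem_insert.1 hx with h1 | h1
      · rw [h1]; exact ha
      · exact hR2 x h1
    · refine ⟨insert a R, ?_, ?_⟩
      · intro h hh h' hh' ⟨u, hu, e⟩
        rcases Finset.mem_insert.1 hh with h1 | h1
        · rcases Finset.mem_insert.1 hh' with h2 | h2
          · rw [h1, h2]
          · exfalso
            refine ha ⟨h', h2, u⁻¹, inU_inv644c n u hu, ?_⟩
            rw [← h1, e]; group
        · rcases Finset.mem_insert.1 hh' with h2 | h2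
          · exfalso
            exact ha ⟨h, h1, u, hu, by rw [← h2, e]⟩
          · exact hR1 h h1 h' h2 ⟨u, hu, e⟩
      · intro x hx
        rcases Finset.mem_insert.1 hx with h1 | h1
        · exact ⟨a, Finset.mem_insert_self _ _, 1, inU_one644c n, by rw [h1, mul_one]⟩
        · obtain ⟨h', hh', u, hu, e⟩ := hR2 x h1
          exact ⟨h', Finset.mem_insert_of_mem hh', u, hu, e⟩

/-- **LEAF P.G2.3 = LOC-CONV-EX** (`P51.LocConvExC51`, VERBATIM). -/
theorem locConvExC644 : P51.LocConvExC51 := by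
  classical
  intro k _ _ n φ ψ _ hφ _ _
  obtain ⟨F, hF⟩ := hφ
  obtain ⟨R, hR1, hR2⟩ := exists_reps644c n F
  refine ⟨fun g => ∑ h ∈ R, φ h * ψ (h⁻¹ * g), fun g => ⟨R, hR1, fun h hne => ?_, rfl⟩⟩
  have h1 : φ h ≠ 0 := fun h0 => hne (by rw [h0, zero_mul])
  obtain ⟨x, hx, u, hu, e⟩ := hF h h1
  obtain ⟨h', hh', u', hu', e'⟩ := hR2 x hx
  exact ⟨h', hh', u' * u, inU_mul644c n _ _ hu' hu, by rw [e, e', mul_assoc]⟩

/-! ## 2. Scalar multiples of test functions -/

/-- **LEAF P.G2.2 = TEST-SMUL** (`P51.TestSmulC51 F`, VERBATIM). -/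
theorem testSmulC644 (F : Type) [Field F] [NumberField F] : P51.TestSmulC51 F := by
  intro 𝔫 φ c hφ
  refine ⟨hφ.ktype, continuous_const.mul hφ.cont, ?_, ?_, ?_⟩
  · exact HasCompactSupport.mul_left (f := fun _ => c) hφ.supp
  · intro n h h1 h2 g
    exact contDiff_const.mul (hφ.smooth n h h1 h2 g)
  · refine ⟨?_, ?_, ?_, ?_⟩
    · intro u hu g
      show c * φ (g * u) = c * φ g
      rw [hφ.inv.level_right u hu g]
    · intro u hu g
      show c * φ (u * g) = c * φ g
      rw [hφ.inv.level_left u hu g]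
    · intro w k hk g
      show c * φ (g * k) = _ * (c * φ g)
      rw [hφ.inv.arch_right w k hk g]
      ring
    · intro w k hk g
      show c * φ (k * g) = _ * (c * φ g)
      rw [hφ.inv.arch_left w k hk g]
      ring

/-! ## 3. The places -/

section Places

variable {K K' : Type} [Field K] [NumberField K] [Field K'] [NumberField K'] [Algebra K K']

/-- The place of `K` under a place of `K'`. -/
def underC644 (w : HeightOneSpectrum (𝓞 K')) : HeightOneSpectrum (𝓞 K) where
  asIdeal := Ideal.comap (algebraMap (𝓞 K) (𝓞 K')) w.asIdeal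
  isPrime := Ideal.comap_isPrime _ _
  ne_bot := Ideal.IsIntegral.comap_ne_bot (𝓞 K) w.ne_bot

theorem placeOver_underC644 (w : HeightOneSpectrum (𝓞 K')) :
    PlaceOver K K' (underC644 (K := K) w) w := by
  intro x y hxy
  have hy : y = algebraMap (𝓞 K) (𝓞 K') x := by
    apply RingOfIntegers.ext
    exact hxy
  rw [hy]
  exact Ideal.mem_comap

theorem eq_underC644 {v : HeightOneSpectrum (𝓞 K)} {w : HeightOneSpectrum (𝓞 K')}
    (h : PlaceOver K K' v w) : v = underC644 (K := K) w := by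
  apply HeightOneSpectrum.ext
  ext x
  rw [show (underC644 (K := K) w).asIdeal = Ideal.comap (algebraMap (𝓞 K) (𝓞 K')) w.asIdeal
    from rfl, Ideal.mem_comap]
  exact h x _ rfl

theorem liesOver_C644 {v : HeightOneSpectrum (𝓞 K)} {w : HeightOneSpectrum (𝓞 K')}
    (h : PlaceOver K K' v w) : w.asIdeal.LiesOver v.asIdeal := by
  refine ⟨?_⟩
  ext x
  rw [Ideal.under_def, Ideal.mem_comap]
  exact h x (algebraMap (𝓞 K) (𝓞 K') x) rfl

/-- The finite set of the places over `v`. -/
theorem exists_fibreC644 (v : HeightOneSpectrum (𝓞 K)) :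
    ∃ P : Finset (HeightOneSpectrum (𝓞 K')),
      ∀ w' : HeightOneSpectrum (𝓞 K'), w' ∈ P ↔ PlaceOver K K' v w' := by
  classical
  haveI := v.isPrime
  have hfin : (v.asIdeal.primesOver (𝓞 K')).Finite := IsDedekindDomain.primesOver_finite _ _
  have hinj : Set.InjOn (fun w' : HeightOneSpectrum (𝓞 K') => w'.asIdeal)
      {w' | PlaceOver K K' v w'} := fun a _ b _ hab => HeightOneSpectrum.ext hab
  have hsub : (fun w' : HeightOneSpectrum (𝓞 K') => w'.asIdeal) '' {w' | PlaceOver K K' v w'}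
      ⊆ v.asIdeal.primesOver (𝓞 K') := by
    rintro _ ⟨w', hw', rfl⟩
    exact ⟨w'.isPrime, liesOver_C644 hw'⟩
  have hfin' : {w' : HeightOneSpectrum (𝓞 K') | PlaceOver K K' v w'}.Finite :=
    Set.Finite.of_finite_image (hfin.subset hsub) hinj
  exact ⟨hfin'.toFinset, fun w' => by simp⟩

variable (K K')

/-- **LEAF P.G2.7 = OVER-FIN** (`P51.OverFinC51 K K'`, VERBATIM). -/
theorem overFinC644 : P51.OverFinC51 K K' := by
  classical
  intro T
  choose P hP using fun v : HeightOneSpectrum (𝓞 K) => exists_fibreC644 (K' := K') v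
  refine ⟨T.biUnion P, fun w => ?_⟩
  rw [Finset.mem_biUnion]
  exact ⟨fun ⟨v, hv, hw⟩ => ⟨v, hv, (hP v w).1 hw⟩, fun ⟨v, hv, hw⟩ => ⟨v, hv, (hP v w).2 hw⟩⟩

/-- **LEAF P.G2.8 = BELOW-UNIQ** (`P51.BelowUniqC51 K K'`, VERBATIM). -/
theorem belowUniqC644 : P51.BelowUniqC51 K K' := by
  intro v v' w h h'
  rw [eq_underC644 h, eq_underC644 h']

/-- **LEAF P.G2.11 = BELOW-EX** (`P51.BelowExC51 K K'`, VERBATIM). -/
theorem belowExC644 : P51.BelowExC51 K K' :=
  fun w => ⟨underC644 (K := K) w, placeOver_underC644 w⟩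

/-- **LEAF P.G2.9 = TOT-CPLX-UP** (`P51.TotCplxUpC51 K K'`, VERBATIM). -/
theorem totCplxUpC644 : P51.TotCplxUpC51 K K' := by
  intro hK w
  rw [← InfinitePlace.not_isReal_iff_isComplex]
  intro hw
  have h1 : (w.comap (algebraMap K K')).IsReal := InfinitePlace.IsReal.comap _ hw
  exact (InfinitePlace.not_isReal_iff_isComplex.2 (hK _)) h1

end Places

end Fermat.Agent.LT.T7.H644

end

end
-- ===== PACK-END LT/T7/H644/ConvSmall.lean

-- ===== PACK-BEGIN LT/T7/H290/TrOp.lean
section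



/-!
# Row LT, tower T7, node StepSC981 (cut of helper503), leaf SS.4 `TrOpC503` -- helper290 (spare)

OFF-MAIN.  No hole, nothing assumed.  ADDITIVE (new names only, suffix `290`).

    trOpC290 (K) : SS503.TrOpC503 K        (VERBATIM, UNCONDITIONAL)
-/

set_option autoImplicit false
set_option linter.unusedSectionVars false

open AutomorphicForm IsDedekindDomain NumberField MeasureTheory
open scoped ComplexConjugate

noncomputable section

namespace Fermat.Agent.LT.T7.H290S

open Fermat.Agent.LT.H556 Fermat.Agent.LT.H556.A0 Fermat.Agent.LT.T7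
open Fermat.Agent.LT.T7.B981.SS503

attribute [local instance] Fermat.Agent.LT.T5.instMeasurableSpaceG

variable {K : Type} [Field K] [NumberField K]

theorem eigen_pow290 {χ : G K → ℂ} {b : ℂ} {z : G K} (h : ∀ g : G K, χ (g * z) = b * χ g)
    (k : ℕ) (g : G K) : χ (g * z ^ k) = b ^ k * χ g := by
  induction k generalizing g with
  | zero => simp
  | succ k ih =>
    rw [pow_succ, ← mul_assoc, h, ih, pow_succ]
    ring

theorem rconv_smul290 (μ : Measure (G K)) (φ χ : G K → ℂ) (a : ℂ) (y : G K) :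
    T5.Rconv μ φ (fun g => a * χ g) y = a * T5.Rconv μ φ χ y := by
  show ∫ x, φ x * (a * χ (y * x)) ∂μ = a * ∫ x, φ x * χ (y * x) ∂μ
  rw [← integral_const_mul]
  congr 1
  funext x
  ring

/-- **LEAF SS.4 = TR-OP.** -/
theorem trOpC290 (K : Type) [Field K] [NumberField K] : TrOpC503 K := by
  intro μ F hF χ v a b hχ z hz k φ y
  have hb : ∀ g : G K, χ (g * z) = b * χ g := hχ.2 z hz
  refine ⟨?_, ?_⟩
  · rw [rconv_rtr290 hF _ φ χ y]
    have : rtr503 (z ^ (-(k : ℤ)))⁻¹ χ = fun g => b ^ k * χ g := by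
      funext g
      show χ (g * (z ^ (-(k : ℤ)))⁻¹) = b ^ k * χ g
      rw [zpow_neg, inv_inv, zpow_natCast]
      exact eigen_pow290 hb k g
    rw [this]
    exact rconv_smul290 μ φ χ _ y
  · rw [rconv_rtr290 hF _ φ χ y]
    have : rtr503 (z ^ (k : ℤ))⁻¹ χ = fun g => (b ^ k)⁻¹ * χ g := by
      funext g
      show χ (g * (z ^ (k : ℤ))⁻¹) = (b ^ k)⁻¹ * χ g
      rw [zpow_natCast]
      have h1 : χ g = b ^ k * χ (g * (z ^ k)⁻¹) := by
        have := eigen_pow290 hb k (g * (z ^ k)⁻¹)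
        rw [inv_mul_cancel_right] at this
        exact this
      by_cases hbk : b ^ k = 0
      · rw [hbk, inv_zero, zero_mul]
        -- `χ` vanishes identically
        have hχ0 : ∀ g' : G K, χ g' = 0 := by
          intro g'
          have := eigen_pow290 hb k (g' * (z ^ k)⁻¹)
          rw [inv_mul_cancel_right, hbk, zero_mul] at this
          exact this
        exact hχ0 _
      · rw [h1, ← mul_assoc, inv_mul_cancel₀ hbk, one_mul]
    rw [this]
    exact rconv_smul290 μ φ χ _ y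

end Fermat.Agent.LT.T7.H290S

end

end
-- ===== PACK-END LT/T7/H290/TrOp.lean

-- ===== PACK-BEGIN LT/T7/H227/StepMClosed.lean
section











/-!
# Row LT, tower T7, node T7.L2.1.H2a.A.3 `B981.StepMC981` (cut of helper445): CLOSED

OFF-MAIN (helper227, INTEGRATION).  The top `H445.stepMC_of445` (helper445, `StepMTop.lean`
5d29730e) with its eleven leaves plugged, all byte-identical copies of the owners' files:

* `SphExC445`, `SphExLocC445` : helper510 `T7/H510/SphEx.lean`;
* `SphTestC445`, `SphEKC445`  : helper32 `T7/H32/StepMSph.lean` (kits `T5/H32/*`);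
* `SphSuppC445`               : helper330 `T7/H330/SphSupp.lean`;
* `SphOpC445`                 : helper868 `T7/H868/SphOp.lean`;
* `SphPureC445`               : helper904 `T7/H904/SphPure.lean`;
* `SphAvgC445`                : helper233 `T7/H233/SphAvg.lean`;
* `SphArchC445`, `SphConvC445`: helper227 `T7/H227/SphConv.lean`;
* `ArchFibreC445`             : helper904 `T7/H904/ArchFibre.lean`.
-/

set_option autoImplicit false

noncomputable section

namespace Fermat.Agent.LT.T7.H227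

/-- **NODE A.3 = STEP-M, CLOSED**: `B981.StepMC981 K K' H893.LocA893`, unconditional. -/
theorem stepMC981_closed227 (K K' : Type) [Field K] [NumberField K] [Field K'] [NumberField K']
    [Algebra K K'] : B981.StepMC981 K K' H893.LocA893 :=
  H445.stepMC_of445 K K' (H510.sphExC_h510 K) (H510.sphExC_h510 K') H510.sphExLocC_h510
    (H32.sphTestC32 K) (H32.sphTestC32 K') (H32.sphEKC32 K) (H32.sphEKC32 K')
    (H330.sphSuppC330 K) (H330.sphSuppC330 K') (H868.sphOpC868 K) (H868.sphOpC868 K')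
    (H904.sphPureC904 K) (H904.sphPureC904 K') (H233.sphAvgC233 K) (H233.sphAvgC233 K')
    sphArchC227 sphConvC227 (H904.archFibreC904 K K')

end Fermat.Agent.LT.T7.H227

end

end
-- ===== PACK-END LT/T7/H227/StepMClosed.lean

-- ===== PACK-BEGIN LT/T7/H311/ShapeTTop.lean
section




/-!
# Row LT, tower T7, node T7.L2.1.H2a.A.1.7 `ST589.ShapeTC589` (sub-architect helper311):
# THE CUT -- proved Top

OFF-MAIN.  Complete proofs, nothing assumed.

    shapeTC_of311 : PureDC311 K' → PureDC311 K → SphDC311 K' → SphDC311 K → DContC311 K'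
        → DContC311 K → DSuppC311 K' → DSuppC311 K → DIntC311 K' → DIntC311 K
        → SS503.PlacesC503 K K' → SS503.UnitSphC503 → ST589.ShapeTC589 K K'      (VERBATIM)

Mirror of `SS503.shape_new503` (helper503) with the local steps `locD311` in place of the
translations.
-/

set_option autoImplicit false
set_option linter.unusedSectionVars false
set_option linter.unusedVariables false

open AutomorphicForm IsDedekindDomain NumberField MeasureTheory
open scoped ComplexConjugate

noncomputable section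

namespace Fermat.Agent.LT.T7.H311

open Fermat.Agent.LT.H556 Fermat.Agent.LT.H556.A0 Fermat.Agent.LT.T7
open Fermat.Agent.LT.T7.H305 Fermat.Agent.LT.T7.H893 Fermat.Agent.LT.T7.B981
open Fermat.Agent.LT.T7.ST589 Fermat.Agent.LT.T7.B981.SS503

attribute [local instance] Fermat.Agent.LT.T5.instMeasurableSpaceG

/-! ## 1. The spherical components outside the level -/

section Sph

variable {K K' : Type} [Field K] [NumberField K] [Field K'] [NumberField K'] [Algebra K K']

open Classical in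
/-- **The spherical components of the new pair.** -/
theorem sphOut_newT311 (hSD : SphDC311 K) (hSD' : SphDC311 K') (hUn : UnitSphC503) (ℓ : ℕ)
    {T₀ T : Finset (HeightOneSpectrum (𝓞 K))} {T' : Finset (HeightOneSpectrum (𝓞 K'))}
    (hOver : IsOver305 T T')
    {φ₀ : ∀ w : HeightOneSpectrum (𝓞 K'), GL (Fin 2) (w.adicCompletion K') → ℂ}
    {f₀ : ∀ v : HeightOneSpectrum (𝓞 K), GL (Fin 2) (v.adicCompletion K) → ℂ}
    (hsph : SphOut893 ℓ T₀ T φ₀ f₀)
    {v : HeightOneSpectrum (𝓞 K)} {w : HeightOneSpectrum (𝓞 K')} {d : ℕ}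
    (hv0 : v ∉ T₀) (hres : HasResDeg K K' v w d)
    (hinert : (∀ w' : HeightOneSpectrum (𝓞 K'), PlaceOver K K' v w' → w' = w) → d = ℓ)
    (hsplit : ∀ u : ℕ → HeightOneSpectrum (𝓞 K'), (∀ j : ℕ, PlaceOver K K' v (u j)) →
      (∀ j j' : ℕ, j < ℓ → j' < ℓ → u j = u j' → j = j') →
      d = 1 ∧ ∃ j : ℕ, j < ℓ ∧ u j = w)
    {H' : Finset (G K')} {z' : G K'} {H : Finset (G K)} {z : G K}
    (hH' : IsHeckeCosetSystem w H') (hz' : IsScalarUniformizerAt w z')
    (hH : IsHeckeCosetSystem v H) (hz : IsScalarUniformizerAt v z) :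
    SphOut893 ℓ T₀ (T ∪ {v})
      (Function.update (extU503 T' φ₀) w (locD311 w H' z' 1 (extU503 T' φ₀ w)))
      (Function.update (extU503 T f₀) v (locD311 v H z d (extU503 T f₀ v))) := by
  have hvw : PlaceOver K K' v w := hres.1
  intro v' hv' hv0'
  by_cases hvv : v' = v
  · subst hvv
    obtain ⟨A, Av, h1, h2, h3, h4⟩ := sphData_ext503 hUn ℓ hOver hsph v' hv0
    obtain ⟨Av', hAv', hsat⟩ := hSD v' H z hH hz d (extU503 T f₀ v') Av h1
    obtain ⟨Aw', hAw', hsatw⟩ := hSD' w H' z' hH' hz' 1 (extU503 T' φ₀ w) (A w) (h2 w hvw)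
    refine ⟨fun w' => if w' = w then Aw' else A w', Av', ?_, ?_, ?_, ?_⟩
    · rw [Function.update_self]
      exact hAv'
    · intro w' hw'
      by_cases hww : w' = w
      · subst hww
        beta_reduce
        rw [if_pos rfl, Function.update_self]
        exact hAw'
      · beta_reduce
        rw [if_neg hww, Function.update_of_ne hww]
        exact h2 w' hw'
    · intro w' hw' huniq
      have hww : w = w' := huniq w hvw
      subst hww
      beta_reduce
      rw [if_pos rfl]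
      have hd : d = ℓ := hinert huniq
      have hN : Ideal.absNorm w.asIdeal = Ideal.absNorm v'.asIdeal ^ ℓ := by
        rw [hres.2, hd]
      rw [isBC_def503]
      intro x y hx hy
      have e1 := hsat x y hx hy
      have e2 := hsatw (x ^ ℓ) (y ^ ℓ) (pow_ne_zero ℓ hx) (pow_ne_zero ℓ hy)
      have e3 := (isBC_def503 ℓ _ _ _).1 (h3 w hw' huniq) x y hx hy
      rw [hN, pow_one, pow_one] at e2
      rw [e1, e2, e3, hd]
    · intro u hu hinj x y hx hy
      obtain ⟨hd, j₀, hj₀, hj₀w⟩ := hsplit u hu hinj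
      have hN : Ideal.absNorm w.asIdeal = Ideal.absNorm v'.asIdeal := by
        rw [hres.2, hd, pow_one]
      have e1 := hsat x y hx hy
      have e2 := hsatw x y hx hy
      rw [hN, pow_one, pow_one] at e2
      rw [hd, pow_one, pow_one] at e1
      beta_reduce
      rw [e1, h4 u hu hinj x y hx hy,
        ← Finset.mul_prod_erase (Finset.range ℓ) _ (Finset.mem_range.2 hj₀),
        ← Finset.mul_prod_erase (Finset.range ℓ)
          (fun j => satT893 (Ideal.absNorm v'.asIdeal)
            (if u j = w then Aw' else A (u j)) x y) (Finset.mem_range.2 hj₀)]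
      have h5 : satT893 (Ideal.absNorm v'.asIdeal)
          (if u j₀ = w then Aw' else A (u j₀)) x y
          = (x + y) * satT893 (Ideal.absNorm v'.asIdeal) (A (u j₀)) x y := by
        rw [if_pos hj₀w, e2, hj₀w]
      have h6 : ∏ j ∈ (Finset.range ℓ).erase j₀, satT893 (Ideal.absNorm v'.asIdeal)
          (if u j = w then Aw' else A (u j)) x y
          = ∏ j ∈ (Finset.range ℓ).erase j₀,
              satT893 (Ideal.absNorm v'.asIdeal) (A (u j)) x y := by
        refine Finset.prod_congr rfl fun j hj => ?_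
        have hjne : j ≠ j₀ := (Finset.mem_erase.1 hj).1
        have hjl : j < ℓ := Finset.mem_range.1 (Finset.mem_erase.1 hj).2
        have hne : u j ≠ w := fun h => hjne (hinj j j₀ hjl hj₀ (h.trans hj₀w.symm))
        rw [if_neg hne]
      rw [h5, h6]
      ring
  · have hvT : v' ∈ T := by
      rcases Finset.mem_union.1 hv' with h | h
      · exact h
      · exact absurd (Finset.mem_singleton.1 h) hvv
    obtain ⟨A, Av, h1, h2, h3, h4⟩ := hsph v' hvT hv0'
    refine ⟨A, Av, ?_, ?_, h3, h4⟩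
    · rw [Function.update_of_ne hvv, extU_of_mem503 f₀ hvT]
      exact h1
    · intro w' hw'
      have hww : w' ≠ w := fun h => hvv (H557.placeOver_unique_557 (h ▸ hw') hvw)
      have hwT : w' ∈ T' := (hOver w').2 ⟨v', hvT, hw'⟩
      rw [Function.update_of_ne hww, extU_of_mem503 φ₀ hwT]
      exact h2 w' hw'

open Classical in
/-- **The local condition of the new components.** -/
theorem locA_newT311 (hSD : SphDC311 K) (hSD' : SphDC311 K') (hUn : UnitSphC503)
    (B : L2Base K K') (𝔫 : Ideal (𝓞 K)) (μc : @Measure (GL (Fin 2) ℂ) (borel _))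
    {T₀ T : Finset (HeightOneSpectrum (𝓞 K))} {T' : Finset (HeightOneSpectrum (𝓞 K'))}
    {n : HeightOneSpectrum (𝓞 K') → ℕ} {m : HeightOneSpectrum (𝓞 K) → ℕ}
    (hT₀ : T₀ ⊆ T) (hOver : IsOver305 T T')
    {φ₀ : ∀ w : HeightOneSpectrum (𝓞 K'), GL (Fin 2) (w.adicCompletion K') → ℂ}
    {Φ : InfinitePlace K' → GL (Fin 2) ℂ → ℂ}
    {f₀ : ∀ v : HeightOneSpectrum (𝓞 K), GL (Fin 2) (v.adicCompletion K) → ℂ}
    {F : InfinitePlace K → GL (Fin 2) ℂ → ℂ}
    (hloc : LocA893 B 𝔫 μc T₀ n m T φ₀ Φ f₀ F)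
    {v : HeightOneSpectrum (𝓞 K)} {w : HeightOneSpectrum (𝓞 K')} {d : ℕ}
    (hv0 : v ∉ T₀) (hres : HasResDeg K K' v w d)
    (hinert : (∀ w' : HeightOneSpectrum (𝓞 K'), PlaceOver K K' v w' → w' = w) → d = B.l)
    (hsplit : ∀ u : ℕ → HeightOneSpectrum (𝓞 K'), (∀ j : ℕ, PlaceOver K K' v (u j)) →
      (∀ j j' : ℕ, j < B.l → j' < B.l → u j = u j' → j = j') →
      d = 1 ∧ ∃ j : ℕ, j < B.l ∧ u j = w)
    {H' : Finset (G K')} {z' : G K'} {H : Finset (G K)} {z : G K}
    (hH' : IsHeckeCosetSystem w H') (hz' : IsScalarUniformizerAt w z')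
    (hH : IsHeckeCosetSystem v H) (hz : IsScalarUniformizerAt v z) :
    LocA893 B 𝔫 μc T₀ n m (T ∪ {v})
      (Function.update (extU503 T' φ₀) w (locD311 w H' z' 1 (extU503 T' φ₀ w))) Φ
      (Function.update (extU503 T f₀) v (locD311 v H z d (extU503 T f₀ v))) F := by
  have hvw : PlaceOver K K' v w := hres.1
  obtain ⟨h1, h2, h3, h4⟩ := hloc
  refine ⟨?_, ?_, ?_, ?_⟩
  · intro v' hv'
    have hne : v' ≠ v := fun h => hv0 (h ▸ hv')
    rw [Function.update_of_ne hne, extU_of_mem503 f₀ (hT₀ hv')]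
    exact h1 v' hv'
  · intro v' hv' w' hw'
    have hne : w' ≠ w := fun h =>
      hv0 ((H557.placeOver_unique_557 (h ▸ hw') hvw) ▸ hv')
    have hwT : w' ∈ T' := (hOver w').2 ⟨v', hT₀ hv', hw'⟩
    rw [Function.update_of_ne hne, extU_of_mem503 φ₀ hwT]
    exact h2 v' hv' w' hw'
  · exact sphOut_newT311 hSD hSD' hUn B.l hOver h3 hv0 hres hinert hsplit hH' hz' hH hz
  · exact archOk_congr503 h4

end Sph

/-! ## 2. The average of pure tensors of the new pair -/

section Avg

variable {K K' : Type} [Field K] [NumberField K] [Field K'] [NumberField K'] [Algebra K K']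

open Classical in
/-- **The new pair is an average of pure tensors with the local condition `LocA893`.** -/
theorem shape_newT311 (hPu' : PureDC311 K') (hPu : PureDC311 K) (hSD' : SphDC311 K')
    (hSD : SphDC311 K) (hC' : DContC311 K') (hC : DContC311 K) (hS' : DSuppC311 K')
    (hS : DSuppC311 K) (hI' : DIntC311 K') (hI : DIntC311 K) (hUn : UnitSphC503)
    (hDT' : DTestC589 K') (hDT : DTestC589 K)
    (B : L2Base K K') (𝔫 : Ideal (𝓞 K)) (μc : @Measure (GL (Fin 2) ℂ) (borel _))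
    {T₀ : Finset (HeightOneSpectrum (𝓞 K))}
    {n : HeightOneSpectrum (𝓞 K') → ℕ} {m : HeightOneSpectrum (𝓞 K) → ℕ}
    {φ : G K' → ℂ} {f : G K → ℂ}
    (hshape : IsAvgPure (upI (K' := K') 𝔫) 𝔫 T₀ (LocA893 B 𝔫 μc T₀ n m) 1 φ f)
    {v : HeightOneSpectrum (𝓞 K)} {w : HeightOneSpectrum (𝓞 K')} {d : ℕ}
    (P : Finset (HeightOneSpectrum (𝓞 K')))
    (hP : ∀ w' : HeightOneSpectrum (𝓞 K'), w' ∈ P ↔ PlaceOver K K' v w')
    (hv0 : v ∉ T₀) (hres : HasResDeg K K' v w d)
    (hinert : (∀ w' : HeightOneSpectrum (𝓞 K'), PlaceOver K K' v w' → w' = w) → d = B.l)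
    (hsplit : ∀ u : ℕ → HeightOneSpectrum (𝓞 K'), (∀ j : ℕ, PlaceOver K K' v (u j)) →
      (∀ j j' : ℕ, j < B.l → j' < B.l → u j = u j' → j = j') →
      d = 1 ∧ ∃ j : ℕ, j < B.l ∧ u j = w)
    (hvn : ¬ v.asIdeal ∣ 𝔫) (hwn : ¬ w.asIdeal ∣ upI (K' := K') 𝔫)
    {H' : Finset (G K')} {z' : G K'} {H : Finset (G K)} {z : G K}
    (hH' : IsHeckeCosetSystem w H') (hz' : IsScalarUniformizerAt w z')
    (hH : IsHeckeCosetSystem v H) (hz : IsScalarUniformizerAt v z) :
    IsAvgPure (upI (K' := K') 𝔫) 𝔫 T₀ (LocA893 B 𝔫 μc T₀ n m) 1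
      (dStep589 w H' z' 1 φ) (dStep589 v H z d f) := by
  obtain ⟨Ω, i1, i2, i3, i4, i5, i6, ν, i7, T, T', φ₀, Φc, f₀, Fc, hA, hB1, hB2, hC1, hC2,
    ⟨C', hC'c, hD1⟩, ⟨C, hCc, hD2⟩, hE1, hE2⟩ := hshape
  have hvw : PlaceOver K K' v w := hres.1
  have hwP : w ∈ P := (hP w).2 hvw
  have hvS : v ∈ ({v} : Finset (HeightOneSpectrum (𝓞 K))) := Finset.mem_singleton_self v
  -- the key identities
  have hup : ∀ (a : Ω) (h : G K'),
      pure305 (T' a ∪ P) (Function.update (extU503 (T' a) (φ₀ a)) w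
          (locD311 w H' z' 1 (extU503 (T' a) (φ₀ a) w))) (Φc a) h
        = dStep589 w H' z' 1 (pure305 (T' a) (φ₀ a) (Φc a)) h := fun a h =>
    hPu' (T' a) P (φ₀ a) (Φc a) w hwP H' z' hH' hz' 1 h
  have hdn : ∀ (a : Ω) (h : G K),
      pure305 (T a ∪ {v}) (Function.update (extU503 (T a) (f₀ a)) v
          (locD311 v H z d (extU503 (T a) (f₀ a) v))) (Fc a) h
        = dStep589 v H z d (pure305 (T a) (f₀ a) (Fc a)) h := fun a h =>
    hPu (T a) {v} (f₀ a) (Fc a) v hvS H z hH hz d h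
  have hone : ∀ a : Ω, (fun h => (1 : ℂ) * pure305 (T a) (f₀ a) (Fc a) h)
      = pure305 (T a) (f₀ a) (Fc a) := fun a => funext fun h => one_mul _
  have hC2' : Continuous (fun p : Ω × G K => pure305 (T p.1) (f₀ p.1) (Fc p.1) p.2) := by
    have e : (fun p : Ω × G K => pure305 (T p.1) (f₀ p.1) (Fc p.1) p.2)
        = fun p : Ω × G K => (1 : ℂ) * pure305 (T p.1) (f₀ p.1) (Fc p.1) p.2 :=
      funext fun p => (one_mul _).symm
    rw [e]
    exact hC2
  have hE2' : ∀ h : G K, f h = ∫ a, pure305 (T a) (f₀ a) (Fc a) h ∂ν := by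
    intro h
    rw [hE2 h]
    exact integral_congr_ae (Filter.Eventually.of_forall fun a => one_mul _)
  refine ⟨Ω, i1, i2, i3, i4, i5, i6, ν, i7, fun a => T a ∪ {v}, fun a => T' a ∪ P,
    fun a => Function.update (extU503 (T' a) (φ₀ a)) w
      (locD311 w H' z' 1 (extU503 (T' a) (φ₀ a) w)), Φc,
    fun a => Function.update (extU503 (T a) (f₀ a)) v
      (locD311 v H z d (extU503 (T a) (f₀ a) v)), Fc,
    ?_, ?_, ?_, ?_, ?_, ?_, ?_, ?_, ?_⟩
  · -- the local conditions
    intro a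
    obtain ⟨hT₀, hOver, hloc⟩ := hA a
    refine ⟨fun x hx => Finset.mem_union_left _ (hT₀ hx), ?_, ?_⟩
    · intro w'
      constructor
      · intro hw'
        rcases Finset.mem_union.1 hw' with h | h
        · obtain ⟨v', hv', hvw'⟩ := (hOver w').1 h
          exact ⟨v', Finset.mem_union_left _ hv', hvw'⟩
        · exact ⟨v, Finset.mem_union_right _ hvS, (hP w').1 h⟩
      · rintro ⟨v', hv', hvw'⟩
        rcases Finset.mem_union.1 hv' with h | h
        · exact Finset.mem_union_left _ ((hOver w').2 ⟨v', h, hvw'⟩)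
        · have hvv : v' = v := Finset.mem_singleton.1 h
          exact Finset.mem_union_right _ ((hP w').2 (hvv ▸ hvw'))
    · exact locA_newT311 hSD hSD' hUn B 𝔫 μc hT₀ hOver hloc hv0 hres hinert hsplit
        hH' hz' hH hz
  · -- the members upstairs are test functions
    intro a
    have h : pure305 (T' a ∪ P) (Function.update (extU503 (T' a) (φ₀ a)) w
          (locD311 w H' z' 1 (extU503 (T' a) (φ₀ a) w))) (Φc a)
        = dStep589 w H' z' 1 (pure305 (T' a) (φ₀ a) (Φc a)) := funext fun h => hup a h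
    rw [h]
    exact hDT' _ w hwn H' z' hH' hz' _ (hB1 a) 1
  · -- the members downstairs are test functions
    intro a
    have h : (fun h => (1 : ℂ) * pure305 (T a ∪ {v})
          (Function.update (extU503 (T a) (f₀ a)) v
            (locD311 v H z d (extU503 (T a) (f₀ a) v))) (Fc a) h)
        = dStep589 v H z d (fun h => (1 : ℂ) * pure305 (T a) (f₀ a) (Fc a) h) := by
      rw [hone a]
      funext h
      rw [one_mul]
      exact hdn a h
    rw [h]
    exact hDT _ v hvn H z hH hz _ (hB2 a) d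
  · -- joint continuity upstairs
    have h : (fun p : Ω × G K' => pure305 (T' p.1 ∪ P)
          (Function.update (extU503 (T' p.1) (φ₀ p.1)) w
            (locD311 w H' z' 1 (extU503 (T' p.1) (φ₀ p.1) w))) (Φc p.1) p.2)
        = fun p : Ω × G K' => dStep589 w H' z' 1 (pure305 (T' p.1) (φ₀ p.1) (Φc p.1)) p.2 :=
      funext fun p => hup p.1 p.2
    rw [h]
    exact hC' Ω (fun a => pure305 (T' a) (φ₀ a) (Φc a)) hC1 w H' z' 1
  · -- joint continuity downstairs
    have h : (fun p : Ω × G K => (1 : ℂ) * pure305 (T p.1 ∪ {v})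
          (Function.update (extU503 (T p.1) (f₀ p.1)) v
            (locD311 v H z d (extU503 (T p.1) (f₀ p.1) v))) (Fc p.1) p.2)
        = fun p : Ω × G K => dStep589 v H z d (pure305 (T p.1) (f₀ p.1) (Fc p.1)) p.2 :=
      funext fun p => by
        rw [one_mul]
        exact hdn p.1 p.2
    rw [h]
    exact hC Ω (fun a => pure305 (T a) (f₀ a) (Fc a)) hC2' v H z d
  · -- common compact support upstairs
    obtain ⟨C₁, hC₁, hs⟩ := hS' Ω (fun a => pure305 (T' a) (φ₀ a) (Φc a)) C' hC'c hD1 w H' z' 1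
    refine ⟨C₁, hC₁, fun a h hne => hs a h ?_⟩
    rw [hup a h] at hne
    exact hne
  · -- common compact support downstairs
    obtain ⟨C₁, hC₁, hs⟩ := hS Ω (fun a => pure305 (T a) (f₀ a) (Fc a)) C hCc hD2 v H z d
    refine ⟨C₁, hC₁, fun a h hne => hs a h ?_⟩
    rw [hdn a h] at hne
    exact hne
  · -- the integral upstairs
    intro h
    rw [hI' Ω ν (fun a => pure305 (T' a) (φ₀ a) (Φc a)) hC1 φ hE1 w H' z' 1 h]
    exact integral_congr_ae (Filter.Eventually.of_forall fun a => (hup a h).symm)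
  · -- the integral downstairs
    intro h
    rw [hI Ω ν (fun a => pure305 (T a) (f₀ a) (Fc a)) hC2' f hE2' v H z d h]
    refine integral_congr_ae (Filter.Eventually.of_forall fun a => ?_)
    show _ = (1 : ℂ) * _
    rw [one_mul]
    exact (hdn a h).symm

end Avg

/-! ## 3. The node -/

section Top

variable (K K' : Type) [Field K] [NumberField K] [Field K'] [NumberField K'] [Algebra K K']

/-- **THE NODE `ST589.ShapeTC589` FROM THE LEAVES**, VERBATIM. -/
theorem shapeTC_of311 (hPu' : PureDC311 K') (hPu : PureDC311 K) (hSD' : SphDC311 K')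
    (hSD : SphDC311 K) (hC' : DContC311 K') (hC : DContC311 K) (hS' : DSuppC311 K')
    (hS : DSuppC311 K) (hI' : DIntC311 K') (hI : DIntC311 K) (hPl : PlacesC503 K K')
    (hUn : UnitSphC503) : ShapeTC589 K K' := by
  intro hDT' hDT ℓ hcyc _ _ Φ B hB hRam 𝔫 hlev μc _ T₀ n n₀ m hexp w hwS v d hres
    H' z' H z hH' hz' hH hz φ f hgood
  obtain ⟨vP, fr, P, hresP, huniqv, hP, hunr⟩ := hPl ℓ hcyc w
  have hvw : PlaceOver K K' v w := hres.1
  have hvv : v = vP := huniqv v hvw
  rw [← hvv] at hresP hP hunr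
  have hdfr : d = fr := by
    have h2 := H557.two_le_absNorm_557 v
    have e : Ideal.absNorm v.asIdeal ^ d = Ideal.absNorm v.asIdeal ^ fr := by
      rw [← hres.2, ← hresP.2]
    exact Nat.pow_right_injective h2 e
  rw [← hdfr] at hunr
  obtain ⟨hinert, hsplit⟩ := hunr (hRam v w hvw hwS)
  have hvn : ¬ v.asIdeal ∣ 𝔫 := not_dvd_level503 hlev hvw hwS
  have hwn : ¬ w.asIdeal ∣ upI (K' := K') 𝔫 := fun h => hwS ((hlev.mem_S'_g w).2 h)
  have hv0 : v ∉ T₀ := fun h => hvn ((hexp.mem_T₀ v).1 h)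
  have hdeg : B.l = ℓ := hB.deg
  have hinert' : (∀ w' : HeightOneSpectrum (𝓞 K'), PlaceOver K K' v w' → w' = w) → d = B.l :=
    fun h => (hinert h).trans hdeg.symm
  have hsplit' : ∀ u : ℕ → HeightOneSpectrum (𝓞 K'), (∀ j : ℕ, PlaceOver K K' v (u j)) →
      (∀ j j' : ℕ, j < B.l → j' < B.l → u j = u j' → j = j') →
      d = 1 ∧ ∃ j : ℕ, j < B.l ∧ u j = w := by
    rw [hdeg]
    exact hsplit
  exact shape_newT311 hPu' hPu hSD' hSD hC' hC hS' hS hI' hI hUn hDT' hDT B 𝔫 μc hgood.shape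
    P hP hv0 hres hinert' hsplit' hvn hwn hH' hz' hH hz

/-- **`SphDC311` from the leaves `SphTC311` and `SphRecC311`.** -/
theorem sphDC_of311 (F : Type) [Field F] [NumberField F] (hT : SphTC311 F)
    (hR : SphRecC311 F) (hSh : SphShiftC503) : SphDC311 F :=
  hR hT hSh

end Top

end Fermat.Agent.LT.T7.H311

end

end
-- ===== PACK-END LT/T7/H311/ShapeTTop.lean

-- ===== PACK-BEGIN LT/T7/H528/SphT311.lean
section





/-!
# Row LT, tower T7, leaf T7.L2.1.H2a.A.1.7.2 ShT.2 `H311.SphTC311` (cut of helper311): PROVED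

OFF-MAIN (helper528, spare).  `sphTC528 F : H311.SphTC311 F` VERBATIM, unconditional, every
number field.  The local core is `T7/H528/SphHecke.lean` (`isSphFn_hecke528`, `satT_tA528`,
`isCosetSys_of_card528`: the count on the tree with the closed toolkit `T6/H305` of helper305);
the completion is a local field by the closed `T6.H176.instLocalC176`.
New names only, suffix `528`, namespace `Fermat.Agent.LT.T7.H528T`.
-/

set_option autoImplicit false
set_option linter.unusedSectionVars false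
set_option linter.unusedSimpArgs false
set_option linter.unnecessarySeqFocus false
set_option linter.deprecated false

open AutomorphicForm IsDedekindDomain NumberField
open scoped Classical

noncomputable section

namespace Fermat.Agent.LT.T7.H528T

open Fermat.Agent.LT.H556 Fermat.Agent.LT.H556.A0 Fermat.Agent.LT.T7
open Fermat.Agent.LT.T7.H305 Fermat.Agent.LT.T7.H893
open Fermat.Agent.LT.T6 Fermat.Agent.LT.T6.H305 Fermat.Agent.LT.T7.H528S

variable {F : Type} [Field F] [NumberField F]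

theorem finGL_val528 (v : HeightOneSpectrum (𝓞 F)) (g : G F) :
    ((finGL305 v g : GL (Fin 2) (v.adicCompletion F)) :
      Matrix (Fin 2) (Fin 2) (v.adicCompletion F)) = finComp v g := rfl

theorem isT_of_hecke528 (v : HeightOneSpectrum (𝓞 F)) (h : G F) (hint : IsIntegralAt v h)
    (hdet : Valued.v (finComp v h).det = WithZero.exp (-1 : ℤ)) : IsT528 (finGL305 v h) := by
  refine ⟨fun i j => ?_, ?_⟩
  · rw [finGL_val528]
    exact (HeightOneSpectrum.mem_adicCompletionIntegers _ _ _).1 (hint i j)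
  · rw [finGL_val528]
    exact hdet

theorem isIntegralAt_of_inK528 (v : HeightOneSpectrum (𝓞 F)) (g : G F)
    (h : InK (finGL305 v g)) : IsIntegralAt v g := by
  intro i j
  rw [HeightOneSpectrum.mem_adicCompletionIntegers, ← finGL_val528]
  exact h.1 i j

/-- **LEAF ShT.2 = SPH-T**, VERBATIM. -/
theorem sphTC528 (F : Type) [Field F] [NumberField F] : H311.SphTC311 F := by
  intro v H z hH hz ψ A hψ
  have hk : IsLocalField (v.adicCompletion F) (Ideal.absNorm v.asIdeal) :=
    Fermat.Agent.LT.T6.H176.instLocalC176 F v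
  obtain ⟨hcard, hmem, hpair⟩ := hH
  obtain ⟨_, c₀, hc₀, hzc⟩ := hz
  have hc : ((finGL305 v z : GL (Fin 2) (v.adicCompletion F)) :
      Matrix (Fin 2) (Fin 2) (v.adicCompletion F)) = Matrix.diagonal (fun _ => c₀) := by
    rw [finGL_val528, hzc]
  -- the local system
  have hinj : Set.InjOn (finGL305 v) (H : Set (G F)) := by
    intro h hh h' hh' heq
    by_contra hne
    apply hpair h hh h' hh' hne
    apply isIntegralAt_of_inK528
    rw [map_mul, map_inv, heq, inv_mul_cancel]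
    exact inK_one
  have hsys : IsCosetSys ((1 : ℤ), (0 : ℤ)) (H.image (finGL305 v)) := by
    refine isCosetSys_of_card528 hk _ ?_ ?_ ?_
    · intro h' hh'
      obtain ⟨h, hh, rfl⟩ := Finset.mem_image.1 hh'
      exact isT_of_hecke528 v h (hmem h hh).2.1 (hmem h hh).2.2
    · intro a ha b hb hK
      obtain ⟨h, hh, rfl⟩ := Finset.mem_image.1 ha
      obtain ⟨h', hh', rfl⟩ := Finset.mem_image.1 hb
      by_contra hne
      have hne' : h ≠ h' := fun e => hne (by rw [e])
      apply hpair h hh h' hh' hne'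
      apply isIntegralAt_of_inK528
      rw [map_mul, map_inv]
      exact hK
    · rw [Finset.card_image_of_injOn hinj, hcard]
  have key := isSphFn_hecke528 hk (H.image (finGL305 v)) hsys (finGL305 v z) c₀ hc₀ hc ψ A hψ
  have hsum : ∀ x : GL (Fin 2) (v.adicCompletion F),
      ∑ h' ∈ H.image (finGL305 v), ψ (x * (finGL305 v z)⁻¹ * h')
        = ∑ h ∈ H, ψ (x * (finGL305 v z)⁻¹ * finGL305 v h) :=
    fun x => Finset.sum_image hinj
  set s : ℂ := ((Real.sqrt (Ideal.absNorm v.asIdeal : ℝ) : ℝ) : ℂ)⁻¹ with hs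
  refine ⟨s • tA528 (Ideal.absNorm v.asIdeal) A, ?_, ?_⟩
  · have h2 := isSphFn_smul528 s _ _ key
    refine ⟨h2.1, fun x => ?_⟩
    rw [← h2.2 x]
    show s * ∑ h ∈ H, ψ (x * (finGL305 v z)⁻¹ * finGL305 v h) = _
    rw [← hsum x]
  · intro x y hx hy
    rw [satT_smul528, satT_tA528 _ A hψ.1 x y hx hy, hs]
    have hq : ((Real.sqrt (Ideal.absNorm v.asIdeal : ℝ) : ℝ) : ℂ) ≠ 0 := by
      have hpos : 0 < (Ideal.absNorm v.asIdeal : ℝ) := by
        have : Ideal.absNorm v.asIdeal ≠ 0 := by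
          rw [Ne, Ideal.absNorm_eq_zero_iff]
          exact v.ne_bot
        exact_mod_cast Nat.pos_of_ne_zero this
      exact_mod_cast (Real.sqrt_pos.2 hpos).ne'
    field_simp

end Fermat.Agent.LT.T7.H528T

end

end
-- ===== PACK-END LT/T7/H528/SphT311.lean

-- ===== PACK-BEGIN LT/T7/H595/PureD.lean
section




/-!
# Row LT, tower T7, leaf ShT.1 `H311.PureDC311` (cut of helper311 of `ST589.ShapeTC589`)
# (helper595, SPARE): PROVED

OFF-MAIN.  No hole, nothing assumed.  ADDITIVE (new names only, suffix `595`).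

    pureDC595 (F) : H311.PureDC311 F                    (VERBATIM, UNCONDITIONAL, every number field)

Proof.  `S = T ∪ P`, `g₀ = extU503 T f₀`, `P₁ = pure305 S (update g₀ v 1)`.
* FACTORISATION: `pure305 S (update g₀ v ψ) Fc h = ψ (h_v) * P₁ h` (`v ∈ S`).
* `P₁ (h y) = P₁ h` for `y` with trivial components outside `v`.
* So on the functions `Q θ = fun h => θ (h_v) * P₁ h`: `tStep589 (Q θ) = Q (locT311 θ)`,
  `sStep589 (Q θ) = Q (locS311 θ)`, and by the two-step induction
  `dStep589 d (Q θ) = Q (locD311 d θ)`.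
* `pure305 T f₀ Fc = pure305 S g₀ Fc = Q (g₀ v)` (`pure_extU802`, helper802).
No equation lemma of a foreign definition is realised (`rfl` / `show` only).
-/

set_option autoImplicit false

open AutomorphicForm IsDedekindDomain NumberField MeasureTheory

noncomputable section

namespace Fermat.Agent.LT.T7.H595

open Fermat.Agent.LT.H556 Fermat.Agent.LT.H556.A0 Fermat.Agent.LT.T7
open Fermat.Agent.LT.T7.H305 Fermat.Agent.LT.T7.H893 Fermat.Agent.LT.T7.B981
open Fermat.Agent.LT.T7.ST589 Fermat.Agent.LT.T7.H311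

section PureD

variable {F : Type} [Field F] [NumberField F]

/-- The function `h ↦ θ (h_v) * P₁ h`. -/
def qFn595 (v : HeightOneSpectrum (𝓞 F)) (P₁ : G F → ℂ)
    (θ : GL (Fin 2) (v.adicCompletion F) → ℂ) : G F → ℂ :=
  fun h => θ (finGL305 v h) * P₁ h

open Classical in
/-- FACTORISATION of a pure tensor in the component at `v ∈ S`. -/
theorem pure_fact595 {S : Finset (HeightOneSpectrum (𝓞 F))} {v : HeightOneSpectrum (𝓞 F)}
    (hvS : v ∈ S)
    (g₀ : ∀ v : HeightOneSpectrum (𝓞 F), GL (Fin 2) (v.adicCompletion F) → ℂ)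
    (Fc : InfinitePlace F → GL (Fin 2) ℂ → ℂ)
    (ψ : GL (Fin 2) (v.adicCompletion F) → ℂ) (h : G F) :
    pure305 S (Function.update g₀ v ψ) Fc h
      = ψ (finGL305 v h) * pure305 S (Function.update g₀ v (fun _ => 1)) Fc h := by
  by_cases hO : OutT305 S h
  · rw [H802.pure_pos802 _ _ hO, H802.pure_pos802 _ _ hO]
    have h1 : ∏ v' ∈ S, Function.update g₀ v ψ v' (finGL305 v' h)
        = ψ (finGL305 v h) * ∏ v' ∈ S.erase v, g₀ v' (finGL305 v' h) := by
      rw [← Finset.mul_prod_erase S _ hvS, Function.update_self]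
      congr 1
      refine Finset.prod_congr rfl fun v' hv' => ?_
      rw [Function.update_of_ne (Finset.ne_of_mem_erase hv')]
    have h2 : ∏ v' ∈ S, Function.update g₀ v (fun _ => (1 : ℂ)) v' (finGL305 v' h)
        = ∏ v' ∈ S.erase v, g₀ v' (finGL305 v' h) := by
      rw [← Finset.mul_prod_erase S _ hvS, Function.update_self, one_mul]
      refine Finset.prod_congr rfl fun v' hv' => ?_
      rw [Function.update_of_ne (Finset.ne_of_mem_erase hv')]
    rw [h1, h2, mul_assoc]
  · rw [H802.pure_neg802 _ _ hO, H802.pure_neg802 _ _ hO, mul_zero]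

open Classical in
/-- The pure tensor with the component `1` at `v ∈ S` is invariant under the right
translations by the elements with trivial components outside `v`. -/
theorem pure_one_mul595 {S : Finset (HeightOneSpectrum (𝓞 F))} {v : HeightOneSpectrum (𝓞 F)}
    (hvS : v ∈ S)
    (g₀ : ∀ v : HeightOneSpectrum (𝓞 F), GL (Fin 2) (v.adicCompletion F) → ℂ)
    (Fc : InfinitePlace F → GL (Fin 2) ℂ → ℂ) {y : G F}
    (hfin : ∀ v' : HeightOneSpectrum (𝓞 F), v' ≠ v → finGL305 v' y = 1)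
    (hinf : ∀ w : InfinitePlace F, infGL305 w y = 1) (h : G F) :
    pure305 S (Function.update g₀ v (fun _ => 1)) Fc (h * y)
      = pure305 S (Function.update g₀ v (fun _ => 1)) Fc h := by
  have hf : ∀ v' : HeightOneSpectrum (𝓞 F), v' ≠ v →
      finGL305 v' (h * y) = finGL305 v' h := by
    intro v' hv'
    rw [map_mul, hfin v' hv', mul_one]
  have hi : ∀ w : InfinitePlace F, infGL305 w (h * y) = infGL305 w h := by
    intro w
    rw [map_mul, hinf w, mul_one]
  have hOut : OutT305 S (h * y) ↔ OutT305 S h := by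
    rw [H802.outT_iff802, H802.outT_iff802]
    refine forall_congr' fun v' => imp_congr_right fun hv'S => ?_
    have hne : v' ≠ v := fun e => hv'S (e ▸ hvS)
    rw [hf v' hne]
  by_cases hO : OutT305 S h
  · rw [H802.pure_pos802 _ _ hO, H802.pure_pos802 _ _ (hOut.2 hO)]
    congr 1
    · refine Finset.prod_congr rfl fun v' _ => ?_
      by_cases hv' : v' = v
      · subst hv'
        rw [Function.update_self]
      · rw [Function.update_of_ne hv', hf v' hv']
    · exact Finset.prod_congr rfl fun w _ => by rw [hi w]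
  · rw [H802.pure_neg802 _ _ hO, H802.pure_neg802 _ _ (fun hO' => hO (hOut.1 hO'))]

/-- The value of `qFn595` at a translate. -/
theorem qFn_mul595 (v : HeightOneSpectrum (𝓞 F)) (P₁ : G F → ℂ)
    (hP₁ : ∀ (y : G F), (∀ v' : HeightOneSpectrum (𝓞 F), v' ≠ v → finGL305 v' y = 1) →
      (∀ w : InfinitePlace F, infGL305 w y = 1) → ∀ h : G F, P₁ (h * y) = P₁ h)
    (θ : GL (Fin 2) (v.adicCompletion F) → ℂ) {y : G F}
    (hfin : ∀ v' : HeightOneSpectrum (𝓞 F), v' ≠ v → finGL305 v' y = 1)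
    (hinf : ∀ w : InfinitePlace F, infGL305 w y = 1) (h : G F) :
    qFn595 v P₁ θ (h * y) = θ (finGL305 v h * finGL305 v y) * P₁ h := by
  show θ (finGL305 v (h * y)) * P₁ (h * y) = _
  rw [map_mul, hP₁ y hfin hinf h]

theorem fin_triv_of_local595 {v : HeightOneSpectrum (𝓞 F)} {y : G F} (hy : IsLocalAtFin v y) :
    ∀ v' : HeightOneSpectrum (𝓞 F), v' ≠ v → finGL305 v' y = 1 :=
  fun v' hv' => H802.finGL_eq_one802 (hy.2 v' hv')

theorem inf_triv_of_local595 {v : HeightOneSpectrum (𝓞 F)} {y : G F} (hy : IsLocalAtFin v y) :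
    ∀ w : InfinitePlace F, infGL305 w y = 1 :=
  fun w => H802.infGL_eq_one802 (hy.1 w)

/-- The step of `S_v` on the functions `qFn595`. -/
theorem sStep_qFn595 (v : HeightOneSpectrum (𝓞 F)) (P₁ : G F → ℂ)
    (hP₁ : ∀ (y : G F), (∀ v' : HeightOneSpectrum (𝓞 F), v' ≠ v → finGL305 v' y = 1) →
      (∀ w : InfinitePlace F, infGL305 w y = 1) → ∀ h : G F, P₁ (h * y) = P₁ h)
    {z : G F} (hz : IsLocalAtFin v z) (θ : GL (Fin 2) (v.adicCompletion F) → ℂ) :
    sStep589 z (qFn595 v P₁ θ) = qFn595 v P₁ (locS311 v z θ) := by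
  funext h
  have hfin : ∀ v' : HeightOneSpectrum (𝓞 F), v' ≠ v → finGL305 v' z⁻¹ = 1 := by
    intro v' hv'
    rw [map_inv, fin_triv_of_local595 hz v' hv', inv_one]
  have hinf : ∀ w : InfinitePlace F, infGL305 w z⁻¹ = 1 := by
    intro w
    rw [map_inv, inf_triv_of_local595 hz w, inv_one]
  show qFn595 v P₁ θ (h * z⁻¹) = θ (finGL305 v h * (finGL305 v z)⁻¹) * P₁ h
  rw [qFn_mul595 v P₁ hP₁ θ hfin hinf h, map_inv]

/-- The step of `T_v` on the functions `qFn595`. -/
theorem tStep_qFn595 (v : HeightOneSpectrum (𝓞 F)) (P₁ : G F → ℂ)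
    (hP₁ : ∀ (y : G F), (∀ v' : HeightOneSpectrum (𝓞 F), v' ≠ v → finGL305 v' y = 1) →
      (∀ w : InfinitePlace F, infGL305 w y = 1) → ∀ h : G F, P₁ (h * y) = P₁ h)
    {H : Finset (G F)} (hH : ∀ h ∈ H, IsLocalAtFin v h)
    {z : G F} (hz : IsLocalAtFin v z) (θ : GL (Fin 2) (v.adicCompletion F) → ℂ) :
    tStep589 v H z (qFn595 v P₁ θ) = qFn595 v P₁ (locT311 v H z θ) := by
  funext h
  show ((Real.sqrt (Ideal.absNorm v.asIdeal : ℝ) : ℝ) : ℂ)⁻¹
        * ∑ h' ∈ H, qFn595 v P₁ θ (h * z⁻¹ * h')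
      = (((Real.sqrt (Ideal.absNorm v.asIdeal : ℝ) : ℝ) : ℂ)⁻¹
        * ∑ h' ∈ H, θ (finGL305 v h * (finGL305 v z)⁻¹ * finGL305 v h')) * P₁ h
  rw [mul_assoc, Finset.sum_mul]
  congr 1
  refine Finset.sum_congr rfl fun h' hh' => ?_
  have hfin : ∀ v' : HeightOneSpectrum (𝓞 F), v' ≠ v → finGL305 v' (z⁻¹ * h') = 1 := by
    intro v' hv'
    rw [map_mul, map_inv, fin_triv_of_local595 hz v' hv',
      fin_triv_of_local595 (hH h' hh') v' hv', inv_one, mul_one]
  have hinf : ∀ w : InfinitePlace F, infGL305 w (z⁻¹ * h') = 1 := by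
    intro w
    rw [map_mul, map_inv, inf_triv_of_local595 hz w, inf_triv_of_local595 (hH h' hh') w,
      inv_one, mul_one]
  rw [mul_assoc h z⁻¹ h', qFn_mul595 v P₁ hP₁ θ hfin hinf h, map_mul, map_inv, mul_assoc]

theorem dStep_zero595 (v : HeightOneSpectrum (𝓞 F)) (H : Finset (G F)) (z : G F)
    (f : G F → ℂ) : dStep589 v H z 0 f = fun g => 2 * f g := rfl

theorem dStep_one595 (v : HeightOneSpectrum (𝓞 F)) (H : Finset (G F)) (z : G F)
    (f : G F → ℂ) : dStep589 v H z 1 f = tStep589 v H z f := rfl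

theorem dStep_add_two595 (v : HeightOneSpectrum (𝓞 F)) (H : Finset (G F)) (z : G F) (d : ℕ)
    (f : G F → ℂ) : dStep589 v H z (d + 2) f
      = fun g => tStep589 v H z (dStep589 v H z (d + 1) f) g
          - sStep589 z (dStep589 v H z d f) g := rfl

theorem locD_zero595 (v : HeightOneSpectrum (𝓞 F)) (H : Finset (G F)) (z : G F)
    (ψ : GL (Fin 2) (v.adicCompletion F) → ℂ) : locD311 v H z 0 ψ = fun x => 2 * ψ x := rfl

theorem locD_one595 (v : HeightOneSpectrum (𝓞 F)) (H : Finset (G F)) (z : G F)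
    (ψ : GL (Fin 2) (v.adicCompletion F) → ℂ) : locD311 v H z 1 ψ = locT311 v H z ψ := rfl

theorem locD_add_two595 (v : HeightOneSpectrum (𝓞 F)) (H : Finset (G F)) (z : G F) (d : ℕ)
    (ψ : GL (Fin 2) (v.adicCompletion F) → ℂ) : locD311 v H z (d + 2) ψ
      = fun x => locT311 v H z (locD311 v H z (d + 1) ψ) x
          - locS311 v z (locD311 v H z d ψ) x := rfl

/-- The step of the Dickson polynomial on the functions `qFn595`. -/
theorem dStep_qFn595 (v : HeightOneSpectrum (𝓞 F)) (P₁ : G F → ℂ)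
    (hP₁ : ∀ (y : G F), (∀ v' : HeightOneSpectrum (𝓞 F), v' ≠ v → finGL305 v' y = 1) →
      (∀ w : InfinitePlace F, infGL305 w y = 1) → ∀ h : G F, P₁ (h * y) = P₁ h)
    {H : Finset (G F)} (hH : ∀ h ∈ H, IsLocalAtFin v h)
    {z : G F} (hz : IsLocalAtFin v z) (d : ℕ) (θ : GL (Fin 2) (v.adicCompletion F) → ℂ) :
    dStep589 v H z d (qFn595 v P₁ θ) = qFn595 v P₁ (locD311 v H z d θ) := by
  induction d using Nat.twoStepInduction with
  | zero =>
    rw [dStep_zero595, locD_zero595]
    funext h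
    show 2 * (θ (finGL305 v h) * P₁ h) = 2 * θ (finGL305 v h) * P₁ h
    rw [mul_assoc]
  | one =>
    rw [dStep_one595, locD_one595]
    exact tStep_qFn595 v P₁ hP₁ hH hz θ
  | more d ih0 ih1 =>
    rw [dStep_add_two595, locD_add_two595, ih0, ih1, tStep_qFn595 v P₁ hP₁ hH hz,
      sStep_qFn595 v P₁ hP₁ hz]
    funext h
    show locT311 v H z (locD311 v H z (d + 1) θ) (finGL305 v h) * P₁ h
        - locS311 v z (locD311 v H z d θ) (finGL305 v h) * P₁ h
      = (locT311 v H z (locD311 v H z (d + 1) θ) (finGL305 v h)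
          - locS311 v z (locD311 v H z d θ) (finGL305 v h)) * P₁ h
    rw [sub_mul]

end PureD

/-- **LEAF ShT.1 = PURE-D, PROVED.** -/
theorem pureDC595 (F : Type) [Field F] [NumberField F] : H311.PureDC311 F := by
  classical
  intro T P f₀ Fc v hvP H z hH hz d h
  have hvS : v ∈ T ∪ P := Finset.mem_union_right T hvP
  have hHl : ∀ h' ∈ H, IsLocalAtFin v h' := fun h' hh' => (hH.2.1 h' hh').1
  have hzl : IsLocalAtFin v z := hz.1
  have hP₁ : ∀ (y : G F), (∀ v' : HeightOneSpectrum (𝓞 F), v' ≠ v → finGL305 v' y = 1) →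
      (∀ w : InfinitePlace F, infGL305 w y = 1) → ∀ h : G F,
      pure305 (T ∪ P) (Function.update (SS503.extU503 T f₀) v (fun _ => 1)) Fc (h * y)
        = pure305 (T ∪ P) (Function.update (SS503.extU503 T f₀) v (fun _ => 1)) Fc h :=
    fun y hfin hinf h => pure_one_mul595 hvS _ Fc hfin hinf h
  -- the pure tensor for `T` is `Q (g₀ v)`
  have hbase : pure305 T f₀ Fc
      = qFn595 v (pure305 (T ∪ P) (Function.update (SS503.extU503 T f₀) v (fun _ => 1)) Fc)
          (SS503.extU503 T f₀ v) := by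
    funext y
    show pure305 T f₀ Fc y = SS503.extU503 T f₀ v (finGL305 v y)
      * pure305 (T ∪ P) (Function.update (SS503.extU503 T f₀) v (fun _ => 1)) Fc y
    rw [← pure_fact595 hvS (SS503.extU503 T f₀) Fc (SS503.extU503 T f₀ v) y,
      Function.update_eq_self]
    exact (H802.pure_extU802 Finset.subset_union_left f₀ Fc y).symm
  rw [hbase, dStep_qFn595 v _ hP₁ hHl hzl d (SS503.extU503 T f₀ v)]
  exact pure_fact595 hvS (SS503.extU503 T f₀) Fc _ h

/-- Verbatim check. -/
example (F : Type) [Field F] [NumberField F] : Fermat.Agent.LT.T7.H311.PureDC311 F :=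
  pureDC595 F

end Fermat.Agent.LT.T7.H595

end

end
-- ===== PACK-END LT/T7/H595/PureD.lean

-- ===== PACK-BEGIN LT/T3/H830/ArchKit.lean
section



/-!
# Row LT, quadratic step over `ℚ`, archimedean place (helper830, deputy F/Q "archimedean
# wiring"): THE ARCHIMEDEAN CLAUSE OF THE CALCULUS OF PURE TENSORS (`ProdMtQ`)

OFF-MAIN.  Complete proofs, nothing assumed.  ADDITIVE.

The local shape at infinity of the construction over `ℚ` (helper801 `CQ801.ArchOkQ801 c`,
helper885 `ArchOkQ885`): test functions `Φ` (bi-`U(2)`-invariant, on `GL₂(ℂ)`), `F0` (weight `0`),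
`F1` (weight `n = ±1`) with `N`-integrals

    AS.HasAbelN Φ β',   R.HasAbelNR F0 (c β'(·/2)),   R.HasAbelNR F1 (c β'(·/2)).

    archPair_of_abelN830 : (the shape with constant `c`) → T6.H830.IsArchPair830 c n Φ F0 F1
    archProdN830 : ∀ μr μc Haar, ∃ cM > 0, ∃ lam > 0,
      (the shape with constant `cM` is MATCHED: `T6.IsArchMatch μr μc Φ (F0 + F1)`) ∧
      ∀ c c' s t, s ≠ 0 → t · lam · c · c' = cM · s → ∀ n = ±1,
        (shape `c` for `Φ₁, F0₁, F1₁`) → (shape `c'` for `Φ₂, F0₂, F1₂`) →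
        the PRODUCTS `s · Φ₁ ⋆ Φ₂`, `t · F0₁ ⋆ F0₂`, `t · F1₁ ⋆ F1₂` are test functions
        (`IsArchTestC`, `IsArchTestR 0`, `IsArchTestR n`) and
        `T6.IsArchMatch μr μc (s · Φ₁ ⋆ Φ₂) (t · F0₁ ⋆ F0₂ + t · F1₁ ⋆ F1₂)`

= the clauses `arch_up`, `arch_down0`, `arch_down1`, `arch` of `LocHypQ298` / `LocHypQb801` for
the members of the families.  (`halfQ801 c β'` and `half830 c β'` are the same term
`fun p => c * β' ((2 : ℝ)⁻¹ • p)`; the statements below are typed with this term.)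
-/

set_option autoImplicit false

open scoped Matrix ContDiff
open MeasureTheory

noncomputable section

namespace Fermat.Agent.LT.T3.H830

open Fermat.Agent.LT.T3.AS Fermat.Agent.LT.T6 Fermat.Agent.LT.T6.H626
open Fermat.Agent.LT.T6.H830

/-- The local shape at infinity (`N`-integral form) is the Abel relation. -/
theorem archPair_of_abelN830 {c : ℂ} {n : ℤ} {Φ : GL (Fin 2) ℂ → ℂ} {F0 F1 : GL (Fin 2) ℝ → ℂ}
    {β' : ℝ × ℝ → ℂ} (hΦ : IsArchTestC Φ) (hF0 : IsArchTestR 0 F0) (hF1 : IsArchTestR n F1)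
    (hN : HasAbelN Φ β') (h0 : R.HasAbelNR F0 (fun p => c * β' ((2 : ℝ)⁻¹ • p)))
    (h1 : R.HasAbelNR F1 (fun p => c * β' ((2 : ℝ)⁻¹ • p))) :
    IsArchPair830 c n Φ F0 F1 :=
  ⟨hΦ, hF0, hF1, (isAbelRel_iff830 hN c F0 F1).2 ⟨h0, h1⟩⟩

/-- **THE ARCHIMEDEAN CLAUSE OF `ProdMtQ`** (see the header). -/
theorem archProdN830 (μr : @Measure (GL (Fin 2) ℝ) (borel _))
    (μc : @Measure (GL (Fin 2) ℂ) (borel _))
    (hμr : @Measure.IsHaarMeasure _ _ _ (borel _) μr)
    (hμc : @Measure.IsHaarMeasure _ _ _ (borel _) μc) :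
    ∃ cM : ℝ, 0 < cM ∧ ∃ lam : ℝ, 0 < lam ∧
      (∀ n : ℤ, n = 1 ∨ n = -1 →
        ∀ (Φ : GL (Fin 2) ℂ → ℂ) (F0 F1 : GL (Fin 2) ℝ → ℂ) (β' : ℝ × ℝ → ℂ),
        IsArchTestC Φ → IsArchTestR 0 F0 → IsArchTestR n F1 → HasAbelN Φ β' →
        R.HasAbelNR F0 (fun p => (cM : ℂ) * β' ((2 : ℝ)⁻¹ • p)) →
        R.HasAbelNR F1 (fun p => (cM : ℂ) * β' ((2 : ℝ)⁻¹ • p)) →
        IsArchMatch μr μc Φ (fun g => F0 g + F1 g)) ∧
      ∀ (c c' s t : ℂ), s ≠ 0 → t * (lam : ℂ) * c * c' = (cM : ℂ) * s →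
      ∀ n : ℤ, n = 1 ∨ n = -1 →
      ∀ (Φ₁ Φ₂ : GL (Fin 2) ℂ → ℂ) (F₁ F₂ G₁ G₂ : GL (Fin 2) ℝ → ℂ) (β₁ β₂ : ℝ × ℝ → ℂ),
        IsArchTestC Φ₁ → IsArchTestR 0 F₁ → IsArchTestR n G₁ → HasAbelN Φ₁ β₁ →
        R.HasAbelNR F₁ (fun p => c * β₁ ((2 : ℝ)⁻¹ • p)) →
        R.HasAbelNR G₁ (fun p => c * β₁ ((2 : ℝ)⁻¹ • p)) →
        IsArchTestC Φ₂ → IsArchTestR 0 F₂ → IsArchTestR n G₂ → HasAbelN Φ₂ β₂ →
        R.HasAbelNR F₂ (fun p => c' * β₂ ((2 : ℝ)⁻¹ • p)) →
        R.HasAbelNR G₂ (fun p => c' * β₂ ((2 : ℝ)⁻¹ • p)) →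
        IsArchTestC (fun g => s * @convInt _ _ (borel _) μc Φ₁ Φ₂ g) ∧
        IsArchTestR 0 (fun g => t * @convInt _ _ (borel _) μr F₁ F₂ g) ∧
        IsArchTestR n (fun g => t * @convInt _ _ (borel _) μr G₁ G₂ g) ∧
        IsArchMatch μr μc (fun g => s * @convInt _ _ (borel _) μc Φ₁ Φ₂ g)
          (fun g => t * @convInt _ _ (borel _) μr F₁ F₂ g
            + t * @convInt _ _ (borel _) μr G₁ G₂ g) := by
  obtain ⟨cM, hcM, lam, hlam, hM, hP⟩ := archProd830 μr μc hμr hμc
  refine ⟨cM, hcM, lam, hlam, ?_, ?_⟩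
  · intro n hn Φ F0 F1 β' hΦ hF0 hF1 hN h0 h1
    exact hM n hn Φ F0 F1 (archPair_of_abelN830 hΦ hF0 hF1 hN h0 h1)
  · intro c c' s t hs hrel n hn Φ₁ Φ₂ F₁ F₂ G₁ G₂ β₁ β₂ a1 a2 a3 a4 a5 a6 b1 b2 b3 b4 b5 b6
    obtain ⟨p, hm⟩ := hP c c' s t hs hrel n hn Φ₁ Φ₂ F₁ F₂ G₁ G₂
      (archPair_of_abelN830 a1 a2 a3 a4 a5 a6) (archPair_of_abelN830 b1 b2 b3 b4 b5 b6)
    exact ⟨p.up, p.down0, p.down1, hm⟩

end Fermat.Agent.LT.T3.H830

end

end
-- ===== PACK-END LT/T3/H830/ArchKit.lean

-- ===== PACK-BEGIN LT/T7/H388/SphSplit.lean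
section






/-!
# Row LT, tower T7, leaf T7.L2.1.H2b.3c `SphSplitC893` (helper388, SPARE): PROVED

OFF-MAIN.  No hole, nothing assumed.  ADDITIVE (new names only, suffix `388`).

    sphSplitC388 (K K') : H893.SphSplitC893 K K'                          (VERBATIM)

Proof.
* the enumeration in the order of the orbit with the identifications: `enumExists388`
  (`T7/H388/Enum.lean`); it is injective on `range l` (`w j = σ (w (j + 1))` and
  `w j ≠ w 0` for `0 < j < l`);
* the levels are `0`;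
* the identifications preserve the valuations, so `cartan (map (i j) g) = cartan g`
  (`cartan_map388`) and the components `φ₀ (w j) ∘ map (i j)` are the spherical functions
  `A (w j) ∘ cartan` on `GL₂(K_v)`;
* the convolution product of spherical functions is spherical with Satake transform the product
  (`T3.H681.split_sph681`, helper681, on the closed `T6.SatakeEigenC`);
* the Satake transform is injective (`satT_inj388`, `T7/H388/SatInj.lean`), so the product is
  `f = Av ∘ cartan`.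
-/

set_option autoImplicit false
set_option linter.unusedSectionVars false

open AutomorphicForm IsDedekindDomain NumberField MeasureTheory

noncomputable section

namespace Fermat.Agent.LT.T7.H388

open Fermat.Agent.LT.H556 Fermat.Agent.LT.H556.A0 Fermat.Agent.LT.T7 Fermat.Agent.LT.T7.H305
open Fermat.Agent.LT

section Map

variable {k k' : Type} [Field k] [Field k'] [Valued k T6.Γ₀] [Valued k' T6.Γ₀]

theorem entryMax_map388 (i : k →+* k') (hv : ∀ x : k, Valued.v (i x) = Valued.v x)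
    (g : GL (Fin 2) k) : T6.entryMax (Matrix.GeneralLinearGroup.map i g) = T6.entryMax g := by
  show Finset.univ.sup' Finset.univ_nonempty
      (fun p : Fin 2 × Fin 2 => Valued.v (((Matrix.GeneralLinearGroup.map i g : GL (Fin 2) k') :
        Matrix (Fin 2) (Fin 2) k') p.1 p.2))
    = Finset.univ.sup' Finset.univ_nonempty
      (fun p : Fin 2 × Fin 2 => Valued.v ((g : Matrix (Fin 2) (Fin 2) k) p.1 p.2))
  refine Finset.sup'_congr _ rfl (fun p _ => ?_)
  have e : ((Matrix.GeneralLinearGroup.map i g : GL (Fin 2) k') :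
      Matrix (Fin 2) (Fin 2) k') p.1 p.2 = i ((g : Matrix (Fin 2) (Fin 2) k) p.1 p.2) := rfl
  rw [e, hv]

theorem det_map388 (i : k →+* k') (g : GL (Fin 2) k) :
    ((Matrix.GeneralLinearGroup.map i g : GL (Fin 2) k') : Matrix (Fin 2) (Fin 2) k').det
      = i (g : Matrix (Fin 2) (Fin 2) k).det := by
  have e : ((Matrix.GeneralLinearGroup.map i g : GL (Fin 2) k') :
      Matrix (Fin 2) (Fin 2) k') = (g : Matrix (Fin 2) (Fin 2) k).map i := rfl
  rw [e, ← RingHom.mapMatrix_apply, ← RingHom.map_det]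

theorem cartan_map388 (i : k →+* k') (hv : ∀ x : k, Valued.v (i x) = Valued.v x)
    (g : GL (Fin 2) k) : T6.cartan (Matrix.GeneralLinearGroup.map i g) = T6.cartan g := by
  show (WithZero.log (T6.entryMax (Matrix.GeneralLinearGroup.map i g))
        - WithZero.log (Valued.v ((Matrix.GeneralLinearGroup.map i g : GL (Fin 2) k') :
            Matrix (Fin 2) (Fin 2) k').det),
      - WithZero.log (T6.entryMax (Matrix.GeneralLinearGroup.map i g)))
    = (WithZero.log (T6.entryMax g)
        - WithZero.log (Valued.v (g : Matrix (Fin 2) (Fin 2) k).det),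
      - WithZero.log (T6.entryMax g))
  rw [entryMax_map388 i hv, det_map388, hv]

end Map

variable (K K' : Type) [Field K] [NumberField K] [Field K'] [NumberField K'] [Algebra K K']

/-- **LEAF T7.L2.1.H2b.3c `SphSplitC893`, PROVED.** -/
theorem sphSplitC388 : H893.SphSplitC893 K K' := by
  intro hT6 D hD hcyc _ _ T₀ hun v hv hex n m hn hm φ₀ f A Av hf hφ hsat
  obtain ⟨w, i, hw, hrel, hne0, hi1, hi2⟩ := enumExists388 K K' hT6 D hD hcyc T₀ hun v hv hex
  -- the enumeration is injective on `range l`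
  have hstep : ∀ j j' : ℕ, w (j + 1) = w (j' + 1) → w j = w j' := by
    intro j j' h
    have h1 : (w j).asIdeal = (w j').asIdeal := by
      rw [show (w j).asIdeal = _ from hrel j, show (w j').asIdeal = _ from hrel j', h]
    exact HeightOneSpectrum.ext h1
  have hshift : ∀ d j : ℕ, w (j + d) = w j → w d = w 0 := by
    intro d j
    induction j with
    | zero =>
      intro h
      rwa [Nat.zero_add] at h
    | succ j ih =>
      intro h
      apply ih
      apply hstep
      rw [show j + d + 1 = j + 1 + d by omega]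
      exact h
  have hinj : ∀ j j' : ℕ, j < D.l → j' < D.l → w j = w j' → j = j' := by
    intro j j' hj hj' h
    by_contra hne
    rcases Nat.lt_or_gt_of_ne hne with h1 | h1
    · refine hne0 (j' - j) (by omega) (by omega) (hshift (j' - j) j ?_)
      rw [show j + (j' - j) = j' by omega]
      exact h.symm
    · refine hne0 (j - j') (by omega) (by omega) (hshift (j - j') j' ?_)
      rw [show j' + (j - j') = j by omega]
      exact h
  refine ⟨w, i, hw, hrel, hne0, hi1, hi2, fun j => by rw [hn (w j) (hw j), hm], ?_⟩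
  rw [hm]
  -- the components are spherical functions downstairs
  have hcomp : (fun (j : ℕ) (g : GL (Fin 2) (v.adicCompletion K)) => φ₀ (w j)
        (Matrix.GeneralLinearGroup.map ((i j : v.adicCompletion K ≃+* _) :
          v.adicCompletion K →+* (w j).adicCompletion K') g))
      = fun (j : ℕ) (g : GL (Fin 2) (v.adicCompletion K)) => A (w j) (T6.cartan g) := by
    funext j g
    rw [(hφ (w j) (hw j)).2, cartan_map388 _ (fun x => hi2 j x)]
  rw [hcomp]
  -- the product is spherical, with Satake transform the product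
  obtain ⟨Av', hAv', hprod, hsat', -⟩ := T3.H681.split_sph681 v D.l hcyc.prime.pos
    (fun j => A (w j)) (fun j _ => (hφ (w j) (hw j)).1)
  have hq : 0 < Ideal.absNorm v.asIdeal := by
    rw [Nat.pos_iff_ne_zero, Ne, Ideal.absNorm_eq_zero_iff]
    exact v.ne_bot
  have hEq : Av = Av' := by
    refine satT_inj388 (Ideal.absNorm v.asIdeal) hq Av Av' hf.1 hAv' (fun x y hx hy => ?_)
    rw [hsat' x y hx hy]
    exact hsat w hw hinj x y hx hy
  have hff : f = fun g => Av' (T6.cartan g) := by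
    funext g
    rw [hf.2 g, hEq]
  rw [hff]
  exact hprod

end Fermat.Agent.LT.T7.H388

end

end
-- ===== PACK-END LT/T7/H388/SphSplit.lean

-- ===== PACK-BEGIN LT/T7/H75/SwapSum.lean
section




/-!
# Row LT, tower T7, the swap: THE KEY IDENTITY DOWNSTAIRS, one field, any archimedean factor
# (helper75)

OFF-MAIN.  No hole, nothing assumed.  ADDITIVE (namespace `Fermat.Agent.LT.T7.H75.SQ`).

`pureA75 T f₀ A` is the pure tensor `⊗_{v ∈ T} f₀_v ⊗ A ⊗ ⊗_{v ∉ T} 1_{GL₂(𝒪_v)}` with an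
ARBITRARY factor `A : G K → ℂ` which is invariant under the left translations by the elements
which are trivial at infinity (`H305.pure305`: `A = ∏_w F_w ∘ infGL305 w`; `MQ298.pureQ298`:
`A = Fr ∘ reGLQ298`).

    wtA_induct75 : local decompositions `c_v = ∑_{r ∈ R_v} c_v(r) 1_{r U(m v)}`, `v ∈ A`, with
      representatives which are Iwahori at `u`  ⟹
      ∃ s β, (the elements of `s` are trivial at infinity and outside `A`, Iwahori at `u`) ∧
        ∑_{x ∈ s} β(x) pureA75 T f₀ Ar (x⁻¹ ·) = pureA75 T (c on A, f₀ outside) Ar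
        for all pure tensors with unit components at `A ⊆ T`.

Method: the induction over the places of helper470 (`H470.wt_induct470`, leaf
`B970.WtDownC970`), with the representatives taken IN THE SUPPORT (`local_decomp75`), so that
the translating elements are Iwahori at `u`.
-/

set_option autoImplicit false
set_option linter.style.haveILetI false
set_option linter.unusedSectionVars false
set_option linter.unusedVariables false

open AutomorphicForm IsDedekindDomain NumberField MeasureTheory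
open scoped ComplexConjugate

noncomputable section

namespace Fermat.Agent.LT.T7.H75.SQ

open Fermat.Agent.LT Fermat.Agent.LT.H556 Fermat.Agent.LT.H556.A0 Fermat.Agent.LT.T7
open Fermat.Agent.LT.T7.H305 Fermat.Agent.LT.T7.H893 Fermat.Agent.LT.H129

attribute [local instance] Fermat.Agent.LT.T5.instMeasurableSpaceG

/-! ## 1. Local -/

section Local

variable {k : Type} [Field k] [Valued k T6.Γ₀]

/-- The identity is Iwahori. -/
theorem inIw_one75 : InIw893 (1 : GL (Fin 2) k) := by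
  refine ⟨fun i j => H470.val_one_entry470 i j, fun i j => ?_, ?_⟩
  · rw [inv_one]
    exact H470.val_one_entry470 i j
  · show Valued.v ((1 : Matrix (Fin 2) (Fin 2) k) 1 0) < (1 : T6.Γ₀)
    rw [Matrix.one_apply_ne (by decide), map_zero]
    exact zero_lt_one

/-- A right `U(n)`-invariant function of finite support modulo `U(n)` is a finite combination
of left translates of the unit function, WITH REPRESENTATIVES IN ITS SUPPORT. -/
theorem local_decomp75 (n : ℕ) (φ : GL (Fin 2) k → ℂ)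
    (hinv : ∀ g u : GL (Fin 2) k, T6.InU n u → φ (g * u) = φ g)
    (hfin : T6.HasFinSupp (T6.InU n) φ) :
    ∃ R : Finset (GL (Fin 2) k), (∀ r ∈ R, φ r ≠ 0) ∧ ∀ g : GL (Fin 2) k,
      ∑ r ∈ R, φ r * unitFn893 n (r⁻¹ * g) = φ g := by
  classical
  obtain ⟨R, hR⟩ := H470.local_decomp470 n φ hinv hfin
  refine ⟨R.filter (fun r => φ r ≠ 0), fun r hr => (Finset.mem_filter.1 hr).2, fun g => ?_⟩
  rw [← hR g]
  refine Finset.sum_filter_of_ne fun r _ h h0 => h ?_
  rw [h0, zero_mul]

/-- The support of the Iwahori function. -/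
theorem inIw_of_ne75 {r : GL (Fin 2) k} (h : (iwFn893 r : ℂ) ≠ 0) : InIw893 r := by
  classical
  by_contra hn
  apply h
  unfold iwFn893
  rw [if_neg hn]

end Local

/-! ## 2. Pure tensors with an arbitrary archimedean factor -/

section Global

variable {K : Type} [Field K] [NumberField K]

open Classical in
/-- The pure tensor with the components `f₀` at the places of `T` and the factor `A`. -/
def pureA75 (T : Finset (HeightOneSpectrum (𝓞 K)))
    (f₀ : ∀ v : HeightOneSpectrum (𝓞 K), GL (Fin 2) (v.adicCompletion K) → ℂ)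
    (A : G K → ℂ) (h : G K) : ℂ :=
  if OutT305 T h then (∏ v ∈ T, f₀ v (finGL305 v h)) * A h else 0

theorem pureA_eq75 (T : Finset (HeightOneSpectrum (𝓞 K)))
    (f₀ : ∀ v : HeightOneSpectrum (𝓞 K), GL (Fin 2) (v.adicCompletion K) → ℂ)
    (A : G K → ℂ) (h : G K) :
    pureA75 T f₀ A h
      = @ite ℂ (OutT305 T h) (Classical.propDecidable _)
          ((∏ v ∈ T, f₀ v (finGL305 v h)) * A h) 0 := rfl

/-- An element whose component at `u` is Iwahori is Iwahori at `u`. -/
theorem inIwahori_of_comp75 {u : HeightOneSpectrum (𝓞 K)} {g : G K}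
    (h : InIw893 (finCompHom129 u g)) : T5.InIwahori u g := by
  obtain ⟨h1, h2, h3⟩ := h
  refine ⟨?_, ?_, ?_⟩
  · rw [isIntegralAt_iff129]
    intro i j
    rw [HeightOneSpectrum.mem_adicCompletionIntegers]
    exact h1 i j
  · rw [isIntegralAt_iff129, map_inv]
    intro i j
    rw [HeightOneSpectrum.mem_adicCompletionIntegers]
    exact h2 i j
  · exact h3

theorem inIwahori_one75 (u : HeightOneSpectrum (𝓞 K)) : T5.InIwahori u (1 : G K) := by
  apply inIwahori_of_comp75
  rw [map_one]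
  exact inIw_one75

/-- The local embedding at `v₀` of `r` is Iwahori at `u` if `r` is Iwahori or `v₀ ≠ u`. -/
theorem inIwahori_locFin75 (u v₀ : HeightOneSpectrum (𝓞 K))
    (r : GL (Fin 2) (v₀.adicCompletion K)) (h : v₀ = u → InIw893 r) :
    T5.InIwahori u (locFin129 v₀ r) := by
  apply inIwahori_of_comp75
  by_cases hv : v₀ = u
  · subst hv
    rw [finCompHom129_locFin129]
    exact h rfl
  · rw [finCompHom129_locFin129_of_ne v₀ r (fun e => hv e.symm)]
    exact inIw_one75

open Classical in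
theorem pureA_transl75 (T : Finset (HeightOneSpectrum (𝓞 K)))
    (f₀ : ∀ v : HeightOneSpectrum (𝓞 K), GL (Fin 2) (v.adicCompletion K) → ℂ)
    {A : G K → ℂ}
    (hA : ∀ x y : G K, (∀ w : InfinitePlace K, TrivAtInf w x) → A (x⁻¹ * y) = A y)
    {v₀ : HeightOneSpectrum (𝓞 K)} (hv₀ : v₀ ∈ T)
    (r : GL (Fin 2) (v₀.adicCompletion K)) (h : G K) :
    pureA75 T f₀ A ((locFin129 v₀ r)⁻¹ * h)
      = pureA75 T (Function.update f₀ v₀ (fun g => f₀ v₀ (r⁻¹ * g))) A h := by
  classical
  have hO : OutT305 T ((locFin129 v₀ r)⁻¹ * h) ↔ OutT305 T h :=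
    H470.outT_transl470 T (fun v hv => finCompHom129_locFin129_of_ne v₀ r
      (fun e => hv (e ▸ hv₀))) h
  have hinf : A ((locFin129 v₀ r)⁻¹ * h) = A h :=
    hA _ _ (fun w => H470.trivAtInf_locFin470 v₀ r w)
  have hfin : ∀ v ∈ T, f₀ v (finGL305 v ((locFin129 v₀ r)⁻¹ * h))
      = Function.update f₀ v₀ (fun g => f₀ v₀ (r⁻¹ * g)) v (finGL305 v h) := by
    intro v _
    by_cases hv : v = v₀
    · subst hv
      rw [Function.update_self, map_mul, map_inv, H470.finGL305_eq470 v (locFin129 v r),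
        finCompHom129_locFin129]
    · rw [Function.update_of_ne hv, map_mul, map_inv, H470.finGL305_eq470 v (locFin129 v₀ r),
        finCompHom129_locFin129_of_ne v₀ r hv, inv_one, one_mul]
  rw [pureA_eq75, pureA_eq75]
  simp only [hO, hinf]
  rw [Finset.prod_congr rfl hfin]

open Classical in
/-- The pure tensor without the component at `v₀`. -/
def restA75 (T : Finset (HeightOneSpectrum (𝓞 K)))
    (f₀ : ∀ v : HeightOneSpectrum (𝓞 K), GL (Fin 2) (v.adicCompletion K) → ℂ)
    (A : G K → ℂ) (v₀ : HeightOneSpectrum (𝓞 K)) (y : G K) : ℂ :=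
  if OutT305 T y then (∏ v ∈ T.erase v₀, f₀ v (finGL305 v y)) * A y else 0

open Classical in
theorem pureA_update75 (T : Finset (HeightOneSpectrum (𝓞 K)))
    (f₀ : ∀ v : HeightOneSpectrum (𝓞 K), GL (Fin 2) (v.adicCompletion K) → ℂ)
    (A : G K → ℂ) {v₀ : HeightOneSpectrum (𝓞 K)} (hv₀ : v₀ ∈ T)
    (ψ : GL (Fin 2) (v₀.adicCompletion K) → ℂ) (y : G K) :
    pureA75 T (Function.update f₀ v₀ ψ) A y = ψ (finGL305 v₀ y) * restA75 T f₀ A v₀ y := by
  classical
  rw [pureA_eq75]
  show _ = ψ (finGL305 v₀ y) * @ite ℂ (OutT305 T y) (Classical.propDecidable _)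
    ((∏ v ∈ T.erase v₀, f₀ v (finGL305 v y)) * A y) 0
  by_cases hO : OutT305 T y
  · rw [if_pos hO, if_pos hO, ← Finset.mul_prod_erase T _ hv₀, Function.update_self, mul_assoc]
    congr 2
    refine Finset.prod_congr rfl fun v hv => ?_
    rw [Function.update_of_ne (Finset.ne_of_mem_erase hv)]
  · rw [if_neg hO, if_neg hO, mul_zero]

/-! ## 3. The induction over the places -/

open Classical in
/-- **THE KEY IDENTITY DOWNSTAIRS, one field, any archimedean factor.** -/
theorem wtA_induct75 (u : HeightOneSpectrum (𝓞 K)) (m : HeightOneSpectrum (𝓞 K) → ℕ)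
    (c : ∀ v : HeightOneSpectrum (𝓞 K), GL (Fin 2) (v.adicCompletion K) → ℂ)
    (A : Finset (HeightOneSpectrum (𝓞 K)))
    (hL : ∀ v ∈ A, ∃ R : Finset (GL (Fin 2) (v.adicCompletion K)),
      (∀ r ∈ R, v = u → InIw893 r) ∧
      ∀ g : GL (Fin 2) (v.adicCompletion K),
        ∑ r ∈ R, c v r * unitFn893 (m v) (r⁻¹ * g) = c v g) :
    ∃ (s : Finset (G K)) (β : G K → ℂ),
      (∀ x ∈ s, (∀ w : InfinitePlace K, TrivAtInf w x) ∧
        (∀ v : HeightOneSpectrum (𝓞 K), v ∉ A → TrivAtFin v x) ∧ T5.InIwahori u x) ∧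
      ∀ (T : Finset (HeightOneSpectrum (𝓞 K)))
        (f₀ : ∀ v : HeightOneSpectrum (𝓞 K), GL (Fin 2) (v.adicCompletion K) → ℂ)
        (Ar : G K → ℂ),
        (∀ x y : G K, (∀ w : InfinitePlace K, TrivAtInf w x) → Ar (x⁻¹ * y) = Ar y) →
        A ⊆ T → (∀ v ∈ A, f₀ v = unitFn893 (m v)) →
        ∀ y : G K, ∑ x ∈ s, β x * pureA75 T f₀ Ar (x⁻¹ * y)
          = pureA75 T (fun v => if v ∈ A then c v else f₀ v) Ar y := by
  induction A using Finset.induction_on with
  | empty =>
    refine ⟨{1}, fun _ => 1, ?_, ?_⟩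
    · intro x hx
      rw [Finset.mem_singleton] at hx
      subst hx
      exact ⟨fun w => (trivAtInf_iff129 w 1).2 (map_one _),
        fun v _ => (trivAtFin_iff129 v 1).2 (map_one _), inIwahori_one75 u⟩
    · intro T f₀ Ar _ _ _ y
      simp
  | insert v₀ A hv₀ ih =>
    obtain ⟨s, β, hsupp, hrep⟩ := ih (fun v hv => hL v (Finset.mem_insert_of_mem hv))
    obtain ⟨R, hRI, hR⟩ := hL v₀ (Finset.mem_insert_self _ _)
    let X : G K × GL (Fin 2) (v₀.adicCompletion K) → G K := fun p => p.1 * locFin129 v₀ p.2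
    refine ⟨(s ×ˢ R).image X,
      fun z => ∑ p ∈ (s ×ˢ R) with X p = z, β p.1 * c v₀ p.2, ?_, ?_⟩
    · intro z hz
      obtain ⟨p, hp, rfl⟩ := Finset.mem_image.mp hz
      have hp1 : p.1 ∈ s := (Finset.mem_product.mp hp).1
      have hp2 : p.2 ∈ R := (Finset.mem_product.mp hp).2
      refine ⟨fun w => ?_, fun v hv => ?_, ?_⟩
      · rw [trivAtInf_iff129]
        show infCompHom129 w (p.1 * locFin129 v₀ p.2) = 1
        rw [map_mul, infCompHom129_locFin129, mul_one]
        exact (trivAtInf_iff129 w _).1 ((hsupp p.1 hp1).1 w)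
      · rw [trivAtFin_iff129]
        show finCompHom129 v (p.1 * locFin129 v₀ p.2) = 1
        have hv1 : v ≠ v₀ := fun e => hv (e ▸ Finset.mem_insert_self _ _)
        have hv2 : v ∉ A := fun e => hv (Finset.mem_insert_of_mem e)
        rw [map_mul, finCompHom129_locFin129_of_ne v₀ p.2 hv1, mul_one]
        exact (trivAtFin_iff129 v _).1 ((hsupp p.1 hp1).2.1 v hv2)
      · exact T5.H942.inIwahori_mul942 u (hsupp p.1 hp1).2.2
          (inIwahori_locFin75 u v₀ p.2 (hRI p.2 hp2))
    · intro T f₀ Ar hAr hT hf₀ y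
      have hv₀T : v₀ ∈ T := hT (Finset.mem_insert_self _ _)
      have hAT : A ⊆ T := fun v hv => hT (Finset.mem_insert_of_mem hv)
      rw [Finset.sum_image' (fun p => β p.1 * c v₀ p.2 * pureA75 T f₀ Ar ((X p)⁻¹ * y))]
      swap
      · intro p _
        rw [Finset.sum_mul]
        refine Finset.sum_congr rfl fun q hq => ?_
        rw [(Finset.mem_filter.mp hq).2]
      rw [Finset.sum_product]
      have e1 : ∀ (x : G K) (r : GL (Fin 2) (v₀.adicCompletion K)),
          pureA75 T f₀ Ar ((X (x, r))⁻¹ * y)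
            = pureA75 T (Function.update f₀ v₀ (fun g => f₀ v₀ (r⁻¹ * g))) Ar (x⁻¹ * y) := by
        intro x r
        rw [← pureA_transl75 T f₀ hAr hv₀T r (x⁻¹ * y)]
        congr 1
        simp only [X, mul_inv_rev, mul_assoc]
      simp only [e1]
      rw [Finset.sum_comm]
      have e2 : ∀ r : GL (Fin 2) (v₀.adicCompletion K),
          ∑ x ∈ s, β x * c v₀ r
              * pureA75 T (Function.update f₀ v₀ (fun g => f₀ v₀ (r⁻¹ * g))) Ar (x⁻¹ * y)
            = c v₀ r * (unitFn893 (m v₀) (r⁻¹ * finGL305 v₀ y)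
                * restA75 T (fun v => if v ∈ A then c v else f₀ v) Ar v₀ y) := by
        intro r
        have hf : ∀ v ∈ A, Function.update f₀ v₀ (fun g => f₀ v₀ (r⁻¹ * g)) v
            = unitFn893 (m v) := by
          intro v hv
          rw [Function.update_of_ne (ne_of_mem_of_not_mem hv hv₀),
            hf₀ v (Finset.mem_insert_of_mem hv)]
        have e3 : (fun v => if v ∈ A then c v
              else Function.update f₀ v₀ (fun g => f₀ v₀ (r⁻¹ * g)) v)
            = Function.update (fun v => if v ∈ A then c v else f₀ v) v₀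
                (fun g => unitFn893 (m v₀) (r⁻¹ * g)) := by
          funext v
          by_cases hv : v = v₀
          · subst hv
            rw [if_neg hv₀, Function.update_self, Function.update_self,
              hf₀ v (Finset.mem_insert_self _ _)]
          · rw [Function.update_of_ne hv, Function.update_of_ne hv]
        calc ∑ x ∈ s, β x * c v₀ r
              * pureA75 T (Function.update f₀ v₀ (fun g => f₀ v₀ (r⁻¹ * g))) Ar (x⁻¹ * y)
            = c v₀ r * ∑ x ∈ s, β x
                * pureA75 T (Function.update f₀ v₀ (fun g => f₀ v₀ (r⁻¹ * g))) Ar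
                    (x⁻¹ * y) := by
              rw [Finset.mul_sum]
              refine Finset.sum_congr rfl fun x _ => ?_
              ring
          _ = c v₀ r * pureA75 T (fun v => if v ∈ A then c v
                else Function.update f₀ v₀ (fun g => f₀ v₀ (r⁻¹ * g)) v) Ar y := by
              rw [hrep T _ Ar hAr hAT hf y]
          _ = c v₀ r * pureA75 T (Function.update (fun v => if v ∈ A then c v else f₀ v) v₀
                (fun g => unitFn893 (m v₀) (r⁻¹ * g))) Ar y := by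
              rw [e3]
          _ = c v₀ r * (unitFn893 (m v₀) (r⁻¹ * finGL305 v₀ y)
                * restA75 T (fun v => if v ∈ A then c v else f₀ v) Ar v₀ y) := by
              rw [pureA_update75 T _ Ar hv₀T]
      simp only [e2]
      have e4 : (fun v => if v ∈ insert v₀ A then c v else f₀ v)
          = Function.update (fun v => if v ∈ A then c v else f₀ v) v₀ (c v₀) := by
        funext v
        by_cases hv : v = v₀
        · subst hv
          rw [if_pos (Finset.mem_insert_self _ _), Function.update_self]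
        · rw [Function.update_of_ne hv]
          by_cases hvA : v ∈ A
          · rw [if_pos (Finset.mem_insert_of_mem hvA), if_pos hvA]
          · rw [if_neg hvA, if_neg (fun e => (Finset.mem_insert.mp e).elim hv hvA)]
      rw [e4, pureA_update75 T _ Ar hv₀T, ← hR (finGL305 v₀ y), Finset.sum_mul]
      refine Finset.sum_congr rfl fun r _ => ?_
      ring

open Classical in
/-- **The swap downstairs as a combination of left translates**: the components `iwFn893` at
`u` and `b v` at the other places of `T₀` (bi-invariant of finite support), for a level with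
`u ∣ 𝔫`. -/
theorem swap_sum75 {𝔫 : Ideal (𝓞 K)} (h𝔫 : 𝔫 ≠ ⊥) {m : HeightOneSpectrum (𝓞 K) → ℕ}
    (hm : IsLevelOf893 𝔫 m) {u : HeightOneSpectrum (𝓞 K)} (hu : u.asIdeal ∣ 𝔫)
    (T₀ : Finset (HeightOneSpectrum (𝓞 K)))
    (b : ∀ v : HeightOneSpectrum (𝓞 K), GL (Fin 2) (v.adicCompletion K) → ℂ)
    (hb : ∀ v ∈ T₀.erase u,
      T6.IsBiInv (T6.InU (m v)) (b v) ∧ T6.HasFinSupp (T6.InU (m v)) (b v)) :
    ∃ (s : Finset (G K)) (β : G K → ℂ),
      (∀ x ∈ s, (∀ w : InfinitePlace K, TrivAtInf w x) ∧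
        (∀ v : HeightOneSpectrum (𝓞 K), v ∉ T₀ → TrivAtFin v x) ∧ T5.InIwahori u x) ∧
      ∀ (T : Finset (HeightOneSpectrum (𝓞 K)))
        (f₀ : ∀ v : HeightOneSpectrum (𝓞 K), GL (Fin 2) (v.adicCompletion K) → ℂ)
        (Ar : G K → ℂ),
        (∀ x y : G K, (∀ w : InfinitePlace K, TrivAtInf w x) → Ar (x⁻¹ * y) = Ar y) →
        T₀ ⊆ T → (∀ v ∈ T₀, f₀ v = unitFn893 (m v)) →
        ∀ y : G K, ∑ x ∈ s, β x * pureA75 T f₀ Ar (x⁻¹ * y)
          = pureA75 T (fun v => if v ∈ T₀ then (if v = u then iwFn893 else b v) else f₀ v)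
              Ar y := by
  classical
  have hmu : 1 ≤ m u := H470.one_le_of_dvd470 hm hu
  refine wtA_induct75 u m (fun v => if v = u then iwFn893 else b v) T₀ fun v hv => ?_
  by_cases hvu : v = u
  · simp only [if_pos hvu]
    have hm1 : 1 ≤ m v := hvu ▸ hmu
    obtain ⟨R, hR0, hR⟩ := local_decomp75 (m v) iwFn893
      (fun g u' hu' => H470.iwFn_mul470 hm1 g u' hu') (H470.iw_finSupp470 h𝔫 hm v)
    exact ⟨R, fun r hr _ => inIw_of_ne75 (hR0 r hr), hR⟩
  · simp only [if_neg hvu]
    obtain ⟨hbi, hfs⟩ := hb v (Finset.mem_erase.mpr ⟨hvu, hv⟩)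
    obtain ⟨R, -, hR⟩ := local_decomp75 (m v) (b v) (fun g u' hu' => by
      have := hbi 1 u' g (H470.inU_one470 _) hu'
      rwa [one_mul] at this) hfs
    exact ⟨R, fun r _ h => absurd h hvu, hR⟩

end Global

end Fermat.Agent.LT.T7.H75.SQ

end

end
-- ===== PACK-END LT/T7/H75/SwapSum.lean

-- ===== PACK-BEGIN LT/T7/H922/SphMean.lean
section





/-!
# Row LT, tower T7, cut of `B981.StepMC981` (helper445): the LOCAL SPHERE MEAN on `GL₂(ℂ)`
# (helper922, SPARE)

OFF-MAIN.  ADDITIVE (new names only, all ending in `922`).  `GL₂(ℂ)` only.  Closed assets: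
`T2.H197.subS2Rot_stmt197` (rotation invariance of `sin β dβ dα`), `T7.H44` (the Gelfand pair
`(GL₂(ℂ), U(2))`), `T6.H8` (unimodularity), `T6.H698` (soft properties of the convolution).

* `continuous_sph922`: the sphere family is continuous;
* `continuous_sphMeanC922`, `hasCompactSupport_sphMeanC922`, `isBiU_sphMeanC922`: the local sphere
  mean preserves continuity, compact support, bi-invariance under `U(2)`;
* `convInt_sphMeanC922`: `A ⋆ M B = M (A ⋆ B)` (Fubini);
* `sphMeanC_convInt922`: `M A ⋆ B = M (A ⋆ B)` (commutativity of the bi-invariant functions).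
-/

set_option autoImplicit false
set_option linter.unusedSectionVars false
set_option linter.unusedVariables false

open MeasureTheory Set
open scoped ComplexConjugate Pointwise

noncomputable section

namespace Fermat.Agent.LT.T7.H922

open Fermat.Agent.LT Fermat.Agent.LT.H556.A0 Fermat.Agent.LT.T7.H305 Fermat.Agent.LT.T7.H445
open Fermat.Agent.LT.T7.H44

/-! ## 1. Continuity of the sphere family -/

/-- A map to `GL₂(ℂ)` with continuous matrix is continuous. -/
theorem continuous_GL_of_val922 {X : Type*} [TopologicalSpace X] (f : X → GL (Fin 2) ℂ)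
    (h : Continuous fun x => ((f x : GL (Fin 2) ℂ) : Matrix (Fin 2) (Fin 2) ℂ)) :
    Continuous f := by
  rw [Units.continuous_iff]
  refine ⟨h, ?_⟩
  have hdet : ∀ x, ((f x : GL (Fin 2) ℂ) : Matrix (Fin 2) (Fin 2) ℂ).det ≠ 0 := fun x =>
    ((Matrix.isUnit_iff_isUnit_det _).1 (f x).isUnit).ne_zero
  have e : (fun x => (((f x)⁻¹ : GL (Fin 2) ℂ) : Matrix (Fin 2) (Fin 2) ℂ))
      = fun x => (((f x : GL (Fin 2) ℂ) : Matrix (Fin 2) (Fin 2) ℂ).det)⁻¹
          • ((f x : GL (Fin 2) ℂ) : Matrix (Fin 2) (Fin 2) ℂ).adjugate := by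
    funext x
    rw [Matrix.coe_units_inv, Matrix.inv_def, Ring.inverse_eq_inv']
  rw [e]
  exact (h.matrix_det.inv₀ hdet).smul h.matrix_adjugate

theorem continuous_rotZ922 : Continuous rotZ := by
  have e : rotZ = fun α : ℝ => !![Complex.exp (Complex.I * ((α / 2 : ℝ) : ℂ)), 0;
      0, Complex.exp (-(Complex.I * ((α / 2 : ℝ) : ℂ)))] := rfl
  rw [e]
  refine continuous_matrix fun i j => ?_
  fin_cases i <;> fin_cases j
  · show Continuous fun α : ℝ => Complex.exp (Complex.I * ((α / 2 : ℝ) : ℂ))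
    fun_prop
  · show Continuous fun _ : ℝ => (0 : ℂ)
    exact continuous_const
  · show Continuous fun _ : ℝ => (0 : ℂ)
    exact continuous_const
  · show Continuous fun α : ℝ => Complex.exp (-(Complex.I * ((α / 2 : ℝ) : ℂ)))
    fun_prop

theorem continuous_rotY922 : Continuous rotY := by
  have e : rotY = fun β : ℝ => !![((Real.cos (β / 2) : ℝ) : ℂ), -((Real.sin (β / 2) : ℝ) : ℂ);
      ((Real.sin (β / 2) : ℝ) : ℂ), ((Real.cos (β / 2) : ℝ) : ℂ)] := rfl
  rw [e]
  refine continuous_matrix fun i j => ?_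
  fin_cases i <;> fin_cases j
  · show Continuous fun β : ℝ => ((Real.cos (β / 2) : ℝ) : ℂ)
    fun_prop
  · show Continuous fun β : ℝ => -((Real.sin (β / 2) : ℝ) : ℂ)
    fun_prop
  · show Continuous fun β : ℝ => ((Real.sin (β / 2) : ℝ) : ℂ)
    fun_prop
  · show Continuous fun β : ℝ => ((Real.cos (β / 2) : ℝ) : ℂ)
    fun_prop

/-- The sphere family is continuous. -/
theorem continuous_sph922 {d : ℝ} {y : ℝ → ℝ → GL (Fin 2) ℂ} (hy : IsSphC445 d y) :
    Continuous (fun p : ℝ × ℝ => y p.1 p.2) := by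
  apply continuous_GL_of_val922
  have e : (fun p : ℝ × ℝ => ((y p.1 p.2 : GL (Fin 2) ℂ) : Matrix (Fin 2) (Fin 2) ℂ))
      = fun p => rotZ p.1 * rotY p.2 * torus d := funext fun p => hy p.1 p.2
  rw [e]
  exact ((continuous_rotZ922.comp continuous_fst).matrix_mul
    (continuous_rotY922.comp continuous_snd)).matrix_mul continuous_const

/-! ## 2. The local sphere mean preserves the good functions -/

section Mean

variable {d : ℝ} {y : ℝ → ℝ → GL (Fin 2) ℂ}

theorem sphMeanC_apply922 (y : ℝ → ℝ → GL (Fin 2) ℂ) (Φ : GL (Fin 2) ℂ → ℂ)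
    (g : GL (Fin 2) ℂ) :
    sphMeanC445 y Φ g = ∫ α in (0 : ℝ)..(2 * Real.pi), ∫ β in (0 : ℝ)..Real.pi,
      Φ (g * y α β) * ((Real.sin β : ℝ) : ℂ) := rfl

theorem continuous_sphMeanC922 (hy : IsSphC445 d y) {Φ : GL (Fin 2) ℂ → ℂ}
    (hΦ : Continuous Φ) : Continuous (sphMeanC445 y Φ) := by
  have hyc := continuous_sph922 hy
  have h1 : Continuous (Function.uncurry fun (q : GL (Fin 2) ℂ × ℝ) (β : ℝ) =>
      Φ (q.1 * y q.2 β) * ((Real.sin β : ℝ) : ℂ)) := by
    refine (hΦ.comp ?_).mul ?_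
    · exact (continuous_fst.comp continuous_fst).mul
        (hyc.comp ((continuous_snd.comp continuous_fst).prodMk continuous_snd))
    · exact Complex.continuous_ofReal.comp (Real.continuous_sin.comp continuous_snd)
  have h2 : Continuous fun q : GL (Fin 2) ℂ × ℝ =>
      ∫ β in (0 : ℝ)..Real.pi, Φ (q.1 * y q.2 β) * ((Real.sin β : ℝ) : ℂ) :=
    intervalIntegral.continuous_parametric_intervalIntegral_of_continuous' h1 0 Real.pi
  have h3 : Continuous (Function.uncurry fun (g : GL (Fin 2) ℂ) (α : ℝ) =>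
      ∫ β in (0 : ℝ)..Real.pi, Φ (g * y α β) * ((Real.sin β : ℝ) : ℂ)) := h2
  exact intervalIntegral.continuous_parametric_intervalIntegral_of_continuous' h3 0 (2 * Real.pi)

theorem sphMeanC_eq_zero922 {Φ : GL (Fin 2) ℂ → ℂ} {g : GL (Fin 2) ℂ}
    (h0 : ∀ α ∈ Icc (0 : ℝ) (2 * Real.pi), ∀ β ∈ Icc (0 : ℝ) Real.pi, Φ (g * y α β) = 0) :
    sphMeanC445 y Φ g = 0 := by
  have hpi : (0 : ℝ) ≤ Real.pi := Real.pi_pos.le
  have h2pi : (0 : ℝ) ≤ 2 * Real.pi := by positivity
  rw [sphMeanC_apply922]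
  have e1 : Set.EqOn (fun α : ℝ => ∫ β in (0 : ℝ)..Real.pi,
      Φ (g * y α β) * ((Real.sin β : ℝ) : ℂ)) (fun _ => (0 : ℂ)) (Set.uIcc 0 (2 * Real.pi)) := by
    intro α hα
    rw [Set.uIcc_of_le h2pi] at hα
    show ∫ β in (0 : ℝ)..Real.pi, Φ (g * y α β) * ((Real.sin β : ℝ) : ℂ) = 0
    have e2 : Set.EqOn (fun β : ℝ => Φ (g * y α β) * ((Real.sin β : ℝ) : ℂ))
        (fun _ => (0 : ℂ)) (Set.uIcc 0 Real.pi) := by
      intro β hβ
      rw [Set.uIcc_of_le hpi] at hβ
      show Φ (g * y α β) * ((Real.sin β : ℝ) : ℂ) = 0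
      rw [h0 α hα β hβ, zero_mul]
    rw [intervalIntegral.integral_congr e2]
    simp
  rw [intervalIntegral.integral_congr e1]
  simp

theorem hasCompactSupport_sphMeanC922 (hy : IsSphC445 d y) {Φ : GL (Fin 2) ℂ → ℂ}
    (hΦs : HasCompactSupport Φ) : HasCompactSupport (sphMeanC445 y Φ) := by
  have hyc := continuous_sph922 hy
  set B : Set (ℝ × ℝ) := Icc 0 (2 * Real.pi) ×ˢ Icc 0 Real.pi with hBdef
  have hB : IsCompact B := isCompact_Icc.prod isCompact_Icc
  set Cy : Set (GL (Fin 2) ℂ) := (fun p : ℝ × ℝ => (y p.1 p.2)⁻¹) '' B with hCydef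
  have hCy : IsCompact Cy := hB.image (continuous_inv.comp hyc)
  have hC : IsCompact (tsupport Φ * Cy) := IsCompact.mul hΦs hCy
  refine HasCompactSupport.intro hC fun g hg => ?_
  refine sphMeanC_eq_zero922 fun α hα β hβ => ?_
  by_contra hne
  apply hg
  refine Set.mem_mul.2 ⟨g * y α β, subset_tsupport _ hne, (y α β)⁻¹, ⟨(α, β), ⟨hα, hβ⟩, rfl⟩, ?_⟩
  group

/-- The extension to the matrices of `u ↦ Φ (a * u)`. -/
def extM922 (Φ : GL (Fin 2) ℂ → ℂ) (a : GL (Fin 2) ℂ) (m : Matrix (Fin 2) (Fin 2) ℂ) : ℂ :=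
  open Classical in if h : IsUnit m then Φ (a * h.unit) else 0

theorem extM_coe922 (Φ : GL (Fin 2) ℂ → ℂ) (a u : GL (Fin 2) ℂ) :
    extM922 Φ a (u : Matrix (Fin 2) (Fin 2) ℂ) = Φ (a * u) := by
  have hu : IsUnit (u : Matrix (Fin 2) (Fin 2) ℂ) := u.isUnit
  show (open Classical in if h : IsUnit (u : Matrix (Fin 2) (Fin 2) ℂ) then Φ (a * h.unit) else 0)
    = Φ (a * u)
  rw [dif_pos hu, IsUnit.unit_of_val_units]

theorem extM_not922 (Φ : GL (Fin 2) ℂ → ℂ) (a : GL (Fin 2) ℂ) {m : Matrix (Fin 2) (Fin 2) ℂ}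
    (hm : ¬ IsUnit m) : extM922 Φ a m = 0 := by
  show (open Classical in if h : IsUnit m then Φ (a * h.unit) else 0) = 0
  rw [dif_neg hm]

theorem continuousOn_extM922 {Φ : GL (Fin 2) ℂ → ℂ} (hΦ : Continuous Φ) (a : GL (Fin 2) ℂ) :
    ContinuousOn (extM922 Φ a) {m | m.det ≠ 0} := by
  rw [continuousOn_iff_continuous_domRestrict]
  have hU : ∀ m : {m : Matrix (Fin 2) (Fin 2) ℂ | m.det ≠ 0},
      IsUnit (m : Matrix (Fin 2) (Fin 2) ℂ) := fun m =>
    (Matrix.isUnit_iff_isUnit_det _).2 (IsUnit.mk0 _ m.2)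
  set f : {m : Matrix (Fin 2) (Fin 2) ℂ | m.det ≠ 0} → GL (Fin 2) ℂ := fun m => (hU m).unit
    with hf
  have hfc : Continuous f := by
    apply continuous_GL_of_val922
    have e : (fun m => ((f m : GL (Fin 2) ℂ) : Matrix (Fin 2) (Fin 2) ℂ))
        = fun m : {m : Matrix (Fin 2) (Fin 2) ℂ | m.det ≠ 0} =>
          (m : Matrix (Fin 2) (Fin 2) ℂ) := funext fun m => (hU m).unit_spec
    rw [e]
    exact continuous_subtype_val
  have e : Set.domRestrict {m : Matrix (Fin 2) (Fin 2) ℂ | m.det ≠ 0} (extM922 Φ a)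
      = fun m => Φ (a * f m) := by
    funext m
    show extM922 Φ a (m : Matrix (Fin 2) (Fin 2) ℂ) = Φ (a * f m)
    have h1 : (m : Matrix (Fin 2) (Fin 2) ℂ) = ((f m : GL (Fin 2) ℂ) : Matrix (Fin 2) (Fin 2) ℂ) :=
      ((hU m).unit_spec).symm
    rw [h1, extM_coe922]
  rw [e]
  exact hΦ.comp (continuous_const.mul hfc)

theorem extM_inv922 {Φ : GL (Fin 2) ℂ → ℂ} (hΦ : IsBiU44 Φ) (a : GL (Fin 2) ℂ)
    (m k : Matrix (Fin 2) (Fin 2) ℂ) (hk : k * k.conjTranspose = 1) :
    extM922 Φ a (m * k) = extM922 Φ a m := by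
  have hone : ((1 : GL (Fin 2) ℂ) : Matrix (Fin 2) (Fin 2) ℂ)
      * ((1 : GL (Fin 2) ℂ) : Matrix (Fin 2) (Fin 2) ℂ).conjTranspose = 1 := by simp
  set Kk : GL (Fin 2) ℂ := unitGL44 k hk with hKk
  have hKv : ((Kk : GL (Fin 2) ℂ) : Matrix (Fin 2) (Fin 2) ℂ) = k := rfl
  by_cases hm : IsUnit m
  · set u : GL (Fin 2) ℂ := hm.unit with hu
    have hmu : m = ((u : GL (Fin 2) ℂ) : Matrix (Fin 2) (Fin 2) ℂ) := (hm.unit_spec).symm
    have e1 : m * k = (((u * Kk : GL (Fin 2) ℂ)) : Matrix (Fin 2) (Fin 2) ℂ) := by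
      rw [Matrix.GeneralLinearGroup.coe_mul, hKv, ← hmu]
    rw [e1, extM_coe922, hmu, extM_coe922]
    have e2 : a * (u * Kk) = 1 * (a * u) * Kk := by group
    rw [e2]
    exact hΦ 1 Kk (a * u) hone hk
  · have hmk : ¬ IsUnit (m * k) := by
      intro h
      apply hm
      have e : m = m * k * k.conjTranspose := by
        rw [Matrix.mul_assoc, hk, Matrix.mul_one]
      rw [e]
      exact h.mul (Kk⁻¹).isUnit
    rw [extM_not922 Φ a hm, extM_not922 Φ a hmk]

/-- The local sphere mean of a continuous bi-invariant function is bi-invariant. -/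
theorem isBiU_sphMeanC922 (hy : IsSphC445 d y) {Φ : GL (Fin 2) ℂ → ℂ} (hΦ : Continuous Φ)
    (hb : IsBiU44 Φ) : IsBiU44 (sphMeanC445 y Φ) := by
  intro k₁ k₂ g h1 h2
  have hone : ((1 : GL (Fin 2) ℂ) : Matrix (Fin 2) (Fin 2) ℂ)
      * ((1 : GL (Fin 2) ℂ) : Matrix (Fin 2) (Fin 2) ℂ).conjTranspose = 1 := by simp
  have hrot := Fermat.Agent.LT.T2.H197.subS2Rot_stmt197 (extM922 Φ (k₁ * g))
    (continuousOn_extM922 hΦ (k₁ * g)) (extM_inv922 hb (k₁ * g))
    (k₂ : Matrix (Fin 2) (Fin 2) ℂ) h2 d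
  have eL : ∀ α β : ℝ, extM922 Φ (k₁ * g)
      ((k₂ : Matrix (Fin 2) (Fin 2) ℂ) * (rotZ α * rotY β * torus d))
      = Φ (k₁ * g * k₂ * y α β) := by
    intro α β
    have e : (k₂ : Matrix (Fin 2) (Fin 2) ℂ) * (rotZ α * rotY β * torus d)
        = (((k₂ * y α β : GL (Fin 2) ℂ)) : Matrix (Fin 2) (Fin 2) ℂ) := by
      rw [Matrix.GeneralLinearGroup.coe_mul, hy α β]
    have e' : k₁ * g * (k₂ * y α β) = k₁ * g * k₂ * y α β := by group
    rw [e, extM_coe922, e']
  have eR : ∀ α β : ℝ, extM922 Φ (k₁ * g) (rotZ α * rotY β * torus d)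
      = Φ (g * y α β) := by
    intro α β
    rw [← hy α β, extM_coe922]
    have e : k₁ * g * y α β = k₁ * (g * y α β) * 1 := by group
    rw [e]
    exact hb k₁ 1 (g * y α β) h1 hone
  rw [sphMeanC_apply922, sphMeanC_apply922]
  simp only [eL, eR] at hrot
  exact hrot

end Mean

end Fermat.Agent.LT.T7.H922

end

end
-- ===== PACK-END LT/T7/H922/SphMean.lean

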