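import Mathlib
import Fermat.Agent.Pack.LT4.E7L2
import Fermat.Agent.Pack.LT3.E19L2
import Fermat.Agent.Pack.LT3.E17L1
import Fermat.Agent.Pack.LT3.E21L1
import Fermat.Agent.Pack.LT3.E25L2
import Fermat.Agent.Pack.LT4.E7L3
import Fermat.Agent.Pack.LT3.E23L0
import Fermat.Agent.Pack.LT3.E22L1
import Fermat.Agent.Pack.LT3.E11L3
import Fermat.Agent.Pack.LT2.E7L1
import Fermat.Agent.Pack.LT3.E26L3
import Fermat.Agent.Pack.LT3.E22L3
import Fermat.Agent.Pack.LT4.E1L3
import Fermat.Agent.Pack.LT2.E8L1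
import Fermat.Agent.Pack.LT3.E11L0
import Fermat.Agent.Pack.LT3.E11L1
import Fermat.Agent.Pack.LT4.E4L2
import Fermat.Agent.Pack.LT3.E29L3
import Fermat.Agent.Pack.LT4.E7L1
import Fermat.Agent.Pack.LT4.E5L0
import Fermat.Agent.Pack.LT4.E7L0

set_option linter.all false

-- ===== PACK-BEGIN LT/T2/H291/AdmissibleT.lean
section





/-!
# Row LT, tower T2, class of T5: ADMISSIBILITY AT THE REAL PLACES (helper291)

OFF-MAIN.  ADDITIVE, PROVED, UNCONDITIONAL.  Mirror, for the class `(𝔫, τ, r)` of T5 and the REAL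
places, of `LT/T2/Admissible.lean` (helper130, totally complex fields, trivial type).

For a totally real field (in particular `ℚ`), every level `𝔫 ≠ 0` and every `K_∞`-type `τ`: the
members of an orthonormal family of cusp functions of the class `(𝔫, τ, r)` which are invariant
under the positive scalars at the infinite places and have the same eigenvalue functions of the
`τ`-twisted circle means (`T2.MeanEigRT`) are FINITE in number (`finite_meanClassT291`); the
index type of ANY orthonormal family of cusp functions of the class is countable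
(`countable_indexT291`).  No eigen-condition for the other operators is needed.

Proof.  `B_u(h) = ∫_D u(g h) conj u(g) dμ(g)` (matrix coefficient, `H770.B770`).
* `B_u(k h) = τ(k) B_u(h)`, `B_u(h k) = τ(k) B_u(h)` for `k` in the compact group at `w`
  (`H899.B_leftT899`), `B_u` is right invariant under the positive scalars and under `U(𝔫)`;
* for `a` of component `torus t` at the real place `w`, `t > 0`, and `h'` trivial at `w`:
  `2π B_u(a h') = m_w(t) B_u(h')` (Fubini, `fubini_pair130`, and the circle mean);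
* Cartan decomposition of `GL₂⁺(ℝ)` (`cartan_torusR291`, from `subCartanInf555`), induction over
  the places: `B_u = B_{u'}` on the elements which are trivial at the finite places and have a
  positive determinant at every infinite place, when `u`, `u'` have the same eigenvalue
  functions (`coef_eqT291`);
* Fubini again: `⟨R(f) u, u⟩ = ∫ f(h) B_u(h) dμ(h)`; for the approximate identity of helper354
  (supported in `GL₂⁺(K_∞) U(𝔫)`) it depends on the eigenvalue functions only;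
* Hilbert--Schmidt (`HSBoundT`) and Cauchy--Schwarz in the pre-Hilbert space of the class
  (`H560.V560`): for a test function `f` only finitely many members of an orthonormal family
  have `|⟨R(f) u, u⟩| > 1/2` (`finite_coefLargeT291`); approximate identity:
  `⟨R(f_k) u, u⟩ → 1` (`large_of_approxT291`).
-/

set_option autoImplicit false
set_option linter.unusedSectionVars false
set_option linter.unusedVariables false
set_option linter.style.haveILetI false

open IsDedekindDomain NumberField MeasureTheory Filter Topology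
open Fermat.Agent.LT.H556.A0
open scoped ComplexConjugate Matrix

noncomputable section

namespace Fermat.Agent.LT.T2.H291

open Fermat.Agent.LT.T2

attribute [local instance] Fermat.Agent.LT.T2.borelG

/-! ## 1. The Cartan decomposition of `GL₂⁺(ℝ)` with a torus element -/

/-- Real special orthogonal matrices, as complex matrices. -/
def IsSOT291 (U : Matrix (Fin 2) (Fin 2) ℂ) : Prop :=
  U * Uᴴ = 1 ∧ (∀ i j, (U i j).im = 0) ∧ U.det = 1

theorem IsSOT291.mul {U V : Matrix (Fin 2) (Fin 2) ℂ} (hU : IsSOT291 U) (hV : IsSOT291 V) :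
    IsSOT291 (U * V) := by
  refine ⟨H770.unitary_mul770 hU.1 hV.1, fun i j => ?_, by rw [Matrix.det_mul, hU.2.2, hV.2.2,
    one_mul]⟩
  rw [Matrix.mul_apply, Fin.sum_univ_two, Complex.add_im, Complex.mul_im, Complex.mul_im,
    hU.2.1, hU.2.1, hV.2.1, hV.2.1]
  ring

theorem isSOT_rotY291 (θ : ℝ) : IsSOT291 (rotY θ) := by
  refine ⟨H770.rotY_unitary770 θ, fun i j => ?_, H770.rotY_det770 θ⟩
  unfold rotY
  fin_cases i <;> fin_cases j
  · exact Complex.ofReal_im _
  · show (-((Real.sin (θ / 2) : ℝ) : ℂ)).im = 0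
    rw [Complex.neg_im, Complex.ofReal_im, neg_zero]
  · exact Complex.ofReal_im _
  · exact Complex.ofReal_im _

/-- The scalar matrix `ε`, `ε = ± 1`, is special orthogonal. -/
theorem isSOT_sign291 {ε : ℝ} (hε : ε * ε = 1) :
    IsSOT291 (Matrix.diagonal ![(ε : ℂ), (ε : ℂ)]) := by
  have hc : (ε : ℂ) * (ε : ℂ) = 1 := by
    rw [← Complex.ofReal_mul, hε, Complex.ofReal_one]
  have e : (Matrix.diagonal ![(ε : ℂ), (ε : ℂ)] : Matrix (Fin 2) (Fin 2) ℂ)
      = !![(ε : ℂ), 0; 0, (ε : ℂ)] := by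
    ext i j
    fin_cases i <;> fin_cases j <;> simp
  refine ⟨?_, fun i j => ?_, ?_⟩
  · rw [e]
    exact H770.diag_unitary770 (by rw [Complex.conj_ofReal]; exact hc)
      (by rw [Complex.conj_ofReal]; exact hc)
  · rw [e]
    fin_cases i <;> fin_cases j <;> simp
  · rw [Matrix.det_diagonal, Fin.prod_univ_two]
    simpa using hc

/-- A real diagonal matrix with entries of the same sign is a sign times the diagonal matrix of
the absolute values. -/
theorem diag_signT291 {a b : ℝ} (hab : 0 < a * b) :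
    ∃ ε : ℝ, ε * ε = 1 ∧
      (Matrix.diagonal ![(a : ℂ), (b : ℂ)] : Matrix (Fin 2) (Fin 2) ℂ)
        = Matrix.diagonal ![(ε : ℂ), (ε : ℂ)]
          * Matrix.diagonal ![((|a| : ℝ) : ℂ), ((|b| : ℝ) : ℂ)] := by
  rcases lt_or_gt_of_ne (show a ≠ 0 from fun h => by rw [h, zero_mul] at hab; exact lt_irrefl _ hab)
    with ha | ha
  · have hb : b < 0 := by
      by_contra h
      push Not at h
      nlinarith
    refine ⟨-1, by norm_num, ?_⟩
    rw [Matrix.diagonal_mul_diagonal, abs_of_neg ha, abs_of_neg hb]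
    congr 1
    funext i
    fin_cases i <;> simp
  · have hb : 0 < b := by
      by_contra h
      push Not at h
      nlinarith
    refine ⟨1, by norm_num, ?_⟩
    rw [Matrix.diagonal_mul_diagonal, abs_of_pos ha, abs_of_pos hb]
    congr 1
    funext i
    fin_cases i <;> simp

/-- **The Cartan decomposition of `GL₂⁺(ℝ)` with a torus element**: every real matrix of
positive determinant is `U₁ · torus d · U₂ · r` with `U₁`, `U₂` in `SO(2)`, `d ≥ 0`, `r > 0`. -/
theorem cartan_torusR291 (X : Matrix (Fin 2) (Fin 2) ℂ) (hre : ∀ i j, (X i j).im = 0)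
    (hX : 0 < X.det.re) :
    ∃ (U₁ U₂ : Matrix (Fin 2) (Fin 2) ℂ) (d r : ℝ), IsSOT291 U₁ ∧ IsSOT291 U₂ ∧ 0 ≤ d ∧
      0 < r ∧ X = U₁ * torus d * U₂ * Matrix.diagonal (fun _ => (r : ℂ)) := by
  have hX0 : X.det ≠ 0 := fun h => by rw [h, Complex.zero_re] at hX; exact lt_irrefl _ hX
  obtain ⟨k₁, k₂, a, b, hk₁, hk₂, hXe, hreal⟩ := H555.subCartanInf555 X hX0
  obtain ⟨hk₁r, hk₂r, hk₁d, hk₂d, ha, hb⟩ := hreal hre
  have hK₁ : IsSOT291 k₁ := ⟨hk₁, hk₁r, hk₁d⟩
  have hK₂ : IsSOT291 k₂ := ⟨hk₂, hk₂r, hk₂d⟩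
  have hae : a = ((a.re : ℝ) : ℂ) := Complex.ext rfl (by rw [Complex.ofReal_im, ha])
  have hbe : b = ((b.re : ℝ) : ℂ) := Complex.ext rfl (by rw [Complex.ofReal_im, hb])
  have hdet : X.det = ((a.re * b.re : ℝ) : ℂ) := by
    rw [hXe, Matrix.det_mul, Matrix.det_mul, Matrix.det_diagonal, Fin.prod_univ_two, hk₁d, hk₂d]
    simp only [Matrix.cons_val_zero, Matrix.cons_val_one]
    rw [one_mul, mul_one, Complex.ofReal_mul, ← hae, ← hbe]
  have hab : 0 < a.re * b.re := by
    rw [hdet, Complex.ofReal_re] at hX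
    exact hX
  obtain ⟨ε, hε, hsign⟩ := diag_signT291 hab
  have hE := isSOT_sign291 hε
  have hna : 0 < |a.re| := abs_pos.2 (fun h => by rw [h, zero_mul] at hab; exact lt_irrefl _ hab)
  have hnb : 0 < |b.re| := abs_pos.2 (fun h => by rw [h, mul_zero] at hab; exact lt_irrefl _ hab)
  have hXe' : X = k₁ * (Matrix.diagonal ![(ε : ℂ), (ε : ℂ)]
      * Matrix.diagonal ![((|a.re| : ℝ) : ℂ), ((|b.re| : ℝ) : ℂ)]) * k₂ := by
    rw [← hsign, ← hae, ← hbe]
    exact hXe
  rcases le_total |b.re| |a.re| with hle | hle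
  · obtain ⟨d, r, hd, hr, hdr⟩ := posDiag_eq130 hnb hle
    refine ⟨k₁ * Matrix.diagonal ![(ε : ℂ), (ε : ℂ)], k₂, d, r, hK₁.mul hE, hK₂, hd, hr, ?_⟩
    rw [hXe', hdr]
    simp only [Matrix.mul_assoc]
    rw [scalar_comm130 (r : ℂ) k₂]
  · obtain ⟨d, r, hd, hr, hdr⟩ := posDiag_eq130 hna hle
    refine ⟨k₁ * Matrix.diagonal ![(ε : ℂ), (ε : ℂ)] * rotY Real.pi, rotY (-Real.pi) * k₂, d, r,
      (hK₁.mul hE).mul (isSOT_rotY291 _), (isSOT_rotY291 _).mul hK₂, hd, hr, ?_⟩
    have hsw : (Matrix.diagonal ![((|a.re| : ℝ) : ℂ), ((|b.re| : ℝ) : ℂ)] :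
        Matrix (Fin 2) (Fin 2) ℂ)
        = rotY Real.pi * (torus d * Matrix.diagonal (fun _ => (r : ℂ))) * rotY (-Real.pi) := by
      rw [← hdr, weyl_diag130]
    rw [hXe', hsw]
    simp only [Matrix.mul_assoc]
    rw [scalar_comm130 (r : ℂ) (rotY (-Real.pi) * k₂)]
    simp only [Matrix.mul_assoc]

theorem torus_realT291 (d : ℝ) (i j : Fin 2) : (torus d i j).im = 0 := by
  unfold torus
  fin_cases i <;> fin_cases j
  · exact Complex.ofReal_im _
  · exact Complex.zero_im
  · exact Complex.zero_im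
  · exact Complex.ofReal_im _

theorem scalar_realT291 (r : ℝ) (i j : Fin 2) :
    ((Matrix.diagonal (fun _ : Fin 2 => (r : ℂ)) : Matrix (Fin 2) (Fin 2) ℂ) i j).im = 0 := by
  rw [Matrix.diagonal_apply]
  split_ifs
  · exact Complex.ofReal_im _
  · exact Complex.zero_im

/-! ## 2. The matrix coefficient of the class -/

section Coeff

variable {K : Type} [Field K] [NumberField K]

/-- `u` is right invariant under the positive scalars at the infinite places. -/
def IsScInvT291 (u : G K → ℂ) : Prop :=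
  ∀ (w : InfinitePlace K) (z : G K), IsArchPosScalar w z → ∀ g : G K, u (g * z) = u g

/-- A parametrisation of the rotations at `w`. -/
theorem exists_rotT291 (w : InfinitePlace K) : ∃ k : ℝ → G K, IsRotAt w k := by
  have hex : ∀ θ : ℝ, ∃ g : G K, IsArchCompact w g ∧ infComp w g = rotY θ := fun θ =>
    H878.exists_archCompact878 w (rotY θ) (isSOT_rotY291 θ).1
      (fun _ => ⟨(isSOT_rotY291 θ).2.1, (isSOT_rotY291 θ).2.2⟩)
  choose k hk using hex
  exact ⟨k, fun θ => ⟨(hk θ).1.1, (hk θ).2⟩⟩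

variable (R : FrameR K) {𝔫 : Ideal (𝓞 K)} {τ : G K → ℂ}

theorem coef_right_scalarT291 {u : G K → ℂ} (hu : IsScInvT291 u) (ψ : G K → ℂ)
    {w : InfinitePlace K} {z : G K} (hz : IsArchPosScalar w z) (h : G K) :
    H770.B770 R.F u ψ (h * z) = H770.B770 R.F u ψ h := by
  unfold H770.B770
  congr 1
  funext g
  rw [← mul_assoc, hu w z hz]

theorem coef_right_cptT291 {u : G K → ℂ} (hu : IsAutT 𝔫 τ R.r u) (ψ : G K → ℂ)
    {w : InfinitePlace K} {k : G K} (hk : IsArchCompact w k) (h : G K) :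
    H770.B770 R.F u ψ (h * k) = τ k * H770.B770 R.F u ψ h := by
  unfold H770.B770
  rw [← integral_const_mul]
  congr 1
  funext g
  rw [← mul_assoc, hu.arch_compact w k hk]
  ring

theorem nuC_massT291 : H770.nuC770.real Set.univ = 2 * Real.pi := by
  have h2pi : (0 : ℝ) ≤ 2 * Real.pi := by positivity
  unfold H770.nuC770
  rw [Measure.real, Measure.restrict_apply_univ, Real.volume_Ioc, sub_zero,
    ENNReal.toReal_ofReal h2pi]

theorem two_pi_ne_zeroT291 : ((2 * Real.pi : ℝ) : ℂ) ≠ 0 := by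
  rw [Ne, Complex.ofReal_eq_zero]
  positivity

/-- **The functional equation of the matrix coefficient at a real place**: for `a` of component
`torus t` at `w`, `t > 0`, and `h'` trivial at `w`: `2π B(a h') = m(t) B(h')`. -/
theorem coef_torusT291 (hτ : IsKType τ) {u : G K → ℂ} (hu : IsAutT 𝔫 τ R.r u)
    {w : InfinitePlace K} {m : ℝ → ℂ} (hm : MeanEigRT τ u w m) {t : ℝ} (ht : 0 < t)
    {a h' : G K} (ha : IsTorusAt w t a) (hh' : TrivAtInf w h') :
    ((2 * Real.pi : ℝ) : ℂ) * H770.B770 R.F u u (a * h') = m t * H770.B770 R.F u u h' := by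
  have hT1 := T1.t1Out K
  obtain ⟨-, hLC', hT2, hSC⟩ := hT1.locComp
  have := hLC'
  have := hT2
  have := hSC
  have hBor : BorelSpace (G K) := ⟨rfl⟩
  have := R.F.haar
  have hfin := H770.isFiniteMeasure_nuC770
  have hTr : H899.TranslInvT899 R := H899.translInvT_of_sub899 (subTranslT291 K) hT1 R
  obtain ⟨k, hk⟩ := exists_rotT291 w
  have hkc : Continuous k := H899.continuous_rot899 hk
  have hyc : Continuous fun θ : ℝ => k θ * a := hkc.mul continuous_const
  obtain ⟨C, hC⟩ := hu.bdd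
  have hφc : Continuous fun g : G K => u (g * h') :=
    hu.cont.comp (continuous_id.mul continuous_const)
  have hs : Continuous fun θ : ℝ => (τ (k θ))⁻¹ := H899.continuous_tau_rot_inv899 hτ hk
  have hsi : Integrable (fun θ : ℝ => (τ (k θ))⁻¹) H770.nuC770 := by
    refine Integrable.of_bound hs.aestronglyMeasurable 1 (Filter.Eventually.of_forall fun θ => ?_)
    rw [H899.norm_tau_inv899 hτ (H899.isArchCompact_rot899 hk θ)]
  have key : ∫ g in R.F.D, (∫ θ, u (g * (k θ * a) * h') * (τ (k θ))⁻¹ ∂H770.nuC770)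
        * conj (u g) ∂(R.F.μ)
      = ∫ θ, (τ (k θ))⁻¹ * ∫ g in R.F.D, u (g * (k θ * a) * h') * conj (u g) ∂(R.F.μ)
          ∂H770.nuC770 :=
    fubini_pair130 R.F.μ R.F.D R.F.fin H770.nuC770 hφc hu.cont (fun g => hC (g * h')) hC hyc
      hs hsi
  have hloc : ∀ θ, IsLocalAtInf w (k θ * a) := fun θ =>
    H878.isLocalAtInf_mul878 (hk θ).1 ha.1
  have hL : ∀ g : G K,
      ∫ θ, u (g * (k θ * a) * h') * (τ (k θ))⁻¹ ∂H770.nuC770 = m t * u (g * h') := by
    intro g
    have e : ∀ θ : ℝ, g * (k θ * a) * h' = g * h' * (k θ * a) := fun θ => by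
      rw [mul_assoc, commute_local_triv130 (hloc θ) hh', ← mul_assoc]
    simp only [e]
    rw [← hm t ht k a hk ha (g * h'), H899.circleMeanT_eq899]
    congr 1
    funext θ
    ring
  have hR : ∀ θ : ℝ,
      (τ (k θ))⁻¹ * ∫ g in R.F.D, u (g * (k θ * a) * h') * conj (u g) ∂(R.F.μ)
        = H770.B770 R.F u u (a * h') := by
    intro θ
    have hkθ := H899.isArchCompact_rot899 hk θ
    have e : H770.B770 R.F u u (k θ * (a * h')) = τ (k θ) * H770.B770 R.F u u (a * h') :=
      H899.B_leftT899 R hTr hτ hu hu hkθ (a * h')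
    have e2 : ∫ g in R.F.D, u (g * (k θ * a) * h') * conj (u g) ∂(R.F.μ)
        = H770.B770 R.F u u (k θ * (a * h')) := by
      unfold H770.B770
      congr 1
      funext g
      simp only [mul_assoc]
    rw [e2, e, ← mul_assoc, inv_mul_cancel₀ (H899.tau_ne_zero899 hτ hkθ), one_mul]
  simp only [hL, hR] at key
  rw [integral_const, nuC_massT291, Complex.real_smul] at key
  rw [← key]
  unfold H770.B770
  rw [← integral_const_mul]
  congr 1
  funext g
  ring

/-- The matrix coefficient at `x h'`, `x` supported at the real place `w` with a positive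
determinant, `h'` trivial at `w`, is a constant (which depends on `x` and `τ` only) times the
matrix coefficient at `a h'` for a torus element `a` at `w` of parameter `d ≥ 0`. -/
theorem coef_cartanT291 (hτ : IsKType τ) {w : InfinitePlace K} (hw : w.IsReal) {x : G K}
    (hx : IsLocalAtInf w x) (hdet : 0 < (infComp w x).det.re) :
    ∃ (d : ℝ) (a : G K) (c : ℂ), 0 ≤ d ∧ IsTorusAt w d a ∧
      ∀ (u : G K → ℂ), IsAutT 𝔫 τ R.r u → IsScInvT291 u → ∀ h' : G K, TrivAtInf w h' →
        H770.B770 R.F u u (x * h') = c * H770.B770 R.F u u (a * h') := by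
  have hT1 := T1.t1Out K
  have hTr : H899.TranslInvT899 R := H899.translInvT_of_sub899 (subTranslT291 K) hT1 R
  obtain ⟨U₁, U₂, d, r, hU₁, hU₂, hd, hr, hX⟩ :=
    cartan_torusR291 (infComp w x) (fun i j => H878.infComp_real878 hw x i j) hdet
  obtain ⟨κ₁, hκ₁, hκ₁c⟩ := H878.exists_archCompact878 w U₁ hU₁.1
    (fun _ => ⟨hU₁.2.1, hU₁.2.2⟩)
  obtain ⟨κ₂, hκ₂, hκ₂c⟩ := H878.exists_archCompact878 w U₂ hU₂.1
    (fun _ => ⟨hU₂.2.1, hU₂.2.2⟩)
  obtain ⟨a, ha, hac⟩ := H878.exists_local878 w (torus d) (H878.det_torus878 d)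
    (fun _ => torus_realT291 d)
  have hrdet : (Matrix.diagonal (fun _ : Fin 2 => (r : ℂ))).det ≠ 0 := by
    rw [Matrix.det_diagonal, Fin.prod_univ_two]
    have : (r : ℂ) ≠ 0 := by
      rw [Ne, Complex.ofReal_eq_zero]
      exact hr.ne'
    exact mul_ne_zero this this
  obtain ⟨z, hz, hzc⟩ := H878.exists_local878 w (Matrix.diagonal (fun _ : Fin 2 => (r : ℂ)))
    hrdet (fun _ => scalar_realT291 r)
  have hzs : IsArchPosScalar w z := ⟨hz, r, hr, hzc⟩
  have hprod : IsLocalAtInf w (κ₁ * a * κ₂ * z) :=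
    H878.isLocalAtInf_mul878 (H878.isLocalAtInf_mul878 (H878.isLocalAtInf_mul878 hκ₁.1 ha) hκ₂.1)
      hz
  have hxe : x = κ₁ * a * κ₂ * z := by
    refine H878.local_unique878 hx hprod ?_
    rw [H878.infComp_mul878, H878.infComp_mul878, H878.infComp_mul878, hκ₁c, hac, hκ₂c, hzc]
    exact hX
  refine ⟨d, a, τ κ₁ * τ κ₂, hd, ⟨ha, hac⟩, fun u hu hsc h' hh' => ?_⟩
  have hκz : IsLocalAtInf w (κ₂ * z) := H878.isLocalAtInf_mul878 hκ₂.1 hz
  have e1 : x * h' = κ₁ * (a * h' * κ₂ * z) := by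
    rw [hxe]
    have := commute_local_triv130 hκz hh'
    calc κ₁ * a * κ₂ * z * h' = κ₁ * a * (κ₂ * z * h') := by simp only [mul_assoc]
      _ = κ₁ * a * (h' * (κ₂ * z)) := by rw [this]
      _ = κ₁ * (a * h' * κ₂ * z) := by simp only [mul_assoc]
  rw [e1, H899.B_leftT899 R hTr hτ hu hu hκ₁ (a * h' * κ₂ * z),
    coef_right_scalarT291 R hsc u hzs, coef_right_cptT291 R hu u hκ₂, mul_assoc]

/-- One step of the induction over the places. -/
theorem coef_stepT291 (hτ : IsKType τ) {u u' : G K → ℂ} (hu : IsAutT 𝔫 τ R.r u)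
    (hu' : IsAutT 𝔫 τ R.r u') (hsc : IsScInvT291 u) (hsc' : IsScInvT291 u')
    {w : InfinitePlace K} (hw : w.IsReal) {m : ℝ → ℂ}
    (hm : MeanEigRT τ u w m) (hm' : MeanEigRT τ u' w m) {x h' : G K} (hx : IsLocalAtInf w x)
    (hdet : 0 < (infComp w x).det.re)
    (hh' : TrivAtInf w h') (hIH : H770.B770 R.F u u h' = H770.B770 R.F u' u' h') :
    H770.B770 R.F u u (x * h') = H770.B770 R.F u' u' (x * h') := by
  obtain ⟨d, a, c, hd, ha, hred⟩ := coef_cartanT291 (𝔫 := 𝔫) R hτ hw hx hdet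
  rw [hred u hu hsc h' hh', hred u' hu' hsc' h' hh']
  congr 1
  rcases hd.eq_or_lt with h0 | hpos
  · have ha1 : a = 1 := by
      refine H878.local_unique878 ha.1 ⟨fun w' _ => ?_, fun v => ?_⟩ ?_
      · exact (H129.trivAtInf_iff129 w' 1).2 (map_one _)
      · exact (H129.trivAtFin_iff129 v 1).2 (map_one _)
      · rw [ha.2, ← h0, H879.torus_zero879, H878.infComp_one878]
    rw [ha1, one_mul]
    exact hIH
  · have h1 := coef_torusT291 R hτ hu hm hpos ha hh'
    have h2 := coef_torusT291 R hτ hu' hm' hpos ha hh'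
    rw [hIH, ← h2] at h1
    exact mul_left_cancel₀ two_pi_ne_zeroT291 h1

/-- **The matrix coefficients of two unit cusp functions of the class with the same eigenvalue
functions of the circle means agree on the elements which are trivial at the finite places and
have a positive determinant at the infinite places** (all of them real). -/
theorem coef_eqT291 (hre : ∀ w : InfinitePlace K, w.IsReal) (hτ : IsKType τ) {u u' : G K → ℂ}
    (hu : IsAutT 𝔫 τ R.r u) (hu' : IsAutT 𝔫 τ R.r u') (hsc : IsScInvT291 u)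
    (hsc' : IsScInvT291 u') (h1 : pair R.F u u = 1) (h1' : pair R.F u' u' = 1)
    {m : InfinitePlace K → ℝ → ℂ} (hm : ∀ w, MeanEigRT τ u w (m w))
    (hm' : ∀ w, MeanEigRT τ u' w (m w)) (S : Finset (InfinitePlace K)) :
    ∀ h : G K, (∀ v : HeightOneSpectrum (𝓞 K), TrivAtFin v h) →
      (∀ w : InfinitePlace K, w ∉ S → TrivAtInf w h) →
      (∀ w : InfinitePlace K, w ∈ S → 0 < (infComp w h).det.re) →
      H770.B770 R.F u u h = H770.B770 R.F u' u' h := by
  classical
  induction S using Finset.induction_on with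
  | empty =>
    intro h hF hI _
    have e : h = 1 := by
      refine H129.G_ext129 (fun w => ?_) (fun v => ?_)
      · rw [map_one]
        exact (H129.trivAtInf_iff129 w h).1 (hI w (Finset.notMem_empty w))
      · rw [map_one]
        exact (H129.trivAtFin_iff129 v h).1 (hF v)
    rw [e, coef_one130, coef_one130, h1, h1']
  | insert w S hw ih =>
    intro h hF hI hD
    set x : G K := H429.locInf429 w (H129.infCompHom129 w h) with hxdef
    have hx : IsLocalAtInf w x := H429.isLocalAtInf_locInf429 w _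
    have hx' := (H429.isLocalAtInf_iff429 w x).1 hx
    set h' : G K := x⁻¹ * h with hh'def
    have hh'w : TrivAtInf w h' := by
      rw [H129.trivAtInf_iff129, hh'def, map_mul, map_inv, hxdef, H429.infCompHom_locInf429,
        inv_mul_cancel]
    have hh'F : ∀ v : HeightOneSpectrum (𝓞 K), TrivAtFin v h' := fun v => by
      rw [H129.trivAtFin_iff129, hh'def, map_mul, map_inv, hx'.2 v, inv_one, one_mul]
      exact (H129.trivAtFin_iff129 v h).1 (hF v)
    have hcomp : ∀ w' : InfinitePlace K, w' ≠ w →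
        H129.infCompHom129 w' h' = H129.infCompHom129 w' h := fun w' e => by
      rw [hh'def, map_mul, map_inv, hx'.1 w' e, inv_one, one_mul]
    have hh'I : ∀ w' : InfinitePlace K, w' ∉ S → TrivAtInf w' h' := fun w' hw' => by
      by_cases e : w' = w
      · subst e
        exact hh'w
      · rw [H129.trivAtInf_iff129, hcomp w' e]
        refine (H129.trivAtInf_iff129 w' h).1 (hI w' ?_)
        rw [Finset.mem_insert, not_or]
        exact ⟨e, hw'⟩
    have hh'D : ∀ w' : InfinitePlace K, w' ∈ S → 0 < (infComp w' h').det.re := fun w' hw' => by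
      have e : w' ≠ w := fun e => hw (e ▸ hw')
      rw [H429.infComp_eq429, hcomp w' e, ← H429.infComp_eq429]
      exact hD w' (Finset.mem_insert_of_mem hw')
    have hxD : 0 < (infComp w x).det.re := by
      rw [H429.infComp_eq429, hxdef, H429.infCompHom_locInf429, ← H429.infComp_eq429]
      exact hD w (Finset.mem_insert_self w S)
    have hxe : h = x * h' := by
      rw [hh'def, mul_inv_cancel_left]
    rw [hxe]
    exact coef_stepT291 R hτ hu hu' hsc hsc' (hre w) (hm w) (hm' w) hx hxD hh'w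
      (ih h' hh'F hh'I hh'D)

/-- The pairing `⟨R(f) u, u⟩` is the integral of `f` against the matrix coefficient. -/
theorem pair_conv_eqT291 {u : G K → ℂ} (hu : IsAutT 𝔫 τ R.r u) {f : G K → ℂ}
    (hf : IsTestT 𝔫 τ f) :
    pair R.F (conv R.F f u) u = ∫ h, f h * H770.B770 R.F u u h ∂(R.F.μ) := by
  have hT1 := T1.t1Out K
  obtain ⟨-, hLC', hT2, hSC⟩ := hT1.locComp
  have := hLC'
  have := hT2
  have := hSC
  have hBor : BorelSpace (G K) := ⟨rfl⟩
  have := R.F.haar
  obtain ⟨C, hC⟩ := hu.bdd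
  have hfint : Integrable f R.F.μ := hf.cont.integrable_of_hasCompactSupport hf.cpt
  have key := fubini_pair130 R.F.μ R.F.D R.F.fin R.F.μ hu.cont hu.cont hC hC (y := fun h : G K => h)
    continuous_id hf.cont hfint
  exact key

theorem infComp_pInfT291 (w : InfinitePlace K) (g : G K) :
    infComp w (H437.pInf437 g) = infComp w g := by
  have e := congrArg Units.val (H437.cGL_pInf437 w g)
  rw [H437.cGL_val437, H437.cGL_val437] at e
  ext i j
  have e2 := congrFun (congrFun e i) j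
  exact congrArg (InfinitePlace.Completion.extensionEmbedding w) e2

/-- **The coefficient `⟨R(f) u, u⟩` depends on the eigenvalue functions of the circle means
only**, for a test function `f` which is supported in `GL₂⁺(K_∞) U(𝔫)`. -/
theorem convCoef_eqT291 (hre : ∀ w : InfinitePlace K, w.IsReal) (hτ : IsKType τ)
    {u u' : G K → ℂ} (hu : IsAutT 𝔫 τ R.r u) (hu' : IsAutT 𝔫 τ R.r u') (hsc : IsScInvT291 u)
    (hsc' : IsScInvT291 u') (h1 : pair R.F u u = 1) (h1' : pair R.F u' u' = 1)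
    {m : InfinitePlace K → ℝ → ℂ} (hm : ∀ w, MeanEigRT τ u w (m w))
    (hm' : ∀ w, MeanEigRT τ u' w (m w)) {f : G K → ℂ} (hf : IsTestT 𝔫 τ f)
    (hsupp : ∀ g : G K, f g ≠ 0 →
      H437.FinLevel437 𝔫 g ∧ ∀ w : InfinitePlace K, 0 < (infComp w g).det.re) :
    pair R.F (conv R.F f u) u = pair R.F (conv R.F f u') u' := by
  rw [pair_conv_eqT291 R hu hf, pair_conv_eqT291 R hu' hf]
  congr 1
  funext h
  by_cases h0 : f h = 0
  · rw [h0, zero_mul, zero_mul]
  · congr 1
    obtain ⟨hfl, hdet⟩ := hsupp h h0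
    have hlev : InLevelGroup 𝔫 ((H437.pInf437 h)⁻¹ * h) := H437.inLevelGroup_finPart437 hfl
    have hdec : h = H437.pInf437 h * ((H437.pInf437 h)⁻¹ * h) := by
      rw [mul_inv_cancel_left]
    have hF : ∀ v : HeightOneSpectrum (𝓞 K), TrivAtFin v (H437.pInf437 h) := fun v => by
      have := congrArg Units.val (H437.fGL_pInf437 v h)
      rwa [H437.fGL_val437, Units.val_one] at this
    have e := coef_eqT291 R hre hτ hu hu' hsc hsc' h1 h1' hm hm' Finset.univ (H437.pInf437 h) hF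
      (fun w hw => absurd (Finset.mem_univ w) hw)
      (fun w _ => by rw [infComp_pInfT291]; exact hdet w)
    rw [hdec, coef_right_level130 R.F u u hu.level_inv hlev,
      coef_right_level130 R.F u' u' hu'.level_inv hlev]
    exact e

end Coeff

/-! ## 3. The approximate identity of the class, with its support -/

section Approx

open Fermat.Agent.LT.T8.H864 Fermat.Agent.LT.H51.MS4 Fermat.Agent.LT.T2.H907
  Fermat.Agent.LT.T2.H354

variable {K : Type} [Field K] [NumberField K]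

/-- The approximate identity of the class `(𝔫, τ, r)` (helper354), as a SEQUENCE which works for
every cusp function of the class, with its support: in `GL₂(K_∞) U(𝔫)`, with a positive
determinant at the real places. -/
theorem approxSeqSuppT291 (K : Type) [Field K] [NumberField K] (𝔫 : Ideal (𝓞 K)) (h𝔫 : 𝔫 ≠ ⊥)
    {τ : G K → ℂ} (hτ : IsKType τ) (R : FrameR K) :
    ∃ f : ℕ → G K → ℂ, (∀ k, IsSphTestT 𝔫 τ (f k)) ∧
      (∀ k (g : G K), f k g ≠ 0 → H437.FinLevel437 𝔫 g ∧
        ∀ w : InfinitePlace K, w.IsReal → 0 < (infComp w g).det.re) ∧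
      ∀ φ : G K → ℂ, IsCuspT 𝔫 τ R.r φ →
        Tendsto (fun k => nsq R.F (fun g => conv R.F (f k) φ g - φ g)) atTop (𝓝 0) := by
  have hC : ConvCuspT K 𝔫 τ := convCuspT_closed K 𝔫 τ h𝔫 hτ
  obtain ⟨n, hn⟩ := ktype_class354 hτ
  have := borelSpace_G907 (K := K)
  have := R.F.haar
  set η : ℕ → ℝ := fun k => 1 / ((k : ℝ) + 1) with hη
  have hηpos : ∀ k, 0 < η k := fun k => by positivity
  have hη1 : ∀ k, η k ≤ 1 := fun k => by
    rw [hη, div_le_one (by positivity)]
    have : (0 : ℝ) ≤ k := Nat.cast_nonneg k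
    linarith
  set f : ℕ → G K → ℂ := fun k => testT354 n (apx907 R.F 𝔫 (η k)) with hf
  have hfT : ∀ k, IsSphTestT 𝔫 τ (f k) := fun k =>
    isSphTestT_testT354 h𝔫 hτ hn (hηpos k) (hη1 k) _
  refine ⟨f, hfT, fun k g hg => ?_, fun φ hφ => ?_⟩
  · have ha : apx907 R.F 𝔫 (η k) g ≠ 0 := by
      intro h0
      apply hg
      show testT354 n (apx907 R.F 𝔫 (η k)) g = 0
      unfold testT354
      rw [h0, mul_zero]
    have hb : bump907 𝔫 (η k) g ≠ 0 := by
      intro h0
      apply ha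
      unfold apx907 testFn907
      rw [h0, mul_zero, Complex.ofReal_zero]
    have hD := (pfin_of_bump907_ne_zero (hηpos k) hb).2
    exact ⟨finLevel_of_apx130 R.F (hηpos k) ha, fun w hw =>
      det_re_pos_of_defect354 (lt_of_lt_of_le hD (hη1 k)) hw⟩
  · obtain ⟨B, hB⟩ := hφ.aut.bdd
    have hB0 : 0 ≤ B := (norm_nonneg _).trans (hB 1)
    set ψ : ℕ → G K → ℂ := fun k g => conv R.F (f k) φ g - φ g with hψ
    have hψeq : ∀ k g, ψ k g
        = conv R.F (apx907 R.F 𝔫 (η k)) (psiX354 n φ g) 1 - psiX354 n φ g 1 := fun k g => by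
      rw [hψ, hf]
      simp only
      rw [conv_testT354, psiX354_one]
    have hψc : ∀ k, Continuous (ψ k) := fun k =>
      ((hC R).2.2.1 _ φ (hfT k).test hφ).aut.cont.sub hφ.aut.cont
    have hψb : ∀ k g, ‖ψ k g‖ ≤ 2 * B := fun k g => by
      rw [hψeq]
      refine norm_conv_sub_le907 R.F h𝔫 (hηpos k) (hη1 k)
        (continuous_psiX354 n hφ.aut.cont g) 1 fun h _ => ?_
      calc ‖psiX354 n φ g (1 * h) - psiX354 n φ g 1‖
          ≤ ‖psiX354 n φ g (1 * h)‖ + ‖psiX354 n φ g 1‖ := norm_sub_le _ _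
        _ ≤ B + B := add_le_add (norm_psiX354_le hB n g _) (norm_psiX354_le hB n g _)
        _ = 2 * B := by ring
    have hψlim : ∀ g, Tendsto (fun k => ψ k g) atTop (𝓝 0) := fun g => by
      rw [Metric.tendsto_atTop]
      intro ε' hε'
      obtain ⟨k₀, hk₀⟩ := exists_close907 h𝔫 (continuous_psiX354 n hφ.aut.cont g)
        (psiX354_level n hφ.aut g) (psiX354_arch hτ hn hφ.aut g) 1 (half_pos hε')
      refine ⟨k₀, fun k hk => ?_⟩
      rw [dist_zero_right]
      have hle : ‖ψ k g‖ ≤ ε' / 2 := by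
        rw [hψeq]
        refine norm_conv_sub_le907 R.F h𝔫 (hηpos k) (hη1 k)
          (continuous_psiX354 n hφ.aut.cont g) 1 fun h hb => ?_
        obtain ⟨hP, hD⟩ := pfin_of_bump907_ne_zero (hηpos k) hb
        refine (hk₀ h hP (hD.le.trans ?_)).le
        rw [hη]
        apply one_div_le_one_div_of_le (by positivity)
        have : (k₀ : ℝ) ≤ k := Nat.cast_le.mpr hk
        linarith
      linarith
    have hfin : IsFiniteMeasure (R.F.μ.restrict R.F.D) :=
      ⟨by rw [Measure.restrict_apply_univ]; exact R.F.fin⟩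
    have hlim : Tendsto (fun k => ∫ g in R.F.D, ψ k g * (starRingEnd ℂ) (ψ k g) ∂(R.F.μ)) atTop
        (𝓝 (∫ _ in R.F.D, (0 : ℂ) ∂(R.F.μ))) := by
      refine tendsto_integral_of_dominated_convergence (fun _ => (2 * B) ^ 2)
        (fun k => ?_) (integrable_const _) (fun k => Eventually.of_forall fun g => ?_)
        (Eventually.of_forall fun g => ?_)
      · exact ((hψc k).mul (Complex.continuous_conj.comp (hψc k))).aestronglyMeasurable
      · rw [norm_mul, RCLike.norm_conj, ← sq]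
        exact pow_le_pow_left₀ (norm_nonneg _) (hψb k g) 2
      · have := (hψlim g).mul ((Complex.continuous_conj.tendsto 0).comp (hψlim g))
        simpa using this
    rw [integral_zero] at hlim
    have h0 : Tendsto (fun k => (∫ g in R.F.D, ψ k g * (starRingEnd ℂ) (ψ k g) ∂(R.F.μ)).re)
        atTop (𝓝 ((0 : ℂ).re)) := (Complex.continuous_re.tendsto 0).comp hlim
    rw [Complex.zero_re] at h0
    exact h0

end Approx

/-! ## 4. Hilbert--Schmidt and Cauchy--Schwarz -/

section Count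

variable {K : Type} [Field K] [NumberField K] {𝔫 : Ideal (𝓞 K)} {τ : G K → ℂ} {R : FrameR K}

/-- The Cauchy--Schwarz inequality on the cusp functions of the class. -/
theorem cauchy_schwarzT291 (hP : PairDefiniteT K 𝔫 τ) {a b : G K → ℂ}
    (ha : IsCuspT 𝔫 τ R.r a) (hb : IsCuspT 𝔫 τ R.r b) :
    ‖pair R.F a b‖ ^ 2 ≤ nsq R.F a * nsq R.F b := by
  set d : H560.Cls560 K := H560.clsT560 𝔫 τ R hP with hd
  set x : H560.V560 d := H560.mk560 d b hb with hx
  set y : H560.V560 d := H560.mk560 d a ha with hy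
  have h1 : ‖inner ℂ x y‖ ≤ ‖x‖ * ‖y‖ := norm_inner_le_norm x y
  have h2 : inner ℂ x y = pair R.F a b := H560.inner560 x y
  have h3 : ‖x‖ ^ 2 = nsq R.F b := H560.norm_sq560 x
  have h4 : ‖y‖ ^ 2 = nsq R.F a := H560.norm_sq560 y
  rw [h2] at h1
  calc ‖pair R.F a b‖ ^ 2 ≤ (‖x‖ * ‖y‖) ^ 2 := pow_le_pow_left₀ (norm_nonneg _) h1 2
    _ = ‖y‖ ^ 2 * ‖x‖ ^ 2 := by ring
    _ = nsq R.F a * nsq R.F b := by rw [h3, h4]

/-- `⟨a - b, c⟩ = ⟨a, c⟩ - ⟨b, c⟩` on the cusp functions of the class. -/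
theorem pair_sub_leftT291 (hP : PairDefiniteT K 𝔫 τ) {a b c : G K → ℂ}
    (ha : IsCuspT 𝔫 τ R.r a) (hb : IsCuspT 𝔫 τ R.r b) (hc : IsCuspT 𝔫 τ R.r c) :
    pair R.F (fun g => a g - b g) c = pair R.F a c - pair R.F b c := by
  set d : H560.Cls560 K := H560.clsT560 𝔫 τ R hP with hd
  set x : H560.V560 d := H560.mk560 d c hc with hx
  set y₁ : H560.V560 d := H560.mk560 d a ha with hy₁
  set y₂ : H560.V560 d := H560.mk560 d b hb with hy₂
  have h := inner_sub_right (𝕜 := ℂ) x y₁ y₂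
  rw [H560.inner560, H560.inner560, H560.inner560, H560.fn560_sub] at h
  exact h

variable {ι : Type} {u : ι → G K → ℂ}

/-- For a test function `f`: only finitely many members of an orthonormal family of cusp
functions of the class have `|⟨R(f) u, u⟩| > 1/2`. -/
theorem finite_coefLargeT291 (hP : PairDefiniteT K 𝔫 τ) (hCC : ConvCuspT K 𝔫 τ)
    (hHS : HSBoundT K 𝔫 τ) (hcusp : ∀ j, IsCuspT 𝔫 τ R.r (u j))
    (hone : ∀ j, pair R.F (u j) (u j) = 1)
    (horth : ∀ i j, i ≠ j → pair R.F (u i) (u j) = 0)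
    (f : G K → ℂ) (hf : IsTestT 𝔫 τ f) :
    {j : ι | 1 / 2 < ‖pair R.F (conv R.F f (u j)) (u j)‖}.Finite := by
  obtain ⟨C, hC⟩ := hHS R f hf
  by_contra hinf
  have hinf' : {j : ι | 1 / 2 < ‖pair R.F (conv R.F f (u j)) (u j)‖}.Infinite := hinf
  obtain ⟨n, hn⟩ := exists_nat_gt (4 * C)
  obtain ⟨t, hts, htc⟩ := hinf'.exists_subset_card_eq n
  have e : Fin n ≃ t := (t.equivFin.trans (finCongr htc)).symm
  have hnsq1 : ∀ j, nsq R.F (u j) = 1 := fun j => by
    unfold nsq
    rw [hone j]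
    rfl
  have hsum := hC n (fun i => u (e i)) (fun i => hcusp _) (fun i j => by
    by_cases hij : i = j
    · rw [hij, if_pos rfl]
      exact hone _
    · rw [if_neg hij]
      refine horth _ _ fun h => hij ?_
      exact e.injective (Subtype.ext h))
  have hterm : ∀ i : Fin n, (1 : ℝ) / 4 ≤ nsq R.F (conv R.F f (u (e i))) := fun i => by
    have hcs := cauchy_schwarzT291 hP ((hCC R).2.2.1 f (u (e i)) hf (hcusp _)) (hcusp (e i))
    rw [hnsq1, mul_one] at hcs
    have h1 : 1 / 2 < ‖pair R.F (conv R.F f (u (e i))) (u (e i))‖ := hts (e i).2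
    nlinarith [norm_nonneg (pair R.F (conv R.F f (u (e i))) (u (e i)))]
  have h2 : (n : ℝ) * (1 / 4) ≤ ∑ i : Fin n, nsq R.F (conv R.F f (u (e i))) := by
    calc (n : ℝ) * (1 / 4) = ∑ _i : Fin n, (1 / 4 : ℝ) := by
          rw [Finset.sum_const, Finset.card_univ, Fintype.card_fin, nsmul_eq_mul]
      _ ≤ ∑ i : Fin n, nsq R.F (conv R.F f (u (e i))) := Finset.sum_le_sum fun i _ => hterm i
  linarith

/-- If `R(f_k) e → e` in `L²`, `‖e‖ = 1`, then `|⟨R(f_k) e, e⟩| > 1/2` for some `k`. -/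
theorem large_of_approxT291 (hP : PairDefiniteT K 𝔫 τ) (hCC : ConvCuspT K 𝔫 τ)
    {f : ℕ → G K → ℂ} (hf : ∀ k, IsTestT 𝔫 τ (f k)) {e : G K → ℂ}
    (he : IsCuspT 𝔫 τ R.r e) (h1 : pair R.F e e = 1)
    (hlim : Tendsto (fun k => nsq R.F (fun g => conv R.F (f k) e g - e g)) atTop (𝓝 0)) :
    ∃ k : ℕ, 1 / 2 < ‖pair R.F (conv R.F (f k) e) e‖ := by
  have hnsq1 : nsq R.F e = 1 := by
    unfold nsq
    rw [h1]
    rfl
  obtain ⟨k, hk⟩ := ((tendsto_order.1 hlim).2 (1 / 4) (by norm_num)).exists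
  refine ⟨k, ?_⟩
  have hck : IsCuspT 𝔫 τ R.r (conv R.F (f k) e) := (hCC R).2.2.1 (f k) e (hf k) he
  have hsub : IsCuspT 𝔫 τ R.r (fun g => conv R.F (f k) e g - e g) := by
    have h := H560.isCuspT_add560 hck (H560.isCuspT_smul560 (-1 : ℂ) he)
    have e2 : (fun g => conv R.F (f k) e g + (-1 : ℂ) * e g)
        = fun g => conv R.F (f k) e g - e g := by
      funext g
      ring
    rw [e2] at h
    exact h
  have hcs := cauchy_schwarzT291 hP hsub he
  rw [hnsq1, mul_one, pair_sub_leftT291 hP hck he he, h1] at hcs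
  have h4 : ‖pair R.F (conv R.F (f k) e) e - 1‖ < 1 / 2 := by
    by_contra h5
    push Not at h5
    nlinarith [norm_nonneg (pair R.F (conv R.F (f k) e) e - 1)]
  have h6 : ‖(1 : ℂ)‖ ≤ ‖pair R.F (conv R.F (f k) e) e‖ + ‖pair R.F (conv R.F (f k) e) e - 1‖ := by
    have := norm_sub_le (pair R.F (conv R.F (f k) e) e) (pair R.F (conv R.F (f k) e) e - 1)
    simpa using this
  rw [norm_one] at h6
  linarith

end Count

/-! ## 5. Admissibility -/

section Adm

variable {K : Type} [Field K] [NumberField K] {𝔫 : Ideal (𝓞 K)} {τ : G K → ℂ} {R : FrameR K}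
  {ι : Type} {u : ι → G K → ℂ}

/-- **The index type of an orthonormal family of cusp functions of the class is countable.** -/
theorem countable_indexT291 (h𝔫 : 𝔫 ≠ ⊥) (hτ : IsKType τ)
    (hcusp : ∀ j, IsCuspT 𝔫 τ R.r (u j)) (hone : ∀ j, pair R.F (u j) (u j) = 1)
    (horth : ∀ i j, i ≠ j → pair R.F (u i) (u j) = 0) : Countable ι := by
  have hE := estimatesT_closed K 𝔫 τ h𝔫 hτ
  have hP : PairDefiniteT K 𝔫 τ := hE.2.1
  have hCC : ConvCuspT K 𝔫 τ := hE.2.2.1
  have hHS : HSBoundT K 𝔫 τ := hE.2.2.2.2.2.1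
  obtain ⟨f, hsph, -, hlim⟩ := approxSeqSuppT291 K 𝔫 h𝔫 hτ R
  have hcover : ∀ j : ι, ∃ k : ℕ, 1 / 2 < ‖pair R.F (conv R.F (f k) (u j)) (u j)‖ := fun j =>
    large_of_approxT291 hP hCC (fun k => (hsph k).test) (hcusp j) (hone j)
      (hlim (u j) (hcusp j))
  have hfin : ∀ k : ℕ, {j : ι | 1 / 2 < ‖pair R.F (conv R.F (f k) (u j)) (u j)‖}.Finite :=
    fun k => finite_coefLargeT291 hP hCC hHS hcusp hone horth (f k) (hsph k).test
  have huniv : (Set.univ : Set ι)
      = ⋃ k : ℕ, {j : ι | 1 / 2 < ‖pair R.F (conv R.F (f k) (u j)) (u j)‖} := by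
    ext j
    simp only [Set.mem_univ, Set.mem_iUnion, true_iff]
    exact hcover j
  have hcount : (Set.univ : Set ι).Countable := by
    rw [huniv]
    exact Set.countable_iUnion fun k => (hfin k).countable
  exact Set.countable_univ_iff.1 hcount

/-- **ADMISSIBILITY AT THE REAL PLACES.**  For a totally real field, a level `𝔫 ≠ 0` and a
`K_∞`-type `τ`: the members of an orthonormal family of cusp functions of the class `(𝔫, τ, r)`,
invariant under the positive scalars at the infinite places, which have the same eigenvalue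
functions of the `τ`-twisted circle means as a given member are finite in number. -/
theorem finite_meanClassT291 (hre : ∀ w : InfinitePlace K, w.IsReal) (h𝔫 : 𝔫 ≠ ⊥)
    (hτ : IsKType τ) {m : ι → InfinitePlace K → ℝ → ℂ}
    (hcusp : ∀ j, IsCuspT 𝔫 τ R.r (u j)) (hsc : ∀ j, IsScInvT291 (u j))
    (hone : ∀ j, pair R.F (u j) (u j) = 1)
    (horth : ∀ i j, i ≠ j → pair R.F (u i) (u j) = 0)
    (hmean : ∀ j w, MeanEigRT τ (u j) w (m j w)) (j₀ : ι) :
    {j : ι | ∀ (w : InfinitePlace K) (d : ℝ), 0 < d → m j w d = m j₀ w d}.Finite := by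
  have hE := estimatesT_closed K 𝔫 τ h𝔫 hτ
  have hP : PairDefiniteT K 𝔫 τ := hE.2.1
  have hCC : ConvCuspT K 𝔫 τ := hE.2.2.1
  have hHS : HSBoundT K 𝔫 τ := hE.2.2.2.2.2.1
  obtain ⟨f, hsph, hsupp, hlim⟩ := approxSeqSuppT291 K 𝔫 h𝔫 hτ R
  obtain ⟨k, hk⟩ := large_of_approxT291 hP hCC (fun k => (hsph k).test) (hcusp j₀) (hone j₀)
    (hlim (u j₀) (hcusp j₀))
  refine (finite_coefLargeT291 hP hCC hHS hcusp hone horth (f k) (hsph k).test).subset ?_
  intro j hj
  have hm' : ∀ w, MeanEigRT τ (u j) w (m j₀ w) := fun w t ht κ a hκ ha g => by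
    rw [← hj w t ht]
    exact hmean j w t ht κ a hκ ha g
  have e : pair R.F (conv R.F (f k) (u j)) (u j) = pair R.F (conv R.F (f k) (u j₀)) (u j₀) :=
    convCoef_eqT291 R hre hτ (hcusp j).aut (hcusp j₀).aut (hsc j) (hsc j₀) (hone j) (hone j₀)
      hm' (hmean j₀) (hsph k).test
      (fun g hg => ⟨(hsupp k g hg).1, fun w => (hsupp k g hg).2 w (hre w)⟩)
  show 1 / 2 < ‖pair R.F (conv R.F (f k) (u j)) (u j)‖
  rw [e]
  exact hk

end Adm

end Fermat.Agent.LT.T2.H291

end

end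
-- ===== PACK-END LT/T2/H291/AdmissibleT.lean

-- ===== PACK-BEGIN LT/T7/H140/V2BasisQ.lean
section






/-!
# Row LT, tower T7, NODE T7.L2Q.3.7.4.2 `WBQ341.V2BasisQC341 n` (helper140, spare of row 2445)

OFF-MAIN.  Complete proof, nothing assumed.  ADDITIVE (new names only, all ending in `140`).
Spec: `Fermat/Agent/LT/T7/H341/WBasisQSpec.lean` (helper341@5d9a56aeb), byte-identical copy.

    v2BasisQC140 (n) : WBQ341.V2BasisQC341 n

Model: `LT/T7/H613/V2Basis.lean` (helper613, the cyclic node `SD534.V2BasisC`).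
Assets: the tower T2 in the class of T5 (`T2.cuspSpecT_closed`, `T2.opsT_closed`,
`T2.pairDefiniteT_closed`, the pre-Hilbert space `T2.H560.V560`), the admissibility at the real
places `T2.H291.finite_meanClassT291`, `countable_indexT291` (helper291), the adapter of the
circle means `T7.H19.meanEigQ_iff19` and the bound `norm_meanEigRT_le19` (helper19).

## Proof

`T2.cuspSpecT_closed` for `(ℚ, 𝔫, n.type)` gives an orthonormal complete family `e j`
(`j : ι`) of joint eigen-cusp-functions of the class `(𝔫, n.type, r)` with central characters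
`c j`.  The members which are invariant under the positive scalars at the real place are kept.

* A member of `V₂` is orthogonal to the members which are not invariant (the central shifts
  are unitary: `T2.OpsAdjT`), so Parseval in `V₂` only sees the members which are kept.
* NORMALISED DATA: `a`, `b` are replaced by `0` at the places dividing `𝔫`, `m w t` by `0` for
  `t ≤ 0`.
* FINITE CLASSES: `finite_meanClassT291`.
* EXHAUSTION: a member `ψ` of `V₂` with the data of `j₀` is orthogonal to every member with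
  other data (`T_v* = S_v⁻¹ T_v`, `S_v` unitary, the circle means self-adjoint); the difference
  of `ψ` and its component in the class is orthogonal to every `e j`, hence `0` (Parseval and
  definiteness, in the pre-Hilbert space of the class).
-/

set_option autoImplicit false
set_option linter.unusedSectionVars false
set_option linter.unusedVariables false

open AutomorphicForm IsDedekindDomain NumberField MeasureTheory
open scoped ComplexConjugate

noncomputable section

namespace Fermat.Agent.LT.T7.V2Q140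

open Fermat.Agent.LT.H556 Fermat.Agent.LT.H556.A0 Fermat.Agent.LT Fermat.Agent.LT.T7
open Fermat.Agent.LT.T7.L2Q Fermat.Agent.LT.T7.SDQ140 Fermat.Agent.LT.T7.WBQ341

attribute [local instance] Fermat.Agent.LT.T2.borelG

/-! ## 1. Adapters between the class of T5 and the class `T` of T2 -/

theorem isKType2_140 {τ : G ℚ → ℂ} (h : T5.IsKType τ) : T2.IsKType τ :=
  ⟨h.norm_one, h.mul, h.cont⟩

theorem isCuspT_of5_140 {𝔫 : Ideal (𝓞 ℚ)} {τ : G ℚ → ℂ} {r : G ℚ} {ψ : G ℚ → ℂ}
    (h : T5.IsCuspFn 𝔫 τ r ψ) : T2.IsCuspT 𝔫 τ r ψ :=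
  ⟨⟨h.cont, h.bdd, h.aut.left_inv, h.aut.level_inv, h.aut.arch_compact, h.aut.ray⟩, h.cuspidal⟩

theorem isCusp5_ofT_140 {𝔫 : Ideal (𝓞 ℚ)} {τ : G ℚ → ℂ} {r : G ℚ} {ψ : G ℚ → ℂ}
    (h : T2.IsCuspT 𝔫 τ r ψ) : T5.IsCuspFn 𝔫 τ r ψ :=
  ⟨h.aut.cont, h.aut.bdd,
    ⟨h.aut.left_inv, h.aut.level_inv, h.aut.arch_compact, h.aut.ray⟩, h.cuspidal⟩

theorem isReal_140 (w : InfinitePlace ℚ) : w.IsReal := by
  rw [Subsingleton.elim w Rat.infinitePlace]
  exact Rat.isReal_infinitePlace

theorem exists_torus140 (w : InfinitePlace ℚ) (t : ℝ) : ∃ a : G ℚ, T2.IsTorusAt w t a := by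
  obtain ⟨Y, hY⟩ := H19.exists_circleR0_19 w t
  refine ⟨Y 0, (hY 0).1, ?_⟩
  rw [(hY 0).2, H19.rotY_zero19, one_mul]

/-- A function of norm one is not zero. -/
theorem exists_ne_zero140 (F : T2.Frame ℚ) {u : G ℚ → ℂ} (h : T2.pair F u u = 1) :
    ∃ y : G ℚ, u y ≠ 0 := by
  by_contra hne
  push Not at hne
  have e : u = fun _ => 0 := funext hne
  rw [e] at h
  have h0 : T2.pair F (fun _ : G ℚ => (0 : ℂ)) (fun _ : G ℚ => (0 : ℂ)) = 0 := by
    show (∫ g in F.D, (0 : ℂ) * (starRingEnd ℂ) (0 : ℂ) ∂F.μ) = 0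
    simp
  rw [h0] at h
  exact zero_ne_one h

/-! ## 2. Orthogonality of eigenfunctions with different data -/

section Orth

variable {𝔫 : Ideal (𝓞 ℚ)} {τ : G ℚ → ℂ}

theorem sqrt_absNorm_ne_zero140 (v : HeightOneSpectrum (𝓞 ℚ)) :
    ((Real.sqrt (Ideal.absNorm v.asIdeal : ℝ) : ℝ) : ℂ) ≠ 0 := by
  have h0 : Ideal.absNorm v.asIdeal ≠ 0 := by
    intro h
    exact v.ne_bot (Ideal.absNorm_eq_zero_iff.1 h)
  have h1 : (0 : ℝ) < (Ideal.absNorm v.asIdeal : ℝ) := by
    exact_mod_cast Nat.pos_of_ne_zero h0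
  exact_mod_cast (Real.sqrt_pos.2 h1).ne'

theorem shift_inv_eig140 {ψ : G ℚ → ℂ} {z : G ℚ} {b : ℂ} (hb : b ≠ 0)
    (h : ∀ g : G ℚ, ψ (g * z) = b * ψ g) (g : G ℚ) : ψ (g * z⁻¹) = b⁻¹ * ψ g := by
  have h1 := h (g * z⁻¹)
  rw [inv_mul_cancel_right] at h1
  rw [h1, ← mul_assoc, inv_mul_cancel₀ hb, one_mul]

theorem orth_of_a140 (hOA : T2.OpsAdjT ℚ 𝔫 τ) (R : T2.FrameR ℚ) {φ ψ : G ℚ → ℂ}
    (hφ : T2.IsCuspT 𝔫 τ R.r φ) (hψ : T2.IsCuspT 𝔫 τ R.r ψ) {v : HeightOneSpectrum (𝓞 ℚ)}
    (hv : ¬ v.asIdeal ∣ 𝔫) {a b a' b' : ℂ} (h1 : IsHeckeEigenAt φ v a b)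
    (h2 : IsHeckeEigenAt ψ v a' b') (hb' : ‖b'‖ = 1) (ha' : conj a' = a' * conj b')
    (hne : a ≠ a') : T2.pair R.F φ ψ = 0 := by
  obtain ⟨⟨H, hH⟩, -, ⟨z, hz⟩⟩ := (T1.t1Out ℚ).heckeCoset v
  have key := (hOA R).2.2.1 v hv H z hH hz φ ψ hφ hψ
  have hb0 : b' ≠ 0 := by
    intro h
    rw [h, norm_zero] at hb'
    exact zero_ne_one hb'
  have hcb0 : conj b' ≠ 0 := fun h => hb0 ((map_eq_zero _).1 h)
  set q : ℂ := ((Real.sqrt (Ideal.absNorm v.asIdeal : ℝ) : ℝ) : ℂ) with hq
  have hq0 : q ≠ 0 := sqrt_absNorm_ne_zero140 v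
  have e1 : T2.heckeSum H φ = (q * a) • φ := by
    funext g
    exact h1.1 H hH g
  have e2 : T2.shift z⁻¹ (T2.heckeSum H ψ) = (q * a' * b'⁻¹) • ψ := by
    funext g
    show (∑ h ∈ H, ψ (g * z⁻¹ * h)) = (q * a' * b'⁻¹) * ψ g
    rw [h2.1 H hH (g * z⁻¹), shift_inv_eig140 hb0 (h2.2 z hz) g]
    ring
  rw [e1, e2, T2.H566.pair_smul_left566, T2.H566.pair_smul_right566] at key
  have e3 : conj (q * a' * b'⁻¹) = q * a' := by
    rw [map_mul, map_mul, map_inv₀, ha', hq, Complex.conj_ofReal, mul_assoc, mul_assoc,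
      mul_inv_cancel₀ hcb0, mul_one]
  rw [e3] at key
  have h3 : q * (a - a') * T2.pair R.F φ ψ = 0 := by linear_combination key
  rcases mul_eq_zero.1 h3 with h4 | h4
  · rcases mul_eq_zero.1 h4 with h5 | h5
    · exact absurd h5 hq0
    · exact absurd (sub_eq_zero.1 h5) hne
  · exact h4

/-- Unitarity of a shift and eigenvalues `b ≠ b'`, `‖b'‖ = 1`. -/
theorem orth_of_shift140 (F : T2.Frame ℚ) {φ ψ : G ℚ → ℂ} {z : G ℚ}
    (key : T2.pair F (T2.shift z φ) (T2.shift z ψ) = T2.pair F φ ψ) {b b' : ℂ}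
    (h1 : ∀ g : G ℚ, φ (g * z) = b * φ g) (h2 : ∀ g : G ℚ, ψ (g * z) = b' * ψ g)
    (hb' : ‖b'‖ = 1) (hne : b ≠ b') : T2.pair F φ ψ = 0 := by
  have e1 : T2.shift z φ = b • φ := by
    funext g
    exact h1 g
  have e2 : T2.shift z ψ = b' • ψ := by
    funext g
    exact h2 g
  rw [e1, e2, T2.H566.pair_smul_left566, T2.H566.pair_smul_right566] at key
  have hbb : conj b' * b' = 1 := by
    rw [mul_comm, Complex.mul_conj, Complex.normSq_eq_norm_sq, hb', one_pow, Complex.ofReal_one]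
  by_contra hp
  have h3 : b * conj b' = 1 := by
    have h4 : (b * conj b' - 1) * T2.pair F φ ψ = 0 := by linear_combination key
    rcases mul_eq_zero.1 h4 with h5 | h5
    · exact sub_eq_zero.1 h5
    · exact absurd h5 hp
  apply hne
  calc b = b * (conj b' * b') := by rw [hbb, mul_one]
    _ = (b * conj b') * b' := by ring
    _ = b' := by rw [h3, one_mul]

theorem orth_of_b140 (hOA : T2.OpsAdjT ℚ 𝔫 τ) (R : T2.FrameR ℚ) {φ ψ : G ℚ → ℂ}
    (hφ : T2.IsCuspT 𝔫 τ R.r φ) (hψ : T2.IsCuspT 𝔫 τ R.r ψ) {v : HeightOneSpectrum (𝓞 ℚ)}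
    (hv : ¬ v.asIdeal ∣ 𝔫) {a b a' b' : ℂ} (h1 : IsHeckeEigenAt φ v a b)
    (h2 : IsHeckeEigenAt ψ v a' b') (hb' : ‖b'‖ = 1) (hne : b ≠ b') :
    T2.pair R.F φ ψ = 0 := by
  obtain ⟨-, -, ⟨z, hz⟩⟩ := (T1.t1Out ℚ).heckeCoset v
  exact orth_of_shift140 R.F ((hOA R).1 v hv z hz φ ψ hφ hψ) (h1.2 z hz) (h2.2 z hz) hb' hne

/-- A function which is invariant under the positive scalars at the real place is orthogonal
to an eigenfunction of the central shifts which is not. -/
theorem orth_of_central140 (hOA : T2.OpsAdjT ℚ 𝔫 τ) (R : T2.FrameR ℚ) {φ ψ : G ℚ → ℂ}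
    (hφ : T2.IsCuspT 𝔫 τ R.r φ) (hψ : T2.IsCuspT 𝔫 τ R.r ψ)
    (hinv : T2.H291.IsScInvT291 φ) {c : G ℚ → ℂ}
    (hc : ∀ (w : InfinitePlace ℚ) (z : G ℚ), IsArchPosScalar w z →
      ∀ g : G ℚ, ψ (g * z) = c z * ψ g)
    (hu : ∀ (w : InfinitePlace ℚ) (z : G ℚ), IsArchPosScalar w z → ‖c z‖ = 1)
    (hnot : ¬ T2.H291.IsScInvT291 ψ) : T2.pair R.F φ ψ = 0 := by
  have hnot' : ¬ ∀ (w : InfinitePlace ℚ) (z : G ℚ), IsArchPosScalar w z →
      ∀ g : G ℚ, ψ (g * z) = ψ g := hnot
  push Not at hnot'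
  obtain ⟨w, z, hz, g, hg⟩ := hnot'
  have hcz : (1 : ℂ) ≠ c z := by
    intro h
    apply hg
    rw [hc w z hz g, ← h, one_mul]
  exact orth_of_shift140 R.F ((hOA R).2.1 w z hz φ ψ hφ hψ)
    (fun g => by rw [hinv w z hz g, one_mul]) (hc w z hz) (hu w z hz) hcz

theorem orth_of_m140 (hOA : T2.OpsAdjT ℚ 𝔫 τ) (R : T2.FrameR ℚ) {φ ψ : G ℚ → ℂ}
    (hφ : T2.IsCuspT 𝔫 τ R.r φ) (hψ : T2.IsCuspT 𝔫 τ R.r ψ) {w : InfinitePlace ℚ}
    {t : ℝ} (ht : 0 < t) {m m' : ℝ → ℂ}
    (h1 : T2.MeanEigRT τ φ w m) (h2 : T2.MeanEigRT τ ψ w m') (hm' : (m' t).im = 0)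
    (hne : m t ≠ m' t) : T2.pair R.F φ ψ = 0 := by
  obtain ⟨k, hk⟩ := T2.H291.exists_rotT291 w
  obtain ⟨a, ha⟩ := exists_torus140 w t
  have key := (hOA R).2.2.2.2 w (isReal_140 w) t ht k a hk ha φ ψ hφ hψ
  have e1 : T2.circleMeanT τ k a φ = (m t) • φ := by
    funext g
    exact h1 t ht k a hk ha g
  have e2 : T2.circleMeanT τ k a ψ = (m' t) • ψ := by
    funext g
    exact h2 t ht k a hk ha g
  rw [e1, e2, T2.H566.pair_smul_left566, T2.H566.pair_smul_right566] at key
  have e3 : conj (m' t) = m' t := Complex.conj_eq_iff_im.2 hm'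
  rw [e3] at key
  have h3 : (m t - m' t) * T2.pair R.F φ ψ = 0 := by linear_combination key
  rcases mul_eq_zero.1 h3 with h4 | h4
  · exact absurd (sub_eq_zero.1 h4) hne
  · exact h4

end Orth

/-! ## 3. Normalised data -/

theorem eigData_ext140 {c c' : EigData ℚ} (ha : c.a = c'.a) (hb : c.b = c'.b)
    (hm : c.m = c'.m) : c = c' := by
  cases c
  cases c'
  simp only at ha hb hm
  subst ha hb hm
  rfl

open Classical in
/-- The normalised eigen-data: `0` at the places dividing the level and at the radii `t ≤ 0`. -/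
def normDataQ140 (𝔫 : Ideal (𝓞 ℚ)) (a b : HeightOneSpectrum (𝓞 ℚ) → ℂ)
    (m : InfinitePlace ℚ → ℝ → ℂ) : EigData ℚ where
  a := fun v => if v.asIdeal ∣ 𝔫 then 0 else a v
  b := fun v => if v.asIdeal ∣ 𝔫 then 0 else b v
  m := fun w t => if 0 < t then m w t else 0

section Norm

variable {𝔫 : Ideal (𝓞 ℚ)} {a b : HeightOneSpectrum (𝓞 ℚ) → ℂ} {m : InfinitePlace ℚ → ℝ → ℂ}

theorem normData_a140 {v : HeightOneSpectrum (𝓞 ℚ)} (hv : ¬ v.asIdeal ∣ 𝔫) :
    (normDataQ140 𝔫 a b m).a v = a v := if_neg hv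

theorem normData_b140 {v : HeightOneSpectrum (𝓞 ℚ)} (hv : ¬ v.asIdeal ∣ 𝔫) :
    (normDataQ140 𝔫 a b m).b v = b v := if_neg hv

theorem normData_a_bad140 {v : HeightOneSpectrum (𝓞 ℚ)} (hv : v.asIdeal ∣ 𝔫) :
    (normDataQ140 𝔫 a b m).a v = 0 := if_pos hv

theorem normData_b_bad140 {v : HeightOneSpectrum (𝓞 ℚ)} (hv : v.asIdeal ∣ 𝔫) :
    (normDataQ140 𝔫 a b m).b v = 0 := if_pos hv

theorem normData_m140 {w : InfinitePlace ℚ} {t : ℝ} (ht : 0 < t) :
    (normDataQ140 𝔫 a b m).m w t = m w t := if_pos ht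

theorem normData_m_bad140 {w : InfinitePlace ℚ} {t : ℝ} (ht : ¬ 0 < t) :
    (normDataQ140 𝔫 a b m).m w t = 0 := if_neg ht

/-- The circle means only see the positive radii. -/
theorem meanEigRT_norm140 {τ : G ℚ → ℂ} {ψ : G ℚ → ℂ} {w : InfinitePlace ℚ}
    (h : T2.MeanEigRT τ ψ w (m w)) : T2.MeanEigRT τ ψ w ((normDataQ140 𝔫 a b m).m w) := by
  intro t ht k x hk hx g
  rw [normData_m140 ht]
  exact h t ht k x hk hx g

theorem meanEigRT_of_norm140 {τ : G ℚ → ℂ} {ψ : G ℚ → ℂ} {w : InfinitePlace ℚ}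
    (h : T2.MeanEigRT τ ψ w ((normDataQ140 𝔫 a b m).m w)) : T2.MeanEigRT τ ψ w (m w) := by
  intro t ht k x hk hx g
  have h1 := h t ht k x hk hx g
  rw [normData_m140 ht] at h1
  exact h1

end Norm

/-! ## 4. The node -/

section Node

variable {n : QWt} {𝔫 : Ideal (𝓞 ℚ)}

/-- Two eigenfunctions which are not orthogonal have the same normalised data. -/
theorem normData_eq_of_pair_ne140 (hOA : T2.OpsAdjT ℚ 𝔫 n.type) (R : T2.FrameR ℚ)
    {ψ e : G ℚ → ℂ} {a₀ b₀ a b : HeightOneSpectrum (𝓞 ℚ) → ℂ}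
    {m₀ m : InfinitePlace ℚ → ℝ → ℂ}
    (hψ : InCls2Q341 n 𝔫 R.r (normDataQ140 𝔫 a₀ b₀ m₀) ψ)
    (hc : T2.IsCuspT 𝔫 n.type R.r e)
    (hh : ∀ v : HeightOneSpectrum (𝓞 ℚ), ¬ v.asIdeal ∣ 𝔫 → IsHeckeEigenAt e v (a v) (b v))
    (hm : ∀ w : InfinitePlace ℚ, T2.MeanEigRT n.type e w (m w))
    (hb : ∀ v : HeightOneSpectrum (𝓞 ℚ), ¬ v.asIdeal ∣ 𝔫 → ‖b v‖ = 1)
    (ha : ∀ v : HeightOneSpectrum (𝓞 ℚ), ¬ v.asIdeal ∣ 𝔫 → conj (a v) = a v * conj (b v))
    (hre : ∀ (w : InfinitePlace ℚ) (t : ℝ), 0 < t → (m w t).im = 0)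
    (hp : T2.pair R.F ψ e ≠ 0) :
    normDataQ140 𝔫 a b m = normDataQ140 𝔫 a₀ b₀ m₀ := by
  have hψc : T2.IsCuspT 𝔫 n.type R.r ψ := isCuspT_of5_140 hψ.inv.cusp
  have hψm : ∀ w : InfinitePlace ℚ,
      T2.MeanEigRT n.type ψ w ((normDataQ140 𝔫 a₀ b₀ m₀).m w) := fun w =>
    (H19.meanEigQ_iff_of_cuspT19 hψc w _).2 (hψ.mean w)
  refine eigData_ext140 (funext fun v => ?_) (funext fun v => ?_)
    (funext fun w => funext fun t => ?_)
  · by_cases hv : v.asIdeal ∣ 𝔫
    · rw [normData_a_bad140 hv, normData_a_bad140 hv]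
    · by_contra hne
      rw [normData_a140 hv] at hne
      exact hp (orth_of_a140 hOA R hψc hc hv (hψ.hecke v hv) (hh v hv) (hb v hv) (ha v hv)
        (fun h => hne h.symm))
  · by_cases hv : v.asIdeal ∣ 𝔫
    · rw [normData_b_bad140 hv, normData_b_bad140 hv]
    · by_contra hne
      rw [normData_b140 hv] at hne
      exact hp (orth_of_b140 hOA R hψc hc hv (hψ.hecke v hv) (hh v hv) (hb v hv)
        (fun h => hne h.symm))
  · by_cases ht : 0 < t
    · by_contra hne
      rw [normData_m140 ht] at hne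
      exact hp (orth_of_m140 hOA R hψc hc ht (hψm w) (hm w) (hre w t ht)
        (fun h => hne h.symm))
    · rw [normData_m_bad140 ht, normData_m_bad140 ht]

/-- The function of a finite combination in the pre-Hilbert space of the class. -/
theorem fn_sum140 (d : T2.H560.Cls560 ℚ) {ι : Type} (y : ι → T2.H560.V560 d) (coef : ι → ℂ)
    (T : Finset ι) :
    T2.H560.fn560 (∑ j ∈ T, coef j • y j) = ∑ j ∈ T, coef j • T2.H560.fn560 (y j) := by
  classical
  induction T using Finset.induction_on with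
  | empty =>
    rw [Finset.sum_empty, Finset.sum_empty]
    rfl
  | insert j T hj ih =>
    rw [Finset.sum_insert hj, Finset.sum_insert hj, T2.H560.fn560_add, ih, T2.H560.fn560_smul]
    rfl

/-- **NODE WBQ.2 = `V₂`-BASIS over `ℚ`, type `n`** (`WBQ341.V2BasisQC341 n`). -/
theorem v2BasisQC140 (n : QWt) : V2BasisQC341 n := by
  classical
  intro μ F r 𝔫 h𝔫 hτ5 hF hr
  have hτ : T2.IsKType n.type := isKType2_140 hτ5
  have hreal : ∀ w : InfinitePlace ℚ, w.IsReal := isReal_140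
  have hR5 : T7.IsFrame5 (⟨μ, F, r⟩ : T7.Frame5 ℚ) := ⟨hF, hr⟩
  obtain ⟨R, hRF, hRr⟩ : ∃ R : T2.FrameR ℚ,
      R.F = T2.frameOf130 (⟨μ, F, r⟩ : T7.Frame5 ℚ) hR5 ∧ R.r = r :=
    ⟨⟨T2.frameOf130 (⟨μ, F, r⟩ : T7.Frame5 ℚ) hR5, r, hr⟩, rfl, rfl⟩
  subst hRr
  have hpairD : ∀ φ ψ : G ℚ → ℂ, T5.innerD μ F φ ψ = T2.pair R.F φ ψ := fun φ ψ => by
    rw [hRF]
    rfl
  have hOA : T2.OpsAdjT ℚ 𝔫 n.type := (T2.opsT_closed ℚ 𝔫 n.type h𝔫 hτ).2
  have hP : T2.PairDefiniteT ℚ 𝔫 n.type := T2.pairDefiniteT_closed ℚ 𝔫 n.type h𝔫 hτ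
  obtain ⟨ι, e, m, a, b, cc, hB⟩ := T2.cuspSpecT_closed ℚ 𝔫 n.type h𝔫 hτ R
  have hcount : Countable ι :=
    T2.H291.countable_indexT291 h𝔫 hτ hB.cusp hB.norm_one hB.orth
  obtain ⟨g, hg⟩ := hcount.exists_injective_nat
  -- the members which are invariant under the positive scalars at the real place
  set J₁ : Set ι := {j | T2.H291.IsScInvT291 (e j)} with hJ₁
  -- the normalised data
  have hEig : ∀ j, j ∈ J₁ →
      InCls2Q341 n 𝔫 R.r (normDataQ140 𝔫 (a j) (b j) (m j)) (e j) := fun j hj =>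
    { inv := ⟨isCusp5_ofT_140 (hB.cusp j), hj⟩
      hecke := fun v hv => by
        rw [normData_a140 hv, normData_b140 hv]
        exact hB.hecke j v hv
      mean := fun w => (H19.meanEigQ_iff_of_cuspT19 (hB.cusp j) w _).1
        (meanEigRT_norm140 (hB.eig_real j w (hreal w))) }
  have hUnit : ∀ j, IsUnitOutQ 𝔫 (normDataQ140 𝔫 (a j) (b j) (m j)) := by
    intro j
    refine ⟨fun v hv => ?_, fun w t ht => ?_⟩
    · rw [normData_a140 hv, normData_b140 hv]
      exact ⟨hB.unit_b j v hv, hB.conj_a j v hv, hB.bound_a j v hv⟩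
    · rw [normData_m140 ht]
      exact ⟨hB.real_m j w t ht, H19.norm_meanEigRT_le19 (hB.cusp j)
        (exists_ne_zero140 R.F (hB.norm_one j)) (hB.eig_real j w (hreal w)) ht⟩
  -- a member of `V₂` is orthogonal to the members which are not kept
  have hperp : ∀ ψ : G ℚ → ℂ, InV2Q341 n 𝔫 R.r ψ → ∀ j, j ∉ J₁ → T2.pair R.F ψ (e j) = 0 :=
    fun ψ hψ j hj => orth_of_central140 hOA R (isCuspT_of5_140 hψ.cusp) (hB.cusp j)
      hψ.arch_scalar (c := cc j) (hB.central j) (hB.unit_c j) hj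
  -- finiteness of the classes
  have hFin : ∀ j₀ : ι, j₀ ∈ J₁ → {j : ι | j ∈ J₁ ∧ normDataQ140 𝔫 (a j) (b j) (m j)
      = normDataQ140 𝔫 (a j₀) (b j₀) (m j₀)}.Finite := by
    intro j₀ hj₀
    have h1 := T2.H291.finite_meanClassT291 (R := R) (u := fun j : J₁ => e j.1)
      (m := fun j : J₁ => m j.1) hreal h𝔫 hτ (fun j => hB.cusp j.1) (fun j => j.2)
      (fun j => hB.norm_one j.1)
      (fun i j hij => hB.orth i.1 j.1 (fun h => hij (Subtype.ext h)))
      (fun j w => hB.eig_real j.1 w (hreal w)) ⟨j₀, hj₀⟩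
    refine (h1.image Subtype.val).subset ?_
    rintro j ⟨hj, hjc⟩
    refine ⟨⟨j, hj⟩, ?_, rfl⟩
    intro w t ht
    show m j w t = m j₀ w t
    have h2 : (normDataQ140 𝔫 (a j) (b j) (m j)).m w t
        = (normDataQ140 𝔫 (a j₀) (b j₀) (m j₀)).m w t := by
      rw [hjc]
    rwa [normData_m140 ht, normData_m140 ht] at h2
  -- the sequence
  set v : ℕ → G ℚ → ℂ := fun k =>
    if h : ∃ j, g j = k then e (Classical.choose h) else 0 with hv
  set c : ℕ → EigData ℚ := fun k =>
    if h : ∃ j, g j = k then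
      normDataQ140 𝔫 (a (Classical.choose h)) (b (Classical.choose h)) (m (Classical.choose h))
    else ⟨fun _ => 0, fun _ => 0, fun _ _ => 0⟩ with hc
  have hv_g : ∀ j, v (g j) = e j := fun j => by
    have h : ∃ j', g j' = g j := ⟨j, rfl⟩
    simp only [hv, dif_pos h]
    rw [hg (Classical.choose_spec h)]
  have hc_g : ∀ j, c (g j) = normDataQ140 𝔫 (a j) (b j) (m j) := fun j => by
    have h : ∃ j', g j' = g j := ⟨j, rfl⟩
    simp only [hc, dif_pos h]
    rw [hg (Classical.choose_spec h)]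
  refine ⟨v, g '' J₁, c, ?_, ?_, ?_, ?_, ?_, ?_, ?_⟩
  · -- eig
    rintro _ ⟨j, hj, rfl⟩
    rw [hv_g, hc_g]
    exact hEig j hj
  · -- unit
    rintro _ ⟨j, hj, rfl⟩
    rw [hc_g]
    exact hUnit j
  · -- norm_one
    rintro _ ⟨j, hj, rfl⟩
    rw [hv_g, hpairD]
    exact hB.norm_one j
  · -- orth
    rintro _ ⟨i, hi, rfl⟩ _ ⟨j, hj, rfl⟩ hij
    rw [hv_g, hv_g, hpairD]
    exact hB.orth i j fun h => hij (by rw [h])
  · -- parseval
    intro ψ hψ
    have hs := hB.parseval ψ (isCuspT_of5_140 hψ.cusp)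
    have hsupp : Function.support (fun j => ‖T2.pair R.F ψ (e j)‖ ^ 2) ⊆ J₁ := by
      intro j hj
      by_contra hnot
      apply hj
      show ‖T2.pair R.F ψ (e j)‖ ^ 2 = 0
      rw [hperp ψ hψ j hnot, norm_zero]
      norm_num
    have hs1 : HasSum ((fun j => ‖T2.pair R.F ψ (e j)‖ ^ 2) ∘ (Subtype.val : J₁ → ι))
        (T2.nsq R.F ψ) := (hasSum_subtype_iff_of_support_subset hsupp).2 hs
    have hnsq : (T5.innerD μ F ψ ψ).re = T2.nsq R.F ψ := by
      rw [hpairD]
      rfl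
    rw [hnsq]
    refine ((Equiv.Set.image g J₁ hg).hasSum_iff
      (f := fun k : (g '' J₁ : Set ℕ) => ‖T5.innerD μ F ψ (v k)‖ ^ 2)).1 ?_
    have e1 : ((fun k : (g '' J₁ : Set ℕ) => ‖T5.innerD μ F ψ (v k)‖ ^ 2)
        ∘ (Equiv.Set.image g J₁ hg))
        = (fun j => ‖T2.pair R.F ψ (e j)‖ ^ 2) ∘ (Subtype.val : J₁ → ι) := by
      funext j
      show ‖T5.innerD μ F ψ (v (g j.1))‖ ^ 2 = ‖T2.pair R.F ψ (e j.1)‖ ^ 2
      rw [hv_g, hpairD]
    rw [e1]
    exact hs1
  · -- finite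
    rintro _ ⟨j₀, hj₀, rfl⟩
    refine ((hFin j₀ hj₀).image g).subset ?_
    rintro k ⟨⟨j, hj, rfl⟩, hk⟩
    rw [hc_g, hc_g] at hk
    exact ⟨j, ⟨hj, hk⟩, rfl⟩
  · -- exhaust
    rintro _ ⟨j₀, hj₀, rfl⟩ ψ hψ
    rw [hc_g] at hψ ⊢
    have hψc : T2.IsCuspT 𝔫 n.type R.r ψ := isCuspT_of5_140 hψ.inv.cusp
    -- orthogonality to the members outside the class
    have horth : ∀ j, ¬ (j ∈ J₁ ∧ normDataQ140 𝔫 (a j) (b j) (m j)
        = normDataQ140 𝔫 (a j₀) (b j₀) (m j₀)) → T2.pair R.F ψ (e j) = 0 := by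
      intro j hj
      by_contra hp
      by_cases hj1 : j ∈ J₁
      · exact hj ⟨hj1, normData_eq_of_pair_ne140 hOA R hψ (hB.cusp j)
          (fun v hv => hB.hecke j v hv) (fun w => hB.eig_real j w (hreal w))
          (fun v hv => hB.unit_b j v hv) (fun v hv => hB.conj_a j v hv)
          (fun w t ht => hB.real_m j w t ht) hp⟩
      · exact hp (hperp ψ hψ.inv j hj1)
    set S : Finset ι := (hFin j₀ hj₀).toFinset with hS
    have hmemS : ∀ j, j ∈ S ↔ (j ∈ J₁ ∧ normDataQ140 𝔫 (a j) (b j) (m j)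
        = normDataQ140 𝔫 (a j₀) (b j₀) (m j₀)) := fun j => by
      rw [hS, Set.Finite.mem_toFinset]
      rfl
    -- the pre-Hilbert space of the class
    set d : T2.H560.Cls560 ℚ := T2.H560.clsT560 𝔫 n.type R hP with hd
    set x : T2.H560.V560 d := T2.H560.mk560 d ψ hψc with hx
    set y : ι → T2.H560.V560 d := fun j => T2.H560.mk560 d (e j) (hB.cusp j) with hy
    have hin : ∀ (z : T2.H560.V560 d) (j : ι),
        inner ℂ (y j) z = T2.pair R.F (T2.H560.fn560 z) (e j) := fun z j => rfl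
    have hyy : ∀ i j, inner ℂ (y i) (y j) = if i = j then 1 else 0 := by
      intro i j
      rw [hin]
      by_cases h : i = j
      · subst h
        rw [if_pos rfl]
        exact hB.norm_one i
      · rw [if_neg h]
        exact hB.orth j i (fun h' => h h'.symm)
    set x' : T2.H560.V560 d := x - ∑ j ∈ S, (inner ℂ (y j) x) • y j with hx'
    have hzero : ∀ i, inner ℂ (y i) x' = 0 := by
      intro i
      rw [hx', inner_sub_right, inner_sum]
      simp only [inner_smul_right, hyy, mul_ite, mul_one, mul_zero, Finset.sum_ite_eq]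
      by_cases hi : i ∈ S
      · rw [if_pos hi, sub_self]
      · rw [if_neg hi, sub_zero, hin]
        exact horth i (fun h => hi ((hmemS i).2 h))
    have hx0 : x' = 0 := by
      have hpar := hB.parseval (T2.H560.fn560 x') (T2.H560.fn560_mem x')
      have h0 : (fun j => ‖T2.pair R.F (T2.H560.fn560 x') (e j)‖ ^ 2) = fun _ => (0 : ℝ) := by
        funext j
        have h := hzero j
        rw [hin] at h
        rw [h, norm_zero]
        norm_num
      rw [h0] at hpar
      have h1 : T2.nsq R.F (T2.H560.fn560 x') = 0 := hpar.unique hasSum_zero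
      have h2 : ‖x'‖ ^ 2 = 0 := by
        rw [T2.H560.norm_sq560]
        exact h1
      exact norm_eq_zero.1 (pow_eq_zero_iff two_ne_zero |>.1 h2)
    have hxe : x = ∑ j ∈ S, (inner ℂ (y j) x) • y j := sub_eq_zero.1 hx0
    have hψeq : ψ = ∑ j ∈ S, (inner ℂ (y j) x) • e j := by
      have h := congrArg T2.H560.fn560 hxe
      rw [fn_sum140] at h
      exact h
    rw [hψeq]
    refine Submodule.sum_mem _ fun j hj => Submodule.smul_mem _ _ (Submodule.subset_span ?_)
    refine ⟨g j, ⟨j, ((hmemS j).1 hj).1, rfl⟩, ?_, (hv_g j).symm⟩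
    rw [hc_g]
    exact ((hmemS j).1 hj).2

example (n : QWt) : V2BasisQC341 n := v2BasisQC140 n

end Node

end Fermat.Agent.LT.T7.V2Q140

end

end
-- ===== PACK-END LT/T7/H140/V2BasisQ.lean

-- ===== PACK-BEGIN LT/T7/H144/WSpecCut.lean
section



/-!
# Row LT, tower T7, leaf T7.L2.2.B1 = `WSpecC561` (owner helper144): THE CUT

OFF-MAIN.  Definitions, frozen Props of the sub-leaves, PROVED top.  Nothing assumed, no hole.
ADDITIVE (new names only, all ending in `144`).  Vocabulary: `T7/H561/BlocksSpec.lean`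
(helper561@fa57d28b6, sha256 5ceeaa4d), `T7/Level2.lean` (sha256 15516646), `T2/AdapterW.lean`
(helper130@5bf799939), byte-identical copies.

    wSpecC_of144 : ClassFinC144 K' → EigSpanC144 K' → IwTranslC144 K' → ClassBasisC144 K'
                     → H561.WSpecC561 K K'

## Why a cut (remark for the sub-architect)

`T2.finite_class130` gives the finiteness of the set of members of the eigenbasis of T2 which
have the same eigenvalue as `u j₀` for EVERY operator of the tower (`T2.IsOp`, convolutions by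
spherical test functions included).  A class of `IsWSpec561` is defined by `EigData.AgreeOut`:
Hecke eigenvalues outside `S'` and sphere means only.  So the finiteness of a class needs one
more step (`ClassFinC144`): the eigenvalue of the convolution by the approximate identity of
helper907 is DETERMINED by the eigenvalue functions of the sphere means.

## The sub-leaves

* **`ClassFinC144`** (W1, T2 vocabulary; the analytic leaf): in a joint eigenbasis of T2 over a
  totally complex field only finitely many members have the same eigenvalue functions of the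
  sphere means as a given one.
* **`EigSpanC144`** (W2): an eigenfunction with data `C` (no Iwahori condition) is orthogonal
  to the members of the eigenbasis whose data do not agree with `C`, and is the finite
  combination `∑_{j ∈ J} ⟨ψ, u_j⟩ u_j` over any finite set `J` containing the others.
* **`IwTranslC144`** (W3): the right translation by an Iwahori element along the orbit
  preserves the eigenfunctions of the level (without Iwahori condition) and the inner product;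
  the inverse of an Iwahori element is one.
* **`ClassBasisC144`** (W4, linear algebra in a finite-dimensional class; uses W2, W3): the
  orthonormal basis of the Iwahori-invariant functions of ONE class, with the Parseval identity
  of the class.
-/

set_option autoImplicit false
set_option linter.unusedSectionVars false
set_option linter.unusedVariables false
set_option linter.style.haveILetI false

open AutomorphicForm IsDedekindDomain NumberField MeasureTheory
open scoped ComplexConjugate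

noncomputable section

namespace Fermat.Agent.LT.T7.H144W

open Fermat.Agent.LT.H556 Fermat.Agent.LT.H556.A0 Fermat.Agent.LT Fermat.Agent.LT.T7

attribute [local instance] Fermat.Agent.LT.T5.instMeasurableSpaceG

/-! ## 1. The sub-leaves -/

section Leaves

variable (K : Type) [Field K] [NumberField K]

/-- **LEAF W1 = CLASS-FIN** (T2 vocabulary).
Proof.  Let `f_k = T2.H907.apx907 F 𝔫 (1 / (k + 1))` (the approximate identity of helper907:
`c · 1_{Pfin907}(h) · s(1 - defect907 h / η)`).  For a member `u` of the basis (norm one)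
`conv F f_k u = c_k(u) • u` (`eig_op`, `IsOp.conv`), so
`c_k(u) = pair F (conv F f_k u) u = ∫ f_k(h) ⟨R(h) u, u⟩ dμ(h)` (Fubini; `f_k` continuous with
compact support, `u` bounded, `μ D < ∞`).  CLAIM: `⟨R(h) u, u⟩ = ⟨R(h) u', u'⟩` for all `h` in the
support of `f_k` if `u`, `u'` have the same eigenvalue functions `m` of the sphere means.
Indeed `h = h_fin ∏_w h_w` (components), `h_fin ∈ U(𝔫)` fixes `u`; at a complex place
`h_w = z k₁ torus(d) k₂` (singular values: `z` a positive scalar, `k₁, k₂ ∈ U(2)`, `d ≥ 0`), and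
for `φ` right invariant under `K_w` and the positive scalars at `w` with
`sphereMean Y φ = m w d • φ`: `⟨R(h_w) φ, u⟩ = ⟨R(torus d) φ, u⟩` (`R(k₁)` is unitary:
`T2.H941.PairC`, and fixes `u`) `= (m w d / 4π) ⟨φ, u⟩` for `d > 0` (integrate
`⟨R(Y α β) φ, u⟩ = ⟨R(torus d) φ, u⟩` against `sin β dα dβ`), `= ⟨φ, u⟩` for `d = 0`; apply it
to `φ = R(h') u`, `h'` the product of the other components (the sphere means at `w` commute
with `R(h')`).  So `c_k(u) = c_k(u')` for all `k`, and `T2.finite_large130` for a `k` with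
`|c_k(u j₀)| > 1/2` (`T2.large_of_approx130`) bounds the class, as in `T2.finite_class130`. -/
def ClassFinC144 : Prop :=
  (∀ w : InfinitePlace K, w.IsComplex) → ∀ 𝔫 : Ideal (𝓞 K), 𝔫 ≠ ⊥ → ∀ (F : T2.Frame K)
    (ι : Type) (u : ι → G K → ℂ) (m : ι → InfinitePlace K → ℝ → ℂ)
    (a b : ι → HeightOneSpectrum (𝓞 K) → ℂ), T2.IsCuspBasisPlus 𝔫 F u m a b →
    ∀ j₀ : ι, {j : ι | ∀ (w : InfinitePlace K) (d : ℝ), 0 < d → m j w d = m j₀ w d}.Finite

/-- **LEAF W2 = EIG-SPAN.**
Proof.  (i) If `b` differs at `v ∤ 𝔫`: `S_v` is unitary (`T2.OpsAdj`, first clause) and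
`|b_j| = 1`; if `a` differs: `T_v* = S_v⁻¹ T_v` (second clause) and `conj a_j = a_j conj b_j`;
if `m` differs at `(w, d)`: the sphere mean is self-adjoint (third clause) and `m_j` is real
(`IsWBasis130.unitary`).  Coset systems, scalar uniformisers and sphere parametrisations exist
(`T1.heckeCoset`, assets of `T2/H566`).  (ii) `φ = ψ - ∑_{j ∈ J} ⟨ψ, u_j⟩ u_j` is a cusp function
of the level, `⟨φ, u_j⟩ = 0` for every `j` ((i) and orthonormality), so `⟨φ, φ⟩ = 0`
(`parseval`) and `φ = 0` (`T2.PairDefinite`). -/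
def EigSpanC144 : Prop :=
  (∀ w : InfinitePlace K, w.IsComplex) → ∀ 𝔫 : Ideal (𝓞 K), 𝔫 ≠ ⊥ → ∀ R : Frame5 K,
    IsFrame5 R → ∀ (o : ℕ → HeightOneSpectrum (𝓞 K)) (ι : Type) (u : ι → G K → ℂ)
    (C₀ : ι → EigData K), T2.IsWBasis130 𝔫 R 0 o u C₀ →
    ∀ S : Finset (HeightOneSpectrum (𝓞 K)),
      (∀ v : HeightOneSpectrum (𝓞 K), v.asIdeal ∣ 𝔫 → v ∈ S) →
    ∀ (ψ : G K → ℂ) (C : EigData K), IsEigFn 𝔫 R.r 0 o ψ C →
      (∀ j : ι, ¬ C.AgreeOut S (C₀ j) → T5.innerD R.μ R.F ψ (u j) = 0) ∧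
      ∀ J : Finset ι, (∀ j : ι, C.AgreeOut S (C₀ j) → j ∈ J) →
        ∀ x : G K, ψ x = ∑ j ∈ J, T5.innerD R.μ R.F ψ (u j) * u j x

/-- **LEAF W3 = IW-TRANSL.**
Proof.  `i` is trivial at infinity and outside the orbit, integral with integral inverse at the
places of the orbit: it normalises `U(𝔫)` (`i⁻¹ u i - 1 = i⁻¹ (u - 1) i`, the closure of `𝔫` in
`𝒪_v` is an ideal), commutes with the elements supported at the infinite places and at the
places prime to `𝔫` (the orbit divides `𝔫`); the ray generator is central; the constant term of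
a right translate is the right translate of the constant term.  The inner product:
`T2.H941.PairC` (third clause; the functions are in `IsAut0`), or `TranslInvC` of helper193's
cut.  The inverse: the three conditions are stable under inversion (components). -/
def IwTranslC144 : Prop :=
  ∀ 𝔫 : Ideal (𝓞 K), 𝔫 ≠ ⊥ → ∀ R : Frame5 K, IsFrame5 R →
    ∀ (l : ℕ) (o : ℕ → HeightOneSpectrum (𝓞 K)), (∀ j < l, (o j).asIdeal ∣ 𝔫) →
    ∀ i : G K, (∀ w : InfinitePlace K, TrivAtInf w i) →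
      (∀ v : HeightOneSpectrum (𝓞 K), (∀ j < l, v ≠ o j) → TrivAtFin v i) →
      (∀ j < l, T5.InIwahori (o j) i) →
      (∀ (ψ : G K → ℂ) (C : EigData K), IsEigFn 𝔫 R.r 0 o ψ C →
        IsEigFn 𝔫 R.r 0 o (fun x => ψ (x * i)) C) ∧
      (∀ ψ χ : G K → ℂ, IsWFn 𝔫 R.r 0 o ψ → IsWFn 𝔫 R.r 0 o χ →
        T5.innerD R.μ R.F (fun x => ψ (x * i)) (fun x => χ (x * i))
          = T5.innerD R.μ R.F ψ χ) ∧
      ((∀ w : InfinitePlace K, TrivAtInf w i⁻¹) ∧
        (∀ v : HeightOneSpectrum (𝓞 K), (∀ j < l, v ≠ o j) → TrivAtFin v i⁻¹) ∧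
        ∀ j < l, T5.InIwahori (o j) i⁻¹)

/-- **LEAF W4 = CLASS-BASIS** (linear algebra in ONE class; uses W2 and W3).
`J` = the (finite) class of `j₀` in the eigenbasis `u` of the level WITHOUT Iwahori condition;
`V = span (u j)_{j ∈ J}`; `V^I` = the Iwahori-invariant members of `V`.
Proof.  `V ≅ ℂ^J` (orthonormality), `V^I` corresponds to a subspace `U ⊆ EuclideanSpace ℂ J`;
`v` = the image of an orthonormal basis of `U` (`stdOrthonormalBasis`), `n = finrank U`;
`innerD` is sesquilinear on finite combinations of bounded continuous functions.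
(1) `u j`, `j ∈ J`, is an eigenfunction for `C₀ j₀` (the data agree outside `S` = the divisors
of `𝔫` and at the positive radii), so is every combination (`T2/H886/CuspAlg`, linearity of the
Hecke sums and of the sphere means), and `v a` is Iwahori invariant by construction.
(3) an eigenfunction `ψ` of `W` with data `C'` agreeing with `C₀ j₀` is in `V` (W2, second
clause, for the level without Iwahori condition) and Iwahori invariant: in `V^I`.
(6) linearity in the first variable.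
(5) for `ψ ∈ W`: `E ψ = ∑_{j ∈ J} ⟨ψ, u_j⟩ u_j` is Iwahori invariant: for an Iwahori element `i`
both `R(i) E ψ` and `E ψ` are in `V` (W3 and W2 for `R(i) u_j`) and for `j' ∈ J`:
`⟨R(i) E ψ, u_j'⟩ = ⟨E ψ, R(i⁻¹) u_j'⟩ = ⟨ψ, R(i⁻¹) u_j'⟩ = ⟨R(i) ψ, u_j'⟩ = ⟨ψ, u_j'⟩
= ⟨E ψ, u_j'⟩` (W3: unitarity; `R(i⁻¹) u_j' ∈ V`; `ψ - E ψ ⊥ V`).  So `E ψ ∈ V^I`,
`⟨ψ, v_a⟩ = ⟨E ψ, v_a⟩` and `∑_a |⟨E ψ, v_a⟩|² = ‖E ψ‖² = ∑_{j ∈ J} |⟨ψ, u_j⟩|²`. -/
def ClassBasisC144 : Prop :=
  EigSpanC144 K → IwTranslC144 K →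
  (∀ w : InfinitePlace K, w.IsComplex) → ∀ 𝔫 : Ideal (𝓞 K), 𝔫 ≠ ⊥ → ∀ R : Frame5 K,
    IsFrame5 R → ∀ (l : ℕ) (o : ℕ → HeightOneSpectrum (𝓞 K)), (∀ j < l, (o j).asIdeal ∣ 𝔫) →
    ∀ S : Finset (HeightOneSpectrum (𝓞 K)),
      (∀ v : HeightOneSpectrum (𝓞 K), v ∈ S ↔ v.asIdeal ∣ 𝔫) →
    ∀ (ι : Type) (u : ι → G K → ℂ) (C₀ : ι → EigData K), T2.IsWBasis130 𝔫 R 0 o u C₀ →
    ∀ (j₀ : ι) (J : Finset ι), (∀ j : ι, j ∈ J ↔ (C₀ j).AgreeOut S (C₀ j₀)) →
      ∃ (n : ℕ) (v : Fin n → G K → ℂ),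
        (∀ a, IsEigFn 𝔫 R.r l o (v a) (C₀ j₀)) ∧
        (∀ a b, T5.innerD R.μ R.F (v a) (v b) = if a = b then 1 else 0) ∧
        (∀ (ψ : G K → ℂ) (C' : EigData K), IsEigFn 𝔫 R.r l o ψ C' →
          C'.AgreeOut S (C₀ j₀) → ∃ c : Fin n → ℂ, ∀ x : G K, ψ x = ∑ a, c a * v a x) ∧
        (∀ (a : Fin n) (χ : G K → ℂ), IsWFn 𝔫 R.r 0 o χ →
          (∀ j ∈ J, T5.innerD R.μ R.F (u j) χ = 0) → T5.innerD R.μ R.F (v a) χ = 0) ∧
        ∀ ψ : G K → ℂ, IsWFn 𝔫 R.r l o ψ →
          ∑ a, ‖T5.innerD R.μ R.F ψ (v a)‖ ^ 2 = ∑ j ∈ J, ‖T5.innerD R.μ R.F ψ (u j)‖ ^ 2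

end Leaves

end Fermat.Agent.LT.T7.H144W

end

end
-- ===== PACK-END LT/T7/H144/WSpecCut.lean

-- ===== PACK-BEGIN LT/T7/H144/WSpecTop.lean
section


/-!
# Row LT, tower T7, leaf T7.L2.2.B1 = `WSpecC561` (owner helper144): THE TOP OF THE CUT

OFF-MAIN.  PROVED:

    wSpecC_of144 : ClassFinC144 K' → EigSpanC144 K' → IwTranslC144 K' → ClassBasisC144 K'
                     → H561.WSpecC561 K K'

The index set is the quotient of the index set of the eigenbasis of T2 (level `𝔑₀`, no Iwahori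
condition) by `EigData.AgreeOut S'`; regrouping of the Parseval series by classes.
-/

set_option autoImplicit false
set_option linter.unusedSectionVars false
set_option linter.unusedVariables false
set_option linter.style.haveILetI false

open AutomorphicForm IsDedekindDomain NumberField MeasureTheory
open scoped ComplexConjugate

noncomputable section

namespace Fermat.Agent.LT.T7.H144W

open Fermat.Agent.LT.H556 Fermat.Agent.LT.H556.A0 Fermat.Agent.LT Fermat.Agent.LT.T7

attribute [local instance] Fermat.Agent.LT.T5.instMeasurableSpaceG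

section Tools

variable {K : Type} [Field K] [NumberField K]

theorem agreeOut_refl144 (S : Finset (HeightOneSpectrum (𝓞 K))) (D : EigData K) :
    D.AgreeOut S D :=
  ⟨fun _ _ => ⟨rfl, rfl⟩, fun _ _ _ => rfl⟩

theorem agreeOut_symm144 {S : Finset (HeightOneSpectrum (𝓞 K))} {D D' : EigData K}
    (h : D.AgreeOut S D') : D'.AgreeOut S D :=
  ⟨fun w hw => ⟨(h.1 w hw).1.symm, (h.1 w hw).2.symm⟩, fun w d hd => (h.2 w d hd).symm⟩

theorem agreeOut_trans144 {S : Finset (HeightOneSpectrum (𝓞 K))} {D D' D'' : EigData K}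
    (h : D.AgreeOut S D') (h' : D'.AgreeOut S D'') : D.AgreeOut S D'' :=
  ⟨fun w hw => ⟨(h.1 w hw).1.trans (h'.1 w hw).1, (h.1 w hw).2.trans (h'.1 w hw).2⟩,
    fun w d hd => (h.2 w d hd).trans (h'.2 w d hd)⟩

/-- Forgetting the Iwahori condition. -/
theorem isWFn_zero_of144 {𝔫 : Ideal (𝓞 K)} {r : G K} (hr : T5.IsRayGen r) {l : ℕ}
    {o : ℕ → HeightOneSpectrum (𝓞 K)} {ψ : G K → ℂ} (h : IsWFn 𝔫 r l o ψ) :
    IsWFn 𝔫 r 0 o ψ :=
  (T2.isWFn_zero_iff130 hr o ψ).2 (T2.isCuspFn_of_isWFn130 h)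

theorem isEigFn_zero_of144 {𝔫 : Ideal (𝓞 K)} {r : G K} (hr : T5.IsRayGen r) {l : ℕ}
    {o : ℕ → HeightOneSpectrum (𝓞 K)} {ψ : G K → ℂ} {C : EigData K}
    (h : IsEigFn 𝔫 r l o ψ C) : IsEigFn 𝔫 r 0 o ψ C :=
  ⟨isWFn_zero_of144 hr h.inv, h.hecke, h.mean⟩

/-- The inner product is hermitian. -/
theorem innerD_conj144 (μ : Measure (G K)) (F : Set (G K)) (e f : G K → ℂ) :
    T5.innerD μ F e f = conj (T5.innerD μ F f e) := by
  unfold T5.innerD
  rw [← integral_conj]
  refine integral_congr_ae (Filter.Eventually.of_forall fun x => ?_)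
  simp only [map_mul, Complex.conj_conj]
  ring

end Tools

section Top

variable {K K' : Type} [Field K] [NumberField K] [Field K'] [NumberField K'] [Algebra K K']

/-- **THE TOP OF THE CUT.** -/
theorem wSpecC_of144 (hCF : ClassFinC144 K') (hES : EigSpanC144 K') (hIW : IwTranslC144 K')
    (hCB : ClassBasisC144 K') : H561.WSpecC561 K K' := by
  classical
  intro ℓ hcyc hℓ htc Φ hΦ hconst Dt hDt
  -- `K'` is totally complex
  have hcx : ∀ w : InfinitePlace K', w.IsComplex := by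
    intro w
    by_contra h
    have hr : w.IsReal := InfinitePlace.not_isComplex_iff_isReal.1 h
    have h2 := InfinitePlace.IsReal.comap (algebraMap K K') hr
    exact (InfinitePlace.not_isReal_iff_isComplex.2 (htc _)) h2
  -- the bad element `1`
  have hbad1 : Dt.IsBad (1 : G K') :=
    ⟨fun w => (H129.trivAtInf_iff129 w 1).2 (map_one _),
      fun v _ => (H129.trivAtFin_iff129 v 1).2 (map_one _)⟩
  have hcomp := hDt.comp 1 hbad1
  have hR : IsFrame5 Dt.R' := hcomp.frame'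
  have hne : Dt.𝔑 1 ≠ ⊥ := by
    intro h
    have h1 : Dt.𝔫 1 = ⊥ :=
      (Ideal.map_eq_bot_iff_of_injective (RingOfIntegers.algebraMap.injective K K')).1 h
    exact hcomp.level_ne h1
  have h𝔑 : Dt.𝔑₀ ≠ ⊥ := by
    intro h
    have h1 := hDt.level_g 1 hbad1
    rw [h] at h1
    exact hne (le_bot_iff.1 h1)
  have horb : ∀ j < ℓ, (Dt.o j).asIdeal ∣ Dt.𝔑₀ :=
    fun j _ => (hDt.mem_S' _).1 (hDt.orbit_level j)
  -- the eigenbasis of T2
  obtain ⟨ι₀, u, m, a, b, hB⟩ :=
    T2.cuspSpecPlus_closed K' Dt.𝔑₀ h𝔑 (T2.frameOf130 Dt.R' hR)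
  have hW := T2.isWBasis_of_plus130 hcx h𝔑 Dt.R' hR Dt.o hB
  set C₀ : ι₀ → EigData K' := fun j => ⟨a j, b j, m j⟩ with hC₀
  have hSdvd : ∀ v : HeightOneSpectrum (𝓞 K'), v.asIdeal ∣ Dt.𝔑₀ → v ∈ Dt.S' :=
    fun v hv => (hDt.mem_S' v).2 hv
  -- the classes are finite
  have hfin : ∀ j₀ : ι₀, {j : ι₀ | (C₀ j).AgreeOut Dt.S' (C₀ j₀)}.Finite := fun j₀ =>
    (hCF hcx Dt.𝔑₀ h𝔑 _ ι₀ u m a b hB j₀).subset fun j hj w d hd => hj.2 w d hd
  -- the quotient
  let st : Setoid ι₀ :=
    ⟨fun j j' => (C₀ j).AgreeOut Dt.S' (C₀ j'),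
      ⟨fun j => agreeOut_refl144 _ _, agreeOut_symm144, agreeOut_trans144⟩⟩
  have hst : ∀ j j' : ι₀, st.r j j' ↔ (C₀ j).AgreeOut Dt.S' (C₀ j') := fun _ _ => Iff.rfl
  set J : Quotient st → Finset ι₀ := fun q => (hfin q.out).toFinset with hJ
  have hJmem : ∀ (q : Quotient st) (j : ι₀), j ∈ J q ↔ (C₀ j).AgreeOut Dt.S' (C₀ q.out) :=
    fun q j => (hfin q.out).mem_toFinset
  have hJmk : ∀ (q : Quotient st) (j : ι₀), j ∈ J q ↔ Quotient.mk st j = q := by
    intro q j
    rw [hJmem]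
    constructor
    · intro h
      have h1 : Quotient.mk st j = Quotient.mk st q.out := Quotient.sound h
      rw [h1, Quotient.out_eq]
    · intro h
      have h1 : Quotient.mk st j = Quotient.mk st q.out := by rw [h, Quotient.out_eq]
      exact Quotient.exact h1
  -- the bases of the classes
  have key := fun q : Quotient st =>
    hCB hES hIW hcx Dt.𝔑₀ h𝔑 Dt.R' hR ℓ Dt.o horb Dt.S' hDt.mem_S' ι₀ u C₀ hW q.out (J q)
      (hJmem q)
  choose n v hv using key
  refine ⟨Quotient st, n, fun q => C₀ q.out, v, ?_⟩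
  have hr := hR.ray
  refine
    { countable := ?_
      unitary := fun q => hW.unitary q.out Dt.S' hSdvd
      distinct := ?_
      basis := fun q => ⟨(hv q).1, (hv q).2.1, (hv q).2.2.1⟩
      orth := ?_
      complete := ?_
      cover := ?_ }
  · haveI := hW.countable
    exact (Quotient.mk_surjective (s := st)).countable
  · intro q q' h
    have h1 : Quotient.mk st q.out = Quotient.mk st q'.out := Quotient.sound h
    rwa [Quotient.out_eq, Quotient.out_eq] at h1
  · intro q q' x x' hqq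
    refine (hv q).2.2.2.1 x (v q' x') (isWFn_zero_of144 hr ((hv q').1 x').inv) ?_
    intro j hj
    rw [innerD_conj144]
    have h0 : T5.innerD Dt.R'.μ Dt.R'.F (v q' x') (u j) = 0 := by
      refine (hES hcx Dt.𝔑₀ h𝔑 Dt.R' hR Dt.o ι₀ u C₀ hW Dt.S' hSdvd (v q' x') (C₀ q'.out)
        (isEigFn_zero_of144 hr ((hv q').1 x'))).1 j ?_
      intro hag
      apply hqq
      have h1 : Quotient.mk st j = q := (hJmk q j).1 hj
      have h2 : Quotient.mk st j = q' := (hJmk q' j).1 ((hJmem q' j).2 (agreeOut_symm144 hag))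
      rw [← h1, h2]
    rw [h0, map_zero]
  · intro ψ hψ
    have hψ0 := isWFn_zero_of144 hr hψ
    have hpar := hW.parseval ψ hψ0
    set f : ι₀ → ℝ := fun j => ‖T5.innerD Dt.R'.μ Dt.R'.F ψ (u j)‖ ^ 2 with hf
    set N : ℝ := (T5.innerD Dt.R'.μ Dt.R'.F ψ ψ).re with hN
    set h : (Σ q : Quotient st, Fin (n q)) → ℝ :=
      fun p => ‖T5.innerD Dt.R'.μ Dt.R'.F ψ (v p.1 p.2)‖ ^ 2 with hh
    -- grouping by classes
    have hset : ∀ q : Quotient st, (Quotient.mk st ⁻¹' {q}) = ((J q : Finset ι₀) : Set ι₀) := by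
      intro q
      ext j
      simp only [Set.mem_preimage, Set.mem_singleton_iff, Finset.mem_coe]
      exact (hJmk q j).symm
    have hA : HasSum (fun q : Quotient st => ∑ j ∈ J q, f j) N := by
      have h1 := hpar.tsum_fiberwise (Quotient.mk st)
      have hfun : (fun q : Quotient st => ∑' b : ↥(Quotient.mk st ⁻¹' {q}), f b)
          = fun q : Quotient st => ∑ j ∈ J q, f j := by
        funext q
        rw [tsum_congr_set_coe f (hset q), Finset.tsum_subtype']
      rw [hfun] at h1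
      exact h1
    have hg : ∀ q : Quotient st, ∑ x : Fin (n q), h ⟨q, x⟩ = ∑ j ∈ J q, f j :=
      fun q => (hv q).2.2.2.2 ψ hψ
    have hA' : HasSum (fun q : Quotient st => ∑ x : Fin (n q), h ⟨q, x⟩) N := by
      have hfun : (fun q : Quotient st => ∑ x : Fin (n q), h ⟨q, x⟩)
          = fun q : Quotient st => ∑ j ∈ J q, f j := funext hg
      rw [hfun]
      exact hA
    have hfib : ∀ q : Quotient st,
        HasSum (fun x : Fin (n q) => h ⟨q, x⟩) (∑ x : Fin (n q), h ⟨q, x⟩) :=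
      fun q => hasSum_fintype _
    have hsum : Summable h := by
      refine (summable_sigma_of_nonneg (fun p => by positivity)).2
        ⟨fun q => (hfib q).summable, ?_⟩
      have hfun : (fun q : Quotient st => ∑' x : Fin (n q), h ⟨q, x⟩)
          = fun q : Quotient st => ∑ x : Fin (n q), h ⟨q, x⟩ :=
        funext fun q => tsum_fintype _
      rw [hfun]
      exact hA'.summable
    exact hA'.sigma_of_hasSum hfib hsum
  · intro ψ C' hψ hne0
    by_contra hcon
    push Not at hcon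
    obtain ⟨x, hx⟩ := hne0
    apply hx
    have h1 := (hES hcx Dt.𝔑₀ h𝔑 Dt.R' hR Dt.o ι₀ u C₀ hW Dt.S' hSdvd ψ C'
      (isEigFn_zero_of144 hr hψ)).2 ∅ (fun j hj => absurd ?_ (hcon (Quotient.mk st j))) x
    · rw [h1, Finset.sum_empty]
    · have h2 : st.r (Quotient.mk st j).out j := Quotient.exact (Quotient.out_eq _)
      exact agreeOut_trans144 hj (agreeOut_symm144 ((hst _ _).1 h2))

end Top

end Fermat.Agent.LT.T7.H144W

end

end
-- ===== PACK-END LT/T7/H144/WSpecTop.lean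

-- ===== PACK-BEGIN LT/T7/H130/ClassFin.lean
section



/-!
# Row LT, tower T7, leaf T7.L2.2.B1.W1 `ClassFinC144` (helper130, architect of T2)

OFF-MAIN.  PROVED, UNCONDITIONAL.  The Prop of helper144 (`T7/H144/WSpecCut.lean`, sha256
b4ddb868) VERBATIM.  It is `T2.finite_meanClass130` (`LT/T2/Admissible.lean`) for the members of
an `IsCuspBasisPlus`.
-/

set_option autoImplicit false

open IsDedekindDomain NumberField

namespace Fermat.Agent.LT.T7.H130

open Fermat.Agent.LT Fermat.Agent.LT.T7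

/-- **T7.L2.2.B1.W1** `ClassFinC144`, VERBATIM. -/
theorem classFinC130 (K : Type) [Field K] [NumberField K] : H144W.ClassFinC144 K := by
  intro hcx 𝔫 h𝔫 F ι u m a b hB j₀
  exact T2.finite_meanClass130 hcx h𝔫 hB.basis.cusp hB.basis.norm_one hB.basis.orth
    (fun j w => hB.basis.eig_complex j w (hcx w)) hB.eig_op j₀

end Fermat.Agent.LT.T7.H130

end
-- ===== PACK-END LT/T7/H130/ClassFin.lean

-- ===== PACK-BEGIN LT/T7/H312/EigSpan.lean
section





/-!
# Row LT, tower T7, leaf T7.L2.2.B1.W2 `EigSpanC144` (registry row 2449, helper312)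

OFF-MAIN.  ADDITIVE (new names only, all ending in `312`).  Statement VERBATIM:
`eigSpanC312 (K) : H144W.EigSpanC144 K` against `LT/T7/H144/WSpecCut.lean` of helper144
(sha256 b4ddb868).  UNCONDITIONAL.

(i) orthogonality of two joint eigenfunctions of the class of T2 whose data do not agree, the
second one with unitary data (`T2.ops_closed`: `S_v` unitary, `T_v* = S_v⁻¹ T_v`, the sphere
means are self-adjoint; Hecke coset systems, scalar uniformisers and sphere parametrisations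
exist);
(ii) `φ = ψ - ∑_{j ∈ J} ⟨ψ, u_j⟩ u_j` is a cusp function orthogonal to every `u_j`, so
`⟨φ, φ⟩ = 0` by Parseval and `φ = 0` (`T2.pairDefinite_closed`).

No equation lemma of a foreign definition is realised here (`show` instead of `unfold`).
-/

set_option autoImplicit false
set_option linter.unusedSectionVars false
set_option linter.unusedVariables false

open AutomorphicForm IsDedekindDomain NumberField MeasureTheory
open scoped ComplexConjugate

noncomputable section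

namespace Fermat.Agent.LT.T7.H312

open Fermat.Agent.LT.H556 Fermat.Agent.LT.H556.A0 Fermat.Agent.LT Fermat.Agent.LT.T7

attribute [local instance] Fermat.Agent.LT.T5.instMeasurableSpaceG

variable {K : Type} [Field K] [NumberField K]

/-- Sphere parametrisations exist at a complex place. -/
theorem exists_sphere312 (w : InfinitePlace K) (hw : w.IsComplex) (d : ℝ) :
    ∃ Y : ℝ → ℝ → G K, T2.IsSphereAt w d Y :=
  ⟨fun α β => T2.H841.iota841 w hw (T2.H841.sphM841 d α β), fun α β =>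
    ⟨T2.H841.isLocalAtInf_iota841 w hw _,
      T2.H841.infComp_iota841 w hw (T2.H841.det_sphM841_ne d α β)⟩⟩

/-- The pairing of a finite combination of cusp functions. -/
theorem pair_sum_left312 (F : T2.Frame K) {𝔫 : Ideal (𝓞 K)} {ι : Type} (J : Finset ι)
    (c : ι → ℂ) {f : ι → G K → ℂ} (hf : ∀ j, T2.IsCuspFn 𝔫 (f j)) {χ : G K → ℂ}
    (hχ : T2.IsCuspFn 𝔫 χ) :
    T2.pair F (fun g => ∑ j ∈ J, c j * f j g) χ = ∑ j ∈ J, c j * T2.pair F (f j) χ := by
  classical
  induction J using Finset.induction_on with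
  | empty =>
    have h0 : (fun g : G K => ∑ j ∈ (∅ : Finset ι), c j * f j g) = fun g => (0 : ℂ) * χ g := by
      funext g
      rw [Finset.sum_empty, zero_mul]
    rw [h0, T2.H886.pair_const_mul_left886, zero_mul, Finset.sum_empty]
  | insert a s ha ih =>
    have h1 : T2.IsCuspFn 𝔫 (fun g => c a * f a g) := T2.H886.isCuspFn_const_mul886 (c a) (hf a)
    have h2 : T2.IsCuspFn 𝔫 (fun g => ∑ j ∈ s, c j * f j g) :=
      T2.H886.isCuspFn_sum886 s fun j _ => T2.H886.isCuspFn_const_mul886 (c j) (hf j)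
    obtain ⟨C1, hC1⟩ := h1.bdd
    obtain ⟨C2, hC2⟩ := h2.bdd
    obtain ⟨C3, hC3⟩ := hχ.bdd
    have h0 : (fun g : G K => ∑ j ∈ insert a s, c j * f j g)
        = fun g => c a * f a g + ∑ j ∈ s, c j * f j g := by
      funext g
      rw [Finset.sum_insert ha]
    rw [h0, T2.H886.pair_add_left886 F h1.cont hC1 h2.cont hC2 hχ.cont hC3, ih,
      T2.H886.pair_const_mul_left886, Finset.sum_insert ha]

/-- **Orthogonality**: two joint eigenfunctions of the class of T2 whose data do not agree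
outside `S` (the second one with unitary data) are orthogonal. -/
theorem orth_of_not_agree312 (hcx : ∀ w : InfinitePlace K, w.IsComplex) {𝔫 : Ideal (𝓞 K)}
    (h𝔫 : 𝔫 ≠ ⊥) (R : Frame5 K) (hR : IsFrame5 R) (o : ℕ → HeightOneSpectrum (𝓞 K))
    {ψ φ : G K → ℂ} {C D : EigData K} (hψ : IsEigFn 𝔫 R.r 0 o ψ C)
    (hφ : IsEigFn 𝔫 R.r 0 o φ D) (S : Finset (HeightOneSpectrum (𝓞 K)))
    (hS : ∀ v : HeightOneSpectrum (𝓞 K), v.asIdeal ∣ 𝔫 → v ∈ S) (hD : D.IsUnitaryOut S)
    (hne : ¬ C.AgreeOut S D) : T5.innerD R.μ R.F ψ φ = 0 := by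
  have hψc : T2.IsCuspFn 𝔫 ψ := (T2.isWFn_zero_iff130 hR.ray o ψ).1 hψ.inv
  have hφc : T2.IsCuspFn 𝔫 φ := (T2.isWFn_zero_iff130 hR.ray o φ).1 hφ.inv
  obtain ⟨hO1, hO2, hO3, -⟩ := (T2.ops_closed K 𝔫 h𝔫).2 (T2.frameOf130 R hR)
  show T2.pair (T2.frameOf130 R hR) ψ φ = 0
  by_contra hp
  apply hne
  have hDu : (∀ w : HeightOneSpectrum (𝓞 K), w ∉ S →
      ‖D.b w‖ = 1 ∧ conj (D.a w) = D.a w * conj (D.b w) ∧
      ‖D.a w‖ * Real.sqrt (Ideal.absNorm w.asIdeal : ℝ) ≤ (Ideal.absNorm w.asIdeal : ℝ) + 1) ∧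
    ∀ (w : InfinitePlace K) (d : ℝ), 0 < d → (D.m w d).im = 0 ∧ ‖D.m w d‖ ≤ 4 * Real.pi := hD
  show (∀ w : HeightOneSpectrum (𝓞 K), w ∉ S → C.a w = D.a w ∧ C.b w = D.b w) ∧
    ∀ (w : InfinitePlace K) (d : ℝ), 0 < d → C.m w d = D.m w d
  refine ⟨fun v hvS => ?_, fun w d hd => ?_⟩
  · have hv : ¬ v.asIdeal ∣ 𝔫 := fun h => hvS (hS v h)
    obtain ⟨hb1, ha1, -⟩ := hDu.1 v hvS
    obtain ⟨z, hz⟩ := H129.exists_scalarUniformizer129 v
    obtain ⟨H, hH⟩ := H129.exists_heckeCosetSystem129 v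
    have hψe : (∀ H : Finset (G K), IsHeckeCosetSystem v H →
        ∀ g : G K, ∑ h ∈ H, ψ (g * h)
          = ((Real.sqrt (Ideal.absNorm v.asIdeal : ℝ) : ℝ) : ℂ) * C.a v * ψ g) ∧
        ∀ z : G K, IsScalarUniformizerAt v z → ∀ g : G K, ψ (g * z) = C.b v * ψ g :=
      hψ.hecke v hv
    have hφe : (∀ H : Finset (G K), IsHeckeCosetSystem v H →
        ∀ g : G K, ∑ h ∈ H, φ (g * h)
          = ((Real.sqrt (Ideal.absNorm v.asIdeal : ℝ) : ℝ) : ℂ) * D.a v * φ g) ∧
        ∀ z : G K, IsScalarUniformizerAt v z → ∀ g : G K, φ (g * z) = D.b v * φ g :=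
      hφ.hecke v hv
    -- `|b'| = 1`
    have hbb : D.b v * conj (D.b v) = 1 := by
      rw [Complex.mul_conj, Complex.normSq_eq_norm_sq, hb1]
      norm_num
    have hb0 : D.b v ≠ 0 := by
      intro h0
      rw [h0, zero_mul] at hbb
      exact zero_ne_one hbb
    have hcb0 : conj (D.b v) ≠ 0 := by
      intro h0
      rw [h0, mul_zero] at hbb
      exact zero_ne_one hbb
    -- the eigenvalue of `S_v`
    have hb : C.b v = D.b v := by
      have h1 := hO1 v hv z hz ψ φ hψc hφc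
      have e1 : T2.shift z ψ = fun g => C.b v * ψ g := funext fun g => hψe.2 z hz g
      have e2 : T2.shift z φ = fun g => D.b v * φ g := funext fun g => hφe.2 z hz g
      rw [e1, e2, T2.H886.pair_const_mul_left886, T2.H886.pair_const_mul_right886] at h1
      have h2 : (C.b v * conj (D.b v) - 1) * T2.pair (T2.frameOf130 R hR) ψ φ = 0 := by
        rw [sub_mul, one_mul, mul_assoc, h1, sub_self]
      have h3 : C.b v * conj (D.b v) = 1 :=
        sub_eq_zero.1 ((mul_eq_zero.1 h2).resolve_right hp)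
      exact mul_right_cancel₀ hcb0 (h3.trans hbb.symm)
    refine ⟨?_, hb⟩
    -- the eigenvalue of `T_v`
    have h1 := hO2 v hv H z hH hz ψ φ hψc hφc
    have e1 : T2.heckeSum H ψ
        = fun g => (((Real.sqrt (Ideal.absNorm v.asIdeal : ℝ) : ℝ) : ℂ) * C.a v) * ψ g :=
      funext fun g => hψe.1 H hH g
    have e3 : ∀ g : G K, φ (g * z⁻¹) = (D.b v)⁻¹ * φ g := by
      intro g
      have h := hφe.2 z hz (g * z⁻¹)
      rw [inv_mul_cancel_right] at h
      rw [h, ← mul_assoc, inv_mul_cancel₀ hb0, one_mul]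
    have e2 : T2.shift z⁻¹ (T2.heckeSum H φ)
        = fun g => (((Real.sqrt (Ideal.absNorm v.asIdeal : ℝ) : ℝ) : ℂ) * D.a v * (D.b v)⁻¹)
            * φ g := by
      funext g
      show ∑ h ∈ H, φ (g * z⁻¹ * h) = _
      rw [hφe.1 H hH (g * z⁻¹), e3 g]
      ring
    rw [e1, e2, T2.H886.pair_const_mul_left886, T2.H886.pair_const_mul_right886] at h1
    have hq : (((Real.sqrt (Ideal.absNorm v.asIdeal : ℝ) : ℝ) : ℂ)) ≠ 0 := by
      rw [Complex.ofReal_ne_zero]
      apply ne_of_gt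
      apply Real.sqrt_pos.2
      have hpos : 0 < Ideal.absNorm v.asIdeal :=
        lt_trans Nat.zero_lt_one (NumberField.HeightOneSpectrum.one_lt_absNorm v)
      exact_mod_cast hpos
    have h4 : conj ((((Real.sqrt (Ideal.absNorm v.asIdeal : ℝ) : ℝ) : ℂ)) * D.a v * (D.b v)⁻¹)
        = (((Real.sqrt (Ideal.absNorm v.asIdeal : ℝ) : ℝ) : ℂ)) * D.a v := by
      rw [map_mul, map_mul, Complex.conj_ofReal, ha1, map_inv₀, mul_assoc, mul_assoc,
        mul_inv_cancel₀ hcb0, mul_one]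
    rw [h4] at h1
    have h5 := mul_right_cancel₀ hp h1
    exact mul_left_cancel₀ hq h5
  · obtain ⟨hm1, -⟩ := hDu.2 w d hd
    obtain ⟨Y, hY⟩ := exists_sphere312 w (hcx w) d
    have h1 := hO3 w (hcx w) d hd Y hY ψ φ hψc hφc
    have e1 : T2.sphereMean Y ψ = fun g => C.m w d * ψ g :=
      funext fun g => hψ.mean w d hd Y hY g
    have e2 : T2.sphereMean Y φ = fun g => D.m w d * φ g :=
      funext fun g => hφ.mean w d hd Y hY g
    rw [e1, e2, T2.H886.pair_const_mul_left886, T2.H886.pair_const_mul_right886,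
      Complex.conj_eq_iff_im.2 hm1] at h1
    exact mul_right_cancel₀ hp h1

/-- **T7.L2.2.B1.W2 `EigSpanC144`.** -/
theorem eigSpanC312 (K : Type) [Field K] [NumberField K] : H144W.EigSpanC144 K := by
  classical
  intro hcx 𝔫 h𝔫 R hR o ι u C₀ hB S hS ψ C hψ
  have hψc : T2.IsCuspFn 𝔫 ψ := (T2.isWFn_zero_iff130 hR.ray o ψ).1 hψ.inv
  have huc : ∀ j, T2.IsCuspFn 𝔫 (u j) :=
    fun j => (T2.isWFn_zero_iff130 hR.ray o (u j)).1 (hB.eig j).inv
  have hI : ∀ j : ι, ¬ C.AgreeOut S (C₀ j) → T5.innerD R.μ R.F ψ (u j) = 0 :=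
    fun j hj => orth_of_not_agree312 hcx h𝔫 R hR o hψ (hB.eig j) S hS (hB.unitary j S hS) hj
  refine ⟨hI, fun J hJ x => ?_⟩
  set c : ι → ℂ := fun j => T5.innerD R.μ R.F ψ (u j) with hc
  have hsum : T2.IsCuspFn 𝔫 (fun g => ∑ j ∈ J, c j * u j g) :=
    T2.H886.isCuspFn_sum886 J fun j _ => T2.H886.isCuspFn_const_mul886 (c j) (huc j)
  have hφc : T2.IsCuspFn 𝔫 (fun g => ψ g - ∑ j ∈ J, c j * u j g) :=
    T2.H886.isCuspFn_sub886 hψc hsum
  -- `φ` is orthogonal to every member of the basis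
  have horth : ∀ i : ι,
      T5.innerD R.μ R.F (fun g => ψ g - ∑ j ∈ J, c j * u j g) (u i) = 0 := by
    intro i
    show T2.pair (T2.frameOf130 R hR) (fun g => ψ g - ∑ j ∈ J, c j * u j g) (u i) = 0
    obtain ⟨C1, hC1⟩ := hψc.bdd
    obtain ⟨C2, hC2⟩ := hsum.bdd
    obtain ⟨C3, hC3⟩ := (huc i).bdd
    rw [T2.H886.pair_sub_left886 (T2.frameOf130 R hR) hψc.cont hC1 hsum.cont hC2
      (huc i).cont hC3, pair_sum_left312 (T2.frameOf130 R hR) J c huc (huc i)]
    have h1 : ∀ j ∈ J, c j * T2.pair (T2.frameOf130 R hR) (u j) (u i)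
        = if j = i then c j else 0 := by
      intro j _
      by_cases hji : j = i
      · rw [if_pos hji, hji]
        have h2 : T2.pair (T2.frameOf130 R hR) (u i) (u i) = 1 := hB.norm_one i
        rw [h2, mul_one]
      · rw [if_neg hji]
        have h2 : T2.pair (T2.frameOf130 R hR) (u j) (u i) = 0 := hB.orth j i hji
        rw [h2, mul_zero]
    rw [Finset.sum_congr rfl h1, Finset.sum_ite_eq' J i c]
    by_cases hi : i ∈ J
    · rw [if_pos hi]
      exact sub_self _
    · rw [if_neg hi, sub_zero]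
      exact hI i fun h => hi (hJ i h)
  -- Parseval
  have hW : IsWFn 𝔫 R.r 0 o (fun g => ψ g - ∑ j ∈ J, c j * u j g) :=
    (T2.isWFn_zero_iff130 hR.ray o _).2 hφc
  have hP := hB.parseval _ hW
  have hz : (fun j => ‖T5.innerD R.μ R.F (fun g => ψ g - ∑ j ∈ J, c j * u j g) (u j)‖ ^ 2)
      = fun _ => (0 : ℝ) := by
    funext j
    rw [horth j, norm_zero]
    norm_num
  rw [hz] at hP
  have hre : (T5.innerD R.μ R.F (fun g => ψ g - ∑ j ∈ J, c j * u j g)
      (fun g => ψ g - ∑ j ∈ J, c j * u j g)).re = 0 := hP.unique hasSum_zero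
  have hnsq : T2.nsq (T2.frameOf130 R hR) (fun g => ψ g - ∑ j ∈ J, c j * u j g) = 0 := hre
  have hpair : T2.pair (T2.frameOf130 R hR) (fun g => ψ g - ∑ j ∈ J, c j * u j g)
      (fun g => ψ g - ∑ j ∈ J, c j * u j g) = 0 := by
    rw [T2.H886.pair_self_eq_nsq886, hnsq, Complex.ofReal_zero]
  have h0 := (T2.pairDefinite_closed K 𝔫 h𝔫 (T2.frameOf130 R hR) _ hφc).2 hpair x
  exact sub_eq_zero.1 h0

end Fermat.Agent.LT.T7.H312

end
end
-- ===== PACK-END LT/T7/H312/EigSpan.lean

-- ===== PACK-BEGIN LT/T7/H44/IwTransl.lean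
section








/-!
# Row LT, tower T7, leaf T7.L2.2.B1 / W3 = `IwTranslC144` (helper44): CLOSED

OFF-MAIN.  ADDITIVE (new names only, all ending in `44`).

    iwTranslC44 (K) : T7.H144W.IwTranslC144 K

VERBATIM against `T7/H144/WSpecCut.lean` (helper144@ab01b0acf, sha256 b4ddb868).  Assembly of
closed leaves: `translEigC281` (helper281: a good translation preserves the eigenfunctions),
`hGroupC543` (helper543: the Iwahori elements form a group which normalises `U(𝔫)`),
`translInvC453` (helper453: the integral over the fundamental domain is invariant under right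
translations), `T1.t1Out` (the adelic norm).
-/

set_option autoImplicit false

open AutomorphicForm IsDedekindDomain NumberField MeasureTheory
open scoped ComplexConjugate

noncomputable section

namespace Fermat.Agent.LT.T7.H44

open Fermat.Agent.LT.H556 Fermat.Agent.LT.H556.A0 Fermat.Agent.LT Fermat.Agent.LT.T7

attribute [local instance] Fermat.Agent.LT.T5.instMeasurableSpaceG

variable {K : Type} [Field K] [NumberField K]

/-- An element which is trivial at every place is `1`. -/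
theorem eq_one_of_triv44 {h : G K} (hI : ∀ w : InfinitePlace K, TrivAtInf w h)
    (hF : ∀ v : HeightOneSpectrum (𝓞 K), TrivAtFin v h) : h = 1 := by
  apply Units.ext
  rw [Units.val_one]
  apply T2.H333.adeleMatrix_ext333
  · intro w
    rw [(T2.H333.trivAtInf_iff333 w h).1 (hI w), Matrix.map_one _ (map_zero _) (map_one _)]
  · intro v
    rw [(T2.H333.trivAtFin_iff333 v h).1 (hF v), Matrix.map_one _ (map_zero _) (map_one _)]

/-- **LEAF W3 = IW-TRANSL, closed.** -/
theorem iwTranslC44 (K : Type) [Field K] [NumberField K] : H144W.IwTranslC144 K := by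
  classical
  intro 𝔫 _ R hR l o ho i hi1 hi2 hi3
  have hiw : H193.IsIwElt l o i := ⟨hi1, hi2, hi3⟩
  obtain ⟨-, hinv, -, -, -, -, hnorm⟩ := H543.hGroupC543 K 𝔫 l o
  have hiw' : H193.IsIwElt l o i⁻¹ := hinv i hiw
  refine ⟨?_, ?_, hiw'.1, hiw'.2.1, hiw'.2.2⟩
  · -- the eigenfunctions
    intro ψ C hψ
    have hgood : ∀ t ∈ ({i} : Finset (G K)), H281.IsGoodTransl281 𝔫 t := by
      intro t ht
      rw [Finset.mem_singleton] at ht
      subst ht
      refine ⟨hi1, fun v hv => ?_⟩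
      have hne : ∀ j < l, v ≠ o j := fun j hj h => hv (h ▸ ho j hj)
      exact ⟨H543.isIntegralAt_of_triv543 (hi2 v hne),
        H543.isIntegralAt_of_triv543 (hiw'.2.1 v hne)⟩
    have e : H281.translOp281 {i} 1 ψ = fun x => ψ (x * i) := by
      funext x
      show (1 : ℂ) * ∑ t ∈ ({i} : Finset (G K)), ψ (x * t) = ψ (x * i)
      rw [Finset.sum_singleton, one_mul]
    have h := H281.translEigC281 K 𝔫 R.r 0 o hR.ray {i} 1 hgood ψ C hψ ?_ ?_
    · rw [e] at h
      exact h
    · -- right invariance under the level group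
      rw [e]
      intro u hu x
      show ψ (x * u * i) = ψ (x * i)
      have h1 : x * u * i = x * i * (i⁻¹ * u * i) := by group
      rw [h1]
      exact hψ.inv.cusp.aut.level_inv _ (hnorm i u hiw hu) _
    · -- no Iwahori condition
      intro h hh1 hh2 _ x
      have : h = 1 := eq_one_of_triv44 hh1 fun v => hh2 v fun j hj => absurd hj (Nat.not_lt_zero j)
      rw [this, mul_one]
  · -- the inner product
    intro ψ χ hψ hχ
    have h := H453.translInvC453 K (T1.t1Out K).adNorm R hR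
      (fun x => ψ x * conj (χ x))
      (fun γ x => by
        show ψ (T5.ratG γ * x) * conj (χ (T5.ratG γ * x)) = ψ x * conj (χ x)
        rw [hψ.cusp.aut.left_inv γ x, hχ.cusp.aut.left_inv γ x])
      (fun x => by
        show ψ (x * R.r) * conj (χ (x * R.r)) = ψ x * conj (χ x)
        rw [hψ.cusp.aut.ray x, hχ.cusp.aut.ray x]) i
    exact h

end Fermat.Agent.LT.T7.H44

end
end
-- ===== PACK-END LT/T7/H44/IwTransl.lean

-- ===== PACK-BEGIN LT/T7/H618/ClassBasis.lean
section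





/-!
# Row LT, tower T7, leaf T7.L2.2.B1.W4 `ClassBasisC144` (helper618, registry row 2451)

OFF-MAIN, never land.  Imports: the byte-identical spec closure of `LT/T7/H144/WSpecCut.lean`
(helper144@ab01b0acf) and the closed assets of T2 (`H886/CuspAlg`, `H546/MeanLin`,
`H472/LocContLeaf`).

`classBasisC618 (K) : H144W.ClassBasisC144 K`, VERBATIM.

The class `J` of `j₀` is finite, `T c = ∑_{j ∈ J} c_j u_j` (`c ∈ EuclideanSpace ℂ J`),
`⟨T c, T d⟩ = ⟪d, c⟫`; `U = {c : T c Iwahori invariant}`, `v` = the image of the standard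
orthonormal basis of `U`.  The projection `E ψ = ∑_{j ∈ J} ⟨ψ, u_j⟩ u_j` of an Iwahori invariant
`ψ` is Iwahori invariant (W2 + W3), which gives the Parseval identity of the class.
-/

set_option autoImplicit false
set_option linter.unusedSectionVars false
set_option linter.unusedVariables false
set_option linter.style.haveILetI false

open AutomorphicForm IsDedekindDomain NumberField MeasureTheory
open scoped ComplexConjugate

noncomputable section

namespace Fermat.Agent.LT.T7.H618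

open Fermat.Agent.LT.H556 Fermat.Agent.LT.H556.A0 Fermat.Agent.LT Fermat.Agent.LT.T7

attribute [local instance] Fermat.Agent.LT.T5.instMeasurableSpaceG

variable {K : Type} [Field K] [NumberField K]

/-! ## 1. Eigen-data -/

theorem agreeOut_symm618 {S : Finset (HeightOneSpectrum (𝓞 K))} {C C' : EigData K}
    (h : C.AgreeOut S C') : C'.AgreeOut S C :=
  ⟨fun w hw => ⟨((h.1 w hw).1).symm, ((h.1 w hw).2).symm⟩, fun w d hd => (h.2 w d hd).symm⟩

theorem agreeOut_trans618 {S : Finset (HeightOneSpectrum (𝓞 K))} {C C' C'' : EigData K}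
    (h : C.AgreeOut S C') (h' : C'.AgreeOut S C'') : C.AgreeOut S C'' :=
  ⟨fun w hw => ⟨((h.1 w hw).1).trans (h'.1 w hw).1, ((h.1 w hw).2).trans (h'.1 w hw).2⟩,
    fun w d hd => (h.2 w d hd).trans (h'.2 w d hd)⟩

/-- An eigenfunction for `C` is an eigenfunction for every `C'` which agrees with `C` outside the
divisors of the level. -/
theorem isEigFn_of_agree618 {𝔫 : Ideal (𝓞 K)} {r : G K} {l : ℕ}
    {o : ℕ → HeightOneSpectrum (𝓞 K)} {ψ : G K → ℂ} {C C' : EigData K}
    {S : Finset (HeightOneSpectrum (𝓞 K))}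
    (hS : ∀ v : HeightOneSpectrum (𝓞 K), v ∈ S ↔ v.asIdeal ∣ 𝔫)
    (h : IsEigFn 𝔫 r l o ψ C) (hA : C.AgreeOut S C') : IsEigFn 𝔫 r l o ψ C' where
  inv := h.inv
  hecke := fun v hv => by
    have hvS : v ∉ S := fun hm => hv ((hS v).1 hm)
    obtain ⟨ha, hb⟩ := hA.1 v hvS
    rw [← ha, ← hb]
    exact h.hecke v hv
  mean := fun w d hd Y hY g => by
    rw [← hA.2 w d hd]
    exact h.mean w d hd Y hY g

/-! ## 2. The Iwahori condition -/

theorem isIwInv_zero618 (o : ℕ → HeightOneSpectrum (𝓞 K)) (ψ : G K → ℂ) : IsIwInv 0 o ψ := by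
  intro h hI hF _ x
  have hx : h = 1 :=
    T2.eq_one_of_triv130 hI (fun v => hF v (fun j hj => absurd hj (Nat.not_lt_zero j)))
  rw [hx, mul_one]

theorem isWFn_zero_of618 {𝔫 : Ideal (𝓞 K)} {r : G K} {l : ℕ}
    {o : ℕ → HeightOneSpectrum (𝓞 K)} {ψ : G K → ℂ} (h : IsWFn 𝔫 r l o ψ) :
    IsWFn 𝔫 r 0 o ψ :=
  ⟨h.cusp, h.arch_scalar, isIwInv_zero618 o ψ⟩

theorem isEigFn_zero_of618 {𝔫 : Ideal (𝓞 K)} {r : G K} {l : ℕ}
    {o : ℕ → HeightOneSpectrum (𝓞 K)} {ψ : G K → ℂ} {C : EigData K}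
    (h : IsEigFn 𝔫 r l o ψ C) : IsEigFn 𝔫 r 0 o ψ C :=
  ⟨isWFn_zero_of618 h.inv, h.hecke, h.mean⟩

theorem isEigFn_of_zero618 {𝔫 : Ideal (𝓞 K)} {r : G K} {l : ℕ}
    {o : ℕ → HeightOneSpectrum (𝓞 K)} {ψ : G K → ℂ} {C : EigData K}
    (h : IsEigFn 𝔫 r 0 o ψ C) (hi : IsIwInv l o ψ) : IsEigFn 𝔫 r l o ψ C :=
  ⟨⟨h.inv.cusp, h.inv.arch_scalar, hi⟩, h.hecke, h.mean⟩

/-! ## 3. Linear combinations of eigenfunctions -/

theorem isWFn_zero_add_mul618 {𝔫 : Ideal (𝓞 K)} {r : G K} (hr : T5.IsRayGen r)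
    (o : ℕ → HeightOneSpectrum (𝓞 K)) {φ ψ : G K → ℂ} (c : ℂ)
    (hφ : IsWFn 𝔫 r 0 o φ) (hψ : IsWFn 𝔫 r 0 o ψ) :
    IsWFn 𝔫 r 0 o (fun g => φ g + c * ψ g) :=
  (T2.isWFn_zero_iff130 hr o _).2
    (T2.H886.isCuspFn_add_const_mul886 c ((T2.isWFn_zero_iff130 hr o _).1 hφ)
      ((T2.isWFn_zero_iff130 hr o _).1 hψ))

theorem isHeckeEigenAt_add_mul618 {φ ψ : G K → ℂ} {v : HeightOneSpectrum (𝓞 K)} {a b : ℂ}
    (c : ℂ) (hφ : IsHeckeEigenAt φ v a b) (hψ : IsHeckeEigenAt ψ v a b) :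
    IsHeckeEigenAt (fun g => φ g + c * ψ g) v a b := by
  refine ⟨fun H hH g => ?_, fun z hz g => ?_⟩
  · have h1 := hφ.1 H hH g
    have h2 := hψ.1 H hH g
    simp only [Finset.sum_add_distrib, ← Finset.mul_sum]
    rw [h1, h2]
    ring
  · have h1 := hφ.2 z hz g
    have h2 := hψ.2 z hz g
    simp only
    rw [h1, h2]
    ring

theorem meanEig_add_mul618 {φ ψ : G K → ℂ} {w : InfinitePlace K} {m : ℝ → ℂ} (c : ℂ)
    (hφc : Continuous φ) (hψc : Continuous ψ)
    (hφ : MeanEig φ w m) (hψ : MeanEig ψ w m) :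
    MeanEig (fun g => φ g + c * ψ g) w m := by
  intro d hd Y hY g
  have hYc : Continuous fun p : ℝ × ℝ => Y p.1 p.2 :=
    T2.H546.continuous_sphere_h546 (T2.H472.subLocCont472 K) (w := w) (d := d) hY
  have h1 : T2.sphereMean Y φ g = m d * φ g := hφ d hd Y hY g
  have h2 : T2.sphereMean Y ψ g = m d * ψ g := hψ d hd Y hY g
  have h3 := congrFun (T2.H546.sphereMean_lin_h546 hYc hφc hψc c) g
  show T2.sphereMean Y (fun g => φ g + c * ψ g) g = m d * (φ g + c * ψ g)
  rw [h3, h1, h2]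
  ring

theorem isEigFn_zero_add_mul618 {𝔫 : Ideal (𝓞 K)} {r : G K} (hr : T5.IsRayGen r)
    (o : ℕ → HeightOneSpectrum (𝓞 K)) {φ ψ : G K → ℂ} {C : EigData K} (c : ℂ)
    (hφ : IsEigFn 𝔫 r 0 o φ C) (hψ : IsEigFn 𝔫 r 0 o ψ C) :
    IsEigFn 𝔫 r 0 o (fun g => φ g + c * ψ g) C where
  inv := isWFn_zero_add_mul618 hr o c hφ.inv hψ.inv
  hecke := fun v hv => isHeckeEigenAt_add_mul618 c (hφ.hecke v hv) (hψ.hecke v hv)
  mean := fun w => meanEig_add_mul618 c hφ.inv.cusp.cont hψ.inv.cusp.cont (hφ.mean w) (hψ.mean w)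

theorem isEigFn_zero_zero618 {𝔫 : Ideal (𝓞 K)} {r : G K} (hr : T5.IsRayGen r)
    (o : ℕ → HeightOneSpectrum (𝓞 K)) (C : EigData K) :
    IsEigFn 𝔫 r 0 o (fun _ => (0 : ℂ)) C where
  inv := (T2.isWFn_zero_iff130 hr o _).2 (T2.H886.isCuspFn_zero886 𝔫)
  hecke := fun v hv => ⟨fun H hH g => by simp, fun z hz g => by simp⟩
  mean := fun w d hd Y hY g => by simp

theorem isEigFn_zero_sum618 {𝔫 : Ideal (𝓞 K)} {r : G K} (hr : T5.IsRayGen r)
    (o : ℕ → HeightOneSpectrum (𝓞 K)) {C : EigData K} {ι : Type} (s : Finset ι)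
    (φ : ι → G K → ℂ) (c : ι → ℂ) (h : ∀ j ∈ s, IsEigFn 𝔫 r 0 o (φ j) C) :
    IsEigFn 𝔫 r 0 o (fun g => ∑ j ∈ s, c j * φ j g) C := by
  classical
  induction s using Finset.induction_on with
  | empty => simpa using isEigFn_zero_zero618 (𝔫 := 𝔫) hr o C
  | insert a s ha ih =>
    have h1 := h a (Finset.mem_insert_self a s)
    have h2 := ih fun j hj => h j (Finset.mem_insert_of_mem hj)
    have h3 := isEigFn_zero_add_mul618 hr o (c a) h2 h1
    have e : (fun g => ∑ j ∈ insert a s, c j * φ j g)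
        = fun g => (∑ j ∈ s, c j * φ j g) + c a * φ a g := by
      funext g
      rw [Finset.sum_insert ha, add_comm]
    rw [e]
    exact h3

/-! ## 4. The pairing on finite combinations -/

section Pairing

variable {𝔫 : Ideal (𝓞 K)} {R : Frame5 K} {o : ℕ → HeightOneSpectrum (𝓞 K)}

theorem innerD_conj618 (hR : IsFrame5 R) (φ ψ : G K → ℂ) :
    conj (T5.innerD R.μ R.F φ ψ) = T5.innerD R.μ R.F ψ φ :=
  T2.H886.pair_conj_symm886 (T2.frameOf130 R hR) φ ψ

theorem innerD_add_mul_left618 (hR : IsFrame5 R) {φ ψ χ : G K → ℂ} (c : ℂ)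
    (hφ : IsWFn 𝔫 R.r 0 o φ) (hψ : IsWFn 𝔫 R.r 0 o ψ) (hχ : IsWFn 𝔫 R.r 0 o χ) :
    T5.innerD R.μ R.F (fun g => φ g + c * ψ g) χ
      = T5.innerD R.μ R.F φ χ + c * T5.innerD R.μ R.F ψ χ := by
  obtain ⟨C1, hC1⟩ := hφ.cusp.bdd
  obtain ⟨C2, hC2⟩ := hψ.cusp.bdd
  obtain ⟨C3, hC3⟩ := hχ.cusp.bdd
  have hcψc : Continuous fun g => c * ψ g := continuous_const.mul hψ.cusp.cont
  have hcψb : ∀ g, ‖c * ψ g‖ ≤ ‖c‖ * C2 := fun g => by
    rw [norm_mul]
    exact mul_le_mul_of_nonneg_left (hC2 g) (norm_nonneg c)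
  have h1 := T2.H886.pair_add_left886 (T2.frameOf130 R hR) hφ.cusp.cont hC1 hcψc hcψb
    hχ.cusp.cont hC3
  have h2 := T2.H886.pair_const_mul_left886 (T2.frameOf130 R hR) c ψ χ
  rw [h2] at h1
  exact h1

theorem isWFn_zero_sum618 (hR : IsFrame5 R) {ι : Type} (s : Finset ι)
    (φ : ι → G K → ℂ) (c : ι → ℂ) (h : ∀ j ∈ s, IsWFn 𝔫 R.r 0 o (φ j)) :
    IsWFn 𝔫 R.r 0 o (fun g => ∑ j ∈ s, c j * φ j g) := by
  classical
  induction s using Finset.induction_on with
  | empty =>
    simpa using (T2.isWFn_zero_iff130 hR.ray o _).2 (T2.H886.isCuspFn_zero886 𝔫)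
  | insert a s ha ih =>
    have h1 := h a (Finset.mem_insert_self a s)
    have h2 := ih fun j hj => h j (Finset.mem_insert_of_mem hj)
    have h3 := isWFn_zero_add_mul618 hR.ray o (c a) h2 h1
    have e : (fun g => ∑ j ∈ insert a s, c j * φ j g)
        = fun g => (∑ j ∈ s, c j * φ j g) + c a * φ a g := by
      funext g
      rw [Finset.sum_insert ha, add_comm]
    rw [e]
    exact h3

theorem innerD_zero_left618 (μ : Measure (G K)) (F : Set (G K)) (χ : G K → ℂ) :
    T5.innerD μ F (fun _ => (0 : ℂ)) χ = 0 := by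
  show ∫ x in F, (0 : ℂ) * conj (χ x) ∂μ = 0
  simp

theorem innerD_sum_left618 (hR : IsFrame5 R) {ι : Type} (s : Finset ι)
    (φ : ι → G K → ℂ) (c : ι → ℂ) (h : ∀ j ∈ s, IsWFn 𝔫 R.r 0 o (φ j)) {χ : G K → ℂ}
    (hχ : IsWFn 𝔫 R.r 0 o χ) :
    T5.innerD R.μ R.F (fun g => ∑ j ∈ s, c j * φ j g) χ
      = ∑ j ∈ s, c j * T5.innerD R.μ R.F (φ j) χ := by
  classical
  induction s using Finset.induction_on with
  | empty =>
    simp only [Finset.sum_empty]
    exact innerD_zero_left618 R.μ R.F χ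
  | insert a s ha ih =>
    have h1 := h a (Finset.mem_insert_self a s)
    have h2 : ∀ j ∈ s, IsWFn 𝔫 R.r 0 o (φ j) := fun j hj => h j (Finset.mem_insert_of_mem hj)
    have e : (fun g => ∑ j ∈ insert a s, c j * φ j g)
        = fun g => (∑ j ∈ s, c j * φ j g) + c a * φ a g := by
      funext g
      rw [Finset.sum_insert ha, add_comm]
    rw [e, innerD_add_mul_left618 hR (c a) (isWFn_zero_sum618 hR s φ c h2) h1 hχ, ih h2,
      Finset.sum_insert ha, add_comm]

theorem innerD_sum_right618 (hR : IsFrame5 R) {ι : Type} (s : Finset ι)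
    (φ : ι → G K → ℂ) (c : ι → ℂ) (h : ∀ j ∈ s, IsWFn 𝔫 R.r 0 o (φ j)) {χ : G K → ℂ}
    (hχ : IsWFn 𝔫 R.r 0 o χ) :
    T5.innerD R.μ R.F χ (fun g => ∑ j ∈ s, c j * φ j g)
      = ∑ j ∈ s, conj (c j) * T5.innerD R.μ R.F χ (φ j) := by
  rw [← innerD_conj618 hR, innerD_sum_left618 hR s φ c h hχ, map_sum]
  refine Finset.sum_congr rfl fun j _ => ?_
  rw [map_mul, innerD_conj618 hR]

end Pairing

/-! ## 5. The combinations of the class -/

section Class

variable {𝔫 : Ideal (𝓞 K)} {R : Frame5 K} {o : ℕ → HeightOneSpectrum (𝓞 K)} {ι : Type}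

theorem agreeOut_refl618 (S : Finset (HeightOneSpectrum (𝓞 K))) (C : EigData K) :
    C.AgreeOut S C :=
  ⟨fun _ _ => ⟨rfl, rfl⟩, fun _ _ _ => rfl⟩

/-- The combination `∑_{j ∈ J} c_j u_j`. -/
def comb618 (J : Finset ι) (u : ι → G K → ℂ) (c : {j // j ∈ J} → ℂ) : G K → ℂ :=
  fun g => ∑ j : {j // j ∈ J}, c j * u j.1 g

theorem comb_eq_sum618 (J : Finset ι) (u : ι → G K → ℂ) (c : ι → ℂ) (g : G K) :
    ∑ j ∈ J, c j * u j g = comb618 J u (fun j => c j.1) g := by
  unfold comb618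
  exact (Finset.sum_coe_sort J (fun j => c j * u j g)).symm

theorem isWFn_comb618 (hR : IsFrame5 R) (J : Finset ι) (u : ι → G K → ℂ)
    (huW : ∀ j ∈ J, IsWFn 𝔫 R.r 0 o (u j)) (c : {j // j ∈ J} → ℂ) :
    IsWFn 𝔫 R.r 0 o (comb618 J u c) :=
  isWFn_zero_sum618 hR Finset.univ (fun j : {j // j ∈ J} => u j.1) c (fun j _ => huW j.1 j.2)

theorem isEigFn_comb618 (hR : IsFrame5 R) (J : Finset ι) (u : ι → G K → ℂ) {C : EigData K}
    (huE : ∀ j ∈ J, IsEigFn 𝔫 R.r 0 o (u j) C) (c : {j // j ∈ J} → ℂ) :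
    IsEigFn 𝔫 R.r 0 o (comb618 J u c) C :=
  isEigFn_zero_sum618 hR.ray o Finset.univ (fun j : {j // j ∈ J} => u j.1) c
    (fun j _ => huE j.1 j.2)

theorem innerD_comb_left618 (hR : IsFrame5 R) (J : Finset ι) (u : ι → G K → ℂ)
    (huW : ∀ j ∈ J, IsWFn 𝔫 R.r 0 o (u j)) (c : {j // j ∈ J} → ℂ) {χ : G K → ℂ}
    (hχ : IsWFn 𝔫 R.r 0 o χ) :
    T5.innerD R.μ R.F (comb618 J u c) χ
      = ∑ j : {j // j ∈ J}, c j * T5.innerD R.μ R.F (u j.1) χ :=
  innerD_sum_left618 hR Finset.univ (fun j : {j // j ∈ J} => u j.1) c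
    (fun j _ => huW j.1 j.2) hχ

theorem innerD_comb_right618 (hR : IsFrame5 R) (J : Finset ι) (u : ι → G K → ℂ)
    (huW : ∀ j ∈ J, IsWFn 𝔫 R.r 0 o (u j)) (c : {j // j ∈ J} → ℂ) {χ : G K → ℂ}
    (hχ : IsWFn 𝔫 R.r 0 o χ) :
    T5.innerD R.μ R.F χ (comb618 J u c)
      = ∑ j : {j // j ∈ J}, conj (c j) * T5.innerD R.μ R.F χ (u j.1) :=
  innerD_sum_right618 hR Finset.univ (fun j : {j // j ∈ J} => u j.1) c
    (fun j _ => huW j.1 j.2) hχ

open scoped Classical in
theorem innerD_comb_unit618 (hR : IsFrame5 R) (J : Finset ι) (u : ι → G K → ℂ)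
    (huW : ∀ j ∈ J, IsWFn 𝔫 R.r 0 o (u j))
    (hon : ∀ j k : {j // j ∈ J},
      T5.innerD R.μ R.F (u j.1) (u k.1) = if j = k then 1 else 0)
    (c : {j // j ∈ J} → ℂ) (k : {j // j ∈ J}) :
    T5.innerD R.μ R.F (comb618 J u c) (u k.1) = c k := by
  classical
  rw [innerD_comb_left618 hR J u huW c (huW k.1 k.2)]
  simp only [hon, mul_ite, mul_one, mul_zero]
  rw [Finset.sum_ite_eq' Finset.univ k c, if_pos (Finset.mem_univ k)]

open scoped Classical in
theorem innerD_comb_comb618 (hR : IsFrame5 R) (J : Finset ι) (u : ι → G K → ℂ)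
    (huW : ∀ j ∈ J, IsWFn 𝔫 R.r 0 o (u j))
    (hon : ∀ j k : {j // j ∈ J},
      T5.innerD R.μ R.F (u j.1) (u k.1) = if j = k then 1 else 0)
    (c d : {j // j ∈ J} → ℂ) :
    T5.innerD R.μ R.F (comb618 J u c) (comb618 J u d)
      = ∑ j : {j // j ∈ J}, conj (d j) * c j := by
  rw [innerD_comb_right618 hR J u huW d (isWFn_comb618 hR J u huW c)]
  refine Finset.sum_congr rfl fun j _ => ?_
  rw [innerD_comb_unit618 hR J u huW hon c j]

theorem comb_add618 (J : Finset ι) (u : ι → G K → ℂ) (c d : {j // j ∈ J} → ℂ) (g : G K) :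
    comb618 J u (fun j => c j + d j) g = comb618 J u c g + comb618 J u d g := by
  unfold comb618
  rw [← Finset.sum_add_distrib]
  refine Finset.sum_congr rfl fun j _ => ?_
  ring

theorem comb_smul618 (J : Finset ι) (u : ι → G K → ℂ) (a : ℂ) (c : {j // j ∈ J} → ℂ)
    (g : G K) :
    comb618 J u (fun j => a * c j) g = a * comb618 J u c g := by
  unfold comb618
  rw [Finset.mul_sum]
  refine Finset.sum_congr rfl fun j _ => ?_
  ring

theorem comb_zero618 (J : Finset ι) (u : ι → G K → ℂ) (g : G K) :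
    comb618 J u (fun _ => 0) g = 0 := by
  unfold comb618
  simp

/-- The coefficient vectors of the Iwahori invariant combinations. -/
def iwSub618 (l : ℕ) (o : ℕ → HeightOneSpectrum (𝓞 K)) (J : Finset ι) (u : ι → G K → ℂ) :
    Submodule ℂ (EuclideanSpace ℂ {j // j ∈ J}) where
  carrier := {c | IsIwInv l o (comb618 J u (fun j => c j))}
  add_mem' := by
    intro c d hc hd h hI hF hIw x
    have h1 := hc h hI hF hIw x
    have h2 := hd h hI hF hIw x
    have e : ∀ g, comb618 J u (fun j => (c + d) j) g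
        = comb618 J u (fun j => c j) g + comb618 J u (fun j => d j) g := fun g =>
      comb_add618 J u (fun j => c j) (fun j => d j) g
    rw [e, e, h1, h2]
  zero_mem' := by
    intro h hI hF hIw x
    have e : ∀ g, comb618 J u (fun j => (0 : EuclideanSpace ℂ {j // j ∈ J}) j) g = 0 :=
      fun g => comb_zero618 J u g
    rw [e, e]
  smul_mem' := by
    intro a c hc h hI hF hIw x
    have h1 := hc h hI hF hIw x
    have e : ∀ g, comb618 J u (fun j => (a • c) j) g
        = a * comb618 J u (fun j => c j) g := fun g =>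
      comb_smul618 J u a (fun j => c j) g
    rw [e, e, h1]

theorem mem_iwSub618 (l : ℕ) (o : ℕ → HeightOneSpectrum (𝓞 K)) (J : Finset ι)
    (u : ι → G K → ℂ) (c : EuclideanSpace ℂ {j // j ∈ J}) :
    c ∈ iwSub618 l o J u ↔ IsIwInv l o (comb618 J u (fun j => c j)) := Iff.rfl

end Class

/-! ## 6. The leaf -/

/-- **LEAF W4 `ClassBasisC144`** (registry row 2451), VERBATIM. -/
theorem classBasisC618 (K : Type) [Field K] [NumberField K] : H144W.ClassBasisC144 K := by
  intro hW2 hW3 hcx 𝔫 h𝔫 R hR l o ho S hS ι u C₀ hB j₀ J hJ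
  classical
  have hS' : ∀ v : HeightOneSpectrum (𝓞 K), v.asIdeal ∣ 𝔫 → v ∈ S := fun v hv => (hS v).2 hv
  have huE : ∀ j ∈ J, IsEigFn 𝔫 R.r 0 o (u j) (C₀ j₀) := fun j hj =>
    isEigFn_of_agree618 hS (hB.eig j) ((hJ j).1 hj)
  have huW : ∀ j ∈ J, IsWFn 𝔫 R.r 0 o (u j) := fun j _ => (hB.eig j).inv
  have hon : ∀ j k : {j // j ∈ J},
      T5.innerD R.μ R.F (u j.1) (u k.1) = if j = k then 1 else 0 := by
    intro j k
    by_cases hjk : j = k
    · rw [if_pos hjk, hjk]
      exact hB.norm_one k.1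
    · rw [if_neg hjk]
      exact hB.orth j.1 k.1 (fun h => hjk (Subtype.ext h))
  -- the expansion of the eigenfunctions of the class (W2)
  have hexp : ∀ (ψ : G K → ℂ), IsEigFn 𝔫 R.r 0 o ψ (C₀ j₀) →
      ψ = comb618 J u (fun j => T5.innerD R.μ R.F ψ (u j.1)) := by
    intro ψ hψ
    funext x
    have h1 := (hW2 hcx 𝔫 h𝔫 R hR o ι u C₀ hB S hS' ψ (C₀ j₀) hψ).2 J
      (fun j hj => (hJ j).2 (agreeOut_symm618 hj)) x
    rw [h1]
    exact comb_eq_sum618 J u (fun j => T5.innerD R.μ R.F ψ (u j)) x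
  -- the projection of an Iwahori invariant function is Iwahori invariant (W2 + W3)
  have hproj : ∀ ψ : G K → ℂ, IsWFn 𝔫 R.r l o ψ →
      IsIwInv l o (comb618 J u (fun j => T5.innerD R.μ R.F ψ (u j.1))) := by
    intro ψ hψ i hi1 hi2 hi3 x
    obtain ⟨hEi, hIi, hj1, hj2, hj3⟩ := hW3 𝔫 h𝔫 R hR l o ho i hi1 hi2 hi3
    obtain ⟨hEi', -, -⟩ := hW3 𝔫 h𝔫 R hR l o ho i⁻¹ hj1 hj2 hj3
    obtain ⟨c, hc⟩ : ∃ c : {j // j ∈ J} → ℂ, c = fun j => T5.innerD R.μ R.F ψ (u j.1) :=
      ⟨_, rfl⟩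
    rw [← hc]
    have hψ0 : IsWFn 𝔫 R.r 0 o ψ := isWFn_zero_of618 hψ
    have hEψ : IsWFn 𝔫 R.r 0 o (comb618 J u c) := isWFn_comb618 hR J u huW c
    have hEψE : IsEigFn 𝔫 R.r 0 o (comb618 J u c) (C₀ j₀) := isEigFn_comb618 hR J u huE c
    have hkey : ∀ k : {j // j ∈ J},
        T5.innerD R.μ R.F (fun x => comb618 J u c (x * i)) (u k.1) = c k := by
      intro k
      have hkE : IsEigFn 𝔫 R.r 0 o (fun x => u k.1 (x * i⁻¹)) (C₀ j₀) :=
        hEi' (u k.1) (C₀ j₀) (huE k.1 k.2)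
      have hk0 : IsWFn 𝔫 R.r 0 o (fun x => u k.1 (x * i⁻¹)) := hkE.inv
      have e1 : (fun x => (fun y => u k.1 (y * i⁻¹)) (x * i)) = u k.1 := by
        funext x
        show u k.1 (x * i * i⁻¹) = u k.1 x
        rw [mul_assoc, mul_inv_cancel, mul_one]
      have s1 : T5.innerD R.μ R.F (fun x => comb618 J u c (x * i)) (u k.1)
          = T5.innerD R.μ R.F (comb618 J u c) (fun x => u k.1 (x * i⁻¹)) := by
        have h := hIi (comb618 J u c) (fun x => u k.1 (x * i⁻¹)) hEψ hk0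
        rw [e1] at h
        exact h
      have s2 : T5.innerD R.μ R.F ψ (u k.1)
          = T5.innerD R.μ R.F ψ (fun x => u k.1 (x * i⁻¹)) := by
        have h := hIi ψ (fun x => u k.1 (x * i⁻¹)) hψ0 hk0
        have e2 : (fun x => ψ (x * i)) = ψ := funext fun x => hψ.iw i hi1 hi2 hi3 x
        rw [e1, e2] at h
        exact h
      have s3 : T5.innerD R.μ R.F (comb618 J u c) (fun x => u k.1 (x * i⁻¹))
          = T5.innerD R.μ R.F ψ (fun x => u k.1 (x * i⁻¹)) := by
        rw [hexp _ hkE, innerD_comb_right618 hR J u huW _ hEψ,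
          innerD_comb_right618 hR J u huW _ hψ0]
        refine Finset.sum_congr rfl fun m _ => ?_
        rw [innerD_comb_unit618 hR J u huW hon c m, hc]
      rw [s1, s3, ← s2, hc]
    have e3 := congrFun (hexp _ (hEi _ _ hEψE)) x
    have e4 : (fun j : {j // j ∈ J} =>
        T5.innerD R.μ R.F (fun x => comb618 J u c (x * i)) (u j.1)) = c := funext hkey
    rw [e4] at e3
    exact e3
  -- the orthonormal basis of the Iwahori invariant coefficient vectors
  obtain ⟨U, hU⟩ : ∃ U : Submodule ℂ (EuclideanSpace ℂ {j // j ∈ J}),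
      ∀ c : EuclideanSpace ℂ {j // j ∈ J},
        c ∈ U ↔ IsIwInv l o (comb618 J u (fun j => c j)) :=
    ⟨iwSub618 (K := K) l o J u, fun c => Iff.rfl⟩
  obtain ⟨b, hb⟩ : ∃ b : OrthonormalBasis (Fin (Module.finrank ℂ U)) ℂ U,
      b = stdOrthonormalBasis ℂ U := ⟨_, rfl⟩
  have hbU : ∀ a, IsIwInv l o (comb618 J u (fun j => (b a : EuclideanSpace ℂ {j // j ∈ J}) j)) :=
    fun a => (hU _).1 (b a).2
  have hinner : ∀ c d : EuclideanSpace ℂ {j // j ∈ J},
      T5.innerD R.μ R.F (comb618 J u (fun j => c j)) (comb618 J u (fun j => d j))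
        = inner ℂ d c := by
    intro c d
    rw [innerD_comb_comb618 hR J u huW hon, PiLp.inner_apply]
    refine Finset.sum_congr rfl fun j _ => ?_
    rw [RCLike.inner_apply]
    ring
  refine ⟨Module.finrank ℂ U,
    fun a => comb618 J u (fun j => (b a : EuclideanSpace ℂ {j // j ∈ J}) j), ?_, ?_, ?_, ?_, ?_⟩
  · -- (1)
    intro a
    exact isEigFn_of_zero618 (isEigFn_comb618 hR J u huE _) (hbU a)
  · -- (2)
    intro a a'
    rw [hinner, ← Submodule.coe_inner, orthonormal_iff_ite.mp b.orthonormal a' a]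
    by_cases h : a = a'
    · rw [if_pos h, if_pos h.symm]
    · rw [if_neg h, if_neg (fun h' => h h'.symm)]
  · -- (3)
    intro ψ C' hψ hA
    have hψ0 : IsEigFn 𝔫 R.r 0 o ψ (C₀ j₀) :=
      isEigFn_of_agree618 hS (isEigFn_zero_of618 hψ) hA
    have hψe := hexp ψ hψ0
    obtain ⟨cE, hcE⟩ : ∃ cE : EuclideanSpace ℂ {j // j ∈ J},
        ∀ j, cE j = T5.innerD R.μ R.F ψ (u j.1) :=
      ⟨(WithLp.toLp 2 fun j : {j // j ∈ J} => T5.innerD R.μ R.F ψ (u j.1)), fun j => rfl⟩
    have hcE' : (fun j => cE j) = fun j : {j // j ∈ J} => T5.innerD R.μ R.F ψ (u j.1) :=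
      funext hcE
    have hmem : cE ∈ U := by
      rw [hU, hcE', ← hψe]
      exact hψ.inv.iw
    have hrep := b.sum_repr ⟨cE, hmem⟩
    have hrep' : ∀ j, cE j = ∑ a, b.repr ⟨cE, hmem⟩ a * (b a : EuclideanSpace ℂ {j // j ∈ J}) j := by
      intro j
      have h1 := congrArg (fun y : U => (y : EuclideanSpace ℂ {j // j ∈ J}) j) hrep
      simp only [Submodule.coe_sum, Submodule.coe_smul] at h1
      rw [← h1]
      simp [Finset.sum_apply]
    refine ⟨fun a => b.repr ⟨cE, hmem⟩ a, fun x => ?_⟩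
    rw [hψe]
    unfold comb618
    simp only [← hcE]
    simp only [hrep', Finset.sum_mul, Finset.mul_sum]
    rw [Finset.sum_comm]
    refine Finset.sum_congr rfl fun a _ => Finset.sum_congr rfl fun j _ => ?_
    ring
  · -- (4)
    intro a χ hχ hz
    rw [innerD_comb_left618 hR J u huW _ hχ]
    refine Finset.sum_eq_zero fun j _ => ?_
    rw [hz j.1 j.2, mul_zero]
  · -- (5)
    intro ψ hψ
    have hψ0 : IsWFn 𝔫 R.r 0 o ψ := isWFn_zero_of618 hψ
    obtain ⟨cE, hcE⟩ : ∃ cE : EuclideanSpace ℂ {j // j ∈ J},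
        ∀ j, cE j = T5.innerD R.μ R.F ψ (u j.1) :=
      ⟨(WithLp.toLp 2 fun j : {j // j ∈ J} => T5.innerD R.μ R.F ψ (u j.1)), fun j => rfl⟩
    have hcE' : (fun j => cE j) = fun j : {j // j ∈ J} => T5.innerD R.μ R.F ψ (u j.1) :=
      funext hcE
    have hmem : cE ∈ U := by
      rw [hU, hcE']
      exact hproj ψ hψ
    have h1 : ∀ a, T5.innerD R.μ R.F ψ
        (comb618 J u (fun j => (b a : EuclideanSpace ℂ {j // j ∈ J}) j))
          = inner ℂ (b a) (⟨cE, hmem⟩ : U) := by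
      intro a
      rw [innerD_comb_right618 hR J u huW _ hψ0, Submodule.coe_inner, PiLp.inner_apply]
      refine Finset.sum_congr rfl fun j _ => ?_
      rw [RCLike.inner_apply, hcE j]
      ring
    simp only [h1]
    rw [b.sum_sq_norm_inner_right, Submodule.coe_norm, EuclideanSpace.norm_sq_eq]
    simp only [hcE]
    exact Finset.sum_coe_sort J (fun j => ‖T5.innerD R.μ R.F ψ (u j)‖ ^ 2)

end Fermat.Agent.LT.T7.H618

end

end
-- ===== PACK-END LT/T7/H618/ClassBasis.lean

-- ===== PACK-BEGIN LT/T7/H893/SupplyClosed6.lean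
section




/-!
# Row LT, tower T7, node T7.L2.1 `SupplySC` (sub-architect helper893): INTEGRATION v6

OFF-MAIN.  No `sorry`, nothing assumed.  ADDITIVE.  Integration v5 with the leaf
`AvgMatchC893` DISCHARGED by the closed leaf of helper228 (`T7/H228/AvgMatch.lean`,
`avgMatchC228`, byte-identical copy with its closure), on the MASTER bytes of `T5/Spec.lean`,
`T6/Spec.lean`, `T2/H437/USSpec.lean`, `T2/H511/FDSpec.lean` (row-lead helper17) and
`T7/H305/MatchSpec.lean` v2 (helper305).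

OPEN (the structure `OpenSupply893f`) = THE GEOMETRIC CORE:
`GlobMatchC893` (helper305: `H305.GlobMatchC305` for `LocHyp893`), `BaseCb P`,
`ProdMtCb κ` (every nowhere zero `κ`).

    supplySC_of_open893f : OpenSupply893f P K K' → T7.SupplySC P K K'
-/

set_option autoImplicit false

open AutomorphicForm IsDedekindDomain NumberField MeasureTheory
open scoped ComplexConjugate

noncomputable section

namespace Fermat.Agent.LT.T7.H893

open Fermat.Agent.LT Fermat.Agent.LT.H556 Fermat.Agent.LT.H556.A0 Fermat.Agent.LT.T7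

attribute [local instance] Fermat.Agent.LT.T5.instMeasurableSpaceG

section Closed

variable (P : EKCond)
variable (K K' : Type) [Field K] [NumberField K] [Field K'] [NumberField K'] [Algebra K K']

/-- The leaf `AvgMatchC893`, closed (helper228). -/
theorem avgMatchC_closed893 : AvgMatchC893 K K' := H228.avgMatchC228 K K'

/-- **THE OPEN WALL of `SupplySC`** (integration v6): the geometric core, v2, without the
analysis leaf. -/
structure OpenSupply893f : Prop where
  globMatch : GlobMatchC893 K K'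
  base : BaseCb P K K'
  prodMt : ∀ κ : KapFn K K', (∀ D μc T₀ n m, κ D μc T₀ n m ≠ 0) → ProdMtCb K K' κ

variable {P K K'}

/-- **THE STABLE SUPPLY from the open wall (v6).** -/
theorem supplySC_of_open893f (h : OpenSupply893f P K K') : SupplySC P K K' :=
  supplySC_of_open893e
    { globMatch := h.globMatch
      avgMatch := avgMatchC_closed893 K K'
      base := h.base
      prodMt := h.prodMt }

end Closed

end Fermat.Agent.LT.T7.H893

end

end
-- ===== PACK-END LT/T7/H893/SupplyClosed6.lean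

-- ===== PACK-BEGIN LT/T7/H893/SupplyClosed7.lean
section




/-!
# Row LT, tower T7, node T7.L2.1 `SupplySC` (sub-architect helper893): INTEGRATION v7

OFF-MAIN.  No `sorry`, nothing assumed.  ADDITIVE.  Integration v6 with the node `ProdMtCb`
replaced by its cut (sixth cut, `SupplyProdSpec.lean` / `SupplyProdTop.lean`).

OPEN (the structure `OpenSupply893g`):
`GlobMatchC893` (helper305 / helper340), `BaseCb P` (helper797 / helper981 / helper616),
`ProdShapeC893` (the calculus of pure tensors), `SphHypC893` (local, T6),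
`LevelUniqC893 K`, `LevelUniqC893 K'`, `LevelAtC893` (small).

    supplySC_of_open893g : OpenSupply893g P K K' → T7.SupplySC P K K'
-/

set_option autoImplicit false

open AutomorphicForm IsDedekindDomain NumberField MeasureTheory
open scoped ComplexConjugate

noncomputable section

namespace Fermat.Agent.LT.T7.H893

open Fermat.Agent.LT Fermat.Agent.LT.H556 Fermat.Agent.LT.H556.A0 Fermat.Agent.LT.T7

attribute [local instance] Fermat.Agent.LT.T5.instMeasurableSpaceG

section Closed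

variable (P : EKCond)
variable (K K' : Type) [Field K] [NumberField K] [Field K'] [NumberField K'] [Algebra K K']

/-- **THE OPEN WALL of `SupplySC`** (integration v7). -/
structure OpenSupply893g : Prop where
  globMatch : GlobMatchC893 K K'
  base : BaseCb P K K'
  prodShape : ProdShapeC893 K K'
  sphHyp : SphHypC893 K K'
  levelUniq : LevelUniqC893 K
  levelUniq' : LevelUniqC893 K'
  levelAt : LevelAtC893 K K'

variable {P K K'}

/-- **THE STABLE SUPPLY from the open wall (v7).** -/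
theorem supplySC_of_open893g (h : OpenSupply893g P K K') : SupplySC P K K' :=
  supplySC_of_open893f
    { globMatch := h.globMatch
      base := h.base
      prodMt := fun κ hκ =>
        prodMtCb_of893 h.levelUniq h.levelUniq' h.levelAt h.prodShape h.sphHyp κ hκ }

end Closed

end Fermat.Agent.LT.T7.H893

end

end
-- ===== PACK-END LT/T7/H893/SupplyClosed7.lean

-- ===== PACK-BEGIN LT/T7/B981/PairBaseTop.lean
section



/-!
# Row LT, tower T7, node T7.L2.1.H2a.A.0 `BaseAC981` (sub-architect helper981, registry 2817):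
# THIRD CUT -- the PROVED top

OFF-MAIN.  Complete proofs, nothing assumed.  ADDITIVE (new names only, suffix `981`).

    baseAC_of981 : DatC981 K K' → UpGoodC981 K K' → DnGoodC981 K K' → IwSuppC981 K'
        → IwSuppC981 K → DnStabC981 K K' → ShapeC981 K K'
        → BaseAC981 T7.ekMulti K K' H893.LocA893                                (VERBATIM)
-/

set_option autoImplicit false

open AutomorphicForm IsDedekindDomain NumberField MeasureTheory
open scoped ComplexConjugate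

noncomputable section

namespace Fermat.Agent.LT.T7.B981

open Fermat.Agent.LT.H556 Fermat.Agent.LT.H556.A0 Fermat.Agent.LT.T7
open Fermat.Agent.LT.T7.H305 Fermat.Agent.LT.T7.H893

attribute [local instance] Fermat.Agent.LT.T5.instMeasurableSpaceG

variable {K K' : Type} [Field K] [NumberField K] [Field K'] [NumberField K'] [Algebra K K']

/-- **THE TOP OF THE THIRD CUT**: the base pair for the multi-place EK condition and the local
shape of record. -/
theorem baseAC_of981 (hD : DatC981 K K') (hU : UpGoodC981 K K') (hW : DnGoodC981 K K')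
    (hS' : IwSuppC981 K') (hS : IwSuppC981 K) (hC : DnStabC981 K K') (hP : ShapeC981 K K') :
    BaseAC981 ekMulti K K' LocA893 := by
  intro ℓ hcyc hl hcx Φ hΦ hconst hek B hB hram 𝔫 hlev μc hμc T₀ n n₀ m hexp
  obtain ⟨D, hDat⟩ :=
    hD ℓ hcyc hl hcx Φ hΦ hconst hek B hB hram 𝔫 hlev μc hμc T₀ n n₀ m hexp
  obtain ⟨u1, u2, u3, u4, c₁, u5, u6⟩ := hU ℓ hcyc hcx Φ B hB 𝔫 hlev μc hμc T₀ n m D hDat
  obtain ⟨d1, d2, d3, d4, hc⟩ := hW ℓ hcyc hcx Φ B hB 𝔫 hlev μc hμc T₀ n m D hDat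
  have hs_up := hS' (upI (K' := K') 𝔫) D.P' ℓ B.o
    (fun j _ => (hlev.mem_S'_g (B.o j)).1 (hB.orbit_level j))
    (fun j _ h => hDat.out (B.o j) h (hB.orbit_level j))
    (D.up (upI (K' := K') 𝔫)) u1.supp u4
  have hs_dn := hS 𝔫 D.P 1 (fun _ => B.u) (fun _ _ => hlev.u_level)
    (fun _ _ h => hDat.frame_dn.prime B.u h hlev.u_level) (D.dn 𝔫) d1.supp d4
  refine ⟨c₁, D.up (upI (K' := K') 𝔫), D.dn 𝔫,
    ⟨u1, ⟨u2, u3⟩, d1, ⟨d2, d3⟩, hs_up, hs_dn,
      hP ℓ hcyc hcx Φ B hB 𝔫 hlev μc hμc T₀ n n₀ m hexp D hDat⟩,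
    u5, u6, ?_⟩
  exact hC ℓ hcyc hcx Φ B hB 𝔫 hlev D.P hDat.frame_dn.prime (D.dn 𝔫) d1 d4 hc

end Fermat.Agent.LT.T7.B981

end

end
-- ===== PACK-END LT/T7/B981/PairBaseTop.lean

-- ===== PACK-BEGIN LT/T7/H952/UpGood.lean
section



/-!
# Row LT, tower T7, leaf T7.L2.1.H2a.A.0.U `UpGoodC981` (helper952, registry row 2911)

OFF-MAIN.  VERBATIM against `T7/B981/PairBaseSpec.lean` (helper981, BaseA third cut).

    upGoodC952 (K K') : B981.UpGoodC981 K K'                       (UNCONDITIONAL)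

Plug of the closed `T3.M.ekOfPairM_c` for `K'` (totally complex, because `K` is): the sum
upstairs of the data is a member of `pairSpanMS` (coefficients `1`), the coordinates telescope
(`tel_up`), the frame is `frame_up`.  The scalar: `c₁ C = 1` if `C.b w = 0` for some `w ∈ P'`
(then the eigenfunctions vanish: `H732.eq_zero_of_b_eq_zero732`), and `c (root1) (root2) C.m`
otherwise; an eigenfunction of the base level is `IsMeanLevel` for the level `𝔫 𝒪_{K'} ≤ 𝔑₀`;
`c₁ ≠ 0` on the class of `Φ`: `ft_ne` and `good`.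
-/

set_option autoImplicit false
set_option linter.style.haveILetI false

open AutomorphicForm IsDedekindDomain NumberField MeasureTheory
open scoped ComplexConjugate

noncomputable section

namespace Fermat.Agent.LT.T7.H952

open Fermat.Agent.LT.H556 Fermat.Agent.LT.H556.A0 Fermat.Agent.LT.T7
open Fermat.Agent.LT.T7.H305 Fermat.Agent.LT.T7.H893 Fermat.Agent.LT.T7.B981

attribute [local instance] Fermat.Agent.LT.T5.instMeasurableSpaceG

section OneField

variable {K : Type} [Field K] [NumberField K]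

/-- The level groups are monotone in the level. -/
theorem inLevelGroup_mono952 {𝔑 𝔑₀ : Ideal (𝓞 K)} (hle : 𝔑 ≤ 𝔑₀) {u : G K}
    (hu : InLevelGroup 𝔑 u) : InLevelGroup 𝔑₀ u := by
  have hmono : ∀ v : HeightOneSpectrum (𝓞 K), idealClosure 𝔑 v ⊆ idealClosure 𝔑₀ v :=
    fun v => closure_mono (Set.image_mono hle)
  exact ⟨hu.1, fun v i j => ⟨hmono v (hu.2 v i j).1, hmono v (hu.2 v i j).2⟩⟩

/-- An eigenfunction of the level `𝔑₀` is a joint eigenfunction of the sphere means of every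
smaller level. -/
theorem isMeanLevel_of_isEigFn952 {𝔑 𝔑₀ : Ideal (𝓞 K)} (hle : 𝔑 ≤ 𝔑₀) {r : G K} {l : ℕ}
    {o : ℕ → HeightOneSpectrum (𝓞 K)} {χ : G K → ℂ} {C : EigData K}
    (h : IsEigFn 𝔑₀ r l o χ C) : T3.M.IsMeanLevel K 𝔑 C.m χ where
  cont := h.inv.cusp.cont
  level_inv := fun u hu g => h.inv.cusp.aut.level_inv u (inLevelGroup_mono952 hle hu) g
  arch_scalar := h.inv.arch_scalar
  arch_compact := fun w k hk g =>
    (h.inv.cusp.aut.arch_compact w k hk g).trans (one_mul (χ g))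
  mean := h.mean

end OneField

section TwoFields

variable (K K' : Type) [Field K] [NumberField K] [Field K'] [NumberField K'] [Algebra K K']

omit [NumberField K] [NumberField K'] in
/-- An extension of a totally complex field is totally complex. -/
theorem totCplx_up952 (hK : TotCplx K) : ∀ w : InfinitePlace K', w.IsComplex := by
  intro w
  by_contra hw
  have hr : w.IsReal := InfinitePlace.not_isComplex_iff_isReal.1 hw
  have hr' := hr.comap (algebraMap K K')
  exact (InfinitePlace.not_isComplex_iff_isReal.2 hr') (hK _)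

/-- **LEAF A.0.U = UP.** -/
theorem upGoodC952 : UpGoodC981 K K' := by
  intro ℓ _hcyc hK Φ B hB 𝔫 h𝔫 μc hμc T₀ n m D hD
  have hcx := totCplx_up952 K K' hK
  obtain ⟨κ₀, hκ₀, hall⟩ := T3.M.ekOfPairM_c K' hcx B.R'.μ hB.frame'.frame.haar μc hμc D.κc
    hD.κc_ne (upI (K' := K') 𝔫) D.P' D.e' D.a₀' D.α' hD.frame_up
  -- the sums are a member of `pairSpanMS`
  have hmemS : (D.crdUp, D.up (upI (K' := K') 𝔫))
      ∈ T3.M.pairSpanMS K' μc D.κc (upI (K' := K') 𝔫) D.P' := by
    have h : ((D.crdUp, D.up (upI (K' := K') 𝔫)) :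
        (T3.M.CoordM K' D.P' → ℂ) × (G K' → ℂ))
        = ∑ i : Fin D.N, ((T3.M.pureCoordM K' D.P' (D.A' i) (D.β' i),
            T3.M.pureFnM K' (upI (K' := K') 𝔫) D.P' (D.φ₀ i) (D.Φ i)) :
            (T3.M.CoordM K' D.P' → ℂ) × (G K' → ℂ)) := by
      refine Prod.ext ?_ ?_
      · rw [Prod.fst_sum]
        funext p
        rw [Finset.sum_apply]
        rfl
      · rw [Prod.snd_sum]
        funext g
        rw [Finset.sum_apply]
        rfl
    rw [h]
    refine Submodule.sum_mem _ fun i _ => Submodule.subset_span ?_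
    exact ⟨D.A' i, D.β' i, D.φ₀ i, D.Φ i, hD.symA' i, hD.symβ' i, hD.sat_up i, hD.test_up i,
      hD.smooth_up i, hD.abel_up i, hD.acts_up i, rfl⟩
  obtain ⟨h1, h2, h3, h4, c, hc, hop⟩ := hall D.crdUp (D.up (upI (K' := K') 𝔫))
    (T3.M.pairSpanMS_le μc D.κc _ _ hmemS) hD.tel_up
  refine ⟨h1, h2, h3, h4, ?_⟩
  classical
  refine ⟨fun C => if ∃ w ∈ D.P', C.b w = 0 then 1 else
    c (fun w => T3.H732.root1_732 (C.a w) (C.b w))
      (fun w => T3.H732.root2_732 (C.a w) (C.b w)) C.m, ?_, ?_⟩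
  · -- the operator
    intro χ C hχ y
    have hheck : ∀ w ∈ D.P', IsHeckeEigenAt χ w (C.a w) (C.b w) := fun w hw =>
      hχ.hecke w (fun hdvd => hD.out w hw ((hB.mem_S' w).2 hdvd))
    by_cases hb : ∃ w ∈ D.P', C.b w = 0
    · simp only [if_pos hb, one_mul]
      obtain ⟨w, hw, hbw⟩ := hb
      have hecke' := hheck w hw
      rw [hbw] at hecke'
      have hzero : ∀ g : G K', χ g = 0 :=
        T3.H732.eq_zero_of_b_eq_zero732 K' (T3.inScalarUnif_u K') hecke'
      rw [hzero y]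
      show ∫ x, D.up (upI (K' := K') 𝔫) x * χ (y * x) ∂B.R'.μ = 0
      simp only [hzero, mul_zero, integral_zero]
    · simp only [if_neg hb]
      simp only [not_exists, not_and] at hb
      exact hop χ C.m (isMeanLevel_of_isEigFn952 h𝔫.level_g hχ) C.a C.b _ _ hheck
        (fun w _ => (T3.H732.roots_spec732 (C.a w) (C.b w)).1)
        (fun w _ => (T3.H732.roots_spec732 (C.a w) (C.b w)).2) hb y
  · -- non-vanishing on the class of `Φ`
    intro C hC
    by_cases hb : ∃ w ∈ D.P', C.b w = 0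
    · simp only [if_pos hb]
      exact one_ne_zero
    · simp only [if_neg hb]
      simp only [not_exists, not_and] at hb
      have hsph : T3.M.IsSph0Param K' C.m := fun w d hd => hC.2 w d hd
      rw [hc hmemS _ _ C.m hsph]
      have hr₁ : ∀ w ∈ D.P', T3.H732.root1_732 (C.a w) (C.b w) ≠ 0 := fun w hw h =>
        hb w hw (by rw [← (T3.H732.roots_spec732 (C.a w) (C.b w)).2, h, zero_mul])
      have hr₂ : ∀ w ∈ D.P', T3.H732.root2_732 (C.a w) (C.b w) ≠ 0 := fun w hw h =>
        hb w hw (by rw [← (T3.H732.roots_spec732 (C.a w) (C.b w)).2, h, mul_zero])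
      refine mul_ne_zero hκ₀ (hD.ft_ne _ _ hr₁ hr₂ fun z hz => ?_)
      refine hD.good z fun w hw => ?_
      obtain ⟨hs, hp⟩ := T3.H732.roots_spec732 (C.a w) (C.b w)
      have hag := hC.1 w (hD.out w hw)
      have ha : C.a w = Φ.a w := hag.1
      have hb' : C.b w = Φ.b w := hag.2
      rw [← ha, ← hb']
      rcases hz w hw with h | h
      · rw [h]
        linear_combination (T3.H732.root1_732 (C.a w) (C.b w)) * hs - hp
      · rw [h]
        linear_combination (T3.H732.root2_732 (C.a w) (C.b w)) * hs - hp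

end TwoFields

end Fermat.Agent.LT.T7.H952

end
end
-- ===== PACK-END LT/T7/H952/UpGood.lean

-- ===== PACK-BEGIN LT/T7/H873/NatShapeAvg.lean
section



/-!
# Row LT, tower T7, node T7.L2.1.H2a.B (cut of helper57): leaf PB.3 `NatShapeC57`,
# THE TORUS MEANS OF AN AVERAGE OF PURE TENSORS (helper873)

OFF-MAIN.  `isAvgPure_nat873`: for compatible torus data and a local condition `L` which is
stable under the translations of the components at infinity by the positive scalars of the torus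
data, the torus means of an average of pure tensors with the local condition `L` are an average
of pure tensors with the local condition `L` (parameter space `Ω × closure D'`, measure
`ν × vol(D')⁻¹ vol|_{D'}`; Fubini; downstairs the push-forward formula `H193.nat_eq_push193`).
-/

set_option autoImplicit false

open AutomorphicForm IsDedekindDomain NumberField MeasureTheory
open scoped Matrix

noncomputable section

namespace Fermat.Agent.LT.T7.H873

open Fermat.Agent.LT.H556 Fermat.Agent.LT.H556.A0 Fermat.Agent.LT Fermat.Agent.LT.T7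
open Fermat.Agent.LT.T7.H305 Fermat.Agent.LT.T7.H893

attribute [local instance] Fermat.Agent.LT.T5.instMeasurableSpaceG

section Param

variable {ι : Type} [Fintype ι]

/-- The normalised Lebesgue measure of `D`, as a measure on the compact space `closure D`. -/
def normMeas873 (D : Set (ι → ℝ)) : Measure (closure D) :=
  Measure.comap Subtype.val ((ENNReal.ofReal ((volume D).toReal)⁻¹) • volume.restrict D)

theorem isFiniteMeasure_normMeas873 {D : Set (ι → ℝ)} (hD : Bornology.IsBounded D) :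
    IsFiniteMeasure (normMeas873 D) := by
  have h1 : IsFiniteMeasure (volume.restrict D) :=
    ⟨by rw [Measure.restrict_apply_univ]; exact hD.measure_lt_top⟩
  have h2 : IsFiniteMeasure ((ENNReal.ofReal ((volume D).toReal)⁻¹) • volume.restrict D) :=
    Measure.smul_finite _ ENNReal.ofReal_ne_top
  refine ⟨?_⟩
  show Measure.comap Subtype.val _ Set.univ < ⊤
  rw [(MeasurableEmbedding.subtype_coe measurableSet_closure).comap_apply]
  exact lt_of_le_of_lt (measure_mono (Set.subset_univ _)) (measure_lt_top _ _)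

/-- The integral for the normalised measure. -/
theorem integral_normMeas873 (D : Set (ι → ℝ)) (g : (ι → ℝ) → ℂ) :
    ∫ t : closure D, g t ∂(normMeas873 D)
      = (((volume D).toReal : ℝ) : ℂ)⁻¹ * ∫ t in D, g t := by
  show ∫ t : closure D, g t ∂(Measure.comap Subtype.val _) = _
  rw [integral_subtype_comap measurableSet_closure g, Measure.restrict_smul,
    Measure.restrict_restrict measurableSet_closure,
    Set.inter_eq_self_of_subset_right subset_closure, integral_smul_measure,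
    ENNReal.toReal_ofReal (inv_nonneg.2 ENNReal.toReal_nonneg), Complex.real_smul,
    Complex.ofReal_inv]

end Param

section Main

variable {K K' : Type} [Field K] [NumberField K] [Field K'] [NumberField K'] [Algebra K K']

open Classical in
theorem continuous_fibSum873 :
    Continuous (H193.fibSum193 (K := K) (K' := K')) := by
  show Continuous fun (t' : InfinitePlace K' → ℝ) (v : InfinitePlace K) =>
    ∑ w : InfinitePlace K', if w.comap (algebraMap K K') = v then t' w else 0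
  refine continuous_pi fun v => continuous_finsetSum _ fun w _ => ?_
  by_cases hw : w.comap (algebraMap K K') = v
  · simp only [if_pos hw]
    exact continuous_apply w
  · simp only [if_neg hw]
    exact continuous_const

/-- The integral over the product parameter space. -/
theorem integral_param873 {Ω : Type} [TopologicalSpace Ω] [CompactSpace Ω]
    [SecondCountableTopology Ω] [MeasurableSpace Ω] [BorelSpace Ω] (ν : Measure Ω)
    [IsFiniteMeasure ν] {ι : Type} [Fintype ι] {D : Set (ι → ℝ)}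
    (hD : Bornology.IsBounded D) {X : Type} [TopologicalSpace X]
    (P : Ω × X → ℂ) (hP : Continuous P) (b : (ι → ℝ) → X) (hb : Continuous b)
    (φ : X → ℂ) (hφ : ∀ x : X, φ x = ∫ ω, P (ω, x) ∂ν) :
    haveI := isFiniteMeasure_normMeas873 hD
    ∫ p : Ω × closure D, P (p.1, b p.2) ∂(ν.prod (normMeas873 D))
      = (((volume D).toReal : ℝ) : ℂ)⁻¹ * ∫ t in D, φ (b t) := by
  have := isFiniteMeasure_normMeas873 hD
  have : CompactSpace (closure D) := isCompact_iff_compactSpace.1 hD.isCompact_closure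
  have hQ : Continuous fun p : Ω × closure D => P (p.1, b p.2) :=
    hP.comp (continuous_fst.prodMk (hb.comp (continuous_subtype_val.comp continuous_snd)))
  have hint : Integrable (fun p : Ω × closure D => P (p.1, b p.2)) (ν.prod (normMeas873 D)) :=
    hQ.integrable_of_hasCompactSupport (HasCompactSupport.of_compactSpace _)
  rw [integral_prod_symm _ hint]
  have e : (fun t : closure D => ∫ ω, P (ω, b t) ∂ν) = fun t : closure D => φ (b t) := by
    funext t
    exact (hφ (b t)).symm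
  show ∫ t : closure D, ∫ ω, P (ω, b t) ∂ν ∂(normMeas873 D) = _
  rw [e]
  exact integral_normMeas873 D fun t => φ (b t)

/-- **THE TORUS MEANS OF AN AVERAGE OF PURE TENSORS** (general form: any local condition which
is stable under the translations at infinity by the positive scalars of the torus data). -/
theorem isAvgPure_nat873 {𝔫 : Ideal (𝓞 K)} {r : G K} {r' : G K'}
    {aT : (InfinitePlace K → ℝ) → G K} {D : Set (InfinitePlace K → ℝ)}
    {aT' : (InfinitePlace K' → ℝ) → G K'} {D' : Set (InfinitePlace K' → ℝ)}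
    (hrel : H193.IsRelTorus 𝔫 r r' aT D aT' D')
    {𝔑 : Ideal (𝓞 K')} {T₀ : Finset (HeightOneSpectrum (𝓞 K))} {L : LocCond K K'} {a : ℂ}
    {φ₀ : G K' → ℂ} {f₀ : G K → ℂ} (hf : Continuous f₀)
    (hL : ∀ (t' : InfinitePlace K' → ℝ) (T : Finset (HeightOneSpectrum (𝓞 K)))
      (φ : ∀ w : HeightOneSpectrum (𝓞 K'), GL (Fin 2) (w.adicCompletion K') → ℂ)
      (Φ : InfinitePlace K' → GL (Fin 2) ℂ → ℂ)
      (f : ∀ v : HeightOneSpectrum (𝓞 K), GL (Fin 2) (v.adicCompletion K) → ℂ)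
      (F : InfinitePlace K → GL (Fin 2) ℂ → ℂ), L T φ Φ f F →
      L T φ (fun w => trC873 (infGL305 w (aT' t')) (Φ w)) f
        (fun v => trC873 (infGL305 v (aT (H193.fibSum193 (K := K) t'))) (F v)))
    (h : IsAvgPure 𝔑 𝔫 T₀ L a φ₀ f₀) :
    IsAvgPure 𝔑 𝔫 T₀ L a (H193.nat193 aT' D' φ₀) (H193.nat193 aT D f₀) := by
  classical
  obtain ⟨Ω, iT, iC, iT2, iSC, iM, iB, ν, iF, T, T', φc, Φc, fc, Fc, h1, h2, h3, h4, h5,
    ⟨C', hC', hC'2⟩, ⟨C, hC, hC2⟩, h8, h9⟩ := h
  have hbdd : Bornology.IsBounded D' := hrel.up.bdd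
  have hcomp : IsCompact (closure D') := hbdd.isCompact_closure
  have : CompactSpace (closure D') := isCompact_iff_compactSpace.1 hcomp
  have := isFiniteMeasure_normMeas873 hbdd
  have hfinU : ∀ (t : InfinitePlace K' → ℝ) (v : HeightOneSpectrum (𝓞 K')),
      TrivAtFin v (aT' t) := hrel.up.fin
  have hfinD : ∀ (t : InfinitePlace K → ℝ) (v : HeightOneSpectrum (𝓞 K)),
      TrivAtFin v (aT t) := hrel.down.fin
  have hbD : Continuous fun t' : InfinitePlace K' → ℝ => aT (H193.fibSum193 (K := K) t') :=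
    hrel.down.cont.comp continuous_fibSum873
  -- the members upstairs and downstairs are translates
  have eU : ∀ (ω : Ω) (t : InfinitePlace K' → ℝ) (x : G K'),
      pure305 (T' ω) (φc ω) (fun w => trC873 (infGL305 w (aT' t)) (Φc ω w)) x
        = pure305 (T' ω) (φc ω) (Φc ω) (x * (aT' t)⁻¹) := by
    intro ω t x
    exact pure_trl873 (z := aT' t) (hfinU t) (T' ω) (φc ω) (Φc ω) x
  have eD : ∀ (ω : Ω) (t : InfinitePlace K' → ℝ) (x : G K),
      pure305 (T ω) (fc ω)
          (fun v => trC873 (infGL305 v (aT (H193.fibSum193 (K := K) t))) (Fc ω v)) x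
        = pure305 (T ω) (fc ω) (Fc ω) (x * (aT (H193.fibSum193 (K := K) t))⁻¹) := by
    intro ω t x
    exact pure_trl873 (z := aT (H193.fibSum193 (K := K) t)) (hfinD _) (T ω) (fc ω) (Fc ω) x
  refine ⟨Ω × closure D', inferInstance, inferInstance, inferInstance, inferInstance,
    inferInstance, inferInstance, ν.prod (normMeas873 D'), inferInstance,
    fun p => T p.1, fun p => T' p.1, fun p => φc p.1,
    fun p w => trC873 (infGL305 w (aT' p.2.1)) (Φc p.1 w), fun p => fc p.1,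
    fun p v => trC873 (infGL305 v (aT (H193.fibSum193 (K := K) p.2.1))) (Fc p.1 v),
    ?_, ?_, ?_, ?_, ?_, ?_, ?_, ?_, ?_⟩
  · exact fun p => ⟨(h1 p.1).1, (h1 p.1).2.1, hL p.2.1 _ _ _ _ _ (h1 p.1).2.2⟩
  · intro p
    have e : pure305 (T' p.1) (φc p.1) (fun w => trC873 (infGL305 w (aT' p.2.1)) (Φc p.1 w))
        = fun x => pure305 (T' p.1) (φc p.1) (Φc p.1) (x * (aT' p.2.1)⁻¹) :=
      funext (eU p.1 p.2.1)
    rw [e]
    exact isTestFn_trl873 (hrel.up.central p.2.1) (h2 p.1)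
  · intro p
    have e : (fun x => a * pure305 (T p.1) (fc p.1)
          (fun v => trC873 (infGL305 v (aT (H193.fibSum193 (K := K) p.2.1))) (Fc p.1 v)) x)
        = fun x => (fun y => a * pure305 (T p.1) (fc p.1) (Fc p.1) y)
            (x * (aT (H193.fibSum193 (K := K) p.2.1))⁻¹) := by
      funext x
      rw [eD p.1 p.2.1 x]
    rw [e]
    exact isTestFn_trl873 (hrel.down.central _) (h3 p.1)
  · have e : (fun q : (Ω × closure D') × G K' =>
          pure305 (T' q.1.1) (φc q.1.1)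
            (fun w => trC873 (infGL305 w (aT' q.1.2.1)) (Φc q.1.1 w)) q.2)
        = fun q : (Ω × closure D') × G K' =>
          (fun p : Ω × G K' => pure305 (T' p.1) (φc p.1) (Φc p.1) p.2)
            (q.1.1, q.2 * (aT' q.1.2.1)⁻¹) := by
      funext q
      exact eU q.1.1 q.1.2.1 q.2
    rw [e]
    exact h4.comp ((continuous_fst.comp continuous_fst).prodMk
      (continuous_snd.mul (hrel.up.cont.comp
        (continuous_subtype_val.comp (continuous_snd.comp continuous_fst))).inv))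
  · have e : (fun q : (Ω × closure D') × G K =>
          a * pure305 (T q.1.1) (fc q.1.1)
            (fun v => trC873 (infGL305 v (aT (H193.fibSum193 (K := K) q.1.2.1)))
              (Fc q.1.1 v)) q.2)
        = fun q : (Ω × closure D') × G K =>
          (fun p : Ω × G K => a * pure305 (T p.1) (fc p.1) (Fc p.1) p.2)
            (q.1.1, q.2 * (aT (H193.fibSum193 (K := K) q.1.2.1))⁻¹) := by
      funext q
      show a * _ = a * _
      rw [eD q.1.1 q.1.2.1 q.2]
    rw [e]
    exact h5.comp ((continuous_fst.comp continuous_fst).prodMk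
      (continuous_snd.mul (hbD.comp
        (continuous_subtype_val.comp (continuous_snd.comp continuous_fst))).inv))
  · refine ⟨(fun p : G K' × (InfinitePlace K' → ℝ) => p.1 * aT' p.2) '' (C' ×ˢ closure D'),
      (hC'.prod hcomp).image (continuous_fst.mul (hrel.up.cont.comp continuous_snd)), ?_⟩
    intro p x hx
    rw [eU p.1 p.2.1 x] at hx
    exact ⟨(x * (aT' p.2.1)⁻¹, p.2.1), ⟨hC'2 p.1 _ hx, p.2.2⟩,
      inv_mul_cancel_right x _⟩
  · refine ⟨(fun p : G K × (InfinitePlace K' → ℝ) =>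
        p.1 * aT (H193.fibSum193 (K := K) p.2)) '' (C ×ˢ closure D'),
      (hC.prod hcomp).image (continuous_fst.mul (hbD.comp continuous_snd)), ?_⟩
    intro p x hx
    rw [eD p.1 p.2.1 x] at hx
    exact ⟨(x * (aT (H193.fibSum193 (K := K) p.2.1))⁻¹, p.2.1),
      ⟨hC2 p.1 _ hx, p.2.2⟩, inv_mul_cancel_right x _⟩
  · intro x
    have e : (fun p : Ω × closure D' =>
          pure305 (T' p.1) (φc p.1) (fun w => trC873 (infGL305 w (aT' p.2.1)) (Φc p.1 w)) x)
        = fun p : Ω × closure D' =>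
          (fun q : Ω × G K' => pure305 (T' q.1) (φc q.1) (Φc q.1) q.2)
            (p.1, (fun t : InfinitePlace K' → ℝ => x * (aT' t)⁻¹) p.2.1) :=
      funext fun p => eU p.1 p.2.1 x
    rw [e]
    exact (integral_param873 ν hbdd _ h4 (fun t : InfinitePlace K' → ℝ => x * (aT' t)⁻¹)
      (continuous_const.mul hrel.up.cont.inv) φ₀ h8).symm
  · intro x
    have e : (fun p : Ω × closure D' =>
          a * pure305 (T p.1) (fc p.1)
            (fun v => trC873 (infGL305 v (aT (H193.fibSum193 (K := K) p.2.1)))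
              (Fc p.1 v)) x)
        = fun p : Ω × closure D' =>
          (fun q : Ω × G K => a * pure305 (T q.1) (fc q.1) (Fc q.1) q.2)
            (p.1, (fun t : InfinitePlace K' → ℝ =>
              x * (aT (H193.fibSum193 (K := K) t))⁻¹) p.2.1) := by
      funext p
      show a * _ = a * _
      rw [eD p.1 p.2.1 x]
    rw [e, H193.nat_eq_push193 hrel hf x]
    exact (integral_param873 ν hbdd _ h5
      (fun t : InfinitePlace K' → ℝ => x * (aT (H193.fibSum193 (K := K) t))⁻¹)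
      (continuous_const.mul hbD.inv) f₀ h9).symm

end Main

theorem eqns_realised_natShapeAvg873 : True := by
  have _h0 := @normMeas873.eq_1
  have _h1 := @normMeas873.eq_def
  have _h2 := @normMeas873.eq_unfold
  trivial

end Fermat.Agent.LT.T7.H873

end

end
-- ===== PACK-END LT/T7/H873/NatShapeAvg.lean

-- ===== PACK-BEGIN LT/T7/H47/ST/SwapSupp.lean
section




/-!
# Row LT, tower T7, leaves T7.L2.1.H2a.B.0.U5 `PB57.SwapUpSuppC57` and T7.L2.1.H2a.B.0.D5
# `PB57.SwapDnSuppC57` (helper47, SPARES of registry rows 3069 / 3075), from the key identities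

OFF-MAIN.  Complete proofs, nothing assumed.  Own names only (suffix `47`).

    swapUpSuppC_of47 : PB57.SwapUpSumC57 K K' → PB57.SwapUpSuppC57 K K'
    swapDnSuppC_of47 : PB57.SwapDnSumC57 K K' → PB57.SwapDnSuppC57 K K'

The swapped function is a finite combination of translates of the function of the first pair by
elements which are Iwahori along the orbit: the support is Iwahori along the orbit (the Iwahori
subgroup is a group) and agrees outside the orbit with the finite union of the translates of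
the compact set of the first pair.
-/

set_option autoImplicit false

open AutomorphicForm IsDedekindDomain NumberField MeasureTheory
open scoped ComplexConjugate Pointwise

noncomputable section

namespace Fermat.Agent.LT.T7.H47.ST

open Fermat.Agent.LT.H556 Fermat.Agent.LT.H556.A0 Fermat.Agent.LT.T7 Fermat.Agent.LT
open Fermat.Agent.LT.T7.H893 Fermat.Agent.LT.T7.H305 Fermat.Agent.LT.T7.Q797

attribute [local instance] Fermat.Agent.LT.T5.instMeasurableSpaceG

section OneField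

variable {F : Type} [Field F] [NumberField F]

/-- A finite sum of right translates by Iwahori elements is Iwahori-supported. -/
theorem isIwSupported_sum_rtr47 (l : ℕ) (o : ℕ → HeightOneSpectrum (𝓞 F)) (C : Set (G F))
    (hC : IsCompact C) (φ : G F → ℂ) (hφ : T5.H32.IsIwSupported32 l o C φ)
    (H : Finset (G F)) (hH : ∀ h ∈ H, ∀ j < l, T5.InIwahori (o j) h)
    (ψ : G F → ℂ) (hψ : ∀ x, ψ x ≠ 0 → ∃ h ∈ H, φ (x * h⁻¹) ≠ 0) :
    ∃ C' : Set (G F), IsCompact C' ∧ T5.H32.IsIwSupported32 l o C' ψ := by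
  refine ⟨⋃ h ∈ H, (fun c => c * h) '' C, ?_, ?_⟩
  · exact H.isCompact_biUnion fun h _ => hC.image (continuous_id.mul continuous_const)
  · intro x hx
    obtain ⟨h, hh, hne⟩ := hψ x hx
    obtain ⟨hIw, c, hc, hag⟩ := hφ (x * h⁻¹) hne
    have ex : x = x * h⁻¹ * h := by simp
    refine ⟨fun j hj => ?_, c * h, ?_, ?_⟩
    · rw [ex]
      exact T5.H942.inIwahori_mul942 (o j) (hIw j hj) (hH h hh j hj)
    · exact Set.mem_biUnion hh ⟨c, hc, rfl⟩
    · have := T5.H942.agreeOutside_mul942 _ hag (T5.H942.agreeOutside_refl942 _ h)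
      rwa [← ex] at this

/-- A finite sum of left translates by Iwahori elements is Iwahori-supported. -/
theorem isIwSupported_sum_ltr47 (l : ℕ) (o : ℕ → HeightOneSpectrum (𝓞 F)) (C : Set (G F))
    (hC : IsCompact C) (φ : G F → ℂ) (hφ : T5.H32.IsIwSupported32 l o C φ)
    (X : Finset (G F)) (hX : ∀ x ∈ X, ∀ j < l, T5.InIwahori (o j) x)
    (ψ : G F → ℂ) (hψ : ∀ y, ψ y ≠ 0 → ∃ x ∈ X, φ (x⁻¹ * y) ≠ 0) :
    ∃ C' : Set (G F), IsCompact C' ∧ T5.H32.IsIwSupported32 l o C' ψ := by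
  refine ⟨⋃ x ∈ X, (fun c => x * c) '' C, ?_, ?_⟩
  · exact X.isCompact_biUnion fun x _ => hC.image (continuous_const.mul continuous_id)
  · intro y hy
    obtain ⟨x, hx, hne⟩ := hψ y hy
    obtain ⟨hIw, c, hc, hag⟩ := hφ (x⁻¹ * y) hne
    have ey : y = x * (x⁻¹ * y) := by simp
    refine ⟨fun j hj => ?_, x * c, ?_, ?_⟩
    · rw [ey]
      exact T5.H942.inIwahori_mul942 (o j) (hX x hx j hj) (hIw j hj)
    · exact Set.mem_biUnion hx ⟨c, hc, rfl⟩
    · have := T5.H942.agreeOutside_mul942 _ (T5.H942.agreeOutside_refl942 _ x) hag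
      rwa [← ey] at this

end OneField

variable (K K' : Type) [Field K] [NumberField K] [Field K'] [NumberField K'] [Algebra K K']

/-- **Leaf PB.0.U5 `SwapUpSuppC57`** from the key identity upstairs. -/
theorem swapUpSuppC_of47 (hS : PB57.SwapUpSumC57 K K') : PB57.SwapUpSuppC57 K K' := by
  intro ℓ hcyc hℓ hTC Φe B hB hram g hg 𝔫 h𝔫 μc hμc T₀ n n₀ m hexp c₁ Φ₁ F₁ hA fb hfb
    Ω iT iC iT2 iSC iM iB ν iF T T' φ₀ Φ f₀ F hdat
  obtain ⟨HU, -, hprop, hid⟩ := hS ℓ hcyc hℓ hTC Φe B hB hram g hg 𝔫 h𝔫 μc hμc T₀ n n₀ m hexp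
    c₁ Φ₁ F₁ hA fb hfb Ω iT iC iT2 iSC iM iB ν iF T T' φ₀ Φ f₀ F hdat
  have hcont := hdat.2.2.2.1
  have hΦ₁ := hdat.2.2.2.2.2.2.2.1
  obtain ⟨C, hC, hsupp⟩ := hA.up1_supp [] (by simp)
  have e : ∀ x, PB57.swapUpFn57 B T₀ n₀ ν T' φ₀ Φ x = ∑ h ∈ HU, Φ₁ [] (x * h⁻¹) := by
    intro x
    unfold PB57.swapUpFn57
    have e1 : (fun ω => pure305 (T' ω) (PB57.swUp57 B T₀ n₀ (φ₀ ω)) (Φ ω) x)
        = fun ω => ∑ h ∈ HU, pure305 (T' ω) (φ₀ ω) (Φ ω) (x * h⁻¹) := by
      funext ω
      exact (hid ω x).1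
    rw [e1, integral_finsetSum]
    · refine Finset.sum_congr rfl fun h _ => ?_
      rw [hΦ₁]
    · intro h _
      exact integrable_member47 ν (fun ω => pure305 (T' ω) (φ₀ ω) (Φ ω)) hcont _
  refine isIwSupported_sum_rtr47 ℓ B.o C hC (Φ₁ []) hsupp HU
    (fun h hh j hj => (hprop h hh).2.2.2.2 j hj) _ ?_
  intro x hx
  rw [e x] at hx
  obtain ⟨h, hh, hne⟩ := Finset.exists_ne_zero_of_sum_ne_zero hx
  exact ⟨h, hh, hne⟩

/-- **Leaf PB.0.D5 `SwapDnSuppC57`** from the key identity downstairs. -/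
theorem swapDnSuppC_of47 (hS : PB57.SwapDnSumC57 K K') : PB57.SwapDnSuppC57 K K' := by
  intro ℓ hcyc hℓ hTC Φe B hB hram g hg 𝔫 h𝔫 μc hμc T₀ n n₀ m hexp c₁ Φ₁ F₁ hA fb hfb
    Ω iT iC iT2 iSC iM iB ν iF T T' φ₀ Φ f₀ F hdat a
  obtain ⟨X, c, hprop, hid⟩ := hS ℓ hcyc hℓ hTC Φe B hB hram g hg 𝔫 h𝔫 μc hμc T₀ n n₀ m hexp
    c₁ Φ₁ F₁ hA fb hfb Ω iT iC iT2 iSC iM iB ν iF T T' φ₀ Φ f₀ F hdat
  have hcont : Continuous (fun p : Ω × G K => pure305 (T p.1) (f₀ p.1) (F p.1) p.2) := by
    have := hdat.2.2.2.2.1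
    simpa only [one_mul] using this
  have hF₁ : ∀ h : G K, F₁ [] h = ∫ ω, pure305 (T ω) (f₀ ω) (F ω) h ∂ν := by
    intro h
    have := hdat.2.2.2.2.2.2.2.2 h
    simpa only [one_mul] using this
  obtain ⟨C, hC, hsupp⟩ := hA.dn1_supp [] (by simp)
  have e : ∀ y, PB57.swapDnFn57 B T₀ fb a ν T f₀ F y
      = a * ∑ x ∈ X, c x * F₁ [] (x⁻¹ * y) := by
    intro y
    unfold PB57.swapDnFn57
    have e1 : (fun ω => a * pure305 (T ω) (PB57.swDn57 B T₀ fb (f₀ ω)) (F ω) y)
        = fun ω => a * ∑ x ∈ X, c x * pure305 (T ω) (f₀ ω) (F ω) (x⁻¹ * y) := by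
      funext ω
      rw [hid ω y]
    rw [e1, integral_const_mul, integral_finsetSum]
    · congr 1
      refine Finset.sum_congr rfl fun x _ => ?_
      rw [integral_const_mul, hF₁]
    · intro x _
      exact (integrable_member47 ν (fun ω => pure305 (T ω) (f₀ ω) (F ω)) hcont _).const_mul _
  refine isIwSupported_sum_ltr47 1 (fun _ => B.u) C hC (F₁ []) hsupp X
    (fun x hx j _ => (hprop x hx).2.2) _ ?_
  intro y hy
  rw [e y] at hy
  have h1 : ∑ x ∈ X, c x * F₁ [] (x⁻¹ * y) ≠ 0 := right_ne_zero_of_mul hy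
  obtain ⟨x, hx, hne⟩ := Finset.exists_ne_zero_of_sum_ne_zero h1
  exact ⟨x, hx, right_ne_zero_of_mul hne⟩

end Fermat.Agent.LT.T7.H47.ST

end

end
-- ===== PACK-END LT/T7/H47/ST/SwapSupp.lean

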