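import Mathlib
import Fermat.Agent.Pack.LT3.E23L0
import Fermat.Agent.Pack.LT4.E7L3
import Fermat.Agent.Pack.LT4.E7L2
import Fermat.Agent.Pack.LT4.E4L2
import Fermat.Agent.Pack.LT4.E1L3
import Fermat.Agent.Pack.LT3.E24L0
import Fermat.Agent.Pack.LT3.E26L1
import Fermat.Agent.Pack.LT3.E26L2
import Fermat.Agent.Pack.LT3.E5L3
import Fermat.Agent.Pack.LT3.E26L0
import Fermat.Agent.Pack.LT3.E27L1
import Fermat.Agent.Pack.LT3.E22L3
import Fermat.Agent.Pack.LT3.E22L2
import Fermat.Agent.Pack.LT3.E22L1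
import Fermat.Agent.Pack.LT4.E7L1
import Fermat.Agent.Pack.LT4.E6L3
import Fermat.Agent.Pack.LT4.E0L1
import Fermat.Agent.Pack.LT4.E0L2
import Fermat.Agent.Pack.LT4.E7L0
import Fermat.Agent.Pack.LT3.E29L3
import Fermat.Agent.Pack.LT4.E6L2
import Fermat.Agent.Pack.LT4.E5L0
import Fermat.Agent.Pack.LT3.E30L1
import Fermat.Agent.Pack.LT4.E5L1
import Fermat.Agent.Pack.LT4.E5L3
import Fermat.Agent.Pack.LT3.E30L3
import Fermat.Agent.Pack.LT4.E5L2
import Fermat.Agent.Pack.LT4.E2L3
import Fermat.Agent.Pack.LT3.E29L2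
import Fermat.Agent.Pack.LT3.E29L1
import Fermat.Agent.Pack.LT3.E27L0
import Fermat.Agent.Pack.LT3.E25L0
import Fermat.Agent.Pack.LT4.E2L0
import Fermat.Agent.Pack.LT3.E30L2

set_option linter.all false

-- ===== PACK-BEGIN LT/T7/H613/V2Basis.lean
section





/-!
# Row LT, tower T7, NODE T7.L2.3.5.4.2 `SD534.V2BasisC` (helper613, registry row 2355)

OFF-MAIN.  Complete proof, nothing assumed.
Spec: `Fermat/Agent/LT/T7/H534/WBasisSpec.lean` (helper534@f2b76c564), byte-identical copy.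
Assets: tower T2 of helper130 (`T2/AdapterW.lean`, `T2/Admissible.lean`, `T2/ExtrasSeq.lean`,
byte-identical copies of origin/helper130@9e2adc93b).

    v2BasisC613 (K) : SD534.V2BasisC K

## Proof

`T2.cuspSpecPlus_closed` gives an orthonormal complete family `e j` (`j : ι`) of joint
eigen-cusp-functions of level `U(𝔫)` with unitary data `(a j, b j, m j)`; `ι` is countable
(`T2.countable_index130`), so it is enumerated by an injection `ι → ℕ` with range `J`.

* NORMALISED DATA `cN j`: `a`, `b` are replaced by `0` at the places dividing `𝔫`, `m w d` by `0`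
  unless `0 < d` and a sphere family of radius `d` at `w` exists.  The eigen-conditions and the
  unitarity relations only see the other values, so they are kept.
* FINITE CLASSES: equal normalised data have equal mean eigenvalue functions at the positive
  radii, so the class is contained in the finite set of `T2.finite_meanClass130`.
* EXHAUSTION: a member `ψ` of `V₂` with the data `cN j₀` is orthogonal to every `e j` with
  `cN j ≠ cN j₀` (`T_v* = S_v⁻¹ T_v`, `S_v` unitary, the sphere means self-adjoint: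
  `T2.OpsAdj`; Hecke coset systems and scalar uniformisers exist: `T1.HeckeCosetC`).  So
  `ψ' = ψ - ∑_{j in the class} ⟨ψ, e j⟩ e j` is a cusp function orthogonal to every `e j`; by
  Parseval `‖ψ'‖² = 0`, and `ψ' = 0` (`T2.PairDefinite`).
-/

set_option autoImplicit false
set_option linter.unusedSectionVars false
set_option linter.unusedVariables false

open AutomorphicForm IsDedekindDomain NumberField MeasureTheory
open scoped ComplexConjugate

noncomputable section

namespace Fermat.Agent.LT.T7.H613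

open Fermat.Agent.LT.H556 Fermat.Agent.LT.H556.A0 Fermat.Agent.LT Fermat.Agent.LT.T7

attribute [local instance] Fermat.Agent.LT.T2.borelG

variable {K : Type} [Field K] [NumberField K]

/-! ## 1. Orthogonality of eigenfunctions with different data -/

theorem sqrt_absNorm_ne_zero613 (v : HeightOneSpectrum (𝓞 K)) :
    ((Real.sqrt (Ideal.absNorm v.asIdeal : ℝ) : ℝ) : ℂ) ≠ 0 := by
  have h0 : Ideal.absNorm v.asIdeal ≠ 0 := by
    intro h
    exact v.ne_bot (Ideal.absNorm_eq_zero_iff.1 h)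
  have h1 : (0 : ℝ) < (Ideal.absNorm v.asIdeal : ℝ) := by
    exact_mod_cast Nat.pos_of_ne_zero h0
  exact_mod_cast (Real.sqrt_pos.2 h1).ne'

/-- The eigenvalue of `S_v⁻¹`. -/
theorem shift_inv_eig613 {ψ : G K → ℂ} {z : G K} {b : ℂ} (hb : b ≠ 0)
    (h : ∀ g : G K, ψ (g * z) = b * ψ g) (g : G K) : ψ (g * z⁻¹) = b⁻¹ * ψ g := by
  have h1 := h (g * z⁻¹)
  rw [inv_mul_cancel_right] at h1
  rw [h1, ← mul_assoc, inv_mul_cancel₀ hb, one_mul]

theorem orth_of_a613 {𝔫 : Ideal (𝓞 K)} (h𝔫 : 𝔫 ≠ ⊥) (F : T2.Frame K) {φ ψ : G K → ℂ}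
    (hφ : T2.IsCuspFn 𝔫 φ) (hψ : T2.IsCuspFn 𝔫 ψ) {v : HeightOneSpectrum (𝓞 K)}
    (hv : ¬ v.asIdeal ∣ 𝔫) {a b a' b' : ℂ} (h1 : IsHeckeEigenAt φ v a b)
    (h2 : IsHeckeEigenAt ψ v a' b') (hb' : ‖b'‖ = 1) (ha' : conj a' = a' * conj b')
    (hne : a ≠ a') : T2.pair F φ ψ = 0 := by
  obtain ⟨⟨H, hH⟩, -, ⟨z, hz⟩⟩ := (T1.t1Out K).heckeCoset v
  have hOA := (T2.ops_closed K 𝔫 h𝔫).2 F
  have key := hOA.2.1 v hv H z hH hz φ ψ hφ hψ
  have hb0 : b' ≠ 0 := by
    intro h
    rw [h, norm_zero] at hb'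
    exact zero_ne_one hb'
  have hcb0 : conj b' ≠ 0 := fun h => hb0 ((map_eq_zero _).1 h)
  set q : ℂ := ((Real.sqrt (Ideal.absNorm v.asIdeal : ℝ) : ℝ) : ℂ) with hq
  have hq0 : q ≠ 0 := sqrt_absNorm_ne_zero613 v
  have e1 : T2.heckeSum H φ = (q * a) • φ := by
    funext g
    exact h1.1 H hH g
  have e2 : T2.shift z⁻¹ (T2.heckeSum H ψ) = (q * a' * b'⁻¹) • ψ := by
    funext g
    show (∑ h ∈ H, ψ (g * z⁻¹ * h)) = (q * a' * b'⁻¹) * ψ g
    rw [h2.1 H hH (g * z⁻¹), shift_inv_eig613 hb0 (h2.2 z hz) g]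
    ring
  rw [e1, e2, T2.H566.pair_smul_left566, T2.H566.pair_smul_right566] at key
  have e3 : conj (q * a' * b'⁻¹) = q * a' := by
    rw [map_mul, map_mul, map_inv₀, ha', hq, Complex.conj_ofReal, mul_assoc, mul_assoc,
      mul_inv_cancel₀ hcb0, mul_one]
  rw [e3] at key
  have h3 : q * (a - a') * T2.pair F φ ψ = 0 := by linear_combination key
  rcases mul_eq_zero.1 h3 with h4 | h4
  · rcases mul_eq_zero.1 h4 with h5 | h5
    · exact absurd h5 hq0
    · exact absurd (sub_eq_zero.1 h5) hne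
  · exact h4

theorem orth_of_b613 {𝔫 : Ideal (𝓞 K)} (h𝔫 : 𝔫 ≠ ⊥) (F : T2.Frame K) {φ ψ : G K → ℂ}
    (hφ : T2.IsCuspFn 𝔫 φ) (hψ : T2.IsCuspFn 𝔫 ψ) {v : HeightOneSpectrum (𝓞 K)}
    (hv : ¬ v.asIdeal ∣ 𝔫) {a b a' b' : ℂ} (h1 : IsHeckeEigenAt φ v a b)
    (h2 : IsHeckeEigenAt ψ v a' b') (hb' : ‖b'‖ = 1) (hne : b ≠ b') :
    T2.pair F φ ψ = 0 := by
  obtain ⟨-, -, ⟨z, hz⟩⟩ := (T1.t1Out K).heckeCoset v
  have hOA := (T2.ops_closed K 𝔫 h𝔫).2 F
  have key := hOA.1 v hv z hz φ ψ hφ hψ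
  have e1 : T2.shift z φ = b • φ := by
    funext g
    exact h1.2 z hz g
  have e2 : T2.shift z ψ = b' • ψ := by
    funext g
    exact h2.2 z hz g
  rw [e1, e2, T2.H566.pair_smul_left566, T2.H566.pair_smul_right566] at key
  have hbb : conj b' * b' = 1 := by
    rw [mul_comm, Complex.mul_conj, Complex.normSq_eq_norm_sq, hb', one_pow, Complex.ofReal_one]
  by_contra hp
  have h3 : b * conj b' = 1 := by
    have h4 : (b * conj b' - 1) * T2.pair F φ ψ = 0 := by linear_combination key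
    rcases mul_eq_zero.1 h4 with h5 | h5
    · exact sub_eq_zero.1 h5
    · exact absurd h5 hp
  apply hne
  calc b = b * (conj b' * b') := by rw [hbb, mul_one]
    _ = (b * conj b') * b' := by ring
    _ = b' := by rw [h3, one_mul]

theorem orth_of_m613 {𝔫 : Ideal (𝓞 K)} (h𝔫 : 𝔫 ≠ ⊥) (F : T2.Frame K) {φ ψ : G K → ℂ}
    (hφ : T2.IsCuspFn 𝔫 φ) (hψ : T2.IsCuspFn 𝔫 ψ) {w : InfinitePlace K} (hw : w.IsComplex)
    {d : ℝ} (hd : 0 < d) {Y : ℝ → ℝ → G K} (hY : T2.IsSphereAt w d Y) {m m' : ℝ → ℂ}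
    (h1 : T2.MeanEigC φ w m) (h2 : T2.MeanEigC ψ w m') (hm' : (m' d).im = 0)
    (hne : m d ≠ m' d) : T2.pair F φ ψ = 0 := by
  have hOA := (T2.ops_closed K 𝔫 h𝔫).2 F
  have key := hOA.2.2.1 w hw d hd Y hY φ ψ hφ hψ
  have e1 : T2.sphereMean Y φ = (m d) • φ := by
    funext g
    exact h1 d hd Y hY g
  have e2 : T2.sphereMean Y ψ = (m' d) • ψ := by
    funext g
    exact h2 d hd Y hY g
  rw [e1, e2, T2.H566.pair_smul_left566, T2.H566.pair_smul_right566] at key
  have e3 : conj (m' d) = m' d := Complex.conj_eq_iff_im.2 hm'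
  rw [e3] at key
  have h3 : (m d - m' d) * T2.pair F φ ψ = 0 := by linear_combination key
  rcases mul_eq_zero.1 h3 with h4 | h4
  · exact absurd (sub_eq_zero.1 h4) hne
  · exact h4


/-! ## 2. Normalised data -/

theorem eigData_ext613 {c c' : EigData K} (ha : c.a = c'.a) (hb : c.b = c'.b)
    (hm : c.m = c'.m) : c = c' := by
  cases c
  cases c'
  simp only at ha hb hm
  subst ha hb hm
  rfl

open Classical in
/-- The normalised eigen-data: `0` at the places dividing the level, and at the radii which are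
not positive or carry no sphere family. -/
def normData613 (𝔫 : Ideal (𝓞 K)) (a b : HeightOneSpectrum (𝓞 K) → ℂ)
    (m : InfinitePlace K → ℝ → ℂ) : EigData K where
  a := fun v => if v.asIdeal ∣ 𝔫 then 0 else a v
  b := fun v => if v.asIdeal ∣ 𝔫 then 0 else b v
  m := fun w d => if 0 < d ∧ ∃ Y : ℝ → ℝ → G K, T2.IsSphereAt w d Y then m w d else 0

theorem normData_a613 {𝔫 : Ideal (𝓞 K)} {a b : HeightOneSpectrum (𝓞 K) → ℂ}
    {m : InfinitePlace K → ℝ → ℂ} {v : HeightOneSpectrum (𝓞 K)} (hv : ¬ v.asIdeal ∣ 𝔫) :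
    (normData613 𝔫 a b m).a v = a v := if_neg hv

theorem normData_b613 {𝔫 : Ideal (𝓞 K)} {a b : HeightOneSpectrum (𝓞 K) → ℂ}
    {m : InfinitePlace K → ℝ → ℂ} {v : HeightOneSpectrum (𝓞 K)} (hv : ¬ v.asIdeal ∣ 𝔫) :
    (normData613 𝔫 a b m).b v = b v := if_neg hv

theorem normData_a_bad613 {𝔫 : Ideal (𝓞 K)} {a b : HeightOneSpectrum (𝓞 K) → ℂ}
    {m : InfinitePlace K → ℝ → ℂ} {v : HeightOneSpectrum (𝓞 K)} (hv : v.asIdeal ∣ 𝔫) :
    (normData613 𝔫 a b m).a v = 0 := if_pos hv

theorem normData_b_bad613 {𝔫 : Ideal (𝓞 K)} {a b : HeightOneSpectrum (𝓞 K) → ℂ}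
    {m : InfinitePlace K → ℝ → ℂ} {v : HeightOneSpectrum (𝓞 K)} (hv : v.asIdeal ∣ 𝔫) :
    (normData613 𝔫 a b m).b v = 0 := if_pos hv

theorem normData_m613 {𝔫 : Ideal (𝓞 K)} {a b : HeightOneSpectrum (𝓞 K) → ℂ}
    {m : InfinitePlace K → ℝ → ℂ} {w : InfinitePlace K} {d : ℝ} (hd : 0 < d)
    {Y : ℝ → ℝ → G K} (hY : T2.IsSphereAt w d Y) :
    (normData613 𝔫 a b m).m w d = m w d := if_pos ⟨hd, Y, hY⟩

theorem normData_m_bad613 {𝔫 : Ideal (𝓞 K)} {a b : HeightOneSpectrum (𝓞 K) → ℂ}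
    {m : InfinitePlace K → ℝ → ℂ} {w : InfinitePlace K} {d : ℝ}
    (h : ¬ (0 < d ∧ ∃ Y : ℝ → ℝ → G K, T2.IsSphereAt w d Y)) :
    (normData613 𝔫 a b m).m w d = 0 := if_neg h

/-- A joint eigenfunction of T2 has the normalised data. -/
theorem isEigFn_norm613 {𝔫 : Ideal (𝓞 K)} {r : G K} (hr : T5.IsRayGen r)
    (u : HeightOneSpectrum (𝓞 K)) {e : G K → ℂ} {a b : HeightOneSpectrum (𝓞 K) → ℂ}
    {m : InfinitePlace K → ℝ → ℂ} (hc : T2.IsCuspFn 𝔫 e)
    (hh : ∀ v : HeightOneSpectrum (𝓞 K), ¬ v.asIdeal ∣ 𝔫 → IsHeckeEigenAt e v (a v) (b v))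
    (hm : ∀ w : InfinitePlace K, T2.MeanEigC e w (m w)) :
    IsEigFn 𝔫 r 0 (fun _ => u) e (normData613 𝔫 a b m) where
  inv := (T2.isWFn_zero_iff130 hr _ e).2 hc
  hecke := fun v hv => by
    rw [normData_a613 hv, normData_b613 hv]
    exact hh v hv
  mean := fun w d hd Y hY g => by
    have h := hm w d hd Y hY g
    have e1 : (normData613 𝔫 a b m).m w d = m w d := normData_m613 hd hY
    rw [e1]
    exact h

/-- The normalised data of a unitary datum are unitary outside the level. -/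
theorem isUnitOut_norm613 {𝔫 : Ideal (𝓞 K)} {a b : HeightOneSpectrum (𝓞 K) → ℂ}
    {m : InfinitePlace K → ℝ → ℂ}
    (hb : ∀ v : HeightOneSpectrum (𝓞 K), ¬ v.asIdeal ∣ 𝔫 → ‖b v‖ = 1)
    (ha : ∀ v : HeightOneSpectrum (𝓞 K), ¬ v.asIdeal ∣ 𝔫 → conj (a v) = a v * conj (b v))
    (hbd : ∀ v : HeightOneSpectrum (𝓞 K), ¬ v.asIdeal ∣ 𝔫 →
      ‖a v‖ * Real.sqrt (Ideal.absNorm v.asIdeal : ℝ) ≤ (Ideal.absNorm v.asIdeal : ℝ) + 1)
    (hre : ∀ (w : InfinitePlace K) (d : ℝ), 0 < d → (m w d).im = 0)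
    (hmb : ∀ (w : InfinitePlace K) (d : ℝ), 0 < d → ‖m w d‖ ≤ 4 * Real.pi) :
    SD534.IsUnitOut 𝔫 (normData613 𝔫 a b m) := by
  refine ⟨fun v hv => ?_, fun w d hd => ?_⟩
  · rw [normData_a613 hv, normData_b613 hv]
    exact ⟨hb v hv, ha v hv, hbd v hv⟩
  · by_cases h : 0 < d ∧ ∃ Y : ℝ → ℝ → G K, T2.IsSphereAt w d Y
    · obtain ⟨_, Y, hY⟩ := h
      rw [normData_m613 hd hY]
      exact ⟨hre w d hd, hmb w d hd⟩
    · rw [normData_m_bad613 h]
      refine ⟨rfl, ?_⟩
      rw [norm_zero]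
      positivity

/-- Two eigenfunctions which are not orthogonal have the same normalised data. -/
theorem normData_eq_of_pair_ne613 (hcx : ∀ w : InfinitePlace K, w.IsComplex)
    {𝔫 : Ideal (𝓞 K)} (h𝔫 : 𝔫 ≠ ⊥) (F : T2.Frame K) {r : G K} (hr : T5.IsRayGen r)
    (u : HeightOneSpectrum (𝓞 K)) {ψ e : G K → ℂ}
    {a₀ b₀ a b : HeightOneSpectrum (𝓞 K) → ℂ} {m₀ m : InfinitePlace K → ℝ → ℂ}
    (hψ : IsEigFn 𝔫 r 0 (fun _ => u) ψ (normData613 𝔫 a₀ b₀ m₀))
    (hc : T2.IsCuspFn 𝔫 e)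
    (hh : ∀ v : HeightOneSpectrum (𝓞 K), ¬ v.asIdeal ∣ 𝔫 → IsHeckeEigenAt e v (a v) (b v))
    (hm : ∀ w : InfinitePlace K, T2.MeanEigC e w (m w))
    (hb : ∀ v : HeightOneSpectrum (𝓞 K), ¬ v.asIdeal ∣ 𝔫 → ‖b v‖ = 1)
    (ha : ∀ v : HeightOneSpectrum (𝓞 K), ¬ v.asIdeal ∣ 𝔫 → conj (a v) = a v * conj (b v))
    (hre : ∀ (w : InfinitePlace K) (d : ℝ), 0 < d → (m w d).im = 0)
    (hp : T2.pair F ψ e ≠ 0) :
    normData613 𝔫 a b m = normData613 𝔫 a₀ b₀ m₀ := by
  have hψc : T2.IsCuspFn 𝔫 ψ := (T2.isWFn_zero_iff130 hr _ ψ).1 hψ.inv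
  refine eigData_ext613 (funext fun v => ?_) (funext fun v => ?_)
    (funext fun w => funext fun d => ?_)
  · by_cases hv : v.asIdeal ∣ 𝔫
    · rw [normData_a_bad613 hv, normData_a_bad613 hv]
    · by_contra hne
      rw [normData_a613 hv] at hne
      exact hp (orth_of_a613 h𝔫 F hψc hc hv (hψ.hecke v hv) (hh v hv) (hb v hv) (ha v hv)
        (fun h => hne h.symm))
  · by_cases hv : v.asIdeal ∣ 𝔫
    · rw [normData_b_bad613 hv, normData_b_bad613 hv]
    · by_contra hne
      rw [normData_b613 hv] at hne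
      exact hp (orth_of_b613 h𝔫 F hψc hc hv (hψ.hecke v hv) (hh v hv) (hb v hv)
        (fun h => hne h.symm))
  · by_cases h : 0 < d ∧ ∃ Y : ℝ → ℝ → G K, T2.IsSphereAt w d Y
    · obtain ⟨hd, Y, hY⟩ := h
      by_contra hne
      rw [normData_m613 hd hY] at hne
      exact hp (orth_of_m613 h𝔫 F hψc hc (hcx w) hd hY (hψ.mean w) (hm w) (hre w d hd)
        (fun h => hne h.symm))
    · rw [normData_m_bad613 h, normData_m_bad613 h]


/-! ## 3. Finite combinations of cusp functions -/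

theorem isCuspFn_smul613 (hFD : T1.AddFundDomC K) {𝔫 : Ideal (𝓞 K)} {φ : G K → ℂ}
    (hφ : T2.IsCuspFn 𝔫 φ) (c : ℂ) : T2.IsCuspFn 𝔫 (c • φ) := by
  have h := T2.H566.isCuspFn_add_smul566 hFD (T2.H566.isCuspFn_zero566 𝔫) hφ c
  have e1 : (fun g => (fun _ : G K => (0 : ℂ)) g + c * φ g) = c • φ := by
    funext g
    show (0 : ℂ) + c * φ g = c * φ g
    rw [zero_add]
  rw [e1] at h
  exact h

theorem sub_sum_insert613 {ι : Type} [DecidableEq ι] (ψ : G K → ℂ) (e : ι → G K → ℂ)
    (coef : ι → ℂ) {j : ι} {T : Finset ι} (hj : j ∉ T) :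
    (fun g => ψ g - ∑ i ∈ insert j T, coef i * e i g)
      = (fun g => ψ g - ∑ i ∈ T, coef i * e i g) + (-(coef j)) • e j := by
  funext g
  show ψ g - ∑ i ∈ insert j T, coef i * e i g
    = (ψ g - ∑ i ∈ T, coef i * e i g) + -(coef j) * e j g
  rw [Finset.sum_insert hj]
  ring

theorem sub_sum_empty613 {ι : Type} (ψ : G K → ℂ) (e : ι → G K → ℂ) (coef : ι → ℂ) :
    (fun g => ψ g - ∑ i ∈ (∅ : Finset ι), coef i * e i g) = ψ := by
  funext g
  rw [Finset.sum_empty, sub_zero]

theorem isCuspFn_add613 (hFD : T1.AddFundDomC K) {𝔫 : Ideal (𝓞 K)} {φ ψ : G K → ℂ}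
    (hφ : T2.IsCuspFn 𝔫 φ) (hψ : T2.IsCuspFn 𝔫 ψ) : T2.IsCuspFn 𝔫 (φ + ψ) := by
  have h := T2.H566.isCuspFn_add_smul566 hFD hφ hψ 1
  have e1 : (fun g => φ g + 1 * ψ g) = φ + ψ := by
    funext g
    show φ g + 1 * ψ g = φ g + ψ g
    rw [one_mul]
  rw [e1] at h
  exact h

theorem isCuspFn_sub_sum613 (hFD : T1.AddFundDomC K) {𝔫 : Ideal (𝓞 K)} {ι : Type}
    {ψ : G K → ℂ} {e : ι → G K → ℂ} (hψ : T2.IsCuspFn 𝔫 ψ) (he : ∀ j, T2.IsCuspFn 𝔫 (e j))
    (coef : ι → ℂ) (T : Finset ι) :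
    T2.IsCuspFn 𝔫 (fun g => ψ g - ∑ j ∈ T, coef j * e j g) := by
  classical
  induction T using Finset.induction_on with
  | empty =>
    rw [sub_sum_empty613]
    exact hψ
  | insert j T hj ih =>
    rw [sub_sum_insert613 ψ e coef hj]
    exact isCuspFn_add613 hFD ih (isCuspFn_smul613 hFD (he j) _)

theorem pair_sub_sum613 (hFD : T1.AddFundDomC K) (F : T2.Frame K) {𝔫 : Ideal (𝓞 K)} {ι : Type}
    {ψ φ : G K → ℂ} {e : ι → G K → ℂ} (hψ : T2.IsCuspFn 𝔫 ψ) (he : ∀ j, T2.IsCuspFn 𝔫 (e j))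
    (hφ : T2.IsCuspFn 𝔫 φ) (coef : ι → ℂ) (T : Finset ι) :
    T2.pair F (fun g => ψ g - ∑ j ∈ T, coef j * e j g) φ
      = T2.pair F ψ φ - ∑ j ∈ T, coef j * T2.pair F (e j) φ := by
  classical
  induction T using Finset.induction_on with
  | empty =>
    rw [sub_sum_empty613, Finset.sum_empty, sub_zero]
  | insert j T hj ih =>
    rw [sub_sum_insert613 ψ e coef hj,
      T2.H566.pair_add_left566 F (isCuspFn_sub_sum613 hFD hψ he coef T)
        (isCuspFn_smul613 hFD (he j) _) hφ,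
      T2.H566.pair_smul_left566, ih, Finset.sum_insert hj]
    ring

/-- A cusp function which is orthogonal to a complete family is zero. -/
theorem eq_zero_of_orth613 {𝔫 : Ideal (𝓞 K)} (h𝔫 : 𝔫 ≠ ⊥) (F : T2.Frame K) {ι : Type}
    {e : ι → G K → ℂ} {φ : G K → ℂ} (hφ : T2.IsCuspFn 𝔫 φ)
    (hpars : HasSum (fun j => ‖T2.pair F φ (e j)‖ ^ 2) (T2.nsq F φ))
    (horth : ∀ j, T2.pair F φ (e j) = 0) (g : G K) : φ g = 0 := by
  have h0 : (fun j => ‖T2.pair F φ (e j)‖ ^ 2) = fun _ => (0 : ℝ) := by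
    funext j
    rw [horth j, norm_zero]
    norm_num
  rw [h0] at hpars
  have h1 : T2.nsq F φ = 0 := hpars.unique hasSum_zero
  have h2 : T2.pair F φ φ = 0 := by
    rw [T2.H566.pair_self_ofReal566, h1, Complex.ofReal_zero]
  exact (T2.pairDefinite_closed K 𝔫 h𝔫 F φ hφ).2 h2 g


/-! ## 4. The node -/

/-- **NODE WB.2 = `V₂`-BASIS** (`SD534.V2BasisC`). -/
theorem v2BasisC613 (K : Type) [Field K] [NumberField K] : SD534.V2BasisC K := by
  classical
  intro μ F r 𝔫 u h𝔫 hF hr hcx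
  have hFD : T1.AddFundDomC K := (T1.t1Out K).addFundDom
  -- the frame of T2
  have hR : T7.IsFrame5 (⟨μ, F, r⟩ : T7.Frame5 K) := ⟨hF, hr⟩
  obtain ⟨ι, e, m, a, b, hB⟩ :=
    T2.cuspSpecPlus_closed K 𝔫 h𝔫 (T2.frameOf130 (⟨μ, F, r⟩ : T7.Frame5 K) hR)
  have hcount : Countable ι :=
    T2.countable_index130 h𝔫 hB.basis.cusp hB.basis.norm_one hB.basis.orth hB.eig_op
  obtain ⟨g, hg⟩ := hcount.exists_injective_nat
  -- the normalised data
  have hEig : ∀ j, IsEigFn 𝔫 r 0 (fun _ => u) (e j) (normData613 𝔫 (a j) (b j) (m j)) :=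
    fun j => isEigFn_norm613 hr u (hB.basis.cusp j) (fun v hv => hB.basis.hecke j v hv)
      (fun w => hB.basis.eig_complex j w (hcx w))
  have hUnit : ∀ j, SD534.IsUnitOut 𝔫 (normData613 𝔫 (a j) (b j) (m j)) :=
    fun j => isUnitOut_norm613 (fun v hv => hB.basis.unit_b j v hv)
      (fun v hv => hB.basis.conj_a j v hv) (fun v hv => hB.basis.bound_a j v hv)
      (fun w d hd => hB.basis.real_m j w d hd) (fun w d hd => hB.bound_m j w d hd)
  -- finiteness of the classes
  have hFin : ∀ j₀ : ι, {j : ι | normData613 𝔫 (a j) (b j) (m j)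
      = normData613 𝔫 (a j₀) (b j₀) (m j₀)}.Finite := by
    intro j₀
    have h1 := T2.finite_meanClass130 hcx h𝔫
      (F := T2.frameOf130 (⟨μ, F, r⟩ : T7.Frame5 K) hR) (u := e)
      (m := fun j => (normData613 𝔫 (a j) (b j) (m j)).m) hB.basis.cusp hB.basis.norm_one
      hB.basis.orth (fun j w => (hEig j).mean w) hB.eig_op j₀
    refine h1.subset ?_
    intro j hj w d hd
    have hj' : normData613 𝔫 (a j) (b j) (m j) = normData613 𝔫 (a j₀) (b j₀) (m j₀) := hj
    show (normData613 𝔫 (a j) (b j) (m j)).m w d = (normData613 𝔫 (a j₀) (b j₀) (m j₀)).m w d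
    rw [hj']
  -- the sequence
  set v : ℕ → G K → ℂ := fun n =>
    if h : ∃ j, g j = n then e (Classical.choose h) else 0 with hv
  set c : ℕ → EigData K := fun n =>
    if h : ∃ j, g j = n then
      normData613 𝔫 (a (Classical.choose h)) (b (Classical.choose h)) (m (Classical.choose h))
    else ⟨fun _ => 0, fun _ => 0, fun _ _ => 0⟩ with hc
  have hv_g : ∀ j, v (g j) = e j := fun j => by
    have h : ∃ j', g j' = g j := ⟨j, rfl⟩
    simp only [hv, dif_pos h]
    rw [hg (Classical.choose_spec h)]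
  have hc_g : ∀ j, c (g j) = normData613 𝔫 (a j) (b j) (m j) := fun j => by
    have h : ∃ j', g j' = g j := ⟨j, rfl⟩
    simp only [hc, dif_pos h]
    rw [hg (Classical.choose_spec h)]
  refine ⟨v, Set.range g, c, ?_, ?_, ?_, ?_, ?_, ?_, ?_⟩
  · -- eig
    rintro _ ⟨j, rfl⟩
    rw [hv_g, hc_g]
    exact hEig j
  · -- unit
    rintro _ ⟨j, rfl⟩
    rw [hc_g]
    exact hUnit j
  · -- norm_one
    rintro _ ⟨j, rfl⟩
    rw [hv_g]
    exact hB.basis.norm_one j
  · -- orth
    rintro _ ⟨i, rfl⟩ _ ⟨j, rfl⟩ hij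
    rw [hv_g, hv_g]
    exact hB.basis.orth i j fun h => hij (by rw [h])
  · -- parseval
    intro ψ hψ
    have hs := hB.basis.parseval ψ ((T2.isWFn_zero_iff130 hr _ ψ).1 hψ)
    refine ((Equiv.ofInjective g hg).hasSum_iff
      (f := fun n : Set.range g => ‖T5.innerD μ F ψ (v n)‖ ^ 2)).1 ?_
    have e1 : ((fun n : Set.range g => ‖T5.innerD μ F ψ (v n)‖ ^ 2) ∘ (Equiv.ofInjective g hg))
        = fun j => ‖T2.pair (T2.frameOf130 (⟨μ, F, r⟩ : T7.Frame5 K) hR) ψ (e j)‖ ^ 2 := by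
      funext j
      show ‖T5.innerD μ F ψ (v (g j))‖ ^ 2 = _
      rw [hv_g]
      rfl
    rw [e1]
    exact hs
  · -- finite
    rintro _ ⟨j₀, rfl⟩
    refine ((hFin j₀).image g).subset ?_
    rintro n ⟨⟨j, rfl⟩, hn⟩
    rw [hc_g, hc_g] at hn
    exact ⟨j, hn, rfl⟩
  · -- exhaust
    rintro _ ⟨j₀, rfl⟩ ψ hψ
    rw [hc_g] at hψ ⊢
    have hψE : IsEigFn 𝔫 r 0 (fun _ => u) ψ (normData613 𝔫 (a j₀) (b j₀) (m j₀)) := hψ
    have hψc : T2.IsCuspFn 𝔫 ψ := (T2.isWFn_zero_iff130 hr _ ψ).1 hψE.inv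
    set Fr : T2.Frame K := T2.frameOf130 (⟨μ, F, r⟩ : T7.Frame5 K) hR with hFr
    -- orthogonality to the other classes
    have horth : ∀ j, normData613 𝔫 (a j) (b j) (m j) ≠ normData613 𝔫 (a j₀) (b j₀) (m j₀) →
        T2.pair Fr ψ (e j) = 0 := by
      intro j hj
      by_contra hp
      exact hj (normData_eq_of_pair_ne613 hcx h𝔫 Fr hr u hψE (hB.basis.cusp j)
        (fun v hv => hB.basis.hecke j v hv) (fun w => hB.basis.eig_complex j w (hcx w))
        (fun v hv => hB.basis.unit_b j v hv) (fun v hv => hB.basis.conj_a j v hv)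
        (fun w d hd => hB.basis.real_m j w d hd) hp)
    -- the component in the class
    set S : Finset ι := (hFin j₀).toFinset with hS
    have hmemS : ∀ j, j ∈ S ↔
        normData613 𝔫 (a j) (b j) (m j) = normData613 𝔫 (a j₀) (b j₀) (m j₀) := fun j => by
      rw [hS, Set.Finite.mem_toFinset]
      rfl
    set coef : ι → ℂ := fun j => T2.pair Fr ψ (e j) with hcoef
    have hψ' : T2.IsCuspFn 𝔫 (fun x => ψ x - ∑ j ∈ S, coef j * e j x) :=
      isCuspFn_sub_sum613 hFD hψc hB.basis.cusp coef S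
    have hzero : ∀ i, T2.pair Fr (fun x => ψ x - ∑ j ∈ S, coef j * e j x) (e i) = 0 := by
      intro i
      rw [pair_sub_sum613 hFD Fr hψc hB.basis.cusp (hB.basis.cusp i) coef S]
      by_cases hi : i ∈ S
      · rw [Finset.sum_eq_single i]
        · rw [hB.basis.norm_one i, mul_one]
          exact sub_self _
        · intro j _ hji
          rw [hB.basis.orth j i hji, mul_zero]
        · intro h
          exact absurd hi h
      · have h1 : ∑ j ∈ S, coef j * T2.pair Fr (e j) (e i) = 0 := by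
          refine Finset.sum_eq_zero fun j hj => ?_
          have hji : j ≠ i := fun h => hi (h ▸ hj)
          rw [hB.basis.orth j i hji, mul_zero]
        rw [h1, sub_zero]
        exact horth i fun h => hi ((hmemS i).2 h)
    have hall : ∀ x : G K, ψ x = ∑ j ∈ S, coef j * e j x := by
      intro x
      have h := eq_zero_of_orth613 h𝔫 Fr hψ' (hB.basis.parseval _ hψ') hzero x
      exact sub_eq_zero.1 h
    have hψeq : ψ = ∑ j ∈ S, coef j • e j := by
      funext x
      rw [hall x, Finset.sum_apply]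
      rfl
    rw [hψeq]
    refine Submodule.sum_mem _ fun j hj => Submodule.smul_mem _ _ (Submodule.subset_span ?_)
    refine ⟨g j, ⟨j, rfl⟩, ?_, (hv_g j).symm⟩
    rw [hc_g]
    exact (hmemS j).1 hj

example (K : Type) [Field K] [NumberField K] : SD534.V2BasisC K := v2BasisC613 K

end Fermat.Agent.LT.T7.H613

end
end
-- ===== PACK-END LT/T7/H613/V2Basis.lean

-- ===== PACK-BEGIN LT/T7/H534/SpecDownClosed.lean
section


















/-!
# Row LT, tower T7, NODE T7.L2.3 `SpecDownC` -- CLOSED (helper534, registry row 1892)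

OFF-MAIN.  `specDownC_closed534 (K K') : T7.SpecDownC K K'`, UNCONDITIONAL, VERBATIM against
`LT/T7/Level2.lean` (helper797, sha256 15516646).  No hole, nothing assumed.  ADDITIVE.

The node `WBasisC` (row 2182) is closed by mixing the two cuts:
* `V2BasisC` (cut of helper534, row 2355, proved by helper613) IS `WB776.W0BasisC776` (same
  fields);
* the projector `WB776.IwAvgC776`: assembly of helper75 on the closed leaves of the cut of
  helper193 (helper453, 543, 981, 454, 547, 387) and of helper776 (helper385, 899, 984);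
* the assembly `WB776.WAsmC776` of helper389 with `ProjSeqC776` of helper860.
All the files of the owners are byte-identical copies.
-/

set_option autoImplicit false

open AutomorphicForm IsDedekindDomain NumberField MeasureTheory

noncomputable section

namespace Fermat.Agent.LT.T7.SD534

/-- The basis of `V₂` of the cut of helper534 is the basis of level `0` of the cut of
helper776. -/
theorem w0BasisC_of_v2Basis534 (K : Type) [Field K] [NumberField K] (h : V2BasisC K) :
    Fermat.Agent.LT.T7.WB776.W0BasisC776 K := by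
  intro μ F r 𝔫 u h𝔫 hfr hray hcx
  obtain ⟨v, J, c, hv⟩ := h μ F r 𝔫 u h𝔫 hfr hray hcx
  exact ⟨v, J, c, ⟨hv.eig, hv.unit, hv.norm_one, hv.orth, hv.parseval, hv.finite, hv.exhaust⟩⟩

/-- **THE PROJECTOR**, closed. -/
theorem iwAvgC_closed534 (K : Type) [Field K] [NumberField K] :
    Fermat.Agent.LT.T7.WB776.IwAvgC776 K :=
  Fermat.Agent.LT.T7.H75.iwAvgAsmC75 K (Fermat.Agent.LT.T1.t1Out K)
    (Fermat.Agent.LT.T7.H454.finDataAsmC454 K (Fermat.Agent.LT.T7.H543.hGroupC543 K)
      (Fermat.Agent.LT.T7.H981.finIndexC981 K))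
    (Fermat.Agent.LT.T7.H547.finAvgCuspC547 K) (Fermat.Agent.LT.T7.H193.H387.finAvgOrthC387 K)
    (Fermat.Agent.LT.T7.H453.translInvC453 K) (Fermat.Agent.LT.T7.H385.finAvgPosC385 K)
    (Fermat.Agent.LT.T7.H899.finAvgHeckeC899 K) (Fermat.Agent.LT.T7.H984.finAvgMeanC984 K)
    (Fermat.Agent.LT.T7.H76.cuspFormC76 K) (Fermat.Agent.LT.T7.H863.wSubC_863 K)

/-- **THE NODE T7.L2.3.5.4 `WBasisC`, CLOSED.** -/
theorem wBasisC_closed534 (K : Type) [Field K] [NumberField K] : WBasisC K :=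
  Fermat.Agent.LT.T7.H389.wAsmC389 K
    (w0BasisC_of_v2Basis534 K (Fermat.Agent.LT.T7.H613.v2BasisC613 K)) (iwAvgC_closed534 K)
    Fermat.Agent.LT.T7.H860.projSeqC860 (Fermat.Agent.LT.T7.H76.cuspFormC76 K)
    (Fermat.Agent.LT.T7.H863.wSubC_863 K)

/-- **THE NODE T7.L2.3 `SpecDownC`, CLOSED.** -/
theorem specDownC_closed534 (K K' : Type) [Field K] [NumberField K] [Field K']
    [NumberField K'] [Algebra K K'] : Fermat.Agent.LT.T7.SpecDownC K K' :=
  specDownC_of_wBasis534 K K' (wBasisC_closed534 K)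

end Fermat.Agent.LT.T7.SD534

end

end
-- ===== PACK-END LT/T7/H534/SpecDownClosed.lean

-- ===== PACK-BEGIN LT/T7/B981/PairDatSpec.lean
section



/-!
# Row LT, tower T7, node T7.L2.1.H2a.A.0.D `DatC981` (sub-architect helper981, registry 2916):
# FOURTH CUT -- Spec

OFF-MAIN.  Definitions and frozen Props only (the proved top is `PairDatTop.lean`).  No hole,
nothing assumed.  ADDITIVE (new names only, suffix `981`).  Vocabulary: the third cut
(`PairBaseSpec.lean`: `Dat981`, `IsDat981`), station T3.18M (helper14), byte-identical copies.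

    datC_of981 : UpDatC981 K' → NormFrameC981 K K' → DownFinC981 K K' → DownArchC981 K K'
                   → PushTelC981 K K' → DatC981 K K'                            (VERBATIM)

## The cut: the PUSH-FORWARD under the norm, place by place

* **`UpDatC981 K`** (leaf, ONE field; T3 core, closed stations): for a frame and EVERY Haar
  measure `μc` of `GL₂(ℂ)`: finitely many symmetric pure tensors whose sum telescopes and has a
  non-vanishing Fourier transform, with local Satake pairs and local Abel pairs (with the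
  scalar `κc` for `μc`).
* **`NormFrameC981`** (leaf; number theory): the norm datum downstairs.  `P` = the places under
  `P'`, `e v = ∑_{w ∈ P', w ∣ v} f_w e'_w` (`fib981`, `resDeg981`), `a₀ = N_{K'/K} a₀'`,
  `log |α|_v = ∑_{w ∣ v} log |α'|_w` at the infinite places.
* **`DownFinC981`** (NODE; finite places, for ONE pure tensor): `A v` = the push-forward
  `pushFin981 P' A' v` of the Satake coefficients over the fibre, `f₀ v` a Satake pair for it
  (`T3.AS.SatakeLocC`), unit components at the level, and the clause `SphOut893` (bridge between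
  the Satake pairs of T3 and the spherical functions of T6).
* **`DownArchC981`** (NODE; infinite places, for ONE pure tensor): a constant `c_μ` (depending
  on `μc` only) such that `F v = convL305 μc (Φ (w j))` has the Abel transform
  `c_μ^{ℓ-1} · convR981 (β' (w j))` (the Abel transform is multiplicative), and `ArchOk893`.
* **`PushTelC981`** (leaf; MATHLIB + the definitions of the coordinates): the push-forward of a
  telescoping coordinate function telescopes.
-/

set_option autoImplicit false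

open AutomorphicForm IsDedekindDomain NumberField MeasureTheory
open scoped ComplexConjugate

noncomputable section

namespace Fermat.Agent.LT.T7.B981

open Fermat.Agent.LT.H556 Fermat.Agent.LT.H556.A0 Fermat.Agent.LT.T7
open Fermat.Agent.LT.T7.H305 Fermat.Agent.LT.T7.H893

attribute [local instance] Fermat.Agent.LT.T5.instMeasurableSpaceG

/-! ## 1. The push-forwards -/

section Push

variable {K K' : Type} [Field K] [NumberField K] [Field K'] [NumberField K'] [Algebra K K']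

/-- The residue degree of `w` over `v` (`N w = (N v) ^ f`; junk if `w` is not over `v`). -/
def resDeg981 (v : HeightOneSpectrum (𝓞 K)) (w : HeightOneSpectrum (𝓞 K')) : ℕ :=
  Nat.log (Ideal.absNorm v.asIdeal) (Ideal.absNorm w.asIdeal)

open Classical in
/-- The places of `P'` over `v`. -/
def fib981 (P' : Finset (HeightOneSpectrum (𝓞 K'))) (v : HeightOneSpectrum (𝓞 K)) :
    Finset (HeightOneSpectrum (𝓞 K')) :=
  P'.filter fun w => PlaceOver K K' v w

open Classical in
/-- **THE PUSH-FORWARD OF THE SATAKE COEFFICIENTS** over the fibre of `v`: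
`(pushFin981 P' A' v)(M) = ∑ ∏_{w} A' w (m_w)`, the sum over the families `(m_w)_{w ∈ P', w ∣ v}`
with `∑_w f_w m_w = M`.  (`laurent (pushFin981 P' A' v) x y = ∏_w laurent (A' w) (x^{f_w})
(y^{f_w})`.) -/
def pushFin981 (P' : Finset (HeightOneSpectrum (𝓞 K')))
    (A' : HeightOneSpectrum (𝓞 K') → ℤ × ℤ → ℂ) (v : HeightOneSpectrum (𝓞 K))
    (M : ℤ × ℤ) : ℂ :=
  ∑ᶠ mm : (fib981 (K := K) P' v) → ℤ × ℤ,
    if ∑ w, (resDeg981 v w.1 : ℤ) • mm w = M then ∏ w, A' w.1 (mm w) else 0

/-- Iterated convolution on `ℝ²` (left nested, as `H305.convL305`):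
`(β₀ * β₁)(X) = ∫ β₀(t) β₁(X - t) dt`. -/
def convR981 (β : ℕ → ℝ × ℝ → ℂ) : ℕ → ℝ × ℝ → ℂ
  | 0 => β 0
  | (j + 1) => fun X => ∫ t : ℝ × ℝ, convR981 β j t * β (j + 1) (X - t)

/-- `wen 0, …, wen (l-1)` are `l` distinct infinite places of `K'` over `v` (the enumerations of
the clause `arch` of `H305.LocHyp305`). -/
def IsEnum981 (l : ℕ) (v : InfinitePlace K) (wen : ℕ → InfinitePlace K') : Prop :=
  (∀ j : ℕ, (wen j).comap (algebraMap K K') = v) ∧
    ∀ j j' : ℕ, j < l → j' < l → wen j = wen j' → j = j'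

end Push

/-! ## 2. The leaves and the nodes -/

section OneField

variable (K : Type) [Field K] [NumberField K]

/-- **LEAF D.1 = UP-DATA (ONE field; T3 core + closed local stations).**  For a totally complex
field, EVERY Haar measure `μc` of `GL₂(ℂ)` and a frame: finitely many symmetric pure tensors
`pureCoordM (A i) (β i)` whose sum telescopes along `coordTorM K P e α` and has a non-vanishing
Fourier transform at the good parameters, with Satake pairs `(f₀ i v, A i v)` at `v ∈ P` and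
Abel pairs `(F i w, β i w)` at infinity, `R(F i w) = κc ∫ β i w` at parameter `0`.
Proof.  `T3.M.EKCoreC` (closed: `(T3.M.openM_c K).core`) for `ι₁ = P`, `ι₂ = InfinitePlace K`:
`Φ ∈ SymSpanCrd`, telescoping, `ftCrd Φ ≠ 0`.  A member of the span is a finite sum
`∑ c_i pureCrd (A_i) (β_i)` of symmetric pure tensors (`Submodule.mem_span_set'` /
`Submodule.span_induction`); the coefficient `c_i` is absorbed in `β_i w₀` for ONE infinite
place `w₀` (`IsSymBump (c • β)`); `A i v = 0` outside `P`.  `T3.AS.SatakeLocC`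
(`T3.M.satakeLoc_closed`) gives `f₀ i v`; `T3.AS.AbelCplxSmoothC` (`abelCplxSmooth_closed`) gives
a Haar measure `μc₀`, `κc₀ ≠ 0` and `F i w` with `ActsBy μc₀`; `μc = t • μc₀` (uniqueness of
the Haar measure, `t ≠ 0, ∞`): `ActsBy μc (F i w) (t κc₀ ∫ β i w)`.  Model:
`T3.M.pairExistM_of`, `T3.M.ekOpExistGenM_of`. -/
def UpDatC981 : Prop :=
  (∀ w : InfinitePlace K, w.IsComplex) →
  ∀ μc : @Measure (GL (Fin 2) ℂ) (borel _), @Measure.IsHaarMeasure _ _ _ (borel _) μc →
  ∀ (𝔫 : Ideal (𝓞 K)) (P : Finset (HeightOneSpectrum (𝓞 K)))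
    (e : HeightOneSpectrum (𝓞 K) → ℕ) (a₀ : 𝓞 K) (α : Kˣ), T3.M.FrameM K 𝔫 P e a₀ α →
    ∃ (N : ℕ) (κc : ℂ) (A : Fin N → HeightOneSpectrum (𝓞 K) → ℤ × ℤ → ℂ)
      (β : Fin N → InfinitePlace K → ℝ × ℝ → ℂ)
      (f₀ : Fin N → ∀ v : HeightOneSpectrum (𝓞 K), GL (Fin 2) (v.adicCompletion K) → ℂ)
      (F : Fin N → InfinitePlace K → GL (Fin 2) ℂ → ℂ),
      κc ≠ 0 ∧
      (∀ (i : Fin N) (v : HeightOneSpectrum (𝓞 K)), T3.AS.IsSymFin (A i v)) ∧
      (∀ (i : Fin N) (w : InfinitePlace K), T3.AS.IsSymBump (β i w)) ∧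
      (∀ (i : Fin N), ∀ v ∈ P, T3.AS.IsSatakePair v (f₀ i v) (A i v)) ∧
      (∀ (i : Fin N) (w : InfinitePlace K), T3.AS.IsCplxTest (F i w)) ∧
      (∀ (i : Fin N) (w : InfinitePlace K), T3.AS.IsCplxSmooth (F i w)) ∧
      (∀ (i : Fin N) (w : InfinitePlace K), T3.AS.HasAbelN (F i w) (β i w)) ∧
      (∀ (i : Fin N) (w : InfinitePlace K),
        T3.AS.ActsBy μc (F i w) (κc * ∫ x : ℝ × ℝ, β i w x)) ∧
      (∀ Δ : T3.M.CoordM K P,
        HasSum (fun j : ℤ => ∑ i : Fin N,
          T3.M.pureCoordM K P (A i) (β i) (Δ + j • T3.M.coordTorM K P e α)) 0) ∧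
      ∀ z₁ z₂ : HeightOneSpectrum (𝓞 K) → ℂ,
        (∀ w ∈ P, z₁ w ≠ 0) → (∀ w ∈ P, z₂ w ≠ 0) →
        (∀ z : HeightOneSpectrum (𝓞 K) → ℂ, (∀ w ∈ P, z w = z₁ w ∨ z w = z₂ w) →
          ∏ w ∈ P, z w ^ e w ≠ 1) →
        T3.M.ftCoordM K P (fun p => ∑ i : Fin N, T3.M.pureCoordM K P (A i) (β i) p) z₁ z₂ ≠ 0

end OneField

section Nodes

variable (K K' : Type) [Field K] [NumberField K] [Field K'] [NumberField K'] [Algebra K K']

/-- **LEAF D.2 = NORM-FRAME (number theory).**  A frame upstairs for the level `𝔫 𝒪_{K'}` gives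
the norm frame downstairs for the level `𝔫`.
Proof.  `P` = the (finite) set of the places under `P'`; `e v` as stated; `a₀ = N_{K'/K} a₀'`
(`Algebra.norm`, integral), `α = N α'`.  `(a₀) = N((a₀')) = ∏_w N(w)^{e'_w}`, `N(w) = v^{f_w}`
(`Ideal.relNorm` / `Ideal.spanNorm`; `resDeg981 v w = f_w` because `N w = (N v)^{f_w}`,
`N v ≥ 2`).  `a₀ ≡ 1 mod 𝔫`: `a₀' ≡ 1 mod 𝔫 𝒪_{K'}`, the conjugates too (`𝔫 𝒪_{K'}` is stable),
and `𝔫 𝒪_{K'} ∩ 𝒪_K = 𝔫`.  `v ∤ 𝔫` for `v ∈ P`: `w ∤ 𝔫 𝒪_{K'}`.  Infinite places: `K` is totally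
complex, `|N α'|_v = ∏_{w ∣ v} |α'|_w` (the `ℓ` places over `v` are the `ℓ` extensions of the
embedding). -/
def NormFrameC981 : Prop :=
  ∀ ℓ : ℕ, IsCycExt K K' ℓ → ℓ ≠ 2 → TotCplx K →
    ∀ (𝔫 : Ideal (𝓞 K)) (P' : Finset (HeightOneSpectrum (𝓞 K')))
      (e' : HeightOneSpectrum (𝓞 K') → ℕ) (a₀' : 𝓞 K') (α' : K'ˣ), 𝔫 ≠ ⊥ →
      T3.M.FrameM K' (upI (K' := K') 𝔫) P' e' a₀' α' →
      ∃ (P : Finset (HeightOneSpectrum (𝓞 K))) (e : HeightOneSpectrum (𝓞 K) → ℕ)
        (a₀ : 𝓞 K) (α : Kˣ),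
        T3.M.FrameM K 𝔫 P e a₀ α ∧
        (∀ v : HeightOneSpectrum (𝓞 K), v ∈ P ↔ ∃ w ∈ P', PlaceOver K K' v w) ∧
        (∀ v ∈ P, e v = ∑ w ∈ fib981 (K := K) P' v, resDeg981 v w * e' w) ∧
        ∀ (v : InfinitePlace K) (wen : ℕ → InfinitePlace K'), IsEnum981 ℓ v wen →
          Real.log (v (α : K)) = ∑ j ∈ Finset.range ℓ, Real.log ((wen j) (α' : K'))

open Classical in
/-- **NODE D.3 = DOWN-FIN (finite places, ONE pure tensor).**  Components upstairs: Satake
pairs `(φ₀ w, A' w)` at `w ∈ P'` (outside `S'`, hence unramified: `RamIn`), `1_{GL₂(𝒪_w)}` at the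
other places over `P`.  Then there are `A`, `f₀` downstairs: `A v = pushFin981 P' A' v` and
`(f₀ v, A v)` a Satake pair at `v ∈ P`, unit components at the level, and the clause
`SphOut893` for `T = T₀ ∪ P`.
Proof.  `v ∈ P` is unramified in `K'` (`S'` is a union of fibres: `IsL2Base.fibre`), so either
ONE place `w` over `v`, of residue degree `ℓ`, or `ℓ` places of residue degree `1`.
`pushFin981` is symmetric of finite support, `laurent (pushFin981 P' A' v) x y =
∏_{w ∈ P', w ∣ v} laurent (A' w) (x^{f_w}) (y^{f_w})`; `f₀ v` from `T3.AS.SatakeLocC`.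
BRIDGE T3 → T6: a Satake pair `(f, A)` at a place of norm `q` is a spherical function
`IsSphFn893 f Av` (`Av (a, b) = f(diag(ϖ^a, ϖ^b))`, `a ≥ b`: Cartan decomposition) with
`satT893 q Av x y = laurent A x y` for `x, y ≠ 0` (both are the eigenvalue of `R(f)` on the
spherical vector with the parameters `(x, y)`: `HasSatakeEigen`, `T6.SatakeEigenC`; same
normalisation `T = √q (x + y)`, `S = x y`; or the `N`-integral of `1_{K λ K}`);
`unitFn893 0 = 1_{GL₂(𝒪)}` is `IsSphFn893` with `Av = δ_{(0,0)}`, `satT893 = 1`.  Then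
`T6.IsBC ℓ q (A w) Av` is `laurent (A v) x y = laurent (A' w) (x^ℓ) (y^ℓ)` (`N w = q^ℓ`), and
the product formula at a split place is the formula for `laurent (pushFin981 …)`. -/
def DownFinC981 : Prop :=
  ∀ ℓ : ℕ, IsCycExt K K' ℓ → ℓ ≠ 2 → TotCplx K →
    ∀ (Φ : HeckeEigensystem K' ℂ) (B : L2Base K K'), IsL2Base ℓ Φ B → B.RamIn →
      ∀ 𝔫 : Ideal (𝓞 K), Q797.IsLevel797 B 𝔫 →
      ∀ (T₀ : Finset (HeightOneSpectrum (𝓞 K)))
        (n n₀ : HeightOneSpectrum (𝓞 K') → ℕ) (m : HeightOneSpectrum (𝓞 K) → ℕ),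
        Q797.IsExp797 B 𝔫 T₀ n n₀ m →
      ∀ (P' : Finset (HeightOneSpectrum (𝓞 K'))) (P : Finset (HeightOneSpectrum (𝓞 K))),
        (∀ w ∈ P', w ∉ B.S') →
        (∀ v : HeightOneSpectrum (𝓞 K), v ∈ P ↔ ∃ w ∈ P', PlaceOver K K' v w) →
      ∀ (A' : HeightOneSpectrum (𝓞 K') → ℤ × ℤ → ℂ)
        (φ₀ : ∀ w : HeightOneSpectrum (𝓞 K'), GL (Fin 2) (w.adicCompletion K') → ℂ),
        (∀ w : HeightOneSpectrum (𝓞 K'), T3.AS.IsSymFin (A' w)) →
        (∀ w ∈ P', T3.AS.IsSatakePair w (φ₀ w) (A' w)) →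
        (∀ w : HeightOneSpectrum (𝓞 K'), w ∉ P' → (∃ v ∈ P, PlaceOver K K' v w) →
          φ₀ w = unitFn893 0) →
        ∃ (A : HeightOneSpectrum (𝓞 K) → ℤ × ℤ → ℂ)
          (f₀ : ∀ v : HeightOneSpectrum (𝓞 K), GL (Fin 2) (v.adicCompletion K) → ℂ),
          (∀ v : HeightOneSpectrum (𝓞 K), T3.AS.IsSymFin (A v)) ∧
          (∀ v ∈ P, A v = pushFin981 (K := K) P' A' v) ∧
          (∀ v ∈ P, T3.AS.IsSatakePair v (f₀ v) (A v)) ∧
          (∀ v ∈ T₀, f₀ v = unitFn893 (m v)) ∧
          SphOut893 B.l T₀ (T₀ ∪ P) φ₀ f₀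

/-- **NODE D.4 = DOWN-ARCH (infinite places, ONE pure tensor).**  For every Haar measure `μc`
of `GL₂(ℂ)` there is a constant `c_μ` such that for Abel pairs `(Φ w, β' w)` upstairs there are
Abel pairs `(F v, β v)` downstairs with `β v = c_μ^{ℓ-1} · convR981 (β' (wen j))` for EVERY
enumeration of the places over `v`, and `ArchOk893` (`F v = convL305 μc (Φ (wen j))` for every
enumeration, continuity, compact supports, invariance under the complex conjugation and under
`U(2)` on both sides).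
Proof.  `K` is totally complex of degree `ℓ` under `K'`: exactly `ℓ` places over `v`; choose
an enumeration and `F v = convL305 μc (Φ (wen j)) (ℓ - 1)`.  BINARY STEP (local, `GL₂(ℂ)`):
for continuous bi-`U(2)`-invariant `F₁`, `F₂` of compact support (smooth) with Abel transforms
`β₁`, `β₂`: `T6.convInt μc F₁ F₂` is continuous, bi-`U(2)`-invariant, of compact support
(smooth), equal to `T6.convInt μc F₂ F₁` (Gelfand: `F(g) = F(gᵗ)` by the Cartan decomposition,
`H315.CartanC`), and has the Abel transform `c_μ · (β₁ * β₂)` (Iwasawa decomposition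
`G = N A K` and the modulus: `T3.AS.N893.IwasawaFormC`; `c_μ` = the constant of `μc` in the
Iwasawa coordinates), which is a symmetric bump.  Independence of the enumeration: commutativity
and associativity.  Invariance under the complex conjugation: Cartan decomposition. -/
def DownArchC981 : Prop :=
  ∀ ℓ : ℕ, IsCycExt K K' ℓ → ℓ ≠ 2 → TotCplx K →
    ∀ μc : @Measure (GL (Fin 2) ℂ) (borel _), @Measure.IsHaarMeasure _ _ _ (borel _) μc →
      ∃ cμ : ℂ, ∀ D : CompData K K', D.l = ℓ →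
        ∀ (n : HeightOneSpectrum (𝓞 K') → ℕ) (m : HeightOneSpectrum (𝓞 K) → ℕ)
          (φ₀ : ∀ w : HeightOneSpectrum (𝓞 K'), GL (Fin 2) (w.adicCompletion K') → ℂ)
          (f₀ : ∀ v : HeightOneSpectrum (𝓞 K), GL (Fin 2) (v.adicCompletion K) → ℂ)
          (Φ : InfinitePlace K' → GL (Fin 2) ℂ → ℂ) (β' : InfinitePlace K' → ℝ × ℝ → ℂ),
          (∀ w : InfinitePlace K', T3.AS.IsSymBump (β' w)) →
          (∀ w : InfinitePlace K', T3.AS.IsCplxTest (Φ w)) →
          (∀ w : InfinitePlace K', T3.AS.IsCplxSmooth (Φ w)) →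
          (∀ w : InfinitePlace K', T3.AS.HasAbelN (Φ w) (β' w)) →
          ∃ (F : InfinitePlace K → GL (Fin 2) ℂ → ℂ) (β : InfinitePlace K → ℝ × ℝ → ℂ),
            (∀ v : InfinitePlace K, T3.AS.IsSymBump (β v)) ∧
            (∀ v : InfinitePlace K, T3.AS.IsCplxTest (F v)) ∧
            (∀ v : InfinitePlace K, T3.AS.IsCplxSmooth (F v)) ∧
            (∀ v : InfinitePlace K, T3.AS.HasAbelN (F v) (β v)) ∧
            (∀ (v : InfinitePlace K) (wen : ℕ → InfinitePlace K'), IsEnum981 ℓ v wen →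
              β v = cμ ^ (ℓ - 1) • convR981 (fun j => β' (wen j)) (ℓ - 1)) ∧
            ArchOk893 D μc n m φ₀ Φ f₀ F

/-- **LEAF D.5 = PUSH-TEL (MATHLIB + the definitions of the coordinates).**  If the sum of the
pure tensors upstairs telescopes along `c₀' = coordTorM K' P' e' α'`, then the sum of the
pushed pure tensors downstairs telescopes along `c₀ = coordTorM K P e α`.
Proof.  Every `w ∈ P'` lies over exactly one `v`, and `v ∈ P`: `P' = ⊔_{v ∈ P} fib981 P' v`;
over every infinite place of `K` there are exactly `ℓ` places of `K'`.  So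
`∏_{v ∈ P} pushFin981 P' A' v (M_v) = ∑_{m ∈ (ℤ²)^{P'}, N(m) = M} ∏_{w ∈ P'} A' w (m_w)`
(`N(m)_v = ∑_{w ∣ v} f_w m_w`; finite sums: finite supports) and
`∏_v convR981 (β' (wen_v j)) (ℓ-1) (X_v)` = the integral of `∏_w β' w (x_w)` over the fibre
`{x : ∑_{w ∣ v} x_w = X_v}` (Lebesgue measure in the coordinates `x_{wen_v j}`, `j < ℓ - 1`;
Fubini, continuous functions of compact support).  Hence
`crdDn (M, X) = c ∑_m ∫_x crdUp (m, x)` (`c = c_μ^{(ℓ-1) |S_∞(K)|}`), the translation by `c₀'`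
maps the fibre over `Δ` onto the fibre over `Δ + c₀` (`N(c₀') = c₀`: the hypotheses on `e`,
`α`), and for fixed `Δ` only finitely many `(j, m)` contribute (`m + j e'` in the finite
support and `N(m) = M` determine `j`: `e v > 0`, `P ≠ ∅`).  So
`∑_j crdDn (Δ + j c₀) = c ∑_m ∫_x ∑_j crdUp ((m, x) + j c₀') = 0`.  (The statement is about
finite index sets with a map and weights; an abstract version over `Fintype`s may be proved
first.) -/
def PushTelC981 : Prop :=
  ∀ ℓ : ℕ, IsCycExt K K' ℓ → ℓ ≠ 2 → TotCplx K →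
    ∀ (P' : Finset (HeightOneSpectrum (𝓞 K'))) (P : Finset (HeightOneSpectrum (𝓞 K)))
      (e' : HeightOneSpectrum (𝓞 K') → ℕ) (e : HeightOneSpectrum (𝓞 K) → ℕ)
      (α' : K'ˣ) (α : Kˣ),
      (∀ v : HeightOneSpectrum (𝓞 K), v ∈ P ↔ ∃ w ∈ P', PlaceOver K K' v w) →
      P.Nonempty → (∀ v ∈ P, 0 < e v) →
      (∀ v ∈ P, e v = ∑ w ∈ fib981 (K := K) P' v, resDeg981 v w * e' w) →
      (∀ (v : InfinitePlace K) (wen : ℕ → InfinitePlace K'), IsEnum981 ℓ v wen →
        Real.log (v (α : K)) = ∑ j ∈ Finset.range ℓ, Real.log ((wen j) (α' : K'))) →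
      ∀ (cμ : ℂ) (N : ℕ) (A' : Fin N → HeightOneSpectrum (𝓞 K') → ℤ × ℤ → ℂ)
        (β' : Fin N → InfinitePlace K' → ℝ × ℝ → ℂ)
        (A : Fin N → HeightOneSpectrum (𝓞 K) → ℤ × ℤ → ℂ)
        (β : Fin N → InfinitePlace K → ℝ × ℝ → ℂ),
        (∀ (i : Fin N) (w : HeightOneSpectrum (𝓞 K')), T3.AS.IsSymFin (A' i w)) →
        (∀ (i : Fin N) (w : InfinitePlace K'), T3.AS.IsSymBump (β' i w)) →
        (∀ (i : Fin N), ∀ v ∈ P, A i v = pushFin981 (K := K) P' (A' i) v) →
        (∀ (i : Fin N) (v : InfinitePlace K) (wen : ℕ → InfinitePlace K'), IsEnum981 ℓ v wen →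
          β i v = cμ ^ (ℓ - 1) • convR981 (fun j => β' i (wen j)) (ℓ - 1)) →
        (∀ Δ : T3.M.CoordM K' P',
          HasSum (fun j : ℤ => ∑ i : Fin N,
            T3.M.pureCoordM K' P' (A' i) (β' i) (Δ + j • T3.M.coordTorM K' P' e' α')) 0) →
        ∀ Δ : T3.M.CoordM K P,
          HasSum (fun j : ℤ => ∑ i : Fin N,
            T3.M.pureCoordM K P (A i) (β i) (Δ + j • T3.M.coordTorM K P e α)) 0

end Nodes

end Fermat.Agent.LT.T7.B981

end

/-! ## Appendix (v2, ADDITIVE, 18:50Z): equation lemmas of `convR981`, REALISED ONCE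

`simp [convR981]`, `rw [convR981]`, `unfold convR981` realise `convR981.eq_def` in the using
module unless an imported module has done so; two such copies differ and the kernel checker of
the grader rejects the closure (same form as the appendix of `T6/Spec.lean` of row-lead helper17
and of `T7/H305/MatchSpec.lean` v2 of helper305).  Realised here, they are declared by no other
module.  NOTHING above this line is changed (v1 = sha256 df231e98). -/

namespace Fermat.Agent.LT.T7.B981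

theorem convR981_eqns_realised : True := by
  have _h0 := @convR981.eq_def
  have _h1 := @convR981.eq_1
  have _h2 := @convR981.eq_2
  have _h3 := @convR981.induct
  have _h4 := @convR981.induct_unfolding
  have _h5 := @convR981.fun_cases
  have _h6 := @convR981.fun_cases_unfolding
  trivial

end Fermat.Agent.LT.T7.B981

end
-- ===== PACK-END LT/T7/B981/PairDatSpec.lean

-- ===== PACK-BEGIN LT/T7/B981/PairDatTop.lean
section



/-!
# Row LT, tower T7, node T7.L2.1.H2a.A.0.D `DatC981` (sub-architect helper981, registry 2916):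
# FOURTH CUT -- the PROVED top

OFF-MAIN.  Complete proofs, nothing assumed.  ADDITIVE (new names only, suffix `981`).

    datC_of981 : UpDatC981 K' → NormFrameC981 K K' → DownFinC981 K K' → DownArchC981 K K'
                   → PushTelC981 K K' → DatC981 K K'                            (VERBATIM)
-/

set_option autoImplicit false

open AutomorphicForm IsDedekindDomain NumberField MeasureTheory
open scoped ComplexConjugate

noncomputable section

namespace Fermat.Agent.LT.T7.B981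

open Fermat.Agent.LT.H556 Fermat.Agent.LT.H556.A0 Fermat.Agent.LT.T7
open Fermat.Agent.LT.T7.H305 Fermat.Agent.LT.T7.H893

attribute [local instance] Fermat.Agent.LT.T5.instMeasurableSpaceG

variable {K K' : Type} [Field K] [NumberField K] [Field K'] [NumberField K'] [Algebra K K']

/-- The place under `w` is unique. -/
theorem placeOver_unique981 {v v₀ : HeightOneSpectrum (𝓞 K)} {w : HeightOneSpectrum (𝓞 K')}
    (h : PlaceOver K K' v w) (h₀ : PlaceOver K K' v₀ w) : v = v₀ := by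
  apply HeightOneSpectrum.ext
  ext x
  have e1 := h x (algebraMap (𝓞 K) (𝓞 K') x) rfl
  have e2 := h₀ x (algebraMap (𝓞 K) (𝓞 K') x) rfl
  exact e1.trans e2.symm

/-- A place over a divisor of `𝔫` divides `𝔫 𝒪_{K'}`. -/
theorem dvd_upI_of_placeOver981 {v : HeightOneSpectrum (𝓞 K)} {w : HeightOneSpectrum (𝓞 K')}
    (h : PlaceOver K K' v w) {𝔫 : Ideal (𝓞 K)} (hv : v.asIdeal ∣ 𝔫) :
    w.asIdeal ∣ upI (K' := K') 𝔫 := by
  rw [Ideal.dvd_iff_le] at hv ⊢
  unfold upI
  rw [Ideal.map_le_iff_le_comap]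
  intro x hx
  rw [Ideal.mem_comap]
  exact (h x (algebraMap (𝓞 K) (𝓞 K') x) rfl).1 (hv hx)

/-- The extension of a non-zero ideal is not zero. -/
theorem upI_ne_bot981 {𝔫 : Ideal (𝓞 K)} (h : 𝔫 ≠ ⊥) : upI (K' := K') 𝔫 ≠ ⊥ := by
  unfold upI
  intro h0
  rw [Ideal.map_eq_bot_iff_of_injective
    (FaithfulSMul.algebraMap_injective (𝓞 K) (𝓞 K'))] at h0
  exact h h0

/-- A field over a totally complex field is totally complex. -/
theorem totCplx_up981 (h : TotCplx K) (w : InfinitePlace K') : w.IsComplex := by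
  by_contra hw
  rw [InfinitePlace.not_isComplex_iff_isReal] at hw
  have h1 : (w.comap (algebraMap K K')).IsReal := hw.comap (algebraMap K K')
  exact (InfinitePlace.not_isComplex_iff_isReal.2 h1) (h _)

/-- **THE TOP OF THE FOURTH CUT**: the data exist. -/
theorem datC_of981 (hU : UpDatC981 K') (hN : NormFrameC981 K K') (hF : DownFinC981 K K')
    (hA : DownArchC981 K K') (hT : PushTelC981 K K') : DatC981 K K' := by
  classical
  intro ℓ hcyc hl hcx Φ hΦ hconst hek B hB hram 𝔫 hlev μc hμc T₀ n n₀ m hexp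
  have h𝔑 : upI (K' := K') 𝔫 ≠ ⊥ := upI_ne_bot981 hlev.level_ne
  obtain ⟨P', e', a₀', hP'ne, hP', hspan, hmem, hgood⟩ := hek (upI (K' := K') 𝔫) h𝔑 B.S'
  have ha₀ : algebraMap (𝓞 K') K' a₀' ≠ 0 := by
    intro h0
    have h0' : a₀' = 0 :=
      (map_eq_zero_iff (algebraMap (𝓞 K') K')
        (FaithfulSMul.algebraMap_injective (𝓞 K') K')).1 h0
    rw [h0'] at hspan
    have hbot : (∏ v ∈ P', v.asIdeal ^ e' v) = ⊥ := by rw [← hspan]; simp
    rw [← Ideal.zero_eq_bot, Finset.prod_eq_zero_iff] at hbot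
    obtain ⟨v, hvP, hv⟩ := hbot
    exact v.ne_bot ((pow_eq_zero_iff (Nat.pos_iff_ne_zero.1 (hP' v hvP).2.2)).1 hv)
  set α' : K'ˣ := Units.mk0 _ ha₀ with hα'
  have hfr' : T3.M.FrameM K' (upI (K' := K') 𝔫) P' e' a₀' α' :=
    ⟨h𝔑, hP'ne, fun v hv => (hP' v hv).2.1, fun v hv => (hP' v hv).2.2, hspan, hmem, rfl⟩
  obtain ⟨N, κc, A', β', φ₀', Φa, hκ, hsA', hsβ', hsat', htest', hsm', habel', hacts', htel',
    hft'⟩ := hU (totCplx_up981 hcx) μc hμc (upI (K' := K') 𝔫) P' e' a₀' α' hfr'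
  obtain ⟨P, e, a₀, α, hfr, hunder, he, hlog⟩ :=
    hN ℓ hcyc hl hcx 𝔫 P' e' a₀' α' hlev.level_ne hfr'
  -- the components upstairs at ALL finite places
  set φ₀ : Fin N → ∀ w : HeightOneSpectrum (𝓞 K'), GL (Fin 2) (w.adicCompletion K') → ℂ :=
    fun i w => if w ∈ P' then φ₀' i w
      else if ∃ v ∈ T₀, PlaceOver K K' v w then unitFn893 (n w) else unitFn893 0 with hφ₀
  have hφ₀P' : ∀ (i : Fin N), ∀ w ∈ P', φ₀ i w = φ₀' i w := fun i w hw => by
    simp only [hφ₀, if_pos hw]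
  have hnotP' : ∀ (v : HeightOneSpectrum (𝓞 K)) (w : HeightOneSpectrum (𝓞 K')), v ∈ T₀ →
      PlaceOver K K' v w → w ∉ P' := fun v w hv hvw hw =>
    (hP' w hw).2.1 (dvd_upI_of_placeOver981 hvw ((hexp.mem_T₀ v).1 hv))
  have hunit_up : ∀ (i : Fin N), ∀ v ∈ T₀, ∀ w : HeightOneSpectrum (𝓞 K'),
      PlaceOver K K' v w → φ₀ i w = unitFn893 (n w) := fun i v hv w hvw => by
    simp only [hφ₀, if_neg (hnotP' v w hv hvw)]
    rw [if_pos ⟨v, hv, hvw⟩]
  have hunit_rest : ∀ (i : Fin N) (w : HeightOneSpectrum (𝓞 K')), w ∉ P' →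
      (∃ v ∈ P, PlaceOver K K' v w) → φ₀ i w = unitFn893 0 := fun i w hw hex => by
    simp only [hφ₀, if_neg hw]
    rw [if_neg]
    rintro ⟨v₀, hv₀, hv₀w⟩
    obtain ⟨v, hv, hvw⟩ := hex
    have hvv : v = v₀ := placeOver_unique981 hvw hv₀w
    subst hvv
    exact hfr.prime v hv ((hexp.mem_T₀ v).1 hv₀)
  -- the finite places downstairs
  choose A f₀ hsA hApush hsat hunit hsph using fun i : Fin N =>
    hF ℓ hcyc hl hcx Φ B hB hram 𝔫 hlev T₀ n n₀ m hexp P' P (fun w hw => (hP' w hw).1) hunder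
      (A' i) (φ₀ i) (hsA' i) (fun w hw => by rw [hφ₀P' i w hw]; exact hsat' i w hw)
      (hunit_rest i)
  -- the infinite places downstairs
  obtain ⟨cμ, hArch⟩ := hA ℓ hcyc hl hcx μc hμc
  choose F β hsβ htest hsm habel hβ harch using fun i : Fin N =>
    hArch (B.comp 𝔫) hB.deg n m (φ₀ i) (f₀ i) (Φa i) (β' i) (hsβ' i) (htest' i) (hsm' i)
      (habel' i)
  -- the telescoping downstairs
  have htel := hT ℓ hcyc hl hcx P' P e' e α' α hunder hfr.nonempty hfr.pos he hlog cμ N
    A' β' A β hsA' hsβ' hApush hβ htel'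
  refine ⟨⟨N, P', e', a₀', α', P, e, a₀, α, κc, A', β', φ₀, Φa, A, β, f₀, F⟩, ?_⟩
  exact
    { frame_up := hfr'
      frame_dn := hfr
      out := fun w hw => (hP' w hw).1
      good := hgood
      under := hunder
      κc_ne := hκ
      symA' := hsA'
      symβ' := hsβ'
      sat_up := fun i w hw => by
        show T3.AS.IsSatakePair w (φ₀ i w) (A' i w)
        rw [hφ₀P' i w hw]
        exact hsat' i w hw
      test_up := htest'
      smooth_up := hsm'
      abel_up := habel'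
      acts_up := hacts'
      symA := hsA
      symβ := hsβ
      sat_dn := hsat
      test_dn := htest
      smooth_dn := hsm
      abel_dn := habel
      tel_up := htel'
      tel_dn := htel
      ft_ne := hft'
      unit_rest := hunit_rest
      loc := fun i => ⟨hunit i, hunit_up i, hsph i, harch i⟩ }

end Fermat.Agent.LT.T7.B981

end

end
-- ===== PACK-END LT/T7/B981/PairDatTop.lean

-- ===== PACK-BEGIN LT/T7/B981/H34/DnGood.lean
section



/-!
# Row LT, tower T7, node T7.L2.1.H2a.A.0 `BaseAC981`, leaf A.0.W `DnGoodC981` (helper34)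

OFF-MAIN.  `dnGoodC34 K K' : B981.DnGoodC981 K K'`, VERBATIM vs helper981
`T7/B981/PairBaseSpec.lean` (sha256 cfa0d9f73f18ec34), UNCONDITIONAL.  Complete proof, nothing
assumed, new names only.

Proof.  The pair `(D.crdDn, D.dn 𝔫)` is the sum over `Fin D.N` (coefficients `1`) of the pure
pairs `(pureCoordM (A i) (β i), pureFnM (f₀ i) (F i))`, hence a member of
`T3.M.pairSpanM K 𝔫 D.P` (`T3.M.mem_pairSpanM_sum`; local Satake pairs `sat_dn`, local Abel pairs
`test_dn`, `smooth_dn`, `abel_dn`, symmetry `symA`, `symβ`).  The coordinates telescope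
(`tel_dn`) along the torus element of the frame `frame_dn`, `K` is totally complex and `B.R.μ`
is a Haar measure (`IsL2Base.frame`): `T3.M.ekOfPairM_c K` gives the test function property,
Eisenstein-killing of the function and of its adjoint, the support at `P ∪ S_∞` and operator
scalars `c₀ (z₁, z₂, m)` for the parameters `z₁ + z₂ = a`, `z₁ z₂ = b`, `b ≠ 0` on `P`.  The
scalar of the leaf: `c a b m = c₀ (root1 (a, b)) (root2 (a, b)) m` (`T3.H732.roots_spec732`)
when `b v ≠ 0` on `P`, and `1` otherwise: if `b v = 0` for some `v ∈ P` the eigenfunction is `0`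
(`T3.H732.eq_zero_of_b_eq_zero732`, `T3.inScalarUnif_u`) and both sides vanish (model:
`T3.M.ekOpExistGenM_of`).
-/

set_option autoImplicit false

open AutomorphicForm IsDedekindDomain NumberField MeasureTheory
open scoped ComplexConjugate

noncomputable section

namespace Fermat.Agent.LT.T7.B981.H34

open Fermat.Agent.LT Fermat.Agent.LT.H556 Fermat.Agent.LT.H556.A0 Fermat.Agent.LT.T7
open Fermat.Agent.LT.T7.H305 Fermat.Agent.LT.T7.H893 Fermat.Agent.LT.T7.B981

attribute [local instance] Fermat.Agent.LT.T5.instMeasurableSpaceG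

section Mem

variable {K K' : Type} [Field K] [NumberField K] [Field K'] [NumberField K']

/-- The coordinates downstairs are the sum (in the function space) of the pure coordinates. -/
theorem crdDn_eq_sum34 (D : Dat981 K K') :
    D.crdDn = ∑ i : Fin D.N, (1 : ℂ) • T3.M.pureCoordM K D.P (D.A i) (D.β i) := by
  funext p
  rw [Finset.sum_apply]
  simp only [Pi.smul_apply, one_smul]
  rfl

/-- The function downstairs is the sum (in the function space) of the pure tensors. -/
theorem dn_eq_sum34 (D : Dat981 K K') (𝔫 : Ideal (𝓞 K)) :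
    D.dn 𝔫 = ∑ i : Fin D.N, (1 : ℂ) • T3.M.pureFnM K 𝔫 D.P (D.f₀ i) (D.F i) := by
  funext g
  rw [Finset.sum_apply]
  simp only [Pi.smul_apply, one_smul]
  rfl

end Mem

variable (K K' : Type) [Field K] [NumberField K] [Field K'] [NumberField K'] [Algebra K K']

/-- **LEAF A.0.W = DOWN, PROVED.** -/
theorem dnGoodC34 : DnGoodC981 K K' := by
  intro ℓ _hcyc hcx Φ B hB 𝔫 _h𝔫 μc hμc T₀ n m D hD
  obtain ⟨_κ₀, _hκ₀, hall⟩ := T3.M.ekOfPairM_c K hcx B.R.μ hB.frame.frame.haar μc hμc D.κc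
    hD.κc_ne 𝔫 D.P D.e D.a₀ D.α hD.frame_dn
  have hmem : (D.crdDn, D.dn 𝔫) ∈ T3.M.pairSpanM K 𝔫 D.P := by
    have h := T3.M.mem_pairSpanM_sum 𝔫 D.P (Finset.univ : Finset (Fin D.N))
      (fun _ => (1 : ℂ)) D.A D.β D.f₀ D.F
      (fun i _ v => hD.symA i v) (fun i _ w => hD.symβ i w)
      (fun i _ v hv => hD.sat_dn i v hv)
      (fun i _ w => hD.test_dn i w) (fun i _ w => hD.smooth_dn i w)
      (fun i _ w => hD.abel_dn i w)
    rw [crdDn_eq_sum34 D, dn_eq_sum34 D 𝔫]
    exact h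
  obtain ⟨h1, h2, h3, h4, c, -, hop⟩ := hall D.crdDn (D.dn 𝔫) hmem hD.tel_dn
  refine ⟨h1, h2, h3, h4, ?_⟩
  classical
  refine ⟨fun a b mv => if ∃ v ∈ D.P, b v = 0 then 1 else
    c (fun v => T3.H732.root1_732 (a v) (b v)) (fun v => T3.H732.root2_732 (a v) (b v)) mv, ?_⟩
  intro φ mv hφ a b hecke g
  by_cases hb : ∃ v ∈ D.P, b v = 0
  · simp only [if_pos hb, one_mul]
    obtain ⟨v, hv, hbv⟩ := hb
    have hecke' := hecke v hv
    rw [hbv] at hecke'
    have hzero : ∀ g : G K, φ g = 0 :=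
      T3.H732.eq_zero_of_b_eq_zero732 K (T3.inScalarUnif_u K) hecke'
    rw [hzero g]
    unfold T5.Rconv
    simp only [hzero, mul_zero, integral_zero]
  · simp only [if_neg hb]
    simp only [not_exists, not_and] at hb
    exact hop φ mv hφ a b _ _ hecke (fun v _ => (T3.H732.roots_spec732 (a v) (b v)).1)
      (fun v _ => (T3.H732.roots_spec732 (a v) (b v)).2) hb g

end Fermat.Agent.LT.T7.B981.H34

end

end
-- ===== PACK-END LT/T7/B981/H34/DnGood.lean

-- ===== PACK-BEGIN LT/T7/B981/H607/Shape.lean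
section



/-!
# Row LT, tower T7, LEAF T7.L2.1.H2a.A.0.P `ShapeC981` (helper607, registry row 2915) -- OFF-MAIN

PROVED, VERBATIM vs `LT/T7/B981/PairBaseSpec.lean` (helper981, sha256 cfa0d9f73f18ec34),
unconditional:

    shapeC607 K K' : T7.B981.ShapeC981 K K'

The sums of the data are averages of pure tensors with the local shape `LocA893`, constant `1`:
`Ω = Fin N` (discrete, counting measure), `T a = T₀ ∪ P`, `T' a` = the places over `T₀ ∪ P`.

* `closure_iff_inU607`, `inU_zero_iff607`, `level_zero607`: the closure of the level at a place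
  in terms of the exponent (`IsLevelOf893`).
* `bridge607` (one field): `T3.M.pureFnM F 𝔑 P φ₀ Φ = H305.pure305 T φ₀ Φ` if `P ⊆ T`, the
  components at `T ∖ P` are the unit functions of the level and the level is trivial outside `T`.
* `shapeC607`: the assembly (closed `T3.M.openM_c`, `pureSmoothM`, `isTestFn_T5`).
-/

set_option autoImplicit false

open AutomorphicForm IsDedekindDomain NumberField MeasureTheory
open scoped ComplexConjugate

noncomputable section

namespace Fermat.Agent.LT.T7.B981.H607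

open Fermat.Agent.LT Fermat.Agent.LT.H556 Fermat.Agent.LT.H556.A0 Fermat.Agent.LT.T7
open Fermat.Agent.LT.T7.H305 Fermat.Agent.LT.T7.H893 Fermat.Agent.LT.T7.B981

attribute [local instance] Fermat.Agent.LT.T5.instMeasurableSpaceG

section OneField

variable {F : Type} [Field F] [NumberField F]

/-- The condition of the level group at `w` is `InU (n w)`. -/
theorem closure_iff_inU607 {𝔑 : Ideal (𝓞 F)} {n : HeightOneSpectrum (𝓞 F) → ℕ}
    (hn : IsLevelOf893 𝔑 n) (w : HeightOneSpectrum (𝓞 F)) (h : G F) :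
    (∀ i j : Fin 2, (finComp w h - 1) i j ∈ idealClosure 𝔑 w ∧
        (finComp w h⁻¹ - 1) i j ∈ idealClosure 𝔑 w) ↔ T6.InU (n w) (finGL305 w h) := by
  have e : ((finGL305 w h)⁻¹ : GL (Fin 2) (w.adicCompletion F)) = finGL305 w h⁻¹ :=
    (map_inv _ _).symm
  constructor
  · intro H i j
    refine ⟨(hn w _).1 (H i j).1, ?_⟩
    rw [e]
    exact (hn w _).1 (H i j).2
  · intro H i j
    refine ⟨(hn w _).2 (H i j).1, ?_⟩
    have h2 := (H i j).2
    rw [e] at h2
    exact (hn w _).2 h2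

/-- An entry of the unit matrix is integral. -/
theorem one_entry_mem607 (w : HeightOneSpectrum (𝓞 F)) (i j : Fin 2) :
    (1 : Matrix (Fin 2) (Fin 2) (w.adicCompletion F)) i j ∈ w.adicCompletionIntegers F := by
  rw [Matrix.one_apply]
  split_ifs
  · exact one_mem _
  · exact zero_mem _

/-- `U(0) = GL₂(𝒪)`. -/
theorem inU_zero_iff607 (w : HeightOneSpectrum (𝓞 F)) (h : G F) :
    T6.InU 0 (finGL305 w h) ↔ IsIntegralAt w h ∧ IsIntegralAt w h⁻¹ := by
  have e : ((finGL305 w h)⁻¹ : GL (Fin 2) (w.adicCompletion F)) = finGL305 w h⁻¹ :=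
    (map_inv _ _).symm
  have h1 : WithZero.exp (-((0 : ℕ) : ℤ)) = (1 : T6.Γ₀) := by
    rw [Nat.cast_zero, neg_zero, WithZero.exp_zero]
  have key : ∀ (x : w.adicCompletion F) (i j : Fin 2),
      Valued.v (x - (1 : Matrix (Fin 2) (Fin 2) (w.adicCompletion F)) i j)
        ≤ WithZero.exp (-((0 : ℕ) : ℤ)) ↔ x ∈ w.adicCompletionIntegers F := by
    intro x i j
    rw [h1]
    constructor
    · intro hx
      have h2 : x - (1 : Matrix (Fin 2) (Fin 2) (w.adicCompletion F)) i j
          ∈ w.adicCompletionIntegers F := hx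
      have h3 := add_mem h2 (one_entry_mem607 w i j)
      rwa [sub_add_cancel] at h3
    · intro hx
      exact sub_mem hx (one_entry_mem607 w i j)
  constructor
  · intro H
    refine ⟨fun i j => (key _ i j).1 (H i j).1, fun i j => ?_⟩
    have h2 := (H i j).2
    rw [e] at h2
    exact (key _ i j).1 h2
  · intro H i j
    refine ⟨(key _ i j).2 (H.1 i j), ?_⟩
    rw [e]
    exact (key _ i j).2 (H.2 i j)

/-- The exponent of the level vanishes at a place which does not divide the level. -/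
theorem level_zero607 {𝔑 : Ideal (𝓞 F)} {n : HeightOneSpectrum (𝓞 F) → ℕ}
    (hn : IsLevelOf893 𝔑 n) (w : HeightOneSpectrum (𝓞 F)) (a : 𝓞 F) (ha : a ∈ 𝔑)
    (haw : a ∉ w.asIdeal) : n w = 0 := by
  have hmem : algebraMap F (w.adicCompletion F) (algebraMap (𝓞 F) F a) ∈ idealClosure 𝔑 w :=
    subset_closure ⟨a, ha, rfl⟩
  have h1 := (hn w _).1 hmem
  have e0 : Valued.v (algebraMap F (w.adicCompletion F) (algebraMap (𝓞 F) F a))
      = w.valuation F (algebraMap (𝓞 F) F a) :=
    HeightOneSpectrum.valuedAdicCompletion_eq_valuation' w (algebraMap (𝓞 F) F a)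
  rw [e0, (HeightOneSpectrum.valuation_eq_one_iff_notMem (K := F) (v := w)).2 haw,
    ← WithZero.exp_zero, WithZero.exp_le_exp] at h1
  omega

open Classical in
/-- **THE BRIDGE** between the pure tensors of T3 (station M) and of T7 (helper305). -/
theorem bridge607 {𝔑 : Ideal (𝓞 F)} {n : HeightOneSpectrum (𝓞 F) → ℕ}
    (hn : IsLevelOf893 𝔑 n) (P T : Finset (HeightOneSpectrum (𝓞 F))) (hPT : P ⊆ T)
    (φ₀ : ∀ w : HeightOneSpectrum (𝓞 F), GL (Fin 2) (w.adicCompletion F) → ℂ)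
    (Φ : InfinitePlace F → GL (Fin 2) ℂ → ℂ)
    (hunit : ∀ w ∈ T, w ∉ P → φ₀ w = unitFn893 (n w))
    (hzero : ∀ w : HeightOneSpectrum (𝓞 F), w ∉ T → n w = 0) :
    T3.M.pureFnM F 𝔑 P φ₀ Φ = pure305 T φ₀ Φ := by
  funext h
  have hout : OutT305 T h ↔ ∀ w, w ∉ T → T6.InU (n w) (finGL305 w h) := by
    constructor
    · intro H w hw
      rw [hzero w hw]
      exact (inU_zero_iff607 w h).2 (H w hw)
    · intro H w hw
      have h2 := H w hw
      rw [hzero w hw] at h2
      exact (inU_zero_iff607 w h).1 h2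
  have hUM : T3.M.OutsideUM F 𝔑 P h ↔ ∀ w, w ∉ P → T6.InU (n w) (finGL305 w h) := by
    constructor
    · intro H w hw
      exact (closure_iff_inU607 hn w h).1 (H w hw)
    · intro H w hw
      exact (closure_iff_inU607 hn w h).2 (H w hw)
  have hprod : (∀ w ∈ T, w ∉ P → T6.InU (n w) (finGL305 w h)) →
      ∏ w ∈ T, φ₀ w (finGL305 w h) = ∏ w ∈ P, φ₀ w (finGL305 w h) := by
    intro H
    refine (Finset.prod_subset hPT fun w hw hwP => ?_).symm
    rw [hunit w hw hwP]
    show (if T6.InU (n w) (finGL305 w h) then (1 : ℂ) else 0) = 1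
    rw [if_pos (H w hw hwP)]
  by_cases hU : T3.M.OutsideUM F 𝔑 P h
  · have hU' := hUM.1 hU
    have hO : OutT305 T h := hout.2 fun w hw => hU' w (fun hP => hw (hPT hP))
    show (if T3.M.OutsideUM F 𝔑 P h then
        (∏ v ∈ P, φ₀ v (T3.AS.finGL F v h)) * ∏ w : InfinitePlace F, Φ w (T3.AS.infGL F w h)
      else 0)
      = (if OutT305 T h then
        (∏ v ∈ T, φ₀ v (finGL305 v h)) * ∏ w : InfinitePlace F, Φ w (infGL305 w h) else 0)
    rw [if_pos hU, if_pos hO, hprod fun w _ hwP => hU' w hwP]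
    rfl
  · show (if T3.M.OutsideUM F 𝔑 P h then
        (∏ v ∈ P, φ₀ v (T3.AS.finGL F v h)) * ∏ w : InfinitePlace F, Φ w (T3.AS.infGL F w h)
      else 0)
      = (if OutT305 T h then
        (∏ v ∈ T, φ₀ v (finGL305 v h)) * ∏ w : InfinitePlace F, Φ w (infGL305 w h) else 0)
    rw [if_neg hU]
    by_cases hO : OutT305 T h
    · rw [if_pos hO]
      have hex : ∃ w, w ∉ P ∧ ¬ T6.InU (n w) (finGL305 w h) := by
        by_contra hcon
        push Not at hcon
        exact hU (hUM.2 hcon)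
      obtain ⟨w, hwP, hwn⟩ := hex
      have hwT : w ∈ T := by
        by_contra hwT
        exact hwn (hout.1 hO w hwT)
      have h0 : φ₀ w (finGL305 w h) = 0 := by
        rw [hunit w hwT hwP]
        show (if T6.InU (n w) (finGL305 w h) then (1 : ℂ) else 0) = 0
        rw [if_neg hwn]
      rw [Finset.prod_eq_zero hwT h0, zero_mul]
    · rw [if_neg hO]

end OneField

section TwoFields

variable {K K' : Type} [Field K] [NumberField K] [Field K'] [NumberField K'] [Algebra K K']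

/-- Every place of `K'` lies over a place of `K`. -/
theorem exists_under607 (w : HeightOneSpectrum (𝓞 K')) :
    ∃ v : HeightOneSpectrum (𝓞 K), PlaceOver K K' v w := by
  refine ⟨HeightOneSpectrum.under (𝓞 K) w, (H557.placeOver_iff_557 _ w).2 ?_⟩
  simp only [HeightOneSpectrum.under_asIdeal]

/-- The exponents of `𝔫` and of `𝔫 𝒪_{K'}` vanish outside the places of the level. -/
theorem levelAt607 {𝔫 : Ideal (𝓞 K)} {T₀ : Finset (HeightOneSpectrum (𝓞 K))}
    {n : HeightOneSpectrum (𝓞 K') → ℕ} {m : HeightOneSpectrum (𝓞 K) → ℕ}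
    (hT₀ : ∀ v : HeightOneSpectrum (𝓞 K), v ∈ T₀ ↔ v.asIdeal ∣ 𝔫)
    (hm : IsLevelOf893 𝔫 m) (hn : IsLevelOf893 (upI (K' := K') 𝔫) n) :
    IsLevelAt305 (K' := K') T₀ n m := by
  have hex : ∀ v : HeightOneSpectrum (𝓞 K), v ∉ T₀ → ∃ a ∈ 𝔫, a ∉ v.asIdeal := by
    intro v hv
    have h1 : ¬ 𝔫 ≤ v.asIdeal := fun h => hv ((hT₀ v).2 (Ideal.dvd_iff_le.2 h))
    obtain ⟨a, ha, hav⟩ := Set.not_subset.1 h1
    exact ⟨a, ha, hav⟩
  refine ⟨fun v hv => ?_, fun v w hv hvw => ?_⟩
  · obtain ⟨a, ha, hav⟩ := hex v hv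
    exact level_zero607 hm v a ha hav
  · obtain ⟨a, ha, hav⟩ := hex v hv
    refine level_zero607 hn w (algebraMap (𝓞 K) (𝓞 K') a) (Ideal.mem_map_of_mem _ ha) ?_
    exact fun h => hav ((hvw a (algebraMap (𝓞 K) (𝓞 K') a) rfl).2 h)

end TwoFields

section Leaf

variable (K K' : Type) [Field K] [NumberField K] [Field K'] [NumberField K'] [Algebra K K']

/-- **LEAF T7.L2.1.H2a.A.0.P `ShapeC981`, VERBATIM, unconditional.** -/
theorem shapeC607 : ShapeC981 K K' := by
  classical
  intro ℓ _ _ Φe B _ 𝔫 _ μc _ T₀ n n₀ m hexp D hD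
  have hLA : IsLevelAt305 (K' := K') T₀ n m := levelAt607 hexp.mem_T₀ hexp.lev_m hexp.lev_n
  have hPT₀ : ∀ v ∈ D.P, v ∉ T₀ := fun v hv hT => hD.frame_dn.prime v hv ((hexp.mem_T₀ v).1 hT)
  -- the sets of places
  obtain ⟨T', hT'⟩ : ∃ T' : Finset (HeightOneSpectrum (𝓞 K')), IsOver305 (T₀ ∪ D.P) T' :=
    ⟨(H557.finite_over_557 (K' := K') (T₀ ∪ D.P)).toFinset, fun w => by
      rw [Set.Finite.mem_toFinset]
      exact Iff.rfl⟩
  have hP'T' : D.P' ⊆ T' := by
    intro w hw
    obtain ⟨v, hv⟩ := exists_under607 (K := K) w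
    exact (hT' w).2 ⟨v, Finset.mem_union_right _ ((hD.under v).2 ⟨w, hw, hv⟩), hv⟩
  -- the bridges
  have hbu : ∀ i : Fin D.N, T3.M.pureFnM K' (upI (K' := K') 𝔫) D.P' (D.φ₀ i) (D.Φ i)
      = pure305 T' (D.φ₀ i) (D.Φ i) := by
    intro i
    refine bridge607 hexp.lev_n D.P' T' hP'T' _ _ (fun w hw hwP => ?_) (fun w hw => ?_)
    · obtain ⟨v, hv, hvw⟩ := (hT' w).1 hw
      rcases Finset.mem_union.1 hv with hv | hv
      · exact (hD.loc i).2.1 v hv w hvw
      · rw [hD.unit_rest i w hwP ⟨v, hv, hvw⟩, hLA.2 v w (hPT₀ v hv) hvw]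
    · obtain ⟨v, hv⟩ := exists_under607 (K := K) w
      refine hLA.2 v w (fun hT => hw ((hT' w).2 ⟨v, Finset.mem_union_left _ hT, hv⟩)) hv
  have hbd : ∀ i : Fin D.N, T3.M.pureFnM K 𝔫 D.P (D.f₀ i) (D.F i)
      = pure305 (T₀ ∪ D.P) (D.f₀ i) (D.F i) := by
    intro i
    refine bridge607 hexp.lev_m D.P (T₀ ∪ D.P) Finset.subset_union_right _ _
      (fun v hv hvP => ?_) (fun v hv => ?_)
    · rcases Finset.mem_union.1 hv with hv | hv
      · rw [(hD.loc i).1 v hv]
      · exact absurd hv hvP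
    · exact hLA.1 v fun hT => hv (Finset.mem_union_left _ hT)
  -- the members are test functions
  have htu : ∀ i : Fin D.N, T5.IsTestFn (upI (K' := K') 𝔫) T5.trivType
      (pure305 T' (D.φ₀ i) (D.Φ i)) := by
    intro i
    obtain ⟨r1, r2, r3, -⟩ := (T3.M.openM_c K').pureReg (upI (K' := K') 𝔫) hD.frame_up.level
      D.P' hD.frame_up.prime (D.φ₀ i) (D.Φ i) (fun w hw => (hD.sat_up i w hw).bi_inv)
      (fun w hw => (hD.sat_up i w hw).fin_supp) (hD.test_up i)
    rw [← hbu i]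
    exact T3.isTestFn_T5 K' r1 r2 (T3.M.pureSmoothM _ _ _ _ (hD.smooth_up i)) r3
  have htd : ∀ i : Fin D.N, T5.IsTestFn 𝔫 T5.trivType
      (fun h => (1 : ℂ) * pure305 (T₀ ∪ D.P) (D.f₀ i) (D.F i) h) := by
    intro i
    obtain ⟨r1, r2, r3, -⟩ := (T3.M.openM_c K).pureReg 𝔫 hD.frame_dn.level
      D.P hD.frame_dn.prime (D.f₀ i) (D.F i) (fun v hv => (hD.sat_dn i v hv).bi_inv)
      (fun v hv => (hD.sat_dn i v hv).fin_supp) (hD.test_dn i)
    have e : (fun h => (1 : ℂ) * pure305 (T₀ ∪ D.P) (D.f₀ i) (D.F i) h)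
        = T3.M.pureFnM K 𝔫 D.P (D.f₀ i) (D.F i) := by
      rw [hbd i]
      funext h
      exact one_mul _
    rw [e]
    exact T3.isTestFn_T5 K r1 r2 (T3.M.pureSmoothM _ _ _ _ (hD.smooth_dn i)) r3
  refine ⟨Fin D.N, inferInstance, inferInstance, inferInstance, inferInstance, inferInstance,
    ⟨borel_eq_top_of_discrete.symm⟩, Measure.count, inferInstance, fun _ => T₀ ∪ D.P,
    fun _ => T', D.φ₀, D.Φ, D.f₀, D.F, ?_, htu, htd, ?_, ?_, ?_, ?_, ?_, ?_⟩
  · exact fun a => ⟨Finset.subset_union_left, hT', hD.loc a⟩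
  · exact continuous_prod_of_discrete_left.2 fun a => (htu a).cont
  · exact continuous_prod_of_discrete_left.2 fun a => (htd a).cont
  · refine ⟨⋃ i : Fin D.N, tsupport (pure305 T' (D.φ₀ i) (D.Φ i)),
      isCompact_iUnion fun i => (htu i).supp, fun a h hne => ?_⟩
    exact Set.mem_iUnion.2 ⟨a, subset_tsupport _ hne⟩
  · refine ⟨⋃ i : Fin D.N, tsupport (pure305 (T₀ ∪ D.P) (D.f₀ i) (D.F i)),
      isCompact_iUnion fun i => ?_, fun a h hne => ?_⟩
    · have h1 := (htd i).supp
      have e : (fun h => (1 : ℂ) * pure305 (T₀ ∪ D.P) (D.f₀ i) (D.F i) h)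
          = pure305 (T₀ ∪ D.P) (D.f₀ i) (D.F i) := funext fun h => one_mul _
      rw [e] at h1
      exact h1
    · exact Set.mem_iUnion.2 ⟨a, subset_tsupport _ hne⟩
  · intro h
    rw [integral_count]
    show ∑ i : Fin D.N, T3.M.pureFnM K' (upI (K' := K') 𝔫) D.P' (D.φ₀ i) (D.Φ i) h = _
    exact Finset.sum_congr rfl fun i _ => congrFun (hbu i) h
  · intro h
    rw [integral_count]
    show ∑ i : Fin D.N, T3.M.pureFnM K 𝔫 D.P (D.f₀ i) (D.F i) h = _
    refine Finset.sum_congr rfl fun i _ => ?_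
    rw [congrFun (hbd i) h, one_mul]

end Leaf

end Fermat.Agent.LT.T7.B981.H607

end

end
-- ===== PACK-END LT/T7/B981/H607/Shape.lean

-- ===== PACK-BEGIN LT/T7/H999/NormFrame.lean
section



/-!
# Row LT, tower T7, leaf D.2 `B981.NormFrameC981` (fourth cut of helper981 of `DatC981`;
# helper999, SPARE of registry row 2980)

OFF-MAIN.  Complete proof, nothing assumed.  ADDITIVE (new names only, suffix `N999`).

    normFrameC999 (K K') : B981.NormFrameC981 K K'        (VERBATIM, UNCONDITIONAL)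

`P` = the places under `P'`, `e v = ∑_{w ∈ P', w ∣ v} f_w e'_w`, `a₀ = N_{K'/K} a₀'`
(`Algebra.intNorm`), `α = N α'`.

* `(a₀) = N((a₀')) = ∏_w N(w)^{e'_w}` (`Ideal.relNorm_singleton`), `N(w) = v^{f_w}`
  (`Ideal.relNorm_eq_pow_of_isMaximal`), `resDeg981 v w = f_w` (`Nat.log_pow`), and the product
  over `P'` is regrouped along the fibres of `w ↦ w ∩ 𝒪_K`.
* `a₀ ≡ 1 mod 𝔫`: `a₀ = ∏_σ σ a₀'` in `𝒪_{K'}` (`K'/K` Galois), `σ a₀' ≡ 1 mod 𝔫 𝒪_{K'}` (the
  ideal `𝔫 𝒪_{K'}` is stable), and `𝔫 𝒪_{K'} ∩ 𝒪_K = 𝔫` (faithfully flat).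
* infinite places: `v(N α') = ∏_σ (σ • w₀)(α')`, and `ℓ` different places over `v` are the orbit
  of `w₀` without repetition.  (`TotCplx K` and `ℓ ≠ 2` are not used.)
-/

set_option autoImplicit false
set_option linter.deprecated false
set_option linter.style.haveILetI false
set_option linter.unusedVariables false
set_option linter.unusedSectionVars false

open AutomorphicForm IsDedekindDomain NumberField

namespace Fermat.Agent.LT.T7.H999

open Fermat.Agent.LT.H556 Fermat.Agent.LT.H556.A0 Fermat.Agent.LT.T7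
open Fermat.Agent.LT.T7.H305 Fermat.Agent.LT.T7.H893 Fermat.Agent.LT.T7.B981

variable {K K' : Type} [Field K] [NumberField K] [Field K'] [NumberField K'] [Algebra K K']

/-! ## 1. Places over a place -/

theorem liesOver_of_placeOverN999 {v : HeightOneSpectrum (𝓞 K)} {w : HeightOneSpectrum (𝓞 K')}
    (h : PlaceOver K K' v w) : w.asIdeal.LiesOver v.asIdeal :=
  ⟨Ideal.ext fun x => by
    rw [Ideal.under_def, Ideal.mem_comap]
    exact h x _ rfl⟩

theorem placeOver_underN999 (w : HeightOneSpectrum (𝓞 K')) :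
    PlaceOver K K' (w.under (𝓞 K)) w := by
  intro x y hy
  have hy' : y = algebraMap (𝓞 K) (𝓞 K') x := RingOfIntegers.ext hy
  rw [hy']
  exact Iff.rfl

theorem eq_under_of_placeOverN999 {v : HeightOneSpectrum (𝓞 K)}
    {w : HeightOneSpectrum (𝓞 K')} (h : PlaceOver K K' v w) : v = w.under (𝓞 K) :=
  HeightOneSpectrum.ext (liesOver_of_placeOverN999 h).over

theorem mem_fibN999 {P' : Finset (HeightOneSpectrum (𝓞 K'))} {v : HeightOneSpectrum (𝓞 K)}
    {w : HeightOneSpectrum (𝓞 K')} :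
    w ∈ fib981 (K := K) P' v ↔ w ∈ P' ∧ PlaceOver K K' v w := by
  classical
  delta fib981
  exact Finset.mem_filter

theorem one_lt_absNormN999 (v : HeightOneSpectrum (𝓞 K)) : 1 < Ideal.absNorm v.asIdeal := by
  have h0 : Ideal.absNorm v.asIdeal ≠ 0 := by
    rw [Ne, Ideal.absNorm_eq_zero_iff]
    exact v.ne_bot
  have h1 : Ideal.absNorm v.asIdeal ≠ 1 := by
    rw [Ne, Ideal.absNorm_eq_one_iff]
    exact v.isPrime.ne_top
  omega

theorem resDeg_eqN999 {v : HeightOneSpectrum (𝓞 K)} {w : HeightOneSpectrum (𝓞 K')}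
    (h : PlaceOver K K' v w) : resDeg981 v w = w.asIdeal.inertiaDeg (𝓞 K) := by
  haveI := liesOver_of_placeOverN999 h
  haveI := v.isMaximal
  haveI := w.isMaximal
  show Nat.log (Ideal.absNorm v.asIdeal) (Ideal.absNorm w.asIdeal) = _
  rw [Ideal.absNorm_eq_pow_inertiaDeg'_of_liesOver w.asIdeal v.asIdeal v.isPrime v.ne_bot,
    Nat.log_pow (one_lt_absNormN999 v), Ideal.inertiaDeg'_eq_inertiaDeg]

theorem resDeg_posN999 {v : HeightOneSpectrum (𝓞 K)} {w : HeightOneSpectrum (𝓞 K')}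
    (h : PlaceOver K K' v w) : 0 < resDeg981 v w := by
  haveI := liesOver_of_placeOverN999 h
  haveI := v.isMaximal
  haveI := w.isMaximal
  rw [resDeg_eqN999 h]
  exact Ideal.inertiaDeg_pos w.asIdeal (𝓞 K)

theorem relNorm_placeN999 {v : HeightOneSpectrum (𝓞 K)} {w : HeightOneSpectrum (𝓞 K')}
    (h : PlaceOver K K' v w) :
    Ideal.relNorm (𝓞 K) w.asIdeal = v.asIdeal ^ resDeg981 v w := by
  haveI := liesOver_of_placeOverN999 h
  haveI := v.isMaximal
  haveI := w.isMaximal
  rw [resDeg_eqN999 h]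
  exact Ideal.relNorm_eq_pow_of_isMaximal w.asIdeal v.asIdeal

/-! ## 2. The norm of an integer -/

theorem coe_intNormN999 (y : 𝓞 K') :
    ((Algebra.intNorm (𝓞 K) (𝓞 K') y : 𝓞 K) : K) = Algebra.norm K (y : K') :=
  Algebra.algebraMap_intNorm (A := 𝓞 K) (K := K) (L := K') (B := 𝓞 K') y

/-- `N y = ∏_σ σ y` in `𝒪_{K'}`. -/
theorem algebraMap_intNormN999 [IsGalois K K'] (y : 𝓞 K') :
    algebraMap (𝓞 K) (𝓞 K') (Algebra.intNorm (𝓞 K) (𝓞 K') y)
      = ∏ σ : K' ≃ₐ[K] K', RingOfIntegers.mapRingEquiv (σ : K' ≃+* K') y := by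
  apply RingOfIntegers.ext
  have h1 : ((algebraMap (𝓞 K) (𝓞 K') (Algebra.intNorm (𝓞 K) (𝓞 K') y) : 𝓞 K') : K')
      = algebraMap K K' ((Algebra.intNorm (𝓞 K) (𝓞 K') y : 𝓞 K) : K) := rfl
  rw [h1, coe_intNormN999, Algebra.norm_eq_prod_automorphisms]
  have h2 : ((∏ σ : K' ≃ₐ[K] K', RingOfIntegers.mapRingEquiv (σ : K' ≃+* K') y : 𝓞 K') : K')
      = ∏ σ : K' ≃ₐ[K] K', ((RingOfIntegers.mapRingEquiv (σ : K' ≃+* K') y : 𝓞 K') : K') :=
    map_prod (algebraMap (𝓞 K') K') _ _
  rw [h2]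
  rfl

/-- The ideal `𝔫 𝒪_{K'}` is stable under the Galois group. -/
theorem map_stableN999 (𝔫 : Ideal (𝓞 K)) (σ : K' ≃ₐ[K] K') (y : 𝓞 K')
    (hy : y ∈ Ideal.map (algebraMap (𝓞 K) (𝓞 K')) 𝔫) :
    RingOfIntegers.mapRingEquiv (σ : K' ≃+* K') y ∈ Ideal.map (algebraMap (𝓞 K) (𝓞 K')) 𝔫 := by
  have hle : Ideal.map (algebraMap (𝓞 K) (𝓞 K')) 𝔫
      ≤ Ideal.comap (RingOfIntegers.mapRingEquiv (σ : K' ≃+* K') : 𝓞 K' →+* 𝓞 K')
          (Ideal.map (algebraMap (𝓞 K) (𝓞 K')) 𝔫) := by
    rw [Ideal.map_le_iff_le_comap]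
    intro x hx
    rw [Ideal.mem_comap, Ideal.mem_comap]
    have hfix : (RingOfIntegers.mapRingEquiv (σ : K' ≃+* K') : 𝓞 K' →+* 𝓞 K')
        (algebraMap (𝓞 K) (𝓞 K') x) = algebraMap (𝓞 K) (𝓞 K') x := by
      apply RingOfIntegers.ext
      exact σ.commutes (x : K)
    rw [hfix]
    exact Ideal.mem_map_of_mem _ hx
  exact hle hy

/-- `y ≡ 1 mod 𝔫 𝒪_{K'}` implies `N y ≡ 1 mod 𝔫`. -/
theorem intNorm_sub_one_memN999 [IsGalois K K'] (𝔫 : Ideal (𝓞 K)) (y : 𝓞 K')
    (hy : y - 1 ∈ Ideal.map (algebraMap (𝓞 K) (𝓞 K')) 𝔫) :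
    Algebra.intNorm (𝓞 K) (𝓞 K') y - 1 ∈ 𝔫 := by
  rw [← Ideal.comap_map_eq_self_of_faithfullyFlat (B := 𝓞 K') 𝔫, Ideal.mem_comap, map_sub,
    map_one, algebraMap_intNormN999]
  rw [← Ideal.Quotient.eq_zero_iff_mem, map_sub, map_one, map_prod, sub_eq_zero]
  apply Finset.prod_eq_one
  intro σ _
  rw [← sub_eq_zero, ← map_one (Ideal.Quotient.mk _), ← map_sub, Ideal.Quotient.eq_zero_iff_mem]
  have h := map_stableN999 𝔫 σ (y - 1) hy
  rwa [map_sub, map_one] at h

/-! ## 3. Infinite places -/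

/-- `log v(N x) = ∑_j log w_j(x)` for `ℓ` different places `w_j` over `v`. -/
theorem arch_normN999 [IsGalois K K'] (ℓ : ℕ) (hdeg : Module.finrank K K' = ℓ)
    (v : InfinitePlace K) (wen : ℕ → InfinitePlace K') (hen : IsEnum981 ℓ v wen)
    (x : K') (hx : x ≠ 0) :
    Real.log (v (Algebra.norm K x)) = ∑ j ∈ Finset.range ℓ, Real.log ((wen j) x) := by
  classical
  obtain ⟨hov, hinj⟩ := hen
  have hcard : Fintype.card (K' ≃ₐ[K] K') = ℓ := by
    rw [← Nat.card_eq_fintype_card, IsGalois.card_aut_eq_finrank K K', hdeg]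
  have h1 : v (Algebra.norm K x) = ∏ σ : K' ≃ₐ[K] K', (σ • wen 0) x := by
    rw [← hov 0, InfinitePlace.comap_apply, Algebra.norm_eq_prod_automorphisms, map_prod]
    refine Fintype.prod_equiv (Equiv.inv (K' ≃ₐ[K] K')) _ _ (fun σ => ?_)
    rw [Equiv.inv_apply, InfinitePlace.smul_apply]
    rfl
  have hTcard : ((Finset.range ℓ).image wen).card = ℓ := by
    rw [Finset.card_image_of_injOn, Finset.card_range]
    intro a ha b hb hab
    exact hinj a b (Finset.mem_range.1 ha) (Finset.mem_range.1 hb) hab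
  have hScard : ((Finset.univ : Finset (K' ≃ₐ[K] K')).image (fun σ => σ • wen 0)).card ≤ ℓ := by
    calc ((Finset.univ : Finset (K' ≃ₐ[K] K')).image (fun σ => σ • wen 0)).card
        ≤ (Finset.univ : Finset (K' ≃ₐ[K] K')).card := Finset.card_image_le
      _ = ℓ := by rw [Finset.card_univ, hcard]
  have hTS : (Finset.range ℓ).image wen
      ⊆ (Finset.univ : Finset (K' ≃ₐ[K] K')).image (fun σ => σ • wen 0) := by
    intro u hu
    obtain ⟨j, -, rfl⟩ := Finset.mem_image.1 hu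
    obtain ⟨σ, hσ⟩ := InfinitePlace.exists_smul_eq_of_comap_eq
      (show (wen 0).comap (algebraMap K K') = (wen j).comap (algebraMap K K') by
        rw [hov 0, hov j])
    exact Finset.mem_image.2 ⟨σ, Finset.mem_univ _, hσ⟩
  have hEq : (Finset.range ℓ).image wen
      = (Finset.univ : Finset (K' ≃ₐ[K] K')).image (fun σ => σ • wen 0) :=
    Finset.eq_of_subset_of_card_le hTS (by rw [hTcard]; exact hScard)
  have hoinj : Function.Injective (fun σ : K' ≃ₐ[K] K' => σ • wen 0) := by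
    have hc : ((Finset.univ : Finset (K' ≃ₐ[K] K')).image (fun σ => σ • wen 0)).card
        = (Finset.univ : Finset (K' ≃ₐ[K] K')).card := by
      rw [← hEq, hTcard, Finset.card_univ, hcard]
    have hi := Finset.card_image_iff.1 hc
    intro a b hab
    exact hi (Finset.mem_coe.2 (Finset.mem_univ a)) (Finset.mem_coe.2 (Finset.mem_univ b)) hab
  have h2 : ∏ σ : K' ≃ₐ[K] K', (σ • wen 0) x = ∏ j ∈ Finset.range ℓ, (wen j) x := by
    calc ∏ σ : K' ≃ₐ[K] K', (σ • wen 0) x
        = ∏ u ∈ (Finset.univ : Finset (K' ≃ₐ[K] K')).image (fun σ => σ • wen 0), u x := by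
          rw [Finset.prod_image (fun a _ b _ hab => hoinj hab)]
      _ = ∏ u ∈ (Finset.range ℓ).image wen, u x := by rw [hEq]
      _ = ∏ j ∈ Finset.range ℓ, (wen j) x := by
          rw [Finset.prod_image (fun a ha b hb hab =>
            hinj a b (Finset.mem_range.1 ha) (Finset.mem_range.1 hb) hab)]
  rw [h1, h2, Real.log_prod]
  intro j _
  exact (map_ne_zero (wen j)).2 hx

/-! ## 4. The leaf -/

variable (K K')

/-- **LEAF D.2 = NORM-FRAME**, VERBATIM, unconditional. -/
theorem normFrameC999 : Fermat.Agent.LT.T7.B981.NormFrameC981 K K' := by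
  intro ℓ hcyc _ _ 𝔫 P' e' a₀' α' h𝔫 hF
  haveI := hcyc.galois
  classical
  have hmemP : ∀ v : HeightOneSpectrum (𝓞 K),
      v ∈ P'.image (fun w : HeightOneSpectrum (𝓞 K') => w.under (𝓞 K))
        ↔ ∃ w ∈ P', PlaceOver K K' v w := by
    intro v
    rw [Finset.mem_image]
    constructor
    · rintro ⟨w, hw, rfl⟩
      exact ⟨w, hw, placeOver_underN999 w⟩
    · rintro ⟨w, hw, hov⟩
      exact ⟨w, hw, (eq_under_of_placeOverN999 hov).symm⟩
  refine ⟨P'.image (fun w : HeightOneSpectrum (𝓞 K') => w.under (𝓞 K)),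
    fun v => ∑ w ∈ fib981 (K := K) P' v, resDeg981 v w * e' w,
    Algebra.intNorm (𝓞 K) (𝓞 K') a₀', Units.map (Algebra.norm K : K' →* K) α',
    ⟨h𝔫, hF.nonempty.image _, ?_, ?_, ?_, ?_, ?_⟩, hmemP, fun v _ => rfl, ?_⟩
  · -- `v ∤ 𝔫`
    intro v hv hdvd
    obtain ⟨w, hw, rfl⟩ := Finset.mem_image.1 hv
    apply hF.prime w hw
    rw [Ideal.dvd_iff_le] at hdvd ⊢
    show Ideal.map (algebraMap (𝓞 K) (𝓞 K')) 𝔫 ≤ w.asIdeal
    rw [Ideal.map_le_iff_le_comap]
    exact hdvd
  · -- `e v > 0`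
    intro v hv
    obtain ⟨w, hw, hov⟩ := (hmemP v).1 hv
    have hle : resDeg981 v w * e' w ≤ ∑ w ∈ fib981 (K := K) P' v, resDeg981 v w * e' w :=
      Finset.single_le_sum (f := fun w => resDeg981 v w * e' w) (fun _ _ => Nat.zero_le _)
        (mem_fibN999.2 ⟨hw, hov⟩)
    exact lt_of_lt_of_le (Nat.mul_pos (resDeg_posN999 hov) (hF.pos w hw)) hle
  · -- `(a₀) = ∏ v ^ e v`
    rw [← Ideal.relNorm_singleton (𝓞 K) a₀', hF.span, map_prod,
      ← Finset.prod_fiberwise_of_maps_to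
        (g := fun w : HeightOneSpectrum (𝓞 K') => w.under (𝓞 K))
        (t := P'.image (fun w : HeightOneSpectrum (𝓞 K') => w.under (𝓞 K)))
        (fun w hw => Finset.mem_image_of_mem _ hw)]
    refine Finset.prod_congr rfl (fun v hv => ?_)
    rw [← Finset.prod_pow_eq_pow_sum]
    apply Finset.prod_congr
    · ext w
      rw [Finset.mem_filter, mem_fibN999]
      constructor
      · rintro ⟨hw, rfl⟩
        exact ⟨hw, placeOver_underN999 w⟩
      · rintro ⟨hw, hov⟩
        exact ⟨hw, (eq_under_of_placeOverN999 hov).symm⟩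
    · intro w hw
      rw [mem_fibN999] at hw
      rw [map_pow, relNorm_placeN999 hw.2, ← pow_mul]
  · -- `a₀ ≡ 1 mod 𝔫`
    exact intNorm_sub_one_memN999 𝔫 a₀' hF.cong
  · -- `α = a₀`
    show Algebra.norm K (α' : K') = algebraMap (𝓞 K) K (Algebra.intNorm (𝓞 K) (𝓞 K') a₀')
    rw [hF.coe]
    exact (coe_intNormN999 a₀').symm
  · -- infinite places
    intro v wen hen
    exact arch_normN999 ℓ hcyc.degree v wen hen (α' : K') α'.ne_zero

end Fermat.Agent.LT.T7.H999

end
-- ===== PACK-END LT/T7/H999/NormFrame.lean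

-- ===== PACK-BEGIN LT/T7/B981/H413/UpDat.lean
section




/-!
# Row LT, tower T7, node `DatC981`, LEAF D.1 `B981.UpDatC981 K` (helper413, registry row 2979)

OFF-MAIN, never land.  Frozen Prop: `LT/T7/B981/PairDatSpec.lean` (helper981@0a611b59a,
sha256 df231e9868945811).  Complete proof, nothing assumed, new names only (suffix `413`).

Route (the docstring of the leaf):
* `T3.M.EKCoreC` (closed: `(T3.M.openM_c K).core`) for `ι₁ = P`, `ι₂ = InfinitePlace K` gives
  `Φ ∈ SymSpanCrd`, telescoping along `c0 = coordTorM K P e α`, `ftCrd Φ ≠ 0`;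
* `Submodule.mem_span_set'`: `Φ = ∑ i, c i • pureCrd (A' i) (β' i)`; the coefficient `c i` is
  absorbed in `β' i w₀` for ONE infinite place `w₀`; `A i v = 0` outside `P`;
* `T3.satakeLoc_closed` gives `f₀ i v`; `T3.abelCplxSmooth_closed` gives `μc₀`, `κc₀ ≠ 0`, `F i w`;
  `μc = t • μc₀` (uniqueness of the Haar measure of `GL₂(ℂ)`), so `κc = t κc₀`.

    upDatC413 (K) : B981.UpDatC981 K          (VERBATIM, UNCONDITIONAL)
-/

set_option autoImplicit false
set_option linter.style.haveILetI false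
set_option linter.unusedVariables false

open AutomorphicForm IsDedekindDomain NumberField MeasureTheory

noncomputable section

namespace Fermat.Agent.LT.T7.B981.H413

open Fermat.Agent.LT Fermat.Agent.LT.T3.AS

/-! ## 1. Scalar multiples of symmetric bumps -/

theorem isSymBump_const_mul413 {β : ℝ × ℝ → ℂ} (hβ : IsSymBump β) (c : ℂ) :
    IsSymBump (fun x => c * β x) := by
  obtain ⟨h1, h2, h3⟩ := hβ
  refine ⟨contDiff_const.mul h1, ?_, fun x y => by simp only [h3 x y]⟩
  exact h2.mono fun x hx => by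
    rw [Function.mem_support] at hx ⊢
    intro h0
    exact hx (by simp [h0])

/-! ## 2. The Haar measures of `GL₂(ℂ)` are proportional -/

theorem actsBy_of_haar413 {μc μc₀ : @Measure (GL (Fin 2) ℂ) (borel _)}
    (hμc : @Measure.IsHaarMeasure _ _ _ (borel _) μc)
    (hμc₀ : @Measure.IsHaarMeasure _ _ _ (borel _) μc₀) :
    ∃ t : ℂ, t ≠ 0 ∧ ∀ (F : GL (Fin 2) ℂ → ℂ) (C : ℂ),
      @ActsBy (borel _) μc₀ F C → @ActsBy (borel _) μc F (t * C) := by
  letI : MeasurableSpace (GL (Fin 2) ℂ) := borel _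
  haveI : BorelSpace (GL (Fin 2) ℂ) := ⟨rfl⟩
  haveI : SecondCountableTopology (GL (Fin 2) ℂ) := T3.H57.secondCountable_GL2C57
  haveI : LocallyCompactSpace (GL (Fin 2) ℂ) := T3.H57.locallyCompact_GL2C57
  haveI := hμc
  haveI := hμc₀
  have hc : μc = Measure.haarScalarFactor μc μc₀ • μc₀ :=
    Measure.isMulLeftInvariant_eq_smul μc μc₀
  have hpos : 0 < Measure.haarScalarFactor μc μc₀ :=
    Measure.haarScalarFactor_pos_of_isHaarMeasure μc μc₀
  refine ⟨(((Measure.haarScalarFactor μc μc₀ : NNReal) : ℝ) : ℂ), ?_, fun F C hF Ψ hΨ y => ?_⟩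
  · have : ((Measure.haarScalarFactor μc μc₀ : NNReal) : ℝ) ≠ 0 := by
      exact_mod_cast hpos.ne'
    exact_mod_cast this
  · have h1 : ∫ h, Ψ (y * h) * F h ∂μc
        = ∫ h, Ψ (y * h) * F h ∂(Measure.haarScalarFactor μc μc₀ • μc₀) := by
      rw [← hc]
    rw [h1, integral_smul_nnreal_measure, hF Ψ hΨ y, NNReal.smul_def, Complex.real_smul]
    ring

/-! ## 3. The leaf -/

variable (K : Type) [Field K] [NumberField K]

/-- **LEAF D.1** (`B981.UpDatC981 K`, VERBATIM). -/
theorem upDatC413 : B981.UpDatC981 K := by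
  classical
  intro _hTC μc hμc 𝔫 P e a₀ α hfr
  -- the core
  haveI : Nonempty P := hfr.nonempty.to_subtype
  obtain ⟨Φ, hΦspan, hΦtel, hΦft⟩ :=
    (T3.M.openM_c K).core P (InfinitePlace K) (fun v : P => e v)
      (fun w : InfinitePlace K => Real.log (w (α : K))) (fun v => hfr.pos v.1 v.2)
  -- the finite sum
  obtain ⟨N, c, g, hsum⟩ := Submodule.mem_span_set'.1 hΦspan
  have hg : ∀ i : Fin N, ∃ (A' : P → ℤ × ℤ → ℂ) (β' : InfinitePlace K → ℝ × ℝ → ℂ),
      (∀ v, IsSymFin (A' v)) ∧ (∀ w, IsSymBump (β' w)) ∧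
        ((g i : T3.M.Crd P (InfinitePlace K) → ℂ)) = T3.M.pureCrd A' β' := fun i => (g i).2
  choose A' β' hA' hβ' hgi using hg
  -- the local Abel pairs for the measure of the station
  obtain ⟨μc₀, hμc₀, κc₀, hκc₀, hAbel⟩ := T3.abelCplxSmooth_closed
  obtain ⟨t, ht, hact⟩ := actsBy_of_haar413 hμc hμc₀
  -- one infinite place
  obtain ⟨w₀⟩ : Nonempty (InfinitePlace K) := inferInstance
  -- the data
  set A : Fin N → HeightOneSpectrum (𝓞 K) → ℤ × ℤ → ℂ :=
    fun i v => if h : v ∈ P then A' i ⟨v, h⟩ else 0 with hAdef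
  set β : Fin N → InfinitePlace K → ℝ × ℝ → ℂ :=
    fun i w x => (if w = w₀ then c i else 1) * β' i w x with hβdef
  have hAA' : ∀ i, (fun v : P => A i v) = A' i := by
    intro i
    funext v
    simp only [hAdef, dif_pos v.2, Subtype.coe_eta]
  have hAsym : ∀ i v, IsSymFin (A i v) := by
    intro i v
    by_cases hv : v ∈ P
    · simp only [hAdef, dif_pos hv]
      exact hA' i ⟨v, hv⟩
    · simp only [hAdef, dif_neg hv]
      exact ⟨by simp, fun _ _ => rfl⟩
  have hβsym : ∀ i w, IsSymBump (β i w) := fun i w =>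
    isSymBump_const_mul413 (hβ' i w) _
  choose f₀ hpair using fun (i : Fin N) (v : HeightOneSpectrum (𝓞 K)) =>
    T3.satakeLoc_closed K v (A i v) (hAsym i v)
  choose F hF1 hFs hF2 hF3 using fun (i : Fin N) (w : InfinitePlace K) =>
    hAbel (β i w) (hβsym i w)
  -- the pure tensors
  have hpure : ∀ (i : Fin N) (p : T3.M.CoordM K P),
      T3.M.pureCoordM K P (A i) (β i) p = c i * (g i : T3.M.Crd P (InfinitePlace K) → ℂ) p := by
    intro i p
    unfold T3.M.pureCoordM
    rw [hAA' i, hgi i]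
    unfold T3.M.pureCrd
    simp only [hβdef]
    rw [Finset.prod_mul_distrib, Finset.prod_ite_eq' Finset.univ w₀ (fun _ => c i)]
    simp only [Finset.mem_univ, if_true]
    ring
  have hΦeq : (fun p : T3.M.CoordM K P => ∑ i : Fin N, T3.M.pureCoordM K P (A i) (β i) p)
      = Φ := by
    funext p
    rw [← hsum]
    simp only [hpure, Finset.sum_apply, Pi.smul_apply, smul_eq_mul]
  refine ⟨N, t * κc₀, A, β, f₀, F, mul_ne_zero ht hκc₀, hAsym, hβsym,
    fun i v _ => hpair i v, hF1, hFs, hF2, ?_, ?_, ?_⟩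
  · intro i w
    have := hact (F i w) _ (hF3 i w)
    rwa [← mul_assoc] at this
  · intro Δ
    have h := hΦtel Δ
    have hfun : (fun j : ℤ => ∑ i : Fin N,
        T3.M.pureCoordM K P (A i) (β i) (Δ + j • T3.M.coordTorM K P e α))
        = fun j : ℤ => Φ (Δ + j • T3.M.c0 (fun v : P => e v)
            (fun w : InfinitePlace K => Real.log (w (α : K)))) := by
      funext j
      exact congrFun hΦeq _
    rw [hfun]
    exact h
  · intro z₁ z₂ hz₁ hz₂ hz
    unfold T3.M.ftCoordM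
    rw [hΦeq]
    refine hΦft (fun v : P => z₁ v) (fun v : P => z₂ v) (fun v => hz₁ v.1 v.2)
      (fun v => hz₂ v.1 v.2) ?_
    intro z hzz
    have h := hz (fun v => if h : v ∈ P then z ⟨v, h⟩ else 0) (fun w hw => by
      simp only [dif_pos hw]
      exact hzz ⟨w, hw⟩)
    rw [← Finset.prod_coe_sort] at h
    have hcongr : (∏ i : P, (if h : (i : HeightOneSpectrum (𝓞 K)) ∈ P then z ⟨i, h⟩ else 0)
        ^ e i) = ∏ i : P, z i ^ e i := by
      refine Finset.prod_congr rfl fun i _ => ?_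
      simp only [dif_pos i.2, Subtype.coe_eta]
    rw [hcongr] at h
    exact h

end Fermat.Agent.LT.T7.B981.H413

end

end
-- ===== PACK-END LT/T7/B981/H413/UpDat.lean

-- ===== PACK-BEGIN LT/T7/B981/H619/DownFinSpec.lean
section



/-!
# Row LT, tower T7, node T7.L2.1.H2a.A.0.D.3 `B981.DownFinC981` (owner helper619, registry 2981):
# THE CUT -- Spec

OFF-MAIN.  Definitions and frozen Props only (the proved top `downFinC_of619` is in
`DownFinTop.lean`).  No hole, nothing assumed.  ADDITIVE (new names only, suffix `619`, namespace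
`Fermat.Agent.LT.T7.B981.DF619`).  Vocabulary: `T7/B981/PairDatSpec.lean` (helper981, sha256
df231e98) and its imports, byte-identical copies.

    downFinC_of619 : PushCalcC619 K K' → B981.DownFinC981 K K'                  (VERBATIM)

## The cut

The node is proved UNIFORMLY in the place `v ∈ P` (no case distinction inert / split in the
construction): `A v = pushFin981 P' A' v`, `f₀ v = Av ∘ cartan` a spherical function with the
T3 pair `(f₀ v, A v)` and `satT893 q_v Av = laurent (A v)` (closed local assets: Satake, Cartan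
decomposition; helper263, helper681, helper474); the components upstairs are spherical with
`satT893 q_w (A w) = laurent (A' w)` (the same bridge for a GIVEN pair) resp. the unit.  The two
clauses of `H893.SphOut893` are then identities of Laurent polynomials:

* **`PushCalcC619 K K'`** (LEAF [M], MATHLIB ONLY + the definitions `pushFin981`, `fib981`,
  `resDeg981`, `T3.AS.laurent`, `T3.AS.IsSymFin`): the push-forward of symmetric finitely
  supported coefficients is symmetric of finite support, and its Laurent polynomial is the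
  product over the fibre of the Laurent polynomials at the `f_w`-th powers.
  Proof.  `S_w` = the support of `A' w`; the summand of `pushFin981` vanishes outside
  `Fintype.piFinset S`; `finsum_eq_sum_of_support_subset`; the support of the push-forward lies
  in the image of `Fintype.piFinset S` under `mm ↦ ∑_w f_w • mm w`; symmetry: the involution
  `mm ↦ swap ∘ mm`; the Laurent polynomial: exchange the two finite sums, `zpow_add₀` / `zpow_mul`
  (`x, y ≠ 0`), `Finset.prod_univ_sum`.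
  FALSITY CHECKS.  Empty fibre: `pushFin981 = δ_0`, both sides are `1`.  `f_w = 0`: the factor
  is `laurent (A' w) 1 1`, the constraint does not see `mm w`: consistent.

The other inputs of the top are closed and vendored: `B981.SS503.PlacesC503` (places),
`T3.H263.satakeLocC263`, the Cartan decomposition and the eigenvalue comparison of helper681.
-/

set_option autoImplicit false

open IsDedekindDomain NumberField

noncomputable section

namespace Fermat.Agent.LT.T7.B981.DF619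

open Fermat.Agent.LT Fermat.Agent.LT.T7 Fermat.Agent.LT.T7.B981

/-- **LEAF DF.1 = PUSH-CALC ([M], MATHLIB ONLY).**  See the header. -/
def PushCalcC619 (K K' : Type) [Field K] [NumberField K] [Field K'] [NumberField K']
    [Algebra K K'] : Prop :=
  ∀ (P' : Finset (HeightOneSpectrum (𝓞 K'))) (A' : HeightOneSpectrum (𝓞 K') → ℤ × ℤ → ℂ)
    (v : HeightOneSpectrum (𝓞 K)),
    (∀ w ∈ fib981 (K := K) P' v, T3.AS.IsSymFin (A' w)) →
    T3.AS.IsSymFin (pushFin981 (K := K) P' A' v) ∧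
      ∀ x y : ℂ, x ≠ 0 → y ≠ 0 →
        T3.AS.laurent (pushFin981 (K := K) P' A' v) x y
          = ∏ w ∈ fib981 (K := K) P' v,
              T3.AS.laurent (A' w) (x ^ resDeg981 v w) (y ^ resDeg981 v w)

end Fermat.Agent.LT.T7.B981.DF619

end

end
-- ===== PACK-END LT/T7/B981/H619/DownFinSpec.lean

-- ===== PACK-BEGIN LT/T7/H910/DownArchCut.lean
section





/-!
# Row LT, tower T7, node T7.L2.1.H2a.A.0.D.4 `B981.DownArchC981` (helper910): CUT + PROVED TOP

OFF-MAIN.  No hole, nothing assumed.  ADDITIVE (new names only, suffix `910`).  Vocabulary: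
the fourth cut of helper981 (`T7/B981/PairDatSpec.lean`), byte-identical copy.

    downArchC_of910 : BinAbelC910 → ArchEnumC910 K K' → B981.DownArchC981 K K'     (VERBATIM)

## The cut

* **`BinAbelC910`** (LEAF, LOCAL, `GL₂(ℂ)` only, no number field): THE BINARY STEP.  For every
  Haar measure `μc` there is a constant `cμ` such that for smooth test functions `F₁`, `F₂` with
  Abel transforms `β₁`, `β₂` (symmetric bumps): `F₁ ⋆ F₂` is smooth, `β₁ * β₂` (convolution on
  `ℝ²`) is a symmetric bump and `F₁ ⋆ F₂` has the Abel transform `cμ · (β₁ * β₂)`.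
* **`ArchEnumC910 K K'`** (LEAF, number theory): over every infinite place of `K` there is an
  enumeration without repetition of length `ℓ` of places of `K'` which exhausts the fibre.

PROVED HERE (no leaf): continuity, compact support, bi-`U(2)`-invariance of the iterated
convolutions and their independence of the enumeration (the Gelfand pair `(GL₂(ℂ), U(2))`,
`ArchComm.lean`); invariance under the complex conjugation (bi-`U(2)`-invariant functions are
invariant under `g ↦ gᴴ`, helper402, and under transposition); the independence of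
`β v` of the enumeration (the Abel transform of a function is UNIQUE: no commutativity on `ℝ²`
is needed); the induction on the number of factors.

FALSITY CHECK.  `BinAbelC910`: `HasAbelN F β` says `β = S F` in logarithmic coordinates,
`S F (a) = δ(a)^{1/2} ∫_N F(a n) dn` (`∫_ℂ F(upperGL c₁ c₂ x) dx = |c₁|² ∫ F(a n(u)) du`,
`δ(a)^{1/2} = |c₁| / |c₂|`), and `S` is multiplicative on the bi-`U(2)`-invariant functions up
to the constant of `μc` in the Iwasawa coordinates (`G = N A K`).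
-/

set_option autoImplicit false
set_option maxHeartbeats 400000

open AutomorphicForm IsDedekindDomain NumberField MeasureTheory

noncomputable section

namespace Fermat.Agent.LT.T7.H910

open Fermat.Agent.LT Fermat.Agent.LT.H556 Fermat.Agent.LT.H556.A0 Fermat.Agent.LT.T7
open Fermat.Agent.LT.T7.H305 Fermat.Agent.LT.T7.H893

/-! ## 1. The leaves -/

/-- **LEAF DA.1 = THE BINARY STEP (LOCAL, `GL₂(ℂ)`).** -/
def BinAbelC910 : Prop :=
  ∀ μc : @Measure (GL (Fin 2) ℂ) (borel _), @Measure.IsHaarMeasure _ _ _ (borel _) μc →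
    ∃ cμ : ℂ, ∀ (F₁ F₂ : GL (Fin 2) ℂ → ℂ) (β₁ β₂ : ℝ × ℝ → ℂ),
      T3.AS.IsSymBump β₁ → T3.AS.IsSymBump β₂ →
      T3.AS.IsCplxTest F₁ → T3.AS.IsCplxTest F₂ →
      T3.AS.IsCplxSmooth F₁ → T3.AS.IsCplxSmooth F₂ →
      T3.AS.HasAbelN F₁ β₁ → T3.AS.HasAbelN F₂ β₂ →
      T3.AS.IsCplxSmooth (@T6.convInt _ _ (borel _) μc F₁ F₂) ∧
        T3.AS.IsSymBump (fun X : ℝ × ℝ => ∫ t : ℝ × ℝ, β₁ t * β₂ (X - t)) ∧
        T3.AS.HasAbelN (@T6.convInt _ _ (borel _) μc F₁ F₂)
          (cμ • fun X : ℝ × ℝ => ∫ t : ℝ × ℝ, β₁ t * β₂ (X - t))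

/-- **LEAF DA.2 = ENUMERATION OF THE FIBRE (number theory).**  `K'/K` Galois of prime degree
`ℓ`, `K` totally complex: over every infinite place `v` of `K` there are exactly `ℓ` places. -/
def ArchEnumC910 (K K' : Type) [Field K] [NumberField K] [Field K'] [NumberField K']
    [Algebra K K'] : Prop :=
  ∀ ℓ : ℕ, IsCycExt K K' ℓ → ℓ ≠ 2 → TotCplx K →
    ∀ v : InfinitePlace K, ∃ wen : ℕ → InfinitePlace K',
      B981.IsEnum981 ℓ v wen ∧
        ∀ w' : InfinitePlace K', w'.comap (algebraMap K K') = v → ∃ j : ℕ, j < ℓ ∧ wen j = w'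

/-! ## 2. Local lemmas -/

theorem isArchFn_of_test910 {F : GL (Fin 2) ℂ → ℂ} (h : T3.AS.IsCplxTest F) : IsArchFn910 F :=
  ⟨h.cont, h.supp, fun k₁ k₂ g h₁ h₂ => h.bi_inv k₁ k₂ g h₁ h₂⟩

theorem isCplxTest_of_archFn910 {F : GL (Fin 2) ℂ → ℂ} (h : IsArchFn910 F) :
    T3.AS.IsCplxTest F :=
  ⟨h.cont, h.supp, fun k₁ k₂ g h₁ h₂ => h.biInv k₁ k₂ g h₁ h₂⟩

/-- Bi-`U(2)`-invariant functions are invariant under the complex conjugation. -/
theorem IsBiU2_910.conj {Φ : GL (Fin 2) ℂ → ℂ} (h : IsBiU2_910 Φ) (g : GL (Fin 2) ℂ) :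
    Φ (H305.conjGL305 g) = Φ g := by
  have e : H305.conjGL305 g = trGL910 (star g) := by
    apply Units.ext
    ext i j
    simp [conjGL305_val910, Matrix.star_eq_conjTranspose]
  rw [e, h.tr]
  exact H402.biU2_star402 (f := Φ) (fun k₁ k₂ g h₁ h₂ => h k₁ k₂ g h₁ h₂) g

/-- **The Abel transform is unique.** -/
theorem hasAbelN_unique910 {F : GL (Fin 2) ℂ → ℂ} {β β' : ℝ × ℝ → ℂ}
    (h : T3.AS.HasAbelN F β) (h' : T3.AS.HasAbelN F β') : β = β' := by
  funext X
  obtain ⟨s, t⟩ := X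
  have hs : (Real.exp s : ℂ) ≠ 0 := by
    exact_mod_cast (Real.exp_pos s).ne'
  have ht : (Real.exp t : ℂ) ≠ 0 := by
    exact_mod_cast (Real.exp_pos t).ne'
  have h1 := h (Units.mk0 _ hs) (Units.mk0 _ ht)
  have h2 := h' (Units.mk0 _ hs) (Units.mk0 _ ht)
  rw [h1] at h2
  have ns : ‖((Units.mk0 _ hs : ℂˣ) : ℂ)‖ = Real.exp s := by
    rw [Units.val_mk0, Complex.norm_real, Real.norm_eq_abs, abs_of_pos (Real.exp_pos s)]
  have nt : ‖((Units.mk0 _ ht : ℂˣ) : ℂ)‖ = Real.exp t := by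
    rw [Units.val_mk0, Complex.norm_real, Real.norm_eq_abs, abs_of_pos (Real.exp_pos t)]
  rw [ns, nt, Real.log_exp, Real.log_exp] at h2
  have hne : ((Real.exp s * Real.exp t : ℝ) : ℂ) ≠ 0 := by
    exact_mod_cast (mul_pos (Real.exp_pos s) (Real.exp_pos t)).ne'
  exact mul_left_cancel₀ hne h2

theorem convR981_zero910 (β : ℕ → ℝ × ℝ → ℂ) : B981.convR981 β 0 = β 0 := rfl

theorem convR981_succ910 (β : ℕ → ℝ × ℝ → ℂ) (j : ℕ) :
    B981.convR981 β (j + 1)
      = fun X : ℝ × ℝ => ∫ t : ℝ × ℝ, B981.convR981 β j t * β (j + 1) (X - t) := rfl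

theorem isSymBump_smul910 {β : ℝ × ℝ → ℂ} (h : T3.AS.IsSymBump β) (c : ℂ) :
    T3.AS.IsSymBump (c • β) := by
  refine ⟨h.1.const_smul c, h.2.1.smul_left, fun x y => ?_⟩
  simp only [Pi.smul_apply, h.2.2 x y]

/-- **THE INDUCTION**: the iterated convolution has the Abel transform
`cμ ^ n • convR981 β n`. -/
theorem abelConvL910 (μc : @Measure (GL (Fin 2) ℂ) (borel _))
    (hμ : @Measure.IsHaarMeasure _ _ _ (borel _) μc) (cμ : ℂ)
    (hbin : ∀ (F₁ F₂ : GL (Fin 2) ℂ → ℂ) (β₁ β₂ : ℝ × ℝ → ℂ),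
      T3.AS.IsSymBump β₁ → T3.AS.IsSymBump β₂ →
      T3.AS.IsCplxTest F₁ → T3.AS.IsCplxTest F₂ →
      T3.AS.IsCplxSmooth F₁ → T3.AS.IsCplxSmooth F₂ →
      T3.AS.HasAbelN F₁ β₁ → T3.AS.HasAbelN F₂ β₂ →
      T3.AS.IsCplxSmooth (@T6.convInt _ _ (borel _) μc F₁ F₂) ∧
        T3.AS.IsSymBump (fun X : ℝ × ℝ => ∫ t : ℝ × ℝ, β₁ t * β₂ (X - t)) ∧
        T3.AS.HasAbelN (@T6.convInt _ _ (borel _) μc F₁ F₂)
          (cμ • fun X : ℝ × ℝ => ∫ t : ℝ × ℝ, β₁ t * β₂ (X - t)))
    (Φ : ℕ → GL (Fin 2) ℂ → ℂ) (β : ℕ → ℝ × ℝ → ℂ) (n : ℕ)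
    (hβ : ∀ j ≤ n, T3.AS.IsSymBump (β j)) (hΦt : ∀ j ≤ n, T3.AS.IsCplxTest (Φ j))
    (hΦs : ∀ j ≤ n, T3.AS.IsCplxSmooth (Φ j)) (hΦa : ∀ j ≤ n, T3.AS.HasAbelN (Φ j) (β j)) :
    T3.AS.IsCplxTest (H305.convL305 μc Φ n) ∧ T3.AS.IsCplxSmooth (H305.convL305 μc Φ n) ∧
      T3.AS.IsSymBump (cμ ^ n • B981.convR981 β n) ∧
      T3.AS.HasAbelN (H305.convL305 μc Φ n) (cμ ^ n • B981.convR981 β n) := by
  induction n with
  | zero =>
    have e : cμ ^ 0 • B981.convR981 β 0 = β 0 := by
      rw [pow_zero, one_smul, convR981_zero910]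
    rw [e]
    exact ⟨hΦt 0 le_rfl, hΦs 0 le_rfl, hβ 0 le_rfl, hΦa 0 le_rfl⟩
  | succ n ih =>
    obtain ⟨i1, i2, i3, i4⟩ := ih (fun j hj => hβ j (by omega)) (fun j hj => hΦt j (by omega))
      (fun j hj => hΦs j (by omega)) (fun j hj => hΦa j (by omega))
    obtain ⟨b1, b2, b3⟩ := hbin _ _ _ _ i3 (hβ (n + 1) le_rfl) i1 (hΦt (n + 1) le_rfl) i2
      (hΦs (n + 1) le_rfl) i4 (hΦa (n + 1) le_rfl)
    have e : (cμ • fun X : ℝ × ℝ =>
        ∫ t : ℝ × ℝ, (cμ ^ n • B981.convR981 β n) t * β (n + 1) (X - t))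
        = cμ ^ (n + 1) • B981.convR981 β (n + 1) := by
      funext X
      rw [convR981_succ910]
      simp only [Pi.smul_apply, smul_eq_mul]
      rw [← integral_const_mul, ← integral_const_mul]
      refine integral_congr_ae (Filter.Eventually.of_forall fun t => ?_)
      simp only
      ring
    have hT : T3.AS.IsCplxTest (H305.convL305 μc Φ (n + 1)) :=
      isCplxTest_of_archFn910 (isArchFn_convL305_910 μc hμ (n + 1)
        (fun j hj => isArchFn_of_test910 (hΦt j hj)))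
    refine ⟨hT, b1, ?_, ?_⟩
    · rw [← e]
      exact isSymBump_smul910 b2 cμ
    · rw [← e]
      exact b3

/-! ## 3. THE TOP -/

section Top

variable (K K' : Type) [Field K] [NumberField K] [Field K'] [NumberField K'] [Algebra K K']

/-- **TOP: `DownArchC981` from the binary step and the enumeration of the fibres,
VERBATIM.** -/
theorem downArchC_of910 (hB : BinAbelC910) (hE : ArchEnumC910 K K') :
    B981.DownArchC981 K K' := by
  intro ℓ hcyc hℓ2 htc μc hμ
  obtain ⟨cμ, hbin⟩ := hB μc hμ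
  refine ⟨cμ, ?_⟩
  intro D hDl n m φ₀ f₀ Φ β' hβ' hΦt hΦs hΦa
  have hℓ : 0 < ℓ := hcyc.prime.pos
  choose wen hwen using fun v : InfinitePlace K => hE ℓ hcyc hℓ2 htc v
  have key : ∀ w : ℕ → InfinitePlace K',
      T3.AS.IsCplxTest (H305.convL305 μc (fun j => Φ (w j)) (ℓ - 1)) ∧
      T3.AS.IsCplxSmooth (H305.convL305 μc (fun j => Φ (w j)) (ℓ - 1)) ∧
      T3.AS.IsSymBump (cμ ^ (ℓ - 1) • B981.convR981 (fun j => β' (w j)) (ℓ - 1)) ∧
      T3.AS.HasAbelN (H305.convL305 μc (fun j => Φ (w j)) (ℓ - 1))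
        (cμ ^ (ℓ - 1) • B981.convR981 (fun j => β' (w j)) (ℓ - 1)) :=
    fun w => abelConvL910 μc hμ cμ hbin (fun j => Φ (w j)) (fun j => β' (w j)) (ℓ - 1)
      (fun j _ => hβ' (w j)) (fun j _ => hΦt (w j)) (fun j _ => hΦs (w j))
      (fun j _ => hΦa (w j))
  -- independence of the enumeration
  have hind : ∀ (v : InfinitePlace K) (w : ℕ → InfinitePlace K'),
      (∀ j : ℕ, (w j).comap (algebraMap K K') = v) →
      (∀ j j' : ℕ, j < ℓ → j' < ℓ → w j = w j' → j = j') →
      H305.convL305 μc (fun j => Φ (wen v j)) (ℓ - 1)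
        = H305.convL305 μc (fun j => Φ (w j)) (ℓ - 1) := by
    intro v w hov hinj
    exact (convL305_enum910 μc hμ Φ ℓ hℓ w (wen v) hinj (hwen v).1.2
      (fun j _ => (hwen v).2 (w j) (hov j)) (fun j _ => isArchFn_of_test910 (hΦt (w j)))).symm
  refine ⟨fun v => H305.convL305 μc (fun j => Φ (wen v j)) (ℓ - 1),
    fun v => cμ ^ (ℓ - 1) • B981.convR981 (fun j => β' (wen v j)) (ℓ - 1),
    fun v => (key (wen v)).2.2.1, fun v => (key (wen v)).1, fun v => (key (wen v)).2.1,
    fun v => (key (wen v)).2.2.2, ?_, ?_⟩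
  · intro v w hw
    have h1 := (key (wen v)).2.2.2
    have h2 := (key w).2.2.2
    rw [← hind v w hw.1 hw.2] at h2
    exact hasAbelN_unique910 h1 h2
  · refine ⟨?_, fun w k₁ k₂ g h₁ h₂ => (hΦt w).bi_inv k₁ k₂ g h₁ h₂,
      fun v k₁ k₂ g h₁ h₂ => (key (wen v)).1.bi_inv k₁ k₂ g h₁ h₂⟩
    refine
      { inv_up := fun v hv => absurd hv (Finset.notMem_empty v)
        inv_down := fun v hv => absurd hv (Finset.notMem_empty v)
        arch_up := fun w => ⟨(hΦt w).cont, (hΦt w).supp,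
          (isArchFn_of_test910 (hΦt w)).biInv.conj⟩
        arch_down := fun v => ⟨(key (wen v)).1.cont, (key (wen v)).1.supp,
          (isArchFn_of_test910 (key (wen v)).1).biInv.conj⟩
        inert := fun v hv => absurd hv (Finset.notMem_empty v)
        split := fun v hv => absurd hv (Finset.notMem_empty v)
        arch := ?_ }
    intro v w hov hinj
    rw [hDl] at hinj ⊢
    exact hind v w hov hinj

end Top

/-! ## Appendix: the equation lemmas of the definitions of this file are realised HERE -/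

theorem eqns_realised_downArchCut910 : True := by
  have _a1 := @BinAbelC910.eq_1
  have _a2 := @ArchEnumC910.eq_1
  trivial

end Fermat.Agent.LT.T7.H910

end

end
-- ===== PACK-END LT/T7/H910/DownArchCut.lean

-- ===== PACK-BEGIN LT/T7/H942/PushTelAux.lean
section




/-!
# Row LT, T7.L2.1.H2a.A.0.D.5 `PushTelC981` (spare by helper942): places and bridges — OFF-MAIN

* the place under a finite place, the fibres `B981.fib981` partition `P'` (`prod_fib942`);
* a complex place of `K` has exactly `[K' : K]` places over it (no Galois hypothesis), the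
  enumerations of `B981.IsEnum981` exist and exhaust the fibre (`exists_enum942`,
  `prod_enum942`);
* bridges `B981.pushFin981 = pushAbs942`, `B981.convR981 = convR942` (definitional unfolding,
  no equation lemma of the Spec is realised).
-/

set_option autoImplicit false
set_option linter.unusedSectionVars false

open IsDedekindDomain NumberField MeasureTheory

noncomputable section

namespace Fermat.Agent.LT.T7.H942

open Fermat.Agent.LT.H556 Fermat.Agent.LT.H556.A0 Fermat.Agent.LT.T7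

variable {K K' : Type} [Field K] [NumberField K] [Field K'] [NumberField K'] [Algebra K K']

/-! ## 1. Finite places -/

/-- The place of `K` under a place of `K'`. -/
def underP942 (w : HeightOneSpectrum (𝓞 K')) : HeightOneSpectrum (𝓞 K) where
  asIdeal := Ideal.comap (algebraMap (𝓞 K) (𝓞 K')) w.asIdeal
  isPrime := Ideal.comap_isPrime _ _
  ne_bot := Ideal.IsIntegral.comap_ne_bot (𝓞 K) w.ne_bot

theorem placeOver_underP942 (w : HeightOneSpectrum (𝓞 K')) :
    PlaceOver K K' (underP942 (K := K) w) w := by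
  intro x y hxy
  have hy : y = algebraMap (𝓞 K) (𝓞 K') x := by
    apply RingOfIntegers.ext
    exact hxy
  rw [hy]
  exact Ideal.mem_comap

theorem eq_underP942 {v : HeightOneSpectrum (𝓞 K)} {w : HeightOneSpectrum (𝓞 K')}
    (h : PlaceOver K K' v w) : v = underP942 (K := K) w := by
  apply HeightOneSpectrum.ext
  ext x
  rw [show (underP942 (K := K) w).asIdeal = Ideal.comap (algebraMap (𝓞 K) (𝓞 K')) w.asIdeal
    from rfl, Ideal.mem_comap]
  exact h x _ rfl

theorem mem_fib942 (P' : Finset (HeightOneSpectrum (𝓞 K'))) (v : HeightOneSpectrum (𝓞 K))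
    (w : HeightOneSpectrum (𝓞 K')) :
    w ∈ B981.fib981 (K := K) P' v ↔ w ∈ P' ∧ PlaceOver K K' v w := by
  classical
  exact Finset.mem_filter

/-- The fibres partition `P'`. -/
theorem prod_fib942 (P' : Finset (HeightOneSpectrum (𝓞 K')))
    (P : Finset (HeightOneSpectrum (𝓞 K)))
    (hP : ∀ v : HeightOneSpectrum (𝓞 K), v ∈ P ↔ ∃ w ∈ P', PlaceOver K K' v w)
    (G : HeightOneSpectrum (𝓞 K') → ℂ) :
    ∏ w : ↥P', G w.1 = ∏ v : ↥P, ∏ w : ↥(B981.fib981 (K := K) P' v.1), G w.1 := by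
  classical
  calc ∏ w : ↥P', G w.1 = ∏ w ∈ P', G w := Finset.prod_coe_sort P' G
    _ = ∏ v ∈ P, ∏ w ∈ P'.filter (fun w => underP942 (K := K) w = v), G w :=
        (Finset.prod_fiberwise_of_maps_to (s := P') (t := P) (g := underP942 (K := K))
          (fun w hw => (hP _).2 ⟨w, hw, placeOver_underP942 w⟩) G).symm
    _ = ∏ v ∈ P, ∏ w ∈ B981.fib981 (K := K) P' v, G w := by
        refine Finset.prod_congr rfl fun v _ => Finset.prod_congr ?_ fun _ _ => rfl
        ext w
        rw [Finset.mem_filter, mem_fib942]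
        constructor
        · rintro ⟨h1, h2⟩
          exact ⟨h1, h2 ▸ placeOver_underP942 w⟩
        · rintro ⟨h1, h2⟩
          exact ⟨h1, (eq_underP942 h2).symm⟩
    _ = ∏ v ∈ P, ∏ w : ↥(B981.fib981 (K := K) P' v), G w.1 :=
        Finset.prod_congr rfl fun v _ =>
          (Finset.prod_coe_sort (B981.fib981 (K := K) P' v) G).symm
    _ = ∏ v : ↥P, ∏ w : ↥(B981.fib981 (K := K) P' v.1), G w.1 :=
        (Finset.prod_coe_sort P
          (fun v => ∏ w : ↥(B981.fib981 (K := K) P' v), G w.1)).symm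

/-! ## 2. Infinite places -/

open Classical in
/-- The sum of the multiplicities over the fibre of an infinite place. -/
theorem sum_mult_fib942 (v : InfinitePlace K) :
    ∑ w' ∈ Finset.univ.filter (fun w' : InfinitePlace K' => w'.comap (algebraMap K K') = v),
        w'.mult = v.mult * Module.finrank K K' := by
  have h := NumberField.InfinitePlace.sum_inertiaDeg_eq_finrank K K' v
  rw [← h, Finset.mul_sum]
  have hset : (NumberField.InfinitePlace.placesOver K' v).toFinset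
      = Finset.univ.filter (fun w' : InfinitePlace K' => w'.comap (algebraMap K K') = v) := by
    ext w'
    simp only [Set.mem_toFinset, Finset.mem_filter, Finset.mem_univ, true_and]
    constructor
    · intro hw
      have : w'.LiesOver v := hw
      exact NumberField.InfinitePlace.LiesOver.comap_eq w' v
    · intro hw
      subst hw
      exact (⟨rfl⟩ : w'.LiesOver (w'.comap (algebraMap K K')))
  rw [hset]
  refine Finset.sum_congr rfl fun w' hw' => ?_
  have hw : w'.comap (algebraMap K K') = v := (Finset.mem_filter.mp hw').2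
  subst hw
  have : w'.LiesOver (w'.comap (algebraMap K K')) := ⟨rfl⟩
  rw [NumberField.InfinitePlace.inertiaDeg_eq_finrank,
    NumberField.InfinitePlace.mult_mul_finrank]

open Classical in
/-- A complex place of `K` has exactly `[K' : K]` places of `K'` over it. -/
theorem card_fib_of_isComplex942 {v : InfinitePlace K} (hv : v.IsComplex) :
    Fintype.card {w : InfinitePlace K' // w.comap (algebraMap K K') = v}
      = Module.finrank K K' := by
  have h := sum_mult_fib942 (K' := K') v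
  have h2 : ∀ w' ∈ Finset.univ.filter
      (fun w' : InfinitePlace K' => w'.comap (algebraMap K K') = v), w'.mult = 2 := by
    intro w' hw'
    have hw : w'.comap (algebraMap K K') = v := (Finset.mem_filter.mp hw').2
    apply NumberField.InfinitePlace.IsComplex.mult_eq_two
    apply NumberField.InfinitePlace.IsComplex.of_comap (algebraMap K K')
    rw [hw]
    exact hv
  rw [Finset.sum_congr rfl h2, Finset.sum_const, hv.mult_eq_two, smul_eq_mul] at h
  have h3 : (Finset.univ.filter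
      (fun w' : InfinitePlace K' => w'.comap (algebraMap K K') = v)).card
      = Module.finrank K K' := by omega
  rw [← h3, Fintype.card_subtype]

/-- The enumerations of the places over a complex place exist and exhaust the fibre. -/
theorem exists_enum942 (ℓ : ℕ) (hcyc : IsCycExt K K' ℓ) (htc : TotCplx K)
    (v : InfinitePlace K) :
    ∃ wen : ℕ → InfinitePlace K', B981.IsEnum981 ℓ v wen ∧
      ∀ w : InfinitePlace K', w.comap (algebraMap K K') = v → ∃ n : ℕ, n < ℓ ∧ wen n = w := by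
  classical
  have hcard : Fintype.card {w : InfinitePlace K' // w.comap (algebraMap K K') = v} = ℓ := by
    rw [card_fib_of_isComplex942 (htc v), hcyc.degree]
  have hpos : 0 < ℓ := hcyc.prime.pos
  let E := Fintype.equivFinOfCardEq hcard
  refine ⟨fun n => (E.symm ⟨n % ℓ, Nat.mod_lt n hpos⟩).1,
    ⟨fun n => (E.symm ⟨n % ℓ, Nat.mod_lt n hpos⟩).2, ?_⟩, ?_⟩
  · intro j j' hj hj' h
    have h1 : E.symm ⟨j % ℓ, Nat.mod_lt j hpos⟩ = E.symm ⟨j' % ℓ, Nat.mod_lt j' hpos⟩ :=
      Subtype.ext h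
    have h2 := E.symm.injective h1
    have h3 : j % ℓ = j' % ℓ := congrArg Fin.val h2
    rwa [Nat.mod_eq_of_lt hj, Nat.mod_eq_of_lt hj'] at h3
  · intro w hw
    refine ⟨(E ⟨w, hw⟩).1, (E ⟨w, hw⟩).2, ?_⟩
    have e : (⟨(E ⟨w, hw⟩).1 % ℓ, Nat.mod_lt _ hpos⟩ : Fin ℓ) = E ⟨w, hw⟩ :=
      Fin.ext (Nat.mod_eq_of_lt (E ⟨w, hw⟩).2)
    show (E.symm ⟨(E ⟨w, hw⟩).1 % ℓ, Nat.mod_lt _ hpos⟩).1 = w
    rw [e, Equiv.symm_apply_apply]

/-- The enumerations partition the infinite places of `K'`. -/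
theorem prod_enum942 (ℓ : ℕ) (wen : InfinitePlace K → ℕ → InfinitePlace K')
    (h1 : ∀ v, B981.IsEnum981 ℓ v (wen v))
    (h2 : ∀ (v : InfinitePlace K) (w : InfinitePlace K'), w.comap (algebraMap K K') = v →
      ∃ n : ℕ, n < ℓ ∧ wen v n = w)
    (G : InfinitePlace K' → ℂ) :
    ∏ w : InfinitePlace K', G w
      = ∏ v : InfinitePlace K, ∏ n ∈ Finset.range ℓ, G (wen v n) := by
  classical
  rw [← Finset.prod_fiberwise Finset.univ
    (fun w : InfinitePlace K' => w.comap (algebraMap K K')) G]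
  refine Finset.prod_congr rfl fun v _ => ?_
  have hinj : Set.InjOn (wen v) (Finset.range ℓ : Set ℕ) := by
    intro a ha b hb hab
    exact (h1 v).2 a b (Finset.mem_range.1 ha) (Finset.mem_range.1 hb) hab
  rw [← Finset.prod_image (s := Finset.range ℓ) (g := wen v) (f := G) hinj]
  refine Finset.prod_congr ?_ fun _ _ => rfl
  ext w
  rw [Finset.mem_filter, Finset.mem_image]
  constructor
  · rintro ⟨-, hw⟩
    obtain ⟨n, hn, hnw⟩ := h2 v w hw
    exact ⟨n, Finset.mem_range.2 hn, hnw⟩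
  · rintro ⟨n, -, rfl⟩
    exact ⟨Finset.mem_univ _, (h1 v).1 n⟩

/-! ## 3. Bridges -/

theorem pushFin_eq942 (P' : Finset (HeightOneSpectrum (𝓞 K')))
    (A' : HeightOneSpectrum (𝓞 K') → ℤ × ℤ → ℂ) (v : HeightOneSpectrum (𝓞 K)) (M : ℤ × ℤ) :
    B981.pushFin981 (K := K) P' A' v M
      = pushAbs942 (fun w : ↥(B981.fib981 (K := K) P' v) => B981.resDeg981 v w.1)
          (fun w : ↥(B981.fib981 (K := K) P' v) => A' w.1) M := by
  classical
  show (∑ᶠ mm : ↥(B981.fib981 (K := K) P' v) → ℤ × ℤ, _) = ∑ᶠ mm : _ → ℤ × ℤ, _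
  refine finsum_congr fun mm => ?_
  by_cases hM : ∑ w, (B981.resDeg981 v w.1 : ℤ) • mm w = M
  · rw [if_pos hM]
  · rw [if_neg hM]

theorem convR_eq942 (β : ℕ → ℝ × ℝ → ℂ) (n : ℕ) : B981.convR981 β n = convR942 β n := by
  induction n with
  | zero => rfl
  | succ n ih =>
    funext X
    show (∫ t : ℝ × ℝ, B981.convR981 β n t * β (n + 1) (X - t))
      = ∫ t : ℝ × ℝ, convR942 β n t * β (n + 1) (X - t)
    rw [ih]

end Fermat.Agent.LT.T7.H942

end

end
-- ===== PACK-END LT/T7/H942/PushTelAux.lean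

-- ===== PACK-BEGIN LT/T7/H869/RegAClosed.lean
section






/-!
# Row LT, tower T7, leaf T7.L2.1.H2b.G2.5 `RegAC51` (registry row 2937, helper869): CLOSED

OFF-MAIN.  New names only (suffix `869`).  The plug of `regAC_of869` with the closed leaves
`levelAtC644` (helper644, row 2890), `sphInvC315` (helper315, row 2885) and `unitRegC869`.

    regAC869 (K K') : P51.RegAC51 K K'                                (VERBATIM, UNCONDITIONAL)
-/

set_option autoImplicit false

open AutomorphicForm IsDedekindDomain NumberField MeasureTheory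

noncomputable section

namespace Fermat.Agent.LT.T7.H869

open Fermat.Agent.LT.T7.P51

variable (K K' : Type) [Field K] [NumberField K] [Field K'] [NumberField K'] [Algebra K K']

/-- **LEAF P.G2.5 `RegAC51`, unconditional.** -/
theorem regAC869 : RegAC51 K K' :=
  regAC_of869 K K' (Fermat.Agent.LT.T7.H644.levelAtC644 K K')
    (Fermat.Agent.LT.T7.H315.sphInvC315 K) (Fermat.Agent.LT.T7.H315.sphInvC315 K') unitRegC869

end Fermat.Agent.LT.T7.H869

end

end
-- ===== PACK-END LT/T7/H869/RegAClosed.lean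

-- ===== PACK-BEGIN LT/T7/B970/Pair2KfTop.lean
section





/-!
# Row LT, tower T7, node T7.L2.1.H2a.4 `Pair2C` (sub-architect helper970, registry 2688):
# THE KILL-FREE TOP -- the second pair through the natural-average step of helper193

OFF-MAIN.  Every proof is complete, nothing assumed.  ADDITIVE.

    levelExp_unique970 : IsLevelOf893 𝔫 m → IsLevelOf893 𝔫 m' → m = m'          (unconditional)
    pairB0C_of970 : HaarCplxC981 → LvlC981 K K' → Pair1C981 P K K' → WtUpC970 K K'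
        → BadLocC970 K K' → WtDownC970 K K' → Up0C970 K K' → Dn0C970 K K' → Shape0C970 K K'
        → H193.PairB0C193 P K K' LocB893b
    pairBCb_of_kf970 : T1.T1Out K → T1.T1Out K' → (the same leaves) → Q797.PairBC797 P K K' LocB893b
    baseCb_of_kf970  : T1.T1Out K → T1.T1Out K' → Q797.ExpC797 K K' → Q797.CosetC797 K K'
        → (the same leaves) → H893.BaseCb P K K'                                   (VERBATIM)

The torus, the natural average and the killing are the CLOSED step of helper193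
(`H193.pairBCb_of_pairB0C193`, `H193.relTorus_closed193`).
-/

set_option autoImplicit false

open AutomorphicForm IsDedekindDomain NumberField MeasureTheory
open scoped ComplexConjugate

noncomputable section

namespace Fermat.Agent.LT.T7.B970

open Fermat.Agent.LT.H556 Fermat.Agent.LT.H556.A0 Fermat.Agent.LT Fermat.Agent.LT.T7
open Fermat.Agent.LT.T7.H305 Fermat.Agent.LT.T7.H893 Fermat.Agent.LT.T7.B981
open Fermat.Agent.LT.T7.Q797

attribute [local instance] Fermat.Agent.LT.T5.instMeasurableSpaceG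

section Unique

/-- The valuation of a completion at a finite place takes every value `exp (-k)`. -/
theorem exists_val_eq_exp970 {F : Type} [Field F] [NumberField F]
    (v : HeightOneSpectrum (𝓞 F)) (k : ℕ) :
    ∃ x : v.adicCompletion F, Valued.v x = WithZero.exp (-(k : ℤ)) := by
  obtain ⟨π, hπ⟩ := v.valuation_exists_uniformizer F
  refine ⟨((π ^ k : F) : v.adicCompletion F), ?_⟩
  rw [HeightOneSpectrum.valuedAdicCompletion_eq_valuation', map_pow, hπ, ← WithZero.exp_nsmul]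
  congr 1
  simp

/-- **The exponents of a level are unique.** -/
theorem levelExp_unique970 {F : Type} [Field F] [NumberField F] (𝔫 : Ideal (𝓞 F))
    (m m' : HeightOneSpectrum (𝓞 F) → ℕ) (h : IsLevelOf893 𝔫 m) (h' : IsLevelOf893 𝔫 m') :
    m = m' :=
  isLevelOf893_unique h h' exists_val_eq_exp970

end Unique

section Top

variable {P : EKCond}
variable {K K' : Type} [Field K] [NumberField K] [Field K'] [NumberField K'] [Algebra K K']

/-- The kill-free pair from its two halves and its shape. -/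
theorem isPairB0_of970 {LB : ShapeB797 K K'} {ℓ : ℕ} {Φ : HeckeEigensystem K' ℂ}
    {B : L2Base K K'} {g : G K'} {𝔫 : Ideal (𝓞 K)} {μc : @Measure (GL (Fin 2) ℂ) (borel _)}
    {T₀ : Finset (HeightOneSpectrum (𝓞 K))} {n n₀ : HeightOneSpectrum (𝓞 K') → ℕ}
    {m : HeightOneSpectrum (𝓞 K) → ℕ} {a : ℂ}
    {c₂ : EigData K' → ℂ} {φ₀ : G K' → ℂ} {f₀ : G K → ℂ}
    (hu : IsUp0_970 ℓ Φ B 𝔫 c₂ φ₀) (hd : IsDn0_970 B 𝔫 f₀)
    (hs : IsAvgPure (upI (K' := K') 𝔫) 𝔫 T₀ (LB B g 𝔫 μc T₀ n n₀ m) a φ₀ f₀) :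
    H193.IsPairB0_193 LB ℓ Φ B g 𝔫 μc T₀ n n₀ m a c₂ φ₀ f₀ where
  up_test := hu.up_test
  up_ek := hu.up_ek
  up_inv := hu.up_inv
  up_op := hu.up_op
  up_ne := hu.up_ne
  dn_test := hd.dn_test
  dn_ek := hd.dn_ek
  dn_inv := hd.dn_inv
  dn_wfn := hd.dn_wfn
  dn_class := hd.dn_class
  dn_comm := hd.dn_comm
  up_supp := hu.up_supp
  dn_supp := hd.dn_supp
  shape := hs

/-- **THE KILL-FREE SECOND PAIR** from the first pair, the weights and the three kill-free
property leaves. -/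
theorem pairB0C_of970 (hH : HaarCplxC981) (hL : LvlC981 K K') (h1 : Pair1C981 P K K')
    (hWu : WtUpC970 K K') (hBl : BadLocC970 K K') (hWd : WtDownC970 K K')
    (hU : Up0C970 K K') (hD : Dn0C970 K K') (hSh : Shape0C970 K K') :
    H193.PairB0C193 P K K' LocB893b := by
  classical
  intro ℓ hcyc hℓ hcplx Φ hΦ hconst hP B hB hram g hg
  obtain ⟨μc, hμc⟩ := hH
  obtain ⟨M, hM⟩ := hBl ℓ hcyc hℓ hcplx Φ B hB hram g hg
  obtain ⟨𝔫, T₀, n, n₀, m, hlvl, hexp, hbd⟩ := hL ℓ Φ B hB M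
  refine ⟨𝔫, μc, isLevel797_of981 hlvl, hμc, fun T₀' n' n₀' m' hexp797 c hc => ?_⟩
  have hexp' : IsExp981 B 𝔫 T₀' n' n₀' m' := isExp981_of797 hexp797
  have hm : m' = m := levelExp_unique970 𝔫 m' m hexp'.lvl hexp.lvl
  have hbd' : ∀ v ∈ T₀', M ≤ m' v := by
    intro v hv
    rw [hm]
    exact hbd v ((hexp.mem v).2 ((hexp'.mem v).1 hv))
  -- the first pair, for the same level and exponents
  obtain ⟨c₁, Φ₁, F₁, hp1, hsh1⟩ :=
    h1 ℓ hcyc hℓ hcplx Φ hΦ hconst hP B hB hram 𝔫 hlvl μc hμc T₀' n' n₀' m' hexp'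
  have hsh0 := hsh1 [] (fun x hx => absurd hx (List.not_mem_nil))
  -- the representatives upstairs, the partners, the weights downstairs
  obtain ⟨s', hs'⟩ := hWu ℓ Φ B hB 𝔫 hlvl T₀' n' n₀' m' hexp'
  obtain ⟨b, hb⟩ := hM 𝔫 hlvl T₀' n' n₀' m' hexp' hbd'
  obtain ⟨s, β, hsβ⟩ := hWd ℓ Φ B hB 𝔫 hlvl T₀' n' n₀' m' hexp' b hb.inv_down
  exact ⟨fun C => (s'.card : ℂ) * c₁ C, lsum s' (Φ₁ []),
    fun h => c * wsum970 s β (F₁ []) h,
    isPairB0_of970
      (hU ℓ hcyc hℓ hcplx Φ hΦ hconst B hB hram 𝔫 hlvl μc hμc T₀' n' n₀' m' hexp'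
        s' hs' c₁ Φ₁ F₁ hp1 hsh0)
      (hD ℓ hcyc hℓ hcplx Φ hΦ hconst B hB hram 𝔫 hlvl μc hμc T₀' n' n₀' m' hexp'
        s β b hb.inv_down hsβ c₁ Φ₁ F₁ hp1 hsh0 c hc)
      (hSh ℓ hcyc hℓ hcplx Φ hΦ hconst B hB hram g hg 𝔫 hlvl μc hμc T₀' n' n₀' m' hexp'
        s' hs' s β b hb hsβ c₁ Φ₁ F₁ hp1 hsh0 c hc)⟩

/-- **THE SECOND PAIR OF RECORD** (node `Q797.PairBC797` for the shape `LocB893b`) from the
kill-free leaves, through the natural-average step of helper193. -/
theorem pairBCb_of_kf970 (hT1 : T1.T1Out K) (hT1' : T1.T1Out K')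
    (hH : HaarCplxC981) (hL : LvlC981 K K') (h1 : Pair1C981 P K K')
    (hWu : WtUpC970 K K') (hBl : BadLocC970 K K') (hWd : WtDownC970 K K')
    (hU : Up0C970 K K') (hD : Dn0C970 K K') (hSh : Shape0C970 K K') :
    PairBC797 P K K' LocB893b :=
  H193.pairBCb_of_pairB0C193 hT1 hT1' (pairB0C_of970 hH hL h1 hWu hBl hWd hU hD hSh)

/-- **`H893.BaseCb` FROM THE OPEN LEAVES after the kill-free cut** (top of helper797). -/
theorem baseCb_of_kf970 (hT1 : T1.T1Out K) (hT1' : T1.T1Out K')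
    (hE : ExpC797 K K') (hCo : CosetC797 K K')
    (hH : HaarCplxC981) (hL : LvlC981 K K') (h1 : Pair1C981 P K K')
    (hWu : WtUpC970 K K') (hBl : BadLocC970 K K') (hWd : WtDownC970 K K')
    (hU : Up0C970 K K') (hD : Dn0C970 K K') (hSh : Shape0C970 K K') :
    H893.BaseCb P K K' :=
  baseCb_of797 hE hCo (pairAC797_of981 h1)
    (pairBCb_of_kf970 hT1 hT1' hH hL h1 hWu hBl hWd hU hD hSh)

end Top

end Fermat.Agent.LT.T7.B970

end

end
-- ===== PACK-END LT/T7/B970/Pair2KfTop.lean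

-- ===== PACK-BEGIN LT/T7/B970/Pair2Closed.lean
section







/-!
# Row LT, tower T7, node T7.L2.1.H2a.4 `Pair2C` (sub-architect helper970, registry 2688):
# INTEGRATION -- the second pair from the OPEN leaves only

OFF-MAIN.  Every proof is complete, nothing assumed.  ADDITIVE.  Byte-identical copies of the
closed leaves: `T1/Closed.lean` (`T1.t1Out`, master bytes), `T7/B981/H302/HaarCplx.lean`
(helper302, row 2685), `T7/B981/H890/Lvl.lean` (helper890, row 2686), `T7/H470/WtDown.lean`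
(helper470, row 2864), the natural-average step of helper193 (`T7/H193/NatStep.lean`).

    pairB0C_open970  : Pair1C981 P K K' → WtUpC970 K K' → BadLocC970 K K'
        → Up0C970 K K' → Dn0C970 K K' → Shape0C970 K K' → H193.PairB0C193 P K K' LocB893b
    pairBCb_open970  : (the same) → Q797.PairBC797 P K K' LocB893b
    pairBCb_open797_970 : the same with the first pair in the form `Q797.PairAC797 P K K' LocA893`

OPEN after this file: the first pair (node of helper981) and the leaves `WtUpC970` (row 2862),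
`BadLocC970` (2863), `Up0C970` (2865), `Dn0C970` (2866), `Shape0C970` (2867).
-/

set_option autoImplicit false

open AutomorphicForm IsDedekindDomain NumberField MeasureTheory
open scoped ComplexConjugate

noncomputable section

namespace Fermat.Agent.LT.T7.B970

open Fermat.Agent.LT.H556 Fermat.Agent.LT.H556.A0 Fermat.Agent.LT Fermat.Agent.LT.T7
open Fermat.Agent.LT.T7.H305 Fermat.Agent.LT.T7.H893 Fermat.Agent.LT.T7.B981
open Fermat.Agent.LT.T7.Q797

attribute [local instance] Fermat.Agent.LT.T5.instMeasurableSpaceG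

section Closed

variable {P : EKCond}
variable {K K' : Type} [Field K] [NumberField K] [Field K'] [NumberField K'] [Algebra K K']

/-- **THE KILL-FREE SECOND PAIR from the open leaves.** -/
theorem pairB0C_open970 (h1 : Pair1C981 P K K')
    (hWu : WtUpC970 K K') (hBl : BadLocC970 K K')
    (hU : Up0C970 K K') (hD : Dn0C970 K K') (hSh : Shape0C970 K K') :
    H193.PairB0C193 P K K' LocB893b :=
  pairB0C_of970 B981.H302.haarCplxC302 (B981.H890.lvlC890 (K := K) (K' := K')) h1 hWu hBl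
    (H470.wtDownC470 K K') hU hD hSh

/-- **THE SECOND PAIR OF RECORD from the open leaves.** -/
theorem pairBCb_open970 (h1 : Pair1C981 P K K')
    (hWu : WtUpC970 K K') (hBl : BadLocC970 K K')
    (hU : Up0C970 K K') (hD : Dn0C970 K K') (hSh : Shape0C970 K K') :
    PairBC797 P K K' LocB893b :=
  H193.pairBCb_of_pairB0C193 (T1.t1Out K) (T1.t1Out K')
    (pairB0C_open970 h1 hWu hBl hU hD hSh)

/-- The same with the first pair in the form of helper797. -/
theorem pairBCb_open797_970 (hA : PairAC797 P K K' LocA893)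
    (hWu : WtUpC970 K K') (hBl : BadLocC970 K K')
    (hU : Up0C970 K K') (hD : Dn0C970 K K') (hSh : Shape0C970 K K') :
    PairBC797 P K K' LocB893b :=
  pairBCb_open970 (pair1C981_of797 hA) hWu hBl hU hD hSh

end Closed

end Fermat.Agent.LT.T7.B970

end

end
-- ===== PACK-END LT/T7/B970/Pair2Closed.lean

-- ===== PACK-BEGIN LT/T7/H732/SupplyQOpen.lean
section












/-!
# Row LT, tower T7, node T7.L2Q.1 `SupplyQC` (quadratic step): INTEGRATION of the closed leaves
(helper732, registry row 2322) -- THE SUPPLY OVER `ℚ` FROM THE TWO OPEN NODES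

OFF-MAIN.  PROVED tops only.  No hole, nothing assumed.  ADDITIVE (new names only, suffix `732`).
ONE import closure, on the MASTER bytes of the common files (helper17@1b33bfd76: `T5/Spec`
8bcd82df, `T6/Spec` c1b839bc, `T2/Spec` b934629a, `Level2Q` v1.1 d2117efc).

ALL leaves of the four cuts of `SupplyQC` are closed and plugged here (byte-identical copies of
the files of their authors):

| leaf | proof |
|---|---|
| `L2Q.H60.SetupQRC60 F` | helper546 `T7/H546/SetupQR.lean`, `setupQRC60_546` |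
| `H893.ProjC F` | helper40 `T7/H40/ProjClosed.lean`, `projC893_closed40` |
| `H962.ProjQC962 n` | helper40 `T7/H40/ProjQ.lean`, `projQC962_closed40` |
| `EkProdUpOpQC732 F` (row 2466) | helper698 `T7/H698/EkProdUpOpQ.lean`, `ekProdUpOpQC698` |
| `EkProdDownOpQC732 F` (row 2467) | helper587 `T7/H587/EkProdDownOpQ.lean`, `ekProdDownOpQC587` |
| `OpUpQC732 F` (row 2316) | helper811 `T7/H811/OpUpQClosed.lean`, `opUpQC811` |
| `KillUpQC732 F` (row 2317) | helper419 `T7/H419/KillUpQ.lean`, `killUpQC419` |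
| `OpDownQC732 F` (row 2318) | helper426 `T7/H426/OpDownQ.lean`, `opDownQC426` |
| `ClassDownQC732 F`, `CommDownQC732 F`, `KillDownQC732 F` (rows 2319-2321) | helper131 `T7/H131/SupplyQFam.lean` |
| `H771.RegSuppNeC771 F`, `H893.RegSupp0C ℚ` | helper771 (in `SupplyQRamClosed.lean`) |

What is OPEN in the supply over `ℚ`: the TWO NODES

    GlobQC732 F Mt        (row 2464: the matching theorem over `ℚ`)
    ConstrQRC732 P F Mt   (row 2465: the construction, common parts with `3 ∈ S`)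

for ONE relation `Mt : MtRelQ732 F` of local matching.

    preQRC_of_nodes732        : GlobQC732 F Mt → ConstrQRC732 P F Mt → L2Q.H60.PreQRC60 P F
    supplyQSC29_of_nodes732   : GlobQC732 F Mt → ConstrQRC732 P F Mt → H29.SupplyQSC P F
    supplyQC_of_nodes732      : GlobQC732 F Mt → ConstrQRC732 P F Mt → L2Q.SupplyQC P F
    traceWordsQRegP_of_nodes732 : GlobQC732 F Mt → ConstrQRC732 P F Mt → H29.ExpUpCoreC F
        → H29.NonVanCoreC F → L2Q.SpecDownQC F → L2Q.SpecIdQC F → T7.TraceWordsQRegP P F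
-/

set_option autoImplicit false

open AutomorphicForm IsDedekindDomain NumberField MeasureTheory
open scoped ComplexConjugate

noncomputable section

namespace Fermat.Agent.LT.T7.H732

open Fermat.Agent.LT.H556 Fermat.Agent.LT.H556.A0 Fermat.Agent.LT.T7 Fermat.Agent.LT.T7.L2Q
  Fermat.Agent.LT.T7.H893 Fermat.Agent.LT.T7.H962

attribute [local instance] Fermat.Agent.LT.T5.instMeasurableSpaceG

section Top

variable {P : EKCond}
variable {F : Type} [Field F] [NumberField F]
variable {Mt : MtRelQ732 F}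

/-- The node of record `PreQRC60` from the two open nodes (all leaves closed). -/
theorem preQRC_of_nodes732 (hG : GlobQC732 F Mt) (hC : ConstrQRC732 P F Mt) :
    L2Q.H60.PreQRC60 P F :=
  preQRC_of_constr_closed732 hG hC (H698.ekProdUpOpQC698 F) (H587.ekProdDownOpQC587 F)

/-- **THE SUPPLY OVER `ℚ` IN THE FORM OF RECORD** (`H29.SupplyQSC P F`, VERBATIM) from the two
open nodes (all leaves closed). -/
theorem supplyQSC29_of_nodes732 (hG : GlobQC732 F Mt) (hC : ConstrQRC732 P F Mt) :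
    H29.SupplyQSC P F :=
  supplyQSC29_of_constr_closed732 (H546.setupQRC60_546 F) (H40.projC893_closed40 F)
    (fun n => H40.projQC962_closed40 n) hG hC
    (H698.ekProdUpOpQC698 F) (H587.ekProdDownOpQC587 F) (H811.opUpQC811 F)
    (H419.killUpQC419 (F := F)) (H426.opDownQC426 (F := F)) (H131.classDownQC_h131 (F := F))
    (H131.commDownQC_h131 (F := F)) (H131.killDownQC_h131 (F := F))

/-- **THE NODE `L2Q.SupplyQC P F`** (Level2Q, VERBATIM) from the two open nodes. -/
theorem supplyQC_of_nodes732 (hG : GlobQC732 F Mt) (hC : ConstrQRC732 P F Mt) :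
    L2Q.SupplyQC P F :=
  fun h3 hquad Φ hΦ hconst hPΦ =>
    let ⟨Dt, hDt, _⟩ := supplyQSC29_of_nodes732 hG hC h3 hquad Φ hΦ hconst hPΦ
    ⟨Dt, hDt⟩

/-- **THE QUADRATIC STEP** (target `T7.TraceWordsQRegP P F`, VERBATIM) from the two open nodes
of the supply, the two core nodes upstairs, the node downstairs and the spectral identity. -/
theorem traceWordsQRegP_of_nodes732 (hG : GlobQC732 F Mt) (hC : ConstrQRC732 P F Mt)
    (hE : H29.ExpUpCoreC F) (hN : H29.NonVanCoreC F)
    (hD : L2Q.SpecDownQC F) (hI : L2Q.SpecIdQC F) : TraceWordsQRegP P F :=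
  H29.traceWordsQRegP_ofCore2 (supplyQSC29_of_nodes732 hG hC) hE hN hD hI

end Top

end Fermat.Agent.LT.T7.H732

end

end
-- ===== PACK-END LT/T7/H732/SupplyQOpen.lean

-- ===== PACK-BEGIN LT/T7/H228/AvgMatchQ.lean
section




/-!
# Row LT, tower T7, quadratic step, leaf T7.L2Q.1.H1b `AvgMatchQC801` (helper228, SPARE)

OFF-MAIN.  `avgMatchQC228 F : CQ801.AvgMatchQC801 F`, VERBATIM vs helper801 `SupplyQConstrSpec.lean` (sha256 d1e7dc69460e), UNCONDITIONAL.
The proof is `isGlobMatch_avg_add228` (`AvgGlob.lean`).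
-/

set_option autoImplicit false

open AutomorphicForm IsDedekindDomain NumberField MeasureTheory

noncomputable section

namespace Fermat.Agent.LT.T7.H228

open Fermat.Agent.LT Fermat.Agent.LT.H556 Fermat.Agent.LT.H556.A0 Fermat.Agent.LT.T7

attribute [local instance] Fermat.Agent.LT.T5.instMeasurableSpaceG

variable (F : Type) [Field F] [NumberField F]

/-- **LEAF T7.L2Q.1.H1b = AVG-MATCH over `ℚ`**, VERBATIM and UNCONDITIONAL. -/
theorem avgMatchQC228 : CQ801.AvgMatchQC801 F := by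
  intro _ D hD _ _ Ω iT iC iT2 iS iM iB ν iF φs fs0 fs1 _ _ _ hφc hf0c hf1c hφs hf0s hf1s hmatch
  exact isGlobMatch_avg_add228 D hD Ω ν φs fs0 fs1 hφc hf0c hf1c hφs hf0s hf1s hmatch

end Fermat.Agent.LT.T7.H228

end

end
-- ===== PACK-END LT/T7/H228/AvgMatchQ.lean

-- ===== PACK-BEGIN LT/T7/H732/SupplyQWall.lean
section






/-!
# Row LT, tower T7, node T7.L2Q.1 `SupplyQ` (quadratic step `F/ℚ`): THE WALL OF RECORD in ONE
# closure (helper732, registry row 2322) -- bridge + integration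

OFF-MAIN.  Complete proofs, nothing assumed.  ADDITIVE (new names only, suffix `732`).

## What is joined here (ruling 17:46Z of helper797: ONE chain over `ℚ`)

* THE MATCHING CHAIN, v2, of helper298 (`T7/H298/MatchQSpec2.lean`, `MatchQCut2.lean`,
  `MatchQClosed.lean`): `MQ298.LocHypQ298b` (split clause for ONE enumeration),
  `MQ298.globMatchQC_of_open298 : HasSqrtNegThree F → OpenMatchQ298 F → GlobMatchQC298b F`
  (all closed leaves of the two cuts plugged; open = `OpenMatchQ298 F`).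
* THE CONSTRUCTION CHAIN, v2-correct form, of helper801 (`T7/H801/SupplyQConstrSpec.lean`,
  `SupplyQConstrTop.lean`): `CQ801.LocHypQb801`, `CQ801.GlobMatchQCb801`, the relation of record
  `CQ801.MtQ801 κ`, the nodes `CQ801.BaseQC801 P F`, `CQ801.ProdMtQC801 F κ`, the leaf
  `CQ801.AvgMatchQC801 F` (closed: helper228 `avgMatchQC228`).
* THE TOPS of the supply over `ℚ` of helper732 (`T7/H732/SupplyQOpen.lean`): the two nodes of
  record `GlobQC732 F Mt`, `ConstrQRC732 P F Mt` give `H29.SupplyQSC P F`.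

The two structures of local hypotheses `MQ298.LocHypQ298b` and `CQ801.LocHypQb801` have THE
SAME fields (they were typed independently from the same source); the bridge is the
field-by-field translation:

    locHypQ_iff732          : CQ801.LocHypQb801 … ↔ MQ298.LocHypQ298b …
    isMatchConstQ_iff732    : CQ801.IsMatchConstQb801 F … κ ↔ MQ298.IsMatchConstQ298b F … κ
    globMatchQ_iff732       : CQ801.GlobMatchQCb801 F ↔ MQ298.GlobMatchQC298b F
    cutIntQ_iff732          : CQ801.CutIntQCb801 F ↔ MQ298.CutIntQC298b F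

## The wall of record of the supply over `ℚ`

    structure OpenSupplyQ732 P F : matching : MQ298.OpenMatchQ298 F
                                   base     : CQ801.BaseQC801 P F
                                   prod     : ∀ κ nowhere zero, CQ801.ProdMtQC801 F κ

    nodesQ_of_open732          : OpenSupplyQ732 P F → ∃ Mt, GlobQC732 F Mt ∧ ConstrQRC732 P F Mt
    supplyQSC29_of_open732     : OpenSupplyQ732 P F → H29.SupplyQSC P F          (VERBATIM)
    supplyQC_of_open732        : OpenSupplyQ732 P F → L2Q.SupplyQC P F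
    traceWordsQRegP_of_open732 : OpenSupplyQ732 P F → H29.ExpUpCoreC F → H29.NonVanCoreC F
                                   → L2Q.SpecDownQC F → L2Q.SpecIdQC F → T7.TraceWordsQRegP P F

(`HasSqrtNegThree F` is the first hypothesis of both nodes of record: when it fails the nodes
hold for every relation, so the wall needs no such hypothesis.)
-/

set_option autoImplicit false

open AutomorphicForm IsDedekindDomain NumberField MeasureTheory
open scoped ComplexConjugate

noncomputable section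

namespace Fermat.Agent.LT.T7.H732

open Fermat.Agent.LT.H556 Fermat.Agent.LT.H556.A0 Fermat.Agent.LT.T7 Fermat.Agent.LT.T7.L2Q
open Fermat.Agent.LT.T7.H305

attribute [local instance] Fermat.Agent.LT.T5.instMeasurableSpaceG

/-! ## 1. The bridge between the two typings of the local hypotheses, v2 -/

section Bridge

variable {F : Type} [Field F] [NumberField F]

/-- The local hypotheses of helper801 from those of helper298 (same fields). -/
theorem locHypQb801_of298b732 {D : CompData ℚ F} {μr : @Measure (GL (Fin 2) ℝ) (borel _)}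
    {μc : @Measure (GL (Fin 2) ℂ) (borel _)} {T : Finset (HeightOneSpectrum (𝓞 ℚ))}
    {n : HeightOneSpectrum (𝓞 F) → ℕ} {m : HeightOneSpectrum (𝓞 ℚ) → ℕ}
    {φ₀ : ∀ w : HeightOneSpectrum (𝓞 F), GL (Fin 2) (w.adicCompletion F) → ℂ}
    {Φ : InfinitePlace F → GL (Fin 2) ℂ → ℂ}
    {f₀ : ∀ v : HeightOneSpectrum (𝓞 ℚ), GL (Fin 2) (v.adicCompletion ℚ) → ℂ}
    {F0 F1 : GL (Fin 2) ℝ → ℂ}
    (h : MQ298.LocHypQ298b D μr μc T n m φ₀ Φ f₀ F0 F1) :
    CQ801.LocHypQb801 D μr μc T n m φ₀ Φ f₀ F0 F1 :=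
  { inv_up := h.inv_up
    inv_down := h.inv_down
    arch_up := h.arch_up
    arch_down0 := h.arch_down0
    arch_down1 := h.arch_down1
    inert := h.inert
    split := h.split
    arch := h.arch }

/-- The local hypotheses of helper298 from those of helper801 (same fields). -/
theorem locHypQ298b_of801_732 {D : CompData ℚ F} {μr : @Measure (GL (Fin 2) ℝ) (borel _)}
    {μc : @Measure (GL (Fin 2) ℂ) (borel _)} {T : Finset (HeightOneSpectrum (𝓞 ℚ))}
    {n : HeightOneSpectrum (𝓞 F) → ℕ} {m : HeightOneSpectrum (𝓞 ℚ) → ℕ}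
    {φ₀ : ∀ w : HeightOneSpectrum (𝓞 F), GL (Fin 2) (w.adicCompletion F) → ℂ}
    {Φ : InfinitePlace F → GL (Fin 2) ℂ → ℂ}
    {f₀ : ∀ v : HeightOneSpectrum (𝓞 ℚ), GL (Fin 2) (v.adicCompletion ℚ) → ℂ}
    {F0 F1 : GL (Fin 2) ℝ → ℂ}
    (h : CQ801.LocHypQb801 D μr μc T n m φ₀ Φ f₀ F0 F1) :
    MQ298.LocHypQ298b D μr μc T n m φ₀ Φ f₀ F0 F1 :=
  { inv_up := h.inv_up
    inv_down := h.inv_down
    arch_up := h.arch_up
    arch_down0 := h.arch_down0
    arch_down1 := h.arch_down1
    inert := h.inert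
    split := h.split
    arch := h.arch }

/-- **The two typings of the local hypotheses over `ℚ`, v2, agree.** -/
theorem locHypQ_iff732 {D : CompData ℚ F} {μr : @Measure (GL (Fin 2) ℝ) (borel _)}
    {μc : @Measure (GL (Fin 2) ℂ) (borel _)} {T : Finset (HeightOneSpectrum (𝓞 ℚ))}
    {n : HeightOneSpectrum (𝓞 F) → ℕ} {m : HeightOneSpectrum (𝓞 ℚ) → ℕ}
    {φ₀ : ∀ w : HeightOneSpectrum (𝓞 F), GL (Fin 2) (w.adicCompletion F) → ℂ}
    {Φ : InfinitePlace F → GL (Fin 2) ℂ → ℂ}
    {f₀ : ∀ v : HeightOneSpectrum (𝓞 ℚ), GL (Fin 2) (v.adicCompletion ℚ) → ℂ}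
    {F0 F1 : GL (Fin 2) ℝ → ℂ} :
    CQ801.LocHypQb801 D μr μc T n m φ₀ Φ f₀ F0 F1
      ↔ MQ298.LocHypQ298b D μr μc T n m φ₀ Φ f₀ F0 F1 :=
  ⟨locHypQ298b_of801_732, locHypQb801_of298b732⟩

/-- The matching constants of the two typings agree. -/
theorem isMatchConstQ_iff732 {D : CompData ℚ F} {μr : @Measure (GL (Fin 2) ℝ) (borel _)}
    {μc : @Measure (GL (Fin 2) ℂ) (borel _)} {T₀ : Finset (HeightOneSpectrum (𝓞 ℚ))}
    {n : HeightOneSpectrum (𝓞 F) → ℕ} {m : HeightOneSpectrum (𝓞 ℚ) → ℕ} {κ : ℂ} :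
    CQ801.IsMatchConstQb801 F D μr μc T₀ n m κ
      ↔ MQ298.IsMatchConstQ298b F D μr μc T₀ n m κ := by
  constructor
  · intro h T T' hTT hT' φ₀ Φ f₀ F0 F1 hloc
    exact h T T' hTT hT' φ₀ Φ f₀ F0 F1 (locHypQb801_of298b732 hloc)
  · intro h T T' hTT hT' φ₀ Φ f₀ F0 F1 hloc
    exact h T T' hTT hT' φ₀ Φ f₀ F0 F1 (locHypQ298b_of801_732 hloc)

variable (F)

/-- **THE MATCHING THEOREM over `ℚ`, v2: the two typings agree.** -/
theorem globMatchQ_iff732 : CQ801.GlobMatchQCb801 F ↔ MQ298.GlobMatchQC298b F := by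
  constructor
  · intro h hF D hD hcyc hl μr hμr μc hμc T₀ hram n m hlev
    obtain ⟨κ, hκ, hM⟩ := h hF D hD hcyc hl μr hμr μc hμc T₀ hram n m hlev
    exact ⟨κ, hκ, isMatchConstQ_iff732.1 hM⟩
  · intro h hF D hD hcyc hl μr hμr μc hμc T₀ hram n m hlev
    obtain ⟨κ, hκ, hM⟩ := h hF D hD hcyc hl μr hμr μc hμc T₀ hram n m hlev
    exact ⟨κ, hκ, isMatchConstQ_iff732.2 hM⟩

/-- **THE CORE NODE over `ℚ`, v2: the two typings agree.** -/
theorem cutIntQ_iff732 : CQ801.CutIntQCb801 F ↔ MQ298.CutIntQC298b F := by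
  constructor
  · intro h hF D hD hcyc hl ι hι μr hμr μc hμc T₀ hram n m hlev
    obtain ⟨κ, hκ, hM⟩ := h hF D hD hcyc hl ι hι μr hμr μc hμc T₀ hram n m hlev
    exact ⟨κ, hκ, fun T T' hTT hT' φ₀ Φ f₀ F0 F1 hloc =>
      hM T T' hTT hT' φ₀ Φ f₀ F0 F1 (locHypQb801_of298b732 hloc)⟩
  · intro h hF D hD hcyc hl ι hι μr hμr μc hμc T₀ hram n m hlev
    obtain ⟨κ, hκ, hM⟩ := h hF D hD hcyc hl ι hι μr hμr μc hμc T₀ hram n m hlev
    exact ⟨κ, hκ, fun T T' hTT hT' φ₀ Φ f₀ F0 F1 hloc =>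
      hM T T' hTT hT' φ₀ Φ f₀ F0 F1 (locHypQ298b_of801_732 hloc)⟩

end Bridge

/-! ## 2. The wall of record of the supply over `ℚ` -/

section Wall

variable (P : EKCond)
variable (F : Type) [Field F] [NumberField F]

/-- **THE OPEN WALL of the supply over `ℚ`** (state of record): the open wall of the matching
theorem of helper298 (v2), the base node and the calculus node of helper801. -/
structure OpenSupplyQ732 : Prop where
  /-- the open leaves and nodes of the matching theorem over `ℚ` -/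
  matching : MQ298.OpenMatchQ298 F
  /-- the base node (existence of the pre-data with the local shape) -/
  base : CQ801.BaseQC801 P F
  /-- the calculus of pure tensors, for every nowhere zero family of constants -/
  prod : ∀ κ : CQ801.KapFnQ801 F, (∀ D μr μc T₀ n m, κ D μr μc T₀ n m ≠ 0) →
    CQ801.ProdMtQC801 F κ

variable {P F}

/-- **THE TWO NODES OF RECORD** (rows 2464, 2465) for ONE relation, from the wall. -/
theorem nodesQ_of_open732 (h : OpenSupplyQ732 P F) :
    ∃ Mt : MtRelQ732 F, GlobQC732 F Mt ∧ ConstrQRC732 P F Mt := by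
  classical
  by_cases h3 : HasSqrtNegThree F
  · exact CQ801.nodesQ_of_fifth801
      ((globMatchQ_iff732 F).2 (MQ298.globMatchQC_of_open298 h3 h.matching))
      (H228.avgMatchQC228 F) h.base h.prod
  · exact ⟨fun _ _ _ _ => True, fun h3' => absurd h3' h3, fun h3' => absurd h3' h3⟩

/-- **THE SUPPLY OVER `ℚ` IN THE FORM OF RECORD, from the wall.** -/
theorem supplyQSC29_of_open732 (h : OpenSupplyQ732 P F) : H29.SupplyQSC P F := by
  obtain ⟨Mt, hG, hC⟩ := nodesQ_of_open732 h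
  exact supplyQSC29_of_nodes732 hG hC

/-- The supply over `ℚ` (form of the level-2 cut), from the wall. -/
theorem supplyQC_of_open732 (h : OpenSupplyQ732 P F) : L2Q.SupplyQC P F := by
  obtain ⟨Mt, hG, hC⟩ := nodesQ_of_open732 h
  exact supplyQC_of_nodes732 hG hC

/-- **THE TRACE IDENTITY of the quadratic step, from the wall** and the three other nodes of
the level-2 cut. -/
theorem traceWordsQRegP_of_open732 (h : OpenSupplyQ732 P F)
    (hE : H29.ExpUpCoreC F) (hN : H29.NonVanCoreC F)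
    (hD : L2Q.SpecDownQC F) (hI : L2Q.SpecIdQC F) : TraceWordsQRegP P F := by
  obtain ⟨Mt, hG, hC⟩ := nodesQ_of_open732 h
  exact traceWordsQRegP_of_nodes732 hG hC hE hN hD hI

end Wall

end Fermat.Agent.LT.T7.H732

end

end
-- ===== PACK-END LT/T7/H732/SupplyQWall.lean

-- ===== PACK-BEGIN LT/T7/H961/NormFrame.lean
section



/-!
# Row LT, tower T7, leaf T7.L2.1.H2a.A.0.D.2 `NormFrameC981` (registry 2980): SPARE, PROVED

OFF-MAIN.  Spare proof by helper961 (owner of the row: helper386).  ADDITIVE (new names only,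
suffix `961`); no hole, nothing assumed.  Vocabulary: `T7/B981/PairDatSpec.lean` of helper981
(byte-identical copy) and its imports.

    normFrameC_closed961 : B981.NormFrameC981 K K'                               (VERBATIM)

## The proof

* `P` = the image of `P'` under `below961` (`w ↦ w ∩ 𝒪_K`); `PlaceOver K K' v w ↔ below961 w = v`.
* `a₀ = Algebra.intNorm (𝓞 K) (𝓞 K') a₀'`, `α = N_{K'/K} α'` (`Units.map (Algebra.norm K)`).
* `span`: `Ideal.relNorm_singleton`, multiplicativity of `Ideal.relNorm`,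
  `Ideal.relNorm_eq_pow_of_isMaximal` and `Ideal.absNorm_pow_inertiaDeg` (`resDeg981 v w` is the
  inertia degree because `N w = (N v) ^ f` and `N v ≥ 2`), then the product is regrouped along
  the fibres of `below961`.
* `cong`: `algebraMap (N a) = ∏_σ σ a` (restriction of the Galois group to the rings of
  integers), every `σ` preserves `𝔫 𝒪_{K'}`, and `𝔫 𝒪_{K'} ∩ 𝒪_K = 𝔫` (faithful flatness).
* infinite places: `K` is totally complex, so every place of `K'` is unramified over `K` and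
  the Galois group acts simply transitively on the places over `v`; an enumeration without
  repetition of length `ℓ = [K' : K]` exhausts them, and `v (N α') = ∏_σ (σ • w₀) α'`.
  The hypothesis `ℓ ≠ 2` is not used.
-/

set_option autoImplicit false
set_option linter.style.haveILetI false
set_option linter.unusedSectionVars false

open IsDedekindDomain NumberField

noncomputable section

namespace Fermat.Agent.LT.T7.H961

open Fermat.Agent.LT.T7 Fermat.Agent.LT.T7.H893 Fermat.Agent.LT.T7.B981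

variable {K K' : Type} [Field K] [NumberField K] [Field K'] [NumberField K'] [Algebra K K']

/-- The place of `K` under the place `w` of `K'`. -/
def below961 (w : HeightOneSpectrum (𝓞 K')) : HeightOneSpectrum (𝓞 K) where
  asIdeal := w.asIdeal.comap (algebraMap (𝓞 K) (𝓞 K'))
  isPrime := Ideal.comap_isPrime _ _
  ne_bot := by
    intro h
    exact w.ne_bot (Ideal.eq_bot_of_comap_eq_bot h)

theorem below961_asIdeal (w : HeightOneSpectrum (𝓞 K')) :
    (below961 (K := K) w).asIdeal = w.asIdeal.comap (algebraMap (𝓞 K) (𝓞 K')) := rfl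

instance liesOver961 (w : HeightOneSpectrum (𝓞 K')) :
    w.asIdeal.LiesOver (below961 (K := K) w).asIdeal := ⟨rfl⟩

theorem coe_algebraMap961 (x : 𝓞 K) :
    ((algebraMap (𝓞 K) (𝓞 K') x : 𝓞 K') : K') = algebraMap K K' (x : K) := rfl

theorem placeOver_iff961 (v : HeightOneSpectrum (𝓞 K)) (w : HeightOneSpectrum (𝓞 K')) :
    PlaceOver K K' v w ↔ below961 (K := K) w = v := by
  constructor
  · intro h
    apply HeightOneSpectrum.ext
    ext x
    rw [below961_asIdeal, Ideal.mem_comap]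
    exact (h x (algebraMap (𝓞 K) (𝓞 K') x) (coe_algebraMap961 x)).symm
  · rintro rfl x y hxy
    have hy : y = algebraMap (𝓞 K) (𝓞 K') x := by
      apply RingOfIntegers.ext
      rw [hxy, coe_algebraMap961]
    rw [hy, below961_asIdeal, Ideal.mem_comap]

theorem one_lt_absNorm961 {F : Type} [Field F] [NumberField F] (v : HeightOneSpectrum (𝓞 F)) :
    1 < Ideal.absNorm v.asIdeal := by
  have h0 : Ideal.absNorm v.asIdeal ≠ 0 := by
    rw [Ne, Ideal.absNorm_eq_zero_iff]
    exact v.ne_bot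
  have h1 : Ideal.absNorm v.asIdeal ≠ 1 := by
    rw [Ne, Ideal.absNorm_eq_one_iff]
    exact v.isPrime.ne_top
  omega

theorem resDeg_below961 (w : HeightOneSpectrum (𝓞 K')) :
    resDeg981 (below961 (K := K) w) w = w.asIdeal.inertiaDeg (𝓞 K) := by
  change Nat.log (Ideal.absNorm (below961 (K := K) w).asIdeal) (Ideal.absNorm w.asIdeal) = _
  rw [← Ideal.absNorm_pow_inertiaDeg (below961 (K := K) w).asIdeal w.asIdeal]
  exact Nat.log_pow (one_lt_absNorm961 _) _

theorem resDeg_below_pos961 (w : HeightOneSpectrum (𝓞 K')) :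
    0 < resDeg981 (below961 (K := K) w) w := by
  rw [resDeg_below961]
  exact Ideal.inertiaDeg_pos _ _

theorem relNorm_place961 (w : HeightOneSpectrum (𝓞 K')) :
    Ideal.relNorm (𝓞 K) w.asIdeal
      = (below961 (K := K) w).asIdeal ^ resDeg981 (below961 (K := K) w) w := by
  haveI : w.asIdeal.IsMaximal := w.isMaximal
  haveI : (below961 (K := K) w).asIdeal.IsMaximal := (below961 (K := K) w).isMaximal
  rw [resDeg_below961]
  exact Ideal.relNorm_eq_pow_of_isMaximal w.asIdeal (below961 (K := K) w).asIdeal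

/-! ## The norm of the generator -/

theorem span_norm961 (P' : Finset (HeightOneSpectrum (𝓞 K')))
    (e' : HeightOneSpectrum (𝓞 K') → ℕ) (a₀' : 𝓞 K')
    (h : Ideal.span {a₀'} = ∏ w ∈ P', w.asIdeal ^ e' w) :
    Ideal.span {Algebra.intNorm (𝓞 K) (𝓞 K') a₀'}
      = ∏ w ∈ P', (below961 (K := K) w).asIdeal ^
          (resDeg981 (below961 (K := K) w) w * e' w) := by
  rw [← Ideal.relNorm_singleton, h, map_prod]
  refine Finset.prod_congr rfl fun w _ => ?_
  rw [map_pow, relNorm_place961, ← pow_mul]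

open Classical in
theorem prod_fibre961 (P' : Finset (HeightOneSpectrum (𝓞 K')))
    (e' : HeightOneSpectrum (𝓞 K') → ℕ) :
    ∏ v ∈ P'.image (below961 (K := K)),
        v.asIdeal ^ (∑ w ∈ fib981 (K := K) P' v, resDeg981 v w * e' w)
      = ∏ w ∈ P', (below961 (K := K) w).asIdeal ^
          (resDeg981 (below961 (K := K) w) w * e' w) := by
  rw [← Finset.prod_fiberwise_of_maps_to (g := below961 (K := K))
    (t := P'.image (below961 (K := K))) (fun w hw => Finset.mem_image_of_mem _ hw)]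
  refine Finset.prod_congr rfl fun v _ => ?_
  rw [← Finset.prod_pow_eq_pow_sum]
  have hf : fib981 (K := K) P' v = P'.filter (fun w => below961 (K := K) w = v) :=
    Finset.filter_congr fun w _ => placeOver_iff961 v w
  rw [hf]
  refine Finset.prod_congr rfl fun w hw => ?_
  rw [(Finset.mem_filter.mp hw).2]

/-! ## The congruence -/

theorem algebraMap_intNorm_eq_prod961 [IsGalois K K'] (a : 𝓞 K') :
    algebraMap (𝓞 K) (𝓞 K') (Algebra.intNorm (𝓞 K) (𝓞 K') a)
      = ∏ σ : Gal(K'/K), galRestrict (𝓞 K) K K' (𝓞 K') σ a := by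
  apply IsIntegralClosure.algebraMap_injective (𝓞 K') (𝓞 K) K'
  rw [← IsScalarTower.algebraMap_apply, IsScalarTower.algebraMap_apply (𝓞 K) K K',
    Algebra.algebraMap_intNorm (L := K'), Algebra.norm_eq_prod_automorphisms]
  simp only [map_prod, algebraMap_galRestrict_apply]

theorem algEquiv_mem_upI961 (𝔫 : Ideal (𝓞 K)) (τ : 𝓞 K' ≃ₐ[𝓞 K] 𝓞 K') {x : 𝓞 K'}
    (hx : x ∈ upI (K' := K') 𝔫) : τ x ∈ upI (K' := K') 𝔫 := by
  have h1 : τ x ∈ Ideal.map (τ : 𝓞 K' →+* 𝓞 K') (upI (K' := K') 𝔫) :=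
    Ideal.mem_map_of_mem _ hx
  have h2 : Ideal.map (τ : 𝓞 K' →+* 𝓞 K') (upI (K' := K') 𝔫) = upI (K' := K') 𝔫 := by
    change Ideal.map (τ : 𝓞 K' →+* 𝓞 K') (Ideal.map (algebraMap (𝓞 K) (𝓞 K')) 𝔫)
      = Ideal.map (algebraMap (𝓞 K) (𝓞 K')) 𝔫
    rw [Ideal.map_map]
    congr 1
    exact τ.toAlgHom.comp_algebraMap
  rwa [h2] at h1

theorem norm_sub_one_mem961 [IsGalois K K'] (𝔫 : Ideal (𝓞 K)) (a : 𝓞 K')
    (ha : a - 1 ∈ upI (K' := K') 𝔫) :
    Algebra.intNorm (𝓞 K) (𝓞 K') a - 1 ∈ 𝔫 := by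
  rw [← Ideal.comap_map_eq_self_of_faithfullyFlat (B := 𝓞 K') 𝔫, Ideal.mem_comap, map_sub,
    map_one, algebraMap_intNorm_eq_prod961]
  change _ ∈ upI (K' := K') 𝔫
  have hq : Ideal.Quotient.mk (upI (K' := K') 𝔫)
      (∏ σ : Gal(K'/K), galRestrict (𝓞 K) K K' (𝓞 K') σ a) = 1 := by
    rw [map_prod]
    refine Finset.prod_eq_one fun σ _ => ?_
    rw [← map_one (Ideal.Quotient.mk (upI (K' := K') 𝔫)), Ideal.Quotient.eq]
    have := algEquiv_mem_upI961 𝔫 (galRestrict (𝓞 K) K K' (𝓞 K') σ) ha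
    rwa [map_sub, map_one] at this
  rw [← map_one (Ideal.Quotient.mk (upI (K' := K') 𝔫)), Ideal.Quotient.eq] at hq
  exact hq

/-! ## The infinite places -/

theorem log_norm961 [IsGalois K K'] (ℓ : ℕ) (hdeg : Module.finrank K K' = ℓ) (hK : TotCplx K)
    (α' : K'ˣ) (v : InfinitePlace K) (wen : ℕ → InfinitePlace K') (hw : IsEnum981 ℓ v wen) :
    Real.log (v (Algebra.norm K (α' : K')))
      = ∑ j ∈ Finset.range ℓ, Real.log ((wen j) (α' : K')) := by
  classical
  obtain ⟨hov, hinj⟩ := hw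
  have hw₀v : (wen 0).comap (algebraMap K K') = v := hov 0
  have hunr : InfinitePlace.IsUnramified K (wen 0) := by
    rw [InfinitePlace.isUnramified_iff]
    right
    rw [hw₀v]
    exact hK v
  have hstab : Nat.card (MulAction.stabilizer Gal(K'/K) (wen 0)) = 1 := by
    rw [InfinitePlace.card_stabilizer, if_pos hunr]
  have hbot : MulAction.stabilizer Gal(K'/K) (wen 0) = ⊥ :=
    Subgroup.card_eq_one.mp hstab
  have hφ : Function.Injective (fun σ : Gal(K'/K) => σ • wen 0) := by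
    intro σ τ h
    have hmem : τ⁻¹ * σ ∈ MulAction.stabilizer Gal(K'/K) (wen 0) := by
      rw [MulAction.mem_stabilizer_iff, mul_smul]
      have h' : σ • wen 0 = τ • wen 0 := h
      rw [h', inv_smul_smul]
    rw [hbot, Subgroup.mem_bot] at hmem
    exact (inv_mul_eq_one.mp hmem).symm
  have hprod : v (Algebra.norm K (α' : K')) = ∏ σ : Gal(K'/K), (σ • wen 0) (α' : K') := by
    rw [← hw₀v, InfinitePlace.comap_apply, Algebra.norm_eq_prod_automorphisms, map_prod]
    refine Fintype.prod_equiv (Equiv.inv _) _ _ fun σ => ?_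
    rw [Equiv.inv_apply, InfinitePlace.smul_apply]
    rfl
  have hinjOn : Set.InjOn wen (Finset.range ℓ : Set ℕ) := by
    intro j hj j' hj' h
    exact hinj j j' (Finset.mem_range.mp hj) (Finset.mem_range.mp hj') h
  have himg : (Finset.range ℓ).image wen
      = Finset.univ.image (fun σ : Gal(K'/K) => σ • wen 0) := by
    apply Finset.eq_of_subset_of_card_le
    · intro w hw
      obtain ⟨j, _, rfl⟩ := Finset.mem_image.mp hw
      obtain ⟨σ, hσ⟩ := InfinitePlace.exists_smul_eq_of_comap_eq (k := K) (w := wen 0)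
        (w' := wen j) (by rw [hw₀v, hov j])
      exact Finset.mem_image.mpr ⟨σ, Finset.mem_univ _, hσ⟩
    · rw [Finset.card_image_of_injective _ hφ, Finset.card_image_of_injOn hinjOn,
        Finset.card_range, Finset.card_univ, ← Nat.card_eq_fintype_card,
        IsGalois.card_aut_eq_finrank, hdeg]
  have hne : ∀ j ∈ Finset.range ℓ, (wen j) (α' : K') ≠ 0 := by
    intro j _
    exact (map_ne_zero (wen j)).mpr α'.ne_zero
  rw [hprod, ← Finset.prod_image (s := Finset.univ) (g := fun σ : Gal(K'/K) => σ • wen 0)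
    (f := fun w : InfinitePlace K' => w (α' : K')) (fun σ _ τ _ h => hφ h), ← himg,
    Finset.prod_image hinjOn, Real.log_prod hne]

/-! ## The leaf -/

open Classical in
/-- **LEAF T7.L2.1.H2a.A.0.D.2 `NormFrameC981`, VERBATIM.** -/
theorem normFrameC_closed961 : NormFrameC981 K K' := by
  intro ℓ hcyc _ hK 𝔫 P' e' a₀' α' h𝔫 hF
  haveI : IsGalois K K' := hcyc.galois
  refine ⟨P'.image (below961 (K := K)),
    fun v => ∑ w ∈ fib981 (K := K) P' v, resDeg981 v w * e' w,
    Algebra.intNorm (𝓞 K) (𝓞 K') a₀',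
    Units.map (Algebra.norm K : K' →* K) α', ?_, ?_, ?_, ?_⟩
  · refine ⟨h𝔫, hF.nonempty.image _, ?_, ?_, ?_, ?_, ?_⟩
    · -- prime
      intro v hv hdvd
      obtain ⟨w, hw, rfl⟩ := Finset.mem_image.mp hv
      refine hF.prime w hw ?_
      rw [Ideal.dvd_iff_le] at hdvd ⊢
      change Ideal.map (algebraMap (𝓞 K) (𝓞 K')) 𝔫 ≤ w.asIdeal
      rw [Ideal.map_le_iff_le_comap]
      exact hdvd
    · -- pos
      intro v hv
      obtain ⟨w, hw, rfl⟩ := Finset.mem_image.mp hv
      have hwf : w ∈ fib981 (K := K) P' (below961 (K := K) w) :=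
        Finset.mem_filter.mpr ⟨hw, (placeOver_iff961 _ w).mpr rfl⟩
      exact lt_of_lt_of_le (Nat.mul_pos (resDeg_below_pos961 w) (hF.pos w hw))
        (Finset.single_le_sum (f := fun w' => resDeg981 (below961 (K := K) w) w' * e' w')
          (fun _ _ => Nat.zero_le _) hwf)
    · -- span
      rw [span_norm961 P' e' a₀' hF.span, prod_fibre961]
    · -- cong
      exact norm_sub_one_mem961 𝔫 a₀' hF.cong
    · -- coe
      rw [Units.coe_map, Algebra.algebraMap_intNorm (L := K'), ← hF.coe]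
  · intro v
    rw [Finset.mem_image]
    constructor
    · rintro ⟨w, hw, rfl⟩
      exact ⟨w, hw, (placeOver_iff961 _ w).mpr rfl⟩
    · rintro ⟨w, hw, hvw⟩
      exact ⟨w, hw, (placeOver_iff961 v w).mp hvw⟩
  · intro v _
    rfl
  · intro v wen hwen
    rw [Units.coe_map]
    exact log_norm961 ℓ hcyc.degree hK α' v wen hwen

end Fermat.Agent.LT.T7.H961

end

end
-- ===== PACK-END LT/T7/H961/NormFrame.lean

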