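import Mathlib
import Fermat.Agent.Pack.LT3.E23L3
import Fermat.Agent.Pack.LT3.E20L3
import Fermat.Agent.Pack.LT3.E20L2
import Fermat.Agent.Pack.LT3.E19L0
import Fermat.Agent.Pack.LT4.E7L3
import Fermat.Agent.Pack.LT4.E5L0
import Fermat.Agent.Pack.LT4.E5L1
import Fermat.Agent.Pack.LT4.E4L2
import Fermat.Agent.Pack.LT4.E5L3
import Fermat.Agent.Pack.LT4.E5L2
import Fermat.Agent.Pack.LT3.E27L1
import Fermat.Agent.Pack.LT3.E29L2
import Fermat.Agent.Pack.LT3.E30L3
import Fermat.Agent.Pack.LT4.E6L1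
import Fermat.Agent.Pack.LT4.E7L1
import Fermat.Agent.Pack.LT4.E7L2
import Fermat.Agent.Pack.LT3.E30L1
import Fermat.Agent.Pack.LT3.E23L1
import Fermat.Agent.Pack.LT4.E7L0
import Fermat.Agent.Pack.LT4.E2L3

set_option linter.all false

-- ===== PACK-BEGIN LT/T7/H429/FinMult.lean
section






/-!
# Row LT, tower T7, asset `FinMult429` (helper429), part 2: FINITE MULTIPLICITY PER `EigData`

OFF-MAIN.  ADDITIVE.  Byte-identical copies of the closures of `T2/AdapterW.lean` (helper130),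
`T3/M/H474/ROpMeanM.lean` (helper474), `T3/M/H709/PureRegM.lean` (helper709), `T3/M/Top.lean`
(helper14), `T7/Level2.lean` (helper797).

`K` totally complex, `𝔫 ≠ 0`, `m_w` ANY eigenvalue functions of the sphere means (NO `IsSph0`).

* `exists_testFn_scalar429`: if the class `{φ : IsMeanLevel K 𝔫 m φ}` contains a nonzero
  function, there is ONE test function `f` of T2 (a pure tensor: the unit at the finite places,
  a smooth bi-`U(2)`-invariant bump at every infinite place) and ONE scalar `c ≠ 0` with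
  `T2.conv F f φ = c • φ` for EVERY `φ` of the class.
* `finMult429`: a bound `N` for the length of the orthonormal families of cusp functions of
  level `𝔫` with the eigenvalue functions `m` (Hilbert--Schmidt bound of T2: `n |c|² ≤ C_HS`).
* `finMultEig429`: the same for the classes `T7.IsEigFn 𝔫 r l o · C` of level 2 (any Iwahori
  condition, any eigen-data).
-/

set_option autoImplicit false
set_option linter.style.haveILetI false
set_option linter.unusedSectionVars false

open IsDedekindDomain NumberField MeasureTheory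
open Fermat.Agent.LT.H556.A0 Fermat.Agent.LT.T3.AS Fermat.Agent.LT.T3
open Fermat.Agent.LT.T3.H57

noncomputable section

namespace Fermat.Agent.LT.T7.H429

variable {K : Type} [Field K] [NumberField K]

attribute [local instance] Fermat.Agent.LT.T2.borelG

local instance borelGLb429 : MeasurableSpace (GL (Fin 2) ℂ) := borel (GL (Fin 2) ℂ)

local instance borelSpaceGLb429 : BorelSpace (GL (Fin 2) ℂ) := ⟨rfl⟩

local instance lcGLb429 : LocallyCompactSpace (GL (Fin 2) ℂ) := locallyCompact_GL2C57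

/-- A cusp function of T2 with eigenvalue functions `m` is of the class `IsMeanLevel`. -/
theorem isMeanLevel_of429 {𝔫 : Ideal (𝓞 K)} {m : InfinitePlace K → ℝ → ℂ} {φ : G K → ℂ}
    (hc : T2.IsCuspFn 𝔫 φ) (hm : ∀ w, T2.MeanEigC φ w (m w)) : M.IsMeanLevel K 𝔫 m φ :=
  ⟨hc.cont, hc.level_inv, hc.arch_scalar, hc.arch_compact, hm⟩

/-- **THE SCALAR LEMMA.**  ONE test function acts on the whole class of the eigenvalue functions
`m` by ONE nonzero scalar. -/
theorem exists_testFn_scalar429 (hcx : ∀ w : InfinitePlace K, w.IsComplex) (𝔫 : Ideal (𝓞 K))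
    (h𝔫 : 𝔫 ≠ ⊥) (F : T2.Frame K) (m : InfinitePlace K → ℝ → ℂ)
    (hex : ∃ ψ₀ : G K → ℂ, M.IsMeanLevel K 𝔫 m ψ₀ ∧ ∃ g₀ : G K, ψ₀ g₀ ≠ 0) :
    ∃ (f : G K → ℂ) (c : ℂ), T2.IsTestFn 𝔫 f ∧ c ≠ 0 ∧
      ∀ φ : G K → ℂ, M.IsMeanLevel K 𝔫 m φ → T2.conv F f φ = c • φ := by
  obtain ⟨ψ₀, hψ, g₀, hg₀⟩ := hex
  set μc : Measure (GL (Fin 2) ℂ) := Measure.haar with hμc
  have hloc : ∀ w : InfinitePlace K, ∃ Fw : GL (Fin 2) ℂ → ℂ, IsCplxTest Fw ∧
      IsCplxSmooth Fw ∧ ∃ C : ℂ, C ≠ 0 ∧ M.ActsByMean μc Fw (m w) C := by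
    intro w
    have h1 := M.H474.isLocMean_of474 hcx 𝔫 m ψ₀ hψ g₀ w
    refine exists_bump_ne_zero429 μc h1 1 ?_
    show ψ₀ (g₀ * infEmbAt57 hcx w 1) ≠ 0
    rw [map_one, mul_one]
    exact hg₀
  choose Fw hFt hFs Cw hC0 hCact using hloc
  set f₀ : ∀ v : HeightOneSpectrum (𝓞 K), GL (Fin 2) (v.adicCompletion K) → ℂ :=
    fun _ _ => 1 with hf₀
  have hP : ∀ v ∈ (∅ : Finset (HeightOneSpectrum (𝓞 K))), ¬ v.asIdeal ∣ 𝔫 :=
    fun v hv => absurd hv (Finset.notMem_empty v)
  have hreg := M.H709.pureRegMC709 K 𝔫 h𝔫 ∅ hP f₀ Fw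
    (fun v hv => absurd hv (Finset.notMem_empty v))
    (fun v hv => absurd hv (Finset.notMem_empty v)) hFt
  have hsm : IsSmoothInf K (M.pureFnM K 𝔫 ∅ f₀ Fw) := M.pureSmoothM 𝔫 ∅ f₀ Fw hFs
  obtain ⟨κ₁, hκ, hR⟩ := M.H474.rOpMeanMC474 K hcx F.μ F.haar μc inferInstance 𝔫 h𝔫 ∅ hP
  refine ⟨M.pureFnM K 𝔫 ∅ f₀ Fw, κ₁ * ∏ w : InfinitePlace K, Cw w, ?_, ?_, ?_⟩
  · exact
      { cont := hreg.1
        smooth := hsm
        cpt := hreg.2.1
        level_right := fun u hu g => (hreg.2.2.1.1 u hu g).2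
        level_left := fun u hu g => (hreg.2.2.1.1 u hu g).1
        arch_right := fun w k hk g => (hreg.2.2.1.2 w k hk g).2
        arch_left := fun w k hk g => (hreg.2.2.1.2 w k hk g).1 }
  · exact mul_ne_zero hκ (Finset.prod_ne_zero_iff.2 fun w _ => hC0 w)
  · intro φ hφ
    funext x
    have h2 := hR (fun _ _ => 0) Cw m f₀ Fw
      (fun v hv => absurd hv (Finset.notMem_empty v))
      (fun v hv => absurd hv (Finset.notMem_empty v))
      (fun v hv => absurd hv (Finset.notMem_empty v)) hFt hCact φ hφ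
      (fun _ => 0) (fun _ => 0) (fun _ => 0) (fun _ => 0)
      (fun v hv => absurd hv (Finset.notMem_empty v))
      (fun v hv => absurd hv (Finset.notMem_empty v))
      (fun v hv => absurd hv (Finset.notMem_empty v))
      (fun v hv => absurd hv (Finset.notMem_empty v)) x
    rw [Finset.prod_empty, mul_one] at h2
    show T2.conv F (M.pureFnM K 𝔫 ∅ f₀ Fw) φ x = (κ₁ * ∏ w : InfinitePlace K, Cw w) * φ x
    rw [← h2]
    rfl

/-- **FINITE MULTIPLICITY (T2 vocabulary).**  The orthonormal families of cusp functions of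
level `𝔫` with the eigenvalue functions `m` of the sphere means have bounded length. -/
theorem finMult429 (hcx : ∀ w : InfinitePlace K, w.IsComplex) (𝔫 : Ideal (𝓞 K)) (h𝔫 : 𝔫 ≠ ⊥)
    (F : T2.Frame K) (m : InfinitePlace K → ℝ → ℂ) :
    ∃ N : ℕ, ∀ (n : ℕ) (φ : Fin n → G K → ℂ), (∀ i, T2.IsCuspFn 𝔫 (φ i)) →
      (∀ i w, T2.MeanEigC (φ i) w (m w)) →
      (∀ i j, T2.pair F (φ i) (φ j) = if i = j then 1 else 0) → n ≤ N := by
  by_cases hex : ∃ ψ₀ : G K → ℂ, M.IsMeanLevel K 𝔫 m ψ₀ ∧ ∃ g₀ : G K, ψ₀ g₀ ≠ 0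
  swap
  · refine ⟨0, fun n φ hc hm ho => ?_⟩
    by_contra hn
    have hn' : 0 < n := by omega
    have h1 : T2.pair F (φ ⟨0, hn'⟩) (φ ⟨0, hn'⟩) = 1 := by rw [ho, if_pos rfl]
    exact hex ⟨φ ⟨0, hn'⟩, isMeanLevel_of429 (hc _) (hm _), T2.H566.exists_ne_zero566 F h1⟩
  obtain ⟨f, c, hf, hc0, hact⟩ := exists_testFn_scalar429 hcx 𝔫 h𝔫 F m hex
  obtain ⟨C, hC⟩ := (T2.estimates_closed K 𝔫 h𝔫).2.2.2.2.2.1 F f hf
  have hcpos : 0 < ‖c‖ ^ 2 := by
    have := norm_pos_iff.2 hc0
    positivity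
  refine ⟨⌈C / ‖c‖ ^ 2⌉₊, fun n φ hc hm ho => ?_⟩
  have h1 := hC n φ hc ho
  have h2 : ∀ i, T2.nsq F (T2.conv F f (φ i)) = ‖c‖ ^ 2 := by
    intro i
    rw [hact (φ i) (isMeanLevel_of429 (hc i) (hm i)), T2.nsq_smul130]
    have : T2.nsq F (φ i) = 1 := by
      unfold T2.nsq
      rw [ho, if_pos rfl, Complex.one_re]
    rw [this, mul_one]
  simp only [h2, Finset.sum_const, Finset.card_univ, Fintype.card_fin, nsmul_eq_mul] at h1
  have h3 : (n : ℝ) ≤ C / ‖c‖ ^ 2 := by
    rw [le_div_iff₀ hcpos]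
    exact h1
  exact Nat.cast_le.1 (h3.trans (Nat.le_ceil _))

/-! ## The class as a finite dimensional subspace -/

/-- (MATHLIB ONLY.)  A subspace of a complex inner product space whose orthonormal families have
bounded length is finite dimensional. -/
theorem finite_of_orthonormal_bound429 {V : Type*} [NormedAddCommGroup V]
    [InnerProductSpace ℂ V] (E : Submodule ℂ V) (N : ℕ)
    (h : ∀ (n : ℕ) (v : Fin n → V), (∀ i, v i ∈ E) → Orthonormal ℂ v → n ≤ N) :
    Module.Finite ℂ E := by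
  have hr : Module.rank ℂ E ≤ N := by
    apply rank_le
    intro s hs
    set f : Fin s.card → E := fun i => ((s.equivFin.symm i : s) : E) with hf
    have hli : LinearIndependent ℂ f := hs.comp _ s.equivFin.symm.injective
    have ho : Orthonormal ℂ (InnerProductSpace.gramSchmidtNormed ℂ f) :=
      InnerProductSpace.gramSchmidtNormed_orthonormal hli
    refine h s.card (fun i => ((InnerProductSpace.gramSchmidtNormed ℂ f i : E) : V))
      (fun i => (InnerProductSpace.gramSchmidtNormed ℂ f i).2) ?_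
    exact ho.comp_linearIsometry E.subtypeₗᵢ
  exact Module.rank_lt_aleph0_iff.1 (lt_of_le_of_lt hr (Cardinal.natCast_lt_aleph0 (n := N)))

section Class

variable (hcx : ∀ w : InfinitePlace K, w.IsComplex) (hFD : T1.AddFundDomC K)
  (𝔫 : Ideal (𝓞 K)) (F : T2.Frame K) (hOG : T2.OpsGood K 𝔫)

/-- The cusp functions of level `𝔫` with the eigenvalue functions `m` of the sphere means. -/
def meanSub429 (m : InfinitePlace K → ℝ → ℂ) : Submodule ℂ (T2.H566.CuspV566 hFD 𝔫) where
  carrier := {x | ∀ w, T2.MeanEigC x.fn w (m w)}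
  zero_mem' := by
    intro w d hd Y hY g
    have h0 := T2.H566.op_zero566 𝔫 F hOG (T2.IsOp.sphere w (hcx w) d hd Y hY)
    show T2.sphereMean Y (fun _ => (0 : ℂ)) g = m w d * 0
    rw [h0, mul_zero]
  add_mem' := by
    intro x y hx hy w d hd Y hY g
    have h0 := T2.H566.op_add566 𝔫 F hOG (T2.IsOp.sphere w (hcx w) d hd Y hY)
      x.isCuspFn y.isCuspFn
    show T2.sphereMean Y (x.fn + y.fn) g = m w d * (x.fn g + y.fn g)
    rw [h0, mul_add, ← hx w d hd Y hY g, ← hy w d hd Y hY g]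
    rfl
  smul_mem' := by
    intro c x hx w d hd Y hY g
    have h0 := T2.H566.op_smul566 𝔫 F hOG (T2.IsOp.sphere w (hcx w) d hd Y hY) c x.isCuspFn
    show T2.sphereMean Y (c • x.fn) g = m w d * (c * x.fn g)
    rw [h0, mul_left_comm, ← hx w d hd Y hY g]
    rfl

/-- The underlying function, as a linear map. -/
def fnLin429 : T2.H566.CuspV566 hFD 𝔫 →ₗ[ℂ] (G K → ℂ) where
  toFun := fun x => x.fn
  map_add' := fun _ _ => rfl
  map_smul' := fun _ _ => rfl

/-- **The class of the eigenvalue functions `m` is finite dimensional.** -/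
theorem finite_meanSub429 (h𝔫 : 𝔫 ≠ ⊥) (hPD : T2.PairDefinite K 𝔫)
    (m : InfinitePlace K → ℝ → ℂ) : Module.Finite ℂ (meanSub429 hcx hFD 𝔫 F hOG m) := by
  letI iN : NormedAddCommGroup (T2.H566.CuspV566 hFD 𝔫) := T2.H566.cuspNormed566 hFD 𝔫 F hPD
  letI iI : InnerProductSpace ℂ (T2.H566.CuspV566 hFD 𝔫) := T2.H566.cuspInner566 hFD 𝔫 F hPD
  obtain ⟨N, hN⟩ := finMult429 hcx 𝔫 h𝔫 F m
  refine finite_of_orthonormal_bound429 (meanSub429 hcx hFD 𝔫 F hOG m) N ?_
  intro n v hv ho
  refine hN n (fun i => (v i).fn) (fun i => (v i).isCuspFn) (fun i w => hv i w) ?_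
  intro i j
  have h1 := (orthonormal_iff_ite.1 ho) j i
  rw [T2.H566.inner_eq566] at h1
  rw [h1]
  by_cases hij : i = j
  · rw [if_pos hij, if_pos hij.symm]
  · rw [if_neg hij, if_neg (Ne.symm hij)]

end Class

/-- **FINITE MULTIPLICITY PER `EigData` (T7 vocabulary)** `= WB776.ClassFinC776 K`, verbatim.
For a totally complex `K`, every level `𝔫 ≠ 0`, every Iwahori condition `(l, o)` and EVERY
eigen-data `C` (NO `IsSph0`): the members of the class `IsEigFn 𝔫 r l o · C` lie in ONE finite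
dimensional space of functions.  (Only the eigenvalue functions `C.m` of the sphere means are
used.) -/
theorem classFinGen429 (hcx : ∀ w : InfinitePlace K, w.IsComplex) (𝔫 : Ideal (𝓞 K)) (r : G K)
    (l : ℕ) (o : ℕ → HeightOneSpectrum (𝓞 K)) (C : EigData K) (h𝔫 : 𝔫 ≠ ⊥)
    (_hr : T5.IsRayGen r) :
    ∃ W : Submodule ℂ (G K → ℂ), Module.Finite ℂ W ∧
      ∀ ψ : G K → ℂ, IsEigFn 𝔫 r l o ψ C → ψ ∈ W := by
  obtain ⟨F⟩ := T2.frame_closed K
  have hFD : T1.AddFundDomC K := (T1.t1Out K).addFundDom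
  have hPD := T2.pairDefinite_closed K 𝔫 h𝔫
  have hOG := (T2.ops_closed K 𝔫 h𝔫).1
  haveI := finite_meanSub429 hcx hFD 𝔫 F hOG h𝔫 hPD C.m
  refine ⟨(meanSub429 hcx hFD 𝔫 F hOG C.m).map (fnLin429 hFD 𝔫), inferInstance, ?_⟩
  intro ψ hψ
  have hc : T2.IsCuspFn 𝔫 ψ := T2.isCuspFn_of_isWFn130 hψ.inv
  exact Submodule.mem_map.2 ⟨T2.H566.CuspV566.mk ψ hc, fun w => hψ.mean w, rfl⟩

/-- The bound on the orthonormal families of a class of level 2. -/
theorem finMultEig429 (hcx : ∀ w : InfinitePlace K, w.IsComplex) (𝔫 : Ideal (𝓞 K))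
    (h𝔫 : 𝔫 ≠ ⊥) (F : T2.Frame K) (r : G K) (l : ℕ) (o : ℕ → HeightOneSpectrum (𝓞 K))
    (C : EigData K) :
    ∃ N : ℕ, ∀ (n : ℕ) (φ : Fin n → G K → ℂ), (∀ i, IsEigFn 𝔫 r l o (φ i) C) →
      (∀ i j, T2.pair F (φ i) (φ j) = if i = j then 1 else 0) → n ≤ N := by
  obtain ⟨N, hN⟩ := finMult429 hcx 𝔫 h𝔫 F C.m
  exact ⟨N, fun n φ hφ ho => hN n φ (fun i => T2.isCuspFn_of_isWFn130 (hφ i).inv)
    (fun i w => (hφ i).mean w) ho⟩

end Fermat.Agent.LT.T7.H429

end

end
-- ===== PACK-END LT/T7/H429/FinMult.lean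

-- ===== PACK-BEGIN LT/T7/H963/SimpleClosed.lean
section








/-!
# Row LT, tower T7, node `SimpleC` (helper963, OFF-MAIN): THE NODE IS CLOSED

    simpleC963 (K) : H963.SimpleC K                            (UNCONDITIONAL)

and the three leaves of `ClassModelC` which follow from it, in both forms:

    finDimUC675_963 (K') : CMU675.FinDimUC675 K'      finDimC616_963 (K K') : CM616.FinDimC616 K K'
    stabGUC675_963  (K') : CMU675.StabGUC675 K'       stabGC616_963  (K K') : CM616.StabGC616 K K'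
    simpleUC675_963 (K') : CMU675.SimpleUC675 K'      simpleC616_963 (K K') : CM616.SimpleC616 K K'

The leaves (byte-identical copies of the files of their owners, rebuilt here):

* `ClassFinC`  : `H429.classFinGen429` (helper429, `T7/H429/FinMult.lean`; the owner of row 2368,
  helper78, has `classFinC78`, `T7/H78/ClassFinClosed.lean`: either one);
* `ClassLinC`  : `H454.classLinC454` (helper454, row 2369);
* `ClassOpC`   : `H837.classOpC837` (helper837, row 2370; spares `classOpC793`, `classOpC354`);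
* `DecompC`    : `H227.decompC227` (helper227, row 2371);
* `BadSystemExistsC`, `IwSystemExistsC` : `H593DS.badSystemExistsC593`, `iwSystemExistsC593`
  (helper593, spare of row 2372);
* `StepSphC`   : `H142.stepSphC142` (helper142, row 2373);
* `StepArchC`  : `H258.stepArchC258` (helper258, row 2374);
* `GoodPrimeC`, `UnitC`, `StepBadC`, `StepIwC`, the tops: helper963.
-/

set_option autoImplicit false

open IsDedekindDomain NumberField

namespace Fermat.Agent.LT.T7.H963

/-- **LEAF `ClassFinC`, closed** (helper429: finite multiplicity per eigen-data). -/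
theorem classFinC963 (K : Type) [Field K] [NumberField K] : ClassFinC K :=
  fun hcx 𝔫 r l o C h𝔫 hr _ => H429.classFinGen429 hcx 𝔫 r l o C h𝔫 hr

/-- **THE NODE `SimpleC`, closed**: multiplicity one in module form. -/
theorem simpleC963 (K : Type) [Field K] [NumberField K] : SimpleC K :=
  simpleC_of_open (classFinC963 K) (H454.classLinC454 K) (H837.classOpC837 K)
    (H593DS.badSystemExistsC593 K) (H593DS.iwSystemExistsC593 K) (H258.stepArchC258 K)

/-! ## The leaves CM.01, CM.03, CM.09 of `ClassModelC`, core form -/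

theorem finDimUC675_963 (K' : Type) [Field K'] [NumberField K'] : CMU675.FinDimUC675 K' :=
  finDimUC675_of (classFinC963 K')

theorem stabGUC675_963 (K' : Type) [Field K'] [NumberField K'] : CMU675.StabGUC675 K' :=
  stabGUC675_of (H837.classOpC837 K')

theorem simpleUC675_963 (K' : Type) [Field K'] [NumberField K'] : CMU675.SimpleUC675 K' :=
  simpleUC675_of (simpleC963 K') (H454.classLinC454 K') (H837.classOpC837 K')

/-! ## The same leaves, cyclic form (helper616) -/

theorem finDimC616_963 (K K' : Type) [Field K] [NumberField K] [Field K'] [NumberField K']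
    [Algebra K K'] : CM616.FinDimC616 K K' :=
  finDimC616_of (classFinC963 K')

theorem stabGC616_963 (K K' : Type) [Field K] [NumberField K] [Field K'] [NumberField K']
    [Algebra K K'] : CM616.StabGC616 K K' :=
  stabGC616_of (H837.classOpC837 K')

theorem simpleC616_963 (K K' : Type) [Field K] [NumberField K] [Field K'] [NumberField K']
    [Algebra K K'] : CM616.SimpleC616 K K' :=
  simpleC616_of (simpleC963 K') (H454.classLinC454 K') (H837.classOpC837 K')

end Fermat.Agent.LT.T7.H963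

end
-- ===== PACK-END LT/T7/H963/SimpleClosed.lean

-- ===== PACK-BEGIN LT/T7/H57/ConstrQSpec.lean
section





/-!
# Row LT, tower T7, node T7.L2Q.1.H2 `ConstrQRC732` (registry row 2465, owner helper57):
# THE CONSTRUCTION OVER `ℚ` -- FIRST CUT, Spec (mirror of the fifth cut of helper893)

OFF-MAIN.  Definitions and frozen Props only (the proved tops are `ConstrQTop.lean`).  No hole,
nothing assumed.  ADDITIVE (new names only, all suffixed `57`, namespace
`Fermat.Agent.LT.T7.CQ57`).  Vocabulary, byte-identical copies: `T7/H732/SupplyQ*.lean`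
(helper732@665576b5b: `L2QPre732`, `IsL2QPreOp732`, `IsL2QPreSupp732`, `GlobQC732`,
`ConstrQRC732`), `T7/H298/MatchQ{Spec,Top,Glue}.lean` (helper298@d75774dd1: `pureQ298`,
`LocHypQ298`, `IsMatchConstQ298`, `GlobMatchQC298`), `T7/H893/SupplyConstrSpec.lean`
(helper893@d28ac6a7c, sha256 feb0f697: the LOCAL vocabulary `unitFn893`, `iwFn893`, `dblFn893`,
`IsSphFn893`, `satT893`, `IsLevelOf893`, `SphOut893` is REUSED AS IT IS, for `K = ℚ`, `K' = F`).

    exists_goodKapQ57 : GlobMatchQC298 F → IsImagQuad F → ∃ κ, (κ nowhere zero) ∧ GoodKapQ57 F κ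
    globQC_of57       : GoodKapQ57 F κ → AvgMatchQC57 F → H732.GlobQC732 F (MtQ57 F κ)
    constrQRC_of57    : UnramQC57 F → BaseQC57 P F → ProdMtQC57 F κ
                          → H732.ConstrQRC732 P F (MtQ57 F κ)
    preQRC_of_first57 : GlobMatchQC298 F → AvgMatchQC57 F → UnramQC57 F → BaseQC57 P F
                          → (∀ κ nowhere zero, ProdMtQC57 F κ) → EkProdUpOpQC732 F
                          → EkProdDownOpQC732 F → L2Q.H60.PreQRC60 P F            (VERBATIM)

## 1. The relation of record `MtQ57 κ`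

The relation `MQ298.MtQ298` (PURE tensors) is too small for the construction: the
Eisenstein-killing functions of T3 are finite sums of pure tensors and the `♮`-average is an
average over a compact group (helper893, fifth cut, section 1).  The relation of record of the
construction is the closure under AVERAGES over a compact parameter space with a finite measure
(`IsAvgPureQ57`; finite sums are the case of a finite discrete space) of the locally matched pure
tensors of helper298 (`LocHypQ298`, archimedean clause `T6.IsArchMatch`: the bi-`U(2)`-invariant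
component upstairs against the SUM of the components of weight `0` and `-1` downstairs), with
the constant `κ` of the matching theorem downstairs.

* **`AvgMatchQC57 F`** (LEAF, analysis): `T7.IsGlobMatch` is closed under such averages.
* `globQC_of57` (PROVED): `GoodKapQ57 κ → AvgMatchQC57 → GlobQC732 (MtQ57 κ)`;
  `exists_goodKapQ57` (PROVED): `GlobMatchQC298 → ∃ κ` good and nowhere zero.

## 2. The cut of the construction

* **`UnramQC57 F`** (LEAF, small; algebraic number theory): in a common part of helper60 with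
  `3 ∈ S` every place outside `S'` is unramified (`F = ℚ(√-3)`: only `3` ramifies).
* **`BaseQC57 P F`** (NODE; T3 + T3.18R + T6 + `♮`): the level `𝔫`, Haar measures `μr`, `μc` of
  `GL₂(ℝ)`, `GL₂(ℂ)`, and for EVERY constant `a ≠ 0` pre-data `E` of level `𝔫` with the operator
  properties (`IsL2QPreOp732`), the supports (`IsL2QPreSupp732`) and the LOCAL SHAPE
  `IsDecompQ57 μr μc a B g E`: the base functions are averages of pure tensors with explicit
  local components (unit / Iwahori / double coset of `g` at the places of the level, spherical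
  with Satake transforms related by base change outside, `T6.IsArchMatch` at infinity); `a` is
  the constant of `f₂`.
* **`ProdMtQC57 F κ`** (NODE; the calculus of pure tensors): for the level `𝔫` and `μr`, `μc`
  there is a constant `a ≠ 0` such that for all pre-data of this level with the local shape for
  `a` the members `Φ₁ X ⋆ lsum Hg (regL … φ₂)`, `F₁ n X ⋆ regL … (f₂ n)` are in the relation
  `MtQ57 κ`.

FALSITY CHECKS (helper57).  (a) Types: the convolution of a function of weight `0` with a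
function of weight `-1` on `GL₂(ℝ)` vanishes (integrate over `SO(2)`), so
`(F₁ w0 + F₁ w1) ⋆ (f₂ w0 + f₂ w1) = F₁ w0 ⋆ f₂ w0 + F₁ w1 ⋆ f₂ w1`: the sum of the two members
downstairs is the product of the sums, and the archimedean component of the member of type `n`
is the convolution of the components of type `n`.  (b) The constants: as in the cubic cut, all
constants are independent of `X, k, m` and of the parameter and are absorbed in `a`.  (c) The
ramified place over `3` lies in `S'` (`IsRamQ60` + `under_exact` + `fibre`), so it is a place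
of the level: the first pair has UNIT components there, the second pair a pair
(double coset function of `g`, partner) with the clauses of `LocHypQ298` (a place with ONE
place over it; `T6.BadMatchC` is stated for every local extension datum of prime degree,
ramified or not).  (d) `a = 0` is excluded only for convenience.  (e) In `AvgMatchQC57` the
members downstairs are SUMS of two test functions of different types; the leaf uses their
continuity and the common compact support only.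
-/

set_option autoImplicit false

open AutomorphicForm IsDedekindDomain NumberField MeasureTheory
open scoped ComplexConjugate

noncomputable section

namespace Fermat.Agent.LT.T7.CQ57

open Fermat.Agent.LT.H556 Fermat.Agent.LT.H556.A0 Fermat.Agent.LT.T7 Fermat.Agent.LT.T7.L2Q
  Fermat.Agent.LT.T7.H305 Fermat.Agent.LT.T7.H893 Fermat.Agent.LT.T7.H962
  Fermat.Agent.LT.T7.H732 Fermat.Agent.LT.T7.MQ298

attribute [local instance] Fermat.Agent.LT.T5.instMeasurableSpaceG

/-! ## 1. Averages of pure tensors over `ℚ`, the relation of record -/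

section Avg

variable (F : Type) [Field F] [NumberField F]

/-- The type of the local conditions on the components of a pure tensor upstairs and a pair of
pure tensors downstairs (weights `0` and `-1`, the same finite components). -/
abbrev LocCondQ57 : Type :=
  Finset (HeightOneSpectrum (𝓞 ℚ)) →
    (∀ w : HeightOneSpectrum (𝓞 F), GL (Fin 2) (w.adicCompletion F) → ℂ) →
    (InfinitePlace F → GL (Fin 2) ℂ → ℂ) →
    (∀ v : HeightOneSpectrum (𝓞 ℚ), GL (Fin 2) (v.adicCompletion ℚ) → ℂ) →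
    (GL (Fin 2) ℝ → ℂ) → (GL (Fin 2) ℝ → ℂ) → Prop

/-- The type of the constants of the matching theorem over `ℚ`. -/
abbrev KapFnQ57 : Type :=
  CompData ℚ F → @Measure (GL (Fin 2) ℝ) (borel _) → @Measure (GL (Fin 2) ℂ) (borel _) →
    Finset (HeightOneSpectrum (𝓞 ℚ)) → (HeightOneSpectrum (𝓞 F) → ℕ) →
    (HeightOneSpectrum (𝓞 ℚ) → ℕ) → ℂ

variable {F}

/-- **AVERAGE OF PURE TENSORS over `ℚ`.**  `φ'` (over `F`) and `f w0`, `f w1` (over `ℚ`) are the
integrals over a compact (Hausdorff, second countable) parameter space `Ω` with a finite measure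
`ν` of pure tensors `pure305 (T' a) …`, resp. `c · pureQ298 (T a) (f₀ a) (F0 a)` and
`c · pureQ298 (T a) (f₀ a) (F1 a)`, whose components satisfy the local condition `L` for every
parameter; every member is a test function of the level (of the trivial type upstairs, of the
types `w0`, `w1` downstairs), the members are jointly continuous and supported in one compact
set. -/
def IsAvgPureQ57 (𝔑 : Ideal (𝓞 F)) (𝔫 : Ideal (𝓞 ℚ)) (T₀ : Finset (HeightOneSpectrum (𝓞 ℚ)))
    (L : LocCondQ57 F) (c : ℂ) (φ' : G F → ℂ) (f : QWt → G ℚ → ℂ) : Prop :=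
  ∃ (Ω : Type) (_ : TopologicalSpace Ω) (_ : CompactSpace Ω) (_ : T2Space Ω)
    (_ : SecondCountableTopology Ω) (_ : MeasurableSpace Ω)
    (_ : BorelSpace Ω) (ν : Measure Ω) (_ : IsFiniteMeasure ν)
    (T : Ω → Finset (HeightOneSpectrum (𝓞 ℚ))) (T' : Ω → Finset (HeightOneSpectrum (𝓞 F)))
    (φ₀ : Ω → ∀ w : HeightOneSpectrum (𝓞 F), GL (Fin 2) (w.adicCompletion F) → ℂ)
    (Φ : Ω → InfinitePlace F → GL (Fin 2) ℂ → ℂ)
    (f₀ : Ω → ∀ v : HeightOneSpectrum (𝓞 ℚ), GL (Fin 2) (v.adicCompletion ℚ) → ℂ)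
    (F0 F1 : Ω → GL (Fin 2) ℝ → ℂ),
    (∀ a : Ω, T₀ ⊆ T a ∧ IsOver305 (T a) (T' a) ∧
      L (T a) (φ₀ a) (Φ a) (f₀ a) (F0 a) (F1 a)) ∧
    (∀ a : Ω, T5.IsTestFn 𝔑 T5.trivType (pure305 (T' a) (φ₀ a) (Φ a))) ∧
    (∀ a : Ω, T5.IsTestFn 𝔫 QWt.w0.type (fun h => c * pureQ298 (T a) (f₀ a) (F0 a) h)) ∧
    (∀ a : Ω, T5.IsTestFn 𝔫 QWt.w1.type (fun h => c * pureQ298 (T a) (f₀ a) (F1 a) h)) ∧
    Continuous (fun p : Ω × G F => pure305 (T' p.1) (φ₀ p.1) (Φ p.1) p.2) ∧
    Continuous (fun p : Ω × G ℚ => c * pureQ298 (T p.1) (f₀ p.1) (F0 p.1) p.2) ∧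
    Continuous (fun p : Ω × G ℚ => c * pureQ298 (T p.1) (f₀ p.1) (F1 p.1) p.2) ∧
    (∃ C : Set (G F), IsCompact C ∧
      ∀ (a : Ω) (h : G F), pure305 (T' a) (φ₀ a) (Φ a) h ≠ 0 → h ∈ C) ∧
    (∃ C : Set (G ℚ), IsCompact C ∧
      ∀ (a : Ω) (h : G ℚ), pureQ298 (T a) (f₀ a) (F0 a) h ≠ 0 → h ∈ C) ∧
    (∃ C : Set (G ℚ), IsCompact C ∧
      ∀ (a : Ω) (h : G ℚ), pureQ298 (T a) (f₀ a) (F1 a) h ≠ 0 → h ∈ C) ∧
    (∀ h : G F, φ' h = ∫ a, pure305 (T' a) (φ₀ a) (Φ a) h ∂ν) ∧
    (∀ h : G ℚ, f QWt.w0 h = ∫ a, c * pureQ298 (T a) (f₀ a) (F0 a) h ∂ν) ∧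
    ∀ h : G ℚ, f QWt.w1 h = ∫ a, c * pureQ298 (T a) (f₀ a) (F1 a) h ∂ν

variable (F)

/-- **THE RELATION OF RECORD of the construction over `ℚ`**: averages of locally matched pure
tensors (local matching in the form of T6: `MQ298.LocHypQ298`), with the constant `κ` of the
matching theorem downstairs. -/
def MtQ57 (κ : KapFnQ57 F) : MtRelQ732 F := fun B 𝔫 φ' f =>
  ∃ (μr : @Measure (GL (Fin 2) ℝ) (borel _)) (μc : @Measure (GL (Fin 2) ℂ) (borel _))
    (T₀ : Finset (HeightOneSpectrum (𝓞 ℚ)))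
    (n : HeightOneSpectrum (𝓞 F) → ℕ) (m : HeightOneSpectrum (𝓞 ℚ) → ℕ),
    @Measure.IsHaarMeasure _ _ _ (borel _) μr ∧ @Measure.IsHaarMeasure _ _ _ (borel _) μc ∧
      UnramOut305 (K' := F) T₀ ∧ IsLevelAt305 T₀ n m ∧
      IsAvgPureQ57 (upI (K' := F) 𝔫) 𝔫 T₀
        (fun T φ₀ Φ f₀ F0 F1 => LocHypQ298 (B.comp 𝔫) μr μc T n m φ₀ Φ f₀ F0 F1)
        (κ (B.comp 𝔫) μr μc T₀ n m) φ' f

/-- `κ` is a family of constants of the matching theorem over `ℚ` (`GlobMatchQC298` with the
constant chosen). -/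
def GoodKapQ57 (κ : KapFnQ57 F) : Prop :=
  ∀ D : CompData ℚ F, IsCompData D → IsCycExt ℚ F D.l → D.l = 2 →
    ∀ μr : @Measure (GL (Fin 2) ℝ) (borel _), @Measure.IsHaarMeasure _ _ _ (borel _) μr →
    ∀ μc : @Measure (GL (Fin 2) ℂ) (borel _), @Measure.IsHaarMeasure _ _ _ (borel _) μc →
    ∀ (T₀ : Finset (HeightOneSpectrum (𝓞 ℚ))), UnramOut305 (K' := F) T₀ →
    ∀ (n : HeightOneSpectrum (𝓞 F) → ℕ) (m : HeightOneSpectrum (𝓞 ℚ) → ℕ),
      IsLevelAt305 T₀ n m →
      IsMatchConstQ298 F D μr μc T₀ n m (κ D μr μc T₀ n m)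

/-- **LEAF T7.L2Q.1.H1b = AVG-MATCH over `ℚ` (analysis; closure of the matching under
averages).**  Let `(φs a, f0s a + f1s a)`, `a ∈ Ω` (compact, Hausdorff, second countable, finite
measure `ν`), be MATCHED pairs, `φs a` a test function of level `𝔑` upstairs, `f0s a`, `f1s a`
test functions of level `𝔫` and of the types `w0`, `w1` downstairs, jointly continuous in
`(a, h)` and supported in one compact set.  Then the averages are matched:
`∫ φs a dν` against `∫ f0s a dν + ∫ f1s a dν`.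
Proof.  As `H893.AvgMatchC893` (mirror): `twTerm` of the average is the average of the `twTerm`s
(for fixed `x` the sum over the ray is finite, uniformly in `a`); Fubini on `F_δ × Ω`: the
integrand is dominated by `M · twTerm(1_C)`, `C` compact, and the orbital integral of a
non-negative continuous function with compact support at an elliptic (regular) element
converges (`MQ298.UnfoldGC298`, `H305.UnfoldC305`; the kit of helper584
`T7/H584/{Cutoff,UnfoldAbs}.lean`); downstairs the integral of the sum is the sum of the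
integrals (both members are integrable).  Only the continuity and the compact supports are
used. -/
def AvgMatchQC57 : Prop :=
  IsImagQuad F →
    ∀ D : CompData ℚ F, IsCompData D → IsCycExt ℚ F D.l → D.l = 2 →
    ∀ (Ω : Type) (_ : TopologicalSpace Ω) (_ : CompactSpace Ω) (_ : T2Space Ω)
      (_ : SecondCountableTopology Ω) (_ : MeasurableSpace Ω)
      (_ : BorelSpace Ω) (ν : Measure Ω) (_ : IsFiniteMeasure ν)
      (φs : Ω → G F → ℂ) (f0s f1s : Ω → G ℚ → ℂ),
      (∀ a : Ω, T5.IsTestFn D.𝔑 T5.trivType (φs a)) →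
      (∀ a : Ω, T5.IsTestFn D.𝔫 QWt.w0.type (f0s a)) →
      (∀ a : Ω, T5.IsTestFn D.𝔫 QWt.w1.type (f1s a)) →
      Continuous (fun p : Ω × G F => φs p.1 p.2) →
      Continuous (fun p : Ω × G ℚ => f0s p.1 p.2) →
      Continuous (fun p : Ω × G ℚ => f1s p.1 p.2) →
      (∃ C : Set (G F), IsCompact C ∧ ∀ (a : Ω) (h : G F), φs a h ≠ 0 → h ∈ C) →
      (∃ C : Set (G ℚ), IsCompact C ∧ ∀ (a : Ω) (h : G ℚ), f0s a h ≠ 0 → h ∈ C) →
      (∃ C : Set (G ℚ), IsCompact C ∧ ∀ (a : Ω) (h : G ℚ), f1s a h ≠ 0 → h ∈ C) →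
      (∀ a : Ω, IsGlobMatch D (φs a) (fun h => f0s a h + f1s a h)) →
      IsGlobMatch D (fun h => ∫ a, φs a h ∂ν)
        (fun h => (∫ a, f0s a h ∂ν) + ∫ a, f1s a h ∂ν)

end Avg

/-! ## 2. The local shape of the pre-data -/

section Shape

variable {F : Type} [Field F] [NumberField F]

/-- **The components AT INFINITY** (the archimedean clauses of `MQ298.LocHypQ298`): `Φ w` is a
bi-`U(2)`-invariant test function on `GL₂(ℂ)`, `F0` / `F1` a test function of weight `0` / `-1`
on `GL₂(ℝ)`, and `F0 + F1` is matched with `Φ w` (`T6.IsArchMatch`). -/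
def ArchOkQ57 (μr : @Measure (GL (Fin 2) ℝ) (borel _)) (μc : @Measure (GL (Fin 2) ℂ) (borel _))
    (Φ : InfinitePlace F → GL (Fin 2) ℂ → ℂ) (F0 F1 : GL (Fin 2) ℝ → ℂ) : Prop :=
  (∀ w : InfinitePlace F, T6.IsArchTestC (Φ w)) ∧ T6.IsArchTestR 0 F0 ∧
    T6.IsArchTestR (-1) F1 ∧
    ∀ w : InfinitePlace F, T6.IsArchMatch μr μc (Φ w) (fun g => F0 g + F1 g)

/-- **THE LOCAL SHAPE OF THE FIRST PAIR** `(Φ₁ X, F₁ · X)`: UNIT components at the places of the
level, spherical matched components outside (`H893.SphOut893` for `ℓ = 2`), matched components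
at infinity. -/
def LocAQ57 (μr : @Measure (GL (Fin 2) ℝ) (borel _)) (μc : @Measure (GL (Fin 2) ℂ) (borel _))
    (T₀ : Finset (HeightOneSpectrum (𝓞 ℚ)))
    (n : HeightOneSpectrum (𝓞 F) → ℕ) (m : HeightOneSpectrum (𝓞 ℚ) → ℕ) : LocCondQ57 F :=
  fun T φ₀ Φ f₀ F0 F1 =>
    (∀ v ∈ T₀, f₀ v = unitFn893 (m v)) ∧
    (∀ v ∈ T₀, ∀ w : HeightOneSpectrum (𝓞 F), PlaceOver ℚ F v w → φ₀ w = unitFn893 (n w)) ∧
    SphOut893 2 T₀ T φ₀ f₀ ∧ ArchOkQ57 μr μc Φ F0 F1

open Classical in
/-- **THE LOCAL SHAPE OF THE SECOND PAIR** `(φ₂, f₂ ·)` for the bad element `g`.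
* bad places `v ∈ T₀`, `v ≠ u` (the ramified place is one of them): upstairs the unit
  `1_{U₀}` of the BASE level (`n₀`); downstairs a PARTNER of the double coset function
  `1_{U₀ g_w U₀}` (the clauses of `MQ298.LocHypQ298` for the set `T₀ ∖ {u}` and the double
  coset functions upstairs);
* the place `u` and its orbit: the indicator functions of the Iwahori subgroups;
* outside the level and at infinity: as for the first pair. -/
def LocBQ57 (B : L2QBase962 F) (g : G F) (𝔫 : Ideal (𝓞 ℚ))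
    (μr : @Measure (GL (Fin 2) ℝ) (borel _)) (μc : @Measure (GL (Fin 2) ℂ) (borel _))
    (T₀ : Finset (HeightOneSpectrum (𝓞 ℚ)))
    (n n₀ : HeightOneSpectrum (𝓞 F) → ℕ) (m : HeightOneSpectrum (𝓞 ℚ) → ℕ) : LocCondQ57 F :=
  fun T φ₀ Φ f₀ F0 F1 =>
    LocHypQ298 (B.comp 𝔫) μr μc (T₀.erase B.u) n m
      (fun w => dblFn893 (n₀ w) (finGL305 w g)) Φ f₀ F0 F1 ∧
    (∀ v ∈ T₀, v ≠ B.u → ∀ w : HeightOneSpectrum (𝓞 F), PlaceOver ℚ F v w →
      φ₀ w = unitFn893 (n₀ w)) ∧
    f₀ B.u = iwFn893 ∧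
    (∀ w : HeightOneSpectrum (𝓞 F), PlaceOver ℚ F B.u w → φ₀ w = iwFn893) ∧
    SphOut893 2 T₀ T φ₀ f₀ ∧ ArchOkQ57 μr μc Φ F0 F1

/-- **THE LOCAL SHAPE OF THE PRE-DATA over `ℚ`** (for the Haar measures `μr` of `GL₂(ℝ)`, `μc` of
`GL₂(ℂ)` and the constant `a` of `f₂`). -/
def IsDecompQ57 (μr : @Measure (GL (Fin 2) ℝ) (borel _))
    (μc : @Measure (GL (Fin 2) ℂ) (borel _)) (a : ℂ) (B : L2QBase962 F) (g : G F)
    (E : L2QPre732 F) : Prop :=
  ∃ (T₀ : Finset (HeightOneSpectrum (𝓞 ℚ)))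
    (n n₀ : HeightOneSpectrum (𝓞 F) → ℕ) (m : HeightOneSpectrum (𝓞 ℚ) → ℕ),
    (∀ v : HeightOneSpectrum (𝓞 ℚ), v ∈ T₀ ↔ v.asIdeal ∣ E.𝔫) ∧
    IsLevelOf893 E.𝔫 m ∧ IsLevelOf893 (upI (K' := F) E.𝔫) n ∧ IsLevelOf893 B.𝔑₀ n₀ ∧
    (∀ X : List (Gen F), (∀ x ∈ X, x.Out B.S') →
      IsAvgPureQ57 (upI (K' := F) E.𝔫) E.𝔫 T₀ (LocAQ57 μr μc T₀ n m) 1 (E.Φ₁ X)
        (fun t => E.F₁ t X)) ∧
    IsAvgPureQ57 (upI (K' := F) E.𝔫) E.𝔫 T₀ (LocBQ57 B g E.𝔫 μr μc T₀ n n₀ m) a E.φ₂ E.f₂

/-- Every place of `F` outside `S'` is unramified over `ℚ` (mirror of `H893.L2Base.RamIn`). -/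
def RamInQ57 (B : L2QBase962 F) : Prop :=
  ∀ (v : HeightOneSpectrum (𝓞 ℚ)) (w : HeightOneSpectrum (𝓞 F)), PlaceOver ℚ F v w →
    w ∉ B.S' → ∃ x : 𝓞 ℚ, x ∈ v.asIdeal ∧ algebraMap (𝓞 ℚ) (𝓞 F) x ∉ w.asIdeal ^ 2

end Shape

/-! ## 3. The nodes of the first cut -/

section Nodes

variable (P : EKCond)
variable (F : Type) [Field F] [NumberField F]

/-- **LEAF T7.L2Q.1.H2u = UNRAM (small; algebraic number theory).**  In a common part of
helper60 which contains the ramified prime (`3 ∈ S`) every place of `F` outside `S'` is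
unramified over `ℚ`.
Proof.  `F = ℚ(√-3)` (`HasSqrtNegThree`, `IsImagQuad`: degree `2`); a prime `p ≠ 3` is
unramified (for `p` odd the polynomial `X² + 3` is separable mod `p`; for `p = 2` use
`X² + X + 1`, `ζ = (-1 + √-3)/2`; or: the discriminant of the order `ℤ[ζ]` is `-3`); the places
over `3` lie in `S'` (`IsRamQ60`, `IsL2QBase.under_exact`, `IsL2QBase.fibre`:
`L2Q.H60.full_of_isL2QBase60`). -/
def UnramQC57 : Prop :=
  HasSqrtNegThree F → IsImagQuad F →
    ∀ (Φ : HeckeEigensystem F ℂ) (B : L2Q.H60.L2QBase F), L2Q.H60.IsL2QBase Φ B →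
      L2Q.H60.IsRamQ60 B → RamInQ57 (toBase962_732 B)

/-- **NODE T7.L2Q.1.H2a = BASE over `ℚ` (T3 + T3.18R + T6 + `♮`; existence).**  For a common part
of helper60 with `3 ∈ S` and one bad element `g`: a level `𝔫` and Haar measures `μr`, `μc` of
`GL₂(ℝ)`, `GL₂(ℂ)` such that for EVERY constant `a ≠ 0` there are pre-data of level `𝔫` with the
operator properties, the supports and the local shape.
Construction (recipe of the architect helper797, hints 16:31Z / 16:43Z; mirror of
`H893.BaseC`).  `𝔫 = 𝔫₀ ^ d`, `d` so large that the partners `f_v` of `1_{U₀ g_w U₀}` at the bad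
places (`T6.BadMatchC`, closed; split bad places: convolution products) are bi-invariant under
`U(𝔫)_v`.  UPSTAIRS: Eisenstein-killing datum for `𝔑 = 𝔫 𝒪_F` and `S'` from `P = T7.ekMulti`
(`T7.GoodEKM`); `Φ₁ X`: the word `X` applied to the Eisenstein-killing function of T3 (`T3.M`,
closed station: finite sum of `pureFnM`, unit components at the level); `φ₂`: the `♮`-average of
an Eisenstein-killing function.  DOWNSTAIRS: the NORM datum (places under `P'`, exponents
`e_v = ∑_{w ∣ v} f(w|v) e_w`, `α = N_{F/ℚ}(a₀)`), core = push-forward of the core upstairs along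
the norm of the coordinate groups (it telescopes again: `EKKillC` / `EKStarC` apply); local
factors downstairs = the T6-matches of the local factors upstairs (split: convolution product,
`T6.SplitMatchC`; inert: base change, `T6.BCExistsC` + `T6.FundLemmaC`; real place:
`(F0, F1)` = `abelF0_626` / `abelF1_626` of the factor upstairs, `T6.ArchMatchC` closed,
station T3.18R for the Eisenstein-killing property of the types `w0`, `w1`); `f₂ n`: `a` times
the function with the partners at the bad places, the Iwahori function at `u`, the base change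
outside, the factor of type `n` at infinity. -/
def BaseQC57 : Prop :=
  HasSqrtNegThree F → IsImagQuad F →
    ∀ Φ : HeckeEigensystem F ℂ, A0.IsCuspAdelicSph0 F Φ → ConstOnFibresQ Φ → P F Φ →
      ∀ B : L2Q.H60.L2QBase F, L2Q.H60.IsL2QBase Φ B → L2Q.H60.IsRamQ60 B →
      ∀ g : G F, B.IsBad g →
        ∃ (𝔫 : Ideal (𝓞 ℚ)) (μr : @Measure (GL (Fin 2) ℝ) (borel _))
          (μc : @Measure (GL (Fin 2) ℂ) (borel _)),
          @Measure.IsHaarMeasure _ _ _ (borel _) μr ∧
          @Measure.IsHaarMeasure _ _ _ (borel _) μc ∧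
          ∀ a : ℂ, a ≠ 0 → ∃ E : L2QPre732 F, E.𝔫 = 𝔫 ∧
            IsL2QPreOp732 Φ (toBase962_732 B) g E ∧ IsL2QPreSupp732 (toBase962_732 B) E ∧
            IsDecompQ57 μr μc a (toBase962_732 B) g E

/-- **NODE T7.L2Q.1.H2b = PROD-MT over `ℚ` (the calculus of pure tensors).**  For a good common
part outside which `F/ℚ` is unramified, a bad element, a level and Haar measures of `GL₂(ℝ)`,
`GL₂(ℂ)` there is a constant `a ≠ 0` such that for all pre-data of this level with the operator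
properties and the local shape for `a` the members of the families are in the relation
`MtQ57 κ`.
Proof.  Mirror of `H893.ProdMtC`: `conv` of two pure tensors is a constant times the pure tensor
of the local convolutions (splitting of the Haar measure); `lsum Hg`, `ltr`, `iwL` of a pure
tensor with unit / Iwahori components at the level is the pure tensor with the components
`1_{U₀ g_w U₀}`, `q^{-m/2} 1_{z^k I t^m I}`; Fubini for the parameters; the local conditions
`LocHypQ298` of the products: unit times partner at the bad places, `T6.SplitMatchC`-form at `u`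
and at the split places, `T6.FundLemmaC` + multiplicativity of the Satake transform at the
inert places; at infinity the convolution of matched pairs is matched and the products of
different types vanish (falsity check (a) of the header); `UnramOut305 T₀` from `RamInQ57`. -/
def ProdMtQC57 (κ : KapFnQ57 F) : Prop :=
  HasSqrtNegThree F → IsImagQuad F →
    ∀ (Φ : HeckeEigensystem F ℂ) (B : L2QBase962 F), IsL2QBase962 Φ B → RamInQ57 B →
    ∀ g : G F, B.IsBad g →
    ∀ (𝔫 : Ideal (𝓞 ℚ)) (μr : @Measure (GL (Fin 2) ℝ) (borel _))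
      (μc : @Measure (GL (Fin 2) ℂ) (borel _)),
      @Measure.IsHaarMeasure _ _ _ (borel _) μr → @Measure.IsHaarMeasure _ _ _ (borel _) μc →
      ∃ a : ℂ, a ≠ 0 ∧
        ∀ E : L2QPre732 F, E.𝔫 = 𝔫 → IsL2QPreOp732 Φ B g E → IsDecompQ57 μr μc a B g E →
          ∀ (X : List (Gen F)) (k : ℤ) (m : ℕ), (∀ x ∈ X, x.Out B.S') →
            MtQ57 F κ B 𝔫 (E.up B X k m) (fun t => E.down B t X k m)

end Nodes

/-! ## Appendix: the equation lemmas of the definitions of this file are realised HERE -/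

theorem eqns_realised_constrQSpec57 : True := by
  have _h0_0 := @IsAvgPureQ57.eq_1
  have _h0_1 := @IsAvgPureQ57.eq_def
  have _h0_2 := @IsAvgPureQ57.eq_unfold
  have _h1_0 := @MtQ57.eq_1
  have _h1_1 := @MtQ57.eq_def
  have _h1_2 := @MtQ57.eq_unfold
  have _h2_0 := @GoodKapQ57.eq_1
  have _h2_1 := @GoodKapQ57.eq_def
  have _h2_2 := @GoodKapQ57.eq_unfold
  have _h3_0 := @AvgMatchQC57.eq_1
  have _h3_1 := @AvgMatchQC57.eq_def
  have _h3_2 := @AvgMatchQC57.eq_unfold
  have _h4_0 := @ArchOkQ57.eq_1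
  have _h4_1 := @ArchOkQ57.eq_def
  have _h4_2 := @ArchOkQ57.eq_unfold
  have _h5_0 := @LocAQ57.eq_1
  have _h5_1 := @LocAQ57.eq_def
  have _h5_2 := @LocAQ57.eq_unfold
  have _h6_0 := @LocBQ57.eq_1
  have _h6_1 := @LocBQ57.eq_def
  have _h6_2 := @LocBQ57.eq_unfold
  have _h7_0 := @IsDecompQ57.eq_1
  have _h7_1 := @IsDecompQ57.eq_def
  have _h7_2 := @IsDecompQ57.eq_unfold
  have _h8_0 := @RamInQ57.eq_1
  have _h8_1 := @RamInQ57.eq_def
  have _h8_2 := @RamInQ57.eq_unfold
  have _h9_0 := @UnramQC57.eq_1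
  have _h9_1 := @UnramQC57.eq_def
  have _h9_2 := @UnramQC57.eq_unfold
  have _h10_0 := @BaseQC57.eq_1
  have _h10_1 := @BaseQC57.eq_def
  have _h10_2 := @BaseQC57.eq_unfold
  have _h11_0 := @ProdMtQC57.eq_1
  have _h11_1 := @ProdMtQC57.eq_def
  have _h11_2 := @ProdMtQC57.eq_unfold
  trivial

end Fermat.Agent.LT.T7.CQ57

end

end
-- ===== PACK-END LT/T7/H57/ConstrQSpec.lean

-- ===== PACK-BEGIN LT/T7/H563/PTSpec.lean
section



/-!
# Row LT, tower T7, node T7.L2Q.1.H2.4 `CQ57.ProdMtQC57` (registry row 2683, owner helper563):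
# THE CALCULUS OF PURE TENSORS -- general leaves (FORM-INDEPENDENT), Spec

OFF-MAIN.  Definitions and frozen Props only.  No hole, nothing assumed.  ADDITIVE (new names
only, all suffixed `563`, namespace `Fermat.Agent.LT.T7.PT563`).  Vocabulary, byte-identical
copies: the closure of `T7/H57/ConstrQSpec.lean` (helper57@396c3f151, sha256 9d2069f7):
`H305.pure305`, `MQ298.pureQ298`, `T6.IsConv`, `T6.convInt`, `H893.unitFn893`, `H893.dblFn893`.

These leaves do NOT mention the local hypotheses (`LocHyp305`, `LocHyp893`, `LocHypQ298`,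
`LocHypQb801`, ...) nor the pre-data: they serve the calculus nodes of ALL forms of record
(cubic `H893.ProdMtCb`, quadratic `CQ57.ProdMtQC57`, `CQ801.ProdMtQC801`, `ProdMtQC885`).

## The leaves

* **PT.1 `ConvPureC563 K`** (`K` totally complex): the convolution of two pure tensors is a
  constant times the pure tensor of the local convolutions.  The constant `c > 0` depends on the
  Haar measures `μ` (of `GL₂(𝔸_K)`), `μc` (of `GL₂(ℂ)`), on the base set `T₀` and the level
  exponents `m` (zero outside `T₀`) ONLY: not on `T ⊇ T₀`, not on the components.  Finite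
  places: convolution with `vol U(m v) = 1` (`T6.IsConv (T6.InU (m v))`, the normalisation of
  the split clause of the local hypotheses); infinite places: `T6.convInt μc`.
* **PT.2 `ConvPureQC563`**: the same over `ℚ` for `MQ298.pureQ298` (one real place, Haar measure
  `μr` of `GL₂(ℝ)`).
* **PT.3 `ConvAvgC563 K`** (analysis; any number field): the convolution of two averages over
  compact parameter spaces of jointly continuous families with common compact supports is the
  average over the product space of the convolutions; the family of the convolutions is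
  jointly continuous and has a common compact support.
* **PT.4 `TrPureC563 K`**, **`TrPureQC563`**: the left translate of a pure tensor by an element
  `b` which is integral with integral inverse outside `T` is the pure tensor of the translated
  components.
* **PT.5 `LsumDblC563 K`**: the sum of the left translates over a system of representatives of
  `U(𝔑₀) g U(𝔑₀) / U(𝔑₀)` of a pure tensor with UNIT components (of the level `𝔑₀`) at the
  places where `g` is not trivial, and components left invariant under `U(𝔑₀)_v` at the other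
  places of `T`, is the pure tensor with the DOUBLE COSET functions of `g` at these places.

FALSITY CHECKS (helper563).  (PT.1) `c` is independent of `T ⊇ T₀`: with `ν_v(U(m v)) = 1`
(`= ν_v(GL₂(𝒪_v))` outside `T₀`) and `μ^T(∏_{v ∉ T} GL₂(𝒪_v)) = 1` the product measure
`μ_∞ × ∏_{v ∈ T} ν_v × μ^T` does not depend on `T`.  A function with `T6.HasFinSupp` and
`T6.IsBiInv` for `U(m v)` has compact support and is locally constant;
`∫ f(y) g(y⁻¹ a) dν = ν(U) ∑_{h ∈ Γ/U} f(h) g(h⁻¹ a)` needs `f` right and `g` left invariant.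
If `OutT305 T h` fails both sides vanish.  `TotCplx K`: `infGL305 w` is onto `GL₂(ℂ)` at every
infinite place (at a real place the local group is `GL₂(ℝ)`: PT.2).
(PT.3) No type, no invariance is used.  (PT.4) `OutT305 T (b⁻¹ y) ↔ OutT305 T y` because
`OutT305 T b` (a group).  (PT.5) The pure tensor is left invariant under `U(𝔑₀)` (unit
components at `S₀`, the hypothesis at `T ∖ S₀`, `GL₂(𝒪_v)` outside `T`, trivial at infinity);
the cosets `u g U` correspond to the families of local cosets `u_v g_v U_v`, `v ∈ S₀`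
(`IsLevelOf893`: `U(𝔑₀)_v = T6.InU (n₀ v)`); `g_v = 1` is allowed (`dblFn = unitFn`).
-/

set_option autoImplicit false

open AutomorphicForm IsDedekindDomain NumberField MeasureTheory
open scoped ComplexConjugate

noncomputable section

namespace Fermat.Agent.LT.T7.PT563

open Fermat.Agent.LT.H556 Fermat.Agent.LT.H556.A0 Fermat.Agent.LT.T7
  Fermat.Agent.LT.T7.H305 Fermat.Agent.LT.T7.H893 Fermat.Agent.LT.T7.MQ298

attribute [local instance] Fermat.Agent.LT.T5.instMeasurableSpaceG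

section OneField

variable (K : Type) [Field K] [NumberField K]

/-- **LEAF PT.1 = CONV-PURE (totally complex field).**  See the header. -/
def ConvPureC563 : Prop :=
  TotCplx K →
  ∀ μ : Measure (G K), μ.IsHaarMeasure →
  ∀ μc : @Measure (GL (Fin 2) ℂ) (borel _), @Measure.IsHaarMeasure _ _ _ (borel _) μc →
  ∀ (T₀ : Finset (HeightOneSpectrum (𝓞 K))) (m : HeightOneSpectrum (𝓞 K) → ℕ),
    (∀ v : HeightOneSpectrum (𝓞 K), v ∉ T₀ → m v = 0) →
    ∃ c : ℝ, 0 < c ∧
      ∀ T : Finset (HeightOneSpectrum (𝓞 K)), T₀ ⊆ T →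
      ∀ (f₀ g₀ χ₀ : ∀ v : HeightOneSpectrum (𝓞 K), GL (Fin 2) (v.adicCompletion K) → ℂ)
        (F₁ F₂ : InfinitePlace K → GL (Fin 2) ℂ → ℂ),
        (∀ v ∈ T, T6.IsBiInv (T6.InU (m v)) (f₀ v) ∧ T6.HasFinSupp (T6.InU (m v)) (f₀ v)) →
        (∀ v ∈ T, T6.IsBiInv (T6.InU (m v)) (g₀ v) ∧ T6.HasFinSupp (T6.InU (m v)) (g₀ v)) →
        (∀ v ∈ T, T6.IsConv (T6.InU (m v)) (f₀ v) (g₀ v) (χ₀ v)) →
        (∀ w : InfinitePlace K, Continuous (F₁ w) ∧ HasCompactSupport (F₁ w)) →
        (∀ w : InfinitePlace K, Continuous (F₂ w) ∧ HasCompactSupport (F₂ w)) →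
        ∀ h : G K, T5.conv μ (pure305 T f₀ F₁) (pure305 T g₀ F₂) h
          = (c : ℂ) * pure305 T χ₀ (fun w => @T6.convInt _ _ (borel _) μc (F₁ w) (F₂ w)) h

/-- **LEAF PT.3 = CONV-AVG (analysis).**  See the header. -/
def ConvAvgC563 : Prop :=
  ∀ μ : Measure (G K), μ.IsHaarMeasure →
  ∀ (Ω₁ : Type) (_ : TopologicalSpace Ω₁) (_ : CompactSpace Ω₁) (_ : T2Space Ω₁)
    (_ : SecondCountableTopology Ω₁) (_ : MeasurableSpace Ω₁) (_ : BorelSpace Ω₁)
    (ν₁ : Measure Ω₁) (_ : IsFiniteMeasure ν₁)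
    (Ω₂ : Type) (_ : TopologicalSpace Ω₂) (_ : CompactSpace Ω₂) (_ : T2Space Ω₂)
    (_ : SecondCountableTopology Ω₂) (_ : MeasurableSpace Ω₂) (_ : BorelSpace Ω₂)
    (ν₂ : Measure Ω₂) (_ : IsFiniteMeasure ν₂)
    (p : Ω₁ → G K → ℂ) (q : Ω₂ → G K → ℂ),
    Continuous (fun x : Ω₁ × G K => p x.1 x.2) →
    Continuous (fun x : Ω₂ × G K => q x.1 x.2) →
    (∃ C : Set (G K), IsCompact C ∧ ∀ (a : Ω₁) (h : G K), p a h ≠ 0 → h ∈ C) →
    (∃ C : Set (G K), IsCompact C ∧ ∀ (b : Ω₂) (h : G K), q b h ≠ 0 → h ∈ C) →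
    (∀ h : G K, T5.conv μ (fun y => ∫ a, p a y ∂ν₁) (fun y => ∫ b, q b y ∂ν₂) h
        = ∫ x : Ω₁ × Ω₂, T5.conv μ (p x.1) (q x.2) h ∂(ν₁.prod ν₂)) ∧
      Continuous (fun x : (Ω₁ × Ω₂) × G K => T5.conv μ (p x.1.1) (q x.1.2) x.2) ∧
      ∃ C : Set (G K), IsCompact C ∧
        ∀ (x : Ω₁ × Ω₂) (h : G K), T5.conv μ (p x.1) (q x.2) h ≠ 0 → h ∈ C

/-- **LEAF PT.4 = TR-PURE.**  See the header. -/
def TrPureC563 : Prop :=
  ∀ (T : Finset (HeightOneSpectrum (𝓞 K))) (b : G K), OutT305 T b →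
  ∀ (f₀ : ∀ v : HeightOneSpectrum (𝓞 K), GL (Fin 2) (v.adicCompletion K) → ℂ)
    (F : InfinitePlace K → GL (Fin 2) ℂ → ℂ) (y : G K),
    pure305 T f₀ F (b⁻¹ * y)
      = pure305 T (fun v x => f₀ v ((finGL305 v b)⁻¹ * x))
          (fun w x => F w ((infGL305 w b)⁻¹ * x)) y

open Classical in
/-- **LEAF PT.5 = LSUM-DBL.**  See the header. -/
def LsumDblC563 : Prop :=
  ∀ (𝔑₀ : Ideal (𝓞 K)) (n₀ : HeightOneSpectrum (𝓞 K) → ℕ), 𝔑₀ ≠ ⊥ → IsLevelOf893 𝔑₀ n₀ →
  ∀ (g : G K) (S₀ : Finset (HeightOneSpectrum (𝓞 K))),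
    (∀ w : InfinitePlace K, TrivAtInf w g) →
    (∀ v : HeightOneSpectrum (𝓞 K), v ∉ S₀ → TrivAtFin v g) →
  ∀ Hg : Finset (G K), IsDblCosetSystem 𝔑₀ g Hg →
  ∀ T : Finset (HeightOneSpectrum (𝓞 K)), S₀ ⊆ T →
  ∀ (f₀ : ∀ v : HeightOneSpectrum (𝓞 K), GL (Fin 2) (v.adicCompletion K) → ℂ)
    (F : InfinitePlace K → GL (Fin 2) ℂ → ℂ),
    (∀ v ∈ S₀, f₀ v = unitFn893 (n₀ v)) →
    (∀ v ∈ T, v ∉ S₀ → ∀ u x : GL (Fin 2) (v.adicCompletion K),
      T6.InU (n₀ v) u → f₀ v (u * x) = f₀ v x) →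
    ∀ y : G K, lsum Hg (pure305 T f₀ F) y
      = pure305 T (fun v => if v ∈ S₀ then dblFn893 (n₀ v) (finGL305 v g) else f₀ v) F y

end OneField

/-- **LEAF PT.2 = CONV-PURE over `ℚ`.**  See the header. -/
def ConvPureQC563 : Prop :=
  ∀ μ : Measure (G ℚ), μ.IsHaarMeasure →
  ∀ μr : @Measure (GL (Fin 2) ℝ) (borel _), @Measure.IsHaarMeasure _ _ _ (borel _) μr →
  ∀ (T₀ : Finset (HeightOneSpectrum (𝓞 ℚ))) (m : HeightOneSpectrum (𝓞 ℚ) → ℕ),
    (∀ v : HeightOneSpectrum (𝓞 ℚ), v ∉ T₀ → m v = 0) →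
    ∃ c : ℝ, 0 < c ∧
      ∀ T : Finset (HeightOneSpectrum (𝓞 ℚ)), T₀ ⊆ T →
      ∀ (f₀ g₀ χ₀ : ∀ v : HeightOneSpectrum (𝓞 ℚ), GL (Fin 2) (v.adicCompletion ℚ) → ℂ)
        (F₁ F₂ : GL (Fin 2) ℝ → ℂ),
        (∀ v ∈ T, T6.IsBiInv (T6.InU (m v)) (f₀ v) ∧ T6.HasFinSupp (T6.InU (m v)) (f₀ v)) →
        (∀ v ∈ T, T6.IsBiInv (T6.InU (m v)) (g₀ v) ∧ T6.HasFinSupp (T6.InU (m v)) (g₀ v)) →
        (∀ v ∈ T, T6.IsConv (T6.InU (m v)) (f₀ v) (g₀ v) (χ₀ v)) →
        Continuous F₁ → HasCompactSupport F₁ → Continuous F₂ → HasCompactSupport F₂ →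
        ∀ h : G ℚ, T5.conv μ (pureQ298 T f₀ F₁) (pureQ298 T g₀ F₂) h
          = (c : ℂ) * pureQ298 T χ₀ (@T6.convInt _ _ (borel _) μr F₁ F₂) h

/-- **LEAF PT.4Q = TR-PURE over `ℚ`.**  See the header. -/
def TrPureQC563 : Prop :=
  ∀ (T : Finset (HeightOneSpectrum (𝓞 ℚ))) (b : G ℚ), OutT305 T b →
  ∀ (f₀ : ∀ v : HeightOneSpectrum (𝓞 ℚ), GL (Fin 2) (v.adicCompletion ℚ) → ℂ)
    (F : GL (Fin 2) ℝ → ℂ) (y : G ℚ),
    pureQ298 T f₀ F (b⁻¹ * y)
      = pureQ298 T (fun v x => f₀ v ((finGL305 v b)⁻¹ * x))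
          (fun x => F ((reGLQ298 b)⁻¹ * x)) y

/-! ## Appendix: the equation lemmas of the definitions of this file are realised HERE -/

theorem eqns_realised_ptSpec563 : True := by
  have _h0_0 := @ConvPureC563.eq_1
  have _h0_1 := @ConvPureC563.eq_def
  have _h0_2 := @ConvPureC563.eq_unfold
  have _h1_0 := @ConvAvgC563.eq_1
  have _h1_1 := @ConvAvgC563.eq_def
  have _h1_2 := @ConvAvgC563.eq_unfold
  have _h2_0 := @TrPureC563.eq_1
  have _h2_1 := @TrPureC563.eq_def
  have _h2_2 := @TrPureC563.eq_unfold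
  have _h3_0 := @LsumDblC563.eq_1
  have _h3_1 := @LsumDblC563.eq_def
  have _h3_2 := @LsumDblC563.eq_unfold
  have _h4_0 := @ConvPureQC563.eq_1
  have _h4_1 := @ConvPureQC563.eq_def
  have _h4_2 := @ConvPureQC563.eq_unfold
  have _h5_0 := @TrPureQC563.eq_1
  have _h5_1 := @TrPureQC563.eq_def
  have _h5_2 := @TrPureQC563.eq_unfold
  trivial

end Fermat.Agent.LT.T7.PT563

end

end
-- ===== PACK-END LT/T7/H563/PTSpec.lean

-- ===== PACK-BEGIN LT/T7/H90/SphRec311.lean
section




/-!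
# Row LT, tower T7, cut of `ShapeTC589` (helper311): LEAF ShT.3' `SphRecC311` (helper90)

OFF-MAIN.  Spec: `T7/H311/ShapeTSpec.lean` (helper311, byte-identical copy, with its closure).
No hole, nothing assumed, UNCONDITIONAL.

    sphRecC311_h90 (F) : H311.SphRecC311 F        (= SphTC311 F → SS503.SphShiftC503 → SphDC311 F)

Two-step induction on `d`: `locD311 0 ψ = 2 ψ` (values `2 • A`), `locD311 1 ψ = locT311 ψ`
(`SphTC311`), `locD311 (d+2) ψ = locT311 (locD311 (d+1) ψ) - locS311 (locD311 d ψ)` (values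
`B - shA503 1 A_d`); the Satake transform is linear and the shift by `(1, 1)` multiplies it by
`x y`; `(x + y)(x^{d+1} + y^{d+1}) - x y (x^d + y^d) = x^{d+2} + y^{d+2}`.
-/

set_option autoImplicit false
set_option linter.style.haveILetI false

open AutomorphicForm IsDedekindDomain NumberField MeasureTheory

noncomputable section

namespace Fermat.Agent.LT.T7.H90D

open Fermat.Agent.LT Fermat.Agent.LT.H556 Fermat.Agent.LT.H556.A0 Fermat.Agent.LT.T7
open Fermat.Agent.LT.T7.H305 Fermat.Agent.LT.T7.H893 Fermat.Agent.LT.T7.B981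

/-! ## The Satake transform -/

theorem satT_eq90 (q : ℕ) (A : (ℤ × ℤ) →₀ ℂ) (x y : ℂ) :
    satT893 q A x y = A.sum fun lam c => c * T6.satake q lam x y := rfl

theorem satT_smul90 (q : ℕ) (a : ℂ) (A : (ℤ × ℤ) →₀ ℂ) (x y : ℂ) :
    satT893 q (a • A) x y = a * satT893 q A x y := by
  rw [satT_eq90, satT_eq90, Finsupp.sum_smul_index (fun i => by rw [zero_mul]), Finsupp.mul_sum]
  refine Finsupp.sum_congr fun lam _ => ?_
  rw [mul_assoc]

theorem satT_sub90 (q : ℕ) (A B : (ℤ × ℤ) →₀ ℂ) (x y : ℂ) :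
    satT893 q (A - B) x y = satT893 q A x y - satT893 q B x y := by
  rw [satT_eq90, satT_eq90, satT_eq90]
  exact Finsupp.sum_sub_index fun a b₁ b₂ => sub_mul _ _ _

theorem satake_shift90 (q : ℕ) (lam : ℤ × ℤ) (x y : ℂ) (hx : x ≠ 0) (hy : y ≠ 0) :
    T6.satake q (lam.1 + 1, lam.2 + 1) x y = x * y * T6.satake q lam x y := by
  show (x * y) ^ (lam.2 + 1) * T6.satPoly q x y ((lam.1 + 1) - (lam.2 + 1)).toNat
    = x * y * ((x * y) ^ lam.2 * T6.satPoly q x y (lam.1 - lam.2).toNat)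
  have e : (lam.1 + 1) - (lam.2 + 1) = lam.1 - lam.2 := by ring
  rw [e, zpow_add_one₀ (mul_ne_zero hx hy)]
  ring

theorem satT_shift90 (q : ℕ) (A : (ℤ × ℤ) →₀ ℂ) (x y : ℂ) (hx : x ≠ 0) (hy : y ≠ 0) :
    satT893 q (SS503.shA503 1 A) x y = x * y * satT893 q A x y := by
  have e : SS503.shA503 1 A = A.mapDomain fun lam => (lam.1 + 1, lam.2 + 1) := rfl
  rw [satT_eq90, satT_eq90, e,
    Finsupp.sum_mapDomain_index (fun _ => by rw [zero_mul]) (fun _ _ _ => add_mul _ _ _),
    Finsupp.mul_sum]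
  refine Finsupp.sum_congr fun lam _ => ?_
  rw [satake_shift90 q lam x y hx hy]
  ring

/-! ## Spherical functions -/

variable {k : Type} [Field k] [Valued k T6.Γ₀]

theorem isSph_iff90 (φ : GL (Fin 2) k → ℂ) (A : (ℤ × ℤ) →₀ ℂ) :
    IsSphFn893 φ A ↔ (∀ lam ∈ A.support, lam.2 ≤ lam.1) ∧ ∀ x : GL (Fin 2) k, φ x = A (T6.cartan x) :=
  Iff.rfl

theorem isSph_smul90 (a : ℂ) (φ : GL (Fin 2) k → ℂ) (A : (ℤ × ℤ) →₀ ℂ) (h : IsSphFn893 φ A) :
    IsSphFn893 (fun x => a * φ x) (a • A) := by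
  rw [isSph_iff90] at h ⊢
  refine ⟨fun lam hlam => h.1 lam (Finsupp.support_smul hlam), fun x => ?_⟩
  rw [h.2 x, Finsupp.smul_apply, smul_eq_mul]

theorem isSph_sub90 (φ₁ φ₂ : GL (Fin 2) k → ℂ) (A₁ A₂ : (ℤ × ℤ) →₀ ℂ) (h₁ : IsSphFn893 φ₁ A₁)
    (h₂ : IsSphFn893 φ₂ A₂) : IsSphFn893 (fun x => φ₁ x - φ₂ x) (A₁ - A₂) := by
  rw [isSph_iff90] at h₁ h₂ ⊢
  refine ⟨fun lam hlam => ?_, fun x => ?_⟩
  · have := Finsupp.support_sub hlam
    rcases Finset.mem_union.mp this with h | h
    · exact h₁.1 lam h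
    · exact h₂.1 lam h
  · rw [h₁.2 x, h₂.2 x, Finsupp.sub_apply]

/-! ## The recursion of `locD311` -/

variable {F : Type} [Field F] [NumberField F]

theorem locD_zero90 (v : HeightOneSpectrum (𝓞 F)) (H : Finset (G F)) (z : G F)
    (ψ : GL (Fin 2) (v.adicCompletion F) → ℂ) :
    H311.locD311 v H z 0 ψ = fun x => 2 * ψ x := rfl

theorem locD_one90 (v : HeightOneSpectrum (𝓞 F)) (H : Finset (G F)) (z : G F)
    (ψ : GL (Fin 2) (v.adicCompletion F) → ℂ) :
    H311.locD311 v H z 1 ψ = H311.locT311 v H z ψ := rfl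

theorem locD_succ90 (v : HeightOneSpectrum (𝓞 F)) (H : Finset (G F)) (z : G F) (d : ℕ)
    (ψ : GL (Fin 2) (v.adicCompletion F) → ℂ) :
    H311.locD311 v H z (d + 2) ψ = fun x =>
      H311.locT311 v H z (H311.locD311 v H z (d + 1) ψ) x
        - (fun x => H311.locD311 v H z d ψ (x * (finGL305 v z)⁻¹)) x := rfl

/-- **LEAF ShT.3' `SphRecC311`**, VERBATIM. -/
theorem sphRecC311_h90 (F : Type) [Field F] [NumberField F] : H311.SphRecC311 F := by
  intro hT hSh v H z hH hz d ψ A hA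
  set q : ℕ := Ideal.absNorm v.asIdeal with hq
  -- the scalar uniformiser
  obtain ⟨_, c₀, hc₀, hzc⟩ := hz
  have hcmat : (((finGL305 v z : GL (Fin 2) (v.adicCompletion F)))
      : Matrix (Fin 2) (Fin 2) (v.adicCompletion F)) = Matrix.diagonal (fun _ => c₀) := hzc
  have hshift : ∀ (φ : GL (Fin 2) (v.adicCompletion F) → ℂ) (B : (ℤ × ℤ) →₀ ℂ),
      IsSphFn893 φ B →
        IsSphFn893 (fun x => φ (x * (finGL305 v z)⁻¹)) (SS503.shA503 1 B) := by
    intro φ B hB
    have := hSh (v.adicCompletion F) (finGL305 v z) c₀ hc₀ hcmat 1 φ B hB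
    have e : (finGL305 v z) ^ (-(1 : ℤ)) = (finGL305 v z)⁻¹ := zpow_neg_one _
    rw [e] at this
    exact this
  have hz' : IsScalarUniformizerAt v z := ⟨‹_›, c₀, hc₀, hzc⟩
  refine two_step90 (fun d => ∃ A' : (ℤ × ℤ) →₀ ℂ, IsSphFn893 (H311.locD311 v H z d ψ) A' ∧
      ∀ x y : ℂ, x ≠ 0 → y ≠ 0 → satT893 q A' x y = (x ^ d + y ^ d) * satT893 q A x y)
    ?_ ?_ ?_ d
  · refine ⟨(2 : ℂ) • A, ?_, fun x y _ _ => ?_⟩
    · rw [locD_zero90]
      exact isSph_smul90 2 ψ A hA
    · rw [satT_smul90, pow_zero, pow_zero]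
      norm_num
  · obtain ⟨A', hA', hs⟩ := hT v H z hH hz' ψ A hA
    refine ⟨A', ?_, fun x y hx hy => ?_⟩
    · rw [locD_one90]
      exact hA'
    · rw [hs x y hx hy, pow_one, pow_one]
  · rintro d ⟨A₀, hA₀, hs₀⟩ ⟨A₁, hA₁, hs₁⟩
    obtain ⟨B, hB, hsB⟩ := hT v H z hH hz' _ A₁ hA₁
    have hS := hshift _ A₀ hA₀
    refine ⟨B - SS503.shA503 1 A₀, ?_, fun x y hx hy => ?_⟩
    · rw [locD_succ90]
      exact isSph_sub90 _ _ _ _ hB hS
    · rw [satT_sub90, hsB x y hx hy, hs₁ x y hx hy, satT_shift90 q A₀ x y hx hy, hs₀ x y hx hy]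
      ring

end Fermat.Agent.LT.T7.H90D

end

end
-- ===== PACK-END LT/T7/H90/SphRec311.lean

-- ===== PACK-BEGIN LT/T7/H311/ShapeTClosed.lean
section








/-!
# Row LT, tower T7, node T7.L2.1.H2a.A.1.7 `ST589.ShapeTC589` (sub-architect helper311):
# INTEGRATION

OFF-MAIN.  Complete proofs, nothing assumed.

    sphDC_closed311 (F)       : SphDC311 F                                   (UNCONDITIONAL)
    shapeTC_of_pure311 (K K') : PureDC311 K' → PureDC311 K → ST589.ShapeTC589 K K'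

Plugged, byte-identical copies: `sphTC528` (helper528, leaf ShT.2), `sphRecC311_h90`,
`dContC311_h90`, `dSuppC311_h90`, `dIntC311_h90` (helper90, leaves ShT.3' - ShT.6),
`placesC963` (helper963), `sphShiftC619`, `unitSphC619` (helper619).
OPEN: the leaf ShT.1 `PureDC311` (both fields).
-/

set_option autoImplicit false

open AutomorphicForm IsDedekindDomain NumberField

noncomputable section

namespace Fermat.Agent.LT.T7.H311

open Fermat.Agent.LT.T7 Fermat.Agent.LT.T7.B981 Fermat.Agent.LT.T7.ST589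

/-- **LEAF ShT.3 = SPH-D**, unconditional. -/
theorem sphDC_closed311 (F : Type) [Field F] [NumberField F] : SphDC311 F :=
  H90D.sphRecC311_h90 F (H528T.sphTC528 F) B981.H619.sphShiftC619

/-- **THE NODE `ST589.ShapeTC589`** from the leaf `PureDC311` alone. -/
theorem shapeTC_of_pure311 (K K' : Type) [Field K] [NumberField K] [Field K'] [NumberField K']
    [Algebra K K'] (hPu' : PureDC311 K') (hPu : PureDC311 K) : ShapeTC589 K K' :=
  shapeTC_of311 K K' hPu' hPu (sphDC_closed311 K') (sphDC_closed311 K)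
    (H90D.dContC311_h90 K') (H90D.dContC311_h90 K) (H90D.dSuppC311_h90 K')
    (H90D.dSuppC311_h90 K) (H90D.dIntC311_h90 K') (H90D.dIntC311_h90 K)
    (H963.placesC963 (K := K) (K' := K')) B981.H619.unitSphC619

end Fermat.Agent.LT.T7.H311

end

end
-- ===== PACK-END LT/T7/H311/ShapeTClosed.lean

-- ===== PACK-BEGIN LT/T7/H236/Shape.lean
section
/-
Row LT, tower T7, node T7.L2.1.H2a.4 `Pair2Cb970` (sub-architect helper970), leaf 4.6 `ShapeC970`
[XL] (registry 2867) -- helper236, SPARE.  OFF-MAIN.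

    shapeC236 (K K') : B970.ShapeC970 K K'

VERBATIM against `LT/T7/B970/Pair2Spec.lean` (helper970@c68ed6767, sha256 fab97cea),
UNCONDITIONAL.

Proof.  (1) THE FINITE STEP `shapeFin236` (`ShapeFinA/B/C.lean`, this seat): the pair
`(lsum s' Φ₁0, c · wsum970 s β F₁0)` is an average of pure tensors over the parameter space of
the first pair, with the replaced components `repUp970`, `repDn970` (the clause `rep` of
`IsWtUp970`, `IsWtDown970`) and the local shape `LocB893b`; the new members are test functions: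
left invariance upstairs because the representatives normalise the level group, downstairs
componentwise.  (2) THE NATURAL-AVERAGE STEP of helper193 (`T7/H193/NatStepShape.lean`
`isAvgPure_nat193`, `T7/H193/NatStep.lean` `isShiftStable_locB893b193`), byte-identical copies.
-/




set_option autoImplicit false
set_option linter.unusedSectionVars false
set_option linter.unusedVariables false
set_option linter.style.haveILetI false

open AutomorphicForm IsDedekindDomain NumberField MeasureTheory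
open scoped ComplexConjugate

noncomputable section

namespace Fermat.Agent.LT.T7.H236

open Fermat.Agent.LT.H556 Fermat.Agent.LT.H556.A0 Fermat.Agent.LT Fermat.Agent.LT.T7
open Fermat.Agent.LT.T7.H305 Fermat.Agent.LT.T7.H893 Fermat.Agent.LT.T7.B981
open Fermat.Agent.LT.T7.B970

attribute [local instance] Fermat.Agent.LT.T5.instMeasurableSpaceG

open Classical in
/-- **LEAF T7.L2.1.H2a.4.6 `ShapeC970`.** -/
theorem shapeC236 (K K' : Type) [Field K] [NumberField K] [Field K'] [NumberField K']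
    [Algebra K K'] : ShapeC970 K K' := by
  intro ℓ hcyc hℓ htot Φ hΦ hconst B hB hram g hg 𝔫 hlvl μc hμ T₀ n n₀ m hexp a D a' D' hrel
    s' hs' s β b hb hs c₁ Φ₁ F₁ hp1 hA c
  have hfin := shapeFin236 (g := g) hlvl hexp hs' hb hs hA c
  have hcont : Continuous (fun h => c * wsum970 s β (F₁ []) h) :=
    (IsPreT236.smul c (isPreT_wsum236
      (isPreT_of_test236 (hp1.dn1_test [] (by simp))) s β
      (fun x hx => (hs.supp x hx).1))).cont
  have hnat := H193.isAvgPure_nat193 hrel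
    (fun T φ₀' Φ' f₀' F hL t' =>
      H193.isShiftStable_locB893b193 ℓ hcyc htot Φ B hB g 𝔫 μc hμ T₀ n n₀ m T φ₀' Φ' f₀' F hL t')
    hcont hfin
  have e : H193.nat193 a D (fun h => c * wsum970 s β (F₁ []) h)
      = fun h => c * H193.nat193 a D (wsum970 s β (F₁ [])) h := by
    funext h
    unfold H193.nat193
    rw [integral_const_mul]
    ring
  rw [e] at hnat
  exact hnat

end Fermat.Agent.LT.T7.H236

end
end
-- ===== PACK-END LT/T7/H236/Shape.lean

-- ===== PACK-BEGIN LT/T7/H801/AvgMatchQ.lean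
section




/-!
# Row LT, tower T7, quadratic step: leaf T7.L2Q.1.H1b `AvgMatchQC801` -- PROVED (helper801)

OFF-MAIN.  `avgMatchQC801 F : CQ801.AvgMatchQC801 F`, VERBATIM, UNCONDITIONAL, and the GENERAL
FORM `avgMatch_gen801` (any extension of number fields, any data of the comparison, families
which are jointly continuous with a common compact support; no `K_∞`-type, no level, no
hypothesis on the degree or on the infinite places): `T7.IsGlobMatch` is closed under averages
over a compact parameter space with a finite measure.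

Proof: the core `H228.setIntegral_twTerm_avg228` of helper228 (one field, any automorphism:
the orbital integral of an average is the average of the orbital integrals), as in
`H228.avgMatchC228`; downstairs the family is `fs0 a + fs1 a`, and the integral of the sum is
the sum of the integrals (continuous functions on a compact space with a finite measure).
-/

set_option autoImplicit false

open AutomorphicForm IsDedekindDomain NumberField MeasureTheory
open scoped ComplexConjugate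

noncomputable section

namespace Fermat.Agent.LT.T7.CQ801

open Fermat.Agent.LT Fermat.Agent.LT.H556 Fermat.Agent.LT.H556.A0 Fermat.Agent.LT.T7
open Fermat.Agent.LT.T7.H228 Fermat.Agent.LT.T7.L2Q

attribute [local instance] Fermat.Agent.LT.T5.instMeasurableSpaceG

section General

variable {K K' : Type} [Field K] [NumberField K] [Field K'] [NumberField K'] [Algebra K K']

/-- **AVG-MATCH, GENERAL FORM.**  For ANY extension of number fields and any data of the
comparison: the averages of matched pairs which are jointly continuous with a common compact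
support are matched. -/
theorem avgMatch_gen801 (D : CompData K K') (hD : IsCompData D)
    (Ω : Type) [TopologicalSpace Ω] [CompactSpace Ω] [SecondCountableTopology Ω]
    [MeasurableSpace Ω] [BorelSpace Ω] (ν : Measure Ω) [IsFiniteMeasure ν]
    (φs : Ω → G K' → ℂ) (fs : Ω → G K → ℂ)
    (hφc : Continuous (fun p : Ω × G K' => φs p.1 p.2))
    (hfc : Continuous (fun p : Ω × G K => fs p.1 p.2))
    (hφs : ∃ C : Set (G K'), IsCompact C ∧ ∀ (a : Ω) (h : G K'), φs a h ≠ 0 → h ∈ C)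
    (hfs : ∃ C : Set (G K), IsCompact C ∧ ∀ (a : Ω) (h : G K), fs a h ≠ 0 → h ∈ C)
    (hmatch : ∀ a : Ω, IsGlobMatch D (φs a) (fs a)) :
    IsGlobMatch D (fun h => ∫ a, φs a h ∂ν) (fun h => ∫ a, fs a h ∂ν) := by
  have hup : ∀ (δ : GL (Fin 2) K') (γ : GL (Fin 2) K), T6.IsEll γ → IsNormOf D δ γ →
      ∀ Fδ : Set (G K'), T5.IsTwDomain D.s δ Fδ →
        ∫ x in Fδ, T5.twTerm D.R'.r D.s (fun h => ∫ a, φs a h ∂ν) δ x ∂D.R'.μ
          = ∫ a, (∫ x in Fδ, T5.twTerm D.R'.r D.s (φs a) δ x ∂D.R'.μ) ∂ν :=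
    fun δ γ hE hN Fδ hFδ =>
      setIntegral_twTerm_avg228 D.s D.l D.k D.𝔑 hD.cyc D.R'.μ D.R'.F D.R'.r hD.frame'.frame
        hD.frame'.ray hD.aut (fun δ' => IsNormOf D δ' γ)
        (fun γ₀ δ' h => isNormOf_conj228 D hD γ₀ δ' h)
        (fun δ' h => isEllRegOver_up228 D hD h hE) δ hN Fδ hFδ Ω ν φs hφc hφs
  have hdn : ∀ γ : GL (Fin 2) K, T6.IsEll γ →
      ∀ Fγ : Set (G K), T5.IsTwDomain (T5.AdelicAut.id K) γ Fγ →
        ∫ x in Fγ, T5.twTerm D.R.r (T5.AdelicAut.id K) (fun h => ∫ a, fs a h ∂ν) γ x ∂D.R.μ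
          = ∫ a, (∫ x in Fγ, T5.twTerm D.R.r (T5.AdelicAut.id K) (fs a) γ x ∂D.R.μ) ∂ν :=
    fun γ hE Fγ hFγ =>
      setIntegral_twTerm_avg228 (T5.AdelicAut.id K) 1 ⊤ D.𝔫 T5.isCyclicOfDegree_id D.R.μ D.R.F
        D.R.r hD.frame.frame hD.frame.ray (T5.autPreserves_id D.𝔫 D.R.μ D.R.r)
        (fun γ' => T6.IsEll γ') (fun γ₀ γ' h => isEll_conj228 γ₀ γ' h)
        (fun γ' h => isEllRegOver_down228 h) γ hE Fγ hFγ Ω ν fs hfc hfs
  refine ⟨?_, ?_⟩
  · intro δ γ hE hN Fδ Fγ hFδ hFγ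
    rw [hup δ γ hE hN Fδ hFδ, hdn γ hE Fγ hFγ]
    exact integral_congr_ae
      (Filter.Eventually.of_forall fun a => (hmatch a).norm δ γ hE hN Fδ Fγ hFδ hFγ)
  · intro γ hE hnn Fγ hFγ
    rw [hdn γ hE Fγ hFγ]
    have h0 : ∀ a : Ω,
        ∫ x in Fγ, T5.twTerm D.R.r (T5.AdelicAut.id K) (fs a) γ x ∂D.R.μ = 0 :=
      fun a => (hmatch a).nonnorm γ hE hnn Fγ hFγ
    simp only [h0, integral_zero]

/-- A jointly continuous family is integrable in the parameter (compact parameter space, finite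
measure). -/
theorem integrable_param801 {Ω : Type} [TopologicalSpace Ω] [CompactSpace Ω]
    [MeasurableSpace Ω] [BorelSpace Ω] (ν : Measure Ω) [IsFiniteMeasure ν]
    {X : Type} [TopologicalSpace X] (f : Ω → X → ℂ)
    (hc : Continuous (fun p : Ω × X => f p.1 p.2)) (x : X) :
    Integrable (fun a => f a x) ν := by
  have h1 : Continuous (fun a : Ω => f a x) :=
    hc.comp (Continuous.prodMk continuous_id continuous_const)
  exact h1.integrable_of_hasCompactSupport (HasCompactSupport.of_compactSpace _)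

/-- **AVG-MATCH with a SUM of two families downstairs, GENERAL FORM.** -/
theorem avgMatch_sum801 (D : CompData K K') (hD : IsCompData D)
    (Ω : Type) [TopologicalSpace Ω] [CompactSpace Ω] [SecondCountableTopology Ω]
    [MeasurableSpace Ω] [BorelSpace Ω] (ν : Measure Ω) [IsFiniteMeasure ν]
    (φs : Ω → G K' → ℂ) (fs0 fs1 : Ω → G K → ℂ)
    (hφc : Continuous (fun p : Ω × G K' => φs p.1 p.2))
    (hc0 : Continuous (fun p : Ω × G K => fs0 p.1 p.2))
    (hc1 : Continuous (fun p : Ω × G K => fs1 p.1 p.2))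
    (hφs : ∃ C : Set (G K'), IsCompact C ∧ ∀ (a : Ω) (h : G K'), φs a h ≠ 0 → h ∈ C)
    (hs0 : ∃ C : Set (G K), IsCompact C ∧ ∀ (a : Ω) (h : G K), fs0 a h ≠ 0 → h ∈ C)
    (hs1 : ∃ C : Set (G K), IsCompact C ∧ ∀ (a : Ω) (h : G K), fs1 a h ≠ 0 → h ∈ C)
    (hmatch : ∀ a : Ω, IsGlobMatch D (φs a) (fun x => fs0 a x + fs1 a x)) :
    IsGlobMatch D (fun h => ∫ a, φs a h ∂ν)
      (fun x => (∫ a, fs0 a x ∂ν) + ∫ a, fs1 a x ∂ν) := by
  have hc : Continuous (fun p : Ω × G K => fs0 p.1 p.2 + fs1 p.1 p.2) := hc0.add hc1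
  have hs : ∃ C : Set (G K), IsCompact C ∧
      ∀ (a : Ω) (h : G K), fs0 a h + fs1 a h ≠ 0 → h ∈ C := by
    obtain ⟨C0, hC0, h0⟩ := hs0
    obtain ⟨C1, hC1, h1⟩ := hs1
    refine ⟨C0 ∪ C1, hC0.union hC1, fun a h hne => ?_⟩
    by_cases e0 : fs0 a h = 0
    · right
      apply h1 a h
      intro e1
      exact hne (by rw [e0, e1, add_zero])
    · left
      exact h0 a h e0
  have key := avgMatch_gen801 D hD Ω ν φs (fun a x => fs0 a x + fs1 a x) hφc hc hφs hs hmatch
  have e : (fun x => ∫ a, (fs0 a x + fs1 a x) ∂ν)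
      = fun x => (∫ a, fs0 a x ∂ν) + ∫ a, fs1 a x ∂ν := by
    funext x
    exact integral_add (integrable_param801 ν fs0 hc0 x) (integrable_param801 ν fs1 hc1 x)
  rw [← e]
  exact key

end General

/-- **LEAF T7.L2Q.1.H1b = AVG-MATCH over `ℚ`**, VERBATIM and UNCONDITIONAL. -/
theorem avgMatchQC801 (F : Type) [Field F] [NumberField F] : AvgMatchQC801 F := by
  intro _ D hD _ _ Ω iT iC iT2 iS iM iB ν iF φs fs0 fs1 _ _ _ hφc hc0 hc1 hφs hs0 hs1 hmatch
  exact avgMatch_sum801 D hD Ω ν φs fs0 fs1 hφc hc0 hc1 hφs hs0 hs1 hmatch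

end Fermat.Agent.LT.T7.CQ801

end

end
-- ===== PACK-END LT/T7/H801/AvgMatchQ.lean

-- ===== PACK-BEGIN LT/T7/H801/SupplyQBridge.lean
section





/-!
# Row LT, tower T7, node T7.L2Q.1 (quadratic step `F = ℚ(√-3)` over `ℚ`):
# ONE FORM OF RECORD -- the bridge between the fifth cut over `ℚ` (helper801, row 2609) and the
# v2 of the matching chain of helper298 (`MatchQSpec2.lean`, sha256 07f84955)

OFF-MAIN.  PROVED, no hole, nothing assumed.  ADDITIVE (new names only, suffixed `801`).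

The local hypotheses `CQ801.LocHypQb801` (fifth cut over `ℚ`, 17:27Z) and `MQ298.LocHypQ298b`
(v2 of helper298, 17:38Z) are THE SAME structure under two names (split clause for ONE
enumeration; all clauses verbatim).  This file proves

    locHypQb_iff801        : LocHypQb801 D μr μc T n m φ₀ Φ f₀ F0 F1
                               ↔ MQ298.LocHypQ298b D μr μc T n m φ₀ Φ f₀ F0 F1
    isMatchConstQb_iff801  : IsMatchConstQb801 F D μr μc T₀ n m κ
                               ↔ MQ298.IsMatchConstQ298b F D μr μc T₀ n m κ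
    cutIntQCb_iff801       : CutIntQCb801 F ↔ MQ298.CutIntQC298b F
    globMatchQCb_iff801    : GlobMatchQCb801 F ↔ MQ298.GlobMatchQC298b F

and the tops of the fifth cut with the node of helper298 as hypothesis and the leaf AVG-MATCH
discharged (`avgMatchQC801`):

    nodesQ_of_open801   : MQ298.GlobMatchQC298b F → BaseQC801 P F
                            → (∀ κ nowhere zero, ProdMtQC801 F κ)
                            → ∃ Mt, H732.GlobQC732 F Mt ∧ H732.ConstrQRC732 P F Mt

So the station of helper298 (rows 2464 / 2605 and below) works on the names `…298b` and the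
construction nodes (`BaseQC801`, `ProdMtQC801`) on the names `…801`; nothing has to be
restated.
-/

set_option autoImplicit false

open AutomorphicForm IsDedekindDomain NumberField MeasureTheory
open scoped ComplexConjugate

noncomputable section

namespace Fermat.Agent.LT.T7.CQ801

open Fermat.Agent.LT.H556 Fermat.Agent.LT.H556.A0 Fermat.Agent.LT.T7 Fermat.Agent.LT.T7.H305
  Fermat.Agent.LT.T7.L2Q Fermat.Agent.LT.T7.H893 Fermat.Agent.LT.T7.H962
  Fermat.Agent.LT.T7.H732 Fermat.Agent.LT.T7.MQ298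

attribute [local instance] Fermat.Agent.LT.T5.instMeasurableSpaceG

section Bridge

variable {F : Type} [Field F] [NumberField F]

/-- The two forms of the local hypotheses with the split clause for ONE enumeration agree. -/
theorem locHypQb_iff801 {D : CompData ℚ F} {μr : @Measure (GL (Fin 2) ℝ) (borel _)}
    {μc : @Measure (GL (Fin 2) ℂ) (borel _)}
    {T : Finset (HeightOneSpectrum (𝓞 ℚ))}
    {n : HeightOneSpectrum (𝓞 F) → ℕ} {m : HeightOneSpectrum (𝓞 ℚ) → ℕ}
    {φ₀ : ∀ w : HeightOneSpectrum (𝓞 F), GL (Fin 2) (w.adicCompletion F) → ℂ}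
    {Φ : InfinitePlace F → GL (Fin 2) ℂ → ℂ}
    {f₀ : ∀ v : HeightOneSpectrum (𝓞 ℚ), GL (Fin 2) (v.adicCompletion ℚ) → ℂ}
    {F0 F1 : GL (Fin 2) ℝ → ℂ} :
    LocHypQb801 D μr μc T n m φ₀ Φ f₀ F0 F1
      ↔ MQ298.LocHypQ298b D μr μc T n m φ₀ Φ f₀ F0 F1 :=
  ⟨fun h => ⟨h.inv_up, h.inv_down, h.arch_up, h.arch_down0, h.arch_down1, h.inert, h.split,
      h.arch⟩,
    fun h => ⟨h.inv_up, h.inv_down, h.arch_up, h.arch_down0, h.arch_down1, h.inert, h.split,
      h.arch⟩⟩

/-- The two forms of the local hypotheses agree, as predicates. -/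
theorem locHypQb_eq801 : @LocHypQb801 F _ _ = @MQ298.LocHypQ298b F _ _ := by
  funext D μr μc T n m φ₀ Φ f₀ F0 F1
  exact propext locHypQb_iff801

variable (F)

/-- "`κ` is a matching constant": the two forms agree. -/
theorem isMatchConstQb_iff801 (D : CompData ℚ F) (μr : @Measure (GL (Fin 2) ℝ) (borel _))
    (μc : @Measure (GL (Fin 2) ℂ) (borel _)) (T₀ : Finset (HeightOneSpectrum (𝓞 ℚ)))
    (n : HeightOneSpectrum (𝓞 F) → ℕ) (m : HeightOneSpectrum (𝓞 ℚ) → ℕ) (κ : ℂ) :
    IsMatchConstQb801 F D μr μc T₀ n m κ ↔ MQ298.IsMatchConstQ298b F D μr μc T₀ n m κ := by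
  constructor
  · intro h T T' hT hO φ₀ Φ f₀ F0 F1 hL
    exact h T T' hT hO φ₀ Φ f₀ F0 F1 (locHypQb_iff801.2 hL)
  · intro h T T' hT hO φ₀ Φ f₀ F0 F1 hL
    exact h T T' hT hO φ₀ Φ f₀ F0 F1 (locHypQb_iff801.1 hL)

/-- The node GLOBAL MATCHING over `ℚ`, v2: the two forms agree. -/
theorem globMatchQCb_iff801 : GlobMatchQCb801 F ↔ MQ298.GlobMatchQC298b F := by
  constructor
  · intro h hF D hD hC hl μr hμr μc hμc T₀ hU n m hL
    obtain ⟨κ, hκ0, hκ⟩ := h hF D hD hC hl μr hμr μc hμc T₀ hU n m hL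
    exact ⟨κ, hκ0, (isMatchConstQb_iff801 F D μr μc T₀ n m κ).1 hκ⟩
  · intro h hF D hD hC hl μr hμr μc hμc T₀ hU n m hL
    obtain ⟨κ, hκ0, hκ⟩ := h hF D hD hC hl μr hμr μc hμc T₀ hU n m hL
    exact ⟨κ, hκ0, (isMatchConstQb_iff801 F D μr μc T₀ n m κ).2 hκ⟩

/-- The node CUT-INT over `ℚ`, v2: the two forms agree. -/
theorem cutIntQCb_iff801 : CutIntQCb801 F ↔ MQ298.CutIntQC298b F := by
  constructor
  · intro h hF D hD hC hl ι hι μr hμr μc hμc T₀ hU n m hL
    obtain ⟨κ, hκ0, hκ⟩ := h hF D hD hC hl ι hι μr hμr μc hμc T₀ hU n m hL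
    refine ⟨κ, hκ0, ?_⟩
    intro T T' hT hO φ₀ Φ f₀ F0 F1 hLoc
    exact hκ T T' hT hO φ₀ Φ f₀ F0 F1 (locHypQb_iff801.2 hLoc)
  · intro h hF D hD hC hl ι hι μr hμr μc hμc T₀ hU n m hL
    obtain ⟨κ, hκ0, hκ⟩ := h hF D hD hC hl ι hι μr hμr μc hμc T₀ hU n m hL
    refine ⟨κ, hκ0, ?_⟩
    intro T T' hT hO φ₀ Φ f₀ F0 F1 hLoc
    exact hκ T T' hT hO φ₀ Φ f₀ F0 F1 (locHypQb_iff801.1 hLoc)

variable {F}
variable {P : EKCond}

/-- **THE TWO NODES OF RECORD** `GlobQC732`, `ConstrQRC732` from the node of helper298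
(`GlobMatchQC298b`) and the two nodes of the construction; AVG-MATCH is discharged. -/
theorem nodesQ_of_open801 (hG : MQ298.GlobMatchQC298b F) (hBase : BaseQC801 P F)
    (hProd : ∀ κ : KapFnQ801 F, (∀ D μr μc T₀ n m, κ D μr μc T₀ n m ≠ 0) → ProdMtQC801 F κ) :
    ∃ Mt : H732.MtRelQ732 F, H732.GlobQC732 F Mt ∧ H732.ConstrQRC732 P F Mt :=
  nodesQ_of_fifth801 ((globMatchQCb_iff801 F).2 hG) (avgMatchQC801 F) hBase hProd

end Bridge

end Fermat.Agent.LT.T7.CQ801

end

end
-- ===== PACK-END LT/T7/H801/SupplyQBridge.lean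

-- ===== PACK-BEGIN LT/T7/H57/BaseQSpec.lean
section



/-!
# Row LT, tower T7, node T7.L2Q.1.H2a `CQ57.BaseQC57` (registry row 2682, owner helper57):
# THE BASE NODE OF THE CONSTRUCTION OVER `ℚ` -- SECOND CUT, Spec

OFF-MAIN.  Definitions and frozen Props only (the proved top is `BaseQTop.lean`).  No hole,
nothing assumed.  ADDITIVE (new names only, all suffixed `57`, namespace
`Fermat.Agent.LT.T7.CQ57`).

    baseQC_of57 : HaarRC57 → HaarCC57 → DivSetC57 ℚ → LevFnC57 ℚ → LevFnC57 F → SysQC57 F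
                    → Pair1QC57 P F → Pair2QC57 P F → BaseQC57 P F

## The cut: the two pairs are INDEPENDENT

The pre-data `E : H732.L2QPre732 F` consist of
* the level `𝔫` and the coset systems `Hg, H', z', H, z`;
* THE FIRST PAIR `(Φ₁, F₁)` with the scalar `c₁` (the word applied to an Eisenstein-killing
  function; independent of the bad element `g`);
* THE SECOND PAIR `(φ₂, f₂)` with the scalar `c₂` (the `♮`-average; the partners of the double
  coset function of `g` at the bad places fix the level).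
Every field of `H732.IsL2QPreOp732`, `H732.IsL2QPreSupp732`, `CQ57.IsDecompQ57` concerns ONE of
the three groups.  So:

* **`Pair2QC57 P F`** (NODE): for a bad `g` there is a LEVEL `𝔫` (`IsLevQ57`) such that for all
  Haar measures `μr`, `μc`, the level functions `T₀, n, n₀, m` and every constant `a ≠ 0` the
  second pair exists (`IsPair2Q57`: the 12 operator fields of the second pair, `c₂ ≠ 0` on the
  class of `Φ`, the two supports, the local shape `LocBQ57` with the constant `a`).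
* **`Pair1QC57 P F`** (NODE): for EVERY level `𝔫` (`IsLevQ57`), all Haar measures and the level
  functions the first pair exists (`IsPair1Q57`: the 9 operator fields of the first pair,
  `c₁ ≠ 0` on the class of `Φ`, the two supports, the local shape `LocAQ57`).
* **`SysQC57 F`** (LEAF, small; plug of the closed leaves on coset systems, helper704
  `T7/H704/SysExists.lean`, helper567): the coset systems exist.
* **`DivSetC57 K`**, **`LevFnC57 K`** (LEAVES, small, one field): the set of the places which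
  divide a non-zero ideal is finite; a non-zero ideal has a level function (`H893.IsLevelOf893`).
* **`HaarRC57`**, **`HaarCC57`** (LEAVES, closed on the branches: helper336
  `T3/R/H336/HaarR.lean` `inHaarRC336`, helper893 `T3/H893/AS2Group.lean` `haarExists893`):
  `GL₂(ℝ)`, `GL₂(ℂ)` have Haar measures (Borel `σ`-algebra).

FALSITY CHECKS (helper57).  (a) The first pair does not depend on `g`; the level is any level
with `IsLevQ57` (the components of the first pair at the places of the level are UNITS of the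
level, which exist for every level).  (b) `m₀` of the pre-data is free (`fun _ => 0`): no field
of `IsL2QPreOp732`, `IsL2QPreSupp732`, `IsDecompQ57` mentions it.  (c) `n₀` (level function of
the base level `𝔑₀`) occurs in the second pair only.  (d) The scalars `c₁`, `c₂` are fields of
the pair which defines them; `up_ne` is the conjunction of the two non-vanishing statements.
-/

set_option autoImplicit false

open AutomorphicForm IsDedekindDomain NumberField MeasureTheory
open scoped ComplexConjugate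

noncomputable section

namespace Fermat.Agent.LT.T7.CQ57

open Fermat.Agent.LT.H556 Fermat.Agent.LT.H556.A0 Fermat.Agent.LT.T7 Fermat.Agent.LT.T7.L2Q
  Fermat.Agent.LT.T7.H305 Fermat.Agent.LT.T7.H893 Fermat.Agent.LT.T7.H962
  Fermat.Agent.LT.T7.H732 Fermat.Agent.LT.T7.MQ298

attribute [local instance] Fermat.Agent.LT.T5.instMeasurableSpaceG

/-! ## 1. The small leaves -/

/-- **LEAF (closed on the branches): `GL₂(ℝ)` has a Haar measure** (Borel `σ`-algebra). -/
def HaarRC57 : Prop :=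
  ∃ μr : @Measure (GL (Fin 2) ℝ) (borel _), @Measure.IsHaarMeasure _ _ _ (borel _) μr

/-- **LEAF (closed on the branches): `GL₂(ℂ)` has a Haar measure** (Borel `σ`-algebra). -/
def HaarCC57 : Prop :=
  ∃ μc : @Measure (GL (Fin 2) ℂ) (borel _), @Measure.IsHaarMeasure _ _ _ (borel _) μc

section OneField

variable (K : Type) [Field K] [NumberField K]

/-- **LEAF (small, one field): the places which divide a non-zero ideal form a finite set.** -/
def DivSetC57 : Prop :=
  ∀ 𝔫 : Ideal (𝓞 K), 𝔫 ≠ ⊥ →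
    ∃ T₀ : Finset (HeightOneSpectrum (𝓞 K)),
      ∀ v : HeightOneSpectrum (𝓞 K), v ∈ T₀ ↔ v.asIdeal ∣ 𝔫

/-- **LEAF (small, one field): a non-zero ideal has a level function** (`m v` = the exponent of
`v` in `𝔫`; the closure of `𝔫` in `K_v` is the ball of radius `exp (- m v)`). -/
def LevFnC57 : Prop :=
  ∀ 𝔫 : Ideal (𝓞 K), 𝔫 ≠ ⊥ → ∃ m : HeightOneSpectrum (𝓞 K) → ℕ, IsLevelOf893 𝔫 m

end OneField

section Defs

variable {F : Type} [Field F] [NumberField F]

/-- **`𝔫` IS A LEVEL of the pre-data** for the common part `B` (the four level fields of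
`H732.IsL2QPreOp732`). -/
structure IsLevQ57 (B : L2QBase962 F) (𝔫 : Ideal (𝓞 ℚ)) : Prop where
  level_ne : 𝔫 ≠ ⊥
  level_g : upI (K' := F) 𝔫 ≤ B.𝔑₀
  mem_S'_g : ∀ w : HeightOneSpectrum (𝓞 F), w ∈ B.S' ↔ w.asIdeal ∣ upI (K' := F) 𝔫
  u_level : B.u.asIdeal ∣ 𝔫

/-- **THE COSET SYSTEMS of the pre-data** (the five coset fields of `H732.IsL2QPreOp732`). -/
structure IsSysQ57 (B : L2QBase962 F) (g : G F) (Hg H' : Finset (G F)) (z' : G F)
    (H : Finset (G ℚ)) (z : G ℚ) : Prop where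
  sysg : IsDblCosetSystem B.𝔑₀ g Hg
  sys' : IsIwCosetSystem (B.o 0) H'
  unif' : IsScalarUniformizerAt (B.o 0) z'
  sys : IsIwCosetSystem B.u H
  unif : IsScalarUniformizerAt B.u z

/-- **THE PROPERTIES OF THE FIRST PAIR** `(Φ₁, F₁)` with the scalar `c₁`, for the level `𝔫`:
the fields `up1_*`, `dn1_*` of `H732.IsL2QPreOp732` and `H732.IsL2QPreSupp732` (same names, same
statements), the first half of `up_ne`, and the local shape (`IsAvgPureQ57` with the local
condition `LocAQ57`, constant `1`). -/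
structure IsPair1Q57 (Φ : HeckeEigensystem F ℂ) (B : L2QBase962 F) (𝔫 : Ideal (𝓞 ℚ))
    (μr : @Measure (GL (Fin 2) ℝ) (borel _)) (μc : @Measure (GL (Fin 2) ℂ) (borel _))
    (T₀ : Finset (HeightOneSpectrum (𝓞 ℚ)))
    (n : HeightOneSpectrum (𝓞 F) → ℕ) (m : HeightOneSpectrum (𝓞 ℚ) → ℕ)
    (c₁ : EigData F → ℂ) (Φ₁ : List (Gen F) → G F → ℂ)
    (F₁ : QWt → List (Gen F) → G ℚ → ℂ) : Prop where
  up1_test : ∀ X : List (Gen F), (∀ x ∈ X, x.Out B.S') →
    T5.IsTestFn (upI (K' := F) 𝔫) T5.trivType (Φ₁ X)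
  up1_ek : ∀ X : List (Gen F), (∀ x ∈ X, x.Out B.S') →
    T5.IsEK B.R'.μ (Φ₁ X) ∧ T5.IsEK B.R'.μ (T5.adjointFn (Φ₁ X))
  up1_op : ∀ X : List (Gen F), (∀ x ∈ X, x.Out B.S') →
    ∀ (χ : G F → ℂ) (C : EigData F), IsEigFn B.𝔑₀ B.R'.r 2 B.o χ C →
      ∀ x : G F, T5.Rconv B.R'.μ (Φ₁ X) χ x = wordEv X C * c₁ C * χ x
  up1_ne : ∀ C : EigData F, C.AgreeOut B.S' (eigOf Φ) → c₁ C ≠ 0
  dn1_test : ∀ (t : QWt) (X : List (Gen F)), (∀ x ∈ X, x.Out B.S') →
    T5.IsTestFn 𝔫 t.type (F₁ t X)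
  dn1_ek : ∀ (t : QWt) (X : List (Gen F)), (∀ x ∈ X, x.Out B.S') →
    T5.IsEK B.R.μ (F₁ t X) ∧ T5.IsEK B.R.μ (T5.adjointFn (F₁ t X))
  dn1_op : ∀ (t : QWt) (X : List (Gen F)), (∀ x ∈ X, x.Out B.S') →
    ∀ (χ : G ℚ → ℂ) (c : EigData ℚ) (C : EigData F),
      IsEigFnQ t 𝔫 B.R.r B.u χ c → IsBCDataQ t c C B.S →
      ∀ x : G ℚ, T5.Rconv B.R.μ (F₁ t X) χ x
        = wordEv X C * T5.Rconv B.R.μ (F₁ t []) χ x
  dn1_wfn : ∀ (t : QWt) (ψ : G ℚ → ℂ), IsWFnQ t 𝔫 B.R.r B.u ψ →
    IsWFnQ t 𝔫 B.R.r B.u (T5.Rconv B.R.μ (F₁ t []) ψ)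
  dn1_class : ∀ (t : QWt) (ψ : G ℚ → ℂ) (c : EigData ℚ), IsEigFnQ t 𝔫 B.R.r B.u ψ c →
    IsEigFnQ t 𝔫 B.R.r B.u (T5.Rconv B.R.μ (F₁ t []) ψ) c
  dn1_comm : ∀ (t : QWt) (ψ : G ℚ → ℂ), IsWFnQ t 𝔫 B.R.r B.u ψ →
    ∀ (H : Finset (G ℚ)) (z : G ℚ), IsIwCosetSystem B.u H → IsScalarUniformizerAt B.u z →
      (∀ x : G ℚ, T5.Rconv B.R.μ (F₁ t []) (iwOp B.u H ψ) x
        = iwOp B.u H (T5.Rconv B.R.μ (F₁ t []) ψ) x) ∧
      ∀ (k : ℤ) (x : G ℚ), T5.Rconv B.R.μ (F₁ t []) (shiftOp z k ψ) x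
        = shiftOp z k (T5.Rconv B.R.μ (F₁ t []) ψ) x
  up1_supp : ∀ X : List (Gen F), (∀ x ∈ X, x.Out B.S') →
    ∃ C : Set (G F), IsCompact C ∧ T5.H32.IsIwSupported32 2 B.o C (Φ₁ X)
  dn1_supp : ∀ (t : QWt) (X : List (Gen F)), (∀ x ∈ X, x.Out B.S') →
    ∃ C : Set (G ℚ), IsCompact C ∧ T5.H32.IsIwSupported32 1 (fun _ => B.u) C (F₁ t X)
  shape : ∀ X : List (Gen F), (∀ x ∈ X, x.Out B.S') →
    IsAvgPureQ57 (upI (K' := F) 𝔫) 𝔫 T₀ (LocAQ57 μr μc T₀ n m) 1 (Φ₁ X) (fun t => F₁ t X)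

/-- **THE PROPERTIES OF THE SECOND PAIR** `(φ₂, f₂)` with the scalar `c₂`, for the bad element
`g`, the level `𝔫` and the constant `a`: the fields `up2_*`, `dn2_*` of `H732.IsL2QPreOp732` and
`H732.IsL2QPreSupp732` (same names, same statements), the second half of `up_ne`, and the local
shape (`IsAvgPureQ57` with the local condition `LocBQ57`, constant `a`). -/
structure IsPair2Q57 (Φ : HeckeEigensystem F ℂ) (B : L2QBase962 F) (g : G F) (𝔫 : Ideal (𝓞 ℚ))
    (μr : @Measure (GL (Fin 2) ℝ) (borel _)) (μc : @Measure (GL (Fin 2) ℂ) (borel _))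
    (T₀ : Finset (HeightOneSpectrum (𝓞 ℚ)))
    (n n₀ : HeightOneSpectrum (𝓞 F) → ℕ) (m : HeightOneSpectrum (𝓞 ℚ) → ℕ) (a : ℂ)
    (c₂ : EigData F → ℂ) (φ₂ : G F → ℂ) (f₂ : QWt → G ℚ → ℂ) : Prop where
  up2_test : T5.IsTestFn (upI (K' := F) 𝔫) T5.trivType φ₂
  up2_ek : T5.IsEK B.R'.μ φ₂ ∧ T5.IsEK B.R'.μ (T5.adjointFn φ₂)
  up2_inv : IsUInv B.𝔑₀ 2 B.o φ₂
  up2_op : ∀ (ψ : G F → ℂ) (C : EigData F), IsEigFn B.𝔑₀ B.R'.r 2 B.o ψ C →
    ∀ x : G F, T5.Rconv B.R'.μ φ₂ ψ x = c₂ C * ψ x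
  up2_kill : ∀ ψ : G F → ℂ, T5.IsCuspFn (upI (K' := F) 𝔫) T5.trivType B.R'.r ψ →
    (∀ χ : G F → ℂ, IsWFn B.𝔑₀ B.R'.r 2 B.o χ → T5.innerD B.R'.μ B.R'.F ψ χ = 0) →
    ∀ x : G F, T5.Rconv B.R'.μ φ₂ ψ x = 0
  up2_ne : ∀ C : EigData F, C.AgreeOut B.S' (eigOf Φ) → c₂ C ≠ 0
  dn2_test : ∀ t : QWt, T5.IsTestFn 𝔫 t.type (f₂ t)
  dn2_ek : ∀ t : QWt, T5.IsEK B.R.μ (f₂ t) ∧ T5.IsEK B.R.μ (T5.adjointFn (f₂ t))
  dn2_inv : ∀ t : QWt, IsUInv 𝔫 1 (fun _ => B.u) (f₂ t)
  dn2_wfn : ∀ (t : QWt) (ψ : G ℚ → ℂ), IsWFnQ t 𝔫 B.R.r B.u ψ →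
    IsWFnQ t 𝔫 B.R.r B.u (T5.Rconv B.R.μ (f₂ t) ψ)
  dn2_class : ∀ (t : QWt) (ψ : G ℚ → ℂ) (c : EigData ℚ), IsEigFnQ t 𝔫 B.R.r B.u ψ c →
    IsEigFnQ t 𝔫 B.R.r B.u (T5.Rconv B.R.μ (f₂ t) ψ) c
  dn2_comm : ∀ (t : QWt) (ψ : G ℚ → ℂ), IsWFnQ t 𝔫 B.R.r B.u ψ →
    ∀ (H : Finset (G ℚ)) (z : G ℚ), IsIwCosetSystem B.u H → IsScalarUniformizerAt B.u z →
      (∀ x : G ℚ, T5.Rconv B.R.μ (f₂ t) (iwOp B.u H ψ) x
        = iwOp B.u H (T5.Rconv B.R.μ (f₂ t) ψ) x) ∧
      ∀ (k : ℤ) (x : G ℚ), T5.Rconv B.R.μ (f₂ t) (shiftOp z k ψ) x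
        = shiftOp z k (T5.Rconv B.R.μ (f₂ t) ψ) x
  dn2_kill : ∀ (t : QWt) (ψ : G ℚ → ℂ), T5.IsCuspFn 𝔫 t.type B.R.r ψ →
    (∀ χ : G ℚ → ℂ, IsWFnQ t 𝔫 B.R.r B.u χ → T5.innerD B.R.μ B.R.F ψ χ = 0) →
    ∀ x : G ℚ, T5.Rconv B.R.μ (f₂ t) ψ x = 0
  up2_supp : ∃ C : Set (G F), IsCompact C ∧ T5.H32.IsIwSupported32 2 B.o C φ₂
  dn2_supp : ∀ t : QWt,
    ∃ C : Set (G ℚ), IsCompact C ∧ T5.H32.IsIwSupported32 1 (fun _ => B.u) C (f₂ t)
  shape : IsAvgPureQ57 (upI (K' := F) 𝔫) 𝔫 T₀ (LocBQ57 B g 𝔫 μr μc T₀ n n₀ m) a φ₂ f₂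

/-- The level functions of the level `𝔫` and of the base level of `B` (the first four clauses
of `IsDecompQ57`). -/
structure IsLevFnQ57 (B : L2QBase962 F) (𝔫 : Ideal (𝓞 ℚ))
    (T₀ : Finset (HeightOneSpectrum (𝓞 ℚ)))
    (n n₀ : HeightOneSpectrum (𝓞 F) → ℕ) (m : HeightOneSpectrum (𝓞 ℚ) → ℕ) : Prop where
  div : ∀ v : HeightOneSpectrum (𝓞 ℚ), v ∈ T₀ ↔ v.asIdeal ∣ 𝔫
  lev_dn : IsLevelOf893 𝔫 m
  lev_up : IsLevelOf893 (upI (K' := F) 𝔫) n
  lev_base : IsLevelOf893 B.𝔑₀ n₀

end Defs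

/-! ## 2. The nodes and the leaf on the coset systems -/

section Nodes

variable (P : EKCond)
variable (F : Type) [Field F] [NumberField F]

/-- **LEAF T7.L2Q.1.H2a.0 = SYS (small; plug of closed leaves).**  For a good common part and a
bad element the five coset systems of the pre-data exist: a double coset system of `g` for the
base level, Iwahori coset systems and scalar uniformisers at `o 0` and at `u`.
Proof: the closed leaves of helper704 (`T7/H704/SysExists.lean`: `badSystemExistsC704`,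
`iwSystemExistsC704`) / helper567 (row 2372) and the existence of a scalar uniformiser
(`T7/H340/IwKit.lean`). -/
def SysQC57 : Prop :=
  ∀ (Φ : HeckeEigensystem F ℂ) (B : L2QBase962 F), IsL2QBase962 Φ B →
    ∀ g : G F, B.IsBad g →
      ∃ (Hg H' : Finset (G F)) (z' : G F) (H : Finset (G ℚ)) (z : G ℚ),
        IsSysQ57 B g Hg H' z' H z

/-- **NODE T7.L2Q.1.H2a.1 = PAIR-1 over `ℚ` (the first pair; T3.18M + T3.18R + T6).**  For a
common part of helper60 with `3 ∈ S`, EVERY level `𝔫`, all Haar measures and the level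
functions: the first pair `(Φ₁, F₁)` with the scalar `c₁` exists.
Construction (hints of helper797, notes 18148 / 18248).  Datum `(P', e', a₀)` of `GoodEKM F Φ`
for the level `𝔫 𝒪_F` and `S'`; core `Φ'` of `T3.M.EKCoreC` (telescoping, Fourier transform
`≠ 0` at the parameters of `Φ`); `Φ₁ []` := the member of `T3.M.pairSpanM` over `Φ'`
(`T3.M.pairExistM_c`, `T3.M.ekOfPairM_c`: test function, EK, EK adjoint, supported at
`P' ∪ S_∞`, operator scalars); `Φ₁ X` := the Hecke operators and the sphere means of the word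
applied to the local factors of `Φ₁ []` at the places of `X` (again a member of the span: the
core is multiplied by the Satake polynomials, which telescopes again).  Downstairs the NORM
datum `(P, e, N a₀)`, the push-forward core, local factors = T6-matches of the local factors
upstairs (`T6.SplitMatchC` convolution product, `T6.BCExistsC` + `T6.FundLemmaC` base change,
`T6.ArchMatchC` at the real place), which are Satake / Abel pairs of T3.18R by the bridge
leaves B1, B2, `SatakeInjC` (note 18248); `T3.R.ekOfPairR_c` gives `dn1_test`, `dn1_ek` and the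
operator scalars, whence `dn1_op`, `dn1_wfn`, `dn1_class`, `dn1_comm` (the function is a unit
at the places of the level). -/
def Pair1QC57 : Prop :=
  HasSqrtNegThree F → IsImagQuad F →
    ∀ Φ : HeckeEigensystem F ℂ, A0.IsCuspAdelicSph0 F Φ → ConstOnFibresQ Φ → P F Φ →
      ∀ B : L2Q.H60.L2QBase F, L2Q.H60.IsL2QBase Φ B → L2Q.H60.IsRamQ60 B →
      ∀ 𝔫 : Ideal (𝓞 ℚ), IsLevQ57 (toBase962_732 B) 𝔫 →
      ∀ (μr : @Measure (GL (Fin 2) ℝ) (borel _)) (μc : @Measure (GL (Fin 2) ℂ) (borel _)),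
        @Measure.IsHaarMeasure _ _ _ (borel _) μr →
        @Measure.IsHaarMeasure _ _ _ (borel _) μc →
      ∀ (T₀ : Finset (HeightOneSpectrum (𝓞 ℚ)))
        (n n₀ : HeightOneSpectrum (𝓞 F) → ℕ) (m : HeightOneSpectrum (𝓞 ℚ) → ℕ),
        IsLevFnQ57 (toBase962_732 B) 𝔫 T₀ n n₀ m →
        ∃ (c₁ : EigData F → ℂ) (Φ₁ : List (Gen F) → G F → ℂ)
          (F₁ : QWt → List (Gen F) → G ℚ → ℂ),
          IsPair1Q57 Φ (toBase962_732 B) 𝔫 μr μc T₀ n m c₁ Φ₁ F₁

/-- **NODE T7.L2Q.1.H2a.2 = PAIR-2 over `ℚ` (the second pair; T3.18M + T3.18R + T6 + `♮`).**  For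
a common part of helper60 with `3 ∈ S` and a bad element `g` there is a LEVEL `𝔫` such that for
all Haar measures, the level functions and every constant `a ≠ 0` the second pair `(φ₂, f₂)`
with the scalar `c₂` exists.
Construction.  `𝔫 = 𝔫₀ ^ d` (`𝔫₀` the base level downstairs, `IsL2QBase.base_level`), `d` so
large that the partners `f_v` of `1_{U₀ g_w U₀}` at the bad places `v ≠ u` (`T6.BadMatchC`,
closed, at the places with one place over them, the ramified place included; at the split bad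
places the convolution product) are bi-invariant under `U(𝔫)_v`.  `φ₂` := the `♮`-average
(finite group `U(𝔑₀) / U(𝔫 𝒪_F)` and the compact torus of the positive scalars at infinity
modulo the ray: kit of helper40, `T7/H40/ProjClosed.lean`) of an Eisenstein-killing function
as in PAIR-1; `f₂ t` := `a` times the average of the pure tensors with the partners at the bad
places, the Iwahori function at `u`, the T6-matches outside the level and the factor of type
`t` at infinity. -/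
def Pair2QC57 : Prop :=
  HasSqrtNegThree F → IsImagQuad F →
    ∀ Φ : HeckeEigensystem F ℂ, A0.IsCuspAdelicSph0 F Φ → ConstOnFibresQ Φ → P F Φ →
      ∀ B : L2Q.H60.L2QBase F, L2Q.H60.IsL2QBase Φ B → L2Q.H60.IsRamQ60 B →
      ∀ g : G F, B.IsBad g →
      ∃ 𝔫 : Ideal (𝓞 ℚ), IsLevQ57 (toBase962_732 B) 𝔫 ∧
        ∀ (μr : @Measure (GL (Fin 2) ℝ) (borel _)) (μc : @Measure (GL (Fin 2) ℂ) (borel _)),
          @Measure.IsHaarMeasure _ _ _ (borel _) μr →
          @Measure.IsHaarMeasure _ _ _ (borel _) μc →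
        ∀ (T₀ : Finset (HeightOneSpectrum (𝓞 ℚ)))
          (n n₀ : HeightOneSpectrum (𝓞 F) → ℕ) (m : HeightOneSpectrum (𝓞 ℚ) → ℕ),
          IsLevFnQ57 (toBase962_732 B) 𝔫 T₀ n n₀ m →
          ∀ a : ℂ, a ≠ 0 →
            ∃ (c₂ : EigData F → ℂ) (φ₂ : G F → ℂ) (f₂ : QWt → G ℚ → ℂ),
              IsPair2Q57 Φ (toBase962_732 B) g 𝔫 μr μc T₀ n n₀ m a c₂ φ₂ f₂

end Nodes

/-! ## Appendix: the equation lemmas of the definitions of this file are realised HERE -/

theorem eqns_realised_baseQSpec57 : True := by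
  have _h0_0 := @HaarRC57.eq_1
  have _h0_1 := @HaarRC57.eq_def
  have _h0_2 := @HaarRC57.eq_unfold
  have _h1_0 := @HaarCC57.eq_1
  have _h1_1 := @HaarCC57.eq_def
  have _h1_2 := @HaarCC57.eq_unfold
  have _h2_0 := @DivSetC57.eq_1
  have _h2_1 := @DivSetC57.eq_def
  have _h2_2 := @DivSetC57.eq_unfold
  have _h3_0 := @LevFnC57.eq_1
  have _h3_1 := @LevFnC57.eq_def
  have _h3_2 := @LevFnC57.eq_unfold
  have _h4_0 := @SysQC57.eq_1
  have _h4_1 := @SysQC57.eq_def
  have _h4_2 := @SysQC57.eq_unfold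
  have _h5_0 := @Pair1QC57.eq_1
  have _h5_1 := @Pair1QC57.eq_def
  have _h5_2 := @Pair1QC57.eq_unfold
  have _h6_0 := @Pair2QC57.eq_1
  have _h6_1 := @Pair2QC57.eq_def
  have _h6_2 := @Pair2QC57.eq_unfold
  trivial

end Fermat.Agent.LT.T7.CQ57

end

end
-- ===== PACK-END LT/T7/H57/BaseQSpec.lean

-- ===== PACK-BEGIN LT/T7/H644/UnramQ.lean
section



/-!
# Row LT, tower T7, leaf T7.L2Q.1.H2.2 `UnramQC57` (SPARE by helper644; row 2681, owner helper270)

OFF-MAIN.  Spec: `T7/H57/ConstrQSpec.lean` (helper57@origin, first cut of `ConstrQRC732`).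
Imports ONLY Mathlib and the Spec (self-contained: one file to vendor).

    unramQC644 (F) : CQ57.UnramQC57 F            VERBATIM, UNCONDITIONAL

Proof.  `ζ = (θ - 1)/2`, `θ² = -3`, is integral with minimal polynomial `X² + X + 1` over `𝓞 ℚ`
(degree two: `ζ` is not rational) and generates `F` (degree two), so
`2ζ + 1 = θ` lies in the different (`aeval_derivative_mem_differentIdeal`).  A place `w` which
divides the different contains `θ`, hence `3`, hence lies in `S'` (`3 ∈ S`,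
`full_of_isL2QBase60`).  A place which does not divide the different is unramified
(`not_dvd_differentIdeal_iff`): a uniformiser of `v` is not in `w²`.
-/

set_option autoImplicit false
set_option linter.unusedSectionVars false
set_option linter.deprecated false

open AutomorphicForm IsDedekindDomain NumberField WithZero Polynomial

noncomputable section

namespace Fermat.Agent.LT.T7.H644

open Fermat.Agent.LT.H556 Fermat.Agent.LT.H556.A0 Fermat.Agent.LT.T7

/-- `PlaceOver` gives `LiesOver`. -/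
theorem liesOver_unram644 {K K' : Type} [Field K] [NumberField K] [Field K']
    [NumberField K'] [Algebra K K'] {v : HeightOneSpectrum (𝓞 K)}
    {w : HeightOneSpectrum (𝓞 K')} (h : PlaceOver K K' v w) :
    w.asIdeal.LiesOver v.asIdeal := by
  refine ⟨?_⟩
  ext x
  rw [Ideal.under_def, Ideal.mem_comap]
  exact h x (algebraMap (𝓞 K) (𝓞 K') x) rfl

/-- An imaginary quadratic field has degree two. -/
theorem finrank_two_unram644 {F : Type} [Field F] [NumberField F] (h : IsImagQuad F) :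
    Module.finrank ℚ F = 2 := by
  classical
  have h0 : InfinitePlace.nrRealPlaces F = 0 := by
    unfold InfinitePlace.nrRealPlaces
    rw [Fintype.card_eq_zero_iff]
    exact ⟨fun w => InfinitePlace.not_isReal_iff_isComplex.2 (h.2 w.1) w.2⟩
  have h1 : InfinitePlace.nrComplexPlaces F = 1 := by
    unfold InfinitePlace.nrComplexPlaces
    have hc : Fintype.card (InfinitePlace F) = 1 := by
      rw [← Nat.card_eq_fintype_card]; exact h.1
    rw [← hc]
    exact Fintype.card_of_subtype Finset.univ (fun w => by simp [h.2 w])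
  have := InfinitePlace.card_add_two_mul_card_eq_rank (K := F)
  rw [h0, h1] at this
  omega

/-- A place which does not divide the different is unramified: some element of `v` is not in
`w²`. -/
theorem exists_unif_of_not_dvd644 {K K' : Type} [Field K] [NumberField K] [Field K']
    [NumberField K'] [Algebra K K'] (v : HeightOneSpectrum (𝓞 K))
    (w : HeightOneSpectrum (𝓞 K')) (hvw : PlaceOver K K' v w)
    (h1 : ¬ w.asIdeal ∣ differentIdeal (𝓞 K) (𝓞 K')) :
    ∃ x : 𝓞 K, x ∈ v.asIdeal ∧ algebraMap (𝓞 K) (𝓞 K') x ∉ w.asIdeal ^ 2 := by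
  have hun : Algebra.IsUnramifiedAt (𝓞 K) w.asIdeal := not_dvd_differentIdeal_iff.1 h1
  have he : w.asIdeal.ramificationIdx (𝓞 K) = 1 :=
    Ideal.ramificationIdx_eq_one_of_isUnramifiedAt
  have := liesOver_unram644 hvw
  have he' : v.asIdeal.ramificationIdx' w.asIdeal = 1 := by
    rw [Ideal.ramificationIdx'_eq_ramificationIdx v.asIdeal w.asIdeal v.ne_bot]
    exact he
  obtain ⟨x, hx⟩ := v.intValuation_exists_uniformizer
  have h2 := HeightOneSpectrum.intValuation_liesOver v w x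
  rw [he', pow_one, hx] at h2
  refine ⟨x, ?_, ?_⟩
  · rw [← HeightOneSpectrum.intValuation_lt_one_iff_mem, hx, ← exp_zero, exp_lt_exp]
    omega
  · intro hmem
    have h3 := (HeightOneSpectrum.intValuation_le_pow_iff_mem w _ 2).2 hmem
    rw [← h2, exp_le_exp] at h3
    omega

variable {F : Type} [Field F] [NumberField F]

/-- In a quadratic field with a square root of `-3` the different contains this square root. -/
theorem sqrt_mem_different644 (hd : Module.finrank ℚ F = 2) (θ : F) (hθ : θ * θ = -3) :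
    ∃ t : 𝓞 F, t * t = -3 ∧ t ∈ differentIdeal (𝓞 ℚ) (𝓞 F) := by
  classical
  -- the cube root of unity
  set ζ : F := (θ - 1) / 2 with hζdef
  have hζ : ζ ^ 2 + ζ + 1 = 0 := by
    have : ζ ^ 2 + ζ + 1 = (θ * θ + 3) / 4 := by rw [hζdef]; ring
    rw [this, hθ]; norm_num
  have hθζ : θ = 2 * ζ + 1 := by rw [hζdef]; ring
  have hint : IsIntegral ℤ ζ := by
    refine ⟨X ^ 2 + X + 1, ?_, ?_⟩
    · monicity!
    · simp [hζ]
  set z : 𝓞 F := ⟨ζ, hint⟩ with hzdef
  have hzF : algebraMap (𝓞 F) F z = ζ := rfl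
  have hz : z ^ 2 + z + 1 = 0 := by
    apply RingOfIntegers.coe_injective
    show algebraMap (𝓞 F) F (z ^ 2 + z + 1) = algebraMap (𝓞 F) F 0
    rw [map_add, map_add, map_pow, map_one, map_zero, hzF]
    exact hζ
  -- `ζ` is not rational
  have hirr : ∀ q : ℚ, algebraMap ℚ F q ≠ ζ := by
    intro q hq
    have h1 : algebraMap ℚ F ((2 * q + 1) * (2 * q + 1)) = algebraMap ℚ F (-3) := by
      simp only [map_mul, map_add, map_one, map_neg, map_ofNat, hq]
      rw [← hθζ, hθ]
    have h2 := (algebraMap ℚ F).injective h1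
    nlinarith [sq_nonneg (2 * q + 1)]
  -- the minimal polynomial
  set P : (𝓞 ℚ)[X] := X ^ 2 + X + 1 with hP
  have hPm : P.Monic := by rw [hP]; monicity!
  have hPd : P.natDegree = 2 := by rw [hP]; compute_degree!
  have hPz : aeval z P = 0 := by simp [hP, hz]
  have hzint : IsIntegral (𝓞 ℚ) z := ⟨P, hPm, by simpa [aeval_def] using hPz⟩
  have hdvd : minpoly (𝓞 ℚ) z ∣ P := minpoly.isIntegrallyClosed_dvd hzint hPz
  have hdeg : 2 ≤ (minpoly (𝓞 ℚ) z).natDegree := by
    rw [minpoly.two_le_natDegree_iff hzint]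
    rintro ⟨a, ha⟩
    apply hirr (algebraMap (𝓞 ℚ) ℚ a)
    have : algebraMap (𝓞 F) F (algebraMap (𝓞 ℚ) (𝓞 F) a) = ζ := by
      rw [ha, hzF]
    rw [← this]
    exact (IsScalarTower.algebraMap_apply (𝓞 ℚ) ℚ F a).symm.trans
      (IsScalarTower.algebraMap_apply (𝓞 ℚ) (𝓞 F) F a)
  have hmin : minpoly (𝓞 ℚ) z = P := by
    symm
    exact (Polynomial.eq_of_monic_of_dvd_of_natDegree_le (minpoly.monic hzint) hPm hdvd
      (by rw [hPd]; exact hdeg))
  -- `ζ` generates `F`
  have hgen : Algebra.adjoin ℚ {algebraMap (𝓞 F) F z} = ⊤ := by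
    rw [hzF]
    have hfd : FiniteDimensional ℚ F := inferInstance
    have hintQ : IsIntegral ℚ ζ := hint.tower_top
    have hdegQ : 2 ≤ (minpoly ℚ ζ).natDegree := by
      rw [minpoly.two_le_natDegree_iff hintQ]
      rintro ⟨q, hq⟩
      exact hirr q hq
    have hle : (minpoly ℚ ζ).natDegree ≤ 2 := by
      rw [← hd]
      exact minpoly.natDegree_le ζ
    have htop : IntermediateField.adjoin ℚ {ζ} = ⊤ := by
      rw [Field.primitive_element_iff_minpoly_natDegree_eq, hd]
      omega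
    have := congrArg IntermediateField.toSubalgebra htop
    rw [IntermediateField.adjoin_simple_toSubalgebra_of_isAlgebraic hintQ.isAlgebraic] at this
    simpa using this
  have hmem := aeval_derivative_mem_differentIdeal (𝓞 ℚ) ℚ F z hgen
  rw [hmin] at hmem
  have hder : aeval z (derivative P) = 2 * z + 1 := by
    simp [hP]
    exact Or.inl (by norm_num)
  rw [hder] at hmem
  refine ⟨2 * z + 1, ?_, hmem⟩
  have : (2 * z + 1) * (2 * z + 1) = 4 * (z ^ 2 + z + 1) - 3 := by ring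
  rw [this, hz]; ring

/-- **LEAF T7.L2Q.1.H2.2 = UNRAM** (`CQ57.UnramQC57 F`, VERBATIM). -/
theorem unramQC644 (F : Type) [Field F] [NumberField F] : CQ57.UnramQC57 F := by
  intro h3 hquad Φ B hB hram v w hvw hw
  obtain ⟨θ, hθ⟩ := h3
  obtain ⟨t, ht, htmem⟩ := sqrt_mem_different644 (finrank_two_unram644 hquad) θ hθ
  refine exists_unif_of_not_dvd644 v w hvw (fun hdvd => hw ?_)
  have htw : t ∈ w.asIdeal := (Ideal.dvd_iff_le.1 hdvd) htmem
  have h3w : ((3 : ℕ) : 𝓞 F) ∈ w.asIdeal := by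
    have h1 : t * t ∈ w.asIdeal := w.asIdeal.mul_mem_left t htw
    rw [ht] at h1
    have h2 := w.asIdeal.neg_mem h1
    rw [neg_neg] at h2
    exact_mod_cast h2
  exact L2Q.H60.full_of_isL2QBase60 hB 3 Nat.prime_three hram w h3w

end Fermat.Agent.LT.T7.H644

end

end
-- ===== PACK-END LT/T7/H644/UnramQ.lean

-- ===== PACK-BEGIN LT/T3/R/ClosedRU.lean
section



/-!
# Row LT, tower T3, station T3.18R (architect helper14): THE STATION IS CLOSED, UNCONDITIONAL

OFF-MAIN.  Complete proofs, nothing assumed.  The last leaf R.4 `ROpRC` (registry 2301) is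
`H321.rOpRC321` (helper321, `R/H321/ROpR.lean`, byte-identical copy); with `R/ClosedR.lean`:

* `openR_c K : OpenR K`, `openMeanR_c K : OpenMeanR K` (every leaf of `R/Spec.lean`);
* `abelSatakeR_c K : AbelSatakeRC K` (the Abel--Satake pair at real places, with `pairSpanR`);
* **`ekOpExistR_c K : EKOpExistRC K`** = THE OUTPUT of station T3.18R: Eisenstein-killing test
  functions over a totally real field (`ℚ`), `K_∞`-types of weights `0, ±1`, T5 vocabulary,
  abstract local classes;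
* **`ekOpExistMeanR_c K : EKOpExistMeanRC K`** = the same for the joint eigenfunctions of the
  circle means.
-/

set_option autoImplicit false
set_option linter.style.haveILetI false

open IsDedekindDomain NumberField MeasureTheory
open Fermat.Agent.LT.H556.A0

noncomputable section

namespace Fermat.Agent.LT.T3.R

open Fermat.Agent.LT.T3.AS Fermat.Agent.LT.T3.M

variable (K : Type) [Field K] [NumberField K]

/-- **R.4 CLOSED** (helper321). -/
theorem rOpR_c : ROpRC K := H321.rOpRC321 K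

/-- Every leaf of station T3.18R (output `EKOpExistRC`). -/
theorem openR_c : OpenR K := openR_of_rOp K (rOpR_c K)

/-- Every leaf of station T3.18R (output `EKOpExistMeanRC`). -/
theorem openMeanR_c : OpenMeanR K := openMeanR_of_rOp K (rOpR_c K)

/-- **The Abel--Satake pair at real places, UNCONDITIONAL.** -/
theorem abelSatakeR_c : AbelSatakeRC K := abelSatakeR_of_rOp K (rOpR_c K)

/-- **THE OUTPUT of station T3.18R, UNCONDITIONAL.** -/
theorem ekOpExistR_c : EKOpExistRC K := ekOpExistR_of_rOp K (rOpR_c K)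

/-- **THE OUTPUT for the joint eigenfunctions of the circle means, UNCONDITIONAL.** -/
theorem ekOpExistMeanR_c : EKOpExistMeanRC K := ekOpExistMeanR_of_rOp K (rOpR_c K)

end Fermat.Agent.LT.T3.R

end

end
-- ===== PACK-END LT/T3/R/ClosedRU.lean

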