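import Mathlib
import Fermat.Agent.Pack.LT4.E1L3
import Fermat.Agent.Pack.LT3.E30L1
import Fermat.Agent.Pack.LT3.E29L3
import Fermat.Agent.Pack.LT4.E5L1
import Fermat.Agent.Pack.LT4.E6L2
import Fermat.Agent.Pack.LT4.E6L3
import Fermat.Agent.Pack.LT4.E6L1
import Fermat.Agent.Pack.LT4.E7L2
import Fermat.Agent.Pack.LT4.E7L1
import Fermat.Agent.Pack.LT4.E5L3
import Fermat.Agent.Pack.LT2.E6L0
import Fermat.Agent.Pack.LT3.E21L1
import Fermat.Agent.Pack.LT4.E2L0
import Fermat.Agent.Pack.LT2.E5L1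
import Fermat.Agent.Pack.LT2.E7L2
import Fermat.Agent.Pack.LT4.E2L2
import Fermat.Agent.Pack.LT4.E5L0
import Fermat.Agent.Pack.LT3.E30L3
import Fermat.Agent.Pack.LT3.E29L2
import Fermat.Agent.Pack.LT4.E1L2
import Fermat.Agent.Pack.LT4.E7L3
import Fermat.Agent.Pack.LT3.E0L3
import Fermat.Agent.Pack.LT2.E10L3

set_option linter.all false

-- ===== PACK-BEGIN LT/T7/H193/PairBClosed.lean
section








/-!
# Row LT, tower T7, node T7.L2.1.H2a.B `Q797.PairBC797` (registry row 2729): INTEGRATION of the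
# natural-average step (helper193, owner of the row; cut of record = helper57 `PairBSpec.lean`)

OFF-MAIN.  Complete proofs, nothing assumed, UNCONDITIONAL.  Byte-identical copies of
`T7/H57/PairB{Spec,Top}.lean` (helper57), `T7/H115/Nat{Up,Dn}.lean` (helper115),
`T7/H75/NatShape*.lean` (helper75), `T1/Closed.lean` (helper54, master bytes).

    pairBCb_of_preBC193 : PB57.PreBC57 P K K' LocB893b → Q797.PairBC797 P K K' LocB893b
    pairB0C_iff_preBC193 : PairB0C193 P K K' LB ↔ PB57.PreBC57 P K K' LB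
    pairBCb_of_pairB0C_closed193 : PairB0C193 P K K' LocB893b → Q797.PairBC797 P K K' LocB893b

So the ONLY open item of the node PAIR-B is the node `PB57.PreBC57 P K K' LocB893b`
(= `PairB0C193`): the UN-AVERAGED, KILL-FREE second pair.
-/

set_option autoImplicit false
set_option linter.unusedSectionVars false

open AutomorphicForm IsDedekindDomain NumberField MeasureTheory
open scoped ComplexConjugate

noncomputable section

namespace Fermat.Agent.LT.T7.H193

open Fermat.Agent.LT.H556 Fermat.Agent.LT.H556.A0 Fermat.Agent.LT Fermat.Agent.LT.T7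
open Fermat.Agent.LT.T7.H893 Fermat.Agent.LT.T7.H305

attribute [local instance] Fermat.Agent.LT.T5.instMeasurableSpaceG

variable {P : EKCond}
variable {K K' : Type} [Field K] [NumberField K] [Field K'] [NumberField K'] [Algebra K K']

/-- The kill-free pair of this station IS the un-averaged pair of helper57. -/
theorem isPairB0_iff_isPreB193 {LB : Q797.ShapeB797 K K'} {ℓ : ℕ} {Φ : HeckeEigensystem K' ℂ}
    {B : L2Base K K'} {g : G K'} {𝔫 : Ideal (𝓞 K)}
    {μc : @Measure (GL (Fin 2) ℂ) (borel _)} {T₀ : Finset (HeightOneSpectrum (𝓞 K))}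
    {n n₀ : HeightOneSpectrum (𝓞 K') → ℕ} {m : HeightOneSpectrum (𝓞 K) → ℕ} {a : ℂ}
    {c₂ : EigData K' → ℂ} {φ₀ : G K' → ℂ} {f₀ : G K → ℂ} :
    IsPairB0_193 LB ℓ Φ B g 𝔫 μc T₀ n n₀ m a c₂ φ₀ f₀
      ↔ PB57.IsPreB57 LB ℓ Φ B g 𝔫 μc T₀ n n₀ m a c₂ φ₀ f₀ :=
  ⟨fun h => ⟨h.up_test, h.up_ek, h.up_inv, h.up_op, h.up_ne, h.dn_test, h.dn_ek, h.dn_inv,
      h.dn_wfn, h.dn_class, h.dn_comm, h.up_supp, h.dn_supp, h.shape⟩,
    fun h => ⟨h.up_test, h.up_ek, h.up_inv, h.up_op, h.up_ne, h.dn_test, h.dn_ek, h.dn_inv,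
      h.dn_wfn, h.dn_class, h.dn_comm, h.up_supp, h.dn_supp, h.shape⟩⟩

/-- The two forms of the node of the un-averaged pair agree. -/
theorem pairB0C_iff_preBC193 {LB : Q797.ShapeB797 K K'} :
    PairB0C193 P K K' LB ↔ PB57.PreBC57 P K K' LB := by
  constructor
  · intro h ℓ hcyc hℓ htot Φ hΦ hconst hP B hB hram g hg
    obtain ⟨𝔫, μc, hlev, hμ, H⟩ := h ℓ hcyc hℓ htot Φ hΦ hconst hP B hB hram g hg
    refine ⟨𝔫, μc, hlev, hμ, fun T₀ n n₀ m hexp a ha => ?_⟩
    obtain ⟨c₂, φ₀, f₀, hp⟩ := H T₀ n n₀ m hexp a ha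
    exact ⟨c₂, φ₀, f₀, isPairB0_iff_isPreB193.mp hp⟩
  · intro h ℓ hcyc hℓ htot Φ hΦ hconst hP B hB hram g hg
    obtain ⟨𝔫, μc, hlev, hμ, H⟩ := h ℓ hcyc hℓ htot Φ hΦ hconst hP B hB hram g hg
    refine ⟨𝔫, μc, hlev, hμ, fun T₀ n n₀ m hexp a ha => ?_⟩
    obtain ⟨c₂, φ₀, f₀, hp⟩ := H T₀ n n₀ m hexp a ha
    exact ⟨c₂, φ₀, f₀, isPairB0_iff_isPreB193.mpr hp⟩

/-- **THE NODE PAIR-B (form of record v2) FROM THE UN-AVERAGED PAIR**, UNCONDITIONAL
(this station: `pairBCb_of_pairB0C193` with the closed tower T1). -/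
theorem pairBCb_of_pairB0C_closed193 (h0 : PairB0C193 P K K' LocB893b) :
    Q797.PairBC797 P K K' LocB893b :=
  pairBCb_of_pairB0C193 (T1.t1Out K) (T1.t1Out K') h0

/-- **THE NODE PAIR-B (form of record v2) FROM THE NODE `PreBC57` OF helper57**,
UNCONDITIONAL. -/
theorem pairBCb_of_preBC193 (h0 : PB57.PreBC57 P K K' LocB893b) :
    Q797.PairBC797 P K K' LocB893b :=
  pairBCb_of_pairB0C_closed193 (pairB0C_iff_preBC193.mpr h0)

/-- The same through the top and the leaves of the cut of helper57 (leaves: helper115,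
helper75). -/
theorem pairBCb_of_preBC_leaves193 (h0 : PB57.PreBC57 P K K' LocB893b) :
    Q797.PairBC797 P K K' LocB893b :=
  PB57.pairBC_of57 (relTorus_closed193 K K') h0 (H115.natUpC115 K K' _)
    (H115.natDnC115 K K' _) (H75.NS.natShapeC75 K K')

/-- **`H893.BaseCb` from the first pair and the un-averaged second pair.** -/
theorem baseCb_of_preBC193 (hE : Q797.ExpC797 K K') (hCo : Q797.CosetC797 K K')
    (hA : Q797.PairAC797 P K K' LocA893) (h0 : PB57.PreBC57 P K K' LocB893b) :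
    BaseCb P K K' :=
  Q797.baseCb_of797 hE hCo hA (pairBCb_of_preBC193 h0)

end Fermat.Agent.LT.T7.H193

end

end
-- ===== PACK-END LT/T7/H193/PairBClosed.lean

-- ===== PACK-BEGIN LT/T7/B981/H503/StepS.lean
section











/-!
# Row LT, tower T7, node T7.L2.1.H2a.A.2 `B981.StepSC981` (registry row 2815, owner helper503):
# THE NODE, UNCONDITIONAL

OFF-MAIN.  Complete proof, nothing assumed.

    stepSC503 (K K') : B981.StepSC981 K K' H893.LocA893

= the proved top `SS503.stepSC_of503` (`StepSTop.lean`) applied to the nine delivered leaves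
(`StepSSpec.lean`, registry rows 2869-2877):

* `UnifC503`      `B981.H704.unifC704`       (helper704, plug of `H129.exists_scalarUniformizer129`)
* `TrTestC503`    `B981.H519.trTestC519`     (helper519)
* `TrEKC503`      `T7.H290S.trEKC290`        (helper290)
* `TrSuppC503`    `T7.H387S.trSuppC387`      (helper387)
* `TrOpC503`      `T7.H290S.trOpC290`        (helper290)
* `PlacesC503`    `T7.H963.placesC963`       (helper963)
* `SphShiftC503`  `B981.H619.sphShiftC619`   (helper619)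
* `UnitSphC503`   `B981.H619.unitSphC619`    (helper619)
* `PureShiftC503` `T7.H802.pureShiftC802`    (helper802)
-/

set_option autoImplicit false

open AutomorphicForm IsDedekindDomain NumberField MeasureTheory

noncomputable section

namespace Fermat.Agent.LT.T7.B981.SS503

open Fermat.Agent.LT.T7

/-- **NODE A.2 = STEP-S**, unconditional: the step of the generators `S_w`, `S_w⁻¹`
(`w` a finite place of `K'` outside `S'`), of record for `LA = H893.LocA893`. -/
theorem stepSC503 (K K' : Type) [Field K] [NumberField K] [Field K'] [NumberField K']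
    [Algebra K K'] : B981.StepSC981 K K' H893.LocA893 :=
  stepSC_of503 K K' (B981.H704.unifC704 K) (B981.H704.unifC704 K')
    (B981.H519.trTestC519 K) (B981.H519.trTestC519 K')
    (H290S.trEKC290 K) (H290S.trEKC290 K')
    (H387S.trSuppC387 K) (H387S.trSuppC387 K')
    (H290S.trOpC290 K) (H290S.trOpC290 K')
    (H963.placesC963 K K') B981.H619.sphShiftC619 B981.H619.unitSphC619
    (H802.pureShiftC802 K) (H802.pureShiftC802 K')

end Fermat.Agent.LT.T7.B981.SS503

end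

end
-- ===== PACK-END LT/T7/B981/H503/StepS.lean

-- ===== PACK-BEGIN LT/T7/B981/H726/IwSupp.lean
section



/-!
# Row LT, tower T7, leaf T7.L2.1.H2a.A.0.S `IwSuppC981` (helper726, registry row 2913)

OFF-MAIN.  `iwSuppC726 (K) : B981.IwSuppC981 K`, VERBATIM against
`LT/T7/B981/PairBaseSpec.lean` (sha256 cfa0d9f73f18ec34, helper981@7f85485a9), unconditional.
Imports: Mathlib + the spec closure only.  New names only (suffix `726`).

Proof.  `C = tsupport f` (compact: `HasCompactSupport f`), `T5.H32.isIwSupported_of_support32`.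
On the support of `f` the entries of `y_v - 1`, `y_v⁻¹ - 1` lie in the closure of `𝔫` in `K_v`
for every finite `v ∉ P` (`T3.M.IsSuppAtM`); for `v = o j ∣ 𝔫` this closure is contained in the
open unit ball (closed in `K_v`; the elements of `𝔫 ⊆ v` have valuation `< 1`), so the entries of
`y_v`, `y_v⁻¹` are integral and the lower left entry of `y_v` has valuation `< 1`:
`T5.InIwahori (o j) y`.
-/

set_option autoImplicit false

open IsDedekindDomain NumberField

noncomputable section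

namespace Fermat.Agent.LT.T7.B981.H726

open Fermat.Agent.LT.H556 Fermat.Agent.LT.H556.A0 Fermat.Agent.LT

variable {K : Type} [Field K] [NumberField K]

/-- The open unit ball of `K_v` is closed. -/
theorem isClosed_lt_one726 (v : HeightOneSpectrum (𝓞 K)) :
    IsClosed {z : v.adicCompletion K | Valued.v z < 1} := by
  have h := Valued.isClosed_ball (v.adicCompletion K) (1 : _)
  simpa only [Valuation.restrict_lt_one_iff] using h

/-- If `v ∣ 𝔫` then the closure of `𝔫` in `K_v` lies in the open unit ball. -/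
theorem valued_lt_one_of_mem_idealClosure726 {𝔫 : Ideal (𝓞 K)} {v : HeightOneSpectrum (𝓞 K)}
    (hv : v.asIdeal ∣ 𝔫) {x : v.adicCompletion K} (hx : x ∈ idealClosure 𝔫 v) :
    Valued.v x < 1 := by
  have hsub : idealClosure 𝔫 v ⊆ {z : v.adicCompletion K | Valued.v z < 1} := by
    refine closure_minimal ?_ (isClosed_lt_one726 v)
    rintro _ ⟨a, ha, rfl⟩
    show Valued.v (algebraMap K (v.adicCompletion K) (algebraMap (𝓞 K) K a)) < 1
    have key : Valued.v (algebraMap K (v.adicCompletion K) (algebraMap (𝓞 K) K a))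
        = v.valuation K (algebraMap (𝓞 K) K a) :=
      HeightOneSpectrum.valuedAdicCompletion_eq_valuation' v _
    rw [key, HeightOneSpectrum.valuation_lt_one_iff_mem]
    exact Ideal.le_of_dvd hv ha
  exact hsub hx

/-- A matrix over `K_v` which is congruent to `1` modulo the open unit ball has integral
entries. -/
theorem integral_of_sub_one726 (v : HeightOneSpectrum (𝓞 K))
    (M : Matrix (Fin 2) (Fin 2) (v.adicCompletion K))
    (h : ∀ i j : Fin 2, Valued.v ((M - 1) i j) < 1) (i j : Fin 2) :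
    M i j ∈ v.adicCompletionIntegers K := by
  rw [HeightOneSpectrum.mem_adicCompletionIntegers]
  have e : M i j = (M - 1) i j + (1 : Matrix (Fin 2) (Fin 2) (v.adicCompletion K)) i j := by
    rw [Matrix.sub_apply, sub_add_cancel]
  have h1 : Valued.v ((1 : Matrix (Fin 2) (Fin 2) (v.adicCompletion K)) i j) ≤ 1 := by
    by_cases hij : i = j
    · subst hij
      rw [Matrix.one_apply_eq, map_one]
    · rw [Matrix.one_apply_ne hij, map_zero]
      exact zero_le
  rw [e]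
  exact (Valuation.map_add _ _ _).trans (max_le (h i j).le h1)

/-- The lower left entry of a matrix congruent to `1` modulo the open unit ball lies in the
open unit ball. -/
theorem lower_left_of_sub_one726 (v : HeightOneSpectrum (𝓞 K))
    (M : Matrix (Fin 2) (Fin 2) (v.adicCompletion K))
    (h : ∀ i j : Fin 2, Valued.v ((M - 1) i j) < 1) : Valued.v (M 1 0) < 1 := by
  have e : M 1 0 = (M - 1) 1 0 := by
    rw [Matrix.sub_apply, Matrix.one_apply_ne (by decide : (1 : Fin 2) ≠ 0), sub_zero]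
  rw [e]
  exact h 1 0

/-- On the support of a function supported at `P ∪ S_∞` the points are Iwahori at the places
`w ∣ 𝔫` outside `P`. -/
theorem inIwahori_of_outsideUM726 {𝔫 : Ideal (𝓞 K)} {P : Finset (HeightOneSpectrum (𝓞 K))}
    {w : HeightOneSpectrum (𝓞 K)} (hw : w.asIdeal ∣ 𝔫) (hP : w ∉ P) {y : G K}
    (hy : T3.M.OutsideUM K 𝔫 P y) : T5.InIwahori w y := by
  have h1 : ∀ i j : Fin 2, Valued.v ((finComp w y - 1) i j) < 1 := fun i j =>
    valued_lt_one_of_mem_idealClosure726 hw (hy w hP i j).1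
  have h2 : ∀ i j : Fin 2, Valued.v ((finComp w y⁻¹ - 1) i j) < 1 := fun i j =>
    valued_lt_one_of_mem_idealClosure726 hw (hy w hP i j).2
  exact ⟨fun i j => integral_of_sub_one726 w _ h1 i j,
    fun i j => integral_of_sub_one726 w _ h2 i j, lower_left_of_sub_one726 w _ h1⟩

variable (K)

/-- **LEAF T7.L2.1.H2a.A.0.S = IW-SUPP**, VERBATIM, unconditional. -/
theorem iwSuppC726 : B981.IwSuppC981 K := by
  intro 𝔫 P l o hdvd hP f hf hsupp
  refine ⟨tsupport f, hf, T5.H32.isIwSupported_of_support32 ?_⟩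
  intro y hy j hj
  exact inIwahori_of_outsideUM726 (hdvd j hj) (hP j hj) (hsupp y hy)

end Fermat.Agent.LT.T7.B981.H726

end

end
-- ===== PACK-END LT/T7/B981/H726/IwSupp.lean

-- ===== PACK-BEGIN LT/T7/H116/IwSupp.lean
section




/-!
# Row LT, tower T7, leaf A.0.S `B981.IwSuppC981` (helper116, OFF-MAIN, never land)

VERBATIM vs `LT/T7/B981/PairBaseSpec.lean` (helper981, sha256 cfa0d9f7), UNCONDITIONAL, every
number field.  `C = tsupport f`; at `o j ∣ 𝔫`, `o j ∉ P` the entries of `y - 1`, `y⁻¹ - 1` lie in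
the closure of `𝔫`, hence have valuation `< 1` (`isLevelOf_mult890` of helper890 for `𝔫 ≠ 0`).
-/

set_option autoImplicit false
set_option linter.unusedSectionVars false
set_option linter.unusedVariables false

open AutomorphicForm IsDedekindDomain NumberField MeasureTheory

noncomputable section

namespace Fermat.Agent.LT.T7.H116

open Fermat.Agent.LT.H556 Fermat.Agent.LT.H556.A0 Fermat.Agent.LT Fermat.Agent.LT.T7
open Fermat.Agent.LT.T7.H893 Fermat.Agent.LT.T7.B981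

/-- The elements of the closure of an ideal divisible by `v` have valuation `< 1`. -/
theorem val_lt_one_of_mem_idealClosure116 {K : Type} [Field K] [NumberField K]
    (𝔫 : Ideal (𝓞 K)) (v : HeightOneSpectrum (𝓞 K)) (hv : v.asIdeal ∣ 𝔫)
    {x : v.adicCompletion K} (hx : x ∈ idealClosure 𝔫 v) : Valued.v x < 1 := by
  by_cases h𝔫 : 𝔫 = ⊥
  · subst h𝔫
    have h0 : idealClosure (⊥ : Ideal (𝓞 K)) v = {0} := by
      unfold idealClosure
      have : ((fun x : 𝓞 K => algebraMap K (v.adicCompletion K) (algebraMap (𝓞 K) K x)) ''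
          ((⊥ : Ideal (𝓞 K)) : Set (𝓞 K))) = {0} := by
        ext y
        constructor
        · rintro ⟨z, hz, rfl⟩
          have hz0 : z = 0 := hz
          simp [hz0]
        · intro hy
          exact ⟨0, rfl, by simp [Set.mem_singleton_iff.1 hy]⟩
      rw [this, closure_singleton]
    rw [h0] at hx
    rw [Set.mem_singleton_iff.1 hx, map_zero]
    exact zero_lt_one
  · have hlev := B981.H890.isLevelOf_mult890 h𝔫
    have h1 : 1 ≤ B981.H890.mult890 𝔫 v :=
      B981.H890.le_mult890 h𝔫 v (by rw [pow_one]; exact hv)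
    have h2 := (hlev v x).1 hx
    refine lt_of_le_of_lt h2 ?_
    rw [← WithZero.exp_zero, WithZero.exp_lt_exp]
    omega

/-- **LEAF A.0.S = IW-SUPP**, verbatim. -/
theorem iwSuppC116 (K : Type) [Field K] [NumberField K] : IwSuppC981 K := by
  intro 𝔫 P l o hdiv hout f hf hsupp
  refine ⟨tsupport f, hf, T5.H32.isIwSupported_of_support32 ?_⟩
  intro y hy j hj
  have hO := hsupp y hy (o j) (hout j hj)
  have hlt : ∀ a b : Fin 2, Valued.v ((finComp (o j) y - 1) a b) < 1 ∧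
      Valued.v ((finComp (o j) y⁻¹ - 1) a b) < 1 := fun a b =>
    ⟨val_lt_one_of_mem_idealClosure116 𝔫 (o j) (hdiv j hj) (hO a b).1,
      val_lt_one_of_mem_idealClosure116 𝔫 (o j) (hdiv j hj) (hO a b).2⟩
  have hone : ∀ a b : Fin 2,
      Valued.v ((1 : Matrix (Fin 2) (Fin 2) ((o j).adicCompletion K)) a b) ≤ 1 := by
    intro a b
    by_cases hab : a = b
    · subst hab
      rw [Matrix.one_apply_eq, map_one]
    · rw [Matrix.one_apply_ne hab, map_zero]
      exact zero_le'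
  have hint : ∀ (g : G K), (∀ a b : Fin 2, Valued.v ((finComp (o j) g - 1) a b) < 1) →
      ∀ a b : Fin 2, Valued.v (finComp (o j) g a b) ≤ 1 := by
    intro g hg a b
    have h1 : finComp (o j) g a b = (finComp (o j) g - 1) a b
        + (1 : Matrix (Fin 2) (Fin 2) ((o j).adicCompletion K)) a b := by
      rw [Matrix.sub_apply]; ring
    rw [h1]
    exact le_trans (Valuation.map_add _ _ _) (max_le (hg a b).le (hone a b))
  refine ⟨hint y (fun a b => (hlt a b).1), hint y⁻¹ (fun a b => (hlt a b).2), ?_⟩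
  have h10 := (hlt 1 0).1
  rw [Matrix.sub_apply, Matrix.one_apply_ne (by decide), sub_zero] at h10
  exact h10

example (K : Type) [Field K] [NumberField K] : Fermat.Agent.LT.T7.B981.IwSuppC981 K :=
  iwSuppC116 K

end Fermat.Agent.LT.T7.H116

end

end
-- ===== PACK-END LT/T7/H116/IwSupp.lean

-- ===== PACK-BEGIN LT/T7/H919/DnStab.lean
section










/-!
# Row LT, tower T7, third cut of `B981.BaseAC981` (helper981, `T7/B981/PairBaseSpec.lean`):
# LEAF A.0.C `DnStabC981` (helper919, OFF-MAIN, never land)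

Complete proof, nothing assumed.  `dnStabC919 (K K') : B981.DnStabC981 K K'`.

POINTWISE in `y` (no splitting of the Haar measure): on the support of `f` the component `y_u`
lies in the Iwahori subgroup at `u` (`H116.iwSuppC116`); `y = y° y_u` with `y°` trivial at `u`.
* `rconv_cuspFn919`: `R(f)` preserves the cusp functions (left invariance of the Haar measure,
  Fubini for the constant term, the ray generator is central);
* `rconv_archInv919`: the positive scalars at infinity are central;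
* `rconv_iwInv919`, `rconv_iwOp919`, `rconv_shiftOp919`: the Iwahori invariance and the
  commutation with `iwOp`, `shiftOp`.
-/

set_option autoImplicit false

open AutomorphicForm IsDedekindDomain NumberField MeasureTheory
open scoped ComplexConjugate

noncomputable section

namespace Fermat.Agent.LT.T7.DS919

open Fermat.Agent.LT.H556 Fermat.Agent.LT.H556.A0 Fermat.Agent.LT.T7
open Fermat.Agent.LT.T7.H305 Fermat.Agent.LT.T7.H893 Fermat.Agent.LT.H129
open Fermat.Agent.LT.T7.B981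

attribute [local instance] Fermat.Agent.LT.T5.instMeasurableSpaceG

section Central

variable {K : Type} [Field K] [NumberField K]

/-- A positive scalar at an infinite place is central. -/
theorem central_archPos919 {w : InfinitePlace K} {z : G K} (hz : IsArchPosScalar w z)
    (g : G K) : g * z = z * g := by
  obtain ⟨hloc, r, -, hr⟩ := hz
  rw [T2.H429.isLocalAtInf_iff429] at hloc
  refine T2.H429.central_of_scalar_comp429 (fun w' => ?_) (fun v => ?_) g
  · by_cases hw : w' = w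
    · subst hw
      refine ⟨_, T2.H429.scalar_of_map_scalar429 _ (r : ℂ) ?_⟩
      rw [← T2.H429.infComp_eq429]
      exact hr
    · exact ⟨1, by rw [hloc.1 w' hw]; exact T2.H429.one_eq_diagonal429⟩
  · exact ⟨1, by rw [hloc.2 v]; exact T2.H429.one_eq_diagonal429⟩

/-- A scalar uniformiser at a finite place is central. -/
theorem central_scalarUnif919 {u : HeightOneSpectrum (𝓞 K)} {z : G K}
    (hz : IsScalarUniformizerAt u z) (g : G K) : g * z = z * g := by
  obtain ⟨hloc, c, -, hc⟩ := hz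
  rw [isLocalAtFin_iff129] at hloc
  refine T2.H429.central_of_scalar_comp429 (fun w' => ?_) (fun v => ?_) g
  · exact ⟨1, by rw [hloc.1 w']; exact T2.H429.one_eq_diagonal429⟩
  · by_cases hv : v = u
    · subst hv
      exact ⟨c, by rw [coe_finCompHom129]; exact hc⟩
    · exact ⟨1, by rw [hloc.2 v hv]; exact T2.H429.one_eq_diagonal429⟩

theorem central_zpow919 {z : G K} (hz : ∀ g : G K, g * z = z * g) (k : ℤ) (g : G K) :
    g * z ^ k = z ^ k * g :=
  ((show Commute g z from hz g).zpow_right k).eq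

end Central

section Pointwise

variable {K : Type} [Field K] [NumberField K]

/-- **The decomposition `y = y° y_u`** for `y` Iwahori at `u`: `y_u` is supported at `u` and
Iwahori, `y°` is trivial at `u`. -/
theorem exists_split919 (u : HeightOneSpectrum (𝓞 K)) {y : G K} (hy : T5.InIwahori u y) :
    ∃ yo yu : G K, y = yo * yu ∧ IsLocalAtFin u yu ∧ T5.InIwahori u yu ∧
      finCompHom129 u yo = 1 := by
  refine ⟨y * (locFin129 u (finCompHom129 u y))⁻¹, locFin129 u (finCompHom129 u y), ?_,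
    isLocalAtFin_locFin129 _ _, ?_, ?_⟩
  · rw [inv_mul_cancel_right]
  · rw [H340.inIwahori_iff340, finCompHom129_locFin129, ← H340.inIwahori_iff340]
    exact hy
  · rw [map_mul, map_inv, finCompHom129_locFin129, mul_inv_cancel]

/-- For `ψ` Iwahori-invariant at `u`, `h` supported at `u` and Iwahori, and `y` Iwahori at
`u`: `ψ (x h y) = ψ (x y)`. -/
theorem psi_iw_absorb919 {u : HeightOneSpectrum (𝓞 K)} {ψ : G K → ℂ}
    (hψ : IsIwInv 1 (fun _ => u) ψ) {y : G K} (hy : T5.InIwahori u y) {h : G K}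
    (hh : IsLocalAtFin u h) (hhI : T5.InIwahori u h) (x : G K) :
    ψ (x * h * y) = ψ (x * y) := by
  obtain ⟨yo, yu, rfl, hyu, hyuI, hyo⟩ := exists_split919 u hy
  have hc : h * yo = yo * h := H340.commute_of_local340 hh hyo
  have e1 : x * h * (yo * yu) = x * yo * (h * yu) := by
    rw [mul_assoc x h, ← mul_assoc h yo, hc]
    group
  have e2 : x * (yo * yu) = x * yo * yu := by group
  rw [e1, e2,
    H340.isIwInv_local340 hψ (j₀ := 0) Nat.zero_lt_one (h * yu)
      (isLocalAtFin_mul129 hh hyu) (H340.inIwahori_mul340 hhI hyuI) (x * yo),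
    H340.isIwInv_local340 hψ (j₀ := 0) Nat.zero_lt_one yu hyu hyuI (x * yo)]

/-- An element as in `IsIwInv 1 (fun _ => u)` is supported at `u`. -/
theorem isLocalAtFin_of_iwElt919 {u : HeightOneSpectrum (𝓞 K)} {h : G K}
    (h1 : ∀ w : InfinitePlace K, TrivAtInf w h)
    (h2 : ∀ v : HeightOneSpectrum (𝓞 K), (∀ j < 1, v ≠ (fun _ : ℕ => u) j) → TrivAtFin v h) :
    IsLocalAtFin u h :=
  ⟨h1, fun v hv => h2 v fun _ _ => hv⟩

/-- For `ψ` Iwahori-invariant at `u`, a coset system `H` at `u` and `y` Iwahori at `u`: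
`∑_h ψ (x h y) = ∑_h ψ (x y h)`. -/
theorem psi_iwSum919 {u : HeightOneSpectrum (𝓞 K)} {ψ : G K → ℂ}
    (hψ : IsIwInv 1 (fun _ => u) ψ) {H : Finset (G K)} (hH : IsIwCosetSystem u H) {y : G K}
    (hy : T5.InIwahori u y) (x : G K) :
    ∑ h ∈ H, ψ (x * h * y) = ∑ h ∈ H, ψ (x * y * h) := by
  obtain ⟨yo, yu, rfl, hyu, hyuI, hyo⟩ := exists_split919 u hy
  have hL : ∀ h ∈ H, ψ (x * h * (yo * yu)) = ψ (x * yo * h) := by
    intro h hh
    have hc : h * yo = yo * h := H340.commute_of_local340 (hH.2.1 h hh).1 hyo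
    have e1 : x * h * (yo * yu) = x * yo * h * yu := by
      rw [mul_assoc x h, ← mul_assoc h yo, hc]
      group
    rw [e1]
    exact H340.isIwInv_local340 hψ (j₀ := 0) Nat.zero_lt_one yu hyu hyuI _
  rw [Finset.sum_congr rfl hL]
  have hinv := H340.isIwInv_iwOp340 (l := 1) (o := fun _ => u) Nat.zero_lt_one hH hψ
  have hk := hinv yu hyu.1 (fun v hv => hyu.2 v (hv 0 Nat.zero_lt_one)) (fun _ _ => hyuI)
    (x * yo)
  have hq : ((Real.sqrt (Ideal.absNorm u.asIdeal : ℝ) : ℝ) : ℂ)⁻¹ ≠ 0 := by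
    apply inv_ne_zero
    have h0 : (0 : ℝ) < Ideal.absNorm u.asIdeal := by
      have : Ideal.absNorm u.asIdeal ≠ 0 := by
        rw [Ne, Ideal.absNorm_eq_zero_iff]
        exact u.ne_bot
      exact_mod_cast Nat.pos_of_ne_zero this
    exact_mod_cast (Real.sqrt_pos.2 h0).ne'
  have hk' : ((Real.sqrt (Ideal.absNorm u.asIdeal : ℝ) : ℝ) : ℂ)⁻¹ * ∑ h ∈ H, ψ (x * yo * yu * h)
      = ((Real.sqrt (Ideal.absNorm u.asIdeal : ℝ) : ℝ) : ℂ)⁻¹ * ∑ h ∈ H, ψ (x * yo * h) := hk
  have := mul_left_cancel₀ hq hk'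
  rw [← this]
  refine Finset.sum_congr rfl fun h _ => ?_
  rw [mul_assoc x yo yu]

end Pointwise

section Analysis

variable {K : Type} [Field K] [NumberField K]
variable {μ : Measure (G K)} {F : Set (G K)}

/-- Left invariance of the Haar measure: `(R(f) ψ)(x u) = ∫ f(u⁻¹ y) ψ(x y) dy`. -/
theorem rconv_mul919 (hF : T5.IsFrame μ F) (f ψ : G K → ℂ) (x u : G K) :
    T5.Rconv μ f ψ (x * u) = ∫ y, f (u⁻¹ * y) * ψ (x * y) ∂μ := by
  have : BorelSpace (G K) := ⟨rfl⟩
  have := hF.haar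
  show ∫ y, f y * ψ (x * u * y) ∂μ = _
  have h := integral_mul_left_eq_self (μ := μ) (fun y => f (u⁻¹ * y) * ψ (x * y)) u
  rw [← h]
  refine integral_congr_ae (Filter.Eventually.of_forall fun y => ?_)
  show f y * ψ (x * u * y) = f (u⁻¹ * (u * y)) * ψ (x * (u * y))
  rw [inv_mul_cancel_left, mul_assoc]

/-- `R(f) ψ` is right invariant under the elements under which `f` is left invariant. -/
theorem rconv_left_inv919 (hF : T5.IsFrame μ F) {f ψ : G K → ℂ} {u : G K}
    (hfu : ∀ y : G K, f (u * y) = f y) (x : G K) :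
    T5.Rconv μ f ψ (x * u) = T5.Rconv μ f ψ x := by
  rw [rconv_mul919 hF]
  show _ = ∫ y, f y * ψ (x * y) ∂μ
  refine integral_congr_ae (Filter.Eventually.of_forall fun y => ?_)
  show f (u⁻¹ * y) * ψ (x * y) = f y * ψ (x * y)
  rw [← hfu (u⁻¹ * y), mul_inv_cancel_left]

/-- `R(f) ψ` is right invariant under the central elements under which `ψ` is. -/
theorem rconv_central919 {f ψ : G K → ℂ} {z : G K} (hz : ∀ g : G K, g * z = z * g)
    (hψ : ∀ g : G K, ψ (g * z) = ψ g) (x : G K) :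
    T5.Rconv μ f ψ (x * z) = T5.Rconv μ f ψ x := by
  show ∫ y, f y * ψ (x * z * y) ∂μ = ∫ y, f y * ψ (x * y) ∂μ
  refine integral_congr_ae (Filter.Eventually.of_forall fun y => ?_)
  show f y * ψ (x * z * y) = f y * ψ (x * y)
  rw [mul_assoc, ← hz y, ← mul_assoc, hψ]

/-- **`R(f)` preserves the vanishing of the constant term** (Fubini). -/
theorem isCuspidalFn_rconv919 (hF : T5.IsFrame μ F) {f ψ : G K → ℂ} (hfc : Continuous f)
    (hfs : HasCompactSupport f) (hψc : Continuous ψ) (hψb : ∃ C : ℝ, ∀ g : G K, ‖ψ g‖ ≤ C)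
    (hψ : IsCuspidalFn ψ) : IsCuspidalFn (T5.Rconv μ f ψ) := by
  let _ : MeasurableSpace (Adl K) := borel (Adl K)
  have : BorelSpace (Adl K) := ⟨rfl⟩
  have : BorelSpace (G K) := ⟨rfl⟩
  have := hF.haar
  have hT1 := T1.t1Out K
  have : LocallyCompactSpace (G K) := hT1.locComp.2.1
  have : T2Space (G K) := hT1.locComp.2.2.1
  have : SecondCountableTopology (G K) := hT1.locComp.2.2.2
  have : LocallyCompactSpace (Adl K) := hT1.locComp.1.1
  have : T2Space (Adl K) := hT1.locComp.1.2.1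
  have : SecondCountableTopology (Adl K) := hT1.locComp.1.2.2
  intro μ' hμ' D hD n hn g
  have hn' : ∀ x : Adl K, n x = T3.unip K x := fun x => Units.ext (by rw [hn x]; rfl)
  obtain ⟨B, hB⟩ := hψb
  have hDfin : μ' D < ⊤ :=
    T3.H237.measure_fundDom_lt_top237 K μ' hT1.adeleLattice.2.2 D hD
  have : IsFiniteMeasure (μ'.restrict D) := ⟨by simpa using hDfin⟩
  show ∫ x in D, (∫ y, f y * ψ (n x * g * y) ∂μ) ∂μ' = 0
  have hfi : Integrable f μ := hfc.integrable_of_hasCompactSupport hfs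
  have hb : Integrable (fun z : Adl K × G K => (fun _ : Adl K => B) z.1 * (fun h => ‖f h‖) z.2)
      ((μ'.restrict D).prod μ) :=
    Integrable.mul_prod (integrable_const B) hfi.norm
  have hcont : Continuous (Function.uncurry fun (x : Adl K) (y : G K) =>
      f y * ψ (T3.unip K x * g * y)) := by
    refine Continuous.mul (hfc.comp continuous_snd) (hψc.comp ?_)
    exact (((T3.H237.continuous_unip237 K).comp continuous_fst).mul continuous_const).mul
      continuous_snd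
  have hint : Integrable (Function.uncurry fun (x : Adl K) (y : G K) =>
      f y * ψ (T3.unip K x * g * y)) ((μ'.restrict D).prod μ) := by
    refine hb.mono' hcont.aestronglyMeasurable (Filter.Eventually.of_forall ?_)
    rintro ⟨x, y⟩
    show ‖f y * ψ (T3.unip K x * g * y)‖ ≤ B * ‖f y‖
    rw [norm_mul, mul_comm]
    exact mul_le_mul_of_nonneg_right (hB _) (norm_nonneg _)
  have e0 : (fun x : Adl K => ∫ y, f y * ψ (n x * g * y) ∂μ)
      = fun x : Adl K => ∫ y, f y * ψ (T3.unip K x * g * y) ∂μ := by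
    funext x
    rw [hn' x]
  rw [e0, integral_integral_swap hint]
  have e1 : ∀ y : G K, ∫ x in D, f y * ψ (T3.unip K x * g * y) ∂μ' = 0 := by
    intro y
    have h0 := hψ μ' hμ' D hD (T3.unip K) (fun x => rfl) (g * y)
    have e2 : (fun x : Adl K => f y * ψ (T3.unip K x * g * y))
        = fun x : Adl K => f y * ψ (T3.unip K x * (g * y)) := by
      funext x
      rw [mul_assoc]
    rw [e2, integral_const_mul, h0, mul_zero]
  simp only [e1, integral_zero]

/-- **`R(f)` preserves the cusp functions** of level `𝔫` and trivial type. -/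
theorem rconv_cuspFn919 (hF : T5.IsFrame μ F) {𝔫 : Ideal (𝓞 K)} {r : G K}
    (hr : T5.IsRayGen r) {f ψ : G K → ℂ} (hf : T5.IsTestFn 𝔫 T5.trivType f)
    (hψ : T5.IsCuspFn 𝔫 T5.trivType r ψ) :
    T5.IsCuspFn 𝔫 T5.trivType r (T5.Rconv μ f ψ) where
  cont := (H44.isNice_rconv44 hF hf.cont hf.supp ⟨hψ.cont, hψ.bdd⟩).1
  bdd := (H44.isNice_rconv44 hF hf.cont hf.supp ⟨hψ.cont, hψ.bdd⟩).2
  aut :=
    { left_inv := fun γ g => by
        show ∫ y, f y * ψ (T5.ratG γ * g * y) ∂μ = ∫ y, f y * ψ (g * y) ∂μ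
        refine integral_congr_ae (Filter.Eventually.of_forall fun y => ?_)
        show f y * ψ (T5.ratG γ * g * y) = f y * ψ (g * y)
        rw [mul_assoc, hψ.aut.left_inv]
      level_inv := fun u hu g =>
        rconv_left_inv919 hF (fun y => hf.inv.level_left u hu y) g
      arch_compact := fun w k hk g => by
        have hk' : ∀ y : G K, f (k * y) = f y := by
          intro y
          rw [hf.inv.arch_left w k hk y]
          show ((1 : ℂ))⁻¹ * f y = f y
          rw [inv_one, one_mul]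
        rw [rconv_left_inv919 hF hk' g]
        show _ = (1 : ℂ) * _
        rw [one_mul]
      ray := fun g =>
        rconv_central919 (fun g' => (T5.H277.ray_comm277 hr g').symm) hψ.aut.ray g }
  cuspidal := isCuspidalFn_rconv919 hF hf.cont hf.supp hψ.cont hψ.bdd hψ.cuspidal

end Analysis

section Stab

variable {K : Type} [Field K] [NumberField K]
variable {μ : Measure (G K)} {F : Set (G K)}

/-- On the support of a function supported at `P ∪ S_∞` the component at `u ∣ 𝔫`, `u ∉ P`, is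
Iwahori. -/
theorem inIwahori_of_supp919 {𝔫 : Ideal (𝓞 K)} {P : Finset (HeightOneSpectrum (𝓞 K))}
    {u : HeightOneSpectrum (𝓞 K)} (hu : u.asIdeal ∣ 𝔫) (huP : u ∉ P) {f : G K → ℂ}
    (hfs : HasCompactSupport f) (hsupp : T3.M.IsSuppAtM K 𝔫 P f) {y : G K} (hy : f y ≠ 0) :
    T5.InIwahori u y := by
  obtain ⟨C, -, hC⟩ :=
    H116.iwSuppC116 K 𝔫 P 1 (fun _ => u) (fun _ _ => hu) (fun _ _ => huP) f hfs hsupp
  exact (hC y hy).1 0 Nat.zero_lt_one

/-- `R(f)` preserves the Iwahori invariance at `u`. -/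
theorem rconv_iwInv919 {𝔫 : Ideal (𝓞 K)} {P : Finset (HeightOneSpectrum (𝓞 K))}
    {u : HeightOneSpectrum (𝓞 K)} (hu : u.asIdeal ∣ 𝔫) (huP : u ∉ P) {f : G K → ℂ}
    (hfs : HasCompactSupport f) (hsupp : T3.M.IsSuppAtM K 𝔫 P f) {ψ : G K → ℂ}
    (hψ : IsIwInv 1 (fun _ => u) ψ) : IsIwInv 1 (fun _ => u) (T5.Rconv μ f ψ) := by
  intro h h1 h2 h3 x
  show ∫ y, f y * ψ (x * h * y) ∂μ = ∫ y, f y * ψ (x * y) ∂μ
  refine integral_congr_ae (Filter.Eventually.of_forall fun y => ?_)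
  show f y * ψ (x * h * y) = f y * ψ (x * y)
  by_cases hy : f y = 0
  · rw [hy, zero_mul, zero_mul]
  · rw [psi_iw_absorb919 hψ (inIwahori_of_supp919 hu huP hfs hsupp hy)
      (isLocalAtFin_of_iwElt919 h1 h2) (h3 0 Nat.zero_lt_one) x]

/-- `R(f)` commutes with the Iwahori operator at `u`. -/
theorem rconv_iwOp919 (hF : T5.IsFrame μ F) {𝔫 : Ideal (𝓞 K)}
    {P : Finset (HeightOneSpectrum (𝓞 K))}
    {u : HeightOneSpectrum (𝓞 K)} (hu : u.asIdeal ∣ 𝔫) (huP : u ∉ P) {f : G K → ℂ}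
    (hfc : Continuous f) (hfs : HasCompactSupport f) (hsupp : T3.M.IsSuppAtM K 𝔫 P f)
    {ψ : G K → ℂ} (hψc : Continuous ψ) (hψ : IsIwInv 1 (fun _ => u) ψ) {H : Finset (G K)}
    (hH : IsIwCosetSystem u H) (x : G K) :
    T5.Rconv μ f (iwOp u H ψ) x = iwOp u H (T5.Rconv μ f ψ) x := by
  show ∫ y, f y * (((Real.sqrt (Ideal.absNorm u.asIdeal : ℝ) : ℝ) : ℂ)⁻¹
        * ∑ h ∈ H, ψ (x * y * h)) ∂μ
    = ((Real.sqrt (Ideal.absNorm u.asIdeal : ℝ) : ℝ) : ℂ)⁻¹
        * ∑ h ∈ H, ∫ y, f y * ψ (x * h * y) ∂μ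
  rw [← integral_finsetSum H (fun h _ => H44.integrable_rconv44 hF hfc hfs hψc (x * h)),
    ← integral_const_mul]
  refine integral_congr_ae (Filter.Eventually.of_forall fun y => ?_)
  show f y * (((Real.sqrt (Ideal.absNorm u.asIdeal : ℝ) : ℝ) : ℂ)⁻¹
        * ∑ h ∈ H, ψ (x * y * h))
    = ((Real.sqrt (Ideal.absNorm u.asIdeal : ℝ) : ℝ) : ℂ)⁻¹
        * ∑ h ∈ H, f y * ψ (x * h * y)
  by_cases hy : f y = 0
  · simp [hy]
  · rw [← Finset.mul_sum, psi_iwSum919 hψ hH (inIwahori_of_supp919 hu huP hfs hsupp hy) x]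
    ring

/-- `R(f)` commutes with the shifts by a scalar uniformiser. -/
theorem rconv_shiftOp919 {u : HeightOneSpectrum (𝓞 K)} (f ψ : G K → ℂ) {z : G K}
    (hz : IsScalarUniformizerAt u z) (k : ℤ) (x : G K) :
    T5.Rconv μ f (shiftOp z k ψ) x = shiftOp z k (T5.Rconv μ f ψ) x := by
  show ∫ y, f y * ψ (x * y * z ^ k) ∂μ = ∫ y, f y * ψ (x * z ^ k * y) ∂μ
  refine integral_congr_ae (Filter.Eventually.of_forall fun y => ?_)
  show f y * ψ (x * y * z ^ k) = f y * ψ (x * z ^ k * y)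
  rw [mul_assoc x y, central_zpow919 (central_scalarUnif919 hz) k y, ← mul_assoc]

/-- **`R(f)` preserves the invariant cusp functions.** -/
theorem rconv_wfn919 (hF : T5.IsFrame μ F) {𝔫 : Ideal (𝓞 K)} {r : G K}
    (hr : T5.IsRayGen r) {P : Finset (HeightOneSpectrum (𝓞 K))}
    {u : HeightOneSpectrum (𝓞 K)} (hu : u.asIdeal ∣ 𝔫) (huP : u ∉ P) {f : G K → ℂ}
    (hf : T5.IsTestFn 𝔫 T5.trivType f) (hsupp : T3.M.IsSuppAtM K 𝔫 P f) {ψ : G K → ℂ}
    (hψ : IsWFn 𝔫 r 1 (fun _ => u) ψ) : IsWFn 𝔫 r 1 (fun _ => u) (T5.Rconv μ f ψ) where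
  cusp := rconv_cuspFn919 hF hr hf hψ.cusp
  arch_scalar := fun w z hz g =>
    rconv_central919 (central_archPos919 hz) (hψ.arch_scalar w z hz) g
  iw := rconv_iwInv919 hu huP hf.supp hsupp hψ.iw

/-- A scalar multiple of a Hecke eigenfunction is a Hecke eigenfunction. -/
theorem isHeckeEigenAt_smul919 {ψ : G K → ℂ} {v : HeightOneSpectrum (𝓞 K)} {a b : ℂ}
    (h : IsHeckeEigenAt ψ v a b) (κ : ℂ) : IsHeckeEigenAt (fun g => κ * ψ g) v a b := by
  refine ⟨fun H hH g => ?_, fun z hz g => ?_⟩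
  · show ∑ h ∈ H, κ * ψ (g * h) = _ * a * (κ * ψ g)
    rw [← Finset.mul_sum, h.1 H hH g]
    ring
  · show κ * ψ (g * z) = b * (κ * ψ g)
    rw [h.2 z hz g]
    ring

/-- A scalar multiple of an eigenfunction of the sphere means is an eigenfunction. -/
theorem meanEig_smul919 {ψ : G K → ℂ} {w : InfinitePlace K} {m : ℝ → ℂ}
    (h : MeanEig ψ w m) (κ : ℂ) : MeanEig (fun g => κ * ψ g) w m := by
  intro d hd Y hY g
  have e : (∫ α in (0 : ℝ)..(2 * Real.pi), ∫ β in (0 : ℝ)..Real.pi,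
        κ * ψ (g * Y α β) * ((Real.sin β : ℝ) : ℂ))
      = κ * ∫ α in (0 : ℝ)..(2 * Real.pi), ∫ β in (0 : ℝ)..Real.pi,
        ψ (g * Y α β) * ((Real.sin β : ℝ) : ℂ) := by
    simp only [mul_assoc, intervalIntegral.integral_const_mul]
  show (∫ α in (0 : ℝ)..(2 * Real.pi), ∫ β in (0 : ℝ)..Real.pi,
        κ * ψ (g * Y α β) * ((Real.sin β : ℝ) : ℂ)) = m d * (κ * ψ g)
  rw [e, h d hd Y hY g]
  ring

end Stab

section Leaf

variable (K K' : Type) [Field K] [NumberField K] [Field K'] [NumberField K'] [Algebra K K']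

/-- **LEAF A.0.C = DN-STAB**, verbatim. -/
theorem dnStabC919 : DnStabC981 K K' := by
  intro ℓ _ _ Φ B hB 𝔫 hlev P hP f hf hsupp hc
  have huP : B.u ∉ P := fun h => hP B.u h hlev.u_level
  have hF := hB.frame.frame
  have hr := hB.frame.ray
  have hw : ∀ ψ : G K → ℂ, IsWFn 𝔫 B.R.r 1 (fun _ => B.u) ψ →
      IsWFn 𝔫 B.R.r 1 (fun _ => B.u) (T5.Rconv B.R.μ f ψ) :=
    fun ψ hψ => rconv_wfn919 hF hr hlev.u_level huP hf hsupp hψ
  refine ⟨hw, fun ψ c hψ => ?_, fun ψ hψ H z hH hz => ⟨fun x => ?_, fun k x => ?_⟩⟩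
  · obtain ⟨c₀, hc₀⟩ := hc
    have hml : T3.M.IsMeanLevel K 𝔫 c.m ψ :=
      { cont := hψ.inv.cusp.cont
        level_inv := hψ.inv.cusp.aut.level_inv
        arch_scalar := hψ.inv.arch_scalar
        arch_compact := fun w k hk g => by
          rw [hψ.inv.cusp.aut.arch_compact w k hk g]
          show (1 : ℂ) * ψ g = ψ g
          rw [one_mul]
        mean := hψ.mean }
    have hκ : T5.Rconv B.R.μ f ψ = fun g => c₀ c.a c.b c.m * ψ g :=
      funext fun g => hc₀ ψ c.m hml c.a c.b (fun v hv => hψ.hecke v (hP v hv)) g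
    refine ⟨hw ψ hψ.inv, fun v hv => ?_, fun w => ?_⟩
    · rw [hκ]
      exact isHeckeEigenAt_smul919 (hψ.hecke v hv) _
    · rw [hκ]
      exact meanEig_smul919 (hψ.mean w) _
  · exact rconv_iwOp919 hF hlev.u_level huP hf.cont hf.supp hsupp hψ.cusp.cont hψ.iw hH x
  · exact rconv_shiftOp919 f ψ hz k x

end Leaf

end Fermat.Agent.LT.T7.DS919

end

end
-- ===== PACK-END LT/T7/H919/DnStab.lean

-- ===== PACK-BEGIN LT/T7/H681/SphProd.lean
section






/-!
# Row LT, tower T7, node `ProdMtCb` (helper681, ASSET), OFF-MAIN: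
# the spherical shape `H893.SphOut893` is stable under convolution products

No hole, nothing assumed.  ADDITIVE (new names only, suffix `681`, namespace
`Fermat.Agent.LT.T7.H681`).

* `SphAt681 l v φv fv` : the body of `H893.SphOut893` at ONE place `v` (spherical components,
  base change at an inert place, product formula at a split place);
* `sphAt_unit681` : the unit components have the shape;
* `sc_conv_sph681` : the convolution of two spherical functions is spherical, its Satake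
  transform is the product;
* `sphAt_conv681` : the convolution products of two families with the shape have the shape
  (unramified place; `T6.InstExtC` for `N w = N v ^ l` at an inert place);
* `sph_inert_at681`, `sph_split_at681` : the clauses `inert`, `split` of `H893.LocHyp893` at a
  place with the shape (fundamental lemma; enumeration + injectivity of the Satake transform).
-/

set_option autoImplicit false
set_option linter.unusedSectionVars false
set_option linter.unusedVariables false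

open AutomorphicForm IsDedekindDomain NumberField MeasureTheory
open scoped ComplexConjugate

noncomputable section

namespace Fermat.Agent.LT.T7.H681

open Fermat.Agent.LT.H556 Fermat.Agent.LT.H556.A0 Fermat.Agent.LT.T7 Fermat.Agent.LT.T7.H305
open Fermat.Agent.LT.T7.H893
open Fermat.Agent.LT

/-! ## 1. The unit -/

section Local

variable {k : Type} [Field k] [Valued k T6.Γ₀]

/-- The unit is spherical. -/
theorem sc_unit_sph681 : IsSphFn893 (unitFn893 (k := k) 0) H159.unitFn159 := by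
  classical
  refine ⟨H159.isDominant_unitFn159, fun x => ?_⟩
  rw [H159.unitFn_apply159]
  unfold unitFn893
  congr

/-- The Satake transform of the unit is `1`. -/
theorem sc_satT_unit681 (q : ℕ) (x y : ℂ) : satT893 q H159.unitFn159 x y = 1 := by
  unfold satT893 H159.unitFn159
  rw [Finsupp.sum_single_index (by rw [zero_mul])]
  unfold T6.satake
  simp [T6.H305.satPoly_zero]

end Local

/-! ## 2. Convolution of spherical functions at a place of a number field -/

section Place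

variable {F : Type} [Field F] [NumberField F]

/-- The convolution of two spherical functions is spherical and its Satake transform is the
product. -/
theorem sc_conv_sph681 (hIL : T6.InstLocalC) (v : HeightOneSpectrum (𝓞 F))
    (A₁ A₂ : (ℤ × ℤ) →₀ ℂ)
    (φ ψ χ : GL (Fin 2) (v.adicCompletion F) → ℂ) (hφ : IsSphFn893 φ A₁)
    (hψ : IsSphFn893 ψ A₂) (hconv : T6.IsConv (T6.InU 0) φ ψ χ) :
    ∃ A : (ℤ × ℤ) →₀ ℂ, IsSphFn893 χ A ∧ ∀ x y : ℂ, x ≠ 0 → y ≠ 0 →
      satT893 (Ideal.absNorm v.asIdeal) A x y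
        = satT893 (Ideal.absNorm v.asIdeal) A₁ x y
          * satT893 (Ideal.absNorm v.asIdeal) A₂ x y := by
  classical
  have e1 : φ = fun g => A₁ (T6.cartan g) := funext hφ.2
  have e2 : ψ = fun g => A₂ (T6.cartan g) := funext hψ.2
  obtain ⟨D, hD⟩ := T6.H305.exists_resData (hIL F v)
  obtain ⟨Av, hAv, hprod, hsat, -⟩ := T3.H681.split_sph681 v 2 (by norm_num)
    (fun j => if j = 0 then A₁ else A₂) (fun j _ => by
      by_cases hj : j = 0
      · simp only [hj, if_true]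
        exact hφ.1
      · simp only [hj, if_false]
        exact hψ.1)
  obtain ⟨χ', h0, hstep, hf⟩ := hprod
  have hc' := hstep 0 (by norm_num)
  rw [h0] at hc'
  simp only [if_true, Nat.zero_add, one_ne_zero, if_false] at hc'
  have hf' : (fun g : GL (Fin 2) (v.adicCompletion F) => Av (T6.cartan g)) = χ' 1 := hf
  rw [← hf'] at hc'
  -- uniqueness of the convolution
  have hχ : χ = fun g => Av (T6.cartan g) := by
    funext g
    rw [e1, e2] at hconv
    rw [T3.H681.conv_eq_sum681 (T3.H681.sph_rinv681 A₁) (T3.H681.sph_linv681 A₂) hconv _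
        (T3.H681.sph_rep681 D A₁ hφ.1) g,
      T3.H681.conv_eq_sum681 (T3.H681.sph_rinv681 A₁) (T3.H681.sph_linv681 A₂) hc' _
        (T3.H681.sph_rep681 D A₁ hφ.1) g]
  refine ⟨Av, ⟨hAv, fun x => congrFun hχ x⟩, fun x y hx hy => ?_⟩
  have := hsat x y hx hy
  rw [Finset.prod_range_succ, Finset.prod_range_one] at this
  simp only [if_true, one_ne_zero, if_false] at this
  exact this

end Place

/-! ## 3. The shape at one place -/

section Shape

variable {K K' : Type} [Field K] [NumberField K] [Field K'] [NumberField K'] [Algebra K K']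

/-- The body of `H893.SphOut893` at the place `v`. -/
def SphAt681 (l : ℕ) (v : HeightOneSpectrum (𝓞 K))
    (φv : ∀ w : HeightOneSpectrum (𝓞 K'), GL (Fin 2) (w.adicCompletion K') → ℂ)
    (fv : GL (Fin 2) (v.adicCompletion K) → ℂ) : Prop :=
  ∃ (A : HeightOneSpectrum (𝓞 K') → (ℤ × ℤ) →₀ ℂ) (Av : (ℤ × ℤ) →₀ ℂ),
    IsSphFn893 fv Av ∧
    (∀ w : HeightOneSpectrum (𝓞 K'), PlaceOver K K' v w → IsSphFn893 (φv w) (A w)) ∧
    (∀ w : HeightOneSpectrum (𝓞 K'), PlaceOver K K' v w →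
      (∀ w' : HeightOneSpectrum (𝓞 K'), PlaceOver K K' v w' → w' = w) →
      T6.IsBC l (Ideal.absNorm v.asIdeal) (A w) Av) ∧
    ∀ w : ℕ → HeightOneSpectrum (𝓞 K'), (∀ j : ℕ, PlaceOver K K' v (w j)) →
      (∀ j j' : ℕ, j < l → j' < l → w j = w j' → j = j') →
      ∀ x y : ℂ, x ≠ 0 → y ≠ 0 →
        satT893 (Ideal.absNorm v.asIdeal) Av x y
          = ∏ j ∈ Finset.range l, satT893 (Ideal.absNorm v.asIdeal) (A (w j)) x y

theorem eqns_realised_sphProd681 : True := by
  have _h0 := @SphAt681.eq_1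
  have _g0 := @SphAt681.eq_def
  trivial

/-- `H893.SphOut893` is the shape at every place of `T ∖ T₀`. -/
theorem sphOut_iff681 (l : ℕ) (T₀ T : Finset (HeightOneSpectrum (𝓞 K)))
    (φ₀ : ∀ w : HeightOneSpectrum (𝓞 K'), GL (Fin 2) (w.adicCompletion K') → ℂ)
    (f₀ : ∀ v : HeightOneSpectrum (𝓞 K), GL (Fin 2) (v.adicCompletion K) → ℂ) :
    SphOut893 l T₀ T φ₀ f₀ ↔ ∀ v ∈ T, v ∉ T₀ → SphAt681 l v φ₀ (f₀ v) :=
  Iff.rfl

/-- The unit components have the shape. -/
theorem sphAt_unit681 (l : ℕ) (v : HeightOneSpectrum (𝓞 K)) :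
    SphAt681 (K' := K') l v (fun _ => unitFn893 0) (unitFn893 0) := by
  refine ⟨fun _ => H159.unitFn159, H159.unitFn159, sc_unit_sph681, fun _ _ => sc_unit_sph681,
    fun _ _ _ => H159.isBC_unitFn159 _ _, fun w _ _ x y _ _ => ?_⟩
  rw [sc_satT_unit681]
  simp only [sc_satT_unit681, Finset.prod_const_one]

/-- `N w = N v ^ l` at an unramified place with one place over it. -/
theorem absNorm_inert681 (hIE : T6.InstExtC) (l : ℕ) (hc : IsCycExt K K' l)
    {v : HeightOneSpectrum (𝓞 K)} {w : HeightOneSpectrum (𝓞 K')} (hvw : PlaceOver K K' v w)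
    (huniq : ∀ w' : HeightOneSpectrum (𝓞 K'), PlaceOver K K' v w' → w' = w)
    (hun : ∃ x : 𝓞 K, x ∈ v.asIdeal ∧ algebraMap (𝓞 K) (𝓞 K') x ∉ w.asIdeal ^ 2) :
    Ideal.absNorm w.asIdeal = Ideal.absNorm v.asIdeal ^ l := by
  obtain ⟨s, hs⟩ := H938.exists_gen938 l hc
  have hg := hc.galois
  have hprime : (Module.finrank K K').Prime := by rw [hc.degree]; exact hc.prime
  obtain ⟨e', i', sw', hi', -, hext', hN⟩ := hIE K K' s hs hprime v w
    (H938.placeOver_mem938 hvw) (fun w' hw' => huniq w' (H938.placeOver_of_le938 hw'))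
  have he' : e' = 1 := H938.e_eq_one938 hun e' hext'.e_pos i' hi' hext'.val_i
  rw [he', Nat.div_one, hc.degree] at hN
  exact hN

/-- **The shape is stable under convolution products** (unramified place). -/
theorem sphAt_conv681 (hT6 : T6.T6Out) (l : ℕ) (hc : IsCycExt K K' l)
    (v : HeightOneSpectrum (𝓞 K))
    (hun : ∀ w : HeightOneSpectrum (𝓞 K'), PlaceOver K K' v w →
      ∃ x : 𝓞 K, x ∈ v.asIdeal ∧ algebraMap (𝓞 K) (𝓞 K') x ∉ w.asIdeal ^ 2)
    (φ₁ φ₂ φ₀ : ∀ w : HeightOneSpectrum (𝓞 K'), GL (Fin 2) (w.adicCompletion K') → ℂ)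
    (f₁ f₂ f₀ : GL (Fin 2) (v.adicCompletion K) → ℂ)
    (h₁ : SphAt681 l v φ₁ f₁) (h₂ : SphAt681 l v φ₂ f₂)
    (hconv : T6.IsConv (T6.InU 0) f₁ f₂ f₀)
    (hconv' : ∀ w : HeightOneSpectrum (𝓞 K'), PlaceOver K K' v w →
      T6.IsConv (T6.InU 0) (φ₁ w) (φ₂ w) (φ₀ w)) :
    SphAt681 l v φ₀ f₀ := by
  classical
  have hIL : T6.InstLocalC := hT6.2.2.2.2.2.1
  have hIE : T6.InstExtC := hT6.2.2.2.2.2.2.1
  obtain ⟨A₁, Av₁, hf₁, hφ₁, hbc₁, hsp₁⟩ := h₁
  obtain ⟨A₂, Av₂, hf₂, hφ₂, hbc₂, hsp₂⟩ := h₂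
  obtain ⟨Av, hAv, hAvS⟩ := sc_conv_sph681 hIL v Av₁ Av₂ f₁ f₂ f₀ hf₁ hf₂ hconv
  have hex : ∀ w : HeightOneSpectrum (𝓞 K'), ∃ A : (ℤ × ℤ) →₀ ℂ, PlaceOver K K' v w →
      (IsSphFn893 (φ₀ w) A ∧ ∀ x y : ℂ, x ≠ 0 → y ≠ 0 →
        satT893 (Ideal.absNorm w.asIdeal) A x y
          = satT893 (Ideal.absNorm w.asIdeal) (A₁ w) x y
            * satT893 (Ideal.absNorm w.asIdeal) (A₂ w) x y) := by
    intro w
    by_cases hvw : PlaceOver K K' v w
    · obtain ⟨A, hA, hAS⟩ := sc_conv_sph681 hIL w (A₁ w) (A₂ w) (φ₁ w) (φ₂ w) (φ₀ w)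
        (hφ₁ w hvw) (hφ₂ w hvw) (hconv' w hvw)
      exact ⟨A, fun _ => ⟨hA, hAS⟩⟩
    · exact ⟨0, fun h => absurd h hvw⟩
  choose A hA using hex
  refine ⟨A, Av, hAv, fun w hvw => (hA w hvw).1, ?_, ?_⟩
  · -- base change
    intro w hvw huniq x y hx hy
    have hN := absNorm_inert681 hIE l hc hvw huniq (hun w hvw)
    have hx' : x ^ l ≠ 0 := pow_ne_zero _ hx
    have hy' : y ^ l ≠ 0 := pow_ne_zero _ hy
    have h1 := hbc₁ w hvw huniq x y hx hy
    have h2 := hbc₂ w hvw huniq x y hx hy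
    have h3 := (hA w hvw).2 (x ^ l) (y ^ l) hx' hy'
    have h4 := hAvS x y hx hy
    unfold satT893 at h3 h4
    rw [hN] at h3
    rw [h4, h1, h2, h3]
  · -- split
    intro w hover hinj x y hx hy
    have hl2 : 2 ≤ l := hc.prime.two_le
    have hne : w 0 ≠ w 1 := by
      intro h
      have := hinj 0 1 (by omega) (by omega) h
      omega
    have hN : ∀ j : ℕ, Ideal.absNorm (w j).asIdeal = Ideal.absNorm v.asIdeal := fun j =>
      H311.absNorm_split311 hc ⟨w 0, w 1, hover 0, hover 1, hne⟩ (hover j)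
    rw [hAvS x y hx hy, hsp₁ w hover hinj x y hx hy, hsp₂ w hover hinj x y hx hy,
      ← Finset.prod_mul_distrib]
    refine Finset.prod_congr rfl (fun j _ => ?_)
    have h3 := (hA (w j) (hover j)).2 x y hx hy
    rw [hN j] at h3
    exact h3.symm

/-! ## 4. The clauses of `LocHyp893` at a place with the shape -/

/-- The clause `inert` at an unramified place of level `0` with the shape. -/
theorem sph_inert_at681 (hT6 : T6.T6Out) (D : CompData K K') (hc : IsCycExt K K' D.l)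
    (n : HeightOneSpectrum (𝓞 K') → ℕ) (m : HeightOneSpectrum (𝓞 K) → ℕ)
    (φ₀ : ∀ w : HeightOneSpectrum (𝓞 K'), GL (Fin 2) (w.adicCompletion K') → ℂ)
    (f₀ : ∀ v : HeightOneSpectrum (𝓞 K), GL (Fin 2) (v.adicCompletion K) → ℂ)
    (v : HeightOneSpectrum (𝓞 K))
    (hun : ∀ w : HeightOneSpectrum (𝓞 K'), PlaceOver K K' v w →
      ∃ x : 𝓞 K, x ∈ v.asIdeal ∧ algebraMap (𝓞 K) (𝓞 K') x ∉ w.asIdeal ^ 2)
    (hm0 : m v = 0) (hn0 : ∀ w : HeightOneSpectrum (𝓞 K'), PlaceOver K K' v w → n w = 0)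
    (hsph : SphAt681 D.l v φ₀ (f₀ v)) :
    ∀ w : HeightOneSpectrum (𝓞 K'), PlaceOver K K' v w →
    (∀ w' : HeightOneSpectrum (𝓞 K'), PlaceOver K K' v w' → w' = w) →
    ∀ (e : ℕ) (i : v.adicCompletion K →+* w.adicCompletion K')
      (sw : w.adicCompletion K' ≃+* w.adicCompletion K'),
      (∀ x : K, i (algebraMap K (v.adicCompletion K) x)
        = algebraMap K' (w.adicCompletion K') (algebraMap K K' x)) →
      (∀ y : K', sw (algebraMap K' (w.adicCompletion K') y)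
        = algebraMap K' (w.adicCompletion K') (D.s.σ y)) →
      T6.IsLocalExt (v.adicCompletion K) (w.adicCompletion K') D.l e i sw →
      (∀ (δ : GL (Fin 2) (w.adicCompletion K')) (γ : GL (Fin 2) (v.adicCompletion K))
          (c c' : ℂ), T6.IsReg γ →
          IsConj (T6.twNorm sw D.l δ) (Matrix.GeneralLinearGroup.map i γ) →
          T6.IsTwOrbSum sw (n w) (φ₀ w) δ c → T6.IsOrbSum (m v) (f₀ v) γ c' → c = c') ∧
        ∀ (γ : GL (Fin 2) (v.adicCompletion K)) (c' : ℂ), T6.IsReg γ →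
          ¬ T6.IsNormFrom D.l i sw γ → T6.IsOrbSum (m v) (f₀ v) γ c' → c' = 0 := by
  obtain ⟨_, _, _, _, _, hIL, hIE, _, _, _, _, _, _, hFL, _⟩ := hT6
  intro w hvw huniq e i sw hi hsw hext
  obtain ⟨A, Av, hfv, hφw, hbc, -⟩ := hsph
  have hunr := hun w hvw
  have he : e = 1 := H938.e_eq_one938 hunr e hext.e_pos i hi hext.val_i
  subst he
  obtain ⟨hk, hk'⟩ := H938.inert_data938 hIL hIE D.l hc hvw huniq hunr
  have e1 : φ₀ w = fun g => A w (T6.cartan g) := funext (hφw w hvw).2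
  have e2 : f₀ v = fun g => Av (T6.cartan g) := funext hfv.2
  rw [hn0 w hvw, hm0, e1, e2]
  exact ⟨fun δ γ c c' hreg hconj hc1 hc2 =>
      hFL.1 _ _ _ D.l i sw hk hk' hext hc.prime _ _ (hφw w hvw).1 hfv.1
        (hbc w hvw huniq) δ γ c c' hreg trivial hconj hc1 hc2,
    fun γ c' hreg hnn hc2 =>
      hFL.2 _ _ _ D.l i sw hk hk' hext hc.prime _ _ (hφw w hvw).1 hfv.1
        (hbc w hvw huniq) γ c' hreg hnn hc2⟩

/-- The clause `split` at an unramified place of level `0` with the shape. -/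
theorem sph_split_at681 (hT6 : T6.T6Out) (D : CompData K K') (hD : IsCompData D)
    (hc : IsCycExt K K' D.l) (T₀ : Finset (HeightOneSpectrum (𝓞 K)))
    (hun : UnramOut305 (K' := K') T₀)
    (n : HeightOneSpectrum (𝓞 K') → ℕ) (m : HeightOneSpectrum (𝓞 K) → ℕ)
    (φ₀ : ∀ w : HeightOneSpectrum (𝓞 K'), GL (Fin 2) (w.adicCompletion K') → ℂ)
    (f₀ : ∀ v : HeightOneSpectrum (𝓞 K), GL (Fin 2) (v.adicCompletion K) → ℂ)
    (v : HeightOneSpectrum (𝓞 K)) (hv0 : v ∉ T₀)
    (hm0 : m v = 0) (hn0 : ∀ w : HeightOneSpectrum (𝓞 K'), PlaceOver K K' v w → n w = 0)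
    (hsph : SphAt681 D.l v φ₀ (f₀ v)) :
    (∃ w₁ w₂ : HeightOneSpectrum (𝓞 K'),
      PlaceOver K K' v w₁ ∧ PlaceOver K K' v w₂ ∧ w₁ ≠ w₂) →
    ∃ (w : ℕ → HeightOneSpectrum (𝓞 K'))
      (i : ∀ j : ℕ, v.adicCompletion K ≃+* (w j).adicCompletion K'),
      (∀ j : ℕ, PlaceOver K K' v (w j)) ∧ (∀ j : ℕ, T5.PlaceRel D.s (w (j + 1)) (w j)) ∧
      (∀ j : ℕ, 0 < j → j < D.l → w j ≠ w 0) ∧
      (∀ (j : ℕ) (x : K), i j (algebraMap K (v.adicCompletion K) x)
        = algebraMap K' ((w j).adicCompletion K') (algebraMap K K' x)) ∧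
      (∀ (j : ℕ) (x : v.adicCompletion K), Valued.v (i j x) = Valued.v x) ∧
      (∀ j : ℕ, n (w j) = m v) ∧
        T6.IsConvProd (T6.InU (m v)) D.l
          (fun j g => φ₀ (w j)
            (Matrix.GeneralLinearGroup.map ((i j : v.adicCompletion K ≃+* _) :
              v.adicCompletion K →+* (w j).adicCompletion K') g))
          (f₀ v) := by
  have hIL : T6.InstLocalC := hT6.2.2.2.2.2.1
  intro hsp
  obtain ⟨A, Av, hfv, hφw, -, hsplit⟩ := hsph
  obtain ⟨w, i, hover, hrel, hne, hi1, hi2⟩ :=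
    H311.enumExistsC311 K K' hT6 D hD hc T₀ hun v hv0 hsp
  refine ⟨w, i, hover, hrel, hne, hi1, hi2,
    fun j => by rw [hn0 (w j) (hover j), hm0], ?_⟩
  have hinj : ∀ j j' : ℕ, j < D.l → j' < D.l → w j = w j' → j = j' :=
    sh_enum_inj681 (fun a b : HeightOneSpectrum (𝓞 K') => T5.PlaceRel D.s a b)
      (fun a b b' h1 h2 => HeightOneSpectrum.ext (h1.trans h2.symm)) D.l w hrel hne
  have hsat := hsplit w hover hinj
  obtain ⟨Dv, hDv⟩ := T6.H305.exists_resData (hIL K v)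
  obtain ⟨Av', hAv', hprod, hsat', -⟩ := T3.H681.split_sph681 v D.l hc.prime.pos
    (fun j => A (w j)) (fun j _ => (hφw (w j) (hover j)).1)
  have hAvEq : Av = Av' := by
    apply satT_inj681 Dv Av Av' hfv.1 hAv'
    intro x y hx hy
    rw [hDv, hsat' x y hx hy]
    exact hsat x y hx hy
  have e1 : (fun (j : ℕ) (g : GL (Fin 2) (v.adicCompletion K)) =>
      φ₀ (w j) (Matrix.GeneralLinearGroup.map
        ((i j : v.adicCompletion K ≃+* _) :
          v.adicCompletion K →+* (w j).adicCompletion K') g))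
      = fun j g => A (w j) (T6.cartan g) := by
    funext j g
    rw [(hφw (w j) (hover j)).2, sh_cartan_map681 (i j) (hi2 j) g]
  have e2 : f₀ v = fun g => Av' (T6.cartan g) := by
    funext g
    rw [hfv.2 g, hAvEq]
  rw [hm0, e1, e2]
  exact hprod

end Shape

end Fermat.Agent.LT.T7.H681

end

end
-- ===== PACK-END LT/T7/H681/SphProd.lean

-- ===== PACK-BEGIN LT/T7/H681/P51Sph.lean
section





/-!
# Row LT, tower T7, node `ProdMtCb`, cut of record P51 (helper51): the leaves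
# P.L4 `InertSphC51` (row 2830) and P.L6 `SplitSphC51` (row 2832) -- helper681, SPARE, OFF-MAIN

No hole, nothing assumed.  ADDITIVE (new names only, suffix `681`, namespace
`Fermat.Agent.LT.T7.H681`).

    inertSphC_of681 (K K') : T6.T6Out → P51.InertSphC51 K K'      (VERBATIM)
    splitSphC_of681 (K K') : T6.T6Out → P51.SplitSphC51 K K'      (VERBATIM)
    sphOut_locProd681      : the products of shape `LocProd51` have the shape `SphOut893`

Proof.  At a place `v ∈ T ∖ T₀` the two factors have the shape `SphAt681` (clause `SphOut893`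
of `LocA893`, `LocB893b`, or unit components), the place is unramified (`H165.unramC165`) and
the levels are `0` (`H165.levelAtC165`); the products have the shape (`sphAt_conv681`), and the
clauses follow (`sph_inert_at681`, `sph_split_at681`).
-/

set_option autoImplicit false
set_option linter.unusedSectionVars false
set_option linter.unusedVariables false

open AutomorphicForm IsDedekindDomain NumberField MeasureTheory
open scoped ComplexConjugate

noncomputable section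

namespace Fermat.Agent.LT.T7.H681

open Fermat.Agent.LT.H556 Fermat.Agent.LT.H556.A0 Fermat.Agent.LT.T7 Fermat.Agent.LT.T7.H305
open Fermat.Agent.LT.T7.H893
open Fermat.Agent.LT

section Leaves

variable (K K' : Type) [Field K] [NumberField K] [Field K'] [NumberField K'] [Algebra K K']

/-- The data of the comparison of a common part with the properties. -/
theorem isCompData_comp681 {ℓ : ℕ} {Φ : HeckeEigensystem K' ℂ} {B : L2Base K K'}
    (hB : IsL2Base ℓ Φ B) (𝔫 : Ideal (𝓞 K)) (h𝔫 : 𝔫 ≠ ⊥) : IsCompData (B.comp 𝔫) :=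
  { cyc := hB.cyc
    base := hB.base
    level_ne := h𝔫
    level := rfl
    frame := hB.frame
    frame' := hB.frame'
    aut := hB.aut 𝔫 }

/-- **The products of shape `LocProd51` have the spherical shape at the places outside the
level**, with the bookkeeping of the context. -/
theorem sphAt_locProd681 (hT6 : T6.T6Out) (ℓ : ℕ) (Φ : HeckeEigensystem K' ℂ) (B : L2Base K K')
    (g : G K') (𝔫 : Ideal (𝓞 K)) (μc : @Measure (GL (Fin 2) ℂ) (borel _))
    (T₀ : Finset (HeightOneSpectrum (𝓞 K)))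
    (n n₀ : HeightOneSpectrum (𝓞 K') → ℕ) (m : HeightOneSpectrum (𝓞 K) → ℕ)
    (H' : Finset (G K')) (z' : G K') (H : Finset (G K)) (z : G K) (t : ℂ) (k : ℤ) (j : ℕ)
    (T : Finset (HeightOneSpectrum (𝓞 K)))
    (φ₀ : ∀ w : HeightOneSpectrum (𝓞 K'), GL (Fin 2) (w.adicCompletion K') → ℂ)
    (Φ' : InfinitePlace K' → GL (Fin 2) ℂ → ℂ)
    (f₀ : ∀ v : HeightOneSpectrum (𝓞 K), GL (Fin 2) (v.adicCompletion K) → ℂ)
    (F : InfinitePlace K → GL (Fin 2) ℂ → ℂ)
    (h : P51.IsLoc51 K K' ℓ Φ B g 𝔫 μc T₀ n n₀ m H' z' H z t k j T φ₀ Φ' f₀ F) :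
    IsCycExt K K' B.l ∧ IsCompData (B.comp 𝔫) ∧ UnramOut305 (K' := K') T₀ ∧
      IsLevelAt305 T₀ n m ∧ ∀ v ∈ T, v ∉ T₀ → SphAt681 B.l v φ₀ (f₀ v) := by
  obtain ⟨hctx, hsys, -, hprod⟩ := h
  have hc : IsCycExt K K' B.l := by
    rw [hctx.base.deg]
    exact hctx.cyc
  have hun : UnramOut305 (K' := K') T₀ :=
    H165.unramC165 K K' B 𝔫 T₀ hctx.ram hsys.mem_S'_g hctx.mem_T₀
  have hlev : IsLevelAt305 T₀ n m :=
    H165.levelAtC165 K K' 𝔫 T₀ n m hctx.mem_T₀ hctx.lev_m hctx.lev_n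
  refine ⟨hc, isCompData_comp681 K K' hctx.base 𝔫 hsys.level_ne, hun, hlev, ?_⟩
  obtain ⟨T₁, T₂, φ₁, Φ₁, f₁, F₁, φ₂, Φ₂, f₂, F₂, hT, -, -, hA, hB', -, -, -, -, hout, -, -⟩ :=
    hprod
  have hS₁ : SphOut893 B.l T₀ T₁ φ₁ f₁ := hA.2.2.1
  have hS₂ : SphOut893 B.l T₀ T₂ φ₂ f₂ := hB'.2.2.2.2.1
  intro v hv hv0
  obtain ⟨hcv, hcw⟩ := hout v hv hv0
  have hunv := hun v hv0
  by_cases h1 : v ∈ T₁
  · by_cases h2 : v ∈ T₂
    · rw [if_pos h1, if_pos h2] at hcv
      refine sphAt_conv681 hT6 B.l hc v hunv φ₁ φ₂ φ₀ (f₁ v) (f₂ v) (f₀ v)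
        (hS₁ v h1 hv0) (hS₂ v h2 hv0) hcv (fun w hvw => ?_)
      have := hcw w hvw
      rw [if_pos h1, if_pos h2] at this
      exact this
    · rw [if_pos h1, if_neg h2] at hcv
      refine sphAt_conv681 hT6 B.l hc v hunv φ₁ (fun _ => unitFn893 0) φ₀ (f₁ v)
        (unitFn893 0) (f₀ v) (hS₁ v h1 hv0) (sphAt_unit681 B.l v) hcv (fun w hvw => ?_)
      have := hcw w hvw
      rw [if_pos h1, if_neg h2] at this
      exact this
  · by_cases h2 : v ∈ T₂
    · rw [if_neg h1, if_pos h2] at hcv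
      refine sphAt_conv681 hT6 B.l hc v hunv (fun _ => unitFn893 0) φ₂ φ₀ (unitFn893 0)
        (f₂ v) (f₀ v) (sphAt_unit681 B.l v) (hS₂ v h2 hv0) hcv (fun w hvw => ?_)
      have := hcw w hvw
      rw [if_neg h1, if_pos h2] at this
      exact this
    · rw [if_neg h1, if_neg h2] at hcv
      refine sphAt_conv681 hT6 B.l hc v hunv (fun _ => unitFn893 0) (fun _ => unitFn893 0) φ₀
        (unitFn893 0) (unitFn893 0) (f₀ v) (sphAt_unit681 B.l v) (sphAt_unit681 B.l v) hcv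
        (fun w hvw => ?_)
      have := hcw w hvw
      rw [if_neg h1, if_neg h2] at this
      exact this

/-- The products of shape `LocProd51` have the shape `SphOut893`. -/
theorem sphOut_locProd681 (hT6 : T6.T6Out) (ℓ : ℕ) (Φ : HeckeEigensystem K' ℂ) (B : L2Base K K')
    (g : G K') (𝔫 : Ideal (𝓞 K)) (μc : @Measure (GL (Fin 2) ℂ) (borel _))
    (T₀ : Finset (HeightOneSpectrum (𝓞 K)))
    (n n₀ : HeightOneSpectrum (𝓞 K') → ℕ) (m : HeightOneSpectrum (𝓞 K) → ℕ)
    (H' : Finset (G K')) (z' : G K') (H : Finset (G K)) (z : G K) (t : ℂ) (k : ℤ) (j : ℕ)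
    (T : Finset (HeightOneSpectrum (𝓞 K)))
    (φ₀ : ∀ w : HeightOneSpectrum (𝓞 K'), GL (Fin 2) (w.adicCompletion K') → ℂ)
    (Φ' : InfinitePlace K' → GL (Fin 2) ℂ → ℂ)
    (f₀ : ∀ v : HeightOneSpectrum (𝓞 K), GL (Fin 2) (v.adicCompletion K) → ℂ)
    (F : InfinitePlace K → GL (Fin 2) ℂ → ℂ)
    (h : P51.IsLoc51 K K' ℓ Φ B g 𝔫 μc T₀ n n₀ m H' z' H z t k j T φ₀ Φ' f₀ F) :
    SphOut893 B.l T₀ T φ₀ f₀ :=
  (sphAt_locProd681 K K' hT6 ℓ Φ B g 𝔫 μc T₀ n n₀ m H' z' H z t k j T φ₀ Φ' f₀ F h).2.2.2.2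

/-- **LEAF P.L4 = INERT-SPH** from the tower Prop of T6 (VERBATIM `P51.InertSphC51`). -/
theorem inertSphC_of681 (hT6 : T6.T6Out) : P51.InertSphC51 K K' := by
  intro ℓ Φ B g 𝔫 μc T₀ n n₀ m H' z' H z t k j T φ₀ Φ' f₀ F h v hv hv0
  obtain ⟨hc, hD, hun, hlev, hsph⟩ :=
    sphAt_locProd681 K K' hT6 ℓ Φ B g 𝔫 μc T₀ n n₀ m H' z' H z t k j T φ₀ Φ' f₀ F h
  exact sph_inert_at681 hT6 (B.comp 𝔫) hc n m φ₀ f₀ v (hun v hv0) (hlev.1 v hv0)
    (fun w hvw => hlev.2 v w hv0 hvw) (hsph v hv hv0)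

/-- **LEAF P.L6 = SPLIT-SPH** from the tower Prop of T6 (VERBATIM `P51.SplitSphC51`). -/
theorem splitSphC_of681 (hT6 : T6.T6Out) : P51.SplitSphC51 K K' := by
  intro ℓ Φ B g 𝔫 μc T₀ n n₀ m H' z' H z t k j T φ₀ Φ' f₀ F h v hv hv0
  obtain ⟨hc, hD, hun, hlev, hsph⟩ :=
    sphAt_locProd681 K K' hT6 ℓ Φ B g 𝔫 μc T₀ n n₀ m H' z' H z t k j T φ₀ Φ' f₀ F h
  exact sph_split_at681 hT6 (B.comp 𝔫) hD hc T₀ hun n m φ₀ f₀ v hv0 (hlev.1 v hv0)
    (fun w hvw => hlev.2 v w hv0 hvw) (hsph v hv hv0)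

example (hT6 : T6.T6Out) : P51.InertSphC51 K K' := inertSphC_of681 K K' hT6
example (hT6 : T6.T6Out) : P51.SplitSphC51 K K' := splitSphC_of681 K K' hT6

end Leaves

end Fermat.Agent.LT.T7.H681

end

end
-- ===== PACK-END LT/T7/H681/P51Sph.lean

-- ===== PACK-BEGIN LT/T7/H563/ProdMtQSpec.lean
section




/-!
# Row LT, tower T7, node T7.L2Q.1.H2b `CQ801.ProdMtQC801` (quadratic step `F = ℚ(√-3)` over `ℚ`):
# FIRST CUT (helper563, registry row 2683) -- Spec

OFF-MAIN.  Definitions and frozen Props only (the proved top is `ProdMtQTop.lean`).  No hole,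
nothing assumed.  ADDITIVE (new names only, all suffixed `563`, namespace
`Fermat.Agent.LT.T7.PQ563`).  MIRROR over `ℚ` of the sixth cut of the cubic step,
`T7/H893/SupplyProdSpec.lean` (helper893, sha256 21691ff19b22972e), on the relation of record
over `ℚ`, `T7/H801/SupplyQConstrSpec.lean` (helper801, sha256 d1e7dc69460eae43).  The leaves
`H893.LevelUniqC893`, `H893.LevelAtC893` of helper893 are USED AS THEY ARE (`K = ℚ`, `K' = F`).

    prodMtQC801_of563 : LevelUniqC893 ℚ → LevelUniqC893 F → LevelAtC893 ℚ F → UnramQC563 F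
        → ProdShapeQC563 F → SphHypQC563 F
        → ∀ κ nowhere zero, CQ801.ProdMtQC801 F κ                             (VERBATIM)

## The cut

* **`ProdShapeQC563 F`** (NODE, the CALCULUS; no matching theorem, no `κ`): for exponents
  `(T₀, n, n₀, m)` of the level and Haar measures `μr`, `μc` there are constants `c ≠ 0` (the
  constant of the Abel relation of the two triples) and `c₀ ≠ 0` such that for every `a ≠ 0`
  and all pre-data with the local shape for `(c, a)` the members are averages of pure tensors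
  with constant `a * c₀` downstairs whose components satisfy `LocPQ563`: the local hypotheses
  `CQ801.LocHypQb801` AT THE PLACES OF THE LEVEL (`T₀`) and at infinity (`T6.IsArchMatch`), and
  the spherical shape `SphOut893` outside the level.
* **`SphHypQC563 F`** (NODE, LOCAL, T6; mirror of `H893.SphHypC893`): the local hypotheses on
  `T₀` and the spherical shape on `T ∖ T₀` give the local hypotheses on `T`.
* **`UnramQC563 F`** (LEAF [S-M], algebraic number theory): every place of `F = ℚ(√-3)` outside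
  `S'` is unramified over `ℚ` when `3 ∈ S` (the same statement as `CQ57.UnramQC57` of helper57,
  unfolded).
* `H893.LevelUniqC893 ℚ`, `H893.LevelUniqC893 F`, `H893.LevelAtC893 ℚ F`: the leaves of
  helper893 (rows 2853, 2854), verbatim.

The top chooses `c` of the calculus node and `a = κ / c₀`.

FALSITY CHECKS (helper563).  (a) CONSTANTS: `c` is chosen BEFORE `a` and both before the
pre-data; `c` and `c₀` depend on `(B, g, 𝔫, μr, μc, T₀, n, n₀, m)` only.  The product of two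
pairs in the Abel relation `c` is a pair in the Abel relation `e c²` (`e > 0` depends on the Haar
measures only), and a pair in the Abel relation `c_w` of the wiring `T3.H830.archWire830` is
matched (`T6.IsArchMatch`): `c` is a square root of `c_w / e`.  The constant `a` of the second
triple multiplies the members downstairs only.  (b) At the bad places (`v ∈ T₀`, `v ≠ u`,
including the ramified prime `3`) the components of the product are those of the second triple
(unit `*` partner), so the finite clauses of `LocHypQb801` there are the first clause of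
`CQ801.LocBQ801`; at `u` (split, two places over it) the inert clause is void.  (c) `LocPQ563`
contains the archimedean clause `arch` of `LocHypQb801` (it does not depend on the set of
places), so `SphHypQC563` only transports it.  (d) `UnramQC563`: `F = ℚ(√-3)`; the places over
`3` lie in `S'`.
-/

set_option autoImplicit false

open AutomorphicForm IsDedekindDomain NumberField MeasureTheory
open scoped ComplexConjugate

noncomputable section

namespace Fermat.Agent.LT.T7.PQ563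

open Fermat.Agent.LT.H556 Fermat.Agent.LT.H556.A0 Fermat.Agent.LT.T7 Fermat.Agent.LT.T7.H305
  Fermat.Agent.LT.T7.L2Q Fermat.Agent.LT.T7.H893 Fermat.Agent.LT.T7.H962
  Fermat.Agent.LT.T7.H732 Fermat.Agent.LT.T7.MQ298 Fermat.Agent.LT.T7.CQ801

attribute [local instance] Fermat.Agent.LT.T5.instMeasurableSpaceG

section Shape

variable {F : Type} [Field F] [NumberField F]

/-- **THE LOCAL SHAPE OF THE MEMBERS over `ℚ`**: the local hypotheses at the places of the level
`T₀` (and at infinity), the spherical shape outside the level. -/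
def LocPQ563 (D : CompData ℚ F) (μr : @Measure (GL (Fin 2) ℝ) (borel _))
    (μc : @Measure (GL (Fin 2) ℂ) (borel _)) (T₀ : Finset (HeightOneSpectrum (𝓞 ℚ)))
    (n : HeightOneSpectrum (𝓞 F) → ℕ) (m : HeightOneSpectrum (𝓞 ℚ) → ℕ) : LocCondQ801 F :=
  fun T φ₀ Φ f₀ F0 F1 =>
    LocHypQb801 D μr μc T₀ n m φ₀ Φ f₀ F0 F1 ∧ SphOut893 (K := ℚ) (K' := F) D.l T₀ T φ₀ f₀

end Shape

section Leaves

variable (F : Type) [Field F] [NumberField F]

/-- **LEAF T7.L2Q.1.H2b.0 = UNRAM [S-M] (algebraic number theory).**  In a common part of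
helper60 which contains the ramified prime (`3 ∈ S`) every place of `F` outside `S'` is
unramified over `ℚ`.
Proof.  `F = ℚ(√-3)` (`HasSqrtNegThree`, `IsImagQuad`: degree `2`); a prime `p ≠ 3` is
unramified (the discriminant of the order `ℤ[ζ₃]` is `-3`); the places over `3` lie in `S'`
(`IsRamQ60`, `IsL2QBase.under_exact`, `IsL2QBase.fibre`). -/
def UnramQC563 : Prop :=
  HasSqrtNegThree F → IsImagQuad F →
    ∀ (Φ : HeckeEigensystem F ℂ) (B : L2Q.H60.L2QBase F), L2Q.H60.IsL2QBase Φ B →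
      L2Q.H60.IsRamQ60 B →
      ∀ (v : HeightOneSpectrum (𝓞 ℚ)) (w : HeightOneSpectrum (𝓞 F)), PlaceOver ℚ F v w →
        w ∉ B.S' → ∃ x : 𝓞 ℚ, x ∈ v.asIdeal ∧ algebraMap (𝓞 ℚ) (𝓞 F) x ∉ w.asIdeal ^ 2

/-- **NODE T7.L2Q.1.H2b.3 = SPH-HYP over `ℚ` (LOCAL, T6; mirror of `H893.SphHypC893`).**  The
local hypotheses at the places of `T₀` and the spherical shape at the places of `T ∖ T₀`
(unramified, levels `0`) give the local hypotheses at the places of `T`.
Proof.  `v ∈ T ∖ T₀`.  `inv_up`, `inv_down`: a spherical function is bi-`GL₂(𝒪)`-invariant of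
finite support, the levels are `0` (`IsLevelAt305`).  `inert`: `e = 1` (`UnramOut305`), the
fundamental lemma `T6.FundLemmaC` for `T6.IsBC` (`ℓ = 2`).  `split`: an enumeration `w 0, w 1`
in the order of the orbit with identifications `ℚ_v ≃ F_{w j}` exists; the convolution product
of spherical functions is spherical and its Satake transform is the product; the Satake
transform is injective on the spherical functions.  The archimedean clauses do not depend on
the set of places. -/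
def SphHypQC563 : Prop :=
  IsImagQuad F →
    ∀ D : CompData ℚ F, IsCompData D → IsCycExt ℚ F D.l → D.l = 2 →
    ∀ μr : @Measure (GL (Fin 2) ℝ) (borel _), @Measure.IsHaarMeasure _ _ _ (borel _) μr →
    ∀ μc : @Measure (GL (Fin 2) ℂ) (borel _), @Measure.IsHaarMeasure _ _ _ (borel _) μc →
    ∀ (T₀ : Finset (HeightOneSpectrum (𝓞 ℚ))), UnramOut305 (K' := F) T₀ →
    ∀ (n : HeightOneSpectrum (𝓞 F) → ℕ) (m : HeightOneSpectrum (𝓞 ℚ) → ℕ),
      IsLevelAt305 T₀ n m →
    ∀ T : Finset (HeightOneSpectrum (𝓞 ℚ)), T₀ ⊆ T →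
    ∀ (φ₀ : ∀ w : HeightOneSpectrum (𝓞 F), GL (Fin 2) (w.adicCompletion F) → ℂ)
      (Φ : InfinitePlace F → GL (Fin 2) ℂ → ℂ)
      (f₀ : ∀ v : HeightOneSpectrum (𝓞 ℚ), GL (Fin 2) (v.adicCompletion ℚ) → ℂ)
      (F0 F1 : GL (Fin 2) ℝ → ℂ),
      LocHypQb801 D μr μc T₀ n m φ₀ Φ f₀ F0 F1 →
      SphOut893 (K := ℚ) (K' := F) D.l T₀ T φ₀ f₀ →
      LocHypQb801 D μr μc T n m φ₀ Φ f₀ F0 F1

/-- **NODE T7.L2Q.1.H2b.4 = PROD-SHAPE over `ℚ` (the CALCULUS of pure tensors; mirror of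
`H893.ProdShapeC893`).**  For a common part with the ramified prime, a bad element, a level `𝔫`
with exponents `(T₀, n, n₀, m)` and Haar measures `μr`, `μc` there are constants `c ≠ 0`,
`c₀ ≠ 0` such that for every `a ≠ 0` and all pre-data of level `𝔫` with the operator properties
and the local shape (`LocAQ801 c` with constant `1`, `LocBQ801 … c` with constant `a`) the
members of the families are averages of pure tensors with constant `a * c₀` whose components
satisfy `LocPQ563`.  See the header. -/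
def ProdShapeQC563 : Prop :=
  HasSqrtNegThree F → IsImagQuad F →
    ∀ (Φ : HeckeEigensystem F ℂ) (B : L2Q.H60.L2QBase F), L2Q.H60.IsL2QBase Φ B →
    L2Q.H60.IsRamQ60 B → ∀ g : G F, B.IsBad g →
    ∀ (𝔫 : Ideal (𝓞 ℚ)) (μr : @Measure (GL (Fin 2) ℝ) (borel _))
      (μc : @Measure (GL (Fin 2) ℂ) (borel _)),
      @Measure.IsHaarMeasure _ _ _ (borel _) μr → @Measure.IsHaarMeasure _ _ _ (borel _) μc →
    ∀ (T₀ : Finset (HeightOneSpectrum (𝓞 ℚ)))
      (n n₀ : HeightOneSpectrum (𝓞 F) → ℕ) (m : HeightOneSpectrum (𝓞 ℚ) → ℕ),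
      (∀ v : HeightOneSpectrum (𝓞 ℚ), v ∈ T₀ ↔ v.asIdeal ∣ 𝔫) →
      IsLevelOf893 𝔫 m → IsLevelOf893 (upI (K' := F) 𝔫) n → IsLevelOf893 B.𝔑₀ n₀ →
      ∃ c c₀ : ℂ, c ≠ 0 ∧ c₀ ≠ 0 ∧
        ∀ a : ℂ, a ≠ 0 → ∀ E : L2QPre732 F, E.𝔫 = 𝔫 →
          IsL2QPreOp732 Φ (toBase962_732 B) g E →
          (∀ X : List (Gen F), (∀ x ∈ X, x.Out B.S') →
            IsAvgPureQ801 (upI (K' := F) 𝔫) 𝔫 T₀ (LocAQ801 c T₀ n m) 1
              (E.Φ₁ X) (E.F₁ QWt.w0 X) (E.F₁ QWt.w1 X)) →
          IsAvgPureQ801 (upI (K' := F) 𝔫) 𝔫 T₀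
            (LocBQ801 (toBase962_732 B) g 𝔫 μr μc c T₀ n n₀ m) a
            E.φ₂ (E.f₂ QWt.w0) (E.f₂ QWt.w1) →
          ∀ (X : List (Gen F)) (k : ℤ) (mm : ℕ), (∀ x ∈ X, x.Out B.S') →
            IsAvgPureQ801 (upI (K' := F) 𝔫) 𝔫 T₀
              (LocPQ563 ((toBase962_732 B).comp 𝔫) μr μc T₀ n m) (a * c₀)
              (E.up (toBase962_732 B) X k mm)
              (E.down (toBase962_732 B) QWt.w0 X k mm)
              (E.down (toBase962_732 B) QWt.w1 X k mm)

end Leaves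

/-! ## Appendix: the equation lemmas of the definitions of this file are realised HERE -/

theorem eqns_realised_prodMtQ563 : True := by
  have _h0 := @LocPQ563.eq_1
  have _h1 := @UnramQC563.eq_1
  have _h2 := @SphHypQC563.eq_1
  have _h3 := @ProdShapeQC563.eq_1
  have _g0 := @LocPQ563.eq_def
  have _g1 := @UnramQC563.eq_def
  have _g2 := @SphHypQC563.eq_def
  have _g3 := @ProdShapeQC563.eq_def
  trivial

end Fermat.Agent.LT.T7.PQ563

end

end
-- ===== PACK-END LT/T7/H563/ProdMtQSpec.lean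

-- ===== PACK-BEGIN LT/T7/H563/ProdShapeQSpec.lean
section




/-!
# Row LT, tower T7, node T7.L2Q.1.H2b.4 `PQ563.ProdShapeQC563` (registry row 2919, helper563):
# SUB-CUT -- Spec

OFF-MAIN.  Definitions and frozen Props only (the proved tops are `ProdShapeQTop.lean`).  No
hole, nothing assumed.  ADDITIVE (new names only, all suffixed `563`, namespace
`Fermat.Agent.LT.T7.PQ563`).  MIRROR over `ℚ` of the spare cut of the cubic node by helper51
(`T7/P51/ProdMtSpec.lean` 4b4a6c6c, `T7/P51/GlobProdSpec.lean` 947ef7f3; audited by helper416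
and helper950).  The field-independent vocabulary of helper51 is USED AS IT IS
(`P51.regLoc51`, `P51.RegAt51`, `P51.SplitAt51`, `P51.InertAt51` for `K = ℚ`, `K' = F`).

    prodShapeQC_of563 : GlobProdQC563 F → LocProdQC563 F → ProdShapeQC563 F
    globProdQC_of563  : OpAvgQC563 F → ConvAvgQC563 F → GlobProdQC563 F
    locProdQC_of563   : RegOrbQC563 F → SplitOrbQC563 F → SphProdQC563 F → ArchProdQC563 F
                          → LocProdQC563 F

## The cut

The members are `E.up = Φ₁ X ⋆ lsum Hg (regL (o 0) z' H' k j φ₂)` and, for the two types,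
`E.down n = F₁ n X ⋆ regL u z H k j (f₂ n)`; the base functions are averages of pure tensors of
the shapes `CQ801.LocAQ801 c`, `CQ801.LocBQ801 … c`.

* **`LocOpQ563`** = the local shape of the OPERATED second triple: `LocBQ801` with the unit
  components at the bad places replaced by the double coset functions of `g` and the Iwahori
  components at `o 0`, `u` replaced by `P51.regLoc51`.
* **`LocProdQ563 … t lam`** = the local shape of the PRODUCTS, in terms of the components of the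
  two triples: bad places: the double coset functions upstairs, the partner downstairs; the
  orbit: `regLoc51` at `o 0`, `1_I` at `o 1`, `t · regLoc51` at `u`; outside the level: the
  convolution products (`vol GL₂(𝒪) = 1`) of the spherical components; at infinity: the
  convolution products for `μc` upstairs and `lam ·` the convolution products for `μr`
  downstairs (for each of the two weights).
* **`GlobProdQC563`** (NODE, global) = `OpAvgQC563` (NODE: adelic coset bookkeeping) +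
  `ConvAvgQC563` (NODE: Haar splitting + Fubini): there is `c₁ ≠ 0` such that for all
  `c, t, lam, a ≠ 0` the members are averages of pure tensors of shape `LocProdQ563 … t lam`
  with the constant `a c₁ / (t lam)` downstairs.
* **`LocProdQC563`** (NODE, local): there are `c, t, lam ≠ 0` such that the shape
  `LocProdQ563 … c … t lam` implies `LocPQ563` (the local hypotheses on `T₀` and at infinity,
  the spherical shape outside).  Leaves: `RegOrbQC563` (regularity along the orbit),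
  `SplitOrbQC563` (Iwahori–Hecke at `u`; gives `t`), `SphProdQC563` (products of spherical
  functions), `ArchProdQC563` (Abel relation of the products + wiring; gives `c`, `lam`).  The
  clauses at the bad places are those of the partner (proved in the top); the inert clause at
  `u` is void (two places over `u`).

FALSITY CHECKS (helper563).  (a) Constants: `pureQ298 T (f₀ with t X at u) (lam F) =
t lam pureQ298 T (f₀ with X at u) F`, so the constant `a c₁ / (t lam)` is right for ALL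
`t, lam ≠ 0`; `c₁ = c_ℚ / c_F` (the normalising constants of the two Haar measures of the
frames for local measures with `vol U = 1`, and `μr`, `μc`), the constant upstairs goes into
the measure of the parameter space.  The SAME finite components and the same constant serve
the two weights: the member of type `n` is the product of the members of type `n`.
(b) `ArchProdQC563`: the Abel transform is multiplicative on the bi-`U(2)`-invariant functions
and on the functions of a fixed weight; `halfQ801 c β₁ ⋆ halfQ801 c β₂ = 4 c² halfQ801 1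
(β₁ ⋆ β₂)`; the convolution product of symmetric bumps is a symmetric bump; so the products are
in the Abel relation `e c²`, `e > 0` depending on `μr, μc` only, and `lam = c_w / (e c²)` for
the constant `c_w` of the wiring `T3.H830.archWire830` (station of helper680:
`abelOkAt_conv680`, `abelOkAt_smul680`, `abelOkAt_match680`).  (c) `RegOrbQC563`,
`SplitOrbQC563`: `u ∣ 𝔫`, so `n (o j) ≥ 1`, `m u ≥ 1` and `U ⊆ I`; `regLoc51` of `1_I` is
`q^{-j/2} 1_{ϖ^k I diag(ϖ^j, 1) I}` (independent of the coset system and of the uniformiser),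
`t = [I : U(m u)]`.  (d) `SphProdQC563`: at `v ∈ T ∖ T₀` the factors are spherical or the unit
`1_{GL₂(𝒪)}`; `T6.IsBC` and the split clause of `SphOut893` are multiplicative (Satake).
-/

set_option autoImplicit false

open AutomorphicForm IsDedekindDomain NumberField MeasureTheory
open scoped ComplexConjugate

noncomputable section

namespace Fermat.Agent.LT.T7.PQ563

open Fermat.Agent.LT.H556 Fermat.Agent.LT.H556.A0 Fermat.Agent.LT.T7 Fermat.Agent.LT.T7.H305
  Fermat.Agent.LT.T7.L2Q Fermat.Agent.LT.T7.H893 Fermat.Agent.LT.T7.H962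
  Fermat.Agent.LT.T7.H732 Fermat.Agent.LT.T7.MQ298 Fermat.Agent.LT.T7.CQ801

attribute [local instance] Fermat.Agent.LT.T5.instMeasurableSpaceG

/-! ## 1. The context, the coset systems, the shapes -/

section Shape

variable {F : Type} [Field F] [NumberField F]

/-- **THE CONTEXT** of the node `ProdShapeQC563`. -/
structure IsCtxQ563 (Φ : HeckeEigensystem F ℂ) (B : L2Q.H60.L2QBase F) (g : G F)
    (𝔫 : Ideal (𝓞 ℚ)) (μr : @Measure (GL (Fin 2) ℝ) (borel _))
    (μc : @Measure (GL (Fin 2) ℂ) (borel _)) (T₀ : Finset (HeightOneSpectrum (𝓞 ℚ)))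
    (n n₀ : HeightOneSpectrum (𝓞 F) → ℕ) (m : HeightOneSpectrum (𝓞 ℚ) → ℕ) : Prop where
  sqrt : HasSqrtNegThree F
  quad : IsImagQuad F
  base : L2Q.H60.IsL2QBase Φ B
  ram : L2Q.H60.IsRamQ60 B
  bad : B.IsBad g
  haar_r : @Measure.IsHaarMeasure _ _ _ (borel _) μr
  haar_c : @Measure.IsHaarMeasure _ _ _ (borel _) μc
  mem_T₀ : ∀ v : HeightOneSpectrum (𝓞 ℚ), v ∈ T₀ ↔ v.asIdeal ∣ 𝔫
  lev_m : IsLevelOf893 𝔫 m
  lev_n : IsLevelOf893 (upI (K' := F) 𝔫) n
  lev_n₀ : IsLevelOf893 B.𝔑₀ n₀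

/-- **THE LEVEL AND THE COSET SYSTEMS** (the fields of `H732.IsL2QPreOp732` which are used by
the local calculus). -/
structure IsSysQ563 (B : L2Q.H60.L2QBase F) (𝔫 : Ideal (𝓞 ℚ))
    (H' : Finset (G F)) (z' : G F) (H : Finset (G ℚ)) (z : G ℚ) : Prop where
  level_ne : 𝔫 ≠ ⊥
  level_g : upI (K' := F) 𝔫 ≤ B.𝔑₀
  mem_S'_g : ∀ w : HeightOneSpectrum (𝓞 F), w ∈ B.S' ↔ w.asIdeal ∣ upI (K' := F) 𝔫
  u_level : B.u.asIdeal ∣ 𝔫
  sys' : IsIwCosetSystem (B.o 0) H'
  unif' : IsScalarUniformizerAt (B.o 0) z'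
  sys : IsIwCosetSystem B.u H
  unif : IsScalarUniformizerAt B.u z

/-- **THE LOCAL SHAPE OF THE OPERATED SECOND TRIPLE.**  `(φ₂, f₂)` are the finite components of
a pure tensor of shape `LocBQ801`; the components at infinity are unchanged. -/
def LocOpQ563 (B : L2QBase962 F) (g : G F) (𝔫 : Ideal (𝓞 ℚ))
    (μr : @Measure (GL (Fin 2) ℝ) (borel _)) (μc : @Measure (GL (Fin 2) ℂ) (borel _))
    (c : ℂ) (T₀ : Finset (HeightOneSpectrum (𝓞 ℚ)))
    (n n₀ : HeightOneSpectrum (𝓞 F) → ℕ) (m : HeightOneSpectrum (𝓞 ℚ) → ℕ)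
    (H' : Finset (G F)) (z' : G F) (H : Finset (G ℚ)) (z : G ℚ) (k : ℤ) (j : ℕ) :
    LocCondQ801 F :=
  fun T φ₀ Φ f₀ F0 F1 =>
    ∃ (φ₂ : ∀ w : HeightOneSpectrum (𝓞 F), GL (Fin 2) (w.adicCompletion F) → ℂ)
      (f₂ : ∀ v : HeightOneSpectrum (𝓞 ℚ), GL (Fin 2) (v.adicCompletion ℚ) → ℂ),
      LocBQ801 B g 𝔫 μr μc c T₀ n n₀ m T φ₂ Φ f₂ F0 F1 ∧
      (∀ v ∈ T₀, v ≠ B.u → f₀ v = f₂ v ∧
        ∀ w : HeightOneSpectrum (𝓞 F), PlaceOver ℚ F v w →
          φ₀ w = dblFn893 (n₀ w) (finGL305 w g)) ∧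
      f₀ B.u = P51.regLoc51 B.u z H k j iwFn893 ∧
      φ₀ (B.o 0) = P51.regLoc51 (B.o 0) z' H' k j iwFn893 ∧
      φ₀ (B.o 1) = iwFn893 ∧
      ∀ v ∈ T, v ∉ T₀ → f₀ v = f₂ v ∧
        ∀ w : HeightOneSpectrum (𝓞 F), PlaceOver ℚ F v w → φ₀ w = φ₂ w

open Classical in
/-- **THE LOCAL SHAPE OF THE PRODUCTS over `ℚ`.**  `(φ₀, Φ, f₀, F0, F1)` are the components of
the product of a pure tensor of shape `LocAQ801 c` (first triple) with the operated pure tensor
of shape `LocBQ801 … c` (second triple); `t` is the normalising constant of the component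
downstairs at `u`, `lam` the normalising constant of the components downstairs at the real
place. -/
def LocProdQ563 (B : L2QBase962 F) (g : G F) (𝔫 : Ideal (𝓞 ℚ))
    (μr : @Measure (GL (Fin 2) ℝ) (borel _)) (μc : @Measure (GL (Fin 2) ℂ) (borel _))
    (c : ℂ) (T₀ : Finset (HeightOneSpectrum (𝓞 ℚ)))
    (n n₀ : HeightOneSpectrum (𝓞 F) → ℕ) (m : HeightOneSpectrum (𝓞 ℚ) → ℕ)
    (H' : Finset (G F)) (z' : G F) (H : Finset (G ℚ)) (z : G ℚ) (t lam : ℂ) (k : ℤ) (j : ℕ) :
    LocCondQ801 F :=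
  fun T φ₀ Φ f₀ F0 F1 =>
    ∃ (T₁ T₂ : Finset (HeightOneSpectrum (𝓞 ℚ)))
      (φ₁ : ∀ w : HeightOneSpectrum (𝓞 F), GL (Fin 2) (w.adicCompletion F) → ℂ)
      (Φ₁ : InfinitePlace F → GL (Fin 2) ℂ → ℂ)
      (f₁ : ∀ v : HeightOneSpectrum (𝓞 ℚ), GL (Fin 2) (v.adicCompletion ℚ) → ℂ)
      (F0₁ F1₁ : GL (Fin 2) ℝ → ℂ)
      (φ₂ : ∀ w : HeightOneSpectrum (𝓞 F), GL (Fin 2) (w.adicCompletion F) → ℂ)
      (Φ₂ : InfinitePlace F → GL (Fin 2) ℂ → ℂ)
      (f₂ : ∀ v : HeightOneSpectrum (𝓞 ℚ), GL (Fin 2) (v.adicCompletion ℚ) → ℂ)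
      (F0₂ F1₂ : GL (Fin 2) ℝ → ℂ),
      T = T₁ ∪ T₂ ∧ T₀ ⊆ T₁ ∧ T₀ ⊆ T₂ ∧
      LocAQ801 c T₀ n m T₁ φ₁ Φ₁ f₁ F0₁ F1₁ ∧
      LocBQ801 B g 𝔫 μr μc c T₀ n n₀ m T₂ φ₂ Φ₂ f₂ F0₂ F1₂ ∧
      -- the bad places
      (∀ v ∈ T₀, v ≠ B.u → f₀ v = f₂ v ∧
        ∀ w : HeightOneSpectrum (𝓞 F), PlaceOver ℚ F v w →
          φ₀ w = dblFn893 (n₀ w) (finGL305 w g)) ∧
      -- the orbit
      (f₀ B.u = fun x => t * P51.regLoc51 B.u z H k j iwFn893 x) ∧
      φ₀ (B.o 0) = P51.regLoc51 (B.o 0) z' H' k j iwFn893 ∧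
      φ₀ (B.o 1) = iwFn893 ∧
      -- outside the level
      (∀ v ∈ T, v ∉ T₀ →
        T6.IsConv (T6.InU 0) (if v ∈ T₁ then f₁ v else unitFn893 0)
          (if v ∈ T₂ then f₂ v else unitFn893 0) (f₀ v) ∧
        ∀ w : HeightOneSpectrum (𝓞 F), PlaceOver ℚ F v w →
          T6.IsConv (T6.InU 0) (if v ∈ T₁ then φ₁ w else unitFn893 0)
            (if v ∈ T₂ then φ₂ w else unitFn893 0) (φ₀ w)) ∧
      -- at infinity
      (∀ w : InfinitePlace F, Φ w = @T6.convInt _ _ (borel _) μc (Φ₁ w) (Φ₂ w)) ∧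
      (F0 = fun x => lam * @T6.convInt _ _ (borel _) μr F0₁ F0₂ x) ∧
      F1 = fun x => lam * @T6.convInt _ _ (borel _) μr F1₁ F1₂ x

/-- The common hypotheses of the local leaves. -/
def IsLocQ563 (Φ : HeckeEigensystem F ℂ) (B : L2Q.H60.L2QBase F) (g : G F)
    (𝔫 : Ideal (𝓞 ℚ)) (μr : @Measure (GL (Fin 2) ℝ) (borel _))
    (μc : @Measure (GL (Fin 2) ℂ) (borel _)) (c : ℂ)
    (T₀ : Finset (HeightOneSpectrum (𝓞 ℚ)))
    (n n₀ : HeightOneSpectrum (𝓞 F) → ℕ) (m : HeightOneSpectrum (𝓞 ℚ) → ℕ)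
    (H' : Finset (G F)) (z' : G F) (H : Finset (G ℚ)) (z : G ℚ) (t lam : ℂ) (k : ℤ) (j : ℕ)
    (T : Finset (HeightOneSpectrum (𝓞 ℚ)))
    (φ₀ : ∀ w : HeightOneSpectrum (𝓞 F), GL (Fin 2) (w.adicCompletion F) → ℂ)
    (Φ' : InfinitePlace F → GL (Fin 2) ℂ → ℂ)
    (f₀ : ∀ v : HeightOneSpectrum (𝓞 ℚ), GL (Fin 2) (v.adicCompletion ℚ) → ℂ)
    (F0 F1 : GL (Fin 2) ℝ → ℂ) : Prop :=
  IsCtxQ563 Φ B g 𝔫 μr μc T₀ n n₀ m ∧ IsSysQ563 B 𝔫 H' z' H z ∧ c ≠ 0 ∧ t ≠ 0 ∧ lam ≠ 0 ∧
    LocProdQ563 (toBase962_732 B) g 𝔫 μr μc c T₀ n n₀ m H' z' H z t lam k j T φ₀ Φ' f₀ F0 F1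

end Shape

/-! ## 2. The nodes and the leaves -/

section Nodes

variable (F : Type) [Field F] [NumberField F]

/-- **NODE PS.G = GLOB-PROD over `ℚ` (global: Haar splitting, Fubini, coset systems; mirror of
`P51.GlobProdC51`).**  In the context there is a constant `c₁ ≠ 0` such that for all
`c, t, lam, a ≠ 0` and all pre-data of level `𝔫` with the operator properties whose base
functions are averages of pure tensors of the shapes `LocAQ801 c` (constant `1`) and
`LocBQ801 … c` (constant `a`), the members are averages of pure tensors of the shape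
`LocProdQ563 … t lam k j` with the constant `a c₁ / (t lam)`. -/
def GlobProdQC563 : Prop :=
  ∀ (Φ : HeckeEigensystem F ℂ) (B : L2Q.H60.L2QBase F) (g : G F) (𝔫 : Ideal (𝓞 ℚ))
    (μr : @Measure (GL (Fin 2) ℝ) (borel _)) (μc : @Measure (GL (Fin 2) ℂ) (borel _))
    (T₀ : Finset (HeightOneSpectrum (𝓞 ℚ)))
    (n n₀ : HeightOneSpectrum (𝓞 F) → ℕ) (m : HeightOneSpectrum (𝓞 ℚ) → ℕ),
    IsCtxQ563 Φ B g 𝔫 μr μc T₀ n n₀ m →
    ∃ c₁ : ℂ, c₁ ≠ 0 ∧ ∀ c t lam a : ℂ, c ≠ 0 → t ≠ 0 → lam ≠ 0 → a ≠ 0 →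
      ∀ E : L2QPre732 F, E.𝔫 = 𝔫 → IsL2QPreOp732 Φ (toBase962_732 B) g E →
        (∀ X : List (Gen F), (∀ x ∈ X, x.Out B.S') →
          IsAvgPureQ801 (upI (K' := F) 𝔫) 𝔫 T₀ (LocAQ801 c T₀ n m) 1
            (E.Φ₁ X) (E.F₁ QWt.w0 X) (E.F₁ QWt.w1 X)) →
        IsAvgPureQ801 (upI (K' := F) 𝔫) 𝔫 T₀
          (LocBQ801 (toBase962_732 B) g 𝔫 μr μc c T₀ n n₀ m) a
          E.φ₂ (E.f₂ QWt.w0) (E.f₂ QWt.w1) →
        ∀ (X : List (Gen F)) (k : ℤ) (j : ℕ), (∀ x ∈ X, x.Out B.S') →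
          IsAvgPureQ801 (upI (K' := F) 𝔫) 𝔫 T₀
            (LocProdQ563 (toBase962_732 B) g 𝔫 μr μc c T₀ n n₀ m E.H' E.z' E.H E.z t lam k j)
            (a * c₁ / (t * lam))
            (E.up (toBase962_732 B) X k j)
            (E.down (toBase962_732 B) QWt.w0 X k j)
            (E.down (toBase962_732 B) QWt.w1 X k j)

/-- **NODE PS.G1 = OP-AVG over `ℚ` (adelic coset bookkeeping; mirror of `P51.OpAvgC51`).**  In
the context, for pre-data of level `𝔫` with the operator properties whose second triple is an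
average of pure tensors of shape `LocBQ801 … c` with the constant `a`: the operated second
triple `(lsum Hg (regL (o 0) z' H' k j φ₂), regL u z H k j (f₂ w0), regL u z H k j (f₂ w1))` is
an average of pure tensors of shape `LocOpQ563` with the constant `a` (same parameter space,
same measure).
Proof.  As `P51.OpAvgC51` (see there): `lsum`, `regL` are finite sums of left translates, so
they commute with the average; translates of pure tensors (`PT563.TrPureC563`,
`PT563.TrPureQC563`); the sum over `Hg` (`PT563.LsumDblC563`); every member is a test function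
of level `𝔫 𝒪_F` (resp. `𝔫`, of the same type): bi-invariance of the new components under
`U(n w) ⊆ U(n₀ w)`, `U(n w) ⊆ I_w`. -/
def OpAvgQC563 : Prop :=
  ∀ (Φ : HeckeEigensystem F ℂ) (B : L2Q.H60.L2QBase F) (g : G F) (𝔫 : Ideal (𝓞 ℚ))
    (μr : @Measure (GL (Fin 2) ℝ) (borel _)) (μc : @Measure (GL (Fin 2) ℂ) (borel _))
    (T₀ : Finset (HeightOneSpectrum (𝓞 ℚ)))
    (n n₀ : HeightOneSpectrum (𝓞 F) → ℕ) (m : HeightOneSpectrum (𝓞 ℚ) → ℕ),
    IsCtxQ563 Φ B g 𝔫 μr μc T₀ n n₀ m →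
    ∀ c a : ℂ, c ≠ 0 → a ≠ 0 →
      ∀ E : L2QPre732 F, E.𝔫 = 𝔫 → IsL2QPreOp732 Φ (toBase962_732 B) g E →
      IsAvgPureQ801 (upI (K' := F) 𝔫) 𝔫 T₀
        (LocBQ801 (toBase962_732 B) g 𝔫 μr μc c T₀ n n₀ m) a
        E.φ₂ (E.f₂ QWt.w0) (E.f₂ QWt.w1) →
      ∀ (k : ℤ) (j : ℕ),
        IsAvgPureQ801 (upI (K' := F) 𝔫) 𝔫 T₀
          (LocOpQ563 (toBase962_732 B) g 𝔫 μr μc c T₀ n n₀ m E.H' E.z' E.H E.z k j) a
          (lsum E.Hg (regL (B.o 0) E.z' E.H' k j E.φ₂))
          (regL B.u E.z E.H k j (E.f₂ QWt.w0)) (regL B.u E.z E.H k j (E.f₂ QWt.w1))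

/-- **NODE PS.G2 = CONV-AVG over `ℚ` (Haar splitting + Fubini; mirror of `P51.ConvAvgC51`).**  In
the context there is a constant `c₁ ≠ 0` such that the convolution (for the Haar measures of
the frames) of an average of pure tensors of shape `LocAQ801 c` with the constant `1` and an
average of pure tensors of shape `LocOpQ563` with the constant `a` is an average of pure
tensors of shape `LocProdQ563 … t lam` with the constant `a c₁ / (t lam)`.
Proof.  As `P51.ConvAvgC51`: parameter space = the product of the two parameter spaces,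
measure = `c'` times the product measure, `c'` the normalising constant upstairs
(`PT563.ConvPureC563 F`); Fubini (`PT563.ConvAvgC563 F`, `PT563.ConvAvgC563 ℚ`); downstairs
`PT563.ConvPureQC563` for each of the two weights (the same finite components, the same
constant `c_ℚ`); `1_{U(n_w)} * X = X` at the places of the level; the component downstairs at
`u` is multiplied by `t`, the components at the real place by `lam`, the constant divided by
`t lam`; `c₁ = c_ℚ / c'`.  The members are test functions (`conv` of test functions,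
`isTestFn_conv872`). -/
def ConvAvgQC563 : Prop :=
  ∀ (Φ : HeckeEigensystem F ℂ) (B : L2Q.H60.L2QBase F) (g : G F) (𝔫 : Ideal (𝓞 ℚ))
    (μr : @Measure (GL (Fin 2) ℝ) (borel _)) (μc : @Measure (GL (Fin 2) ℂ) (borel _))
    (T₀ : Finset (HeightOneSpectrum (𝓞 ℚ)))
    (n n₀ : HeightOneSpectrum (𝓞 F) → ℕ) (m : HeightOneSpectrum (𝓞 ℚ) → ℕ),
    IsCtxQ563 Φ B g 𝔫 μr μc T₀ n n₀ m →
    ∃ c₁ : ℂ, c₁ ≠ 0 ∧ ∀ c t lam a : ℂ, c ≠ 0 → t ≠ 0 → lam ≠ 0 → a ≠ 0 →
      ∀ (H' : Finset (G F)) (z' : G F) (H : Finset (G ℚ)) (z : G ℚ),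
        IsSysQ563 B 𝔫 H' z' H z →
        ∀ (k : ℤ) (j : ℕ) (φ₁' φ₂' : G F → ℂ) (f0₁ f1₁ f0₂ f1₂ : G ℚ → ℂ),
          IsAvgPureQ801 (upI (K' := F) 𝔫) 𝔫 T₀ (LocAQ801 c T₀ n m) 1 φ₁' f0₁ f1₁ →
          IsAvgPureQ801 (upI (K' := F) 𝔫) 𝔫 T₀
            (LocOpQ563 (toBase962_732 B) g 𝔫 μr μc c T₀ n n₀ m H' z' H z k j) a
            φ₂' f0₂ f1₂ →
          IsAvgPureQ801 (upI (K' := F) 𝔫) 𝔫 T₀
            (LocProdQ563 (toBase962_732 B) g 𝔫 μr μc c T₀ n n₀ m H' z' H z t lam k j)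
            (a * c₁ / (t * lam))
            (T5.conv B.R'.μ φ₁' φ₂') (T5.conv B.R.μ f0₁ f0₂) (T5.conv B.R.μ f1₁ f1₂)

/-- **NODE PS.L = LOC-PROD over `ℚ` (local; mirror of `P51.LocProdC51`).**  In the context there
are `c, t, lam ≠ 0` such that the shape `LocProdQ563 … c … t lam k j` implies `LocPQ563`: the
local hypotheses `LocHypQb801` at the places of the level and at infinity, the spherical shape
outside the level. -/
def LocProdQC563 : Prop :=
  ∀ (Φ : HeckeEigensystem F ℂ) (B : L2Q.H60.L2QBase F) (g : G F) (𝔫 : Ideal (𝓞 ℚ))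
    (μr : @Measure (GL (Fin 2) ℝ) (borel _)) (μc : @Measure (GL (Fin 2) ℂ) (borel _))
    (T₀ : Finset (HeightOneSpectrum (𝓞 ℚ)))
    (n n₀ : HeightOneSpectrum (𝓞 F) → ℕ) (m : HeightOneSpectrum (𝓞 ℚ) → ℕ),
    IsCtxQ563 Φ B g 𝔫 μr μc T₀ n n₀ m →
    ∃ c t lam : ℂ, c ≠ 0 ∧ t ≠ 0 ∧ lam ≠ 0 ∧
      ∀ (H' : Finset (G F)) (z' : G F) (H : Finset (G ℚ)) (z : G ℚ),
        IsSysQ563 B 𝔫 H' z' H z →
        ∀ (k : ℤ) (j : ℕ) (T : Finset (HeightOneSpectrum (𝓞 ℚ)))
          (φ₀ : ∀ w : HeightOneSpectrum (𝓞 F), GL (Fin 2) (w.adicCompletion F) → ℂ)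
          (Φ' : InfinitePlace F → GL (Fin 2) ℂ → ℂ)
          (f₀ : ∀ v : HeightOneSpectrum (𝓞 ℚ), GL (Fin 2) (v.adicCompletion ℚ) → ℂ)
          (F0 F1 : GL (Fin 2) ℝ → ℂ),
          LocProdQ563 (toBase962_732 B) g 𝔫 μr μc c T₀ n n₀ m H' z' H z t lam k j
            T φ₀ Φ' f₀ F0 F1 →
          LocPQ563 ((toBase962_732 B).comp 𝔫) μr μc T₀ n m T φ₀ Φ' f₀ F0 F1

/-! ### The leaves of `LocProdQC563` -/

/-- **LEAF PS.L1 = REG-ORB over `ℚ` (mirror of `P51.RegOrbC51`).**  Bi-invariance and finite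
support of the components at the place `u` and at the two places `o 0`, `o 1` over it
(`regLoc51` of the Iwahori function: sums over `I t I / I` of left translates; `U(n_w) ⊆ I`
because `u ∣ 𝔫`; the places over `u` are `o 0`, `o 1`: `orbit_all`). -/
def RegOrbQC563 : Prop :=
  ∀ Φ B g 𝔫 μr μc c T₀ n n₀ m H' z' H z t lam k j T φ₀ Φ' f₀ F0 F1,
    IsLocQ563 (F := F) Φ B g 𝔫 μr μc c T₀ n n₀ m H' z' H z t lam k j T φ₀ Φ' f₀ F0 F1 →
    P51.RegAt51 n m φ₀ f₀ B.u

/-- **LEAF PS.L2 = SPLIT-ORB over `ℚ` (Iwahori–Hecke algebra at `u`; mirror of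
`P51.SplitOrbC51`, `ℓ = 2`).**  There is `t ≠ 0` (`= [I : U(m_u)]`, depending on the context
only) such that for the shape with this `t` (and any `c, lam`) the clause `split` of
`LocHypQb801` holds at `u`: an enumeration of `o 0`, `o 1`, the identifications of the
completions at the split place `u`, and `t · regLoc51 u z H k j 1_I` is the convolution product
(`vol U(m_u) = 1`) of `regLoc51 (o 0) z' H' k j 1_I` and `1_I`. -/
def SplitOrbQC563 : Prop :=
  ∀ (Φ : HeckeEigensystem F ℂ) (B : L2Q.H60.L2QBase F) (g : G F) (𝔫 : Ideal (𝓞 ℚ))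
    (μr : @Measure (GL (Fin 2) ℝ) (borel _)) (μc : @Measure (GL (Fin 2) ℂ) (borel _))
    (T₀ : Finset (HeightOneSpectrum (𝓞 ℚ)))
    (n n₀ : HeightOneSpectrum (𝓞 F) → ℕ) (m : HeightOneSpectrum (𝓞 ℚ) → ℕ),
    IsCtxQ563 Φ B g 𝔫 μr μc T₀ n n₀ m →
    ∃ t : ℂ, t ≠ 0 ∧
      ∀ c H' z' H z lam k j T φ₀ Φ' f₀ F0 F1,
        IsLocQ563 (F := F) Φ B g 𝔫 μr μc c T₀ n n₀ m H' z' H z t lam k j T φ₀ Φ' f₀ F0 F1 →
        P51.SplitAt51 ((toBase962_732 B).comp 𝔫) n m φ₀ f₀ B.u

/-- **LEAF PS.L3 = SPH-PROD over `ℚ`.**  At the places of `T` outside the level the products are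
spherical and matched in the Satake form: `SphOut893 2 T₀ T` for the components of the
products (the factors are spherical with `SphOut893` on `T₁`, resp. `T₂`, or the unit
`1_{GL₂(𝒪)}`; the convolution product of spherical functions is spherical and its Satake
transform is the product; `T6.IsBC` is multiplicative). -/
def SphProdQC563 : Prop :=
  ∀ Φ B g 𝔫 μr μc c T₀ n n₀ m H' z' H z t lam k j T φ₀ Φ' f₀ F0 F1,
    IsLocQ563 (F := F) Φ B g 𝔫 μr μc c T₀ n n₀ m H' z' H z t lam k j T φ₀ Φ' f₀ F0 F1 →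
    SphOut893 (K := ℚ) (K' := F) 2 T₀ T φ₀ f₀

/-- **LEAF PS.L4 = ARCH-PROD over `ℚ` (Abel transforms + wiring; NO field data besides the
infinite places).**  For Haar measures `μr`, `μc` there are constants `c ≠ 0`, `lam ≠ 0` such
that for two triples in the Abel relation `c` (`ArchOkQ801 c`) the products
`(Φ₁ ⋆ Φ₂, lam · F0₁ ⋆ F0₂, lam · F1₁ ⋆ F1₂)` are test functions (bi-`U(2)`-invariant, of weight
`0`, of weight `-1`) and MATCHED: `T6.IsArchMatch μr μc (Φ₁ w ⋆ Φ₂ w)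
(lam · F0₁ ⋆ F0₂ + lam · F1₁ ⋆ F1₂)`.  See the header, falsity check (b). -/
def ArchProdQC563 : Prop :=
  IsImagQuad F →
    ∀ μr : @Measure (GL (Fin 2) ℝ) (borel _), @Measure.IsHaarMeasure _ _ _ (borel _) μr →
    ∀ μc : @Measure (GL (Fin 2) ℂ) (borel _), @Measure.IsHaarMeasure _ _ _ (borel _) μc →
    ∃ c lam : ℂ, c ≠ 0 ∧ lam ≠ 0 ∧
      ∀ (Φ₁ Φ₂ : InfinitePlace F → GL (Fin 2) ℂ → ℂ) (F0₁ F1₁ F0₂ F1₂ : GL (Fin 2) ℝ → ℂ),
        ArchOkQ801 c Φ₁ F0₁ F1₁ → ArchOkQ801 c Φ₂ F0₂ F1₂ →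
        (∀ w : InfinitePlace F,
          T6.IsArchTestC (@T6.convInt _ _ (borel _) μc (Φ₁ w) (Φ₂ w))) ∧
        T6.IsArchTestR 0 (fun x => lam * @T6.convInt _ _ (borel _) μr F0₁ F0₂ x) ∧
        T6.IsArchTestR (-1) (fun x => lam * @T6.convInt _ _ (borel _) μr F1₁ F1₂ x) ∧
        ∀ w : InfinitePlace F,
          T6.IsArchMatch μr μc (@T6.convInt _ _ (borel _) μc (Φ₁ w) (Φ₂ w))
            (fun x => lam * @T6.convInt _ _ (borel _) μr F0₁ F0₂ x
              + lam * @T6.convInt _ _ (borel _) μr F1₁ F1₂ x)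

end Nodes

/-! ## Appendix: the equation lemmas of the definitions of this file are realised HERE -/

theorem eqns_realised_prodShapeQ563 : True := by
  have _h0 := @LocOpQ563.eq_1
  have _h1 := @LocProdQ563.eq_1
  have _h2 := @IsLocQ563.eq_1
  have _h3 := @GlobProdQC563.eq_1
  have _h4 := @OpAvgQC563.eq_1
  have _h5 := @ConvAvgQC563.eq_1
  have _h6 := @LocProdQC563.eq_1
  have _h7 := @RegOrbQC563.eq_1
  have _h8 := @SplitOrbQC563.eq_1
  have _h9 := @SphProdQC563.eq_1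
  have _h10 := @ArchProdQC563.eq_1
  have _g0 := @LocOpQ563.eq_def
  have _g1 := @LocProdQ563.eq_def
  have _g2 := @IsLocQ563.eq_def
  have _g3 := @GlobProdQC563.eq_def
  have _g4 := @OpAvgQC563.eq_def
  have _g5 := @ConvAvgQC563.eq_def
  have _g6 := @LocProdQC563.eq_def
  have _g7 := @RegOrbQC563.eq_def
  have _g8 := @SplitOrbQC563.eq_def
  have _g9 := @SphProdQC563.eq_def
  have _g10 := @ArchProdQC563.eq_def
  trivial

end Fermat.Agent.LT.T7.PQ563

end

end
-- ===== PACK-END LT/T7/H563/ProdShapeQSpec.lean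

-- ===== PACK-BEGIN LT/T7/H563/ProdMtQTop.lean
section




/-!
# Row LT, tower T7, node T7.L2Q.1.H2b `CQ801.ProdMtQC801`: FIRST CUT (helper563) -- Top

OFF-MAIN.  No hole, nothing assumed.  ADDITIVE.

    prodMtQC801_of563 : LevelUniqC893 ℚ → LevelUniqC893 F → LevelAtC893 ℚ F → UnramQC563 F
        → ProdShapeQC563 F → SphHypQC563 F
        → ∀ κ nowhere zero, CQ801.ProdMtQC801 F κ                             (VERBATIM)
-/

set_option autoImplicit false

open AutomorphicForm IsDedekindDomain NumberField MeasureTheory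
open scoped ComplexConjugate

noncomputable section

namespace Fermat.Agent.LT.T7.PQ563

open Fermat.Agent.LT.H556 Fermat.Agent.LT.H556.A0 Fermat.Agent.LT.T7 Fermat.Agent.LT.T7.H305
  Fermat.Agent.LT.T7.L2Q Fermat.Agent.LT.T7.H893 Fermat.Agent.LT.T7.H962
  Fermat.Agent.LT.T7.H732 Fermat.Agent.LT.T7.MQ298 Fermat.Agent.LT.T7.CQ801

attribute [local instance] Fermat.Agent.LT.T5.instMeasurableSpaceG

section Top

variable {F : Type} [Field F] [NumberField F]

/-- `IsAvgPureQ801` is monotone in the local condition (on the sets `T ⊇ T₀`). -/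
theorem isAvgPureQ_mono563 {𝔑 : Ideal (𝓞 F)} {𝔫 : Ideal (𝓞 ℚ)}
    {T₀ : Finset (HeightOneSpectrum (𝓞 ℚ))} {L L' : LocCondQ801 F} {c : ℂ}
    {φ' : G F → ℂ} {f0 f1 : G ℚ → ℂ}
    (hLL : ∀ (T : Finset (HeightOneSpectrum (𝓞 ℚ)))
      (φ₀ : ∀ w : HeightOneSpectrum (𝓞 F), GL (Fin 2) (w.adicCompletion F) → ℂ)
      (Φ : InfinitePlace F → GL (Fin 2) ℂ → ℂ)
      (f₀ : ∀ v : HeightOneSpectrum (𝓞 ℚ), GL (Fin 2) (v.adicCompletion ℚ) → ℂ)
      (F0 F1 : GL (Fin 2) ℝ → ℂ), T₀ ⊆ T → L T φ₀ Φ f₀ F0 F1 → L' T φ₀ Φ f₀ F0 F1)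
    (h : IsAvgPureQ801 𝔑 𝔫 T₀ L c φ' f0 f1) : IsAvgPureQ801 𝔑 𝔫 T₀ L' c φ' f0 f1 := by
  obtain ⟨Ω, iT, iC, i2, iS, iM, iB, ν, iF, T, T', φ₀, Φc, f₀, F0, F1, hL, hrest⟩ := h
  exact ⟨Ω, iT, iC, i2, iS, iM, iB, ν, iF, T, T', φ₀, Φc, f₀, F0, F1,
    fun a => ⟨(hL a).1, (hL a).2.1, hLL _ _ _ _ _ _ (hL a).1 (hL a).2.2⟩, hrest⟩

/-- A place over a place which does not divide `𝔫` does not divide `𝔫 𝒪_F`. -/
theorem dvd_of_placeOverQ563 {v : HeightOneSpectrum (𝓞 ℚ)} {w : HeightOneSpectrum (𝓞 F)}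
    (hvw : PlaceOver ℚ F v w) {𝔫 : Ideal (𝓞 ℚ)} (h : w.asIdeal ∣ upI (K' := F) 𝔫) :
    v.asIdeal ∣ 𝔫 := by
  rw [Ideal.dvd_iff_le] at h ⊢
  intro x hx
  have hy : algebraMap (𝓞 ℚ) (𝓞 F) x ∈ w.asIdeal := h (Ideal.mem_map_of_mem _ hx)
  exact (hvw x (algebraMap (𝓞 ℚ) (𝓞 F) x) rfl).2 hy

/-- **THE TOP OF THE FIRST CUT of `ProdMtQC801`.** -/
theorem prodMtQC801_of563 (hU : LevelUniqC893 ℚ) (hU' : LevelUniqC893 F)
    (hAt : LevelAtC893 ℚ F) (hUnr : UnramQC563 F) (hShape : ProdShapeQC563 F)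
    (hSph : SphHypQC563 F)
    (κ : KapFnQ801 F) (hκ : ∀ D μr μc T₀ n m, κ D μr μc T₀ n m ≠ 0) : ProdMtQC801 F κ := by
  classical
  intro h3 hF Φ B hB hRam g hg 𝔫 μr μc hμr hμc
  by_cases hex : ∃ (T₀ : Finset (HeightOneSpectrum (𝓞 ℚ)))
      (n n₀ : HeightOneSpectrum (𝓞 F) → ℕ) (m : HeightOneSpectrum (𝓞 ℚ) → ℕ),
      (∀ v : HeightOneSpectrum (𝓞 ℚ), v ∈ T₀ ↔ v.asIdeal ∣ 𝔫) ∧
      IsLevelOf893 𝔫 m ∧ IsLevelOf893 (upI (K' := F) 𝔫) n ∧ IsLevelOf893 B.𝔑₀ n₀
  · obtain ⟨T₀, n, n₀, m, hT₀, hm, hn, hn₀⟩ := hex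
    obtain ⟨c, c₀, hc, hc₀, hS⟩ := hShape h3 hF Φ B hB hRam g hg 𝔫 μr μc hμr hμc T₀ n n₀ m
      hT₀ hm hn hn₀
    have ha : κ ((toBase962_732 B).comp 𝔫) μr μc T₀ n m / c₀ ≠ 0 :=
      div_ne_zero (hκ _ _ _ _ _ _) hc₀
    refine ⟨c, κ ((toBase962_732 B).comp 𝔫) μr μc T₀ n m / c₀, hc, ha, ?_⟩
    intro E hE hOp hDec X k mm hX
    obtain ⟨T₀', n', n₀', m', hT₀', hm', hn', hn₀', hA, hB2⟩ := hDec
    rw [hE] at hT₀' hm' hn' hA hB2
    obtain rfl : T₀ = T₀' := Finset.ext (fun v => by rw [hT₀', hT₀])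
    obtain rfl : m = m' := hU 𝔫 m m' hm hm'
    obtain rfl : n = n' := hU' (upI (K' := F) 𝔫) n n' hn hn'
    obtain rfl : n₀ = n₀' := hU' B.𝔑₀ n₀ n₀' hn₀ hn₀'
    have h1 := hS _ ha E hE hOp hA hB2 X k mm hX
    rw [div_mul_cancel₀ _ hc₀] at h1
    have h𝔫 : 𝔫 ≠ ⊥ := by rw [← hE]; exact hOp.level_ne
    have hB962 : IsL2QBase962 Φ (toBase962_732 B) := isL2QBase962_of60_732 hB
    have hD : IsCompData ((toBase962_732 B).comp 𝔫) := isCompData_comp298 hB962 h𝔫
    have hcyc : IsCycExt ℚ F ((toBase962_732 B).comp 𝔫).l := isCycExt_of_imagQuad298 hF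
    have hS' : ∀ w : HeightOneSpectrum (𝓞 F), w ∈ B.S' ↔ w.asIdeal ∣ upI (K' := F) 𝔫 := by
      intro w
      have h := hOp.mem_S'_g w
      rwa [hE] at h
    have hUn : UnramOut305 (K' := F) T₀ := by
      intro v hv w hvw
      refine hUnr h3 hF Φ B hB hRam v w hvw (fun hw => hv ?_)
      rw [hT₀]
      exact dvd_of_placeOverQ563 hvw ((hS' w).1 hw)
    have hLv : IsLevelAt305 T₀ n m := hAt 𝔫 T₀ n m hT₀ hm hn
    refine ⟨μr, μc, T₀, n, m, hμr, hμc, hUn, hLv, isAvgPureQ_mono563 ?_ h1⟩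
    intro T φ₀ Φc f₀ F0 F1 hT hL
    exact hSph hF ((toBase962_732 B).comp 𝔫) hD hcyc rfl μr hμr μc hμc T₀ hUn n m hLv T hT
      φ₀ Φc f₀ F0 F1 hL.1 hL.2
  · refine ⟨1, 1, one_ne_zero, one_ne_zero, ?_⟩
    intro E hE hOp hDec
    exfalso
    obtain ⟨T₀', n', n₀', m', hT₀', hm', hn', hn₀', -, -⟩ := hDec
    rw [hE] at hT₀' hm' hn'
    exact hex ⟨T₀', n', n₀', m', hT₀', hm', hn', hn₀'⟩

end Top

end Fermat.Agent.LT.T7.PQ563

end

end
-- ===== PACK-END LT/T7/H563/ProdMtQTop.lean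

-- ===== PACK-BEGIN LT/T7/H570/UnramQ.lean
section



/-!
# Row LT, tower T7, leaf T7.L2Q.1.H2b.0 `PQ563.UnramQC563` (helper570, registry row 2917)

OFF-MAIN.  Spec: `T7/H563/ProdMtQSpec.lean` (helper563, sha256 7dfd10fea1baf846).  Imports ONLY
Mathlib and the Spec.  ADDITIVE (new names only, all suffixed `570`, namespace
`Fermat.Agent.LT.T7.H570UQ`).  No definition of another file is opened by a rewriting step (the
frozen Prop is entered by introduction only).

    unramQC570 (F) : PQ563.UnramQC563 F            VERBATIM, UNCONDITIONAL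

Proof (the route of the three proofs of `CQ57.UnramQC57`, helper270 / helper562 / helper644,
written out again on the form of helper563).  `IsImagQuad F` gives `[F : ℚ] = 2`.  With
`θ² = -3` the element `ζ = (θ - 1) / 2` is integral, a root of `X² + X + 1`, not rational, hence
of minimal polynomial `X² + X + 1` over `𝓞 ℚ` and a generator of `F`; so `2 ζ + 1 = θ` lies in
the different (`aeval_derivative_mem_differentIdeal`).  A place `w` dividing the different
contains `θ`, hence `3 = -θ²`, hence lies in `S'` (`3 ∈ S`, `L2Q.H60.full_of_isL2QBase60`).  A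
place not dividing the different is unramified (`not_dvd_differentIdeal_iff`): a uniformiser of
`v` has `w`-valuation `exp (-1)`, so it is not in `w²`.
-/

set_option autoImplicit false
set_option linter.unusedSectionVars false
set_option linter.deprecated false

open AutomorphicForm IsDedekindDomain NumberField WithZero Polynomial

noncomputable section

namespace Fermat.Agent.LT.T7.H570UQ

open Fermat.Agent.LT.H556 Fermat.Agent.LT.H556.A0 Fermat.Agent.LT.T7

/-- `PlaceOver` gives `LiesOver`. -/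
theorem liesOver_of_placeOver570 {K K' : Type} [Field K] [NumberField K] [Field K']
    [NumberField K'] [Algebra K K'] {v : HeightOneSpectrum (𝓞 K)}
    {w : HeightOneSpectrum (𝓞 K')} (h : PlaceOver K K' v w) :
    w.asIdeal.LiesOver v.asIdeal := by
  refine ⟨?_⟩
  ext x
  rw [Ideal.under_def, Ideal.mem_comap]
  exact h x (algebraMap (𝓞 K) (𝓞 K') x) rfl

/-- An imaginary quadratic field has degree two. -/
theorem finrank_eq_two570 {F : Type} [Field F] [NumberField F] (h : IsImagQuad F) :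
    Module.finrank ℚ F = 2 := by
  classical
  have : IsTotallyComplex F := ⟨h.2⟩
  have h0 : InfinitePlace.nrRealPlaces F = 0 := IsTotallyComplex.nrRealPlaces_eq_zero F
  have hc : Fintype.card (InfinitePlace F) = 1 := by
    rw [← Nat.card_eq_fintype_card]; exact h.1
  have h1 := InfinitePlace.card_eq_nrRealPlaces_add_nrComplexPlaces (K := F)
  have h2 := IsTotallyComplex.finrank F
  omega

/-- A place which does not divide the different is unramified: some element of `v` is not in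
`w²`. -/
theorem exists_not_mem_sq_of_not_dvd570 {K K' : Type} [Field K] [NumberField K] [Field K']
    [NumberField K'] [Algebra K K'] (v : HeightOneSpectrum (𝓞 K))
    (w : HeightOneSpectrum (𝓞 K')) (hvw : PlaceOver K K' v w)
    (h1 : ¬ w.asIdeal ∣ differentIdeal (𝓞 K) (𝓞 K')) :
    ∃ x : 𝓞 K, x ∈ v.asIdeal ∧ algebraMap (𝓞 K) (𝓞 K') x ∉ w.asIdeal ^ 2 := by
  have hun : Algebra.IsUnramifiedAt (𝓞 K) w.asIdeal := not_dvd_differentIdeal_iff.1 h1
  have he : w.asIdeal.ramificationIdx (𝓞 K) = 1 :=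
    Ideal.ramificationIdx_eq_one_of_isUnramifiedAt
  have := liesOver_of_placeOver570 hvw
  have he' : v.asIdeal.ramificationIdx' w.asIdeal = 1 := by
    rw [Ideal.ramificationIdx'_eq_ramificationIdx v.asIdeal w.asIdeal v.ne_bot]
    exact he
  obtain ⟨x, hx⟩ := v.intValuation_exists_uniformizer
  have h2 := HeightOneSpectrum.intValuation_liesOver v w x
  rw [he', pow_one, hx] at h2
  refine ⟨x, ?_, ?_⟩
  · rw [← HeightOneSpectrum.intValuation_lt_one_iff_mem, hx, ← exp_zero, exp_lt_exp]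
    omega
  · intro hmem
    have h3 := (HeightOneSpectrum.intValuation_le_pow_iff_mem w _ 2).2 hmem
    rw [← h2, exp_le_exp] at h3
    omega

variable {F : Type} [Field F] [NumberField F]

/-- In a quadratic field with a square root of `-3` the different contains a square root of
`-3`. -/
theorem exists_sqrt_mem_different570 (hd : Module.finrank ℚ F = 2) (θ : F)
    (hθ : θ * θ = -3) :
    ∃ t : 𝓞 F, t * t = -3 ∧ t ∈ differentIdeal (𝓞 ℚ) (𝓞 F) := by
  classical
  -- the cube root of unity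
  obtain ⟨ζ, hζdef⟩ : ∃ ζ : F, ζ = (θ - 1) / 2 := ⟨_, rfl⟩
  have hζ : ζ ^ 2 + ζ + 1 = 0 := by
    have : ζ ^ 2 + ζ + 1 = (θ * θ + 3) / 4 := by rw [hζdef]; ring
    rw [this, hθ]; norm_num
  have hθζ : θ = 2 * ζ + 1 := by rw [hζdef]; ring
  have hint : IsIntegral ℤ ζ := by
    refine ⟨X ^ 2 + X + 1, ?_, ?_⟩
    · monicity!
    · simp [hζ]
  obtain ⟨z, hzF⟩ : ∃ z : 𝓞 F, algebraMap (𝓞 F) F z = ζ := ⟨⟨ζ, hint⟩, rfl⟩
  have hz : z ^ 2 + z + 1 = 0 := by
    apply RingOfIntegers.coe_injective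
    show algebraMap (𝓞 F) F (z ^ 2 + z + 1) = algebraMap (𝓞 F) F 0
    rw [map_add, map_add, map_pow, map_one, map_zero, hzF]
    exact hζ
  -- `ζ` is not rational
  have hirr : ∀ q : ℚ, algebraMap ℚ F q ≠ ζ := by
    intro q hq
    have h1 : algebraMap ℚ F ((2 * q + 1) * (2 * q + 1)) = algebraMap ℚ F (-3) := by
      simp only [map_mul, map_add, map_one, map_neg, map_ofNat, hq]
      rw [← hθζ, hθ]
    have h2 := (algebraMap ℚ F).injective h1
    nlinarith [sq_nonneg (2 * q + 1)]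
  -- the minimal polynomial
  obtain ⟨P, hP⟩ : ∃ P : (𝓞 ℚ)[X], P = X ^ 2 + X + 1 := ⟨_, rfl⟩
  have hPm : P.Monic := by rw [hP]; monicity!
  have hPd : P.natDegree = 2 := by rw [hP]; compute_degree!
  have hPz : aeval z P = 0 := by simp [hP, hz]
  have hzint : IsIntegral (𝓞 ℚ) z := ⟨P, hPm, by simpa [aeval_def] using hPz⟩
  have hdvd : minpoly (𝓞 ℚ) z ∣ P := minpoly.isIntegrallyClosed_dvd hzint hPz
  have hdeg : 2 ≤ (minpoly (𝓞 ℚ) z).natDegree := by
    rw [minpoly.two_le_natDegree_iff hzint]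
    rintro ⟨a, ha⟩
    apply hirr (algebraMap (𝓞 ℚ) ℚ a)
    have : algebraMap (𝓞 F) F (algebraMap (𝓞 ℚ) (𝓞 F) a) = ζ := by
      rw [ha, hzF]
    rw [← this]
    exact (IsScalarTower.algebraMap_apply (𝓞 ℚ) ℚ F a).symm.trans
      (IsScalarTower.algebraMap_apply (𝓞 ℚ) (𝓞 F) F a)
  have hmin : minpoly (𝓞 ℚ) z = P := by
    symm
    exact (Polynomial.eq_of_monic_of_dvd_of_natDegree_le (minpoly.monic hzint) hPm hdvd
      (by rw [hPd]; exact hdeg))
  -- `ζ` generates `F`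
  have hgen : Algebra.adjoin ℚ {algebraMap (𝓞 F) F z} = ⊤ := by
    rw [hzF]
    have hintQ : IsIntegral ℚ ζ := hint.tower_top
    have hdegQ : 2 ≤ (minpoly ℚ ζ).natDegree := by
      rw [minpoly.two_le_natDegree_iff hintQ]
      rintro ⟨q, hq⟩
      exact hirr q hq
    have hle : (minpoly ℚ ζ).natDegree ≤ 2 := by
      rw [← hd]
      exact minpoly.natDegree_le ζ
    have htop : IntermediateField.adjoin ℚ {ζ} = ⊤ := by
      rw [Field.primitive_element_iff_minpoly_natDegree_eq, hd]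
      omega
    have := congrArg IntermediateField.toSubalgebra htop
    rw [IntermediateField.adjoin_simple_toSubalgebra_of_isAlgebraic hintQ.isAlgebraic] at this
    simpa using this
  have hmem := aeval_derivative_mem_differentIdeal (𝓞 ℚ) ℚ F z hgen
  rw [hmin] at hmem
  have hder : aeval z (derivative P) = 2 * z + 1 := by
    rw [hP]
    simp
    exact Or.inl (by norm_num)
  rw [hder] at hmem
  refine ⟨2 * z + 1, ?_, hmem⟩
  have : (2 * z + 1) * (2 * z + 1) = 4 * (z ^ 2 + z + 1) - 3 := by ring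
  rw [this, hz]; ring

/-- A place of `F` which divides the different contains `3`. -/
theorem three_mem_of_dvd_different570 (hd : Module.finrank ℚ F = 2)
    (hs : HasSqrtNegThree F) (w : HeightOneSpectrum (𝓞 F))
    (hdvd : w.asIdeal ∣ differentIdeal (𝓞 ℚ) (𝓞 F)) : ((3 : ℕ) : 𝓞 F) ∈ w.asIdeal := by
  obtain ⟨θ, hθ⟩ := hs
  obtain ⟨t, ht, htmem⟩ := exists_sqrt_mem_different570 hd θ hθ
  have htw : t ∈ w.asIdeal := (Ideal.dvd_iff_le.1 hdvd) htmem
  have h1 : t * t ∈ w.asIdeal := w.asIdeal.mul_mem_left t htw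
  rw [ht] at h1
  have h2 := w.asIdeal.neg_mem h1
  rw [neg_neg] at h2
  exact_mod_cast h2

/-- **The arithmetic of the leaf**: in `F = ℚ(√-3)` a place which does not contain `3` is
unramified over `ℚ`. -/
theorem exists_not_mem_sq_of_three_not_mem570 (hs : HasSqrtNegThree F) (hq : IsImagQuad F)
    (v : HeightOneSpectrum (𝓞 ℚ)) (w : HeightOneSpectrum (𝓞 F)) (hvw : PlaceOver ℚ F v w)
    (h3 : ((3 : ℕ) : 𝓞 F) ∉ w.asIdeal) :
    ∃ x : 𝓞 ℚ, x ∈ v.asIdeal ∧ algebraMap (𝓞 ℚ) (𝓞 F) x ∉ w.asIdeal ^ 2 :=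
  exists_not_mem_sq_of_not_dvd570 v w hvw
    (fun hdvd => h3 (three_mem_of_dvd_different570 (finrank_eq_two570 hq) hs w hdvd))

/-- **LEAF T7.L2Q.1.H2b.0 = UNRAM** (`PQ563.UnramQC563 F`, VERBATIM). -/
theorem unramQC570 (F : Type) [Field F] [NumberField F] : PQ563.UnramQC563 F := by
  intro hs hq Φ B hB hram v w hvw hw
  exact exists_not_mem_sq_of_three_not_mem570 hs hq v w hvw
    (fun h3w => hw (L2Q.H60.full_of_isL2QBase60 hB 3 Nat.prime_three hram w h3w))

end Fermat.Agent.LT.T7.H570UQ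

end

end
-- ===== PACK-END LT/T7/H570/UnramQ.lean

-- ===== PACK-BEGIN LT/T7/H60/SphHypQSpec.lean
section




/-!
# Row LT, tower T7, quadratic step, node T7.L2Q.1.H2b.3 `PQ563.SphHypQC563` (node of the first cut
# of `CQ801.ProdMtQC801` by helper563): THE CUT -- Spec

OFF-MAIN (helper60, owner of the parent node T7.L2Q.1, registry row 2151).  Definitions and
frozen Props only (the proved top is `SphHypQTop.lean`).  No hole, nothing assumed.  ADDITIVE
(new names only, suffix `60`).  MIRROR over `ℚ` of the cut of the cubic node `H893.SphHypC893`,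
`T7/H893/SupplySphSpec.lean` (helper893@dc5b9ccb3, sha256 03a16fa2), on
`T7/H563/ProdMtQSpec.lean` (helper563@9640e735e); byte-identical copies.

    sphHypQC_of60 : T6.T6Out → SphInvC893 ℚ → SphInvC893 F → SphInertQC60 F → SphSplitQC60 F
        → PQ563.SphHypQC563 F                                                  (VERBATIM)

* `H893.SphInvC893 ℚ`, `H893.SphInvC893 F`: the leaf of helper893 (ONE field), AS IT IS (closed
  for every number field: helper165, helper315, helper909, helper966, helper186).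
* **`SphInertQC60 F`** (LEAF [M], T6): `H893.SphInertC893` for `F/ℚ`: the hypotheses
  `D.l ≠ 2`, `TotCplx K` (not used by the proofs) are replaced by `IsImagQuad F`, `D.l = 2`.
* **`SphSplitQC60 F`** (LEAF [L], T6 + Satake): `H893.SphSplitC893` for `F/ℚ`, same change.

FALSITY CHECKS: those of helper893 (the statements are the cubic ones for `K = ℚ`, `K' = F`,
`ℓ = 2`; `T6.FundLemmaC`, `T6.InstExtC`, `T6.InstSplitC` are stated for every prime degree).
-/

set_option autoImplicit false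

open AutomorphicForm IsDedekindDomain NumberField MeasureTheory
open scoped ComplexConjugate

noncomputable section

namespace Fermat.Agent.LT.T7.H60

open Fermat.Agent.LT.H556 Fermat.Agent.LT.H556.A0 Fermat.Agent.LT.T7
open Fermat.Agent.LT.T7.H305 Fermat.Agent.LT.T7.H893 Fermat.Agent.LT.T7.L2Q

attribute [local instance] Fermat.Agent.LT.T5.instMeasurableSpaceG

section Leaves

variable (F : Type) [Field F] [NumberField F]

/-- **LEAF T7.L2Q.1.H2b.3b = SPH-INERT over `ℚ` [M] (T6: the fundamental lemma).**  The clause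
`inert` of `CQ801.LocHypQb801` at a place `v ∉ T₀` (unramified) with ONE place `w` over it,
levels `0`, spherical components related by the base change `T6.IsBC`.  Mirror of
`H893.SphInertC893`. -/
def SphInertQC60 : Prop :=
  T6.T6Out → IsImagQuad F →
  ∀ D : CompData ℚ F, IsCompData D → IsCycExt ℚ F D.l → D.l = 2 →
    ∀ (T₀ : Finset (HeightOneSpectrum (𝓞 ℚ))), UnramOut305 (K' := F) T₀ →
    ∀ v : HeightOneSpectrum (𝓞 ℚ), v ∉ T₀ →
    ∀ w : HeightOneSpectrum (𝓞 F), PlaceOver ℚ F v w →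
      (∀ w' : HeightOneSpectrum (𝓞 F), PlaceOver ℚ F v w' → w' = w) →
    ∀ (nw mv : ℕ), nw = 0 → mv = 0 →
    ∀ (φ : GL (Fin 2) (w.adicCompletion F) → ℂ) (f : GL (Fin 2) (v.adicCompletion ℚ) → ℂ)
      (A Av : (ℤ × ℤ) →₀ ℂ), IsSphFn893 φ A → IsSphFn893 f Av →
      T6.IsBC D.l (Ideal.absNorm v.asIdeal) A Av →
    ∀ (e : ℕ) (i : v.adicCompletion ℚ →+* w.adicCompletion F)
      (sw : w.adicCompletion F ≃+* w.adicCompletion F),
      (∀ x : ℚ, i (algebraMap ℚ (v.adicCompletion ℚ) x)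
        = algebraMap F (w.adicCompletion F) (algebraMap ℚ F x)) →
      (∀ y : F, sw (algebraMap F (w.adicCompletion F) y)
        = algebraMap F (w.adicCompletion F) (D.s.σ y)) →
      T6.IsLocalExt (v.adicCompletion ℚ) (w.adicCompletion F) D.l e i sw →
      (∀ (δ : GL (Fin 2) (w.adicCompletion F)) (γ : GL (Fin 2) (v.adicCompletion ℚ))
          (c c' : ℂ), T6.IsReg γ →
          IsConj (T6.twNorm sw D.l δ) (Matrix.GeneralLinearGroup.map i γ) →
          T6.IsTwOrbSum sw nw φ δ c → T6.IsOrbSum mv f γ c' → c = c') ∧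
        ∀ (γ : GL (Fin 2) (v.adicCompletion ℚ)) (c' : ℂ), T6.IsReg γ →
          ¬ T6.IsNormFrom D.l i sw γ → T6.IsOrbSum mv f γ c' → c' = 0

/-- **LEAF T7.L2Q.1.H2b.3c = SPH-SPLIT over `ℚ` [L] (T6 + Satake).**  The clause `split` of
`CQ801.LocHypQb801` at a place `v ∉ T₀` (unramified) with at least two places over it, levels
`0`, spherical components whose Satake transforms multiply (the split clause of `SphOut893`).
Mirror of `H893.SphSplitC893`. -/
def SphSplitQC60 : Prop :=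
  T6.T6Out → IsImagQuad F →
  ∀ D : CompData ℚ F, IsCompData D → IsCycExt ℚ F D.l → D.l = 2 →
    ∀ (T₀ : Finset (HeightOneSpectrum (𝓞 ℚ))), UnramOut305 (K' := F) T₀ →
    ∀ v : HeightOneSpectrum (𝓞 ℚ), v ∉ T₀ →
      (∃ w₁ w₂ : HeightOneSpectrum (𝓞 F),
        PlaceOver ℚ F v w₁ ∧ PlaceOver ℚ F v w₂ ∧ w₁ ≠ w₂) →
    ∀ (n : HeightOneSpectrum (𝓞 F) → ℕ) (m : HeightOneSpectrum (𝓞 ℚ) → ℕ),
      (∀ w : HeightOneSpectrum (𝓞 F), PlaceOver ℚ F v w → n w = 0) → m v = 0 →
    ∀ (φ₀ : ∀ w : HeightOneSpectrum (𝓞 F), GL (Fin 2) (w.adicCompletion F) → ℂ)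
      (f : GL (Fin 2) (v.adicCompletion ℚ) → ℂ)
      (A : HeightOneSpectrum (𝓞 F) → (ℤ × ℤ) →₀ ℂ) (Av : (ℤ × ℤ) →₀ ℂ),
      IsSphFn893 f Av →
      (∀ w : HeightOneSpectrum (𝓞 F), PlaceOver ℚ F v w → IsSphFn893 (φ₀ w) (A w)) →
      (∀ w : ℕ → HeightOneSpectrum (𝓞 F), (∀ j : ℕ, PlaceOver ℚ F v (w j)) →
        (∀ j j' : ℕ, j < D.l → j' < D.l → w j = w j' → j = j') →
        ∀ x y : ℂ, x ≠ 0 → y ≠ 0 →
          satT893 (Ideal.absNorm v.asIdeal) Av x y
            = ∏ j ∈ Finset.range D.l, satT893 (Ideal.absNorm v.asIdeal) (A (w j)) x y) →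
      ∃ (w : ℕ → HeightOneSpectrum (𝓞 F))
        (i : ∀ j : ℕ, v.adicCompletion ℚ ≃+* (w j).adicCompletion F),
        (∀ j : ℕ, PlaceOver ℚ F v (w j)) ∧ (∀ j : ℕ, T5.PlaceRel D.s (w (j + 1)) (w j)) ∧
        (∀ j : ℕ, 0 < j → j < D.l → w j ≠ w 0) ∧
        (∀ (j : ℕ) (x : ℚ), i j (algebraMap ℚ (v.adicCompletion ℚ) x)
          = algebraMap F ((w j).adicCompletion F) (algebraMap ℚ F x)) ∧
        (∀ (j : ℕ) (x : v.adicCompletion ℚ), Valued.v (i j x) = Valued.v x) ∧
        (∀ j : ℕ, n (w j) = m v) ∧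
          T6.IsConvProd (T6.InU (m v)) D.l
            (fun j g => φ₀ (w j)
              (Matrix.GeneralLinearGroup.map ((i j : v.adicCompletion ℚ ≃+* _) :
                v.adicCompletion ℚ →+* (w j).adicCompletion F) g))
            f

end Leaves

/-! ## Appendix: the equation lemmas of the definitions of this file are realised HERE -/

theorem eqns_realised_sphHypQ60 : True := by
  have _h0 := @SphInertQC60.eq_1
  have _h1 := @SphSplitQC60.eq_1
  have _g0 := @SphInertQC60.eq_def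
  have _g1 := @SphSplitQC60.eq_def
  trivial

end Fermat.Agent.LT.T7.H60

end

end
-- ===== PACK-END LT/T7/H60/SphHypQSpec.lean

-- ===== PACK-BEGIN LT/T7/H698/SphAbel.lean
section





/-!
# Row LT, tower T7 (quadratic step `M_{w,d}`, upstairs), helper698: THE `N`-INTEGRAL OF THE
# SPHERE MEAN on `GL₂(ℂ)`

OFF-MAIN.  Complete proofs, nothing assumed.  Vocabulary: `T3.AS.HasAbelN`, `T3.AS.IsSymBump`
(`LT/T3/H736/ASSpec.lean`), `H445.IsSphC445`, `H445.sphMeanC445` (`LT/T7/H445/StepMSpec.lean`).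

    hasAbelN_sphMean698 : IsSphC445 d y → Continuous Φ → HasCompactSupport Φ →
      (∀ k g, IsUnitary2 k → Φ (g * k) = Φ g) → HasAbelN Φ β →
      HasAbelN (sphMeanC445 y Φ) (abelMean698 d β)

with `abelMean698 d β u = 2π ∫_0^π (sin b / P) β(u₁ - (log P)/2, u₂ + (log P)/2) db`,
`P = P(d, b) = cosh d - cos b sinh d` (EVERY `d`, also `d = 0`), and for `d ≠ 0`
(`abelMean_eq698`, `abelMean_eq_half698`)

    abelMean698 d β u = (2π / sinh d) ∫_{-d}^{d} β(u₁ - t/2, u₂ + t/2) dt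
                      = (4π / sinh d) ∫_{-d/2}^{d/2} β(u₁ + a, u₂ - a) da,

and `isSymBump_abelMean698 : IsSymBump β → IsSymBump (abelMean698 d β)`.

Proof.  `y(α, b) = rotZ α · rotY b · torus d` has determinant `1` and second row of square
norm `P(d, b)`; `abelN_translate_sa698` (Iwasawa decomposition) computes the `N`-integral of
the right translate; Fubini (`swap2_sa698`); the substitution `t = log P(d, b)`.
-/

set_option autoImplicit false
set_option linter.style.haveILetI false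

open MeasureTheory Matrix Set Function
open scoped ComplexConjugate ContDiff Convolution

noncomputable section

namespace Fermat.Agent.LT.T7.H698

open Fermat.Agent.LT.H556 Fermat.Agent.LT.H556.A0 Fermat.Agent.LT.T7
open Fermat.Agent.LT.T7.H305 Fermat.Agent.LT.T7.H445 Fermat.Agent.LT
open Fermat.Agent.LT.T3.AS

/-! ## 1. The second row of the sphere family -/

/-- `P(d, b) = cosh d - cos b · sinh d`: the square norm of the second row of `y(α, b)`. -/
def sphP698 (d b : ℝ) : ℝ := Real.cosh d - Real.cos b * Real.sinh d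

theorem sphP_pos698 (d b : ℝ) : 0 < sphP698 d b := by
  have h1 : Real.sinh d < Real.cosh d := Real.sinh_lt_cosh d
  have h2 : -Real.sinh d < Real.cosh d := by
    have := Real.sinh_lt_cosh (-d)
    rwa [Real.sinh_neg, Real.cosh_neg] at this
  have h3 : |Real.cos b * Real.sinh d| ≤ |Real.sinh d| := by
    rw [abs_mul]
    exact mul_le_of_le_one_left (abs_nonneg _) (Real.abs_cos_le_one b)
  have h4 : |Real.sinh d| < Real.cosh d := abs_lt.2 ⟨by linarith, h1⟩
  have h5 := le_abs_self (Real.cos b * Real.sinh d)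
  show 0 < Real.cosh d - Real.cos b * Real.sinh d
  linarith

theorem sphP_zero698 (b : ℝ) : sphP698 0 b = 1 := by
  show Real.cosh 0 - Real.cos b * Real.sinh 0 = 1
  rw [Real.cosh_zero, Real.sinh_zero, mul_zero, sub_zero]

theorem continuous_sphP698 (d : ℝ) : Continuous (sphP698 d) := by
  show Continuous fun b : ℝ => Real.cosh d - Real.cos b * Real.sinh d
  fun_prop

theorem det_sph_sa698 {d : ℝ} {y : ℝ → ℝ → GL (Fin 2) ℂ} (hy : IsSphC445 d y) (α b : ℝ) :
    ((y α b : GL (Fin 2) ℂ) : Matrix (Fin 2) (Fin 2) ℂ).det = 1 := by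
  rw [hy α b, Matrix.det_mul, Matrix.det_mul, det_rotZ_sv698, det_rotY_sv698, det_torus_sv698,
    mul_one, mul_one]

theorem row_sph_sa698 {d : ℝ} {y : ℝ → ℝ → GL (Fin 2) ℂ} (hy : IsSphC445 d y) (α b : ℝ) :
    ‖((y α b : GL (Fin 2) ℂ) : Matrix (Fin 2) (Fin 2) ℂ) 1 0‖ ^ 2 +
      ‖((y α b : GL (Fin 2) ℂ) : Matrix (Fin 2) (Fin 2) ℂ) 1 1‖ ^ 2 = sphP698 d b := by
  rw [hy α b]
  have e : (rotZ α * rotY b * torus d : Matrix (Fin 2) (Fin 2) ℂ)
      = (!![Complex.exp (Complex.I * ((α / 2 : ℝ) : ℂ)), 0;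
          0, Complex.exp (-(Complex.I * ((α / 2 : ℝ) : ℂ)))] : Matrix (Fin 2) (Fin 2) ℂ) *
        !![((Real.cos (b / 2) : ℝ) : ℂ), -((Real.sin (b / 2) : ℝ) : ℂ);
          ((Real.sin (b / 2) : ℝ) : ℂ), ((Real.cos (b / 2) : ℝ) : ℂ)] *
        !![((Real.exp (d / 2) : ℝ) : ℂ), 0; 0, ((Real.exp (-(d / 2)) : ℝ) : ℂ)] := rfl
  rw [e]
  have hn : ‖Complex.exp (-(Complex.I * ((α / 2 : ℝ) : ℂ)))‖ = 1 := by
    rw [Complex.norm_exp]
    simp
  have e10 : ((!![Complex.exp (Complex.I * ((α / 2 : ℝ) : ℂ)), 0;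
          0, Complex.exp (-(Complex.I * ((α / 2 : ℝ) : ℂ)))] : Matrix (Fin 2) (Fin 2) ℂ) *
        !![((Real.cos (b / 2) : ℝ) : ℂ), -((Real.sin (b / 2) : ℝ) : ℂ);
          ((Real.sin (b / 2) : ℝ) : ℂ), ((Real.cos (b / 2) : ℝ) : ℂ)] *
        !![((Real.exp (d / 2) : ℝ) : ℂ), 0; 0, ((Real.exp (-(d / 2)) : ℝ) : ℂ)]) 1 0
      = Complex.exp (-(Complex.I * ((α / 2 : ℝ) : ℂ))) *
          (((Real.sin (b / 2) * Real.exp (d / 2) : ℝ)) : ℂ) := by
    simp [Matrix.mul_apply, Fin.sum_univ_two]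
    ring
  have e11 : ((!![Complex.exp (Complex.I * ((α / 2 : ℝ) : ℂ)), 0;
          0, Complex.exp (-(Complex.I * ((α / 2 : ℝ) : ℂ)))] : Matrix (Fin 2) (Fin 2) ℂ) *
        !![((Real.cos (b / 2) : ℝ) : ℂ), -((Real.sin (b / 2) : ℝ) : ℂ);
          ((Real.sin (b / 2) : ℝ) : ℂ), ((Real.cos (b / 2) : ℝ) : ℂ)] *
        !![((Real.exp (d / 2) : ℝ) : ℂ), 0; 0, ((Real.exp (-(d / 2)) : ℝ) : ℂ)]) 1 1
      = Complex.exp (-(Complex.I * ((α / 2 : ℝ) : ℂ))) *
          (((Real.cos (b / 2) * Real.exp (-(d / 2)) : ℝ)) : ℂ) := by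
    simp [Matrix.mul_apply, Fin.sum_univ_two]
    ring
  rw [e10, e11, norm_mul, norm_mul, hn, one_mul, one_mul, Complex.norm_real, Complex.norm_real,
    Real.norm_eq_abs, Real.norm_eq_abs, sq_abs, sq_abs]
  show _ = Real.cosh d - Real.cos b * Real.sinh d
  have hc : Real.cos b = 2 * Real.cos (b / 2) ^ 2 - 1 := by
    have := Real.cos_sq (b / 2)
    rw [show 2 * (b / 2) = b by ring] at this
    linarith
  have hs := Real.sin_sq_add_cos_sq (b / 2)
  have he1 : Real.exp (d / 2) ^ 2 = Real.exp d := by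
    rw [← Real.exp_nat_mul]
    congr 1
    push_cast
    ring
  have he2 : Real.exp (-(d / 2)) ^ 2 = Real.exp (-d) := by
    rw [← Real.exp_nat_mul]
    congr 1
    push_cast
    ring
  rw [mul_pow, mul_pow, he1, he2, Real.cosh_eq, Real.sinh_eq, hc]
  have hs' : Real.sin (b / 2) ^ 2 = 1 - Real.cos (b / 2) ^ 2 := by linarith
  rw [hs']
  ring

/-! ## 2. The `N`-integral of the sphere mean -/

/-- The Abel transform of the sphere mean of radius `d` (every `d`). -/
def abelMean698 (d : ℝ) (β : ℝ × ℝ → ℂ) : ℝ × ℝ → ℂ := fun u =>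
  ((2 * Real.pi : ℝ) : ℂ) * ∫ b in (0 : ℝ)..Real.pi,
    ((Real.sin b / sphP698 d b : ℝ) : ℂ) *
      β (u.1 - Real.log (sphP698 d b) / 2, u.2 + Real.log (sphP698 d b) / 2)

theorem continuous_upperGL_sa698 (c₁ c₂ : ℂˣ) : Continuous fun x : ℂ => upperGL c₁ c₂ x := by
  rw [Units.continuous_iff]
  constructor
  · show Continuous fun x : ℂ => (!![(c₁ : ℂ), x; 0, (c₂ : ℂ)] : Matrix (Fin 2) (Fin 2) ℂ)
    refine continuous_matrix fun i j => ?_
    fin_cases i <;> fin_cases j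
    · exact continuous_const
    · exact continuous_id
    · exact continuous_const
    · exact continuous_const
  · show Continuous fun x : ℂ =>
      (!![((c₁⁻¹ : ℂˣ) : ℂ), -(((c₁⁻¹ : ℂˣ) : ℂ) * x * ((c₂⁻¹ : ℂˣ) : ℂ));
        0, ((c₂⁻¹ : ℂˣ) : ℂ)] : Matrix (Fin 2) (Fin 2) ℂ)
    refine continuous_matrix fun i j => ?_
    fin_cases i <;> fin_cases j
    · exact continuous_const
    · show Continuous fun x : ℂ => -(((c₁⁻¹ : ℂˣ) : ℂ) * x * ((c₂⁻¹ : ℂˣ) : ℂ))
      fun_prop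
    · exact continuous_const
    · exact continuous_const

theorem upperGL_entry_sa698 (c₁ c₂ : ℂˣ) (x : ℂ) :
    ((upperGL c₁ c₂ x : GL (Fin 2) ℂ) : Matrix (Fin 2) (Fin 2) ℂ) 0 1 = x := by
  rw [upperGL_coe]
  simp

/-- **THE `N`-INTEGRAL OF THE SPHERE MEAN.** -/
theorem hasAbelN_sphMean698 {d : ℝ} {y : ℝ → ℝ → GL (Fin 2) ℂ} (hy : IsSphC445 d y)
    {Φ : GL (Fin 2) ℂ → ℂ} (hΦc : Continuous Φ) (hΦs : HasCompactSupport Φ)
    (hΦr : ∀ k g : GL (Fin 2) ℂ, IsUnitary2 k → Φ (g * k) = Φ g)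
    {β : ℝ × ℝ → ℂ} (hN : HasAbelN Φ β) :
    HasAbelN (sphMeanC445 y Φ) (abelMean698 d β) := by
  intro c₁ c₂
  show ∫ x : ℂ, (∫ α in (0 : ℝ)..(2 * Real.pi), ∫ b in (0 : ℝ)..Real.pi,
      Φ (upperGL c₁ c₂ x * y α b) * ((Real.sin b : ℝ) : ℂ)) = _
  have hycont := continuous_sph_sv698 hy
  -- the compact set
  have hS : IsCompact ((fun p : ℝ × ℝ => (y p.1 p.2)⁻¹) ''
      (uIcc (0 : ℝ) (2 * Real.pi) ×ˢ uIcc (0 : ℝ) Real.pi)) :=
    (isCompact_uIcc.prod isCompact_uIcc).image hycont.inv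
  have hC := hΦs.isCompact.mul hS
  have hent : Continuous fun g : GL (Fin 2) ℂ => (g : Matrix (Fin 2) (Fin 2) ℂ) 0 1 :=
    (Units.continuous_val).matrix_elem 0 1
  have hK := hC.image hent
  have hF : Continuous fun p : ℂ × ℝ × ℝ =>
      Φ (upperGL c₁ c₂ p.1 * y p.2.1 p.2.2) * ((Real.sin p.2.2 : ℝ) : ℂ) := by
    have h1 : Continuous fun p : ℂ × ℝ × ℝ => upperGL c₁ c₂ p.1 * y p.2.1 p.2.2 :=
      ((continuous_upperGL_sa698 c₁ c₂).comp continuous_fst).mul
        (hycont.comp continuous_snd)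
    have h2 : Continuous fun p : ℂ × ℝ × ℝ => ((Real.sin p.2.2 : ℝ) : ℂ) := by fun_prop
    exact (hΦc.comp h1).mul h2
  rw [swap2_sa698 (volume : Measure ℂ) 0 (2 * Real.pi) 0 Real.pi
    (F := fun x α b => Φ (upperGL c₁ c₂ x * y α b) * ((Real.sin b : ℝ) : ℂ)) hF hK
    (by
      intro x α hα b hb hx
      by_contra hne
      apply hx
      have hne' : Φ (upperGL c₁ c₂ x * y α b) ≠ 0 := fun h0 => hne (by rw [h0, zero_mul])
      refine ⟨upperGL c₁ c₂ x, ?_, upperGL_entry_sa698 c₁ c₂ x⟩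
      refine ⟨upperGL c₁ c₂ x * y α b, subset_tsupport _ hne', (y α b)⁻¹,
        ⟨(α, b), ⟨hα, hb⟩, rfl⟩, ?_⟩
      show upperGL c₁ c₂ x * y α b * (y α b)⁻¹ = upperGL c₁ c₂ x
      rw [mul_inv_cancel_right])]
  have hin : ∀ α b : ℝ, ∫ x : ℂ, Φ (upperGL c₁ c₂ x * y α b) * ((Real.sin b : ℝ) : ℂ)
      = ((‖(c₁ : ℂ)‖ * ‖(c₂ : ℂ)‖ : ℝ) : ℂ) *
        (((Real.sin b / sphP698 d b : ℝ) : ℂ) *
          β (Real.log ‖(c₁ : ℂ)‖ - Real.log (sphP698 d b) / 2,
            Real.log ‖(c₂ : ℂ)‖ + Real.log (sphP698 d b) / 2)) := by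
    intro α b
    rw [integral_mul_const, abelN_translate_sa698 hΦr hN (y α b) (det_sph_sa698 hy α b) c₁ c₂,
      row_sph_sa698 hy α b]
    push_cast
    ring
  simp only [hin]
  rw [intervalIntegral.integral_const, intervalIntegral.integral_const_mul, sub_zero]
  show _ = ((‖(c₁ : ℂ)‖ * ‖(c₂ : ℂ)‖ : ℝ) : ℂ) * (((2 * Real.pi : ℝ) : ℂ) *
    ∫ b in (0 : ℝ)..Real.pi, ((Real.sin b / sphP698 d b : ℝ) : ℂ) *
      β (Real.log ‖(c₁ : ℂ)‖ - Real.log (sphP698 d b) / 2,
        Real.log ‖(c₂ : ℂ)‖ + Real.log (sphP698 d b) / 2))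
  rw [Complex.real_smul]
  ring

/-! ## 3. The substitution `t = log P(d, b)` -/

theorem hasDerivAt_logP698 (d b : ℝ) :
    HasDerivAt (fun b : ℝ => Real.log (sphP698 d b))
      (Real.sinh d * Real.sin b / sphP698 d b) b := by
  have h1 : HasDerivAt (fun b : ℝ => sphP698 d b) (Real.sinh d * Real.sin b) b := by
    show HasDerivAt (fun b : ℝ => Real.cosh d - Real.cos b * Real.sinh d) _ b
    have h0 := ((Real.hasDerivAt_cos b).mul_const (Real.sinh d)).const_sub (Real.cosh d)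
    have e : Real.sinh d * Real.sin b = -(-Real.sin b * Real.sinh d) := by ring
    rw [e]
    exact h0
  exact h1.log (sphP_pos698 d b).ne'

theorem logP_zero698 (d : ℝ) : Real.log (sphP698 d 0) = -d := by
  show Real.log (Real.cosh d - Real.cos 0 * Real.sinh d) = -d
  rw [Real.cos_zero, one_mul, Real.cosh_sub_sinh, Real.log_exp]

theorem logP_pi698 (d : ℝ) : Real.log (sphP698 d Real.pi) = d := by
  show Real.log (Real.cosh d - Real.cos Real.pi * Real.sinh d) = d
  rw [Real.cos_pi, neg_one_mul, sub_neg_eq_add, Real.cosh_add_sinh, Real.log_exp]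

/-- The substitution `t = log P(d, b)`: `sinh d · ∫_0^π (sin b / P) G(log P) db = ∫_{-d}^d G`. -/
theorem subst_logP698 (d : ℝ) {G : ℝ → ℂ} (hG : Continuous G) :
    ((Real.sinh d : ℝ) : ℂ) * ∫ b in (0 : ℝ)..Real.pi,
        ((Real.sin b / sphP698 d b : ℝ) : ℂ) * G (Real.log (sphP698 d b))
      = ∫ t in (-d)..d, G t := by
  have hc : Continuous fun b : ℝ => Real.sinh d * Real.sin b / sphP698 d b :=
    (continuous_const.mul Real.continuous_sin).div (continuous_sphP698 d)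
      (fun b => (sphP_pos698 d b).ne')
  have h := intervalIntegral.integral_deriv_smul_comp (a := 0) (b := Real.pi)
    (f := fun b : ℝ => Real.log (sphP698 d b))
    (f' := fun b : ℝ => Real.sinh d * Real.sin b / sphP698 d b) (g := G)
    (fun x _ => hasDerivAt_logP698 d x) hc.continuousOn hG
  simp only [logP_zero698, logP_pi698] at h
  rw [← h, ← intervalIntegral.integral_const_mul]
  apply intervalIntegral.integral_congr
  intro b _
  show ((Real.sinh d : ℝ) : ℂ) * (((Real.sin b / sphP698 d b : ℝ) : ℂ) *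
      G (Real.log (sphP698 d b)))
    = (Real.sinh d * Real.sin b / sphP698 d b) • G (Real.log (sphP698 d b))
  rw [Complex.real_smul]
  push_cast
  ring

theorem continuous_seg_sa698 {β : ℝ × ℝ → ℂ} (hβ : Continuous β) (u : ℝ × ℝ) :
    Continuous fun t : ℝ => β (u.1 - t / 2, u.2 + t / 2) :=
  hβ.comp (by fun_prop)

/-- The explicit form for `d ≠ 0`. -/
theorem abelMean_eq698 {d : ℝ} (hd : d ≠ 0) {β : ℝ × ℝ → ℂ} (hβ : Continuous β) (u : ℝ × ℝ) :
    abelMean698 d β u = ((2 * Real.pi / Real.sinh d : ℝ) : ℂ) *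
      ∫ t in (-d)..d, β (u.1 - t / 2, u.2 + t / 2) := by
  have hs : Real.sinh d ≠ 0 := fun h => hd (Real.sinh_eq_zero.1 h)
  have hsc : ((Real.sinh d : ℝ) : ℂ) ≠ 0 := Complex.ofReal_ne_zero.2 hs
  have h := subst_logP698 d (continuous_seg_sa698 hβ u)
  show ((2 * Real.pi : ℝ) : ℂ) * (∫ b in (0 : ℝ)..Real.pi,
    ((Real.sin b / sphP698 d b : ℝ) : ℂ) *
      β (u.1 - Real.log (sphP698 d b) / 2, u.2 + Real.log (sphP698 d b) / 2)) = _
  rw [← h]
  generalize (∫ b in (0 : ℝ)..Real.pi, ((Real.sin b / sphP698 d b : ℝ) : ℂ) *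
    β (u.1 - Real.log (sphP698 d b) / 2, u.2 + Real.log (sphP698 d b) / 2)) = I
  rw [← mul_assoc, ← Complex.ofReal_mul, div_mul_cancel₀ _ hs]

/-- The explicit form for `d ≠ 0`, in the variable `a = -t/2`. -/
theorem abelMean_eq_half698 {d : ℝ} (hd : d ≠ 0) {β : ℝ × ℝ → ℂ} (hβ : Continuous β)
    (u : ℝ × ℝ) :
    abelMean698 d β u = ((4 * Real.pi / Real.sinh d : ℝ) : ℂ) *
      ∫ a in (-(d / 2))..(d / 2), β (u.1 + a, u.2 - a) := by
  rw [abelMean_eq698 hd hβ u]
  have h := intervalIntegral.smul_integral_comp_mul_left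
    (f := fun t : ℝ => β (u.1 - t / 2, u.2 + t / 2)) (a := d / 2) (b := -(d / 2)) (-2 : ℝ)
  have e1 : (-2 : ℝ) * (d / 2) = -d := by ring
  have e2 : (-2 : ℝ) * (-(d / 2)) = d := by ring
  rw [e1, e2] at h
  rw [← h, intervalIntegral.integral_symm (-(d / 2)) (d / 2)]
  have e3 : ∀ a : ℝ, β (u.1 - (-2 * a) / 2, u.2 + (-2 * a) / 2) = β (u.1 + a, u.2 - a) := by
    intro a
    congr 2 <;> ring
  simp only [e3]
  rw [Complex.real_smul]
  push_cast
  ring

/-- The value for `d = 0`. -/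
theorem abelMean_zero698 (β : ℝ × ℝ → ℂ) (u : ℝ × ℝ) :
    abelMean698 0 β u = ((4 * Real.pi : ℝ) : ℂ) * β u := by
  show ((2 * Real.pi : ℝ) : ℂ) * (∫ b in (0 : ℝ)..Real.pi,
    ((Real.sin b / sphP698 0 b : ℝ) : ℂ) *
      β (u.1 - Real.log (sphP698 0 b) / 2, u.2 + Real.log (sphP698 0 b) / 2)) = _
  simp only [sphP_zero698, Real.log_one, zero_div, sub_zero, add_zero, div_one]
  rw [intervalIntegral.integral_mul_const, intervalIntegral.integral_ofReal, integral_sin,
    Real.cos_zero, Real.cos_pi]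
  push_cast
  ring

/-! ## 4. The Abel transform of the sphere mean is a symmetric bump -/

/-- **Parametric integrals of smooth functions** (Mathlib only; the proof of helper872,
`H872.contDiff_paramIntegral872`, under a new name).  If `Φ` is smooth on `E × P`, `ν` is a
finite measure and `σ` is a measurable map with (almost everywhere) bounded values, then
`p ↦ ∫ Φ (σ y, p) dν(y)` is smooth. -/
theorem contDiff_paramIntegral_sa698 {Y : Type*} [MeasurableSpace Y] (ν : Measure Y)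
    [IsFiniteMeasure ν]
    {E P : Type*} [NormedAddCommGroup E] [NormedSpace ℝ E] [FiniteDimensional ℝ E]
    [MeasurableSpace E] [BorelSpace E]
    [NormedAddCommGroup P] [NormedSpace ℝ P]
    (Φ : E × P → ℂ) (hΦ : ContDiff ℝ ∞ Φ) (σ : Y → E) (hσ : Measurable σ) (R : ℝ)
    (hR : ∀ᵐ y ∂ν, ‖σ y‖ ≤ R) :
    ContDiff ℝ ∞ (fun p : P => ∫ y, Φ (σ y, p) ∂ν) := by
  classical
  set R' : ℝ := max R 0 + 1 with hR'def
  have hR'pos : 0 < R' := by positivity
  have hRR' : R ≤ R' := by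
    have := le_max_left R 0
    linarith
  let χ : ContDiffBump (0 : E) := ⟨R', R' + 1, hR'pos, by linarith⟩
  let lam : Measure E := Measure.map σ ν
  have hlam : IsFiniteMeasure lam := Measure.isFiniteMeasure_map ν σ
  let g : P → E → ℂ := fun p x => ((χ (-x) : ℝ) : ℂ) * Φ (-x, p)
  let f : E → ℂ := fun _ => 1
  let L : ℂ →L[ℝ] ℂ →L[ℝ] ℂ := ContinuousLinearMap.mul ℝ ℂ
  have hgs : ∀ p, ∀ x, p ∈ (univ : Set P) → x ∉ Metric.closedBall (0 : E) (R' + 1) →
      g p x = 0 := by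
    intro p x _ hx
    have h1 : χ (-x) = 0 := by
      apply χ.zero_of_le_dist
      rw [Metric.mem_closedBall, not_le, dist_zero_right] at hx
      rw [dist_zero_right, norm_neg]
      exact hx.le
    simp only [g, h1, Complex.ofReal_zero, zero_mul]
  have hf : LocallyIntegrable f lam := (integrable_const (1 : ℂ)).locallyIntegrable
  have hχ : ContDiff ℝ ∞ (fun x : E => χ x) := χ.contDiff
  have hg : ContDiffOn ℝ ∞ (↿g) ((univ : Set P) ×ˢ (univ : Set E)) := by
    apply ContDiff.contDiffOn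
    have h1 : ContDiff ℝ ∞ (fun q : P × E => ((χ (-q.2) : ℝ) : ℂ)) :=
      Complex.ofRealCLM.contDiff.comp (hχ.comp contDiff_snd.neg)
    have h2 : ContDiff ℝ ∞ (fun q : P × E => Φ (-q.2, q.1)) :=
      hΦ.comp ((contDiff_snd.neg).prodMk contDiff_fst)
    exact h1.mul h2
  have key := contDiffOn_convolution_right_with_param (μ := lam) (f := f) (n := ⊤) L
    (g := g) (s := univ) (k := Metric.closedBall (0 : E) (R' + 1)) isOpen_univ
    (isCompact_closedBall _ _) hgs hf hg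
  rw [univ_prod_univ, contDiffOn_univ] at key
  have h2 : ContDiff ℝ ∞ (fun p : P => (p, (0 : E))) := contDiff_id.prodMk contDiff_const
  have h3 := key.comp h2
  have e : (fun p : P => ∫ y, Φ (σ y, p) ∂ν)
      = (fun q : P × E => (f ⋆[L, lam] g q.1) q.2) ∘ fun p : P => (p, (0 : E)) := by
    funext p
    simp only [Function.comp_apply]
    rw [convolution_def]
    have hfun : (fun t : E => L (f t) (g p (0 - t)))
        = fun t : E => ((χ t : ℝ) : ℂ) * Φ (t, p) := by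
      funext t
      simp [L, f, g]
    rw [hfun]
    have hm : AEStronglyMeasurable (fun t : E => ((χ t : ℝ) : ℂ) * Φ (t, p))
        (Measure.map σ ν) := by
      apply Continuous.aestronglyMeasurable
      have c1 : Continuous (fun t : E => ((χ t : ℝ) : ℂ)) :=
        Complex.continuous_ofReal.comp hχ.continuous
      have c2 : Continuous (fun t : E => Φ (t, p)) :=
        hΦ.continuous.comp (by fun_prop)
      exact c1.mul c2
    rw [integral_map hσ.aemeasurable hm]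
    refine integral_congr_ae ?_
    filter_upwards [hR] with y hy
    have h1 : χ (σ y) = 1 := by
      apply χ.one_of_mem_closedBall
      rw [Metric.mem_closedBall, dist_zero_right]
      exact hy.trans hRR'
    simp [h1]
  rw [e]
  exact h3

/-- Parametric interval integrals of smooth functions. -/
theorem contDiff_intervalParam_sa698 {P : Type*} [NormedAddCommGroup P] [NormedSpace ℝ P]
    (Φ : ℝ × P → ℂ) (hΦ : ContDiff ℝ ∞ Φ) (a b : ℝ) :
    ContDiff ℝ ∞ (fun p : P => ∫ t in a..b, Φ (t, p)) := by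
  have h : ∀ a b : ℝ, ContDiff ℝ ∞ (fun p : P => ∫ t in Ioc a b, Φ (t, p)) := by
    intro a b
    haveI : IsFiniteMeasure ((volume : Measure ℝ).restrict (Ioc a b)) :=
      ⟨by rw [Measure.restrict_apply_univ]; exact measure_Ioc_lt_top⟩
    refine contDiff_paramIntegral_sa698 ((volume : Measure ℝ).restrict (Ioc a b)) Φ hΦ id
      measurable_id (max |a| |b|) ?_
    refine ae_restrict_of_forall_mem measurableSet_Ioc fun y hy => ?_
    show ‖y‖ ≤ max |a| |b|
    rw [Real.norm_eq_abs, abs_le]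
    have h1 := le_max_left |a| |b|
    have h2 := le_max_right |a| |b|
    have h3 := neg_abs_le a
    have h4 := le_abs_self b
    exact ⟨by linarith [hy.1], by linarith [hy.2]⟩
  show ContDiff ℝ ∞ (fun p : P => (∫ t in Ioc a b, Φ (t, p)) - ∫ t in Ioc b a, Φ (t, p))
  exact (h a b).sub (h b a)

/-- The average of the translates of a symmetric bump along a symmetric segment of the
antidiagonal is a symmetric bump. -/
theorem isSymBump_seg_sa698 (d : ℝ) (c : ℂ) {β : ℝ × ℝ → ℂ} (hβ : IsSymBump β) :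
    IsSymBump (fun u : ℝ × ℝ => c * ∫ t in (-d)..d, β (u.1 - t / 2, u.2 + t / 2)) := by
  obtain ⟨hsm, hcs, hsym⟩ := hβ
  refine ⟨?_, ?_, ?_⟩
  · have hΦ : ContDiff ℝ ∞
        (fun q : ℝ × (ℝ × ℝ) => β (q.2.1 - q.1 / 2, q.2.2 + q.1 / 2)) :=
      hsm.comp (by fun_prop)
    exact contDiff_const.mul (contDiff_intervalParam_sa698 _ hΦ (-d) d)
  · obtain ⟨R, hR⟩ := hcs.isCompact.isBounded.subset_closedBall (0 : ℝ × ℝ)
    refine HasCompactSupport.intro (isCompact_closedBall (0 : ℝ × ℝ) (R + |d|)) ?_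
    intro u hu
    have hu' : R + |d| < ‖u‖ := by
      rwa [Metric.mem_closedBall, dist_zero_right, not_le] at hu
    have hz : ∀ t ∈ Set.uIoc (-d) d, β (u.1 - t / 2, u.2 + t / 2) = 0 := by
      intro t ht
      have ht' : |t| ≤ |d| := by
        rcases Set.mem_uIoc.1 ht with h | h
        · exact (abs_le.2 ⟨by linarith [h.1], h.2⟩).trans (le_abs_self d)
        · exact (abs_le.2 ⟨by linarith [h.1], h.2⟩).trans (neg_le_abs d)
      by_contra hne
      have hm := hR (subset_tsupport _ hne)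
      rw [Metric.mem_closedBall, dist_zero_right] at hm
      have e : u = (u.1 - t / 2, u.2 + t / 2) + (t / 2, -(t / 2)) := by
        ext <;> simp
      have h1 : ‖u‖ ≤ ‖((u.1 - t / 2, u.2 + t / 2) : ℝ × ℝ)‖ + |t| / 2 := by
        calc ‖u‖ = ‖((u.1 - t / 2, u.2 + t / 2) : ℝ × ℝ) + (t / 2, -(t / 2))‖ :=
              congrArg norm e
          _ ≤ ‖((u.1 - t / 2, u.2 + t / 2) : ℝ × ℝ)‖ + ‖((t / 2, -(t / 2)) : ℝ × ℝ)‖ :=
              norm_add_le _ _
          _ = ‖((u.1 - t / 2, u.2 + t / 2) : ℝ × ℝ)‖ + |t| / 2 := by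
              congr 1
              rw [Prod.norm_mk, norm_neg, max_self, Real.norm_eq_abs, abs_div, abs_two]
      have hd0 := abs_nonneg d
      have ht0 := abs_nonneg t
      linarith
    show c * ∫ t in (-d)..d, β (u.1 - t / 2, u.2 + t / 2) = 0
    rw [intervalIntegral.integral_zero_ae (by
      filter_upwards with t ht
      exact hz t ht), mul_zero]
  · intro x y
    show c * ∫ t in (-d)..d, β (x - t / 2, y + t / 2)
      = c * ∫ t in (-d)..d, β (y - t / 2, x + t / 2)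
    congr 1
    have h := intervalIntegral.integral_comp_neg (a := -d) (b := d)
      (fun t : ℝ => β (x - t / 2, y + t / 2))
    rw [neg_neg] at h
    rw [← h]
    apply intervalIntegral.integral_congr
    intro t _
    show β (x - (-t) / 2, y + (-t) / 2) = β (y - t / 2, x + t / 2)
    rw [hsym (y - t / 2) (x + t / 2)]
    congr 2 <;> ring

/-- **The Abel transform of the sphere mean of a symmetric bump is a symmetric bump.** -/
theorem isSymBump_abelMean698 (d : ℝ) {β : ℝ × ℝ → ℂ} (hβ : IsSymBump β) :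
    IsSymBump (abelMean698 d β) := by
  by_cases hd : d = 0
  · subst hd
    have e : abelMean698 0 β = fun u => ((4 * Real.pi : ℝ) : ℂ) * β u :=
      funext (abelMean_zero698 β)
    rw [e]
    refine ⟨contDiff_const.mul hβ.1, ?_, fun x y => ?_⟩
    · exact HasCompactSupport.mul_left (f := fun _ => ((4 * Real.pi : ℝ) : ℂ)) hβ.2.1
    · show ((4 * Real.pi : ℝ) : ℂ) * β (x, y) = ((4 * Real.pi : ℝ) : ℂ) * β (y, x)
      rw [hβ.2.2 x y]
  · have e : abelMean698 d β = fun u : ℝ × ℝ => ((2 * Real.pi / Real.sinh d : ℝ) : ℂ) *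
        ∫ t in (-d)..d, β (u.1 - t / 2, u.2 + t / 2) :=
      funext (abelMean_eq698 hd hβ.1.continuous)
    rw [e]
    exact isSymBump_seg_sa698 d _ hβ

/-- **THE ARCHIMEDEAN STEP UPSTAIRS**: the sphere mean of a continuous right
`U(2)`-invariant function of compact support whose `N`-integral is the symmetric bump `β` has
the `N`-integral `abelMean698 d β`, a symmetric bump. -/
theorem sphAbelUp698 {d : ℝ} {y : ℝ → ℝ → GL (Fin 2) ℂ} (hy : IsSphC445 d y)
    {Φ : GL (Fin 2) ℂ → ℂ} (hΦc : Continuous Φ) (hΦs : HasCompactSupport Φ)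
    (hΦr : ∀ k g : GL (Fin 2) ℂ, IsUnitary2 k → Φ (g * k) = Φ g)
    {β : ℝ × ℝ → ℂ} (hβ : IsSymBump β) (hN : HasAbelN Φ β) :
    IsSymBump (abelMean698 d β) ∧ HasAbelN (sphMeanC445 y Φ) (abelMean698 d β) :=
  ⟨isSymBump_abelMean698 d hβ, hasAbelN_sphMean698 hy hΦc hΦs hΦr hN⟩

end Fermat.Agent.LT.T7.H698

end

end
-- ===== PACK-END LT/T7/H698/SphAbel.lean

-- ===== PACK-BEGIN LT/T7/H698/SphDat.lean
section






/-!
# Row LT, tower T7 (quadratic step `M_{w,d}` ON THE DATA, upstairs), helper698: THE LOCAL FIELDS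
# OF THE SPHERE MEAN on `GL₂(ℂ)`

OFF-MAIN.  Complete proofs, nothing assumed.  For the node `BQ87.StepMDatQC87` (helper87,
`T7/H87/BaseAQ801Spec.lean`; registry row 3188): the fields `test_up`, `smooth_up`, `symβ'`,
`abel_up`, `acts_up` of `BQ87.IsDatQ87` for `Φ' = sphMeanC445 y Φ`, `β'' = abelMean698 d β'`.

    sphDatUp698 : 0 < d → IsSphC445 d y → IsCplxTest Φ → IsCplxSmooth Φ → IsSymBump β →
      HasAbelN Φ β → ActsBy μc Φ (κc * ∫ β) →
      IsCplxTest (sphMeanC445 y Φ) ∧ IsCplxSmooth (sphMeanC445 y Φ) ∧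
      IsSymBump (abelMean698 d β) ∧ HasAbelN (sphMeanC445 y Φ) (abelMean698 d β) ∧
      ActsBy μc (sphMeanC445 y Φ) (κc * ∫ abelMean698 d β) ∧
      ∫ abelMean698 d β = 4π (d / sinh d) ∫ β

* `integral_abelMean698`: the total mass (Fubini + translation invariance);
* `actsBy_sphMean698`: `R(M Φ) Ψ = 4π (d / sinh d) C Ψ` on the functions of parameter `0` if
  `R(Φ) Ψ = C Ψ` (right invariance of the Haar measure of `GL₂(ℂ)`, `H8.rightInv_GL2C8`; the
  Weyl element; Fubini; the mean value property of `Ψ`);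
* `isCplxSmooth_sphMean698`: parametric integrals of the smooth family with `n + 2` parameters;
* continuity, compact support, bi-invariance: `H922` (helper922, byte-identical copy).
-/

set_option autoImplicit false
set_option linter.style.haveILetI false

open MeasureTheory Matrix Set Function
open scoped ComplexConjugate ContDiff

noncomputable section

namespace Fermat.Agent.LT.T7.H698

open Fermat.Agent.LT.H556 Fermat.Agent.LT.H556.A0 Fermat.Agent.LT.T7
open Fermat.Agent.LT.T7.H305 Fermat.Agent.LT.T7.H445 Fermat.Agent.LT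
open Fermat.Agent.LT.T3.AS

/-! ## 1. The total mass -/

/-- The total mass of the Abel transform of the sphere mean. -/
theorem integral_abelMean698 {d : ℝ} (hd : d ≠ 0) {β : ℝ × ℝ → ℂ} (hβ : Continuous β)
    (hβs : HasCompactSupport β) :
    ∫ u : ℝ × ℝ, abelMean698 d β u
      = ((4 * Real.pi * (d / Real.sinh d) : ℝ) : ℂ) * ∫ u : ℝ × ℝ, β u := by
  have e : abelMean698 d β = fun u : ℝ × ℝ => ((2 * Real.pi / Real.sinh d : ℝ) : ℂ) *
      ∫ t in (-d)..d, β (u.1 - t / 2, u.2 + t / 2) := funext (abelMean_eq698 hd hβ)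
  rw [e, integral_const_mul]
  obtain ⟨R, hR⟩ := hβs.isCompact.isBounded.subset_closedBall (0 : ℝ × ℝ)
  have hF : Continuous (uncurry fun (u : ℝ × ℝ) (t : ℝ) => β (u.1 - t / 2, u.2 + t / 2)) :=
    hβ.comp (by fun_prop)
  rw [swap1_sa698 (volume : Measure (ℝ × ℝ)) (-d) d hF
    (isCompact_closedBall (0 : ℝ × ℝ) (R + |d|)) (by
      intro u t ht hu
      have hu' : R + |d| < ‖u‖ := by
        rwa [Metric.mem_closedBall, dist_zero_right, not_le] at hu
      have ht' : |t| ≤ |d| := by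
        rw [Set.mem_uIcc] at ht
        rcases ht with h | h
        · exact (abs_le.2 ⟨h.1, h.2⟩).trans (le_abs_self d)
        · exact (abs_le.2 ⟨by linarith [h.1], h.2⟩).trans (neg_le_abs d)
      by_contra hne
      have hm := hR (subset_tsupport _ hne)
      rw [Metric.mem_closedBall, dist_zero_right] at hm
      have e : u = (u.1 - t / 2, u.2 + t / 2) + (t / 2, -(t / 2)) := by
        ext <;> simp
      have h1 : ‖u‖ ≤ ‖((u.1 - t / 2, u.2 + t / 2) : ℝ × ℝ)‖ + |t| / 2 := by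
        calc ‖u‖ = ‖((u.1 - t / 2, u.2 + t / 2) : ℝ × ℝ) + (t / 2, -(t / 2))‖ :=
              congrArg norm e
          _ ≤ ‖((u.1 - t / 2, u.2 + t / 2) : ℝ × ℝ)‖ + ‖((t / 2, -(t / 2)) : ℝ × ℝ)‖ :=
              norm_add_le _ _
          _ = ‖((u.1 - t / 2, u.2 + t / 2) : ℝ × ℝ)‖ + |t| / 2 := by
              congr 1
              rw [Prod.norm_mk, norm_neg, max_self, Real.norm_eq_abs, abs_div, abs_two]
      have hd0 := abs_nonneg d
      have ht0 := abs_nonneg t
      linarith)]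
  have htr : ∀ t : ℝ, ∫ u : ℝ × ℝ, β (u.1 - t / 2, u.2 + t / 2) = ∫ u : ℝ × ℝ, β u := by
    intro t
    have h := integral_add_right_eq_self (μ := (volume : Measure (ℝ × ℝ))) β
      ((-(t / 2), t / 2) : ℝ × ℝ)
    rw [← h]
    congr 1
  simp only [htr]
  rw [intervalIntegral.integral_const, Complex.real_smul]
  have hs : Real.sinh d ≠ 0 := fun h => hd (Real.sinh_eq_zero.1 h)
  have hsc : ((Real.sinh d : ℝ) : ℂ) ≠ 0 := Complex.ofReal_ne_zero.2 hs
  generalize (∫ u : ℝ × ℝ, β u) = I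
  rw [Complex.ofReal_div, Complex.ofReal_mul, Complex.ofReal_mul, Complex.ofReal_div,
    Complex.ofReal_sub, Complex.ofReal_neg, Complex.ofReal_mul]
  field_simp
  push_cast
  ring

/-! ## 2. The operator -/

theorem isUnitary2_mul_sa698 {k₁ k₂ : GL (Fin 2) ℂ} (h₁ : IsUnitary2 k₁) (h₂ : IsUnitary2 k₂) :
    IsUnitary2 (k₁ * k₂) := by
  show ((k₁ * k₂ : GL (Fin 2) ℂ) : Matrix (Fin 2) (Fin 2) ℂ) *
    ((k₁ * k₂ : GL (Fin 2) ℂ) : Matrix (Fin 2) (Fin 2) ℂ).conjTranspose = 1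
  have h₁' : (k₁ : Matrix (Fin 2) (Fin 2) ℂ) * (k₁ : Matrix (Fin 2) (Fin 2) ℂ).conjTranspose = 1 :=
    h₁
  have h₂' : (k₂ : Matrix (Fin 2) (Fin 2) ℂ) * (k₂ : Matrix (Fin 2) (Fin 2) ℂ).conjTranspose = 1 :=
    h₂
  rw [Units.val_mul, Matrix.conjTranspose_mul, Matrix.mul_assoc,
    ← Matrix.mul_assoc (k₂ : Matrix (Fin 2) (Fin 2) ℂ), h₂', Matrix.one_mul, h₁']

theorem isUnitary2_inv_sa698 {k : GL (Fin 2) ℂ} (h : IsUnitary2 k) : IsUnitary2 k⁻¹ := by
  have h' : (k : Matrix (Fin 2) (Fin 2) ℂ) * (k : Matrix (Fin 2) (Fin 2) ℂ).conjTranspose = 1 := h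
  have e : ((k⁻¹ : GL (Fin 2) ℂ) : Matrix (Fin 2) (Fin 2) ℂ)
      = (k : Matrix (Fin 2) (Fin 2) ℂ).conjTranspose := by
    have h1 : ((k⁻¹ : GL (Fin 2) ℂ) : Matrix (Fin 2) (Fin 2) ℂ) * (k : Matrix (Fin 2) (Fin 2) ℂ)
        = 1 := by
      rw [← Units.val_mul, inv_mul_cancel, Units.val_one]
    calc ((k⁻¹ : GL (Fin 2) ℂ) : Matrix (Fin 2) (Fin 2) ℂ)
        = ((k⁻¹ : GL (Fin 2) ℂ) : Matrix (Fin 2) (Fin 2) ℂ) *
            ((k : Matrix (Fin 2) (Fin 2) ℂ) * (k : Matrix (Fin 2) (Fin 2) ℂ).conjTranspose) := by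
          rw [h', Matrix.mul_one]
      _ = (k : Matrix (Fin 2) (Fin 2) ℂ).conjTranspose := by
          rw [← Matrix.mul_assoc, h1, Matrix.one_mul]
  show ((k⁻¹ : GL (Fin 2) ℂ) : Matrix (Fin 2) (Fin 2) ℂ) *
    ((k⁻¹ : GL (Fin 2) ℂ) : Matrix (Fin 2) (Fin 2) ℂ).conjTranspose = 1
  rw [e, Matrix.conjTranspose_conjTranspose]
  exact mul_eq_one_comm.1 h'

/-- The Weyl element. -/
def weyl_sa698 : GL (Fin 2) ℂ :=
  ⟨!![0, 1; 1, 0], !![0, 1; 1, 0],
    by ext i j; fin_cases i <;> fin_cases j <;> simp [Matrix.mul_apply, Fin.sum_univ_two],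
    by ext i j; fin_cases i <;> fin_cases j <;> simp [Matrix.mul_apply, Fin.sum_univ_two]⟩

theorem weyl_unitary_sa698 : IsUnitary2 weyl_sa698 := by
  show (!![0, 1; 1, 0] : Matrix (Fin 2) (Fin 2) ℂ) *
    (!![0, 1; 1, 0] : Matrix (Fin 2) (Fin 2) ℂ).conjTranspose = 1
  ext i j
  fin_cases i <;> fin_cases j <;>
    simp [Matrix.mul_apply, Fin.sum_univ_two, Matrix.conjTranspose_apply]

theorem torus_weyl_sa698 (d : ℝ) : tGL_sv698 d * weyl_sa698 * tGL_sv698 d = weyl_sa698 := by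
  apply Units.ext
  show (!![((Real.exp (d / 2) : ℝ) : ℂ), 0; 0, ((Real.exp (-(d / 2)) : ℝ) : ℂ)] :
      Matrix (Fin 2) (Fin 2) ℂ) * !![0, 1; 1, 0] *
      !![((Real.exp (d / 2) : ℝ) : ℂ), 0; 0, ((Real.exp (-(d / 2)) : ℝ) : ℂ)] = !![0, 1; 1, 0]
  have h : ((Real.exp (d / 2) : ℝ) : ℂ) * ((Real.exp (-(d / 2)) : ℝ) : ℂ) = 1 := by
    rw [← Complex.ofReal_mul, ← Real.exp_add, add_neg_cancel, Real.exp_zero, Complex.ofReal_one]
  generalize ((Real.exp (d / 2) : ℝ) : ℂ) = p at h ⊢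
  generalize ((Real.exp (-(d / 2)) : ℝ) : ℂ) = q at h ⊢
  have h' : q * p = 1 := by rw [mul_comm]; exact h
  ext i j
  fin_cases i <;> fin_cases j <;> simp [Matrix.mul_apply, Fin.sum_univ_two, h, h']

theorem weyl_torus_inv_sa698 (d : ℝ) :
    weyl_sa698 * (tGL_sv698 d)⁻¹ = tGL_sv698 d * weyl_sa698 := by
  have h := torus_weyl_sa698 d
  calc weyl_sa698 * (tGL_sv698 d)⁻¹
      = tGL_sv698 d * weyl_sa698 * tGL_sv698 d * (tGL_sv698 d)⁻¹ := by rw [h]
    _ = tGL_sv698 d * weyl_sa698 := by rw [mul_inv_cancel_right]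

theorem sinC_total_sa698 :
    (∫ _α in (0 : ℝ)..(2 * Real.pi), ∫ b in (0 : ℝ)..Real.pi, ((Real.sin b : ℝ) : ℂ))
      = ((4 * Real.pi : ℝ) : ℂ) := by
  rw [intervalIntegral.integral_const, intervalIntegral.integral_ofReal, integral_sin,
    Real.cos_zero, Real.cos_pi, Complex.real_smul]
  push_cast
  ring

section Acts

variable [MeasurableSpace (GL (Fin 2) ℂ)] [BorelSpace (GL (Fin 2) ℂ)]

/-- The key identity: the translate of `Φ` by `y(α, b)` against `Ψ` is the translate of `Ψ`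
against `Φ`. -/
theorem acts_key_sa698 (μc : Measure (GL (Fin 2) ℂ)) [μc.IsHaarMeasure]
    {d : ℝ} {y : ℝ → ℝ → GL (Fin 2) ℂ} (hy : IsSphC445 d y)
    {Φ Ψ : GL (Fin 2) ℂ → ℂ}
    (hΦr : ∀ k g : GL (Fin 2) ℂ, IsUnitary2 k → Φ (g * k) = Φ g)
    (hΨr : ∀ k g : GL (Fin 2) ℂ, IsUnitary2 k → Ψ (g * k) = Ψ g)
    (g : GL (Fin 2) ℂ) (α b : ℝ) (s : ℂ) :
    ∫ h, Ψ (g * h) * (Φ (h * y α b) * s) ∂μc = ∫ h, Ψ (g * h * y α b) * Φ h * s ∂μc := by
  have := T6.H8.locallyCompactSpace_GL2C8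
  have := T6.H8.secondCountableTopology_GL2C8
  have hri : μc.IsMulRightInvariant := ⟨(T6.H8.rightInv_GL2C8 μc).1⟩
  have hY := sph_eq_sv698 hy α b
  have hk : IsUnitary2 (kGL_sv698 α b) := kGL_unitary_sv698 α b
  -- step A
  have hA : ∫ h, Ψ (g * h) * (Φ (h * y α b) * s) ∂μc
      = ∫ h, Ψ (g * h * (tGL_sv698 d)⁻¹) * (Φ h * s) ∂μc := by
    have h1 := integral_mul_right_eq_self (μ := μc)
      (fun h : GL (Fin 2) ℂ => Ψ (g * h * (tGL_sv698 d)⁻¹) * (Φ h * s)) (y α b)
    rw [← h1]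
    congr 1
    funext h
    have e : g * (h * y α b) * (tGL_sv698 d)⁻¹ = g * h * kGL_sv698 α b := by
      rw [hY]
      group
    rw [e, hΨr _ _ hk]
  -- step B
  have hB : ∫ h, Ψ (g * h * (tGL_sv698 d)⁻¹) * (Φ h * s) ∂μc
      = ∫ h, Ψ (g * h * y α b) * Φ h * s ∂μc := by
    have h1 := integral_mul_right_eq_self (μ := μc)
      (fun h : GL (Fin 2) ℂ => Ψ (g * h * (tGL_sv698 d)⁻¹) * (Φ h * s))
      (kGL_sv698 α b * weyl_sa698)
    rw [← h1]
    congr 1
    funext h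
    have e : g * (h * (kGL_sv698 α b * weyl_sa698)) * (tGL_sv698 d)⁻¹
        = g * h * y α b * weyl_sa698 := by
      rw [hY]
      calc g * (h * (kGL_sv698 α b * weyl_sa698)) * (tGL_sv698 d)⁻¹
          = g * h * kGL_sv698 α b * (weyl_sa698 * (tGL_sv698 d)⁻¹) := by group
        _ = g * h * kGL_sv698 α b * (tGL_sv698 d * weyl_sa698) := by
            rw [weyl_torus_inv_sa698]
        _ = g * h * (kGL_sv698 α b * tGL_sv698 d) * weyl_sa698 := by group
    rw [e, hΨr _ _ weyl_unitary_sa698,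
      hΦr _ _ (isUnitary2_mul_sa698 hk weyl_unitary_sa698), mul_assoc g h (y α b)]
    ring
  rw [hA, hB]

/-- **THE OPERATOR OF THE SPHERE MEAN** on the functions of parameter `0`. -/
theorem actsBy_sphMean698 (μc : Measure (GL (Fin 2) ℂ)) [μc.IsHaarMeasure]
    {d : ℝ} (hd : 0 < d) {y : ℝ → ℝ → GL (Fin 2) ℂ} (hy : IsSphC445 d y)
    {Φ : GL (Fin 2) ℂ → ℂ} (hΦc : Continuous Φ) (hΦs : HasCompactSupport Φ)
    (hΦr : ∀ k g : GL (Fin 2) ℂ, IsUnitary2 k → Φ (g * k) = Φ g) {C : ℂ}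
    (hA : ActsBy μc Φ C) :
    ActsBy μc (sphMeanC445 y Φ) (((4 * Real.pi * (d / Real.sinh d) : ℝ) : ℂ) * C) := by
  intro Ψ hΨ g
  have := T6.H8.locallyCompactSpace_GL2C8
  have := T6.H8.secondCountableTopology_GL2C8
  have hycont := continuous_sph_sv698 hy
  show ∫ h, Ψ (g * h) * (∫ α in (0 : ℝ)..(2 * Real.pi), ∫ b in (0 : ℝ)..Real.pi,
      Φ (h * y α b) * ((Real.sin b : ℝ) : ℂ)) ∂μc = _
  have e1 : ∀ h : GL (Fin 2) ℂ, Ψ (g * h) * (∫ α in (0 : ℝ)..(2 * Real.pi),
      ∫ b in (0 : ℝ)..Real.pi, Φ (h * y α b) * ((Real.sin b : ℝ) : ℂ))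
      = ∫ α in (0 : ℝ)..(2 * Real.pi), ∫ b in (0 : ℝ)..Real.pi,
        Ψ (g * h) * (Φ (h * y α b) * ((Real.sin b : ℝ) : ℂ)) := by
    intro h
    rw [← intervalIntegral.integral_const_mul]
    congr 1
    funext α
    rw [← intervalIntegral.integral_const_mul]
  simp only [e1]
  -- first swap
  have hS : IsCompact ((fun p : ℝ × ℝ => (y p.1 p.2)⁻¹) ''
      (uIcc (0 : ℝ) (2 * Real.pi) ×ˢ uIcc (0 : ℝ) Real.pi)) :=
    (isCompact_uIcc.prod isCompact_uIcc).image hycont.inv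
  have hK := hΦs.isCompact.mul hS
  have hF1 : Continuous fun p : GL (Fin 2) ℂ × ℝ × ℝ =>
      Ψ (g * p.1) * (Φ (p.1 * y p.2.1 p.2.2) * ((Real.sin p.2.2 : ℝ) : ℂ)) := by
    have h1 : Continuous fun p : GL (Fin 2) ℂ × ℝ × ℝ => p.1 * y p.2.1 p.2.2 :=
      continuous_fst.mul (hycont.comp continuous_snd)
    have h2 : Continuous fun p : GL (Fin 2) ℂ × ℝ × ℝ => ((Real.sin p.2.2 : ℝ) : ℂ) := by
      fun_prop
    have h3 : Continuous fun p : GL (Fin 2) ℂ × ℝ × ℝ => Ψ (g * p.1) :=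
      hΨ.cont.comp (continuous_const.mul continuous_fst)
    exact h3.mul ((hΦc.comp h1).mul h2)
  rw [swap2_sa698 μc 0 (2 * Real.pi) 0 Real.pi
    (F := fun h α b => Ψ (g * h) * (Φ (h * y α b) * ((Real.sin b : ℝ) : ℂ))) hF1 hK
    (by
      intro h α hα b hb hh
      by_contra hne
      apply hh
      have hne' : Φ (h * y α b) ≠ 0 := fun h0 => hne (by rw [h0, zero_mul, mul_zero])
      refine ⟨h * y α b, subset_tsupport _ hne', (y α b)⁻¹, ⟨(α, b), ⟨hα, hb⟩, rfl⟩, ?_⟩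
      show h * y α b * (y α b)⁻¹ = h
      rw [mul_inv_cancel_right])]
  -- the key identity
  simp only [acts_key_sa698 μc hy hΦr hΨ.unitary g]
  -- second swap
  have hF2 : Continuous fun p : GL (Fin 2) ℂ × ℝ × ℝ =>
      Ψ (g * p.1 * y p.2.1 p.2.2) * Φ p.1 * ((Real.sin p.2.2 : ℝ) : ℂ) := by
    have h1 : Continuous fun p : GL (Fin 2) ℂ × ℝ × ℝ => g * p.1 * y p.2.1 p.2.2 :=
      (continuous_const.mul continuous_fst).mul (hycont.comp continuous_snd)
    have h2 : Continuous fun p : GL (Fin 2) ℂ × ℝ × ℝ => ((Real.sin p.2.2 : ℝ) : ℂ) := by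
      fun_prop
    exact ((hΨ.cont.comp h1).mul (hΦc.comp continuous_fst)).mul h2
  rw [← swap2_sa698 μc 0 (2 * Real.pi) 0 Real.pi
    (F := fun h α b => Ψ (g * h * y α b) * Φ h * ((Real.sin b : ℝ) : ℂ)) hF2 hΦs.isCompact
    (by
      intro h α _ b _ hh
      have h0 : Φ h = 0 := by
        by_contra hne
        exact hh (subset_tsupport _ hne)
      rw [h0, mul_zero, zero_mul])]
  -- the mean value property
  have e2 : ∀ h : GL (Fin 2) ℂ, (∫ α in (0 : ℝ)..(2 * Real.pi), ∫ b in (0 : ℝ)..Real.pi,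
      Ψ (g * h * y α b) * Φ h * ((Real.sin b : ℝ) : ℂ))
      = ((4 * Real.pi * (d / Real.sinh d) : ℝ) : ℂ) * (Ψ (g * h) * Φ h) := by
    intro h
    have hm := hΨ.mean d hd y hy (g * h)
    have e3 : ∀ α b : ℝ, Ψ (g * h * y α b) * Φ h * ((Real.sin b : ℝ) : ℂ)
        = Φ h * (Ψ (g * h * y α b) * ((Real.sin b : ℝ) : ℂ)) := by
      intro α b
      ring
    simp only [e3]
    have e4 : (∫ α in (0 : ℝ)..(2 * Real.pi), ∫ b in (0 : ℝ)..Real.pi,
        Φ h * (Ψ (g * h * y α b) * ((Real.sin b : ℝ) : ℂ)))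
        = Φ h * ∫ α in (0 : ℝ)..(2 * Real.pi), ∫ b in (0 : ℝ)..Real.pi,
          Ψ (g * h * y α b) * ((Real.sin b : ℝ) : ℂ) := by
      rw [← intervalIntegral.integral_const_mul]
      congr 1
      funext α
      rw [← intervalIntegral.integral_const_mul]
    rw [e4, hm]
    ring
  simp only [e2]
  rw [integral_const_mul, hA Ψ hΨ g]
  ring

end Acts

/-! ## 3. Smoothness -/

theorem sph_entries_sa698 (α b d : ℝ) :
    (rotZ α * rotY b * torus d : Matrix (Fin 2) (Fin 2) ℂ)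
      = !![Complex.exp (Complex.I * ((α / 2 : ℝ) : ℂ)) *
            ((Real.cos (b / 2) * Real.exp (d / 2) : ℝ) : ℂ),
          -(Complex.exp (Complex.I * ((α / 2 : ℝ) : ℂ)) *
            ((Real.sin (b / 2) * Real.exp (-(d / 2)) : ℝ) : ℂ));
          Complex.exp (-(Complex.I * ((α / 2 : ℝ) : ℂ))) *
            ((Real.sin (b / 2) * Real.exp (d / 2) : ℝ) : ℂ),
          Complex.exp (-(Complex.I * ((α / 2 : ℝ) : ℂ))) *
            ((Real.cos (b / 2) * Real.exp (-(d / 2)) : ℝ) : ℂ)] := by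
  show (!![Complex.exp (Complex.I * ((α / 2 : ℝ) : ℂ)), 0;
          0, Complex.exp (-(Complex.I * ((α / 2 : ℝ) : ℂ)))] : Matrix (Fin 2) (Fin 2) ℂ) *
        !![((Real.cos (b / 2) : ℝ) : ℂ), -((Real.sin (b / 2) : ℝ) : ℂ);
          ((Real.sin (b / 2) : ℝ) : ℂ), ((Real.cos (b / 2) : ℝ) : ℂ)] *
        !![((Real.exp (d / 2) : ℝ) : ℂ), 0; 0, ((Real.exp (-(d / 2)) : ℝ) : ℂ)] = _
  ext i j
  fin_cases i <;> fin_cases j <;> simp [Matrix.mul_apply, Fin.sum_univ_two] <;> ring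

theorem contDiff_sph_entry_sa698 {E : Type*} [NormedAddCommGroup E] [NormedSpace ℝ E]
    {fα fb : E → ℝ} (hα : ContDiff ℝ ∞ fα) (hb : ContDiff ℝ ∞ fb) (d : ℝ) (i j : Fin 2) :
    ContDiff ℝ ∞ (fun s : E => (rotZ (fα s) * rotY (fb s) * torus d) i j) := by
  simp only [sph_entries_sa698]
  have h1 : ContDiff ℝ ∞ (fun s : E => Complex.exp (Complex.I * ((fα s / 2 : ℝ) : ℂ))) :=
    (contDiff_const.mul (Complex.ofRealCLM.contDiff.comp (hα.div_const 2))).cexp
  have h2 : ContDiff ℝ ∞ (fun s : E => Complex.exp (-(Complex.I * ((fα s / 2 : ℝ) : ℂ)))) :=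
    (contDiff_const.mul (Complex.ofRealCLM.contDiff.comp (hα.div_const 2))).neg.cexp
  have hc : ∀ c : ℝ, ContDiff ℝ ∞ (fun s : E => ((Real.cos (fb s / 2) * c : ℝ) : ℂ)) :=
    fun c => Complex.ofRealCLM.contDiff.comp
      ((Real.contDiff_cos.comp (hb.div_const 2)).mul contDiff_const)
  have hs : ∀ c : ℝ, ContDiff ℝ ∞ (fun s : E => ((Real.sin (fb s / 2) * c : ℝ) : ℂ)) :=
    fun c => Complex.ofRealCLM.contDiff.comp
      ((Real.contDiff_sin.comp (hb.div_const 2)).mul contDiff_const)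
  fin_cases i <;> fin_cases j
  · exact h1.mul (hc _)
  · exact (h1.mul (hs _)).neg
  · exact h2.mul (hs _)
  · exact h2.mul (hc _)

/-- **The sphere mean of a smooth function is smooth.** -/
theorem isCplxSmooth_sphMean698 {d : ℝ} {y : ℝ → ℝ → GL (Fin 2) ℂ} (hy : IsSphC445 d y)
    {Φ : GL (Fin 2) ℂ → ℂ} (hsm : IsCplxSmooth Φ) : IsCplxSmooth (sphMeanC445 y Φ) := by
  intro n h hh
  -- the family with `n + 2` parameters
  let pr : (Fin (n + 2) → ℝ) → (Fin n → ℝ) := fun s i => s (Fin.castAdd 2 i)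
  let H : (Fin (n + 2) → ℝ) → GL (Fin 2) ℂ :=
    fun s => h (pr s) * y (s (Fin.natAdd n 0)) (s (Fin.natAdd n 1))
  have hpr : ContDiff ℝ ∞ pr := contDiff_pi.2 fun i => contDiff_apply ℝ ℝ (Fin.castAdd 2 i)
  have hH : ∀ i j : Fin 2, ContDiff ℝ ∞
      (fun s => ((H s : GL (Fin 2) ℂ) : Matrix (Fin 2) (Fin 2) ℂ) i j) := by
    intro i j
    have e : (fun s => ((H s : GL (Fin 2) ℂ) : Matrix (Fin 2) (Fin 2) ℂ) i j)
        = fun s => ((h (pr s) : GL (Fin 2) ℂ) : Matrix (Fin 2) (Fin 2) ℂ) i 0 *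
              (rotZ (s (Fin.natAdd n 0)) * rotY (s (Fin.natAdd n 1)) * torus d) 0 j +
            ((h (pr s) : GL (Fin 2) ℂ) : Matrix (Fin 2) (Fin 2) ℂ) i 1 *
              (rotZ (s (Fin.natAdd n 0)) * rotY (s (Fin.natAdd n 1)) * torus d) 1 j := by
      funext s
      show ((h (pr s) * y (s (Fin.natAdd n 0)) (s (Fin.natAdd n 1)) : GL (Fin 2) ℂ) :
        Matrix (Fin 2) (Fin 2) ℂ) i j = _
      rw [Units.val_mul, hy, Matrix.mul_apply, Fin.sum_univ_two]
    rw [e]
    have ha : ContDiff ℝ ∞ (fun s : Fin (n + 2) → ℝ => s (Fin.natAdd n 0)) :=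
      contDiff_apply ℝ ℝ _
    have hb : ContDiff ℝ ∞ (fun s : Fin (n + 2) → ℝ => s (Fin.natAdd n 1)) :=
      contDiff_apply ℝ ℝ _
    exact (((hh i 0).comp hpr).mul (contDiff_sph_entry_sa698 ha hb d 0 j)).add
      (((hh i 1).comp hpr).mul (contDiff_sph_entry_sa698 ha hb d 1 j))
  have key := hsm (n + 2) H hH
  -- the join
  let J : ℝ × ℝ × (Fin n → ℝ) → (Fin (n + 2) → ℝ) := fun q => Fin.append q.2.2 ![q.2.1, q.1]
  have hJ : ContDiff ℝ ∞ J := by
    refine contDiff_pi.2 fun j => ?_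
    refine Fin.addCases (fun i => ?_) (fun i => ?_) j
    · have e : (fun q : ℝ × ℝ × (Fin n → ℝ) => J q (Fin.castAdd 2 i)) = fun q => q.2.2 i := by
        funext q
        exact Fin.append_left _ _ i
      rw [e]
      exact (contDiff_apply ℝ ℝ i).comp (contDiff_snd.comp contDiff_snd)
    · have e : (fun q : ℝ × ℝ × (Fin n → ℝ) => J q (Fin.natAdd n i))
          = fun q => (![q.2.1, q.1] : Fin 2 → ℝ) i := by
        funext q
        exact Fin.append_right _ _ i
      rw [e]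
      fin_cases i
      · exact contDiff_fst.comp contDiff_snd
      · exact contDiff_fst
  have hHJ : ∀ (t : Fin n → ℝ) (α b : ℝ), H (J (b, α, t)) = h t * y α b := by
    intro t α b
    show h (pr (J (b, α, t))) * y (J (b, α, t) (Fin.natAdd n 0)) (J (b, α, t) (Fin.natAdd n 1))
      = _
    have e1 : pr (J (b, α, t)) = t := funext fun i => Fin.append_left _ _ i
    have e2 : J (b, α, t) (Fin.natAdd n 0) = α := by
      show Fin.append t ![α, b] (Fin.natAdd n 0) = α
      rw [Fin.append_right]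
      rfl
    have e3 : J (b, α, t) (Fin.natAdd n 1) = b := by
      show Fin.append t ![α, b] (Fin.natAdd n 1) = b
      rw [Fin.append_right]
      rfl
    rw [e1, e2, e3]
  -- the parametric integrals
  have hΦ1 : ContDiff ℝ ∞ (fun q : ℝ × ℝ × (Fin n → ℝ) =>
      Φ (H (J q)) * ((Real.sin q.1 : ℝ) : ℂ)) :=
    (key.comp hJ).mul (Complex.ofRealCLM.contDiff.comp (Real.contDiff_sin.comp contDiff_fst))
  have hI1 := contDiff_intervalParam_sa698 (P := ℝ × (Fin n → ℝ))
    (fun q : ℝ × ℝ × (Fin n → ℝ) => Φ (H (J q)) * ((Real.sin q.1 : ℝ) : ℂ)) hΦ1 0 Real.pi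
  have hI2 := contDiff_intervalParam_sa698 (P := Fin n → ℝ)
    (fun p : ℝ × (Fin n → ℝ) => ∫ b in (0 : ℝ)..Real.pi,
      Φ (H (J (b, p))) * ((Real.sin b : ℝ) : ℂ)) hI1 0 (2 * Real.pi)
  have e : (fun t => sphMeanC445 y Φ (h t))
      = fun t : Fin n → ℝ => ∫ α in (0 : ℝ)..(2 * Real.pi), ∫ b in (0 : ℝ)..Real.pi,
        Φ (H (J (b, α, t))) * ((Real.sin b : ℝ) : ℂ) := by
    funext t
    show (∫ α in (0 : ℝ)..(2 * Real.pi), ∫ b in (0 : ℝ)..Real.pi,
      Φ (h t * y α b) * ((Real.sin b : ℝ) : ℂ)) = _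
    simp only [hHJ]
  rw [e]
  exact hI2

/-! ## 4. The test function, the package -/

theorem isCplxTest_sphMean698 {d : ℝ} {y : ℝ → ℝ → GL (Fin 2) ℂ} (hy : IsSphC445 d y)
    {Φ : GL (Fin 2) ℂ → ℂ} (hΦ : IsCplxTest Φ) : IsCplxTest (sphMeanC445 y Φ) :=
  ⟨H922.continuous_sphMeanC922 hy hΦ.cont, H922.hasCompactSupport_sphMeanC922 hy hΦ.supp,
    fun k k' g hk hk' => H922.isBiU_sphMeanC922 hy hΦ.cont
      (fun k₁ k₂ g h1 h2 => hΦ.bi_inv k₁ k₂ g h1 h2) k k' g hk hk'⟩

theorem isCplxTest_right_sa698 {Φ : GL (Fin 2) ℂ → ℂ} (hΦ : IsCplxTest Φ)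
    (k g : GL (Fin 2) ℂ) (hk : IsUnitary2 k) : Φ (g * k) = Φ g := by
  have h1 : IsUnitary2 (1 : GL (Fin 2) ℂ) := by
    show ((1 : GL (Fin 2) ℂ) : Matrix (Fin 2) (Fin 2) ℂ) *
      ((1 : GL (Fin 2) ℂ) : Matrix (Fin 2) (Fin 2) ℂ).conjTranspose = 1
    simp
  have h := hΦ.bi_inv 1 k g h1 hk
  rwa [one_mul] at h

/-- **THE LOCAL FIELDS OF THE STEP `M_{w,d}` UPSTAIRS** (`test_up`, `smooth_up`, `symβ'`,
`abel_up`, `acts_up` of the data after the step, and the total mass). -/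
theorem sphDatUp698 [MeasurableSpace (GL (Fin 2) ℂ)] [BorelSpace (GL (Fin 2) ℂ)]
    (μc : Measure (GL (Fin 2) ℂ)) [μc.IsHaarMeasure] (κc : ℂ)
    {d : ℝ} (hd : 0 < d) {y : ℝ → ℝ → GL (Fin 2) ℂ} (hy : IsSphC445 d y)
    {Φ : GL (Fin 2) ℂ → ℂ} (hΦ : IsCplxTest Φ) (hsm : IsCplxSmooth Φ)
    {β : ℝ × ℝ → ℂ} (hβ : IsSymBump β) (hN : HasAbelN Φ β)
    (hA : ActsBy μc Φ (κc * ∫ x : ℝ × ℝ, β x)) :
    IsCplxTest (sphMeanC445 y Φ) ∧ IsCplxSmooth (sphMeanC445 y Φ) ∧
      IsSymBump (abelMean698 d β) ∧ HasAbelN (sphMeanC445 y Φ) (abelMean698 d β) ∧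
      ActsBy μc (sphMeanC445 y Φ) (κc * ∫ x : ℝ × ℝ, abelMean698 d β x) ∧
      ∫ x : ℝ × ℝ, abelMean698 d β x
        = ((4 * Real.pi * (d / Real.sinh d) : ℝ) : ℂ) * ∫ x : ℝ × ℝ, β x := by
  have hr := isCplxTest_right_sa698 hΦ
  have hm := integral_abelMean698 hd.ne' hβ.1.continuous hβ.2.1
  refine ⟨isCplxTest_sphMean698 hy hΦ, isCplxSmooth_sphMean698 hy hsm,
    isSymBump_abelMean698 d hβ, hasAbelN_sphMean698 hy hΦ.cont hΦ.supp hr hN, ?_, hm⟩
  have h := actsBy_sphMean698 μc hd hy hΦ.cont hΦ.supp hr hA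
  have e : κc * ∫ x : ℝ × ℝ, abelMean698 d β x
      = ((4 * Real.pi * (d / Real.sinh d) : ℝ) : ℂ) * (κc * ∫ x : ℝ × ℝ, β x) := by
    rw [hm]
    ring
  rw [e]
  exact h

end Fermat.Agent.LT.T7.H698

end

end
-- ===== PACK-END LT/T7/H698/SphDat.lean

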