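import Mathlib
import Fermat.Agent.Pack.LT2.E20L1
import Fermat.Agent.Pack.LT4.E5L0
import Fermat.Agent.Pack.LT4.E8L0
import Fermat.Agent.Pack.LT4.E6L3
import Fermat.Agent.Pack.LT4.E8L1
import Fermat.Agent.Pack.LT4.E8L2
import Fermat.Agent.Pack.LT4.E6L2
import Fermat.Agent.Pack.LT4.E4L3
import Fermat.Agent.Pack.LT4.E0L1
import Fermat.Agent.Pack.LT3.E23L3
import Fermat.Agent.Pack.LT2.E2L3
import Fermat.Agent.Pack.LT3.E26L3
import Fermat.Agent.Pack.LT3.E20L3
import Fermat.Agent.Pack.LT4.E7L2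
import Fermat.Agent.Pack.LT3.E25L1
import Fermat.Agent.Pack.LT3.E27L0
import Fermat.Agent.Pack.LT4.E4L2
import Fermat.Agent.Pack.LT3.E3L2
import Fermat.Agent.Pack.LT4.E5L1
import Fermat.Agent.Pack.LT3.E29L3
import Fermat.Agent.Pack.LT4.E5L3
import Fermat.Agent.Pack.LT4.E1L0
import Fermat.Agent.Pack.LT4.E0L0
import Fermat.Agent.Pack.LT4.E5L2

set_option linter.all false

-- ===== PACK-BEGIN LT/T8/Closed.lean
section


/-!
# Row LT, tower T8 (helper19, architect): STATE OF THE TOWER (pattern of `LT/T1/Closed.lean`)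

OFF-MAIN.  Tower Prop = the wall leaf `WT.PAR556` of origin/helper556@0fa0be5a0, VERBATIM.

| leaf | closed by |
|---|---|
| T8.01 `H19.CentralEven556` | helper468 `centralEven556_h468` (other proofs: 768, 624, 84, 47) |
| T8.02 `HeckeSeqC` | helper47 `heckeSeqC47` |
| T8.03 `HoroCoeffC` | helper47 `horoCoeffC47` (on MS1 of helper51) |
| T8.05 MS1 `CoeffData.msBound` | helper51 |
| T8.06 `top` | helper19 (`LT/T8/Spec.lean`) |

`top_of_open : Open → WT.PAR556`; `Open` lists the leaves still to be proved: `T8.HoroC` only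
(adelic; sub-architect helper51, `LT/H51/MS4*.lean`; raw Hecke leaf closed by helper468).
-/

set_option autoImplicit false

namespace Fermat.Agent.LT.T8

/-- THE OPEN PART of tower T8: the leaves still to be proved. -/
structure Open : Prop where
  horoC : HoroC

/-- STATE OF THE TOWER: the open leaves give the wall leaf `PAR556`. -/
theorem top_of_open (O : Open) : Fermat.Agent.LT.H556.WT.PAR556 :=
  par556_of_horoC O.horoC

end Fermat.Agent.LT.T8

end
-- ===== PACK-END LT/T8/Closed.lean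

-- ===== PACK-BEGIN LT/T8/H468/Par.lean
section



/-!
# Row LT, tower T8 CLOSED: the wall leaf `PAR556` (helper468, OFF-MAIN)

`par556_468 : Fermat.Agent.LT.H556.WT.PAR556` (PROVED, no hole), the wall leaf of the frozen
skeleton origin/helper556@0fa0be5a0, VERBATIM, from `T8.top_of_open` (helper19, `T8/Closed.lean`)
and `horoC468` (`T8/H468/Horo.lean`).  Closed leaves inside: `centralEven556_h468` (helper468),
`heckeSeqC47`, `horoCoeffC47` (helper47), `CoeffData.msBound` (helper51), `T8.top` (helper19).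
-/

set_option autoImplicit false

namespace Fermat.Agent.LT.T8.H468

/-- The open part of tower T8 is empty. -/
theorem open468 : Fermat.Agent.LT.T8.Open := ⟨horoC468⟩

/-- **The wall leaf `PAR556`.** -/
theorem par556_468 : Fermat.Agent.LT.H556.WT.PAR556 :=
  Fermat.Agent.LT.T8.top_of_open open468

end Fermat.Agent.LT.T8.H468

end
-- ===== PACK-END LT/T8/H468/Par.lean

-- ===== PACK-BEGIN LT/T7/B970/Pair2Any.lean
section




/-!
# Row LT, tower T7, node T7.L2.1.H2a.4 `Pair2C` (sub-architect helper970, registry 2688):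
# INTEGRATION for ANY MIX of the two forms of the property leaves

OFF-MAIN.  Every proof is complete, nothing assumed.  ADDITIVE.

The three property leaves exist in two forms: the form of the first cut (`Up2C970`, `Dn2C970`,
`ShapeC970`: WITH the torus mean) and the kill-free form (`Up0C970`, `Dn0C970`, `Shape0C970`:
BEFORE the torus mean).  Each leaf may be delivered in either form:

    isUp2_of_up0_970 : IsUp0_970 … c₂ φ₀ → IsUp2_970 … c₂ (nat193 a' D' φ₀)
    isDn2_of_dn0_970 : IsDn0_970 B 𝔫 f₀ → IsDn2_970 B 𝔫 (nat193 a D f₀)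
    nat_const_mul970 : nat193 a D (c · f) = c · nat193 a D f
    pairBCb_any970 : Pair1C981 P K K' → WtUpC970 K K' → BadLocC970 K K'
        → (Up0C970 K K' ∨ Up2C970 K K') → (Dn0C970 K K' ∨ Dn2C970 K K')
        → (Shape0C970 K K' ∨ ShapeC970 K K') → Q797.PairBC797 P K K' LocB893b

(the two halves of the natural-average step of helper193, `H193.isPairB_of_pairB0_193`, and
`H193.isAvgPure_nat193`).
-/

set_option autoImplicit false

open AutomorphicForm IsDedekindDomain NumberField MeasureTheory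
open scoped ComplexConjugate

noncomputable section

namespace Fermat.Agent.LT.T7.B970

open Fermat.Agent.LT.H556 Fermat.Agent.LT.H556.A0 Fermat.Agent.LT Fermat.Agent.LT.T7
open Fermat.Agent.LT.T7.H305 Fermat.Agent.LT.T7.H893 Fermat.Agent.LT.T7.B981
open Fermat.Agent.LT.T7.Q797

attribute [local instance] Fermat.Agent.LT.T5.instMeasurableSpaceG

section OneField

variable {F : Type} [Field F] [NumberField F]

/-- The torus mean is linear. -/
theorem nat_const_mul970 (a : (InfinitePlace F → ℝ) → G F) (D : Set (InfinitePlace F → ℝ))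
    (c : ℂ) (f : G F → ℂ) :
    H193.nat193 a D (fun h => c * f h) = fun h => c * H193.nat193 a D f h := by
  funext g
  show (((volume D).toReal : ℝ) : ℂ)⁻¹ * ∫ t in D, c * f (g * (a t)⁻¹)
    = c * ((((volume D).toReal : ℝ) : ℂ)⁻¹ * ∫ t in D, f (g * (a t)⁻¹))
  rw [integral_const_mul]
  ring

/-- A weighted sum of left translates of a continuous function is continuous. -/
theorem continuous_wsum970 (s : Finset (G F)) (β : G F → ℂ) {φ : G F → ℂ}
    (hφ : Continuous φ) : Continuous (wsum970 s β φ) := by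
  show Continuous (fun y => ∑ x ∈ s, β x * φ (x⁻¹ * y))
  refine continuous_finsetSum _ fun x _ => continuous_const.mul ?_
  exact hφ.comp (continuous_const.mul continuous_id)

end OneField

section Halves

variable {K K' : Type} [Field K] [NumberField K] [Field K'] [NumberField K'] [Algebra K K']

/-- **The natural-average step upstairs.** -/
theorem isUp2_of_up0_970 (hT1' : T1.T1Out K') {ℓ : ℕ} {Φ : HeckeEigensystem K' ℂ}
    {B : L2Base K K'} (hB : IsL2Base ℓ Φ B) {𝔫 : Ideal (𝓞 K)} (hlev : IsLvl981 B 𝔫)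
    {c₂ : EigData K' → ℂ} {φ₀ : G K' → ℂ}
    {aa' : (InfinitePlace K' → ℝ) → G K'} {D' : Set (InfinitePlace K' → ℝ)}
    (hup : H193.IsTorusData (upI (K' := K') 𝔫) B.R'.r aa' D')
    (h0 : IsUp0_970 ℓ Φ B 𝔫 c₂ φ₀) :
    IsUp2_970 ℓ Φ B 𝔫 c₂ (H193.nat193 aa' D' φ₀) := by
  have hup₀ : H193.IsTorusData B.𝔑₀ B.R'.r aa' D' := H193.isTorusData_mono193 hlev.level_g hup
  obtain ⟨u1, u2, u3, u4, u5, u6⟩ :=
    H193.killing_of_torus193 hT1' B.R' hB.frame' (upI (K' := K') 𝔫) B.𝔑₀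
      (H193.upI_ne_bot193 hlev.level_ne) hlev.level_g ℓ B.o hup₀ φ₀ h0.up_test h0.up_ek.1
      h0.up_ek.2 h0.up_inv
  obtain ⟨Cu, _, hCu⟩ := h0.up_supp
  exact
    { up2_test := u1
      up2_ek := ⟨u2, u3⟩
      up2_inv := u4
      up2_op := fun ψ C hψ x => by
        rw [u5 ψ hψ.inv.cusp.cont hψ.inv.arch_scalar x]
        exact h0.up_op ψ C hψ x
      up2_kill := u6
      up2_ne := h0.up_ne
      up2_supp := ⟨tsupport (H193.nat193 aa' D' φ₀), u1.supp,
        H193.isIwSupported_nat193 hup hCu⟩ }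

/-- **The natural-average step downstairs.** -/
theorem isDn2_of_dn0_970 (hT1 : T1.T1Out K) {ℓ : ℕ} {Φ : HeckeEigensystem K' ℂ}
    {B : L2Base K K'} (hB : IsL2Base ℓ Φ B) {𝔫 : Ideal (𝓞 K)} (hlev : IsLvl981 B 𝔫)
    {f₀ : G K → ℂ}
    {aa : (InfinitePlace K → ℝ) → G K} {D : Set (InfinitePlace K → ℝ)}
    (hdn : H193.IsTorusData 𝔫 B.R.r aa D)
    (h0 : IsDn0_970 B 𝔫 f₀) :
    IsDn2_970 B 𝔫 (H193.nat193 aa D f₀) := by
  obtain ⟨d1, d2, d3, d4, d5, d6⟩ :=
    H193.killing_of_torus193 hT1 B.R hB.frame 𝔫 𝔫 hlev.level_ne le_rfl 1 (fun _ => B.u) hdn f₀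
      h0.dn_test h0.dn_ek.1 h0.dn_ek.2 h0.dn_inv
  have hdW : ∀ ψ : G K → ℂ, IsWFn 𝔫 B.R.r 1 (fun _ => B.u) ψ →
      T5.Rconv B.R.μ (H193.nat193 aa D f₀) ψ = T5.Rconv B.R.μ f₀ ψ := fun ψ hψ =>
    funext fun x => d5 ψ hψ.cusp.cont hψ.arch_scalar x
  obtain ⟨Cd, _, hCd⟩ := h0.dn_supp
  exact
    { dn2_test := d1
      dn2_ek := ⟨d2, d3⟩
      dn2_inv := d4
      dn2_wfn := fun ψ hψ => by
        rw [hdW ψ hψ]
        exact h0.dn_wfn ψ hψ
      dn2_class := fun ψ c hψ => by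
        rw [hdW ψ hψ.inv]
        exact h0.dn_class ψ c hψ
      dn2_comm := fun ψ hψ H z hH hz => by
        obtain ⟨c1, c2⟩ := h0.dn_comm ψ hψ H z hH hz
        rw [hdW ψ hψ]
        refine ⟨fun x => ?_, fun k x => ?_⟩
        · rw [d5 (iwOp B.u H ψ) (H193.continuous_iwOp193 B.u H hψ.cusp.cont) ?_ x]
          · exact c1 x
          · intro w z' hz' y
            show iwOp B.u H ψ (y * z') = iwOp B.u H ψ y
            have e : ∀ y' : G K, iwOp B.u H ψ y'
                = ((Real.sqrt (Ideal.absNorm B.u.asIdeal : ℝ) : ℝ) : ℂ)⁻¹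
                  * ∑ h ∈ H, ψ (y' * h) := fun _ => rfl
            rw [e, e]
            congr 1
            refine Finset.sum_congr rfl fun h _ => ?_
            rw [mul_assoc, H193.central_of_posScalar193 hdn hz' h, ← mul_assoc]
            exact hψ.arch_scalar w z' hz' _
        · rw [d5 (shiftOp z k ψ) (H193.continuous_shiftOp193 z k hψ.cusp.cont) ?_ x]
          · exact c2 k x
          · intro w z' hz' y
            show ψ (y * z' * z ^ k) = ψ (y * z ^ k)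
            rw [mul_assoc, H193.central_of_posScalar193 hdn hz' (z ^ k), ← mul_assoc]
            exact hψ.arch_scalar w z' hz' _
      dn2_kill := d6
      dn2_supp := ⟨tsupport (H193.nat193 aa D f₀), d1.supp,
        H193.isIwSupported_nat193 hdn hCd⟩ }

end Halves

section Top

variable {P : EKCond}
variable {K K' : Type} [Field K] [NumberField K] [Field K'] [NumberField K'] [Algebra K K']

/-- **THE SECOND PAIR OF RECORD from the open leaves, each property leaf in EITHER form.** -/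
theorem pairBCb_any970 (h1 : Pair1C981 P K K')
    (hWu : WtUpC970 K K') (hBl : BadLocC970 K K')
    (hU : Up0C970 K K' ∨ Up2C970 K K') (hD : Dn0C970 K K' ∨ Dn2C970 K K')
    (hSh : Shape0C970 K K' ∨ ShapeC970 K K') :
    PairBC797 P K K' LocB893b := by
  classical
  intro ℓ hcyc hℓ hcplx Φ hΦ hconst hP B hB hram g hg
  obtain ⟨μc, hμc⟩ := B981.H302.haarCplxC302
  obtain ⟨M, hM⟩ := hBl ℓ hcyc hℓ hcplx Φ B hB hram g hg
  obtain ⟨𝔫, T₀, n, n₀, m, hlvl, hexp, hbd⟩ := B981.H890.lvlC890 (K := K) (K' := K') ℓ Φ B hB M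
  refine ⟨𝔫, μc, isLevel797_of981 hlvl, hμc, fun T₀' n' n₀' m' hexp797 c hc => ?_⟩
  have hexp' : IsExp981 B 𝔫 T₀' n' n₀' m' := isExp981_of797 hexp797
  have hm : m' = m := levelExp_unique970 𝔫 m' m hexp'.lvl hexp.lvl
  have hbd' : ∀ v ∈ T₀', M ≤ m' v := by
    intro v hv
    rw [hm]
    exact hbd v ((hexp.mem v).2 ((hexp'.mem v).1 hv))
  -- the first pair, for the same level and exponents
  obtain ⟨c₁, Φ₁, F₁, hp1, hsh1⟩ :=
    h1 ℓ hcyc hℓ hcplx Φ hΦ hconst hP B hB hram 𝔫 hlvl μc hμc T₀' n' n₀' m' hexp'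
  have hsh0 := hsh1 [] (fun x hx => absurd hx (List.not_mem_nil))
  -- compatible torus data
  obtain ⟨a, D, a', D', hrel⟩ :=
    H193.relTorus_closed193 K K' ℓ hcyc hcplx 𝔫 hlvl.level_ne B.R.r B.R'.r
      hB.frame.ray hB.frame'.ray
  -- the representatives upstairs, the partners, the weights downstairs
  obtain ⟨s', hs'⟩ := hWu ℓ Φ B hB 𝔫 hlvl T₀' n' n₀' m' hexp'
  obtain ⟨b, hb⟩ := hM 𝔫 hlvl T₀' n' n₀' m' hexp' hbd'
  obtain ⟨s, β, hsβ⟩ := H470.wtDownC470 K K' ℓ Φ B hB 𝔫 hlvl T₀' n' n₀' m' hexp' b hb.inv_down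
  -- the three groups of properties
  have hup : IsUp2_970 ℓ Φ B 𝔫 (fun C => (s'.card : ℂ) * c₁ C)
      (H193.nat193 a' D' (lsum s' (Φ₁ []))) := by
    rcases hU with hU | hU
    · exact isUp2_of_up0_970 (T1.t1Out K') hB hlvl hrel.up
        (hU ℓ hcyc hℓ hcplx Φ hΦ hconst B hB hram 𝔫 hlvl μc hμc T₀' n' n₀' m' hexp'
          s' hs' c₁ Φ₁ F₁ hp1 hsh0)
    · exact hU ℓ hcyc hℓ hcplx Φ hΦ hconst B hB hram 𝔫 hlvl μc hμc T₀' n' n₀' m' hexp'
        a D a' D' hrel s' hs' c₁ Φ₁ F₁ hp1 hsh0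
  have hdn : IsDn2_970 B 𝔫 (fun h => c * H193.nat193 a D (wsum970 s β (F₁ [])) h) := by
    rcases hD with hD | hD
    · have h := isDn2_of_dn0_970 (T1.t1Out K) hB hlvl hrel.down
        (hD ℓ hcyc hℓ hcplx Φ hΦ hconst B hB hram 𝔫 hlvl μc hμc T₀' n' n₀' m' hexp'
          s β b hb.inv_down hsβ c₁ Φ₁ F₁ hp1 hsh0 c hc)
      rwa [nat_const_mul970] at h
    · exact hD ℓ hcyc hℓ hcplx Φ hΦ hconst B hB hram 𝔫 hlvl μc hμc T₀' n' n₀' m' hexp'
        a D a' D' hrel s β b hb.inv_down hsβ c₁ Φ₁ F₁ hp1 hsh0 c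
  have hshape : IsAvgPure (upI (K' := K') 𝔫) 𝔫 T₀' (LocB893b B g 𝔫 μc T₀' n' n₀' m') c
      (H193.nat193 a' D' (lsum s' (Φ₁ [])))
      (fun h => c * H193.nat193 a D (wsum970 s β (F₁ [])) h) := by
    rcases hSh with hSh | hSh
    · have hcont : Continuous (fun h => c * wsum970 s β (F₁ []) h) :=
        continuous_const.mul (continuous_wsum970 s β
          (hp1.dn1_test [] (fun x hx => absurd hx (List.not_mem_nil))).cont)
      have h := H193.isAvgPure_nat193 hrel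
        (fun T φ₀' Φ' f₀' F hL t' =>
          H193.isShiftStable_locB893b193 ℓ hcyc hcplx Φ B hB g 𝔫 μc hμc T₀' n' n₀' m'
            T φ₀' Φ' f₀' F hL t')
        hcont
        (hSh ℓ hcyc hℓ hcplx Φ hΦ hconst B hB hram g hg 𝔫 hlvl μc hμc T₀' n' n₀' m' hexp'
          s' hs' s β b hb hsβ c₁ Φ₁ F₁ hp1 hsh0 c hc)
      rwa [nat_const_mul970] at h
    · exact hSh ℓ hcyc hℓ hcplx Φ hΦ hconst B hB hram g hg 𝔫 hlvl μc hμc T₀' n' n₀' m' hexp'
        a D a' D' hrel s' hs' s β b hb hsβ c₁ Φ₁ F₁ hp1 hsh0 c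
  exact ⟨fun C => (s'.card : ℂ) * c₁ C, H193.nat193 a' D' (lsum s' (Φ₁ [])),
    fun h => c * H193.nat193 a D (wsum970 s β (F₁ [])) h,
    ⟨hup.up2_test, hup.up2_ek, hup.up2_inv, hup.up2_op, hup.up2_kill, hup.up2_ne,
      hdn.dn2_test, hdn.dn2_ek, hdn.dn2_inv, hdn.dn2_wfn, hdn.dn2_class, hdn.dn2_comm,
      hdn.dn2_kill, hup.up2_supp, hdn.dn2_supp, hshape⟩⟩

/-- The same with the first pair in the form of helper797. -/
theorem pairBCb_any797_970 (hA : PairAC797 P K K' LocA893)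
    (hWu : WtUpC970 K K') (hBl : BadLocC970 K K')
    (hU : Up0C970 K K' ∨ Up2C970 K K') (hD : Dn0C970 K K' ∨ Dn2C970 K K')
    (hSh : Shape0C970 K K' ∨ ShapeC970 K K') :
    PairBC797 P K K' LocB893b :=
  pairBCb_any970 (pair1C981_of797 hA) hWu hBl hU hD hSh

end Top

end Fermat.Agent.LT.T7.B970

end

end
-- ===== PACK-END LT/T7/B970/Pair2Any.lean

-- ===== PACK-BEGIN LT/T7/B970/Pair2Closed2.lean
section





/-!
# Row LT, tower T7, node T7.L2.1.H2a.4 `Pair2C` (sub-architect helper970, registry 2688):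
# INTEGRATION 3 -- the second pair from the OPEN leaves only

OFF-MAIN.  Every proof is complete, nothing assumed.  ADDITIVE.  Byte-identical copies of the
closed leaves: `T7/H470/WtUp.lean`, `T7/H470/WtDown.lean` (helper470, rows 2862-s / 2864),
`T7/H236/Shape*.lean` (helper236, row 2867, form of the first cut), `T1/Closed.lean`,
`T7/B981/H302/HaarCplx.lean` (helper302), `T7/B981/H890/Lvl.lean` (helper890), the station
REL-TORUS and the natural-average step of helper193.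

    pairBCb_open3_970 : Pair1C981 P K K' → BadLocC970 K K'
        → (Up0C970 K K' ∨ Up2C970 K K') → (Dn0C970 K K' ∨ Dn2C970 K K')
        → Q797.PairBC797 P K K' LocB893b
    pair2Cb_open3_970 : Pair1C981 P K K' → BadLocC970 K K' → Up2C970 K K' → Dn2C970 K K'
        → Pair2Cb970 P K K'                                        (the node in the form of B981)

OPEN after this file: the first pair (node of helper981 / helper797), `BadLocC970` (row 2863),
the fields upstairs (row 2865) and downstairs (row 2866).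
-/

set_option autoImplicit false

open AutomorphicForm IsDedekindDomain NumberField MeasureTheory
open scoped ComplexConjugate

noncomputable section

namespace Fermat.Agent.LT.T7.B970

open Fermat.Agent.LT.H556 Fermat.Agent.LT.H556.A0 Fermat.Agent.LT Fermat.Agent.LT.T7
open Fermat.Agent.LT.T7.H305 Fermat.Agent.LT.T7.H893 Fermat.Agent.LT.T7.B981
open Fermat.Agent.LT.T7.Q797

attribute [local instance] Fermat.Agent.LT.T5.instMeasurableSpaceG

section Closed

variable {P : EKCond}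
variable {K K' : Type} [Field K] [NumberField K] [Field K'] [NumberField K'] [Algebra K K']

/-- **THE SECOND PAIR OF RECORD from the open leaves** (each of the two open property leaves
in either form). -/
theorem pairBCb_open3_970 (h1 : Pair1C981 P K K') (hBl : BadLocC970 K K')
    (hU : Up0C970 K K' ∨ Up2C970 K K') (hD : Dn0C970 K K' ∨ Dn2C970 K K') :
    PairBC797 P K K' LocB893b :=
  pairBCb_any970 h1 (H470.wtUpC470 K K') hBl hU hD (Or.inr (H236.shapeC236 K K'))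

/-- The same with the first pair in the form of helper797. -/
theorem pairBCb_open3_797_970 (hA : PairAC797 P K K' LocA893) (hBl : BadLocC970 K K')
    (hU : Up0C970 K K' ∨ Up2C970 K K') (hD : Dn0C970 K K' ∨ Dn2C970 K K') :
    PairBC797 P K K' LocB893b :=
  pairBCb_open3_970 (pair1C981_of797 hA) hBl hU hD

/-- **THE NODE in the form of the first cut** (`Pair2Cb970`) from the open leaves in the form
of the first cut. -/
theorem pair2Cb_open3_970 (h1 : Pair1C981 P K K') (hBl : BadLocC970 K K')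
    (hU : Up2C970 K K') (hD : Dn2C970 K K') : Pair2Cb970 P K K' :=
  pair2Cb_of970 h1 (H193.relTorus_closed193 K K') (H470.wtUpC470 K K') hBl
    (H470.wtDownC470 K K') hU hD (H236.shapeC236 K K')

end Closed

end Fermat.Agent.LT.T7.B970

end

end
-- ===== PACK-END LT/T7/B970/Pair2Closed2.lean

-- ===== PACK-BEGIN LT/T7/H563/ProdShapeQTop.lean
section




/-!
# Row LT, tower T7, node T7.L2Q.1.H2b.4 `PQ563.ProdShapeQC563` (row 2919, helper563): the tops

OFF-MAIN.  No hole, nothing assumed.  ADDITIVE.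

    prodShapeQC_of563 : GlobProdQC563 F → LocProdQC563 F → ProdShapeQC563 F
    globProdQC_of563  : OpAvgQC563 F → ConvAvgQC563 F → GlobProdQC563 F
    locProdQC_of563   : RegOrbQC563 F → SplitOrbQC563 F → SphProdQC563 F → ArchProdQC563 F
                          → LocProdQC563 F
    prodMtQC801_of_leaves563 : the leaves → ∀ κ nowhere zero, CQ801.ProdMtQC801 F κ
-/

set_option autoImplicit false

open AutomorphicForm IsDedekindDomain NumberField MeasureTheory
open scoped ComplexConjugate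

noncomputable section

namespace Fermat.Agent.LT.T7.PQ563

open Fermat.Agent.LT.H556 Fermat.Agent.LT.H556.A0 Fermat.Agent.LT.T7 Fermat.Agent.LT.T7.H305
  Fermat.Agent.LT.T7.L2Q Fermat.Agent.LT.T7.H893 Fermat.Agent.LT.T7.H962
  Fermat.Agent.LT.T7.H732 Fermat.Agent.LT.T7.MQ298 Fermat.Agent.LT.T7.CQ801

attribute [local instance] Fermat.Agent.LT.T5.instMeasurableSpaceG

section Tops

variable {F : Type} [Field F] [NumberField F]

/-- The coset systems of pre-data with the operator properties. -/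
theorem isSysQ_of_op563 {Φ : HeckeEigensystem F ℂ} {B : L2Q.H60.L2QBase F} {g : G F}
    {𝔫 : Ideal (𝓞 ℚ)} {E : L2QPre732 F} (hE : E.𝔫 = 𝔫)
    (hOp : IsL2QPreOp732 Φ (toBase962_732 B) g E) : IsSysQ563 B 𝔫 E.H' E.z' E.H E.z :=
  { level_ne := hE ▸ hOp.level_ne
    level_g := hE ▸ hOp.level_g
    mem_S'_g := hE ▸ hOp.mem_S'_g
    u_level := hE ▸ hOp.u_level
    sys' := hOp.sys'
    unif' := hOp.unif'
    sys := hOp.sys
    unif := hOp.unif }

/-- **THE GLOBAL NODE from its two nodes.** -/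
theorem globProdQC_of563 (h1 : OpAvgQC563 F) (h2 : ConvAvgQC563 F) : GlobProdQC563 F := by
  intro Φ B g 𝔫 μr μc T₀ n n₀ m hctx
  obtain ⟨c₁, hc₁, h⟩ := h2 Φ B g 𝔫 μr μc T₀ n n₀ m hctx
  refine ⟨c₁, hc₁, ?_⟩
  intro c t lam a hc ht hlam ha E hE hOp hA1 hA2 X k j hX
  exact h c t lam a hc ht hlam ha E.H' E.z' E.H E.z (isSysQ_of_op563 hE hOp) k j _ _ _ _ _ _
    (hA1 X hX) (h1 Φ B g 𝔫 μr μc T₀ n n₀ m hctx c a hc ha E hE hOp hA2 k j)

/-- **THE LOCAL NODE from its leaves.** -/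
theorem locProdQC_of563 (h1 : RegOrbQC563 F) (h5 : SplitOrbQC563 F) (h6 : SphProdQC563 F)
    (h7 : ArchProdQC563 F) : LocProdQC563 F := by
  classical
  intro Φ B g 𝔫 μr μc T₀ n n₀ m hctx
  obtain ⟨t, ht, hsplit⟩ := h5 Φ B g 𝔫 μr μc T₀ n n₀ m hctx
  obtain ⟨c, lam, hc, hlam, harchP⟩ := h7 hctx.quad μr hctx.haar_r μc hctx.haar_c
  refine ⟨c, t, lam, hc, ht, hlam, ?_⟩
  intro H' z' H z hsys k j T φ₀ Φ' f₀ F0 F1 hLP
  have hloc : IsLocQ563 Φ B g 𝔫 μr μc c T₀ n n₀ m H' z' H z t lam k j T φ₀ Φ' f₀ F0 F1 :=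
    ⟨hctx, hsys, hc, ht, hlam, hLP⟩
  obtain ⟨T₁, T₂, φ₁, Φ₁, f₁, F0₁, F1₁, φ₂, Φ₂, f₂, F0₂, F1₂, hT, hT₁, hT₂, hA, hB, hbad, hfu,
    hφ0, hφ1, hsph, hΦ, hF0, hF1⟩ := hLP
  obtain ⟨Φd, F0d, F1d, hBh⟩ := hB.1
  have hAok : ArchOkQ801 c Φ₁ F0₁ F1₁ := hA.2.2.2
  have hBok : ArchOkQ801 c Φ₂ F0₂ F1₂ := hB.2.2.2.2.2
  obtain ⟨haU, ha0, ha1, haM⟩ := harchP Φ₁ Φ₂ F0₁ F1₁ F0₂ F1₂ hAok hBok
  -- the two kinds of places of the level
  have hcase : ∀ v ∈ T₀, v = B.u ∨ (v ∈ T₀.erase B.u ∧ v ≠ B.u) := by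
    intro v hv0
    by_cases hvu : v = B.u
    · exact Or.inl hvu
    · exact Or.inr ⟨Finset.mem_erase.2 ⟨hvu, hv0⟩, hvu⟩
  have hregu : P51.RegAt51 n m φ₀ f₀ B.u :=
    h1 _ _ _ _ _ _ _ _ _ _ _ _ _ _ _ _ _ _ _ _ _ _ _ _ _ hloc
  refine ⟨?_, h6 _ _ _ _ _ _ _ _ _ _ _ _ _ _ _ _ _ _ _ _ _ _ _ _ _ hloc⟩
  exact
    { inv_up := by
        intro v hv w hw
        rcases hcase v hv with hvu | ⟨hve, hvu⟩
        · subst hvu
          exact hregu.1 w hw
        · rw [(hbad v hv hvu).2 w hw]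
          exact hBh.inv_up v hve w hw
      inv_down := by
        intro v hv
        rcases hcase v hv with hvu | ⟨hve, hvu⟩
        · subst hvu
          exact hregu.2
        · rw [(hbad v hv hvu).1]
          exact hBh.inv_down v hve
      arch_up := by
        intro w
        rw [hΦ w]
        exact haU w
      arch_down0 := by
        rw [hF0]
        exact ha0
      arch_down1 := by
        rw [hF1]
        exact ha1
      inert := by
        intro v hv
        rcases hcase v hv with hvu | ⟨hve, hvu⟩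
        · subst hvu
          intro w _ huniq
          exfalso
          have e0 := huniq (B.o 0) (hctx.base.orbit_over 0)
          have e1 := huniq (B.o 1) (hctx.base.orbit_over 1)
          exact hctx.base.orbit_ne 1 Nat.zero_lt_one Nat.one_lt_two (e1.trans e0.symm)
        · intro w hw huniq e i sw hi hs hext
          have := hBh.inert v hve w hw huniq e i sw hi hs hext
          rw [(hbad v hv hvu).2 w hw, (hbad v hv hvu).1]
          exact this
      split := by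
        intro v hv
        rcases hcase v hv with hvu | ⟨hve, hvu⟩
        · subst hvu
          exact hsplit c H' z' H z lam k j T φ₀ Φ' f₀ F0 F1 hloc
        · intro hex
          obtain ⟨w, i, a1, a2, a3, a4, a5, a6, a7⟩ := hBh.split v hve hex
          refine ⟨w, i, a1, a2, a3, a4, a5, a6, ?_⟩
          have e : (fun (j : ℕ) (x : GL (Fin 2) (v.adicCompletion ℚ)) => φ₀ (w j)
                (Matrix.GeneralLinearGroup.map ((i j : v.adicCompletion ℚ ≃+* _) :
                  v.adicCompletion ℚ →+* (w j).adicCompletion F) x))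
              = fun (j : ℕ) (x : GL (Fin 2) (v.adicCompletion ℚ)) =>
                (fun w : HeightOneSpectrum (𝓞 F) => dblFn893 (n₀ w) (finGL305 w g)) (w j)
                  (Matrix.GeneralLinearGroup.map ((i j : v.adicCompletion ℚ ≃+* _) :
                    v.adicCompletion ℚ →+* (w j).adicCompletion F) x) := by
            funext j x
            rw [(hbad v hv hvu).2 (w j) (a1 j)]
          rw [e, (hbad v hv hvu).1]
          exact a7
      arch := by
        intro w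
        rw [hΦ w, hF0, hF1]
        exact haM w }

/-- **THE NODE `ProdShapeQC563` from the cut.** -/
theorem prodShapeQC_of563 (hG : GlobProdQC563 F) (hL : LocProdQC563 F) :
    ProdShapeQC563 F := by
  intro h3 hF Φ B hB hRam g hg 𝔫 μr μc hμr hμc T₀ n n₀ m hT₀ hm hn hn₀
  have hctx : IsCtxQ563 Φ B g 𝔫 μr μc T₀ n n₀ m :=
    { sqrt := h3, quad := hF, base := hB, ram := hRam, bad := hg, haar_r := hμr,
      haar_c := hμc, mem_T₀ := hT₀, lev_m := hm, lev_n := hn, lev_n₀ := hn₀ }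
  obtain ⟨c, t, lam, hc, ht, hlam, hLt⟩ := hL Φ B g 𝔫 μr μc T₀ n n₀ m hctx
  obtain ⟨c₁, hc₁, hGc⟩ := hG Φ B g 𝔫 μr μc T₀ n n₀ m hctx
  refine ⟨c, c₁ / (t * lam), hc, div_ne_zero hc₁ (mul_ne_zero ht hlam), ?_⟩
  intro a ha E hE hOp hA1 hA2 X k mm hX
  have hprod := hGc c t lam a hc ht hlam ha E hE hOp hA1 hA2 X k mm hX
  rw [mul_div_assoc] at hprod
  exact isAvgPureQ_mono563
    (fun T φ₀ Φ' f₀ F0 F1 _ h =>
      hLt E.H' E.z' E.H E.z (isSysQ_of_op563 hE hOp) k mm T φ₀ Φ' f₀ F0 F1 h) hprod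

/-- **THE NODE `CQ801.ProdMtQC801` from the leaves of the two cuts.** -/
theorem prodMtQC801_of_leaves563 (hU : LevelUniqC893 ℚ) (hU' : LevelUniqC893 F)
    (hAt : LevelAtC893 ℚ F) (hUnr : UnramQC563 F) (hSph : SphHypQC563 F)
    (hOp : OpAvgQC563 F) (hCv : ConvAvgQC563 F)
    (h1 : RegOrbQC563 F) (h5 : SplitOrbQC563 F) (h6 : SphProdQC563 F) (h7 : ArchProdQC563 F)
    (κ : KapFnQ801 F) (hκ : ∀ D μr μc T₀ n m, κ D μr μc T₀ n m ≠ 0) : ProdMtQC801 F κ :=
  prodMtQC801_of563 hU hU' hAt hUnr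
    (prodShapeQC_of563 (globProdQC_of563 hOp hCv) (locProdQC_of563 h1 h5 h6 h7)) hSph κ hκ

end Tops

end Fermat.Agent.LT.T7.PQ563

end

end
-- ===== PACK-END LT/T7/H563/ProdShapeQTop.lean

-- ===== PACK-BEGIN LT/T7/H563/ConvAvgQSpec.lean
section




/-!
# Row LT, tower T7, node T7.L2Q.1.H2b.4.G2 `PQ563.ConvAvgQC563` (registry row 2972, helper563):
# SUB-CUT -- Spec

OFF-MAIN.  Definitions and frozen Props only (the proved top is `ConvAvgQTop.lean`).  No hole,
nothing assumed.  ADDITIVE (names suffixed `563`, namespace `Fermat.Agent.LT.T7.PQ563`).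
MIRROR over `ℚ` of the second sub-cut of helper51 (`T7/P51/ConvAvgSpec.lean` dc819a38,
`ConvAvgTop.lean` 02429d61).  USED AS THEY ARE (field-free or general in the fields):
`P51.ConvFamC51 F` (upstairs: `F` is totally complex), `P51.LocConvExC51`, `P51.UnitConvC51`,
`P51.UnitRegC51`, `P51.OverFinC51 ℚ F`, `P51.BelowUniqC51 ℚ F`, `P51.BelowExC51 ℚ F`,
`H893.LevelAtC893 ℚ F`.

    convAvgQC_of563 : P51.ConvFamC51 F → ConvFamQC563 → TestSmulQC563 → P51.LocConvExC51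
        → P51.UnitConvC51 → P51.UnitRegC51 → RegAQC563 F → RegOpQC563 F → P51.OverFinC51 ℚ F
        → P51.BelowUniqC51 ℚ F → P51.BelowExC51 ℚ F → H893.LevelAtC893 ℚ F → ConvAvgQC563 F

* **`ConvFamQC563`** (NODE, the field `ℚ`; Haar splitting + Fubini): `P51.ConvFamC51` for the
  pure tensors `MQ298.pureQ298` over `ℚ` (one real place, Haar measure `μr` of `GL₂(ℝ)`) and
  test functions of an arbitrary `K_∞`-type `τ`; ONE constant for all types.  From
  `PT563.ConvPureQC563` (closed: helper773/752/878), `PT563.ConvAvgC563 ℚ` (closed: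
  helper634/962/724/…), `T5.isTestFn_conv872` (helper872, every type), extension of a pure
  tensor to a larger set of places.
* **`TestSmulQC563`**: a scalar multiple of a test function (any type) over `ℚ` is a test
  function.
* **`RegAQC563 F`**, **`RegOpQC563 F`**: the components of the shapes `LocAQ801 c`, `LocOpQ563`
  are regular (bi-invariant of finite support for the levels at the places of `T`, continuous
  of compact support at infinity).

FALSITY CHECKS (helper563).  (a) `ConvFamQC563`: the constant is chosen before the type and the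
families; the proof of `ConvFamC51` does not use the type (`isTestFn_conv872` holds for every
`τ`).  (b) `RegOpQC563`: the partner `f₂ v` at a bad place is regular by the clause `inv_down`
of `LocHypQb801` on `T₀ ∖ {u}` (first clause of `LocBQ801`); `dblFn893 (n₀ w) g_w` is
bi-invariant under `U(n₀ w) ⊇ U(n w)` (`level_g`); `regLoc51 … 1_I` is bi-invariant under
`I ⊇ U(n w)` (`u ∣ 𝔫`); outside `T₀` the components are spherical, the levels are `0`.
-/

set_option autoImplicit false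

open AutomorphicForm IsDedekindDomain NumberField MeasureTheory
open scoped ComplexConjugate

noncomputable section

namespace Fermat.Agent.LT.T7.PQ563

open Fermat.Agent.LT.H556 Fermat.Agent.LT.H556.A0 Fermat.Agent.LT.T7 Fermat.Agent.LT.T7.H305
  Fermat.Agent.LT.T7.L2Q Fermat.Agent.LT.T7.H893 Fermat.Agent.LT.T7.H962
  Fermat.Agent.LT.T7.H732 Fermat.Agent.LT.T7.MQ298 Fermat.Agent.LT.T7.CQ801

attribute [local instance] Fermat.Agent.LT.T5.instMeasurableSpaceG

/-! ## 1. Families of pure tensors over `ℚ` -/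

section OverQ

/-- **A FAMILY OF PURE TENSORS over `ℚ`** of type `τ` over the parameter space `Ω` (mirror of
`P51.IsFam51`). -/
structure IsFamQ563 (𝔫 : Ideal (𝓞 ℚ)) (lv : HeightOneSpectrum (𝓞 ℚ) → ℕ)
    (T₀ : Finset (HeightOneSpectrum (𝓞 ℚ))) (τ : G ℚ → ℂ)
    {Ω : Type} [TopologicalSpace Ω] (T : Ω → Finset (HeightOneSpectrum (𝓞 ℚ)))
    (f₀ : Ω → ∀ v : HeightOneSpectrum (𝓞 ℚ), GL (Fin 2) (v.adicCompletion ℚ) → ℂ)
    (Fr : Ω → GL (Fin 2) ℝ → ℂ) : Prop where
  sub : ∀ a : Ω, T₀ ⊆ T a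
  test : ∀ a : Ω, T5.IsTestFn 𝔫 τ (pureQ298 (T a) (f₀ a) (Fr a))
  cont : Continuous (fun p : Ω × G ℚ => pureQ298 (T p.1) (f₀ p.1) (Fr p.1) p.2)
  supp : ∃ C : Set (G ℚ), IsCompact C ∧
    ∀ (a : Ω) (h : G ℚ), pureQ298 (T a) (f₀ a) (Fr a) h ≠ 0 → h ∈ C
  reg : ∀ (a : Ω) (v : HeightOneSpectrum (𝓞 ℚ)), v ∈ T a →
    T6.IsBiInv (T6.InU (lv v)) (f₀ a v) ∧ T6.HasFinSupp (T6.InU (lv v)) (f₀ a v)
  arch : ∀ a : Ω, Continuous (Fr a) ∧ HasCompactSupport (Fr a)

open Classical in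
/-- **NODE PS.G2.1 = CONV-FAM over `ℚ` (Haar splitting + Fubini; mirror of `P51.ConvFamC51`).**
`μ` a Haar measure of `GL₂(𝔸_ℚ)`, `μr` one of `GL₂(ℝ)`, levels `lv` (`0` outside `T₀`), `𝔫 ≠ 0`.
There is a constant `c > 0` such that for every type `τ`, two families of pure tensors of type
`τ` over `Ω₁`, `Ω₂` and components `χ p` which are the local convolutions (`vol U(lv v) = 1`) of
the extended components at the places of `T₁ p.1 ∪ T₂ p.2`: the pure tensors
`pureQ298 (T₁ p.1 ∪ T₂ p.2) (χ p) (Fr₁ p.1 * Fr₂ p.2)` are test functions of level `𝔫` and type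
`τ`, jointly continuous, supported in one compact set, and
`(∫ P₁ dν₁) ⋆ (∫ P₂ dν₂) = ∫ pureQ298 … d(c · ν₁ × ν₂)`.
Proof: as `P51.ConvFamC51` (see there) with `PT563.ConvPureQC563`, `PT563.ConvAvgC563 ℚ`,
`isTestFn_conv872`. -/
def ConvFamQC563 : Prop :=
  ∀ μ : Measure (G ℚ), μ.IsHaarMeasure →
    ∀ μr : @Measure (GL (Fin 2) ℝ) (borel _), @Measure.IsHaarMeasure _ _ _ (borel _) μr →
    ∀ (T₀ : Finset (HeightOneSpectrum (𝓞 ℚ))) (lv : HeightOneSpectrum (𝓞 ℚ) → ℕ),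
      (∀ v : HeightOneSpectrum (𝓞 ℚ), v ∉ T₀ → lv v = 0) →
    ∀ 𝔫 : Ideal (𝓞 ℚ), 𝔫 ≠ ⊥ →
    ∃ c : NNReal, c ≠ 0 ∧
      ∀ (τ : G ℚ → ℂ)
        (Ω₁ : Type) [TopologicalSpace Ω₁] [CompactSpace Ω₁] [T2Space Ω₁]
        [SecondCountableTopology Ω₁] [MeasurableSpace Ω₁] [BorelSpace Ω₁]
        (ν₁ : Measure Ω₁) [IsFiniteMeasure ν₁]
        (Ω₂ : Type) [TopologicalSpace Ω₂] [CompactSpace Ω₂] [T2Space Ω₂]
        [SecondCountableTopology Ω₂] [MeasurableSpace Ω₂] [BorelSpace Ω₂]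
        (ν₂ : Measure Ω₂) [IsFiniteMeasure ν₂]
        (T₁ : Ω₁ → Finset (HeightOneSpectrum (𝓞 ℚ)))
        (f₁ : Ω₁ → ∀ v : HeightOneSpectrum (𝓞 ℚ), GL (Fin 2) (v.adicCompletion ℚ) → ℂ)
        (Fr₁ : Ω₁ → GL (Fin 2) ℝ → ℂ)
        (T₂ : Ω₂ → Finset (HeightOneSpectrum (𝓞 ℚ)))
        (f₂ : Ω₂ → ∀ v : HeightOneSpectrum (𝓞 ℚ), GL (Fin 2) (v.adicCompletion ℚ) → ℂ)
        (Fr₂ : Ω₂ → GL (Fin 2) ℝ → ℂ)
        (χ : Ω₁ × Ω₂ → ∀ v : HeightOneSpectrum (𝓞 ℚ), GL (Fin 2) (v.adicCompletion ℚ) → ℂ),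
        IsFamQ563 𝔫 lv T₀ τ T₁ f₁ Fr₁ → IsFamQ563 𝔫 lv T₀ τ T₂ f₂ Fr₂ →
        (∀ (p : Ω₁ × Ω₂) (v : HeightOneSpectrum (𝓞 ℚ)), v ∈ T₁ p.1 ∪ T₂ p.2 →
          T6.IsConv (T6.InU (lv v)) (P51.ext51 (T₁ p.1) (f₁ p.1) v)
            (P51.ext51 (T₂ p.2) (f₂ p.2) v) (χ p v)) →
        (∀ p : Ω₁ × Ω₂, T5.IsTestFn 𝔫 τ
          (pureQ298 (T₁ p.1 ∪ T₂ p.2) (χ p)
            (@T6.convInt _ _ (borel _) μr (Fr₁ p.1) (Fr₂ p.2)))) ∧
        Continuous (fun q : (Ω₁ × Ω₂) × G ℚ =>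
          pureQ298 (T₁ q.1.1 ∪ T₂ q.1.2) (χ q.1)
            (@T6.convInt _ _ (borel _) μr (Fr₁ q.1.1) (Fr₂ q.1.2)) q.2) ∧
        (∃ C : Set (G ℚ), IsCompact C ∧ ∀ (p : Ω₁ × Ω₂) (h : G ℚ),
          pureQ298 (T₁ p.1 ∪ T₂ p.2) (χ p)
            (@T6.convInt _ _ (borel _) μr (Fr₁ p.1) (Fr₂ p.2)) h ≠ 0 → h ∈ C) ∧
        ∀ h : G ℚ,
          T5.conv μ (fun x => ∫ a, pureQ298 (T₁ a) (f₁ a) (Fr₁ a) x ∂ν₁)
              (fun x => ∫ b, pureQ298 (T₂ b) (f₂ b) (Fr₂ b) x ∂ν₂) h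
            = ∫ p, pureQ298 (T₁ p.1 ∪ T₂ p.2) (χ p)
                (@T6.convInt _ _ (borel _) μr (Fr₁ p.1) (Fr₂ p.2)) h
                ∂(c • (ν₁.prod ν₂))

/-- **LEAF PS.G2.2 = TEST-SMUL over `ℚ` (every type).**  A scalar multiple of a test function is
a test function. -/
def TestSmulQC563 : Prop :=
  ∀ (𝔫 : Ideal (𝓞 ℚ)) (τ : G ℚ → ℂ) (φ : G ℚ → ℂ) (c : ℂ),
    T5.IsTestFn 𝔫 τ φ → T5.IsTestFn 𝔫 τ (fun h => c * φ h)

end OverQ

/-! ## 2. The leaves on the shapes -/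

section Shapes

variable (F : Type) [Field F] [NumberField F]

/-- **LEAF PS.G2.5 = REG-A over `ℚ` (mirror of `P51.RegAC51`).**  The components of the shape
`LocAQ801 c` are regular at the places of `T` (unit at the level, spherical outside: levels `0`)
and at infinity (test functions: `ArchOkQ801`). -/
def RegAQC563 : Prop :=
  ∀ (Φ : HeckeEigensystem F ℂ) (B : L2Q.H60.L2QBase F) (g : G F) (𝔫 : Ideal (𝓞 ℚ))
    (μr : @Measure (GL (Fin 2) ℝ) (borel _)) (μc : @Measure (GL (Fin 2) ℂ) (borel _))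
    (T₀ : Finset (HeightOneSpectrum (𝓞 ℚ)))
    (n n₀ : HeightOneSpectrum (𝓞 F) → ℕ) (m : HeightOneSpectrum (𝓞 ℚ) → ℕ),
    IsCtxQ563 Φ B g 𝔫 μr μc T₀ n n₀ m →
    ∀ (c : ℂ) (T : Finset (HeightOneSpectrum (𝓞 ℚ)))
      (φ₀ : ∀ w : HeightOneSpectrum (𝓞 F), GL (Fin 2) (w.adicCompletion F) → ℂ)
      (Φ' : InfinitePlace F → GL (Fin 2) ℂ → ℂ)
      (f₀ : ∀ v : HeightOneSpectrum (𝓞 ℚ), GL (Fin 2) (v.adicCompletion ℚ) → ℂ)
      (F0 F1 : GL (Fin 2) ℝ → ℂ),
      T₀ ⊆ T → LocAQ801 c T₀ n m T φ₀ Φ' f₀ F0 F1 →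
      (∀ v ∈ T, P51.RegAt51 n m φ₀ f₀ v) ∧
      (∀ w : InfinitePlace F, Continuous (Φ' w) ∧ HasCompactSupport (Φ' w)) ∧
      (Continuous F0 ∧ HasCompactSupport F0) ∧ (Continuous F1 ∧ HasCompactSupport F1)

/-- **LEAF PS.G2.6 = REG-OP over `ℚ` (mirror of `P51.RegOpC51`).**  The components of the shape
`LocOpQ563` are regular at the places of `T` (double coset functions and partners at the bad
places, `regLoc51` of the Iwahori function along the orbit, spherical outside) and at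
infinity. -/
def RegOpQC563 : Prop :=
  ∀ (Φ : HeckeEigensystem F ℂ) (B : L2Q.H60.L2QBase F) (g : G F) (𝔫 : Ideal (𝓞 ℚ))
    (μr : @Measure (GL (Fin 2) ℝ) (borel _)) (μc : @Measure (GL (Fin 2) ℂ) (borel _))
    (T₀ : Finset (HeightOneSpectrum (𝓞 ℚ)))
    (n n₀ : HeightOneSpectrum (𝓞 F) → ℕ) (m : HeightOneSpectrum (𝓞 ℚ) → ℕ),
    IsCtxQ563 Φ B g 𝔫 μr μc T₀ n n₀ m →
    ∀ (H' : Finset (G F)) (z' : G F) (H : Finset (G ℚ)) (z : G ℚ),
      IsSysQ563 B 𝔫 H' z' H z →
    ∀ (c : ℂ) (k : ℤ) (j : ℕ) (T : Finset (HeightOneSpectrum (𝓞 ℚ)))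
      (φ₀ : ∀ w : HeightOneSpectrum (𝓞 F), GL (Fin 2) (w.adicCompletion F) → ℂ)
      (Φ' : InfinitePlace F → GL (Fin 2) ℂ → ℂ)
      (f₀ : ∀ v : HeightOneSpectrum (𝓞 ℚ), GL (Fin 2) (v.adicCompletion ℚ) → ℂ)
      (F0 F1 : GL (Fin 2) ℝ → ℂ),
      T₀ ⊆ T →
      LocOpQ563 (toBase962_732 B) g 𝔫 μr μc c T₀ n n₀ m H' z' H z k j T φ₀ Φ' f₀ F0 F1 →
      (∀ v ∈ T, P51.RegAt51 n m φ₀ f₀ v) ∧
      (∀ w : InfinitePlace F, Continuous (Φ' w) ∧ HasCompactSupport (Φ' w)) ∧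
      (Continuous F0 ∧ HasCompactSupport F0) ∧ (Continuous F1 ∧ HasCompactSupport F1)

end Shapes

/-! ## Appendix: the equation lemmas of the definitions of this file are realised HERE -/

theorem eqns_realised_convAvgQ563 : True := by
  have _h0 := @ConvFamQC563.eq_1
  have _h1 := @TestSmulQC563.eq_1
  have _h2 := @RegAQC563.eq_1
  have _h3 := @RegOpQC563.eq_1
  have _g0 := @ConvFamQC563.eq_def
  have _g1 := @TestSmulQC563.eq_def
  have _g2 := @RegAQC563.eq_def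
  have _g3 := @RegOpQC563.eq_def
  trivial

end Fermat.Agent.LT.T7.PQ563

end

end
-- ===== PACK-END LT/T7/H563/ConvAvgQSpec.lean

-- ===== PACK-BEGIN LT/T7/H563/ConvAvgQTop.lean
section



/-!
# Row LT, tower T7, node T7.L2Q.1.H2b.4.G2 `PQ563.ConvAvgQC563` (row 2972, helper563): the top

OFF-MAIN.  No hole, nothing assumed.  ADDITIVE.  Port over `ℚ` of the top of helper51
(`T7/P51/ConvAvgTop.lean` 02429d61, `convAvgC_of51`).

    convAvgQC_of563 : P51.ConvFamC51 F → ConvFamQC563 → TestSmulQC563 → P51.LocConvExC51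
        → P51.UnitConvC51 → P51.UnitRegC51 → RegAQC563 F → RegOpQC563 F → P51.OverFinC51 ℚ F
        → P51.BelowUniqC51 ℚ F → P51.BelowExC51 ℚ F → H893.LevelAtC893 ℚ F → ConvAvgQC563 F
-/

set_option autoImplicit false

open AutomorphicForm IsDedekindDomain NumberField MeasureTheory
open scoped ComplexConjugate

noncomputable section

namespace Fermat.Agent.LT.T7.PQ563

open Fermat.Agent.LT.H556 Fermat.Agent.LT.H556.A0 Fermat.Agent.LT.T7 Fermat.Agent.LT.T7.H305
  Fermat.Agent.LT.T7.L2Q Fermat.Agent.LT.T7.H893 Fermat.Agent.LT.T7.H962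
  Fermat.Agent.LT.T7.H732 Fermat.Agent.LT.T7.MQ298 Fermat.Agent.LT.T7.CQ801

attribute [local instance] Fermat.Agent.LT.T5.instMeasurableSpaceG

section OverQ

/-- A pure tensor over `ℚ` is linear in the component at a place of `T`. -/
theorem pureQ_scale563 (T : Finset (HeightOneSpectrum (𝓞 ℚ)))
    (f₀ f₀' : ∀ v : HeightOneSpectrum (𝓞 ℚ), GL (Fin 2) (v.adicCompletion ℚ) → ℂ)
    (Fr : GL (Fin 2) ℝ → ℂ) (u : HeightOneSpectrum (𝓞 ℚ)) (hu : u ∈ T)
    (t : ℂ) (h1 : ∀ x, f₀' u x = t * f₀ u x) (h2 : ∀ v, v ≠ u → f₀' v = f₀ v) (h : G ℚ) :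
    pureQ298 T f₀' Fr h = t * pureQ298 T f₀ Fr h := by
  classical
  unfold pureQ298
  split_ifs with hO
  · rw [← Finset.mul_prod_erase T _ hu,
      ← Finset.mul_prod_erase T (fun v => f₀ v (finGL305 v h)) hu, h1]
    have : ∏ v ∈ T.erase u, f₀' v (finGL305 v h) = ∏ v ∈ T.erase u, f₀ v (finGL305 v h) :=
      Finset.prod_congr rfl fun v hv => by rw [h2 v (Finset.ne_of_mem_erase hv)]
    rw [this]
    ring
  · simp

/-- A pure tensor over `ℚ` is linear in the component at the real place. -/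
theorem pureQ_scaleR563 (T : Finset (HeightOneSpectrum (𝓞 ℚ)))
    (f₀ : ∀ v : HeightOneSpectrum (𝓞 ℚ), GL (Fin 2) (v.adicCompletion ℚ) → ℂ)
    (Fr : GL (Fin 2) ℝ → ℂ) (lam : ℂ) (h : G ℚ) :
    pureQ298 T f₀ (fun x => lam * Fr x) h = lam * pureQ298 T f₀ Fr h := by
  classical
  unfold pureQ298
  split_ifs with hO
  · ring
  · simp

/-- `conv` is linear in the second argument. -/
theorem conv_const_mulQ563 {K : Type} [Field K] [NumberField K] (μ : Measure (G K))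
    (φ ψ : G K → ℂ) (a : ℂ) (h : G K) :
    T5.conv μ φ (fun x => a * ψ x) h = a * T5.conv μ φ ψ h := by
  unfold T5.conv
  rw [← integral_const_mul]
  congr 1
  funext y
  ring

end OverQ

section Top

variable {F : Type} [Field F] [NumberField F]

/-- The upper ideal of a non-zero ideal is not zero. -/
theorem upI_ne_botQ563 (𝔫 : Ideal (𝓞 ℚ)) (h : 𝔫 ≠ ⊥) : upI (K' := F) 𝔫 ≠ ⊥ := by
  unfold upI
  intro h0
  exact h ((Ideal.map_eq_bot_iff_of_injective
    (FaithfulSMul.algebraMap_injective (𝓞 ℚ) (𝓞 F))).1 h0)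

/-- Membership upstairs in terms of the place below. -/
theorem mem_over_iffQ563 (hBU : P51.BelowUniqC51 ℚ F) {T : Finset (HeightOneSpectrum (𝓞 ℚ))}
    {T' : Finset (HeightOneSpectrum (𝓞 F))} (hT : IsOver305 T T')
    {v : HeightOneSpectrum (𝓞 ℚ)} {w : HeightOneSpectrum (𝓞 F)} (hw : PlaceOver ℚ F v w) :
    w ∈ T' ↔ v ∈ T := by
  constructor
  · intro h
    obtain ⟨v', hv', hw'⟩ := (hT w).1 h
    rwa [hBU v v' w hw hw']
  · intro h
    exact (hT w).2 ⟨v, h, hw⟩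

/-- **THE NODE `ConvAvgQC563` from the one-field nodes and the small leaves.** -/
theorem convAvgQC_of563 (hU' : P51.ConvFamC51 F) (hD : ConvFamQC563) (hTS : TestSmulQC563)
    (hEx : P51.LocConvExC51) (hUn : P51.UnitConvC51) (hUR : P51.UnitRegC51)
    (hRA : RegAQC563 F) (hRO : RegOpQC563 F) (hOF : P51.OverFinC51 ℚ F)
    (hBU : P51.BelowUniqC51 ℚ F) (hBE : P51.BelowExC51 ℚ F) (hLA : LevelAtC893 ℚ F) :
    ConvAvgQC563 F := by
  classical
  intro Φ B g 𝔫 μr μc T₀ n n₀ m hctx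
  by_cases h𝔫 : 𝔫 = ⊥
  · exact ⟨1, one_ne_zero, fun c t lam a _ _ _ _ H' z' H z hsys => absurd h𝔫 hsys.level_ne⟩
  have h𝔑 : upI (K' := F) 𝔫 ≠ ⊥ := upI_ne_botQ563 𝔫 h𝔫
  have hlev := hLA 𝔫 T₀ n m hctx.mem_T₀ hctx.lev_m hctx.lev_n
  obtain ⟨T₀', hT₀'⟩ := hOF T₀
  have hn0 : ∀ w : HeightOneSpectrum (𝓞 F), w ∉ T₀' → n w = 0 := by
    intro w hw
    obtain ⟨v, hv⟩ := hBE w
    exact hlev.2 v w (fun hv0 => hw ((hT₀' w).2 ⟨v, hv0, hv⟩)) hv
  obtain ⟨cu, hcu, hUp⟩ := hU' hctx.quad.2 B.R'.μ hctx.base.frame'.frame.haar μc hctx.haar_c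
    T₀' n hn0 (upI (K' := F) 𝔫) h𝔑
  obtain ⟨cd, hcd, hDn⟩ := hD B.R.μ hctx.base.frame.frame.haar μr hctx.haar_r
    T₀ m hlev.1 𝔫 h𝔫
  have hcuC : (cu : ℂ) ≠ 0 := by exact_mod_cast hcu
  have hcdC : (cd : ℂ) ≠ 0 := by exact_mod_cast hcd
  refine ⟨(cd : ℂ) / (cu : ℂ), div_ne_zero hcdC hcuC, ?_⟩
  intro c t lam a hc ht hlam ha H' z' H z hsys k j φ₁' φ₂' f0₁ f1₁ f0₂ f1₂ hA hB
  obtain ⟨Ω₁, i11, i12, i13, i14, i15, i16, ν₁, i17, T₁, T₁', φ1, Φ1, f1, F01, F11, A1, At',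
    At0, At1, Ac', Ac0, Ac1, As', As0, As1, Aφ, Af0, Af1⟩ := hA
  obtain ⟨Ω₂, i21, i22, i23, i24, i25, i26, ν₂, i27, T₂, T₂', φ2, Φ2, f2, F02, F12, B1, Bt',
    Bt0, Bt1, Bc', Bc0, Bc1, Bs', Bs0, Bs1, Bφ, Bf0, Bf1⟩ := hB
  -- the original components of the second triple
  have hB1' : ∀ b : Ω₂, ∃ (φo : ∀ w : HeightOneSpectrum (𝓞 F),
        GL (Fin 2) (w.adicCompletion F) → ℂ)
      (fo : ∀ v : HeightOneSpectrum (𝓞 ℚ), GL (Fin 2) (v.adicCompletion ℚ) → ℂ),
      LocBQ801 (toBase962_732 B) g 𝔫 μr μc c T₀ n n₀ m (T₂ b) φo (Φ2 b) fo (F02 b) (F12 b) ∧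
      (∀ v ∈ T₀, v ≠ B.u → f2 b v = fo v ∧
        ∀ w : HeightOneSpectrum (𝓞 F), PlaceOver ℚ F v w →
          φ2 b w = dblFn893 (n₀ w) (finGL305 w g)) ∧
      f2 b B.u = P51.regLoc51 B.u z H k j iwFn893 ∧
      φ2 b (B.o 0) = P51.regLoc51 (B.o 0) z' H' k j iwFn893 ∧
      φ2 b (B.o 1) = iwFn893 ∧
      ∀ v ∈ T₂ b, v ∉ T₀ → f2 b v = fo v ∧
        ∀ w : HeightOneSpectrum (𝓞 F), PlaceOver ℚ F v w → φ2 b w = φo w :=
    fun b => (B1 b).2.2
  choose φo fo hLB hbad hfu hφ0 hφ1 hout using hB1'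
  have hRA1 := fun a : Ω₁ => hRA Φ B g 𝔫 μr μc T₀ n n₀ m hctx c (T₁ a) (φ1 a) (Φ1 a) (f1 a)
    (F01 a) (F11 a) (A1 a).1 (A1 a).2.2
  have hRO1 := fun b : Ω₂ => hRO Φ B g 𝔫 μr μc T₀ n n₀ m hctx H' z' H z hsys c k j (T₂ b)
    (φ2 b) (Φ2 b) (f2 b) (F02 b) (F12 b) (B1 b).1 (B1 b).2.2
  have hsubT₀' : ∀ {T : Finset (HeightOneSpectrum (𝓞 ℚ))}
      {T' : Finset (HeightOneSpectrum (𝓞 F))}, T₀ ⊆ T → IsOver305 T T' → T₀' ⊆ T' := by
    intro T T' hT hO w hw
    obtain ⟨v, hv, hvw⟩ := (hT₀' w).1 hw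
    exact (hO w).2 ⟨v, hT hv, hvw⟩
  have hu0 : B.u ∈ T₀ := (hctx.mem_T₀ B.u).2 hsys.u_level
  -- the families
  have famU1 : P51.IsFam51 (upI (K' := F) 𝔫) n T₀' T₁' φ1 Φ1 :=
    { sub := fun a => hsubT₀' (A1 a).1 (A1 a).2.1
      test := At'
      cont := Ac'
      supp := As'
      reg := fun a w hw => by
        obtain ⟨v, hv, hvw⟩ := ((A1 a).2.1 w).1 hw
        exact ((hRA1 a).1 v hv).1 w hvw
      arch := fun a w => (hRA1 a).2.1 w }
  have famU2 : P51.IsFam51 (upI (K' := F) 𝔫) n T₀' T₂' φ2 Φ2 :=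
    { sub := fun b => hsubT₀' (B1 b).1 (B1 b).2.1
      test := Bt'
      cont := Bc'
      supp := Bs'
      reg := fun b w hw => by
        obtain ⟨v, hv, hvw⟩ := ((B1 b).2.1 w).1 hw
        exact ((hRO1 b).1 v hv).1 w hvw
      arch := fun b w => (hRO1 b).2.1 w }
  have famD10 : IsFamQ563 𝔫 m T₀ QWt.w0.type T₁ f1 F01 :=
    { sub := fun a => (A1 a).1
      test := fun a => by
        have := At0 a
        simp only [one_mul] at this
        exact this
      cont := by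
        have := Ac0
        simp only [one_mul] at this
        exact this
      supp := As0
      reg := fun a v hv => ((hRA1 a).1 v hv).2
      arch := fun a => (hRA1 a).2.2.1 }
  have famD11 : IsFamQ563 𝔫 m T₀ QWt.w1.type T₁ f1 F11 :=
    { sub := fun a => (A1 a).1
      test := fun a => by
        have := At1 a
        simp only [one_mul] at this
        exact this
      cont := by
        have := Ac1
        simp only [one_mul] at this
        exact this
      supp := As1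
      reg := fun a v hv => ((hRA1 a).1 v hv).2
      arch := fun a => (hRA1 a).2.2.2 }
  have famD20 : IsFamQ563 𝔫 m T₀ QWt.w0.type T₂ f2 F02 :=
    { sub := fun b => (B1 b).1
      test := fun b => by
        have := hTS 𝔫 _ _ a⁻¹ (Bt0 b)
        simp only [inv_mul_cancel_left₀ ha] at this
        exact this
      cont := by
        have := (continuous_const (y := a⁻¹)).mul Bc0
        exact this.congr fun p => inv_mul_cancel_left₀ ha _
      supp := Bs0
      reg := fun b v hv => ((hRO1 b).1 v hv).2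
      arch := fun b => (hRO1 b).2.2.1 }
  have famD21 : IsFamQ563 𝔫 m T₀ QWt.w1.type T₂ f2 F12 :=
    { sub := fun b => (B1 b).1
      test := fun b => by
        have := hTS 𝔫 _ _ a⁻¹ (Bt1 b)
        simp only [inv_mul_cancel_left₀ ha] at this
        exact this
      cont := by
        have := (continuous_const (y := a⁻¹)).mul Bc1
        exact this.congr fun p => inv_mul_cancel_left₀ ha _
      supp := Bs1
      reg := fun b v hv => ((hRO1 b).1 v hv).2
      arch := fun b => (hRO1 b).2.2.2 }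
  -- regularity of the extended components outside the level
  have hextU : ∀ {Ω : Type} [TopologicalSpace Ω] (T : Ω → Finset (HeightOneSpectrum (𝓞 F)))
      (φ : Ω → ∀ w : HeightOneSpectrum (𝓞 F), GL (Fin 2) (w.adicCompletion F) → ℂ)
      (Φ' : Ω → InfinitePlace F → GL (Fin 2) ℂ → ℂ),
      P51.IsFam51 (upI (K' := F) 𝔫) n T₀' T φ Φ' → ∀ (a : Ω) (w : HeightOneSpectrum (𝓞 F)),
      w ∉ T₀' → T6.IsBiInv (T6.InU 0) (P51.ext51 (T a) (φ a) w) ∧
        T6.HasFinSupp (T6.InU 0) (P51.ext51 (T a) (φ a) w) := by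
    intro Ω _ T φ Φ' hfam a w hw
    unfold P51.ext51
    split_ifs with h
    · have := hfam.reg a w h
      rwa [hn0 w hw] at this
    · exact hUR _ 0
  have hextD : ∀ {Ω : Type} [TopologicalSpace Ω] (τ : G ℚ → ℂ)
      (T : Ω → Finset (HeightOneSpectrum (𝓞 ℚ)))
      (φ : Ω → ∀ w : HeightOneSpectrum (𝓞 ℚ), GL (Fin 2) (w.adicCompletion ℚ) → ℂ)
      (Fr : Ω → GL (Fin 2) ℝ → ℂ),
      IsFamQ563 𝔫 m T₀ τ T φ Fr → ∀ (a : Ω) (w : HeightOneSpectrum (𝓞 ℚ)),
      w ∉ T₀ → T6.IsBiInv (T6.InU 0) (P51.ext51 (T a) (φ a) w) ∧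
        T6.HasFinSupp (T6.InU 0) (P51.ext51 (T a) (φ a) w) := by
    intro Ω _ τ T φ Fr hfam a w hw
    unfold P51.ext51
    split_ifs with h
    · have := hfam.reg a w h
      rwa [hlev.1 w hw] at this
    · exact hUR _ 0
  -- the components of the products
  obtain ⟨χu, hχu1, hχu2⟩ : ∃ χu : Ω₁ × Ω₂ → ∀ w : HeightOneSpectrum (𝓞 F),
      GL (Fin 2) (w.adicCompletion F) → ℂ,
      (∀ (p : Ω₁ × Ω₂) (w : HeightOneSpectrum (𝓞 F)), w ∈ T₀' → χu p w = φ2 p.2 w) ∧
      ∀ (p : Ω₁ × Ω₂) (w : HeightOneSpectrum (𝓞 F)), w ∉ T₀' →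
        T6.IsConv (T6.InU 0) (P51.ext51 (T₁' p.1) (φ1 p.1) w)
          (P51.ext51 (T₂' p.2) (φ2 p.2) w) (χu p w) := by
    have hex : ∀ (p : Ω₁ × Ω₂) (w : HeightOneSpectrum (𝓞 F)), w ∉ T₀' →
        ∃ χ, T6.IsConv (T6.InU 0) (P51.ext51 (T₁' p.1) (φ1 p.1) w)
          (P51.ext51 (T₂' p.2) (φ2 p.2) w) χ :=
      fun p w hw => hEx _ 0 _ _ (hextU T₁' φ1 Φ1 famU1 p.1 w hw).1
        (hextU T₁' φ1 Φ1 famU1 p.1 w hw).2 (hextU T₂' φ2 Φ2 famU2 p.2 w hw).1
        (hextU T₂' φ2 Φ2 famU2 p.2 w hw).2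
    refine ⟨fun p w => if hw : w ∈ T₀' then φ2 p.2 w else (hex p w hw).choose, ?_, ?_⟩
    · intro p w hw
      simp only [dif_pos hw]
    · intro p w hw
      simp only [dif_neg hw]
      exact (hex p w hw).choose_spec
  obtain ⟨χd0, hχd01, hχd02⟩ : ∃ χd0 : Ω₁ × Ω₂ → ∀ v : HeightOneSpectrum (𝓞 ℚ),
      GL (Fin 2) (v.adicCompletion ℚ) → ℂ,
      (∀ (p : Ω₁ × Ω₂) (v : HeightOneSpectrum (𝓞 ℚ)), v ∈ T₀ → χd0 p v = f2 p.2 v) ∧
      ∀ (p : Ω₁ × Ω₂) (v : HeightOneSpectrum (𝓞 ℚ)), v ∉ T₀ →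
        T6.IsConv (T6.InU 0) (P51.ext51 (T₁ p.1) (f1 p.1) v)
          (P51.ext51 (T₂ p.2) (f2 p.2) v) (χd0 p v) := by
    have hex : ∀ (p : Ω₁ × Ω₂) (v : HeightOneSpectrum (𝓞 ℚ)), v ∉ T₀ →
        ∃ χ, T6.IsConv (T6.InU 0) (P51.ext51 (T₁ p.1) (f1 p.1) v)
          (P51.ext51 (T₂ p.2) (f2 p.2) v) χ :=
      fun p v hv => hEx _ 0 _ _ (hextD _ T₁ f1 F01 famD10 p.1 v hv).1
        (hextD _ T₁ f1 F01 famD10 p.1 v hv).2 (hextD _ T₂ f2 F02 famD20 p.2 v hv).1
        (hextD _ T₂ f2 F02 famD20 p.2 v hv).2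
    refine ⟨fun p v => if hv : v ∈ T₀ then f2 p.2 v else (hex p v hv).choose, ?_, ?_⟩
    · intro p v hv
      simp only [dif_pos hv]
    · intro p v hv
      simp only [dif_neg hv]
      exact (hex p v hv).choose_spec
  obtain ⟨χd, hχd1, hχd2⟩ : ∃ χd : Ω₁ × Ω₂ → ∀ v : HeightOneSpectrum (𝓞 ℚ),
      GL (Fin 2) (v.adicCompletion ℚ) → ℂ,
      (∀ (p : Ω₁ × Ω₂) (x : GL (Fin 2) (B.u.adicCompletion ℚ)),
        χd p B.u x = t * χd0 p B.u x) ∧
      ∀ (p : Ω₁ × Ω₂) (v : HeightOneSpectrum (𝓞 ℚ)), v ≠ B.u → χd p v = χd0 p v := by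
    refine ⟨fun p v => if v = B.u then (fun x => t * χd0 p v x) else χd0 p v, ?_, ?_⟩
    · intro p x
      simp only [if_true]
    · intro p v hv
      simp only [if_neg hv]
  -- the local convolutions at the places of the products
  have hconvU : ∀ (p : Ω₁ × Ω₂) (w : HeightOneSpectrum (𝓞 F)), w ∈ T₁' p.1 ∪ T₂' p.2 →
      T6.IsConv (T6.InU (n w)) (P51.ext51 (T₁' p.1) (φ1 p.1) w)
        (P51.ext51 (T₂' p.2) (φ2 p.2) w) (χu p w) := by
    intro p w _
    by_cases hw : w ∈ T₀'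
    · obtain ⟨v, hv, hvw⟩ := (hT₀' w).1 hw
      have e1 : P51.ext51 (T₁' p.1) (φ1 p.1) w = unitFn893 (n w) := by
        unfold P51.ext51
        rw [if_pos (famU1.sub p.1 hw)]
        exact (A1 p.1).2.2.2.1 v hv w hvw
      have e2 : P51.ext51 (T₂' p.2) (φ2 p.2) w = φ2 p.2 w := by
        unfold P51.ext51
        rw [if_pos (famU2.sub p.2 hw)]
      rw [e1, e2, hχu1 p w hw]
      exact hUn _ (n w) _ (famU2.reg p.2 w (famU2.sub p.2 hw)).1
    · rw [hn0 w hw]
      exact hχu2 p w hw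
  have hconvD : ∀ (p : Ω₁ × Ω₂) (v : HeightOneSpectrum (𝓞 ℚ)), v ∈ T₁ p.1 ∪ T₂ p.2 →
      T6.IsConv (T6.InU (m v)) (P51.ext51 (T₁ p.1) (f1 p.1) v)
        (P51.ext51 (T₂ p.2) (f2 p.2) v) (χd0 p v) := by
    intro p v _
    by_cases hv : v ∈ T₀
    · have e1 : P51.ext51 (T₁ p.1) (f1 p.1) v = unitFn893 (m v) := by
        unfold P51.ext51
        rw [if_pos (famD10.sub p.1 hv)]
        exact (A1 p.1).2.2.1 v hv
      have e2 : P51.ext51 (T₂ p.2) (f2 p.2) v = f2 p.2 v := by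
        unfold P51.ext51
        rw [if_pos (famD20.sub p.2 hv)]
      rw [e1, e2, hχd01 p v hv]
      exact hUn _ (m v) _ (famD20.reg p.2 v (famD20.sub p.2 hv)).1
    · rw [hlev.1 v hv]
      exact hχd02 p v hv
  obtain ⟨testU, contU, suppU, intU⟩ :=
    hUp Ω₁ ν₁ Ω₂ ν₂ T₁' φ1 Φ1 T₂' φ2 Φ2 χu famU1 famU2 hconvU
  obtain ⟨testD0, contD0, suppD0, intD0⟩ :=
    hDn QWt.w0.type Ω₁ ν₁ Ω₂ ν₂ T₁ f1 F01 T₂ f2 F02 χd0 famD10 famD20 hconvD
  obtain ⟨testD1, contD1, suppD1, intD1⟩ :=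
    hDn QWt.w1.type Ω₁ ν₁ Ω₂ ν₂ T₁ f1 F11 T₂ f2 F12 χd0 famD11 famD21 hconvD
  have hscale : ∀ (Fr : GL (Fin 2) ℝ → ℂ) (p : Ω₁ × Ω₂) (h : G ℚ),
      pureQ298 (T₁ p.1 ∪ T₂ p.2) (χd p) (fun x => lam * Fr x) h
        = t * (lam * pureQ298 (T₁ p.1 ∪ T₂ p.2) (χd0 p) Fr h) := by
    intro Fr p h
    rw [pureQ_scale563 _ (χd0 p) (χd p) _ B.u
      (Finset.mem_union_left _ ((A1 p.1).1 hu0)) t (hχd1 p) (hχd2 p) h, pureQ_scaleR563]
  have hCt : ∀ x : ℂ, a * ((cd : ℂ) / (cu : ℂ)) / (t * lam) * (t * (lam * x))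
      = a * ((cd : ℂ) / (cu : ℂ)) * x := by
    intro x
    field_simp
  -- the three facts downstairs, for one weight
  have hdown : ∀ (τ : G ℚ → ℂ) (Fr₁ : Ω₁ → GL (Fin 2) ℝ → ℂ) (Fr₂ : Ω₂ → GL (Fin 2) ℝ → ℂ)
      (f₁ f₂ : G ℚ → ℂ),
      (∀ p : Ω₁ × Ω₂, T5.IsTestFn 𝔫 τ
        (pureQ298 (T₁ p.1 ∪ T₂ p.2) (χd0 p)
          (@T6.convInt _ _ (borel _) μr (Fr₁ p.1) (Fr₂ p.2)))) →
      Continuous (fun q : (Ω₁ × Ω₂) × G ℚ =>
        pureQ298 (T₁ q.1.1 ∪ T₂ q.1.2) (χd0 q.1)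
          (@T6.convInt _ _ (borel _) μr (Fr₁ q.1.1) (Fr₂ q.1.2)) q.2) →
      (∃ C : Set (G ℚ), IsCompact C ∧ ∀ (p : Ω₁ × Ω₂) (h : G ℚ),
        pureQ298 (T₁ p.1 ∪ T₂ p.2) (χd0 p)
          (@T6.convInt _ _ (borel _) μr (Fr₁ p.1) (Fr₂ p.2)) h ≠ 0 → h ∈ C) →
      (∀ h : G ℚ,
        T5.conv B.R.μ (fun x => ∫ a, pureQ298 (T₁ a) (f1 a) (Fr₁ a) x ∂ν₁)
            (fun x => ∫ b, pureQ298 (T₂ b) (f2 b) (Fr₂ b) x ∂ν₂) h
          = ∫ p, pureQ298 (T₁ p.1 ∪ T₂ p.2) (χd0 p)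
              (@T6.convInt _ _ (borel _) μr (Fr₁ p.1) (Fr₂ p.2)) h
              ∂(cd • (ν₁.prod ν₂))) →
      (∀ h : G ℚ, f₁ h = ∫ a, 1 * pureQ298 (T₁ a) (f1 a) (Fr₁ a) h ∂ν₁) →
      (∀ h : G ℚ, f₂ h = ∫ b, a * pureQ298 (T₂ b) (f2 b) (Fr₂ b) h ∂ν₂) →
      (∀ p : Ω₁ × Ω₂, T5.IsTestFn 𝔫 τ (fun h => a * ((cd : ℂ) / (cu : ℂ)) / (t * lam)
        * pureQ298 (T₁ p.1 ∪ T₂ p.2) (χd p)
          (fun x => lam * @T6.convInt _ _ (borel _) μr (Fr₁ p.1) (Fr₂ p.2) x) h)) ∧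
      Continuous (fun q : (Ω₁ × Ω₂) × G ℚ => a * ((cd : ℂ) / (cu : ℂ)) / (t * lam)
        * pureQ298 (T₁ q.1.1 ∪ T₂ q.1.2) (χd q.1)
          (fun x => lam * @T6.convInt _ _ (borel _) μr (Fr₁ q.1.1) (Fr₂ q.1.2) x) q.2) ∧
      (∃ C : Set (G ℚ), IsCompact C ∧ ∀ (p : Ω₁ × Ω₂) (h : G ℚ),
        pureQ298 (T₁ p.1 ∪ T₂ p.2) (χd p)
          (fun x => lam * @T6.convInt _ _ (borel _) μr (Fr₁ p.1) (Fr₂ p.2) x) h ≠ 0 → h ∈ C) ∧
      ∀ h : G ℚ, T5.conv B.R.μ f₁ f₂ h
        = ∫ p, a * ((cd : ℂ) / (cu : ℂ)) / (t * lam)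
            * pureQ298 (T₁ p.1 ∪ T₂ p.2) (χd p)
              (fun x => lam * @T6.convInt _ _ (borel _) μr (Fr₁ p.1) (Fr₂ p.2) x) h
            ∂(cu • (ν₁.prod ν₂)) := by
    intro τ Fr₁ Fr₂ f₁ f₂ testD contD suppD intD hf₁ hf₂
    refine ⟨?_, ?_, ?_, ?_⟩
    · intro p
      have := hTS 𝔫 τ _ (a * ((cd : ℂ) / (cu : ℂ))) (testD p)
      have e : (fun h : G ℚ => a * ((cd : ℂ) / (cu : ℂ)) / (t * lam)
            * pureQ298 (T₁ p.1 ∪ T₂ p.2) (χd p)
              (fun x => lam * @T6.convInt _ _ (borel _) μr (Fr₁ p.1) (Fr₂ p.2) x) h)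
          = fun h : G ℚ => a * ((cd : ℂ) / (cu : ℂ))
            * pureQ298 (T₁ p.1 ∪ T₂ p.2) (χd0 p)
              (@T6.convInt _ _ (borel _) μr (Fr₁ p.1) (Fr₂ p.2)) h := by
        funext h
        rw [hscale _ p h, hCt]
      rw [e]
      exact this
    · have := (continuous_const (y := a * ((cd : ℂ) / (cu : ℂ)))).mul contD
      refine this.congr fun q => ?_
      rw [hscale _ q.1 q.2, hCt]
      rfl
    · obtain ⟨C, hC, hC'⟩ := suppD
      refine ⟨C, hC, fun p h hne => hC' p h fun h0 => hne ?_⟩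
      rw [hscale _ p h, h0, mul_zero, mul_zero]
    · intro h
      have e1 : f₁ = fun x => ∫ a, pureQ298 (T₁ a) (f1 a) (Fr₁ a) x ∂ν₁ := by
        funext x
        rw [hf₁ x]
        simp only [one_mul]
      have e2 : f₂ = fun x => a * ∫ b, pureQ298 (T₂ b) (f2 b) (Fr₂ b) x ∂ν₂ := by
        funext x
        rw [hf₂ x, integral_const_mul]
      rw [e1, e2, conv_const_mulQ563, intD h, integral_smul_nnreal_measure,
        integral_smul_nnreal_measure]
      have e3 : (fun p : Ω₁ × Ω₂ => a * ((cd : ℂ) / (cu : ℂ)) / (t * lam)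
            * pureQ298 (T₁ p.1 ∪ T₂ p.2) (χd p)
              (fun x => lam * @T6.convInt _ _ (borel _) μr (Fr₁ p.1) (Fr₂ p.2) x) h)
          = fun p : Ω₁ × Ω₂ => a * ((cd : ℂ) / (cu : ℂ))
            * pureQ298 (T₁ p.1 ∪ T₂ p.2) (χd0 p)
              (@T6.convInt _ _ (borel _) μr (Fr₁ p.1) (Fr₂ p.2)) h := by
        funext p
        rw [hscale _ p h, hCt]
      rw [e3, integral_const_mul, NNReal.smul_def, NNReal.smul_def, Complex.real_smul,
        Complex.real_smul]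
      have hcu' : ((cu : ℝ) : ℂ) ≠ 0 := by exact_mod_cast hcu
      field_simp
  obtain ⟨t0, c0, s0, e0⟩ := hdown QWt.w0.type F01 F02 f0₁ f0₂ testD0 contD0 suppD0 intD0
    Af0 Bf0
  obtain ⟨t1, c1, s1, e1⟩ := hdown QWt.w1.type F11 F12 f1₁ f1₂ testD1 contD1 suppD1 intD1
    Af1 Bf1
  refine ⟨Ω₁ × Ω₂, inferInstance, inferInstance, inferInstance, inferInstance, inferInstance,
    inferInstance, cu • (ν₁.prod ν₂), inferInstance,
    fun p => T₁ p.1 ∪ T₂ p.2, fun p => T₁' p.1 ∪ T₂' p.2, χu,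
    fun p w => @T6.convInt _ _ (borel _) μc (Φ1 p.1 w) (Φ2 p.2 w), χd,
    fun p x => lam * @T6.convInt _ _ (borel _) μr (F01 p.1) (F02 p.2) x,
    fun p x => lam * @T6.convInt _ _ (borel _) μr (F11 p.1) (F12 p.2) x,
    ?_, testU, t0, t1, contU, c0, c1, suppU, s0, s1, ?_, e0, e1⟩
  · -- the local shape
    intro p
    refine ⟨fun v hv => Finset.mem_union_left _ ((A1 p.1).1 hv), ?_, ?_⟩
    · intro w
      rw [Finset.mem_union, (A1 p.1).2.1 w, (B1 p.2).2.1 w]
      constructor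
      · rintro (⟨v, hv, hw⟩ | ⟨v, hv, hw⟩)
        · exact ⟨v, Finset.mem_union_left _ hv, hw⟩
        · exact ⟨v, Finset.mem_union_right _ hv, hw⟩
      · rintro ⟨v, hv, hw⟩
        rcases Finset.mem_union.1 hv with h | h
        · exact Or.inl ⟨v, h, hw⟩
        · exact Or.inr ⟨v, h, hw⟩
    · refine ⟨T₁ p.1, T₂ p.2, φ1 p.1, Φ1 p.1, f1 p.1, F01 p.1, F11 p.1, φo p.2, Φ2 p.2,
        fo p.2, F02 p.2, F12 p.2, rfl, (A1 p.1).1, (B1 p.2).1, (A1 p.1).2.2, hLB p.2,
        ?_, ?_, ?_, ?_, ?_, fun w => rfl, rfl, rfl⟩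
      · intro v hv hvu
        refine ⟨?_, fun w hw => ?_⟩
        · rw [hχd2 p v hvu, hχd01 p v hv]
          exact (hbad p.2 v hv hvu).1
        · rw [hχu1 p w ((hT₀' w).2 ⟨v, hv, hw⟩)]
          exact (hbad p.2 v hv hvu).2 w hw
      · show χd p B.u = fun x => t * P51.regLoc51 B.u z H k j iwFn893 x
        funext x
        rw [hχd1 p x, hχd01 p B.u hu0, hfu p.2]
      · show χu p (B.o 0) = P51.regLoc51 (B.o 0) z' H' k j iwFn893
        rw [hχu1 p (B.o 0) ((hT₀' _).2 ⟨B.u, hu0, hctx.base.orbit_over 0⟩)]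
        exact hφ0 p.2
      · show χu p (B.o 1) = iwFn893
        rw [hχu1 p (B.o 1) ((hT₀' _).2 ⟨B.u, hu0, hctx.base.orbit_over 1⟩)]
        exact hφ1 p.2
      · intro v hv hv0
        have hvu : v ≠ B.u := fun e => hv0 (e ▸ hu0)
        refine ⟨?_, fun w hw => ?_⟩
        · have h1 := hχd02 p v hv0
          rw [hχd2 p v hvu]
          have e2 : P51.ext51 (T₂ p.2) (f2 p.2) v
              = if v ∈ T₂ p.2 then fo p.2 v else unitFn893 0 := by
            unfold P51.ext51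
            by_cases h : v ∈ T₂ p.2
            · rw [if_pos h, if_pos h]
              exact (hout p.2 v h hv0).1
            · rw [if_neg h, if_neg h]
          rw [e2] at h1
          exact h1
        · have hw0 : w ∉ T₀' := fun h => hv0 ((mem_over_iffQ563 hBU hT₀' hw).1 h)
          have h1 := hχu2 p w hw0
          have e1 : P51.ext51 (T₁' p.1) (φ1 p.1) w
              = if v ∈ T₁ p.1 then φ1 p.1 w else unitFn893 0 := by
            unfold P51.ext51
            by_cases h : v ∈ T₁ p.1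
            · rw [if_pos h, if_pos ((mem_over_iffQ563 hBU (A1 p.1).2.1 hw).2 h)]
            · rw [if_neg h,
                if_neg (fun h' => h ((mem_over_iffQ563 hBU (A1 p.1).2.1 hw).1 h'))]
          have e2 : P51.ext51 (T₂' p.2) (φ2 p.2) w
              = if v ∈ T₂ p.2 then φo p.2 w else unitFn893 0 := by
            unfold P51.ext51
            by_cases h : v ∈ T₂ p.2
            · rw [if_pos h, if_pos ((mem_over_iffQ563 hBU (B1 p.2).2.1 hw).2 h)]
              exact (hout p.2 v h hv0).2 w hw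
            · rw [if_neg h,
                if_neg (fun h' => h ((mem_over_iffQ563 hBU (B1 p.2).2.1 hw).1 h'))]
          rw [e1, e2] at h1
          exact h1
  · intro h
    have e1 : φ₁' = fun x => ∫ a, pure305 (T₁' a) (φ1 a) (Φ1 a) x ∂ν₁ := funext Aφ
    have e2 : φ₂' = fun x => ∫ b, pure305 (T₂' b) (φ2 b) (Φ2 b) x ∂ν₂ := funext Bφ
    rw [e1, e2]
    exact intU h

end Top

end Fermat.Agent.LT.T7.PQ563

end

end
-- ===== PACK-END LT/T7/H563/ConvAvgQTop.lean

-- ===== PACK-BEGIN LT/T7/H563/ProdMtQAll.lean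
section




/-!
# Row LT, tower T7, node T7.L2Q.1.H2b `CQ801.ProdMtQC801` (row 2683, helper563): ALL THE CUTS

OFF-MAIN.  No hole, nothing assumed.  ADDITIVE.

    prodMtQC801_of_all563 : (the 21 leaves of the three cuts) → ∀ κ nowhere zero,
        CQ801.ProdMtQC801 F κ                                                  (VERBATIM)
-/

set_option autoImplicit false

open AutomorphicForm IsDedekindDomain NumberField MeasureTheory
open scoped ComplexConjugate

noncomputable section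

namespace Fermat.Agent.LT.T7.PQ563

open Fermat.Agent.LT.H556 Fermat.Agent.LT.H556.A0 Fermat.Agent.LT.T7 Fermat.Agent.LT.T7.H305
  Fermat.Agent.LT.T7.L2Q Fermat.Agent.LT.T7.H893 Fermat.Agent.LT.T7.H962
  Fermat.Agent.LT.T7.H732 Fermat.Agent.LT.T7.MQ298 Fermat.Agent.LT.T7.CQ801

attribute [local instance] Fermat.Agent.LT.T5.instMeasurableSpaceG

variable {F : Type} [Field F] [NumberField F]

/-- **THE NODE `CQ801.ProdMtQC801` from the leaves of the three cuts.** -/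
theorem prodMtQC801_of_all563
    -- levels, ramification (first cut)
    (hU : LevelUniqC893 ℚ) (hU' : LevelUniqC893 F) (hAt : LevelAtC893 ℚ F)
    (hUnr : UnramQC563 F) (hSph : SphHypQC563 F)
    -- the global calculus
    (hOp : OpAvgQC563 F)
    (hFamU : P51.ConvFamC51 F) (hFamD : ConvFamQC563) (hTS : TestSmulQC563)
    (hEx : P51.LocConvExC51) (hUn : P51.UnitConvC51) (hUR : P51.UnitRegC51)
    (hRA : RegAQC563 F) (hRO : RegOpQC563 F) (hOF : P51.OverFinC51 ℚ F)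
    (hBU : P51.BelowUniqC51 ℚ F) (hBE : P51.BelowExC51 ℚ F)
    -- the local algebra
    (h1 : RegOrbQC563 F) (h5 : SplitOrbQC563 F) (h6 : SphProdQC563 F) (h7 : ArchProdQC563 F)
    (κ : KapFnQ801 F) (hκ : ∀ D μr μc T₀ n m, κ D μr μc T₀ n m ≠ 0) : ProdMtQC801 F κ :=
  prodMtQC801_of_leaves563 hU hU' hAt hUnr hSph hOp
    (convAvgQC_of563 hFamU hFamD hTS hEx hUn hUR hRA hRO hOF hBU hBE hAt) h1 h5 h6 h7 κ hκ

end Fermat.Agent.LT.T7.PQ563

end

end
-- ===== PACK-END LT/T7/H563/ProdMtQAll.lean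

-- ===== PACK-BEGIN LT/T7/H878/ConvPure.lean
section








/-!
# Row LT, tower T7, calculus of pure tensors: LEAF PT.1 `PT563.ConvPureC563 K` -- CLOSED

OFF-MAIN (helper878, SPARE of registry row 2799).  Complete proof, nothing assumed.

    convPureC878 (K) : PT563.ConvPureC563 K          (VERBATIM vs `T7/H563/PTSpec.lean` c4658ddd)

Proof.  `pureConvC878` (`PureConv.lean`: the convolution of two pure tensors is `c` times the
pure tensor of the local convolution INTEGRALS, `c` = the constant of `H305.HaarSplitC305`) for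
local Haar measures with `μ_v(U(m v)) = 1` (`LocMeas729.exists_locHaar729`, helper729;
`T6.H176.instLocalC176`, helper176); bi-invariant functions are continuous
(`H16.biInvContC558_16`, helper16); at the places of `T` the convolution integral is the
convolution by finite sums `T6.IsConv` (`isConv_eq_convInt878`, `LocConv.lean`).
-/

set_option autoImplicit false

open AutomorphicForm IsDedekindDomain NumberField MeasureTheory
open scoped ComplexConjugate

noncomputable section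

namespace Fermat.Agent.LT.T7.H878

open Fermat.Agent.LT.H556 Fermat.Agent.LT.H556.A0 Fermat.Agent.LT.T7 Fermat.Agent.LT.T7.H305

attribute [local instance] Fermat.Agent.LT.T5.instMeasurableSpaceG

/-- The local form: for a Haar measure with `μ(U(n)) = 1` the convolution by finite sums of
bi-`U(n)`-invariant functions is the convolution integral. -/
theorem isConv_eq_convInt_loc878 {K : Type} [Field K] [NumberField K]
    (v : HeightOneSpectrum (𝓞 K)) (n : ℕ)
    (μ : @Measure (GL (Fin 2) (v.adicCompletion K)) (borel _)) (hμ : IsLocHaar305 n μ)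
    (f g χ : GL (Fin 2) (v.adicCompletion K) → ℂ)
    (hf : T6.IsBiInv (T6.InU n) f) (hg : T6.IsBiInv (T6.InU n) g)
    (hχ : T6.IsConv (T6.InU n) f g χ) (a : GL (Fin 2) (v.adicCompletion K)) :
    χ a = @T6.convInt _ _ (borel _) μ f g a := by
  letI : MeasurableSpace (GL (Fin 2) (v.adicCompletion K)) := borel _
  haveI : BorelSpace (GL (Fin 2) (v.adicCompletion K)) := ⟨rfl⟩
  haveI : μ.IsHaarMeasure := hμ.1
  have h1 : T6.InU n (1 : GL (Fin 2) (v.adicCompletion K)) := H16.inU_one16 n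
  refine isConv_eq_convInt878 μ (T6.InU n)
    (fun a b ha hb => (T6.H420.subU n).mul_mem ha hb)
    (fun a ha => (T6.H420.subU n).inv_mem ha) (H16.isOpen_inU16 n) hμ.2 f g χ ?_ ?_ hχ a
  · intro u x hu
    have h2 := hf 1 u x h1 hu
    rwa [one_mul] at h2
  · intro u x hu
    have h2 := hg u 1 x hu h1
    rwa [mul_one] at h2

/-- **LEAF PT.1 = CONV-PURE, CLOSED** (verbatim vs `T7/H563/PTSpec.lean`). -/
theorem convPureC878 (K : Type) [Field K] [NumberField K] : PT563.ConvPureC563 K := by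
  intro hK μ hμ μc hμc T₀ m hm
  obtain ⟨c, hc, H⟩ := pureConvC878 K hK μ hμ μc hμc T₀ m hm
  refine ⟨c, hc, ?_⟩
  intro T hT f₀ g₀ χ₀ F₁ F₂ hf hg hχ hF₁ hF₂ h
  classical
  have hex : ∀ v : HeightOneSpectrum (𝓞 K),
      ∃ μv : @Measure (GL (Fin 2) (v.adicCompletion K)) (borel _), IsLocHaar305 (m v) μv :=
    fun v => LocMeas729.exists_locHaar729 (T6.H176.instLocalC176 K v) (m v)
  choose μv hμv using hex
  have hBI := H16.biInvContC558_16 K
  rw [H T hT μv hμv f₀ g₀ F₁ F₂ (fun v hv => hBI v (m v) (f₀ v) (hf v hv).1)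
    (fun v hv => hBI v (m v) (g₀ v) (hg v hv).1) (fun w => (hF₁ w).1) (fun w => (hF₂ w).1) h]
  congr 1
  by_cases hh : OutT305 T h
  · rw [pure_eq878 T _ _ h hh, pure_eq878 T _ _ h hh]
    congr 1
    refine Finset.prod_congr rfl fun v hv => ?_
    exact (isConv_eq_convInt_loc878 v (m v) (μv v) (hμv v) (f₀ v) (g₀ v) (χ₀ v) (hf v hv).1
      (hg v hv).1 (hχ v hv) (finGL305 v h)).symm
  · rw [pure_eq_zero878 T _ _ h hh, pure_eq_zero878 T _ _ h hh]

end Fermat.Agent.LT.T7.H878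

end

end
-- ===== PACK-END LT/T7/H878/ConvPure.lean

-- ===== PACK-BEGIN LT/T7/H724/ConvAvg.lean
section



/-!
# Row LT, tower T7, leaf PT.3 `PT563.ConvAvgC563 K` (registry row 2801; SPARE, helper724)

OFF-MAIN.  ADDITIVE (new names only, all suffixed `724`, namespace
`Fermat.Agent.LT.T7.H724`).  No hole, nothing assumed.

    convAvgC724 (K) : PT563.ConvAvgC563 K            (VERBATIM, UNCONDITIONAL)

The proof is Mathlib only and uses NEITHER local compactness NOR second countability of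
`GL₂(𝔸_K)` (so `T1.LocCompC` is not in the closure): the Fubini step is
`integral_integral_swap_of_hasCompactSupport` (continuous functions with compact support, no
σ-finiteness), the continuity is `continuousOn_integral_of_compact_support`, the common support
is `C₁ * C₂`.  The abstract forms (`conv_avg_eq724`, `conv_jointCont724`, `conv_supp724`) hold
for every topological group with its Borel σ-algebra and every measure which is finite on
compact sets; they serve the calculus nodes of all forms (`ProdMtCb`, `ProdMtQC57`,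
`ProdMtQC801`).
-/

set_option autoImplicit false
set_option linter.unusedSectionVars false
set_option linter.style.haveILetI false

open MeasureTheory
open scoped Pointwise

noncomputable section

namespace Fermat.Agent.LT.T7.H724

section Abstract

variable {G : Type*} [Group G] [TopologicalSpace G] [IsTopologicalGroup G]
  [MeasurableSpace G] [BorelSpace G]
variable {Ω₁ : Type*} [TopologicalSpace Ω₁] [CompactSpace Ω₁] [T2Space Ω₁]
  [SecondCountableTopology Ω₁] [MeasurableSpace Ω₁] [BorelSpace Ω₁]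
variable {Ω₂ : Type*} [TopologicalSpace Ω₂] [CompactSpace Ω₂] [T2Space Ω₂]
  [SecondCountableTopology Ω₂] [MeasurableSpace Ω₂] [BorelSpace Ω₂]

/-- The integrand of the convolution of two members is jointly continuous in
`(y, (a, b))`. -/
theorem conv_integrand_cont724 (p : Ω₁ → G → ℂ) (q : Ω₂ → G → ℂ)
    (hp : Continuous (fun x : Ω₁ × G => p x.1 x.2))
    (hq : Continuous (fun x : Ω₂ × G => q x.1 x.2)) (h : G) :
    Continuous (Function.uncurry
      (fun (y : G) (x : Ω₁ × Ω₂) => p x.1 y * q x.2 (y⁻¹ * h))) := by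
  have h1 : Continuous (fun z : G × (Ω₁ × Ω₂) => p z.2.1 z.1) :=
    hp.comp ((continuous_snd.fst).prodMk continuous_fst)
  have h2 : Continuous (fun z : G × (Ω₁ × Ω₂) => q z.2.2 (z.1⁻¹ * h)) :=
    hq.comp ((continuous_snd.snd).prodMk
      ((continuous_fst.inv).mul continuous_const))
  exact h1.mul h2

/-- **CONV-AVG, abstract form (a)**: the convolution of two averages is the average over the
product space of the convolutions. -/
theorem conv_avg_eq724 (μ : Measure G) [IsFiniteMeasureOnCompacts μ]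
    (ν₁ : Measure Ω₁) [IsFiniteMeasure ν₁] (ν₂ : Measure Ω₂) [IsFiniteMeasure ν₂]
    (p : Ω₁ → G → ℂ) (q : Ω₂ → G → ℂ)
    (hp : Continuous (fun x : Ω₁ × G => p x.1 x.2))
    (hq : Continuous (fun x : Ω₂ × G => q x.1 x.2))
    (C : Set G) (hC : IsCompact C) (hpC : ∀ (a : Ω₁) (y : G), p a y ≠ 0 → y ∈ C) (h : G) :
    ∫ y, (∫ a, p a y ∂ν₁) * (∫ b, q b (y⁻¹ * h) ∂ν₂) ∂μ
      = ∫ x : Ω₁ × Ω₂, (∫ y, p x.1 y * q x.2 (y⁻¹ * h) ∂μ) ∂(ν₁.prod ν₂) := by
  have hswap := integral_integral_swap_of_hasCompactSupport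
    (f := fun (y : G) (x : Ω₁ × Ω₂) => p x.1 y * q x.2 (y⁻¹ * h))
    (conv_integrand_cont724 p q hp hq h)
    (HasCompactSupport.intro (K := C ×ˢ (Set.univ : Set (Ω₁ × Ω₂)))
      (hC.prod isCompact_univ) (by
        rintro ⟨y, x⟩ hyx
        have hy : y ∉ C := fun hy => hyx ⟨hy, Set.mem_univ _⟩
        have h0 : p x.1 y = 0 := by
          by_contra hne
          exact hy (hpC x.1 y hne)
        simp [Function.uncurry, h0]))
    (μ := μ) (ν := ν₁.prod ν₂)
  rw [← hswap]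
  refine integral_congr_ae (Filter.Eventually.of_forall fun y => ?_)
  exact (integral_prod_mul (μ := ν₁) (ν := ν₂) (fun a => p a y)
    (fun b => q b (y⁻¹ * h))).symm

/-- **CONV-AVG, abstract form (b)**: the convolutions of the members are jointly continuous. -/
theorem conv_jointCont724 (μ : Measure G) [IsFiniteMeasureOnCompacts μ]
    (p : Ω₁ → G → ℂ) (q : Ω₂ → G → ℂ)
    (hp : Continuous (fun x : Ω₁ × G => p x.1 x.2))
    (hq : Continuous (fun x : Ω₂ × G => q x.1 x.2))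
    (C : Set G) (hC : IsCompact C) (hpC : ∀ (a : Ω₁) (y : G), p a y ≠ 0 → y ∈ C) :
    Continuous (fun x : (Ω₁ × Ω₂) × G => ∫ y, p x.1.1 y * q x.1.2 (y⁻¹ * x.2) ∂μ) := by
  have hcont : Continuous (Function.uncurry
      (fun (x : (Ω₁ × Ω₂) × G) (y : G) => p x.1.1 y * q x.1.2 (y⁻¹ * x.2))) := by
    have h1 : Continuous (fun z : ((Ω₁ × Ω₂) × G) × G => p z.1.1.1 z.2) :=
      hp.comp ((continuous_fst.fst.fst).prodMk continuous_snd)
    have h2 : Continuous (fun z : ((Ω₁ × Ω₂) × G) × G => q z.1.1.2 (z.2⁻¹ * z.1.2)) :=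
      hq.comp ((continuous_fst.fst.snd).prodMk
        ((continuous_snd.inv).mul continuous_fst.snd))
    exact h1.mul h2
  have := continuousOn_integral_of_compact_support (μ := μ)
    (f := fun (x : (Ω₁ × Ω₂) × G) (y : G) => p x.1.1 y * q x.1.2 (y⁻¹ * x.2))
    (s := Set.univ) (k := C) hC hcont.continuousOn (by
      intro x y _ hy
      have h0 : p x.1.1 y = 0 := by
        by_contra hne
        exact hy (hpC x.1.1 y hne)
      simp [h0])
  exact continuousOn_univ.mp this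

/-- **CONV-AVG, abstract form (c)**: the convolutions of the members are supported in
`C₁ * C₂`. -/
theorem conv_supp724 (μ : Measure G) (p q : G → ℂ) (C₁ C₂ : Set G)
    (hp : ∀ y : G, p y ≠ 0 → y ∈ C₁) (hq : ∀ y : G, q y ≠ 0 → y ∈ C₂) (h : G)
    (hne : ∫ y, p y * q (y⁻¹ * h) ∂μ ≠ 0) : h ∈ C₁ * C₂ := by
  by_contra hh
  apply hne
  have : (fun y => p y * q (y⁻¹ * h)) = fun _ => (0 : ℂ) := by
    funext y
    by_contra hy
    have hpy : p y ≠ 0 := fun h0 => hy (by simp [h0])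
    have hqy : q (y⁻¹ * h) ≠ 0 := fun h0 => hy (by simp [h0])
    exact hh ⟨y, hp y hpy, y⁻¹ * h, hq _ hqy, by simp⟩
  rw [this]
  simp

end Abstract

section Adelic

open Fermat.Agent.LT.H556 Fermat.Agent.LT.H556.A0 Fermat.Agent.LT.T7

attribute [local instance] Fermat.Agent.LT.T5.instMeasurableSpaceG

/-- **LEAF PT.3 = CONV-AVG, CLOSED** (verbatim, unconditional; any number field). -/
theorem convAvgC724 (K : Type) [Field K] [NumberField K] : PT563.ConvAvgC563 K := by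
  intro μ hμ Ω₁ _ _ _ _ _ _ ν₁ _ Ω₂ _ _ _ _ _ _ ν₂ _ p q hp hq hCp hCq
  haveI : BorelSpace (G K) := ⟨rfl⟩
  haveI := hμ
  obtain ⟨C₁, hC₁, hp₁⟩ := hCp
  obtain ⟨C₂, hC₂, hq₂⟩ := hCq
  refine ⟨fun h => ?_, ?_, C₁ * C₂, hC₁.mul hC₂, fun x h hne => ?_⟩
  · exact conv_avg_eq724 μ ν₁ ν₂ p q hp hq C₁ hC₁ hp₁ h
  · exact conv_jointCont724 μ p q hp hq C₁ hC₁ hp₁
  · exact conv_supp724 μ (p x.1) (q x.2) C₁ C₂ (hp₁ x.1) (hq₂ x.2) h hne

end Adelic

end Fermat.Agent.LT.T7.H724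

end

end
-- ===== PACK-END LT/T7/H724/ConvAvg.lean

-- ===== PACK-BEGIN LT/T7/H724/ConvFam.lean
section






/-!
# Row LT, tower T7, node T7.L2.1.H2b.G2.1 `P51.ConvFamC51 F` (cut of helper51; helper724)

OFF-MAIN.  ADDITIVE (new names only, all suffixed `724`, namespace
`Fermat.Agent.LT.T7.H724`).  No hole, nothing assumed.

    convFamC724 (F) : P51.ConvFamC51 F                       (VERBATIM, UNCONDITIONAL)

Proof.  `c` = the constant of PT.1 (`H878.convPureC878`, closed leaf of helper878).  For a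
parameter `p = (a, b)` and `S = T₁ a ∪ T₂ b`:
`pure305 (T₁ a) φ₁ Φ₁ = pure305 S (ext51 (T₁ a) φ₁) Φ₁` (`pure_ext724`: the unit component at a
place `v ∈ S ∖ T₁` is the condition `OutT305` at `v`), so PT.1 gives
`P₁ a ⋆ P₂ b = c · pure305 S (χ p) (Φ₁ * Φ₂)`.  The four conclusions follow from PT.3
(`convAvgC724`: Fubini, joint continuity, support `C₁ C₂`) and `H872.isTestFn_conv872`
(helper872) for `c⁻¹ · (P₁ a ⋆ P₂ b)`.
-/

set_option autoImplicit false
set_option linter.unusedSectionVars false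
set_option linter.style.haveILetI false

open AutomorphicForm IsDedekindDomain NumberField MeasureTheory

noncomputable section

namespace Fermat.Agent.LT.T7.H724

open Fermat.Agent.LT.H556 Fermat.Agent.LT.H556.A0 Fermat.Agent.LT.T7
open Fermat.Agent.LT.T7.H305 Fermat.Agent.LT.T7.H893

attribute [local instance] Fermat.Agent.LT.T5.instMeasurableSpaceG

section Local

variable {F : Type} [Field F] [NumberField F]

/-- `U(0) = GL₂(𝒪_v)` for the component at `v` of an adelic element. -/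
theorem inU_zero_fin724 (v : HeightOneSpectrum (𝓞 F)) (h : G F) :
    T6.InU 0 (finGL305 v h) ↔ IsIntegralAt v h ∧ IsIntegralAt v h⁻¹ := by
  rw [H159.inU_zero_iff159]
  have e : (finGL305 v h)⁻¹ = finGL305 v h⁻¹ := (map_inv (finGL305 v) h).symm
  constructor
  · rintro ⟨h1, h2⟩
    refine ⟨fun i j => h1 i j, fun i j => ?_⟩
    have := h2 i j
    rw [e] at this
    exact this
  · rintro ⟨h1, h2⟩
    refine ⟨fun i j => h1 i j, fun i j => ?_⟩
    rw [e]
    exact h2 i j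

open Classical in
/-- The unit of level `0` at a place `v`, on the components of an adelic element. -/
theorem unitFn_zero_fin724 (v : HeightOneSpectrum (𝓞 F)) (h : G F) :
    unitFn893 0 (finGL305 v h)
      = if IsIntegralAt v h ∧ IsIntegralAt v h⁻¹ then (1 : ℂ) else 0 := by
  classical
  unfold unitFn893
  by_cases hh : T6.InU 0 (finGL305 v h)
  · rw [if_pos hh, if_pos ((inU_zero_fin724 v h).1 hh)]
  · rw [if_neg hh, if_neg (fun h' => hh ((inU_zero_fin724 v h).2 h'))]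

/-- The unit of level `0` is regular. -/
theorem unitReg_zero724 (v : HeightOneSpectrum (𝓞 F)) :
    T6.IsBiInv (T6.InU 0) (unitFn893 (k := v.adicCompletion F) 0) ∧
      T6.HasFinSupp (T6.InU 0) (unitFn893 (k := v.adicCompletion F) 0) := by
  classical
  constructor
  · intro u u' g hu hu'
    have hu1 := (H159.inU_zero_iff159 v u).1 hu
    have hu2 := (H159.inU_zero_iff159 v u').1 hu'
    unfold unitFn893
    have hiff : T6.InU 0 (u * g * u') ↔ T6.InU 0 g := by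
      rw [H159.inU_zero_iff159, H159.inU_zero_iff159]
      constructor
      · intro h
        have h1 : u⁻¹ * (u * g * u') * u'⁻¹ ∈ H159.intGL159 F v :=
          mul_mem (mul_mem (inv_mem hu1) h) (inv_mem hu2)
        have e : u⁻¹ * (u * g * u') * u'⁻¹ = g := by group
        rwa [e] at h1
      · intro h
        exact mul_mem (mul_mem hu1 h) hu2
    by_cases hg : T6.InU 0 g
    · rw [if_pos hg, if_pos (hiff.2 hg)]
    · rw [if_neg hg, if_neg (fun h' => hg (hiff.1 h'))]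
  · refine ⟨{1}, fun g hg => ⟨1, Finset.mem_singleton_self 1, g, ?_, (one_mul g).symm⟩⟩
    unfold unitFn893 at hg
    by_contra hn
    exact hg (if_neg hn)

/-- **The pure tensor does not change when the set of places is enlarged and the components
are extended by the unit of level `0`.** -/
theorem pure_ext724 (T S : Finset (HeightOneSpectrum (𝓞 F))) (hTS : T ⊆ S)
    (f₀ : ∀ v : HeightOneSpectrum (𝓞 F), GL (Fin 2) (v.adicCompletion F) → ℂ)
    (Φ : InfinitePlace F → GL (Fin 2) ℂ → ℂ) (h : G F) :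
    pure305 T f₀ Φ h = pure305 S (P51.ext51 T f₀) Φ h := by
  classical
  unfold pure305
  by_cases hT : OutT305 T h
  · have hS : OutT305 S h := fun v hv => hT v (fun hv' => hv (hTS hv'))
    rw [if_pos hT, if_pos hS]
    congr 1
    have hsplit : ∏ v ∈ S, P51.ext51 T f₀ v (finGL305 v h)
        = ∏ v ∈ S, if v ∈ T then f₀ v (finGL305 v h) else 1 := by
      refine Finset.prod_congr rfl fun v _ => ?_
      unfold P51.ext51
      by_cases hv : v ∈ T
      · rw [if_pos hv, if_pos hv]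
      · rw [if_neg hv, if_neg hv, unitFn_zero_fin724, if_pos (hT v hv)]
    rw [hsplit, Finset.prod_ite_mem, Finset.inter_eq_right.2 hTS]
  · rw [if_neg hT]
    by_cases hS : OutT305 S h
    · rw [if_pos hS]
      unfold OutT305 at hT
      rw [not_forall] at hT
      obtain ⟨v, hv⟩ := hT
      rw [Classical.not_imp] at hv
      obtain ⟨hvT, hvn⟩ := hv
      have hvS : v ∈ S := by
        by_contra hvS
        exact hvn (hS v hvS)
      have h0 : P51.ext51 T f₀ v (finGL305 v h) = 0 := by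
        unfold P51.ext51
        rw [if_neg hvT, unitFn_zero_fin724, if_neg hvn]
      rw [Finset.prod_eq_zero hvS h0, zero_mul]
    · rw [if_neg hS]

/-- A scalar multiple of a test function is a test function. -/
theorem isTestFn_smul724 {𝔫 : Ideal (𝓞 F)} {τ : G F → ℂ} {φ : G F → ℂ} (c : ℂ)
    (hφ : T5.IsTestFn 𝔫 τ φ) : T5.IsTestFn 𝔫 τ (fun h => c * φ h) where
  ktype := hφ.ktype
  cont := continuous_const.mul hφ.cont
  supp := by
    have := hφ.supp.mul_left (f := fun _ : G F => c)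
    exact this
  smooth := by
    intro n h h1 h2 g
    exact contDiff_const.mul (hφ.smooth n h h1 h2 g)
  inv :=
    { level_right := fun u hu g => by
        show c * φ (g * u) = c * φ g
        rw [hφ.inv.level_right u hu g]
      level_left := fun u hu g => by
        show c * φ (u * g) = c * φ g
        rw [hφ.inv.level_left u hu g]
      arch_right := fun w k hk g => by
        show c * φ (g * k) = (τ k)⁻¹ * (c * φ g)
        rw [hφ.inv.arch_right w k hk g]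
        ring
      arch_left := fun w k hk g => by
        show c * φ (k * g) = (τ k)⁻¹ * (c * φ g)
        rw [hφ.inv.arch_left w k hk g]
        ring }

end Local

section Main

variable (F : Type) [Field F] [NumberField F]

/-- **NODE P.G2.1 = CONV-FAM, CLOSED** (verbatim, unconditional). -/
theorem convFamC724 : P51.ConvFamC51 F := by
  classical
  intro hTC μ hμ μc hμc T₀ lv hlv 𝔫 h𝔫
  obtain ⟨c, hc, hPT⟩ := H878.convPureC878 F hTC μ hμ μc hμc T₀ lv hlv
  have hcC : (c : ℂ) ≠ 0 := by exact_mod_cast hc.ne'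
  refine ⟨⟨c, hc.le⟩, fun h0 => hc.ne' (congrArg NNReal.toReal h0), ?_⟩
  intro Ω₁ _ _ _ _ _ _ ν₁ _ Ω₂ _ _ _ _ _ _ ν₂ _ T₁ φ₁ Φ₁ T₂ φ₂ Φ₂ χ hF₁ hF₂ hχ
  -- regularity of the extended components
  have hreg : ∀ (T : Finset (HeightOneSpectrum (𝓞 F)))
      (φ : ∀ w : HeightOneSpectrum (𝓞 F), GL (Fin 2) (w.adicCompletion F) → ℂ),
      T₀ ⊆ T →
      (∀ w ∈ T, T6.IsBiInv (T6.InU (lv w)) (φ w) ∧ T6.HasFinSupp (T6.InU (lv w)) (φ w)) →
      ∀ w : HeightOneSpectrum (𝓞 F),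
        T6.IsBiInv (T6.InU (lv w)) (P51.ext51 T φ w) ∧
          T6.HasFinSupp (T6.InU (lv w)) (P51.ext51 T φ w) := by
    intro T φ hT hφ w
    unfold P51.ext51
    by_cases hw : w ∈ T
    · rw [if_pos hw]
      exact hφ w hw
    · rw [if_neg hw, hlv w (fun h' => hw (hT h'))]
      exact unitReg_zero724 w
  -- the key identity for pure tensors
  have key : ∀ (p : Ω₁ × Ω₂) (h : G F),
      T5.conv μ (pure305 (T₁ p.1) (φ₁ p.1) (Φ₁ p.1)) (pure305 (T₂ p.2) (φ₂ p.2) (Φ₂ p.2)) h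
        = (c : ℂ) * pure305 (T₁ p.1 ∪ T₂ p.2) (χ p)
            (fun w => @T6.convInt _ _ (borel _) μc (Φ₁ p.1 w) (Φ₂ p.2 w)) h := by
    intro p h
    have e1 : pure305 (T₁ p.1) (φ₁ p.1) (Φ₁ p.1)
        = pure305 (T₁ p.1 ∪ T₂ p.2) (P51.ext51 (T₁ p.1) (φ₁ p.1)) (Φ₁ p.1) :=
      funext fun x => pure_ext724 _ _ Finset.subset_union_left _ _ x
    have e2 : pure305 (T₂ p.2) (φ₂ p.2) (Φ₂ p.2)
        = pure305 (T₁ p.1 ∪ T₂ p.2) (P51.ext51 (T₂ p.2) (φ₂ p.2)) (Φ₂ p.2) :=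
      funext fun x => pure_ext724 _ _ Finset.subset_union_right _ _ x
    rw [e1, e2]
    exact hPT (T₁ p.1 ∪ T₂ p.2) ((hF₁.sub p.1).trans Finset.subset_union_left)
      (P51.ext51 (T₁ p.1) (φ₁ p.1)) (P51.ext51 (T₂ p.2) (φ₂ p.2)) (χ p) (Φ₁ p.1) (Φ₂ p.2)
      (fun v _ => hreg (T₁ p.1) (φ₁ p.1) (hF₁.sub p.1) (hF₁.reg p.1) v)
      (fun v _ => hreg (T₂ p.2) (φ₂ p.2) (hF₂.sub p.2) (hF₂.reg p.2) v)
      (hχ p) (hF₁.arch p.1) (hF₂.arch p.2) h
  have key' : ∀ (p : Ω₁ × Ω₂) (h : G F),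
      pure305 (T₁ p.1 ∪ T₂ p.2) (χ p)
          (fun w => @T6.convInt _ _ (borel _) μc (Φ₁ p.1 w) (Φ₂ p.2 w)) h
        = (c : ℂ)⁻¹ * T5.conv μ (pure305 (T₁ p.1) (φ₁ p.1) (Φ₁ p.1))
            (pure305 (T₂ p.2) (φ₂ p.2) (Φ₂ p.2)) h := by
    intro p h
    rw [key p h, ← mul_assoc, inv_mul_cancel₀ hcC, one_mul]
  -- PT.3
  obtain ⟨hfub, hcont, C, hC, hsupp⟩ := convAvgC724 F μ hμ
    Ω₁ inferInstance inferInstance inferInstance inferInstance inferInstance inferInstance ν₁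
    inferInstance
    Ω₂ inferInstance inferInstance inferInstance inferInstance inferInstance inferInstance ν₂
    inferInstance
    (fun a => pure305 (T₁ a) (φ₁ a) (Φ₁ a)) (fun b => pure305 (T₂ b) (φ₂ b) (Φ₂ b))
    hF₁.cont hF₂.cont hF₁.supp hF₂.supp
  refine ⟨fun p => ?_, ?_, ⟨C, hC, fun p h hne => ?_⟩, fun h => ?_⟩
  · have h1 := H872.isTestFn_conv872 hμ h𝔫 (hF₁.test p.1) (hF₂.test p.2)
    have h2 := isTestFn_smul724 (c : ℂ)⁻¹ h1
    have e : (fun h => (c : ℂ)⁻¹ * T5.conv μ (pure305 (T₁ p.1) (φ₁ p.1) (Φ₁ p.1))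
        (pure305 (T₂ p.2) (φ₂ p.2) (Φ₂ p.2)) h)
        = pure305 (T₁ p.1 ∪ T₂ p.2) (χ p)
          (fun w => @T6.convInt _ _ (borel _) μc (Φ₁ p.1 w) (Φ₂ p.2 w)) :=
      funext fun h => (key' p h).symm
    rw [e] at h2
    exact h2
  · have e : (fun q : (Ω₁ × Ω₂) × G F =>
        pure305 (T₁ q.1.1 ∪ T₂ q.1.2) (χ q.1)
          (fun w => @T6.convInt _ _ (borel _) μc (Φ₁ q.1.1 w) (Φ₂ q.1.2 w)) q.2)
        = fun q : (Ω₁ × Ω₂) × G F => (c : ℂ)⁻¹ *
            T5.conv μ (pure305 (T₁ q.1.1) (φ₁ q.1.1) (Φ₁ q.1.1))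
              (pure305 (T₂ q.1.2) (φ₂ q.1.2) (Φ₂ q.1.2)) q.2 :=
      funext fun q => key' q.1 q.2
    rw [e]
    exact continuous_const.mul hcont
  · refine hsupp p h (fun h0 => hne ?_)
    rw [key' p h, h0, mul_zero]
  · rw [hfub h]
    have e : (fun p : Ω₁ × Ω₂ => T5.conv μ (pure305 (T₁ p.1) (φ₁ p.1) (Φ₁ p.1))
        (pure305 (T₂ p.2) (φ₂ p.2) (Φ₂ p.2)) h)
        = fun p : Ω₁ × Ω₂ => (c : ℂ) * pure305 (T₁ p.1 ∪ T₂ p.2) (χ p)
            (fun w => @T6.convInt _ _ (borel _) μc (Φ₁ p.1 w) (Φ₂ p.2 w)) h :=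
      funext fun p => key p h
    rw [e, integral_const_mul]
    have e2 := integral_smul_nnreal_measure (μ := ν₁.prod ν₂)
      (fun p : Ω₁ × Ω₂ => pure305 (T₁ p.1 ∪ T₂ p.2) (χ p)
        (fun w => @T6.convInt _ _ (borel _) μc (Φ₁ p.1 w) (Φ₂ p.2 w)) h) ⟨c, hc.le⟩
    have e3 : ∀ z : ℂ, (⟨c, hc.le⟩ : NNReal) • z = (c : ℂ) * z := fun z => by
      show ((⟨c, hc.le⟩ : NNReal) : ℝ) • z = _
      rw [Complex.real_smul]
    rw [e2]
    exact (e3 _).symm

end Main

end Fermat.Agent.LT.T7.H724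

end

end
-- ===== PACK-END LT/T7/H724/ConvFam.lean

-- ===== PACK-BEGIN LT/T7/H100/ArchProdQ.lean
section



/-!
# Row LT, tower T7, leaf T7.L2Q.1.H2b.4.L4 `PQ563.ArchProdQC563` (registry row 2971, helper100)

OFF-MAIN, never land.  Complete proof, nothing assumed.  ADDITIVE (new names only, suffix `100`).

    archProdQC100 (F) : PQ563.ArchProdQC563 F            (VERBATIM, unconditional)

Spec: `T7/H563/ProdShapeQSpec.lean` (helper563, sha256 110115a8f6c324c9).  Proof: the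
archimedean kit of helper830 (`T3/H830/ArchKit.lean`, `archProdN830`: wiring constant `cM > 0`,
convolution constant `e > 0`; the products `s · Φ₁ ⋆ Φ₂`, `t · F0₁ ⋆ F0₂`, `t · F1₁ ⋆ F1₂` of two
triples in the Abel relations `c`, `c'` are test functions and matched as soon as
`t e c c' = cM s`), used with `s = 1`, `c = c' = cM`, `t = lam = (e cM)⁻¹`.
The Abel constant of the leaf is `c = cM` (the constant for which the FACTORS are matched as
well), `lam = 1 / (e cM) = cM / (e c²)`.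
-/

set_option autoImplicit false

open AutomorphicForm IsDedekindDomain NumberField MeasureTheory

noncomputable section

namespace Fermat.Agent.LT.T7.H100

open Fermat.Agent.LT Fermat.Agent.LT.T7

/-- **LEAF PS.L4 = ARCH-PROD over `ℚ`**, VERBATIM. -/
theorem archProdQC100 (F : Type) [Field F] [NumberField F] : PQ563.ArchProdQC563 F := by
  intro _hF μr hμr μc hμc
  obtain ⟨cM, hcM, e, he, -, hP⟩ := T3.H830.archProdN830 μr μc hμr hμc
  have hcM0 : (cM : ℂ) ≠ 0 := by exact_mod_cast hcM.ne'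
  have he0 : (e : ℂ) ≠ 0 := by exact_mod_cast he.ne'
  have hlam0 : ((e : ℂ) * (cM : ℂ))⁻¹ ≠ 0 := inv_ne_zero (mul_ne_zero he0 hcM0)
  refine ⟨(cM : ℂ), ((e : ℂ) * (cM : ℂ))⁻¹, hcM0, hlam0, ?_⟩
  intro Φ₁ Φ₂ F0₁ F1₁ F0₂ F1₂ h₁ h₂
  obtain ⟨hΦ₁, hF0₁, hF1₁, hA₁⟩ := h₁
  obtain ⟨hΦ₂, hF0₂, hF1₂, hA₂⟩ := h₂
  have hrel : ((e : ℂ) * (cM : ℂ))⁻¹ * (e : ℂ) * (cM : ℂ) * (cM : ℂ) = (cM : ℂ) * 1 := by
    field_simp
  have key : ∀ w : InfinitePlace F,
      T6.IsArchTestC (fun g => (1 : ℂ) * @T6.convInt _ _ (borel _) μc (Φ₁ w) (Φ₂ w) g) ∧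
      T6.IsArchTestR 0
        (fun g => ((e : ℂ) * (cM : ℂ))⁻¹ * @T6.convInt _ _ (borel _) μr F0₁ F0₂ g) ∧
      T6.IsArchTestR (-1)
        (fun g => ((e : ℂ) * (cM : ℂ))⁻¹ * @T6.convInt _ _ (borel _) μr F1₁ F1₂ g) ∧
      T6.IsArchMatch μr μc
        (fun g => (1 : ℂ) * @T6.convInt _ _ (borel _) μc (Φ₁ w) (Φ₂ w) g)
        (fun g => ((e : ℂ) * (cM : ℂ))⁻¹ * @T6.convInt _ _ (borel _) μr F0₁ F0₂ g
          + ((e : ℂ) * (cM : ℂ))⁻¹ * @T6.convInt _ _ (borel _) μr F1₁ F1₂ g) := by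
    intro w
    obtain ⟨β₁, -, hN₁, h0₁, h1₁⟩ := hA₁ w
    obtain ⟨β₂, -, hN₂, h0₂, h1₂⟩ := hA₂ w
    exact hP (cM : ℂ) (cM : ℂ) 1 ((e : ℂ) * (cM : ℂ))⁻¹ one_ne_zero hrel (-1) (Or.inr rfl)
      (Φ₁ w) (Φ₂ w) F0₁ F0₂ F1₁ F1₂ β₁ β₂
      (hΦ₁ w) hF0₁ hF1₁ hN₁ h0₁ h1₁ (hΦ₂ w) hF0₂ hF1₂ hN₂ h0₂ h1₂
  have hw : Nonempty (InfinitePlace F) := inferInstance
  obtain ⟨w₀⟩ := hw
  refine ⟨fun w => ?_, (key w₀).2.1, (key w₀).2.2.1, fun w => ?_⟩
  · have h := (key w).1
    simpa only [one_mul] using h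
  · have h := (key w).2.2.2
    simpa only [one_mul] using h

end Fermat.Agent.LT.T7.H100

end

end
-- ===== PACK-END LT/T7/H100/ArchProdQ.lean

-- ===== PACK-BEGIN LT/T7/H878/ConvPureQ.lean
section







/-!
# Row LT, tower T7, calculus of pure tensors: LEAF PT.2 `PT563.ConvPureQC563` -- CLOSED

OFF-MAIN (helper878, SPARE of registry row 2800).  Complete proof, nothing assumed.

    convPureQC878 : PT563.ConvPureQC563             (VERBATIM vs `T7/H563/PTSpec.lean` c4658ddd)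

Mirror over `ℚ` (ONE real place, `MQ298.pureQ298`) of `convPureC878`: the splitting of the Haar
measure of `GL₂(𝔸_ℚ)` on `Out_S` (`H379.haarSplitQC379`, helper379), the continuity of the
components (`H409.compContC409`, `H325.reContQC325`), `σ`-finiteness (`H505.haarSigmaC505`,
`HaarSigmaR729.haarSigmaRC729`), Fubini for products of functions of the coordinates, and the
local identity `T6.IsConv = T6.convInt` (`isConv_eq_convInt_loc878`).
-/

set_option autoImplicit false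

open AutomorphicForm IsDedekindDomain NumberField MeasureTheory
open scoped ComplexConjugate

noncomputable section

namespace Fermat.Agent.LT.T7.H878

open Fermat.Agent.LT.H556 Fermat.Agent.LT.H556.A0 Fermat.Agent.LT.T7 Fermat.Agent.LT.T7.H305
open Fermat.Agent.LT.T7.MQ298

attribute [local instance] Fermat.Agent.LT.T5.instMeasurableSpaceG

/-! ## 1. The abstract core with ONE extra factor (Mathlib only) -/

/-- The variant of `integral_indicator_pullback878` for a product `(∏ E i) × H`. -/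
theorem integral_indicator_pullbackQ878 {X ι : Type} [Fintype ι] {E : ι → Type}
    {H : Type} [MeasurableSpace X] [∀ i, MeasurableSpace (E i)] [MeasurableSpace H]
    (μ : Measure X) (μi : ∀ i, Measure (E i)) [∀ i, SigmaFinite (μi i)] (ν : Measure H)
    [SigmaFinite ν] (O : Set X) (hO : MeasurableSet O) (p : X → (∀ i, E i) × H)
    (hp : Measurable p) (c : ℝ) (hc : 0 ≤ c)
    (hsp : Measure.map p (μ.restrict O) = ENNReal.ofReal c • ((Measure.pi μi).prod ν))
    (a : ∀ i, E i → ℂ) (b : H → ℂ) (ha : ∀ i, Measurable (a i)) (hb : Measurable b) :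
    ∫ x, O.indicator (fun x => (∏ i, a i ((p x).1 i)) * b (p x).2) x ∂μ
      = (c : ℂ) * ((∏ i, ∫ x, a i x ∂μi i) * ∫ x, b x ∂ν) := by
  have hΦ : Measurable fun q : (∀ i, E i) × H => (∏ i, a i (q.1 i)) * b q.2 := by
    refine Measurable.mul (Finset.measurable_prod _ fun i _ => ?_) (hb.comp measurable_snd)
    exact (ha i).comp ((measurable_pi_apply i).comp measurable_fst)
  rw [integral_indicator hO]
  have h1 : ∫ x in O, (∏ i, a i ((p x).1 i)) * b (p x).2 ∂μ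
      = ∫ q, (∏ i, a i (q.1 i)) * b q.2 ∂(Measure.map p (μ.restrict O)) :=
    (integral_map hp.aemeasurable hΦ.aestronglyMeasurable).symm
  rw [h1, hsp, integral_smul_measure, ENNReal.toReal_ofReal hc]
  rw [integral_prod_mul (μ := Measure.pi μi) (ν := ν)
    (fun x : ∀ i, E i => ∏ i, a i (x i)) b]
  rw [integral_fintype_prod_eq_prod]
  rw [Complex.real_smul]

/-! ## 2. Pure tensors over `ℚ` -/

/-- A pure tensor over `ℚ` vanishes outside `Out_S`. -/
theorem pureQ_eq_zero878 (S : Finset (HeightOneSpectrum (𝓞 ℚ)))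
    (f₀ : ∀ v : HeightOneSpectrum (𝓞 ℚ), GL (Fin 2) (v.adicCompletion ℚ) → ℂ)
    (Fr : GL (Fin 2) ℝ → ℂ) (h : G ℚ) (hh : ¬ OutT305 S h) :
    pureQ298 S f₀ Fr h = 0 := by
  classical
  change (if OutT305 S h then _ else _) = _
  rw [if_neg hh]

/-- The value of a pure tensor over `ℚ` on `Out_S`. -/
theorem pureQ_eq878 (S : Finset (HeightOneSpectrum (𝓞 ℚ)))
    (f₀ : ∀ v : HeightOneSpectrum (𝓞 ℚ), GL (Fin 2) (v.adicCompletion ℚ) → ℂ)
    (Fr : GL (Fin 2) ℝ → ℂ) (h : G ℚ) (hh : OutT305 S h) :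
    pureQ298 S f₀ Fr h = (∏ v ∈ S, f₀ v (finGL305 v h)) * Fr (reGLQ298 h) := by
  classical
  change (if OutT305 S h then _ else _) = _
  rw [if_pos hh]

/-- The integrand of the convolution of two pure tensors over `ℚ` at a point of `Out_S`. -/
theorem convQ_integrand_eq878 (S : Finset (HeightOneSpectrum (𝓞 ℚ)))
    (f₀ g₀ : ∀ v : HeightOneSpectrum (𝓞 ℚ), GL (Fin 2) (v.adicCompletion ℚ) → ℂ)
    (F Gr : GL (Fin 2) ℝ → ℂ) (h : G ℚ) (hh : OutT305 S h) (y : G ℚ) :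
    pureQ298 S f₀ F y * pureQ298 S g₀ Gr (y⁻¹ * h)
      = Set.indicator {y : G ℚ | OutT305 S y}
          (fun y => (∏ v : S, convFn878 (f₀ v.1) (g₀ v.1) (finGL305 v.1 h)
              ((compSQ298 S y).1 v)) *
            convFn878 F Gr (reGLQ298 h) (compSQ298 S y).2) y := by
  classical
  by_cases hy : OutT305 S y
  · rw [Set.indicator_of_mem (show y ∈ {y : G ℚ | OutT305 S y} from hy)]
    rw [pureQ_eq878 S f₀ F y hy, pureQ_eq878 S g₀ Gr (y⁻¹ * h) (outT_inv_mul878 S y h hy hh)]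
    change _ = (∏ v : S, (f₀ v.1 (finGL305 v.1 y) * g₀ v.1 ((finGL305 v.1 y)⁻¹
        * finGL305 v.1 h))) * (F (reGLQ298 y) * Gr ((reGLQ298 y)⁻¹ * reGLQ298 h))
    rw [Finset.prod_coe_sort S (fun v => f₀ v (finGL305 v y) * g₀ v ((finGL305 v y)⁻¹
        * finGL305 v h))]
    rw [Finset.prod_mul_distrib]
    simp only [map_mul, map_inv]
    ring
  · rw [Set.indicator_of_notMem (show y ∉ {y : G ℚ | OutT305 S y} from hy),
      pureQ_eq_zero878 S f₀ F y hy, zero_mul]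

/-- The convolution of two pure tensors over `ℚ` vanishes outside `Out_S`. -/
theorem convQ_pure_eq_zero878 (μ : Measure (G ℚ)) (S : Finset (HeightOneSpectrum (𝓞 ℚ)))
    (f₀ g₀ : ∀ v : HeightOneSpectrum (𝓞 ℚ), GL (Fin 2) (v.adicCompletion ℚ) → ℂ)
    (F Gr : GL (Fin 2) ℝ → ℂ) (h : G ℚ) (hh : ¬ OutT305 S h) :
    T5.conv μ (pureQ298 S f₀ F) (pureQ298 S g₀ Gr) h = 0 := by
  change (∫ y, pureQ298 S f₀ F y * pureQ298 S g₀ Gr (y⁻¹ * h) ∂μ) = 0
  have h0 : (fun y : G ℚ => pureQ298 S f₀ F y * pureQ298 S g₀ Gr (y⁻¹ * h)) = fun _ => 0 := by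
    funext y
    by_cases hy : OutT305 S y
    · have hyh : ¬ OutT305 S (y⁻¹ * h) := fun hyh => hh (outT_of_inv_mul878 S y h hy hyh)
      rw [pureQ_eq_zero878 S g₀ Gr _ hyh, mul_zero]
    · rw [pureQ_eq_zero878 S f₀ F y hy, zero_mul]
  rw [h0, integral_zero]

/-! ## 3. The convolution of two pure tensors over `ℚ` -/

/-- **PURE-CONV over `ℚ` from the splitting of the Haar measure on `Out_S`** (ONE set `S`). -/
theorem pureConvQ_of_split878 (μ : Measure (G ℚ))
    (μr : @Measure (GL (Fin 2) ℝ) (borel _)) (hμr : @Measure.IsHaarMeasure _ _ _ (borel _) μr)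
    (S : Finset (HeightOneSpectrum (𝓞 ℚ)))
    (μv : ∀ v : HeightOneSpectrum (𝓞 ℚ), @Measure (GL (Fin 2) (v.adicCompletion ℚ)) (borel _))
    (hμv : ∀ v : HeightOneSpectrum (𝓞 ℚ), @Measure.IsHaarMeasure _ _ _ (borel _) (μv v))
    (c : ℝ) (hc : 0 ≤ c)
    (hsp : letI : ∀ v : HeightOneSpectrum (𝓞 ℚ),
          MeasurableSpace (GL (Fin 2) (v.adicCompletion ℚ)) := fun _ => borel _
      letI : MeasurableSpace (GL (Fin 2) ℝ) := borel _
      Measure.map (compSQ298 S) (μ.restrict {y | OutT305 S y})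
        = ENNReal.ofReal c • ((Measure.pi fun v : S => μv v.1).prod μr))
    (f₀ g₀ : ∀ v : HeightOneSpectrum (𝓞 ℚ), GL (Fin 2) (v.adicCompletion ℚ) → ℂ)
    (F Gr : GL (Fin 2) ℝ → ℂ)
    (hf₀ : ∀ v ∈ S, Continuous (f₀ v)) (hg₀ : ∀ v ∈ S, Continuous (g₀ v))
    (hF : Continuous F) (hG : Continuous Gr) (h : G ℚ) :
    T5.conv μ (pureQ298 S f₀ F) (pureQ298 S g₀ Gr) h
      = (c : ℂ) * pureQ298 S (fun v => @T6.convInt _ _ (borel _) (μv v) (f₀ v) (g₀ v))
          (@T6.convInt _ _ (borel _) μr F Gr) h := by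
  classical
  letI iv : ∀ v : HeightOneSpectrum (𝓞 ℚ),
      MeasurableSpace (GL (Fin 2) (v.adicCompletion ℚ)) := fun _ => borel _
  letI ic : MeasurableSpace (GL (Fin 2) ℝ) := borel _
  haveI : ∀ v : HeightOneSpectrum (𝓞 ℚ), BorelSpace (GL (Fin 2) (v.adicCompletion ℚ)) :=
    fun _ => ⟨rfl⟩
  haveI : BorelSpace (GL (Fin 2) ℝ) := ⟨rfl⟩
  haveI : BorelSpace (G ℚ) := ⟨rfl⟩
  by_cases hh : OutT305 S h
  · have hσ := H505.haarSigmaC505 (K := ℚ)
    haveI hσv : ∀ v : S, SigmaFinite (μv v.1) := fun v => hσ.1 v.1 (μv v.1) (hμv v.1)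
    haveI hσr : SigmaFinite μr := HaarSigmaR729.haarSigmaRC729.1 μr hμr
    have hCont := H409.compContC409 (K := ℚ)
    have hRe : Continuous (reGLQ298 : G ℚ → GL (Fin 2) ℝ) := H325.reContQC325
    have hcomp : Measurable (compSQ298 S) := by
      change Measurable fun y : G ℚ => ((fun v : S => finGL305 v.1 y), reGLQ298 y)
      exact Measurable.prodMk (measurable_pi_lambda _ fun v => (hCont.1 v.1).measurable)
        hRe.measurable
    have hO : MeasurableSet {y : G ℚ | OutT305 S y} :=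
      (OutOpen729.outOpenC729 ℚ S).measurableSet
    have ha : ∀ v : S, Measurable (convFn878 (f₀ v.1) (g₀ v.1) (finGL305 v.1 h)) := fun v =>
      (continuous_convFn878 _ _ _ (hf₀ v.1 v.2) (hg₀ v.1 v.2)).measurable
    have hb : Measurable (convFn878 F Gr (reGLQ298 h)) :=
      (continuous_convFn878 _ _ _ hF hG).measurable
    change (∫ y, pureQ298 S f₀ F y * pureQ298 S g₀ Gr (y⁻¹ * h) ∂μ) = _
    rw [integral_congr_ae (Filter.Eventually.of_forall
      (convQ_integrand_eq878 S f₀ g₀ F Gr h hh))]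
    rw [integral_indicator_pullbackQ878 μ (fun v : S => μv v.1) μr {y : G ℚ | OutT305 S y} hO
      (compSQ298 S) hcomp c hc hsp
      (fun v : S => convFn878 (f₀ v.1) (g₀ v.1) (finGL305 v.1 h))
      (convFn878 F Gr (reGLQ298 h)) ha hb]
    rw [pureQ_eq878 S _ _ h hh]
    rw [← Finset.prod_coe_sort S (fun v => @T6.convInt _ _ (borel _) (μv v) (f₀ v) (g₀ v)
      (finGL305 v h))]
    rfl
  · rw [convQ_pure_eq_zero878 μ S f₀ g₀ F Gr h hh, pureQ_eq_zero878 S _ _ h hh, mul_zero]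

/-- **LEAF PT.2 = CONV-PURE over `ℚ`, CLOSED** (verbatim vs `T7/H563/PTSpec.lean`). -/
theorem convPureQC878 : PT563.ConvPureQC563 := by
  intro μ hμ μr hμr T₀ m hm
  obtain ⟨c, hc, hsplit⟩ := H379.haarSplitQC379 μ hμ μr hμr T₀ m hm
  refine ⟨c, hc, ?_⟩
  intro T hT f₀ g₀ χ₀ F₁ F₂ hf hg hχ hF₁ _ hF₂ _ h
  classical
  have hex : ∀ v : HeightOneSpectrum (𝓞 ℚ),
      ∃ μv : @Measure (GL (Fin 2) (v.adicCompletion ℚ)) (borel _), IsLocHaar305 (m v) μv :=
    fun v => LocMeas729.exists_locHaar729 (T6.H176.instLocalC176 ℚ v) (m v)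
  choose μv hμv using hex
  have hBI := H16.biInvContC558_16 ℚ
  rw [pureConvQ_of_split878 μ μr hμr T μv (fun v => (hμv v).1) c hc.le (hsplit T hT μv hμv)
    f₀ g₀ F₁ F₂ (fun v hv => hBI v (m v) (f₀ v) (hf v hv).1)
    (fun v hv => hBI v (m v) (g₀ v) (hg v hv).1) hF₁ hF₂ h]
  congr 1
  by_cases hh : OutT305 T h
  · rw [pureQ_eq878 T _ _ h hh, pureQ_eq878 T _ _ h hh]
    congr 1
    refine Finset.prod_congr rfl fun v hv => ?_
    exact (isConv_eq_convInt_loc878 v (m v) (μv v) (hμv v) (f₀ v) (g₀ v) (χ₀ v) (hf v hv).1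
      (hg v hv).1 (hχ v hv) (finGL305 v h)).symm
  · rw [pureQ_eq_zero878 T _ _ h hh, pureQ_eq_zero878 T _ _ h hh]

end Fermat.Agent.LT.T7.H878

end

end
-- ===== PACK-END LT/T7/H878/ConvPureQ.lean

-- ===== PACK-BEGIN LT/T7/H627/ConvFam.lean
section








/-!
# Row LT, tower T7, NODE T7.L2.1.H2b.G2.1 `P51.ConvFamC51 F` (registry row 2932) -- CLOSED

OFF-MAIN (helper627, spare).  Complete proof, nothing assumed.

    convFamC627 (F) : P51.ConvFamC51 F      VERBATIM vs `T7/P51/ConvAvgSpec.lean` (helper51)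

Assembly of closed leaves:
* `H878.convPureC878` (PT.1, helper878): convolution of two pure tensors over the SAME set of
  places `T ⊇ T₀` = `c` times the pure tensor of the local convolutions;
* `H82.pureExtC82` (helper82): a pure tensor does not change if `T` is enlarged and the new
  components are the unit elements (`ext51 = ext305`);
* `H724.convAvgC724` (PT.3, helper724): convolution of two averages = average of the
  convolutions, joint continuity, common compact support;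
* `H872.isTestFn_conv872` (helper872): the convolution of two test functions is a test
  function; scalar multiples of test functions are test functions (`isTestFn_smul627`);
* the unit `1_{U(n)}` is bi-invariant and supported on one coset (`unitFn_reg627`).
-/

set_option autoImplicit false

open AutomorphicForm IsDedekindDomain NumberField MeasureTheory
open scoped ComplexConjugate

noncomputable section

namespace Fermat.Agent.LT.T7.H627

open Fermat.Agent.LT.H556 Fermat.Agent.LT.H556.A0 Fermat.Agent.LT.T7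
open Fermat.Agent.LT.T7.H305 Fermat.Agent.LT.T7.H893

attribute [local instance] Fermat.Agent.LT.T5.instMeasurableSpaceG

/-- A scalar multiple of a test function is a test function. -/
theorem isTestFn_smul627 {K : Type} [Field K] [NumberField K] {𝔫 : Ideal (𝓞 K)}
    {τ φ : G K → ℂ} (c : ℂ) (h : T5.IsTestFn 𝔫 τ φ) :
    T5.IsTestFn 𝔫 τ (fun g => c * φ g) where
  ktype := h.ktype
  cont := continuous_const.mul h.cont
  supp := h.supp.mul_left (f := fun _ => c)
  smooth := fun n hh h1 h2 g => contDiff_const.mul (h.smooth n hh h1 h2 g)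
  inv :=
    { level_right := fun u hu g => by
        show c * φ (g * u) = c * φ g
        rw [h.inv.level_right u hu g]
      level_left := fun u hu g => by
        show c * φ (u * g) = c * φ g
        rw [h.inv.level_left u hu g]
      arch_right := fun w k hk g => by
        show c * φ (g * k) = (τ k)⁻¹ * (c * φ g)
        rw [h.inv.arch_right w k hk g]
        ring
      arch_left := fun w k hk g => by
        show c * φ (k * g) = (τ k)⁻¹ * (c * φ g)
        rw [h.inv.arch_left w k hk g]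
        ring }

section Local

variable {k : Type} [Field k] [Valued k T6.Γ₀]

/-- `1_{U(n)}` is bi-invariant under `U(n)` and supported on one coset. -/
theorem unitFn_reg627 (n : ℕ) :
    T6.IsBiInv (T6.InU n) (unitFn893 (k := k) n) ∧
      T6.HasFinSupp (T6.InU n) (unitFn893 (k := k) n) := by
  classical
  refine ⟨?_, ?_⟩
  · intro u u' g hu hu'
    have hiff : T6.InU n (u * g * u') ↔ T6.InU n g := by
      constructor
      · intro h
        have h1 := T6.H944.inU_mul944 n _ _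
          (T6.H944.inU_mul944 n _ _ (T6.H944.inU_inv944 n u hu) h)
          (T6.H944.inU_inv944 n u' hu')
        have e : u⁻¹ * (u * g * u') * u'⁻¹ = g := by group
        rwa [e] at h1
      · intro h
        exact T6.H944.inU_mul944 n _ _ (T6.H944.inU_mul944 n _ _ hu h) hu'
    delta unitFn893
    by_cases hg : T6.InU n g
    · rw [if_pos (hiff.2 hg), if_pos hg]
    · rw [if_neg (fun h => hg (hiff.1 h)), if_neg hg]
  · refine ⟨{1}, fun g hg => ?_⟩
    refine ⟨1, Finset.mem_singleton_self _, g, ?_, (one_mul g).symm⟩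
    by_contra hU
    apply hg
    delta unitFn893
    rw [if_neg hU]

end Local

section OneField

variable {F : Type} [Field F] [NumberField F]

/-- The two extensions by the unit agree. -/
theorem ext51_eq627 (T : Finset (HeightOneSpectrum (𝓞 F)))
    (φ : ∀ w : HeightOneSpectrum (𝓞 F), GL (Fin 2) (w.adicCompletion F) → ℂ) :
    P51.ext51 T φ = ext305 T φ := by
  classical
  funext w
  delta P51.ext51 ext305
  by_cases hw : w ∈ T
  · rw [if_pos hw, if_pos hw]
  · rw [if_neg hw, if_neg hw]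
    funext g
    delta unitFn893 unit305
    by_cases hg : T6.InU 0 g
    · rw [if_pos hg]
    · rw [if_neg hg]

/-- The pure tensor over a larger set with the extended components. -/
theorem pure_ext627 (T S : Finset (HeightOneSpectrum (𝓞 F))) (hTS : T ⊆ S)
    (φ : ∀ w : HeightOneSpectrum (𝓞 F), GL (Fin 2) (w.adicCompletion F) → ℂ)
    (Φ : InfinitePlace F → GL (Fin 2) ℂ → ℂ) :
    pure305 T φ Φ = pure305 S (P51.ext51 T φ) Φ := by
  funext h
  rw [ext51_eq627]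
  exact (H82.pureExtC82 (K := F) T S hTS φ Φ h).symm

/-- The extended components are regular at EVERY place. -/
theorem ext51_reg627 (lv : HeightOneSpectrum (𝓞 F) → ℕ)
    (T₀ T : Finset (HeightOneSpectrum (𝓞 F)))
    (hlv : ∀ v : HeightOneSpectrum (𝓞 F), v ∉ T₀ → lv v = 0) (hsub : T₀ ⊆ T)
    (φ : ∀ w : HeightOneSpectrum (𝓞 F), GL (Fin 2) (w.adicCompletion F) → ℂ)
    (hreg : ∀ w : HeightOneSpectrum (𝓞 F), w ∈ T →
      T6.IsBiInv (T6.InU (lv w)) (φ w) ∧ T6.HasFinSupp (T6.InU (lv w)) (φ w))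
    (v : HeightOneSpectrum (𝓞 F)) :
    T6.IsBiInv (T6.InU (lv v)) (P51.ext51 T φ v) ∧
      T6.HasFinSupp (T6.InU (lv v)) (P51.ext51 T φ v) := by
  classical
  by_cases hv : v ∈ T
  · have e : P51.ext51 T φ v = φ v := by
      delta P51.ext51
      rw [if_pos hv]
    rw [e]
    exact hreg v hv
  · have e : P51.ext51 T φ v = unitFn893 0 := by
      delta P51.ext51
      rw [if_neg hv]
    have h0 : lv v = 0 := hlv v fun h => hv (hsub h)
    rw [e, h0]
    exact unitFn_reg627 0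

variable (F)

/-- **NODE P.G2.1 `ConvFamC51 F`**, VERBATIM and UNCONDITIONAL. -/
theorem convFamC627 : P51.ConvFamC51 F := by
  intro hTC μ hμ μc hμc T₀ lv hlv 𝔫 h𝔫
  obtain ⟨c, hc, hconv⟩ := H878.convPureC878 F hTC μ hμ μc hμc T₀ lv hlv
  have hcC : (c : ℂ) ≠ 0 := Complex.ofReal_ne_zero.2 hc.ne'
  refine ⟨⟨c, hc.le⟩, fun h => hc.ne' (congrArg NNReal.toReal h), ?_⟩
  intro Ω₁ _ _ _ _ _ _ ν₁ _ Ω₂ _ _ _ _ _ _ ν₂ _ T₁ φ₁ Φ₁ T₂ φ₂ Φ₂ χ h1 h2 hχ
  classical
  have key : ∀ (p : Ω₁ × Ω₂) (h : G F),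
      T5.conv μ (pure305 (T₁ p.1) (φ₁ p.1) (Φ₁ p.1)) (pure305 (T₂ p.2) (φ₂ p.2) (Φ₂ p.2)) h
        = (c : ℂ) * pure305 (T₁ p.1 ∪ T₂ p.2) (χ p)
            (fun w => @T6.convInt _ _ (borel _) μc (Φ₁ p.1 w) (Φ₂ p.2 w)) h := by
    intro p h
    rw [pure_ext627 (T₁ p.1) (T₁ p.1 ∪ T₂ p.2) Finset.subset_union_left (φ₁ p.1) (Φ₁ p.1),
      pure_ext627 (T₂ p.2) (T₁ p.1 ∪ T₂ p.2) Finset.subset_union_right (φ₂ p.2) (Φ₂ p.2)]
    exact hconv (T₁ p.1 ∪ T₂ p.2) ((h1.sub p.1).trans Finset.subset_union_left)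
      (P51.ext51 (T₁ p.1) (φ₁ p.1)) (P51.ext51 (T₂ p.2) (φ₂ p.2)) (χ p) (Φ₁ p.1) (Φ₂ p.2)
      (fun v _ => ext51_reg627 lv T₀ (T₁ p.1) hlv (h1.sub p.1) (φ₁ p.1) (h1.reg p.1) v)
      (fun v _ => ext51_reg627 lv T₀ (T₂ p.2) hlv (h2.sub p.2) (φ₂ p.2) (h2.reg p.2) v)
      (hχ p) (h1.arch p.1) (h2.arch p.2) h
  have hRe : ∀ (p : Ω₁ × Ω₂) (h : G F),
      pure305 (T₁ p.1 ∪ T₂ p.2) (χ p)
          (fun w => @T6.convInt _ _ (borel _) μc (Φ₁ p.1 w) (Φ₂ p.2 w)) h
        = (c : ℂ)⁻¹ * T5.conv μ (pure305 (T₁ p.1) (φ₁ p.1) (Φ₁ p.1))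
            (pure305 (T₂ p.2) (φ₂ p.2) (Φ₂ p.2)) h := by
    intro p h
    rw [key p h, inv_mul_cancel_left₀ hcC]
  obtain ⟨hI, hcont, C, hC, hsupp⟩ :=
    H724.convAvgC724 F μ hμ Ω₁ inferInstance inferInstance inferInstance inferInstance
      inferInstance inferInstance ν₁ inferInstance Ω₂ inferInstance inferInstance inferInstance
      inferInstance inferInstance inferInstance ν₂ inferInstance
      (fun a => pure305 (T₁ a) (φ₁ a) (Φ₁ a)) (fun b => pure305 (T₂ b) (φ₂ b) (Φ₂ b))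
      h1.cont h2.cont h1.supp h2.supp
  refine ⟨fun p => ?_, ?_, ⟨C, hC, fun p h hne => ?_⟩, fun h => ?_⟩
  · have ht := isTestFn_smul627 (c : ℂ)⁻¹
      (H872.isTestFn_conv872 hμ h𝔫 (h1.test p.1) (h2.test p.2))
    have e : pure305 (T₁ p.1 ∪ T₂ p.2) (χ p)
          (fun w => @T6.convInt _ _ (borel _) μc (Φ₁ p.1 w) (Φ₂ p.2 w))
        = fun h => (c : ℂ)⁻¹ * T5.conv μ (pure305 (T₁ p.1) (φ₁ p.1) (Φ₁ p.1))
            (pure305 (T₂ p.2) (φ₂ p.2) (Φ₂ p.2)) h := funext (hRe p)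
    rw [e]
    exact ht
  · have e : (fun q : (Ω₁ × Ω₂) × G F =>
          pure305 (T₁ q.1.1 ∪ T₂ q.1.2) (χ q.1)
            (fun w => @T6.convInt _ _ (borel _) μc (Φ₁ q.1.1 w) (Φ₂ q.1.2 w)) q.2)
        = fun q : (Ω₁ × Ω₂) × G F =>
          (c : ℂ)⁻¹ * T5.conv μ (pure305 (T₁ q.1.1) (φ₁ q.1.1) (Φ₁ q.1.1))
            (pure305 (T₂ q.1.2) (φ₂ q.1.2) (Φ₂ q.1.2)) q.2 :=
      funext fun q => hRe q.1 q.2
    rw [e]
    exact continuous_const.mul hcont
  · refine hsupp p h fun h0 => hne ?_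
    rw [hRe p h, h0, mul_zero]
  · rw [hI h]
    have hsm := integral_smul_nnreal_measure (μ := ν₁.prod ν₂)
      (fun p : Ω₁ × Ω₂ => pure305 (T₁ p.1 ∪ T₂ p.2) (χ p)
        (fun w => @T6.convInt _ _ (borel _) μc (Φ₁ p.1 w) (Φ₂ p.2 w)) h) (⟨c, hc.le⟩ : NNReal)
    rw [hsm]
    have e : (fun x : Ω₁ × Ω₂ =>
          T5.conv μ (pure305 (T₁ x.1) (φ₁ x.1) (Φ₁ x.1))
            (pure305 (T₂ x.2) (φ₂ x.2) (Φ₂ x.2)) h)
        = fun x : Ω₁ × Ω₂ => (c : ℂ) * pure305 (T₁ x.1 ∪ T₂ x.2) (χ x)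
            (fun w => @T6.convInt _ _ (borel _) μc (Φ₁ x.1 w) (Φ₂ x.2 w)) h :=
      funext fun x => key x h
    rw [e, integral_const_mul]
    have hs : ∀ z : ℂ, (⟨c, hc.le⟩ : NNReal) • z = (c : ℂ) * z := fun z => by
      show ((⟨c, hc.le⟩ : NNReal) : ℝ) • z = _
      rw [Complex.real_smul]
    exact (hs _).symm

end OneField

end Fermat.Agent.LT.T7.H627

end

end
-- ===== PACK-END LT/T7/H627/ConvFam.lean

-- ===== PACK-BEGIN LT/T7/H627/ConvFamQ.lean
section





/-!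
# Row LT, tower T7, NODE T7.L2Q.1.H2b.4.G2.1 `PQ563.ConvFamQC563` -- CLOSED

OFF-MAIN (helper627, spare).  Complete proof, nothing assumed.

    convFamQC627 : PQ563.ConvFamQC563       VERBATIM vs `T7/H563/ConvAvgQSpec.lean` (helper563)
    testSmulQC627 : PQ563.TestSmulQC563

Mirror over `ℚ` of `H627.convFamC627`: `H878.convPureQC878` (PT.2), `pureQ_ext627` (extension of
a pure tensor over `ℚ` to a larger set of places), `H724.convAvgC724 ℚ` (PT.3),
`H872.isTestFn_conv872` (every type), `isTestFn_smul627`.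
-/

set_option autoImplicit false

open AutomorphicForm IsDedekindDomain NumberField MeasureTheory
open scoped ComplexConjugate

noncomputable section

namespace Fermat.Agent.LT.T7.H627

open Fermat.Agent.LT.H556 Fermat.Agent.LT.H556.A0 Fermat.Agent.LT.T7
open Fermat.Agent.LT.T7.H305 Fermat.Agent.LT.T7.H893 Fermat.Agent.LT.T7.MQ298

attribute [local instance] Fermat.Agent.LT.T5.instMeasurableSpaceG

/-- The pure tensor over `ℚ` over a larger set with the extended components. -/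
theorem pureQ_ext627 (T S : Finset (HeightOneSpectrum (𝓞 ℚ))) (hTS : T ⊆ S)
    (f₀ : ∀ v : HeightOneSpectrum (𝓞 ℚ), GL (Fin 2) (v.adicCompletion ℚ) → ℂ)
    (Fr : GL (Fin 2) ℝ → ℂ) :
    pureQ298 T f₀ Fr = pureQ298 S (P51.ext51 T f₀) Fr := by
  classical
  funext h
  rw [ext51_eq627]
  symm
  delta pureQ298
  by_cases hT : OutT305 T h
  · have hS : OutT305 S h := fun v hv => hT v fun hvT => hv (hTS hvT)
    rw [if_pos hT, if_pos hS]
    congr 1
    rw [← Finset.prod_sdiff hTS]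
    have e1 : ∏ v ∈ S \ T, ext305 T f₀ v (finGL305 v h) = 1 := by
      refine Finset.prod_eq_one fun v hv => ?_
      have hvT : v ∉ T := (Finset.mem_sdiff.1 hv).2
      delta ext305
      rw [if_neg hvT]
      delta unit305
      rw [if_pos ((H82.inU_zero_iff82 v h).2 (hT v hvT))]
    have e2 : ∏ v ∈ T, ext305 T f₀ v (finGL305 v h) = ∏ v ∈ T, f₀ v (finGL305 v h) := by
      refine Finset.prod_congr rfl fun v hv => ?_
      delta ext305
      rw [if_pos hv]
    rw [e1, e2, one_mul]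
  · rw [if_neg hT]
    by_cases hS : OutT305 S h
    · rw [if_pos hS]
      obtain ⟨v, hvT, hv⟩ : ∃ v : HeightOneSpectrum (𝓞 ℚ), v ∉ T ∧
          ¬ (IsIntegralAt v h ∧ IsIntegralAt v h⁻¹) := by
        by_contra hcon
        apply hT
        intro v hv
        by_contra hv'
        exact hcon ⟨v, hv, hv'⟩
      have hvS : v ∈ S := by
        by_contra hvS
        exact hv (hS v hvS)
      have e0 : ext305 T f₀ v (finGL305 v h) = 0 := by
        delta ext305
        rw [if_neg hvT]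
        delta unit305
        rw [if_neg fun hU => hv ((H82.inU_zero_iff82 v h).1 hU)]
      rw [Finset.prod_eq_zero hvS e0, zero_mul]
    · rw [if_neg hS]

/-- **LEAF PS.G2.2 `TestSmulQC563`**, VERBATIM and UNCONDITIONAL. -/
theorem testSmulQC627 : PQ563.TestSmulQC563 :=
  fun _ _ _ c h => isTestFn_smul627 c h

/-- **NODE PS.G2.1 `ConvFamQC563`**, VERBATIM and UNCONDITIONAL. -/
theorem convFamQC627 : PQ563.ConvFamQC563 := by
  intro μ hμ μr hμr T₀ lv hlv 𝔫 h𝔫
  obtain ⟨c, hc, hconv⟩ := H878.convPureQC878 μ hμ μr hμr T₀ lv hlv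
  have hcC : (c : ℂ) ≠ 0 := Complex.ofReal_ne_zero.2 hc.ne'
  refine ⟨⟨c, hc.le⟩, fun h => hc.ne' (congrArg NNReal.toReal h), ?_⟩
  intro τ Ω₁ _ _ _ _ _ _ ν₁ _ Ω₂ _ _ _ _ _ _ ν₂ _ T₁ f₁ Fr₁ T₂ f₂ Fr₂ χ h1 h2 hχ
  classical
  have key : ∀ (p : Ω₁ × Ω₂) (h : G ℚ),
      T5.conv μ (pureQ298 (T₁ p.1) (f₁ p.1) (Fr₁ p.1)) (pureQ298 (T₂ p.2) (f₂ p.2) (Fr₂ p.2)) h
        = (c : ℂ) * pureQ298 (T₁ p.1 ∪ T₂ p.2) (χ p)
            (@T6.convInt _ _ (borel _) μr (Fr₁ p.1) (Fr₂ p.2)) h := by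
    intro p h
    rw [pureQ_ext627 (T₁ p.1) (T₁ p.1 ∪ T₂ p.2) Finset.subset_union_left (f₁ p.1) (Fr₁ p.1),
      pureQ_ext627 (T₂ p.2) (T₁ p.1 ∪ T₂ p.2) Finset.subset_union_right (f₂ p.2) (Fr₂ p.2)]
    exact hconv (T₁ p.1 ∪ T₂ p.2) ((h1.sub p.1).trans Finset.subset_union_left)
      (P51.ext51 (T₁ p.1) (f₁ p.1)) (P51.ext51 (T₂ p.2) (f₂ p.2)) (χ p) (Fr₁ p.1) (Fr₂ p.2)
      (fun v _ => ext51_reg627 lv T₀ (T₁ p.1) hlv (h1.sub p.1) (f₁ p.1) (h1.reg p.1) v)
      (fun v _ => ext51_reg627 lv T₀ (T₂ p.2) hlv (h2.sub p.2) (f₂ p.2) (h2.reg p.2) v)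
      (hχ p) (h1.arch p.1).1 (h1.arch p.1).2 (h2.arch p.2).1 (h2.arch p.2).2 h
  have hRe : ∀ (p : Ω₁ × Ω₂) (h : G ℚ),
      pureQ298 (T₁ p.1 ∪ T₂ p.2) (χ p)
          (@T6.convInt _ _ (borel _) μr (Fr₁ p.1) (Fr₂ p.2)) h
        = (c : ℂ)⁻¹ * T5.conv μ (pureQ298 (T₁ p.1) (f₁ p.1) (Fr₁ p.1))
            (pureQ298 (T₂ p.2) (f₂ p.2) (Fr₂ p.2)) h := by
    intro p h
    rw [key p h, inv_mul_cancel_left₀ hcC]
  obtain ⟨hI, hcont, C, hC, hsupp⟩ :=
    H724.convAvgC724 ℚ μ hμ Ω₁ inferInstance inferInstance inferInstance inferInstance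
      inferInstance inferInstance ν₁ inferInstance Ω₂ inferInstance inferInstance inferInstance
      inferInstance inferInstance inferInstance ν₂ inferInstance
      (fun a => pureQ298 (T₁ a) (f₁ a) (Fr₁ a)) (fun b => pureQ298 (T₂ b) (f₂ b) (Fr₂ b))
      h1.cont h2.cont h1.supp h2.supp
  refine ⟨fun p => ?_, ?_, ⟨C, hC, fun p h hne => ?_⟩, fun h => ?_⟩
  · have ht := isTestFn_smul627 (c : ℂ)⁻¹
      (H872.isTestFn_conv872 hμ h𝔫 (h1.test p.1) (h2.test p.2))
    have e : pureQ298 (T₁ p.1 ∪ T₂ p.2) (χ p)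
          (@T6.convInt _ _ (borel _) μr (Fr₁ p.1) (Fr₂ p.2))
        = fun h => (c : ℂ)⁻¹ * T5.conv μ (pureQ298 (T₁ p.1) (f₁ p.1) (Fr₁ p.1))
            (pureQ298 (T₂ p.2) (f₂ p.2) (Fr₂ p.2)) h := funext (hRe p)
    rw [e]
    exact ht
  · have e : (fun q : (Ω₁ × Ω₂) × G ℚ =>
          pureQ298 (T₁ q.1.1 ∪ T₂ q.1.2) (χ q.1)
            (@T6.convInt _ _ (borel _) μr (Fr₁ q.1.1) (Fr₂ q.1.2)) q.2)
        = fun q : (Ω₁ × Ω₂) × G ℚ =>
          (c : ℂ)⁻¹ * T5.conv μ (pureQ298 (T₁ q.1.1) (f₁ q.1.1) (Fr₁ q.1.1))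
            (pureQ298 (T₂ q.1.2) (f₂ q.1.2) (Fr₂ q.1.2)) q.2 :=
      funext fun q => hRe q.1 q.2
    rw [e]
    exact continuous_const.mul hcont
  · refine hsupp p h fun h0 => hne ?_
    rw [hRe p h, h0, mul_zero]
  · rw [hI h]
    have hsm := integral_smul_nnreal_measure (μ := ν₁.prod ν₂)
      (fun p : Ω₁ × Ω₂ => pureQ298 (T₁ p.1 ∪ T₂ p.2) (χ p)
        (@T6.convInt _ _ (borel _) μr (Fr₁ p.1) (Fr₂ p.2)) h) (⟨c, hc.le⟩ : NNReal)
    rw [hsm]
    have e : (fun x : Ω₁ × Ω₂ =>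
          T5.conv μ (pureQ298 (T₁ x.1) (f₁ x.1) (Fr₁ x.1))
            (pureQ298 (T₂ x.2) (f₂ x.2) (Fr₂ x.2)) h)
        = fun x : Ω₁ × Ω₂ => (c : ℂ) * pureQ298 (T₁ x.1 ∪ T₂ x.2) (χ x)
            (@T6.convInt _ _ (borel _) μr (Fr₁ x.1) (Fr₂ x.2)) h :=
      funext fun x => key x h
    rw [e, integral_const_mul]
    have hs : ∀ z : ℂ, (⟨c, hc.le⟩ : NNReal) • z = (c : ℂ) * z := fun z => by
      show ((⟨c, hc.le⟩ : NNReal) : ℝ) • z = _
      rw [Complex.real_smul]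
    exact (hs _).symm

end Fermat.Agent.LT.T7.H627

end

end
-- ===== PACK-END LT/T7/H627/ConvFamQ.lean

-- ===== PACK-BEGIN LT/T7/H575/RegOpQ.lean
section





/-!
# Row LT, tower T7, leaf T7.L2Q.1.H2b.4.G2.6 `PQ563.RegOpQC563` (helper575, registry row 3056)

OFF-MAIN.  No hole, nothing assumed.

    regOpQC575 (F) : PQ563.RegOpQC563 F

VERBATIM vs `T7/H563/ConvAvgQSpec.lean` (helper563, sha256 e7c4d784).  Port over `ℚ` of the
proof of the twin `P51.RegOpC51` (helper448, `T7/H448/RegOp.lean`).  The components of a pure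
tensor of the shape `LocOpQ563` are regular at the places of `T` and at infinity:

* bad places (`v ∈ T₀`, `v ≠ u`): the clauses `inv_up`, `inv_down` of the `LocHypQb801`
  contained in `LocBQ801` (double coset functions upstairs, the partner downstairs);
* the place `u` and the two places over it: `regLoc51` of the Iwahori function and the Iwahori
  function are bi-invariant under the Iwahori subgroup with finite support (helper409,
  `isIwReg_regLoc409`, `isIwReg_iwFn409`), and `U(n) ⊆ I` for `n ≥ 1` (`one_le_level409`);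
* outside the level: the levels vanish (`levelAtC644`, helper644) and spherical functions are
  bi-`GL₂(𝒪)`-invariant with finite support (`sphInvC333`, helper333);
* at infinity: the clause `ArchOkQ801` of `LocBQ801` (test functions).
-/

set_option autoImplicit false

open AutomorphicForm IsDedekindDomain NumberField MeasureTheory
open scoped ComplexConjugate

noncomputable section

namespace Fermat.Agent.LT.T7.H575

open Fermat.Agent.LT.H556 Fermat.Agent.LT.H556.A0 Fermat.Agent.LT.T7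
open Fermat.Agent.LT.T7.H305 Fermat.Agent.LT.T7.H893 Fermat.Agent.LT.T7.P51
open Fermat.Agent.LT.T7.H409 Fermat.Agent.LT.T7.L2Q Fermat.Agent.LT.T7.H962
open Fermat.Agent.LT.T7.H732 Fermat.Agent.LT.T7.MQ298 Fermat.Agent.LT.T7.CQ801
open Fermat.Agent.LT.T7.PQ563

variable (F : Type) [Field F] [NumberField F]

/-- **LEAF PS.G2.6 = REG-OP over `ℚ` of helper563's cut of `ProdMtQC801`: PROVED.** -/
theorem regOpQC575 : Fermat.Agent.LT.T7.PQ563.RegOpQC563 F := by
  classical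
  intro Φ B g 𝔫 μr μc T₀ n n₀ m hctx H' z' H z hsys c k j T φ₀ Φ' f₀ F0 F1 hT hop
  obtain ⟨φ₂, f₂, hB, hbad, hfu, hφ0, hφ1, hout⟩ := hop
  obtain ⟨⟨Φd, F0d, F1d, hLH⟩, -, -, -, hsph, harch⟩ := hB
  obtain ⟨hΦ', hF0, hF1, -⟩ := harch
  have hfu' : f₀ B.u = regLoc51 B.u z H k j iwFn893 := hfu
  have hφ0' : φ₀ (B.o 0) = regLoc51 (B.o 0) z' H' k j iwFn893 := hφ0
  have hφ1' : φ₀ (B.o 1) = iwFn893 := hφ1
  have hlev : IsLevelAt305 T₀ n m :=
    Fermat.Agent.LT.T7.H644.levelAtC644 ℚ F 𝔫 T₀ n m hctx.mem_T₀ hctx.lev_m hctx.lev_n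
  have hup : upI (K' := F) 𝔫 ≠ ⊥ := by
    show Ideal.map (algebraMap (𝓞 ℚ) (𝓞 F)) 𝔫 ≠ ⊥
    intro h0
    exact hsys.level_ne ((Ideal.map_eq_bot_iff_of_injective
      (FaithfulSMul.algebraMap_injective (𝓞 ℚ) (𝓞 F))).mp h0)
  refine ⟨fun v hv => ?_, fun w => ⟨(hΦ' w).cont, (hΦ' w).supp⟩,
    ⟨hF0.cont, hF0.supp⟩, ⟨hF1.cont, hF1.supp⟩⟩
  by_cases hv0 : v ∈ T₀
  · by_cases hvu : v = B.u
    · -- the place `u` and the two places over it
      subst hvu
      refine ⟨fun w hw => ?_, ?_⟩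
      · obtain ⟨i, hi, rfl⟩ := hctx.base.orbit_all w hw
        have hn1 : 1 ≤ n (B.o i) :=
          one_le_level409 hup hctx.lev_n
            ((hsys.mem_S'_g (B.o i)).mp (hctx.base.orbit_level i))
        have hreg : IsIwReg409 (B.o i) (n (B.o i)) (φ₀ (B.o i)) := by
          interval_cases i
          · rw [hφ0']
            exact isIwReg_regLoc409 _ hsys.sys' hsys.unif' k j
          · rw [hφ1']
            exact isIwReg_iwFn409 _
        exact ⟨isBiInv_of_isIwReg409 hn1 hreg, hreg.2.2⟩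
      · have hm1 : 1 ≤ m B.u := one_le_level409 hsys.level_ne hctx.lev_m hsys.u_level
        have hreg : IsIwReg409 B.u (m B.u) (f₀ B.u) := by
          rw [hfu']
          exact isIwReg_regLoc409 _ hsys.sys hsys.unif k j
        exact ⟨isBiInv_of_isIwReg409 hm1 hreg, hreg.2.2⟩
    · -- the bad places
      obtain ⟨hf, hφ⟩ := hbad v hv0 hvu
      refine ⟨fun w hw => ?_, ?_⟩
      · rw [hφ w hw]
        exact hLH.inv_up v (Finset.mem_erase.2 ⟨hvu, hv0⟩) w hw
      · rw [hf]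
        exact hLH.inv_down v (Finset.mem_erase.2 ⟨hvu, hv0⟩)
  · -- outside the level
    obtain ⟨hf, hφ⟩ := hout v hv hv0
    obtain ⟨A, Av, hAv, hA, -, -⟩ := hsph v hv hv0
    refine ⟨fun w hw => ?_, ?_⟩
    · rw [hφ w hw, hlev.2 v w hv0 hw]
      exact Fermat.Agent.LT.T7.H333.sphInvC333 F w (φ₂ w) (A w) (hA w hw)
    · rw [hf, hlev.1 v hv0]
      exact Fermat.Agent.LT.T7.H333.sphInvC333 ℚ v (f₂ v) Av hAv

end Fermat.Agent.LT.T7.H575

end

end
-- ===== PACK-END LT/T7/H575/RegOpQ.lean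

-- ===== PACK-BEGIN LT/T7/H777/SphProdQ.lean
section






/-!
# Row LT, tower T7, leaf T7.L2Q.1.H2b.4.L3 `PQ563.SphProdQC563 F` (helper777, registry row 2970)

OFF-MAIN.  VERBATIM against `LT/T7/H563/ProdShapeQSpec.lean` (helper563@681304ae1, sha256
`110115a8f6c324c9`).  ADDITIVE (new names only, all suffixed `777`).

    sphProdQC777 (F) : PQ563.SphProdQC563 F

Proof.  At a place `v ∈ T ∖ T₀` the components of the products are the convolutions
(`T6.IsConv (InU 0)`) of the components of the two triples, extended by the unit `1_{GL₂(𝒪)}`.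
* The convolution of two spherical functions is spherical and its Satake transform is the product
  (`sphConv777`; T3 asset of helper681: `sph_pair681`, `conv_pair_coef681`,
  `exists_sph_of_biinv681`, `sph_sum_eq_laurent681`, `laurent_convCoef681`).
* The unit is spherical with Satake transform `1` (`unitSph777`).
* `N w = (N v)²` at an unramified place with one place over it, `N w = N v` at a place with two
  places over it (`PlacesCore` of helper664); the places outside `T₀` are unramified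
  (`UnramCore` of helper270: only `3` ramifies in `ℚ(√-3)`).
-/

set_option autoImplicit false
set_option linter.unusedSectionVars false
set_option linter.unusedVariables false

open AutomorphicForm IsDedekindDomain NumberField MeasureTheory

noncomputable section

namespace Fermat.Agent.LT.T7.H777

open Fermat.Agent.LT.H556 Fermat.Agent.LT.H556.A0 Fermat.Agent.LT.T7 Fermat.Agent.LT.T7.H305
  Fermat.Agent.LT.T7.H893

/-! ## 1. Convolution of spherical functions (local, at a finite place of a number field) -/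

section Local

open Fermat.Agent.LT.T6 Fermat.Agent.LT.T6.H305 Fermat.Agent.LT.T3.AS Fermat.Agent.LT.T3.H263
  Fermat.Agent.LT.T3.H681

variable {K : Type} [Field K] [NumberField K]

/-- The Satake transform in the form of `H893.satT893` (by definition). -/
theorem satT_def777 (q : ℕ) (A : (ℤ × ℤ) →₀ ℂ) (x y : ℂ) :
    satT893 q A x y = A.sum fun lam c => c * satake q lam x y := rfl

/-- **The convolution of two spherical functions is spherical, and its Satake transform is the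
product.** -/
theorem sphConv777 (v : HeightOneSpectrum (𝓞 K)) (A₁ A₂ : (ℤ × ℤ) →₀ ℂ)
    (h₁ : IsDominant A₁) (h₂ : IsDominant A₂)
    (φ ψ χ : GL (Fin 2) (v.adicCompletion K) → ℂ)
    (hφ : ∀ g, φ g = A₁ (cartan g)) (hψ : ∀ g, ψ g = A₂ (cartan g))
    (hc : IsConv (InU 0) φ ψ χ) :
    ∃ A : (ℤ × ℤ) →₀ ℂ, IsDominant A ∧ (∀ g, χ g = A (cartan g)) ∧
      ∀ x y : ℂ, x ≠ 0 → y ≠ 0 →
        satT893 (Ideal.absNorm v.asIdeal) A x y
          = satT893 (Ideal.absNorm v.asIdeal) A₁ x y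
            * satT893 (Ideal.absNorm v.asIdeal) A₂ x y := by
  have eφ : φ = fun g => A₁ (cartan g) := funext hφ
  have eψ : ψ = fun g => A₂ (cartan g) := funext hψ
  obtain ⟨B₁, hB₁, hp₁, hL₁⟩ := sph_pair681 v A₁ h₁
  obtain ⟨B₂, hB₂, hp₂, hL₂⟩ := sph_pair681 v A₂ h₂
  rw [← eφ] at hp₁
  rw [← eψ] at hp₂
  have hpair : IsSatakePair v χ (convCoef681 B₁ B₂) :=
    conv_pair_coef681 v φ ψ χ B₁ B₂ hB₁.1 hB₂.1 hp₁.bi_inv hp₁.fin_supp hp₁.eigen
      hp₂.bi_inv hp₂.fin_supp hp₂.eigen hc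
  obtain ⟨D, hD⟩ := exists_resData (Fermat.Agent.LT.T6.H176.instLocalC176 K v)
  obtain ⟨R, hR⟩ := hpair.fin_supp
  obtain ⟨A, hA, e⟩ := exists_sph_of_biinv681 D (linv_of_biInt681 v hpair.bi_inv)
    (rinv_of_biInt681 v hpair.bi_inv) R ((isRepSys_iff263 v χ R).1 hR)
  refine ⟨A, hA, fun g => congrFun e g, fun x y hx hy => ?_⟩
  have heig : HasSatakeEigen v (fun g => A (cartan g)) (convCoef681 B₁ B₂) := by
    rw [← e]
    exact hpair.eigen
  rw [satT_def777, satT_def777, satT_def777,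
    sph_sum_eq_laurent681 v A hA (convCoef681 B₁ B₂) heig x y hx hy,
    laurent_convCoef681 B₁ B₂ hB₁.1 hB₂.1 x y hx hy, hL₁ x y hx hy, hL₂ x y hx hy]

end Local

/-! ## 2. The unit -/

section Unit

open Fermat.Agent.LT.T6 Fermat.Agent.LT.T6.H305 Fermat.Agent.LT.T3.H263
  Fermat.Agent.LT.T3.H681

variable {k : Type} [Field k] [Valued k Γ₀]

/-- `GL₂(𝒪)` is the Cartan class `(0, 0)`. -/
theorem inU_zero_iff_cartan777 (g : GL (Fin 2) k) : InU 0 g ↔ cartan g = (0, 0) := by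
  rw [inU_zero_iff, inK_iff, cartan_iff_log681]
  have hL := log_det_le681 g
  constructor
  · rintro ⟨h1, h2⟩
    have e1 : WithZero.log (Valued.v (g : Matrix (Fin 2) (Fin 2) k).det) = 0 := by
      rw [h2, WithZero.log_one]
    have e2 : entryMax g ≤ 1 := (entryMax_le_iff g 1).2 h1
    have e3 : WithZero.log (entryMax g) ≤ 0 := by
      have := (WithZero.log_le_log (entryMax_ne_zero g) one_ne_zero).2 e2
      rwa [WithZero.log_one] at this
    constructor <;> omega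
  · rintro ⟨h1, h2⟩
    have e1 : WithZero.log (entryMax g) = 0 := by omega
    have e2 : WithZero.log (Valued.v (g : Matrix (Fin 2) (Fin 2) k).det) = 0 := by omega
    have e3 : entryMax g = 1 := by
      rw [← WithZero.exp_log (entryMax_ne_zero g), e1, WithZero.exp_zero]
    have e4 : Valued.v (g : Matrix (Fin 2) (Fin 2) k).det = 1 := by
      rw [← WithZero.exp_log (val_det_ne_zero g), e2, WithZero.exp_zero]
    refine ⟨fun i j => ?_, e4⟩
    rw [← e3]
    exact le_entryMax g i j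

/-- The coefficients of the unit. -/
def unitCoef777 : (ℤ × ℤ) →₀ ℂ := Finsupp.single ((0, 0) : ℤ × ℤ) (1 : ℂ)

theorem unitCoef_dom777 : IsDominant unitCoef777 := by
  intro lam hlam
  have h := Finsupp.support_single_subset hlam
  rw [Finset.mem_singleton] at h
  rw [h]

/-- The unit `1_{GL₂(𝒪)}` is spherical. -/
theorem unitSph777 : IsSphFn893 (unitFn893 0 : GL (Fin 2) k → ℂ) unitCoef777 := by
  refine ⟨unitCoef_dom777, fun x => ?_⟩
  by_cases h : InU 0 x
  · have e1 : (unitFn893 0 : GL (Fin 2) k → ℂ) x = 1 := if_pos h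
    have e2 : cartan x = (0, 0) := (inU_zero_iff_cartan777 x).1 h
    rw [e1, e2]
    exact (Finsupp.single_eq_same).symm
  · have e1 : (unitFn893 0 : GL (Fin 2) k → ℂ) x = 0 := if_neg h
    have e2 : cartan x ≠ (0, 0) := fun hc => h ((inU_zero_iff_cartan777 x).2 hc)
    rw [e1]
    exact (Finsupp.single_eq_of_ne e2).symm

/-- The Satake transform of the unit is `1`. -/
theorem satT_unit777 (q : ℕ) (x y : ℂ) : satT893 q unitCoef777 x y = 1 := by
  show (Finsupp.single ((0, 0) : ℤ × ℤ) (1 : ℂ)).sum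
    (fun lam c => c * satake q lam x y) = 1
  rw [Finsupp.sum_single_index (by rw [zero_mul])]
  show (1 : ℂ) * ((x * y) ^ (0 : ℤ) * satPoly q x y ((0 : ℤ) - 0).toNat) = 1
  rw [zpow_zero, sub_zero, Int.toNat_zero, satPoly_zero, mul_one, mul_one]

end Unit

/-! ## 3. The spherical shape at ONE place -/

section At

variable {F : Type} [Field F] [NumberField F]

/-- The clauses of `H893.SphOut893 2` at the place `v` (by definition). -/
def SphAt777 (v : HeightOneSpectrum (𝓞 ℚ))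
    (X : GL (Fin 2) (v.adicCompletion ℚ) → ℂ)
    (Y : ∀ w : HeightOneSpectrum (𝓞 F), GL (Fin 2) (w.adicCompletion F) → ℂ) : Prop :=
  ∃ (A : HeightOneSpectrum (𝓞 F) → (ℤ × ℤ) →₀ ℂ) (Av : (ℤ × ℤ) →₀ ℂ),
    IsSphFn893 X Av ∧
    (∀ w : HeightOneSpectrum (𝓞 F), PlaceOver ℚ F v w → IsSphFn893 (Y w) (A w)) ∧
    (∀ w : HeightOneSpectrum (𝓞 F), PlaceOver ℚ F v w →
      (∀ w' : HeightOneSpectrum (𝓞 F), PlaceOver ℚ F v w' → w' = w) →
      T6.IsBC 2 (Ideal.absNorm v.asIdeal) (A w) Av) ∧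
    ∀ w : ℕ → HeightOneSpectrum (𝓞 F), (∀ j : ℕ, PlaceOver ℚ F v (w j)) →
      (∀ j j' : ℕ, j < 2 → j' < 2 → w j = w j' → j = j') →
      ∀ x y : ℂ, x ≠ 0 → y ≠ 0 →
        satT893 (Ideal.absNorm v.asIdeal) Av x y
          = ∏ j ∈ Finset.range 2, satT893 (Ideal.absNorm v.asIdeal) (A (w j)) x y

theorem sphOut_iff777 (T₀ T : Finset (HeightOneSpectrum (𝓞 ℚ)))
    (φ₀ : ∀ w : HeightOneSpectrum (𝓞 F), GL (Fin 2) (w.adicCompletion F) → ℂ)
    (f₀ : ∀ v : HeightOneSpectrum (𝓞 ℚ), GL (Fin 2) (v.adicCompletion ℚ) → ℂ) :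
    SphOut893 (K := ℚ) (K' := F) 2 T₀ T φ₀ f₀ ↔ ∀ v ∈ T, v ∉ T₀ → SphAt777 v (f₀ v) φ₀ :=
  Iff.rfl

/-- The unit components are spherical and matched. -/
theorem sphAt_unit777 (v : HeightOneSpectrum (𝓞 ℚ)) :
    SphAt777 (F := F) v (unitFn893 0) (fun _ => unitFn893 0) := by
  refine ⟨fun _ => unitCoef777, unitCoef777, unitSph777, fun w _ => unitSph777,
    fun w _ _ x y _ _ => ?_, fun w _ _ x y _ _ => ?_⟩
  · have e1 := satT_unit777 (Ideal.absNorm v.asIdeal) x y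
    have e2 := satT_unit777 (Ideal.absNorm v.asIdeal ^ 2) (x ^ 2) (y ^ 2)
    rw [satT_def777] at e1 e2
    rw [e1, e2]
  · show satT893 (Ideal.absNorm v.asIdeal) unitCoef777 x y
      = ∏ j ∈ Finset.range 2, satT893 (Ideal.absNorm v.asIdeal) unitCoef777 x y
    rw [satT_unit777, Finset.prod_const_one]

/-- **The products of spherical matched components are spherical and matched.** -/
theorem sphAt_conv777 (hfin : Module.finrank ℚ F = 2) (v : HeightOneSpectrum (𝓞 ℚ))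
    (hunr : ∀ w : HeightOneSpectrum (𝓞 F), PlaceOver ℚ F v w →
      ∃ x : 𝓞 ℚ, x ∈ v.asIdeal ∧ algebraMap (𝓞 ℚ) (𝓞 F) x ∉ w.asIdeal ^ 2)
    (X₁ X₂ X : GL (Fin 2) (v.adicCompletion ℚ) → ℂ)
    (Y₁ Y₂ Y : ∀ w : HeightOneSpectrum (𝓞 F), GL (Fin 2) (w.adicCompletion F) → ℂ)
    (h₁ : SphAt777 v X₁ Y₁) (h₂ : SphAt777 v X₂ Y₂)
    (hX : T6.IsConv (T6.InU 0) X₁ X₂ X)
    (hY : ∀ w : HeightOneSpectrum (𝓞 F), PlaceOver ℚ F v w →
      T6.IsConv (T6.InU 0) (Y₁ w) (Y₂ w) (Y w)) :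
    SphAt777 v X Y := by
  obtain ⟨A₁, Av₁, s₁, u₁, i₁, p₁⟩ := h₁
  obtain ⟨A₂, Av₂, s₂, u₂, i₂, p₂⟩ := h₂
  obtain ⟨Av, hAv, eAv, mAv⟩ := sphConv777 v Av₁ Av₂ s₁.1 s₂.1 X₁ X₂ X s₁.2 s₂.2 hX
  have hex : ∀ w : HeightOneSpectrum (𝓞 F), ∃ Aw : (ℤ × ℤ) →₀ ℂ, PlaceOver ℚ F v w →
      (T6.IsDominant Aw ∧ (∀ g, Y w g = Aw (T6.cartan g)) ∧
        ∀ x y : ℂ, x ≠ 0 → y ≠ 0 →
          satT893 (Ideal.absNorm w.asIdeal) Aw x y
            = satT893 (Ideal.absNorm w.asIdeal) (A₁ w) x y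
              * satT893 (Ideal.absNorm w.asIdeal) (A₂ w) x y) := by
    intro w
    by_cases hw : PlaceOver ℚ F v w
    · obtain ⟨Aw, h1, h2, h3⟩ := sphConv777 w (A₁ w) (A₂ w) (u₁ w hw).1 (u₂ w hw).1
        (Y₁ w) (Y₂ w) (Y w) (u₁ w hw).2 (u₂ w hw).2 (hY w hw)
      exact ⟨Aw, fun _ => ⟨h1, h2, h3⟩⟩
    · exact ⟨0, fun h => absurd h hw⟩
  choose A hA using hex
  refine ⟨A, Av, ⟨hAv, eAv⟩, fun w hw => ⟨(hA w hw).1, (hA w hw).2.1⟩, ?_, ?_⟩
  · -- the inert clause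
    intro w hw huniq x y hx hy
    have hq : Ideal.absNorm w.asIdeal = Ideal.absNorm v.asIdeal ^ 2 := by
      rw [H664.absNorm_eq664 v w hw, H664.inertia_of_unique664 hw (hunr w hw) huniq, hfin]
    have e1 := i₁ w hw huniq x y hx hy
    have e2 := i₂ w hw huniq x y hx hy
    have e3 := (hA w hw).2.2 (x ^ 2) (y ^ 2) (pow_ne_zero 2 hx) (pow_ne_zero 2 hy)
    have e4 := mAv x y hx hy
    rw [hq] at e3
    rw [satT_def777, satT_def777, satT_def777] at e3 e4
    rw [e4, e1, e2, e3]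
  · -- the split clause
    intro w hw hinj x y hx hy
    have hq : ∀ j : ℕ, Ideal.absNorm (w j).asIdeal = Ideal.absNorm v.asIdeal := by
      intro j
      have hinj' : ∀ a b : ℕ, a < Module.finrank ℚ F → b < Module.finrank ℚ F →
          w a = w b → a = b := by
        rw [hfin]
        exact hinj
      rw [H664.absNorm_eq664 v (w j) (hw j),
        (H664.inertia_of_split664 (hw j) w hw hinj').1, pow_one]
    rw [mAv x y hx hy, p₁ w hw hinj x y hx hy, p₂ w hw hinj x y hx hy,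
      ← Finset.prod_mul_distrib]
    refine Finset.prod_congr rfl (fun j _ => ?_)
    have e := (hA (w j) (hw j)).2.2 x y hx hy
    rw [hq j] at e
    exact e.symm

end At

/-! ## 4. The leaf -/

section Leaf

variable {F : Type} [Field F] [NumberField F]

/-- The places outside the level are unramified in `F = ℚ(√-3)` (the argument of helper270
`unramQC270`, in the context of the leaf). -/
theorem unram_out777 {Φ : HeckeEigensystem F ℂ} {B : L2Q.H60.L2QBase F} {𝔫 : Ideal (𝓞 ℚ)}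
    {T₀ : Finset (HeightOneSpectrum (𝓞 ℚ))}
    (hs : HasSqrtNegThree F) (hq : IsImagQuad F) (hB : L2Q.H60.IsL2QBase Φ B)
    (hR : L2Q.H60.IsRamQ60 B)
    (hT₀ : ∀ v : HeightOneSpectrum (𝓞 ℚ), v ∈ T₀ ↔ v.asIdeal ∣ 𝔫)
    (hS' : ∀ w : HeightOneSpectrum (𝓞 F), w ∈ B.S' ↔ w.asIdeal ∣ upI (K' := F) 𝔫)
    (v : HeightOneSpectrum (𝓞 ℚ)) (hv : v ∉ T₀)
    (w : HeightOneSpectrum (𝓞 F)) (hvw : PlaceOver ℚ F v w) :
    ∃ x : 𝓞 ℚ, x ∈ v.asIdeal ∧ algebraMap (𝓞 ℚ) (𝓞 F) x ∉ w.asIdeal ^ 2 := by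
  obtain ⟨p, hp, hpv⟩ := H732.exists_prime_mem_place732 v
  have hpw : ((p : ℕ) : 𝓞 F) ∈ w.asIdeal := H732.natCast_mem_of_placeOver732 hvw hpv
  have hwS : w ∉ B.S' := by
    intro hw
    have hdvd : w.asIdeal ∣ upI (K' := F) 𝔫 := (hS' w).1 hw
    have hle : upI (K' := F) 𝔫 ≤ w.asIdeal := Ideal.le_of_dvd hdvd
    apply hv
    rw [hT₀ v, Ideal.dvd_iff_le]
    intro x hx
    have hxw : algebraMap (𝓞 ℚ) (𝓞 F) x ∈ w.asIdeal := hle (Ideal.mem_map_of_mem _ hx)
    exact (hvw x (algebraMap (𝓞 ℚ) (𝓞 F) x) rfl).2 hxw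
  have hp3 : p ≠ 3 := by
    intro h3
    have h3S : p ∈ B.S := by
      rw [h3]
      exact hR
    exact hwS (L2Q.H60.full_of_isL2QBase60 hB p hp h3S w hpw)
  refine ⟨((p : ℕ) : 𝓞 ℚ), hpv, ?_⟩
  rw [map_natCast]
  exact H270.natCast_not_mem_sq270 hs hq.1 hq.2 w.asIdeal w.isPrime p hp hp3

/-- A factor: the component of a triple with the spherical shape, extended by the unit. -/
theorem sphAt_factor777 (T₀ T' : Finset (HeightOneSpectrum (𝓞 ℚ)))
    (φ' : ∀ w : HeightOneSpectrum (𝓞 F), GL (Fin 2) (w.adicCompletion F) → ℂ)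
    (f' : ∀ v : HeightOneSpectrum (𝓞 ℚ), GL (Fin 2) (v.adicCompletion ℚ) → ℂ)
    (h : SphOut893 (K := ℚ) (K' := F) 2 T₀ T' φ' f')
    (v : HeightOneSpectrum (𝓞 ℚ)) (hv : v ∉ T₀) (d : Decidable (v ∈ T')) :
    SphAt777 v (if v ∈ T' then f' v else unitFn893 0)
      (fun w => if v ∈ T' then φ' w else unitFn893 0) := by
  by_cases hm : v ∈ T'
  · have e1 : (if v ∈ T' then f' v else unitFn893 0) = f' v := if_pos hm
    have e2 : (fun w : HeightOneSpectrum (𝓞 F) =>
        if v ∈ T' then φ' w else (unitFn893 0 : GL (Fin 2) (w.adicCompletion F) → ℂ)) = φ' :=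
      funext fun w => if_pos hm
    rw [e1, e2]
    exact h v hm hv
  · have e1 : (if v ∈ T' then f' v else unitFn893 0) = unitFn893 0 := if_neg hm
    have e2 : (fun w : HeightOneSpectrum (𝓞 F) =>
        if v ∈ T' then φ' w else (unitFn893 0 : GL (Fin 2) (w.adicCompletion F) → ℂ))
        = fun _ => unitFn893 0 :=
      funext fun w => if_neg hm
    rw [e1, e2]
    exact sphAt_unit777 v

/-- **LEAF T7.L2Q.1.H2b.4.L3 = SPH-PROD over `ℚ`** (`PQ563.SphProdQC563 F`, VERBATIM). -/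
theorem sphProdQC777 (F : Type) [Field F] [NumberField F] : PQ563.SphProdQC563 F := by
  intro Φ B g 𝔫 μr μc c T₀ n n₀ m H' z' H z t lam k j T φ₀ Φ' f₀ F0 F1 hyp
  obtain ⟨hctx, hsys, -, -, -, hprod⟩ := hyp
  obtain ⟨T₁, T₂, φ₁, Φ₁, f₁, F0₁, F1₁, φ₂, Φ₂, f₂, F0₂, F1₂, hT, hT₁, hT₂, hA, hB, -, -, -, -,
    hout, -⟩ := hprod
  obtain ⟨-, -, hS₁, -⟩ := hA
  obtain ⟨-, -, -, -, hS₂, -⟩ := hB
  have hfin : Module.finrank ℚ F = 2 := H270.finrank_eq_two270 hctx.quad.1 hctx.quad.2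
  intro v hvT hv0
  obtain ⟨hX, hY⟩ := hout v hvT hv0
  have hunr := unram_out777 hctx.sqrt hctx.quad hctx.base hctx.ram hctx.mem_T₀ hsys.mem_S'_g v hv0
  exact sphAt_conv777 hfin v hunr _ _ _ _ _ _
    (sphAt_factor777 T₀ T₁ φ₁ f₁ hS₁ v hv0 _) (sphAt_factor777 T₀ T₂ φ₂ f₂ hS₂ v hv0 _) hX hY

end Leaf

end Fermat.Agent.LT.T7.H777

end

end
-- ===== PACK-END LT/T7/H777/SphProdQ.lean

-- ===== PACK-BEGIN LT/T7/H563/RegAQ.lean
section






/-!
# Row LT, tower T7, leaf T7.L2Q.1.H2b.4.G2.5 `PQ563.RegAQC563` (registry row 3055): SPARE proof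
# (helper563; port over `ℚ` of `H869.regAC_of869` of helper869)

OFF-MAIN.  No hole, nothing assumed.  ADDITIVE.

    regAQC_h563 (F) : PQ563.RegAQC563 F                              (VERBATIM, UNCONDITIONAL)

The components of the shape `LocAQ801 c` are the unit functions at the places of the level
(`unitRegC644`), spherical functions outside the level, where the exponents of the levels
vanish (`levelAtC627`, `sphInvC315`), and test functions at infinity (`ArchOkQ801`).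
-/

set_option autoImplicit false

open AutomorphicForm IsDedekindDomain NumberField MeasureTheory

noncomputable section

namespace Fermat.Agent.LT.T7.PQ563

open Fermat.Agent.LT.H556 Fermat.Agent.LT.H556.A0 Fermat.Agent.LT.T7 Fermat.Agent.LT.T7.H305
  Fermat.Agent.LT.T7.L2Q Fermat.Agent.LT.T7.H893 Fermat.Agent.LT.T7.H962
  Fermat.Agent.LT.T7.H732 Fermat.Agent.LT.T7.MQ298 Fermat.Agent.LT.T7.CQ801

/-- **`RegAQC563`, closed.** -/
theorem regAQC_h563 (F : Type) [Field F] [NumberField F] : RegAQC563 F := by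
  intro Φ B g 𝔫 μr μc T₀ n n₀ m hctx c T φ₀ Φ' f₀ F0 F1 _hT hA
  obtain ⟨hunit_dn, hunit_up, hsph, harch⟩ := hA
  have hlev := T7.H627.levelAtC627 ℚ F 𝔫 T₀ n m hctx.mem_T₀ hctx.lev_m hctx.lev_n
  refine ⟨?_, ?_, ?_, ?_⟩
  · intro v hv
    by_cases hv0 : v ∈ T₀
    · refine ⟨fun w hw => ?_, ?_⟩
      · rw [hunit_up v hv0 w hw]
        exact T7.H644.unitRegC644 (w.adicCompletion F) (n w)
      · rw [hunit_dn v hv0]
        exact T7.H644.unitRegC644 (v.adicCompletion ℚ) (m v)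
    · obtain ⟨A, Av, hf, hφ, -, -⟩ := hsph v hv hv0
      refine ⟨fun w hw => ?_, ?_⟩
      · rw [hlev.2 v w hv0 hw]
        exact T7.H315.sphInvC315 F w (φ₀ w) (A w) (hφ w hw)
      · rw [hlev.1 v hv0]
        exact T7.H315.sphInvC315 ℚ v (f₀ v) Av hf
  · intro w
    exact ⟨(harch.1 w).cont, (harch.1 w).supp⟩
  · exact ⟨harch.2.1.cont, harch.2.1.supp⟩
  · exact ⟨harch.2.2.1.cont, harch.2.2.1.supp⟩

end Fermat.Agent.LT.T7.PQ563

end

end
-- ===== PACK-END LT/T7/H563/RegAQ.lean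

-- ===== PACK-BEGIN LT/T7/H102/TrPure.lean
section



/-!
# Row LT, tower T7, leaf PT.4 = TR-PURE (registry row 2802, helper102)

`trPureC102 K : PT563.TrPureC563 K` and `trPureQC102 : PT563.TrPureQC563`, VERBATIM against
`T7/H563/PTSpec.lean` (helper563@d74a8461a, sha256 c4658dddcfd9e138).

The left translate of a pure tensor by an element `b` which is integral with integral inverse
outside `T` is the pure tensor of the translated components: the components are monoid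
homomorphisms, and `OutT305 T (b⁻¹ y) ↔ OutT305 T y` because the integral matrices at a finite
place are closed under products.  OFF-MAIN, additive; the definitions of the Spec are unfolded
by `rfl` only (no equation lemma of a foreign definition is realised here).
-/

set_option autoImplicit false

open AutomorphicForm IsDedekindDomain NumberField

noncomputable section

namespace Fermat.Agent.LT.T7.H102

open Fermat.Agent.LT.H556 Fermat.Agent.LT.H556.A0 Fermat.Agent.LT.T7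
  Fermat.Agent.LT.T7.H305 Fermat.Agent.LT.T7.MQ298

section OneField

variable {K : Type} [Field K] [NumberField K]

/-- The component at a finite place is multiplicative. -/
theorem finComp_mul102 (v : HeightOneSpectrum (𝓞 K)) (g h : G K) :
    finComp v (g * h) = finComp v g * finComp v h := by
  have e : ∀ x : G K, finComp v x
      = (x : Matrix (Fin 2) (Fin 2) (Adl K)).map (Fermat.Agent.LT.T5.finHom v) := fun _ => rfl
  rw [e, e, e, Units.val_mul, Matrix.map_mul]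

/-- Integral matrices at `v` are closed under products. -/
theorem isIntegralAt_mul102 (v : HeightOneSpectrum (𝓞 K)) {g h : G K}
    (hg : IsIntegralAt v g) (hh : IsIntegralAt v h) : IsIntegralAt v (g * h) := by
  intro i j
  rw [finComp_mul102, Matrix.mul_apply]
  exact Subring.sum_mem _ fun k _ => Subring.mul_mem _ (hg i k) (hh k j)

/-- `OutT305 T` is closed under products. -/
theorem outT_mul102 (T : Finset (HeightOneSpectrum (𝓞 K))) {g h : G K}
    (hg : OutT305 T g) (hh : OutT305 T h) : OutT305 T (g * h) := by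
  intro v hv
  refine ⟨isIntegralAt_mul102 v (hg v hv).1 (hh v hv).1, ?_⟩
  rw [mul_inv_rev]
  exact isIntegralAt_mul102 v (hh v hv).2 (hg v hv).2

/-- `OutT305 T` is closed under inverses. -/
theorem outT_inv102 (T : Finset (HeightOneSpectrum (𝓞 K))) {g : G K}
    (hg : OutT305 T g) : OutT305 T g⁻¹ := by
  intro v hv
  refine ⟨(hg v hv).2, ?_⟩
  rw [inv_inv]
  exact (hg v hv).1

/-- Left translation by an element of `OutT305 T` does not change `OutT305 T`. -/
theorem outT_inv_mul_iff102 (T : Finset (HeightOneSpectrum (𝓞 K))) {b : G K}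
    (hb : OutT305 T b) (y : G K) : OutT305 T (b⁻¹ * y) ↔ OutT305 T y := by
  constructor
  · intro h
    have := outT_mul102 T hb h
    rwa [mul_inv_cancel_left] at this
  · intro h
    exact outT_mul102 T (outT_inv102 T hb) h

end OneField

open Classical in
/-- **LEAF PT.4 = TR-PURE**, verbatim. -/
theorem trPureC102 (K : Type) [Field K] [NumberField K] : PT563.TrPureC563 K := by
  intro T b hb f₀ F y
  have key : ∀ (f : ∀ v : HeightOneSpectrum (𝓞 K), GL (Fin 2) (v.adicCompletion K) → ℂ)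
      (Φ : InfinitePlace K → GL (Fin 2) ℂ → ℂ) (h : G K),
      pure305 T f Φ h = if OutT305 T h then
        (∏ v ∈ T, f v (finGL305 v h)) * ∏ w : InfinitePlace K, Φ w (infGL305 w h)
      else 0 := fun _ _ _ => rfl
  rw [key, key]
  by_cases hy : OutT305 T y
  · rw [if_pos hy, if_pos ((outT_inv_mul_iff102 T hb y).mpr hy)]
    simp only [map_mul, map_inv]
  · rw [if_neg hy, if_neg (fun h => hy ((outT_inv_mul_iff102 T hb y).mp h))]

open Classical in
/-- **LEAF PT.4Q = TR-PURE over `ℚ`**, verbatim. -/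
theorem trPureQC102 : PT563.TrPureQC563 := by
  intro T b hb f₀ F y
  have key : ∀ (f : ∀ v : HeightOneSpectrum (𝓞 ℚ), GL (Fin 2) (v.adicCompletion ℚ) → ℂ)
      (Φ : GL (Fin 2) ℝ → ℂ) (h : G ℚ),
      pureQ298 T f Φ h = if OutT305 T h then
        (∏ v ∈ T, f v (finGL305 v h)) * Φ (reGLQ298 h)
      else 0 := fun _ _ _ => rfl
  rw [key, key]
  by_cases hy : OutT305 T y
  · rw [if_pos hy, if_pos ((outT_inv_mul_iff102 T hb y).mpr hy)]
    simp only [map_mul, map_inv]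
  · rw [if_neg hy, if_neg (fun h => hy ((outT_inv_mul_iff102 T hb y).mp h))]

end Fermat.Agent.LT.T7.H102

end

end
-- ===== PACK-END LT/T7/H102/TrPure.lean

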