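import Mathlib
import Fermat.Agent.Pack.L1.E1L2
import Fermat.Agent.Pack.LT2.E10L2
import Fermat.Agent.Pack.LT2.E20L2
import Fermat.Agent.Pack.LT2.E20L1
import Fermat.Agent.Pack.S43GC.G0E21L3
import Fermat.Agent.Pack.S43GC.G0E10L0
import Fermat.Agent.Pack.S43GC.G0E10L2
import Fermat.Agent.Pack.S43GC.G0E22L3
import Fermat.Agent.Pack.S43GC.G0E23L0
import Fermat.Agent.Pack.LT2.E19L3
import Fermat.Agent.Pack.LT4.E8L1
import Fermat.Agent.Pack.LT3.E25L3
import Fermat.Agent.Pack.LT3.E26L2
import Fermat.Agent.Pack.LT4.E4L1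
import Fermat.Agent.Pack.LT3.E29L1
import Fermat.Agent.Pack.LT3.E28L0
import Fermat.Agent.Pack.LT3.E28L3
import Fermat.Agent.Pack.LT3.E26L3
import Fermat.Agent.Pack.LT4.E8L3
import Fermat.Agent.Pack.LT4.E3L1
import Fermat.Agent.Pack.LT3.E28L2
import Fermat.Agent.Pack.LT3.E29L2
import Fermat.Agent.Pack.LT4.E5L1
import Fermat.Agent.Pack.LT3.E30L3
import Fermat.Agent.Pack.LT3.E24L3
import Fermat.Agent.Pack.LT3.E23L3
import Fermat.Agent.Pack.LT3.E22L2
import Fermat.Agent.Pack.LT3.E28L1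
import Fermat.Agent.Pack.LT4.E5L0
import Fermat.Agent.Pack.LT4.E8L0
import Fermat.Agent.Pack.LT4.E5L3
import Fermat.Agent.Pack.LT4.E6L2
import Fermat.Agent.Pack.LT4.E8L2
import Fermat.Agent.Pack.LT4.E7L2
import Fermat.Agent.Pack.LT4.E3L3
import Fermat.Agent.Pack.LT4.E0L0
import Fermat.Agent.Pack.LT3.E21L1
import Fermat.Agent.Pack.LT2.E7L1
import Fermat.Agent.Pack.LT4.E6L1
import Fermat.Agent.Pack.LT4.E7L0
import Fermat.Agent.Pack.LT4.E7L1
import Fermat.Agent.Pack.LT3.E27L1
import Fermat.Agent.Pack.LT4.E2L0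
import Fermat.Agent.Pack.LT3.E3L2
import Fermat.Agent.Pack.LT4.E4L3
import Fermat.Agent.Pack.LT2.E4L2

set_option linter.all false

-- ===== PACK-BEGIN LT/H17/Master.lean
section





/-!
# Row LT -- MASTER integrity check of the row-lead (helper17), OFF-MAIN

ONE import closure: the frozen S47 (as `LTB.S47Statement`) from the FOUR frozen wall leaves of
helper556 (`WallTop.lean` @0fa0be5a0), with IDENT closed by helper701 (plain S48 chain on main) and
the dictionary `A6_556` closed by helper556.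

* `master_s47_of_four17`  : `A2_556 → A3c_556 → A3q_556 → PAR556 → LTB.S47Statement`.
* `master_s47_of_par2_17` : the same with `PAR556` replaced by the two adelic sub-leaves of
  helper19 (`CentralEven556`, `MS556`).

Tower tops are added to `MasterTowers.lean` as the tower Specs freeze.
-/

set_option autoImplicit false

namespace Fermat.Agent.LT.H17

open Fermat.Agent.LT.H556.WT

/-- The frozen S47 from the four frozen wall leaves. -/
theorem master_s47_of_four17 (h2 : A2_556) (h3c : A3c_556) (h3q : A3q_556) (hpar : PAR556) :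
    LTB.S47Statement :=
  Fermat.Agent.LT.H701.s47_of_wallC_h701 (wall_of_four556 h2 h3c h3q hpar)

/-- The same, with `PAR556` cut into the two adelic sub-leaves of helper19. -/
theorem master_s47_of_par2_17 (h2 : A2_556) (h3c : A3c_556) (h3q : A3q_556)
    (hA : Fermat.Agent.LT.H19.CentralEven556) (hB : Fermat.Agent.LT.H19.MS556) :
    LTB.S47Statement :=
  master_s47_of_four17 h2 h3c h3q (Fermat.Agent.LT.H19.par556_of_two hA hB)

end Fermat.Agent.LT.H17

end
-- ===== PACK-END LT/H17/Master.lean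

-- ===== PACK-BEGIN LT/CFT/H119/ClosedTC.lean
section





/-!
# Row LT, tower CFT (architect helper53), leaf UP-GEN (helper119), part 3: CLOSED FORMS.
# Layer G (G-SI, G-CYC, G-UP, G-CYCp) at EVERY prime, in particular `p = 2`, over a totally
# complex base field — UNCONDITIONAL

Two observations about the landed layer G of S55:

1. the proof of the SECOND inequality on main (`SI777.secondInequality_of`, from the analytic
   index bound `H963.Br.indexBound`) never uses `p ≠ 2` (nor the root of unity): the analytic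
   bound `[C_S(K) : H] ≤ [L : K]` has no parity in it.  So `secondIneqGen119 p Adm` holds for
   every prime `p` and every side condition;
2. the FIRST inequality on main is proved in the general Herbrand form with the factor
   `∏_{v | ∞} n_v` (`FIH895.FirstIneqSpec`), which is `1` over a totally complex base
   (`AdmTC.lean`).

Hence, with `UpGen.lean`:

* `cyclicLayer_tc119 p : CyclicLayerGen119 p admTC119`     (G-CYC),
* `pClassUpper_tc119 p : PClassUpperGen119 p admTC119`     (G-UP),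
* `cyclicPow_tc119 p`                                       (G-CYCp),

all unconditional, for every prime `p`.  For `p = 2`: `pClassUpper_two_tc119`.

Imports: Mathlib + plain files on main only.
-/

set_option autoImplicit false
set_option linter.style.haveILetI false
set_option linter.unusedSectionVars false

open scoped NumberField TensorProduct Pointwise
open IsDedekindDomain CategoryTheory groupCohomology NumberField
open Fermat.Agent.S55 Fermat.Agent.S55.G Fermat.Agent.S55.G.UpH119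
open Fermat.Agent.S55.G.DescH773 Fermat.Agent.S55.G.SI777

noncomputable section

namespace Fermat.Agent.LT.CFT.H119

/-- **G-SI at every prime, every side condition** (the proof of `SI777.secondInequality_of`;
neither `p ≠ 2` nor the side condition nor the root of unity is used). -/
theorem secondIneqGen119 (p : ℕ) [hp : Fact p.Prime] (Adm : SideCond119) :
    SecondIneqGen119 p Adm := by
  intro S G L _ _ _ _ _ _ _ hpS hcard hunr _
  have hB : IndexBoundStatement := Fermat.Agent.S55.H963.Br.indexBound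
  have hT : T.CyclicCardSpec := T.H895.cyclicCard
  have hS : S.Nonempty := ⟨_, hpS⟩
  let _ : Fintype G := Fintype.ofFinite G
  have : IsCyclic G := isCyclic_of_prime_card hcard
  have hin : ∀ w : HeightOneSpectrum (𝓞 L), ¬ IsAbove S L w →
      ∀ g : G, (∀ x : 𝓞 L, g • x - x ∈ w.asIdeal) → g = 1 := by
    intro w hw g hg
    exact FaithfulSMul.eq_of_smul_eq_smul (α := L) (fun x => by rw [hunr w hw g hg x, one_smul])
  have hur : ∀ w : PrimeOut S L, eAt (FixedPoints.subfield G L) w.1 = 1 :=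
    fun w => SI777.eAt_eq_one_of_inertia G (FixedPoints.subfield G L) w.1 (hin w.1 w.2)
  have hfin : Module.finrank (FixedPoints.subfield G L) L = p := by
    rw [← IsGaloisGroup.card_eq_finrank G, hcard]
  have hcardF : Fintype.card G = p := by rw [← Nat.card_eq_fintype_card, hcard]
  have hpmem : ∀ c : CS S (FixedPoints.subfield G L),
      p • c ∈ normSub S G (FixedPoints.subfield G L) L :=
    fun c => hcardF ▸ card_smul_mem_normSub S G (FixedPoints.subfield G L) L c
  obtain ⟨h0, hle⟩ := hB S (FixedPoints.subfield G L) L p hp.out.pos hS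
    (normSub S G (FixedPoints.subfield G L) L) hpmem
    (fun w hw => single_mem_normSub S G (FixedPoints.subfield G L) L hur w (fun g hg =>
      stabilizer_trivial G (FixedPoints.subfield G L) w.1 (hin w.1 w.2)
        (inertiaDeg_eq_one_of_absNorm_prime (FixedPoints.subfield G L) w.1 hw) g
        (congrArg Subtype.val hg)))
  rw [hfin] at hle
  have hdvd : (normSub S G (FixedPoints.subfield G L) L).index ∣ p :=
    index_dvd_prime _ p hp.out hpmem h0 hle
  have hH2 : Nat.card (groupCohomology (CRep S G L) 2) =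
      (normSub S G (FixedPoints.subfield G L) L).index := by
    rw [(hT ℤ G (CRep S G L)).1]
    exact relIndex_norm_invariants S G (FixedPoints.subfield G L) L hS hur
  refine ⟨?_, hH2 ▸ hdvd⟩
  exact Nat.finite_of_card_ne_zero (hH2 ▸ h0)

/-- **G-CYC over a totally complex base, every prime** (unconditional): for `G` of prime order
`p` acting faithfully on `L`, `p ∈ S`, `L / L^G` unramified outside `S`, `L^G` totally complex:
`H¹(G, C_S(L)) = 0` and `|H²(G, C_S(L))| = p`. -/
theorem cyclicLayer_tc119 (p : ℕ) [hp : Fact p.Prime] : CyclicLayerGen119 p admTC119 :=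
  cyclicLayer_admTC119 p (secondIneqGen119 p admTC119)

/-- **G-UP over a totally complex base, every prime** (unconditional): for a `p`-group `G`
acting faithfully on `L`, `p ∈ S`, unramified outside `S`, `L^G` totally complex, and every
subgroup `H ≤ G`: `H¹(H, C_S(L)) = 0` and `|H²(H, C_S(L))|` divides `|H|`. -/
theorem pClassUpper_tc119 (p : ℕ) [hp : Fact p.Prime] : PClassUpperGen119 p admTC119 :=
  pClassUpper_admTC119 p (secondIneqGen119 p admTC119) DescH773.descentSpec

/-- **G-UP at `p = 2` over a totally complex base**, spelled out. -/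
theorem pClassUpper_two_tc119 (S : Finset Nat.Primes) (G L : Type) [Group G] [Finite G]
    [Field L] [NumberField L] [MulSemiringAction G L] [FaithfulSMul G L]
    (hTC : ∀ v : InfinitePlace (FixedPoints.subfield G L), v.IsComplex)
    (h2S : (⟨2, Nat.prime_two⟩ : Nat.Primes) ∈ S) (hG : IsPGroup 2 G)
    (hunr : IsUnramOut S G L) (H : Subgroup G) :
    Limits.IsZero (groupCohomology (T.resSub (CRep S G L) H) 1) ∧
      T.CardDvd (groupCohomology (T.resSub (CRep S G L) H) 2) (Nat.card H) := by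
  haveI : Fact (Nat.Prime 2) := ⟨Nat.prime_two⟩
  refine pClassUpper_tc119 2 S G L ((admTC_iff119 G L).2 hTC) h2S hG hunr ?_ H
  refine ⟨-1, ?_, fun g => ?_⟩
  · rw [IsPrimitiveRoot.iff_def]
    refine ⟨by norm_num, fun l hl => ?_⟩
    rcases Nat.even_or_odd l with he | ho
    · exact even_iff_two_dvd.1 he
    · rw [ho.neg_one_pow] at hl
      exact absurd hl (by norm_num)
  · rw [smul_neg, smul_one]

/-- **G-CYCp over a totally complex base, every prime** (unconditional): for a cyclic `p`-group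
`G` acting faithfully on `L`, `p ∈ S`, unramified outside `S`, `μ_p ⊂ L^G`, `L^G` totally
complex: `H¹(G, C_S(L)) = 0` and `|H²(G, C_S(L))| = |G|`. -/
theorem cyclicPow_tc119 (p : ℕ) [hp : Fact p.Prime] (S : Finset Nat.Primes) (G L : Type)
    [Group G] [Finite G] [IsCyclic G] [Field L] [NumberField L] [MulSemiringAction G L]
    [FaithfulSMul G L] (hA : admTC119 G L) (hpS : (⟨p, hp.out⟩ : Nat.Primes) ∈ S)
    (hpG : IsPGroup p G) (hunr : IsUnramOut S G L) (hroot : HasFixedRootOfUnity p G L) :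
    Limits.IsZero (groupCohomology (CRep S G L) 1) ∧
      Nat.card (groupCohomology (CRep S G L) 2) = Nat.card G := by
  have h1 : Limits.IsZero (groupCohomology (CRep S G L) 1) :=
    CycPowH184.isZero_H1_of_resSub_top _ (pClassUpper_tc119 p S G L hA hpS hpG hunr hroot ⊤).1
  refine ⟨h1, ?_⟩
  have h2 := (firstIneqCyc_admTC119 (Nat.card G) S G L hA ⟨_, hpS⟩ rfl).2.2
  have hsub : Subsingleton (groupCohomology (CRep S G L) 1) :=
    ModuleCat.subsingleton_of_isZero h1
  have hc : Nat.card (groupCohomology (CRep S G L) 1) = 1 :=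
    Nat.card_eq_one_iff_unique.2 ⟨hsub, ⟨0⟩⟩
  rw [h2, hc, mul_one]

end Fermat.Agent.LT.CFT.H119

end
end
-- ===== PACK-END LT/CFT/H119/ClosedTC.lean

-- ===== PACK-BEGIN LT/CFT/H421/HP2.lean
section





/-!
# Row LT, tower CFT (architect helper53), sub-tower G2 (helper421): the HASSE PRINCIPLE for the
# `2`-primary part of `Br(K)`, `K = ℚ̄^U` TOTALLY COMPLEX — UNCONDITIONAL

    theorem Fermat.Agent.LT.CFT.H421.hassePrinciple2 : H1.HassePrinciple2Spec

This is the input `IN` of the sub-tower REC2 (helper1, `LT/CFT/H1/Spec.lean`).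

Route = adapter HP of S55 layer G (on main, `S55/G/Rec/HP`) with "`p ≠ 2`" replaced by
"the base field is totally complex":

* `hasseFinP_tc421` : finite level, `2`-groups.  Proof of `HP.H795.hasseFinP_of` with
  `H¹(Γ, C_S(L)) = 0` taken from helper119's `pClassUpper_tc119 2` (layer G at `p = 2` over a
  totally complex base, `LT/CFT/H119/ClosedTC.lean`);
* `hasseFin_tc421`  : finite level, any finite group (Sylow reduction, proof of
  `HP.H841.hasseFin_of`; total complexity passes to subgroups);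
* `admTC_level421`  : `H1.IsTC U` gives the side condition `H119.admTC119` at every finite normal
  level `F` with `Gal(ℚ̄/F) ≤ U`;
* `hassePrinciple2` : assembly with the landed dictionary `HP.H126.globalDescent`,
  `HP.H126.globalUp`, `HP.localGlue`.

The layer-G specs at `p = 2` (FI2, SI2, CYC2, UP2, CYCp2) are helper119's closed forms
`firstIneqCyc_admTC119`, `secondIneqGen119`, `cyclicLayer_tc119`, `pClassUpper_tc119`,
`cyclicPow_tc119`; nothing of G2 remains open.

Imports: Mathlib + plain files on main + `LT/CFT/H119`, `LT/CFT/H1/Spec` only.  No `sorry`.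
-/

set_option autoImplicit false
set_option linter.style.haveILetI false
set_option linter.unusedSectionVars false

open scoped NumberField ComplexConjugate
open IsDedekindDomain CategoryTheory groupCohomology

noncomputable section

namespace Fermat.Agent.LT.CFT.H421

open Fermat.Agent.S55 Fermat.Agent.S55.G Fermat.Agent.S55.G.Rec Fermat.Agent.S55.G.Rec.HP
open Fermat.Agent.S55.G.Rec.HP.H795 Fermat.Agent.S55.KL.H795
open Fermat.Agent.LT.CFT.H119

local notation "Qb" => AlgebraicClosure ℚ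
local notation "GQ" => (AlgebraicClosure ℚ ≃ₐ[ℚ] AlgebraicClosure ℚ)

/-! ## 1. Finite level, `2`-groups -/

/-- `-1` is a primitive square root of unity fixed by every group of field automorphisms. -/
theorem hasFixedRoot_two421 (Γ L : Type) [Group Γ] [Field L] [CharZero L]
    [MulSemiringAction Γ L] : HasFixedRootOfUnity 2 Γ L := by
  refine ⟨-1, ?_, fun g => ?_⟩
  · rw [IsPrimitiveRoot.iff_def]
    refine ⟨by norm_num, fun l hl => ?_⟩
    rcases Nat.even_or_odd l with he | ho
    · exact even_iff_two_dvd.1 he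
    · rw [ho.neg_one_pow] at hl
      exact absurd hl (by norm_num)
  · rw [smul_neg, smul_one]

/-- **HP-FINp at `p = 2`, totally complex base.**  `Γ` a finite `2`-group acting faithfully on
the number field `L`, `L^Γ` totally complex: a class in `H²(Γ, Lˣ)` which is locally trivial at
all places above all finite sets `S` of primes is trivial. -/
theorem hasseFinP_tc421 (Γ L : Type) [Group Γ] [Finite Γ] [Field L] [NumberField L]
    [MulSemiringAction Γ L] [FaithfulSMul Γ L] (hΓ : IsPGroup 2 Γ) (hTC : admTC119 Γ L)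
    (x : groupCohomology (G.LRep Γ L) 2)
    (hloc : ∀ (S : Finset Nat.Primes) (𝔪 : G.SPlace S L), (G.locMapL S Γ 𝔪 2).hom x = 0) :
    x = 0 := by
  classical
  haveI : Fact (Nat.Prime 2) := ⟨Nat.prime_two⟩
  haveI : Fintype Γ := Fintype.ofFinite Γ
  have hUp : PClassUpperGen119 2 admTC119 := pClassUpper_tc119 2
  have hSES : ClassShortExactSpec := G.AllH604.classShortExact
  have hSh : ShapiroJSpec := G.AllH604.shapiroJ
  induction x using groupCohomology_induction_on with
  | h c =>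
    -- the finite set `S`
    obtain ⟨S₁, hS₁⟩ := exists_S_unram (L := L) Γ
    have hex : ∀ v : Fin 2 → Γ, ∃ S₀ : Finset Nat.Primes, ∀ S : Finset Nat.Primes, S₀ ⊆ S →
        ordHom S L ((iCocycles (LRep Γ L) 2).hom c v) = 0 := fun v => exists_S_units _
    choose S₂ hS₂ using hex
    set S : Finset Nat.Primes := ({⟨2, Nat.prime_two⟩} ∪ S₁) ∪ Finset.univ.biUnion S₂ with hSdef
    have hpS : (⟨2, Nat.prime_two⟩ : Nat.Primes) ∈ S := by
      rw [hSdef]
      exact Finset.mem_union_left _ (Finset.mem_union_left _ (Finset.mem_singleton_self _))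
    have hunr : IsUnramOut S Γ L := hS₁ S (by
      rw [hSdef]
      exact Finset.subset_union_right.trans Finset.subset_union_left)
    have hord : ∀ v : Fin 2 → Γ, ordHom S L ((iCocycles (LRep Γ L) 2).hom c v) = 0 := fun v =>
      hS₂ v S (by
        rw [hSdef]
        exact (Finset.subset_biUnion_of_mem S₂ (Finset.mem_univ v)).trans
          Finset.subset_union_right)
    have hroot : HasFixedRootOfUnity 2 Γ L := hasFixedRoot_two421 Γ L
    -- `H¹(Γ, C_S) = 0`
    have hH1 : Limits.IsZero (groupCohomology (CRep S Γ L) 1) :=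
      isZero_H1_of_top _ (hUp S Γ L hTC hpS hΓ hunr hroot ⊤).1
    -- `H²(Γ, Lˣ) → H²(Γ, J_S × Div^S)` is injective
    have hX := hSES S Γ L ⟨_, hpS⟩
    have hmono : Mono (groupCohomology.map (A := LRep Γ L) (B := JDRep S Γ L)
        (MonoidHom.id Γ) (diagRepHom S Γ L) 2) := by
      have hex := mapShortComplex₁_exact hX (i := 1) (j := 2) rfl
      have h0 : (mapShortComplex₁ hX (i := 1) (j := 2) rfl).f = 0 := hH1.eq_of_src _ _
      exact hex.mono_g h0
    have hinj := (ModuleCat.mono_iff_injective _).1 hmono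
    apply hinj
    rw [map_zero]
    -- the class of `unitsDiag ∘ c` in `H²(Γ, J_S)` vanishes by Shapiro
    have hdu : (inhomogeneousCochains.d (JRep Γ S L) 2).hom
        (fun v => unitsDiag S L ((iCocycles (LRep Γ L) 2).hom c v)) = 0 := by
      have h0 := d_comp_eq (LRep Γ L) (JRep Γ S L) (unitsDiag S L)
        (unitsDiag_equivariant Γ S L) 2 ((iCocycles (LRep Γ L) 2).hom c)
      rw [d_iCocycles] at h0
      refine h0.trans ?_
      funext v
      exact map_zero _
    have hu0 : (π (JRep Γ S L) 2).hom (cocyclesMk _ hdu) = 0 := by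
      haveI : Finite (SPlace S L) := (PL0H713.locField S L).1
      obtain ⟨R, hR⟩ := H953.exists_orbitReps S Γ L
      apply (hSh S Γ L R hR 2).1
      funext r
      show (locMapJ S Γ r.1 2).hom _ = (locMapJ S Γ r.1 2).hom 0
      rw [map_zero]
      have h1 := hloc S r.1
      unfold locMapL at h1
      unfold locMapJ
      rw [map_π_eq_zero_iff] at h1 ⊢
      refine (congrArg (IsCobdry (LocRep S Γ r.1) 2) ?_).mpr h1
      funext x
      have h3 := congrFun (iCocycles_mk _ hdu) (fun i => (decomp S Γ r.1).subtype (x i))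
      exact congrArg (jToLocRepHom S Γ r.1).hom h3
    have h2 : (groupCohomology.map (A := JRep Γ S L) (B := JDRep S Γ L)
        (MonoidHom.id Γ) (jInlRepHom S Γ L) 2).hom
        ((π (JRep Γ S L) 2).hom (cocyclesMk _ hdu)) = 0 := by
      rw [hu0, map_zero]
    rw [map_π_eq_zero_iff] at h2 ⊢
    refine (congrArg (IsCobdry (JDRep S Γ L) 2) ?_).mpr h2
    funext x
    have h3 := congrFun (iCocycles_mk _ hdu) (fun i => (MonoidHom.id Γ) (x i))
    refine Eq.trans ?_ (congrArg (jInlRepHom S Γ L).hom h3).symm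
    exact Prod.ext rfl (hord _)

/-! ## 2. Finite level, arbitrary finite groups (Sylow reduction) -/

/-- **HP-FIN at `p = 2`, totally complex base.**  `Γ` finite acting faithfully on the number
field `L`, `L^Γ` totally complex: a class of `2`-power order in `H²(Γ, Lˣ)` which is locally
trivial at all places above all finite sets `S` of primes is trivial. -/
theorem hasseFin_tc421 (Γ L : Type) [Group Γ] [Finite Γ] [Field L] [NumberField L]
    [MulSemiringAction Γ L] [FaithfulSMul Γ L] (hTC : admTC119 Γ L)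
    (x : groupCohomology (G.LRep Γ L) 2) (hx : ∃ k : ℕ, 2 ^ k • x = 0)
    (hloc : ∀ (S : Finset Nat.Primes) (𝔪 : G.SPlace S L), (G.locMapL S Γ 𝔪 2).hom x = 0) :
    x = 0 := by
  obtain ⟨k, hk⟩ := hx
  classical
  haveI : Fact (Nat.Prime 2) := ⟨Nat.prime_two⟩
  obtain ⟨P⟩ : Nonempty (Sylow 2 Γ) := inferInstance
  have h0 : (H841.globRes L (P : Subgroup Γ) 2).hom x = 0 := by
    refine hasseFinP_tc421 ↥(P : Subgroup Γ) L P.isPGroup'
      (isStable_admTC119.sub Γ L (P : Subgroup Γ) hTC) _ ?_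
    intro S 𝔪
    have h := ConcreteCategory.congr_hom (H841.globRes_locMapL S L (P : Subgroup Γ) 𝔪 2) x
    rw [ConcreteCategory.comp_apply, ConcreteCategory.comp_apply] at h
    rw [h, hloc S 𝔪, map_zero]
  have h1 : (P : Subgroup Γ).index • x = 0 :=
    Fermat.Agent.S55.T.H572.resIndex ℤ Γ (G.LRep Γ L) (P : Subgroup Γ) 2 (by norm_num) x h0
  have hcop : Nat.Coprime (P : Subgroup Γ).index (2 ^ k) :=
    Nat.Coprime.pow_right k ((Nat.Prime.coprime_iff_not_dvd Nat.prime_two).2 P.not_dvd_index).symm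
  have h3 : addOrderOf x ∣ 1 := by
    rw [← Nat.Coprime.gcd_eq_one hcop]
    exact Nat.dvd_gcd (addOrderOf_dvd_of_nsmul_eq_zero h1) (addOrderOf_dvd_of_nsmul_eq_zero hk)
  exact AddMonoid.addOrderOf_eq_one_iff.1 (Nat.dvd_one.1 h3)

/-! ## 3. From the absolute hypothesis `IsTC U` to the finite levels -/

/-- If `ℚ̄^U` is totally complex, then at every finite level `F` with `Gal(ℚ̄/F) ≤ U` the fixed
field of the image `lvlGal U F` of `U` in `Gal(F/ℚ)` is totally complex. -/
theorem admTC_level421 (U : Subgroup GQ) (F : IntermediateField ℚ Qb) [FiniteDimensional ℚ F]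
    [Normal ℚ F] (hFU : F.fixingSubgroup ≤ U) (hTC : H1.IsTC U) :
    admTC119 ↥(lvlGal U F) ↥F := by
  intro φ
  haveI : Algebra.IsAlgebraic ℚ Qb := AlgebraicClosure.isAlgebraic ℚ
  haveI : IsAlgClosure ℚ Qb := ⟨inferInstance, inferInstance⟩
  haveI : Normal ℚ Qb := IsAlgClosure.normal ℚ Qb
  haveI : IsGalois ℚ Qb := isGalois_iff.mpr ⟨inferInstance, inferInstance⟩
  haveI : Algebra.IsAlgebraic ↥F Qb := Algebra.IsAlgebraic.tower_top (K := ℚ) ↥F
  -- extend `φ` to `ℚ̄`
  letI : Algebra ↥F ℂ := φ.toAlgebra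
  let ψ : Qb →ₐ[↥F] ℂ := IsAlgClosed.lift
  obtain ⟨a, ha, hne⟩ := hTC (ψ : Qb →+* ℂ)
  -- `a ∈ F`
  have haF : a ∈ F := by
    rw [← InfiniteGalois.fixedField_fixingSubgroup F, IntermediateField.mem_fixedField_iff]
    intro σ hσ
    exact ha σ (hFU hσ)
  refine ⟨⟨a, haF⟩, ?_, ?_⟩
  · rintro ⟨γ, u, rfl⟩
    apply Subtype.ext
    have h := lvlRes_apply_coe U F u ⟨a, haF⟩
    exact h.trans (ha u u.2)
  · have e : φ ⟨a, haF⟩ = ψ a := (ψ.commutes ⟨a, haF⟩).symm
    rw [e]
    exact hne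

/-! ## 4. The Hasse principle -/

/-- **HP2** (OUT of the sub-tower G2 = IN of REC2): the Hasse principle for the `2`-primary part
of the Brauer group of a totally complex number field `K = ℚ̄^U`: a class of `2`-power order
which is trivial at all finite places is trivial.  Unconditional. -/
theorem hassePrinciple2 : H1.HassePrinciple2Spec := by
  intro U hU hTC x hx hloc
  obtain ⟨c, rfl⟩ := Submodule.mkQ_surjective _ x
  obtain ⟨k, hk⟩ := hx
  obtain ⟨F, hFfin, hFnorm, f, -, hFU, hinf, htors⟩ :=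
    H126.globalDescent U hU c (2 ^ k) hk ⊥ inferInstance
  have := hFfin
  have := hFnorm
  have hfin : (H2π (G.LRep ↥(lvlGal U F) ↥F)).hom f = 0 := by
    refine hasseFin_tc421 ↥(lvlGal U F) ↥F (admTC_level421 U F hFU hTC) _ ⟨k, htors⟩ ?_
    exact localGlue U F hFU f c hinf (fun q _ g => hloc q g)
  exact H126.globalUp U F hFU f c hinf hfin

end Fermat.Agent.LT.CFT.H421

end
end
-- ===== PACK-END LT/CFT/H421/HP2.lean

-- ===== PACK-BEGIN LT/CFT/H1/Closed.lean
section



/-!
# Row LT, tower CFT, sub-tower REC2 (helper1), OFF-MAIN : REC2 IS CLOSED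

**`reciprocityTCClosed : ∀ I : LocalInvSystem, ReciprocityTCSpec I`** (unconditional):
for every local invariant system `I`, every TOTALLY COMPLEX number field `K = ℚ̄^U` (`IsTC U`)
and every `x ∈ Br(K)` of `2`-power order: almost all `inv_v (x_v)` vanish and
`∑_v inv_v (x_v) = 0`.

Inputs: `H1.reciprocityTC3` (Steps A', B', C', leaves L5' and G6: helper1) and
`H421.hassePrinciple2` (sub-tower G2: helper421, on the closed layer-G forms of helper119).
Together with main `Rec.reciprocityFull` (odd `p`) this is the reciprocity law for the whole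
Brauer group of a totally complex number field.
-/

set_option autoImplicit false

namespace Fermat.Agent.LT.CFT.H1

open Fermat.Agent.S55.G.Rec

/-- **REC2, closed.** -/
theorem reciprocityTCClosed (I : LocalInvSystem) : ReciprocityTCSpec I :=
  reciprocityTC3 Fermat.Agent.LT.CFT.H421.hassePrinciple2 I

end Fermat.Agent.LT.CFT.H1

end
-- ===== PACK-END LT/CFT/H1/Closed.lean

-- ===== PACK-BEGIN LT/T7/H963/CoreCM.lean
section








/-!
# Row LT, tower T7, node `ClassModelUC` (CORE FORM, on `H29.UpData K'`): CLOSED (helper963,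
OFF-MAIN, ADDITIVE)

    stabSUC963  (K') : CMU675.StabSUC675 K'       (CM.04, from `up_class_Rsig930` of helper930)
    commGIUC963 (K') : CMU675.CommGIUC675 K'      (CM.05, from `cosetOp_comm166` of helper166)
    dictUC963   (K') : CMU675.DictUC675 K'        (CM.11, the proof of helper440 on `U`)
    classModelUC963 (K') : SU736.ClassModelUC K'            (THE NODE, core form)
    nonVanCoreC963  (K') : H29.NonVanCoreC K'               (NON-VANISHING, core form)
    classModelC963 (K K') : SU736.ClassModelC K K'          (cyclic step, by `classModelC_of_U`)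

The eleven leaves, core forms of record (`T7/H675/ClassModelU.lean`, helper675):
CM.01 `finDimUC675_963`, CM.03 `stabGUC675_963`, CM.09 `simpleUC675_963` (helper963,
`SimpleClosed.lean`); CM.02 `UB675.nontrivUC675_closed` (helper675); CM.06 - CM.08
`CM616.locCommUC616_proved`, `locMoveUC616_proved`, `powUC616_proved` (helper616);
CM.10 `H228.mulGUC228` (helper228); CM.04, CM.05, CM.11 here.
-/

set_option autoImplicit false
set_option linter.unusedSectionVars false
set_option linter.unusedVariables false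

open AutomorphicForm IsDedekindDomain NumberField MeasureTheory
open Fermat.Agent.LT.H556.A0

noncomputable section

namespace Fermat.Agent.LT.T7.H963

open Fermat.Agent.LT.H556 Fermat.Agent.LT.T7.SU736 Fermat.Agent.LT.T7.CM616
  Fermat.Agent.LT.T7.CMU675

attribute [local instance] Fermat.Agent.LT.T5.instMeasurableSpaceG

/-- **CM.04 `StabSUC675`**: `R(σ)` and `R(σ)⁻¹` preserve the class (helper930, `RsigUp.lean`). -/
theorem stabSUC963 (K' : Type) [Field K'] [NumberField K'] : StabSUC675 K' := by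
  intro ℓ Φ U hctx ψ hψ
  exact ⟨H930.up_class_Rsig930 hctx.stable hctx.data hψ,
    H930.up_class_RsigInv930 hctx.stable hctx.data hψ⟩

/-- **CM.05 `CommGIUC675`** (helper166, `cosetOp_comm166`). -/
theorem commGIUC963 (K' : Type) [Field K'] [NumberField K'] : CommGIUC675 K' := by
  intro ℓ Φ U hctx g Hg hbad hHg j hj H hH ψ hψ hHψ x
  have hgv : TrivAtFin (U.o j) g :=
    hbad.2 (U.o j) (Or.inr ⟨j, by rw [hctx.data.deg]; exact hj, rfl⟩)
  exact H166.cosetOp_comm166 hgv hHg.1 hH hψ hHψ x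

/-- **CM.11 `DictUC675`** from the stability leaves CM.03 and CM.04 (the proof of helper440,
`dictC_of440`, on the upstairs data). -/
theorem dictUC_of963 {K' : Type} [Field K'] [NumberField K'] (hG : StabGUC675 K')
    (hS : StabSUC675 K') : DictUC675 K' := by
  intro ℓ Φ U hctx g Hg hbad hsys q J hq
  have hF : T5.IsFrame U.R'.μ U.R'.F := hctx.data.frame'.frame
  have hGp : ∀ ψ ∈ clsU675 U ℓ Φ, cosetLin616 Hg ψ ∈ clsU675 U ℓ Φ :=
    H440.mem_cls_of_map440 (cosetLin616 Hg) (fun ψ hψ => hG ℓ Φ U hctx g Hg hbad hsys ψ hψ)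
  have hSp : ∀ ψ ∈ clsU675 U ℓ Φ, rsigLin616 U.s ψ ∈ clsU675 U ℓ Φ :=
    H440.mem_cls_of_map440 (rsigLin616 U.s) (fun ψ hψ => (hS ℓ Φ U hctx ψ hψ).1)
  have hmem : ∀ j : J, q j ∈ clsU675 U ℓ Φ := fun j =>
    Submodule.subset_span (hq.eig j j.2)
  have hcont : ∀ j : J, Continuous (q j) := fun j => (hq.eig j j.2).inv.cusp.cont
  have hbdd : ∀ j : J, ∃ C : ℝ, ∀ x, ‖q j x‖ ≤ C := fun j => (hq.eig j j.2).inv.cusp.bdd
  -- the family spans
  have hle : clsU675 U ℓ Φ ≤ Submodule.span ℂ (Set.range (fun j : J => q j)) := by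
    unfold clsU675 classSp616
    rw [Submodule.span_le]
    intro ψ hψ
    obtain ⟨a, ha⟩ := hq.span ψ hψ
    rw [SetLike.mem_coe, Submodule.mem_span_range_iff_exists_fun]
    refine ⟨fun j => a j, ?_⟩
    funext x
    rw [ha x, Finset.sum_apply, ← Finset.sum_coe_sort J (fun j => a j * q j x)]
    rfl
  -- the operator of the model
  have hval : ∀ v : clsU675 U ℓ Φ,
      (((restr616 (clsU675 U ℓ Φ) (cosetLin616 Hg) * sOpU675 U ℓ Φ) v : clsU675 U ℓ Φ) :
        G K' → ℂ) = cosetOp Hg (T5.Rsig U.s v) := by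
    intro v
    rw [Module.End.mul_apply]
    unfold sOpU675 restr616
    rw [dif_pos hGp, dif_pos hSp]
    rfl
  -- the abstract trace formula
  have key := H440.trace_eq_sum_dual440 (V := clsU675 U ℓ Φ) (ι := J)
    (fun j => (⟨q j, hmem j⟩ : clsU675 U ℓ Φ))
    (fun j v => T5.innerD U.R'.μ U.R'.F (v : G K' → ℂ) (q j)) ?_ ?_
    (restr616 (clsU675 U ℓ Φ) (cosetLin616 Hg) * sOpU675 U ℓ Φ)
  · rw [key]
    unfold twTrace
    rw [← Finset.sum_coe_sort]
    refine Finset.sum_congr rfl fun j _ => ?_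
    rw [hval]
  · intro a j
    have h1 : ((∑ i, a i • (⟨q i, hmem i⟩ : clsU675 U ℓ Φ) : clsU675 U ℓ Φ) : G K' → ℂ)
        = fun x => ∑ i : J, a i * q i x := by
      funext x
      rw [Submodule.coe_sum, Finset.sum_apply]
      rfl
    simp only [h1]
    rw [H440.innerD_sum440 hF (fun i : J => q i) hcont hbdd (hcont j) (hbdd j) a]
    rw [Finset.sum_eq_single j]
    · rw [hq.norm j j.2, mul_one]
    · intro i _ hij
      rw [hq.orth i i.2 j j.2 (fun h => hij (Subtype.ext h)), mul_zero]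
    · intro h
      exact absurd (Finset.mem_univ j) h
  · intro v
    obtain ⟨a, ha⟩ := (Submodule.mem_span_range_iff_exists_fun ℂ).1 (hle v.2)
    refine ⟨a, Subtype.ext ?_⟩
    rw [← ha, Submodule.coe_sum]
    rfl

/-- **CM.11 `DictUC675`, closed.** -/
theorem dictUC963 (K' : Type) [Field K'] [NumberField K'] : DictUC675 K' :=
  dictUC_of963 (stabGUC675_963 K') (stabSUC963 K')

/-- **THE NODE `ClassModelUC`, core form, CLOSED.** -/
theorem classModelUC963 (K' : Type) [Field K'] [NumberField K'] : SU736.ClassModelUC K' :=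
  classModelUC_of675 (finDimUC675_963 K') (UB675.nontrivUC675_closed K') (stabGUC675_963 K')
    (stabSUC963 K') (commGIUC963 K') locCommUC616_proved locMoveUC616_proved powUC616_proved
    (simpleUC675_963 K') (H228.mulGUC228 K') (dictUC963 K')

/-- **NON-VANISHING, core form, CLOSED.** -/
theorem nonVanCoreC963 (K' : Type) [Field K'] [NumberField K'] : H29.NonVanCoreC K' :=
  SU736.nonVanCoreC_of (classModelUC963 K')

/-- **THE NODE `ClassModelC`, cyclic step, from the core form.** -/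
theorem classModelC963 (K K' : Type) [Field K] [NumberField K] [Field K'] [NumberField K']
    [Algebra K K'] : SU736.ClassModelC K K' :=
  SU736.classModelC_of_U (classModelUC963 K')

end Fermat.Agent.LT.T7.H963

end
end
-- ===== PACK-END LT/T7/H963/CoreCM.lean

-- ===== PACK-BEGIN LT/T7/H561/WSpecU.lean
section








/-!
# Row LT, tower T7, leaf T7.L2.2c.B1 = W-SPEC in CORE FORM (helper561, spare of row 2501): CLOSED

OFF-MAIN.  Every proof is complete, nothing assumed.  ADDITIVE (new names only, ending in `561`).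

    wSpecUC_of561     : ClassFinC144 K' → EigSpanC144 K' → IwTranslC144 K' → ClassBasisC144 K'
                          → UB675.WSpecUC675 K'
    wSpecUC_closed561 : UB675.WSpecUC675 K'          (form of record of helper675, `BlocksU.lean`)

The proof is the proof of the top `wSpecC_of144` of helper144 (`T7/H144/WSpecTop.lean`) read on
`H29.UpData` (`TotCplx K'` is a hypothesis of the core form; `level_ne`, `level_g`, `frame'`,
`mem_S'`, `orbit_level` are fields of `H29.IsUpData`); the four sub-leaves are statements about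
ONE field and are closed: W1 `classFinC130` (helper130), W2 `eigSpanC312` (helper312),
W3 `iwTranslC44` (helper44), W4 `classBasisC618` (helper618).
-/

set_option autoImplicit false
set_option linter.unusedSectionVars false
set_option linter.unusedVariables false
set_option linter.style.haveILetI false

open AutomorphicForm IsDedekindDomain NumberField MeasureTheory
open scoped ComplexConjugate

noncomputable section

namespace Fermat.Agent.LT.T7.H561

open Fermat.Agent.LT.H556 Fermat.Agent.LT.H556.A0 Fermat.Agent.LT Fermat.Agent.LT.T7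

attribute [local instance] Fermat.Agent.LT.T5.instMeasurableSpaceG

section WSpecU

variable {K' : Type} [Field K'] [NumberField K']

/-- **W-SPEC in core form from the four sub-leaves of helper144.** -/
theorem wSpecUC_of561 (hCF : H144W.ClassFinC144 K') (hES : H144W.EigSpanC144 K')
    (hIW : H144W.IwTranslC144 K') (hCB : H144W.ClassBasisC144 K') : UB675.WSpecUC675 K' := by
  classical
  intro ℓ _ hcx Φ _ Dt hDt
  -- the bad element `1`
  have hbad1 : Dt.IsBad (1 : G K') :=
    ⟨fun w => (H129.trivAtInf_iff129 w 1).2 (map_one _),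
      fun v _ => (H129.trivAtFin_iff129 v 1).2 (map_one _)⟩
  have hR : IsFrame5 Dt.R' := hDt.frame'
  have hne : Dt.𝔑 1 ≠ ⊥ := hDt.level_ne 1 hbad1
  have h𝔑 : Dt.𝔑₀ ≠ ⊥ := by
    intro h
    have h1 := hDt.level_g 1 hbad1
    rw [h] at h1
    exact hne (le_bot_iff.1 h1)
  have horb : ∀ j < ℓ, (Dt.o j).asIdeal ∣ Dt.𝔑₀ :=
    fun j _ => (hDt.mem_S' _).1 (hDt.orbit_level j)
  -- the eigenbasis of T2
  obtain ⟨ι₀, u, m, a, b, hB⟩ :=
    T2.cuspSpecPlus_closed K' Dt.𝔑₀ h𝔑 (T2.frameOf130 Dt.R' hR)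
  have hW := T2.isWBasis_of_plus130 hcx h𝔑 Dt.R' hR Dt.o hB
  set C₀ : ι₀ → EigData K' := fun j => ⟨a j, b j, m j⟩ with hC₀
  have hSdvd : ∀ v : HeightOneSpectrum (𝓞 K'), v.asIdeal ∣ Dt.𝔑₀ → v ∈ Dt.S' :=
    fun v hv => (hDt.mem_S' v).2 hv
  -- the classes are finite
  have hfin : ∀ j₀ : ι₀, {j : ι₀ | (C₀ j).AgreeOut Dt.S' (C₀ j₀)}.Finite := fun j₀ =>
    (hCF hcx Dt.𝔑₀ h𝔑 _ ι₀ u m a b hB j₀).subset fun j hj w d hd => hj.2 w d hd
  -- the quotient
  let st : Setoid ι₀ :=
    ⟨fun j j' => (C₀ j).AgreeOut Dt.S' (C₀ j'),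
      ⟨fun j => H144W.agreeOut_refl144 _ _, H144W.agreeOut_symm144, H144W.agreeOut_trans144⟩⟩
  have hst : ∀ j j' : ι₀, st.r j j' ↔ (C₀ j).AgreeOut Dt.S' (C₀ j') := fun _ _ => Iff.rfl
  set J : Quotient st → Finset ι₀ := fun q => (hfin q.out).toFinset with hJ
  have hJmem : ∀ (q : Quotient st) (j : ι₀), j ∈ J q ↔ (C₀ j).AgreeOut Dt.S' (C₀ q.out) :=
    fun q j => (hfin q.out).mem_toFinset
  have hJmk : ∀ (q : Quotient st) (j : ι₀), j ∈ J q ↔ Quotient.mk st j = q := by
    intro q j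
    rw [hJmem]
    constructor
    · intro h
      have h1 : Quotient.mk st j = Quotient.mk st q.out := Quotient.sound h
      rw [h1, Quotient.out_eq]
    · intro h
      have h1 : Quotient.mk st j = Quotient.mk st q.out := by rw [h, Quotient.out_eq]
      exact Quotient.exact h1
  -- the bases of the classes
  have key := fun q : Quotient st =>
    hCB hES hIW hcx Dt.𝔑₀ h𝔑 Dt.R' hR ℓ Dt.o horb Dt.S' hDt.mem_S' ι₀ u C₀ hW q.out (J q)
      (hJmem q)
  choose n v hv using key
  refine ⟨Quotient st, n, fun q => C₀ q.out, v, ?_⟩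
  have hr := hR.ray
  refine
    { countable := ?_
      unitary := fun q => hW.unitary q.out Dt.S' hSdvd
      distinct := ?_
      basis := fun q => ⟨(hv q).1, (hv q).2.1, (hv q).2.2.1⟩
      orth := ?_
      complete := ?_
      cover := ?_ }
  · haveI := hW.countable
    exact (Quotient.mk_surjective (s := st)).countable
  · intro q q' h
    have h1 : Quotient.mk st q.out = Quotient.mk st q'.out := Quotient.sound h
    rwa [Quotient.out_eq, Quotient.out_eq] at h1
  · intro q q' x x' hqq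
    refine (hv q).2.2.2.1 x (v q' x') (H144W.isWFn_zero_of144 hr ((hv q').1 x').inv) ?_
    intro j hj
    rw [H144W.innerD_conj144]
    have h0 : T5.innerD Dt.R'.μ Dt.R'.F (v q' x') (u j) = 0 := by
      refine (hES hcx Dt.𝔑₀ h𝔑 Dt.R' hR Dt.o ι₀ u C₀ hW Dt.S' hSdvd (v q' x') (C₀ q'.out)
        (H144W.isEigFn_zero_of144 hr ((hv q').1 x'))).1 j ?_
      intro hag
      apply hqq
      have h1 : Quotient.mk st j = q := (hJmk q j).1 hj
      have h2 : Quotient.mk st j = q' := (hJmk q' j).1 ((hJmem q' j).2 (H144W.agreeOut_symm144 hag))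
      rw [← h1, h2]
    rw [h0, map_zero]
  · intro ψ hψ
    have hψ0 := H144W.isWFn_zero_of144 hr hψ
    have hpar := hW.parseval ψ hψ0
    set f : ι₀ → ℝ := fun j => ‖T5.innerD Dt.R'.μ Dt.R'.F ψ (u j)‖ ^ 2 with hf
    set N : ℝ := (T5.innerD Dt.R'.μ Dt.R'.F ψ ψ).re with hN
    set h : (Σ q : Quotient st, Fin (n q)) → ℝ :=
      fun p => ‖T5.innerD Dt.R'.μ Dt.R'.F ψ (v p.1 p.2)‖ ^ 2 with hh
    -- grouping by classes
    have hset : ∀ q : Quotient st, (Quotient.mk st ⁻¹' {q}) = ((J q : Finset ι₀) : Set ι₀) := by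
      intro q
      ext j
      simp only [Set.mem_preimage, Set.mem_singleton_iff, Finset.mem_coe]
      exact (hJmk q j).symm
    have hA : HasSum (fun q : Quotient st => ∑ j ∈ J q, f j) N := by
      have h1 := hpar.tsum_fiberwise (Quotient.mk st)
      have hfun : (fun q : Quotient st => ∑' b : ↥(Quotient.mk st ⁻¹' {q}), f b)
          = fun q : Quotient st => ∑ j ∈ J q, f j := by
        funext q
        rw [tsum_congr_set_coe f (hset q), Finset.tsum_subtype']
      rw [hfun] at h1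
      exact h1
    have hg : ∀ q : Quotient st, ∑ x : Fin (n q), h ⟨q, x⟩ = ∑ j ∈ J q, f j :=
      fun q => (hv q).2.2.2.2 ψ hψ
    have hA' : HasSum (fun q : Quotient st => ∑ x : Fin (n q), h ⟨q, x⟩) N := by
      have hfun : (fun q : Quotient st => ∑ x : Fin (n q), h ⟨q, x⟩)
          = fun q : Quotient st => ∑ j ∈ J q, f j := funext hg
      rw [hfun]
      exact hA
    have hfib : ∀ q : Quotient st,
        HasSum (fun x : Fin (n q) => h ⟨q, x⟩) (∑ x : Fin (n q), h ⟨q, x⟩) :=
      fun q => hasSum_fintype _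
    have hsum : Summable h := by
      refine (summable_sigma_of_nonneg (fun p => by positivity)).2
        ⟨fun q => (hfib q).summable, ?_⟩
      have hfun : (fun q : Quotient st => ∑' x : Fin (n q), h ⟨q, x⟩)
          = fun q : Quotient st => ∑ x : Fin (n q), h ⟨q, x⟩ :=
        funext fun q => tsum_fintype _
      rw [hfun]
      exact hA'.summable
    exact hA'.sigma_of_hasSum hfib hsum
  · intro ψ C' hψ hne0
    by_contra hcon
    push Not at hcon
    obtain ⟨x, hx⟩ := hne0
    apply hx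
    have h1 := (hES hcx Dt.𝔑₀ h𝔑 Dt.R' hR Dt.o ι₀ u C₀ hW Dt.S' hSdvd ψ C'
      (H144W.isEigFn_zero_of144 hr hψ)).2 ∅ (fun j hj => absurd ?_ (hcon (Quotient.mk st j))) x
    · rw [h1, Finset.sum_empty]
    · have h2 : st.r (Quotient.mk st j).out j := Quotient.exact (Quotient.out_eq _)
      exact H144W.agreeOut_trans144 hj (H144W.agreeOut_symm144 ((hst _ _).1 h2))


variable (K')

/-- **LEAF T7.L2.2c.B1 = W-SPEC, CORE FORM of record, CLOSED.** -/
theorem wSpecUC_closed561 : UB675.WSpecUC675 K' :=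
  wSpecUC_of561 (Fermat.Agent.LT.T7.H130.classFinC130 K')
    (Fermat.Agent.LT.T7.H312.eigSpanC312 K') (Fermat.Agent.LT.T7.H44.iwTranslC44 K')
    (Fermat.Agent.LT.T7.H618.classBasisC618 K')

end WSpecU

end Fermat.Agent.LT.T7.H561

end

end
-- ===== PACK-END LT/T7/H561/WSpecU.lean

-- ===== PACK-BEGIN LT/T7/H561/SpecUpCoreClosed.lean
section
















/-!
# Row LT, tower T7, node T7.L2.2 SPEC-UP in CORE FORM (helper561, integrator): CLOSED

OFF-MAIN.  Every proof is complete, nothing assumed.  ADDITIVE (new names only, ending in `561`).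
The tops of helper736 (`T7/H736/Core/*.lean`, `T7/H736/UpS.lean`) and of helper29
(`T7/H29/UpCore2.lean`) with EVERY leaf in core form closed and plugged in ONE import closure:

* `stf` : the field `stf` of the closed tower T5 (`T5.tower_closed`);
* `change` : helper362 `changeC362`; `atoms` : helper719 `atomsC719`; `iwsys` : helper701
  `iwSysC701`;
* Blocks: `blocksAsm` helper736 `PU736.blocksAsmC_core` (port of helper157), `wSpec`
  `wSpecUC_closed561` (`T7/H561/WSpecU.lean`), `complete` helper865 `completeUC865_closed`,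
  `sigma` helper736 `PU736.sigmaC_core`, `phi` helper675 `phiUC675_closed`, `offW` helper736
  `PU736.offWC_core` (port of helper313);
* Ops: `iwSysExists`, `opsComm`, `opsAdj`, `opsLink` helper675 (`LeavesU1`, `LeavesU2`),
  `opsEig`, `opsRel`, `opsPer`, `opsSig`, `badOp` helper49 (`CoreOps.lean`);
* non-vanishing: helper963 `nonVanCoreC963` (`T7/H963/CoreCM.lean`);
* the glue between the three retypings: helper736 `GL736` (`Core/Glue.lean`).

    specUpCoreSC_closed561 (K') : H29.SpecUpCoreSC K'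
    specUpQSC_closed561 (F)     : H29.SpecUpQSC F            (THE STEP `F / ℚ`)
    specUpSC_core_closed561     : T7.SpecUpSC K K'           (the cyclic step, from the core form)
-/

set_option autoImplicit false

open AutomorphicForm IsDedekindDomain NumberField MeasureTheory

noncomputable section

namespace Fermat.Agent.LT.T7.H561

open Fermat.Agent.LT.H556 Fermat.Agent.LT.H556.A0 Fermat.Agent.LT.T7

section Core

variable (K' : Type) [Field K'] [NumberField K']

/-- `StfUC` CLOSED: the field `stf` of the closed tower T5. -/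
theorem stfUC_closed561 : SU736.StfUC K' :=
  fun s l k 𝔑 h𝔑 hcyc => (Fermat.Agent.LT.T5.tower_closed s l k 𝔑 T5.trivType h𝔑 hcyc).stf

/-- The node `OpsC561`, core form, CLOSED. -/
theorem opsCU_closed561 : CU736.OpsC561 K' :=
  CU736.opsC_of561 (GL736.iwSysExists_r_cu (UB675.iwSysExistsUC675_closed K'))
    (H49.opsEigCU49 K') (H49.opsRelCU49 K')
    (GL736.opsComm_r_cu (UB675.opsCommUC675_closed K')) (H49.opsPerCU49 K')
    (GL736.opsAdj_r_cu (UB675.opsAdjUC675_closed K')) (H49.opsSigCU49 K')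
    (GL736.opsLink_r_cu (UB675.opsLinkUC675_closed K')) (H49.badOpCU49 K')

/-- The node `BlocksC561`, core form, CLOSED. -/
theorem blocksCU_closed561 : CU736.BlocksC561 K' :=
  CU736.blocksC_of561 (PU736.blocksAsmC_core K') (GL736.wSpec_r_cu (wSpecUC_closed561 K'))
    (GL736.complete_r_cu (GL736.complete_d_r (H865.completeUC865_closed K')))
    (PU736.sigmaC_core K') (opsCU_closed561 K')
    (GL736.phi_r_cu (UB675.phiUC675_closed K')) (PU736.offWC_core K')

/-- The core node `H29.ExpUpCoreC`, CLOSED. -/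
theorem expUpCoreC_closed561 : H29.ExpUpCoreC K' :=
  CU736.expUpCoreC_of_blocks (stfUC_closed561 K') (blocksCU_closed561 K')
    (H362.changeC362 K') H719.atomsC719 (PU736.sigmaC_core K') (H701.iwSysC701 K')

/-- **SPEC-UP, CORE FORM, CLOSED, UNCONDITIONAL.** -/
theorem specUpCoreSC_closed561 : H29.SpecUpCoreSC K' :=
  H29.specUpCoreSC_of (expUpCoreC_closed561 K') (H963.nonVanCoreC963 K')

/-- **THE STEP `F / ℚ`: the upstairs node of the quadratic step, CLOSED, UNCONDITIONAL.** -/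
theorem specUpQSC_closed561 : H29.SpecUpQSC K' :=
  H29.specUpQSC_of_core (specUpCoreSC_closed561 K')

end Core

section Cyclic

variable (K K' : Type) [Field K] [NumberField K] [Field K'] [NumberField K'] [Algebra K K']

/-- **THE CYCLIC STEP from the core form**: the node of record `T7.SpecUpSC`, CLOSED. -/
theorem specUpSC_core_closed561 : T7.SpecUpSC K K' :=
  SU736.specUpSC_of736 (H812.stableAutC812 K K')
    (H29.specUpCS_of_core (specUpCoreSC_closed561 K'))

end Cyclic

end Fermat.Agent.LT.T7.H561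

end

end
-- ===== PACK-END LT/T7/H561/SpecUpCoreClosed.lean

-- ===== PACK-BEGIN LT/T7/B981/PairAClosed.lean
section













/-!
# Row LT, tower T7, node T7.L2.1.H2a.A `PairAC797` (sub-architect helper981, registry 2728):
# INTEGRATION v1 of the cuts 2, 3, 4 with the delivered leaves

OFF-MAIN.  Complete proofs, nothing assumed.  ADDITIVE (new names only, suffix `981`).
Vendored byte-identical (the `sha256` prefixes are those of the registry):

* `H503/StepS.lean`  `aefc8dee`  helper503, registry 2815: `SS503.stepSC503` (node A.2, closed);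
* `H34/DnGood.lean`  `7aa297e2`  helper34,  registry 2912: `H34.dnGoodC34`;
* `H726/IwSupp.lean` `40b338d4`  helper726, registry 2913: `H726.iwSuppC726`;
* `H607/Shape.lean`  `c2ba93dc`  helper607, registry 2915: `H607.shapeC607`;
* `H302/HaarCplx.lean` `33ff3147` helper302, registry 2685; `H890/Lvl.lean` `29ca52c8` helper890,
  registry 2686; `H368/Sys.lean` `3e4aa3d3` helper368, registry 2687 (leaves of the first cut).

    pairAC_open981 : UpDatC981 K' → NormFrameC981 K K' → DownFinC981 K K' → DownArchC981 K K'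
        → PushTelC981 K K' → UpGoodC981 K K' → DnStabC981 K K'
        → StepTC981 K K' LocA893 → StepMC981 K K' LocA893
        → Q797.PairAC797 ekMulti K K' LocA893

OPEN after v1 (registry): 2979 UpDat, 2980 NormFrame, 2981 DownFin, 2982 DownArch, 2983 PushTel,
2911 UpGood, 2914 DnStab, 2814 StepT (cut of helper589), 2816 StepM (cut of helper445).
-/

set_option autoImplicit false

noncomputable section

namespace Fermat.Agent.LT.T7.B981

open Fermat.Agent.LT.T7

variable {K K' : Type} [Field K] [NumberField K] [Field K'] [NumberField K'] [Algebra K K']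

/-- INTEGRATION v1 of the third cut (the empty word): the leaves `DnGood`, `IwSupp` (both
fields) and `Shape` are discharged. -/
theorem baseAC_open981 (hD : DatC981 K K') (hG : UpGoodC981 K K') (hS : DnStabC981 K K') :
    BaseAC981 ekMulti K K' H893.LocA893 :=
  baseAC_of981 hD hG (H34.dnGoodC34 K K') (H726.iwSuppC726 K') (H726.iwSuppC726 K) hS
    (H607.shapeC607 K K')

/-- INTEGRATION v1 of the fourth cut: the data from their five leaves, then the empty word. -/
theorem baseAC_leaves981 (hU : UpDatC981 K') (hN : NormFrameC981 K K')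
    (hF : DownFinC981 K K') (hA : DownArchC981 K K') (hT : PushTelC981 K K')
    (hG : UpGoodC981 K K') (hS : DnStabC981 K K') :
    BaseAC981 ekMulti K K' H893.LocA893 :=
  baseAC_open981 (datC_of981 hU hN hF hA hT) hG hS

/-- **INTEGRATION v1 of the FIRST PAIR** (node `PairAC797`, shape of record `LocA893`, condition
`ekMulti`): the step of the `S_w` is discharged (helper503). -/
theorem pairAC_open981 (hU : UpDatC981 K') (hN : NormFrameC981 K K')
    (hF : DownFinC981 K K') (hA : DownArchC981 K K') (hT : PushTelC981 K K')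
    (hG : UpGoodC981 K K') (hS : DnStabC981 K K')
    (hsT : StepTC981 K K' H893.LocA893) (hsM : StepMC981 K K' H893.LocA893) :
    Q797.PairAC797 ekMulti K K' H893.LocA893 :=
  pairAC_of981 (baseAC_leaves981 hU hN hF hA hT hG hS) hsT (SS503.stepSC503 K K') hsM

/-- The same with the node `DatC981` kept whole. -/
theorem pairAC_ofDat981 (hD : DatC981 K K') (hG : UpGoodC981 K K') (hS : DnStabC981 K K')
    (hsT : StepTC981 K K' H893.LocA893) (hsM : StepMC981 K K' H893.LocA893) :
    Q797.PairAC797 ekMulti K K' H893.LocA893 :=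
  pairAC_of981 (baseAC_open981 hD hG hS) hsT (SS503.stepSC503 K K') hsM

/-- INTEGRATION v1 of the FIRST cut (form v1 `BaseC`; the form of record `BaseCb` goes through
`Q797.baseCb_of797`): the leaves `HaarCplx`, `Lvl`, `Sys` are discharged. -/
theorem baseC_open981 {P : EKCond} (h1 : Pair1C981 P K K') (h2 : Pair2C981 P K K') :
    H893.BaseC P K K' :=
  baseC_of981 H302.haarCplxC302 (H890.lvlC890 K K') (H368.sysC368 K K') h1 h2

end Fermat.Agent.LT.T7.B981

end

end
-- ===== PACK-END LT/T7/B981/PairAClosed.lean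

-- ===== PACK-BEGIN LT/T7/H311/ShapeTDone.lean
section




/-!
# Row LT, tower T7, node T7.L2.1.H2a.A.1.7 `ST589.ShapeTC589` (sub-architect helper311):
# THE NODE CLOSED, UNCONDITIONAL

OFF-MAIN.  Complete proof, nothing assumed.

    shapeTC311 (K K') : ST589.ShapeTC589 K K'                      (VERBATIM, UNCONDITIONAL)

= `shapeTC_of_pure311` (`ShapeTClosed.lean`) + the leaf ShT.1 `pureDC595` (helper595,
byte-identical copy).
-/

set_option autoImplicit false

open AutomorphicForm IsDedekindDomain NumberField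

noncomputable section

namespace Fermat.Agent.LT.T7.H311

open Fermat.Agent.LT.T7 Fermat.Agent.LT.T7.ST589

/-- **THE NODE `ST589.ShapeTC589`**, VERBATIM, unconditional. -/
theorem shapeTC311 (K K' : Type) [Field K] [NumberField K] [Field K'] [NumberField K']
    [Algebra K K'] : ShapeTC589 K K' :=
  shapeTC_of_pure311 K K' (H595.pureDC595 K') (H595.pureDC595 K)

end Fermat.Agent.LT.T7.H311

end

end
-- ===== PACK-END LT/T7/H311/ShapeTDone.lean

-- ===== PACK-BEGIN LT/T7/H756/BaseQLeaves.lean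
section







/-!
# LT T7.L2Q.1.H2a `BaseQC57`: the small leaves `SysQC57`, `LevFnC57`, `DivSetC57`
# (helper756, OFF-MAIN)

VERBATIM against helper57 `T7/H57/BaseQSpec.lean` (c0b5f444), UNCONDITIONAL.

* `divSetC756 K : CQ57.DivSetC57 K` (`Ideal.finite_factors`);
* `levFnC756 K : CQ57.LevFnC57 K` (`exists_levelExp756`: the closure of a nonzero ideal in
  `K_v` is a ball);
* `sysQC756 F : CQ57.SysQC57 F` (`exists_dblCosetSystem_of_ne_bot756`, topology-free;
  `exists_iwCosetSystem340` of helper340; `exists_scalarUniformizer129` of helper129);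
* `haarRC756 : CQ57.HaarRC57`, `haarCC756 : CQ57.HaarCC57` (Mathlib: `GL₂` closed in
  `M₂ × M₂ᵐᵒᵖ`, `Measure.haar`; the route of helper116 `haarCplxC116`).
-/

set_option autoImplicit false
set_option linter.style.haveILetI false

open AutomorphicForm IsDedekindDomain NumberField

noncomputable section

namespace Fermat.Agent.LT.T7.H756

open Fermat.Agent.LT.H556 Fermat.Agent.LT.H556.A0 Fermat.Agent.LT.T7
open Fermat.Agent.LT.T7.H305 Fermat.Agent.LT.T7.H893 Fermat.Agent.LT.T7.H962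

/-- **LEAF `DivSetC57`.** -/
theorem divSetC756 (K : Type) [Field K] [NumberField K] : CQ57.DivSetC57 K := by
  classical
  intro 𝔫 h𝔫
  refine ⟨(Ideal.finite_factors (show 𝔫 ≠ 0 from h𝔫)).toFinset, fun v => ?_⟩
  rw [Set.Finite.mem_toFinset]
  exact Iff.rfl

/-- **LEAF `LevFnC57`.** -/
theorem levFnC756 (K : Type) [Field K] [NumberField K] : CQ57.LevFnC57 K := by
  intro 𝔫 h𝔫
  obtain ⟨m, hm, -⟩ := exists_levelExp756 𝔫 h𝔫
  exact ⟨m, hm⟩

/-- **LEAF `SysQC57`.** -/
theorem sysQC756 (F : Type) [Field F] [NumberField F] : CQ57.SysQC57 F := by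
  intro Φ B hB g hg
  obtain ⟨𝔫₀, h0, h1, _, _⟩ := hB.base_level
  have hN : B.𝔑₀ ≠ ⊥ := by
    rw [h1]
    intro hbot
    apply h0
    unfold upI at hbot
    exact (Ideal.map_eq_bot_iff_of_injective
      (FaithfulSMul.algebraMap_injective (𝓞 ℚ) (𝓞 F))).1 hbot
  obtain ⟨Hg, hHg⟩ := exists_dblCosetSystem_of_ne_bot756 B.𝔑₀ hN g hg.1
  obtain ⟨H', hH'⟩ := Fermat.Agent.LT.T7.H340.exists_iwCosetSystem340 (w := B.o 0)
  obtain ⟨z', hz'⟩ := Fermat.Agent.LT.H129.exists_scalarUniformizer129 (v := B.o 0)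
  obtain ⟨H, hH⟩ := Fermat.Agent.LT.T7.H340.exists_iwCosetSystem340 (w := B.u)
  obtain ⟨z, hz⟩ := Fermat.Agent.LT.H129.exists_scalarUniformizer129 (v := B.u)
  exact ⟨Hg, H', z', H, z, ⟨hHg, hH', hz', hH, hz⟩⟩

/-- `GL₂(𝕜)` is locally compact for a locally compact topological field `𝕜` (closed in
`M₂ × M₂ᵐᵒᵖ`). -/
theorem locallyCompactSpace_gl756 (𝕜 : Type) [Field 𝕜] [TopologicalSpace 𝕜]
    [IsTopologicalRing 𝕜] [T1Space 𝕜] [LocallyCompactSpace 𝕜] :
    LocallyCompactSpace (GL (Fin 2) 𝕜) := by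
  haveI : LocallyCompactSpace (Matrix (Fin 2) (Fin 2) 𝕜) :=
    (inferInstance : LocallyCompactSpace (Fin 2 → Fin 2 → 𝕜))
  haveI : LocallyCompactSpace (Matrix (Fin 2) (Fin 2) 𝕜)ᵐᵒᵖ :=
    (MulOpposite.opHomeomorph
      (M := Matrix (Fin 2) (Fin 2) 𝕜)).symm.isClosedEmbedding.locallyCompactSpace
  exact (Units.isClosedEmbedding_embedProduct
    (α := Matrix (Fin 2) (Fin 2) 𝕜)).locallyCompactSpace

/-- **LEAF `HaarRC57`.** -/
theorem haarRC756 : CQ57.HaarRC57 := by
  letI : MeasurableSpace (GL (Fin 2) ℝ) := borel _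
  haveI : BorelSpace (GL (Fin 2) ℝ) := ⟨rfl⟩
  haveI := locallyCompactSpace_gl756 ℝ
  exact ⟨MeasureTheory.Measure.haar, inferInstance⟩

/-- **LEAF `HaarCC57`.** -/
theorem haarCC756 : CQ57.HaarCC57 := by
  letI : MeasurableSpace (GL (Fin 2) ℂ) := borel _
  haveI : BorelSpace (GL (Fin 2) ℂ) := ⟨rfl⟩
  haveI := locallyCompactSpace_gl756 ℂ
  exact ⟨MeasureTheory.Measure.haar, inferInstance⟩

end Fermat.Agent.LT.T7.H756

end

end
-- ===== PACK-END LT/T7/H756/BaseQLeaves.lean

-- ===== PACK-BEGIN LT/T7/H801/BaseQCutSpec.lean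
section




/-!
# Row LT, tower T7, node T7.L2Q.1.H2a `CQ801.BaseQC801` (base node of the construction over `ℚ`,
# cut of record of the quadratic step, registry row 2609): SECOND CUT -- Spec

OFF-MAIN.  Definitions and frozen Props only (the proved top is `BaseQCutTop.lean`).  No hole,
nothing assumed.  ADDITIVE (new names only, all suffixed `801`, namespace
`Fermat.Agent.LT.T7.CQ801`).

RETYPE, on the shapes of record (`LocAQ801`, `LocBQ801`: local hypotheses with the split clause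
for ONE enumeration = `MQ298.LocHypQ298b`, archimedean clause = ABEL RELATION with a constant
`c`; ruling 18674 of helper797), of the second cut of helper57 (`T7/H57/BaseQSpec.lean`
c0b5f444, typed on the v1 shapes) = mirror over `ℚ` of the first cut of helper797 of the cubic
base node (`T7/Q797/BaseCutSpec.lean` e87d7ea9: `PairAC797`, `PairBC797`).  The shape-free
vocabulary and the small leaves of helper57 are USED AS THEY ARE (`CQ57.IsLevQ57`,
`CQ57.IsSysQ57`, `CQ57.IsLevFnQ57`; `CQ57.HaarRC57`, `CQ57.HaarCC57`, `CQ57.DivSetC57`,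
`CQ57.LevFnC57`, `CQ57.SysQC57`: all five CLOSED, helper756 `T7/H756/BaseQLeaves.lean`).

    baseQC_of_pairs801 : PairAQC801 P F → PairBQC801 P F → BaseQC801 P F

## The cut: the two pairs are INDEPENDENT

* **`PairAQC801 P F`** (NODE A = the FIRST pair `(Φ₁ X, F₁ w0 X, F₁ w1 X)`, all words; T3.18M over
  `F` + T3.18R over `ℚ` + T6; NO bad element, NO natural average): for EVERY level `𝔫` with the
  level properties, the exponents of the level and EVERY constant `c ≠ 0` of the Abel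
  relation.
* **`PairBQC801 P F`** (NODE B = the SECOND pair `(φ₂, f₂ w0, f₂ w1)`, for ONE bad element;
  T3.18M + T3.18R + T6 + the natural average): CHOOSES the level `𝔫` (deep enough for the
  partners of the double coset functions at the bad places) and gives the pair for all Haar
  measures, the exponents of the level and ALL constants `c ≠ 0`, `a ≠ 0`.

The operator fields are those of `H732.IsL2QPreOp732` / `H732.IsL2QPreSupp732` (same names, same
statements; VERBATIM the fields of `CQ57.IsPair1Q57`, `CQ57.IsPair2Q57`).  Only the field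
`shape` differs from helper57's structures.

FALSITY CHECKS (helper801).  (a) Node A for every `c`: all operator fields are homogeneous in
`F₁` (`dn1_op` compares `F₁ t X` with `F₁ t []`; `dn1_wfn`, `dn1_class`, `dn1_comm` are
properties of the operator of `F₁ t []`, stable under scalars), and the Abel relation with the
constant `c` is reached from any non-zero constant by a scalar.  (b) Node A does not see the Haar
measures of `GL₂(ℝ)`, `GL₂(ℂ)`: `LocAQ801` does not mention them.  (c) Node B for all Haar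
measures: they occur in `LocBQ801` only through the clause `arch` of `LocHypQb801` for the
auxiliary archimedean components `Φd, F0d, F1d` of the partner, and the zero functions are
admissible there.  (d) `up_ne` is split into `up1_ne` (`c₁`) and `up2_ne` (`c₂`); `m₀` of the
pre-data is free (no field mentions it).  (e) The exponents are the same for both pairs: they
are quantified universally in both nodes.
-/

set_option autoImplicit false

open AutomorphicForm IsDedekindDomain NumberField MeasureTheory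
open scoped ComplexConjugate

noncomputable section

namespace Fermat.Agent.LT.T7.CQ801

open Fermat.Agent.LT.H556 Fermat.Agent.LT.H556.A0 Fermat.Agent.LT.T7 Fermat.Agent.LT.T7.H305
  Fermat.Agent.LT.T7.L2Q Fermat.Agent.LT.T7.H893 Fermat.Agent.LT.T7.H962
  Fermat.Agent.LT.T7.H732 Fermat.Agent.LT.T7.MQ298

attribute [local instance] Fermat.Agent.LT.T5.instMeasurableSpaceG

section Defs

variable {F : Type} [Field F] [NumberField F]

/-- **THE PROPERTIES OF THE FIRST PAIR** `(Φ₁, F₁)` with the scalar `c₁`, for the level `𝔫` and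
the constant `c` of the Abel relation: the fields `up1_*`, `dn1_*` of `H732.IsL2QPreOp732` and
`H732.IsL2QPreSupp732` (same names, same statements), the first half of `up_ne`, and the local
shape OF RECORD (`IsAvgPureQ801` with the local condition `LocAQ801 c`, constant `1`). -/
structure IsPairAQ801 (Φ : HeckeEigensystem F ℂ) (B : L2QBase962 F) (𝔫 : Ideal (𝓞 ℚ))
    (c : ℂ) (T₀ : Finset (HeightOneSpectrum (𝓞 ℚ)))
    (n : HeightOneSpectrum (𝓞 F) → ℕ) (m : HeightOneSpectrum (𝓞 ℚ) → ℕ)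
    (c₁ : EigData F → ℂ) (Φ₁ : List (Gen F) → G F → ℂ)
    (F₁ : QWt → List (Gen F) → G ℚ → ℂ) : Prop where
  up1_test : ∀ X : List (Gen F), (∀ x ∈ X, x.Out B.S') →
    T5.IsTestFn (upI (K' := F) 𝔫) T5.trivType (Φ₁ X)
  up1_ek : ∀ X : List (Gen F), (∀ x ∈ X, x.Out B.S') →
    T5.IsEK B.R'.μ (Φ₁ X) ∧ T5.IsEK B.R'.μ (T5.adjointFn (Φ₁ X))
  up1_op : ∀ X : List (Gen F), (∀ x ∈ X, x.Out B.S') →
    ∀ (χ : G F → ℂ) (C : EigData F), IsEigFn B.𝔑₀ B.R'.r 2 B.o χ C →
      ∀ x : G F, T5.Rconv B.R'.μ (Φ₁ X) χ x = wordEv X C * c₁ C * χ x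
  up1_ne : ∀ C : EigData F, C.AgreeOut B.S' (eigOf Φ) → c₁ C ≠ 0
  dn1_test : ∀ (t : QWt) (X : List (Gen F)), (∀ x ∈ X, x.Out B.S') →
    T5.IsTestFn 𝔫 t.type (F₁ t X)
  dn1_ek : ∀ (t : QWt) (X : List (Gen F)), (∀ x ∈ X, x.Out B.S') →
    T5.IsEK B.R.μ (F₁ t X) ∧ T5.IsEK B.R.μ (T5.adjointFn (F₁ t X))
  dn1_op : ∀ (t : QWt) (X : List (Gen F)), (∀ x ∈ X, x.Out B.S') →
    ∀ (χ : G ℚ → ℂ) (c : EigData ℚ) (C : EigData F),
      IsEigFnQ t 𝔫 B.R.r B.u χ c → IsBCDataQ t c C B.S →
      ∀ x : G ℚ, T5.Rconv B.R.μ (F₁ t X) χ x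
        = wordEv X C * T5.Rconv B.R.μ (F₁ t []) χ x
  dn1_wfn : ∀ (t : QWt) (ψ : G ℚ → ℂ), IsWFnQ t 𝔫 B.R.r B.u ψ →
    IsWFnQ t 𝔫 B.R.r B.u (T5.Rconv B.R.μ (F₁ t []) ψ)
  dn1_class : ∀ (t : QWt) (ψ : G ℚ → ℂ) (c : EigData ℚ), IsEigFnQ t 𝔫 B.R.r B.u ψ c →
    IsEigFnQ t 𝔫 B.R.r B.u (T5.Rconv B.R.μ (F₁ t []) ψ) c
  dn1_comm : ∀ (t : QWt) (ψ : G ℚ → ℂ), IsWFnQ t 𝔫 B.R.r B.u ψ →
    ∀ (H : Finset (G ℚ)) (z : G ℚ), IsIwCosetSystem B.u H → IsScalarUniformizerAt B.u z →
      (∀ x : G ℚ, T5.Rconv B.R.μ (F₁ t []) (iwOp B.u H ψ) x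
        = iwOp B.u H (T5.Rconv B.R.μ (F₁ t []) ψ) x) ∧
      ∀ (k : ℤ) (x : G ℚ), T5.Rconv B.R.μ (F₁ t []) (shiftOp z k ψ) x
        = shiftOp z k (T5.Rconv B.R.μ (F₁ t []) ψ) x
  up1_supp : ∀ X : List (Gen F), (∀ x ∈ X, x.Out B.S') →
    ∃ C : Set (G F), IsCompact C ∧ T5.H32.IsIwSupported32 2 B.o C (Φ₁ X)
  dn1_supp : ∀ (t : QWt) (X : List (Gen F)), (∀ x ∈ X, x.Out B.S') →
    ∃ C : Set (G ℚ), IsCompact C ∧ T5.H32.IsIwSupported32 1 (fun _ => B.u) C (F₁ t X)
  /-- the local shape of record: averages of pure tensors with the local condition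
  `LocAQ801 c`, constant `1` -/
  shape : ∀ X : List (Gen F), (∀ x ∈ X, x.Out B.S') →
    IsAvgPureQ801 (upI (K' := F) 𝔫) 𝔫 T₀ (LocAQ801 c T₀ n m) 1
      (Φ₁ X) (F₁ QWt.w0 X) (F₁ QWt.w1 X)

/-- **THE PROPERTIES OF THE SECOND PAIR** `(φ₂, f₂)` with the scalar `c₂`, for the bad element
`g`, the level `𝔫`, the constant `c` of the Abel relation and the constant `a`: the fields
`up2_*`, `dn2_*` of `H732.IsL2QPreOp732` and `H732.IsL2QPreSupp732` (same names, same
statements), the second half of `up_ne`, and the local shape OF RECORD (`IsAvgPureQ801` with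
the local condition `LocBQ801 … c`, constant `a`). -/
structure IsPairBQ801 (Φ : HeckeEigensystem F ℂ) (B : L2QBase962 F) (g : G F)
    (𝔫 : Ideal (𝓞 ℚ))
    (μr : @Measure (GL (Fin 2) ℝ) (borel _)) (μc : @Measure (GL (Fin 2) ℂ) (borel _))
    (c a : ℂ) (T₀ : Finset (HeightOneSpectrum (𝓞 ℚ)))
    (n n₀ : HeightOneSpectrum (𝓞 F) → ℕ) (m : HeightOneSpectrum (𝓞 ℚ) → ℕ)
    (c₂ : EigData F → ℂ) (φ₂ : G F → ℂ) (f₂ : QWt → G ℚ → ℂ) : Prop where
  up2_test : T5.IsTestFn (upI (K' := F) 𝔫) T5.trivType φ₂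
  up2_ek : T5.IsEK B.R'.μ φ₂ ∧ T5.IsEK B.R'.μ (T5.adjointFn φ₂)
  up2_inv : IsUInv B.𝔑₀ 2 B.o φ₂
  up2_op : ∀ (ψ : G F → ℂ) (C : EigData F), IsEigFn B.𝔑₀ B.R'.r 2 B.o ψ C →
    ∀ x : G F, T5.Rconv B.R'.μ φ₂ ψ x = c₂ C * ψ x
  up2_kill : ∀ ψ : G F → ℂ, T5.IsCuspFn (upI (K' := F) 𝔫) T5.trivType B.R'.r ψ →
    (∀ χ : G F → ℂ, IsWFn B.𝔑₀ B.R'.r 2 B.o χ → T5.innerD B.R'.μ B.R'.F ψ χ = 0) →
    ∀ x : G F, T5.Rconv B.R'.μ φ₂ ψ x = 0
  up2_ne : ∀ C : EigData F, C.AgreeOut B.S' (eigOf Φ) → c₂ C ≠ 0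
  dn2_test : ∀ t : QWt, T5.IsTestFn 𝔫 t.type (f₂ t)
  dn2_ek : ∀ t : QWt, T5.IsEK B.R.μ (f₂ t) ∧ T5.IsEK B.R.μ (T5.adjointFn (f₂ t))
  dn2_inv : ∀ t : QWt, IsUInv 𝔫 1 (fun _ => B.u) (f₂ t)
  dn2_wfn : ∀ (t : QWt) (ψ : G ℚ → ℂ), IsWFnQ t 𝔫 B.R.r B.u ψ →
    IsWFnQ t 𝔫 B.R.r B.u (T5.Rconv B.R.μ (f₂ t) ψ)
  dn2_class : ∀ (t : QWt) (ψ : G ℚ → ℂ) (c : EigData ℚ), IsEigFnQ t 𝔫 B.R.r B.u ψ c →
    IsEigFnQ t 𝔫 B.R.r B.u (T5.Rconv B.R.μ (f₂ t) ψ) c
  dn2_comm : ∀ (t : QWt) (ψ : G ℚ → ℂ), IsWFnQ t 𝔫 B.R.r B.u ψ →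
    ∀ (H : Finset (G ℚ)) (z : G ℚ), IsIwCosetSystem B.u H → IsScalarUniformizerAt B.u z →
      (∀ x : G ℚ, T5.Rconv B.R.μ (f₂ t) (iwOp B.u H ψ) x
        = iwOp B.u H (T5.Rconv B.R.μ (f₂ t) ψ) x) ∧
      ∀ (k : ℤ) (x : G ℚ), T5.Rconv B.R.μ (f₂ t) (shiftOp z k ψ) x
        = shiftOp z k (T5.Rconv B.R.μ (f₂ t) ψ) x
  dn2_kill : ∀ (t : QWt) (ψ : G ℚ → ℂ), T5.IsCuspFn 𝔫 t.type B.R.r ψ →
    (∀ χ : G ℚ → ℂ, IsWFnQ t 𝔫 B.R.r B.u χ → T5.innerD B.R.μ B.R.F ψ χ = 0) →
    ∀ x : G ℚ, T5.Rconv B.R.μ (f₂ t) ψ x = 0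
  up2_supp : ∃ C : Set (G F), IsCompact C ∧ T5.H32.IsIwSupported32 2 B.o C φ₂
  dn2_supp : ∀ t : QWt,
    ∃ C : Set (G ℚ), IsCompact C ∧ T5.H32.IsIwSupported32 1 (fun _ => B.u) C (f₂ t)
  /-- the local shape of record: averages of pure tensors with the local condition
  `LocBQ801 … c`, constant `a` -/
  shape : IsAvgPureQ801 (upI (K' := F) 𝔫) 𝔫 T₀ (LocBQ801 B g 𝔫 μr μc c T₀ n n₀ m) a
    φ₂ (f₂ QWt.w0) (f₂ QWt.w1)

end Defs

/-! ## The nodes of the second cut -/

section Nodes

variable (P : EKCond)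
variable (F : Type) [Field F] [NumberField F]

/-- **NODE T7.L2Q.1.H2a.A = PAIR-A over `ℚ` (the first pair; T3.18M + T3.18R + T6).**  For a
common part of helper60 with `3 ∈ S`, EVERY level `𝔫` with the level properties, the exponents
of the level and EVERY constant `c ≠ 0`: the first pair `(Φ₁, F₁)` with the scalar `c₁` exists,
with components at infinity in the Abel relation `c`.
Construction.  Upstairs as `Q797.PairAC797` (Eisenstein-killing function of station T3.18M in
the explicit form `T3/M/Explicit.lean`: finite sum of pure tensors, unit components at the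
places of the level, spherical outside, bi-`U(2)`-invariant at infinity with `N`-integral a
symmetric bump `β'`; `Φ₁ X` = the word applied to it).  Downstairs the Eisenstein-killing
functions of the types `w0`, `w1` of station T3.18R (`T3.R.ekOpExistR_c`: pure tensors
`T3.R.pureFnR` with THE SAME finite components for the two types = base change / convolution
product of the components upstairs, `ℓ = 2`, Satake form `H893.SphOut893`), with archimedean
components of weight `0`, `-1` and `N`-integral `halfQ801 c β'` (`T3.R.AbelRealC`: every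
symmetric bump is an `N`-integral in the weights `0`, `±1`). -/
def PairAQC801 : Prop :=
  HasSqrtNegThree F → IsImagQuad F →
    ∀ Φ : HeckeEigensystem F ℂ, A0.IsCuspAdelicSph0 F Φ → ConstOnFibresQ Φ → P F Φ →
      ∀ B : L2Q.H60.L2QBase F, L2Q.H60.IsL2QBase Φ B → L2Q.H60.IsRamQ60 B →
      ∀ 𝔫 : Ideal (𝓞 ℚ), CQ57.IsLevQ57 (toBase962_732 B) 𝔫 →
      ∀ (T₀ : Finset (HeightOneSpectrum (𝓞 ℚ)))
        (n n₀ : HeightOneSpectrum (𝓞 F) → ℕ) (m : HeightOneSpectrum (𝓞 ℚ) → ℕ),
        CQ57.IsLevFnQ57 (toBase962_732 B) 𝔫 T₀ n n₀ m →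
        ∀ c : ℂ, c ≠ 0 →
          ∃ (c₁ : EigData F → ℂ) (Φ₁ : List (Gen F) → G F → ℂ)
            (F₁ : QWt → List (Gen F) → G ℚ → ℂ),
            IsPairAQ801 Φ (toBase962_732 B) 𝔫 c T₀ n m c₁ Φ₁ F₁

/-- **NODE T7.L2Q.1.H2a.B = PAIR-B over `ℚ` (the second pair, for ONE bad element; T3.18M +
T3.18R + T6 + `♮`).**  For a common part of helper60 with `3 ∈ S` and a bad element `g` there is
a LEVEL `𝔫` such that for all Haar measures, the exponents of the level and ALL constants
`c ≠ 0`, `a ≠ 0` the second pair `(φ₂, f₂)` with the scalar `c₂` exists.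
Construction.  As `Q797.PairBC797` with `ℓ = 2`: `𝔫 = 𝔫₀ ^ d`, `d` so large that the partners
of the double coset functions `1_{U₀ g_w U₀}` at the bad places `v ≠ u` (`T6.BadMatchC` at the
places with one place over them, the ramified place included; at a split bad place the
convolution product in the order of ONE enumeration of the two places) are bi-invariant under
`U(𝔫)_v`; `φ₂` = the natural average of an Eisenstein-killing function with unit components
`1_{U₀}` at the bad places and Iwahori components over `u`; `f₂ t = a ·` the average of the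
pure tensors with the partners at the bad places, the Iwahori function at `u`, the matched
spherical components outside the level, and the component of type `t` at infinity with
`N`-integral `halfQ801 c β'`. -/
def PairBQC801 : Prop :=
  HasSqrtNegThree F → IsImagQuad F →
    ∀ Φ : HeckeEigensystem F ℂ, A0.IsCuspAdelicSph0 F Φ → ConstOnFibresQ Φ → P F Φ →
      ∀ B : L2Q.H60.L2QBase F, L2Q.H60.IsL2QBase Φ B → L2Q.H60.IsRamQ60 B →
      ∀ g : G F, B.IsBad g →
      ∃ 𝔫 : Ideal (𝓞 ℚ), CQ57.IsLevQ57 (toBase962_732 B) 𝔫 ∧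
        ∀ (μr : @Measure (GL (Fin 2) ℝ) (borel _)) (μc : @Measure (GL (Fin 2) ℂ) (borel _)),
          @Measure.IsHaarMeasure _ _ _ (borel _) μr →
          @Measure.IsHaarMeasure _ _ _ (borel _) μc →
        ∀ (T₀ : Finset (HeightOneSpectrum (𝓞 ℚ)))
          (n n₀ : HeightOneSpectrum (𝓞 F) → ℕ) (m : HeightOneSpectrum (𝓞 ℚ) → ℕ),
          CQ57.IsLevFnQ57 (toBase962_732 B) 𝔫 T₀ n n₀ m →
          ∀ c a : ℂ, c ≠ 0 → a ≠ 0 →
            ∃ (c₂ : EigData F → ℂ) (φ₂ : G F → ℂ) (f₂ : QWt → G ℚ → ℂ),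
              IsPairBQ801 Φ (toBase962_732 B) g 𝔫 μr μc c a T₀ n n₀ m c₂ φ₂ f₂

end Nodes

/-! ## Appendix: the equation lemmas of the definitions of this file are realised HERE -/

theorem eqns_realised_baseQCut801 : True := by
  have _h0_0 := @PairAQC801.eq_1
  have _h0_1 := @PairAQC801.eq_def
  have _h0_2 := @PairAQC801.eq_unfold
  have _h1_0 := @PairBQC801.eq_1
  have _h1_1 := @PairBQC801.eq_def
  have _h1_2 := @PairBQC801.eq_unfold
  trivial

end Fermat.Agent.LT.T7.CQ801

end

end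
-- ===== PACK-END LT/T7/H801/BaseQCutSpec.lean

-- ===== PACK-BEGIN LT/T7/H801/BaseQCutTop.lean
section





/-!
# Row LT, tower T7, node T7.L2Q.1.H2a `CQ801.BaseQC801`: SECOND CUT -- proved tops

OFF-MAIN.  Complete proofs, nothing assumed.  ADDITIVE.

    baseQC_of_pairs801' : HaarRC57 → HaarCC57 → DivSetC57 ℚ → LevFnC57 ℚ → LevFnC57 F
                            → SysQC57 F → PairAQC801 P F → PairBQC801 P F → BaseQC801 P F
    baseQC_of_pairs801  : PairAQC801 P F → PairBQC801 P F → BaseQC801 P F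
                            (the five small leaves discharged: helper756 `BaseQLeaves.lean`)
    nodesQ_of_pairs801  : MQ298.GlobMatchQC298b F → PairAQC801 P F → PairBQC801 P F
                            → (∀ κ nowhere zero, ProdMtQC801 F κ)
                            → ∃ Mt, H732.GlobQC732 F Mt ∧ H732.ConstrQRC732 P F Mt
-/

set_option autoImplicit false

open AutomorphicForm IsDedekindDomain NumberField MeasureTheory
open scoped ComplexConjugate

noncomputable section

namespace Fermat.Agent.LT.T7.CQ801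

open Fermat.Agent.LT.H556 Fermat.Agent.LT.H556.A0 Fermat.Agent.LT.T7 Fermat.Agent.LT.T7.H305
  Fermat.Agent.LT.T7.L2Q Fermat.Agent.LT.T7.H893 Fermat.Agent.LT.T7.H962
  Fermat.Agent.LT.T7.H732 Fermat.Agent.LT.T7.MQ298

attribute [local instance] Fermat.Agent.LT.T5.instMeasurableSpaceG

section Top

variable {P : EKCond}
variable {F : Type} [Field F] [NumberField F]

/-- **The pre-data assembled from the level, the coset systems and the two pairs have the
operator properties.** -/
theorem isL2QPreOp_of_pairs801 {Φ : HeckeEigensystem F ℂ} {B : L2QBase962 F} {g : G F}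
    {𝔫 : Ideal (𝓞 ℚ)} {μr : @Measure (GL (Fin 2) ℝ) (borel _)}
    {μc : @Measure (GL (Fin 2) ℂ) (borel _)} {T₀ : Finset (HeightOneSpectrum (𝓞 ℚ))}
    {n n₀ : HeightOneSpectrum (𝓞 F) → ℕ} {m : HeightOneSpectrum (𝓞 ℚ) → ℕ} {c a : ℂ}
    {c₁ c₂ : EigData F → ℂ} {Φ₁ : List (Gen F) → G F → ℂ} {φ₂ : G F → ℂ}
    {F₁ : QWt → List (Gen F) → G ℚ → ℂ} {f₂ : QWt → G ℚ → ℂ}
    {Hg H' : Finset (G F)} {z' : G F} {H : Finset (G ℚ)} {z : G ℚ}
    (hlev : CQ57.IsLevQ57 B 𝔫) (hsys : CQ57.IsSysQ57 B g Hg H' z' H z)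
    (h1 : IsPairAQ801 Φ B 𝔫 c T₀ n m c₁ Φ₁ F₁)
    (h2 : IsPairBQ801 Φ B g 𝔫 μr μc c a T₀ n n₀ m c₂ φ₂ f₂) (m₀ : List (Gen F) → ℕ) :
    IsL2QPreOp732 Φ B g ⟨𝔫, c₁, c₂, Φ₁, φ₂, F₁, f₂, Hg, H', z', H, z, m₀⟩ where
  level_ne := hlev.level_ne
  level_g := hlev.level_g
  mem_S'_g := hlev.mem_S'_g
  u_level := hlev.u_level
  sysg := hsys.sysg
  sys' := hsys.sys'
  unif' := hsys.unif'
  sys := hsys.sys
  unif := hsys.unif
  up1_test := h1.up1_test
  up1_ek := h1.up1_ek
  up1_op := h1.up1_op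
  up2_test := h2.up2_test
  up2_ek := h2.up2_ek
  up2_inv := h2.up2_inv
  up2_op := h2.up2_op
  up2_kill := h2.up2_kill
  up_ne := fun C hC => ⟨h1.up1_ne C hC, h2.up2_ne C hC⟩
  dn1_test := h1.dn1_test
  dn1_ek := h1.dn1_ek
  dn1_op := h1.dn1_op
  dn1_wfn := h1.dn1_wfn
  dn1_class := h1.dn1_class
  dn1_comm := h1.dn1_comm
  dn2_test := h2.dn2_test
  dn2_ek := h2.dn2_ek
  dn2_inv := h2.dn2_inv
  dn2_wfn := h2.dn2_wfn
  dn2_class := h2.dn2_class
  dn2_comm := h2.dn2_comm
  dn2_kill := h2.dn2_kill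

/-- **THE TOP OF THE SECOND CUT** (with the small leaves as hypotheses): the base node of the
construction over `ℚ` from the two pairs, the coset systems and the small leaves. -/
theorem baseQC_of_pairs801' (hHr : CQ57.HaarRC57) (hHc : CQ57.HaarCC57)
    (hDiv : CQ57.DivSetC57 ℚ) (hLq : CQ57.LevFnC57 ℚ) (hLF : CQ57.LevFnC57 F)
    (hSys : CQ57.SysQC57 F)
    (h1 : PairAQC801 P F) (h2 : PairBQC801 P F) : BaseQC801 P F := by
  intro h3 hquad Φ hΦ hconst hPΦ B hB hram g hg
  obtain ⟨μr, hμr⟩ := hHr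
  obtain ⟨μc, hμc⟩ := hHc
  have hB' := isL2QBase962_of60_732 hB
  obtain ⟨𝔫, hlev, hP2⟩ := h2 h3 hquad Φ hΦ hconst hPΦ B hB hram g hg
  obtain ⟨T₀, hT₀⟩ := hDiv 𝔫 hlev.level_ne
  obtain ⟨m, hm⟩ := hLq 𝔫 hlev.level_ne
  obtain ⟨n, hn⟩ := hLF (upI (K' := F) 𝔫) (upI_ne_bot962 hlev.level_ne)
  have h𝔑₀ : (toBase962_732 B).𝔑₀ ≠ ⊥ := by
    obtain ⟨𝔫₀, h𝔫₀, h𝔑, -, -⟩ := hB'.base_level
    rw [h𝔑]
    exact upI_ne_bot962 h𝔫₀
  obtain ⟨n₀, hn₀⟩ := hLF _ h𝔑₀
  have hfn : CQ57.IsLevFnQ57 (toBase962_732 B) 𝔫 T₀ n n₀ m := ⟨hT₀, hm, hn, hn₀⟩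
  obtain ⟨Hg, H', z', H, z, hsys⟩ := hSys Φ _ hB' g hg
  refine ⟨𝔫, μr, μc, hμr, hμc, fun c a hc ha => ?_⟩
  obtain ⟨c₁, Φ₁, F₁, hp1⟩ :=
    h1 h3 hquad Φ hΦ hconst hPΦ B hB hram 𝔫 hlev T₀ n n₀ m hfn c hc
  obtain ⟨c₂, φ₂, f₂, hp2⟩ := hP2 μr μc hμr hμc T₀ n n₀ m hfn c a hc ha
  refine ⟨⟨𝔫, c₁, c₂, Φ₁, φ₂, F₁, f₂, Hg, H', z', H, z, fun _ => 0⟩, rfl,
    isL2QPreOp_of_pairs801 hlev hsys hp1 hp2 _, ?_, ?_⟩
  · exact ⟨hp1.up1_supp, hp2.up2_supp, hp1.dn1_supp, hp2.dn2_supp⟩
  · exact ⟨T₀, n, n₀, m, hT₀, hm, hn, hn₀, hp1.shape, hp2.shape⟩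

/-- **THE TOP OF THE SECOND CUT**: the base node of the construction over `ℚ` from the two
pairs (the five small leaves are closed: helper756). -/
theorem baseQC_of_pairs801 (h1 : PairAQC801 P F) (h2 : PairBQC801 P F) : BaseQC801 P F :=
  baseQC_of_pairs801' H756.haarRC756 H756.haarCC756 (H756.divSetC756 ℚ) (H756.levFnC756 ℚ)
    (H756.levFnC756 F) (H756.sysQC756 F) h1 h2

/-- **THE TWO NODES OF RECORD** `GlobQC732`, `ConstrQRC732` (rows 2464, 2465), for ONE relation,
from the open nodes of the quadratic step: the matching node of helper298 (v2), the two pairs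
and the calculus of pure tensors. -/
theorem nodesQ_of_pairs801 (hG : MQ298.GlobMatchQC298b F)
    (h1 : PairAQC801 P F) (h2 : PairBQC801 P F)
    (hProd : ∀ κ : KapFnQ801 F, (∀ D μr μc T₀ n m, κ D μr μc T₀ n m ≠ 0) → ProdMtQC801 F κ) :
    ∃ Mt : H732.MtRelQ732 F, H732.GlobQC732 F Mt ∧ H732.ConstrQRC732 P F Mt :=
  nodesQ_of_open801 hG (baseQC_of_pairs801 h1 h2) hProd

end Top

end Fermat.Agent.LT.T7.CQ801

end

end
-- ===== PACK-END LT/T7/H801/BaseQCutTop.lean

-- ===== PACK-BEGIN LT/T7/H484/PairAQSpec.lean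
section



/-!
# Row LT, tower T7, node T7.L2Q.1.H2a.A `CQ801.PairAQC801` (sub-architect helper484, registry
# row 2855): THIRD CUT over `ℚ` -- Spec

OFF-MAIN.  Definitions and frozen Props only (the proved top is `PairAQTop.lean`).  No hole,
nothing assumed.  ADDITIVE (new names only, all suffixed `484`, namespace
`Fermat.Agent.LT.T7.PQ484`).  Vocabulary: the second cut of helper801
(`T7/H801/BaseQCutSpec.lean` 7e08115d: `IsPairAQ801`, `PairAQC801`), byte-identical copy.

MIRROR over `ℚ` (quadratic step, `F = ℚ(√-3)`, `ℓ = 2`, TWO `K_∞`-types `w0`, `w1` downstairs)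
of the second cut of helper981 of the cubic node `Q797.PairAC797`
(`T7/B981/PairASpec.lean` 54ea7f02: `IsGoodA981`, `IsStepA981`, `IsDnStab981`, `BaseAC981`,
`StepTC981`, `StepSC981`, `StepMC981`).

    pairAQC_of484 : BaseAQC484 P F → StepTQC484 F → StepSQC484 F → StepMQC484 F
                      → CQ801.PairAQC801 P F                                    (VERBATIM)

## The cut: INDUCTION ON THE WORD

The fields of `CQ801.IsPairAQ801` are of two kinds.

* **Word-free** (`IsGoodAQ484 φ f`, for ONE triple `φ` over `F`, `f w0`, `f w1` over `ℚ`): test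
  functions of the levels and of the types, Eisenstein-killing with Eisenstein-killing adjoints,
  the supports, the local shape `IsAvgPureQ801 … (LocAQ801 c …) 1 φ (f w0) (f w1)`.
* **Operators**: `R(Φ₁ X) χ = X(C) c₁(C) χ` upstairs, `R(F₁ t X) χ = X(C) R(F₁ t []) χ`
  downstairs (`C` the base change of the eigen-data `c` of `χ`, `IsBCDataQ t c C S`), and the
  three fields on `F₁ t []` (`IsDnStabQ484`).

So `Φ₁ (x :: X)`, `F₁ t (x :: X)` are obtained from `Φ₁ X`, `F₁ t X` by ONE STEP which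
multiplies the operators by `x(C)` and preserves `IsGoodAQ484`:

* **`BaseAQC484 P F`** (NODE; the empty word): the Eisenstein-killing triple with the scalar
  `c₁` (T3.18M explicit form upstairs, T3.18R downstairs, Abel relation `c`).
* **`StepTQC484 F`** (`x = T_w`, `w ∉ S'`), **`StepSQC484 F`** (`x = S_w^{± 1}`): the steps at
  the finite places: PORTS of `B981.StepTC981`, `B981.StepSC981` with `ℓ = 2` (the same
  function downstairs for the two types: only the finite components change).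
* **`StepMQC484 F`** (`x = M_{w,d}`, `w` the complex place of `F`, `d > 0`): the ONLY step which
  is not a port: the real place does not split.

## The steps (constructions; FALSITY CHECKS of helper484)

Finite places: as in the header of `B981/PairASpec.lean` (`φ' = φ ⋆ Θ_x`, `f' t = f t ⋆ b(Θ_x)`,
`b` the base change of the spherical Hecke algebra: Satake transform `x² + y²`, `(x y)^{± 2}` at
a place with ONE place of residue degree `2` over it, the same element at a split place; the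
ramified prime `3` is in `S`, so no generator lives over it).  `IsBCDataQ t c C S`:
`C.a w = satakePow f (c.a v) (c.b v)`, `C.b w = (c.b v)^f` for `p ∉ S`.

Infinite place: upstairs `φ'(g) = ∫∫ φ(g Y(α,β)) sin β dα dβ` (sphere mean of radius `d` in the
right variable, as `B981.StepMC981`); the Abel transform (`N`-integral) of every archimedean
component `Φ w` of a member is multiplied (convolution on `ℝ²`) by the Abel transform `ν_d` of
the sphere measure, a finite positive symmetric measure with compact support; a symmetric bump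
`β'` goes to the symmetric bump `β' ⋆ ν_d`.  Downstairs `f' t` = the average of the pure
tensors with THE SAME finite components and with archimedean components `F0'`, `F1'` of weight
`0`, `-1` whose `N`-integral is `halfQ801 c (β' ⋆ ν_d)`
(`= (halfQ801 c β') ⋆ (push-forward of ν_d under x ↦ 2 x)`): the right convolution of `F0`, `F1`
with the bi-`SO(2)`-equivariant measure of weight `0`, `-1` on `GL₂(ℝ)` whose Abel transform is
the push-forward of `ν_d` (base change `ℂ / ℝ` of the sphere measure; `T6.ArchMatchC` (b)).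
On an eigenfunction `χ` of type `t` with `c.m = 2π · sphRad t.wt s ∘ cosh` the operator of a
test function of type `t` is its spherical transform at `s`, i.e. the Fourier–Laplace transform
of its Abel transform; the one of `ν_d` pushed forward is `4π · sphC (2 s) (cosh d) = C.m w d`
(`IsBCDataQ`, second clause).  So `R(f' t) χ = x(C) R(f t) χ`; NO property of `R(f t) χ` is
used.  (a) The step relation is asked for the eigenfunctions `χ` only (as in the cubic cut).
(b) The constant `c` of the Abel relation is PRESERVED by the three steps (it is a parameter of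
`IsGoodAQ484`): finite steps do not touch the components at infinity; the step `M` multiplies
both `N`-integrals by corresponding measures.  (c) `IsGoodAQ484` does not contain the operator
properties of the base function (`IsDnStabQ484`): they are asked for `F₁ t []` only, in the base
node.  (d) The exponents `n`, `m` and the set `T₀` are those of the level: the steps live
outside `S'` (finite places) or at infinity, so the unit components at the level are unchanged.
(e) Joint continuity of the members in the parameter and the common compact support are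
preserved: the members of the step are right convolutions of the members with ONE fixed
compactly supported measure.
-/

set_option autoImplicit false

open AutomorphicForm IsDedekindDomain NumberField MeasureTheory
open scoped ComplexConjugate

noncomputable section

namespace Fermat.Agent.LT.T7.PQ484

open Fermat.Agent.LT.H556 Fermat.Agent.LT.H556.A0 Fermat.Agent.LT.T7 Fermat.Agent.LT.T7.H305
  Fermat.Agent.LT.T7.L2Q Fermat.Agent.LT.T7.H893 Fermat.Agent.LT.T7.H962
  Fermat.Agent.LT.T7.H732 Fermat.Agent.LT.T7.MQ298 Fermat.Agent.LT.T7.CQ801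

attribute [local instance] Fermat.Agent.LT.T5.instMeasurableSpaceG

/-! ## 1. The word-free properties, the step, the operator of the base function -/

section Vocab

variable {F : Type} [Field F] [NumberField F]

/-- **THE WORD-FREE PROPERTIES** of a triple `(φ, f w0, f w1)` (`φ` over `F`, `f t` over `ℚ` of
type `t`): the fields `up1_test`, `up1_ek`, `dn1_test`, `dn1_ek`, `up1_supp`, `dn1_supp`,
`shape` of `CQ801.IsPairAQ801` for ONE word. -/
structure IsGoodAQ484 (B : L2QBase962 F) (𝔫 : Ideal (𝓞 ℚ)) (c : ℂ)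
    (T₀ : Finset (HeightOneSpectrum (𝓞 ℚ)))
    (n : HeightOneSpectrum (𝓞 F) → ℕ) (m : HeightOneSpectrum (𝓞 ℚ) → ℕ)
    (φ : G F → ℂ) (f : QWt → G ℚ → ℂ) : Prop where
  up_test : T5.IsTestFn (upI (K' := F) 𝔫) T5.trivType φ
  up_ek : T5.IsEK B.R'.μ φ ∧ T5.IsEK B.R'.μ (T5.adjointFn φ)
  dn_test : ∀ t : QWt, T5.IsTestFn 𝔫 t.type (f t)
  dn_ek : ∀ t : QWt, T5.IsEK B.R.μ (f t) ∧ T5.IsEK B.R.μ (T5.adjointFn (f t))
  up_supp : ∃ C : Set (G F), IsCompact C ∧ T5.H32.IsIwSupported32 2 B.o C φ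
  dn_supp : ∀ t : QWt,
    ∃ C : Set (G ℚ), IsCompact C ∧ T5.H32.IsIwSupported32 1 (fun _ => B.u) C (f t)
  shape : IsAvgPureQ801 (upI (K' := F) 𝔫) 𝔫 T₀ (LocAQ801 c T₀ n m) 1
    φ (f QWt.w0) (f QWt.w1)

/-- **THE STEP RELATION**: `(φ', f')` is obtained from `(φ, f)` by the generator `x`: the
operators on the eigenfunctions are multiplied by `x(C)` (downstairs for BOTH types, `C` the
base change of the eigen-data of the eigenfunction). -/
structure IsStepAQ484 (B : L2QBase962 F) (𝔫 : Ideal (𝓞 ℚ)) (x : Gen F)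
    (φ : G F → ℂ) (f : QWt → G ℚ → ℂ) (φ' : G F → ℂ) (f' : QWt → G ℚ → ℂ) : Prop where
  up : ∀ (χ : G F → ℂ) (C : EigData F), IsEigFn B.𝔑₀ B.R'.r 2 B.o χ C →
    ∀ y : G F, T5.Rconv B.R'.μ φ' χ y = x.ev C * T5.Rconv B.R'.μ φ χ y
  dn : ∀ (t : QWt) (χ : G ℚ → ℂ) (c : EigData ℚ) (C : EigData F),
    IsEigFnQ t 𝔫 B.R.r B.u χ c → IsBCDataQ t c C B.S →
    ∀ y : G ℚ, T5.Rconv B.R.μ (f' t) χ y = x.ev C * T5.Rconv B.R.μ (f t) χ y

/-- **THE OPERATORS OF THE BASE FUNCTIONS DOWNSTAIRS**: the fields `dn1_wfn`, `dn1_class`,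
`dn1_comm` of `CQ801.IsPairAQ801` for the functions `f t = F₁ t []` (same statements). -/
structure IsDnStabQ484 (B : L2QBase962 F) (𝔫 : Ideal (𝓞 ℚ)) (f : QWt → G ℚ → ℂ) : Prop where
  wfn : ∀ (t : QWt) (ψ : G ℚ → ℂ), IsWFnQ t 𝔫 B.R.r B.u ψ →
    IsWFnQ t 𝔫 B.R.r B.u (T5.Rconv B.R.μ (f t) ψ)
  cls : ∀ (t : QWt) (ψ : G ℚ → ℂ) (c : EigData ℚ), IsEigFnQ t 𝔫 B.R.r B.u ψ c →
    IsEigFnQ t 𝔫 B.R.r B.u (T5.Rconv B.R.μ (f t) ψ) c
  comm : ∀ (t : QWt) (ψ : G ℚ → ℂ), IsWFnQ t 𝔫 B.R.r B.u ψ →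
    ∀ (H : Finset (G ℚ)) (z : G ℚ), IsIwCosetSystem B.u H → IsScalarUniformizerAt B.u z →
      (∀ x : G ℚ, T5.Rconv B.R.μ (f t) (iwOp B.u H ψ) x
        = iwOp B.u H (T5.Rconv B.R.μ (f t) ψ) x) ∧
      ∀ (k : ℤ) (x : G ℚ), T5.Rconv B.R.μ (f t) (shiftOp z k ψ) x
        = shiftOp z k (T5.Rconv B.R.μ (f t) ψ) x

end Vocab

/-! ## 2. The nodes -/

section Nodes

variable (P : EKCond)
variable (F : Type) [Field F] [NumberField F]

/-- **NODE A.0 over `ℚ` = BASE (the empty word; T3.18M + T3.18R + T6).**  For a common part of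
helper60 with `3 ∈ S`, every level with the level properties, the exponents of the level and
every constant `c ≠ 0` of the Abel relation: a scalar `c₁` and ONE triple `(φ, f w0, f w1)` with
the word-free properties, `R(φ) χ = c₁(C) χ` on the eigenfunctions of the base level upstairs,
`c₁ ≠ 0` on the class of `Φ`, and the three properties of `R(f t)` downstairs.
Of record for `P = T7.ekMulti`.  Construction: docstring of `CQ801.PairAQC801` (empty word);
mirror of `B981.BaseAC981`. -/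
def BaseAQC484 : Prop :=
  HasSqrtNegThree F → IsImagQuad F →
    ∀ Φ : HeckeEigensystem F ℂ, A0.IsCuspAdelicSph0 F Φ → ConstOnFibresQ Φ → P F Φ →
      ∀ B : L2Q.H60.L2QBase F, L2Q.H60.IsL2QBase Φ B → L2Q.H60.IsRamQ60 B →
      ∀ 𝔫 : Ideal (𝓞 ℚ), CQ57.IsLevQ57 (toBase962_732 B) 𝔫 →
      ∀ (T₀ : Finset (HeightOneSpectrum (𝓞 ℚ)))
        (n n₀ : HeightOneSpectrum (𝓞 F) → ℕ) (m : HeightOneSpectrum (𝓞 ℚ) → ℕ),
        CQ57.IsLevFnQ57 (toBase962_732 B) 𝔫 T₀ n n₀ m →
        ∀ c : ℂ, c ≠ 0 →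
          ∃ (c₁ : EigData F → ℂ) (φ : G F → ℂ) (f : QWt → G ℚ → ℂ),
            IsGoodAQ484 (toBase962_732 B) 𝔫 c T₀ n m φ f ∧
            (∀ (χ : G F → ℂ) (C : EigData F),
              IsEigFn (toBase962_732 B).𝔑₀ (toBase962_732 B).R'.r 2 (toBase962_732 B).o χ C →
              ∀ y : G F, T5.Rconv (toBase962_732 B).R'.μ φ χ y = c₁ C * χ y) ∧
            (∀ C : EigData F, C.AgreeOut (toBase962_732 B).S' (eigOf Φ) → c₁ C ≠ 0) ∧
            IsDnStabQ484 (toBase962_732 B) 𝔫 f

/-- The step for the generators `x` which satisfy `Q` (the common form of the three step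
nodes). -/
def StepGQC484 (Q : Gen F → Prop) : Prop :=
  HasSqrtNegThree F → IsImagQuad F →
    ∀ (Φ : HeckeEigensystem F ℂ) (B : L2Q.H60.L2QBase F),
      L2Q.H60.IsL2QBase Φ B → L2Q.H60.IsRamQ60 B →
      ∀ 𝔫 : Ideal (𝓞 ℚ), CQ57.IsLevQ57 (toBase962_732 B) 𝔫 →
      ∀ (T₀ : Finset (HeightOneSpectrum (𝓞 ℚ)))
        (n n₀ : HeightOneSpectrum (𝓞 F) → ℕ) (m : HeightOneSpectrum (𝓞 ℚ) → ℕ),
        CQ57.IsLevFnQ57 (toBase962_732 B) 𝔫 T₀ n n₀ m →
        ∀ c : ℂ, c ≠ 0 →
        ∀ x : Gen F, Q x → x.Out (toBase962_732 B).S' →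
        ∀ (φ : G F → ℂ) (f : QWt → G ℚ → ℂ),
          IsGoodAQ484 (toBase962_732 B) 𝔫 c T₀ n m φ f →
          ∃ p : (G F → ℂ) × (QWt → G ℚ → ℂ),
            IsGoodAQ484 (toBase962_732 B) 𝔫 c T₀ n m p.1 p.2 ∧
              IsStepAQ484 (toBase962_732 B) 𝔫 x φ f p.1 p.2

/-- **NODE A.1 over `ℚ` = STEP-T** (`x = T_w`, `w ∉ S'`).  PORT of `B981.StepTC981`, `ℓ = 2`:
`φ'(g) = q_w^{-1/2} ∑_{h ∈ H} φ(g z⁻¹ h)`, `H` a Hecke coset system at `w`, `z` a scalar
uniformiser at `w`; downstairs, for BOTH types, the base change: `w` the only place over the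
prime `v` (residue degree `2`): `f t ⋆` the element of the spherical Hecke algebra at `v` with
Satake transform `x² + y²` (`T6.BCExistsC`); `v` split:
`f' t (g) = q_v^{-1/2} ∑_{h ∈ H_v} f t (g z_v⁻¹ h)`. -/
def StepTQC484 : Prop :=
  StepGQC484 F fun x => ∃ w : HeightOneSpectrum (𝓞 F), x = Gen.T w

/-- **NODE A.2 over `ℚ` = STEP-S** (`x = S_w` or `x = S_w⁻¹`, `w ∉ S'`).  PORT of
`B981.StepSC981`, `ℓ = 2`: `φ' = φ(· z^{∓ 1})`, `z` a scalar uniformiser at `w`; downstairs, for
BOTH types, `f' t = f t (· z_v^{∓ f})`, `z_v` a scalar uniformiser at the prime `v` under `w`,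
`f` the residue degree of `w` (`2` or `1`). -/
def StepSQC484 : Prop :=
  StepGQC484 F fun x => ∃ w : HeightOneSpectrum (𝓞 F), x = Gen.S w ∨ x = Gen.Sinv w

/-- **NODE A.3 over `ℚ` = STEP-M** (`x = M_{w,d}`, `w` the complex place of `F`, `d > 0`).
Upstairs the sphere mean of radius `d` in the right variable (as `B981.StepMC981`); downstairs,
for the type `t`, the right convolution with the base change `ℂ / ℝ` of the sphere measure: the
bi-`SO(2)`-equivariant measure of weight `t.wt` on `GL₂(ℝ)` whose Abel transform is the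
push-forward under `x ↦ 2 x` of the Abel transform of the sphere measure
(spherical transform `4π · sphC (2 s) (cosh d)` at the parameter `s`; `IsBCDataQ`, second
clause).  See the header.  NOT a port. -/
def StepMQC484 : Prop :=
  StepGQC484 F fun x => ∃ (w : InfinitePlace F) (d : ℝ), x = Gen.M w d

end Nodes

/-! ## Appendix: the equation lemmas of the definitions of this file are realised HERE -/

theorem eqns_realised_pairAQ484 : True := by
  have _h0_0 := @BaseAQC484.eq_1
  have _h0_1 := @BaseAQC484.eq_def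
  have _h0_2 := @BaseAQC484.eq_unfold
  have _h1_0 := @StepGQC484.eq_1
  have _h1_1 := @StepGQC484.eq_def
  have _h1_2 := @StepGQC484.eq_unfold
  have _h2_0 := @StepTQC484.eq_1
  have _h2_1 := @StepTQC484.eq_def
  have _h2_2 := @StepTQC484.eq_unfold
  have _h3_0 := @StepSQC484.eq_1
  have _h3_1 := @StepSQC484.eq_def
  have _h3_2 := @StepSQC484.eq_unfold
  have _h4_0 := @StepMQC484.eq_1
  have _h4_1 := @StepMQC484.eq_def
  have _h4_2 := @StepMQC484.eq_unfold
  trivial

end Fermat.Agent.LT.T7.PQ484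

end

end
-- ===== PACK-END LT/T7/H484/PairAQSpec.lean

-- ===== PACK-BEGIN LT/T7/H311/StepTDone.lean
section









/-!
# Row LT, tower T7, node T7.L2.1.H2a.A.1 `B981.StepTC981` (cut of helper589): THE NODE CLOSED,
# UNCONDITIONAL (integration by helper311, spare of the owner)

OFF-MAIN.  Complete proof, nothing assumed.

    stepTC311 (K K') : B981.StepTC981 K K' H893.LocA893            (VERBATIM, UNCONDITIONAL)

= `stepTC_of589` (helper589 `StepTTop.lean`) applied to the closed leaves `placeC861`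
(helper861), `sysC805` (helper805), `dTestC32`, `dEkC32`, `dSuppC32` (helper32), `dOpC176`
(helper176) and to the closed node `shapeTC311` (`ShapeTDone.lean`); byte-identical copies.
-/

set_option autoImplicit false

open AutomorphicForm IsDedekindDomain NumberField

noncomputable section

namespace Fermat.Agent.LT.T7.H311

open Fermat.Agent.LT.T7 Fermat.Agent.LT.T7.ST589

/-- **THE NODE `B981.StepTC981`** for the shape of record `H893.LocA893`, VERBATIM,
unconditional. -/
theorem stepTC311 (K K' : Type) [Field K] [NumberField K] [Field K'] [NumberField K']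
    [Algebra K K'] : B981.StepTC981 K K' H893.LocA893 :=
  stepTC_of589 (K := K) (K' := K') (H861.placeC861 (K := K) (K' := K'))
    (H805.sysC805 K') (H805.sysC805 K)
    (H32.dTestC32 (F := K')) (H32.dTestC32 (F := K))
    (H32.dEkC32 (F := K')) (H32.dEkC32 (F := K))
    (H32.dSuppC32 (F := K')) (H32.dSuppC32 (F := K))
    (H176.dOpC176 K') (H176.dOpC176 K) (shapeTC311 K K')

end Fermat.Agent.LT.T7.H311

end

end
-- ===== PACK-END LT/T7/H311/StepTDone.lean

-- ===== PACK-BEGIN LT/T7/AQ327/PairAQSpec.lean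
section



/-!
# Row LT, tower T7, node T7.L2Q.1.H2a.A `CQ801.PairAQC801` (the FIRST pair over `ℚ`, registry row
# 2855; sub-architect helper327): THE CUT -- Spec

OFF-MAIN.  Definitions and frozen Props only (the proved top is `PairAQTop.lean`).  No hole,
nothing assumed.  ADDITIVE (new names only, suffix `327`, namespace
`Fermat.Agent.LT.T7.AQ327`).  Vocabulary: the second cut of helper801
(`T7/H801/BaseQCutSpec.lean`, helper801@6ce712ecc) and its imports, byte-identical copies.

MIRROR over `ℚ` of the second cut of helper981 of the cubic node `Q797.PairAC797`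
(`T7/B981/PairASpec.lean`, helper981@665489bd4): INDUCTION ON THE WORD.

    pairAQC_of327 : BaseAQC327 P F → StepTQC327 F → StepSQC327 F → StepMQC327 F
                      → CQ801.PairAQC801 P F                                   (VERBATIM)

## The cut

The fields of `CQ801.IsPairAQ801` are of two kinds.

* **Word-free** (`IsGoodAQ327 φ f`, for ONE triple `φ` (over `F`), `f w0`, `f w1` (over `ℚ`)):
  test functions of the levels and of the two types, Eisenstein-killing with Eisenstein-killing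
  adjoints, the supports, the local shape of record
  `IsAvgPureQ801 … (LocAQ801 c T₀ n m) 1 φ (f w0) (f w1)`.
* **Operators**: `R(Φ₁ X) χ = X(C) c₁(C) χ` upstairs, `R(F₁ t X) χ = X(C) R(F₁ t []) χ`
  downstairs for both types `t` (`C` the base change of the eigen-data `c` of `χ`:
  `IsBCDataQ t c C B.S`), and the three fields on `F₁ t []`.

So `Φ₁ (x :: X)`, `F₁ t (x :: X)` are obtained from `Φ₁ X`, `F₁ t X` by ONE STEP which multiplies
the operators by `x(C)` and preserves `IsGoodAQ327`: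

* **`BaseAQC327 P F`** (NODE; the empty word): the Eisenstein-killing triple with the scalar
  `c₁` (station T3.18M upstairs, station T3.18R downstairs in the two types, Abel relation `c`).
* **`StepTQC327 F`** (NODE; `x = T_w`, `w ∉ S'`), **`StepSQC327 F`** (NODE; `x = S_w^{± 1}`),
  **`StepMQC327 F`** (NODE; `x = M_{w,d}`, `w` the complex place of `F`): the step.

## The step (construction: the header of `T7/B981/PairASpec.lean`, with these changes over `ℚ`)

* `ℓ = 2`; the places `w ∉ S'` of `F` are unramified (`3 ∈ S`); a prime `p ∉ S` is inert (ONE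
  place `w`, residue degree `2`: downstairs the element of the spherical Hecke algebra of
  `GL₂(ℚ_p)` with Satake transform `x² + y²` for `T_w`, `(x y)^{± 2}` for `S_w^{± 1}`,
  `T6.BCExistsC`) or split (TWO places; downstairs the same element as upstairs at the place
  `w`, in the coordinates of the ONE enumeration of `LocHypQ298b`; the spherical Hecke algebra
  is commutative).
* BOTH types `t = w0, w1` downstairs get THE SAME finite components (the step at a finite place
  does not touch the archimedean component, so the type `t.type` and the Abel relation are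
  preserved).
* `x = M_{w,d}`: upstairs the sphere mean of radius `d` in the right variable (as in the cubic
  case).  Downstairs the real place does NOT split: the archimedean component of type `t` is
  convolved (on the right) with a function `κ_{t,d}` on `GL₂(ℝ)` of the type `t` whose operator
  on the functions of type `t` with eigen-data `c` is the multiplication by `C.m w d`
  (`IsBCDataQ`: the parameter upstairs is the base change of the parameter downstairs); the
  Abel relation `c` is preserved because the `N`-integral is multiplicative for convolutions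
  (closed station T6.20x of helper680: `abelRelConvC680_closed`, `ConvTestRC680`,
  `ConvTestCC680`) and the `N`-integrals of the two multipliers are in the Abel relation
  with the constant `1` (homogeneity: FALSITY CHECK (c)).

FALSITY CHECKS (helper327).  (a) The top uses NOTHING but the fields of `IsGoodAQ327`,
`IsStepAQ327`, `IsDnStabQ327`: it is an induction on the word and does not see the
construction.  (b) `wordEv (x :: X) C = x.ev C * wordEv X C`, so the step multiplies the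
operators by `x.ev C` on the LEFT of the word, for BOTH types with the same `C`
(`IsBCDataQ t c C B.S` is a hypothesis of the field for each `t`).  (c) The constant of the shape
is `1` before and after the step and the Abel constant `c` is the same before and after:
the step multiplies the `N`-integrals upstairs and downstairs by matched multipliers.
(d) The step nodes quantify over ALL good triples (not only those produced by the
construction); this is what the induction needs (the triple for `X` is a CHOICE), and it is what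
the construction gives: no property of `R(φ) χ` is used in the step.  (e) The step nodes do not
mention `P`, `Φ` enters only through the common part `B`.
-/

set_option autoImplicit false

open AutomorphicForm IsDedekindDomain NumberField MeasureTheory
open scoped ComplexConjugate

noncomputable section

namespace Fermat.Agent.LT.T7.AQ327

open Fermat.Agent.LT.H556 Fermat.Agent.LT.H556.A0 Fermat.Agent.LT.T7 Fermat.Agent.LT.T7.H305
  Fermat.Agent.LT.T7.L2Q Fermat.Agent.LT.T7.H893 Fermat.Agent.LT.T7.H962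
  Fermat.Agent.LT.T7.H732 Fermat.Agent.LT.T7.MQ298 Fermat.Agent.LT.T7.CQ801

attribute [local instance] Fermat.Agent.LT.T5.instMeasurableSpaceG

/-! ## 1. The word-free properties, the step -/

section Vocab

variable {F : Type} [Field F] [NumberField F]

/-- **THE WORD-FREE PROPERTIES** of a triple `(φ, f w0, f w1)` (`φ` over `F`, `f t` over `ℚ`):
the fields `up1_test`, `up1_ek`, `dn1_test`, `dn1_ek`, `up1_supp`, `dn1_supp`, `shape` of
`CQ801.IsPairAQ801` for ONE word. -/
structure IsGoodAQ327 (B : L2QBase962 F) (𝔫 : Ideal (𝓞 ℚ)) (c : ℂ)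
    (T₀ : Finset (HeightOneSpectrum (𝓞 ℚ)))
    (n : HeightOneSpectrum (𝓞 F) → ℕ) (m : HeightOneSpectrum (𝓞 ℚ) → ℕ)
    (φ : G F → ℂ) (f : QWt → G ℚ → ℂ) : Prop where
  up_test : T5.IsTestFn (upI (K' := F) 𝔫) T5.trivType φ
  up_ek : T5.IsEK B.R'.μ φ ∧ T5.IsEK B.R'.μ (T5.adjointFn φ)
  dn_test : ∀ t : QWt, T5.IsTestFn 𝔫 t.type (f t)
  dn_ek : ∀ t : QWt, T5.IsEK B.R.μ (f t) ∧ T5.IsEK B.R.μ (T5.adjointFn (f t))
  up_supp : ∃ C : Set (G F), IsCompact C ∧ T5.H32.IsIwSupported32 2 B.o C φ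
  dn_supp : ∀ t : QWt,
    ∃ C : Set (G ℚ), IsCompact C ∧ T5.H32.IsIwSupported32 1 (fun _ => B.u) C (f t)
  shape : IsAvgPureQ801 (upI (K' := F) 𝔫) 𝔫 T₀ (LocAQ801 c T₀ n m) 1
    φ (f QWt.w0) (f QWt.w1)

/-- **THE STEP RELATION**: `(φ', f')` is obtained from `(φ, f)` by the generator `x`: the
operators on the eigenfunctions are multiplied by `x(C)` (both types downstairs). -/
structure IsStepAQ327 (B : L2QBase962 F) (𝔫 : Ideal (𝓞 ℚ)) (x : Gen F)
    (φ : G F → ℂ) (f : QWt → G ℚ → ℂ) (φ' : G F → ℂ) (f' : QWt → G ℚ → ℂ) : Prop where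
  up : ∀ (χ : G F → ℂ) (C : EigData F), IsEigFn B.𝔑₀ B.R'.r 2 B.o χ C →
    ∀ y : G F, T5.Rconv B.R'.μ φ' χ y = x.ev C * T5.Rconv B.R'.μ φ χ y
  dn : ∀ (t : QWt) (χ : G ℚ → ℂ) (c : EigData ℚ) (C : EigData F),
    IsEigFnQ t 𝔫 B.R.r B.u χ c → IsBCDataQ t c C B.S →
    ∀ y : G ℚ, T5.Rconv B.R.μ (f' t) χ y = x.ev C * T5.Rconv B.R.μ (f t) χ y

/-- **THE OPERATORS OF THE BASE FUNCTIONS DOWNSTAIRS**: the fields `dn1_wfn`, `dn1_class`,
`dn1_comm` of `CQ801.IsPairAQ801` for the functions `f t = F₁ t []` (same statements). -/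
structure IsDnStabQ327 (B : L2QBase962 F) (𝔫 : Ideal (𝓞 ℚ)) (f : QWt → G ℚ → ℂ) : Prop where
  wfn : ∀ (t : QWt) (ψ : G ℚ → ℂ), IsWFnQ t 𝔫 B.R.r B.u ψ →
    IsWFnQ t 𝔫 B.R.r B.u (T5.Rconv B.R.μ (f t) ψ)
  cls : ∀ (t : QWt) (ψ : G ℚ → ℂ) (c : EigData ℚ), IsEigFnQ t 𝔫 B.R.r B.u ψ c →
    IsEigFnQ t 𝔫 B.R.r B.u (T5.Rconv B.R.μ (f t) ψ) c
  comm : ∀ (t : QWt) (ψ : G ℚ → ℂ), IsWFnQ t 𝔫 B.R.r B.u ψ →
    ∀ (H : Finset (G ℚ)) (z : G ℚ), IsIwCosetSystem B.u H → IsScalarUniformizerAt B.u z →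
      (∀ x : G ℚ, T5.Rconv B.R.μ (f t) (iwOp B.u H ψ) x
        = iwOp B.u H (T5.Rconv B.R.μ (f t) ψ) x) ∧
      ∀ (k : ℤ) (x : G ℚ), T5.Rconv B.R.μ (f t) (shiftOp z k ψ) x
        = shiftOp z k (T5.Rconv B.R.μ (f t) ψ) x

end Vocab

/-! ## 2. The nodes -/

section Nodes

variable (P : EKCond)
variable (F : Type) [Field F] [NumberField F]

/-- **NODE AQ.0 = BASE over `ℚ` (the empty word; T3.18M + T3.18R + base change).**  For a common
part of helper60 with `3 ∈ S`, every level with the level properties, the exponents of the level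
and every constant `c ≠ 0` of the Abel relation: a scalar `c₁` and ONE triple `(φ, f w0, f w1)`
with the word-free properties, `R(φ) χ = c₁(C) χ` on the eigenfunctions of the base level
upstairs, `c₁ ≠ 0` on the class of `Φ`, and the three properties of `R(f t)` downstairs.
Construction: docstring of `CQ801.PairAQC801` (the empty word). -/
def BaseAQC327 : Prop :=
  HasSqrtNegThree F → IsImagQuad F →
    ∀ Φ : HeckeEigensystem F ℂ, A0.IsCuspAdelicSph0 F Φ → ConstOnFibresQ Φ → P F Φ →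
      ∀ B : L2Q.H60.L2QBase F, L2Q.H60.IsL2QBase Φ B → L2Q.H60.IsRamQ60 B →
      ∀ 𝔫 : Ideal (𝓞 ℚ), CQ57.IsLevQ57 (toBase962_732 B) 𝔫 →
      ∀ (T₀ : Finset (HeightOneSpectrum (𝓞 ℚ)))
        (n n₀ : HeightOneSpectrum (𝓞 F) → ℕ) (m : HeightOneSpectrum (𝓞 ℚ) → ℕ),
        CQ57.IsLevFnQ57 (toBase962_732 B) 𝔫 T₀ n n₀ m →
        ∀ c : ℂ, c ≠ 0 →
          ∃ (c₁ : EigData F → ℂ) (φ : G F → ℂ) (f : QWt → G ℚ → ℂ),
            IsGoodAQ327 (toBase962_732 B) 𝔫 c T₀ n m φ f ∧
            (∀ (χ : G F → ℂ) (C : EigData F),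
              IsEigFn (toBase962_732 B).𝔑₀ (toBase962_732 B).R'.r 2 (toBase962_732 B).o χ C →
              ∀ y : G F, T5.Rconv (toBase962_732 B).R'.μ φ χ y = c₁ C * χ y) ∧
            (∀ C : EigData F, C.AgreeOut (toBase962_732 B).S' (eigOf Φ) → c₁ C ≠ 0) ∧
            IsDnStabQ327 (toBase962_732 B) 𝔫 f

/-- The step for the generators `x` which satisfy `Q` (the common form of the three step
nodes). -/
def StepGQC327 (Q : Gen F → Prop) : Prop :=
  HasSqrtNegThree F → IsImagQuad F →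
    ∀ (Φ : HeckeEigensystem F ℂ) (B : L2Q.H60.L2QBase F), L2Q.H60.IsL2QBase Φ B →
      L2Q.H60.IsRamQ60 B →
      ∀ 𝔫 : Ideal (𝓞 ℚ), CQ57.IsLevQ57 (toBase962_732 B) 𝔫 →
      ∀ (T₀ : Finset (HeightOneSpectrum (𝓞 ℚ)))
        (n n₀ : HeightOneSpectrum (𝓞 F) → ℕ) (m : HeightOneSpectrum (𝓞 ℚ) → ℕ),
        CQ57.IsLevFnQ57 (toBase962_732 B) 𝔫 T₀ n n₀ m →
        ∀ c : ℂ, c ≠ 0 →
        ∀ x : Gen F, Q x → x.Out (toBase962_732 B).S' →
        ∀ (φ : G F → ℂ) (f : QWt → G ℚ → ℂ),
          IsGoodAQ327 (toBase962_732 B) 𝔫 c T₀ n m φ f →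
          ∃ p : (G F → ℂ) × (QWt → G ℚ → ℂ),
            IsGoodAQ327 (toBase962_732 B) 𝔫 c T₀ n m p.1 p.2 ∧
              IsStepAQ327 (toBase962_732 B) 𝔫 x φ f p.1 p.2

/-- **NODE AQ.1 = STEP-T over `ℚ`** (`x = T_w`, `w ∉ S'` a finite place of `F`).  Upstairs
`φ'(g) = q_w^{-1/2} ∑_{h ∈ H} φ(g z⁻¹ h)` (`H` a Hecke coset system at `w`, `z` a scalar
uniformiser at `w`); downstairs, for BOTH types, the base change at the prime `p` under `w`:
`p` inert: `f t ⋆` the spherical element with Satake transform `x² + y²` (`T6.BCExistsC`);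
`p` split: `f' t (g) = p^{-1/2} ∑_{h ∈ H_p} f t (g z_p⁻¹ h)`.  See the header. -/
def StepTQC327 : Prop :=
  StepGQC327 F fun x => ∃ w : HeightOneSpectrum (𝓞 F), x = Gen.T w

/-- **NODE AQ.2 = STEP-S over `ℚ`** (`x = S_w` or `x = S_w⁻¹`, `w ∉ S'`).  `φ' = φ(· z^{∓ 1})`,
`z` a scalar uniformiser at `w`; downstairs `f' t = f t (· z_p^{∓ e})`, `z_p` a scalar
uniformiser at the prime `p` under `w`, `e` the residue degree of `w` (`2` or `1`). -/
def StepSQC327 : Prop :=
  StepGQC327 F fun x => ∃ w : HeightOneSpectrum (𝓞 F), x = Gen.S w ∨ x = Gen.Sinv w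

/-- **NODE AQ.3 = STEP-M over `ℚ`** (`x = M_{w,d}`, `w` an infinite place of `F`, `d : ℝ`).
Upstairs the sphere mean of radius `d` in the right variable; downstairs, for each type `t`, the
right convolution of the archimedean component with a function on `GL₂(ℝ)` of the type `t` with
the matched multiplier (`IsBCDataQ`: `C.m w` is determined by the archimedean parameter of `c`).
See the header (the Abel relation is preserved: closed station T6.20x). -/
def StepMQC327 : Prop :=
  StepGQC327 F fun x => ∃ (w : InfinitePlace F) (d : ℝ), x = Gen.M w d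

end Nodes

/-! ## Appendix: the equation lemmas of the definitions of this file are realised HERE -/

theorem eqns_realised_pairAQ327 : True := by
  have _h0_0 := @BaseAQC327.eq_1
  have _h0_1 := @BaseAQC327.eq_def
  have _h0_2 := @BaseAQC327.eq_unfold
  have _h1_0 := @StepGQC327.eq_1
  have _h1_1 := @StepGQC327.eq_def
  have _h1_2 := @StepGQC327.eq_unfold
  have _h2_0 := @StepTQC327.eq_1
  have _h2_1 := @StepTQC327.eq_def
  have _h2_2 := @StepTQC327.eq_unfold
  have _h3_0 := @StepSQC327.eq_1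
  have _h3_1 := @StepSQC327.eq_def
  have _h3_2 := @StepSQC327.eq_unfold
  have _h4_0 := @StepMQC327.eq_1
  have _h4_1 := @StepMQC327.eq_def
  have _h4_2 := @StepMQC327.eq_unfold
  trivial

end Fermat.Agent.LT.T7.AQ327

end

end
-- ===== PACK-END LT/T7/AQ327/PairAQSpec.lean

-- ===== PACK-BEGIN LT/T7/H801/PairAQCutSpec.lean
section



/-!
# Row LT, tower T7, node T7.L2Q.1.H2a.A `CQ801.PairAQC801` (first pair of the construction over
# `ℚ`, registry row 2855): CUT -- Spec

OFF-MAIN.  Definitions and frozen Props only (the proved top is `PairAQCutTop.lean`).  No hole,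
nothing assumed.  ADDITIVE (new names only, all suffixed `801`, namespace
`Fermat.Agent.LT.T7.CQ801`).

    pairAQC_of801 : BaseAQC801 P F → StepTQC801 F → StepSQC801 F → PairAQC801 P F

## The cut: INDUCTION ON THE FINITE PART OF THE WORD (mirror of helper981, `T7/B981/PairASpec.lean`
## 54ea7f02), THE SPHERE MEANS IN THE BASE

As in the cubic step the fields of `IsPairAQ801` are word-free (`IsGoodAQ801`: test functions,
Eisenstein-killing, supports, local shape) or operator identities (`IsStepAQ801`), and a finite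
generator `x = T_w, S_w^{±1}` (`w ∉ S'`) is ONE STEP `φ' = φ ⋆ Θ_x`, `f' t = f t ⋆ b(Θ_x)` (the
base change of the Hecke measure, `ℓ = 2`; THE SAME for the two types) which multiplies the
operators by `x(C)` and preserves `IsGoodAQ801` -- for EVERY good pair.  These are the nodes
`StepTQC801`, `StepSQC801` (mirror of `B981.StepTC981`, `B981.StepSC981`; same construction,
same proofs, `ℓ = 2`, two types downstairs).

THE SPHERE MEANS ARE DIFFERENT over `ℚ` (the real place does not split).  Upstairs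
`x = M_{w,d}` is the convolution with the sphere measure of radius `d` of `GL₂(ℂ)`.  Downstairs
the multiplier `4π sphC(2s)(cosh d)` on the classes of parameter `s` (`L2Q.IsBCDataQ`) is the
spherical transform of a SINGULAR kernel on `GL₂(ℝ)` (weight `0`: a multiple of
`(cosh 2d - cosh t)^{-1/2}` on the ball of radius `2d`, Mehler--Dirichlet), which is not in the
vocabulary of the stations.  In the vocabulary of the stations the pair after the step is
RE-SYNTHESISED from its `N`-integral: `N`-integral upstairs `β' ⋆ A(σ_d)` (a symmetric bump),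
components downstairs with `N`-integral `halfQ801 c (β' ⋆ A(σ_d))` (`T3.R.AbelRealC`), and the
operators / the Eisenstein-killing property come from the formulas of station T3.18R for pure
pairs (`T3.R.AbelSatakeRC`, `ekOfPairR`), NOT from the properties of the pair before the step.
So the sphere means belong to the BASE: the words commute (`wordEv` is a product), and

* **`BaseAQC801 P F`** (NODE; stations T3.18M over `F` + T3.18R over `ℚ` + T6): a scalar `c₁` and
  for EVERY word `D` of sphere means a good pair `(φ D, f D)` with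
  `R(φ D) χ = D(C) c₁(C) χ`, `R(f D t) χ = D(C) R(f [] t) χ`, `c₁ ≠ 0` on the class of `Φ`, and
  the three properties of `R(f [] t)`.
* **`StepTQC801 F`**, **`StepSQC801 F`** (NODES; generic steps).

The top applies the finite generators of `X` (in their order) to the base pair of the sphere
means of `X`.

FALSITY CHECKS (helper801).  (a) `wordEv` is a product in `ℂ`: the order of the generators does
not matter for the operator fields; the functions `Φ₁ X`, `F₁ t X` are chosen by the top.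
(b) The base for a word `D` of sphere means: upstairs `φ D = φ [] ⋆ σ_{d₁} ⋆ …` (generic step,
as `B981.StepMC981`); downstairs the re-synthesis; the Abel transform of the sphere measure of
radius `d` of `GL₂(ℂ)` is a multiple of the indicator function of `[-d, d]` (Archimedes), so
`β' ⋆ A(σ_d)` is a symmetric bump and telescoping is preserved (a convolution in the
archimedean variable commutes with the translations of the coordinate group).  (c) `c₁` does
not depend on `D`.  (d) The steps are for ONE constant `c` (the components at infinity are not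
touched by a finite generator).  (e) The ramified prime is in `S` (`IsRamQ60`): a finite
generator outside `S'` is at a place which is inert or split.
-/

set_option autoImplicit false

open AutomorphicForm IsDedekindDomain NumberField MeasureTheory
open scoped ComplexConjugate

noncomputable section

namespace Fermat.Agent.LT.T7.CQ801

open Fermat.Agent.LT.H556 Fermat.Agent.LT.H556.A0 Fermat.Agent.LT.T7 Fermat.Agent.LT.T7.H305
  Fermat.Agent.LT.T7.L2Q Fermat.Agent.LT.T7.H893 Fermat.Agent.LT.T7.H962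
  Fermat.Agent.LT.T7.H732 Fermat.Agent.LT.T7.MQ298

attribute [local instance] Fermat.Agent.LT.T5.instMeasurableSpaceG

/-! ## 1. Vocabulary -/

section Vocab

variable {F : Type} [Field F] [NumberField F]

/-- The generator is a sphere mean (Boolean form). -/
def isMGen801 : Gen F → Bool
  | Gen.T _ => false
  | Gen.S _ => false
  | Gen.Sinv _ => false
  | Gen.M _ _ => true

/-- `D` is a word of sphere means of positive radius. -/
def IsMWord801 (D : List (Gen F)) : Prop :=
  ∀ x ∈ D, ∃ (w : InfinitePlace F) (d : ℝ), 0 < d ∧ x = Gen.M w d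

/-- **THE WORD-FREE PROPERTIES** of a pair `(φ, f)` (`φ` over `F`, `f t` over `ℚ` of type `t`):
the fields `up1_test`, `up1_ek`, `dn1_test`, `dn1_ek`, `up1_supp`, `dn1_supp`, `shape` of
`IsPairAQ801` for ONE word. -/
structure IsGoodAQ801 (B : L2QBase962 F) (𝔫 : Ideal (𝓞 ℚ)) (c : ℂ)
    (T₀ : Finset (HeightOneSpectrum (𝓞 ℚ)))
    (n : HeightOneSpectrum (𝓞 F) → ℕ) (m : HeightOneSpectrum (𝓞 ℚ) → ℕ)
    (φ : G F → ℂ) (f : QWt → G ℚ → ℂ) : Prop where
  up_test : T5.IsTestFn (upI (K' := F) 𝔫) T5.trivType φ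
  up_ek : T5.IsEK B.R'.μ φ ∧ T5.IsEK B.R'.μ (T5.adjointFn φ)
  dn_test : ∀ t : QWt, T5.IsTestFn 𝔫 t.type (f t)
  dn_ek : ∀ t : QWt, T5.IsEK B.R.μ (f t) ∧ T5.IsEK B.R.μ (T5.adjointFn (f t))
  up_supp : ∃ C : Set (G F), IsCompact C ∧ T5.H32.IsIwSupported32 2 B.o C φ
  dn_supp : ∀ t : QWt,
    ∃ C : Set (G ℚ), IsCompact C ∧ T5.H32.IsIwSupported32 1 (fun _ => B.u) C (f t)
  shape : IsAvgPureQ801 (upI (K' := F) 𝔫) 𝔫 T₀ (LocAQ801 c T₀ n m) 1
    φ (f QWt.w0) (f QWt.w1)

/-- **THE STEP RELATION**: `(φ', f')` is obtained from `(φ, f)` by the generator `x`: the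
operators on the eigenfunctions are multiplied by `x(C)`. -/
structure IsStepAQ801 (B : L2QBase962 F) (𝔫 : Ideal (𝓞 ℚ)) (x : Gen F)
    (φ : G F → ℂ) (f : QWt → G ℚ → ℂ) (φ' : G F → ℂ) (f' : QWt → G ℚ → ℂ) : Prop where
  up : ∀ (χ : G F → ℂ) (C : EigData F), IsEigFn B.𝔑₀ B.R'.r 2 B.o χ C →
    ∀ y : G F, T5.Rconv B.R'.μ φ' χ y = x.ev C * T5.Rconv B.R'.μ φ χ y
  dn : ∀ (t : QWt) (χ : G ℚ → ℂ) (c : EigData ℚ) (C : EigData F),
    IsEigFnQ t 𝔫 B.R.r B.u χ c → IsBCDataQ t c C B.S →
    ∀ y : G ℚ, T5.Rconv B.R.μ (f' t) χ y = x.ev C * T5.Rconv B.R.μ (f t) χ y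

/-- **THE OPERATOR OF THE BASE FUNCTIONS DOWNSTAIRS**: the fields `dn1_wfn`, `dn1_class`,
`dn1_comm` of `IsPairAQ801` for the functions `f t = F₁ t []` (same statements). -/
structure IsDnStabQ801 (B : L2QBase962 F) (𝔫 : Ideal (𝓞 ℚ)) (f : QWt → G ℚ → ℂ) : Prop where
  wfn : ∀ (t : QWt) (ψ : G ℚ → ℂ), IsWFnQ t 𝔫 B.R.r B.u ψ →
    IsWFnQ t 𝔫 B.R.r B.u (T5.Rconv B.R.μ (f t) ψ)
  cls : ∀ (t : QWt) (ψ : G ℚ → ℂ) (c : EigData ℚ), IsEigFnQ t 𝔫 B.R.r B.u ψ c →
    IsEigFnQ t 𝔫 B.R.r B.u (T5.Rconv B.R.μ (f t) ψ) c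
  comm : ∀ (t : QWt) (ψ : G ℚ → ℂ), IsWFnQ t 𝔫 B.R.r B.u ψ →
    ∀ (H : Finset (G ℚ)) (z : G ℚ), IsIwCosetSystem B.u H → IsScalarUniformizerAt B.u z →
      (∀ x : G ℚ, T5.Rconv B.R.μ (f t) (iwOp B.u H ψ) x
        = iwOp B.u H (T5.Rconv B.R.μ (f t) ψ) x) ∧
      ∀ (k : ℤ) (x : G ℚ), T5.Rconv B.R.μ (f t) (shiftOp z k ψ) x
        = shiftOp z k (T5.Rconv B.R.μ (f t) ψ) x

/-- **THE PROPERTIES OF THE BASE FAMILY** `(φ D, f D)`, `D` a word of sphere means, with the
scalar `c₁`. -/
structure IsBaseAQ801 (Φ : HeckeEigensystem F ℂ) (B : L2QBase962 F) (𝔫 : Ideal (𝓞 ℚ)) (c : ℂ)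
    (T₀ : Finset (HeightOneSpectrum (𝓞 ℚ)))
    (n : HeightOneSpectrum (𝓞 F) → ℕ) (m : HeightOneSpectrum (𝓞 ℚ) → ℕ)
    (c₁ : EigData F → ℂ) (φ : List (Gen F) → G F → ℂ)
    (f : List (Gen F) → QWt → G ℚ → ℂ) : Prop where
  good : ∀ D : List (Gen F), IsMWord801 D → IsGoodAQ801 B 𝔫 c T₀ n m (φ D) (f D)
  up_op : ∀ D : List (Gen F), IsMWord801 D →
    ∀ (χ : G F → ℂ) (C : EigData F), IsEigFn B.𝔑₀ B.R'.r 2 B.o χ C →
      ∀ y : G F, T5.Rconv B.R'.μ (φ D) χ y = wordEv D C * c₁ C * χ y
  up_ne : ∀ C : EigData F, C.AgreeOut B.S' (eigOf Φ) → c₁ C ≠ 0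
  dn_op : ∀ D : List (Gen F), IsMWord801 D →
    ∀ (t : QWt) (χ : G ℚ → ℂ) (c : EigData ℚ) (C : EigData F),
      IsEigFnQ t 𝔫 B.R.r B.u χ c → IsBCDataQ t c C B.S →
      ∀ y : G ℚ, T5.Rconv B.R.μ (f D t) χ y = wordEv D C * T5.Rconv B.R.μ (f [] t) χ y
  dn_stab : IsDnStabQ801 B 𝔫 (f [])

end Vocab

/-! ## 2. The nodes -/

section Nodes

variable (P : EKCond)
variable (F : Type) [Field F] [NumberField F]

/-- **NODE A.0 over `ℚ` = BASE (the words of sphere means; stations T3.18M + T3.18R + T6).**  For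
a common part of helper60 with `3 ∈ S`, every level with the level properties, the exponents
of the level and every constant `c ≠ 0`: a scalar `c₁` and for every word `D` of sphere means
ONE pair `(φ D, f D)` with the word-free properties, `R(φ D) χ = D(C) c₁(C) χ` on the
eigenfunctions of the base level upstairs, `R(f D t) χ = D(C) R(f [] t) χ` downstairs,
`c₁ ≠ 0` on the class of `Φ`, and the three properties of `R(f [] t)`.
Of record for `P = T7.ekMulti`.  Construction: header. -/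
def BaseAQC801 : Prop :=
  HasSqrtNegThree F → IsImagQuad F →
    ∀ Φ : HeckeEigensystem F ℂ, A0.IsCuspAdelicSph0 F Φ → ConstOnFibresQ Φ → P F Φ →
      ∀ B : L2Q.H60.L2QBase F, L2Q.H60.IsL2QBase Φ B → L2Q.H60.IsRamQ60 B →
      ∀ 𝔫 : Ideal (𝓞 ℚ), CQ57.IsLevQ57 (toBase962_732 B) 𝔫 →
      ∀ (T₀ : Finset (HeightOneSpectrum (𝓞 ℚ)))
        (n n₀ : HeightOneSpectrum (𝓞 F) → ℕ) (m : HeightOneSpectrum (𝓞 ℚ) → ℕ),
        CQ57.IsLevFnQ57 (toBase962_732 B) 𝔫 T₀ n n₀ m →
        ∀ c : ℂ, c ≠ 0 →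
          ∃ (c₁ : EigData F → ℂ) (φ : List (Gen F) → G F → ℂ)
            (f : List (Gen F) → QWt → G ℚ → ℂ),
            IsBaseAQ801 Φ (toBase962_732 B) 𝔫 c T₀ n m c₁ φ f

/-- The step for the generators `x` which satisfy `Q` (the common form of the step nodes). -/
def StepGQC801 (Q : Gen F → Prop) : Prop :=
  HasSqrtNegThree F → IsImagQuad F →
    ∀ (Φ : HeckeEigensystem F ℂ) (B : L2Q.H60.L2QBase F), L2Q.H60.IsL2QBase Φ B →
      L2Q.H60.IsRamQ60 B →
      ∀ 𝔫 : Ideal (𝓞 ℚ), CQ57.IsLevQ57 (toBase962_732 B) 𝔫 →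
      ∀ (T₀ : Finset (HeightOneSpectrum (𝓞 ℚ)))
        (n n₀ : HeightOneSpectrum (𝓞 F) → ℕ) (m : HeightOneSpectrum (𝓞 ℚ) → ℕ),
        CQ57.IsLevFnQ57 (toBase962_732 B) 𝔫 T₀ n n₀ m →
        ∀ c : ℂ, c ≠ 0 →
        ∀ x : Gen F, Q x → x.Out (toBase962_732 B).S' →
        ∀ (φ : G F → ℂ) (f : QWt → G ℚ → ℂ),
          IsGoodAQ801 (toBase962_732 B) 𝔫 c T₀ n m φ f →
          ∃ p : (G F → ℂ) × (QWt → G ℚ → ℂ),
            IsGoodAQ801 (toBase962_732 B) 𝔫 c T₀ n m p.1 p.2 ∧
              IsStepAQ801 (toBase962_732 B) 𝔫 x φ f p.1 p.2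

/-- **NODE A.1 over `ℚ` = STEP-T** (`x = T_w`, `w ∉ S'`).  `φ'(g) = q_w^{-1/2} ∑_{h ∈ H} φ(g z⁻¹ h)`
(`H` a Hecke coset system at `w`, `z` a scalar uniformiser at `w`; CAUTION on the side of the
cosets: header of `B981/PairASpec.lean`); downstairs, for BOTH types, the base change: `w` the
only place over `v` (`v` inert, residue degree `2`): `f t ⋆` the element with Satake transform
`x² + y²` (`T6.BCExistsC`); `v` split: `f' t (g) = q_v^{-1/2} ∑_{h ∈ H_v} f t (g z_v⁻¹ h)`.
Mirror of `B981.StepTC981` (`ℓ = 2`). -/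
def StepTQC801 : Prop :=
  StepGQC801 F fun x => ∃ w : HeightOneSpectrum (𝓞 F), x = Gen.T w

/-- **NODE A.2 over `ℚ` = STEP-S** (`x = S_w` or `x = S_w⁻¹`, `w ∉ S'`).  `φ' = φ(· z^{∓ 1})`, `z` a
scalar uniformiser at `w`; downstairs, for BOTH types, `f' t = f t (· z_v^{∓ f})`, `z_v` a scalar
uniformiser at the place `v` under `w`, `f` the residue degree of `w` (`2` or `1`).  Mirror of
`B981.StepSC981` (`ℓ = 2`). -/
def StepSQC801 : Prop :=
  StepGQC801 F fun x => ∃ w : HeightOneSpectrum (𝓞 F), x = Gen.S w ∨ x = Gen.Sinv w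

end Nodes

/-! ## Appendix: the equation lemmas of the definitions of this file are realised HERE -/

theorem eqns_realised_pairAQCut801 : True := by
  have _h0_0 := @IsMWord801.eq_1
  have _h0_1 := @IsMWord801.eq_def
  have _h0_2 := @IsMWord801.eq_unfold
  have _h1_0 := @BaseAQC801.eq_1
  have _h1_1 := @BaseAQC801.eq_def
  have _h1_2 := @BaseAQC801.eq_unfold
  have _h2_0 := @StepGQC801.eq_1
  have _h2_1 := @StepGQC801.eq_def
  have _h2_2 := @StepGQC801.eq_unfold
  have _h3_0 := @StepTQC801.eq_1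
  have _h3_1 := @StepTQC801.eq_def
  have _h3_2 := @StepTQC801.eq_unfold
  have _h4_0 := @StepSQC801.eq_1
  have _h4_1 := @StepSQC801.eq_def
  have _h4_2 := @StepSQC801.eq_unfold
  have _h5_0 := @isMGen801.eq_1
  have _h5_1 := @isMGen801.eq_2
  have _h5_2 := @isMGen801.eq_3
  have _h5_3 := @isMGen801.eq_4
  have _h5_4 := @isMGen801.eq_def
  have _h5_5 := @isMGen801.eq_unfold
  trivial

end Fermat.Agent.LT.T7.CQ801

end

end
-- ===== PACK-END LT/T7/H801/PairAQCutSpec.lean

-- ===== PACK-BEGIN LT/T3/R/Explicit.lean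
section


/-!
# Row LT, tower T3, station T3.18R (architect helper14): THE EXPLICIT FORM
# (local factors visible; hint of helper797, note 18148 (4))

OFF-MAIN.  Complete proofs, nothing assumed.  ADDITIVE (new names only).

The outputs `EKOpExistRC`, `AbelSatakeRC` are EXISTENCE statements: the local factors of the test
function are chosen by the station.  For the matched pairs of tower T7 (`ConstrQ60C732`, the
`ℚ`-step) the consumer CHOOSES the local factors (`f₀ v` at `v ∈ P`: the `T6`-match of the factor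
upstairs; `F w` at the real place: `abelF0_626` / `abelF1_626`), so the statements are needed for
GIVEN local factors:

* pure tensors: the closed leaves are already stated for given local factors with the local pair
  relations: `nIntR_c` (`N`-integral), `rOpR_c` (operator), `H709.pureRegRC709` (regularity);
* **`ExplicitRC K`, `explicitR_c`**: there are `κ, Δ, κ₀ ≠ 0`, which depend on the frame and the
  weights only, such that EVERY `(Φ, f)` in `pairSpanR` (= finite linear combinations of pure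
  pairs `(pureCoordM A β, pureFnR f₀ F)` with `IsSatakePair v (f₀ v) (A v)`, `v ∈ P`,
  `T6.IsArchTestR (n w) (F w)`, `HasAbelNR (F w) (β w)`) is an Abel--Satake pair `IsASPairR`
  (regularity, type, support, `N`-integral `κ Φ(Δ + j c₀)`, operator on every class);
* **`EKOfPairRC K`, `ekOfPairR_c`**: if moreover `Φ` telescopes along `c₀ = coordTorM K P e α`
  (`∑_j Φ(Δ + j c₀) = 0`), then `f` is a test function of type `typeR n` in the sense of T5,
  Eisenstein-killing with Eisenstein-killing adjoint, supported at `P ∪ S_∞`, with the operator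
  scalars `c(z₁, z₂)` (`= κ₀ (∏_w κr w) Φ^(z₁, z₂)` if the local scalars are `κr w ∫ β`);
* `isPurePairR_mk`, `mem_pairSpanR_pure`, `mem_pairSpanR_sum`: how to produce members of
  `pairSpanR` from explicit local factors.

No weight hypothesis `IsWt` is needed here (`AbelRealC` is not used: the local functions are given).
-/

set_option autoImplicit false
set_option linter.style.haveILetI false

open IsDedekindDomain NumberField MeasureTheory
open Fermat.Agent.LT.H556.A0

noncomputable section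

namespace Fermat.Agent.LT.T3.R

open Fermat.Agent.LT.T3.AS Fermat.Agent.LT.T3.M

variable (K : Type) [Field K] [NumberField K]

/-! ## 0. Members of `pairSpanR` from explicit local factors -/

variable {K}

/-- A pure pair from explicit local factors. -/
theorem isPurePairR_mk (hR : ∀ w : InfinitePlace K, w.IsReal) (𝔫 : Ideal (𝓞 K))
    (P : Finset (HeightOneSpectrum (𝓞 K))) (n : InfinitePlace K → ℤ)
    (A : HeightOneSpectrum (𝓞 K) → ℤ × ℤ → ℂ) (β : InfinitePlace K → ℝ × ℝ → ℂ)
    (f₀ : ∀ v : HeightOneSpectrum (𝓞 K), GL (Fin 2) (v.adicCompletion K) → ℂ)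
    (F : InfinitePlace K → GL (Fin 2) ℝ → ℂ)
    (hA : ∀ v, IsSymFin (A v)) (hβ : ∀ w, IsSymBump (β w))
    (hp : ∀ v ∈ P, IsSatakePair v (f₀ v) (A v))
    (hF : ∀ w, T6.IsArchTestR (n w) (F w)) (hN : ∀ w, HasAbelNR (F w) (β w)) :
    IsPurePairR K hR 𝔫 P n (pureCoordM K P A β, pureFnR K hR 𝔫 P f₀ F) :=
  ⟨A, β, f₀, F, hA, hβ, hp, hF, hN, rfl⟩

/-- A pure pair from explicit local factors belongs to `pairSpanR`. -/
theorem mem_pairSpanR_pure (hR : ∀ w : InfinitePlace K, w.IsReal) (𝔫 : Ideal (𝓞 K))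
    (P : Finset (HeightOneSpectrum (𝓞 K))) (n : InfinitePlace K → ℤ)
    (A : HeightOneSpectrum (𝓞 K) → ℤ × ℤ → ℂ) (β : InfinitePlace K → ℝ × ℝ → ℂ)
    (f₀ : ∀ v : HeightOneSpectrum (𝓞 K), GL (Fin 2) (v.adicCompletion K) → ℂ)
    (F : InfinitePlace K → GL (Fin 2) ℝ → ℂ)
    (hA : ∀ v, IsSymFin (A v)) (hβ : ∀ w, IsSymBump (β w))
    (hp : ∀ v ∈ P, IsSatakePair v (f₀ v) (A v))
    (hF : ∀ w, T6.IsArchTestR (n w) (F w)) (hN : ∀ w, HasAbelNR (F w) (β w)) :
    (pureCoordM K P A β, pureFnR K hR 𝔫 P f₀ F) ∈ pairSpanR K hR 𝔫 P n :=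
  Submodule.subset_span (isPurePairR_mk hR 𝔫 P n A β f₀ F hA hβ hp hF hN)

/-- A finite linear combination of pure pairs with explicit local factors belongs to
`pairSpanR`: `(∑_i c_i Φ_i, ∑_i c_i f_i)`. -/
theorem mem_pairSpanR_sum (hR : ∀ w : InfinitePlace K, w.IsReal) (𝔫 : Ideal (𝓞 K))
    (P : Finset (HeightOneSpectrum (𝓞 K))) (n : InfinitePlace K → ℤ)
    {ι : Type} (s : Finset ι) (c : ι → ℂ)
    (A : ι → HeightOneSpectrum (𝓞 K) → ℤ × ℤ → ℂ) (β : ι → InfinitePlace K → ℝ × ℝ → ℂ)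
    (f₀ : ι → ∀ v : HeightOneSpectrum (𝓞 K), GL (Fin 2) (v.adicCompletion K) → ℂ)
    (F : ι → InfinitePlace K → GL (Fin 2) ℝ → ℂ)
    (hA : ∀ i ∈ s, ∀ v, IsSymFin (A i v)) (hβ : ∀ i ∈ s, ∀ w, IsSymBump (β i w))
    (hp : ∀ i ∈ s, ∀ v ∈ P, IsSatakePair v (f₀ i v) (A i v))
    (hF : ∀ i ∈ s, ∀ w, T6.IsArchTestR (n w) (F i w))
    (hN : ∀ i ∈ s, ∀ w, HasAbelNR (F i w) (β i w)) :
    (∑ i ∈ s, c i • pureCoordM K P (A i) (β i), ∑ i ∈ s, c i • pureFnR K hR 𝔫 P (f₀ i) (F i))
      ∈ pairSpanR K hR 𝔫 P n := by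
  have h : (∑ i ∈ s, c i • pureCoordM K P (A i) (β i),
      ∑ i ∈ s, c i • pureFnR K hR 𝔫 P (f₀ i) (F i))
      = ∑ i ∈ s, c i • ((pureCoordM K P (A i) (β i), pureFnR K hR 𝔫 P (f₀ i) (F i)) :
          (CoordM K P → ℂ) × (G K → ℂ)) := by
    refine Prod.ext ?_ ?_
    · rw [Prod.fst_sum]
      rfl
    · rw [Prod.snd_sum]
      rfl
  rw [h]
  refine Submodule.sum_mem _ fun i hi => Submodule.smul_mem _ _ ?_
  exact mem_pairSpanR_pure hR 𝔫 P n (A i) (β i) (f₀ i) (F i) (hA i hi) (hβ i hi) (hp i hi)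
    (hF i hi) (hN i hi)

variable (K)

/-! ## 1. Every member of `pairSpanR` is an Abel--Satake pair -/

/-- **THE EXPLICIT FORM of the Abel--Satake pair at real places.**  `κ, Δ, κ₀` depend on the
frame and the weights only; every member of `pairSpanR` is an Abel--Satake pair. -/
def ExplicitRC : Prop :=
  letI : MeasurableSpace (Adl K) := borel (Adl K)
  letI : MeasurableSpace (G K) := borel (G K)
  letI : MeasurableSpace (GL (Fin 2) ℝ) := borel (GL (Fin 2) ℝ)
  ∀ hR : ∀ w : InfinitePlace K, w.IsReal,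
  ∀ μ : Measure (G K), μ.IsHaarMeasure →
  ∀ μr : Measure (GL (Fin 2) ℝ), μr.IsHaarMeasure →
  ∀ ν : Measure (Adl K), ν.IsAddHaarMeasure →
  ∀ (𝔫 : Ideal (𝓞 K)) (P : Finset (HeightOneSpectrum (𝓞 K)))
    (e : HeightOneSpectrum (𝓞 K) → ℕ) (a₀ : 𝓞 K) (α : Kˣ), FrameM K 𝔫 P e a₀ α →
    IsTotPos K hR α → ∀ n : InfinitePlace K → ℤ,
    ∃ (κ : G K → G K → ℂ) (Δ : G K → G K → CoordM K P) (κ₀ : ℂ), κ₀ ≠ 0 ∧
      ∀ p : (CoordM K P → ℂ) × (G K → ℂ), p ∈ pairSpanR K hR 𝔫 P n →
        IsASPairR K hR μ μr ν 𝔫 P e α n κ Δ κ₀ p.1 p.2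

/-- The explicit form from the leaves R.3, R.4, the node `NIntRC` and M.2. -/
theorem explicitR_of (hft : FtPureC) (h3 : PureRegRC K) (h4 : NIntRC K) (h5 : ROpRC K) :
    ExplicitRC K := by
  let _ : MeasurableSpace (Adl K) := borel (Adl K)
  let _ : MeasurableSpace (G K) := borel (G K)
  let _ : MeasurableSpace (GL (Fin 2) ℝ) := borel (GL (Fin 2) ℝ)
  have _ : BorelSpace (G K) := ⟨rfl⟩
  intro hR μ hμ μr hμr ν hν 𝔫 P e a₀ α hfr hpos n
  obtain ⟨κ, Δ, hN⟩ := h4 hR ν hν 𝔫 P e a₀ α hfr hpos n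
  obtain ⟨κ₁, hκ₁, hRop⟩ := h5 hR μ hμ μr hμr 𝔫 hfr.level P hfr.prime
  refine ⟨κ, Δ, κ₁, hκ₁, ?_⟩
  intro p hp
  induction hp using Submodule.span_induction with
  | zero => exact IsASPairR.zero
  | add p₁ p₂ _ _ ih₁ ih₂ => exact ih₁.add ih₂
  | smul c p _ ih => exact ih.smul c
  | mem p hp =>
    classical
    obtain ⟨A, β, f₀, F, hAsym, hβ, hpair, hF1, hF2, rfl⟩ := hp
    obtain ⟨r1, r2, r3, r4, r5⟩ := h3 hR 𝔫 hfr.level P hfr.prime n f₀ F
      (fun v hv => (hpair v hv).bi_inv) (fun v hv => (hpair v hv).fin_supp) hF1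
    have hNN := hN A β f₀ F (fun v hv => (hpair v hv).bi_inv)
      (fun v hv => (hpair v hv).fin_supp) (fun v hv => (hpair v hv).n_int) hF1 hF2
    have hft' : ∀ z₁ z₂ : HeightOneSpectrum (𝓞 K) → ℂ,
        ftCoordM K P (pureCoordM K P A β) z₁ z₂
          = (∏ v ∈ P, laurent (A v) (z₁ v) (z₂ v)) * ∏ w : InfinitePlace K, ∫ x : ℝ × ℝ, β w x := by
      intro z₁ z₂
      unfold ftCoordM pureCoordM
      rw [hft P (InfinitePlace K) (fun v : P => A v) β (fun i => (hAsym i).1)
        (fun v : P => z₁ v) (fun v : P => z₂ v),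
        Finset.prod_coe_sort P (fun v => laurent (A v) (z₁ v) (z₂ v))]
    refine
      { fin_m := ⟨Fintype.piFinset fun i : P => (hAsym i).1.toFinset, fun m hm x => ?_⟩
        int_x := fun m => ?_
        cont := r1
        supp := r2
        smooth := r3
        bi := r4
        supp_at := r5
        pair := Submodule.subset_span
          ⟨A, β, f₀, F, hAsym, hβ, hpair, hF1, hF2, rfl⟩
        n_integrable := fun g g' j => (hNN g g' j).1
        n_int := fun g g' j => (hNN g g' j).2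
        gen := fun 𝒞 κr h𝒞 => ?_ }
    · rw [Fintype.mem_piFinset, not_forall] at hm
      obtain ⟨i, hi⟩ := hm
      rw [Set.Finite.mem_toFinset, Function.mem_support, not_not] at hi
      have : ∏ v : P, A v (m v) = 0 := Finset.prod_eq_zero (Finset.mem_univ i) hi
      show (∏ v : P, A v (m v)) * ∏ w : InfinitePlace K, β w (x w) = 0
      rw [this, zero_mul]
    · have : (fun x : InfinitePlace K → ℝ × ℝ => pureCoordM K P A β (m, x))
          = fun x => (∏ v : P, A v (m v)) * ∏ w : InfinitePlace K, β w (x w) := rfl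
      show Integrable (fun x : InfinitePlace K → ℝ × ℝ => pureCoordM K P A β (m, x))
      rw [this]
      refine Integrable.const_mul ?_ _
      exact Integrable.fintype_prod (f := β) (μ := fun _ => volume) fun w =>
        (hβ w).1.continuous.integrable_of_hasCompactSupport (hβ w).2.1
    · -- the scalars at the real places
      choose Cg hCg using fun w : InfinitePlace K => h𝒞 w (F w) (hF1 w)
      set Cw : InfinitePlace K → ℂ := fun w =>
        if HasAbelScalarR μr (n w) (𝒞 w) (κr w) then κr w * ∫ x : ℝ × ℝ, β w x else Cg w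
        with hCw
      have hCwa : ∀ w : InfinitePlace K, ActsOnR μr (F w) (𝒞 w) (Cw w) := by
        intro w
        by_cases hm : HasAbelScalarR μr (n w) (𝒞 w) (κr w)
        · simp only [hCw, if_pos hm]
          exact hm (F w) (β w) (hF1 w) (hF2 w)
        · simp only [hCw, if_neg hm]
          exact hCg w
      refine ⟨fun z₁ z₂ => κ₁ * (∏ v ∈ P, laurent (A v) (z₁ v) (z₂ v))
          * ∏ w : InfinitePlace K, Cw w, fun hκ z₁ z₂ => ?_,
        fun φ hφ a b z₁ z₂ he hz₁ hz₂ hb g => ?_⟩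
      · have e1 : ∀ w : InfinitePlace K, Cw w = κr w * ∫ x : ℝ × ℝ, β w x := fun w => by
          simp only [hCw, if_pos (hκ w)]
        show κ₁ * (∏ v ∈ P, laurent (A v) (z₁ v) (z₂ v)) * ∏ w : InfinitePlace K, Cw w = _
        simp only [e1]
        rw [hft' z₁ z₂, Finset.prod_mul_distrib]
        ring
      · exact hRop n A Cw 𝒞 f₀ F (fun v hv => (hpair v hv).bi_inv)
          (fun v hv => (hpair v hv).fin_supp) (fun v hv => (hpair v hv).eigen) hF1 hCwa φ hφ
          a b z₁ z₂ he hz₁ hz₂ hb g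

/-- **THE EXPLICIT FORM, UNCONDITIONAL.** -/
theorem explicitR_c : ExplicitRC K :=
  explicitR_of K (openM_c K).ftPure (H709.pureRegRC709 K) (nIntR_c K) (rOpR_c K)

/-! ## 2. Eisenstein killing for a telescoping member of `pairSpanR` -/

/-- **EK FOR GIVEN LOCAL FACTORS.**  If `(Φ, f) ∈ pairSpanR` and `Φ` telescopes along
`c₀ = coordTorM K P e α`, then `f` is a T5 test function of type `typeR n`, Eisenstein-killing
with Eisenstein-killing adjoint, supported at `P ∪ S_∞`, and acts by the scalars `c(z₁, z₂)` on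
the global class of every family of local classes on which the test functions act by scalars. -/
def EKOfPairRC : Prop :=
  letI : MeasurableSpace (G K) := borel (G K)
  letI : MeasurableSpace (GL (Fin 2) ℝ) := borel (GL (Fin 2) ℝ)
  ∀ hR : ∀ w : InfinitePlace K, w.IsReal,
  ∀ μ : Measure (G K), μ.IsHaarMeasure →
  ∀ μr : Measure (GL (Fin 2) ℝ), μr.IsHaarMeasure →
  ∀ (𝔫 : Ideal (𝓞 K)) (P : Finset (HeightOneSpectrum (𝓞 K)))
    (e : HeightOneSpectrum (𝓞 K) → ℕ) (a₀ : 𝓞 K) (α : Kˣ), FrameM K 𝔫 P e a₀ α →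
    IsTotPos K hR α → ∀ n : InfinitePlace K → ℤ,
    ∃ κ₀ : ℂ, κ₀ ≠ 0 ∧
      ∀ (Φ : CoordM K P → ℂ) (f : G K → ℂ), (Φ, f) ∈ pairSpanR K hR 𝔫 P n →
        (∀ Δ : CoordM K P, HasSum (fun j : ℤ => Φ (Δ + j • coordTorM K P e α)) 0) →
        T5.IsTestFn 𝔫 (typeR K hR n) f ∧ T5.IsEK μ f ∧ T5.IsEK μ (T5.adjointFn f) ∧
          IsSuppAtM K 𝔫 P f ∧
          ∀ (𝒞 : InfinitePlace K → Set (GL (Fin 2) ℝ → ℂ)) (κr : InfinitePlace K → ℂ),
            (∀ w, IsScalarClassR μr (n w) (𝒞 w)) →
            ∃ c : (HeightOneSpectrum (𝓞 K) → ℂ) → (HeightOneSpectrum (𝓞 K) → ℂ) → ℂ,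
              ((∀ w, HasAbelScalarR μr (n w) (𝒞 w) (κr w)) →
                ∀ z₁ z₂ : HeightOneSpectrum (𝓞 K) → ℂ,
                  c z₁ z₂ = κ₀ * (∏ w, κr w) * ftCoordM K P Φ z₁ z₂) ∧
              ∀ φ : G K → ℂ, IsClassLevelR K hR 𝔫 𝒞 φ →
              ∀ a b z₁ z₂ : HeightOneSpectrum (𝓞 K) → ℂ,
                (∀ v ∈ P, IsHeckeEigenAt φ v (a v) (b v)) →
                (∀ v ∈ P, z₁ v + z₂ v = a v) → (∀ v ∈ P, z₁ v * z₂ v = b v) →
                (∀ v ∈ P, b v ≠ 0) →
                ∀ g : G K, T5.Rconv μ f φ g = c z₁ z₂ * φ g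

/-- EK for given local factors from the explicit form and the closed leaves of T3. -/
theorem ekOfPairR_of (hX : ExplicitRC K) (hk : EKKillC K) (hs : EKStarC K)
    (hν : InAddHaarC K) (hty : TypeRC K) : EKOfPairRC K := by
  let _ : MeasurableSpace (Adl K) := borel (Adl K)
  let _ : MeasurableSpace (G K) := borel (G K)
  let _ : MeasurableSpace (GL (Fin 2) ℝ) := borel (GL (Fin 2) ℝ)
  intro hR μ hμ μr hμr 𝔫 P e a₀ α hfr hpos n
  obtain ⟨ν, hνH⟩ := hν
  obtain ⟨κ, Δ, κ₀, hκ₀, hall⟩ := hX hR μ hμ μr hμr ν hνH 𝔫 P e a₀ α hfr hpos n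
  refine ⟨κ₀, hκ₀, fun Φ f hmem hΦsum => ?_⟩
  have hp := hall (Φ, f) hmem
  have hf := hp.cont
  have hfc := hp.supp
  have hEK : IsEK K ν f α := by
    intro g g'
    have h1 : (fun j : ℤ => ∫ x, f (g⁻¹ * unip K x * torK K α ^ j * g') ∂ν)
        = fun j : ℤ => κ g g' * Φ (Δ g g' + j • coordTorM K P e α) := by
      funext j
      exact hp.n_int g g' j
    rw [h1]
    have h2 := (hΦsum (Δ g g')).mul_left (κ g g')
    rw [mul_zero] at h2
    exact h2
  have hstar : IsEK K ν (starG K f) α := hs ν hνH _ f hf hfc hEK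
  have hsc : Continuous (starG K f) := by
    unfold starG
    exact (Complex.continuous_conj).comp (hf.comp continuous_inv)
  have hscc : HasCompactSupport (starG K f) := by
    unfold starG
    have h1 : HasCompactSupport (fun h : G K => f h⁻¹) := by
      have := hfc.comp_homeomorph (Homeomorph.inv (G K))
      simpa [Function.comp_def] using this
    exact h1.comp_left (g := (starRingEnd ℂ)) (map_zero _)
  refine ⟨⟨hty hR n, hf, hfc, hp.smooth, hp.bi⟩,
    isEK_T5 K (ekOp_of_int K hk hμ hνH hf hfc hEK),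
    isEK_T5 K (ekOp_of_int K hk hμ hνH hsc hscc hstar), hp.supp_at, ?_⟩
  intro 𝒞 κr h𝒞
  obtain ⟨c₀, hc₀, hop⟩ := hp.gen 𝒞 κr h𝒞
  refine ⟨c₀, hc₀, fun φ hφ a b z₁ z₂ he hz₁ hz₂ hb g => ?_⟩
  have hRT : T5.Rconv μ f φ g = Rop K μ f φ g := by
    unfold Rop T5.Rconv
    refine integral_congr_ae (Filter.Eventually.of_forall fun y => ?_)
    exact mul_comm _ _
  rw [hRT]
  exact hop φ hφ a b z₁ z₂ he hz₁ hz₂ hb g

/-- **EK FOR GIVEN LOCAL FACTORS, UNCONDITIONAL.** -/
theorem ekOfPairR_c : EKOfPairRC K :=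
  ekOfPairR_of K (explicitR_c K) (ekKill_u K) (ekStar_u K) (inAddHaar_u K) (H505.typeRC505 K)

end Fermat.Agent.LT.T3.R

end

end
-- ===== PACK-END LT/T3/R/Explicit.lean

-- ===== PACK-BEGIN LT/T7/H973/PairBQSpec.lean
section




/-!
# Row LT, tower T7, node T7.L2Q.1.H2a.B `CQ801.PairBQC801` (registry row 2856, owner helper973):
# THE SECOND PAIR OF THE CONSTRUCTION OVER `ℚ` (quadratic step) -- FIRST CUT, Spec

OFF-MAIN.  Definitions and frozen Props only (the proved top is `PairBQTop.lean`).  No hole,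
nothing assumed.  ADDITIVE (new names only, all suffixed `973`, namespace
`Fermat.Agent.LT.T7.PBQ973`).  Vocabulary, byte-identical copies: `T7/H801/BaseQCutSpec.lean`
(helper801@6ce712ecc, 7e08115d: `IsPairBQ801`, `PairBQC801`), `T7/H801/SupplyQConstrSpec.lean`
(`IsAvgPureQ801`, `LocBQ801`), `T7/H57/BaseQSpec.lean` (`CQ57.IsLevQ57`, `CQ57.IsLevFnQ57`),
`T7/H193/{ProjSpec,KillSpec,AvgFinal,NatTools}.lean` (helper193: `nat193`, `IsTorusData`,
`IsBiHInv`, `killing_of_torus193`).

MIRROR over `ℚ` of the first cut of helper57 of the cubic second pair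
(`T7/H57/PairBSpec.lean` 40309edd, `PairBTop.lean`: `PreBC57`, `NatUpC57`, `NatDnC57`,
`NatShapeC57`, `H193.RelTorusC`).

    pairBQC_of973 : RelTorusQC973 F → PreBQC973 P F → KillToolQC973 QWt.w1 → NatShapeQC973 F
                      → CQ801.PairBQC801 P F

## The cut: THE NATURAL AVERAGE IS SPLIT OFF

The second pair is a pair of ARCHIMEDEAN TORUS MEANS (`up2_kill` / `dn2_kill` force it: the cusp
functions of the level are invariant under the ray generator only, and `ℝ_{>0} / ⟨r⟩` has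
non-trivial characters): `φ₂ = nat193 a' D' φ°`, `f₂ t = nat193 a D (f° t)` for COMPATIBLE torus
data (`IsRelTorusQ973`) and an UN-AVERAGED pair `(φ°, f° w0, f° w1)`.

* **`PreBQC973 P F`** (NODE = the un-averaged pair; T3.18M + T3.18R explicit forms + T6): a
  level `𝔫`, and for all Haar measures, the exponents and all constants `c ≠ 0`, `a ≠ 0` a
  scalar `c₂` and a pair `(φ°, f°)` with `IsPreBQ973`: the fields of `CQ801.IsPairBQ801` EXCEPT
  the two killing properties, with BI-invariance (`H193.IsBiHInv`) in `up_inv`, `dn_inv`.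
* **`RelTorusQC973 F`** (LEAF, [M]): compatible torus data exist for `ℚ ⊂ F`, `F` imaginary
  quadratic.  THE NORM IS `N t' = 2 t'` (one complex place over the real place; NOT
  `H193.fibSum193`, see the header of `H193/NatMatchSpec.lean`): `D' = [0, c')`,
  `D = [0, 2 c')`, `c' = log t₀'`, `t₀'^4 = 2`, `2 c' = log t₀`, `t₀^2 = 2` (`T5.IsRayGen`).
  The structure carries the translation invariance of the mean downstairs for EVERY
  `r`-invariant function (`ray`; = `H820.MeanRay820` of helper820, needed for the type `w1`).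
* **`KillToolQC973 t`** (LEAF for `t = w1`, [L]; `t = w0` is `H193.killing_of_torus193` for
  `K = ℚ`, PROVED in the top file): THE KILLING TOOL over `ℚ` FOR THE TYPE `t`.  Port of
  `H193.kill193` / `H193.killing_of_torus193` to the type `wtOne` on the typed projection
  station of helper820 (`T7/H820/ProjQGen.lean`: `finAvgCusp_T820`, `finAvgOrth_T820`,
  `torAvgW_T820`, `torAvgOrth_T820`); the type-agnostic leaves (`RconvFinAvgC`, `NullC`,
  `NatOpC`, `NatEKC`, `NatAdjEKC`, `NatSmoothC`, `TorAvgFixC`, `NatHInvC`) are used as they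
  are, the three leaves which mention the trivial type (`NatBasicC`, `NatAbsorbC`,
  `RconvTorAvgC`) are ported (the elements over which one averages are central).
* **`NatShapeQC973 F`** (LEAF, [L]; Fubini + the push-forward): the torus means of an average of
  pure tensors with the local condition `LocBQ801` are an average of pure tensors with the
  local condition `LocBQ801` (parameter space `Ω × closure D'`).

The two plugs `NatUpQC973`, `NatDnQC973` (mirror of `PB57.NatUpC57`, `PB57.NatDnC57`) are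
PROVED in the top file (from `H193.killing_of_torus193` for `K = F`, resp. from the tool of
type `t`).

FALSITY CHECKS (helper973).  (a) THE NORM.  `AS.HasAbelN Φ β'` is
`∫_ℂ Φ [[c₁, x], [0, c₂]] dx = |c₁| |c₂| β'(log |c₁|, log |c₂|)` (usual absolute value), and
`R.HasAbelNR F β` is `∫_ℝ F [[c₁, x], [0, c₂]] dx = √(c₁ c₂) β(log c₁, log c₂)`.  For the
translate `Φ(· ρ⁻¹)`, `ρ = e^{t'}`: `∫_ℂ Φ [[c₁/ρ, x/ρ], [0, c₂/ρ]] dx
= ρ² · ρ⁻² |c₁| |c₂| β'(log |c₁| - t', log |c₂| - t')`, so the `N`-integral is the symmetric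
bump `β'(· - (t', t'))`.  For `F(· σ⁻¹)`, `σ = e^s`: `σ · σ⁻¹ √(c₁ c₂)
(halfQ801 c β')(log c₁ - s, log c₂ - s) = √(c₁ c₂) c β'((log c₁ - s)/2, (log c₂ - s)/2)`, and
this is `halfQ801 c (β'(· - (t', t')))` if and only if `s = 2 t'`.  So the translates of a
triple in the Abel relation `c` by `a'(t')` upstairs and `a(2 t')` downstairs are in the Abel
relation `c`, and NO other norm works.  (b) `T5.IsRayGen`: `t₀^(2 [K : ℚ]) = 2`, so
`log t₀(ℚ) = 2 log t₀(F)`: the norm maps the period upstairs to the period downstairs.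
(c) The constants `c`, `a` are constants of the un-averaged pair; the torus mean is linear.
(d) The Haar measures `μr`, `μc` occur in `LocBQ801` only, in a clause on the finite
components; the torus mean does not change the finite components.  (e) `KillToolQC973 w1`:
the proof of `H193.kill193` uses the trivial type only through `IsTorusData.mean` (here: `ray`)
and the leaves named above (helper820, header of `ProjQGen.lean`).  (f) The parameter space of
`NatShapeQC973` is `Ω × closure D'` with the measure `ν ⊗ (vol D')⁻¹ vol|_{D'}`; the local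
condition holds for EVERY `t'` (not only for `t' ∈ D'`).
-/

set_option autoImplicit false

open AutomorphicForm IsDedekindDomain NumberField MeasureTheory
open scoped ComplexConjugate

noncomputable section

namespace Fermat.Agent.LT.T7.PBQ973

open Fermat.Agent.LT.H556 Fermat.Agent.LT.H556.A0 Fermat.Agent.LT.T7 Fermat.Agent.LT.T7.H305
  Fermat.Agent.LT.T7.L2Q Fermat.Agent.LT.T7.H893 Fermat.Agent.LT.T7.H962
  Fermat.Agent.LT.T7.H732 Fermat.Agent.LT.T7.MQ298 Fermat.Agent.LT.T7.CQ801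

attribute [local instance] Fermat.Agent.LT.T5.instMeasurableSpaceG

section Defs

variable {F : Type} [Field F] [NumberField F]

/-- **THE NORM of the quadratic step** on the parameters of the positive scalars at infinity:
`N t' = 2 t'` (`F` has ONE infinite place, a complex place over the real place of `ℚ`; the sum
over the infinite places of `F` has one term). -/
def normVec973 (t' : InfinitePlace F → ℝ) : InfinitePlace ℚ → ℝ :=
  fun _ => 2 * ∑ w : InfinitePlace F, t' w

/-- **COMPATIBLE TORUS DATA over `ℚ`** for the level `𝔫` of `ℚ` and the level `𝔫 𝒪_F` of `F`: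
torus data downstairs and upstairs such that the norm `N t' = 2 t'` maps `D'` onto `D` and the
normalised Lebesgue measure of `D'` to the normalised Lebesgue measure of `D`; downstairs the
mean over `D` of EVERY `r`-invariant function is translation invariant (`ray`). -/
structure IsRelTorusQ973 (𝔫 : Ideal (𝓞 ℚ)) (r : G ℚ) (r' : G F)
    (a : (InfinitePlace ℚ → ℝ) → G ℚ) (D : Set (InfinitePlace ℚ → ℝ))
    (a' : (InfinitePlace F → ℝ) → G F) (D' : Set (InfinitePlace F → ℝ)) : Prop where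
  down : H193.IsTorusData 𝔫 r a D
  ray : ∀ e : G ℚ → ℂ, (∀ g : G ℚ, e (g * r) = e g) →
    ∀ (g : G ℚ) (s : InfinitePlace ℚ → ℝ),
      ∫ t in D, e (g * a (t + s)) = ∫ t in D, e (g * a t)
  up : H193.IsTorusData (upI (K' := F) 𝔫) r' a' D'
  maps : ∀ t' ∈ D', normVec973 t' ∈ D
  onto : ∀ t ∈ D, ∃ t' ∈ D', normVec973 t' = t
  push : ∀ h : (InfinitePlace ℚ → ℝ) → ℂ, IntegrableOn h D volume →
    (((volume D').toReal : ℝ) : ℂ)⁻¹ * ∫ t' in D', h (normVec973 t')
      = (((volume D).toReal : ℝ) : ℂ)⁻¹ * ∫ t in D, h t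

/-- **THE PROPERTIES OF THE UN-AVERAGED SECOND PAIR over `ℚ`** `(φ°, f° w0, f° w1)` with the
scalar `c₂`, the constant `c` of the Abel relation and the constant `a`: the fields of
`CQ801.IsPairBQ801` except `up2_kill`, `dn2_kill`, with BI-invariance under `U(𝔑₀)`, resp.
`U(𝔫)`, and the Iwahori subgroups along the orbit, resp. at `u`. -/
structure IsPreBQ973 (Φ : HeckeEigensystem F ℂ) (B : L2QBase962 F) (g : G F)
    (𝔫 : Ideal (𝓞 ℚ))
    (μr : @Measure (GL (Fin 2) ℝ) (borel _)) (μc : @Measure (GL (Fin 2) ℂ) (borel _))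
    (c a : ℂ) (T₀ : Finset (HeightOneSpectrum (𝓞 ℚ)))
    (n n₀ : HeightOneSpectrum (𝓞 F) → ℕ) (m : HeightOneSpectrum (𝓞 ℚ) → ℕ)
    (c₂ : EigData F → ℂ) (φ₀ : G F → ℂ) (f₀ : QWt → G ℚ → ℂ) : Prop where
  up_test : T5.IsTestFn (upI (K' := F) 𝔫) T5.trivType φ₀
  up_ek : T5.IsEK B.R'.μ φ₀ ∧ T5.IsEK B.R'.μ (T5.adjointFn φ₀)
  up_inv : H193.IsBiHInv B.𝔑₀ 2 B.o φ₀
  up_op : ∀ (ψ : G F → ℂ) (C : EigData F), IsEigFn B.𝔑₀ B.R'.r 2 B.o ψ C →
    ∀ x : G F, T5.Rconv B.R'.μ φ₀ ψ x = c₂ C * ψ x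
  up_ne : ∀ C : EigData F, C.AgreeOut B.S' (eigOf Φ) → c₂ C ≠ 0
  dn_test : ∀ t : QWt, T5.IsTestFn 𝔫 t.type (f₀ t)
  dn_ek : ∀ t : QWt, T5.IsEK B.R.μ (f₀ t) ∧ T5.IsEK B.R.μ (T5.adjointFn (f₀ t))
  dn_inv : ∀ t : QWt, H193.IsBiHInv 𝔫 1 (fun _ => B.u) (f₀ t)
  dn_wfn : ∀ (t : QWt) (ψ : G ℚ → ℂ), IsWFnQ t 𝔫 B.R.r B.u ψ →
    IsWFnQ t 𝔫 B.R.r B.u (T5.Rconv B.R.μ (f₀ t) ψ)
  dn_class : ∀ (t : QWt) (ψ : G ℚ → ℂ) (c : EigData ℚ), IsEigFnQ t 𝔫 B.R.r B.u ψ c →
    IsEigFnQ t 𝔫 B.R.r B.u (T5.Rconv B.R.μ (f₀ t) ψ) c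
  dn_comm : ∀ (t : QWt) (ψ : G ℚ → ℂ), IsWFnQ t 𝔫 B.R.r B.u ψ →
    ∀ (H : Finset (G ℚ)) (z : G ℚ), IsIwCosetSystem B.u H → IsScalarUniformizerAt B.u z →
      (∀ x : G ℚ, T5.Rconv B.R.μ (f₀ t) (iwOp B.u H ψ) x
        = iwOp B.u H (T5.Rconv B.R.μ (f₀ t) ψ) x) ∧
      ∀ (k : ℤ) (x : G ℚ), T5.Rconv B.R.μ (f₀ t) (shiftOp z k ψ) x
        = shiftOp z k (T5.Rconv B.R.μ (f₀ t) ψ) x
  up_supp : ∃ C : Set (G F), IsCompact C ∧ T5.H32.IsIwSupported32 2 B.o C φ₀
  dn_supp : ∀ t : QWt,
    ∃ C : Set (G ℚ), IsCompact C ∧ T5.H32.IsIwSupported32 1 (fun _ => B.u) C (f₀ t)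
  /-- the local shape of record: averages of pure tensors with the local condition
  `LocBQ801 … c`, constant `a` -/
  shape : IsAvgPureQ801 (upI (K' := F) 𝔫) 𝔫 T₀ (LocBQ801 B g 𝔫 μr μc c T₀ n n₀ m) a
    φ₀ (f₀ QWt.w0) (f₀ QWt.w1)

/-- The fields `up2_*` of `CQ801.IsPairBQ801` (the part upstairs of the second pair). -/
structure IsPairBUpQ973 (Φ : HeckeEigensystem F ℂ) (B : L2QBase962 F) (𝔫 : Ideal (𝓞 ℚ))
    (c₂ : EigData F → ℂ) (φ₂ : G F → ℂ) : Prop where
  up2_test : T5.IsTestFn (upI (K' := F) 𝔫) T5.trivType φ₂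
  up2_ek : T5.IsEK B.R'.μ φ₂ ∧ T5.IsEK B.R'.μ (T5.adjointFn φ₂)
  up2_inv : IsUInv B.𝔑₀ 2 B.o φ₂
  up2_op : ∀ (ψ : G F → ℂ) (C : EigData F), IsEigFn B.𝔑₀ B.R'.r 2 B.o ψ C →
    ∀ x : G F, T5.Rconv B.R'.μ φ₂ ψ x = c₂ C * ψ x
  up2_kill : ∀ ψ : G F → ℂ, T5.IsCuspFn (upI (K' := F) 𝔫) T5.trivType B.R'.r ψ →
    (∀ χ : G F → ℂ, IsWFn B.𝔑₀ B.R'.r 2 B.o χ → T5.innerD B.R'.μ B.R'.F ψ χ = 0) →
    ∀ x : G F, T5.Rconv B.R'.μ φ₂ ψ x = 0
  up2_ne : ∀ C : EigData F, C.AgreeOut B.S' (eigOf Φ) → c₂ C ≠ 0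
  up2_supp : ∃ C : Set (G F), IsCompact C ∧ T5.H32.IsIwSupported32 2 B.o C φ₂

/-- The fields `dn2_*` of `CQ801.IsPairBQ801` for ONE type `t` (the part downstairs of the
second pair). -/
structure IsPairBDnQ973 (B : L2QBase962 F) (𝔫 : Ideal (𝓞 ℚ)) (t : QWt) (f₂ : G ℚ → ℂ) :
    Prop where
  dn2_test : T5.IsTestFn 𝔫 t.type f₂
  dn2_ek : T5.IsEK B.R.μ f₂ ∧ T5.IsEK B.R.μ (T5.adjointFn f₂)
  dn2_inv : IsUInv 𝔫 1 (fun _ => B.u) f₂
  dn2_wfn : ∀ ψ : G ℚ → ℂ, IsWFnQ t 𝔫 B.R.r B.u ψ →
    IsWFnQ t 𝔫 B.R.r B.u (T5.Rconv B.R.μ f₂ ψ)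
  dn2_class : ∀ (ψ : G ℚ → ℂ) (c : EigData ℚ), IsEigFnQ t 𝔫 B.R.r B.u ψ c →
    IsEigFnQ t 𝔫 B.R.r B.u (T5.Rconv B.R.μ f₂ ψ) c
  dn2_comm : ∀ ψ : G ℚ → ℂ, IsWFnQ t 𝔫 B.R.r B.u ψ →
    ∀ (H : Finset (G ℚ)) (z : G ℚ), IsIwCosetSystem B.u H → IsScalarUniformizerAt B.u z →
      (∀ x : G ℚ, T5.Rconv B.R.μ f₂ (iwOp B.u H ψ) x
        = iwOp B.u H (T5.Rconv B.R.μ f₂ ψ) x) ∧
      ∀ (k : ℤ) (x : G ℚ), T5.Rconv B.R.μ f₂ (shiftOp z k ψ) x
        = shiftOp z k (T5.Rconv B.R.μ f₂ ψ) x
  dn2_kill : ∀ ψ : G ℚ → ℂ, T5.IsCuspFn 𝔫 t.type B.R.r ψ →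
    (∀ χ : G ℚ → ℂ, IsWFnQ t 𝔫 B.R.r B.u χ → T5.innerD B.R.μ B.R.F ψ χ = 0) →
    ∀ x : G ℚ, T5.Rconv B.R.μ f₂ ψ x = 0
  dn2_supp : ∃ C : Set (G ℚ), IsCompact C ∧ T5.H32.IsIwSupported32 1 (fun _ => B.u) C f₂

end Defs

/-! ## The killing tool over `ℚ` for a type (no field `F`) -/

section Tool

/-- **LEAF PBQ.K = THE KILLING TOOL over `ℚ` FOR THE TYPE `t`** (`H193.killing_of_torus193` for
`K = ℚ`, `𝔑 = 𝔑₀ = 𝔫`, `l = 1`, orbit `(u)` and the `K_∞`-type `t.type`; the mean over `D` is
translation invariant for every `r`-invariant function).  For an Eisenstein-killing test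
function `f₀` OF TYPE `t` with Eisenstein-killing adjoint which is bi-invariant under `U(𝔫)` and
the Iwahori subgroup at `u`, the torus mean `nat193 a D f₀` has the same properties, the same
action on the continuous functions which are invariant under the positive scalars at infinity,
and KILLS the cusp functions of type `t` orthogonal to the invariant ones. -/
def KillToolQC973 (t : QWt) : Prop :=
  ∀ R : Frame5 ℚ, IsFrame5 R → ∀ 𝔫 : Ideal (𝓞 ℚ), 𝔫 ≠ ⊥ → ∀ u : HeightOneSpectrum (𝓞 ℚ),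
    ∀ (a : (InfinitePlace ℚ → ℝ) → G ℚ) (D : Set (InfinitePlace ℚ → ℝ)),
      H193.IsTorusData 𝔫 R.r a D →
      (∀ e : G ℚ → ℂ, (∀ g : G ℚ, e (g * R.r) = e g) →
        ∀ (g : G ℚ) (s : InfinitePlace ℚ → ℝ),
          ∫ x in D, e (g * a (x + s)) = ∫ x in D, e (g * a x)) →
    ∀ f₀ : G ℚ → ℂ, T5.IsTestFn 𝔫 t.type f₀ → T5.IsEK R.μ f₀ →
      T5.IsEK R.μ (T5.adjointFn f₀) → H193.IsBiHInv 𝔫 1 (fun _ => u) f₀ →
      T5.IsTestFn 𝔫 t.type (H193.nat193 a D f₀) ∧ T5.IsEK R.μ (H193.nat193 a D f₀) ∧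
        T5.IsEK R.μ (T5.adjointFn (H193.nat193 a D f₀)) ∧
        H193.IsBiHInv 𝔫 1 (fun _ => u) (H193.nat193 a D f₀) ∧
        (∀ e : G ℚ → ℂ, Continuous e →
          (∀ (w : InfinitePlace ℚ) (z : G ℚ), IsArchPosScalar w z →
            ∀ g : G ℚ, e (g * z) = e g) →
          ∀ x : G ℚ, T5.Rconv R.μ (H193.nat193 a D f₀) e x = T5.Rconv R.μ f₀ e x) ∧
        ∀ ψ : G ℚ → ℂ, T5.IsCuspFn 𝔫 t.type R.r ψ →
          (∀ χ : G ℚ → ℂ, IsWFnQ t 𝔫 R.r u χ → T5.innerD R.μ R.F ψ χ = 0) →
          ∀ x : G ℚ, T5.Rconv R.μ (H193.nat193 a D f₀) ψ x = 0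

end Tool

/-! ## The nodes and the leaves of the first cut -/

section Nodes

variable (P : EKCond)
variable (F : Type) [Field F] [NumberField F]

/-- **LEAF PBQ.R = REL-TORUS over `ℚ` ([M]).**  `F` imaginary quadratic, `𝔫 ≠ 0`: compatible
torus data exist for all ray generators.
Proof.  `a`, `a'` from `H193.PosScalC` (`H195.posScalC195`); `r = a (fun _ => c)`,
`c = log t₀`, `t₀² = 2`; `r' = a' (fun _ => c')`, `c' = log t₀'`, `t₀'⁴ = 2`, so `c = 2 c'`
(`Module.finrank ℚ F = 2`); `InfinitePlace ℚ`, `InfinitePlace F` are subsingletons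
(`IsImagQuad`: one complex place); `D`, `D'` = the fundamental parallelepipeds of the bases
`(fun _ => c)`, `(fun _ => c')` (`ZSpan.fundamentalDomain`; as
`H820.torusData_of_subsingleton820`, with the explicit sets: `H193.TorusParC`, closed);
`maps`, `onto`, `push`: in the coordinate of the single place `D' = [0, c')`, `D = [0, 2 c')`
and `N` is the multiplication by `2` (`H193.PushParC` with `J` empty, or directly:
`∫_{[0, 2c')} h = 2 ∫_{[0, c')} h(2 ·)`). -/
def RelTorusQC973 : Prop :=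
  IsImagQuad F → ∀ 𝔫 : Ideal (𝓞 ℚ), 𝔫 ≠ ⊥ →
    ∀ (r : G ℚ) (r' : G F), T5.IsRayGen r → T5.IsRayGen r' →
    ∃ (a : (InfinitePlace ℚ → ℝ) → G ℚ) (D : Set (InfinitePlace ℚ → ℝ))
      (a' : (InfinitePlace F → ℝ) → G F) (D' : Set (InfinitePlace F → ℝ)),
      IsRelTorusQ973 𝔫 r r' a D a' D'

/-- **NODE PBQ.0 = PRE-B over `ℚ` (the UN-AVERAGED second pair; T3.18M + T3.18R explicit forms
+ T6).**  For a common part of helper60 with `3 ∈ S` and a bad element `g` there is a LEVEL `𝔫`
such that for all Haar measures, the exponents of the level and ALL constants `c ≠ 0`, `a ≠ 0`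
there are a scalar `c₂` and a pair `(φ°, f°)` with `IsPreBQ973`.
Construction.  As `PB57.PreBC57` with `ℓ = 2` (see there and the doc-string of
`CQ801.PairBQC801`): `𝔫 = 𝔫₀ ^ d`, `d` so large that the partners of the double coset
functions at the bad places `v ≠ u` are bi-invariant under `U(𝔫)_v`.  Upstairs: the
Eisenstein-killing function of station T3.18M over `F` in the explicit form (finite sum of pure
tensors with unit components `1_{U₀}` at the bad places, spherical outside, bi-`U(2)`-invariant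
at infinity with `N`-integral a symmetric bump `β'`), summed over the right translates by
`I_o / U(𝔑₀)_o` along the orbit.  Downstairs, for the two types: `a ·` the pure tensors of
station T3.18R (`T3.R.ekOpExistR_c`) with THE SAME finite components for the two types (the
partners at the bad places, the Iwahori function at `u`, the matched spherical components
outside the level) and the component of weight `0`, resp. `-1`, at infinity with `N`-integral
`halfQ801 c β'` (`T3.R.AbelRealC`).  NO killing property. -/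
def PreBQC973 : Prop :=
  HasSqrtNegThree F → IsImagQuad F →
    ∀ Φ : HeckeEigensystem F ℂ, A0.IsCuspAdelicSph0 F Φ → ConstOnFibresQ Φ → P F Φ →
      ∀ B : L2Q.H60.L2QBase F, L2Q.H60.IsL2QBase Φ B → L2Q.H60.IsRamQ60 B →
      ∀ g : G F, B.IsBad g →
      ∃ 𝔫 : Ideal (𝓞 ℚ), CQ57.IsLevQ57 (toBase962_732 B) 𝔫 ∧
        ∀ (μr : @Measure (GL (Fin 2) ℝ) (borel _)) (μc : @Measure (GL (Fin 2) ℂ) (borel _)),
          @Measure.IsHaarMeasure _ _ _ (borel _) μr →
          @Measure.IsHaarMeasure _ _ _ (borel _) μc →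
        ∀ (T₀ : Finset (HeightOneSpectrum (𝓞 ℚ)))
          (n n₀ : HeightOneSpectrum (𝓞 F) → ℕ) (m : HeightOneSpectrum (𝓞 ℚ) → ℕ),
          CQ57.IsLevFnQ57 (toBase962_732 B) 𝔫 T₀ n n₀ m →
          ∀ c a : ℂ, c ≠ 0 → a ≠ 0 →
            ∃ (c₂ : EigData F → ℂ) (φ₀ : G F → ℂ) (f₀ : QWt → G ℚ → ℂ),
              IsPreBQ973 Φ (toBase962_732 B) g 𝔫 μr μc c a T₀ n n₀ m c₂ φ₀ f₀

/-- **PLUG PBQ.1 = NAT-UP over `ℚ`** (PROVED in the top file: plug of
`H193.killing_of_torus193` for `K = F`).  The torus mean upstairs of the un-averaged pair has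
the properties `up2_*` of the second pair. -/
def NatUpQC973 : Prop :=
  ∀ (Φ : HeckeEigensystem F ℂ) (B : L2QBase962 F), IsL2QBase962 Φ B →
    ∀ (g : G F) (𝔫 : Ideal (𝓞 ℚ)), CQ57.IsLevQ57 B 𝔫 →
    ∀ (μr : @Measure (GL (Fin 2) ℝ) (borel _)) (μc : @Measure (GL (Fin 2) ℂ) (borel _))
      (c a : ℂ) (T₀ : Finset (HeightOneSpectrum (𝓞 ℚ)))
      (n n₀ : HeightOneSpectrum (𝓞 F) → ℕ) (m : HeightOneSpectrum (𝓞 ℚ) → ℕ)
      (c₂ : EigData F → ℂ) (φ₀ : G F → ℂ) (f₀ : QWt → G ℚ → ℂ),
      IsPreBQ973 Φ B g 𝔫 μr μc c a T₀ n n₀ m c₂ φ₀ f₀ →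
    ∀ (aT : (InfinitePlace ℚ → ℝ) → G ℚ) (D : Set (InfinitePlace ℚ → ℝ))
      (aT' : (InfinitePlace F → ℝ) → G F) (D' : Set (InfinitePlace F → ℝ)),
      IsRelTorusQ973 𝔫 B.R.r B.R'.r aT D aT' D' →
      IsPairBUpQ973 Φ B 𝔫 c₂ (H193.nat193 aT' D' φ₀)

/-- **PLUG PBQ.2 = NAT-DOWN over `ℚ`** (PROVED in the top file from the killing tool of the two
types).  The torus means downstairs of the un-averaged pair have the properties `dn2_*` of the
second pair. -/
def NatDnQC973 : Prop :=
  ∀ (Φ : HeckeEigensystem F ℂ) (B : L2QBase962 F), IsL2QBase962 Φ B →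
    ∀ (g : G F) (𝔫 : Ideal (𝓞 ℚ)), CQ57.IsLevQ57 B 𝔫 →
    ∀ (μr : @Measure (GL (Fin 2) ℝ) (borel _)) (μc : @Measure (GL (Fin 2) ℂ) (borel _))
      (c a : ℂ) (T₀ : Finset (HeightOneSpectrum (𝓞 ℚ)))
      (n n₀ : HeightOneSpectrum (𝓞 F) → ℕ) (m : HeightOneSpectrum (𝓞 ℚ) → ℕ)
      (c₂ : EigData F → ℂ) (φ₀ : G F → ℂ) (f₀ : QWt → G ℚ → ℂ),
      IsPreBQ973 Φ B g 𝔫 μr μc c a T₀ n n₀ m c₂ φ₀ f₀ →
    ∀ (aT : (InfinitePlace ℚ → ℝ) → G ℚ) (D : Set (InfinitePlace ℚ → ℝ))
      (aT' : (InfinitePlace F → ℝ) → G F) (D' : Set (InfinitePlace F → ℝ)),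
      IsRelTorusQ973 𝔫 B.R.r B.R'.r aT D aT' D' →
      ∀ t : QWt, IsPairBDnQ973 B 𝔫 t (H193.nat193 aT D (f₀ t))

/-- **LEAF PBQ.3 = NAT-SHAPE over `ℚ` ([L]; Fubini + the push-forward).**  The torus means of
the un-averaged pair are an average of pure tensors with the local condition `LocBQ801`,
constant `a`.
Proof.  Parameter space `Ω × closure D'` (compact, Hausdorff, second countable), measure
`ν ⊗ (vol D')⁻¹ vol|_{D'}`.  The translate of `pure305 T' φ₀ Φ` by `a'(t')⁻¹` is the pure tensor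
with the archimedean component `Φ w (· e^{-t' w})`; the translate of `pureQ298 T f₀ F0` by
`a(N t')⁻¹` is the pure tensor with the archimedean component `F0(· e^{-2 t'})`; the finite
components do not change, the translated archimedean components are in the Abel relation `c`
(falsity check (a) of the header: `β'(· - (t', t'))` is a symmetric bump), test functions and
supports: right translation by a central element at infinity.  Upstairs Fubini on
`Ω × D'`; downstairs `IsRelTorusQ973.push` (`nat193 a D f = (vol D')⁻¹ ∫_{D'} f(· a(N t')⁻¹)`,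
as `H193.nat_eq_push193`) and Fubini. -/
def NatShapeQC973 : Prop :=
  IsImagQuad F →
  ∀ (Φ : HeckeEigensystem F ℂ) (B : L2QBase962 F), IsL2QBase962 Φ B →
    ∀ (g : G F) (𝔫 : Ideal (𝓞 ℚ)), CQ57.IsLevQ57 B 𝔫 →
    ∀ (μr : @Measure (GL (Fin 2) ℝ) (borel _)) (μc : @Measure (GL (Fin 2) ℂ) (borel _)),
      @Measure.IsHaarMeasure _ _ _ (borel _) μr →
      @Measure.IsHaarMeasure _ _ _ (borel _) μc →
    ∀ (T₀ : Finset (HeightOneSpectrum (𝓞 ℚ)))
      (n n₀ : HeightOneSpectrum (𝓞 F) → ℕ) (m : HeightOneSpectrum (𝓞 ℚ) → ℕ),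
      CQ57.IsLevFnQ57 B 𝔫 T₀ n n₀ m →
    ∀ c a : ℂ, c ≠ 0 → a ≠ 0 →
    ∀ (c₂ : EigData F → ℂ) (φ₀ : G F → ℂ) (f₀ : QWt → G ℚ → ℂ),
      IsPreBQ973 Φ B g 𝔫 μr μc c a T₀ n n₀ m c₂ φ₀ f₀ →
    ∀ (aT : (InfinitePlace ℚ → ℝ) → G ℚ) (D : Set (InfinitePlace ℚ → ℝ))
      (aT' : (InfinitePlace F → ℝ) → G F) (D' : Set (InfinitePlace F → ℝ)),
      IsRelTorusQ973 𝔫 B.R.r B.R'.r aT D aT' D' →
      IsAvgPureQ801 (upI (K' := F) 𝔫) 𝔫 T₀ (LocBQ801 B g 𝔫 μr μc c T₀ n n₀ m) a
        (H193.nat193 aT' D' φ₀) (H193.nat193 aT D (f₀ QWt.w0)) (H193.nat193 aT D (f₀ QWt.w1))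

end Nodes

/-! ## Appendix: the equation lemmas of the definitions of this file are realised HERE -/

theorem eqns_realised_pairBQSpec973 : True := by
  have _h0_0 := @normVec973.eq_1
  have _h0_1 := @normVec973.eq_def
  have _h0_2 := @normVec973.eq_unfold
  have _h1_0 := @KillToolQC973.eq_1
  have _h1_1 := @KillToolQC973.eq_def
  have _h1_2 := @KillToolQC973.eq_unfold
  have _h2_0 := @RelTorusQC973.eq_1
  have _h2_1 := @RelTorusQC973.eq_def
  have _h2_2 := @RelTorusQC973.eq_unfold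
  have _h3_0 := @PreBQC973.eq_1
  have _h3_1 := @PreBQC973.eq_def
  have _h3_2 := @PreBQC973.eq_unfold
  have _h4_0 := @NatUpQC973.eq_1
  have _h4_1 := @NatUpQC973.eq_def
  have _h4_2 := @NatUpQC973.eq_unfold
  have _h5_0 := @NatDnQC973.eq_1
  have _h5_1 := @NatDnQC973.eq_def
  have _h5_2 := @NatDnQC973.eq_unfold
  have _h6_0 := @NatShapeQC973.eq_1
  have _h6_1 := @NatShapeQC973.eq_def
  have _h6_2 := @NatShapeQC973.eq_unfold
  trivial

end Fermat.Agent.LT.T7.PBQ973

end

end
-- ===== PACK-END LT/T7/H973/PairBQSpec.lean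

-- ===== PACK-BEGIN LT/T7/H219/LsumDbl.lean
section






/-!
# Row LT, tower T7, calculus of pure tensors, leaf PT.5 `LsumDblC563` (helper219, OFF-MAIN)

`lsumDblC219 (K) : PT563.LsumDblC563 K`, VERBATIM against `LT/T7/H563/PTSpec.lean` (helper563,
sha256 c4658ddd).  UNCONDITIONAL, every number field.

Proof.  For `h = u₁ g u₂` in the system: `h` is trivial at infinity, `h_v ∈ U_v` outside `S₀`.
So `OutT305 T (h⁻¹ y) ↔ OutT305 T y`, the components at infinity and at `T ∖ S₀` of the translate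
are those of `y`, and the component at `v ∈ S₀` is `1_{h_v U_v}(y_v)`.  The number of `h` in
the system with `y_v ∈ h_v U_v` for all `v ∈ S₀` is `1` if `y_v ∈ U_v g_v U_v` for all
`v ∈ S₀` (existence: glue the left factors and use the completeness of the system; uniqueness:
the members are pairwise inequivalent) and `0` otherwise.
-/

set_option autoImplicit false
set_option linter.style.haveILetI false
set_option linter.unusedSectionVars false
set_option linter.unusedVariables false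

open IsDedekindDomain NumberField MeasureTheory

noncomputable section

namespace Fermat.Agent.LT.T7.H219

open Fermat.Agent.LT.H556 Fermat.Agent.LT.H556.A0 Fermat.Agent.LT Fermat.Agent.LT.T7
open Fermat.Agent.LT.T7.H305 Fermat.Agent.LT.T7.H893 Fermat.Agent.LT.T7.H317
open Fermat.Agent.LT.T7.H981

variable {K : Type} [Field K] [NumberField K]

/-! ## 1. Unfolding by definitional equality -/

open Classical in
theorem pure305_eq219l (T : Finset (HeightOneSpectrum (𝓞 K)))
    (f₀ : ∀ v : HeightOneSpectrum (𝓞 K), GL (Fin 2) (v.adicCompletion K) → ℂ)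
    (F : InfinitePlace K → GL (Fin 2) ℂ → ℂ) (x : G K) :
    pure305 T f₀ F x = if OutT305 T x then
      (∏ v ∈ T, f₀ v (finGL305 v x)) * ∏ w : InfinitePlace K, F w (infGL305 w x) else 0 := rfl

open Classical in
theorem unitFn_eq219l {k : Type} [Field k] [Valued k T6.Γ₀] (n : ℕ) (x : GL (Fin 2) k) :
    unitFn893 n x = if T6.InU n x then 1 else 0 := rfl

open Classical in
theorem dblFn_eq219l {k : Type} [Field k] [Valued k T6.Γ₀] (n : ℕ) (y x : GL (Fin 2) k) :
    dblFn893 n y x
      = if ∃ u₁ u₂ : GL (Fin 2) k, T6.InU n u₁ ∧ T6.InU n u₂ ∧ x = u₁ * y * u₂ then 1 else 0 :=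
  rfl

theorem lsum_eq219l (H : Finset (G K)) (φ : G K → ℂ) (y : G K) :
    lsum H φ y = ∑ h ∈ H, φ (h⁻¹ * y) := rfl

/-! ## 2. Components -/

theorem trivAtInf_one219l (w : InfinitePlace K) : TrivAtInf w (1 : G K) := by
  rw [trivAtInf_iff981]
  show (1 : Matrix (Fin 2) (Fin 2) (Adl K)).map (infW981 w) = 1
  rw [Matrix.map_one _ (map_zero _) (map_one _)]

theorem trivAtInf_inv219l (w : InfinitePlace K) {g : G K} (hg : TrivAtInf w g) :
    TrivAtInf w g⁻¹ := by
  have := trivAtInf_inv_mul981 w hg (trivAtInf_one219l w)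
  rwa [mul_one] at this

theorem trivAtInf_mul219l (w : InfinitePlace K) {g h : G K} (hg : TrivAtInf w g)
    (hh : TrivAtInf w h) : TrivAtInf w (g * h) := by
  have := trivAtInf_inv_mul981 w (trivAtInf_inv219l w hg) hh
  rwa [inv_inv] at this

theorem infGL_of_triv219l (w : InfinitePlace K) {h : G K} (hh : TrivAtInf w h) :
    infGL305 w h = 1 := by
  apply Units.ext
  refine Matrix.ext fun i j => ?_
  show InfinitePlace.Completion.extensionEmbedding w
      (((h : Matrix (Fin 2) (Fin 2) (Adl K)) i j).1 w) = (1 : Matrix (Fin 2) (Fin 2) ℂ) i j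
  rw [hh i j]
  by_cases hij : i = j
  · rw [hij, Matrix.one_apply_eq, Matrix.one_apply_eq, map_one]
  · rw [Matrix.one_apply_ne hij, Matrix.one_apply_ne hij, map_zero]

theorem finGL_of_triv219l (v : HeightOneSpectrum (𝓞 K)) {g : G K} (hg : TrivAtFin v g) :
    finGL305 v g = 1 := by
  apply Units.ext
  exact hg

theorem inU_one219l {k : Type} [Field k] [Valued k T6.Γ₀] (n : ℕ) :
    T6.InU n (1 : GL (Fin 2) k) := by
  intro i j
  constructor
  · rw [Units.val_one, sub_self, map_zero]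
    exact zero_le
  · rw [inv_one, Units.val_one, sub_self, map_zero]
    exact zero_le

theorem valued_one_entry219l {k : Type} [Field k] [Valued k T6.Γ₀] (i j : Fin 2) :
    Valued.v ((1 : Matrix (Fin 2) (Fin 2) k) i j) ≤ 1 := by
  by_cases hij : i = j
  · rw [hij, Matrix.one_apply_eq, map_one]
  · rw [Matrix.one_apply_ne hij, map_zero]
    exact zero_le_one

theorem integral_of_inU219l {k : Type} [Field k] [Valued k T6.Γ₀] {n : ℕ} {x : GL (Fin 2) k}
    (hx : T6.InU n x) (i j : Fin 2) :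
    Valued.v ((x : Matrix (Fin 2) (Fin 2) k) i j) ≤ 1 ∧
      Valued.v (((x⁻¹ : GL (Fin 2) k) : Matrix (Fin 2) (Fin 2) k) i j) ≤ 1 := by
  have hle : WithZero.exp (-(n : ℤ)) ≤ (1 : WithZero (Multiplicative ℤ)) := by
    rw [← WithZero.exp_zero, WithZero.exp_le_exp]
    exact neg_nonpos.2 (Int.natCast_nonneg n)
  have key : ∀ a d : k, Valued.v (a - d) ≤ WithZero.exp (-(n : ℤ)) → Valued.v d ≤ 1 →
      Valued.v a ≤ 1 := by
    intro a d h1 h2
    have e : a = (a - d) + d := (sub_add_cancel a d).symm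
    rw [e]
    exact (Valued.v.map_add _ _).trans (max_le (h1.trans hle) h2)
  exact ⟨key _ _ (hx i j).1 (valued_one_entry219l i j),
    key _ _ (hx i j).2 (valued_one_entry219l i j)⟩

theorem outT_of_inU219l (T : Finset (HeightOneSpectrum (𝓞 K))) (n₀ : HeightOneSpectrum (𝓞 K) → ℕ)
    {h : G K} (hh : ∀ v : HeightOneSpectrum (𝓞 K), v ∉ T → T6.InU (n₀ v) (finGL305 v h)) :
    OutT305 T h := by
  intro v hv
  refine ⟨fun i j => ?_, fun i j => ?_⟩
  · exact (HeightOneSpectrum.mem_adicCompletionIntegers _ _ _).2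
      (integral_of_inU219l (hh v hv) i j).1
  · have h2 := (integral_of_inU219l (hh v hv) i j).2
    rw [← map_inv] at h2
    exact (HeightOneSpectrum.mem_adicCompletionIntegers _ _ _).2 h2

/-- The level group, place by place. -/
theorem inLevel_iff219l {𝔑₀ : Ideal (𝓞 K)} {n₀ : HeightOneSpectrum (𝓞 K) → ℕ}
    (hlev : IsLevelOf893 𝔑₀ n₀) (u : G K) :
    InLevelGroup 𝔑₀ u ↔ (∀ w : InfinitePlace K, TrivAtInf w u) ∧
      ∀ v : HeightOneSpectrum (𝓞 K), T6.InU (n₀ v) (finGL305 v u) := by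
  constructor
  · rintro ⟨h1, h2⟩
    refine ⟨h1, fun v i j => ⟨?_, ?_⟩⟩
    · exact (hlev v _).1 (h2 v i j).1
    · rw [← map_inv]
      exact (hlev v _).1 (h2 v i j).2
  · rintro ⟨h1, h2⟩
    refine ⟨h1, fun v i j => ⟨(hlev v _).2 (h2 v i j).1, (hlev v _).2 ?_⟩⟩
    have h3 := (h2 v i j).2
    rw [← map_inv] at h3
    exact h3

/-! ## 3. The members of the system -/

theorem member219l {𝔑₀ : Ideal (𝓞 K)} {n₀ : HeightOneSpectrum (𝓞 K) → ℕ}
    (hlev : IsLevelOf893 𝔑₀ n₀) {g : G K} {S₀ : Finset (HeightOneSpectrum (𝓞 K))}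
    (hgI : ∀ w : InfinitePlace K, TrivAtInf w g)
    (hgF : ∀ v : HeightOneSpectrum (𝓞 K), v ∉ S₀ → TrivAtFin v g)
    {h u₁ u₂ : G K} (h1 : InLevelGroup 𝔑₀ u₁) (h2 : InLevelGroup 𝔑₀ u₂) (e : h = u₁ * g * u₂) :
    (∀ w : InfinitePlace K, TrivAtInf w h) ∧
      (∀ v : HeightOneSpectrum (𝓞 K), v ∉ S₀ → T6.InU (n₀ v) (finGL305 v h)) ∧
      ∀ v : HeightOneSpectrum (𝓞 K), T6.InU (n₀ v) (finGL305 v u₁) ∧
        T6.InU (n₀ v) (finGL305 v u₂) ∧
        finGL305 v h = finGL305 v u₁ * finGL305 v g * finGL305 v u₂ := by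
  have k1 := (inLevel_iff219l hlev u₁).1 h1
  have k2 := (inLevel_iff219l hlev u₂).1 h2
  have e3 : ∀ v : HeightOneSpectrum (𝓞 K),
      finGL305 v h = finGL305 v u₁ * finGL305 v g * finGL305 v u₂ := by
    intro v
    rw [e, map_mul, map_mul]
  refine ⟨fun w => ?_, fun v hv => ?_, fun v => ⟨k1.2 v, k2.2 v, e3 v⟩⟩
  · rw [e]
    exact trivAtInf_mul219l w (trivAtInf_mul219l w (k1.1 w) (hgI w)) (k2.1 w)
  · rw [e3 v, finGL_of_triv219l v (hgF v hv), mul_one]
    exact T6.H944.inU_mul944 _ _ _ (k1.2 v) (k2.2 v)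

/-! ## 4. A pure tensor with an indicator at the places of `S₀` -/

open Classical in
theorem pure_indicator219l (T S₀ : Finset (HeightOneSpectrum (𝓞 K))) (hST : S₀ ⊆ T)
    (f₀ f₁ : ∀ v : HeightOneSpectrum (𝓞 K), GL (Fin 2) (v.adicCompletion K) → ℂ)
    (F : InfinitePlace K → GL (Fin 2) ℂ → ℂ) (y y' : G K) (P : Prop) [Decidable P]
    (hOut : OutT305 T y' ↔ OutT305 T y)
    (hF : ∀ w : InfinitePlace K, infGL305 w y' = infGL305 w y)
    (hT : ∀ v ∈ T, v ∉ S₀ → f₁ v (finGL305 v y') = f₀ v (finGL305 v y))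
    (hS1 : P → ∀ v ∈ S₀, f₁ v (finGL305 v y') = 1)
    (hS0 : ¬ P → ∃ v ∈ S₀, f₁ v (finGL305 v y') = 0) :
    pure305 T f₁ F y' = (if P then (1 : ℂ) else 0) *
      pure305 T (fun v => if v ∈ S₀ then (fun _ => (1 : ℂ)) else f₀ v) F y := by
  rw [pure305_eq219l, pure305_eq219l]
  by_cases hy : OutT305 T y
  · rw [if_pos hy, if_pos (hOut.2 hy)]
    have hInf : ∏ w : InfinitePlace K, F w (infGL305 w y')
        = ∏ w : InfinitePlace K, F w (infGL305 w y) :=
      Finset.prod_congr rfl (fun w _ => by rw [hF w])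
    rw [hInf]
    by_cases hP : P
    · rw [if_pos hP, one_mul]
      congr 1
      refine Finset.prod_congr rfl (fun v hv => ?_)
      by_cases hvS : v ∈ S₀
      · rw [hS1 hP v hvS, if_pos hvS]
      · rw [hT v hv hvS, if_neg hvS]
    · rw [if_neg hP, zero_mul]
      obtain ⟨v, hvS, hv0⟩ := hS0 hP
      rw [Finset.prod_eq_zero (hST hvS) hv0, zero_mul]
  · rw [if_neg hy, if_neg (fun h => hy (hOut.1 h)), mul_zero]

/-! ## 5. The leaf -/

/-- **LEAF PT.5 `LsumDblC563`**, every number field, unconditional. -/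
theorem lsumDblC219 (K : Type) [Field K] [NumberField K] : PT563.LsumDblC563 K := by
  intro 𝔑₀ n₀ hN hlev g S₀ hgI hgF Hg hHg T hST f₀ F hS₀ hTS y
  classical
  -- the members
  have hmem : ∀ h ∈ Hg, (∀ w : InfinitePlace K, TrivAtInf w h) ∧
      (∀ v : HeightOneSpectrum (𝓞 K), v ∉ S₀ → T6.InU (n₀ v) (finGL305 v h)) ∧
      ∀ v : HeightOneSpectrum (𝓞 K), ∃ a b : GL (Fin 2) (v.adicCompletion K),
        T6.InU (n₀ v) a ∧ T6.InU (n₀ v) b ∧ finGL305 v h = a * finGL305 v g * b := by
    intro h hh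
    obtain ⟨u₁, u₂, h1, h2, e⟩ := hHg.1 h hh
    obtain ⟨m1, m2, m3⟩ := member219l hlev hgI hgF h1 h2 e
    exact ⟨m1, m2, fun v => ⟨_, _, (m3 v).1, (m3 v).2.1, (m3 v).2.2⟩⟩
  -- the two conditions
  let M : G K → Prop := fun h =>
    ∀ v ∈ S₀, T6.InU (n₀ v) ((finGL305 v h)⁻¹ * finGL305 v y)
  let D : Prop := ∀ v ∈ S₀, ∃ u₁ u₂ : GL (Fin 2) (v.adicCompletion K),
    T6.InU (n₀ v) u₁ ∧ T6.InU (n₀ v) u₂ ∧ finGL305 v y = u₁ * finGL305 v g * u₂
  -- the translates
  have hval : ∀ h ∈ Hg, pure305 T f₀ F (h⁻¹ * y) = (if M h then (1 : ℂ) else 0) *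
      pure305 T (fun v => if v ∈ S₀ then (fun _ => (1 : ℂ)) else f₀ v) F y := by
    intro h hh
    obtain ⟨m1, m2, m3⟩ := hmem h hh
    have hOh : h ∈ outSub_r317 T :=
      outT_of_inU219l T n₀ (fun v hv => m2 v (fun hvS => hv (hST hvS)))
    refine pure_indicator219l T S₀ hST f₀ f₀ F y (h⁻¹ * y) (M h) ?_ ?_ ?_ ?_ ?_
    · exact (outSub_r317 T).mul_mem_cancel_left ((outSub_r317 T).inv_mem hOh)
    · intro w
      rw [map_mul, map_inv, infGL_of_triv219l w (m1 w), inv_one, one_mul]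
    · intro v hv hvS
      rw [map_mul, map_inv]
      exact hTS v hv hvS _ _ (T6.H944.inU_inv944 _ _ (m2 v hvS))
    · intro hM v hvS
      rw [hS₀ v hvS, unitFn_eq219l, map_mul, map_inv, if_pos (hM v hvS)]
    · intro hM
      have hM' : ∃ v ∈ S₀, ¬ T6.InU (n₀ v) ((finGL305 v h)⁻¹ * finGL305 v y) := by
        by_contra hcon
        apply hM
        intro v hvS
        by_contra hv2
        exact hcon ⟨v, hvS, hv2⟩
      obtain ⟨v, hvS, hv2⟩ := hM'
      refine ⟨v, hvS, ?_⟩
      rw [hS₀ v hvS, unitFn_eq219l, map_mul, map_inv, if_neg hv2]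
  -- the right-hand side
  have hrhs : pure305 T (fun v => if v ∈ S₀ then dblFn893 (n₀ v) (finGL305 v g) else f₀ v) F y
      = (if D then (1 : ℂ) else 0) *
        pure305 T (fun v => if v ∈ S₀ then (fun _ => (1 : ℂ)) else f₀ v) F y := by
    refine pure_indicator219l T S₀ hST f₀ _ F y y D Iff.rfl (fun _ => rfl) ?_ ?_ ?_
    · intro v hv hvS
      rw [if_neg hvS]
    · intro hD v hvS
      rw [if_pos hvS, dblFn_eq219l, if_pos (hD v hvS)]
    · intro hD
      have hD' : ∃ v ∈ S₀, ¬ ∃ u₁ u₂ : GL (Fin 2) (v.adicCompletion K),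
          T6.InU (n₀ v) u₁ ∧ T6.InU (n₀ v) u₂ ∧ finGL305 v y = u₁ * finGL305 v g * u₂ := by
        by_contra hcon
        apply hD
        intro v hvS
        by_contra hv2
        exact hcon ⟨v, hvS, hv2⟩
      obtain ⟨v, hvS, hv2⟩ := hD'
      refine ⟨v, hvS, ?_⟩
      rw [if_pos hvS, dblFn_eq219l, if_neg hv2]
  -- `M h` gives `D`
  have hMD : ∀ h ∈ Hg, M h → D := by
    intro h hh hM v hvS
    obtain ⟨a, b, ha, hb, e⟩ := (hmem h hh).2.2 v
    refine ⟨a, b * ((finGL305 v h)⁻¹ * finGL305 v y), ha,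
      T6.H944.inU_mul944 _ _ _ hb (hM v hvS), ?_⟩
    have e2 : a * finGL305 v g * (b * ((finGL305 v h)⁻¹ * finGL305 v y))
        = (a * finGL305 v g * b) * ((finGL305 v h)⁻¹ * finGL305 v y) := by
      simp only [mul_assoc]
    rw [e2, ← e, mul_inv_cancel_left]
  -- uniqueness
  have huniq : ∀ h ∈ Hg, ∀ h' ∈ Hg, M h → M h' → h = h' := by
    intro h hh h' hh' hM hM'
    by_contra hne
    apply hHg.2.1 h hh h' hh' hne
    rw [inLevel_iff219l hlev]
    refine ⟨fun w => trivAtInf_inv_mul981 w ((hmem h hh).1 w) ((hmem h' hh').1 w), fun v => ?_⟩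
    rw [map_mul, map_inv]
    by_cases hvS : v ∈ S₀
    · have e2 : (finGL305 v h)⁻¹ * finGL305 v h'
          = ((finGL305 v h)⁻¹ * finGL305 v y) * ((finGL305 v h')⁻¹ * finGL305 v y)⁻¹ := by
        group
      rw [e2]
      exact T6.H944.inU_mul944 _ _ _ (hM v hvS) (T6.H944.inU_inv944 _ _ (hM' v hvS))
    · exact T6.H944.inU_mul944 _ _ _ (T6.H944.inU_inv944 _ _ ((hmem h hh).2.1 v hvS))
        ((hmem h' hh').2.1 v hvS)
  -- existence
  have hex : D → ∃ h ∈ Hg, M h := by
    intro hD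
    have hD' : ∀ v : HeightOneSpectrum (𝓞 K), ∃ a : GL (Fin 2) (v.adicCompletion K),
        (v ∉ S₀ → a = 1) ∧ T6.InU (n₀ v) a ∧
        (v ∈ S₀ → ∃ b : GL (Fin 2) (v.adicCompletion K), T6.InU (n₀ v) b ∧
          finGL305 v y = a * finGL305 v g * b) := by
      intro v
      by_cases hvS : v ∈ S₀
      · obtain ⟨a, b, ha, hb, e⟩ := hD v hvS
        exact ⟨a, fun hn => absurd hvS hn, ha, fun _ => ⟨b, hb, e⟩⟩
      · exact ⟨1, fun _ => rfl, inU_one219l _, fun hn => absurd hn hvS⟩
    choose A hA1 hA2 hA3 using hD'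
    have hu : InLevelGroup 𝔑₀ (glue_r317 S₀ A hA1 (fun w => 1)) := by
      rw [inLevel_iff219l hlev]
      refine ⟨fun w i j => rfl, fun v => ?_⟩
      rw [finGL_glue_r317]
      exact hA2 v
    obtain ⟨h, hh, hhu⟩ := hHg.2.2 _ hu
    refine ⟨h, hh, fun v hvS => ?_⟩
    obtain ⟨b, hb, e⟩ := hA3 v hvS
    have h1 := ((inLevel_iff219l hlev _).1 hhu).2 v
    rw [map_mul, map_mul, map_inv, finGL_glue_r317] at h1
    have e2 : (finGL305 v h)⁻¹ * finGL305 v y
        = ((finGL305 v h)⁻¹ * (A v * finGL305 v g)) * b := by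
      rw [e]
      simp only [mul_assoc]
    rw [e2]
    exact T6.H944.inU_mul944 _ _ _ h1 hb
  -- the count
  have hcount : ∑ h ∈ Hg, (if M h then (1 : ℂ) else 0) = if D then (1 : ℂ) else 0 := by
    by_cases hD : D
    · obtain ⟨h₀, hh₀, hM₀⟩ := hex hD
      rw [if_pos hD, Finset.sum_eq_single h₀, if_pos hM₀]
      · intro h hh hne
        rw [if_neg (fun hM => hne (huniq h hh h₀ hh₀ hM hM₀))]
      · intro hn
        exact absurd hh₀ hn
    · rw [if_neg hD]
      refine Finset.sum_eq_zero (fun h hh => ?_)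
      rw [if_neg (fun hM => hD (hMD h hh hM))]
  rw [lsum_eq219l, Finset.sum_congr rfl hval, ← Finset.sum_mul, hcount, hrhs]

end Fermat.Agent.LT.T7.H219

end

end
-- ===== PACK-END LT/T7/H219/LsumDbl.lean

-- ===== PACK-BEGIN LT/T7/H219/SwapDnSum.lean
section






/-!
# Row LT, tower T7, leaf PB.0.D0 `PB57.SwapDnSumC57`: THE KEY IDENTITY DOWNSTAIRS
# (helper219, OFF-MAIN)

`swapDnSumC219 (K K') : PB57.SwapDnSumC57 K K'`, VERBATIM against `LT/T7/H57/PreBSpec.lean`
(helper57, sha256 d5bf85f8).  UNCONDITIONAL.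

Proof.  At `v ∈ T₀` the swapped component `ψ_v` (the Iwahori function at `u`, the partner `fb v`
elsewhere) is right invariant under `U(m v)` with finite support modulo `U(m v)` (`m u ≥ 1`;
`PB616.iw_inv_at616` of helper616, `IsBadPart57.inv_down`), hence
`ψ_v(y) = ∑_{x ∈ R_v} ψ_v(x) 1_{U(m v)}(x⁻¹ y)` for a finite set `R_v` of representatives of the
cosets of the support.  The product over `v ∈ T₀` is the sum over the families `(x_v)`; a family
is glued to an element of `GL₂(𝔸_K)` which is trivial at infinity and outside `T₀`; the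
components of the first pair at `T₀` are the units `1_{U(m v)}` (`LocA893`).
-/

set_option autoImplicit false
set_option linter.style.haveILetI false
set_option linter.unusedSectionVars false
set_option linter.unusedVariables false

open IsDedekindDomain NumberField MeasureTheory

noncomputable section

namespace Fermat.Agent.LT.T7.H219

open Fermat.Agent.LT.H556 Fermat.Agent.LT.H556.A0 Fermat.Agent.LT Fermat.Agent.LT.T7
open Fermat.Agent.LT.T7.H305 Fermat.Agent.LT.T7.H893 Fermat.Agent.LT.T7.H317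
open Fermat.Agent.LT.T7.H981 Fermat.Agent.LT.T7.Q797

attribute [local instance] Fermat.Agent.LT.T5.instMeasurableSpaceG

/-! ## 1. Local: decomposition into left translates of the unit -/

theorem exists_irredundant219w {α : Type} (r : α → α → Prop) (hrefl : ∀ a, r a a)
    (hsymm : ∀ a b, r a b → r b a) (C : Finset α) :
    ∃ H : Finset α, H ⊆ C ∧ (∀ h ∈ H, ∀ h' ∈ H, h ≠ h' → ¬ r h h') ∧
      ∀ c ∈ C, ∃ h ∈ H, r h c := by
  classical
  induction C using Finset.induction_on with
  | empty =>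
    refine ⟨∅, Finset.Subset.refl _, ?_, ?_⟩
    · intro h hh
      exact absurd hh (Finset.notMem_empty h)
    · intro c hc
      exact absurd hc (Finset.notMem_empty c)
  | insert c C hc ih =>
    obtain ⟨H, hHC, hirr, hcov⟩ := ih
    by_cases hex : ∃ h ∈ H, r h c
    · refine ⟨H, hHC.trans (Finset.subset_insert _ _), hirr, fun x hx => ?_⟩
      rcases Finset.mem_insert.1 hx with e1 | hx1
      · exact e1 ▸ hex
      · exact hcov x hx1
    · refine ⟨insert c H, Finset.insert_subset_insert _ hHC, ?_, ?_⟩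
      · intro h hh h' hh' hne hr
        rcases Finset.mem_insert.1 hh with e1 | hh1
        · rcases Finset.mem_insert.1 hh' with e2 | hh2
          · exact hne (e1.trans e2.symm)
          · exact hex ⟨h', hh2, hsymm _ _ (e1 ▸ hr)⟩
        · rcases Finset.mem_insert.1 hh' with e2 | hh2
          · exact hex ⟨h, hh1, e2 ▸ hr⟩
          · exact hirr h hh1 h' hh2 hne hr
      · intro x hx
        rcases Finset.mem_insert.1 hx with e1 | hx1
        · exact ⟨c, Finset.mem_insert_self _ _, e1 ▸ hrefl c⟩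
        · obtain ⟨h, hh, hr⟩ := hcov x hx1
          exact ⟨h, Finset.mem_insert_of_mem hh, hr⟩

/-- A right `U(n)`-invariant function with finite support modulo `U(n)` is a finite linear
combination of left translates of the unit. -/
theorem exists_reps219w {k : Type} [Field k] [Valued k T6.Γ₀] (n : ℕ) (φ : GL (Fin 2) k → ℂ)
    (hφ : T6.IsBiInv (T6.InU n) φ) (hfin : T6.HasFinSupp (T6.InU n) φ) :
    ∃ R : Finset (GL (Fin 2) k), (∀ x ∈ R, φ x ≠ 0) ∧
      ∀ y : GL (Fin 2) k, φ y = ∑ x ∈ R, φ x * unitFn893 n (x⁻¹ * y) := by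
  classical
  have hright : ∀ (g u : GL (Fin 2) k), T6.InU n u → φ (g * u) = φ g := by
    intro g u hu
    have := hφ 1 u g (inU_one219l n) hu
    rwa [one_mul] at this
  obtain ⟨F, hF⟩ := hfin
  obtain ⟨H, _, hirr, hcov⟩ := exists_irredundant219w
    (fun a b : GL (Fin 2) k => ∃ u : GL (Fin 2) k, T6.InU n u ∧ b = a * u)
    (fun a => ⟨1, inU_one219l n, (mul_one a).symm⟩)
    (fun a b ⟨u, hu, e⟩ => ⟨u⁻¹, T6.H944.inU_inv944 _ _ hu, by rw [e, mul_inv_cancel_right]⟩) F
  refine ⟨H.filter (fun x => φ x ≠ 0), fun x hx => (Finset.mem_filter.1 hx).2, fun y => ?_⟩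
  -- the term of `x` vanishes unless `y ∈ x U`
  have hterm : ∀ x : GL (Fin 2) k, ¬ T6.InU n (x⁻¹ * y) → φ x * unitFn893 n (x⁻¹ * y) = 0 := by
    intro x hx
    rw [unitFn_eq219l, if_neg hx, mul_zero]
  by_cases hy : φ y = 0
  · rw [hy]
    symm
    refine Finset.sum_eq_zero (fun x hx => ?_)
    by_cases hxy : T6.InU n (x⁻¹ * y)
    · exfalso
      have e : y = x * (x⁻¹ * y) := by rw [mul_inv_cancel_left]
      have h1 := hright x _ hxy
      rw [← e, hy] at h1
      exact (Finset.mem_filter.1 hx).2 h1.symm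
    · exact hterm x hxy
  · obtain ⟨x₀, hx₀, u₀, hu₀, e₀⟩ := hF y hy
    obtain ⟨h, hh, u', hu', e'⟩ := hcov x₀ hx₀
    have ey : y = h * (u' * u₀) := by rw [e₀, e', mul_assoc]
    have huu : T6.InU n (u' * u₀) := T6.H944.inU_mul944 _ _ _ hu' hu₀
    have hφh : φ h = φ y := by rw [ey, hright h _ huu]
    have hhR : h ∈ H.filter (fun x => φ x ≠ 0) :=
      Finset.mem_filter.2 ⟨hh, by rw [hφh]; exact hy⟩
    rw [Finset.sum_eq_single h]
    · have e1 : h⁻¹ * y = u' * u₀ := by rw [ey, inv_mul_cancel_left]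
      rw [e1, unitFn_eq219l, if_pos huu, mul_one, hφh]
    · intro x hx hne
      apply hterm
      intro hxy
      apply hirr h hh x (Finset.mem_filter.1 hx).1 (fun e => hne e.symm)
      refine ⟨(u' * u₀) * (x⁻¹ * y)⁻¹, T6.H944.inU_mul944 _ _ _ huu
        (T6.H944.inU_inv944 _ _ hxy), ?_⟩
      rw [← mul_assoc, ← ey]
      group
    · intro hn
      exact absurd hhR hn

/-! ## 2. Global: glued families -/

variable {K : Type} [Field K] [NumberField K]

theorem exists_glue219w (T₀ : Finset (HeightOneSpectrum (𝓞 K))) :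
    ∃ gl : (∀ v ∈ T₀, GL (Fin 2) (v.adicCompletion K)) → G K,
      ∀ p, (∀ w : InfinitePlace K, TrivAtInf w (gl p)) ∧
        (∀ v (h : v ∈ T₀), finGL305 v (gl p) = p v h) ∧
        ∀ v : HeightOneSpectrum (𝓞 K), v ∉ T₀ → finGL305 v (gl p) = 1 := by
  classical
  refine ⟨fun p => glue_r317 T₀ (fun v => if h : v ∈ T₀ then p v h else 1)
    (fun v hv => dif_neg hv) (fun w => 1), fun p => ⟨fun w i j => rfl, fun v h => ?_,
      fun v hv => ?_⟩⟩
  · rw [finGL_glue_r317]
    exact dif_pos h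
  · rw [finGL_glue_r317]
    exact dif_neg hv

theorem finGL_inv_coe219w (v : HeightOneSpectrum (𝓞 K)) (h : G K) :
    (((finGL305 v h)⁻¹ : GL (Fin 2) (v.adicCompletion K)) :
      Matrix (Fin 2) (Fin 2) (v.adicCompletion K)) = finComp v h⁻¹ := by
  rw [← map_inv]
  rfl

theorem outT_mono219w {S T : Finset (HeightOneSpectrum (𝓞 K))} (hST : S ⊆ T) {x : G K}
    (hx : OutT305 S x) : OutT305 T x :=
  fun v hv => hx v (fun hvS => hv (hST hvS))

open Classical in
/-- **THE CORE**: the pure tensor with the components `ψ` at `T₀` is the sum over the glued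
families of representatives of the left translates of the pure tensor with unit components. -/
theorem swapSum_core219w (T₀ T : Finset (HeightOneSpectrum (𝓞 K))) (hT : T₀ ⊆ T)
    (m : HeightOneSpectrum (𝓞 K) → ℕ)
    (ψ f₀ : ∀ v : HeightOneSpectrum (𝓞 K), GL (Fin 2) (v.adicCompletion K) → ℂ)
    (F : InfinitePlace K → GL (Fin 2) ℂ → ℂ)
    (R : ∀ v : HeightOneSpectrum (𝓞 K), Finset (GL (Fin 2) (v.adicCompletion K)))
    (hdec : ∀ v ∈ T₀, ∀ y : GL (Fin 2) (v.adicCompletion K),
      ψ v y = ∑ x ∈ R v, ψ v x * unitFn893 (m v) (x⁻¹ * y))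
    (hf₀ : ∀ v ∈ T₀, f₀ v = unitFn893 (m v))
    (gl : (∀ v ∈ T₀, GL (Fin 2) (v.adicCompletion K)) → G K)
    (hgl : ∀ p, (∀ w : InfinitePlace K, TrivAtInf w (gl p)) ∧
      (∀ v (h : v ∈ T₀), finGL305 v (gl p) = p v h) ∧
      ∀ v : HeightOneSpectrum (𝓞 K), v ∉ T₀ → finGL305 v (gl p) = 1)
    (ψ' : ∀ v : HeightOneSpectrum (𝓞 K), GL (Fin 2) (v.adicCompletion K) → ℂ)
    (hψ'1 : ∀ v ∈ T₀, ψ' v = ψ v) (hψ'2 : ∀ v, v ∉ T₀ → ψ' v = f₀ v) (y : G K) :
    pure305 T ψ' F y
      = ∑ p ∈ T₀.pi R, (∏ v ∈ T₀, ψ v (finGL305 v (gl p))) * pure305 T f₀ F ((gl p)⁻¹ * y) := by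
  classical
  -- the translates
  have hOx : ∀ p, gl p ∈ outSub_r317 T := by
    intro p
    refine outT_of_inU219l T (fun _ => 0) (fun v hv => ?_)
    rw [(hgl p).2.2 v (fun h => hv (hT h))]
    exact inU_one219l 0
  have htr : ∀ p, pure305 T f₀ F ((gl p)⁻¹ * y)
      = if OutT305 T y then
          ((∏ v ∈ T \ T₀, f₀ v (finGL305 v y))
            * ∏ v ∈ T₀, unitFn893 (m v) ((finGL305 v (gl p))⁻¹ * finGL305 v y))
            * ∏ w : InfinitePlace K, F w (infGL305 w y)
        else 0 := by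
    intro p
    rw [pure305_eq219l]
    have hiff : OutT305 T ((gl p)⁻¹ * y) ↔ OutT305 T y :=
      (outSub_r317 T).mul_mem_cancel_left ((outSub_r317 T).inv_mem (hOx p))
    by_cases hy : OutT305 T y
    · rw [if_pos hy, if_pos (hiff.2 hy)]
      have hInf : ∏ w : InfinitePlace K, F w (infGL305 w ((gl p)⁻¹ * y))
          = ∏ w : InfinitePlace K, F w (infGL305 w y) := by
        refine Finset.prod_congr rfl (fun w _ => ?_)
        rw [map_mul, map_inv, infGL_of_triv219l w ((hgl p).1 w), inv_one, one_mul]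
      rw [hInf, ← Finset.prod_sdiff hT]
      congr 2
      · refine Finset.prod_congr rfl (fun v hv => ?_)
        have hv0 : v ∉ T₀ := (Finset.mem_sdiff.1 hv).2
        rw [map_mul, map_inv, (hgl p).2.2 v hv0, inv_one, one_mul]
      · refine Finset.prod_congr rfl (fun v hv => ?_)
        rw [hf₀ v hv, map_mul, map_inv]
    · rw [if_neg hy, if_neg (fun h => hy (hiff.1 h))]
  rw [pure305_eq219l]
  by_cases hy : OutT305 T y
  · rw [if_pos hy]
    have hsum : ∑ p ∈ T₀.pi R, (∏ v ∈ T₀, ψ v (finGL305 v (gl p)))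
          * pure305 T f₀ F ((gl p)⁻¹ * y)
        = ((∏ v ∈ T \ T₀, f₀ v (finGL305 v y))
            * ∑ p ∈ T₀.pi R, ∏ v ∈ T₀, (ψ v (finGL305 v (gl p))
              * unitFn893 (m v) ((finGL305 v (gl p))⁻¹ * finGL305 v y)))
          * ∏ w : InfinitePlace K, F w (infGL305 w y) := by
      rw [Finset.mul_sum, Finset.sum_mul]
      refine Finset.sum_congr rfl (fun p _ => ?_)
      rw [htr p, if_pos hy, Finset.prod_mul_distrib]
      ring
    rw [hsum, ← Finset.prod_sdiff hT]
    congr 2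
    · refine Finset.prod_congr rfl (fun v hv => ?_)
      rw [hψ'2 v (Finset.mem_sdiff.1 hv).2]
    · have h1 : ∏ v ∈ T₀, ψ' v (finGL305 v y)
          = ∏ v ∈ T₀, ∑ x ∈ R v, ψ v x * unitFn893 (m v) (x⁻¹ * finGL305 v y) := by
        refine Finset.prod_congr rfl (fun v hv => ?_)
        rw [hψ'1 v hv, hdec v hv]
      rw [h1, Finset.prod_sum]
      refine Finset.sum_congr rfl (fun p _ => ?_)
      rw [← Finset.prod_attach T₀ (fun v => ψ v (finGL305 v (gl p))
        * unitFn893 (m v) ((finGL305 v (gl p))⁻¹ * finGL305 v y))]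
      refine Finset.prod_congr rfl (fun v _ => ?_)
      rw [(hgl p).2.1 v.1 v.2]
  · rw [if_neg hy]
    symm
    refine Finset.sum_eq_zero (fun p _ => ?_)
    rw [htr p, if_neg hy, mul_zero]

/-! ## 3. The level at `u` -/

theorem valued_lt_one_of_mem_closure219w (w : HeightOneSpectrum (𝓞 K))
    {x : w.adicCompletion K} (hx : x ∈ idealClosure w.asIdeal w) : Valued.v x < 1 := by
  by_contra hlt
  have hx1 : (1 : WithZero (Multiplicative ℤ)) ≤ Valued.v x := not_lt.1 hlt
  have hx0 : x ≠ 0 := by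
    rintro rfl
    rw [map_zero] at hx1
    exact absurd hx1 (not_le.2 zero_lt_one)
  obtain ⟨y, hy, a, ha, rfl⟩ :=
    mem_closure_iff_nhds.1 hx _ (T2.H131.ball_mem_nhds_h131 x x hx0)
  have hy' : Valued.v (toC981 w a - x) < Valued.v x := hy
  have hya : Valued.v (toC981 w a) < 1 := by
    rw [valued_toC981]
    exact (w.intValuation_lt_one_iff_mem a).2 ha
  have e : toC981 w a = x + (toC981 w a - x) := by ring
  have h1 : Valued.v (toC981 w a) = Valued.v x := by
    conv_lhs => rw [e]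
    exact Valuation.map_add_eq_of_lt_left _ hy'
  rw [h1] at hya
  exact absurd hya hlt

theorem level_pos219w {𝔫 : Ideal (𝓞 K)} {m : HeightOneSpectrum (𝓞 K) → ℕ}
    (hlev : IsLevelOf893 𝔫 m) (u : HeightOneSpectrum (𝓞 K)) (hu : u.asIdeal ∣ 𝔫) :
    1 ≤ m u := by
  by_contra h0
  have h00 : m u = 0 := by omega
  have h1 : (1 : u.adicCompletion K) ∈ idealClosure 𝔫 u := by
    refine (hlev u 1).2 ?_
    rw [h00, map_one, Nat.cast_zero, neg_zero, WithZero.exp_zero]
  have hle : 𝔫 ≤ u.asIdeal := Ideal.le_of_dvd hu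
  have h2 : (1 : u.adicCompletion K) ∈ idealClosure u.asIdeal u :=
    closure_mono (Set.image_mono hle) h1
  have h3 := valued_lt_one_of_mem_closure219w u h2
  rw [map_one] at h3
  exact lt_irrefl _ h3

/-! ## 4. The leaf -/

section Leaf

variable (K)
variable (K' : Type) [Field K'] [NumberField K'] [Algebra K K']

open Classical in
theorem swDn_eq219w (B : L2Base K K') (T₀ : Finset (HeightOneSpectrum (𝓞 K)))
    (fb f₀ : ∀ v : HeightOneSpectrum (𝓞 K), GL (Fin 2) (v.adicCompletion K) → ℂ)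
    (v : HeightOneSpectrum (𝓞 K)) :
    PB57.swDn57 B T₀ fb f₀ v
      = if v = B.u then iwFn893 else if v ∈ T₀ then fb v else f₀ v := rfl

/-- **LEAF PB.0.D0 `PB57.SwapDnSumC57`.** -/
theorem swapDnSumC219 : PB57.SwapDnSumC57 K K' := by
  intro ℓ hcyc hℓ hK Φe B hB hram g hg 𝔫 hlev μc hμc T₀ n n₀ m hexp c₁ Φ₁ F₁ hA fb hfb
    Ω iT _ _ _ iM _ ν _ T T' φ₀ Φ f₀ F hdat
  classical
  have huT : B.u ∈ T₀ := (hexp.mem_T₀ B.u).2 hlev.u_level
  have hmu : 1 ≤ m B.u := level_pos219w hexp.lev_m B.u hlev.u_level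
  -- the swapped components at the level
  obtain ⟨ψ, hψu, hψn⟩ : ∃ ψ : ∀ v : HeightOneSpectrum (𝓞 K),
      GL (Fin 2) (v.adicCompletion K) → ℂ,
      (∀ v, v = B.u → ψ v = iwFn893) ∧ (∀ v, v ≠ B.u → ψ v = fb v) :=
    ⟨fun v => if v = B.u then iwFn893 else fb v, fun v h => if_pos h, fun v h => if_neg h⟩
  have hR : ∀ v : HeightOneSpectrum (𝓞 K), ∃ R : Finset (GL (Fin 2) (v.adicCompletion K)),
      v ∈ T₀ → (∀ x ∈ R, ψ v x ≠ 0) ∧
        ∀ y : GL (Fin 2) (v.adicCompletion K),
          ψ v y = ∑ x ∈ R, ψ v x * unitFn893 (m v) (x⁻¹ * y) := by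
    intro v
    by_cases hv : v ∈ T₀
    · have hinv : T6.IsBiInv (T6.InU (m v)) (ψ v) ∧ T6.HasFinSupp (T6.InU (m v)) (ψ v) := by
        by_cases hvu : v = B.u
        · rw [hψu v hvu]
          have hmv : 1 ≤ m v := by rw [hvu]; exact hmu
          exact PB616.iw_inv_at616 v hmv
        · rw [hψn v hvu]
          exact hfb.inv_down v (Finset.mem_erase.2 ⟨hvu, hv⟩)
      obtain ⟨R, h1, h2⟩ := exists_reps219w (m v) (ψ v) hinv.1 hinv.2
      exact ⟨R, fun _ => ⟨h1, h2⟩⟩
    · exact ⟨∅, fun h => absurd h hv⟩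
  choose R hR using hR
  obtain ⟨gl, hgl⟩ := exists_glue219w T₀
  have hinj : ∀ p ∈ T₀.pi R, ∀ q ∈ T₀.pi R, gl p = gl q → p = q := by
    intro p _ q _ e
    funext v hv
    rw [← (hgl p).2.1 v hv, ← (hgl q).2.1 v hv, e]
  refine ⟨(T₀.pi R).image gl, fun x => ∏ v ∈ T₀, ψ v (finGL305 v x), ?_, ?_⟩
  · intro x hx
    obtain ⟨p, hp, rfl⟩ := Finset.mem_image.1 hx
    refine ⟨(hgl p).1, fun v hv => ?_, ?_⟩
    · show finComp v (gl p) = 1
      have := (hgl p).2.2 v hv
      rw [← coe_finGL_r317, this]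
      rfl
    · have hpu : p B.u huT ∈ R B.u := (Finset.mem_pi.1 hp) B.u huT
      have hne := (hR B.u huT).1 _ hpu
      rw [hψu B.u rfl] at hne
      have hiw := PB616.inIw_of_iwFn_ne_zero616 hne
      rw [← (hgl p).2.1 B.u huT] at hiw
      refine ⟨fun i j => ?_, fun i j => ?_, ?_⟩
      · exact (HeightOneSpectrum.mem_adicCompletionIntegers _ _ _).2 (hiw.1 i j)
      · have h2 := hiw.2.1 i j
        rw [finGL_inv_coe219w] at h2
        exact (HeightOneSpectrum.mem_adicCompletionIntegers _ _ _).2 h2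
      · exact hiw.2.2
  · intro ω y
    obtain ⟨hd1, -⟩ := hdat
    have hTω : T₀ ⊆ T ω := (hd1 ω).1
    have hLoc := (hd1 ω).2.2
    rw [Finset.sum_image hinj]
    exact swapSum_core219w T₀ (T ω) hTω m ψ (f₀ ω) (F ω) R (fun v hv => (hR v hv).2)
      hLoc.1 gl hgl (PB57.swDn57 B T₀ fb (f₀ ω))
      (fun v hv => by
        rw [swDn_eq219w]
        by_cases hvu : v = B.u
        · rw [if_pos hvu, hψu v hvu]
        · rw [if_neg hvu, if_pos hv, hψn v hvu])
      (fun v hv => by
        rw [swDn_eq219w]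
        have hvu : v ≠ B.u := fun e => hv (e ▸ huT)
        rw [if_neg hvu, if_neg hv]) y

end Leaf

end Fermat.Agent.LT.T7.H219

end

end
-- ===== PACK-END LT/T7/H219/SwapDnSum.lean

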