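import Mathlib
import Fermat.Agent.Pack.LT4.E9L3
import Fermat.Agent.Pack.LT2.E9L3
import Fermat.Agent.Pack.LT4.E7L1
import Fermat.Agent.Pack.LT4.E7L3
import Fermat.Agent.Pack.LT4.E8L3
import Fermat.Agent.Pack.LT3.E28L2
import Fermat.Agent.Pack.LT3.E8L2
import Fermat.Agent.Pack.LT3.E6L1
import Fermat.Agent.Pack.LT2.E3L0
import Fermat.Agent.Pack.LT3.E22L3
import Fermat.Agent.Pack.LT2.E13L2
import Fermat.Agent.Pack.LT4.E9L0

set_option linter.all false

-- ===== PACK-BEGIN LT/T7/H973/PreBQSpec.lean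
section



/-!
# Row LT, tower T7, node T7.L2Q.1.H2a.B.0 `PBQ973.PreBQC973` (registry row 3040):
# THE UN-AVERAGED SECOND PAIR OVER `ℚ` -- SECOND CUT (THE SWAP), Spec (helper973, node owner of
# row 2856; CANDIDATE cut for the owner of row 3040)

OFF-MAIN.  Definitions and frozen Props only (the proved top is `PreBQTop.lean`).  No hole,
nothing assumed.  ADDITIVE (new names only, all suffixed `973`, namespace
`Fermat.Agent.LT.T7.PBQ973`).  MIRROR over `ℚ` of the second cut of helper57 of the cubic node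
`PB57.PreBC57` (`T7/H57/PreBSpec.lean` d5bf85f8, `PreBTop.lean` 4555fe0b: THE SWAP).

    preBQC_of973 : CQ801.PairAQC801 P F → BadPartQC973 F → OpenSwapQ973 F → PreBQC973 P F

## The cut: THE SECOND PAIR IS THE FIRST PAIR WITH THE COMPONENTS AT THE LEVEL SWAPPED

The first pair of the empty word `(Φ₁ [], F₁ w0 [], F₁ w1 [])` (node `CQ801.PairAQC801`,
registry row 2855) is an average of pure tensors with UNIT components at the places of the
level (`CQ801.LocAQ801 c`), for EVERY level and EVERY constant `c ≠ 0` of the Abel relation.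
The un-averaged second pair is the average of the SAME pure tensors with the components at the
places of the level replaced:

* upstairs (`swUpQ973`): the Iwahori function at the places over `u`, the unit `1_{U(n₀ w)}`
  of the BASE level at the other places of the level;
* downstairs (`swDnQ973`, THE SAME for the two types): the Iwahori function at `u`, a PARTNER
  `fb v` of the double coset function of the bad element at the other places of the level
  (`IsBadPartQ973`; T6).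

`φ° = swapUpFnQ973 …`, `f° t = swapDnFnQ973 … a … (archQ973 F0 F1 t)`.  All properties of the
second pair are SOFT consequences of the properties of the first pair (see the header of
helper57's Spec, falsity checks (a)-(h), which hold verbatim with `ℓ = 2` and the types `w0`,
`w1` downstairs: the elements by which one translates are supported at the finite places, so
they commute with `K_∞` and the translates have the same type).

* **`BadPartQC973 F`** (LEAF, [L], T6): the level `𝔫` and the partner family (for all Haar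
  measures: the archimedean components of the clause are free, the zero functions are
  admissible).
* **`SwapUpSumQC973`**, **`SwapDnSumQC973`** (LEAVES, [M]; pure tensor calculus): THE KEY
  IDENTITIES (sums of translates); tools for the provers, they do not enter the top.
* **`SwapUpTestQC973`, `SwapUpEKQC973`, `SwapUpInvQC973`, `SwapUpOpQC973`, `SwapUpSuppQC973`,
  `SwapMemUpQC973`** (LEAVES, one per field upstairs + the members of the average).
* **`SwapDnTestQC973`, `SwapDnEKQC973`, `SwapDnInvQC973`, `SwapDnOpQC973`, `SwapDnSuppQC973`,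
  `SwapMemDnQC973`** (the same downstairs, for the two types).
* **`SwapLocQC973`** (LEAF, [S]): the swapped components satisfy `CQ801.LocBQ801`.

FALSITY CHECKS (helper973): those of helper57 (a)-(h), and (i) the constant `c` of the Abel
relation is the same for the two pairs (`ArchOkQ801 c` is a clause on the archimedean
components, which are not swapped); (j) the first pair exists for every `c ≠ 0` and does not
see the Haar measures; the partner family is asked for ALL Haar measures (the clause `arch` of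
`LocHypQb801` holds for the zero functions); (k) `LocHypQb801 … T …` looks at the components at
the places of `T` only, so the clause for `fb` is the clause for `swDnQ973 … fb f₀`.
-/

set_option autoImplicit false

open AutomorphicForm IsDedekindDomain NumberField MeasureTheory
open scoped ComplexConjugate

noncomputable section

namespace Fermat.Agent.LT.T7.PBQ973

open Fermat.Agent.LT.H556 Fermat.Agent.LT.H556.A0 Fermat.Agent.LT.T7 Fermat.Agent.LT.T7.H305
  Fermat.Agent.LT.T7.L2Q Fermat.Agent.LT.T7.H893 Fermat.Agent.LT.T7.H962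
  Fermat.Agent.LT.T7.H732 Fermat.Agent.LT.T7.MQ298 Fermat.Agent.LT.T7.CQ801

attribute [local instance] Fermat.Agent.LT.T5.instMeasurableSpaceG

/-! ## 1. Vocabulary -/

section Defs

variable {F : Type} [Field F] [NumberField F]

open Classical in
/-- **THE PARTNER FAMILY over `ℚ`** `fb` of the double coset functions `1_{U₀ g_w U₀}` of the bad
element `g` at the bad places `v ∈ T₀`, `v ≠ u`, at the levels `(n, m)`: bi-`U(m v)`-invariant
of finite support, and for all Haar measures the first clause of `CQ801.LocBQ801` holds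
(`LocHypQb801` for the set `T₀ ∖ {u}` with SOME archimedean components). -/
structure IsBadPartQ973 (B : L2QBase962 F) (g : G F) (𝔫 : Ideal (𝓞 ℚ))
    (T₀ : Finset (HeightOneSpectrum (𝓞 ℚ)))
    (n n₀ : HeightOneSpectrum (𝓞 F) → ℕ) (m : HeightOneSpectrum (𝓞 ℚ) → ℕ)
    (fb : ∀ v : HeightOneSpectrum (𝓞 ℚ), GL (Fin 2) (v.adicCompletion ℚ) → ℂ) : Prop where
  inv_down : ∀ v ∈ T₀.erase B.u,
    T6.IsBiInv (T6.InU (m v)) (fb v) ∧ T6.HasFinSupp (T6.InU (m v)) (fb v)
  hyp : ∀ (μr : @Measure (GL (Fin 2) ℝ) (borel _)) (μc : @Measure (GL (Fin 2) ℂ) (borel _)),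
    @Measure.IsHaarMeasure _ _ _ (borel _) μr → @Measure.IsHaarMeasure _ _ _ (borel _) μc →
    ∃ (Φd : InfinitePlace F → GL (Fin 2) ℂ → ℂ) (F0d F1d : GL (Fin 2) ℝ → ℂ),
      LocHypQb801 (B.comp 𝔫) μr μc (T₀.erase B.u) n m
        (fun w => dblFn893 (n₀ w) (finGL305 w g)) Φd fb F0d F1d

open Classical in
/-- **THE SWAP UPSTAIRS**: the Iwahori function at the places over `u`, the unit of the base
level at the other places over `T₀`, the given component elsewhere. -/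
def swUpQ973 (B : L2QBase962 F) (T₀ : Finset (HeightOneSpectrum (𝓞 ℚ)))
    (n₀ : HeightOneSpectrum (𝓞 F) → ℕ)
    (φ₀ : ∀ w : HeightOneSpectrum (𝓞 F), GL (Fin 2) (w.adicCompletion F) → ℂ) :
    ∀ w : HeightOneSpectrum (𝓞 F), GL (Fin 2) (w.adicCompletion F) → ℂ :=
  fun w => if PlaceOver ℚ F B.u w then iwFn893
    else if ∃ v ∈ T₀, PlaceOver ℚ F v w then unitFn893 (n₀ w) else φ₀ w

open Classical in
/-- **THE SWAP DOWNSTAIRS**: the Iwahori function at `u`, the partner at the other places of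
`T₀`, the given component elsewhere. -/
def swDnQ973 (B : L2QBase962 F) (T₀ : Finset (HeightOneSpectrum (𝓞 ℚ)))
    (fb : ∀ v : HeightOneSpectrum (𝓞 ℚ), GL (Fin 2) (v.adicCompletion ℚ) → ℂ)
    (f₀ : ∀ v : HeightOneSpectrum (𝓞 ℚ), GL (Fin 2) (v.adicCompletion ℚ) → ℂ) :
    ∀ v : HeightOneSpectrum (𝓞 ℚ), GL (Fin 2) (v.adicCompletion ℚ) → ℂ :=
  fun v => if v = B.u then iwFn893 else if v ∈ T₀ then fb v else f₀ v

/-- The archimedean components downstairs of the type `t`: `F0` for `w0`, `F1` for `w1`. -/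
def archQ973 {Ω : Type} (F0 F1 : Ω → GL (Fin 2) ℝ → ℂ) (t : QWt) : Ω → GL (Fin 2) ℝ → ℂ :=
  QWt.rec F0 F1 t

/-- **THE FUNCTION UPSTAIRS OF THE UN-AVERAGED SECOND PAIR**: the average of the pure tensors
with the swapped components. -/
def swapUpFnQ973 (B : L2QBase962 F) (T₀ : Finset (HeightOneSpectrum (𝓞 ℚ)))
    (n₀ : HeightOneSpectrum (𝓞 F) → ℕ) {Ω : Type} [MeasurableSpace Ω] (ν : Measure Ω)
    (T' : Ω → Finset (HeightOneSpectrum (𝓞 F)))
    (φ₀ : Ω → ∀ w : HeightOneSpectrum (𝓞 F), GL (Fin 2) (w.adicCompletion F) → ℂ)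
    (Φ : Ω → InfinitePlace F → GL (Fin 2) ℂ → ℂ) : G F → ℂ :=
  fun h => ∫ ω, pure305 (T' ω) (swUpQ973 B T₀ n₀ (φ₀ ω)) (Φ ω) h ∂ν

/-- **THE FUNCTION DOWNSTAIRS OF THE UN-AVERAGED SECOND PAIR** for the archimedean components
`Fr`: the average of `a ·` the pure tensors with the swapped components. -/
def swapDnFnQ973 (B : L2QBase962 F) (T₀ : Finset (HeightOneSpectrum (𝓞 ℚ)))
    (fb : ∀ v : HeightOneSpectrum (𝓞 ℚ), GL (Fin 2) (v.adicCompletion ℚ) → ℂ) (a : ℂ)
    {Ω : Type} [MeasurableSpace Ω] (ν : Measure Ω)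
    (T : Ω → Finset (HeightOneSpectrum (𝓞 ℚ)))
    (f₀ : Ω → ∀ v : HeightOneSpectrum (𝓞 ℚ), GL (Fin 2) (v.adicCompletion ℚ) → ℂ)
    (Fr : Ω → GL (Fin 2) ℝ → ℂ) : G ℚ → ℂ :=
  fun h => ∫ ω, a * pureQ298 (T ω) (swDnQ973 B T₀ fb (f₀ ω)) (Fr ω) h ∂ν

/-- **THE DATA OF AN AVERAGE OF PURE TENSORS over `ℚ`**: the body of `CQ801.IsAvgPureQ801` for
given data (`IsAvgPureQ801 … φ' f0 f1` is `∃ data, IsAvgDatQ973 … φ' f0 f1 data`, by
definition). -/
def IsAvgDatQ973 (𝔑 : Ideal (𝓞 F)) (𝔫 : Ideal (𝓞 ℚ)) (T₀ : Finset (HeightOneSpectrum (𝓞 ℚ)))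
    (L : LocCondQ801 F) (c : ℂ) (φ' : G F → ℂ) (f0 f1 : G ℚ → ℂ)
    (Ω : Type) (_ : TopologicalSpace Ω) (_ : MeasurableSpace Ω) (ν : Measure Ω)
    (T : Ω → Finset (HeightOneSpectrum (𝓞 ℚ))) (T' : Ω → Finset (HeightOneSpectrum (𝓞 F)))
    (φ₀ : Ω → ∀ w : HeightOneSpectrum (𝓞 F), GL (Fin 2) (w.adicCompletion F) → ℂ)
    (Φ : Ω → InfinitePlace F → GL (Fin 2) ℂ → ℂ)
    (f₀ : Ω → ∀ v : HeightOneSpectrum (𝓞 ℚ), GL (Fin 2) (v.adicCompletion ℚ) → ℂ)
    (F0 F1 : Ω → GL (Fin 2) ℝ → ℂ) : Prop :=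
    (∀ a : Ω, T₀ ⊆ T a ∧ IsOver305 (T a) (T' a) ∧
      L (T a) (φ₀ a) (Φ a) (f₀ a) (F0 a) (F1 a)) ∧
    (∀ a : Ω, T5.IsTestFn 𝔑 T5.trivType (pure305 (T' a) (φ₀ a) (Φ a))) ∧
    (∀ a : Ω, T5.IsTestFn 𝔫 QWt.w0.type (fun h => c * pureQ298 (T a) (f₀ a) (F0 a) h)) ∧
    (∀ a : Ω, T5.IsTestFn 𝔫 QWt.w1.type (fun h => c * pureQ298 (T a) (f₀ a) (F1 a) h)) ∧
    Continuous (fun p : Ω × G F => pure305 (T' p.1) (φ₀ p.1) (Φ p.1) p.2) ∧
    Continuous (fun p : Ω × G ℚ => c * pureQ298 (T p.1) (f₀ p.1) (F0 p.1) p.2) ∧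
    Continuous (fun p : Ω × G ℚ => c * pureQ298 (T p.1) (f₀ p.1) (F1 p.1) p.2) ∧
    (∃ C : Set (G F), IsCompact C ∧
      ∀ (a : Ω) (h : G F), pure305 (T' a) (φ₀ a) (Φ a) h ≠ 0 → h ∈ C) ∧
    (∃ C : Set (G ℚ), IsCompact C ∧
      ∀ (a : Ω) (h : G ℚ), pureQ298 (T a) (f₀ a) (F0 a) h ≠ 0 → h ∈ C) ∧
    (∃ C : Set (G ℚ), IsCompact C ∧
      ∀ (a : Ω) (h : G ℚ), pureQ298 (T a) (f₀ a) (F1 a) h ≠ 0 → h ∈ C) ∧
    (∀ h : G F, φ' h = ∫ a, pure305 (T' a) (φ₀ a) (Φ a) h ∂ν) ∧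
    (∀ h : G ℚ, f0 h = ∫ a, c * pureQ298 (T a) (f₀ a) (F0 a) h ∂ν) ∧
    ∀ h : G ℚ, f1 h = ∫ a, c * pureQ298 (T a) (f₀ a) (F1 a) h ∂ν

/-- **THE CONTEXT OF THE SWAP LEAVES over `ℚ`**: `Q` holds for the common part, every level, all
Haar measures, the exponents, every constant `c ≠ 0`, EVERY first pair with the properties
`CQ801.IsPairAQ801`, EVERY partner family and EVERY presentation of the first pair of the empty
word as an average of pure tensors. -/
def SwapCtxQ973 (F : Type) [Field F] [NumberField F]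
    (Q : ∀ (_ : HeckeEigensystem F ℂ) (_ : L2QBase962 F) (_ : G F) (_ : Ideal (𝓞 ℚ))
      (_ : @Measure (GL (Fin 2) ℝ) (borel _)) (_ : @Measure (GL (Fin 2) ℂ) (borel _))
      (_ : ℂ) (_ : Finset (HeightOneSpectrum (𝓞 ℚ)))
      (_ _ : HeightOneSpectrum (𝓞 F) → ℕ) (_ : HeightOneSpectrum (𝓞 ℚ) → ℕ)
      (_ : EigData F → ℂ)
      (_ : ∀ v : HeightOneSpectrum (𝓞 ℚ), GL (Fin 2) (v.adicCompletion ℚ) → ℂ)
      (Ω : Type) (_ : TopologicalSpace Ω) (_ : MeasurableSpace Ω) (_ : Measure Ω)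
      (_ : Ω → Finset (HeightOneSpectrum (𝓞 ℚ))) (_ : Ω → Finset (HeightOneSpectrum (𝓞 F)))
      (_ : Ω → ∀ w : HeightOneSpectrum (𝓞 F), GL (Fin 2) (w.adicCompletion F) → ℂ)
      (_ : Ω → InfinitePlace F → GL (Fin 2) ℂ → ℂ)
      (_ : Ω → ∀ v : HeightOneSpectrum (𝓞 ℚ), GL (Fin 2) (v.adicCompletion ℚ) → ℂ)
      (_ _ : Ω → GL (Fin 2) ℝ → ℂ), Prop) : Prop :=
  HasSqrtNegThree F → IsImagQuad F →
    ∀ (Φe : HeckeEigensystem F ℂ) (B : L2Q.H60.L2QBase F), L2Q.H60.IsL2QBase Φe B →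
    L2Q.H60.IsRamQ60 B →
    ∀ g : G F, B.IsBad g →
    ∀ 𝔫 : Ideal (𝓞 ℚ), CQ57.IsLevQ57 (toBase962_732 B) 𝔫 →
    ∀ (μr : @Measure (GL (Fin 2) ℝ) (borel _)) (μc : @Measure (GL (Fin 2) ℂ) (borel _)),
      @Measure.IsHaarMeasure _ _ _ (borel _) μr →
      @Measure.IsHaarMeasure _ _ _ (borel _) μc →
    ∀ (T₀ : Finset (HeightOneSpectrum (𝓞 ℚ)))
      (n n₀ : HeightOneSpectrum (𝓞 F) → ℕ) (m : HeightOneSpectrum (𝓞 ℚ) → ℕ),
      CQ57.IsLevFnQ57 (toBase962_732 B) 𝔫 T₀ n n₀ m →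
    ∀ c : ℂ, c ≠ 0 →
    ∀ (c₁ : EigData F → ℂ) (Φ₁ : List (Gen F) → G F → ℂ)
      (F₁ : QWt → List (Gen F) → G ℚ → ℂ),
      IsPairAQ801 Φe (toBase962_732 B) 𝔫 c T₀ n m c₁ Φ₁ F₁ →
    ∀ fb : ∀ v : HeightOneSpectrum (𝓞 ℚ), GL (Fin 2) (v.adicCompletion ℚ) → ℂ,
      IsBadPartQ973 (toBase962_732 B) g 𝔫 T₀ n n₀ m fb →
    ∀ (Ω : Type) (iT : TopologicalSpace Ω) (_ : CompactSpace Ω) (_ : T2Space Ω)
      (_ : SecondCountableTopology Ω) (iM : MeasurableSpace Ω)
      (_ : BorelSpace Ω) (ν : Measure Ω) (_ : IsFiniteMeasure ν)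
      (T : Ω → Finset (HeightOneSpectrum (𝓞 ℚ))) (T' : Ω → Finset (HeightOneSpectrum (𝓞 F)))
      (φ₀ : Ω → ∀ w : HeightOneSpectrum (𝓞 F), GL (Fin 2) (w.adicCompletion F) → ℂ)
      (Φ : Ω → InfinitePlace F → GL (Fin 2) ℂ → ℂ)
      (f₀ : Ω → ∀ v : HeightOneSpectrum (𝓞 ℚ), GL (Fin 2) (v.adicCompletion ℚ) → ℂ)
      (F0 F1 : Ω → GL (Fin 2) ℝ → ℂ),
      IsAvgDatQ973 (upI (K' := F) 𝔫) 𝔫 T₀ (LocAQ801 c T₀ n m) 1
        (Φ₁ []) (F₁ QWt.w0 []) (F₁ QWt.w1 []) Ω iT iM ν T T' φ₀ Φ f₀ F0 F1 →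
      Q Φe (toBase962_732 B) g 𝔫 μr μc c T₀ n n₀ m c₁ fb Ω iT iM ν T T' φ₀ Φ f₀ F0 F1

end Defs

/-! ## 2. The leaves -/

section Leaves

variable (F : Type) [Field F] [NumberField F]

/-- **LEAF PBQ.0.1 = BAD-PART over `ℚ` ([L]; T6).**  For a common part of helper60 with `3 ∈ S`
and a bad element `g`: a level `𝔫` with the level properties such that for the exponents of the
level there is a partner family.
Construction.  As `PB57.BadPartC57` with `ℓ = 2`: `𝔫 = 𝔫₀ ^ d`, `d` so large that at every bad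
place `v ≠ u` with ONE place `w` over it (inert or ramified: `3 ∈ S`) the double coset function
`1_{U(n₀ w) g_w U(n₀ w)}` has a partner at the levels `(n w, m v)` (`T6.BadMatchC` + the level
changes); at a bad place which splits: ONE `σ`-ordered enumeration of the fibre, `fb v` = the
convolution product of the two transported double coset functions.  The archimedean components
of the clause: the zero functions. -/
def BadPartQC973 : Prop :=
  HasSqrtNegThree F → IsImagQuad F →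
    ∀ (Φe : HeckeEigensystem F ℂ) (B : L2Q.H60.L2QBase F), L2Q.H60.IsL2QBase Φe B →
    L2Q.H60.IsRamQ60 B →
    ∀ g : G F, B.IsBad g →
      ∃ 𝔫 : Ideal (𝓞 ℚ), CQ57.IsLevQ57 (toBase962_732 B) 𝔫 ∧
        ∀ (T₀ : Finset (HeightOneSpectrum (𝓞 ℚ)))
          (n n₀ : HeightOneSpectrum (𝓞 F) → ℕ) (m : HeightOneSpectrum (𝓞 ℚ) → ℕ),
          CQ57.IsLevFnQ57 (toBase962_732 B) 𝔫 T₀ n n₀ m →
          ∃ fb : ∀ v : HeightOneSpectrum (𝓞 ℚ), GL (Fin 2) (v.adicCompletion ℚ) → ℂ,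
            IsBadPartQ973 (toBase962_732 B) g 𝔫 T₀ n n₀ m fb

/-- **LEAF PBQ.0.U0 = SWAP-UP-SUM ([M]; THE KEY IDENTITY upstairs).**  The swapped pure tensor
is the sum of the right translates (and of the left translates) of the pure tensor by a finite
set `HU` of elements of `H` (representatives of `H / U(𝔫 𝒪_F)`): trivial at infinity and
outside `S'`, integral with integral inverse, congruent to `1` modulo `𝔑₀` outside the orbit,
Iwahori along the orbit. -/
def SwapUpSumQC973 : Prop :=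
  SwapCtxQ973 F fun _ B _ _ _ _ _ T₀ _ n₀ _ _ _ Ω _ _ _ _ T' φ₀ Φ _ _ _ =>
    ∃ HU : Finset (G F), HU.Nonempty ∧
      (∀ h ∈ HU, (∀ w : InfinitePlace F, TrivAtInf w h) ∧
        (∀ w : HeightOneSpectrum (𝓞 F), w ∉ B.S' → TrivAtFin w h) ∧
        (∀ w : HeightOneSpectrum (𝓞 F), IsIntegralAt w h ∧ IsIntegralAt w h⁻¹) ∧
        (∀ w : HeightOneSpectrum (𝓞 F), (∀ j < 2, w ≠ B.o j) → ∀ i j : Fin 2,
          (finComp w h - 1) i j ∈ idealClosure B.𝔑₀ w ∧
            (finComp w h⁻¹ - 1) i j ∈ idealClosure B.𝔑₀ w) ∧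
        ∀ j < 2, T5.InIwahori (B.o j) h) ∧
      ∀ (ω : Ω) (x : G F),
        pure305 (T' ω) (swUpQ973 B T₀ n₀ (φ₀ ω)) (Φ ω) x
            = ∑ h ∈ HU, pure305 (T' ω) (φ₀ ω) (Φ ω) (x * h⁻¹) ∧
          pure305 (T' ω) (swUpQ973 B T₀ n₀ (φ₀ ω)) (Φ ω) x
            = ∑ h ∈ HU, pure305 (T' ω) (φ₀ ω) (Φ ω) (h⁻¹ * x)

/-- **LEAF PBQ.0.D0 = SWAP-DOWN-SUM ([M]; THE KEY IDENTITY downstairs).**  The swapped pure
tensor is a finite linear combination of left translates of the pure tensor by elements which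
are trivial at infinity and outside `T₀` and Iwahori at `u`; THE SAME combination for the two
types. -/
def SwapDnSumQC973 : Prop :=
  SwapCtxQ973 F fun _ B _ _ _ _ _ T₀ _ _ _ _ fb Ω _ _ _ T _ _ _ f₀ F0 F1 =>
    ∃ (X : Finset (G ℚ)) (c : G ℚ → ℂ),
      (∀ x ∈ X, (∀ w : InfinitePlace ℚ, TrivAtInf w x) ∧
        (∀ v : HeightOneSpectrum (𝓞 ℚ), v ∉ T₀ → TrivAtFin v x) ∧ T5.InIwahori B.u x) ∧
      ∀ (t : QWt) (ω : Ω) (y : G ℚ),
        pureQ298 (T ω) (swDnQ973 B T₀ fb (f₀ ω)) (archQ973 F0 F1 t ω) y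
          = ∑ x ∈ X, c x * pureQ298 (T ω) (f₀ ω) (archQ973 F0 F1 t ω) (x⁻¹ * y)

/-- **LEAF PBQ.0.U1 = SWAP-UP-TEST** (field `up_test`). -/
def SwapUpTestQC973 : Prop :=
  SwapCtxQ973 F fun _ B _ 𝔫 _ _ _ T₀ _ n₀ _ _ _ _ _ _ ν _ T' φ₀ Φ _ _ _ =>
    T5.IsTestFn (upI (K' := F) 𝔫) T5.trivType (swapUpFnQ973 B T₀ n₀ ν T' φ₀ Φ)

/-- **LEAF PBQ.0.U2 = SWAP-UP-EK** (field `up_ek`). -/
def SwapUpEKQC973 : Prop :=
  SwapCtxQ973 F fun _ B _ _ _ _ _ T₀ _ n₀ _ _ _ _ _ _ ν _ T' φ₀ Φ _ _ _ =>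
    T5.IsEK B.R'.μ (swapUpFnQ973 B T₀ n₀ ν T' φ₀ Φ) ∧
      T5.IsEK B.R'.μ (T5.adjointFn (swapUpFnQ973 B T₀ n₀ ν T' φ₀ Φ))

/-- **LEAF PBQ.0.U3 = SWAP-UP-INV** (field `up_inv`). -/
def SwapUpInvQC973 : Prop :=
  SwapCtxQ973 F fun _ B _ _ _ _ _ T₀ _ n₀ _ _ _ _ _ _ ν _ T' φ₀ Φ _ _ _ =>
    H193.IsBiHInv B.𝔑₀ 2 B.o (swapUpFnQ973 B T₀ n₀ ν T' φ₀ Φ)

/-- **LEAF PBQ.0.U4 = SWAP-UP-OP** (fields `up_op`, `up_ne`): `c₂ = [H : U] · c₁`. -/
def SwapUpOpQC973 : Prop :=
  SwapCtxQ973 F fun Φe B _ _ _ _ _ T₀ _ n₀ _ _ _ _ _ _ ν _ T' φ₀ Φ _ _ _ =>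
    ∃ c₂ : EigData F → ℂ,
      (∀ (ψ : G F → ℂ) (C : EigData F), IsEigFn B.𝔑₀ B.R'.r 2 B.o ψ C →
        ∀ x : G F, T5.Rconv B.R'.μ (swapUpFnQ973 B T₀ n₀ ν T' φ₀ Φ) ψ x = c₂ C * ψ x) ∧
      ∀ C : EigData F, C.AgreeOut B.S' (eigOf Φe) → c₂ C ≠ 0

/-- **LEAF PBQ.0.U5 = SWAP-UP-SUPP** (field `up_supp`). -/
def SwapUpSuppQC973 : Prop :=
  SwapCtxQ973 F fun _ B _ _ _ _ _ T₀ _ n₀ _ _ _ _ _ _ ν _ T' φ₀ Φ _ _ _ =>
    ∃ C : Set (G F), IsCompact C ∧
      T5.H32.IsIwSupported32 2 B.o C (swapUpFnQ973 B T₀ n₀ ν T' φ₀ Φ)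

/-- **LEAF PBQ.0.U6 = SWAP-MEM-UP** (the members of the average upstairs: test functions,
jointly continuous, supported in one compact set). -/
def SwapMemUpQC973 : Prop :=
  SwapCtxQ973 F fun _ B _ 𝔫 _ _ _ T₀ _ n₀ _ _ _ Ω _ _ _ _ T' φ₀ Φ _ _ _ =>
    (∀ ω : Ω, T5.IsTestFn (upI (K' := F) 𝔫) T5.trivType
      (pure305 (T' ω) (swUpQ973 B T₀ n₀ (φ₀ ω)) (Φ ω))) ∧
    Continuous (fun p : Ω × G F =>
      pure305 (T' p.1) (swUpQ973 B T₀ n₀ (φ₀ p.1)) (Φ p.1) p.2) ∧
    ∃ C : Set (G F), IsCompact C ∧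
      ∀ (ω : Ω) (h : G F), pure305 (T' ω) (swUpQ973 B T₀ n₀ (φ₀ ω)) (Φ ω) h ≠ 0 → h ∈ C

/-- **LEAF PBQ.0.D1 = SWAP-DOWN-TEST** (field `dn_test`, the two types). -/
def SwapDnTestQC973 : Prop :=
  SwapCtxQ973 F fun _ B _ 𝔫 _ _ _ T₀ _ _ _ _ fb _ _ _ ν T _ _ _ f₀ F0 F1 =>
    ∀ (a : ℂ) (t : QWt),
      T5.IsTestFn 𝔫 t.type (swapDnFnQ973 B T₀ fb a ν T f₀ (archQ973 F0 F1 t))

/-- **LEAF PBQ.0.D2 = SWAP-DOWN-EK** (field `dn_ek`, the two types). -/
def SwapDnEKQC973 : Prop :=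
  SwapCtxQ973 F fun _ B _ _ _ _ _ T₀ _ _ _ _ fb _ _ _ ν T _ _ _ f₀ F0 F1 =>
    ∀ (a : ℂ) (t : QWt),
      T5.IsEK B.R.μ (swapDnFnQ973 B T₀ fb a ν T f₀ (archQ973 F0 F1 t)) ∧
        T5.IsEK B.R.μ (T5.adjointFn (swapDnFnQ973 B T₀ fb a ν T f₀ (archQ973 F0 F1 t)))

/-- **LEAF PBQ.0.D3 = SWAP-DOWN-INV** (field `dn_inv`, the two types). -/
def SwapDnInvQC973 : Prop :=
  SwapCtxQ973 F fun _ B _ 𝔫 _ _ _ T₀ _ _ _ _ fb _ _ _ ν T _ _ _ f₀ F0 F1 =>
    ∀ (a : ℂ) (t : QWt),
      H193.IsBiHInv 𝔫 1 (fun _ => B.u) (swapDnFnQ973 B T₀ fb a ν T f₀ (archQ973 F0 F1 t))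

/-- **LEAF PBQ.0.D4 = SWAP-DOWN-OP** (fields `dn_wfn`, `dn_class`, `dn_comm`, the two types). -/
def SwapDnOpQC973 : Prop :=
  SwapCtxQ973 F fun _ B _ 𝔫 _ _ _ T₀ _ _ _ _ fb _ _ _ ν T _ _ _ f₀ F0 F1 =>
    ∀ (a : ℂ) (t : QWt),
      (∀ ψ : G ℚ → ℂ, IsWFnQ t 𝔫 B.R.r B.u ψ →
        IsWFnQ t 𝔫 B.R.r B.u
          (T5.Rconv B.R.μ (swapDnFnQ973 B T₀ fb a ν T f₀ (archQ973 F0 F1 t)) ψ)) ∧
      (∀ (ψ : G ℚ → ℂ) (c : EigData ℚ), IsEigFnQ t 𝔫 B.R.r B.u ψ c →
        IsEigFnQ t 𝔫 B.R.r B.u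
          (T5.Rconv B.R.μ (swapDnFnQ973 B T₀ fb a ν T f₀ (archQ973 F0 F1 t)) ψ) c) ∧
      ∀ ψ : G ℚ → ℂ, IsWFnQ t 𝔫 B.R.r B.u ψ →
        ∀ (H : Finset (G ℚ)) (z : G ℚ), IsIwCosetSystem B.u H →
          IsScalarUniformizerAt B.u z →
          (∀ x : G ℚ,
            T5.Rconv B.R.μ (swapDnFnQ973 B T₀ fb a ν T f₀ (archQ973 F0 F1 t))
                (iwOp B.u H ψ) x
              = iwOp B.u H
                (T5.Rconv B.R.μ (swapDnFnQ973 B T₀ fb a ν T f₀ (archQ973 F0 F1 t)) ψ) x) ∧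
          ∀ (k : ℤ) (x : G ℚ),
            T5.Rconv B.R.μ (swapDnFnQ973 B T₀ fb a ν T f₀ (archQ973 F0 F1 t))
                (shiftOp z k ψ) x
              = shiftOp z k
                (T5.Rconv B.R.μ (swapDnFnQ973 B T₀ fb a ν T f₀ (archQ973 F0 F1 t)) ψ) x

/-- **LEAF PBQ.0.D5 = SWAP-DOWN-SUPP** (field `dn_supp`, the two types). -/
def SwapDnSuppQC973 : Prop :=
  SwapCtxQ973 F fun _ B _ _ _ _ _ T₀ _ _ _ _ fb _ _ _ ν T _ _ _ f₀ F0 F1 =>
    ∀ (a : ℂ) (t : QWt), ∃ C : Set (G ℚ), IsCompact C ∧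
      T5.H32.IsIwSupported32 1 (fun _ => B.u) C
        (swapDnFnQ973 B T₀ fb a ν T f₀ (archQ973 F0 F1 t))

/-- **LEAF PBQ.0.D6 = SWAP-MEM-DOWN** (the members of the average downstairs, the two
types). -/
def SwapMemDnQC973 : Prop :=
  SwapCtxQ973 F fun _ B _ 𝔫 _ _ _ T₀ _ _ _ _ fb Ω _ _ _ T _ _ _ f₀ F0 F1 =>
    ∀ (a : ℂ) (t : QWt),
      (∀ ω : Ω, T5.IsTestFn 𝔫 t.type
        (fun h => a * pureQ298 (T ω) (swDnQ973 B T₀ fb (f₀ ω)) (archQ973 F0 F1 t ω) h)) ∧
      Continuous (fun p : Ω × G ℚ =>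
        a * pureQ298 (T p.1) (swDnQ973 B T₀ fb (f₀ p.1)) (archQ973 F0 F1 t p.1) p.2) ∧
      ∃ C : Set (G ℚ), IsCompact C ∧
        ∀ (ω : Ω) (h : G ℚ),
          pureQ298 (T ω) (swDnQ973 B T₀ fb (f₀ ω)) (archQ973 F0 F1 t ω) h ≠ 0 → h ∈ C

/-- **LEAF PBQ.0.L = SWAP-LOC ([S]).**  The swapped components satisfy the local condition
`CQ801.LocBQ801` of the second pair: the first clause from the partner family
(`IsBadPartQ973.hyp`; `LocHypQb801` for the set `T₀ ∖ {u}` looks at the components at these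
places only), the values of the swaps (the place under a place of `F` is unique),
`SphOut893` and `ArchOkQ801 c` unchanged. -/
def SwapLocQC973 : Prop :=
  SwapCtxQ973 F fun _ B g 𝔫 μr μc c T₀ n n₀ m _ fb Ω _ _ _ T _ φ₀ Φ f₀ F0 F1 =>
    ∀ ω : Ω, LocBQ801 B g 𝔫 μr μc c T₀ n n₀ m (T ω) (swUpQ973 B T₀ n₀ (φ₀ ω)) (Φ ω)
      (swDnQ973 B T₀ fb (f₀ ω)) (F0 ω) (F1 ω)

/-- **THE OPEN LEAVES OF THE SWAP over `ℚ`** (the key identities `SwapUpSumQC973`,
`SwapDnSumQC973` are tools for the provers and do not enter the top). -/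
structure OpenSwapQ973 : Prop where
  upTest : SwapUpTestQC973 F
  upEK : SwapUpEKQC973 F
  upInv : SwapUpInvQC973 F
  upOp : SwapUpOpQC973 F
  upSupp : SwapUpSuppQC973 F
  memUp : SwapMemUpQC973 F
  dnTest : SwapDnTestQC973 F
  dnEK : SwapDnEKQC973 F
  dnInv : SwapDnInvQC973 F
  dnOp : SwapDnOpQC973 F
  dnSupp : SwapDnSuppQC973 F
  memDn : SwapMemDnQC973 F
  loc : SwapLocQC973 F

end Leaves

/-! ## Appendix: the equation lemmas of the definitions of this file are realised HERE -/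

theorem eqns_realised_preBQSpec973 : True := by
  have _h0_0 := @swUpQ973.eq_1
  have _h0_1 := @swUpQ973.eq_def
  have _h0_2 := @swUpQ973.eq_unfold
  have _h1_0 := @swDnQ973.eq_1
  have _h1_1 := @swDnQ973.eq_def
  have _h1_2 := @swDnQ973.eq_unfold
  have _h2_0 := @swapUpFnQ973.eq_1
  have _h2_1 := @swapUpFnQ973.eq_def
  have _h2_2 := @swapUpFnQ973.eq_unfold
  have _h3_0 := @swapDnFnQ973.eq_1
  have _h3_1 := @swapDnFnQ973.eq_def
  have _h3_2 := @swapDnFnQ973.eq_unfold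
  have _h4_0 := @IsAvgDatQ973.eq_1
  have _h4_1 := @IsAvgDatQ973.eq_def
  have _h4_2 := @IsAvgDatQ973.eq_unfold
  have _h5_0 := @SwapCtxQ973.eq_1
  have _h5_1 := @SwapCtxQ973.eq_def
  have _h5_2 := @SwapCtxQ973.eq_unfold
  have _h6_0 := @BadPartQC973.eq_1
  have _h6_1 := @BadPartQC973.eq_def
  have _h6_2 := @BadPartQC973.eq_unfold
  have _h7_0 := @SwapUpSumQC973.eq_1
  have _h7_1 := @SwapUpSumQC973.eq_def
  have _h7_2 := @SwapUpSumQC973.eq_unfold
  have _h8_0 := @SwapDnSumQC973.eq_1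
  have _h8_1 := @SwapDnSumQC973.eq_def
  have _h8_2 := @SwapDnSumQC973.eq_unfold
  have _h9_0 := @SwapUpTestQC973.eq_1
  have _h9_1 := @SwapUpTestQC973.eq_def
  have _h9_2 := @SwapUpTestQC973.eq_unfold
  have _h10_0 := @SwapUpEKQC973.eq_1
  have _h10_1 := @SwapUpEKQC973.eq_def
  have _h10_2 := @SwapUpEKQC973.eq_unfold
  have _h11_0 := @SwapUpInvQC973.eq_1
  have _h11_1 := @SwapUpInvQC973.eq_def
  have _h11_2 := @SwapUpInvQC973.eq_unfold
  have _h12_0 := @SwapUpOpQC973.eq_1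
  have _h12_1 := @SwapUpOpQC973.eq_def
  have _h12_2 := @SwapUpOpQC973.eq_unfold
  have _h13_0 := @SwapUpSuppQC973.eq_1
  have _h13_1 := @SwapUpSuppQC973.eq_def
  have _h13_2 := @SwapUpSuppQC973.eq_unfold
  have _h14_0 := @SwapMemUpQC973.eq_1
  have _h14_1 := @SwapMemUpQC973.eq_def
  have _h14_2 := @SwapMemUpQC973.eq_unfold
  have _h15_0 := @SwapDnTestQC973.eq_1
  have _h15_1 := @SwapDnTestQC973.eq_def
  have _h15_2 := @SwapDnTestQC973.eq_unfold
  have _h16_0 := @SwapDnEKQC973.eq_1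
  have _h16_1 := @SwapDnEKQC973.eq_def
  have _h16_2 := @SwapDnEKQC973.eq_unfold
  have _h17_0 := @SwapDnInvQC973.eq_1
  have _h17_1 := @SwapDnInvQC973.eq_def
  have _h17_2 := @SwapDnInvQC973.eq_unfold
  have _h18_0 := @SwapDnOpQC973.eq_1
  have _h18_1 := @SwapDnOpQC973.eq_def
  have _h18_2 := @SwapDnOpQC973.eq_unfold
  have _h19_0 := @SwapDnSuppQC973.eq_1
  have _h19_1 := @SwapDnSuppQC973.eq_def
  have _h19_2 := @SwapDnSuppQC973.eq_unfold
  have _h20_0 := @SwapMemDnQC973.eq_1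
  have _h20_1 := @SwapMemDnQC973.eq_def
  have _h20_2 := @SwapMemDnQC973.eq_unfold
  have _h21_0 := @SwapLocQC973.eq_1
  have _h21_1 := @SwapLocQC973.eq_def
  have _h21_2 := @SwapLocQC973.eq_unfold
  have _h22_0 := @archQ973.eq_1
  have _h22_1 := @archQ973.eq_def
  have _h22_2 := @archQ973.eq_unfold
  trivial

end Fermat.Agent.LT.T7.PBQ973

end

end
-- ===== PACK-END LT/T7/H973/PreBQSpec.lean

-- ===== PACK-BEGIN LT/T7/H973/SwapLocQ.lean
section




/-!
# Row LT, tower T7, leaf T7.L2Q.1.H2a.B.0.L `PBQ973.SwapLocQC973` (helper973):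
# the swapped components satisfy the local condition `CQ801.LocBQ801` -- CLOSED, UNCONDITIONAL

OFF-MAIN.  Complete proofs, nothing assumed.  ADDITIVE (new names only, suffix `973`).

    swapLocQC973 (F) : PBQ973.SwapLocQC973 F          (VERBATIM)

Proof.  The first clause: `IsBadPartQ973.hyp` for the Haar measures; `LocHypQb801 … T …` looks at
the components downstairs at the places of `T = T₀ ∖ {u}` only, where `swDnQ973 … fb f₀ = fb`.
The values of the swaps: the place under a place of `F` is unique (`H557.placeOver_unique_557`).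
`SphOut893`: the swaps do not touch the places outside `T₀` (`u ∈ T₀`: `IsLevQ57.u_level`,
`IsLevFnQ57.div`).  `ArchOkQ801 c`: from the first pair.
-/

set_option autoImplicit false
set_option linter.unusedSectionVars false
set_option linter.unusedVariables false

open AutomorphicForm IsDedekindDomain NumberField MeasureTheory
open scoped ComplexConjugate

noncomputable section

namespace Fermat.Agent.LT.T7.PBQ973

open Fermat.Agent.LT.H556 Fermat.Agent.LT.H556.A0 Fermat.Agent.LT.T7 Fermat.Agent.LT.T7.H305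
  Fermat.Agent.LT.T7.L2Q Fermat.Agent.LT.T7.H893 Fermat.Agent.LT.T7.H962
  Fermat.Agent.LT.T7.H732 Fermat.Agent.LT.T7.MQ298 Fermat.Agent.LT.T7.CQ801

attribute [local instance] Fermat.Agent.LT.T5.instMeasurableSpaceG

section Values

variable {F : Type} [Field F] [NumberField F]

open Classical in
/-- The swap downstairs at `u`. -/
theorem swDnQ_u973 (B : L2QBase962 F) (T₀ : Finset (HeightOneSpectrum (𝓞 ℚ)))
    (fb f₀ : ∀ v : HeightOneSpectrum (𝓞 ℚ), GL (Fin 2) (v.adicCompletion ℚ) → ℂ) :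
    swDnQ973 B T₀ fb f₀ B.u = iwFn893 := by
  show (if B.u = B.u then iwFn893 else if B.u ∈ T₀ then fb B.u else f₀ B.u) = iwFn893
  rw [if_pos rfl]

open Classical in
/-- The swap downstairs at a place of the level different from `u`. -/
theorem swDnQ_bad973 (B : L2QBase962 F) (T₀ : Finset (HeightOneSpectrum (𝓞 ℚ)))
    (fb f₀ : ∀ v : HeightOneSpectrum (𝓞 ℚ), GL (Fin 2) (v.adicCompletion ℚ) → ℂ)
    {v : HeightOneSpectrum (𝓞 ℚ)} (hv : v ∈ T₀) (hu : v ≠ B.u) :
    swDnQ973 B T₀ fb f₀ v = fb v := by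
  show (if v = B.u then iwFn893 else if v ∈ T₀ then fb v else f₀ v) = fb v
  rw [if_neg hu, if_pos hv]

open Classical in
/-- The swap downstairs outside the level. -/
theorem swDnQ_out973 (B : L2QBase962 F) (T₀ : Finset (HeightOneSpectrum (𝓞 ℚ)))
    (fb f₀ : ∀ v : HeightOneSpectrum (𝓞 ℚ), GL (Fin 2) (v.adicCompletion ℚ) → ℂ)
    {v : HeightOneSpectrum (𝓞 ℚ)} (hv : v ∉ T₀) (hu : v ≠ B.u) :
    swDnQ973 B T₀ fb f₀ v = f₀ v := by
  show (if v = B.u then iwFn893 else if v ∈ T₀ then fb v else f₀ v) = f₀ v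
  rw [if_neg hu, if_neg hv]

open Classical in
/-- The swap upstairs at a place over `u`. -/
theorem swUpQ_u973 (B : L2QBase962 F) (T₀ : Finset (HeightOneSpectrum (𝓞 ℚ)))
    (n₀ : HeightOneSpectrum (𝓞 F) → ℕ)
    (φ₀ : ∀ w : HeightOneSpectrum (𝓞 F), GL (Fin 2) (w.adicCompletion F) → ℂ)
    {w : HeightOneSpectrum (𝓞 F)} (hw : PlaceOver ℚ F B.u w) :
    swUpQ973 B T₀ n₀ φ₀ w = iwFn893 := by
  show (if PlaceOver ℚ F B.u w then iwFn893
    else if ∃ v ∈ T₀, PlaceOver ℚ F v w then unitFn893 (n₀ w) else φ₀ w) = iwFn893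
  rw [if_pos hw]

open Classical in
/-- The swap upstairs at a place over a place of the level different from `u`. -/
theorem swUpQ_bad973 (B : L2QBase962 F) (T₀ : Finset (HeightOneSpectrum (𝓞 ℚ)))
    (n₀ : HeightOneSpectrum (𝓞 F) → ℕ)
    (φ₀ : ∀ w : HeightOneSpectrum (𝓞 F), GL (Fin 2) (w.adicCompletion F) → ℂ)
    {v : HeightOneSpectrum (𝓞 ℚ)} (hv : v ∈ T₀) (hu : v ≠ B.u)
    {w : HeightOneSpectrum (𝓞 F)} (hw : PlaceOver ℚ F v w) :
    swUpQ973 B T₀ n₀ φ₀ w = unitFn893 (n₀ w) := by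
  show (if PlaceOver ℚ F B.u w then iwFn893
    else if ∃ v ∈ T₀, PlaceOver ℚ F v w then unitFn893 (n₀ w) else φ₀ w) = unitFn893 (n₀ w)
  have h1 : ¬ PlaceOver ℚ F B.u w := fun h => hu (H557.placeOver_unique_557 hw h)
  rw [if_neg h1, if_pos ⟨v, hv, hw⟩]

open Classical in
/-- The swap upstairs at a place over a place outside the level. -/
theorem swUpQ_out973 (B : L2QBase962 F) (T₀ : Finset (HeightOneSpectrum (𝓞 ℚ)))
    (n₀ : HeightOneSpectrum (𝓞 F) → ℕ)
    (φ₀ : ∀ w : HeightOneSpectrum (𝓞 F), GL (Fin 2) (w.adicCompletion F) → ℂ)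
    {v : HeightOneSpectrum (𝓞 ℚ)} (hv : v ∉ T₀) (hu : v ≠ B.u)
    {w : HeightOneSpectrum (𝓞 F)} (hw : PlaceOver ℚ F v w) :
    swUpQ973 B T₀ n₀ φ₀ w = φ₀ w := by
  show (if PlaceOver ℚ F B.u w then iwFn893
    else if ∃ v ∈ T₀, PlaceOver ℚ F v w then unitFn893 (n₀ w) else φ₀ w) = φ₀ w
  have h1 : ¬ PlaceOver ℚ F B.u w := fun h => hu (H557.placeOver_unique_557 hw h)
  have h2 : ¬ ∃ v' ∈ T₀, PlaceOver ℚ F v' w := by
    rintro ⟨v', hv', hw'⟩
    exact hv (H557.placeOver_unique_557 hw' hw ▸ hv')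
  rw [if_neg h1, if_neg h2]

/-- **The local hypotheses look at the components downstairs at the places of `T` only.** -/
theorem locHypQb_congr973 {D : CompData ℚ F} {μr : @Measure (GL (Fin 2) ℝ) (borel _)}
    {μc : @Measure (GL (Fin 2) ℂ) (borel _)} {T : Finset (HeightOneSpectrum (𝓞 ℚ))}
    {n : HeightOneSpectrum (𝓞 F) → ℕ} {m : HeightOneSpectrum (𝓞 ℚ) → ℕ}
    {φ₀ : ∀ w : HeightOneSpectrum (𝓞 F), GL (Fin 2) (w.adicCompletion F) → ℂ}
    {Φ : InfinitePlace F → GL (Fin 2) ℂ → ℂ}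
    {f₀ f₀' : ∀ v : HeightOneSpectrum (𝓞 ℚ), GL (Fin 2) (v.adicCompletion ℚ) → ℂ}
    {F0 F1 : GL (Fin 2) ℝ → ℂ} (h : LocHypQb801 D μr μc T n m φ₀ Φ f₀ F0 F1)
    (he : ∀ v ∈ T, f₀' v = f₀ v) : LocHypQb801 D μr μc T n m φ₀ Φ f₀' F0 F1 where
  inv_up := h.inv_up
  inv_down := fun v hv => by rw [he v hv]; exact h.inv_down v hv
  arch_up := h.arch_up
  arch_down0 := h.arch_down0
  arch_down1 := h.arch_down1
  inert := fun v hv => by rw [he v hv]; exact h.inert v hv
  split := fun v hv => by rw [he v hv]; exact h.split v hv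
  arch := h.arch

end Values

section Leaf

variable (F : Type) [Field F] [NumberField F]

open Classical in
/-- **LEAF PBQ.0.L = SWAP-LOC**, VERBATIM. -/
theorem swapLocQC973 : SwapLocQC973 F := by
  intro h3 hquad Φe B hB hram g hg 𝔫 hlev μr μc hμr hμc T₀ n n₀ m hexp c hc c₁ Φ₁ F₁ hpa fb hfb
    Ω iT iC i2 iS iM iB ν iF T T' φ₀ Φ f₀ F0 F1 hd ω
  obtain ⟨-, -, hunit_dn, hunit_up, hsph, harch⟩ := hd.1 ω
  have huT : (toBase962_732 B).u ∈ T₀ := (hexp.div _).2 hlev.u_level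
  obtain ⟨Φd, F0d, F1d, hhyp⟩ := hfb.hyp μr μc hμr hμc
  refine ⟨⟨Φd, F0d, F1d, locHypQb_congr973 hhyp fun v hv => ?_⟩, fun v hv hu w hw => ?_,
    swDnQ_u973 _ T₀ fb (f₀ ω), fun w hw => swUpQ_u973 _ T₀ n₀ (φ₀ ω) hw, ?_, harch⟩
  · exact swDnQ_bad973 _ T₀ fb (f₀ ω) (Finset.mem_of_mem_erase hv) (Finset.ne_of_mem_erase hv)
  · exact swUpQ_bad973 _ T₀ n₀ (φ₀ ω) hv hu hw
  · intro v hvT hv0
    have hu : v ≠ (toBase962_732 B).u := fun h => hv0 (h ▸ huT)
    obtain ⟨A, Av, h1, h2, h3', h4⟩ := hsph v hvT hv0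
    refine ⟨A, Av, ?_, fun w hw => ?_, h3', h4⟩
    · rw [swDnQ_out973 _ T₀ fb (f₀ ω) hv0 hu]
      exact h1
    · rw [swUpQ_out973 _ T₀ n₀ (φ₀ ω) hv0 hu hw]
      exact h2 w hw

/-- The frozen Prop, VERBATIM. -/
example : Fermat.Agent.LT.T7.PBQ973.SwapLocQC973 F := swapLocQC973 F

end Leaf

end Fermat.Agent.LT.T7.PBQ973

end

end
-- ===== PACK-END LT/T7/H973/SwapLocQ.lean

-- ===== PACK-BEGIN LT/T7/H973/SwapUpSumQ.lean
section




/-!
# Row LT, tower T7, leaf PBQ.0.U0 `PBQ973.SwapUpSumQC973` (registry row 3130): THE KEY IDENTITY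
# UPSTAIRS over `ℚ` (helper973, SPARE of the node owner; OFF-MAIN)

`swapUpSumQC973 (F) : PBQ973.SwapUpSumQC973 F`, VERBATIM against `LT/T7/H973/PreBQSpec.lean`
(sha256 200eee4e).  UNCONDITIONAL.  No hole, nothing assumed.  ADDITIVE (new names only, all
suffixed `973`).

Proof.  Q-mirror of `H510.swapUpSumC_h510` (helper510, `T7/H510/SwapUpSum.lean`), whose local
lemmas and lemmas on ONE number field are used as they are: `HU` = the products over
`w ∈ S'` of local representatives of `H_w / U(n w)`, `H_w` the Iwahori subgroup over `u` and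
`U(n₀ w)` at the other places of `S'`.  The three lemmas on the levels are proved again for the
level structures over `ℚ` (`CQ57.IsLevQ57`, `CQ57.IsLevFnQ57`).
-/

set_option autoImplicit false
set_option linter.unusedSectionVars false
set_option linter.style.haveILetI false
set_option linter.unusedVariables false

open AutomorphicForm IsDedekindDomain NumberField MeasureTheory

noncomputable section

namespace Fermat.Agent.LT.T7.PBQ973

open Fermat.Agent.LT Fermat.Agent.LT.H556 Fermat.Agent.LT.H556.A0 Fermat.Agent.LT.T7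
open Fermat.Agent.LT.T7.H893 Fermat.Agent.LT.T7.H305 Fermat.Agent.LT.T7.Q797
open Fermat.Agent.LT.H129 Fermat.Agent.LT.T7.H510
open Fermat.Agent.LT.T7.L2Q Fermat.Agent.LT.T7.H962 Fermat.Agent.LT.T7.H732
open Fermat.Agent.LT.T7.MQ298 Fermat.Agent.LT.T7.CQ801

attribute [local instance] Fermat.Agent.LT.T5.instMeasurableSpaceG

/-! ## 1. The levels over `ℚ` -/

section Levels

variable {F : Type} [Field F] [NumberField F]

/-- `S'` is the set of the places over `T₀`. -/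
theorem mem_S'_iffSU973 {B : L2QBase962 F} {𝔫 : Ideal (𝓞 ℚ)}
    {T₀ : Finset (HeightOneSpectrum (𝓞 ℚ))}
    {n n₀ : HeightOneSpectrum (𝓞 F) → ℕ} {m : HeightOneSpectrum (𝓞 ℚ) → ℕ}
    (hlev : CQ57.IsLevQ57 B 𝔫) (hexp : CQ57.IsLevFnQ57 B 𝔫 T₀ n n₀ m)
    (w : HeightOneSpectrum (𝓞 F)) :
    w ∈ B.S' ↔ ∃ v ∈ T₀, PlaceOver ℚ F v w := by
  rw [hlev.mem_S'_g w, Ideal.dvd_iff_le]
  constructor
  · intro hw
    obtain ⟨v, hv⟩ := exists_placeUnder_M510 (K := ℚ) w
    refine ⟨v, (hexp.div v).2 ?_, hv⟩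
    rw [Ideal.dvd_iff_le]
    intro x hx
    exact (hv x (algebraMap (𝓞 ℚ) (𝓞 F) x) rfl).2 (hw (Ideal.mem_map_of_mem _ hx))
  · rintro ⟨v, hvT, hv⟩
    have h1 : 𝔫 ≤ v.asIdeal := Ideal.dvd_iff_le.1 ((hexp.div v).1 hvT)
    show Ideal.map (algebraMap (𝓞 ℚ) (𝓞 F)) 𝔫 ≤ w.asIdeal
    rw [Ideal.map_le_iff_le_comap]
    intro x hx
    exact (hv x (algebraMap (𝓞 ℚ) (𝓞 F) x) rfl).1 (h1 hx)

/-- `n₀ w ≤ n w`. -/
theorem level_ge_baseSU973 {B : L2QBase962 F} {𝔫 : Ideal (𝓞 ℚ)}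
    {T₀ : Finset (HeightOneSpectrum (𝓞 ℚ))}
    {n n₀ : HeightOneSpectrum (𝓞 F) → ℕ} {m : HeightOneSpectrum (𝓞 ℚ) → ℕ}
    (hlev : CQ57.IsLevQ57 B 𝔫) (hexp : CQ57.IsLevFnQ57 B 𝔫 T₀ n n₀ m)
    (w : HeightOneSpectrum (𝓞 F)) :
    n₀ w ≤ n w := by
  obtain ⟨π, hπ⟩ := w.valuation_exists_uniformizer F
  have hx := val_unif_pow_M510 w π hπ (n w)
  have h1 : (algebraMap F (w.adicCompletion F) π) ^ (n w)
      ∈ idealClosure (upI (K' := F) 𝔫) w := (hexp.lev_up w _).2 (le_of_eq hx)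
  have h2 : (algebraMap F (w.adicCompletion F) π) ^ (n w) ∈ idealClosure B.𝔑₀ w :=
    closure_mono (Set.image_mono hlev.level_g) h1
  have h3 := (hexp.lev_base w _).1 h2
  rw [hx, WithZero.exp_le_exp] at h3
  omega

/-- `1 ≤ n w` at the places of `S'`. -/
theorem level_posSU973 {B : L2QBase962 F} {𝔫 : Ideal (𝓞 ℚ)}
    {T₀ : Finset (HeightOneSpectrum (𝓞 ℚ))}
    {n n₀ : HeightOneSpectrum (𝓞 F) → ℕ} {m : HeightOneSpectrum (𝓞 ℚ) → ℕ}
    (hlev : CQ57.IsLevQ57 B 𝔫) (hexp : CQ57.IsLevFnQ57 B 𝔫 T₀ n n₀ m)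
    {w : HeightOneSpectrum (𝓞 F)}
    (hw : w ∈ B.S') : 1 ≤ n w := by
  by_contra hn
  have h0 : n w = 0 := by omega
  have hle : upI (K' := F) 𝔫 ≤ w.asIdeal := Ideal.dvd_iff_le.1 ((hlev.mem_S'_g w).1 hw)
  have h1 : (1 : w.adicCompletion F) ∈ idealClosure (upI (K' := F) 𝔫) w := by
    refine (hexp.lev_up w 1).2 ?_
    rw [h0]
    simp
  have hcl : IsClosed {y : w.adicCompletion F | Valued.v y < 1} := by
    have h := Valued.isClosed_ball (w.adicCompletion F)
      ((Valued.v : Valuation (w.adicCompletion F) _).restrict 1)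
    have e : {y : w.adicCompletion F | Valued.v y < 1}
        = {y | (Valued.v : Valuation (w.adicCompletion F) _).restrict y
            < (Valued.v : Valuation (w.adicCompletion F) _).restrict 1} := by
      ext y
      simp only [Set.mem_ofPred_eq]
      rw [Valuation.restrict_lt_iff, map_one]
    rw [e]
    exact h
  have hsub : idealClosure (upI (K' := F) 𝔫) w
      ⊆ {y : w.adicCompletion F | Valued.v y < 1} := by
    refine closure_minimal ?_ hcl
    rintro _ ⟨x, hx, rfl⟩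
    show Valued.v (algebraMap F (w.adicCompletion F) (algebraMap (𝓞 F) F x)) < 1
    have h3 : Valued.v (algebraMap F (w.adicCompletion F) (algebraMap (𝓞 F) F x))
        = w.valuation F (algebraMap (𝓞 F) F x) :=
      w.valuedAdicCompletion_eq_valuation' (K := F) (algebraMap (𝓞 F) F x)
    rw [h3]
    exact (w.valuation_lt_one_iff_mem (K := F) x).2 (hle hx)
  have := hsub h1
  simp at this

end Levels

/-! ## 2. The key identity -/

section Main

open Classical in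
/-- **LEAF PBQ.0.U0 `PBQ973.SwapUpSumQC973`** (THE KEY IDENTITY upstairs over `ℚ`),
unconditional. -/
theorem swapUpSumQC973 (F : Type) [Field F] [NumberField F] : SwapUpSumQC973 F := by
  intro _ _ Φe B0 hB0 _ g _ 𝔫 hlev μr μc _ _ T₀ n n₀ m hexp c _ c₁ Φ₁ F₁ _ fb _ Ω iT _ _ _ iM _
    ν _ T T' φ₀ Φ f₀ F0 F1 hdat
  have hB : IsL2QBase962 Φe (toBase962_732 B0) := isL2QBase962_of60_732 hB0
  generalize toBase962_732 B0 = B at hB hlev hexp hdat ⊢
  have hu : B.u ∈ T₀ := (hexp.div _).2 hlev.u_level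
  have hS' := mem_S'_iffSU973 hlev hexp
  -- the local groups
  let Hw : ∀ w : HeightOneSpectrum (𝓞 F), GL (Fin 2) (w.adicCompletion F) → Prop :=
    fun w y => if PlaceOver ℚ F B.u w then InIw893 y else T6.InU (n₀ w) y
  have hloc : ∀ w : HeightOneSpectrum (𝓞 F), w ∈ B.S' →
      ∃ R : Finset (GL (Fin 2) (w.adicCompletion F)), R.Nonempty ∧ (∀ r ∈ R, Hw w r) ∧
        ∀ x : GL (Fin 2) (w.adicCompletion F),
          (∑ r ∈ R, (if T6.InU (n w) (x * r⁻¹) then (1 : ℂ) else 0))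
              = @ite ℂ (Hw w x) (Classical.propDecidable _) 1 0 ∧
            (∑ r ∈ R, (if T6.InU (n w) (r⁻¹ * x) then (1 : ℂ) else 0))
              = @ite ℂ (Hw w x) (Classical.propDecidable _) 1 0 := by
    intro w hw
    refine exists_cosetSum_K510 (T6.H176.instLocalC176 F w) (n w) (Hw w) ?_ ?_ ?_
    · intro y hy
      by_cases h : PlaceOver ℚ F B.u w
      · simp only [Hw, if_pos h] at hy
        exact inIw_inU_zero_M510 hy
      · simp only [Hw, if_neg h] at hy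
        exact inU_mono_M510 (Nat.zero_le _) hy
    · intro u y hu hy
      by_cases h : PlaceOver ℚ F B.u w
      · simp only [Hw, if_pos h] at hy ⊢
        exact inIw_mul_M510 (level_posSU973 hlev hexp hw) hu hy
      · simp only [Hw, if_neg h] at hy ⊢
        exact (T6.H420.subU (n₀ w)).mul_mem
          (inU_mono_M510 (level_ge_baseSU973 hlev hexp w) hu) hy
    · by_cases h : PlaceOver ℚ F B.u w
      · simp only [Hw, if_pos h]
        exact inIw_one_M510
      · simp only [Hw, if_neg h]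
        exact (T6.H420.subU (n₀ w)).one_mem
  choose! R hRne hRH hRsum using hloc
  -- the global elements
  let ext : (∀ w : {w // w ∈ B.S'}, GL (Fin 2) (w.1.adicCompletion F)) →
      ∀ w : HeightOneSpectrum (𝓞 F), GL (Fin 2) (w.adicCompletion F) :=
    fun hh w => if h : w ∈ B.S' then hh ⟨w, h⟩ else 1
  let glob : (∀ w : {w // w ∈ B.S'}, GL (Fin 2) (w.1.adicCompletion F)) → G F :=
    fun hh => (B.S'.toList.map fun w => locFin129 w (ext hh w)).prod
  have hext_in : ∀ hh (w : HeightOneSpectrum (𝓞 F)) (h : w ∈ B.S'), ext hh w = hh ⟨w, h⟩ :=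
    fun hh w h => dif_pos h
  have hext_out : ∀ hh (w : HeightOneSpectrum (𝓞 F)), w ∉ B.S' → ext hh w = 1 :=
    fun hh w h => dif_neg h
  have hglob_fin : ∀ hh w, finCompHom129 w (glob hh) = ext hh w := by
    intro hh w
    rw [finComp_listProd_M510 (ext hh) B.S'.toList (Finset.nodup_toList _) w]
    by_cases h : w ∈ B.S'
    · rw [if_pos (Finset.mem_toList.2 h)]
    · rw [if_neg (fun h' => h (Finset.mem_toList.1 h')), hext_out hh w h]
  have hglob_inf : ∀ hh w, infCompHom129 w (glob hh) = 1 :=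
    fun hh w => infComp_listProd_M510 (ext hh) B.S'.toList w
  let P : Finset (∀ w : {w // w ∈ B.S'}, GL (Fin 2) (w.1.adicCompletion F)) :=
    Fintype.piFinset fun w => R w.1
  have hPne : P.Nonempty := by
    have : ∀ w : {w // w ∈ B.S'}, ∃ r, r ∈ R w.1 := fun w => hRne w.1 w.2
    choose r hr using this
    exact ⟨r, Fintype.mem_piFinset.2 hr⟩
  have hinj : ∀ a ∈ P, ∀ b ∈ P, glob a = glob b → a = b := by
    intro a _ b _ hab
    funext w
    have := congrArg (finCompHom129 w.1) hab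
    rw [hglob_fin, hglob_fin, hext_in a w.1 w.2, hext_in b w.1 w.2] at this
    exact this
  refine ⟨P.image glob, hPne.image glob, ?_, ?_⟩
  · -- the properties of the elements
    intro h hh
    obtain ⟨a, ha, rfl⟩ := Finset.mem_image.1 hh
    have haR : ∀ w (hw : w ∈ B.S'), Hw w (ext a w) := by
      intro w hw
      rw [hext_in a w hw]
      exact hRH w hw _ (Fintype.mem_piFinset.1 ha ⟨w, hw⟩)
    have hU0 : ∀ w, T6.InU 0 (finCompHom129 w (glob a)) := by
      intro w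
      rw [hglob_fin]
      by_cases hw : w ∈ B.S'
      · have := haR w hw
        by_cases h : PlaceOver ℚ F B.u w
        · simp only [Hw, if_pos h] at this
          exact inIw_inU_zero_M510 this
        · simp only [Hw, if_neg h] at this
          exact inU_mono_M510 (Nat.zero_le _) this
      · rw [hext_out a w hw]
        exact (T6.H420.subU 0).one_mem
    refine ⟨fun w => (trivAtInf_iff129 w _).2 (hglob_inf a w),
      fun w hw => (trivAtFin_iff129 w _).2 (by rw [hglob_fin, hext_out a w hw]),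
      fun w => ⟨?_, ?_⟩, ?_, ?_⟩
    · intro i j
      exact (HeightOneSpectrum.mem_adicCompletionIntegers _ _ _).2
        (entry_le_one_M510 (hU0 w) i j)
    · intro i j
      have := entry_inv_le_one_M510 (hU0 w) i j
      rw [← map_inv] at this
      exact (HeightOneSpectrum.mem_adicCompletionIntegers _ _ _).2 this
    · -- congruent to `1` modulo `𝔑₀` outside the orbit
      intro w hw i j
      have hnu : ¬ PlaceOver ℚ F B.u w := by
        intro h
        obtain ⟨j', hj', hwj⟩ := hB.orbit_all w h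
        exact hw j' hj' hwj
      have hUn : T6.InU (n₀ w) (finCompHom129 w (glob a)) := by
        rw [hglob_fin]
        by_cases hw' : w ∈ B.S'
        · have := haR w hw'
          simp only [Hw, if_neg hnu] at this
          exact this
        · rw [hext_out a w hw']
          exact (T6.H420.subU (n₀ w)).one_mem
      refine ⟨(hexp.lev_base w _).2 ?_, (hexp.lev_base w _).2 ?_⟩
      · exact (hUn i j).1
      · have := (hUn i j).2
        rw [← map_inv] at this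
        exact this
    · -- Iwahori along the orbit
      intro j hj
      have hw' : B.o j ∈ B.S' := hB.orbit_level j
      have := haR (B.o j) hw'
      simp only [Hw, if_pos (hB.orbit_over j)] at this
      rw [← hglob_fin a (B.o j)] at this
      refine ⟨?_, ?_, this.2.2⟩
      · intro i j'
        exact (HeightOneSpectrum.mem_adicCompletionIntegers _ _ _).2 (this.1 i j')
      · intro i j'
        have h2 := this.2.1 i j'
        rw [← map_inv] at h2
        exact (HeightOneSpectrum.mem_adicCompletionIntegers _ _ _).2 h2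
  · -- the identities
    intro ω x
    obtain ⟨hT₀T, hOver, hLA⟩ := hdat.1 ω
    obtain ⟨-, hunit, -, -⟩ := hLA
    have hST : B.S' ⊆ T' ω := by
      intro w hw
      obtain ⟨v, hv, hvw⟩ := (hS' w).1 hw
      exact (hOver w).2 ⟨v, hT₀T hv, hvw⟩
    -- the swapped side
    have hswap : pure305 (T' ω) (swUpQ973 B T₀ n₀ (φ₀ ω)) (Φ ω) x
        = if OutT305 (T' ω) x then
            ((∏ w ∈ T' ω \ B.S', φ₀ ω w (finCompHom129 w x))
              * ∏ w : {w // w ∈ B.S'},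
                  @ite ℂ (Hw w.1 (finCompHom129 w.1 x)) (Classical.propDecidable _) 1 0)
            * ∏ w : InfinitePlace F, Φ ω w (infGL305 w x) else 0 := by
      rw [pure_transl_M510 (T' ω) B.S' hST _ _ x x (fun _ _ => rfl) (fun _ => rfl)]
      by_cases ho : OutT305 (T' ω) x
      · rw [if_pos ho, if_pos ho]
        congr 2
        · refine Finset.prod_congr rfl fun w hw => ?_
          have hwS : w ∉ B.S' := (Finset.mem_sdiff.1 hw).2
          have h1 : ¬ PlaceOver ℚ F B.u w := fun h => hwS ((hS' w).2 ⟨B.u, hu, h⟩)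
          have h2 : ¬ ∃ v ∈ T₀, PlaceOver ℚ F v w := fun h => hwS ((hS' w).2 h)
          unfold swUpQ973
          rw [if_neg h1, if_neg h2]
        · rw [← Finset.prod_coe_sort B.S']
          refine Finset.prod_congr rfl fun w _ => ?_
          have h2 : ∃ v ∈ T₀, PlaceOver ℚ F v w.1 := (hS' w.1).1 w.2
          unfold swUpQ973
          by_cases h1 : PlaceOver ℚ F B.u w.1
          · have hH : Hw w.1 (finCompHom129 w.1 x) ↔ InIw893 (finCompHom129 w.1 x) := by
              simp only [Hw, if_pos h1]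
            rw [if_pos h1]
            unfold iwFn893
            by_cases hy : InIw893 (finCompHom129 w.1 x)
            · rw [if_pos hy, if_pos (hH.2 hy)]
            · rw [if_neg hy, if_neg (fun h => hy (hH.1 h))]
          · have hH : Hw w.1 (finCompHom129 w.1 x)
                ↔ T6.InU (n₀ w.1) (finCompHom129 w.1 x) := by
              simp only [Hw, if_neg h1]
            rw [if_neg h1, if_pos h2]
            unfold unitFn893
            by_cases hy : T6.InU (n₀ w.1) (finCompHom129 w.1 x)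
            · rw [if_pos hy, if_pos (hH.2 hy)]
            · rw [if_neg hy, if_neg (fun h => hy (hH.1 h))]
      · rw [if_neg ho, if_neg ho]
    -- the translates
    have htr : ∀ a ∈ P, ∀ y : G F, (∀ w, finCompHom129 w y
          = finCompHom129 w x * (ext a w)⁻¹ ∨ finCompHom129 w y
          = (ext a w)⁻¹ * finCompHom129 w x) → (∀ w, infGL305 w y = infGL305 w x) →
        pure305 (T' ω) (φ₀ ω) (Φ ω) y
          = if OutT305 (T' ω) x then
            ((∏ w ∈ T' ω \ B.S', φ₀ ω w (finCompHom129 w x))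
              * ∏ w : {w // w ∈ B.S'},
                  (if T6.InU (n w.1) (finCompHom129 w.1 y) then (1 : ℂ) else 0))
            * ∏ w : InfinitePlace F, Φ ω w (infGL305 w x) else 0 := by
      intro a _ y hy hyinf
      have hfin : ∀ w, w ∉ B.S' → finCompHom129 w y = finCompHom129 w x := by
        intro w hw
        rcases hy w with h | h
        · rw [h, hext_out a w hw, inv_one, mul_one]
        · rw [h, hext_out a w hw, inv_one, one_mul]
      rw [pure_transl_M510 (T' ω) B.S' hST _ _ x y hfin hyinf]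
      by_cases ho : OutT305 (T' ω) x
      · rw [if_pos ho, if_pos ho]
        congr 2
        rw [← Finset.prod_coe_sort B.S']
        refine Finset.prod_congr rfl fun w _ => ?_
        obtain ⟨v, hv, hvw⟩ := (hS' w.1).1 w.2
        rw [hunit v hv w.1 hvw]
        rfl
      · rw [if_neg ho, if_neg ho]
    have hsumR : ∀ f : ∀ w : {w // w ∈ B.S'}, GL (Fin 2) (w.1.adicCompletion F) → ℂ,
        (∑ a ∈ P, ∏ w : {w // w ∈ B.S'}, f w (a w))
          = ∏ w : {w // w ∈ B.S'}, ∑ r ∈ R w.1, f w r := by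
      intro f
      exact (Finset.prod_univ_sum (fun w : {w // w ∈ B.S'} => R w.1) f).symm
    constructor
    · rw [hswap, Finset.sum_image hinj]
      have h1 : ∀ a ∈ P, pure305 (T' ω) (φ₀ ω) (Φ ω) (x * (glob a)⁻¹)
          = if OutT305 (T' ω) x then
            ((∏ w ∈ T' ω \ B.S', φ₀ ω w (finCompHom129 w x))
              * ∏ w : {w // w ∈ B.S'},
                  (if T6.InU (n w.1) (finCompHom129 w.1 x * (a w)⁻¹) then (1 : ℂ) else 0))
            * ∏ w : InfinitePlace F, Φ ω w (infGL305 w x) else 0 := by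
        intro a ha
        rw [htr a ha (x * (glob a)⁻¹)
          (fun w => Or.inl (by rw [map_mul, map_inv, hglob_fin]))
          (fun w => by rw [map_mul, map_inv, infGL_eq_one_M510 w (hglob_inf a w), inv_one,
            mul_one])]
        by_cases ho : OutT305 (T' ω) x
        · rw [if_pos ho, if_pos ho]
          congr 2
          refine Finset.prod_congr rfl fun w _ => ?_
          rw [map_mul, map_inv, hglob_fin, hext_in a w.1 w.2]
        · rw [if_neg ho, if_neg ho]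
      rw [Finset.sum_congr rfl h1]
      by_cases ho : OutT305 (T' ω) x
      · simp only [if_pos ho]
        rw [← Finset.sum_mul, ← Finset.mul_sum,
          hsumR (fun w r => if T6.InU (n w.1) (finCompHom129 w.1 x * r⁻¹) then (1 : ℂ) else 0)]
        congr 2
        refine Finset.prod_congr rfl fun w _ => ?_
        exact ((hRsum w.1 w.2 _).1).symm
      · simp only [if_neg ho, Finset.sum_const_zero]
    · rw [hswap, Finset.sum_image hinj]
      have h1 : ∀ a ∈ P, pure305 (T' ω) (φ₀ ω) (Φ ω) ((glob a)⁻¹ * x)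
          = if OutT305 (T' ω) x then
            ((∏ w ∈ T' ω \ B.S', φ₀ ω w (finCompHom129 w x))
              * ∏ w : {w // w ∈ B.S'},
                  (if T6.InU (n w.1) ((a w)⁻¹ * finCompHom129 w.1 x) then (1 : ℂ) else 0))
            * ∏ w : InfinitePlace F, Φ ω w (infGL305 w x) else 0 := by
        intro a ha
        rw [htr a ha ((glob a)⁻¹ * x)
          (fun w => Or.inr (by rw [map_mul, map_inv, hglob_fin]))
          (fun w => by rw [map_mul, map_inv, infGL_eq_one_M510 w (hglob_inf a w), inv_one,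
            one_mul])]
        by_cases ho : OutT305 (T' ω) x
        · rw [if_pos ho, if_pos ho]
          congr 2
          refine Finset.prod_congr rfl fun w _ => ?_
          rw [map_mul, map_inv, hglob_fin, hext_in a w.1 w.2]
        · rw [if_neg ho, if_neg ho]
      rw [Finset.sum_congr rfl h1]
      by_cases ho : OutT305 (T' ω) x
      · simp only [if_pos ho]
        rw [← Finset.sum_mul, ← Finset.mul_sum,
          hsumR (fun w r => if T6.InU (n w.1) (r⁻¹ * finCompHom129 w.1 x) then (1 : ℂ) else 0)]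
        congr 2
        refine Finset.prod_congr rfl fun w _ => ?_
        exact ((hRsum w.1 w.2 _).2).symm
      · simp only [if_neg ho, Finset.sum_const_zero]

end Main

end Fermat.Agent.LT.T7.PBQ973

end

end
-- ===== PACK-END LT/T7/H973/SwapUpSumQ.lean

-- ===== PACK-BEGIN LT/T7/H973/SwapDnSumQ.lean
section




/-!
# Row LT, tower T7, leaf PBQ.0.D0 `PBQ973.SwapDnSumQC973` (registry row 3131): THE KEY IDENTITY
# DOWNSTAIRS over `ℚ` (helper973, SPARE of the node owner; OFF-MAIN)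

`swapDnSumQC973 (F) : PBQ973.SwapDnSumQC973 F`, VERBATIM against `LT/T7/H973/PreBQSpec.lean`
(sha256 200eee4e).  UNCONDITIONAL.  No hole, nothing assumed.  ADDITIVE (new names only, all
suffixed `973`).

Proof.  Q-mirror of `H219.swapDnSumC219` (helper219, `T7/H219/SwapDnSum.lean`), whose local
and gluing lemmas (stated for ONE number field) are used as they are with the field `ℚ`:
at `v ∈ T₀` the swapped component `ψ_v` (the Iwahori function at `u`, the partner `fb v`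
elsewhere) is right invariant under `U(m v)` with finite support modulo `U(m v)`, hence
`ψ_v(y) = ∑_{x ∈ R_v} ψ_v(x) 1_{U(m v)}(x⁻¹ y)`; the product over `v ∈ T₀` is the sum over
the families `(x_v)`; a family is glued to an element of `GL₂(𝔸_ℚ)` which is trivial at
infinity and outside `T₀`; the components of the first pair at `T₀` are the units
(`LocAQ801`).  The archimedean component (ONE function on `GL₂(ℝ)`, of the type `t`) is not
touched: the glued elements are trivial at the real place.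
-/

set_option autoImplicit false
set_option linter.style.haveILetI false
set_option linter.unusedSectionVars false
set_option linter.unusedVariables false

open IsDedekindDomain NumberField MeasureTheory

noncomputable section

namespace Fermat.Agent.LT.T7.PBQ973

open Fermat.Agent.LT.H556 Fermat.Agent.LT.H556.A0 Fermat.Agent.LT Fermat.Agent.LT.T7
open Fermat.Agent.LT.T7.H305 Fermat.Agent.LT.T7.H893 Fermat.Agent.LT.T7.H317
open Fermat.Agent.LT.T7.H981 Fermat.Agent.LT.T7.Q797 Fermat.Agent.LT.T7.H219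
open Fermat.Agent.LT.T7.L2Q Fermat.Agent.LT.T7.H962 Fermat.Agent.LT.T7.H732
open Fermat.Agent.LT.T7.MQ298 Fermat.Agent.LT.T7.CQ801

attribute [local instance] Fermat.Agent.LT.T5.instMeasurableSpaceG

/-- An element which is trivial at infinity is trivial at the real place of `ℚ`. -/
theorem reGLQ_of_trivSD973 {h : G ℚ} (hh : ∀ w : InfinitePlace ℚ, TrivAtInf w h) :
    reGLQ298 h = 1 := by
  apply Units.ext
  ext i j
  show reHomQ298 ((h : Matrix (Fin 2) (Fin 2) (Adl ℚ)) i j) = _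
  have h1 := hh Rat.infinitePlace i j
  show (InfinitePlace.Completion.extensionEmbeddingOfIsReal Rat.isReal_infinitePlace)
    (((h : Matrix (Fin 2) (Fin 2) (Adl ℚ)) i j).1 Rat.infinitePlace) = _
  rw [h1]
  by_cases hij : i = j
  · subst hij; simp
  · simp [Matrix.one_apply, hij]

open Classical in
theorem pureQ_eqSD973 (T : Finset (HeightOneSpectrum (𝓞 ℚ)))
    (f₀ : ∀ v : HeightOneSpectrum (𝓞 ℚ), GL (Fin 2) (v.adicCompletion ℚ) → ℂ)
    (Fr : GL (Fin 2) ℝ → ℂ) (h : G ℚ) :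
    pureQ298 T f₀ Fr h
      = if OutT305 T h then (∏ v ∈ T, f₀ v (finGL305 v h)) * Fr (reGLQ298 h) else 0 := by
  unfold pureQ298
  congr

open Classical in
/-- **THE CORE over `ℚ`**: the pure tensor with the components `ψ` at `T₀` is the sum over the
glued families of representatives of the left translates of the pure tensor with unit
components. -/
theorem swapSumQ_core973 (T₀ T : Finset (HeightOneSpectrum (𝓞 ℚ))) (hT : T₀ ⊆ T)
    (m : HeightOneSpectrum (𝓞 ℚ) → ℕ)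
    (ψ f₀ : ∀ v : HeightOneSpectrum (𝓞 ℚ), GL (Fin 2) (v.adicCompletion ℚ) → ℂ)
    (Fr : GL (Fin 2) ℝ → ℂ)
    (R : ∀ v : HeightOneSpectrum (𝓞 ℚ), Finset (GL (Fin 2) (v.adicCompletion ℚ)))
    (hdec : ∀ v ∈ T₀, ∀ y : GL (Fin 2) (v.adicCompletion ℚ),
      ψ v y = ∑ x ∈ R v, ψ v x * unitFn893 (m v) (x⁻¹ * y))
    (hf₀ : ∀ v ∈ T₀, f₀ v = unitFn893 (m v))
    (gl : (∀ v ∈ T₀, GL (Fin 2) (v.adicCompletion ℚ)) → G ℚ)
    (hgl : ∀ p, (∀ w : InfinitePlace ℚ, TrivAtInf w (gl p)) ∧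
      (∀ v (h : v ∈ T₀), finGL305 v (gl p) = p v h) ∧
      ∀ v : HeightOneSpectrum (𝓞 ℚ), v ∉ T₀ → finGL305 v (gl p) = 1)
    (ψ' : ∀ v : HeightOneSpectrum (𝓞 ℚ), GL (Fin 2) (v.adicCompletion ℚ) → ℂ)
    (hψ'1 : ∀ v ∈ T₀, ψ' v = ψ v) (hψ'2 : ∀ v, v ∉ T₀ → ψ' v = f₀ v) (y : G ℚ) :
    pureQ298 T ψ' Fr y
      = ∑ p ∈ T₀.pi R, (∏ v ∈ T₀, ψ v (finGL305 v (gl p)))
          * pureQ298 T f₀ Fr ((gl p)⁻¹ * y) := by
  classical
  -- the translates
  have hOx : ∀ p, gl p ∈ outSub_r317 T := by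
    intro p
    refine outT_of_inU219l T (fun _ => 0) (fun v hv => ?_)
    rw [(hgl p).2.2 v (fun h => hv (hT h))]
    exact inU_one219l 0
  have htr : ∀ p, pureQ298 T f₀ Fr ((gl p)⁻¹ * y)
      = if OutT305 T y then
          ((∏ v ∈ T \ T₀, f₀ v (finGL305 v y))
            * ∏ v ∈ T₀, unitFn893 (m v) ((finGL305 v (gl p))⁻¹ * finGL305 v y))
            * Fr (reGLQ298 y)
        else 0 := by
    intro p
    rw [pureQ_eqSD973]
    have hiff : OutT305 T ((gl p)⁻¹ * y) ↔ OutT305 T y :=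
      (outSub_r317 T).mul_mem_cancel_left ((outSub_r317 T).inv_mem (hOx p))
    by_cases hy : OutT305 T y
    · rw [if_pos hy, if_pos (hiff.2 hy)]
      have hInf : Fr (reGLQ298 ((gl p)⁻¹ * y)) = Fr (reGLQ298 y) := by
        rw [map_mul, map_inv, reGLQ_of_trivSD973 (hgl p).1, inv_one, one_mul]
      rw [hInf, ← Finset.prod_sdiff hT]
      congr 2
      · refine Finset.prod_congr rfl (fun v hv => ?_)
        have hv0 : v ∉ T₀ := (Finset.mem_sdiff.1 hv).2
        rw [map_mul, map_inv, (hgl p).2.2 v hv0, inv_one, one_mul]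
      · refine Finset.prod_congr rfl (fun v hv => ?_)
        rw [hf₀ v hv, map_mul, map_inv]
    · rw [if_neg hy, if_neg (fun h => hy (hiff.1 h))]
  rw [pureQ_eqSD973]
  by_cases hy : OutT305 T y
  · rw [if_pos hy]
    have hsum : ∑ p ∈ T₀.pi R, (∏ v ∈ T₀, ψ v (finGL305 v (gl p)))
          * pureQ298 T f₀ Fr ((gl p)⁻¹ * y)
        = ((∏ v ∈ T \ T₀, f₀ v (finGL305 v y))
            * ∑ p ∈ T₀.pi R, ∏ v ∈ T₀, (ψ v (finGL305 v (gl p))
              * unitFn893 (m v) ((finGL305 v (gl p))⁻¹ * finGL305 v y)))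
          * Fr (reGLQ298 y) := by
      rw [Finset.mul_sum, Finset.sum_mul]
      refine Finset.sum_congr rfl (fun p _ => ?_)
      rw [htr p, if_pos hy, Finset.prod_mul_distrib]
      ring
    rw [hsum, ← Finset.prod_sdiff hT]
    congr 2
    · refine Finset.prod_congr rfl (fun v hv => ?_)
      rw [hψ'2 v (Finset.mem_sdiff.1 hv).2]
    · have h1 : ∏ v ∈ T₀, ψ' v (finGL305 v y)
          = ∏ v ∈ T₀, ∑ x ∈ R v, ψ v x * unitFn893 (m v) (x⁻¹ * finGL305 v y) := by
        refine Finset.prod_congr rfl (fun v hv => ?_)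
        rw [hψ'1 v hv, hdec v hv]
      rw [h1, Finset.prod_sum]
      refine Finset.sum_congr rfl (fun p _ => ?_)
      rw [← Finset.prod_attach T₀ (fun v => ψ v (finGL305 v (gl p))
        * unitFn893 (m v) ((finGL305 v (gl p))⁻¹ * finGL305 v y))]
      refine Finset.prod_congr rfl (fun v _ => ?_)
      rw [(hgl p).2.1 v.1 v.2]
  · rw [if_neg hy]
    symm
    refine Finset.sum_eq_zero (fun p _ => ?_)
    rw [htr p, if_neg hy, mul_zero]

/-! ## The leaf -/

section Leaf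

variable (F : Type) [Field F] [NumberField F]

open Classical in
theorem swDnQ_eqSD973 (B : L2QBase962 F) (T₀ : Finset (HeightOneSpectrum (𝓞 ℚ)))
    (fb f₀ : ∀ v : HeightOneSpectrum (𝓞 ℚ), GL (Fin 2) (v.adicCompletion ℚ) → ℂ)
    (v : HeightOneSpectrum (𝓞 ℚ)) :
    swDnQ973 B T₀ fb f₀ v
      = if v = B.u then iwFn893 else if v ∈ T₀ then fb v else f₀ v := by
  unfold swDnQ973
  congr

/-- **LEAF PBQ.0.D0 `PBQ973.SwapDnSumQC973`.** -/
theorem swapDnSumQC973 : SwapDnSumQC973 F := by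
  intro hS hK Φe B hB hram g hg 𝔫 hlev μr μc hμr hμc T₀ n n₀ m hexp c hc c₁ Φ₁ F₁ hA fb hfb
    Ω iT _ _ _ iM _ ν _ T T' φ₀ Φ f₀ F0 F1 hdat
  classical
  have huT : (toBase962_732 B).u ∈ T₀ := (hexp.div (toBase962_732 B).u).2 hlev.u_level
  have hmu : 1 ≤ m (toBase962_732 B).u :=
    level_pos219w hexp.lev_dn (toBase962_732 B).u hlev.u_level
  -- the swapped components at the level
  obtain ⟨ψ, hψu, hψn⟩ : ∃ ψ : ∀ v : HeightOneSpectrum (𝓞 ℚ),
      GL (Fin 2) (v.adicCompletion ℚ) → ℂ,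
      (∀ v, v = (toBase962_732 B).u → ψ v = iwFn893) ∧
        (∀ v, v ≠ (toBase962_732 B).u → ψ v = fb v) :=
    ⟨fun v => if v = (toBase962_732 B).u then iwFn893 else fb v,
      fun v h => if_pos h, fun v h => if_neg h⟩
  have hR : ∀ v : HeightOneSpectrum (𝓞 ℚ), ∃ R : Finset (GL (Fin 2) (v.adicCompletion ℚ)),
      v ∈ T₀ → (∀ x ∈ R, ψ v x ≠ 0) ∧
        ∀ y : GL (Fin 2) (v.adicCompletion ℚ),
          ψ v y = ∑ x ∈ R, ψ v x * unitFn893 (m v) (x⁻¹ * y) := by
    intro v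
    by_cases hv : v ∈ T₀
    · have hinv : T6.IsBiInv (T6.InU (m v)) (ψ v) ∧ T6.HasFinSupp (T6.InU (m v)) (ψ v) := by
        by_cases hvu : v = (toBase962_732 B).u
        · rw [hψu v hvu]
          have hmv : 1 ≤ m v := by rw [hvu]; exact hmu
          exact PB616.iw_inv_at616 v hmv
        · rw [hψn v hvu]
          exact hfb.inv_down v (Finset.mem_erase.2 ⟨hvu, hv⟩)
      obtain ⟨R, h1, h2⟩ := exists_reps219w (m v) (ψ v) hinv.1 hinv.2
      exact ⟨R, fun _ => ⟨h1, h2⟩⟩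
    · exact ⟨∅, fun h => absurd h hv⟩
  choose R hR using hR
  obtain ⟨gl, hgl⟩ := exists_glue219w (K := ℚ) T₀
  have hinj : ∀ p ∈ T₀.pi R, ∀ q ∈ T₀.pi R, gl p = gl q → p = q := by
    intro p _ q _ e
    funext v hv
    rw [← (hgl p).2.1 v hv, ← (hgl q).2.1 v hv, e]
  refine ⟨(T₀.pi R).image gl, fun x => ∏ v ∈ T₀, ψ v (finGL305 v x), ?_, ?_⟩
  · intro x hx
    obtain ⟨p, hp, rfl⟩ := Finset.mem_image.1 hx
    refine ⟨(hgl p).1, fun v hv => ?_, ?_⟩
    · show finComp v (gl p) = 1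
      have := (hgl p).2.2 v hv
      rw [← coe_finGL_r317, this]
      rfl
    · have hpu : p (toBase962_732 B).u huT ∈ R (toBase962_732 B).u :=
        (Finset.mem_pi.1 hp) (toBase962_732 B).u huT
      have hne := (hR (toBase962_732 B).u huT).1 _ hpu
      rw [hψu (toBase962_732 B).u rfl] at hne
      have hiw := PB616.inIw_of_iwFn_ne_zero616 hne
      rw [← (hgl p).2.1 (toBase962_732 B).u huT] at hiw
      refine ⟨fun i j => ?_, fun i j => ?_, ?_⟩
      · exact (HeightOneSpectrum.mem_adicCompletionIntegers _ _ _).2 (hiw.1 i j)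
      · have h2 := hiw.2.1 i j
        rw [finGL_inv_coe219w] at h2
        exact (HeightOneSpectrum.mem_adicCompletionIntegers _ _ _).2 h2
      · exact hiw.2.2
  · intro t ω y
    obtain ⟨hd1, -⟩ := hdat
    have hTω : T₀ ⊆ T ω := (hd1 ω).1
    have hLoc := (hd1 ω).2.2
    rw [Finset.sum_image hinj]
    exact swapSumQ_core973 T₀ (T ω) hTω m ψ (f₀ ω) (archQ973 F0 F1 t ω) R
      (fun v hv => (hR v hv).2)
      hLoc.1 gl hgl (swDnQ973 (toBase962_732 B) T₀ fb (f₀ ω))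
      (fun v hv => by
        rw [swDnQ_eqSD973]
        by_cases hvu : v = (toBase962_732 B).u
        · rw [if_pos hvu, hψu v hvu]
        · rw [if_neg hvu, if_pos hv, hψn v hvu])
      (fun v hv => by
        rw [swDnQ_eqSD973]
        have hvu : v ≠ (toBase962_732 B).u := fun e => hv (e ▸ huT)
        rw [if_neg hvu, if_neg hv]) y

end Leaf

end Fermat.Agent.LT.T7.PBQ973

end

end
-- ===== PACK-END LT/T7/H973/SwapDnSumQ.lean

-- ===== PACK-BEGIN LT/T7/H963/SwapUpQ.lean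
section




/-!
# Row LT, tower T7, node PBQ.0 (helper973 `PreBQSpec`): THE SWAP UPSTAIRS OVER `ℚ`, SPARES of the
leaves PBQ.0.U6 `SwapMemUpQC973`, PBQ.0.U1 `SwapUpTestQC973`, PBQ.0.U2 `SwapUpEKQC973`
(helper963, OFF-MAIN)

From the key identity `SwapUpSumQC973` (leaf PBQ.0.U0), VERBATIM:

    swapMemUpQC_of963  : SwapUpSumQC973 F → SwapMemUpQC973 F
    swapUpTestQC_of963 : SwapUpSumQC973 F → SwapUpTestQC973 F
    swapUpEKQC_of963   : SwapUpSumQC973 F → SwapUpEKQC973 F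

Mirror of `SwapMemUp.lean` / `SwapUpKit.lean` (cubic); the abstract steps are shared.
Additive: new names only, suffix `963`.
-/

set_option autoImplicit false

open AutomorphicForm IsDedekindDomain NumberField MeasureTheory
open scoped ComplexConjugate

noncomputable section

namespace Fermat.Agent.LT.T7.H963.SMU

open Fermat.Agent.LT.H556 Fermat.Agent.LT.H556.A0 Fermat.Agent.LT.T7 Fermat.Agent.LT.T7.H305
  Fermat.Agent.LT.T7.L2Q Fermat.Agent.LT.T7.H893 Fermat.Agent.LT.T7.H962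
  Fermat.Agent.LT.T7.H732 Fermat.Agent.LT.T7.MQ298 Fermat.Agent.LT.T7.CQ801
  Fermat.Agent.LT.T7.PBQ973

attribute [local instance] Fermat.Agent.LT.T5.instMeasurableSpaceG

section Abs

variable {F : Type} [Field F] [NumberField F]

/-- **THE AVERAGE OF SUMS OF TRANSLATES** is the sum of the translates of the average. -/
theorem avg_sums963 {Ω : Type} [TopologicalSpace Ω] [CompactSpace Ω] [MeasurableSpace Ω]
    [BorelSpace Ω] (ν : Measure Ω) [IsFiniteMeasure ν] (p s : Ω → G F → ℂ)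
    (HU : Finset (G F)) (φ' : G F → ℂ)
    (hcont : Continuous (fun q : Ω × G F => p q.1 q.2))
    (hφ' : ∀ h : G F, φ' h = ∫ a, p a h ∂ν)
    (hid : ∀ (ω : Ω) (x : G F),
      s ω x = ∑ h ∈ HU, p ω (x * h⁻¹) ∧ s ω x = ∑ h ∈ HU, p ω (h⁻¹ * x)) (x : G F) :
    ∫ ω, s ω x ∂ν = ∑ h ∈ HU, φ' (x * h⁻¹) ∧ ∫ ω, s ω x ∂ν = ∑ h ∈ HU, φ' (h⁻¹ * x) := by
  have hint : ∀ y : G F, Integrable (fun ω => p ω y) ν := by
    intro y
    have hc : Continuous (fun ω => p ω y) :=
      hcont.comp (continuous_id.prodMk continuous_const)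
    exact hc.integrable_of_hasCompactSupport (HasCompactSupport.of_compactSpace _)
  constructor
  · have : (fun ω => s ω x) = fun ω => ∑ h ∈ HU, p ω (x * h⁻¹) :=
      funext fun ω => (hid ω x).1
    rw [this, integral_finset_sum _ fun h _ => hint _]
    exact Finset.sum_congr rfl fun h _ => (hφ' _).symm
  · have : (fun ω => s ω x) = fun ω => ∑ h ∈ HU, p ω (h⁻¹ * x) :=
      funext fun ω => (hid ω x).2
    rw [this, integral_finset_sum _ fun h _ => hint _]
    exact Finset.sum_congr rfl fun h _ => (hφ' _).symm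

end Abs

variable (F : Type) [Field F] [NumberField F]

/-- **SPARE of LEAF PBQ.0.U6 `SwapMemUpQC973`** from the key identity, VERBATIM. -/
theorem swapMemUpQC_of963 (hS : SwapUpSumQC973 F) : SwapMemUpQC973 F := by
  intro h3 hiq Φe B hB hram g hg 𝔫 h𝔫 μr μc hμr hμc T₀ n n₀ m hexp c hc c₁ Φ₁ F₁ hpair fb hfb
    Ω iT iC iT2 iSC iM iB ν iF T T' φ₀ Φ f₀ F0 F1 hdat
  obtain ⟨HU, -, -, hid⟩ := hS h3 hiq Φe B hB hram g hg 𝔫 h𝔫 μr μc hμr hμc T₀ n n₀ m hexp c hc
    c₁ Φ₁ F₁ hpair fb hfb Ω iT iC iT2 iSC iM iB ν iF T T' φ₀ Φ f₀ F0 F1 hdat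
  obtain ⟨-, htest, -, -, hcont, -, -, ⟨C, hC, hsupp⟩, -, -, -, -, -⟩ := hdat
  refine ⟨?_, ?_, ?_⟩
  · intro ω
    exact isTestFn_of_sums963 HU (htest ω) (fun x => (hid ω x).1) (fun x => (hid ω x).2)
  · have : (fun p : Ω × G F =>
          pure305 (T' p.1) (swUpQ973 (toBase962_732 B) T₀ n₀ (φ₀ p.1)) (Φ p.1) p.2)
        = fun p : Ω × G F => ∑ h ∈ HU, pure305 (T' p.1) (φ₀ p.1) (Φ p.1) (p.2 * h⁻¹) := by
      funext p
      exact (hid p.1 p.2).1
    rw [this]
    refine continuous_finset_sum _ fun h _ => ?_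
    exact hcont.comp (continuous_fst.prodMk (continuous_snd.mul continuous_const))
  · refine ⟨⋃ h ∈ HU, (fun x : G F => x * h) '' C, isCompact_translates963 HU hC, ?_⟩
    intro ω x hx
    rw [(hid ω x).1] at hx
    obtain ⟨h, hh, hne⟩ := Finset.exists_ne_zero_of_sum_ne_zero hx
    exact mem_translates963 HU hh (hsupp ω _ hne)

/-- **SPARE of LEAF PBQ.0.U1 `SwapUpTestQC973`** from the key identity, VERBATIM. -/
theorem swapUpTestQC_of963 (hS : SwapUpSumQC973 F) : SwapUpTestQC973 F := by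
  intro h3 hiq Φe B hB hram g hg 𝔫 h𝔫 μr μc hμr hμc T₀ n n₀ m hexp c hc c₁ Φ₁ F₁ hpair fb hfb
    Ω iT iC iT2 iSC iM iB ν iF T T' φ₀ Φ f₀ F0 F1 hdat
  obtain ⟨HU, -, -, hid⟩ := hS h3 hiq Φe B hB hram g hg 𝔫 h𝔫 μr μc hμr hμc T₀ n n₀ m hexp c hc
    c₁ Φ₁ F₁ hpair fb hfb Ω iT iC iT2 iSC iM iB ν iF T T' φ₀ Φ f₀ F0 F1 hdat
  obtain ⟨-, -, -, -, hcont, -, -, -, -, -, hφ', -, -⟩ := hdat
  have key := avg_sums963 ν (fun ω => pure305 (T' ω) (φ₀ ω) (Φ ω))
    (fun ω => pure305 (T' ω) (swUpQ973 (toBase962_732 B) T₀ n₀ (φ₀ ω)) (Φ ω)) HU (Φ₁ [])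
    hcont hφ' hid
  exact isTestFn_of_sums963 HU (hpair.up1_test [] (by simp)) (fun x => (key x).1)
    (fun x => (key x).2)

/-- **SPARE of LEAF PBQ.0.U2 `SwapUpEKQC973`** from the key identity, VERBATIM. -/
theorem swapUpEKQC_of963 (hS : SwapUpSumQC973 F) : SwapUpEKQC973 F := by
  intro h3 hiq Φe B hB hram g hg 𝔫 h𝔫 μr μc hμr hμc T₀ n n₀ m hexp c hc c₁ Φ₁ F₁ hpair fb hfb
    Ω iT iC iT2 iSC iM iB ν iF T T' φ₀ Φ f₀ F0 F1 hdat
  obtain ⟨HU, -, -, hid⟩ := hS h3 hiq Φe B hB hram g hg 𝔫 h𝔫 μr μc hμr hμc T₀ n n₀ m hexp c hc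
    c₁ Φ₁ F₁ hpair fb hfb Ω iT iC iT2 iSC iM iB ν iF T T' φ₀ Φ f₀ F0 F1 hdat
  obtain ⟨-, -, -, -, hcont, -, -, -, -, -, hφ', -, -⟩ := hdat
  have key := avg_sums963 ν (fun ω => pure305 (T' ω) (φ₀ ω) (Φ ω))
    (fun ω => pure305 (T' ω) (swUpQ973 (toBase962_732 B) T₀ n₀ (φ₀ ω)) (Φ ω)) HU (Φ₁ [])
    hcont hφ' hid
  have htest := hpair.up1_test [] (by simp)
  have hek := hpair.up1_ek [] (by simp)
  have hμ : B.R'.μ.IsHaarMeasure := hB.frame'.frame.haar
  constructor
  · exact isEK_of_left_sums963 hμ HU (fun h => h⁻¹) htest.cont htest.supp hek.1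
      (fun x => (key x).2)
  · exact isEK_of_left_sums963 hμ HU (fun h => h) (continuous_adjointFn963 htest.cont)
      (hasCompactSupport_adjointFn963 htest.supp) hek.2
      (fun x => adjointFn_sums963 HU (fun y => (key y).1) x)

end Fermat.Agent.LT.T7.H963.SMU

end

section Check963SUQ
open Fermat.Agent.LT.T7.H963.SMU in
example (F : Type) [Field F] [NumberField F] :
    Fermat.Agent.LT.T7.PBQ973.SwapUpSumQC973 F → Fermat.Agent.LT.T7.PBQ973.SwapMemUpQC973 F :=
  swapMemUpQC_of963 F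
open Fermat.Agent.LT.T7.H963.SMU in
example (F : Type) [Field F] [NumberField F] :
    Fermat.Agent.LT.T7.PBQ973.SwapUpSumQC973 F → Fermat.Agent.LT.T7.PBQ973.SwapUpTestQC973 F :=
  swapUpTestQC_of963 F
open Fermat.Agent.LT.T7.H963.SMU in
example (F : Type) [Field F] [NumberField F] :
    Fermat.Agent.LT.T7.PBQ973.SwapUpSumQC973 F → Fermat.Agent.LT.T7.PBQ973.SwapUpEKQC973 F :=
  swapUpEKQC_of963 F
end Check963SUQ

end
-- ===== PACK-END LT/T7/H963/SwapUpQ.lean

-- ===== PACK-BEGIN LT/T7/H47/ST/SwapQ.lean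
section




/-!
# Row LT, tower T7, the swap over `ℚ` (cut of helper973, `PreBQSpec.lean`): the leaves
# `SwapUpEKQC973`, `SwapDnEKQC973`, `SwapUpSuppQC973`, `SwapDnSuppQC973` from the key identities
# (helper47, SPARES)

OFF-MAIN.  Complete proofs, nothing assumed.  Own names only (suffix `47`).

    swapUpEKQC_of47   : PBQ973.SwapUpSumQC973 F → PBQ973.SwapUpEKQC973 F
    swapDnEKQC_of47   : PBQ973.SwapDnSumQC973 F → PBQ973.SwapDnEKQC973 F
    swapUpSuppQC_of47 : PBQ973.SwapUpSumQC973 F → PBQ973.SwapUpSuppQC973 F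
    swapDnSuppQC_of47 : PBQ973.SwapDnSumQC973 F → PBQ973.SwapDnSuppQC973 F

Mirror of `SwapEK.lean` / `SwapSupp.lean` (cubic case, cut of helper57), on the abstract forms
`avg_sum_rtr47`, `avg_sum_ltr47` (the key identity under the integral).
-/

set_option autoImplicit false

open AutomorphicForm IsDedekindDomain NumberField MeasureTheory
open scoped ComplexConjugate Pointwise

noncomputable section

namespace Fermat.Agent.LT.T7.H47.ST

open Fermat.Agent.LT.H556 Fermat.Agent.LT.H556.A0 Fermat.Agent.LT.T7 Fermat.Agent.LT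
open Fermat.Agent.LT.T7.H893 Fermat.Agent.LT.T7.H305 Fermat.Agent.LT.T7.MQ298
open Fermat.Agent.LT.T7.H732 Fermat.Agent.LT.T7.L2Q

attribute [local instance] Fermat.Agent.LT.T5.instMeasurableSpaceG

section OneField

variable {E : Type} [Field E] [NumberField E]
variable {Ω : Type} [TopologicalSpace Ω] [CompactSpace Ω] [MeasurableSpace Ω] [BorelSpace Ω]

/-- The average of finite sums of right translates of the members. -/
theorem avg_sum_rtr47 (ν : Measure Ω) [IsFiniteMeasure ν] (ψ ψ' : Ω → G E → ℂ)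
    (hc : Continuous (fun p : Ω × G E => ψ p.1 p.2)) (HU : Finset (G E))
    (hid : ∀ ω x, ψ' ω x = ∑ h ∈ HU, ψ ω (x * h⁻¹))
    (f : G E → ℂ) (hf : ∀ h, f h = ∫ ω, ψ ω h ∂ν) (x : G E) :
    ∫ ω, ψ' ω x ∂ν = ∑ h ∈ HU, f (x * h⁻¹) := by
  have e1 : (fun ω => ψ' ω x) = fun ω => ∑ h ∈ HU, ψ ω (x * h⁻¹) := by
    funext ω
    exact hid ω x
  rw [e1, integral_finsetSum]
  · refine Finset.sum_congr rfl fun h _ => ?_
    rw [hf]
  · intro h _
    exact integrable_member47 ν ψ hc _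

/-- The average of `a ·` finite combinations of left translates of the members. -/
theorem avg_sum_ltr47 (ν : Measure Ω) [IsFiniteMeasure ν] (ψ ψ' : Ω → G E → ℂ)
    (hc : Continuous (fun p : Ω × G E => ψ p.1 p.2)) (X : Finset (G E)) (c : G E → ℂ)
    (hid : ∀ ω y, ψ' ω y = ∑ x ∈ X, c x * ψ ω (x⁻¹ * y))
    (f : G E → ℂ) (hf : ∀ h, f h = ∫ ω, ψ ω h ∂ν) (a : ℂ) (y : G E) :
    ∫ ω, a * ψ' ω y ∂ν = a * ∑ x ∈ X, c x * f (x⁻¹ * y) := by
  have e1 : (fun ω => a * ψ' ω y) = fun ω => a * ∑ x ∈ X, c x * ψ ω (x⁻¹ * y) := by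
    funext ω
    rw [hid ω y]
  rw [e1, integral_const_mul, integral_finsetSum]
  · congr 1
    refine Finset.sum_congr rfl fun x _ => ?_
    rw [integral_const_mul, hf]
  · intro x _
    exact (integrable_member47 ν ψ hc _).const_mul _

/-- `IsEKc47` for `a ·` a finite combination of left translates. -/
theorem isEKc_comb_ltr47 {μ : Measure (G E)} [μ.IsHaarMeasure] [μ.IsMulRightInvariant]
    {f : G E → ℂ} (h0 : IsEKc47 μ f) (X : Finset (G E)) (c : G E → ℂ) (a : ℂ) :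
    IsEKc47 μ (fun y => a * ∑ x ∈ X, c x * f (x⁻¹ * y)) :=
  isEKc_smul47 (isEKc_sum47 X (fun x y => c x * f (x⁻¹ * y)) fun x _ =>
    isEKc_smul47 (isEKc_ltr47 h0 x⁻¹) (c x)) a

/-- `IsEKc47` for a finite sum of right translates. -/
theorem isEKc_comb_rtr47 {μ : Measure (G E)} [μ.IsHaarMeasure] [μ.IsMulRightInvariant]
    {f : G E → ℂ} (h0 : IsEKc47 μ f) (HU : Finset (G E)) :
    IsEKc47 μ (fun x => ∑ h ∈ HU, f (x * h⁻¹)) :=
  isEKc_sum47 HU (fun h x => f (x * h⁻¹)) fun h _ => isEKc_rtr47 h0 h⁻¹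

end OneField

variable (F : Type) [Field F] [NumberField F]

/-- **Leaf PBQ.0.U2 `SwapUpEKQC973`** from the key identity upstairs. -/
theorem swapUpEKQC_of47 (hS : PBQ973.SwapUpSumQC973 F) : PBQ973.SwapUpEKQC973 F := by
  intro h3 hiq Φe B hB hram g hg 𝔫 h𝔫 μr μc hμr hμc T₀ n n₀ m hexp c hc c₁ Φ₁ F₁ hA fb hfb
    Ω iT iC iT2 iSC iM iB ν iF T T' φ₀ Φ f₀ F0 F1 hdat
  obtain ⟨HU, -, -, hid⟩ := hS h3 hiq Φe B hB hram g hg 𝔫 h𝔫 μr μc hμr hμc T₀ n n₀ m hexp
    c hc c₁ Φ₁ F₁ hA fb hfb Ω iT iC iT2 iSC iM iB ν iF T T' φ₀ Φ f₀ F0 F1 hdat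
  obtain ⟨-, -, -, -, hcont, -, -, -, -, -, hΦ₁, -, -⟩ := hdat
  have hfr : IsFrame5 (toBase962_732 B).R' := hB.frame'
  have : (toBase962_732 B).R'.μ.IsHaarMeasure := hfr.frame.haar
  have : (toBase962_732 B).R'.μ.IsMulRightInvariant := rightInv_of_frame47 hfr
  have h0 : IsEKc47 (toBase962_732 B).R'.μ (Φ₁ []) :=
    ⟨(hA.up1_test [] (by simp)).cont, (hA.up1_test [] (by simp)).supp,
      (hA.up1_ek [] (by simp)).1, (hA.up1_ek [] (by simp)).2⟩
  have e : PBQ973.swapUpFnQ973 (toBase962_732 B) T₀ n₀ ν T' φ₀ Φ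
      = fun x => ∑ h ∈ HU, Φ₁ [] (x * h⁻¹) := by
    funext x
    exact avg_sum_rtr47 ν (fun ω => pure305 (T' ω) (φ₀ ω) (Φ ω))
      (fun ω => pure305 (T' ω) (PBQ973.swUpQ973 (toBase962_732 B) T₀ n₀ (φ₀ ω)) (Φ ω))
      hcont HU (fun ω x => (hid ω x).1) (Φ₁ []) hΦ₁ x
  have h1 := isEKc_comb_rtr47 h0 HU
  rw [e]
  exact ⟨h1.ek, h1.ekadj⟩

/-- **Leaf PBQ.0.U5 `SwapUpSuppQC973`** from the key identity upstairs. -/
theorem swapUpSuppQC_of47 (hS : PBQ973.SwapUpSumQC973 F) : PBQ973.SwapUpSuppQC973 F := by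
  intro h3 hiq Φe B hB hram g hg 𝔫 h𝔫 μr μc hμr hμc T₀ n n₀ m hexp c hc c₁ Φ₁ F₁ hA fb hfb
    Ω iT iC iT2 iSC iM iB ν iF T T' φ₀ Φ f₀ F0 F1 hdat
  obtain ⟨HU, -, hprop, hid⟩ := hS h3 hiq Φe B hB hram g hg 𝔫 h𝔫 μr μc hμr hμc T₀ n n₀ m hexp
    c hc c₁ Φ₁ F₁ hA fb hfb Ω iT iC iT2 iSC iM iB ν iF T T' φ₀ Φ f₀ F0 F1 hdat
  obtain ⟨-, -, -, -, hcont, -, -, -, -, -, hΦ₁, -, -⟩ := hdat
  obtain ⟨C, hC, hsupp⟩ := hA.up1_supp [] (by simp)
  have e : ∀ x, PBQ973.swapUpFnQ973 (toBase962_732 B) T₀ n₀ ν T' φ₀ Φ x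
      = ∑ h ∈ HU, Φ₁ [] (x * h⁻¹) := fun x =>
    avg_sum_rtr47 ν (fun ω => pure305 (T' ω) (φ₀ ω) (Φ ω))
      (fun ω => pure305 (T' ω) (PBQ973.swUpQ973 (toBase962_732 B) T₀ n₀ (φ₀ ω)) (Φ ω))
      hcont HU (fun ω x => (hid ω x).1) (Φ₁ []) hΦ₁ x
  refine isIwSupported_sum_rtr47 2 (toBase962_732 B).o C hC (Φ₁ []) hsupp HU
    (fun h hh j hj => (hprop h hh).2.2.2.2 j hj) _ ?_
  intro x hx
  rw [e x] at hx
  obtain ⟨h, hh, hne⟩ := Finset.exists_ne_zero_of_sum_ne_zero hx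
  exact ⟨h, hh, hne⟩

/-- The two leaves downstairs for ONE type (the archimedean components `Fr`, the function
`fX` of the first pair). -/
theorem swapDn_core47 (B : L2Q.H60.L2QBase F) (hfr : IsFrame5 (toBase962_732 B).R)
    (T₀ : Finset (HeightOneSpectrum (𝓞 ℚ)))
    (fb : ∀ v : HeightOneSpectrum (𝓞 ℚ), GL (Fin 2) (v.adicCompletion ℚ) → ℂ)
    {Ω : Type} [TopologicalSpace Ω] [CompactSpace Ω] [MeasurableSpace Ω] [BorelSpace Ω]
    (ν : Measure Ω) [IsFiniteMeasure ν]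
    (T : Ω → Finset (HeightOneSpectrum (𝓞 ℚ)))
    (f₀ : Ω → ∀ v : HeightOneSpectrum (𝓞 ℚ), GL (Fin 2) (v.adicCompletion ℚ) → ℂ)
    (Fr : Ω → GL (Fin 2) ℝ → ℂ) (fX : G ℚ → ℂ) (τ : G ℚ → ℂ) (𝔫' : Ideal (𝓞 ℚ))
    (htest : T5.IsTestFn 𝔫' τ fX)
    (hek : T5.IsEK (toBase962_732 B).R.μ fX ∧ T5.IsEK (toBase962_732 B).R.μ (T5.adjointFn fX))
    (hsupp : ∃ C : Set (G ℚ), IsCompact C ∧
      T5.H32.IsIwSupported32 1 (fun _ => (toBase962_732 B).u) C fX)
    (hcont : Continuous (fun p : Ω × G ℚ => (1 : ℂ) * pureQ298 (T p.1) (f₀ p.1) (Fr p.1) p.2))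
    (hfX : ∀ h : G ℚ, fX h = ∫ ω, (1 : ℂ) * pureQ298 (T ω) (f₀ ω) (Fr ω) h ∂ν)
    (X : Finset (G ℚ)) (c : G ℚ → ℂ)
    (hprop : ∀ x ∈ X, T5.InIwahori (toBase962_732 B).u x)
    (hid : ∀ (ω : Ω) (y : G ℚ),
      pureQ298 (T ω) (PBQ973.swDnQ973 (toBase962_732 B) T₀ fb (f₀ ω)) (Fr ω) y
        = ∑ x ∈ X, c x * pureQ298 (T ω) (f₀ ω) (Fr ω) (x⁻¹ * y)) (a : ℂ) :
    (T5.IsEK (toBase962_732 B).R.μ
        (PBQ973.swapDnFnQ973 (toBase962_732 B) T₀ fb a ν T f₀ Fr) ∧
      T5.IsEK (toBase962_732 B).R.μ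
        (T5.adjointFn (PBQ973.swapDnFnQ973 (toBase962_732 B) T₀ fb a ν T f₀ Fr))) ∧
    ∃ C : Set (G ℚ), IsCompact C ∧
      T5.H32.IsIwSupported32 1 (fun _ => (toBase962_732 B).u) C
        (PBQ973.swapDnFnQ973 (toBase962_732 B) T₀ fb a ν T f₀ Fr) := by
  have : (toBase962_732 B).R.μ.IsHaarMeasure := hfr.frame.haar
  have : (toBase962_732 B).R.μ.IsMulRightInvariant := rightInv_of_frame47 hfr
  have hcont' : Continuous (fun p : Ω × G ℚ => pureQ298 (T p.1) (f₀ p.1) (Fr p.1) p.2) := by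
    simpa only [one_mul] using hcont
  have hfX' : ∀ h : G ℚ, fX h = ∫ ω, pureQ298 (T ω) (f₀ ω) (Fr ω) h ∂ν := by
    intro h
    simpa only [one_mul] using hfX h
  have h0 : IsEKc47 (toBase962_732 B).R.μ fX := ⟨htest.cont, htest.supp, hek.1, hek.2⟩
  have e : ∀ y, PBQ973.swapDnFnQ973 (toBase962_732 B) T₀ fb a ν T f₀ Fr y
      = a * ∑ x ∈ X, c x * fX (x⁻¹ * y) := fun y =>
    avg_sum_ltr47 ν (fun ω => pureQ298 (T ω) (f₀ ω) (Fr ω))
      (fun ω => pureQ298 (T ω) (PBQ973.swDnQ973 (toBase962_732 B) T₀ fb (f₀ ω)) (Fr ω))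
      hcont' X c hid fX hfX' a y
  have e' : PBQ973.swapDnFnQ973 (toBase962_732 B) T₀ fb a ν T f₀ Fr
      = fun y => a * ∑ x ∈ X, c x * fX (x⁻¹ * y) := funext e
  have h1 := isEKc_comb_ltr47 h0 X c a
  refine ⟨?_, ?_⟩
  · rw [e']
    exact ⟨h1.ek, h1.ekadj⟩
  · obtain ⟨C, hC, hs⟩ := hsupp
    refine isIwSupported_sum_ltr47 1 (fun _ => (toBase962_732 B).u) C hC fX hs X
      (fun x hx j _ => hprop x hx) _ ?_
    intro y hy
    rw [e y] at hy
    have h2 : ∑ x ∈ X, c x * fX (x⁻¹ * y) ≠ 0 := right_ne_zero_of_mul hy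
    obtain ⟨x, hx, hne⟩ := Finset.exists_ne_zero_of_sum_ne_zero h2
    exact ⟨x, hx, right_ne_zero_of_mul hne⟩

/-- **Leaf PBQ.0.D2 `SwapDnEKQC973`** from the key identity downstairs. -/
theorem swapDnEKQC_of47 (hS : PBQ973.SwapDnSumQC973 F) : PBQ973.SwapDnEKQC973 F := by
  intro h3 hiq Φe B hB hram g hg 𝔫 h𝔫 μr μc hμr hμc T₀ n n₀ m hexp c hc c₁ Φ₁ F₁ hA fb hfb
    Ω iT iC iT2 iSC iM iB ν iF T T' φ₀ Φ f₀ F0 F1 hdat a t
  obtain ⟨X, cf, hprop, hid⟩ := hS h3 hiq Φe B hB hram g hg 𝔫 h𝔫 μr μc hμr hμc T₀ n n₀ m hexp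
    c hc c₁ Φ₁ F₁ hA fb hfb Ω iT iC iT2 iSC iM iB ν iF T T' φ₀ Φ f₀ F0 F1 hdat
  obtain ⟨-, -, -, -, -, hc0, hc1, -, -, -, -, hf0, hf1⟩ := hdat
  cases t with
  | w0 =>
    exact (swapDn_core47 F B hB.frame T₀ fb ν T f₀ F0 (F₁ QWt.w0 []) QWt.w0.type 𝔫
      (hA.dn1_test QWt.w0 [] (by simp)) (hA.dn1_ek QWt.w0 [] (by simp))
      (hA.dn1_supp QWt.w0 [] (by simp)) hc0 hf0 X cf (fun x hx => (hprop x hx).2.2)
      (fun ω y => hid QWt.w0 ω y) a).1
  | w1 =>
    exact (swapDn_core47 F B hB.frame T₀ fb ν T f₀ F1 (F₁ QWt.w1 []) QWt.w1.type 𝔫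
      (hA.dn1_test QWt.w1 [] (by simp)) (hA.dn1_ek QWt.w1 [] (by simp))
      (hA.dn1_supp QWt.w1 [] (by simp)) hc1 hf1 X cf (fun x hx => (hprop x hx).2.2)
      (fun ω y => hid QWt.w1 ω y) a).1

/-- **Leaf PBQ.0.D5 `SwapDnSuppQC973`** from the key identity downstairs. -/
theorem swapDnSuppQC_of47 (hS : PBQ973.SwapDnSumQC973 F) : PBQ973.SwapDnSuppQC973 F := by
  intro h3 hiq Φe B hB hram g hg 𝔫 h𝔫 μr μc hμr hμc T₀ n n₀ m hexp c hc c₁ Φ₁ F₁ hA fb hfb
    Ω iT iC iT2 iSC iM iB ν iF T T' φ₀ Φ f₀ F0 F1 hdat a t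
  obtain ⟨X, cf, hprop, hid⟩ := hS h3 hiq Φe B hB hram g hg 𝔫 h𝔫 μr μc hμr hμc T₀ n n₀ m hexp
    c hc c₁ Φ₁ F₁ hA fb hfb Ω iT iC iT2 iSC iM iB ν iF T T' φ₀ Φ f₀ F0 F1 hdat
  obtain ⟨-, -, -, -, -, hc0, hc1, -, -, -, -, hf0, hf1⟩ := hdat
  cases t with
  | w0 =>
    exact (swapDn_core47 F B hB.frame T₀ fb ν T f₀ F0 (F₁ QWt.w0 []) QWt.w0.type 𝔫
      (hA.dn1_test QWt.w0 [] (by simp)) (hA.dn1_ek QWt.w0 [] (by simp))
      (hA.dn1_supp QWt.w0 [] (by simp)) hc0 hf0 X cf (fun x hx => (hprop x hx).2.2)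
      (fun ω y => hid QWt.w0 ω y) a).2
  | w1 =>
    exact (swapDn_core47 F B hB.frame T₀ fb ν T f₀ F1 (F₁ QWt.w1 []) QWt.w1.type 𝔫
      (hA.dn1_test QWt.w1 [] (by simp)) (hA.dn1_ek QWt.w1 [] (by simp))
      (hA.dn1_supp QWt.w1 [] (by simp)) hc1 hf1 X cf (fun x hx => (hprop x hx).2.2)
      (fun ω y => hid QWt.w1 ω y) a).2

end Fermat.Agent.LT.T7.H47.ST

end

end
-- ===== PACK-END LT/T7/H47/ST/SwapQ.lean

-- ===== PACK-BEGIN LT/T7/H688/SwapUpInvQ.lean
section






/-!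
# Row LT, tower T7, node `PBQ973.PreBQC973` (second cut of helper973 over `ℚ`), leaf PBQ.0.U3
`SwapUpInvQC973` -- PROVED, UNCONDITIONAL (helper688, registry row 3134)

OFF-MAIN.  No hole, nothing assumed.  ADDITIVE (new names only, suffix `688`).

    swapUpInvQC688 (F) : PBQ973.SwapUpInvQC973 F

verbatim against `LT/T7/H973/PreBQSpec.lean` (helper973@a2ff41d85, sha256 200eee4e).  NOT
conditional on the key identity `SwapUpSumQC973`.  Upstairs mirror over `ℚ` of the proof of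
helper313 (`T7/H313/SwapDnInv.lean`, cubic, downstairs).

Proof.  Every member `pure305 (T' ω) (swUpQ973 B T₀ n₀ (φ₀ ω)) (Φ ω)` of the average is invariant
on both sides under every element `k` which is trivial at infinity, Iwahori at the places
`o j`, `j < 2`, and in `U(n₀ w)` at the other finite places (`IsGoodUp688`):
* the condition `OutT305` outside `T' ω`: `k` and `k⁻¹` are integral everywhere;
* at a place over `u` (`= o j`, `orbit_all`) the component is the indicator function of the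
  Iwahori subgroup (`T7/H340/IwKit.lean`);
* at a place over `T₀`, not over `u`, the component is the unit `1_{U(n₀ w)}` and `U(n₀ w)` is a
  group (`T6/H777/Lvl.lean`);
* at the other places of `T' ω` the component is spherical (`SphOut893` of the first triple) and
  the Cartan invariant is bi-`U(0)`-invariant (`H129/CartanInv.lean`);
* at infinity the components of `k` are trivial.
The elements of the level group `U(𝔑₀)` are good (`IsLevelOf893 𝔑₀ n₀`, `o j ∣ 𝔑₀`), and so are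
the Iwahori elements supported along the orbit.
-/

set_option autoImplicit false
set_option linter.unusedSectionVars false
set_option linter.style.haveILetI false

open AutomorphicForm IsDedekindDomain NumberField MeasureTheory

noncomputable section

namespace Fermat.Agent.LT.T7.H688

open Fermat.Agent.LT.H556 Fermat.Agent.LT.H556.A0 Fermat.Agent.LT.T7 Fermat.Agent.LT.T7.H305
  Fermat.Agent.LT.T7.L2Q Fermat.Agent.LT.T7.H893 Fermat.Agent.LT.T7.H962
  Fermat.Agent.LT.T7.H732 Fermat.Agent.LT.T7.MQ298 Fermat.Agent.LT.T7.CQ801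
  Fermat.Agent.LT.T7.PBQ973

attribute [local instance] Fermat.Agent.LT.T5.instMeasurableSpaceG

section OneField

variable {K : Type} [Field K] [NumberField K]

/-! ## 1. Components -/

theorem finGL_apply688 (v : HeightOneSpectrum (𝓞 K)) (g : G K) (i j : Fin 2) :
    ((finGL305 v g : GL (Fin 2) (v.adicCompletion K)) :
      Matrix (Fin 2) (Fin 2) (v.adicCompletion K)) i j = finComp v g i j := rfl

theorem finGL_inv_apply688 (v : HeightOneSpectrum (𝓞 K)) (g : G K) (i j : Fin 2) :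
    (((finGL305 v g)⁻¹ : GL (Fin 2) (v.adicCompletion K)) :
      Matrix (Fin 2) (Fin 2) (v.adicCompletion K)) i j = finComp v g⁻¹ i j := by
  rw [← map_inv]
  rfl

theorem finGL_eq_one688 {v : HeightOneSpectrum (𝓞 K)} {g : G K} (h : TrivAtFin v g) :
    finGL305 v g = 1 := by
  refine Units.ext (Matrix.ext fun i j => ?_)
  rw [finGL_apply688]
  have h' : finComp v g = 1 := h
  rw [h']
  rfl

theorem infGL_eq_one688 {w : InfinitePlace K} {g : G K} (h : TrivAtInf w g) :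
    infGL305 w g = 1 := by
  refine Units.ext (Matrix.ext fun i j => ?_)
  show InfinitePlace.Completion.extensionEmbedding w
    (((g : Matrix (Fin 2) (Fin 2) (Adl K)) i j).1 w) = (1 : Matrix (Fin 2) (Fin 2) ℂ) i j
  rw [h i j]
  by_cases hij : i = j
  · subst hij
    rw [Matrix.one_apply_eq, Matrix.one_apply_eq, map_one]
  · rw [Matrix.one_apply_ne hij, Matrix.one_apply_ne hij, map_zero]

/-! ## 2. The local groups -/

theorem inU_zero_of688 {k : Type} [Field k] [Valued k (WithZero (Multiplicative ℤ))] {n : ℕ}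
    {x : GL (Fin 2) k} (h : T6.InU n x) : T6.InU 0 x := by
  have hle : WithZero.exp (-(n : ℤ)) ≤ WithZero.exp (-((0 : ℕ) : ℤ)) := by
    rw [WithZero.exp_le_exp]
    simp
  intro i j
  exact ⟨(h i j).1.trans hle, (h i j).2.trans hle⟩

theorem inU_mul_left_iff688 {k : Type} [Field k] [Valued k (WithZero (Multiplicative ℤ))]
    {n : ℕ} {a : GL (Fin 2) k} (ha : T6.InU n a) (x : GL (Fin 2) k) :
    T6.InU n (a * x) ↔ T6.InU n x := by
  constructor
  · intro h
    have := Fermat.Agent.LT.T6.H777.inU_mul777 (Fermat.Agent.LT.T6.H777.inU_inv777 ha) h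
    rwa [inv_mul_cancel_left] at this
  · exact fun h => Fermat.Agent.LT.T6.H777.inU_mul777 ha h

theorem inU_mul_right_iff688 {k : Type} [Field k] [Valued k (WithZero (Multiplicative ℤ))]
    {n : ℕ} {a : GL (Fin 2) k} (ha : T6.InU n a) (x : GL (Fin 2) k) :
    T6.InU n (x * a) ↔ T6.InU n x := by
  constructor
  · intro h
    have := Fermat.Agent.LT.T6.H777.inU_mul777 h (Fermat.Agent.LT.T6.H777.inU_inv777 ha)
    rwa [mul_inv_cancel_right] at this
  · exact fun h => Fermat.Agent.LT.T6.H777.inU_mul777 h ha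

/-- The elements of `U(n)` of the form `finGL305 v k` are integral with integral inverse. -/
theorem isIntegralAt_of_inU688 {v : HeightOneSpectrum (𝓞 K)} {n : ℕ} {k : G K}
    (h : T6.InU n (finGL305 v k)) : IsIntegralAt v k ∧ IsIntegralAt v k⁻¹ := by
  have h0 := (Fermat.Agent.LT.H129.inU_zero_iff129 _).1 (inU_zero_of688 h)
  refine ⟨fun i j => ?_, fun i j => ?_⟩
  · rw [HeightOneSpectrum.mem_adicCompletionIntegers, ← finGL_apply688]
    exact h0.1 i j
  · rw [HeightOneSpectrum.mem_adicCompletionIntegers, ← finGL_inv_apply688]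
    exact h0.2 i j

theorem inIw_iff688 (w : HeightOneSpectrum (𝓞 K)) (g : G K) :
    InIw893 (finGL305 w g) ↔ T5.InIwahori w g := by
  constructor
  · rintro ⟨h1, h2, h3⟩
    refine ⟨fun i j => ?_, fun i j => ?_, h3⟩
    · rw [HeightOneSpectrum.mem_adicCompletionIntegers, ← finGL_apply688]
      exact h1 i j
    · rw [HeightOneSpectrum.mem_adicCompletionIntegers, ← finGL_inv_apply688]
      exact h2 i j
  · rintro ⟨h1, h2, h3⟩
    refine ⟨fun i j => ?_, fun i j => ?_, h3⟩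
    · rw [finGL_apply688]
      exact (HeightOneSpectrum.mem_adicCompletionIntegers _ _ _).1 (h1 i j)
    · rw [finGL_inv_apply688]
      exact (HeightOneSpectrum.mem_adicCompletionIntegers _ _ _).1 (h2 i j)

theorem inIwahori_mul_left_iff688 {w : HeightOneSpectrum (𝓞 K)} {k : G K}
    (hk : T5.InIwahori w k) (y : G K) : T5.InIwahori w (k * y) ↔ T5.InIwahori w y := by
  constructor
  · intro h
    have := H340.inIwahori_mul340 (H340.inIwahori_inv340 hk) h
    rwa [inv_mul_cancel_left] at this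
  · exact fun h => H340.inIwahori_mul340 hk h

theorem inIwahori_mul_right_iff688 {w : HeightOneSpectrum (𝓞 K)} {k : G K}
    (hk : T5.InIwahori w k) (y : G K) : T5.InIwahori w (y * k) ↔ T5.InIwahori w y := by
  constructor
  · intro h
    have := H340.inIwahori_mul340 h (H340.inIwahori_inv340 hk)
    rwa [mul_inv_cancel_right] at this
  · exact fun h => H340.inIwahori_mul340 h hk

theorem isIntegralAt_mul688 (v : HeightOneSpectrum (𝓞 K)) {a b : G K}
    (ha : IsIntegralAt v a) (hb : IsIntegralAt v b) : IsIntegralAt v (a * b) :=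
  Fermat.Agent.LT.T5.H942.isIntegralAt_mul942 v ha hb

/-! ## 3. The good elements -/

/-- `k` is trivial at infinity, Iwahori at the places `o j`, `j < l`, and in `U(n₀ v)` at the
other finite places. -/
def IsGoodUp688 (l : ℕ) (o : ℕ → HeightOneSpectrum (𝓞 K)) (n₀ : HeightOneSpectrum (𝓞 K) → ℕ)
    (k : G K) : Prop :=
  (∀ w : InfinitePlace K, TrivAtInf w k) ∧ (∀ j < l, T5.InIwahori (o j) k) ∧
    ∀ v : HeightOneSpectrum (𝓞 K), (∀ j < l, v ≠ o j) → T6.InU (n₀ v) (finGL305 v k)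

theorem IsGoodUp688.integral {l : ℕ} {o : ℕ → HeightOneSpectrum (𝓞 K)}
    {n₀ : HeightOneSpectrum (𝓞 K) → ℕ} {k : G K} (hk : IsGoodUp688 l o n₀ k)
    (v : HeightOneSpectrum (𝓞 K)) : IsIntegralAt v k ∧ IsIntegralAt v k⁻¹ := by
  by_cases hv : ∀ j < l, v ≠ o j
  · exact isIntegralAt_of_inU688 (hk.2.2 v hv)
  · push Not at hv
    obtain ⟨j, hj, rfl⟩ := hv
    exact ⟨(hk.2.1 j hj).1, (hk.2.1 j hj).2.1⟩

theorem outT_mul_left_iff688 {k : G K}
    (hk : ∀ v : HeightOneSpectrum (𝓞 K), IsIntegralAt v k ∧ IsIntegralAt v k⁻¹)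
    (T : Finset (HeightOneSpectrum (𝓞 K))) (y : G K) :
    OutT305 T (k * y) ↔ OutT305 T y := by
  constructor
  · intro h v hv
    obtain ⟨h1, h2⟩ := h v hv
    obtain ⟨k1, k2⟩ := hk v
    refine ⟨?_, ?_⟩
    · have := isIntegralAt_mul688 v k2 h1
      rwa [inv_mul_cancel_left] at this
    · have := isIntegralAt_mul688 v h2 k1
      rwa [mul_inv_rev, inv_mul_cancel_right] at this
  · intro h v hv
    obtain ⟨h1, h2⟩ := h v hv
    obtain ⟨k1, k2⟩ := hk v
    refine ⟨isIntegralAt_mul688 v k1 h1, ?_⟩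
    rw [mul_inv_rev]
    exact isIntegralAt_mul688 v h2 k2

theorem outT_mul_right_iff688 {k : G K}
    (hk : ∀ v : HeightOneSpectrum (𝓞 K), IsIntegralAt v k ∧ IsIntegralAt v k⁻¹)
    (T : Finset (HeightOneSpectrum (𝓞 K))) (y : G K) :
    OutT305 T (y * k) ↔ OutT305 T y := by
  constructor
  · intro h v hv
    obtain ⟨h1, h2⟩ := h v hv
    obtain ⟨k1, k2⟩ := hk v
    refine ⟨?_, ?_⟩
    · have := isIntegralAt_mul688 v h1 k2
      rwa [mul_inv_cancel_right] at this
    · have := isIntegralAt_mul688 v k1 h2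
      rwa [mul_inv_rev, mul_inv_cancel_left] at this
  · intro h v hv
    obtain ⟨h1, h2⟩ := h v hv
    obtain ⟨k1, k2⟩ := hk v
    refine ⟨isIntegralAt_mul688 v h1 k1, ?_⟩
    rw [mul_inv_rev]
    exact isIntegralAt_mul688 v k2 h2

/-- The elements of the level group are good. -/
theorem isGoodUp_of_level688 {𝔑₀ : Ideal (𝓞 K)} {l : ℕ} {o : ℕ → HeightOneSpectrum (𝓞 K)}
    {n₀ : HeightOneSpectrum (𝓞 K) → ℕ} (ho : ∀ j < l, (o j).asIdeal ∣ 𝔑₀)
    (hn : IsLevelOf893 𝔑₀ n₀) {k : G K} (hk : InLevelGroup 𝔑₀ k) : IsGoodUp688 l o n₀ k := by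
  refine ⟨hk.1, fun j hj => H281.inIwahori_of_level281 (ho j hj) hk, fun v _ i j => ⟨?_, ?_⟩⟩
  · have := (hn v _).1 (hk.2 v i j).1
    rwa [Matrix.sub_apply, ← finGL_apply688] at this
  · have := (hn v _).1 (hk.2 v i j).2
    rwa [Matrix.sub_apply, ← finGL_inv_apply688] at this

/-- The Iwahori elements supported along the orbit are good. -/
theorem isGoodUp_of_iw688 {l : ℕ} {o : ℕ → HeightOneSpectrum (𝓞 K)}
    (n₀ : HeightOneSpectrum (𝓞 K) → ℕ) {h : G K} (h1 : ∀ w : InfinitePlace K, TrivAtInf w h)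
    (h2 : ∀ v : HeightOneSpectrum (𝓞 K), (∀ j < l, v ≠ o j) → TrivAtFin v h)
    (h3 : ∀ j < l, T5.InIwahori (o j) h) : IsGoodUp688 l o n₀ h := by
  refine ⟨h1, h3, fun v hv => ?_⟩
  rw [finGL_eq_one688 (h2 v hv)]
  exact Fermat.Agent.LT.T6.H777.inU_one777 _

end OneField

/-! ## 4. The swapped components -/

section Swap

variable {F : Type} [Field F] [NumberField F]

open Classical in
/-- The swapped components upstairs are invariant under the components of a good element. -/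
theorem swUp_inv688 (B : L2QBase962 F) (hover : ∀ j : ℕ, PlaceOver ℚ F B.u (B.o j))
    (hall : ∀ w : HeightOneSpectrum (𝓞 F), PlaceOver ℚ F B.u w → ∃ j < 2, w = B.o j)
    (T₀ : Finset (HeightOneSpectrum (𝓞 ℚ))) (T' : Finset (HeightOneSpectrum (𝓞 F)))
    (n₀ : HeightOneSpectrum (𝓞 F) → ℕ)
    (φ₀ : ∀ w : HeightOneSpectrum (𝓞 F), GL (Fin 2) (w.adicCompletion F) → ℂ)
    (hsph : ∀ w ∈ T', (¬ ∃ v ∈ T₀, PlaceOver ℚ F v w) →
      ∃ A : (ℤ × ℤ) →₀ ℂ, IsSphFn893 (φ₀ w) A)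
    {k : G F} (hk : IsGoodUp688 2 B.o n₀ k) (w : HeightOneSpectrum (𝓞 F)) (hw : w ∈ T')
    (y : G F) :
    swUpQ973 B T₀ n₀ φ₀ w (finGL305 w (k * y)) = swUpQ973 B T₀ n₀ φ₀ w (finGL305 w y) ∧
      swUpQ973 B T₀ n₀ φ₀ w (finGL305 w (y * k)) = swUpQ973 B T₀ n₀ φ₀ w (finGL305 w y) := by
  unfold swUpQ973
  by_cases hwu : PlaceOver ℚ F B.u w
  · simp only [if_pos hwu]
    obtain ⟨j, hj, rfl⟩ := hall w hwu
    have hkI := hk.2.1 j hj
    unfold iwFn893
    have h1 : InIw893 (finGL305 (B.o j) (k * y)) ↔ InIw893 (finGL305 (B.o j) y) := by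
      rw [inIw_iff688, inIw_iff688]
      exact inIwahori_mul_left_iff688 hkI y
    have h2 : InIw893 (finGL305 (B.o j) (y * k)) ↔ InIw893 (finGL305 (B.o j) y) := by
      rw [inIw_iff688, inIw_iff688]
      exact inIwahori_mul_right_iff688 hkI y
    refine ⟨?_, ?_⟩
    · by_cases hy : InIw893 (finGL305 (B.o j) y)
      · rw [if_pos hy, if_pos (h1.2 hy)]
      · rw [if_neg hy, if_neg (fun h => hy (h1.1 h))]
    · by_cases hy : InIw893 (finGL305 (B.o j) y)
      · rw [if_pos hy, if_pos (h2.2 hy)]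
      · rw [if_neg hy, if_neg (fun h => hy (h2.1 h))]
  · simp only [if_neg hwu]
    have hno : ∀ j < 2, w ≠ B.o j := fun j _ h => hwu (h ▸ hover j)
    have hkU := hk.2.2 w hno
    by_cases hwT : ∃ v ∈ T₀, PlaceOver ℚ F v w
    · simp only [if_pos hwT]
      unfold unitFn893
      have h1 : T6.InU (n₀ w) (finGL305 w (k * y)) ↔ T6.InU (n₀ w) (finGL305 w y) := by
        rw [map_mul]
        exact inU_mul_left_iff688 hkU _
      have h2 : T6.InU (n₀ w) (finGL305 w (y * k)) ↔ T6.InU (n₀ w) (finGL305 w y) := by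
        rw [map_mul]
        exact inU_mul_right_iff688 hkU _
      refine ⟨?_, ?_⟩
      · by_cases hy : T6.InU (n₀ w) (finGL305 w y)
        · rw [if_pos hy, if_pos (h1.2 hy)]
        · rw [if_neg hy, if_neg (fun h => hy (h1.1 h))]
      · by_cases hy : T6.InU (n₀ w) (finGL305 w y)
        · rw [if_pos hy, if_pos (h2.2 hy)]
        · rw [if_neg hy, if_neg (fun h => hy (h2.1 h))]
    · simp only [if_neg hwT]
      obtain ⟨A, -, hA⟩ := hsph w hw hwT
      have hk0 := inU_zero_of688 hkU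
      have h10 : T6.InU 0 (1 : GL (Fin 2) (w.adicCompletion F)) :=
        Fermat.Agent.LT.T6.H777.inU_one777 0
      refine ⟨?_, ?_⟩
      · rw [hA, hA]
        have := Fermat.Agent.LT.H129.cartan_mul129 (g := finGL305 w y) hk0 h10
        rw [mul_one, ← map_mul] at this
        rw [this]
      · rw [hA, hA]
        have := Fermat.Agent.LT.H129.cartan_mul129 (g := finGL305 w y) h10 hk0
        rw [one_mul, ← map_mul] at this
        rw [this]

open Classical in
/-- The swapped pure tensor upstairs is invariant on both sides under the good elements. -/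
theorem pure_swUp_inv688 (B : L2QBase962 F) (hover : ∀ j : ℕ, PlaceOver ℚ F B.u (B.o j))
    (hall : ∀ w : HeightOneSpectrum (𝓞 F), PlaceOver ℚ F B.u w → ∃ j < 2, w = B.o j)
    (T₀ : Finset (HeightOneSpectrum (𝓞 ℚ))) (T' : Finset (HeightOneSpectrum (𝓞 F)))
    (n₀ : HeightOneSpectrum (𝓞 F) → ℕ)
    (φ₀ : ∀ w : HeightOneSpectrum (𝓞 F), GL (Fin 2) (w.adicCompletion F) → ℂ)
    (Φ : InfinitePlace F → GL (Fin 2) ℂ → ℂ)
    (hsph : ∀ w ∈ T', (¬ ∃ v ∈ T₀, PlaceOver ℚ F v w) →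
      ∃ A : (ℤ × ℤ) →₀ ℂ, IsSphFn893 (φ₀ w) A)
    {k : G F} (hk : IsGoodUp688 2 B.o n₀ k) (y : G F) :
    pure305 T' (swUpQ973 B T₀ n₀ φ₀) Φ (k * y) = pure305 T' (swUpQ973 B T₀ n₀ φ₀) Φ y ∧
      pure305 T' (swUpQ973 B T₀ n₀ φ₀) Φ (y * k) = pure305 T' (swUpQ973 B T₀ n₀ φ₀) Φ y := by
  have hint := hk.integral
  have hinfl : ∀ w : InfinitePlace F, infGL305 w (k * y) = infGL305 w y := by
    intro w
    rw [map_mul, infGL_eq_one688 (hk.1 w), one_mul]
  have hinfr : ∀ w : InfinitePlace F, infGL305 w (y * k) = infGL305 w y := by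
    intro w
    rw [map_mul, infGL_eq_one688 (hk.1 w), mul_one]
  have hfl : ∏ w ∈ T', swUpQ973 B T₀ n₀ φ₀ w (finGL305 w (k * y))
      = ∏ w ∈ T', swUpQ973 B T₀ n₀ φ₀ w (finGL305 w y) :=
    Finset.prod_congr rfl fun w hw =>
      (swUp_inv688 B hover hall T₀ T' n₀ φ₀ hsph hk w hw y).1
  have hfr : ∏ w ∈ T', swUpQ973 B T₀ n₀ φ₀ w (finGL305 w (y * k))
      = ∏ w ∈ T', swUpQ973 B T₀ n₀ φ₀ w (finGL305 w y) :=
    Finset.prod_congr rfl fun w hw =>
      (swUp_inv688 B hover hall T₀ T' n₀ φ₀ hsph hk w hw y).2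
  have hil : (∏ w : InfinitePlace F, Φ w (infGL305 w (k * y)))
      = ∏ w : InfinitePlace F, Φ w (infGL305 w y) :=
    Finset.prod_congr rfl fun w _ => by rw [hinfl w]
  have hir : (∏ w : InfinitePlace F, Φ w (infGL305 w (y * k)))
      = ∏ w : InfinitePlace F, Φ w (infGL305 w y) :=
    Finset.prod_congr rfl fun w _ => by rw [hinfr w]
  unfold pure305
  refine ⟨?_, ?_⟩
  · by_cases hy : OutT305 T' y
    · rw [if_pos hy, if_pos ((outT_mul_left_iff688 hint T' y).2 hy), hfl, hil]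
    · rw [if_neg hy, if_neg (fun h => hy ((outT_mul_left_iff688 hint T' y).1 h))]
  · by_cases hy : OutT305 T' y
    · rw [if_pos hy, if_pos ((outT_mul_right_iff688 hint T' y).2 hy), hfr, hir]
    · rw [if_neg hy, if_neg (fun h => hy ((outT_mul_right_iff688 hint T' y).1 h))]

end Swap

/-! ## 5. The leaf -/

open Classical in
/-- **LEAF PBQ.0.U3 = SWAP-UP-INV over `ℚ`**, unconditional. -/
theorem swapUpInvQC688 (F : Type) [Field F] [NumberField F] :
    Fermat.Agent.LT.T7.PBQ973.SwapUpInvQC973 F := by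
  intro _ _ Φe B hB _ g _ 𝔫 _ μr μc _ _ T₀ n n₀ m hlev c _ c₁ Φ₁ F₁ _ fb _ Ω iT _ _ _ iM _ ν _
    T T' φ₀ Φ f₀ F0 F1 hdat
  have hB' := isL2QBase962_of60_732 hB
  have hover : ∀ j : ℕ, PlaceOver ℚ F (toBase962_732 B).u ((toBase962_732 B).o j) :=
    hB'.orbit_over
  have hall : ∀ w : HeightOneSpectrum (𝓞 F), PlaceOver ℚ F (toBase962_732 B).u w →
      ∃ j < 2, w = (toBase962_732 B).o j := hB'.orbit_all
  have hdiv : ∀ j < 2, ((toBase962_732 B).o j).asIdeal ∣ (toBase962_732 B).𝔑₀ :=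
    fun j _ => (hB'.mem_S' _).1 (hB'.orbit_level j)
  have hsph : ∀ ω : Ω, ∀ w ∈ T' ω, (¬ ∃ v ∈ T₀, PlaceOver ℚ F v w) →
      ∃ A : (ℤ × ℤ) →₀ ℂ, IsSphFn893 (φ₀ ω w) A := by
    intro ω w hw hwT
    obtain ⟨-, hover', hloc⟩ := hdat.1 ω
    obtain ⟨v, hv, hvw⟩ := (hover' w).1 hw
    have hvT : v ∉ T₀ := fun h => hwT ⟨v, h, hvw⟩
    obtain ⟨A, Av, -, hAw, -⟩ := hloc.2.2.1 v hv hvT
    exact ⟨A w, hAw w hvw⟩
  have key : ∀ k : G F, IsGoodUp688 2 (toBase962_732 B).o n₀ k → ∀ y : G F,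
      swapUpFnQ973 (toBase962_732 B) T₀ n₀ ν T' φ₀ Φ (k * y)
          = swapUpFnQ973 (toBase962_732 B) T₀ n₀ ν T' φ₀ Φ y ∧
        swapUpFnQ973 (toBase962_732 B) T₀ n₀ ν T' φ₀ Φ (y * k)
          = swapUpFnQ973 (toBase962_732 B) T₀ n₀ ν T' φ₀ Φ y := by
    intro k hk y
    unfold swapUpFnQ973
    refine ⟨?_, ?_⟩
    · refine integral_congr_ae (Filter.Eventually.of_forall fun ω => ?_)
      exact (pure_swUp_inv688 (toBase962_732 B) hover hall T₀ (T' ω) n₀ (φ₀ ω) (Φ ω)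
        (hsph ω) hk y).1
    · refine integral_congr_ae (Filter.Eventually.of_forall fun ω => ?_)
      exact (pure_swUp_inv688 (toBase962_732 B) hover hall T₀ (T' ω) n₀ (φ₀ ω) (Φ ω)
        (hsph ω) hk y).2
  exact ⟨fun u hu y => key u (isGoodUp_of_level688 hdiv hlev.lev_base hu) y,
    fun h h1 h2 h3 y => key h (isGoodUp_of_iw688 n₀ h1 h2 h3) y⟩

/-- The statement of the leaf, verbatim. -/
example (F : Type) [Field F] [NumberField F] :
    SwapCtxQ973 F fun _ B _ _ _ _ _ T₀ _ n₀ _ _ _ _ _ _ ν _ T' φ₀ Φ _ _ _ =>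
      H193.IsBiHInv B.𝔑₀ 2 B.o (swapUpFnQ973 B T₀ n₀ ν T' φ₀ Φ) :=
  swapUpInvQC688 F

end Fermat.Agent.LT.T7.H688

end

end
-- ===== PACK-END LT/T7/H688/SwapUpInvQ.lean

-- ===== PACK-BEGIN LT/T7/H575/SwapUpOpQ.lean
section





/-!
# Row LT, tower T7, leaf T7.L2Q.1.H2a.B.0.U4 `PBQ973.SwapUpOpQC973` (registry row 3135, helper575)

OFF-MAIN.  `swapUpOpQC_of575 (F) : PBQ973.SwapUpSumQC973 F → PBQ973.SwapUpOpQC973 F`, VERBATIM vs
`T7/H973/PreBQSpec.lean` (helper973@a2ff41d85, sha256 200eee4e), CONDITIONAL on the key identity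
`SwapUpSumQC973` only (as allowed by the registry row).  PORT over `ℚ` of the cubic twin
`swapUpOpC939` of helper939 (registry row 3068; the abstract part is copied under new names).

Proof.  `φ° = ∑_{h ∈ HU} Φ₁ [] (· h⁻¹)` (the key identity under the integral over the compact
parameter space; the members are continuous), `R(Φ₁ [] (· h⁻¹)) ψ = R(Φ₁ []) (ψ(· h))` (right
invariance of the Haar measure, `IsFrame.right_inv`), `ψ(· h) = ψ` for `h ∈ HU`: `h = i u` with
`i` = the part of `h` along the orbit (Iwahori, `IsWFn.iw`) and `u = i⁻¹ h ∈ U(𝔑₀)`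
(`IsCuspFn.aut.level_inv`).  So `c₂ = card HU · c₁`, `≠ 0` on the class by `up1_ne`.
-/

set_option autoImplicit false

open AutomorphicForm IsDedekindDomain NumberField MeasureTheory
open scoped ComplexConjugate

noncomputable section

namespace Fermat.Agent.LT.T7.H575

open Fermat.Agent.LT.H556 Fermat.Agent.LT.H556.A0 Fermat.Agent.LT.T7 Fermat.Agent.LT.T7.H305
  Fermat.Agent.LT.T7.L2Q Fermat.Agent.LT.T7.H893 Fermat.Agent.LT.T7.H962
  Fermat.Agent.LT.T7.H732 Fermat.Agent.LT.T7.MQ298 Fermat.Agent.LT.T7.CQ801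
open Fermat.Agent.LT.H129

attribute [local instance] Fermat.Agent.LT.T5.instMeasurableSpaceG

/-! ## 1. The part of an element at a finite set of places -/

section Part

/-- The product over a list without duplicates of a family with ONE non-trivial member. -/
theorem list_prod_single575 {M α : Type*} [Monoid M] (l : List α) (hl : l.Nodup) (v : α)
    (f : α → M) (hne : ∀ w, w ≠ v → f w = 1) :
    (v ∈ l → (l.map f).prod = f v) ∧ (v ∉ l → (l.map f).prod = 1) := by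
  induction l with
  | nil =>
    refine ⟨fun h => absurd h (List.not_mem_nil), fun _ => ?_⟩
    rw [List.map_nil, List.prod_nil]
  | cons w l ih =>
    rw [List.nodup_cons] at hl
    obtain ⟨ih1, ih2⟩ := ih hl.2
    rw [List.map_cons, List.prod_cons]
    constructor
    · intro hv
      rw [List.mem_cons] at hv
      rcases hv with hv | hv
      · subst hv
        rw [ih2 hl.1, mul_one]
      · have hwv : w ≠ v := fun h => hl.1 (h ▸ hv)
        rw [hne w hwv, one_mul, ih1 hv]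
    · intro hv
      rw [List.mem_cons, not_or] at hv
      rw [hne w (fun h => hv.1 h.symm), one_mul, ih2 hv.2]

variable {K : Type} [Field K] [NumberField K]

/-- The part of `h` at the places of the finite set `O` (`1` at the other places). -/
def partAt575 (O : Finset (HeightOneSpectrum (𝓞 K))) (h : G K) : G K :=
  (O.toList.map fun w => locFin129 w (finCompHom129 w h)).prod

theorem finCompHom_partAt575 (O : Finset (HeightOneSpectrum (𝓞 K))) (h : G K)
    (v : HeightOneSpectrum (𝓞 K)) :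
    (v ∈ O → finCompHom129 v (partAt575 O h) = finCompHom129 v h) ∧
      (v ∉ O → finCompHom129 v (partAt575 O h) = 1) := by
  have key := list_prod_single575 O.toList O.nodup_toList v
    (fun w => finCompHom129 v (locFin129 w (finCompHom129 w h)))
    (fun w hw => finCompHom129_locFin129_of_ne w _ (Ne.symm hw))
  have e : finCompHom129 v (partAt575 O h)
      = (O.toList.map fun w => finCompHom129 v (locFin129 w (finCompHom129 w h))).prod := by
    show finCompHom129 v (O.toList.map fun w => locFin129 w (finCompHom129 w h)).prod = _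
    rw [map_list_prod, List.map_map]
    rfl
  rw [e]
  refine ⟨fun hv => ?_, fun hv => ?_⟩
  · rw [key.1 (Finset.mem_toList.mpr hv)]
    exact finCompHom129_locFin129 v _
  · exact key.2 (fun h' => hv (Finset.mem_toList.mp h'))

theorem infCompHom_partAt575 (O : Finset (HeightOneSpectrum (𝓞 K))) (h : G K)
    (w : InfinitePlace K) : infCompHom129 w (partAt575 O h) = 1 := by
  show infCompHom129 w (O.toList.map fun w => locFin129 w (finCompHom129 w h)).prod = 1
  rw [map_list_prod, List.map_map]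
  refine List.prod_eq_one fun x hx => ?_
  rw [List.mem_map] at hx
  obtain ⟨v, _, rfl⟩ := hx
  exact infCompHom129_locFin129 v _ w

/-- The components of `g` and of `g⁻¹` at `v` depend only on the image under `finCompHom129`. -/
theorem finComp_congr575 {v : HeightOneSpectrum (𝓞 K)} {g g' : G K}
    (h : finCompHom129 v g = finCompHom129 v g') :
    finComp v g = finComp v g' ∧ finComp v g⁻¹ = finComp v g'⁻¹ := by
  constructor
  · rw [← coe_finCompHom129, ← coe_finCompHom129, h]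
  · rw [← coe_finCompHom129, ← coe_finCompHom129, map_inv, map_inv, h]

theorem inIwahori_congr575 {v : HeightOneSpectrum (𝓞 K)} {g g' : G K}
    (h : finCompHom129 v g = finCompHom129 v g') (hg : T5.InIwahori v g') :
    T5.InIwahori v g := by
  obtain ⟨e1, e2⟩ := finComp_congr575 h
  obtain ⟨a, b, c⟩ := hg
  refine ⟨?_, ?_, ?_⟩
  · intro i j
    show finComp v g i j ∈ v.adicCompletionIntegers K
    rw [e1]
    exact a i j
  · intro i j
    show finComp v g⁻¹ i j ∈ v.adicCompletionIntegers K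
    rw [e2]
    exact b i j
  · show Valued.v (finComp v g 1 0) < 1
    rw [e1]
    exact c

open Classical in
/-- **THE INVARIANCE OF THE FUNCTIONS OF THE BASE LEVEL UNDER `H`.**  A function which is right
invariant under `U(𝔑₀)` and under the Iwahori elements along the orbit is right invariant under
every element which is trivial at infinity, congruent to `1` modulo `𝔑₀` outside the orbit and
Iwahori along the orbit. -/
theorem right_inv_of_mixed575 {𝔑₀ : Ideal (𝓞 K)} {l : ℕ} {o : ℕ → HeightOneSpectrum (𝓞 K)}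
    {ψ : G K → ℂ}
    (hlev : ∀ u : G K, InLevelGroup 𝔑₀ u → ∀ g : G K, ψ (g * u) = ψ g)
    (hiw : IsIwInv l o ψ) {h : G K}
    (h1 : ∀ w : InfinitePlace K, TrivAtInf w h)
    (h2 : ∀ w : HeightOneSpectrum (𝓞 K), (∀ j < l, w ≠ o j) → ∀ i j : Fin 2,
      (finComp w h - 1) i j ∈ idealClosure 𝔑₀ w ∧ (finComp w h⁻¹ - 1) i j ∈ idealClosure 𝔑₀ w)
    (h3 : ∀ j < l, T5.InIwahori (o j) h) (x : G K) : ψ (x * h) = ψ x := by
  set O : Finset (HeightOneSpectrum (𝓞 K)) := (Finset.range l).image o with hO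
  have hmem : ∀ j < l, o j ∈ O := fun j hj =>
    Finset.mem_image.mpr ⟨j, Finset.mem_range.mpr hj, rfl⟩
  have hnot : ∀ v : HeightOneSpectrum (𝓞 K), (∀ j < l, v ≠ o j) → v ∉ O := by
    intro v hv hvO
    obtain ⟨j, hj, rfl⟩ := Finset.mem_image.mp hvO
    exact hv j (Finset.mem_range.mp hj) rfl
  have hnot' : ∀ v : HeightOneSpectrum (𝓞 K), v ∉ O → ∀ j < l, v ≠ o j := by
    intro v hv j hj hvj
    exact hv (hvj ▸ hmem j hj)
  set i : G K := partAt575 O h with hi
  have hi_inf : ∀ w : InfinitePlace K, TrivAtInf w i := fun w =>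
    (trivAtInf_iff129 w i).mpr (infCompHom_partAt575 O h w)
  have hi_iw : ∀ y : G K, ψ (y * i) = ψ y := by
    refine hiw i hi_inf (fun v hv => ?_) (fun j hj => ?_)
    · exact (trivAtFin_iff129 v i).mpr ((finCompHom_partAt575 O h v).2 (hnot v hv))
    · exact inIwahori_congr575 ((finCompHom_partAt575 O h (o j)).1 (hmem j hj)) (h3 j hj)
  have hu : InLevelGroup 𝔑₀ (i⁻¹ * h) := by
    refine ⟨fun w => H543.trivAtInf_mul543 (H543.trivAtInf_inv543 (hi_inf w)) (h1 w), ?_⟩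
    intro v a b
    by_cases hv : v ∈ O
    · have e : finCompHom129 v (i⁻¹ * h) = finCompHom129 v (1 : G K) := by
        rw [map_mul, map_inv, (finCompHom_partAt575 O h v).1 hv, inv_mul_cancel, map_one]
      obtain ⟨e1, e2⟩ := finComp_congr575 e
      rw [e1, e2, inv_one, ← coe_finCompHom129, map_one]
      have z : ((((1 : GL (Fin 2) (v.adicCompletion K)) :
          Matrix (Fin 2) (Fin 2) (v.adicCompletion K)) - 1) a b) = 0 := by
        rw [Units.val_one, sub_self]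
        rfl
      rw [z]
      exact ⟨H543.ic_zero543 𝔑₀ v, H543.ic_zero543 𝔑₀ v⟩
    · have e : finCompHom129 v (i⁻¹ * h) = finCompHom129 v h := by
        rw [map_mul, map_inv, (finCompHom_partAt575 O h v).2 hv, inv_one, one_mul]
      obtain ⟨e1, e2⟩ := finComp_congr575 e
      rw [e1, e2]
      exact h2 v (hnot' v hv) a b
  have hh : x * h = x * i * (i⁻¹ * h) := by
    rw [mul_assoc, mul_inv_cancel_left]
  rw [hh, hlev _ hu, hi_iw]

end Part

/-! ## 2. The leaf -/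

section Leaf

variable (F : Type) [Field F] [NumberField F]

/-- **LEAF PBQ.0.U4 = SWAP-UP-OP over `ℚ`**, conditional on the key identity
`SwapUpSumQC973`. -/
theorem swapUpOpQC_of575 (hsum : PBQ973.SwapUpSumQC973 F) : PBQ973.SwapUpOpQC973 F := by
  intro hsqrt hquad Φe B hB hram g hg 𝔫 h𝔫 μr μc hμr hμc T₀ n n₀ m hexp c hc c₁ Φ₁ F₁ hA fb hfb
    Ω iT iC iT2 iSC iM iB ν iF T T' φ₀ Φ f₀ F0 F1 hdat
  obtain ⟨HU, hne, hHU, hid⟩ := hsum hsqrt hquad Φe B hB hram g hg 𝔫 h𝔫 μr μc hμr hμc T₀ n n₀ m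
    hexp c hc c₁ Φ₁ F₁ hA fb hfb Ω iT iC iT2 iSC iM iB ν iF T T' φ₀ Φ f₀ F0 F1 hdat
  obtain ⟨-, -, -, -, hcont, -, -, -, -, -, hΦ1, -, -⟩ := hdat
  have hnil : ∀ x ∈ ([] : List (Gen F)), x.Out (toBase962_732 B).S' :=
    fun x hx => absurd hx (List.not_mem_nil)
  have htest := hA.up1_test [] hnil
  have hop := hA.up1_op [] hnil
  -- the swapped function is the sum of the right translates of `Φ₁ []`
  have hsw : ∀ y : G F, PBQ973.swapUpFnQ973 (toBase962_732 B) T₀ n₀ ν T' φ₀ Φ y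
      = ∑ h ∈ HU, Φ₁ [] (y * h⁻¹) := by
    intro y
    show ∫ ω, pure305 (T' ω) (PBQ973.swUpQ973 (toBase962_732 B) T₀ n₀ (φ₀ ω)) (Φ ω) y ∂ν = _
    have e1 : (fun ω => pure305 (T' ω) (PBQ973.swUpQ973 (toBase962_732 B) T₀ n₀ (φ₀ ω)) (Φ ω) y)
        = fun ω => ∑ h ∈ HU, pure305 (T' ω) (φ₀ ω) (Φ ω) (y * h⁻¹) := by
      funext ω
      exact (hid ω y).1
    rw [e1, integral_finsetSum]
    · refine Finset.sum_congr rfl fun h _ => ?_
      exact (hΦ1 (y * h⁻¹)).symm
    · intro h _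
      have hc' : Continuous (fun ω : Ω => pure305 (T' ω) (φ₀ ω) (Φ ω) (y * h⁻¹)) :=
        hcont.comp (Continuous.prodMk continuous_id continuous_const)
      exact hc'.integrable_of_hasCompactSupport (HasCompactSupport.of_compactSpace _)
  refine ⟨fun C => (HU.card : ℂ) * c₁ C, ?_, ?_⟩
  · intro ψ C hψ x
    have hBS : BorelSpace (G F) := ⟨rfl⟩
    have hfr : T5.IsFrame (toBase962_732 B).R'.μ (toBase962_732 B).R'.F := hB.frame'.frame
    have hHaar : (toBase962_732 B).R'.μ.IsHaarMeasure := hfr.haar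
    have hRI : (toBase962_732 B).R'.μ.IsMulRightInvariant := ⟨fun g => Measure.ext fun A hA => by
      rw [Measure.map_apply (measurable_mul_const g) hA]
      exact hfr.right_inv g A hA⟩
    have hψc : Continuous ψ := hψ.inv.cusp.cont
    have hinvψ : ∀ h ∈ HU, ∀ z : G F, ψ (z * h) = ψ z := fun h hh z =>
      right_inv_of_mixed575 hψ.inv.cusp.aut.level_inv hψ.inv.iw (hHU h hh).1
        (hHU h hh).2.2.2.1 (hHU h hh).2.2.2.2 z
    show ∫ y, PBQ973.swapUpFnQ973 (toBase962_732 B) T₀ n₀ ν T' φ₀ Φ y * ψ (x * y)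
      ∂((toBase962_732 B).R'.μ) = _
    have e2 : (fun y => PBQ973.swapUpFnQ973 (toBase962_732 B) T₀ n₀ ν T' φ₀ Φ y * ψ (x * y))
        = fun y => ∑ h ∈ HU, Φ₁ [] (y * h⁻¹) * ψ (x * y) := by
      funext y
      rw [hsw y, Finset.sum_mul]
    rw [e2, integral_finsetSum]
    · have hterm : ∀ h ∈ HU,
          ∫ y, Φ₁ [] (y * h⁻¹) * ψ (x * y) ∂((toBase962_732 B).R'.μ) = c₁ C * ψ x := by
        intro h hh
        have e3 := integral_mul_right_eq_self (μ := (toBase962_732 B).R'.μ)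
          (fun y : G F => Φ₁ [] (y * h⁻¹) * ψ (x * y)) h
        rw [← e3]
        have e4 : (fun y : G F => (fun y : G F => Φ₁ [] (y * h⁻¹) * ψ (x * y)) (y * h))
            = fun y => Φ₁ [] y * ψ (x * y) := by
          funext y
          show Φ₁ [] (y * h * h⁻¹) * ψ (x * (y * h)) = _
          rw [mul_inv_cancel_right, ← mul_assoc, hinvψ h hh]
        rw [e4]
        have h5 := hop ψ C hψ x
        have hw : wordEv ([] : List (Gen F)) C = 1 := by
          show (([] : List (Gen F)).map fun g => g.ev C).prod = 1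
          rw [List.map_nil, List.prod_nil]
        rw [hw, one_mul] at h5
        exact h5
      rw [Finset.sum_congr rfl hterm, Finset.sum_const, nsmul_eq_mul, mul_assoc]
    · intro h _
      have hc' : Continuous (fun y : G F => Φ₁ [] (y * h⁻¹) * ψ (x * y)) :=
        (htest.cont.comp (continuous_id.mul continuous_const)).mul
          (hψc.comp (continuous_const.mul continuous_id))
      have hs : HasCompactSupport (fun y : G F => Φ₁ [] (y * h⁻¹)) :=
        htest.supp.comp_homeomorph (Homeomorph.mulRight h⁻¹)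
      exact hc'.integrable_of_hasCompactSupport hs.mul_right
  · intro C hC
    exact mul_ne_zero (by exact_mod_cast (Finset.card_pos.mpr hne).ne') (hA.up1_ne C hC)

/-- The statement is the frozen one, verbatim. -/
example : PBQ973.SwapUpSumQC973 F → PBQ973.SwapUpOpQC973 F := swapUpOpQC_of575 F

end Leaf

end Fermat.Agent.LT.T7.H575

end

end
-- ===== PACK-END LT/T7/H575/SwapUpOpQ.lean

-- ===== PACK-BEGIN LT/T7/H75/SwapDnSuppQ.lean
section




/-!
# Row LT, tower T7, leaf T7.L2Q.1.H2a.B.0.D5 `PBQ973.SwapDnSuppQC973` (helper75, registry row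
# 3142): the field `dn_supp` of the un-averaged second pair over `ℚ`, the two types

OFF-MAIN.  No hole, nothing assumed.  ADDITIVE (namespace `Fermat.Agent.LT.T7.H75.SQ`).

    swapDnSuppQC_of75 (F) : PBQ973.SwapDnSumQC973 F → PBQ973.SwapDnSuppQC973 F

VERBATIM conclusion vs `LT/T7/H973/PreBQSpec.lean` (helper973@a2ff41d85, sha256 200eee4e);
CONDITIONAL on the key identity downstairs `PBQ973.SwapDnSumQC973` (tool leaf of the same cut,
registry row 3131), as allowed by the row.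

Proof.  By the key identity the swapped function of type `t` is
`a ∑_{x ∈ X} c_x F₁ t [] (x⁻¹ ·)` (the integral of a finite sum of continuous functions on the
compact parameter space), the elements of `X` are Iwahori at `u`, and `F₁ t []` is supported on
elements which are Iwahori at `u` and agree outside `u` with an element of a compact set `C`
(`IsPairAQ801.dn1_supp`).  The Iwahori subgroup is a group, so the swapped function is
Iwahori-supported in the compact set `⋃_{x ∈ X} x C`.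
-/

set_option autoImplicit false
set_option linter.style.haveILetI false
set_option linter.unusedSectionVars false
set_option linter.unusedVariables false

open AutomorphicForm IsDedekindDomain NumberField MeasureTheory
open scoped ComplexConjugate

noncomputable section

namespace Fermat.Agent.LT.T7.H75.SQ

open Fermat.Agent.LT Fermat.Agent.LT.H556 Fermat.Agent.LT.H556.A0 Fermat.Agent.LT.T7
open Fermat.Agent.LT.T7.H305 Fermat.Agent.LT.T7.L2Q Fermat.Agent.LT.T7.H893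
open Fermat.Agent.LT.T7.H962 Fermat.Agent.LT.T7.H732 Fermat.Agent.LT.T7.MQ298
open Fermat.Agent.LT.T7.CQ801 Fermat.Agent.LT.T7.PBQ973

attribute [local instance] Fermat.Agent.LT.T5.instMeasurableSpaceG

section OneField

variable {K : Type} [Field K] [NumberField K]

/-- A function which vanishes outside the supports of finitely many left translates, by
elements which are Iwahori along the orbit, of an Iwahori-supported function is
Iwahori-supported (in the finite union of the translates of the compact set). -/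
theorem isIwSupported_ltr75 (l : ℕ) (o : ℕ → HeightOneSpectrum (𝓞 K)) {C : Set (G K)}
    (hC : IsCompact C) {φ : G K → ℂ} (hφ : T5.H32.IsIwSupported32 l o C φ)
    (X : Finset (G K)) (hX : ∀ x ∈ X, ∀ j < l, T5.InIwahori (o j) x)
    {ψ : G K → ℂ} (hψ : ∀ y, ψ y ≠ 0 → ∃ x ∈ X, φ (x⁻¹ * y) ≠ 0) :
    ∃ C' : Set (G K), IsCompact C' ∧ T5.H32.IsIwSupported32 l o C' ψ := by
  refine ⟨⋃ x ∈ X, (fun c => x * c) '' C, ?_, ?_⟩
  · exact X.isCompact_biUnion fun x _ => hC.image (continuous_const.mul continuous_id)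
  · intro y hy
    obtain ⟨x, hx, hne⟩ := hψ y hy
    obtain ⟨hIw, c, hc, hag⟩ := hφ (x⁻¹ * y) hne
    have ey : y = x * (x⁻¹ * y) := by rw [mul_inv_cancel_left]
    refine ⟨fun j hj => ?_, x * c, ?_, ?_⟩
    · rw [ey]
      exact T5.H942.inIwahori_mul942 (o j) (hX x hx j hj) (hIw j hj)
    · exact Set.mem_biUnion hx ⟨c, hc, rfl⟩
    · have h1 := T5.H942.agreeOutside_mul942 _ (T5.H942.agreeOutside_refl942 _ x) hag
      rwa [← ey] at h1

/-- A member of a jointly continuous family on a compact parameter space is integrable. -/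
theorem integrable_member75 {Ω : Type} [TopologicalSpace Ω] [CompactSpace Ω]
    [MeasurableSpace Ω] [BorelSpace Ω] (ν : Measure Ω) [IsFiniteMeasure ν]
    {p : Ω → G K → ℂ} (hp : Continuous fun q : Ω × G K => p q.1 q.2) (y : G K) :
    Integrable (fun ω => p ω y) ν := by
  have hc : Continuous fun ω : Ω => p ω y :=
    hp.comp (continuous_id.prodMk continuous_const)
  exact hc.integrable_of_hasCompactSupport (HasCompactSupport.of_compactSpace _)

/-- The integral of a weighted finite sum of left translates of the members. -/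
theorem integral_wsum75 {Ω : Type} [TopologicalSpace Ω] [CompactSpace Ω]
    [MeasurableSpace Ω] [BorelSpace Ω] (ν : Measure Ω) [IsFiniteMeasure ν]
    {p : Ω → G K → ℂ} (hp : Continuous fun q : Ω × G K => p q.1 q.2)
    (a : ℂ) (X : Finset (G K)) (c : G K → ℂ) (y : G K) :
    ∫ ω, a * ∑ x ∈ X, c x * p ω (x⁻¹ * y) ∂ν
      = a * ∑ x ∈ X, c x * ∫ ω, p ω (x⁻¹ * y) ∂ν := by
  rw [integral_const_mul, integral_finsetSum]
  · congr 1
    refine Finset.sum_congr rfl fun x _ => ?_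
    rw [integral_const_mul]
  · intro x _
    exact (integrable_member75 ν hp _).const_mul _

end OneField

/-- **LEAF PBQ.0.D5 `PBQ973.SwapDnSuppQC973`** from the key identity downstairs. -/
theorem swapDnSuppQC_of75 (F : Type) [Field F] [NumberField F]
    (hS : PBQ973.SwapDnSumQC973 F) : PBQ973.SwapDnSuppQC973 F := by
  intro hsq hiq Φe B hB hram g hg 𝔫 h𝔫 μr μc hμr hμc T₀ n n₀ m hexp c hc c₁ Φ₁ F₁ hA fb hfb
    Ω iT iC iT2 iSC iM iB ν iF T T' φ₀ Φ f₀ F0 F1 hdat a t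
  obtain ⟨X, cx, hprop, hid⟩ := hS hsq hiq Φe B hB hram g hg 𝔫 h𝔫 μr μc hμr hμc T₀ n n₀ m
    hexp c hc c₁ Φ₁ F₁ hA fb hfb Ω iT iC iT2 iSC iM iB ν iF T T' φ₀ Φ f₀ F0 F1 hdat
  obtain ⟨-, -, -, -, -, hc0, hc1, -, -, -, -, hf0, hf1⟩ := hdat
  -- the members of the first pair of the type `t`
  have hcont : Continuous (fun q : Ω × G ℚ =>
      pureQ298 (T q.1) (f₀ q.1) (archQ973 F0 F1 t q.1) q.2) := by
    simp only [one_mul] at hc0 hc1
    cases t
    · exact hc0
    · exact hc1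
  have hF₁ : ∀ h : G ℚ, F₁ t [] h
      = ∫ ω, pureQ298 (T ω) (f₀ ω) (archQ973 F0 F1 t ω) h ∂ν := by
    intro h
    have h0 := hf0 h
    have h1 := hf1 h
    simp only [one_mul] at h0 h1
    cases t
    · exact h0
    · exact h1
  obtain ⟨C, hC, hsupp⟩ := hA.dn1_supp t [] (by simp)
  have e : ∀ y, swapDnFnQ973 (toBase962_732 B) T₀ fb a ν T f₀ (archQ973 F0 F1 t) y
      = a * ∑ x ∈ X, cx x * F₁ t [] (x⁻¹ * y) := by
    intro y
    have e1 : (fun ω => a * pureQ298 (T ω) (swDnQ973 (toBase962_732 B) T₀ fb (f₀ ω))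
        (archQ973 F0 F1 t ω) y)
        = fun ω => a * ∑ x ∈ X, cx x
            * pureQ298 (T ω) (f₀ ω) (archQ973 F0 F1 t ω) (x⁻¹ * y) := by
      funext ω
      rw [hid t ω y]
    show ∫ ω, a * pureQ298 (T ω) (swDnQ973 (toBase962_732 B) T₀ fb (f₀ ω))
        (archQ973 F0 F1 t ω) y ∂ν = _
    rw [e1, integral_wsum75 ν
      (p := fun ω => pureQ298 (T ω) (f₀ ω) (archQ973 F0 F1 t ω)) hcont a X cx y]
    congr 1
    refine Finset.sum_congr rfl fun x _ => ?_
    rw [hF₁]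
  refine isIwSupported_ltr75 1 (fun _ => (toBase962_732 B).u) hC hsupp X
    (fun x hx j _ => (hprop x hx).2.2) ?_
  intro y hy
  rw [e y] at hy
  have h1 : ∑ x ∈ X, cx x * F₁ t [] (x⁻¹ * y) ≠ 0 := right_ne_zero_of_mul hy
  obtain ⟨x, hx, hne⟩ := Finset.exists_ne_zero_of_sum_ne_zero h1
  exact ⟨x, hx, right_ne_zero_of_mul hne⟩

end Fermat.Agent.LT.T7.H75.SQ

end

end
-- ===== PACK-END LT/T7/H75/SwapDnSuppQ.lean

-- ===== PACK-BEGIN LT/T7/H459/SwapDnInv.lean
section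





/-!
# Row LT, tower T7, node `PBQ973.PreBQC973` (second cut of helper973 over `ℚ`), leaf
# T7.L2Q.1.H2a.B.0.D3 `SwapDnInvQC973` -- PROVED, UNCONDITIONAL (helper459, registry row 3140)

OFF-MAIN.  No hole, nothing assumed.  ADDITIVE (new names only, suffix `459`, namespace
`Fermat.Agent.LT.T7.H459`).

    swapDnInvQC459 (F) : PBQ973.SwapDnInvQC973 F

verbatim against `LT/T7/H973/PreBQSpec.lean` (helper973, sha256 200eee4e).  NOT conditional on
the key identity `SwapDnSumQC973`.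

Proof (the mirror over `ℚ` of helper313 `T7/H313/SwapDnInv.lean`, the cubic leaf
`PB57.SwapDnInvC57`).  Every member `pureQ298 (T ω) (swDnQ973 B T₀ fb (f₀ ω)) (Fr ω)` of the
average is invariant on both sides under every element `k` which is trivial at infinity, Iwahori
at `u` and in `U(m v)` at the finite places `v ≠ u` (`IsGood459`; `pureQ_swDn_inv459`):
* the condition `OutT305` outside `T ω`: `k` and `k⁻¹` are integral at every finite place;
* at `u ∈ T₀ ⊆ T ω` the component is the indicator function of the Iwahori subgroup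
  (`T7/H340/IwKit.lean`: the Iwahori elements form a group);
* at `v ∈ T₀`, `v ≠ u`, the component is the partner `fb v`, bi-`U(m v)`-invariant
  (`IsBadPartQ973.inv_down`);
* at `v ∈ T ω`, `v ∉ T₀`, the component is spherical (`SphOut893` of the first pair, clause of
  `CQ801.LocAQ801`) and the Cartan invariant is bi-`U(0)`-invariant (`H129/CartanInv.lean`);
* at the real place the component of `k` is trivial (`reGLQ_eq_one459`), for the two types
  (the archimedean component `archQ973 F0 F1 t ω` is arbitrary).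
The elements of the level group `U(𝔫)` are good (`IsLevelOf893 𝔫 m`, `u ∣ 𝔫`:
`T7/H281/LevelInv.lean`), and so are the Iwahori elements supported at `u`.
-/

set_option autoImplicit false
set_option linter.unusedSectionVars false
set_option linter.unusedVariables false
set_option linter.style.haveILetI false

open AutomorphicForm IsDedekindDomain NumberField MeasureTheory

noncomputable section

namespace Fermat.Agent.LT.T7.H459

open Fermat.Agent.LT.H556 Fermat.Agent.LT.H556.A0 Fermat.Agent.LT.T7 Fermat.Agent.LT.T7.H305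
  Fermat.Agent.LT.T7.L2Q Fermat.Agent.LT.T7.H893 Fermat.Agent.LT.T7.H962
  Fermat.Agent.LT.T7.H732 Fermat.Agent.LT.T7.MQ298 Fermat.Agent.LT.T7.CQ801
  Fermat.Agent.LT.T7.PBQ973

attribute [local instance] Fermat.Agent.LT.T5.instMeasurableSpaceG

section OneField

variable {K : Type} [Field K] [NumberField K]

/-! ## 1. Components -/

theorem finGL_apply459 (v : HeightOneSpectrum (𝓞 K)) (g : G K) (i j : Fin 2) :
    ((finGL305 v g : GL (Fin 2) (v.adicCompletion K)) :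
      Matrix (Fin 2) (Fin 2) (v.adicCompletion K)) i j = finComp v g i j := rfl

theorem finGL_inv_apply459 (v : HeightOneSpectrum (𝓞 K)) (g : G K) (i j : Fin 2) :
    (((finGL305 v g)⁻¹ : GL (Fin 2) (v.adicCompletion K)) :
      Matrix (Fin 2) (Fin 2) (v.adicCompletion K)) i j = finComp v g⁻¹ i j := by
  rw [← map_inv]
  rfl

theorem finGL_eq_one459 {v : HeightOneSpectrum (𝓞 K)} {g : G K} (h : TrivAtFin v g) :
    finGL305 v g = 1 := by
  refine Units.ext (Matrix.ext fun i j => ?_)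
  rw [finGL_apply459]
  have h' : finComp v g = 1 := h
  rw [h']
  rfl

/-! ## 2. The local groups -/

theorem inU_one459 {k : Type} [Field k] [Valued k (WithZero (Multiplicative ℤ))] (n : ℕ) :
    T6.InU n (1 : GL (Fin 2) k) := by
  intro i j
  refine ⟨?_, ?_⟩
  · rw [Units.val_one, sub_self, map_zero]
    exact zero_le
  · rw [inv_one, Units.val_one, sub_self, map_zero]
    exact zero_le

theorem inU_zero_of459 {k : Type} [Field k] [Valued k (WithZero (Multiplicative ℤ))] {n : ℕ}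
    {x : GL (Fin 2) k} (h : T6.InU n x) : T6.InU 0 x := by
  have hle : WithZero.exp (-(n : ℤ)) ≤ WithZero.exp (-((0 : ℕ) : ℤ)) := by
    rw [WithZero.exp_le_exp]
    simp
  intro i j
  exact ⟨(h i j).1.trans hle, (h i j).2.trans hle⟩

/-- The elements of `U(n)` of the form `finGL305 v k` are integral with integral inverse. -/
theorem isIntegralAt_of_inU459 {v : HeightOneSpectrum (𝓞 K)} {n : ℕ} {k : G K}
    (h : T6.InU n (finGL305 v k)) : IsIntegralAt v k ∧ IsIntegralAt v k⁻¹ := by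
  have h0 := (Fermat.Agent.LT.H129.inU_zero_iff129 _).1 (inU_zero_of459 h)
  refine ⟨fun i j => ?_, fun i j => ?_⟩
  · rw [HeightOneSpectrum.mem_adicCompletionIntegers, ← finGL_apply459]
    exact h0.1 i j
  · rw [HeightOneSpectrum.mem_adicCompletionIntegers, ← finGL_inv_apply459]
    exact h0.2 i j

theorem inIw_iff459 (w : HeightOneSpectrum (𝓞 K)) (g : G K) :
    InIw893 (finGL305 w g) ↔ T5.InIwahori w g := by
  constructor
  · rintro ⟨h1, h2, h3⟩
    refine ⟨fun i j => ?_, fun i j => ?_, h3⟩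
    · rw [HeightOneSpectrum.mem_adicCompletionIntegers, ← finGL_apply459]
      exact h1 i j
    · rw [HeightOneSpectrum.mem_adicCompletionIntegers, ← finGL_inv_apply459]
      exact h2 i j
  · rintro ⟨h1, h2, h3⟩
    refine ⟨fun i j => ?_, fun i j => ?_, h3⟩
    · rw [finGL_apply459]
      exact (HeightOneSpectrum.mem_adicCompletionIntegers _ _ _).1 (h1 i j)
    · rw [finGL_inv_apply459]
      exact (HeightOneSpectrum.mem_adicCompletionIntegers _ _ _).1 (h2 i j)

theorem inIwahori_mul_left_iff459 {w : HeightOneSpectrum (𝓞 K)} {k : G K}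
    (hk : T5.InIwahori w k) (y : G K) : T5.InIwahori w (k * y) ↔ T5.InIwahori w y := by
  constructor
  · intro h
    have := H340.inIwahori_mul340 (H340.inIwahori_inv340 hk) h
    rwa [inv_mul_cancel_left] at this
  · exact fun h => H340.inIwahori_mul340 hk h

theorem inIwahori_mul_right_iff459 {w : HeightOneSpectrum (𝓞 K)} {k : G K}
    (hk : T5.InIwahori w k) (y : G K) : T5.InIwahori w (y * k) ↔ T5.InIwahori w y := by
  constructor
  · intro h
    have := H340.inIwahori_mul340 h (H340.inIwahori_inv340 hk)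
    rwa [mul_inv_cancel_right] at this
  · exact fun h => H340.inIwahori_mul340 h hk

theorem isIntegralAt_mul459 (v : HeightOneSpectrum (𝓞 K)) {a b : G K}
    (ha : IsIntegralAt v a) (hb : IsIntegralAt v b) : IsIntegralAt v (a * b) :=
  Fermat.Agent.LT.T5.H942.isIntegralAt_mul942 v ha hb

/-! ## 3. The good elements -/

/-- `k` is trivial at infinity, Iwahori at `u` and in `U(m v)` at the finite places `v ≠ u`. -/
def IsGood459 (u : HeightOneSpectrum (𝓞 K)) (m : HeightOneSpectrum (𝓞 K) → ℕ) (k : G K) :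
    Prop :=
  (∀ w : InfinitePlace K, TrivAtInf w k) ∧ T5.InIwahori u k ∧
    ∀ v : HeightOneSpectrum (𝓞 K), v ≠ u → T6.InU (m v) (finGL305 v k)

theorem IsGood459.integral {u : HeightOneSpectrum (𝓞 K)} {m : HeightOneSpectrum (𝓞 K) → ℕ}
    {k : G K} (hk : IsGood459 u m k) (v : HeightOneSpectrum (𝓞 K)) :
    IsIntegralAt v k ∧ IsIntegralAt v k⁻¹ := by
  by_cases hv : v = u
  · subst hv
    exact ⟨hk.2.1.1, hk.2.1.2.1⟩
  · exact isIntegralAt_of_inU459 (hk.2.2 v hv)

theorem outT_mul_left_iff459 {u : HeightOneSpectrum (𝓞 K)} {m : HeightOneSpectrum (𝓞 K) → ℕ}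
    {k : G K} (hk : IsGood459 u m k) (T : Finset (HeightOneSpectrum (𝓞 K))) (y : G K) :
    OutT305 T (k * y) ↔ OutT305 T y := by
  constructor
  · intro h v hv
    obtain ⟨h1, h2⟩ := h v hv
    obtain ⟨k1, k2⟩ := hk.integral v
    refine ⟨?_, ?_⟩
    · have := isIntegralAt_mul459 v k2 h1
      rwa [inv_mul_cancel_left] at this
    · have := isIntegralAt_mul459 v h2 k1
      rwa [mul_inv_rev, inv_mul_cancel_right] at this
  · intro h v hv
    obtain ⟨h1, h2⟩ := h v hv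
    obtain ⟨k1, k2⟩ := hk.integral v
    refine ⟨isIntegralAt_mul459 v k1 h1, ?_⟩
    rw [mul_inv_rev]
    exact isIntegralAt_mul459 v h2 k2

theorem outT_mul_right_iff459 {u : HeightOneSpectrum (𝓞 K)} {m : HeightOneSpectrum (𝓞 K) → ℕ}
    {k : G K} (hk : IsGood459 u m k) (T : Finset (HeightOneSpectrum (𝓞 K))) (y : G K) :
    OutT305 T (y * k) ↔ OutT305 T y := by
  constructor
  · intro h v hv
    obtain ⟨h1, h2⟩ := h v hv
    obtain ⟨k1, k2⟩ := hk.integral v
    refine ⟨?_, ?_⟩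
    · have := isIntegralAt_mul459 v h1 k2
      rwa [mul_inv_cancel_right] at this
    · have := isIntegralAt_mul459 v k1 h2
      rwa [mul_inv_rev, mul_inv_cancel_left] at this
  · intro h v hv
    obtain ⟨h1, h2⟩ := h v hv
    obtain ⟨k1, k2⟩ := hk.integral v
    refine ⟨isIntegralAt_mul459 v h1 k1, ?_⟩
    rw [mul_inv_rev]
    exact isIntegralAt_mul459 v k2 h2

/-- The elements of the level group are good. -/
theorem isGood_of_level459 {𝔫 : Ideal (𝓞 K)} {u : HeightOneSpectrum (𝓞 K)}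
    {m : HeightOneSpectrum (𝓞 K) → ℕ} (hu : u.asIdeal ∣ 𝔫) (hm : IsLevelOf893 𝔫 m) {k : G K}
    (hk : InLevelGroup 𝔫 k) : IsGood459 u m k := by
  refine ⟨hk.1, H281.inIwahori_of_level281 hu hk, fun v _ i j => ⟨?_, ?_⟩⟩
  · have := (hm v _).1 (hk.2 v i j).1
    rwa [Matrix.sub_apply, ← finGL_apply459] at this
  · have := (hm v _).1 (hk.2 v i j).2
    rwa [Matrix.sub_apply, ← finGL_inv_apply459] at this

/-- The Iwahori elements supported at `u` are good. -/
theorem isGood_of_iw459 {u : HeightOneSpectrum (𝓞 K)} (m : HeightOneSpectrum (𝓞 K) → ℕ)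
    {h : G K} (h1 : ∀ w : InfinitePlace K, TrivAtInf w h)
    (h2 : ∀ v : HeightOneSpectrum (𝓞 K), v ≠ u → TrivAtFin v h) (h3 : T5.InIwahori u h) :
    IsGood459 u m h := by
  refine ⟨h1, h3, fun v hv => ?_⟩
  rw [finGL_eq_one459 (h2 v hv)]
  exact inU_one459 _

end OneField

/-! ## 4. The real place of `ℚ` -/

/-- The component at the real place of an element which is trivial at infinity. -/
theorem reGLQ_eq_one459 {k : G ℚ} (h : TrivAtInf Rat.infinitePlace k) : reGLQ298 k = 1 := by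
  refine Units.ext (Matrix.ext fun i j => ?_)
  show InfinitePlace.Completion.extensionEmbeddingOfIsReal Rat.isReal_infinitePlace
    (((k : Matrix (Fin 2) (Fin 2) (Adl ℚ)) i j).1 Rat.infinitePlace)
      = (1 : Matrix (Fin 2) (Fin 2) ℝ) i j
  rw [h i j]
  by_cases hij : i = j
  · subst hij
    rw [Matrix.one_apply_eq, Matrix.one_apply_eq, map_one]
  · rw [Matrix.one_apply_ne hij, Matrix.one_apply_ne hij, map_zero]

/-! ## 5. The swapped components -/

section Swap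

variable {F : Type} [Field F] [NumberField F]

open Classical in
/-- The swapped components are invariant under the components of a good element. -/
theorem swDnQ_inv459 (B : L2QBase962 F) (T₀ T : Finset (HeightOneSpectrum (𝓞 ℚ)))
    (m : HeightOneSpectrum (𝓞 ℚ) → ℕ)
    (fb f₀ : ∀ v : HeightOneSpectrum (𝓞 ℚ), GL (Fin 2) (v.adicCompletion ℚ) → ℂ)
    (hfb : ∀ v ∈ T₀.erase B.u, T6.IsBiInv (T6.InU (m v)) (fb v))
    (hsph : ∀ v ∈ T, v ∉ T₀ → ∃ Av : (ℤ × ℤ) →₀ ℂ, IsSphFn893 (f₀ v) Av)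
    {k : G ℚ} (hk : IsGood459 B.u m k) (v : HeightOneSpectrum (𝓞 ℚ)) (hv : v ∈ T) (y : G ℚ) :
    swDnQ973 B T₀ fb f₀ v (finGL305 v (k * y)) = swDnQ973 B T₀ fb f₀ v (finGL305 v y) ∧
      swDnQ973 B T₀ fb f₀ v (finGL305 v (y * k)) = swDnQ973 B T₀ fb f₀ v (finGL305 v y) := by
  unfold swDnQ973
  by_cases hvu : v = B.u
  · subst hvu
    simp only [if_true]
    unfold iwFn893
    have h1 : InIw893 (finGL305 B.u (k * y)) ↔ InIw893 (finGL305 B.u y) := by
      rw [inIw_iff459, inIw_iff459]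
      exact inIwahori_mul_left_iff459 hk.2.1 y
    have h2 : InIw893 (finGL305 B.u (y * k)) ↔ InIw893 (finGL305 B.u y) := by
      rw [inIw_iff459, inIw_iff459]
      exact inIwahori_mul_right_iff459 hk.2.1 y
    refine ⟨?_, ?_⟩
    · by_cases hy : InIw893 (finGL305 B.u y)
      · rw [if_pos hy, if_pos (h1.2 hy)]
      · rw [if_neg hy, if_neg (fun h => hy (h1.1 h))]
    · by_cases hy : InIw893 (finGL305 B.u y)
      · rw [if_pos hy, if_pos (h2.2 hy)]
      · rw [if_neg hy, if_neg (fun h => hy (h2.1 h))]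
  · simp only [if_neg hvu]
    have hkU := hk.2.2 v hvu
    by_cases hvT : v ∈ T₀
    · simp only [if_pos hvT]
      have hbi := hfb v (Finset.mem_erase.2 ⟨hvu, hvT⟩)
      refine ⟨?_, ?_⟩
      · have := hbi (finGL305 v k) 1 (finGL305 v y) hkU (inU_one459 _)
        rwa [mul_one, ← map_mul] at this
      · have := hbi 1 (finGL305 v k) (finGL305 v y) (inU_one459 _) hkU
        rwa [one_mul, ← map_mul] at this
    · simp only [if_neg hvT]
      obtain ⟨Av, -, hA⟩ := hsph v hv hvT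
      have hk0 := inU_zero_of459 hkU
      refine ⟨?_, ?_⟩
      · rw [hA, hA]
        have := Fermat.Agent.LT.H129.cartan_mul129 (g := finGL305 v y) hk0 (inU_one459 0)
        rw [mul_one, ← map_mul] at this
        rw [this]
      · rw [hA, hA]
        have := Fermat.Agent.LT.H129.cartan_mul129 (g := finGL305 v y) (inU_one459 0) hk0
        rw [one_mul, ← map_mul] at this
        rw [this]

open Classical in
/-- The swapped pure tensor over `ℚ` is invariant on both sides under the good elements. -/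
theorem pureQ_swDn_inv459 (B : L2QBase962 F) (T₀ T : Finset (HeightOneSpectrum (𝓞 ℚ)))
    (m : HeightOneSpectrum (𝓞 ℚ) → ℕ)
    (fb f₀ : ∀ v : HeightOneSpectrum (𝓞 ℚ), GL (Fin 2) (v.adicCompletion ℚ) → ℂ)
    (Fr : GL (Fin 2) ℝ → ℂ)
    (hfb : ∀ v ∈ T₀.erase B.u, T6.IsBiInv (T6.InU (m v)) (fb v))
    (hsph : ∀ v ∈ T, v ∉ T₀ → ∃ Av : (ℤ × ℤ) →₀ ℂ, IsSphFn893 (f₀ v) Av)
    {k : G ℚ} (hk : IsGood459 B.u m k) (y : G ℚ) :
    pureQ298 T (swDnQ973 B T₀ fb f₀) Fr (k * y) = pureQ298 T (swDnQ973 B T₀ fb f₀) Fr y ∧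
      pureQ298 T (swDnQ973 B T₀ fb f₀) Fr (y * k) = pureQ298 T (swDnQ973 B T₀ fb f₀) Fr y := by
  have hinfl : reGLQ298 (k * y) = reGLQ298 y := by
    rw [map_mul, reGLQ_eq_one459 (hk.1 _), one_mul]
  have hinfr : reGLQ298 (y * k) = reGLQ298 y := by
    rw [map_mul, reGLQ_eq_one459 (hk.1 _), mul_one]
  have hfl : ∏ v ∈ T, swDnQ973 B T₀ fb f₀ v (finGL305 v (k * y))
      = ∏ v ∈ T, swDnQ973 B T₀ fb f₀ v (finGL305 v y) :=
    Finset.prod_congr rfl fun v hv => (swDnQ_inv459 B T₀ T m fb f₀ hfb hsph hk v hv y).1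
  have hfr : ∏ v ∈ T, swDnQ973 B T₀ fb f₀ v (finGL305 v (y * k))
      = ∏ v ∈ T, swDnQ973 B T₀ fb f₀ v (finGL305 v y) :=
    Finset.prod_congr rfl fun v hv => (swDnQ_inv459 B T₀ T m fb f₀ hfb hsph hk v hv y).2
  unfold pureQ298
  refine ⟨?_, ?_⟩
  · by_cases hy : OutT305 T y
    · rw [if_pos hy, if_pos ((outT_mul_left_iff459 hk T y).2 hy), hfl, hinfl]
    · rw [if_neg hy, if_neg (fun h => hy ((outT_mul_left_iff459 hk T y).1 h))]
  · by_cases hy : OutT305 T y
    · rw [if_pos hy, if_pos ((outT_mul_right_iff459 hk T y).2 hy), hfr, hinfr]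
    · rw [if_neg hy, if_neg (fun h => hy ((outT_mul_right_iff459 hk T y).1 h))]

end Swap

/-! ## 6. The leaf -/

open Classical in
/-- **LEAF PBQ.0.D3 = SWAP-DOWN-INV over `ℚ`**, unconditional. -/
theorem swapDnInvQC459 (F : Type) [Field F] [NumberField F] :
    Fermat.Agent.LT.T7.PBQ973.SwapDnInvQC973 F := by
  intro _ _ Φe B _ _ g _ 𝔫 h𝔫 μr μc _ _ T₀ n n₀ m hexp c _ c₁ Φ₁ F₁ _ fb hfb Ω iT _ _ _ iM _ ν _
    T T' φ₀ Φ f₀ F0 F1 hdat a t
  have hfbI : ∀ v ∈ T₀.erase (toBase962_732 B).u, T6.IsBiInv (T6.InU (m v)) (fb v) :=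
    fun v hv => (hfb.inv_down v hv).1
  have hsph : ∀ ω : Ω, ∀ v ∈ T ω, v ∉ T₀ → ∃ Av : (ℤ × ℤ) →₀ ℂ, IsSphFn893 (f₀ ω v) Av := by
    intro ω v hv hvT
    obtain ⟨A, Av, hAv, -⟩ := (hdat.1 ω).2.2.2.2.1 v hv hvT
    exact ⟨Av, hAv⟩
  have key : ∀ k : G ℚ, IsGood459 (toBase962_732 B).u m k → ∀ y : G ℚ,
      swapDnFnQ973 (toBase962_732 B) T₀ fb a ν T f₀ (archQ973 F0 F1 t) (k * y)
          = swapDnFnQ973 (toBase962_732 B) T₀ fb a ν T f₀ (archQ973 F0 F1 t) y ∧
        swapDnFnQ973 (toBase962_732 B) T₀ fb a ν T f₀ (archQ973 F0 F1 t) (y * k)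
          = swapDnFnQ973 (toBase962_732 B) T₀ fb a ν T f₀ (archQ973 F0 F1 t) y := by
    intro k hk y
    unfold swapDnFnQ973
    refine ⟨?_, ?_⟩
    · refine integral_congr_ae (Filter.Eventually.of_forall fun ω => ?_)
      show a * pureQ298 (T ω) (swDnQ973 (toBase962_732 B) T₀ fb (f₀ ω))
          (archQ973 F0 F1 t ω) (k * y)
        = a * pureQ298 (T ω) (swDnQ973 (toBase962_732 B) T₀ fb (f₀ ω)) (archQ973 F0 F1 t ω) y
      rw [(pureQ_swDn_inv459 (toBase962_732 B) T₀ (T ω) m fb (f₀ ω) (archQ973 F0 F1 t ω)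
        hfbI (hsph ω) hk y).1]
    · refine integral_congr_ae (Filter.Eventually.of_forall fun ω => ?_)
      show a * pureQ298 (T ω) (swDnQ973 (toBase962_732 B) T₀ fb (f₀ ω))
          (archQ973 F0 F1 t ω) (y * k)
        = a * pureQ298 (T ω) (swDnQ973 (toBase962_732 B) T₀ fb (f₀ ω)) (archQ973 F0 F1 t ω) y
      rw [(pureQ_swDn_inv459 (toBase962_732 B) T₀ (T ω) m fb (f₀ ω) (archQ973 F0 F1 t ω)
        hfbI (hsph ω) hk y).2]
  refine ⟨fun u hu y => key u (isGood_of_level459 h𝔫.u_level hexp.lev_dn hu) y,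
    fun h h1 h2 h3 y => key h (isGood_of_iw459 m h1 (fun v hv => h2 v ?_) (h3 0 Nat.one_pos)) y⟩
  intro j _
  exact hv

/-- The statement of the leaf, verbatim. -/
example (F : Type) [Field F] [NumberField F] :
    SwapCtxQ973 F fun _ B _ 𝔫 _ _ _ T₀ _ _ _ _ fb _ _ _ ν T _ _ _ f₀ F0 F1 =>
      ∀ (a : ℂ) (t : QWt),
        H193.IsBiHInv 𝔫 1 (fun _ => B.u)
          (swapDnFnQ973 B T₀ fb a ν T f₀ (archQ973 F0 F1 t)) :=
  swapDnInvQC459 F

end Fermat.Agent.LT.T7.H459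

end

end
-- ===== PACK-END LT/T7/H459/SwapDnInv.lean

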