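import Mathlib
import Fermat.Agent.Pack.LT4.E1L3
import Fermat.Agent.Pack.LT4.E4L1
import Fermat.Agent.Pack.LT3.E23L3
import Fermat.Agent.Pack.LT3.E22L1
import Fermat.Agent.Pack.LT3.E23L1
import Fermat.Agent.Pack.LT3.E24L3
import Fermat.Agent.Pack.LT3.E24L2
import Fermat.Agent.Pack.LT3.E26L2
import Fermat.Agent.Pack.LT3.E26L0
import Fermat.Agent.Pack.LT3.E25L3
import Fermat.Agent.Pack.LT3.E25L1
import Fermat.Agent.Pack.LT3.E26L1
import Fermat.Agent.Pack.LT4.E3L3
import Fermat.Agent.Pack.LT3.E24L0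
import Fermat.Agent.Pack.LT3.E28L3
import Fermat.Agent.Pack.LT3.E27L2
import Fermat.Agent.Pack.LT3.E28L2
import Fermat.Agent.Pack.LT3.E29L1
import Fermat.Agent.Pack.LT4.E8L3
import Fermat.Agent.Pack.LT4.E7L3
import Fermat.Agent.Pack.LT4.E8L0
import Fermat.Agent.Pack.LT4.E0L2
import Fermat.Agent.Pack.LT4.E8L1
import Fermat.Agent.Pack.LT3.E6L1
import Fermat.Agent.Pack.LT2.E3L0
import Fermat.Agent.Pack.LT3.E29L3
import Fermat.Agent.Pack.LT2.E9L3
import Fermat.Agent.Pack.LT3.E21L2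
import Fermat.Agent.Pack.LT4.E5L0
import Fermat.Agent.Pack.LT3.E8L2
import Fermat.Agent.Pack.LT3.E10L1
import Fermat.Agent.Pack.LT3.E27L1
import Fermat.Agent.Pack.LT3.E30L2
import Fermat.Agent.Pack.LT4.E5L1
import Fermat.Agent.Pack.LT4.E8L2
import Fermat.Agent.Pack.LT4.E1L2
import Fermat.Agent.Pack.LT3.E21L1

set_option linter.all false

-- ===== PACK-BEGIN LT/T7/H561/SpecUpClosed.lean
section































/-!
# Row LT, tower T7, node T7.L2.2 (helper561): INTEGRATION of the closed leaves (v6, 17:20Z): THE NODE IS CLOSED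

OFF-MAIN.  Every proof is complete, nothing assumed.  The closed leaves are vendored
byte-identical and rebuilt: `AsmC561` (helper431 `asmC431`), `ChangeC561` (helper362
`changeC362`), `AtomsC561` (helper719 `atomsC719`), `PhiC561` (helper271 `phiC271`),
`StableC561` (helper812 `stableC812`), `StfC561` (the field `stf` of the closed tower T5:
helper32 `tower_up32`), `OpsRelC561` (helper49 `opsRelC49`), `OpsAdjC561`, `OpsCommC561`
(helper176 `opsAdjC176` on `T1.t1Out`, `opsCommC176`), `OpsLinkC561`, `IwSysExistsC561`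
(helper510 `opsLinkC_h510`, `iwSysExistsC_h510`), `SigmaC561` (helper389 `sigmaC389`),
`OffWC561` (helper313 `offWC313`), `BlocksAsmC561` (helper157 `blocksAsmC157`), `OpsPerC561`,
`OpsSigC561` (helper49 `opsPerC49`, `opsSigC49`), `OpsEigC561` (helper49 `opsEigC49`),
`CompleteC561` (helper938 `completeC938`), `BadOpC561` (helper49 `badOpC49`), `WSpecC561` (the
top `wSpecC_of144` of helper144 on W1 `classFinC130` (helper130), W2 `eigSpanC312` (helper312),
W3 `iwTranslC44` (helper44), W4 `classBasisC618` (helper618)).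

`NonVanC561`: `nonVanC_closed561` (`T7/H561/NonVanClosed.lean`: helper817 `nonVanC561_open817`
with its six leaves closed).

    specUpSC_open561   : NonVanC561 K K' → T7.SpecUpSC K K'
    specUpSC_closed561 : T7.SpecUpSC K K'                       (UNCONDITIONAL, cyclic step)
-/

set_option autoImplicit false

open AutomorphicForm IsDedekindDomain NumberField MeasureTheory

noncomputable section

namespace Fermat.Agent.LT.T7.H561

open Fermat.Agent.LT.H556 Fermat.Agent.LT.H556.A0 Fermat.Agent.LT.T7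

variable {K K' : Type} [Field K] [NumberField K] [Field K'] [NumberField K'] [Algebra K K']

/-- `StfC561` CLOSED: the field `stf` of the closed tower T5. -/
theorem stfC_closed561 : StfC561 K K' :=
  fun D hD => (Fermat.Agent.LT.T7.H32.tower_up32 D hD).stf

/-- `WSpecC561` CLOSED: the cut of helper144 with its four closed sub-leaves. -/
theorem wSpecC_closed561 : WSpecC561 K K' :=
  Fermat.Agent.LT.T7.H144W.wSpecC_of144 (Fermat.Agent.LT.T7.H130.classFinC130 K')
    (Fermat.Agent.LT.T7.H312.eigSpanC312 K') (Fermat.Agent.LT.T7.H44.iwTranslC44 K')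
    (Fermat.Agent.LT.T7.H618.classBasisC618 K')

/-- `OpsC561` CLOSED (all the nine leaves). -/
theorem opsC_open561 : OpsC561 K K' :=
  opsC_of561 (Fermat.Agent.LT.T7.H510.iwSysExistsC_h510 K K')
    (Fermat.Agent.LT.T7.H49.opsEigC49 K K')
    (Fermat.Agent.LT.T7.H49.opsRelC49 K K') Fermat.Agent.LT.T7.H176.opsCommC176
    (Fermat.Agent.LT.T7.H49.opsPerC49 K K')
    (Fermat.Agent.LT.T7.H176.opsAdjC176 (Fermat.Agent.LT.T1.t1Out K').adNorm)
    (Fermat.Agent.LT.T7.H49.opsSigC49 K K')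
    (Fermat.Agent.LT.T7.H510.opsLinkC_h510 K K') (Fermat.Agent.LT.T7.H49.badOpC49 K K')

/-- `BlocksC561` CLOSED. -/
theorem blocksC_open561 : BlocksC561 K K' :=
  blocksC_of561 (Fermat.Agent.LT.T7.H157.blocksAsmC157 K K') wSpecC_closed561
    (Fermat.Agent.LT.T7.H938.completeC938 K K')
    (Fermat.Agent.LT.T7.H389.sigmaC389 (K := K) (K' := K')) opsC_open561
    (Fermat.Agent.LT.T7.H271.phiC271 K K') (Fermat.Agent.LT.T7.H313.offWC313 K K')

/-- **`T7.SpecUpSC` from the open leaves.** -/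
theorem specUpSC_open561 (hN : NonVanC561 K K') : SpecUpSC K K' :=
  specUpSC_of561 (Fermat.Agent.LT.T7.H812.stableC812 K K') Fermat.Agent.LT.T7.H431.asmC431
    stfC_closed561 blocksC_open561 hN
    (Fermat.Agent.LT.T7.H362.changeC362 K') Fermat.Agent.LT.T7.H719.atomsC719

/-- **THE NODE `T7.SpecUpSC` (cyclic step), CLOSED, UNCONDITIONAL.** -/
theorem specUpSC_closed561 : SpecUpSC K K' :=
  specUpSC_open561 nonVanC_closed561

end Fermat.Agent.LT.T7.H561

end

end
-- ===== PACK-END LT/T7/H561/SpecUpClosed.lean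

-- ===== PACK-BEGIN LT/T7/H910/H519/ArchEnum.lean
section



/-!
# Row LT, tower T7, leaf T7.L2.1.H2a.A.0.D.4.2 `H910.ArchEnumC910` (registry row 3045, helper519)

OFF-MAIN.  No hole, nothing assumed.  ADDITIVE (new names only, suffix `519`, namespace
`Fermat.Agent.LT.T7.H910.H519`).

    archEnumC519 (K K') : H910.ArchEnumC910 K K'        (VERBATIM, unconditional)

`K'/K` Galois of degree `ℓ`, `v` a COMPLEX place of `K`.  The fibre of `v` is an orbit of
`Gal(K'/K)` (`InfinitePlace.mem_orbit_iff`), the stabiliser of a place over a complex place is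
trivial (`InfinitePlace.isUnramified_iff`, `isUnramified_iff_card_stabilizer_eq_one`), hence the
fibre has `[K' : K] = ℓ` elements (orbit-stabiliser, `IsGalois.card_aut_eq_finrank`); an
enumeration is a bijection with `Fin ℓ`, extended by a place of the fibre for `j ≥ ℓ`.
Mathlib only; the hypothesis `ℓ ≠ 2` is not used and only `v.IsComplex` is used of `TotCplx K`.
-/

set_option autoImplicit false

open NumberField

noncomputable section

namespace Fermat.Agent.LT.T7.H910.H519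

open Fermat.Agent.LT Fermat.Agent.LT.T7

variable {K K' : Type} [Field K] [NumberField K] [Field K'] [NumberField K'] [Algebra K K']

/-- The fibre of a complex place in a Galois extension has `[K' : K]` elements. -/
theorem card_fibre519 [IsGalois K K'] (v : InfinitePlace K) (hv : v.IsComplex) :
    Nat.card {w : InfinitePlace K' // w.comap (algebraMap K K') = v} = Module.finrank K K' := by
  have : FiniteDimensional K K' := Module.Finite.of_restrictScalars_finite ℚ K K'
  obtain ⟨w₀, hw₀⟩ := InfinitePlace.comap_surjective (K := K') (k := K) v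
  have hw₀' : w₀.comap (algebraMap K K') = v := hw₀
  have hunr : InfinitePlace.IsUnramified K w₀ :=
    InfinitePlace.isUnramified_iff.2 (Or.inr (by rw [hw₀']; exact hv))
  have hstab : Nat.card (MulAction.stabilizer (K' ≃ₐ[K] K') w₀) = 1 :=
    InfinitePlace.isUnramified_iff_card_stabilizer_eq_one.1 hunr
  have hcard : Nat.card (MulAction.orbit (K' ≃ₐ[K] K') w₀)
      * Nat.card (MulAction.stabilizer (K' ≃ₐ[K] K') w₀) = Nat.card (K' ≃ₐ[K] K') := by
    rw [← Nat.card_prod]
    exact Nat.card_congr (MulAction.orbitProdStabilizerEquivGroup (K' ≃ₐ[K] K') w₀)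
  rw [hstab, mul_one, IsGalois.card_aut_eq_finrank] at hcard
  rw [← hcard]
  refine Nat.card_congr (Equiv.subtypeEquivRight fun w => ?_)
  rw [InfinitePlace.mem_orbit_iff, hw₀']
  exact ⟨fun h => h.symm, fun h => h.symm⟩

/-- **LEAF DA.2 = ENUMERATION OF THE FIBRE**, verbatim. -/
theorem archEnumC519 (K K' : Type) [Field K] [NumberField K] [Field K'] [NumberField K']
    [Algebra K K'] : H910.ArchEnumC910 K K' := by
  intro ℓ hcyc _ htc v
  have : IsGalois K K' := hcyc.galois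
  obtain ⟨w₀, hw₀⟩ := InfinitePlace.comap_surjective (K := K') (k := K) v
  have hw₀' : w₀.comap (algebraMap K K') = v := hw₀
  have hcard : Nat.card {w : InfinitePlace K' // w.comap (algebraMap K K') = v} = ℓ := by
    rw [card_fibre519 v (htc v), hcyc.degree]
  have : Finite {w : InfinitePlace K' // w.comap (algebraMap K K') = v} :=
    Nat.finite_of_card_ne_zero (by rw [hcard]; exact hcyc.prime.ne_zero)
  let e : {w : InfinitePlace K' // w.comap (algebraMap K K') = v} ≃ Fin ℓ :=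
    Finite.equivFinOfCardEq hcard
  refine ⟨fun j => if h : j < ℓ then (e.symm ⟨j, h⟩).1 else w₀, ⟨?_, ?_⟩, ?_⟩
  · intro j
    show (if h : j < ℓ then (e.symm ⟨j, h⟩).1 else w₀).comap (algebraMap K K') = v
    by_cases h : j < ℓ
    · rw [dif_pos h]
      exact (e.symm ⟨j, h⟩).2
    · rw [dif_neg h]
      exact hw₀'
  · intro j j' hj hj' hEq
    have hEq' : (if h : j < ℓ then (e.symm ⟨j, h⟩).1 else w₀)
        = (if h : j' < ℓ then (e.symm ⟨j', h⟩).1 else w₀) := hEq
    rw [dif_pos hj, dif_pos hj'] at hEq'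
    have h1 : (⟨j, hj⟩ : Fin ℓ) = ⟨j', hj'⟩ := e.symm.injective (Subtype.ext hEq')
    exact congrArg Fin.val h1
  · intro w' hw'
    refine ⟨(e ⟨w', hw'⟩).1, (e ⟨w', hw'⟩).2, ?_⟩
    show (if h : (e ⟨w', hw'⟩).1 < ℓ then (e.symm ⟨(e ⟨w', hw'⟩).1, h⟩).1 else w₀) = w'
    rw [dif_pos (e ⟨w', hw'⟩).2, Fin.eta, Equiv.symm_apply_apply]

end Fermat.Agent.LT.T7.H910.H519

end

end
-- ===== PACK-END LT/T7/H910/H519/ArchEnum.lean

-- ===== PACK-BEGIN LT/T7/H942/PushTel.lean
section





/-!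
# Row LT, T7.L2.1.H2a.A.0.D.5 `PushTelC981` (spare by helper942): CLOSED — OFF-MAIN

    pushTelC942 (K K') : B981.PushTelC981 K K'      (VERBATIM, unconditional)

The push-forward under the norm of a telescoping sum of pure tensors on the coordinate group
telescopes.

Proof.  `Δ = (M, X)` fixed.  The translate by `j c₀` of the pushed pure tensor is the pushed
pure tensor of the components translated by `j c₀'` (`pushAbs_shift942`, `convR_shift942`; the
hypotheses on `e` and `α`), evaluated at `Δ`.  Only finitely many `j` contribute, downstairs at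
`Δ` and upstairs at all the points over `M` (the supports at the places over ONE `v₀ ∈ P`).
The value at `Δ` of the pushed pure tensor is a product of BLOCK FUNCTIONALS (push-forward over
the fibre of `v ∈ P`, iterated convolution over the fibre of an infinite place) of the
components, with the property (★) of `PushTelCore.lean`; the fibres partition `P'` and the
infinite places of `K'` (`prod_fib942`, `prod_enum942`); `block_elim942` twice.  No Fubini on
product spaces.
-/

set_option autoImplicit false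
set_option linter.unusedSectionVars false

open IsDedekindDomain NumberField MeasureTheory

noncomputable section

namespace Fermat.Agent.LT.T7.H942

open Fermat.Agent.LT.H556 Fermat.Agent.LT.H556.A0 Fermat.Agent.LT.T7

variable {K K' : Type} [Field K] [NumberField K] [Field K'] [NumberField K'] [Algebra K K']

/-- The value of a pure tensor at a translate. -/
theorem pureCoordM_shift942 (F : Type) [Field F] [NumberField F]
    (P : Finset (HeightOneSpectrum (𝓞 F))) (e : HeightOneSpectrum (𝓞 F) → ℕ) (α : Fˣ)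
    (A : HeightOneSpectrum (𝓞 F) → ℤ × ℤ → ℂ) (β : InfinitePlace F → ℝ × ℝ → ℂ)
    (Δ : T3.M.CoordM F P) (j : ℤ) :
    T3.M.pureCoordM F P A β (Δ + j • T3.M.coordTorM F P e α)
      = (∏ v : ↥P, A v.1 (Δ.1 v + j • (((e v.1 : ℕ) : ℤ), (0 : ℤ))))
        * ∏ w : InfinitePlace F, β w (Δ.2 w + j • (Real.log (w (α : F)), (0 : ℝ))) := rfl

/-- The weighted sum of the shifts over a fibre. -/
theorem sum_shift942 (P' : Finset (HeightOneSpectrum (𝓞 K')))
    (e' : HeightOneSpectrum (𝓞 K') → ℕ) (e : HeightOneSpectrum (𝓞 K) → ℕ)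
    (v : HeightOneSpectrum (𝓞 K))
    (he : e v = ∑ w ∈ B981.fib981 (K := K) P' v, B981.resDeg981 v w * e' w) (j : ℤ) :
    ∑ w : ↥(B981.fib981 (K := K) P' v),
        ((B981.resDeg981 v w.1 : ℕ) : ℤ) • (j • ((((e' w.1 : ℕ)) : ℤ), (0 : ℤ)))
      = j • ((((e v : ℕ)) : ℤ), (0 : ℤ)) := by
  have h2 : ((e v : ℕ) : ℤ) = ∑ w : ↥(B981.fib981 (K := K) P' v),
      ((B981.resDeg981 v w.1 : ℕ) : ℤ) * ((e' w.1 : ℕ) : ℤ) := by
    rw [he, Finset.sum_coe_sort (B981.fib981 (K := K) P' v)
      (fun w => ((B981.resDeg981 v w : ℕ) : ℤ) * ((e' w : ℕ) : ℤ))]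
    push_cast
    rfl
  refine Prod.ext ?_ ?_
  · simp only [Prod.fst_sum, Prod.smul_fst, smul_eq_mul]
    rw [h2, Finset.mul_sum]
    exact Finset.sum_congr rfl fun w _ => by ring
  · simp only [Prod.snd_sum, Prod.smul_snd, smul_eq_mul, mul_zero, Finset.sum_const_zero]

variable (K K')

/-- **T7.L2.1.H2a.A.0.D.5 `PushTelC981`**, verbatim and unconditional. -/
theorem pushTelC942 : B981.PushTelC981 K K' := by
  classical
  intro ℓ hcyc _ htc P' P e' e α' α hP hPne hepos he hα cμ N A' β' A β hA' hβ' hA hβ hup Δ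
  have hℓ : ℓ - 1 + 1 = ℓ := Nat.sub_add_cancel hcyc.prime.pos
  choose wen hwen1 hwen2 using fun v : InfinitePlace K => exists_enum942 (K' := K') ℓ hcyc htc v
  choose idx hidx using fun w : InfinitePlace K' => hwen2 (w.comap (algebraMap K K')) w rfl
  -- the translated components
  obtain ⟨aF, haF⟩ : ∃ aF : Fin N × ℤ → HeightOneSpectrum (𝓞 K') → ℤ × ℤ → ℂ,
      aF = fun k w m => A' k.1 w (m + k.2 • (((e' w : ℕ) : ℤ), (0 : ℤ))) := ⟨_, rfl⟩
  obtain ⟨bF, hbF⟩ : ∃ bF : Fin N × ℤ → InfinitePlace K' → ℝ × ℝ → ℂ,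
      bF = fun k w x => β' k.1 w (x + k.2 • (Real.log (w (α' : K')), (0 : ℝ))) := ⟨_, rfl⟩
  -- the block functionals
  obtain ⟨lfin, hlfin⟩ : ∃ lfin : ↥P → Fin N × ℤ → ℂ, lfin = fun v k =>
      pushAbs942 (fun w : ↥(B981.fib981 (K := K) P' v.1) => B981.resDeg981 v.1 w.1)
        (fun w : ↥(B981.fib981 (K := K) P' v.1) => aF k w.1) (Δ.1 v) := ⟨_, rfl⟩
  obtain ⟨linf, hlinf⟩ : ∃ linf : InfinitePlace K → Fin N × ℤ → ℂ, linf = fun v k =>
      convR942 (fun n => bF k (wen v n)) (ℓ - 1) (Δ.2 v) := ⟨_, rfl⟩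
  -- regularity of the translated components
  have haFsupp : ∀ k w, (Function.support (aF k w)).Finite := by
    intro k w
    rw [haF]
    have h0 : (Function.support (A' k.1 w)).Finite := (hA' k.1 w).1
    refine (h0.preimage (f := fun m : ℤ × ℤ => m + k.2 • (((e' w : ℕ) : ℤ), (0 : ℤ)))
      (fun a _ b _ hab => add_right_cancel hab)).subset fun m hm => ?_
    exact hm
  have hbFc : ∀ k w, Continuous (bF k w) := by
    intro k w
    rw [hbF]
    exact ((hβ' k.1 w).1.continuous).comp (continuous_id.add continuous_const)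
  have hbFs : ∀ k w, HasCompactSupport (bF k w) := by
    intro k w
    rw [hbF]
    exact ((hβ' k.1 w).2.1).comp_homeomorph
      (Homeomorph.addRight (k.2 • (Real.log (w (α' : K')), (0 : ℝ))))
  -- the terms downstairs
  have hdown : ∀ j : ℤ, ∑ i : Fin N,
      T3.M.pureCoordM K P (A i) (β i) (Δ + j • T3.M.coordTorM K P e α)
        = ∑ i : Fin N, (∏ v : ↥P, lfin v (i, j))
            * ∏ v : InfinitePlace K, (cμ ^ (ℓ - 1) * linf v (i, j)) := by
    intro j
    refine Finset.sum_congr rfl fun i _ => ?_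
    rw [pureCoordM_shift942]
    congr 1
    · refine Finset.prod_congr rfl fun v _ => ?_
      rw [hlfin, hA i v.1 v.2, pushFin_eq942, haF]
      rw [← sum_shift942 P' e' e v.1 (he v.1 v.2) j]
      exact (pushAbs_shift942 _ _ _ _).symm
    · refine Finset.prod_congr rfl fun v _ => ?_
      rw [hlinf, hβ i v (wen v) (hwen1 v), hbF]
      show cμ ^ (ℓ - 1) * B981.convR981 (fun n => β' i (wen v n)) (ℓ - 1)
          (Δ.2 v + j • (Real.log (v (α : K)), (0 : ℝ))) = _
      rw [convR_eq942]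
      have hs := convR_shift942 (fun n => β' i (wen v n))
        (fun n => j • (Real.log ((wen v n) (α' : K')), (0 : ℝ))) (ℓ - 1) (Δ.2 v)
      have hsum : ∑ n ∈ Finset.range (ℓ - 1 + 1), j • (Real.log ((wen v n) (α' : K')), (0 : ℝ))
          = j • (Real.log (v (α : K)), (0 : ℝ)) := by
        rw [hℓ, hα v (wen v) (hwen1 v), ← Finset.smul_sum]
        congr 1
        refine Prod.ext ?_ ?_
        · simp only [Prod.fst_sum]
        · simp only [Prod.snd_sum, Finset.sum_const_zero]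
      rw [hsum] at hs
      rw [← hs]
  -- the finite set of the contributing `j`
  obtain ⟨v₀, hv₀⟩ := hPne
  obtain ⟨J, hJ⟩ : ∃ J : Finset ℤ, ∀ (i : Fin N) (j : ℤ)
      (mm : ↥(B981.fib981 (K := K) P' v₀) → ℤ × ℤ),
      (∀ w, aF (i, j) w.1 (mm w) ≠ 0) →
      ∑ w, ((B981.resDeg981 v₀ w.1 : ℕ) : ℤ) • mm w = Δ.1 ⟨v₀, hv₀⟩ → j ∈ J := by
    have hV : (⋃ i : Fin N, (fun mm : ↥(B981.fib981 (K := K) P' v₀) → ℤ × ℤ =>
        ∑ w, ((B981.resDeg981 v₀ w.1 : ℕ) : ℤ) • mm w) ''
          {mm | ∀ w, mm w ∈ Function.support (A' i w.1)}).Finite :=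
      Set.finite_iUnion fun i => (Set.Finite.pi'
        fun w : ↥(B981.fib981 (K := K) P' v₀) => (hA' i w.1).1).image _
    have hinj : Set.InjOn (fun j : ℤ => Δ.1 ⟨v₀, hv₀⟩ + j • (((e v₀ : ℕ) : ℤ), (0 : ℤ)))
        ((fun j : ℤ => Δ.1 ⟨v₀, hv₀⟩ + j • (((e v₀ : ℕ) : ℤ), (0 : ℤ))) ⁻¹'
          (⋃ i : Fin N, (fun mm : ↥(B981.fib981 (K := K) P' v₀) → ℤ × ℤ =>
            ∑ w, ((B981.resDeg981 v₀ w.1 : ℕ) : ℤ) • mm w) ''
              {mm | ∀ w, mm w ∈ Function.support (A' i w.1)})) := by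
      intro a _ b _ hab
      have h1 : a • (((e v₀ : ℕ) : ℤ), (0 : ℤ)) = b • (((e v₀ : ℕ) : ℤ), (0 : ℤ)) :=
        add_left_cancel hab
      have h2 := congrArg Prod.fst h1
      simp only [Prod.smul_fst, smul_eq_mul] at h2
      have h3 : ((e v₀ : ℕ) : ℤ) ≠ 0 := by
        have := hepos v₀ hv₀
        exact_mod_cast this.ne'
      exact mul_right_cancel₀ h3 h2
    refine ⟨(hV.preimage hinj).toFinset, fun i j mm hmm hsum => ?_⟩
    rw [Set.Finite.mem_toFinset, Set.mem_preimage, Set.mem_iUnion]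
    refine ⟨i, fun w => mm w + j • (((e' w.1 : ℕ) : ℤ), (0 : ℤ)), fun w => ?_, ?_⟩
    · have := hmm w
      rw [haF] at this
      exact this
    · show ∑ w, ((B981.resDeg981 v₀ w.1 : ℕ) : ℤ) • (mm w + j • (((e' w.1 : ℕ) : ℤ), (0 : ℤ)))
        = Δ.1 ⟨v₀, hv₀⟩ + j • (((e v₀ : ℕ) : ℤ), (0 : ℤ))
      rw [← hsum, ← sum_shift942 P' e' e v₀ (he v₀ hv₀) j, ← Finset.sum_add_distrib]
      exact Finset.sum_congr rfl fun w _ => smul_add _ _ _
  have hlfin0 : ∀ (i : Fin N) (j : ℤ), j ∉ J → lfin ⟨v₀, hv₀⟩ (i, j) = 0 := by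
    intro i j hj
    by_contra hne
    rw [hlfin] at hne
    obtain ⟨mm, hmm1, hmm2⟩ := exists_of_pushAbs_ne942 _ _ _ hne
    exact hj (hJ i j mm hmm2 hmm1)
  -- the sum over the contributing indices vanishes upstairs on the fibre
  have hupJ : ∀ (y : ∀ v : ↥P, ↥(B981.fib981 (K := K) P' v.1) → ℤ × ℤ)
      (x : InfinitePlace K' → ℝ × ℝ),
      (∀ v : ↥P, ∑ w, ((B981.resDeg981 v.1 w.1 : ℕ) : ℤ) • y v w = Δ.1 v) →
      ∑ k ∈ (Finset.univ : Finset (Fin N)) ×ˢ J, (∏ w : InfinitePlace K', bF k w (x w))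
        * ∏ v : ↥P, ∏ w : ↥(B981.fib981 (K := K) P' v.1), aF k w.1 (y v w) = 0 := by
    intro y x hy
    have hPmem : ∀ w ∈ P', underP942 (K := K) w ∈ P := fun w hw =>
      (hP _).2 ⟨w, hw, placeOver_underP942 w⟩
    have hfmem : ∀ w (hw : w ∈ P'), w ∈ B981.fib981 (K := K) P' (underP942 (K := K) w) :=
      fun w hw => (mem_fib942 P' _ w).2 ⟨hw, placeOver_underP942 w⟩
    obtain ⟨m', hm'⟩ : ∃ m' : HeightOneSpectrum (𝓞 K') → ℤ × ℤ, m' = fun w =>
        if h : w ∈ P' then y ⟨underP942 (K := K) w, hPmem w h⟩ ⟨w, hfmem w h⟩ else 0 :=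
      ⟨_, rfl⟩
    have hkey : ∀ (v : ↥P) (w : ↥(B981.fib981 (K := K) P' v.1)), m' w.1 = y v w := by
      intro v w
      have hw := (mem_fib942 P' v.1 w.1).1 w.2
      have hgen : ∀ (u : HeightOneSpectrum (𝓞 K)) (hu : u ∈ P)
          (hw' : w.1 ∈ B981.fib981 (K := K) P' u), u = v.1 → y ⟨u, hu⟩ ⟨w.1, hw'⟩ = y v w := by
        intro u hu hw' huv
        subst huv
        rfl
      rw [hm']
      show (if h : w.1 ∈ P' then y ⟨underP942 (K := K) w.1, hPmem w.1 h⟩ ⟨w.1, hfmem w.1 h⟩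
        else 0) = y v w
      rw [dif_pos hw.1]
      exact hgen _ _ _ (eq_underP942 hw.2).symm
    have hterm : ∀ j : ℤ, ∑ i : Fin N, T3.M.pureCoordM K' P' (A' i) (β' i)
        (((fun w : ↥P' => m' w.1), x) + j • T3.M.coordTorM K' P' e' α')
          = ∑ i : Fin N, (∏ w : InfinitePlace K', bF (i, j) w (x w))
              * ∏ v : ↥P, ∏ w : ↥(B981.fib981 (K := K) P' v.1), aF (i, j) w.1 (y v w) := by
      intro j
      refine Finset.sum_congr rfl fun i _ => ?_
      rw [pureCoordM_shift942, mul_comm]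
      congr 1
      · rw [hbF]
      · have h1 := prod_fib942 P' P hP (fun w => aF (i, j) w (m' w))
        have h2 : ∏ w : ↥P', A' i w.1 (m' w.1 + j • (((e' w.1 : ℕ) : ℤ), (0 : ℤ)))
            = ∏ w : ↥P', aF (i, j) w.1 (m' w.1) := by
          rw [haF]
        rw [h2, h1]
        refine Finset.prod_congr rfl fun v _ => Finset.prod_congr rfl fun w _ => ?_
        rw [hkey v w]
    have hzero : ∀ j ∉ J, ∑ i : Fin N, T3.M.pureCoordM K' P' (A' i) (β' i)
        (((fun w : ↥P' => m' w.1), x) + j • T3.M.coordTorM K' P' e' α') = 0 := by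
      intro j hj
      rw [hterm j]
      refine Finset.sum_eq_zero fun i _ => ?_
      have h0 : ∏ v : ↥P, ∏ w : ↥(B981.fib981 (K := K) P' v.1), aF (i, j) w.1 (y v w) = 0 := by
        refine Finset.prod_eq_zero (Finset.mem_univ (⟨v₀, hv₀⟩ : ↥P)) ?_
        by_contra hne
        apply hj
        refine hJ i j (y ⟨v₀, hv₀⟩) (fun w hw => hne ?_) (hy ⟨v₀, hv₀⟩)
        exact Finset.prod_eq_zero (Finset.mem_univ w) hw
      rw [h0, mul_zero]
    have hsumJ := (hasSum_sum_of_ne_finset_zero hzero).unique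
      (hup ((fun w : ↥P' => m' w.1), x))
    rw [Finset.sum_product_right]
    rw [← hsumJ]
    exact Finset.sum_congr rfl fun j _ => (hterm j).symm
  -- elimination of the finite blocks
  have hfinelim : ∀ x : InfinitePlace K' → ℝ × ℝ,
      ∑ k ∈ (Finset.univ : Finset (Fin N)) ×ˢ J, (∏ w : InfinitePlace K', bF k w (x w))
        * ∏ v : ↥P, lfin v k = 0 := by
    intro x
    refine block_elim942 ((Finset.univ : Finset (Fin N)) ×ˢ J)
      (fun v : ↥P => ↥(B981.fib981 (K := K) P' v.1) → ℤ × ℤ)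
      (fun v => {mm | ∑ w, ((B981.resDeg981 v.1 w.1 : ℕ) : ℤ) • mm w = Δ.1 v})
      (fun v k mm => ∏ w : ↥(B981.fib981 (K := K) P' v.1), aF k w.1 (mm w))
      lfin (fun v c hc => ?_) (fun k => ∏ w : InfinitePlace K', bF k w (x w))
      (fun y hy => ?_)
    · have h1 := pushAbs_star942
        (fun w : ↥(B981.fib981 (K := K) P' v.1) => B981.resDeg981 v.1 w.1)
        ((Finset.univ : Finset (Fin N)) ×ˢ J)
        (fun (k : Fin N × ℤ) (w : ↥(B981.fib981 (K := K) P' v.1)) => aF k w.1)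
        (fun k w => haFsupp k w.1) (Δ.1 v) c (fun mm hmm => hc mm hmm)
      rw [hlfin]
      exact h1
    · exact hupJ y x hy
  -- elimination of the infinite blocks
  have hinfelim : ∑ k ∈ (Finset.univ : Finset (Fin N)) ×ˢ J, (∏ v : ↥P, lfin v k)
      * ∏ v : InfinitePlace K, linf v k = 0 := by
    refine block_elim942 ((Finset.univ : Finset (Fin N)) ×ˢ J)
      (fun _ : InfinitePlace K => ℕ → ℝ × ℝ) (fun _ => Set.univ)
      (fun v k y => ∏ n ∈ Finset.range (ℓ - 1 + 1), bF k (wen v n) (y n))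
      linf (fun v c hc => ?_) (fun k => ∏ v : ↥P, lfin v k) (fun y _ => ?_)
    · have h1 := convR_star942 ((Finset.univ : Finset (Fin N)) ×ˢ J)
        (fun (k : Fin N × ℤ) (n : ℕ) => bF k (wen v n)) (ℓ - 1)
        (fun k n _ => hbFc k (wen v n)) (fun k n _ => hbFs k (wen v n)) c
        (fun y => hc y (Set.mem_univ y)) (Δ.2 v)
      rw [hlinf]
      exact h1
    · have h1 := hfinelim (fun w => y (w.comap (algebraMap K K')) (idx w))
      refine Eq.trans (Finset.sum_congr rfl fun k _ => ?_) h1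
      rw [mul_comm]
      congr 1
      rw [prod_enum942 ℓ wen hwen1 hwen2
        (fun w => bF k w (y (w.comap (algebraMap K K')) (idx w)))]
      refine Finset.prod_congr rfl fun v _ => ?_
      rw [hℓ]
      refine Finset.prod_congr rfl fun n hn => ?_
      have hn' : n < ℓ := Finset.mem_range.1 hn
      obtain ⟨hlt, heq⟩ := hidx (wen v n)
      have hv : (wen v n).comap (algebraMap K K') = v := (hwen1 v).1 n
      rw [hv] at heq ⊢
      have hidxn : idx (wen v n) = n := (hwen1 v).2 _ _ hlt hn' heq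
      rw [hidxn]
  -- the sum downstairs
  have hzero : ∀ j ∉ J, ∑ i : Fin N,
      T3.M.pureCoordM K P (A i) (β i) (Δ + j • T3.M.coordTorM K P e α) = 0 := by
    intro j hj
    rw [hdown j]
    refine Finset.sum_eq_zero fun i _ => ?_
    rw [Finset.prod_eq_zero (Finset.mem_univ (⟨v₀, hv₀⟩ : ↥P)) (hlfin0 i j hj), zero_mul]
  have hfinal : ∑ j ∈ J, ∑ i : Fin N,
      T3.M.pureCoordM K P (A i) (β i) (Δ + j • T3.M.coordTorM K P e α) = 0 := by
    have h1 : ∑ j ∈ J, ∑ i : Fin N,
        T3.M.pureCoordM K P (A i) (β i) (Δ + j • T3.M.coordTorM K P e α)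
          = (cμ ^ (ℓ - 1)) ^ (Finset.univ : Finset (InfinitePlace K)).card
            * ∑ k ∈ (Finset.univ : Finset (Fin N)) ×ˢ J, (∏ v : ↥P, lfin v k)
              * ∏ v : InfinitePlace K, linf v k := by
      rw [Finset.sum_product_right, Finset.mul_sum]
      refine Finset.sum_congr rfl fun j _ => ?_
      rw [hdown j, Finset.mul_sum]
      refine Finset.sum_congr rfl fun i _ => ?_
      rw [Finset.prod_mul_distrib, Finset.prod_const]
      ring
    rw [h1, hinfelim, mul_zero]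
  have hs : HasSum (fun j : ℤ => ∑ i : Fin N,
      T3.M.pureCoordM K P (A i) (β i) (Δ + j • T3.M.coordTorM K P e α))
      (∑ j ∈ J, ∑ i : Fin N,
        T3.M.pureCoordM K P (A i) (β i) (Δ + j • T3.M.coordTorM K P e α)) :=
    hasSum_sum_of_ne_finset_zero hzero
  rw [hfinal] at hs
  exact hs

end Fermat.Agent.LT.T7.H942

end

end
-- ===== PACK-END LT/T7/H942/PushTel.lean

-- ===== PACK-BEGIN LT/T7/H756/LsumDbl.lean
section





/-!
# LT T7.PT.5 `LsumDblC563` (helper756, OFF-MAIN)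

`lsumDblC756 (K) : PT563.LsumDblC563 K` VERBATIM, UNCONDITIONAL: the sum of the left translates
of a pure tensor over a system of representatives of `U(𝔑₀) g U(𝔑₀) / U(𝔑₀)` is the pure tensor
with the double coset functions of `g` at the places of `S₀`.

Proof.  `U(𝔑₀)` is the product of the local groups `T6.InU (n₀ v)` (`inLevelGroup_iff_inU756`).
A member `h = u₁ g u₂` of the system is trivial at infinity, lies in `U(n₀ v)` outside `S₀` and
in `U g_v U` at every `v`; so the term of `h` at `y` is the product of the indicator of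
`h_v⁻¹ y_v ∈ U(n₀ v)`, `v ∈ S₀`, and of the value of the tensor outside `S₀`.  If `y_v ∈ U g_v U`
for all `v ∈ S₀` there is exactly one member with `h_v⁻¹ y_v ∈ U` for all `v ∈ S₀` (existence:
glue the left factors, `exists_glue756`, and use the covering property; uniqueness: the
separation property); otherwise there is none.
-/

set_option autoImplicit false

open AutomorphicForm IsDedekindDomain NumberField

noncomputable section

namespace Fermat.Agent.LT.T7.H756

open Fermat.Agent.LT.H556 Fermat.Agent.LT.H556.A0 Fermat.Agent.LT.T7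
open Fermat.Agent.LT.T7.H305 Fermat.Agent.LT.T7.H893 Fermat.Agent.LT.H129
open Fermat.Agent.LT

variable {K : Type} [Field K] [NumberField K]

/-! ## 1. Components -/

theorem coe_finGL756 (v : HeightOneSpectrum (𝓞 K)) (x : G K) :
    ((finGL305 v x : GL (Fin 2) (v.adicCompletion K)) :
      Matrix (Fin 2) (Fin 2) (v.adicCompletion K)) = finComp v x := rfl

theorem coe_finGL_inv756 (v : HeightOneSpectrum (𝓞 K)) (x : G K) :
    (((finGL305 v x)⁻¹ : GL (Fin 2) (v.adicCompletion K)) :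
      Matrix (Fin 2) (Fin 2) (v.adicCompletion K)) = finComp v x⁻¹ := by
  rw [← map_inv, coe_finGL756]

theorem coe_infGL756 (w : InfinitePlace K) (x : G K) :
    ((infGL305 w x : GL (Fin 2) ℂ) : Matrix (Fin 2) (Fin 2) ℂ) = infComp w x := rfl

theorem finGL_eq_finCompHom756 (v : HeightOneSpectrum (𝓞 K)) (x : G K) :
    finGL305 v x = finCompHom129 v x :=
  Units.ext ((coe_finGL756 v x).trans (coe_finCompHom129 v x).symm)

theorem trivAtFin_iff_finGL756 (v : HeightOneSpectrum (𝓞 K)) (x : G K) :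
    TrivAtFin v x ↔ finGL305 v x = 1 := by
  constructor
  · intro h
    exact Units.ext (by rw [coe_finGL756]; exact h)
  · intro h
    have := congrArg (fun u : GL (Fin 2) (v.adicCompletion K) =>
      (u : Matrix (Fin 2) (Fin 2) (v.adicCompletion K))) h
    exact this

theorem trivAtInf_iff_infGL756 (w : InfinitePlace K) (x : G K) :
    TrivAtInf w x ↔ infGL305 w x = 1 := by
  constructor
  · intro h
    apply Units.ext
    rw [coe_infGL756]
    ext i j
    show InfinitePlace.Completion.extensionEmbedding w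
      (((x : Matrix (Fin 2) (Fin 2) (Adl K)) i j).1 w) = _
    rw [h i j]
    by_cases hij : i = j
    · subst hij; simp
    · simp [Matrix.one_apply, hij]
  · intro h i j
    have h1 := congrArg (fun u : GL (Fin 2) ℂ => (u : Matrix (Fin 2) (Fin 2) ℂ) i j) h
    have h2 : InfinitePlace.Completion.extensionEmbedding w
        (((x : Matrix (Fin 2) (Fin 2) (Adl K)) i j).1 w)
        = InfinitePlace.Completion.extensionEmbedding w
          ((1 : Matrix (Fin 2) (Fin 2) w.Completion) i j) := by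
      refine Eq.trans h1 ?_
      by_cases hij : i = j
      · subst hij; simp
      · simp [Matrix.one_apply, hij]
    exact (InfinitePlace.Completion.extensionEmbedding w).injective h2

theorem finGL_locFin_same756 (v : HeightOneSpectrum (𝓞 K))
    (a : GL (Fin 2) (v.adicCompletion K)) : finGL305 v (locFin129 v a) = a := by
  rw [finGL_eq_finCompHom756, finCompHom129_locFin129]

theorem finGL_locFin_ne756 {v v' : HeightOneSpectrum (𝓞 K)} (h : v' ≠ v)
    (a : GL (Fin 2) (v.adicCompletion K)) : finGL305 v' (locFin129 v a) = 1 := by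
  rw [finGL_eq_finCompHom756, finCompHom129_locFin129_of_ne v a h]

theorem infGL_locFin756 (w : InfinitePlace K) (v : HeightOneSpectrum (𝓞 K))
    (a : GL (Fin 2) (v.adicCompletion K)) : infGL305 w (locFin129 v a) = 1 :=
  (trivAtInf_iff_infGL756 w _).1 ((isLocalAtFin_locFin129 v a).1 w)

/-- **Glueing**: an element of `GL₂(𝔸_K)` with given components at the places of `S`, trivial
elsewhere. -/
theorem exists_glue756 (S : Finset (HeightOneSpectrum (𝓞 K)))
    (a : ∀ v : HeightOneSpectrum (𝓞 K), GL (Fin 2) (v.adicCompletion K)) :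
    ∃ u : G K, (∀ w : InfinitePlace K, infGL305 w u = 1) ∧
      (∀ v ∈ S, finGL305 v u = a v) ∧ ∀ v, v ∉ S → finGL305 v u = 1 := by
  classical
  induction S using Finset.induction_on with
  | empty =>
    exact ⟨1, fun w => map_one _, fun v hv => absurd hv (Finset.notMem_empty v),
      fun v _ => map_one _⟩
  | insert v₀ S hv₀ ih =>
    obtain ⟨u, hu1, hu2, hu3⟩ := ih
    refine ⟨locFin129 v₀ (a v₀) * u, fun w => ?_, fun v hv => ?_, fun v hv => ?_⟩
    · rw [map_mul, infGL_locFin756, hu1 w, mul_one]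
    · rw [map_mul]
      rcases Finset.mem_insert.1 hv with hvv | hvS
      · subst hvv
        rw [finGL_locFin_same756, hu3 _ hv₀, mul_one]
      · have hne : v ≠ v₀ := fun e => hv₀ (e ▸ hvS)
        rw [finGL_locFin_ne756 hne, one_mul, hu2 v hvS]
    · rw [map_mul]
      have hne : v ≠ v₀ := fun e => hv (e ▸ Finset.mem_insert_self _ _)
      have hvS : v ∉ S := fun h => hv (Finset.mem_insert_of_mem h)
      rw [finGL_locFin_ne756 hne, one_mul, hu3 v hvS]

/-! ## 2. The level group is the product of the local groups -/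

theorem inLevelGroup_iff_inU756 {𝔑₀ : Ideal (𝓞 K)} {n₀ : HeightOneSpectrum (𝓞 K) → ℕ}
    (hlev : IsLevelOf893 𝔑₀ n₀) (u : G K) :
    InLevelGroup 𝔑₀ u ↔ (∀ w : InfinitePlace K, infGL305 w u = 1) ∧
      ∀ v : HeightOneSpectrum (𝓞 K), T6.InU (n₀ v) (finGL305 v u) := by
  unfold InLevelGroup T6.InU
  refine and_congr (forall_congr' fun w => trivAtInf_iff_infGL756 w u)
    (forall_congr' fun v => forall_congr' fun i => forall_congr' fun j => ?_)
  rw [coe_finGL756, coe_finGL_inv756, hlev v, hlev v, Matrix.sub_apply, Matrix.sub_apply]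

theorem inU_zero_iff756 (v : HeightOneSpectrum (𝓞 K)) (x : G K) :
    T6.InU 0 (finGL305 v x) ↔ IsIntegralAt v x ∧ IsIntegralAt v x⁻¹ := by
  have e1 : (WithZero.exp (-((0 : ℕ) : ℤ)) : WithZero (Multiplicative ℤ)) = 1 := by simp
  have key : ∀ (A : Matrix (Fin 2) (Fin 2) (v.adicCompletion K)),
      T6.H777.Small777 0 (A - 1) ↔ ∀ i j, A i j ∈ v.adicCompletionIntegers K := by
    intro A
    constructor
    · intro h i j
      have h2 := T6.H777.small_add777 h T6.H777.small_one777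
      rw [sub_add_cancel] at h2
      rw [HeightOneSpectrum.mem_adicCompletionIntegers]
      have := h2 i j
      rwa [e1] at this
    · intro h
      refine T6.H777.small_sub777 (fun i j => ?_) T6.H777.small_one777
      rw [e1]
      exact (HeightOneSpectrum.mem_adicCompletionIntegers _ _ _).1 (h i j)
  rw [T6.H777.inU_iff777, coe_finGL756, coe_finGL_inv756, key, key]
  exact Iff.rfl

theorem inU_zero_of_inU756 {k : Type} [Field k] [Valued k (WithZero (Multiplicative ℤ))]
    {n : ℕ} {x : GL (Fin 2) k} (h : T6.InU n x) : T6.InU 0 x := by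
  rw [T6.H777.inU_iff777] at h ⊢
  exact ⟨T6.H777.small_mono777 (Nat.zero_le n) h.1, T6.H777.small_mono777 (Nat.zero_le n) h.2⟩

theorem outT_iff756 (T : Finset (HeightOneSpectrum (𝓞 K))) (x : G K) :
    OutT305 T x ↔ ∀ v : HeightOneSpectrum (𝓞 K), v ∉ T → T6.InU 0 (finGL305 v x) := by
  unfold OutT305
  exact forall_congr' fun v => forall_congr' fun _ => (inU_zero_iff756 v x).symm

theorem outT_inv_mul_iff756 {T : Finset (HeightOneSpectrum (𝓞 K))} {h : G K}
    (hh : ∀ v : HeightOneSpectrum (𝓞 K), v ∉ T → T6.InU 0 (finGL305 v h)) (y : G K) :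
    OutT305 T (h⁻¹ * y) ↔ OutT305 T y := by
  rw [outT_iff756, outT_iff756]
  refine forall_congr' fun v => forall_congr' fun hv => ?_
  rw [map_mul, map_inv]
  constructor
  · intro h1
    have := T6.H777.inU_mul777 (hh v hv) h1
    rwa [mul_inv_cancel_left] at this
  · intro h1
    exact T6.H777.inU_mul777 (T6.H777.inU_inv777 (hh v hv)) h1

/-! ## 3. The leaf -/

/-- **LEAF T7.PT.5 `LsumDblC563`.** -/
theorem lsumDblC756 (K : Type) [Field K] [NumberField K] : PT563.LsumDblC563 K := by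
  classical
  intro 𝔑₀ n₀ _ hlev g S₀ hginf hgfin Hg hsys T hST f₀ F hunit hinv y
  obtain ⟨hsys1, hsys2, hsys3⟩ := hsys
  -- local facts about the members of the system
  have hloc : ∀ h ∈ Hg, (∀ w : InfinitePlace K, infGL305 w h = 1) ∧
      (∀ v : HeightOneSpectrum (𝓞 K), v ∉ S₀ → T6.InU (n₀ v) (finGL305 v h)) ∧
      ∀ v : HeightOneSpectrum (𝓞 K), ∃ a b : GL (Fin 2) (v.adicCompletion K),
        T6.InU (n₀ v) a ∧ T6.InU (n₀ v) b ∧ finGL305 v h = a * finGL305 v g * b := by
    intro h hh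
    obtain ⟨u₁, u₂, hu₁, hu₂, rfl⟩ := hsys1 h hh
    rw [inLevelGroup_iff_inU756 hlev] at hu₁ hu₂
    refine ⟨fun w => ?_, fun v hv => ?_, fun v =>
      ⟨finGL305 v u₁, finGL305 v u₂, hu₁.2 v, hu₂.2 v, by rw [map_mul, map_mul]⟩⟩
    · rw [map_mul, map_mul, hu₁.1 w, hu₂.1 w, (trivAtInf_iff_infGL756 w g).1 (hginf w)]
      simp
    · rw [map_mul, map_mul, (trivAtFin_iff_finGL756 v g).1 (hgfin v hv), mul_one]
      exact T6.H777.inU_mul777 (hu₁.2 v) (hu₂.2 v)
  -- the term of one member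
  have hterm : ∀ h ∈ Hg, pure305 T f₀ F (h⁻¹ * y) =
      if OutT305 T y then
        (∏ v ∈ T, if v ∈ S₀ then unitFn893 (n₀ v) ((finGL305 v h)⁻¹ * finGL305 v y)
          else f₀ v (finGL305 v y)) * ∏ w : InfinitePlace K, F w (infGL305 w y)
      else 0 := by
    intro h hh
    obtain ⟨h1, h2, -⟩ := hloc h hh
    have hout : OutT305 T (h⁻¹ * y) ↔ OutT305 T y :=
      outT_inv_mul_iff756 (fun v hv => inU_zero_of_inU756 (h2 v (fun hvS => hv (hST hvS)))) y
    unfold pure305
    by_cases hy : OutT305 T y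
    · rw [if_pos hy, if_pos (hout.2 hy)]
      congr 1
      · refine Finset.prod_congr rfl fun v hv => ?_
        by_cases hvS : v ∈ S₀
        · rw [if_pos hvS, map_mul, map_inv, hunit v hvS]
        · rw [if_neg hvS, map_mul, map_inv]
          exact hinv v hv hvS _ _ (T6.H777.inU_inv777 (h2 v hvS))
      · refine Finset.prod_congr rfl fun w _ => ?_
        rw [map_mul, map_inv, h1 w, inv_one, one_mul]
    · rw [if_neg hy, if_neg (fun h' => hy (hout.1 h'))]
  show ∑ h ∈ Hg, pure305 T f₀ F (h⁻¹ * y) = _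
  rw [Finset.sum_congr rfl hterm]
  unfold pure305
  by_cases hy : OutT305 T y
  swap
  · rw [if_neg hy]
    exact Finset.sum_eq_zero fun h _ => if_neg hy
  rw [if_pos hy]
  simp only [if_pos hy]
  rw [← Finset.sum_mul]
  congr 1
  -- the combinatorial identity
  by_cases hA : ∀ v ∈ S₀, ∃ a b : GL (Fin 2) (v.adicCompletion K),
      T6.InU (n₀ v) a ∧ T6.InU (n₀ v) b ∧ finGL305 v y = a * finGL305 v g * b
  · choose! a b ha hb hab using hA
    obtain ⟨u, hu1, hu2, hu3⟩ := exists_glue756 S₀ a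
    have hu : InLevelGroup 𝔑₀ u := by
      rw [inLevelGroup_iff_inU756 hlev]
      refine ⟨hu1, fun v => ?_⟩
      by_cases hv : v ∈ S₀
      · rw [hu2 v hv]; exact ha v hv
      · rw [hu3 v hv]; exact T6.H777.inU_one777 _
    obtain ⟨h₀, hh₀, hh₀u⟩ := hsys3 u hu
    rw [inLevelGroup_iff_inU756 hlev] at hh₀u
    have hP₀ : ∀ v ∈ S₀, T6.InU (n₀ v) ((finGL305 v h₀)⁻¹ * finGL305 v y) := by
      intro v hv
      have h1 := hh₀u.2 v
      rw [map_mul, map_mul, map_inv, hu2 v hv] at h1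
      have h2 := T6.H777.inU_mul777 h1 (hb v hv)
      rw [hab v hv]
      convert h2 using 1
      group
    have huniq : ∀ h ∈ Hg, h ≠ h₀ →
        ∃ v ∈ S₀, ¬ T6.InU (n₀ v) ((finGL305 v h)⁻¹ * finGL305 v y) := by
      intro h hh hne
      by_contra hcon
      push_neg at hcon
      apply hsys2 h₀ hh₀ h hh (Ne.symm hne)
      rw [inLevelGroup_iff_inU756 hlev]
      refine ⟨fun w => ?_, fun v => ?_⟩
      · rw [map_mul, map_inv, (hloc h₀ hh₀).1 w, (hloc h hh).1 w]
        simp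
      · rw [map_mul, map_inv]
        by_cases hv : v ∈ S₀
        · have h1 := T6.H777.inU_mul777 (hP₀ v hv) (T6.H777.inU_inv777 (hcon v hv))
          convert h1 using 1
          group
        · exact T6.H777.inU_mul777 (T6.H777.inU_inv777 ((hloc h₀ hh₀).2.1 v hv))
            ((hloc h hh).2.1 v hv)
    rw [Finset.sum_eq_single h₀ (fun h hh hne => ?_) (fun hnot => absurd hh₀ hnot)]
    · refine Finset.prod_congr rfl fun v hv => ?_
      by_cases hvS : v ∈ S₀
      · rw [if_pos hvS, if_pos hvS]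
        unfold unitFn893 dblFn893
        rw [if_pos (hP₀ v hvS), if_pos ⟨a v, b v, ha v hvS, hb v hvS, hab v hvS⟩]
      · rw [if_neg hvS, if_neg hvS]
    · obtain ⟨v, hv, hnot⟩ := huniq h hh hne
      refine Finset.prod_eq_zero (hST hv) ?_
      rw [if_pos hv]
      unfold unitFn893
      rw [if_neg hnot]
  · push_neg at hA
    obtain ⟨v₀, hv₀, hno⟩ := hA
    have hR : (∏ v ∈ T, (if v ∈ S₀ then dblFn893 (n₀ v) (finGL305 v g) else f₀ v)
        (finGL305 v y)) = 0 := by
      refine Finset.prod_eq_zero (hST hv₀) ?_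
      rw [if_pos hv₀]
      unfold dblFn893
      rw [if_neg]
      rintro ⟨a, b, ha, hb, hab⟩
      exact hno a b ha hb hab
    rw [hR]
    refine Finset.sum_eq_zero fun h hh => ?_
    refine Finset.prod_eq_zero (hST hv₀) ?_
    rw [if_pos hv₀]
    unfold unitFn893
    rw [if_neg]
    intro hin
    obtain ⟨a, b, ha, hb, hab⟩ := (hloc h hh).2.2 v₀
    refine hno a (b * ((finGL305 v₀ h)⁻¹ * finGL305 v₀ y)) ha (T6.H777.inU_mul777 hb hin) ?_
    rw [← mul_assoc, ← hab, mul_inv_cancel_left]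

end Fermat.Agent.LT.T7.H756

end

end
-- ===== PACK-END LT/T7/H756/LsumDbl.lean

-- ===== PACK-BEGIN LT/T7/H526/OpAvgTools.lean
section







/-!
# Row LT, tower T7, node T7.L2.1.H2b.G1 `OpAvgC51` (helper526, registry row 2881): tools

OFF-MAIN.  Complete proofs, nothing assumed.  ADDITIVE (all names end in `526`).

* the algebra of pure tensors at one place (`exists_rest526`, `ltr_pure526`, `iwL_pure526`,
  `regL_pure526`), left invariance of a pure tensor (`pure_left_inv526`);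
* the local invariance of the regular Iwahori function (`regLoc_left_inv526`);
* test functions without the left invariance (`IsPreT526`) and their left translates;
* families with an average (`IsFam526`) and their left translates.
-/

set_option autoImplicit false
set_option linter.unusedSectionVars false
set_option linter.unusedVariables false

open IsDedekindDomain NumberField MeasureTheory

noncomputable section

namespace Fermat.Agent.LT.T7.H526

open Fermat.Agent.LT.H556 Fermat.Agent.LT.H556.A0 Fermat.Agent.LT.T7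
open Fermat.Agent.LT.T7.H305 Fermat.Agent.LT.T7.H893 Fermat.Agent.LT.T7.P51 Fermat.Agent.LT.H129
open Fermat.Agent.LT

attribute [local instance] Fermat.Agent.LT.T5.instMeasurableSpaceG

variable {K : Type} [Field K] [NumberField K]

/-! ## 1. Components of local elements -/

theorem finGL_of_local526 {w v : HeightOneSpectrum (𝓞 K)} {b : G K} (hb : IsLocalAtFin w b)
    (hv : v ≠ w) : finGL305 v b = 1 :=
  (H756.trivAtFin_iff_finGL756 v b).1 (hb.2 v hv)

theorem infGL_of_local526 {w : HeightOneSpectrum (𝓞 K)} {b : G K} (hb : IsLocalAtFin w b)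
    (w' : InfinitePlace K) : infGL305 w' b = 1 :=
  (H756.trivAtInf_iff_infGL756 w' b).1 (hb.1 w')

theorem isLocalAtFin_zpow526 {w : HeightOneSpectrum (𝓞 K)} {z : G K} (hz : IsLocalAtFin w z)
    (k : ℤ) : IsLocalAtFin w (z ^ k) := by
  rw [isLocalAtFin_iff129] at hz ⊢
  refine ⟨fun u => ?_, fun v hv => ?_⟩
  · rw [map_zpow, hz.1 u, one_zpow]
  · rw [map_zpow, hz.2 v hv, one_zpow]

/-! ## 2. The algebra of pure tensors at one place -/

/-- The value of a pure tensor is the value of the component at `w ∈ T` times a factor which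
does not depend on this component and is invariant under the left translations by elements
supported at `w`. -/
theorem exists_rest526 [DecidableEq (HeightOneSpectrum (𝓞 K))]
    (T : Finset (HeightOneSpectrum (𝓞 K))) (w : HeightOneSpectrum (𝓞 K)) (hw : w ∈ T)
    (f₀ : ∀ v : HeightOneSpectrum (𝓞 K), GL (Fin 2) (v.adicCompletion K) → ℂ)
    (F : InfinitePlace K → GL (Fin 2) ℂ → ℂ) :
    ∃ R : G K → ℂ,
      (∀ (ψ : GL (Fin 2) (w.adicCompletion K) → ℂ) (y : G K),
        pure305 T (Function.update f₀ w ψ) F y = ψ (finGL305 w y) * R y) ∧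
      ∀ b : G K, IsLocalAtFin w b → ∀ y : G K, R (b⁻¹ * y) = R y := by
  classical
  refine ⟨fun y => if OutT305 T y then
      (∏ v ∈ T.erase w, f₀ v (finGL305 v y)) * ∏ w' : InfinitePlace K, F w' (infGL305 w' y)
    else 0, ?_, ?_⟩
  · intro ψ y
    show (if OutT305 T y then
        (∏ v ∈ T, Function.update f₀ w ψ v (finGL305 v y))
          * ∏ w' : InfinitePlace K, F w' (infGL305 w' y) else 0) = _
    by_cases hy : OutT305 T y
    · simp only [if_pos hy]
      rw [← Finset.mul_prod_erase T _ hw, Function.update_self, mul_assoc]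
      congr 2
      refine Finset.prod_congr rfl fun v hv => ?_
      rw [Function.update_of_ne (Finset.ne_of_mem_erase hv)]
    · simp only [if_neg hy, mul_zero]
  · intro b hb y
    have hout : OutT305 T (b⁻¹ * y) ↔ OutT305 T y :=
      H756.outT_inv_mul_iff756 (fun v hv => by
        rw [finGL_of_local526 hb (fun e => hv (by rw [e]; exact hw))]
        exact T6.H777.inU_one777 0) y
    show (if OutT305 T (b⁻¹ * y) then _ else 0) = if OutT305 T y then _ else 0
    by_cases hy : OutT305 T y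
    · rw [if_pos hy, if_pos (hout.2 hy)]
      congr 1
      · refine Finset.prod_congr rfl fun v hv => ?_
        rw [map_mul, map_inv, finGL_of_local526 hb (Finset.ne_of_mem_erase hv), inv_one, one_mul]
      · refine Finset.prod_congr rfl fun w' _ => ?_
        rw [map_mul, map_inv, infGL_of_local526 hb w', inv_one, one_mul]
    · rw [if_neg hy, if_neg (fun h => hy (hout.1 h))]

/-- The left translate by an element supported at `w ∈ T`. -/
theorem ltr_pure526 [DecidableEq (HeightOneSpectrum (𝓞 K))]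
    {T : Finset (HeightOneSpectrum (𝓞 K))} {w : HeightOneSpectrum (𝓞 K)} (hw : w ∈ T)
    (f₀ : ∀ v : HeightOneSpectrum (𝓞 K), GL (Fin 2) (v.adicCompletion K) → ℂ)
    (F : InfinitePlace K → GL (Fin 2) ℂ → ℂ) (ψ : GL (Fin 2) (w.adicCompletion K) → ℂ)
    {b : G K} (hb : IsLocalAtFin w b) :
    ltr b (pure305 T (Function.update f₀ w ψ) F)
      = pure305 T (Function.update f₀ w (fun x => ψ ((finGL305 w b)⁻¹ * x))) F := by
  obtain ⟨R, hR1, hR2⟩ := exists_rest526 T w hw f₀ F
  funext y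
  show pure305 T (Function.update f₀ w ψ) F (b⁻¹ * y) = _
  rw [hR1, hR1, hR2 b hb, map_mul, map_inv]

/-- The Iwahori sum over elements supported at `w ∈ T`. -/
theorem iwL_pure526 [DecidableEq (HeightOneSpectrum (𝓞 K))]
    {T : Finset (HeightOneSpectrum (𝓞 K))} {w : HeightOneSpectrum (𝓞 K)} (hw : w ∈ T)
    (f₀ : ∀ v : HeightOneSpectrum (𝓞 K), GL (Fin 2) (v.adicCompletion K) → ℂ)
    (F : InfinitePlace K → GL (Fin 2) ℂ → ℂ) (ψ : GL (Fin 2) (w.adicCompletion K) → ℂ)
    {H : Finset (G K)} (hH : ∀ h ∈ H, IsLocalAtFin w h) :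
    iwL w H (pure305 T (Function.update f₀ w ψ) F)
      = pure305 T (Function.update f₀ w (iwLoc51 w H ψ)) F := by
  obtain ⟨R, hR1, hR2⟩ := exists_rest526 T w hw f₀ F
  funext y
  show ((Real.sqrt (Ideal.absNorm w.asIdeal : ℝ) : ℝ) : ℂ)⁻¹
      * ∑ h ∈ H, pure305 T (Function.update f₀ w ψ) F (h⁻¹ * y) = _
  rw [hR1]
  show _ = (((Real.sqrt (Ideal.absNorm w.asIdeal : ℝ) : ℝ) : ℂ)⁻¹
      * ∑ h ∈ H, ψ ((finGL305 w h)⁻¹ * finGL305 w y)) * R y
  rw [mul_assoc, Finset.sum_mul]
  congr 1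
  refine Finset.sum_congr rfl fun h hh => ?_
  rw [hR1, hR2 h (hH h hh), map_mul, map_inv]

theorem iwL_iter_pure526 [DecidableEq (HeightOneSpectrum (𝓞 K))]
    {T : Finset (HeightOneSpectrum (𝓞 K))} {w : HeightOneSpectrum (𝓞 K)} (hw : w ∈ T)
    (f₀ : ∀ v : HeightOneSpectrum (𝓞 K), GL (Fin 2) (v.adicCompletion K) → ℂ)
    (F : InfinitePlace K → GL (Fin 2) ℂ → ℂ) (ψ : GL (Fin 2) (w.adicCompletion K) → ℂ)
    {H : Finset (G K)} (hH : ∀ h ∈ H, IsLocalAtFin w h) (j : ℕ) :
    (iwL w H)^[j] (pure305 T (Function.update f₀ w ψ) F)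
      = pure305 T (Function.update f₀ w ((iwLoc51 w H)^[j] ψ)) F := by
  induction j with
  | zero => rfl
  | succ n ih =>
    rw [Function.iterate_succ_apply', Function.iterate_succ_apply', ih]
    exact iwL_pure526 hw f₀ F _ hH

/-- **The regular member of a pure tensor** is the pure tensor with the regular component. -/
theorem regL_pure526 [DecidableEq (HeightOneSpectrum (𝓞 K))]
    {T : Finset (HeightOneSpectrum (𝓞 K))} {w : HeightOneSpectrum (𝓞 K)} (hw : w ∈ T)
    (f₀ : ∀ v : HeightOneSpectrum (𝓞 K), GL (Fin 2) (v.adicCompletion K) → ℂ)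
    (F : InfinitePlace K → GL (Fin 2) ℂ → ℂ) (ψ : GL (Fin 2) (w.adicCompletion K) → ℂ)
    {H : Finset (G K)} (hH : ∀ h ∈ H, IsLocalAtFin w h) {z : G K} (hz : IsLocalAtFin w z)
    (k : ℤ) (j : ℕ) :
    regL w z H k j (pure305 T (Function.update f₀ w ψ) F)
      = pure305 T (Function.update f₀ w (regLoc51 w z H k j ψ)) F := by
  show ltr (z ^ k) ((iwL w H)^[j] (pure305 T (Function.update f₀ w ψ) F)) = _
  rw [iwL_iter_pure526 hw f₀ F ψ hH j, ltr_pure526 hw f₀ F _ (isLocalAtFin_zpow526 hz k)]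
  congr 2
  funext x
  show ((iwLoc51 w H)^[j] ψ) ((finGL305 w (z ^ k))⁻¹ * x)
    = ((iwLoc51 w H)^[j] ψ) ((finGL305 w z ^ k)⁻¹ * x)
  rw [map_zpow]

/-- The regular member of a pure tensor, the component at `w` given. -/
theorem regL_pure_of526 [DecidableEq (HeightOneSpectrum (𝓞 K))]
    {T : Finset (HeightOneSpectrum (𝓞 K))} {w : HeightOneSpectrum (𝓞 K)} (hw : w ∈ T)
    (f₀ : ∀ v : HeightOneSpectrum (𝓞 K), GL (Fin 2) (v.adicCompletion K) → ℂ)
    (F : InfinitePlace K → GL (Fin 2) ℂ → ℂ) {ψ : GL (Fin 2) (w.adicCompletion K) → ℂ}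
    (hψ : f₀ w = ψ)
    {H : Finset (G K)} (hH : ∀ h ∈ H, IsLocalAtFin w h) {z : G K} (hz : IsLocalAtFin w z)
    (k : ℤ) (j : ℕ) :
    regL w z H k j (pure305 T f₀ F)
      = pure305 T (Function.update f₀ w (regLoc51 w z H k j ψ)) F := by
  subst hψ
  have h := regL_pure526 hw f₀ F (f₀ w) hH hz k j
  rwa [Function.update_eq_self] at h

/-- **Left invariance of a pure tensor.** -/
theorem pure_left_inv526 (T : Finset (HeightOneSpectrum (𝓞 K)))
    (f₀ : ∀ v : HeightOneSpectrum (𝓞 K), GL (Fin 2) (v.adicCompletion K) → ℂ)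
    (F : InfinitePlace K → GL (Fin 2) ℂ → ℂ) (x : G K)
    (hinf : ∀ w : InfinitePlace K, infGL305 w x = 1)
    (hout : ∀ v : HeightOneSpectrum (𝓞 K), v ∉ T → T6.InU 0 (finGL305 v x))
    (hin : ∀ v ∈ T, ∀ y : GL (Fin 2) (v.adicCompletion K),
      f₀ v (finGL305 v x * y) = f₀ v y) (y : G K) :
    pure305 T f₀ F (x * y) = pure305 T f₀ F y := by
  classical
  have hout' : OutT305 T (x * y) ↔ OutT305 T y := by
    have h := H756.outT_inv_mul_iff756 (T := T) (h := x⁻¹) (fun v hv => by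
      rw [map_inv]
      exact T6.H777.inU_inv777 (hout v hv)) y
    rwa [inv_inv] at h
  show (if OutT305 T (x * y) then _ else 0) = if OutT305 T y then _ else 0
  by_cases hy : OutT305 T y
  · rw [if_pos hy, if_pos (hout'.2 hy)]
    congr 1
    · refine Finset.prod_congr rfl fun v hv => ?_
      rw [map_mul, hin v hv]
    · refine Finset.prod_congr rfl fun w' _ => ?_
      rw [map_mul, hinf w', one_mul]
  · rw [if_neg hy, if_neg (fun h => hy (hout'.1 h))]

/-! ## 3. Local facts -/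

section Local

variable {k : Type} [Field k] [Valued k T6.Γ₀]

theorem inIw_mul526 {a b : GL (Fin 2) k} (ha : InIw893 a) (hb : InIw893 b) : InIw893 (a * b) :=
  H340.isIwG340_mul (v := (Valued.v : Valuation k (WithZero (Multiplicative ℤ)))) ha hb

theorem inIw_inv526 {a : GL (Fin 2) k} (ha : InIw893 a) : InIw893 a⁻¹ :=
  H340.isIwG340_inv (v := (Valued.v : Valuation k (WithZero (Multiplicative ℤ)))) ha

/-- The Iwahori function is left invariant under the Iwahori subgroup. -/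
theorem iwFn_left526 {u : GL (Fin 2) k} (hu : InIw893 u) (x : GL (Fin 2) k) :
    (iwFn893 (u * x) : ℂ) = iwFn893 x := by
  classical
  show (if InIw893 (u * x) then (1 : ℂ) else 0) = if InIw893 x then 1 else 0
  by_cases hx : InIw893 x
  · rw [if_pos hx, if_pos (inIw_mul526 hu hx)]
  · rw [if_neg hx, if_neg]
    intro h
    apply hx
    have := inIw_mul526 (inIw_inv526 hu) h
    rwa [inv_mul_cancel_left] at this

/-- The double coset function is left invariant. -/
theorem dblFn_left526 (n : ℕ) (y : GL (Fin 2) k) {u : GL (Fin 2) k} (hu : T6.InU n u)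
    (x : GL (Fin 2) k) : (dblFn893 n y (u * x) : ℂ) = dblFn893 n y x := by
  classical
  show (if ∃ u₁ u₂ : GL (Fin 2) k, T6.InU n u₁ ∧ T6.InU n u₂ ∧ u * x = u₁ * y * u₂
      then (1 : ℂ) else 0)
    = if ∃ u₁ u₂ : GL (Fin 2) k, T6.InU n u₁ ∧ T6.InU n u₂ ∧ x = u₁ * y * u₂ then 1 else 0
  have hiff : (∃ u₁ u₂ : GL (Fin 2) k, T6.InU n u₁ ∧ T6.InU n u₂ ∧ u * x = u₁ * y * u₂)
      ↔ ∃ u₁ u₂ : GL (Fin 2) k, T6.InU n u₁ ∧ T6.InU n u₂ ∧ x = u₁ * y * u₂ := by
    constructor
    · rintro ⟨u₁, u₂, h1, h2, h3⟩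
      refine ⟨u⁻¹ * u₁, u₂, T6.H777.inU_mul777 (T6.H777.inU_inv777 hu) h1, h2, ?_⟩
      calc x = u⁻¹ * (u * x) := by group
        _ = u⁻¹ * (u₁ * y * u₂) := by rw [h3]
        _ = u⁻¹ * u₁ * y * u₂ := by group
    · rintro ⟨u₁, u₂, h1, h2, h3⟩
      refine ⟨u * u₁, u₂, T6.H777.inU_mul777 hu h1, h2, ?_⟩
      rw [h3]
      group
  by_cases hx : ∃ u₁ u₂ : GL (Fin 2) k, T6.InU n u₁ ∧ T6.InU n u₂ ∧ x = u₁ * y * u₂
  · rw [if_pos hx, if_pos (hiff.2 hx)]
  · rw [if_neg hx, if_neg (fun h => hx (hiff.1 h))]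

theorem entryMax_mul_le526 {u : GL (Fin 2) k}
    (hu : ∀ i j, Valued.v ((u : Matrix (Fin 2) (Fin 2) k) i j) ≤ 1) (x : GL (Fin 2) k) :
    T6.entryMax (u * x) ≤ T6.entryMax x := by
  show Finset.univ.sup' Finset.univ_nonempty
      (fun p : Fin 2 × Fin 2 => Valued.v (((u * x : GL (Fin 2) k) :
        Matrix (Fin 2) (Fin 2) k) p.1 p.2)) ≤ T6.entryMax x
  rw [Finset.sup'_le_iff]
  rintro ⟨i, j⟩ -
  have hle : ∀ l : Fin 2, Valued.v ((x : Matrix (Fin 2) (Fin 2) k) l j) ≤ T6.entryMax x :=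
    fun l => Finset.le_sup' (fun p : Fin 2 × Fin 2 =>
      Valued.v ((x : Matrix (Fin 2) (Fin 2) k) p.1 p.2)) (Finset.mem_univ (l, j))
  have hterm : ∀ l : Fin 2, Valued.v ((u : Matrix (Fin 2) (Fin 2) k) i l
      * (x : Matrix (Fin 2) (Fin 2) k) l j) ≤ T6.entryMax x := by
    intro l
    rw [map_mul]
    calc Valued.v ((u : Matrix (Fin 2) (Fin 2) k) i l)
          * Valued.v ((x : Matrix (Fin 2) (Fin 2) k) l j)
        ≤ 1 * Valued.v ((x : Matrix (Fin 2) (Fin 2) k) l j) := mul_le_mul' (hu i l) le_rfl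
      _ = Valued.v ((x : Matrix (Fin 2) (Fin 2) k) l j) := one_mul _
      _ ≤ T6.entryMax x := hle l
  show Valued.v (((u * x : GL (Fin 2) k) : Matrix (Fin 2) (Fin 2) k) i j) ≤ T6.entryMax x
  rw [Matrix.GeneralLinearGroup.coe_mul, Matrix.mul_apply, Fin.sum_univ_two]
  exact le_trans (Valuation.map_add _ _ _) (max_le (hterm 0) (hterm 1))

/-- The Cartan invariant is left invariant under `GL₂(𝒪)`. -/
theorem cartan_left526 {u : GL (Fin 2) k} (hu : T6.InU 0 u) (x : GL (Fin 2) k) :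
    T6.cartan (u * x) = T6.cartan x := by
  have e1 : (WithZero.exp (-((0 : ℕ) : ℤ)) : WithZero (Multiplicative ℤ)) = 1 := by simp
  have h1 : ∀ i j, Valued.v ((u : Matrix (Fin 2) (Fin 2) k) i j) ≤ 1 := fun i j => by
    have := T6.H777.small_of_inU777 hu i j
    rwa [e1] at this
  have h2 : ∀ i j, Valued.v (((u⁻¹ : GL (Fin 2) k) : Matrix (Fin 2) (Fin 2) k) i j) ≤ 1 :=
    fun i j => by
      have := T6.H777.small_inv_of_inU777 hu i j
      rwa [e1] at this
  have hmax : T6.entryMax (u * x) = T6.entryMax x := by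
    refine le_antisymm (entryMax_mul_le526 h1 x) ?_
    have := entryMax_mul_le526 h2 (u * x)
    rwa [inv_mul_cancel_left] at this
  have hdet : Valued.v ((u * x : GL (Fin 2) k) : Matrix (Fin 2) (Fin 2) k).det
      = Valued.v (x : Matrix (Fin 2) (Fin 2) k).det := by
    rw [Matrix.GeneralLinearGroup.coe_mul, Matrix.det_mul, map_mul,
      H340.val_det_eq_one340 (v := (Valued.v : Valuation k (WithZero (Multiplicative ℤ)))) h1 h2,
      one_mul]
  show (WithZero.log (T6.entryMax (u * x))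
      - WithZero.log (Valued.v ((u * x : GL (Fin 2) k) : Matrix (Fin 2) (Fin 2) k).det),
    - WithZero.log (T6.entryMax (u * x)))
    = (WithZero.log (T6.entryMax x) - WithZero.log (Valued.v (x : Matrix (Fin 2) (Fin 2) k).det),
      - WithZero.log (T6.entryMax x))
  rw [hmax, hdet]

/-- A spherical function is left invariant under `GL₂(𝒪)`. -/
theorem sph_left526 {φ : GL (Fin 2) k → ℂ} {A : (ℤ × ℤ) →₀ ℂ} (h : IsSphFn893 φ A)
    {u : GL (Fin 2) k} (hu : T6.InU 0 u) (x : GL (Fin 2) k) : φ (u * x) = φ x := by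
  rw [h.2 (u * x), h.2 x, cartan_left526 hu]

end Local

/-- At a place dividing the level the local level group is contained in the Iwahori subgroup. -/
theorem inIw_of_inU526 {𝔑 : Ideal (𝓞 K)} {n : HeightOneSpectrum (𝓞 K) → ℕ}
    (hlev : IsLevelOf893 𝔑 n) {w : HeightOneSpectrum (𝓞 K)} (hw : w.asIdeal ∣ 𝔑)
    {u : GL (Fin 2) (w.adicCompletion K)} (hu : T6.InU (n w) u) : InIw893 u := by
  have h1 : ∀ i j, Valued.v (((u : Matrix (Fin 2) (Fin 2) (w.adicCompletion K)) - 1) i j) < 1 :=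
    fun i j => H311.val_lt_one_of_mem311 hw ((hlev w _).2 (hu i j).1)
  have h2 : ∀ i j, Valued.v ((((u⁻¹ : GL (Fin 2) (w.adicCompletion K)) :
      Matrix (Fin 2) (Fin 2) (w.adicCompletion K)) - 1) i j) < 1 :=
    fun i j => H311.val_lt_one_of_mem311 hw ((hlev w _).2 (hu i j).2)
  refine ⟨fun i j => H311.val_le_one_of_sub_one311 h1 i j,
    fun i j => H311.val_le_one_of_sub_one311 h2 i j, ?_⟩
  have := h1 1 0
  simpa using this

/-- The components of an element of a level group are in `GL₂(𝒪_v)`. -/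
theorem inU_zero_of_level526 {𝔑 : Ideal (𝓞 K)} {x : G K} (hx : InLevelGroup 𝔑 x)
    (v : HeightOneSpectrum (𝓞 K)) : T6.InU 0 (finGL305 v x) := by
  have e1 : (WithZero.exp (-((0 : ℕ) : ℤ)) : WithZero (Multiplicative ℤ)) = 1 := by simp
  intro i j
  rw [e1]
  refine ⟨?_, ?_⟩
  · have := T2.H724.val_le_one_of_mem_idealClosure724 v 𝔑 (hx.2 v i j).1
    rwa [Matrix.sub_apply, ← H756.coe_finGL756] at this
  · have := T2.H724.val_le_one_of_mem_idealClosure724 v 𝔑 (hx.2 v i j).2
    rwa [Matrix.sub_apply, ← H756.coe_finGL_inv756] at this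

theorem inLevelGroup_mono526 {𝔑 𝔑₀ : Ideal (𝓞 K)} (h : 𝔑 ≤ 𝔑₀) {x : G K}
    (hx : InLevelGroup 𝔑 x) : InLevelGroup 𝔑₀ x := by
  have hsub : ∀ v : HeightOneSpectrum (𝓞 K), idealClosure 𝔑 v ⊆ idealClosure 𝔑₀ v :=
    fun v => closure_mono (Set.image_mono h)
  exact ⟨hx.1, fun v i j => ⟨hsub v (hx.2 v i j).1, hsub v (hx.2 v i j).2⟩⟩

/-! ## 4. The regular Iwahori function is left invariant under the Iwahori subgroup -/

/-- **The regular Iwahori function is left invariant under the Iwahori subgroup**: the global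
statement of helper311 for the pure tensor with the only component `1_I` at `w`, evaluated at
the elements supported at `w`. -/
theorem regLoc_left_inv526 {w : HeightOneSpectrum (𝓞 K)} {H : Finset (G K)}
    (hH : IsIwCosetSystem w H) {z : G K} (hz : IsScalarUniformizerAt w z) (k : ℤ) (j : ℕ)
    {u₀ : GL (Fin 2) (w.adicCompletion K)} (hu₀ : InIw893 u₀)
    (x : GL (Fin 2) (w.adicCompletion K)) :
    regLoc51 w z H k j iwFn893 (u₀ * x) = regLoc51 w z H k j iwFn893 x := by
  classical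
  let f₁ : ∀ v : HeightOneSpectrum (𝓞 K), GL (Fin 2) (v.adicCompletion K) → ℂ :=
    fun _ => iwFn893
  let F₁ : InfinitePlace K → GL (Fin 2) ℂ → ℂ := fun _ _ => 1
  have hww : w ∈ ({w} : Finset (HeightOneSpectrum (𝓞 K))) := Finset.mem_singleton_self w
  have hiwG : ∀ h : G K, T5.InIwahori w h → InIw893 (finGL305 w h) := by
    intro h hh
    rw [H756.finGL_eq_finCompHom756]
    exact (H340.inIwahori_iff340 w h).1 hh
  have hinv0 : H311.IsLInv311 w.asIdeal w (pure305 {w} f₁ F₁) := by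
    refine ⟨fun g₀ hg₀ y => ?_, fun h hl hI y => ?_⟩
    · refine pure_left_inv526 {w} f₁ F₁ g₀
        (fun w' => (H756.trivAtInf_iff_infGL756 w' g₀).1 (hg₀.1 w'))
        (fun v _ => inU_zero_of_level526 hg₀ v) (fun v hv y' => ?_) y
      obtain rfl : v = w := Finset.mem_singleton.1 hv
      exact iwFn_left526 (hiwG g₀ (H311.inIwahori_of_level311 (dvd_refl _) hg₀)) y'
    · refine pure_left_inv526 {w} f₁ F₁ h (fun w' => infGL_of_local526 hl w')
        (fun v hv => ?_) (fun v hv y' => ?_) y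
      · rw [finGL_of_local526 hl (fun e => hv (by rw [e]; exact hww))]
        exact T6.H777.inU_one777 0
      · obtain rfl : v = w := Finset.mem_singleton.1 hv
        exact iwFn_left526 (hiwG h hI) y'
  have hzc : ∀ g : G K, z ^ k * g = g * z ^ k := fun g =>
    ((show Commute z g from H311.central_scalar311 hz g).zpow_left k).eq
  have hinv : H311.IsLInv311 w.asIdeal w (regL w z H k j (pure305 {w} f₁ F₁)) :=
    (hinv0.iterate (dvd_refl _) hH j).ltr_central hzc
  have hreg := regL_pure_of526 hww f₁ F₁ (ψ := iwFn893) rfl (fun h hh => (hH.2.1 h hh).1)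
    hz.1 k j
  rw [hreg] at hinv
  have hev : ∀ x' : GL (Fin 2) (w.adicCompletion K),
      pure305 {w} (Function.update f₁ w (regLoc51 w z H k j iwFn893)) F₁ (locFin129 w x')
        = regLoc51 w z H k j iwFn893 x' := by
    intro x'
    have hout : OutT305 {w} (locFin129 w x') := by
      rw [H756.outT_iff756]
      intro v hv
      have hne : v ≠ w := fun e => hv (by rw [e]; exact hww)
      rw [H756.finGL_locFin_ne756 hne]
      exact T6.H777.inU_one777 0
    show (if OutT305 {w} (locFin129 w x') then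
        (∏ v ∈ ({w} : Finset (HeightOneSpectrum (𝓞 K))),
          Function.update f₁ w (regLoc51 w z H k j iwFn893) v (finGL305 v (locFin129 w x')))
          * ∏ w' : InfinitePlace K, F₁ w' (infGL305 w' (locFin129 w x')) else 0) = _
    rw [if_pos hout, Finset.prod_singleton, Function.update_self, H756.finGL_locFin_same756,
      Finset.prod_const_one, mul_one]
  rw [← hev (u₀ * x), ← hev x, map_mul]
  refine hinv.iw (locFin129 w u₀) (isLocalAtFin_locFin129 w u₀) ?_ _
  rw [H340.inIwahori_iff340, finCompHom129_locFin129]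
  exact hu₀

/-! ## 5. Test functions without the left invariance -/

/-- Everything in `IsTestFn 𝔫 trivType` except the left invariance under the level group. -/
structure IsPreT526 (𝔫 : Ideal (𝓞 K)) (φ : G K → ℂ) : Prop where
  cont : Continuous φ
  supp : HasCompactSupport φ
  smooth : T5.IsSmoothAtInf φ
  level_right : ∀ u : G K, InLevelGroup 𝔫 u → ∀ g : G K, φ (g * u) = φ g
  arch_right : ∀ (w : InfinitePlace K) (k : G K), IsArchCompact w k →
    ∀ g : G K, φ (g * k) = φ g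
  arch_left : ∀ (w : InfinitePlace K) (k : G K), IsArchCompact w k →
    ∀ g : G K, φ (k * g) = φ g

variable {𝔫 : Ideal (𝓞 K)}

theorem isPreT_of_test526 {φ : G K → ℂ} (h : T5.IsTestFn 𝔫 T5.trivType φ) : IsPreT526 𝔫 φ where
  cont := h.cont
  supp := h.supp
  smooth := h.smooth
  level_right := h.inv.level_right
  arch_right := fun w k hk g => by
    have := h.inv.arch_right w k hk g
    simpa [T5.trivType] using this
  arch_left := fun w k hk g => by
    have := h.inv.arch_left w k hk g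
    simpa [T5.trivType] using this

theorem IsPreT526.to_test {φ : G K → ℂ} (h : IsPreT526 𝔫 φ)
    (hl : ∀ u : G K, InLevelGroup 𝔫 u → ∀ g : G K, φ (u * g) = φ g) :
    T5.IsTestFn 𝔫 T5.trivType φ := by
  refine ⟨T5.isKType_triv, h.cont, h.supp, h.smooth, ⟨h.level_right, hl, ?_, ?_⟩⟩
  · intro u k' hk' g
    rw [h.arch_right u k' hk' g]
    simp [T5.trivType]
  · intro u k' hk' g
    rw [h.arch_left u k' hk' g]
    simp [T5.trivType]

theorem IsPreT526.ltr {φ : G K → ℂ} (h : IsPreT526 𝔫 φ) {b : G K}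
    (hb : ∀ w : InfinitePlace K, TrivAtInf w b) : IsPreT526 𝔫 (H893.ltr b φ) where
  cont := h.cont.comp (continuous_const_mul b⁻¹)
  supp := h.supp.comp_homeomorph (Homeomorph.mulLeft b⁻¹)
  smooth := fun n fam h1 h2 g => by
    have := h.smooth n fam h1 h2 (b⁻¹ * g)
    simpa only [H893.ltr, mul_assoc] using this
  level_right := fun u hu g => by
    show φ (b⁻¹ * (g * u)) = φ (b⁻¹ * g)
    rw [← mul_assoc]
    exact h.level_right u hu _
  arch_right := fun w k hk g => by
    show φ (b⁻¹ * (g * k)) = φ (b⁻¹ * g)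
    rw [← mul_assoc]
    exact h.arch_right w k hk _
  arch_left := fun w k hk g => by
    show φ (b⁻¹ * (k * g)) = φ (b⁻¹ * g)
    have hc : b⁻¹ * k = k * b⁻¹ :=
      H311.commute_fin_inf311 (H311.trivAtInf_inv311 hb) hk.1.2
    rw [← mul_assoc, hc, mul_assoc]
    exact h.arch_left w k hk _

theorem IsPreT526.add {φ₁ φ₂ : G K → ℂ} (h₁ : IsPreT526 𝔫 φ₁) (h₂ : IsPreT526 𝔫 φ₂) :
    IsPreT526 𝔫 (fun y => φ₁ y + φ₂ y) where
  cont := h₁.cont.add h₂.cont
  supp := h₁.supp.add h₂.supp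
  smooth := fun n fam a1 a2 g => (h₁.smooth n fam a1 a2 g).add (h₂.smooth n fam a1 a2 g)
  level_right := fun u hu g => by
    show φ₁ (g * u) + φ₂ (g * u) = φ₁ g + φ₂ g
    rw [h₁.level_right u hu, h₂.level_right u hu]
  arch_right := fun w k hk g => by
    show φ₁ (g * k) + φ₂ (g * k) = φ₁ g + φ₂ g
    rw [h₁.arch_right w k hk, h₂.arch_right w k hk]
  arch_left := fun w k hk g => by
    show φ₁ (k * g) + φ₂ (k * g) = φ₁ g + φ₂ g
    rw [h₁.arch_left w k hk, h₂.arch_left w k hk]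

theorem IsPreT526.smul (c : ℂ) {φ : G K → ℂ} (h : IsPreT526 𝔫 φ) :
    IsPreT526 𝔫 (fun y => c * φ y) where
  cont := continuous_const.mul h.cont
  supp := h.supp.mul_left
  smooth := fun n fam a1 a2 g => contDiff_const.mul (h.smooth n fam a1 a2 g)
  level_right := fun u hu g => by
    show c * φ (g * u) = c * φ g
    rw [h.level_right u hu]
  arch_right := fun w k hk g => by
    show c * φ (g * k) = c * φ g
    rw [h.arch_right w k hk]
  arch_left := fun w k hk g => by
    show c * φ (k * g) = c * φ g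
    rw [h.arch_left w k hk]

theorem isPreT_zero526 : IsPreT526 𝔫 (fun _ : G K => (0 : ℂ)) where
  cont := continuous_const
  supp := HasCompactSupport.zero
  smooth := fun n fam a1 a2 g => contDiff_const
  level_right := fun u hu g => rfl
  arch_right := fun w k hk g => rfl
  arch_left := fun w k hk g => rfl

theorem isPreT_sum526 {ι : Type} (s : Finset ι) (f : ι → G K → ℂ)
    (h : ∀ i ∈ s, IsPreT526 𝔫 (f i)) : IsPreT526 𝔫 (fun y => ∑ i ∈ s, f i y) := by
  classical
  induction s using Finset.induction_on with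
  | empty =>
    simp only [Finset.sum_empty]
    exact isPreT_zero526
  | insert a s ha ih =>
    have h1 : (fun y => ∑ i ∈ insert a s, f i y) = fun y => f a y + ∑ i ∈ s, f i y := by
      funext y
      rw [Finset.sum_insert ha]
    rw [h1]
    exact (h a (Finset.mem_insert_self a s)).add
      (ih fun i hi => h i (Finset.mem_insert_of_mem hi))

theorem IsPreT526.lsum {φ : G K → ℂ} (hφ : IsPreT526 𝔫 φ) {H : Finset (G K)}
    (hH : ∀ h ∈ H, ∀ w : InfinitePlace K, TrivAtInf w h) : IsPreT526 𝔫 (H893.lsum H φ) :=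
  isPreT_sum526 H (fun h => H893.ltr h φ) fun h hh => hφ.ltr (hH h hh)

theorem IsPreT526.iwL {φ : G K → ℂ} (hφ : IsPreT526 𝔫 φ) (w : HeightOneSpectrum (𝓞 K))
    {H : Finset (G K)} (hH : ∀ h ∈ H, ∀ w : InfinitePlace K, TrivAtInf w h) :
    IsPreT526 𝔫 (H893.iwL w H φ) :=
  IsPreT526.smul _ (hφ.lsum hH)

theorem IsPreT526.iterate {φ : G K → ℂ} (hφ : IsPreT526 𝔫 φ) (w : HeightOneSpectrum (𝓞 K))
    {H : Finset (G K)} (hH : ∀ h ∈ H, ∀ w : InfinitePlace K, TrivAtInf w h) (m : ℕ) :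
    IsPreT526 𝔫 ((H893.iwL w H)^[m] φ) := by
  induction m with
  | zero => exact hφ
  | succ n ih =>
    rw [Function.iterate_succ_apply']
    exact ih.iwL w hH

theorem IsPreT526.regL {φ : G K → ℂ} (hφ : IsPreT526 𝔫 φ) (w : HeightOneSpectrum (𝓞 K))
    {H : Finset (G K)} (hH : ∀ h ∈ H, ∀ w : InfinitePlace K, TrivAtInf w h) {z : G K}
    (hz : ∀ w : InfinitePlace K, TrivAtInf w z) (k : ℤ) (m : ℕ) :
    IsPreT526 𝔫 (H893.regL w z H k m φ) :=
  (hφ.iterate w hH m).ltr (H311.trivAtInf_zpow311 hz k)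

/-! ## 6. Families with an average -/

section Fam

variable {Ω : Type} [TopologicalSpace Ω] [MeasurableSpace Ω]

/-- A jointly continuous family of functions with one compact support and its average. -/
structure IsFam526 (ν : Measure Ω) (P : Ω → G K → ℂ) (φ : G K → ℂ) : Prop where
  cont : Continuous (fun p : Ω × G K => P p.1 p.2)
  supp : ∃ C : Set (G K), IsCompact C ∧ ∀ (a : Ω) (h : G K), P a h ≠ 0 → h ∈ C
  int : ∀ h : G K, φ h = ∫ a, P a h ∂ν

variable {ν : Measure Ω} [CompactSpace Ω] [BorelSpace Ω] [IsFiniteMeasure ν]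

theorem IsFam526.integrable {P : Ω → G K → ℂ} {φ : G K → ℂ} (h : IsFam526 ν P φ) (y : G K) :
    Integrable (fun a => P a y) ν := by
  have hc : Continuous (fun a => P a y) :=
    h.cont.comp (continuous_id.prodMk continuous_const)
  exact hc.integrable_of_hasCompactSupport (HasCompactSupport.of_compactSpace _)

theorem IsFam526.ltr {P : Ω → G K → ℂ} {φ : G K → ℂ} (h : IsFam526 ν P φ) (b : G K) :
    IsFam526 ν (fun a => H893.ltr b (P a)) (H893.ltr b φ) where
  cont := h.cont.comp (continuous_fst.prodMk ((continuous_const_mul b⁻¹).comp continuous_snd))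
  supp := by
    obtain ⟨C, hC, hsupp⟩ := h.supp
    refine ⟨(fun y => b * y) '' C, hC.image (continuous_const_mul b), fun a y hy => ?_⟩
    exact ⟨b⁻¹ * y, hsupp a _ hy, mul_inv_cancel_left b y⟩
  int := fun y => h.int (b⁻¹ * y)

theorem IsFam526.add {P₁ P₂ : Ω → G K → ℂ} {φ₁ φ₂ : G K → ℂ} (h₁ : IsFam526 ν P₁ φ₁)
    (h₂ : IsFam526 ν P₂ φ₂) :
    IsFam526 ν (fun a y => P₁ a y + P₂ a y) (fun y => φ₁ y + φ₂ y) where
  cont := h₁.cont.add h₂.cont
  supp := by
    obtain ⟨C₁, hC₁, hs₁⟩ := h₁.supp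
    obtain ⟨C₂, hC₂, hs₂⟩ := h₂.supp
    refine ⟨C₁ ∪ C₂, hC₁.union hC₂, fun a y hy => ?_⟩
    by_cases h1 : P₁ a y = 0
    · refine Or.inr (hs₂ a y fun h2 => hy ?_)
      show P₁ a y + P₂ a y = 0
      rw [h1, h2, add_zero]
    · exact Or.inl (hs₁ a y h1)
  int := fun y => by
    show φ₁ y + φ₂ y = ∫ a, P₁ a y + P₂ a y ∂ν
    rw [integral_add (h₁.integrable y) (h₂.integrable y), h₁.int y, h₂.int y]

theorem IsFam526.smul (c : ℂ) {P : Ω → G K → ℂ} {φ : G K → ℂ} (h : IsFam526 ν P φ) :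
    IsFam526 ν (fun a y => c * P a y) (fun y => c * φ y) where
  cont := continuous_const.mul h.cont
  supp := by
    obtain ⟨C, hC, hs⟩ := h.supp
    refine ⟨C, hC, fun a y hy => hs a y fun h0 => hy ?_⟩
    show c * P a y = 0
    rw [h0, mul_zero]
  int := fun y => by
    show c * φ y = ∫ a, c * P a y ∂ν
    rw [integral_const_mul, h.int y]

theorem isFam_zero526 : IsFam526 ν (fun (_ : Ω) (_ : G K) => (0 : ℂ)) (fun _ => 0) where
  cont := continuous_const
  supp := ⟨∅, isCompact_empty, fun a y hy => absurd rfl hy⟩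
  int := fun y => by simp

theorem isFam_sum526 {ι : Type} (s : Finset ι) (P : ι → Ω → G K → ℂ) (φ : ι → G K → ℂ)
    (h : ∀ i ∈ s, IsFam526 ν (P i) (φ i)) :
    IsFam526 ν (fun a y => ∑ i ∈ s, P i a y) (fun y => ∑ i ∈ s, φ i y) := by
  classical
  induction s using Finset.induction_on with
  | empty =>
    simp only [Finset.sum_empty]
    exact isFam_zero526
  | insert i₀ s ha ih =>
    have h1 : (fun (a : Ω) (y : G K) => ∑ i ∈ insert i₀ s, P i a y)
        = fun a y => P i₀ a y + ∑ i ∈ s, P i a y := by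
      funext a y
      rw [Finset.sum_insert ha]
    have h2 : (fun y : G K => ∑ i ∈ insert i₀ s, φ i y) = fun y => φ i₀ y + ∑ i ∈ s, φ i y := by
      funext y
      rw [Finset.sum_insert ha]
    rw [h1, h2]
    exact (h i₀ (Finset.mem_insert_self i₀ s)).add
      (ih fun i hi => h i (Finset.mem_insert_of_mem hi))

theorem IsFam526.lsum {P : Ω → G K → ℂ} {φ : G K → ℂ} (h : IsFam526 ν P φ)
    (H : Finset (G K)) : IsFam526 ν (fun a => H893.lsum H (P a)) (H893.lsum H φ) :=
  isFam_sum526 H (fun b a => H893.ltr b (P a)) (fun b => H893.ltr b φ) fun b _ => h.ltr b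

theorem IsFam526.iwL {P : Ω → G K → ℂ} {φ : G K → ℂ} (h : IsFam526 ν P φ)
    (w : HeightOneSpectrum (𝓞 K)) (H : Finset (G K)) :
    IsFam526 ν (fun a => H893.iwL w H (P a)) (H893.iwL w H φ) :=
  IsFam526.smul _ (h.lsum H)

theorem IsFam526.iterate {P : Ω → G K → ℂ} {φ : G K → ℂ} (h : IsFam526 ν P φ)
    (w : HeightOneSpectrum (𝓞 K)) (H : Finset (G K)) (m : ℕ) :
    IsFam526 ν (fun a => (H893.iwL w H)^[m] (P a)) ((H893.iwL w H)^[m] φ) := by
  induction m with
  | zero => exact h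
  | succ n ih =>
    have e : (fun a => (H893.iwL w H)^[n + 1] (P a))
        = fun a => H893.iwL w H ((H893.iwL w H)^[n] (P a)) := by
      funext a
      rw [Function.iterate_succ_apply']
    rw [e, Function.iterate_succ_apply']
    exact ih.iwL w H

theorem IsFam526.regL {P : Ω → G K → ℂ} {φ : G K → ℂ} (h : IsFam526 ν P φ)
    (w : HeightOneSpectrum (𝓞 K)) (z : G K) (H : Finset (G K)) (k : ℤ) (m : ℕ) :
    IsFam526 ν (fun a => H893.regL w z H k m (P a)) (H893.regL w z H k m φ) :=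
  (h.iterate w H m).ltr (z ^ k)

end Fam

/-! ## 7. Linearity of the regular member -/

theorem iwL_smul526 (w : HeightOneSpectrum (𝓞 K)) (H : Finset (G K)) (c : ℂ) (φ : G K → ℂ) :
    H893.iwL w H (fun y => c * φ y) = fun y => c * H893.iwL w H φ y := by
  funext y
  show _ * ∑ h ∈ H, c * φ (h⁻¹ * y) = c * (_ * ∑ h ∈ H, φ (h⁻¹ * y))
  rw [← Finset.mul_sum]
  ring

theorem iwL_iter_smul526 (w : HeightOneSpectrum (𝓞 K)) (H : Finset (G K)) (c : ℂ)
    (φ : G K → ℂ) (m : ℕ) :
    (H893.iwL w H)^[m] (fun y => c * φ y) = fun y => c * (H893.iwL w H)^[m] φ y := by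
  induction m with
  | zero => rfl
  | succ n ih =>
    rw [Function.iterate_succ_apply', ih, iwL_smul526]
    funext y
    rw [Function.iterate_succ_apply']

theorem regL_smul526 (w : HeightOneSpectrum (𝓞 K)) (z : G K) (H : Finset (G K)) (k : ℤ)
    (m : ℕ) (c : ℂ) (φ : G K → ℂ) :
    H893.regL w z H k m (fun y => c * φ y) = fun y => c * H893.regL w z H k m φ y := by
  show H893.ltr (z ^ k) ((H893.iwL w H)^[m] (fun y => c * φ y)) = _
  rw [iwL_iter_smul526]
  rfl

end Fermat.Agent.LT.T7.H526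

end

end
-- ===== PACK-END LT/T7/H526/OpAvgTools.lean

-- ===== PACK-BEGIN LT/T7/H526/OpAvg.lean
section



/-!
# Row LT, tower T7, node T7.L2.1.H2b.G1 `OpAvgC51` (helper526, registry row 2881)

OFF-MAIN.  Complete proof, nothing assumed.  ADDITIVE (all names end in `526`).

    opAvgC526 (K K') : P51.OpAvgC51 K K'     VERBATIM, UNCONDITIONAL

Spec: `T7/P51/GlobProdSpec.lean` (helper51), byte-identical copy.

Proof.  Same parameter space, same measure, same sets of places, same components at infinity.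
Downstairs the component at `u` is replaced by `regLoc51 u z H k j 1_I` (`regL_pure_of526`: the
elements of the coset system and the scalar uniformiser are supported at `u`).  Upstairs the
component at `o 0` is replaced by `regLoc51 (o 0) z' H' k j 1_I`, then the unit components at
the bad places `S₀` (the places of `S'` which are not over `u`) by the double coset functions
of `g` (`H756.lsumDblC756`, PT.5 of helper563; the other components are left invariant under
the local groups of the base level: Iwahori functions along the orbit, the regular Iwahori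
function at `o 0` (`regLoc_left_inv526`), spherical functions outside the level).  The members
are test functions: left translates by elements which are trivial at infinity
(`IsPreT526`), and the pure tensors are left invariant under the level groups
(`pure_left_inv526`).  Joint continuity, the compact supports and the integral formulas:
finite sums of left translates (`IsFam526`).
-/

set_option autoImplicit false
set_option linter.unusedSectionVars false
set_option linter.unusedVariables false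

open IsDedekindDomain NumberField MeasureTheory

noncomputable section

namespace Fermat.Agent.LT.T7.H526

open Fermat.Agent.LT.H556 Fermat.Agent.LT.H556.A0 Fermat.Agent.LT.T7
open Fermat.Agent.LT.T7.H305 Fermat.Agent.LT.T7.H893 Fermat.Agent.LT.T7.P51 Fermat.Agent.LT.H129
open Fermat.Agent.LT

attribute [local instance] Fermat.Agent.LT.T5.instMeasurableSpaceG

variable {K K' : Type} [Field K] [NumberField K] [Field K'] [NumberField K'] [Algebra K K']

/-! ## 1. Places and levels -/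

/-- A place over a place which divides `𝔫` divides `𝔫 𝒪_{K'}`. -/
theorem dvd_upI_of_over526 {𝔫 : Ideal (𝓞 K)} {v : HeightOneSpectrum (𝓞 K)}
    {w : HeightOneSpectrum (𝓞 K')} (h : PlaceOver K K' v w) (hv : v.asIdeal ∣ 𝔫) :
    w.asIdeal ∣ upI (K' := K') 𝔫 := by
  rw [Ideal.dvd_iff_le]
  show Ideal.map (algebraMap (𝓞 K) (𝓞 K')) 𝔫 ≤ w.asIdeal
  rw [Ideal.map_le_iff_le_comap]
  intro x hx
  rw [Ideal.mem_comap]
  exact (h x (algebraMap (𝓞 K) (𝓞 K') x) rfl).1 (Ideal.le_of_dvd hv hx)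

/-- The place under a place which divides `𝔫 𝒪_{K'}` divides `𝔫`. -/
theorem dvd_of_over_upI526 {𝔫 : Ideal (𝓞 K)} {v : HeightOneSpectrum (𝓞 K)}
    {w : HeightOneSpectrum (𝓞 K')} (h : PlaceOver K K' v w)
    (hw : w.asIdeal ∣ upI (K' := K') 𝔫) : v.asIdeal ∣ 𝔫 := by
  rw [Ideal.dvd_iff_le]
  intro x hx
  have hx' : algebraMap (𝓞 K) (𝓞 K') x ∈ w.asIdeal :=
    Ideal.le_of_dvd hw (Ideal.mem_map_of_mem (algebraMap (𝓞 K) (𝓞 K')) hx)
  exact (h x (algebraMap (𝓞 K) (𝓞 K') x) rfl).2 hx'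

theorem upI_ne_bot526 {𝔫 : Ideal (𝓞 K)} (h : 𝔫 ≠ ⊥) : upI (K' := K') 𝔫 ≠ ⊥ := by
  intro h0
  apply h
  exact (Ideal.map_eq_bot_iff_of_injective
    (NumberField.RingOfIntegers.algebraMap.injective K K')).1 h0

/-- The members of a double coset system of an element which is trivial at infinity are trivial
at infinity. -/
theorem trivAtInf_of_dbl526 {F : Type} [Field F] [NumberField F] {𝔑 : Ideal (𝓞 F)} {g : G F}
    {Hg : Finset (G F)} (hsys : IsDblCosetSystem 𝔑 g Hg)
    (hg : ∀ w : InfinitePlace F, TrivAtInf w g) :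
    ∀ h ∈ Hg, ∀ w : InfinitePlace F, TrivAtInf w h := by
  intro h hh w
  obtain ⟨u₁, u₂, hu₁, hu₂, rfl⟩ := hsys.1 h hh
  rw [H756.trivAtInf_iff_infGL756, map_mul, map_mul,
    (H756.trivAtInf_iff_infGL756 w u₁).1 (hu₁.1 w),
    (H756.trivAtInf_iff_infGL756 w u₂).1 (hu₂.1 w),
    (H756.trivAtInf_iff_infGL756 w g).1 (hg w), one_mul, one_mul]

/-! ## 2. The node -/

/-- **NODE T7.L2.1.H2b.G1 `OpAvgC51`.** -/
theorem opAvgC526 (K K' : Type) [Field K] [NumberField K] [Field K'] [NumberField K']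
    [Algebra K K'] : P51.OpAvgC51 K K' := by
  classical
  intro ℓ Φ B g 𝔫 μc T₀ n n₀ m hctx c₀ hc₀ E hE hOp hA k j
  subst hE
  obtain ⟨Ω, tΩ, cΩ, t2Ω, scΩ, mΩ, bΩ, ν, fν, T, T', φ₀, Φ', f₀, F, h1, h2, h3, h4, h5, h6, h7,
    h8, h9⟩ := hA
  have hbase := hctx.base
  have hu_T₀ : B.u ∈ T₀ := (hctx.mem_T₀ B.u).2 hOp.u_level
  have ho0_dvd : (B.o 0).asIdeal ∣ B.𝔑₀ := (hbase.mem_S' _).1 (hbase.orbit_level 0)
  have h𝔑₀ : B.𝔑₀ ≠ ⊥ := by
    intro h0
    have hle := hOp.level_g
    rw [h0, le_bot_iff] at hle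
    exact upI_ne_bot526 hOp.level_ne hle
  -- the bad places
  let S₀ : Finset (HeightOneSpectrum (𝓞 K')) :=
    B.S'.filter (fun w => ¬ PlaceOver K K' B.u w)
  have hS₀ : ∀ w : HeightOneSpectrum (𝓞 K'), w ∈ S₀ ↔ w ∈ B.S' ∧ ¬ PlaceOver K K' B.u w :=
    fun w => Finset.mem_filter
  have hP1 : ∀ v ∈ T₀, v ≠ B.u → ∀ w : HeightOneSpectrum (𝓞 K'), PlaceOver K K' v w →
      w ∈ S₀ := by
    intro v hv hvu w hw
    refine (hS₀ w).2 ⟨(hOp.mem_S'_g w).2 (dvd_upI_of_over526 hw ((hctx.mem_T₀ v).1 hv)),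
      fun huw => hvu (H557.placeOver_unique_557 hw huw)⟩
  have hP2 : ∀ w ∈ S₀, ∃ v ∈ T₀, v ≠ B.u ∧ PlaceOver K K' v w := by
    intro w hw
    obtain ⟨hwS, hwu⟩ := (hS₀ w).1 hw
    have hov : PlaceOver K K' (w.under (𝓞 K)) w := H29.placeOver_under w
    refine ⟨w.under (𝓞 K), (hctx.mem_T₀ _).2 (dvd_of_over_upI526 hov ((hOp.mem_S'_g w).1 hwS)),
      fun e => hwu (e ▸ hov), hov⟩
  have hP3 : B.o 0 ∉ S₀ := fun h => ((hS₀ _).1 h).2 (hbase.orbit_over 0)
  -- the new components
  let ρ' : GL (Fin 2) ((B.o 0).adicCompletion K') → ℂ :=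
    regLoc51 (B.o 0) E.z' E.H' k j iwFn893
  let ρ : GL (Fin 2) (B.u.adicCompletion K) → ℂ := regLoc51 B.u E.z E.H k j iwFn893
  let φ₁ : Ω → ∀ w : HeightOneSpectrum (𝓞 K'), GL (Fin 2) (w.adicCompletion K') → ℂ :=
    fun a => Function.update (φ₀ a) (B.o 0) ρ'
  let φ₀' : Ω → ∀ w : HeightOneSpectrum (𝓞 K'), GL (Fin 2) (w.adicCompletion K') → ℂ :=
    fun a w => if w ∈ S₀ then dblFn893 (n₀ w) (finGL305 w g) else φ₁ a w
  let f₀' : Ω → ∀ v : HeightOneSpectrum (𝓞 K), GL (Fin 2) (v.adicCompletion K) → ℂ :=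
    fun a => Function.update (f₀ a) B.u ρ
  have hφ₀'_pos : ∀ (a : Ω) (w : HeightOneSpectrum (𝓞 K')), w ∈ S₀ →
      φ₀' a w = dblFn893 (n₀ w) (finGL305 w g) := fun a w h => if_pos h
  have hφ₀'_neg : ∀ (a : Ω) (w : HeightOneSpectrum (𝓞 K')), w ∉ S₀ → φ₀' a w = φ₁ a w :=
    fun a w h => if_neg h
  have hφ₁_0 : ∀ a : Ω, φ₁ a (B.o 0) = ρ' := fun a => Function.update_self _ _ _
  have hφ₁_ne : ∀ (a : Ω) (w : HeightOneSpectrum (𝓞 K')), w ≠ B.o 0 → φ₁ a w = φ₀ a w :=
    fun a w h => Function.update_of_ne h _ _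
  have hf₀'_u : ∀ a : Ω, f₀' a B.u = ρ := fun a => Function.update_self _ _ _
  have hf₀'_ne : ∀ (a : Ω) (v : HeightOneSpectrum (𝓞 K)), v ≠ B.u → f₀' a v = f₀ a v :=
    fun a v h => Function.update_of_ne h _ _
  -- the coset systems are trivial at infinity
  have hH'inf : ∀ h ∈ E.H', ∀ w : InfinitePlace K', TrivAtInf w h :=
    fun h hh => (hOp.sys'.2.1 h hh).1.1
  have hHinf : ∀ h ∈ E.H, ∀ w : InfinitePlace K, TrivAtInf w h :=
    fun h hh => (hOp.sys.2.1 h hh).1.1
  have hHginf : ∀ h ∈ E.Hg, ∀ w : InfinitePlace K', TrivAtInf w h :=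
    trivAtInf_of_dbl526 hOp.sysg hctx.bad.1
  -- the left invariance of the components upstairs outside the bad places
  have hinvU : ∀ (a : Ω), ∀ v ∈ T' a, v ∉ S₀ →
      ∀ u x : GL (Fin 2) (v.adicCompletion K'), T6.InU (n₀ v) u →
        φ₁ a v (u * x) = φ₁ a v x := by
    intro a v hvT hvS u x hu
    obtain ⟨hT₀T, hover, hLH, hunit, hfu, hφu, hsph, harch⟩ := h1 a
    obtain ⟨v₀, hv₀T, hv₀v⟩ := (hover v).1 hvT
    by_cases hv0 : v = B.o 0
    · subst hv0
      rw [hφ₁_0 a]
      exact regLoc_left_inv526 hOp.sys' hOp.unif' k j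
        (inIw_of_inU526 hctx.lev_n₀ ho0_dvd hu) x
    · rw [hφ₁_ne a v hv0]
      by_cases hv₀ : v₀ ∈ T₀
      · have hvS' : v ∈ B.S' :=
          (hOp.mem_S'_g v).2 (dvd_upI_of_over526 hv₀v ((hctx.mem_T₀ v₀).1 hv₀))
        have hvu : PlaceOver K K' B.u v := by
          by_contra hcon
          exact hvS ((hS₀ v).2 ⟨hvS', hcon⟩)
        rw [hφu v hvu]
        exact iwFn_left526 (inIw_of_inU526 hctx.lev_n₀ ((hbase.mem_S' v).1 hvS') hu) x
      · obtain ⟨A, Av, -, hA, -, -⟩ := hsph v₀ hv₀T hv₀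
        exact sph_left526 (hA v hv₀v) (H756.inU_zero_of_inU756 hu) x
  -- the operated pure tensors
  have hU : ∀ a : Ω, lsum E.Hg (regL (B.o 0) E.z' E.H' k j (pure305 (T' a) (φ₀ a) (Φ' a)))
      = pure305 (T' a) (φ₀' a) (Φ' a) := by
    intro a
    obtain ⟨hT₀T, hover, hLH, hunit, hfu, hφu, hsph, harch⟩ := h1 a
    have ho0T : B.o 0 ∈ T' a := (hover (B.o 0)).2 ⟨B.u, hT₀T hu_T₀, hbase.orbit_over 0⟩
    have hreg := regL_pure_of526 ho0T (φ₀ a) (Φ' a) (ψ := iwFn893)
      (hφu (B.o 0) (hbase.orbit_over 0)) (fun h hh => (hOp.sys'.2.1 h hh).1) hOp.unif'.1 k j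
    rw [hreg]
    funext y
    have hgfin : ∀ v : HeightOneSpectrum (𝓞 K'), v ∉ S₀ → TrivAtFin v g := by
      intro v hv
      refine hctx.bad.2 v ?_
      by_cases hvS : v ∈ B.S'
      · right
        have hvu : PlaceOver K K' B.u v := by
          by_contra hcon
          exact hv ((hS₀ v).2 ⟨hvS, hcon⟩)
        obtain ⟨i, hi, e⟩ := hbase.orbit_all v hvu
        exact ⟨i, hbase.deg ▸ hi, e⟩
      · exact Or.inl hvS
    have hS₀T : S₀ ⊆ T' a := by
      intro w hw
      obtain ⟨v, hv, -, hvw⟩ := hP2 w hw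
      exact (hover w).2 ⟨v, hT₀T hv, hvw⟩
    have hunit' : ∀ v ∈ S₀, φ₁ a v = unitFn893 (n₀ v) := by
      intro v hv
      obtain ⟨v₀, hv₀, hne, hv₀v⟩ := hP2 v hv
      rw [hφ₁_ne a v (fun e => hP3 (e ▸ hv))]
      exact hunit v₀ hv₀ hne v hv₀v
    exact H756.lsumDblC756 K' B.𝔑₀ n₀ h𝔑₀ hctx.lev_n₀ g S₀ hctx.bad.1 hgfin E.Hg hOp.sysg
      (T' a) hS₀T (φ₁ a) (Φ' a) hunit' (hinvU a) y
  have hD : ∀ a : Ω, regL B.u E.z E.H k j (fun h => c₀ * pure305 (T a) (f₀ a) (F a) h)
      = fun h => c₀ * pure305 (T a) (f₀' a) (F a) h := by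
    intro a
    obtain ⟨hT₀T, hover, hLH, hunit, hfu, hφu, hsph, harch⟩ := h1 a
    rw [regL_smul526, regL_pure_of526 (hT₀T hu_T₀) (f₀ a) (F a) (ψ := iwFn893) hfu
      (fun h hh => (hOp.sys.2.1 h hh).1) hOp.unif.1 k j]
  -- the families
  have hfamU : IsFam526 ν (fun a => pure305 (T' a) (φ₀' a) (Φ' a))
      (lsum E.Hg (regL (B.o 0) E.z' E.H' k j E.φ₂)) := by
    have hfam : IsFam526 ν (fun a => pure305 (T' a) (φ₀ a) (Φ' a)) E.φ₂ := ⟨h4, h6, h8⟩
    have hfam' := (hfam.regL (B.o 0) E.z' E.H' k j).lsum E.Hg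
    have e : (fun a => lsum E.Hg (regL (B.o 0) E.z' E.H' k j (pure305 (T' a) (φ₀ a) (Φ' a))))
        = fun a => pure305 (T' a) (φ₀' a) (Φ' a) := funext hU
    rwa [e] at hfam'
  have hfamD : IsFam526 ν (fun a h => c₀ * pure305 (T a) (f₀' a) (F a) h)
      (regL B.u E.z E.H k j E.f₂) := by
    obtain ⟨C, hC, hC'⟩ := h7
    have hfam : IsFam526 ν (fun a h => c₀ * pure305 (T a) (f₀ a) (F a) h) E.f₂ :=
      ⟨h5, ⟨C, hC, fun a h hne => hC' a h (right_ne_zero_of_mul hne)⟩, h9⟩
    have hfam' := hfam.regL B.u E.z E.H k j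
    have e : (fun a => regL B.u E.z E.H k j (fun h => c₀ * pure305 (T a) (f₀ a) (F a) h))
        = fun a h => c₀ * pure305 (T a) (f₀' a) (F a) h := funext hD
    rwa [e] at hfam'
  refine ⟨Ω, tΩ, cΩ, t2Ω, scΩ, mΩ, bΩ, ν, fν, T, T', φ₀', Φ', f₀', F, ?_, ?_, ?_,
    hfamU.cont, hfamD.cont, hfamU.supp, ?_, hfamU.int, hfamD.int⟩
  · -- the local shape
    intro a
    obtain ⟨hT₀T, hover, hLB⟩ := h1 a
    obtain ⟨hLH, hunit, hfu, hφu, hsph, harch⟩ := hLB
    refine ⟨hT₀T, hover, φ₀ a, f₀ a, ⟨hLH, hunit, hfu, hφu, hsph, harch⟩, ?_, hf₀'_u a, ?_, ?_,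
      ?_⟩
    · intro v hv hvu
      exact ⟨hf₀'_ne a v hvu, fun w hw => hφ₀'_pos a w (hP1 v hv hvu w hw)⟩
    · rw [hφ₀'_neg a _ hP3]
      exact hφ₁_0 a
    · intro i hi hil
      have hne : B.o i ≠ B.o 0 := hbase.orbit_ne i hi (hbase.deg ▸ hil)
      have hnS : B.o i ∉ S₀ := fun h => ((hS₀ _).1 h).2 (hbase.orbit_over i)
      rw [hφ₀'_neg a _ hnS, hφ₁_ne a _ hne]
      exact hφu (B.o i) (hbase.orbit_over i)
    · intro v hv hvT₀
      have hvu : v ≠ B.u := fun e => hvT₀ (e ▸ hu_T₀)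
      refine ⟨hf₀'_ne a v hvu, fun w hw => ?_⟩
      have hnS : w ∉ S₀ := by
        intro h
        obtain ⟨v', hv', -, hv'w⟩ := hP2 w h
        exact hvT₀ ((H557.placeOver_unique_557 hw hv'w) ▸ hv')
      have hne : w ≠ B.o 0 := by
        intro e
        apply hvu
        exact H557.placeOver_unique_557 hw (e ▸ hbase.orbit_over 0)
      rw [hφ₀'_neg a w hnS, hφ₁_ne a w hne]
  · -- the members upstairs are test functions
    intro a
    have hpre := ((isPreT_of_test526 (h2 a)).regL (B.o 0) hH'inf hOp.unif'.1.1 k j).lsum hHginf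
    rw [hU a] at hpre
    refine hpre.to_test fun x hx y => ?_
    have hx₀ : InLevelGroup B.𝔑₀ x := inLevelGroup_mono526 hOp.level_g hx
    obtain ⟨hxinf, hxU⟩ := (H756.inLevelGroup_iff_inU756 hctx.lev_n₀ x).1 hx₀
    refine pure_left_inv526 (T' a) (φ₀' a) (Φ' a) x hxinf
      (fun v _ => H756.inU_zero_of_inU756 (hxU v)) (fun v hv y' => ?_) y
    by_cases hvS : v ∈ S₀
    · rw [hφ₀'_pos a v hvS]
      exact dblFn_left526 (n₀ v) _ (hxU v) y'
    · rw [hφ₀'_neg a v hvS]
      exact hinvU a v hv hvS _ y' (hxU v)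
  · -- the members downstairs are test functions
    intro a
    obtain ⟨hT₀T, hover, hLH, hunit, hfu, hφu, hsph, harch⟩ := h1 a
    have hpre := (isPreT_of_test526 (h3 a)).regL B.u hHinf hOp.unif.1.1 k j
    rw [hD a] at hpre
    refine hpre.to_test fun x hx y => ?_
    obtain ⟨hxinf, hxU⟩ := (H756.inLevelGroup_iff_inU756 hctx.lev_m x).1 hx
    show c₀ * pure305 (T a) (f₀' a) (F a) (x * y) = c₀ * pure305 (T a) (f₀' a) (F a) y
    congr 1
    refine pure_left_inv526 (T a) (f₀' a) (F a) x hxinf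
      (fun v _ => H756.inU_zero_of_inU756 (hxU v)) (fun v hv y' => ?_) y
    by_cases hvu : v = B.u
    · subst hvu
      rw [hf₀'_u a]
      exact regLoc_left_inv526 hOp.sys hOp.unif k j
        (inIw_of_inU526 hctx.lev_m hOp.u_level (hxU _)) y'
    · rw [hf₀'_ne a v hvu]
      by_cases hvT₀ : v ∈ T₀
      · have hbi := (hLH.inv_down v (Finset.mem_erase.2 ⟨hvu, hvT₀⟩)).1
        have := hbi (finGL305 v x) 1 y' (hxU v) (T6.H777.inU_one777 _)
        rwa [mul_one] at this
      · obtain ⟨A, Av, hAv, -, -, -⟩ := hsph v hv hvT₀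
        exact sph_left526 hAv (H756.inU_zero_of_inU756 (hxU v)) y'
  · -- the compact support downstairs
    obtain ⟨C, hC, hs⟩ := hfamD.supp
    exact ⟨C, hC, fun a h hne => hs a h (mul_ne_zero hc₀ hne)⟩

example (K K' : Type) [Field K] [NumberField K] [Field K'] [NumberField K'] [Algebra K K'] :
    P51.OpAvgC51 K K' := opAvgC526 K K'

end Fermat.Agent.LT.T7.H526

end

end
-- ===== PACK-END LT/T7/H526/OpAvg.lean

-- ===== PACK-BEGIN LT/T7/H309/Dn2W.lean
section








/-!
# Row LT, tower T7, leaf T7.L2.1.H2a.4.5 `Dn2C970` (helper309): THE CORE `W`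

OFF-MAIN.  Complete proofs, nothing assumed.  `W = wsum970 s β (F₁ [])`:

* `pure_left309`, `pure_right309`: invariance of a pure tensor from the invariance of its
  components;
* `member_inv309`: the pure tensors with the replaced components `repDn970` are bi-invariant
  under the elements of `H = I_u · U(𝔫)` (`IsHElt309`);
* `wsum_eq_avg309`: `W y = ∫ pure305 (T ω) (repDn970 B T₀ b (f₀ ω)) (F ω) y dν`;
* `wsum_inv309`: `W` is bi-invariant under `H`; `wsum_iw309`: `W y ≠ 0 → InIwahori u y`;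
* `wsum_pre309`: `W` is `H311.IsPre311`; `wsum_test309`: `W` is a test function.
-/

set_option autoImplicit false
set_option linter.unusedSectionVars false

open AutomorphicForm IsDedekindDomain NumberField MeasureTheory
open scoped ComplexConjugate

noncomputable section

namespace Fermat.Agent.LT.T7.H309.Dn2

open Fermat.Agent.LT.H556 Fermat.Agent.LT.H556.A0 Fermat.Agent.LT.T7
open Fermat.Agent.LT.T7.H305 Fermat.Agent.LT.T7.H893 Fermat.Agent.LT.T7.B981
open Fermat.Agent.LT.T7.B970 Fermat.Agent.LT.T7.H756 Fermat.Agent.LT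

attribute [local instance] Fermat.Agent.LT.T5.instMeasurableSpaceG

/-! ## 1. One field: invariance of pure tensors -/

section OneField

variable {K : Type} [Field K] [NumberField K]

theorem outT_mul_left309 {T : Finset (HeightOneSpectrum (𝓞 K))} {h : G K}
    (hh : ∀ v : HeightOneSpectrum (𝓞 K), v ∉ T → T6.InU 0 (finGL305 v h)) (y : G K) :
    OutT305 T (h * y) ↔ OutT305 T y := by
  rw [outT_iff756, outT_iff756]
  refine forall_congr' fun v => forall_congr' fun hv => ?_
  rw [map_mul]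
  constructor
  · intro h1
    have := T6.H777.inU_mul777 (T6.H777.inU_inv777 (hh v hv)) h1
    rwa [inv_mul_cancel_left] at this
  · intro h1
    exact T6.H777.inU_mul777 (hh v hv) h1

theorem outT_mul_right309 {T : Finset (HeightOneSpectrum (𝓞 K))} {h : G K}
    (hh : ∀ v : HeightOneSpectrum (𝓞 K), v ∉ T → T6.InU 0 (finGL305 v h)) (y : G K) :
    OutT305 T (y * h) ↔ OutT305 T y := by
  rw [outT_iff756, outT_iff756]
  refine forall_congr' fun v => forall_congr' fun hv => ?_
  rw [map_mul]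
  constructor
  · intro h1
    have := T6.H777.inU_mul777 h1 (T6.H777.inU_inv777 (hh v hv))
    rwa [mul_inv_cancel_right] at this
  · intro h1
    exact T6.H777.inU_mul777 h1 (hh v hv)

open Classical in
theorem pure_eq309 (T : Finset (HeightOneSpectrum (𝓞 K)))
    (g₀ : ∀ v : HeightOneSpectrum (𝓞 K), GL (Fin 2) (v.adicCompletion K) → ℂ)
    (F : InfinitePlace K → GL (Fin 2) ℂ → ℂ) (z : G K) :
    pure305 T g₀ F z = if OutT305 T z then
      (∏ v ∈ T, g₀ v (finGL305 v z)) * ∏ w : InfinitePlace K, F w (infGL305 w z) else 0 :=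
  rfl

/-- Invariance of a pure tensor on the left. -/
theorem pure_left309 {T : Finset (HeightOneSpectrum (𝓞 K))}
    {g₀ : ∀ v : HeightOneSpectrum (𝓞 K), GL (Fin 2) (v.adicCompletion K) → ℂ}
    {F : InfinitePlace K → GL (Fin 2) ℂ → ℂ} {h : G K}
    (hinf : ∀ w : InfinitePlace K, infGL305 w h = 1)
    (hout : ∀ v : HeightOneSpectrum (𝓞 K), v ∉ T → T6.InU 0 (finGL305 v h)) (y : G K)
    (hin : ∀ v ∈ T, g₀ v (finGL305 v (h * y)) = g₀ v (finGL305 v y)) :
    pure305 T g₀ F (h * y) = pure305 T g₀ F y := by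
  classical
  have e1 := outT_mul_left309 hout y
  rw [pure_eq309, pure_eq309]
  by_cases hy : OutT305 T y
  · rw [if_pos hy, if_pos (e1.2 hy)]
    congr 1
    · exact Finset.prod_congr rfl fun v hv => hin v hv
    · refine Finset.prod_congr rfl fun w _ => ?_
      rw [map_mul, hinf w, one_mul]
  · rw [if_neg hy, if_neg (fun h' => hy (e1.1 h'))]

/-- Invariance of a pure tensor on the right. -/
theorem pure_right309 {T : Finset (HeightOneSpectrum (𝓞 K))}
    {g₀ : ∀ v : HeightOneSpectrum (𝓞 K), GL (Fin 2) (v.adicCompletion K) → ℂ}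
    {F : InfinitePlace K → GL (Fin 2) ℂ → ℂ} {h : G K}
    (hinf : ∀ w : InfinitePlace K, infGL305 w h = 1)
    (hout : ∀ v : HeightOneSpectrum (𝓞 K), v ∉ T → T6.InU 0 (finGL305 v h)) (y : G K)
    (hin : ∀ v ∈ T, g₀ v (finGL305 v (y * h)) = g₀ v (finGL305 v y)) :
    pure305 T g₀ F (y * h) = pure305 T g₀ F y := by
  classical
  have e1 := outT_mul_right309 hout y
  rw [pure_eq309, pure_eq309]
  by_cases hy : OutT305 T y
  · rw [if_pos hy, if_pos (e1.2 hy)]
    congr 1
    · exact Finset.prod_congr rfl fun v hv => hin v hv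
    · refine Finset.prod_congr rfl fun w _ => ?_
      rw [map_mul, hinf w, mul_one]
  · rw [if_neg hy, if_neg (fun h' => hy (e1.1 h'))]

/-- A pure tensor which does not vanish at `y`: `y` is outside `T` integral and no component
vanishes. -/
theorem pure_ne_zero309 {T : Finset (HeightOneSpectrum (𝓞 K))}
    {g₀ : ∀ v : HeightOneSpectrum (𝓞 K), GL (Fin 2) (v.adicCompletion K) → ℂ}
    {F : InfinitePlace K → GL (Fin 2) ℂ → ℂ} {y : G K} (h : pure305 T g₀ F y ≠ 0) :
    ∀ v ∈ T, g₀ v (finGL305 v y) ≠ 0 := by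
  classical
  rw [pure_eq309] at h
  by_cases hy : OutT305 T y
  · rw [if_pos hy] at h
    intro v hv h0
    exact h (by rw [Finset.prod_eq_zero hv h0, zero_mul])
  · rw [if_neg hy] at h
    exact absurd rfl h

/-- The local Iwahori predicate at the component is the adelic one. -/
theorem inIw_finGL_iff309 (v : HeightOneSpectrum (𝓞 K)) (z : G K) :
    InIw893 (finGL305 v z) ↔ T5.InIwahori v z := by
  have e : (((finGL305 v z)⁻¹ : GL (Fin 2) (v.adicCompletion K)) :
      Matrix (Fin 2) (Fin 2) (v.adicCompletion K)) = finComp v z⁻¹ := coe_finGL_inv756 v z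
  constructor
  · rintro ⟨h1, h2, h3⟩
    refine ⟨fun i j => ?_, fun i j => ?_, h3⟩
    · exact (HeightOneSpectrum.mem_adicCompletionIntegers _ _ _).2 (h1 i j)
    · have := h2 i j
      rw [e] at this
      exact (HeightOneSpectrum.mem_adicCompletionIntegers _ _ _).2 this
  · rintro ⟨h1, h2, h3⟩
    refine ⟨fun i j => ?_, fun i j => ?_, h3⟩
    · exact (HeightOneSpectrum.mem_adicCompletionIntegers _ _ _).1 (h1 i j)
    · rw [e]
      exact (HeightOneSpectrum.mem_adicCompletionIntegers _ _ _).1 (h2 i j)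

open Classical in
theorem iwFn_eq309 (v : HeightOneSpectrum (𝓞 K)) (z : G K) :
    iwFn893 (finGL305 v z) = if T5.InIwahori v z then (1 : ℂ) else 0 := by
  show (if InIw893 (finGL305 v z) then (1 : ℂ) else 0) = _
  by_cases h : T5.InIwahori v z
  · rw [if_pos h, if_pos ((inIw_finGL_iff309 v z).2 h)]
  · rw [if_neg h, if_neg (fun h' => h ((inIw_finGL_iff309 v z).1 h'))]

theorem inIwahori_mul_left_iff309 {v : HeightOneSpectrum (𝓞 K)} {h : G K}
    (hh : T5.InIwahori v h) (y : G K) : T5.InIwahori v (h * y) ↔ T5.InIwahori v y := by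
  constructor
  · intro h1
    have := H16.inIwahori_mul16 v (H16.inIwahori_inv16 v hh) h1
    rwa [inv_mul_cancel_left] at this
  · intro h1
    exact H16.inIwahori_mul16 v hh h1

theorem inIwahori_mul_right_iff309 {v : HeightOneSpectrum (𝓞 K)} {h : G K}
    (hh : T5.InIwahori v h) (y : G K) : T5.InIwahori v (y * h) ↔ T5.InIwahori v y := by
  constructor
  · intro h1
    have := H16.inIwahori_mul16 v h1 (H16.inIwahori_inv16 v hh)
    rwa [mul_inv_cancel_right] at this
  · intro h1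
    exact H16.inIwahori_mul16 v h1 hh

theorem iwFn_left309 {v : HeightOneSpectrum (𝓞 K)} {h : G K} (hh : T5.InIwahori v h)
    (y : G K) : iwFn893 (finGL305 v (h * y)) = iwFn893 (finGL305 v y) := by
  classical
  rw [iwFn_eq309, iwFn_eq309]
  exact if_congr (inIwahori_mul_left_iff309 hh y) rfl rfl

theorem iwFn_right309 {v : HeightOneSpectrum (𝓞 K)} {h : G K} (hh : T5.InIwahori v h)
    (y : G K) : iwFn893 (finGL305 v (y * h)) = iwFn893 (finGL305 v y) := by
  classical
  rw [iwFn_eq309, iwFn_eq309]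
  exact if_congr (inIwahori_mul_right_iff309 hh y) rfl rfl

end OneField


/-! ## 2. The members with the replaced components -/

section TwoFields

variable {K K' : Type} [Field K] [NumberField K] [Field K'] [NumberField K'] [Algebra K K']

/-- The elements of `H = I_u · U(𝔫)` (and more: any element which is trivial at infinity,
Iwahori at `u` and in `U(m v)` at the other places). -/
structure IsHElt309 (B : L2Base K K') (m : HeightOneSpectrum (𝓞 K) → ℕ) (h : G K) : Prop where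
  inf : ∀ w : InfinitePlace K, infGL305 w h = 1
  iw : T5.InIwahori B.u h
  out : ∀ v : HeightOneSpectrum (𝓞 K), v ≠ B.u → T6.InU (m v) (finGL305 v h)

open Classical in
/-- The hypotheses on the components downstairs. -/
structure IsDnShape309 (B : L2Base K K') (T₀ T : Finset (HeightOneSpectrum (𝓞 K)))
    (m : HeightOneSpectrum (𝓞 K) → ℕ)
    (b f₀ : ∀ v : HeightOneSpectrum (𝓞 K), GL (Fin 2) (v.adicCompletion K) → ℂ) : Prop where
  sub : T₀ ⊆ T
  u_mem : B.u ∈ T₀
  binv : ∀ v ∈ T₀.erase B.u, T6.IsBiInv (T6.InU (m v)) (b v)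
  sph : ∀ v ∈ T, v ∉ T₀ → ∃ Av : (ℤ × ℤ) →₀ ℂ, IsSphFn893 (f₀ v) Av

open Classical in
theorem repDn_eq309 (B : L2Base K K') (T₀ : Finset (HeightOneSpectrum (𝓞 K)))
    (b f₀ : ∀ v : HeightOneSpectrum (𝓞 K), GL (Fin 2) (v.adicCompletion K) → ℂ)
    (v : HeightOneSpectrum (𝓞 K)) :
    repDn970 B T₀ b f₀ v = if v = B.u then iwFn893 else if v ∈ T₀ then b v else f₀ v :=
  rfl

theorem repDn_u309 (B : L2Base K K') (T₀ : Finset (HeightOneSpectrum (𝓞 K)))
    (b f₀ : ∀ v : HeightOneSpectrum (𝓞 K), GL (Fin 2) (v.adicCompletion K) → ℂ) :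
    repDn970 B T₀ b f₀ B.u = iwFn893 := by
  classical
  rw [repDn_eq309, if_pos rfl]

theorem comp_left309 {B : L2Base K K'} {T₀ T : Finset (HeightOneSpectrum (𝓞 K))}
    {m : HeightOneSpectrum (𝓞 K) → ℕ}
    {b f₀ : ∀ v : HeightOneSpectrum (𝓞 K), GL (Fin 2) (v.adicCompletion K) → ℂ}
    (hS : IsDnShape309 B T₀ T m b f₀) {h : G K} (hh : IsHElt309 B m h) (y : G K) :
    ∀ v ∈ T, repDn970 B T₀ b f₀ v (finGL305 v (h * y))
      = repDn970 B T₀ b f₀ v (finGL305 v y) := by
  classical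
  intro v hv
  by_cases hu : v = B.u
  · subst hu
    rw [repDn_u309]
    exact iwFn_left309 hh.iw y
  · rw [repDn_eq309, if_neg hu]
    by_cases h0 : v ∈ T₀
    · rw [if_pos h0]
      have := (hS.binv v (Finset.mem_erase.2 ⟨hu, h0⟩)) (finGL305 v h) 1 (finGL305 v y)
        (hh.out v hu) (T6.H777.inU_one777 _)
      rw [mul_one, ← map_mul] at this
      exact this
    · rw [if_neg h0]
      obtain ⟨Av, -, hval⟩ := hS.sph v hv h0
      rw [hval, hval]
      have := H129.cartan_mul129 (g := finGL305 v y) (inU_zero_of_inU756 (hh.out v hu))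
        (T6.H777.inU_one777 0)
      rw [mul_one, ← map_mul] at this
      rw [this]

theorem comp_right309 {B : L2Base K K'} {T₀ T : Finset (HeightOneSpectrum (𝓞 K))}
    {m : HeightOneSpectrum (𝓞 K) → ℕ}
    {b f₀ : ∀ v : HeightOneSpectrum (𝓞 K), GL (Fin 2) (v.adicCompletion K) → ℂ}
    (hS : IsDnShape309 B T₀ T m b f₀) {h : G K} (hh : IsHElt309 B m h) (y : G K) :
    ∀ v ∈ T, repDn970 B T₀ b f₀ v (finGL305 v (y * h))
      = repDn970 B T₀ b f₀ v (finGL305 v y) := by
  classical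
  intro v hv
  by_cases hu : v = B.u
  · subst hu
    rw [repDn_u309]
    exact iwFn_right309 hh.iw y
  · rw [repDn_eq309, if_neg hu]
    by_cases h0 : v ∈ T₀
    · rw [if_pos h0]
      have := (hS.binv v (Finset.mem_erase.2 ⟨hu, h0⟩)) 1 (finGL305 v h) (finGL305 v y)
        (T6.H777.inU_one777 _) (hh.out v hu)
      rw [one_mul, ← map_mul] at this
      exact this
    · rw [if_neg h0]
      obtain ⟨Av, -, hval⟩ := hS.sph v hv h0
      rw [hval, hval]
      have := H129.cartan_mul129 (g := finGL305 v y) (T6.H777.inU_one777 0)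
        (inU_zero_of_inU756 (hh.out v hu))
      rw [one_mul, ← map_mul] at this
      rw [this]

/-- **The members are bi-invariant under `H`.** -/
theorem member_inv309 {B : L2Base K K'} {T₀ T : Finset (HeightOneSpectrum (𝓞 K))}
    {m : HeightOneSpectrum (𝓞 K) → ℕ}
    {b f₀ : ∀ v : HeightOneSpectrum (𝓞 K), GL (Fin 2) (v.adicCompletion K) → ℂ}
    (hS : IsDnShape309 B T₀ T m b f₀) (F : InfinitePlace K → GL (Fin 2) ℂ → ℂ) {h : G K}
    (hh : IsHElt309 B m h) (y : G K) :
    pure305 T (repDn970 B T₀ b f₀) F (h * y) = pure305 T (repDn970 B T₀ b f₀) F y ∧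
      pure305 T (repDn970 B T₀ b f₀) F (y * h) = pure305 T (repDn970 B T₀ b f₀) F y := by
  have hout : ∀ v : HeightOneSpectrum (𝓞 K), v ∉ T → T6.InU 0 (finGL305 v h) := by
    intro v hv
    have hu : v ≠ B.u := fun e => hv (e ▸ hS.sub hS.u_mem)
    exact inU_zero_of_inU756 (hh.out v hu)
  exact ⟨pure_left309 hh.inf hout y (comp_left309 hS hh y),
    pure_right309 hh.inf hout y (comp_right309 hS hh y)⟩

/-- **The members vanish outside the Iwahori subgroup at `u`.** -/
theorem member_iw309 {B : L2Base K K'} {T₀ T : Finset (HeightOneSpectrum (𝓞 K))}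
    {m : HeightOneSpectrum (𝓞 K) → ℕ}
    {b f₀ : ∀ v : HeightOneSpectrum (𝓞 K), GL (Fin 2) (v.adicCompletion K) → ℂ}
    (hS : IsDnShape309 B T₀ T m b f₀) (F : InfinitePlace K → GL (Fin 2) ℂ → ℂ) {y : G K}
    (hy : ¬ T5.InIwahori B.u y) : pure305 T (repDn970 B T₀ b f₀) F y = 0 := by
  classical
  by_contra h0
  have h1 := pure_ne_zero309 h0 B.u (hS.sub hS.u_mem)
  rw [repDn_u309, iwFn_eq309, if_neg hy] at h1
  exact h1 rfl

theorem isHElt_of_iw309 (B : L2Base K K') (m : HeightOneSpectrum (𝓞 K) → ℕ) {h : G K}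
    (h1 : ∀ w : InfinitePlace K, TrivAtInf w h)
    (h2 : ∀ v : HeightOneSpectrum (𝓞 K), v ≠ B.u → TrivAtFin v h)
    (h3 : T5.InIwahori B.u h) : IsHElt309 B m h where
  inf := fun w => (trivAtInf_iff_infGL756 w h).1 (h1 w)
  iw := h3
  out := fun v hv => by
    rw [(trivAtFin_iff_finGL756 v h).1 (h2 v hv)]
    exact T6.H777.inU_one777 _

end TwoFields


/-! ## 3. The function `W = wsum970 s β (F₁ [])` -/

section W

variable {K K' : Type} [Field K] [NumberField K] [Field K'] [NumberField K'] [Algebra K K']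
variable {ℓ : ℕ} {Φ : HeckeEigensystem K' ℂ} {B : L2Base K K'} {𝔫 : Ideal (𝓞 K)}
  {μc : @Measure (GL (Fin 2) ℂ) (borel _)} {T₀ : Finset (HeightOneSpectrum (𝓞 K))}
  {n n₀ : HeightOneSpectrum (𝓞 K') → ℕ} {m : HeightOneSpectrum (𝓞 K) → ℕ}
  {a : (InfinitePlace K → ℝ) → G K} {D : Set (InfinitePlace K → ℝ)}
  {a' : (InfinitePlace K' → ℝ) → G K'} {D' : Set (InfinitePlace K' → ℝ)}
  {s : Finset (G K)} {β : G K → ℂ}
  {b : ∀ v : HeightOneSpectrum (𝓞 K), GL (Fin 2) (v.adicCompletion K) → ℂ}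
  {c₁ : EigData K' → ℂ} {Φ₁ : List (Gen K') → G K' → ℂ} {F₁ : List (Gen K') → G K → ℂ}

theorem isHElt_of_level309 (hyp : IsDn2Hyp309 ℓ Φ B 𝔫 μc T₀ n n₀ m a D a' D' s β b c₁ Φ₁ F₁)
    {h : G K} (hh : InLevelGroup 𝔫 h) : IsHElt309 B m h where
  inf := ((inLevelGroup_iff_inU756 hyp.exp.lvl h).1 hh).1
  iw := H49.inIwahori_of_inLevelGroup49 hyp.lvl.u_level hh
  out := fun v _ => ((inLevelGroup_iff_inU756 hyp.exp.lvl h).1 hh).2 v

/-- **`W` is an average of pure tensors with the replaced components.** -/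
theorem wsum_avg309 (hyp : IsDn2Hyp309 ℓ Φ B 𝔫 μc T₀ n n₀ m a D a' D' s β b c₁ Φ₁ F₁) :
    ∃ (Ω : Type) (_ : MeasurableSpace Ω) (ν : Measure Ω)
      (T : Ω → Finset (HeightOneSpectrum (𝓞 K)))
      (f₀ : Ω → ∀ v : HeightOneSpectrum (𝓞 K), GL (Fin 2) (v.adicCompletion K) → ℂ)
      (F : Ω → InfinitePlace K → GL (Fin 2) ℂ → ℂ),
      (∀ ω, IsDnShape309 B T₀ (T ω) m b (f₀ ω)) ∧
      ∀ y : G K, wsum970 s β (F₁ []) y
        = ∫ ω, pure305 (T ω) (repDn970 B T₀ b (f₀ ω)) (F ω) y ∂ν := by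
  obtain ⟨Ω, iT, iC, iT2, iSC, iM, iB, ν, iF, T, T', φ₀, Φ', f₀, F, h1, h2, h3, h4, h5, h6, h7,
    h8, h9⟩ := hyp.shape
  refine ⟨Ω, iM, ν, T, f₀, F, fun ω => ?_, fun y => ?_⟩
  · obtain ⟨hsub, -, hA1, -, hA3, -⟩ := h1 ω
    exact ⟨hsub, (hyp.exp.mem B.u).2 hyp.lvl.u_level, fun v hv => (hyp.binv v hv).1,
      fun v hv hv0 => by
        obtain ⟨A, Av, hs, -⟩ := hA3 v hv hv0
        exact ⟨Av, hs⟩⟩
  · simp only [one_mul] at h5 h9
    have hint : ∀ z : G K, Integrable (fun ω => pure305 (T ω) (f₀ ω) (F ω) z) ν := by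
      intro z
      have hc : Continuous fun ω : Ω => pure305 (T ω) (f₀ ω) (F ω) z :=
        h5.comp (Continuous.prodMk continuous_id continuous_const)
      exact hc.integrable_of_hasCompactSupport (HasCompactSupport.of_compactSpace _)
    show ∑ x ∈ s, β x * F₁ [] (x⁻¹ * y) = _
    have e1 : ∀ x ∈ s, β x * F₁ [] (x⁻¹ * y)
        = ∫ ω, β x * pure305 (T ω) (f₀ ω) (F ω) (x⁻¹ * y) ∂ν := by
      intro x _
      rw [h9, integral_const_mul]
    rw [Finset.sum_congr rfl e1,
      ← integral_finsetSum s (fun x _ => (hint _).const_mul (β x))]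
    refine integral_congr_ae (Filter.Eventually.of_forall fun ω => ?_)
    obtain ⟨hsub, -, hA1, -⟩ := h1 ω
    exact hyp.wt.rep (T ω) (f₀ ω) (F ω) hsub hA1 y

/-- **`W` is bi-invariant under `H`.** -/
theorem wsum_inv309 (hyp : IsDn2Hyp309 ℓ Φ B 𝔫 μc T₀ n n₀ m a D a' D' s β b c₁ Φ₁ F₁)
    {h : G K} (hh : IsHElt309 B m h) (y : G K) :
    wsum970 s β (F₁ []) (h * y) = wsum970 s β (F₁ []) y ∧
      wsum970 s β (F₁ []) (y * h) = wsum970 s β (F₁ []) y := by
  obtain ⟨Ω, iM, ν, T, f₀, F, hS, hW⟩ := wsum_avg309 hyp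
  rw [hW, hW, hW]
  exact ⟨integral_congr_ae (Filter.Eventually.of_forall fun ω =>
      (member_inv309 (hS ω) (F ω) hh y).1),
    integral_congr_ae (Filter.Eventually.of_forall fun ω =>
      (member_inv309 (hS ω) (F ω) hh y).2)⟩

/-- **`W` vanishes outside the Iwahori subgroup at `u`.** -/
theorem wsum_iw309 (hyp : IsDn2Hyp309 ℓ Φ B 𝔫 μc T₀ n n₀ m a D a' D' s β b c₁ Φ₁ F₁)
    {y : G K} (hy : wsum970 s β (F₁ []) y ≠ 0) : T5.InIwahori B.u y := by
  obtain ⟨Ω, iM, ν, T, f₀, F, hS, hW⟩ := wsum_avg309 hyp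
  by_contra hn
  apply hy
  rw [hW]
  have : (fun ω => pure305 (T ω) (repDn970 B T₀ b (f₀ ω)) (F ω) y) = fun _ => (0 : ℂ) :=
    funext fun ω => member_iw309 (hS ω) (F ω) hn
  rw [this, integral_zero]

/-- **`W` has the termwise properties** (`H311.IsPre311`). -/
theorem wsum_pre309 (hyp : IsDn2Hyp309 ℓ Φ B 𝔫 μc T₀ n n₀ m a D a' D' s β b c₁ Φ₁ F₁) :
    H311.IsPre311 𝔫 B.R.μ (wsum970 s β (F₁ [])) := by
  have hF : T5.IsFrame B.R.μ B.R.F := hyp.base.frame.frame
  have hX : ∀ x ∈ ([] : List (Gen K')), x.Out B.S' := fun x hx => absurd hx (List.not_mem_nil)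
  have hpre : H311.IsPre311 𝔫 B.R.μ (F₁ []) :=
    H311.isPre_of_test311 (hyp.pair.dn1_test [] hX) (hyp.pair.dn1_ek [] hX).1
      (hyp.pair.dn1_ek [] hX).2
  exact H311.isPre_sum311 hF s (fun x y => β x * H893.ltr x (F₁ []) y)
    (fun x hx => (hpre.ltr hF (hyp.wt.supp x hx).1).smul (β x))

/-- **`W` is a test function of level `𝔫`.** -/
theorem wsum_test309 (hyp : IsDn2Hyp309 ℓ Φ B 𝔫 μc T₀ n n₀ m a D a' D' s β b c₁ Φ₁ F₁) :
    T5.IsTestFn 𝔫 T5.trivType (wsum970 s β (F₁ [])) := by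
  have hpre := wsum_pre309 hyp
  refine ⟨T5.isKType_triv, hpre.cont, hpre.supp, hpre.smooth, hpre.level_right,
    fun u hu g => (wsum_inv309 hyp (isHElt_of_level309 hyp hu) g).1, fun w k hk g => ?_,
    fun w k hk g => ?_⟩
  · show _ = (1 : ℂ)⁻¹ * _
    rw [inv_one, one_mul]
    exact hpre.arch_right w k hk g
  · show _ = (1 : ℂ)⁻¹ * _
    rw [inv_one, one_mul]
    exact hpre.arch_left w k hk g

/-- **`W` is bi-invariant under `U(𝔫)` and the Iwahori subgroup at `u`.** -/
theorem wsum_uinv309 (hyp : IsDn2Hyp309 ℓ Φ B 𝔫 μc T₀ n n₀ m a D a' D' s β b c₁ Φ₁ F₁) :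
    IsUInv 𝔫 1 (fun _ => B.u) (wsum970 s β (F₁ [])) := by
  refine ⟨fun u hu y => wsum_inv309 hyp (isHElt_of_level309 hyp hu) y,
    fun h h1 h2 h3 y => wsum_inv309 hyp (isHElt_of_iw309 B m h1 (fun v hv => ?_) ?_) y⟩
  · exact h2 v (fun j _ => hv)
  · exact h3 0 Nat.one_pos

end W

end Fermat.Agent.LT.T7.H309.Dn2

end

end
-- ===== PACK-END LT/T7/H309/Dn2W.lean

-- ===== PACK-BEGIN LT/T7/H309/Dn2Nat.lean
section





/-!
# Row LT, tower T7, leaf T7.L2.1.H2a.4.5.A `Dn2NatC309` (helper309, registry 3029)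

OFF-MAIN.  PROVED, nothing assumed: `dn2NatC309 K K' : Dn2NatC309 K K'` VERBATIM (fields
`dn2_test`, `dn2_ek`, `dn2_inv`, `dn2_kill` of `B970.IsDn2_970` for
`f₂ = c · nat193 a D (wsum970 s β (F₁ []))`).

`W = wsum970 s β (F₁ [])` is an Eisenstein-killing test function of level `𝔫` with
Eisenstein-killing adjoint, bi-invariant under `U(𝔫)` and the Iwahori subgroup at `u`
(`Dn2W.lean`); `H193.killing_of_torus193` for the torus data `hrel.down` (`T1.T1Out` from the
closed tower T1); multiples by `c`.  Also `nat_facts309` (the six clauses of the killing tool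
for `W`, among them `R(nat193 a D W) e = R(W) e` on the continuous functions invariant under the
positive scalars) for the other leaves.
-/

set_option autoImplicit false
set_option linter.unusedSectionVars false

open AutomorphicForm IsDedekindDomain NumberField MeasureTheory
open scoped ComplexConjugate

noncomputable section

namespace Fermat.Agent.LT.T7.H309.Dn2

open Fermat.Agent.LT.H556 Fermat.Agent.LT.H556.A0 Fermat.Agent.LT.T7
open Fermat.Agent.LT.T7.H305 Fermat.Agent.LT.T7.H893 Fermat.Agent.LT.T7.B981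
open Fermat.Agent.LT.T7.B970 Fermat.Agent.LT

attribute [local instance] Fermat.Agent.LT.T5.instMeasurableSpaceG

section

variable {K K' : Type} [Field K] [NumberField K] [Field K'] [NumberField K'] [Algebra K K']
variable {ℓ : ℕ} {Φ : HeckeEigensystem K' ℂ} {B : L2Base K K'} {𝔫 : Ideal (𝓞 K)}
  {μc : @Measure (GL (Fin 2) ℂ) (borel _)} {T₀ : Finset (HeightOneSpectrum (𝓞 K))}
  {n n₀ : HeightOneSpectrum (𝓞 K') → ℕ} {m : HeightOneSpectrum (𝓞 K) → ℕ}
  {a : (InfinitePlace K → ℝ) → G K} {D : Set (InfinitePlace K → ℝ)}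
  {a' : (InfinitePlace K' → ℝ) → G K'} {D' : Set (InfinitePlace K' → ℝ)}
  {s : Finset (G K)} {β : G K → ℂ}
  {b : ∀ v : HeightOneSpectrum (𝓞 K), GL (Fin 2) (v.adicCompletion K) → ℂ}
  {c₁ : EigData K' → ℂ} {Φ₁ : List (Gen K') → G K' → ℂ} {F₁ : List (Gen K') → G K → ℂ}

/-- **The killing tool for `W`.** -/
theorem nat_facts309 (hyp : IsDn2Hyp309 ℓ Φ B 𝔫 μc T₀ n n₀ m a D a' D' s β b c₁ Φ₁ F₁) :
    T5.IsTestFn 𝔫 T5.trivType (H193.nat193 a D (wsum970 s β (F₁ []))) ∧
      T5.IsEK B.R.μ (H193.nat193 a D (wsum970 s β (F₁ []))) ∧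
      T5.IsEK B.R.μ (T5.adjointFn (H193.nat193 a D (wsum970 s β (F₁ [])))) ∧
      IsUInv 𝔫 1 (fun _ => B.u) (H193.nat193 a D (wsum970 s β (F₁ []))) ∧
      (∀ e : G K → ℂ, Continuous e →
        (∀ (w : InfinitePlace K) (z : G K), IsArchPosScalar w z →
          ∀ g : G K, e (g * z) = e g) →
        ∀ x : G K, T5.Rconv B.R.μ (H193.nat193 a D (wsum970 s β (F₁ []))) e x
          = T5.Rconv B.R.μ (wsum970 s β (F₁ [])) e x) ∧
      ∀ ψ : G K → ℂ, T5.IsCuspFn 𝔫 T5.trivType B.R.r ψ →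
        (∀ χ : G K → ℂ, IsWFn 𝔫 B.R.r 1 (fun _ => B.u) χ → T5.innerD B.R.μ B.R.F ψ χ = 0) →
        ∀ x : G K, T5.Rconv B.R.μ (H193.nat193 a D (wsum970 s β (F₁ []))) ψ x = 0 :=
  H193.killing_of_torus193 (T1.t1Out K) B.R hyp.base.frame 𝔫 𝔫 hyp.lvl.level_ne le_rfl 1
    (fun _ => B.u) hyp.rel.down (wsum970 s β (F₁ [])) (wsum_test309 hyp) (wsum_pre309 hyp).ek
    (wsum_pre309 hyp).ek_adj (wsum_uinv309 hyp)

end

/-- **LEAF D2.A `Dn2NatC309`.** -/
theorem dn2NatC309 (K K' : Type) [Field K] [NumberField K] [Field K'] [NumberField K']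
    [Algebra K K'] : Dn2NatC309 K K' := by
  intro ℓ Φ B 𝔫 μc T₀ n n₀ m a D a' D' s β b c₁ Φ₁ F₁ hyp c
  obtain ⟨ht, hek, hadj, hbi, -, hkill⟩ := nat_facts309 hyp
  have hpre := (H311.isPre_of_test311 ht hek hadj).smul c
  refine ⟨⟨T5.isKType_triv, hpre.cont, hpre.supp, hpre.smooth, hpre.level_right,
    fun u hu g => ?_, fun w k hk g => ?_, fun w k hk g => ?_⟩, ⟨hpre.ek, hpre.ek_adj⟩,
    ⟨fun u hu y => ⟨?_, ?_⟩, fun h h1 h2 h3 y => ⟨?_, ?_⟩⟩, fun ψ hψ horth x => ?_⟩
  · show c * _ = c * _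
    rw [(hbi.1 u hu g).1]
  · show _ = (1 : ℂ)⁻¹ * _
    rw [inv_one, one_mul]
    exact hpre.arch_right w k hk g
  · show _ = (1 : ℂ)⁻¹ * _
    rw [inv_one, one_mul]
    exact hpre.arch_left w k hk g
  · show c * _ = c * _
    rw [(hbi.1 u hu y).1]
  · show c * _ = c * _
    rw [(hbi.1 u hu y).2]
  · show c * _ = c * _
    rw [(hbi.2 h h1 h2 h3 y).1]
  · show c * _ = c * _
    rw [(hbi.2 h h1 h2 h3 y).2]
  · have h0 : ∫ y, H193.nat193 a D (wsum970 s β (F₁ [])) y * ψ (x * y) ∂B.R.μ = 0 :=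
      hkill ψ hψ horth x
    show ∫ y, c * H193.nat193 a D (wsum970 s β (F₁ [])) y * ψ (x * y) ∂B.R.μ = 0
    simp only [mul_assoc]
    rw [integral_const_mul, h0, mul_zero]

end Fermat.Agent.LT.T7.H309.Dn2

end

end
-- ===== PACK-END LT/T7/H309/Dn2Nat.lean

-- ===== PACK-BEGIN LT/T7/H298/MatchQDone.lean
section




/-!
# Row LT, tower T7, node T7.L2Q.1.H1 (registry rows 2464 / 2605, owner helper298):
# THE MATCHING THEOREM OVER `ℚ` -- CLOSED

OFF-MAIN.  Complete proofs, nothing assumed.  ADDITIVE.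

    globMatchQC_closed298 : HasSqrtNegThree F → T6.T6Out → GlobMatchQC298b F
    cutIntQC_closed298    : HasSqrtNegThree F → T6.T6Out → CutIntQC298b F
    exists_const_closed298 : HasSqrtNegThree F → T6.T6Out → IsImagQuad F → IsL2QBase962 Φ B →
        𝔫 ≠ ⊥ → (Haar measures, base set, levels) →
        ∃ κ ≠ 0, IsMatchConstQ298b F (B.comp 𝔫) μr μc T₀ n m κ

The ONLY hypotheses: `HasSqrtNegThree F` (`F = ℚ(√-3)`: the class field theory input
`T6.NormImageQC` is available for this field only) and `T6.T6Out` (the output of the tower T6,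
closed by the tower; supplied by the master: `T6.top_closed`).

ALL leaves and nodes of the two cuts of helper298 and of the cuts of helper751 (`FactDownQC298`),
helper514 (`FactUpQC298b`), helper1 (`UpFactQC514`, `FactIntUpQC`), helper913 (`CutOnUpQC`),
helper864 (`UpDatExistsQC`) are plugged byte-identical in ONE closure; the last one is
`FPU534.finPartUpQC534` (helper534@8953099fb, `H1U.FinPartUpQC F`).
-/

set_option autoImplicit false

open AutomorphicForm IsDedekindDomain NumberField MeasureTheory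
open scoped ComplexConjugate

noncomputable section

namespace Fermat.Agent.LT.T7.MQ298

open Fermat.Agent.LT.H556 Fermat.Agent.LT.H556.A0 Fermat.Agent.LT.T7 Fermat.Agent.LT.T7.H305
  Fermat.Agent.LT.T7.L2Q Fermat.Agent.LT.T7.H893 Fermat.Agent.LT.T7.H962

attribute [local instance] Fermat.Agent.LT.T5.instMeasurableSpaceG

variable {F : Type} [Field F] [NumberField F]

/-- **THE MATCHING THEOREM OVER `ℚ`, CLOSED** (v2 form: split clause for ONE enumeration). -/
theorem globMatchQC_closed298 (h3 : HasSqrtNegThree F) (hT6 : T6.T6Out) : GlobMatchQC298b F :=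
  globMatchQC_of_finPart298 h3 hT6 (FPU534.finPartUpQC534 F)

/-- The node upstairs, closed. -/
theorem factUpQC_closed298 (hT6 : T6.T6Out) : FactUpQC298b F := by
  have _h := hT6
  exact FUQ514.factUpQC298b_of_up514 (H864.upDatExistsQC864 F) (H913.cutOnUpQC913 F)
    (H1U.factIntUpQC_of_H1U (H159.haarSplitC159 F) (OutOpen729.outOpenC729 F)
      (H409.compContC409 (K := F)) (H505.haarSigmaC505 (K := F)) (H42.overSetQC42 F)
      (H355.ptFactUpQC355 (F := F)) (H750.rayFinUpQC750 F) (H750.archIntblUpQC750 F)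
      (FPU534.finPartUpQC534 F))

/-- **THE CORE NODE OVER `ℚ`, CLOSED.** -/
theorem cutIntQC_closed298 (h3 : HasSqrtNegThree F) (hT6 : T6.T6Out) : CutIntQC298b F :=
  cutIntQC_of_open298 h3
    ⟨hT6, H767.unitMatchQC767b F, H984.nonNormLocQC984 F, H925.TorSplit.torSplitQC925,
      factDownQC_closed298, factUpQC_closed298 hT6⟩

/-- **THE MATCHING CONSTANT of a good common part, CLOSED** (input of the construction). -/
theorem exists_const_closed298 (h3 : HasSqrtNegThree F) (hT6 : T6.T6Out) (hF : IsImagQuad F)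
    {Φ : HeckeEigensystem F ℂ} {B : L2QBase962 F} (hB : IsL2QBase962 Φ B)
    {𝔫 : Ideal (𝓞 ℚ)} (h𝔫 : 𝔫 ≠ ⊥)
    (μr : @Measure (GL (Fin 2) ℝ) (borel _)) (hμr : @Measure.IsHaarMeasure _ _ _ (borel _) μr)
    (μc : @Measure (GL (Fin 2) ℂ) (borel _)) (hμc : @Measure.IsHaarMeasure _ _ _ (borel _) μc)
    (T₀ : Finset (HeightOneSpectrum (𝓞 ℚ))) (hram : UnramOut305 (K' := F) T₀)
    (n : HeightOneSpectrum (𝓞 F) → ℕ) (m : HeightOneSpectrum (𝓞 ℚ) → ℕ)
    (hlev : IsLevelAt305 T₀ n m) :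
    ∃ κ : ℂ, κ ≠ 0 ∧ IsMatchConstQ298b F (B.comp 𝔫) μr μc T₀ n m κ :=
  exists_const298b (globMatchQC_closed298 h3 hT6) hF hB h𝔫 μr hμr μc hμc T₀ hram n m hlev

/-- VERBATIM check. -/
example (h3 : HasSqrtNegThree F) (hT6 : Fermat.Agent.LT.T6.T6Out) :
    Fermat.Agent.LT.T7.MQ298.GlobMatchQC298b F := globMatchQC_closed298 h3 hT6

end Fermat.Agent.LT.T7.MQ298

end

end
-- ===== PACK-END LT/T7/H298/MatchQDone.lean

-- ===== PACK-BEGIN LT/T7/H409/RegOrbQ.lean
section




/-!
# Row LT, tower T7, leaf T7.L2Q.1.H2b.4.L1 `PQ563.RegOrbQC563` (cut of helper563, registry row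
# 2968, helper409): PROVED, VERBATIM

OFF-MAIN.  No hole, nothing assumed.  ADDITIVE (new name only, suffix `409`, namespace
`Fermat.Agent.LT.T7.H409`).

    regOrbQC409 F : PQ563.RegOrbQC563 F

Statement of `T7/H563/ProdShapeQSpec.lean` (helper563@681304ae1, sha256 110115a8): the MIRROR
over `ℚ` of `P51.RegOrbC51` (registry row 2827, `RegOrb.lean`, sha256 ee98d387).

## Proof

The local kit of `RegOrb.lean` is field-independent: `isIwReg_regLoc409` (the local regularised
Iwahori functions `regLoc51 w z H k j 1_I` are left and right invariant under the Iwahori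
subgroup, with finite support modulo `U(n)`), `isIwReg_iwFn409`, `isIwReg_smul409`,
`isBiInv_of_isIwReg409` (`U(n) ⊆ I` for `n ≥ 1`), `one_le_level409` (the exponent of a non-zero
ideal at a place dividing it is `≥ 1`).  The places over `u` are `o 0`, `o 1`
(`IsL2QBase.orbit_all`), they are in `S'` (`orbit_level`), i.e. they divide `𝔫 𝒪_F`
(`IsSysQ563.mem_S'_g`); `u ∣ 𝔫` (`u_level`).  The components are those of the shape
`LocProdQ563`: `regLoc51` at `o 0`, `1_I` at `o 1`, `t · regLoc51` at `u`.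

No equation lemma of a foreign definition is realised here.
-/

set_option autoImplicit false
set_option linter.unusedSectionVars false
set_option linter.unusedVariables false
set_option linter.style.haveILetI false

open AutomorphicForm IsDedekindDomain NumberField MeasureTheory
open scoped ComplexConjugate

noncomputable section

namespace Fermat.Agent.LT.T7.H409

open Fermat.Agent.LT.H556 Fermat.Agent.LT.H556.A0 Fermat.Agent.LT.T7
open Fermat.Agent.LT.T7.H305 Fermat.Agent.LT.T7.H893 Fermat.Agent.LT.T7.P51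

/-- **LEAF PS.L1 = REG-ORB over `ℚ`** (`PQ563.RegOrbQC563`), VERBATIM. -/
theorem regOrbQC409 (F : Type) [Field F] [NumberField F] :
    Fermat.Agent.LT.T7.PQ563.RegOrbQC563 F := by
  intro Φ B g 𝔫 μr μc c T₀ n n₀ m H' z' H z t lam k j T φ₀ Φ' f₀ F0 F1 hloc
  obtain ⟨hctx, hsys, _hc, _ht, _hlam, hprod⟩ := hloc
  obtain ⟨T₁, T₂, φ₁, Φ₁, f₁, F0₁, F1₁, φ₂, Φ₂, f₂, F0₂, F1₂, -, -, -, -, -, -, hfu, hφ0, hφ1,
    -, -, -, -⟩ := hprod
  -- the components of `toBase962_732 B` are those of `B` (by definition)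
  have hfu : f₀ B.u = fun x => t * regLoc51 B.u z H k j iwFn893 x := hfu
  have hφ0 : φ₀ (B.o 0) = regLoc51 (B.o 0) z' H' k j iwFn893 := hφ0
  have hφ1 : φ₀ (B.o 1) = iwFn893 := hφ1
  have hup : upI (K' := F) 𝔫 ≠ ⊥ := by
    show Ideal.map (algebraMap (𝓞 ℚ) (𝓞 F)) 𝔫 ≠ ⊥
    intro h0
    exact hsys.level_ne ((Ideal.map_eq_bot_iff_of_injective
      (FaithfulSMul.algebraMap_injective (𝓞 ℚ) (𝓞 F))).mp h0)
  refine ⟨fun w hw => ?_, ?_⟩
  · -- the places over `u` are the places of the orbit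
    obtain ⟨i, hi, rfl⟩ := hctx.base.orbit_all w hw
    have hn1 : 1 ≤ n (B.o i) :=
      one_le_level409 hup hctx.lev_n ((hsys.mem_S'_g (B.o i)).mp (hctx.base.orbit_level i))
    have hreg : IsIwReg409 (B.o i) (n (B.o i)) (φ₀ (B.o i)) := by
      have hi01 : i = 0 ∨ i = 1 := by omega
      rcases hi01 with rfl | rfl
      · rw [hφ0]
        exact isIwReg_regLoc409 _ hsys.sys' hsys.unif' k j
      · rw [hφ1]
        exact isIwReg_iwFn409 _
    exact ⟨isBiInv_of_isIwReg409 hn1 hreg, hreg.2.2⟩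
  · have hm1 : 1 ≤ m B.u := one_le_level409 hsys.level_ne hctx.lev_m hsys.u_level
    have hreg : IsIwReg409 B.u (m B.u) (f₀ B.u) := by
      rw [hfu]
      exact isIwReg_smul409 (isIwReg_regLoc409 _ hsys.sys hsys.unif k j) t
    exact ⟨isBiInv_of_isIwReg409 hm1 hreg, hreg.2.2⟩

end Fermat.Agent.LT.T7.H409

end

end
-- ===== PACK-END LT/T7/H409/RegOrbQ.lean

-- ===== PACK-BEGIN LT/T7/H563/PTSpec2.lean
section



/-!
# Row LT, tower T7, node T7.L2Q.1.H2.4 `CQ57.ProdMtQC57` (registry row 2683, owner helper563):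
# THE CALCULUS OF PURE TENSORS -- general leaves, part 2 (the regular member), Spec

OFF-MAIN.  Definitions and frozen Props only.  No hole, nothing assumed.  ADDITIVE.

* `iwRegFn563 q k m` : the LOCAL function `q^{-m/2} 1_{ϖ^k I diag(ϖ^m, 1) I}` on `GL₂(k)`
  (`I` the Iwahori subgroup `H893.InIw893`).
* **PT.6 `RegLPureC563 K`**, **`RegLPureQC563`**: the regular member
  `regL w z H k m = ltr (z ^ k) ∘ (iwL w H)^[m]` of a pure tensor whose component at `w ∈ T` is
  the Iwahori function `iwFn893` is the pure tensor with the component `iwRegFn563 (N w) k m`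
  at `w` (the other components unchanged).

FALSITY CHECKS (helper563).  `I diag(ϖ,1) I = ⊔_{r mod ϖ} [[ϖ, r],[0,1]] I` (`q` cosets,
`H340.exists_iwCosetSystem340`), the products `h₁ ⋯ h_m I`, `h_i ∈ H`, are `q^m` DIFFERENT
cosets with union `I diag(ϖ^m,1) I` (`[[ϖ^m, r],[0,1]] I`, `r mod ϖ^m`), for EVERY coset system
`H` (the sum does not depend on the system: `H340.iwSum_indep340`); so
`(iwL w H)^[m] 1_I = q^{-m/2} 1_{I diag(ϖ^m,1) I}` at `w`.  `ltr (z ^ k)`: `y ↦ φ(z^{-k} y)`,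
`z_w = diag(ϖ', ϖ')`, `|ϖ'| = exp(-1)`: the support is multiplied by the scalar `ϖ'^k`,
`|ϖ'^k| = exp(-k)`, `k ∈ ℤ`.  `m = 0`, `k = 0`: `iwRegFn563 q 0 0 = iwFn893` (`c`, `d` units,
`d • a diag(c,1) b ∈ I`).  The elements of `H` and `z` are supported at `w` (`IsLocalAtFin`),
so `OutT305 T` and the other components do not change (`w ∈ T`).
-/

set_option autoImplicit false

open AutomorphicForm IsDedekindDomain NumberField MeasureTheory
open scoped ComplexConjugate

noncomputable section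

namespace Fermat.Agent.LT.T7.PT563

open Fermat.Agent.LT.H556 Fermat.Agent.LT.H556.A0 Fermat.Agent.LT.T7
  Fermat.Agent.LT.T7.H305 Fermat.Agent.LT.T7.H893 Fermat.Agent.LT.T7.MQ298

attribute [local instance] Fermat.Agent.LT.T5.instMeasurableSpaceG

section Local

variable {k : Type} [Field k] [Valued k T6.Γ₀]

open Classical in
/-- The local function `q^{-m/2} 1_{ϖ^e I diag(ϖ^m, 1) I}` on `GL₂(k)`. -/
def iwRegFn563 (q : ℕ) (e : ℤ) (m : ℕ) : GL (Fin 2) k → ℂ := fun x =>
  if ∃ (a b : GL (Fin 2) k) (c d : k), InIw893 a ∧ InIw893 b ∧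
      Valued.v c = WithZero.exp (-(m : ℤ)) ∧ Valued.v d = WithZero.exp (-e) ∧
      (x : Matrix (Fin 2) (Fin 2) k)
        = d • ((a : Matrix (Fin 2) (Fin 2) k) * !![c, 0; 0, 1] * (b : Matrix (Fin 2) (Fin 2) k))
  then (((Real.sqrt (q : ℝ) : ℝ) : ℂ)⁻¹) ^ m else 0

end Local

section OneField

variable (K : Type) [Field K] [NumberField K]

open Classical in
/-- **LEAF PT.6 = REGL-PURE.**  See the header. -/
def RegLPureC563 : Prop :=
  ∀ (w : HeightOneSpectrum (𝓞 K)) (z : G K) (H : Finset (G K)),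
    IsIwCosetSystem w H → IsScalarUniformizerAt w z →
  ∀ (T : Finset (HeightOneSpectrum (𝓞 K))), w ∈ T →
  ∀ (f₀ : ∀ v : HeightOneSpectrum (𝓞 K), GL (Fin 2) (v.adicCompletion K) → ℂ)
    (F : InfinitePlace K → GL (Fin 2) ℂ → ℂ), f₀ w = iwFn893 →
  ∀ (k : ℤ) (m : ℕ) (y : G K),
    regL w z H k m (pure305 T f₀ F) y
      = pure305 T (Function.update f₀ w (iwRegFn563 (Ideal.absNorm w.asIdeal) k m)) F y

end OneField

open Classical in
/-- **LEAF PT.6Q = REGL-PURE over `ℚ`.**  See the header. -/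
def RegLPureQC563 : Prop :=
  ∀ (w : HeightOneSpectrum (𝓞 ℚ)) (z : G ℚ) (H : Finset (G ℚ)),
    IsIwCosetSystem w H → IsScalarUniformizerAt w z →
  ∀ (T : Finset (HeightOneSpectrum (𝓞 ℚ))), w ∈ T →
  ∀ (f₀ : ∀ v : HeightOneSpectrum (𝓞 ℚ), GL (Fin 2) (v.adicCompletion ℚ) → ℂ)
    (F : GL (Fin 2) ℝ → ℂ), f₀ w = iwFn893 →
  ∀ (k : ℤ) (m : ℕ) (y : G ℚ),
    regL w z H k m (pureQ298 T f₀ F) y
      = pureQ298 T (Function.update f₀ w (iwRegFn563 (Ideal.absNorm w.asIdeal) k m)) F y

/-! ## Appendix: the equation lemmas of the definitions of this file are realised HERE -/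

theorem eqns_realised_ptSpec2_563 : True := by
  have _h0_0 := @iwRegFn563.eq_1
  have _h0_1 := @iwRegFn563.eq_def
  have _h0_2 := @iwRegFn563.eq_unfold
  have _h1_0 := @RegLPureC563.eq_1
  have _h1_1 := @RegLPureC563.eq_def
  have _h1_2 := @RegLPureC563.eq_unfold
  have _h2_0 := @RegLPureQC563.eq_1
  have _h2_1 := @RegLPureQC563.eq_def
  have _h2_2 := @RegLPureQC563.eq_unfold
  trivial

end Fermat.Agent.LT.T7.PT563

end

end
-- ===== PACK-END LT/T7/H563/PTSpec2.lean

-- ===== PACK-BEGIN LT/T7/H756/RegLPure.lean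
section






/-!
# LT T7.PT.6 `RegLPureC563` / `RegLPureQC563` (helper756, OFF-MAIN)

`regLPureC756 (K) : PT563.RegLPureC563 K`, `regLPureQC756 : PT563.RegLPureQC563` VERBATIM,
UNCONDITIONAL: the regular member `regL w z H k m` of a pure tensor with the Iwahori function at
`w` is the pure tensor with `iwRegFn563 (N w) k m` at `w`.

Proof.  A pure tensor is `ψ(y_w) · rest(y)` with `rest` left invariant under the elements
supported at `w` (`pure_update_eq756`, `rest_tr756`); so everything is the LOCAL identity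
`q^{-1/2} ∑_{h ∈ H} ψ_m (h_w⁻¹ x) = ψ_{m+1} (x)` (`iwReg_step756`), `ψ_m = iwRegFn563 q 0 m`, and
the shift by the scalar `z_w ^ k` (`iwReg_shift756`).  The double coset `I diag(ϖ^m, 1) I` is the
shape `IsSh756 m` (`IwShape.lean`); for `x` of the shape `m + 1` there is exactly one member `h`
of the system with `h_w⁻¹ x` of the shape `m` (existence: `exists_factor_sh756` + completeness
of the Iwahori coset systems, helper340 `iwCosetSystem_complete340`; uniqueness:
`val_res_of_factor756` + `isIwG340_inv_mul` of helper340); for the other `x` there is none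
(`isSh_mul756`).
-/

set_option autoImplicit false

open AutomorphicForm IsDedekindDomain NumberField

noncomputable section

namespace Fermat.Agent.LT.T7.H756

open Fermat.Agent.LT.H556 Fermat.Agent.LT.H556.A0 Fermat.Agent.LT.T7
open Fermat.Agent.LT.T7.H305 Fermat.Agent.LT.T7.H893 Fermat.Agent.LT.H129
open Fermat.Agent.LT.T7.H340 Fermat.Agent.LT.T7.MQ298
open Fermat.Agent.LT

variable {K : Type} [Field K] [NumberField K]

/-! ## 1. The local function -/

section Local

variable {k : Type} [Field k] [Valued k T6.Γ₀]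

/-- The Iwahori subgroup of helper893 is the Iwahori subgroup of helper340. -/
theorem inIw_iff756 (x : GL (Fin 2) k) : InIw893 x ↔ IsIwG340 (Valued.v : Valuation k _) x :=
  Iff.rfl

/-- The condition of `iwRegFn563` for `e = 0` is the shape of depth `m`. -/
theorem inD_zero_iff756 (m : ℕ) (x : GL (Fin 2) k) :
    (∃ (a b : GL (Fin 2) k) (c d : k), InIw893 a ∧ InIw893 b ∧
      Valued.v c = WithZero.exp (-(m : ℤ)) ∧ Valued.v d = WithZero.exp (-(0 : ℤ)) ∧
      (x : Matrix (Fin 2) (Fin 2) k)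
        = d • ((a : Matrix (Fin 2) (Fin 2) k) * !![c, 0; 0, 1]
          * (b : Matrix (Fin 2) (Fin 2) k)))
      ↔ IsSh756 (Valued.v : Valuation k _) m (x : Matrix (Fin 2) (Fin 2) k) := by
  constructor
  · rintro ⟨a, b, c, d, ha, hb, hc, hd, hx⟩
    have hd1 : Valued.v d = 1 := by rw [hd]; simp
    have hN : IsSh756 (Valued.v : Valuation k _) m
        ((a : Matrix (Fin 2) (Fin 2) k) * !![c, 0; 0, 1] * (b : Matrix (Fin 2) (Fin 2) k)) :=
      (isSh_iff_dbl756 m _).2 ⟨a, b, c, ha, hb, hc, rfl⟩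
    rw [hx]
    obtain ⟨hi, hdet, h10, h11⟩ := hN
    refine ⟨fun i j => ?_, ?_, ?_, ?_⟩
    · rw [Matrix.smul_apply, smul_eq_mul, map_mul, hd1, one_mul]; exact hi i j
    · rw [Matrix.det_smul, map_mul, map_pow, hd1, one_pow, one_mul]; exact hdet
    · rw [Matrix.smul_apply, smul_eq_mul, map_mul, hd1, one_mul]; exact h10
    · rw [Matrix.smul_apply, smul_eq_mul, map_mul, hd1, one_mul]; exact h11
  · intro h
    obtain ⟨a, b, c, ha, hb, hc, hx⟩ := (isSh_iff_dbl756 m _).1 h
    exact ⟨a, b, c, 1, ha, hb, hc, by simp, by rw [one_smul]; exact hx⟩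

open Classical in
theorem iwRegFn_zero_eq756 (q : ℕ) (m : ℕ) (x : GL (Fin 2) k) :
    PT563.iwRegFn563 q 0 m x
      = if IsSh756 (Valued.v : Valuation k _) m (x : Matrix (Fin 2) (Fin 2) k) then
          (((Real.sqrt (q : ℝ) : ℝ) : ℂ)⁻¹) ^ m else 0 := by
  unfold PT563.iwRegFn563
  exact if_congr (inD_zero_iff756 m x) rfl rfl

theorem iwRegFn_zero_zero756 (q : ℕ) : (PT563.iwRegFn563 q 0 0 : GL (Fin 2) k → ℂ) = iwFn893 := by
  classical
  funext x
  rw [iwRegFn_zero_eq756]
  unfold iwFn893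
  rw [pow_zero]
  exact if_congr ((isIwG_iff_sh756 x).symm.trans (inIw_iff756 x).symm) rfl rfl

/-- **The shift by a scalar.** -/
theorem iwReg_shift756 (q : ℕ) (m : ℕ) (e : ℤ) {c : k} (hc : Valued.v c = WithZero.exp (-1 : ℤ))
    {s : GL (Fin 2) k} (hs : (s : Matrix (Fin 2) (Fin 2) k) = Matrix.diagonal (fun _ => c))
    (x : GL (Fin 2) k) :
    PT563.iwRegFn563 q 0 m ((s ^ e)⁻¹ * x) = PT563.iwRegFn563 q e m x := by
  classical
  have hc0 : c ≠ 0 := by
    intro h; rw [h, map_zero] at hc; exact WithZero.exp_ne_zero.symm hc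
  -- `s` is the scalar `c`
  have hs' : s = Units.map (Matrix.scalar (Fin 2)).toMonoidHom (Units.mk0 c hc0) := by
    apply Units.ext
    rw [hs]
    rfl
  have hpow : (((s ^ e)⁻¹ : GL (Fin 2) k) : Matrix (Fin 2) (Fin 2) k)
      = Matrix.diagonal (fun _ => (c ^ e)⁻¹) := by
    rw [hs', ← map_zpow, ← map_inv]
    show Matrix.scalar (Fin 2) (((Units.mk0 c hc0 ^ e)⁻¹ : kˣ) : k) = _
    rw [Units.val_inv_eq_inv_val, Units.val_zpow_eq_zpow_val]
    rfl
  have hmat : (((s ^ e)⁻¹ * x : GL (Fin 2) k) : Matrix (Fin 2) (Fin 2) k)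
      = (c ^ e)⁻¹ • (x : Matrix (Fin 2) (Fin 2) k) := by
    rw [Matrix.GeneralLinearGroup.coe_mul, hpow, Matrix.smul_eq_diagonal_mul]
  have hce0 : c ^ e ≠ 0 := zpow_ne_zero e hc0
  have hvce : Valued.v (c ^ e) = WithZero.exp (-e) := by
    rw [map_zpow₀, hc, ← WithZero.exp_zsmul]
    congr 1
    simp
  unfold PT563.iwRegFn563
  refine if_congr ?_ rfl rfl
  constructor
  · rintro ⟨a, b, c₀, d, ha, hb, hc₀, hd, hx⟩
    refine ⟨a, b, c₀, c ^ e * d, ha, hb, hc₀, ?_, ?_⟩
    · rw [map_mul, hvce, hd]; simp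
    · rw [hmat] at hx
      rw [mul_smul, ← hx, smul_smul, mul_inv_cancel₀ hce0, one_smul]
  · rintro ⟨a, b, c₀, d, ha, hb, hc₀, hd, hx⟩
    refine ⟨a, b, c₀, (c ^ e)⁻¹ * d, ha, hb, hc₀, ?_, ?_⟩
    · rw [map_mul, map_inv₀, hvce, hd]
      simp
    · rw [hmat, hx, smul_smul]

end Local

/-! ## 2. The local identity for an Iwahori coset system -/

section Step

variable (w : HeightOneSpectrum (𝓞 K))

theorem finCompHom_eq_finGL756 (x : G K) : finCompHom129 w x = finGL305 w x :=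
  (finGL_eq_finCompHom756 w x).symm

/-- The element `[[π, r], [0, 1]]` at `w`, as an element of `I diag(ϖ, 1) I`. -/
theorem inIwahoriCoset_std756 {π r : w.adicCompletion K}
    (hπ : Valued.v π = WithZero.exp (-1 : ℤ)) (hr : Valued.v r ≤ 1) :
    T5.InIwahoriCoset w 1 (locFin129 w (upperU129 r
      * mkGL129 π 0 0 1 (by simpa using unif_ne_zero129 w hπ))) := by
  have hπ0 := unif_ne_zero129 w hπ
  refine ⟨locFin129 w (upperU129 r), 1, locFin129 w (mkGL129 π 0 0 1 (by simpa using hπ0)), π,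
    ?_, inIwahori_one340 w, ?_, ?_, ?_⟩
  · rw [inIwahori_iff340, finCompHom129_locFin129]
    exact isIwG340_upper hr
  · rw [hπ]; simp
  · rw [finComp_locFin129, coe_mkGL129]
  · exact congrArg (finComp w) ((mul_one _).trans (map_mul _ _ _).symm).symm

open Classical in
/-- **THE LOCAL IDENTITY**: `q^{-1/2} ∑_{h ∈ H} ψ_m (h_w⁻¹ x) = ψ_{m+1} (x)`. -/
theorem iwReg_step756 {H : Finset (G K)} (hH : IsIwCosetSystem w H) (q : ℕ) (m : ℕ)
    (x : GL (Fin 2) (w.adicCompletion K)) :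
    (((Real.sqrt (q : ℝ) : ℝ) : ℂ)⁻¹)
        * ∑ h ∈ H, PT563.iwRegFn563 q 0 m ((finGL305 w h)⁻¹ * x)
      = PT563.iwRegFn563 q 0 (m + 1) x := by
  have hT : ∀ h ∈ H, IsIwT340 (vw340 w) (finGL305 w h) := fun h hh => by
    rw [← finCompHom_eq_finGL756]
    exact isIwT340_of_inIwahoriCoset (hH.2.1 h hh).2
  -- a member with `h_w⁻¹ x` of the shape `m` forces the shape `m + 1`
  have hup : ∀ h ∈ H, IsSh756 (vw340 w) m
      (((finGL305 w h)⁻¹ * x : GL (Fin 2) (w.adicCompletion K)) :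
        Matrix (Fin 2) (Fin 2) (w.adicCompletion K)) →
      IsSh756 (vw340 w) (m + 1) (x : Matrix (Fin 2) (Fin 2) (w.adicCompletion K)) := by
    intro h hh hsh
    have h1 := isSh_mul756 (isSh_of_isIwT756 (hT h hh)) hsh
    rw [← Matrix.GeneralLinearGroup.coe_mul, mul_inv_cancel_left, add_comm] at h1
    exact h1
  simp only [iwRegFn_zero_eq756]
  by_cases hx : IsSh756 (vw340 w) (m + 1) (x : Matrix (Fin 2) (Fin 2) (w.adicCompletion K))
  · rw [if_pos hx]
    -- existence
    obtain ⟨π, hπ⟩ := exists_unif129 w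
    have hπ0 := unif_ne_zero129 w hπ
    obtain ⟨r, y, hr, hy, hxy⟩ := exists_factor_sh756 (v := vw340 w) hπ hx
    obtain ⟨h₀, hh₀, hin, -, -⟩ := iwCosetSystem_complete340 hH (inIwahoriCoset_std756 w hπ hr)
    rw [inIwahori_iff340, map_mul, map_inv, finCompHom129_locFin129,
      finCompHom_eq_finGL756] at hin
    have hg₁ : ((upperU129 r * mkGL129 π 0 0 1 (by simpa using hπ0) :
        GL (Fin 2) (w.adicCompletion K)) : Matrix (Fin 2) (Fin 2) (w.adicCompletion K))
        = !![π, r; 0, 1] := by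
      rw [upper_mul_diag340 hπ0, coe_mkGL129]
    have hP₀ : IsSh756 (vw340 w) m
        (((finGL305 w h₀)⁻¹ * x : GL (Fin 2) (w.adicCompletion K)) :
          Matrix (Fin 2) (Fin 2) (w.adicCompletion K)) := by
      have e : (((finGL305 w h₀)⁻¹ * x : GL (Fin 2) (w.adicCompletion K)) :
          Matrix (Fin 2) (Fin 2) (w.adicCompletion K))
          = (((finGL305 w h₀)⁻¹ * (upperU129 r * mkGL129 π 0 0 1 (by simpa using hπ0)) :
              GL (Fin 2) (w.adicCompletion K)) :
              Matrix (Fin 2) (Fin 2) (w.adicCompletion K)) * y := by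
        rw [Matrix.GeneralLinearGroup.coe_mul, Matrix.GeneralLinearGroup.coe_mul, hg₁,
          Matrix.mul_assoc, ← hxy]
      rw [e]
      exact isSh_zero_mul756 (isSh_of_isIwG756 hin) hy
    -- uniqueness
    have huniq : ∀ h ∈ H, h ≠ h₀ → ¬ IsSh756 (vw340 w) m
        (((finGL305 w h)⁻¹ * x : GL (Fin 2) (w.adicCompletion K)) :
          Matrix (Fin 2) (Fin 2) (w.adicCompletion K)) := by
      intro h hh hne hsh
      apply hH.2.2 h hh h₀ hh₀ hne
      rw [inIwahori_iff340, map_mul, map_inv, finCompHom_eq_finGL756, finCompHom_eq_finGL756]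
      refine isIwG340_inv_mul (hT h hh) (hT h₀ hh₀)
        (val_res_of_factor756 (hT h hh) (hT h₀ hh₀) hsh hP₀ ?_)
      rw [← Matrix.GeneralLinearGroup.coe_mul, ← Matrix.GeneralLinearGroup.coe_mul,
        mul_inv_cancel_left, mul_inv_cancel_left]
    rw [Finset.sum_eq_single h₀ (fun h hh hne => if_neg (huniq h hh hne))
      (fun hnot => absurd hh₀ hnot), if_pos hP₀, pow_succ']
  · rw [if_neg hx, Finset.sum_eq_zero (fun h hh => if_neg (fun hsh => hx (hup h hh hsh))),
      mul_zero]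

end Step

/-! ## 3. The abstract form of the leaf -/

theorem isLocalAtFin_zpow756 {w : HeightOneSpectrum (𝓞 K)} {z : G K} (hz : IsLocalAtFin w z)
    (e : ℤ) : IsLocalAtFin w (z ^ e) := by
  refine ⟨fun w' => ?_, fun v hv => ?_⟩
  · rw [trivAtInf_iff_infGL756, map_zpow, (trivAtInf_iff_infGL756 w' z).1 (hz.1 w'), one_zpow]
  · rw [trivAtFin_iff_finGL756, map_zpow, (trivAtFin_iff_finGL756 v z).1 (hz.2 v hv), one_zpow]

/-- **The abstract form**: for a functional `E ψ y = ψ (y_w) · rest y` with `rest` left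
invariant under the elements supported at `w`. -/
theorem regL_abs756 {w : HeightOneSpectrum (𝓞 K)} {z : G K} {H : Finset (G K)}
    (hH : IsIwCosetSystem w H) (hz : IsScalarUniformizerAt w z)
    (E : (GL (Fin 2) (w.adicCompletion K) → ℂ) → G K → ℂ) (rest : G K → ℂ)
    (hE : ∀ ψ y, E ψ y = ψ (finGL305 w y) * rest y)
    (hrest : ∀ h y : G K, IsLocalAtFin w h → rest (h⁻¹ * y) = rest y) (e : ℤ) (m : ℕ)
    (y : G K) :
    regL w z H e m (E iwFn893) y
      = E (PT563.iwRegFn563 (Ideal.absNorm w.asIdeal) e m) y := by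
  have hiter : ∀ (m : ℕ) (y : G K), ((iwL w H)^[m] (E iwFn893)) y
      = PT563.iwRegFn563 (Ideal.absNorm w.asIdeal) 0 m (finGL305 w y) * rest y := by
    intro m
    induction m with
    | zero =>
      intro y
      rw [Function.iterate_zero, id, hE, iwRegFn_zero_zero756]
    | succ m ih =>
      intro y
      rw [Function.iterate_succ_apply']
      show ((Real.sqrt (Ideal.absNorm w.asIdeal : ℝ) : ℝ) : ℂ)⁻¹
        * ∑ h ∈ H, ((iwL w H)^[m] (E iwFn893)) (h⁻¹ * y) = _
      have hsum : ∀ h ∈ H, ((iwL w H)^[m] (E iwFn893)) (h⁻¹ * y)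
          = PT563.iwRegFn563 (Ideal.absNorm w.asIdeal) 0 m
              ((finGL305 w h)⁻¹ * finGL305 w y) * rest y := by
        intro h hh
        rw [ih, map_mul, map_inv, hrest h y (hH.2.1 h hh).1]
      rw [Finset.sum_congr rfl hsum, ← Finset.sum_mul, ← mul_assoc, iwReg_step756 w hH]
  obtain ⟨hzloc, c, hc, hzc⟩ := hz
  show ((iwL w H)^[m] (E iwFn893)) ((z ^ e)⁻¹ * y) = _
  rw [hiter, hE, hrest _ y (isLocalAtFin_zpow756 hzloc e), map_mul, map_inv, map_zpow,
    iwReg_shift756 _ m e hc (s := finGL305 w z) (by rw [coe_finGL756]; exact hzc)]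

/-! ## 4. Pure tensors -/

section Pure

variable [DecidableEq (HeightOneSpectrum (𝓞 K))]

open Classical in
/-- The part of a pure tensor outside `w`. -/
def rest756 (T : Finset (HeightOneSpectrum (𝓞 K))) (w : HeightOneSpectrum (𝓞 K))
    (f₀ : ∀ v : HeightOneSpectrum (𝓞 K), GL (Fin 2) (v.adicCompletion K) → ℂ)
    (A : G K → ℂ) (y : G K) : ℂ :=
  if OutT305 T y then (∏ v ∈ T.erase w, f₀ v (finGL305 v y)) * A y else 0

theorem prod_update756 {T : Finset (HeightOneSpectrum (𝓞 K))} {w : HeightOneSpectrum (𝓞 K)}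
    (hw : w ∈ T)
    (f₀ : ∀ v : HeightOneSpectrum (𝓞 K), GL (Fin 2) (v.adicCompletion K) → ℂ)
    (ψ : GL (Fin 2) (w.adicCompletion K) → ℂ) (y : G K) :
    (∏ v ∈ T, Function.update f₀ w ψ v (finGL305 v y))
      = ψ (finGL305 w y) * ∏ v ∈ T.erase w, f₀ v (finGL305 v y) := by
  rw [← Finset.mul_prod_erase T _ hw, Function.update_self]
  congr 1
  refine Finset.prod_congr rfl fun v hv => ?_
  rw [Function.update_of_ne (Finset.ne_of_mem_erase hv)]

theorem rest_tr756 {T : Finset (HeightOneSpectrum (𝓞 K))} {w : HeightOneSpectrum (𝓞 K)}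
    (hw : w ∈ T)
    (f₀ : ∀ v : HeightOneSpectrum (𝓞 K), GL (Fin 2) (v.adicCompletion K) → ℂ)
    (A : G K → ℂ) (hA : ∀ h y : G K, IsLocalAtFin w h → A (h⁻¹ * y) = A y)
    (h y : G K) (hh : IsLocalAtFin w h) :
    rest756 T w f₀ A (h⁻¹ * y) = rest756 T w f₀ A y := by
  have htriv : ∀ v : HeightOneSpectrum (𝓞 K), v ≠ w → finGL305 v h = 1 := fun v hv =>
    (trivAtFin_iff_finGL756 v h).1 (hh.2 v hv)
  have hout : OutT305 T (h⁻¹ * y) ↔ OutT305 T y := by
    refine outT_inv_mul_iff756 (fun v hv => ?_) y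
    rw [htriv v (fun e => hv (e ▸ hw))]
    exact T6.H777.inU_one777 0
  unfold rest756
  by_cases hy : OutT305 T y
  · rw [if_pos hy, if_pos (hout.2 hy), hA h y hh]
    congr 1
    refine Finset.prod_congr rfl fun v hv => ?_
    rw [map_mul, map_inv, htriv v (Finset.ne_of_mem_erase hv), inv_one, one_mul]
  · rw [if_neg hy, if_neg (fun h' => hy (hout.1 h'))]

end Pure

/-- **LEAF T7.PT.6 `RegLPureC563`.** -/
theorem regLPureC756 (K : Type) [Field K] [NumberField K] : PT563.RegLPureC563 K := by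
  classical
  intro w z H hH hz T hw f₀ F hf₀ e m y
  have hE : ∀ (ψ : GL (Fin 2) (w.adicCompletion K) → ℂ) (y : G K),
      pure305 T (Function.update f₀ w ψ) F y
        = ψ (finGL305 w y)
          * rest756 T w f₀ (fun y => ∏ w' : InfinitePlace K, F w' (infGL305 w' y)) y := by
    intro ψ y
    unfold pure305 rest756
    by_cases hy : OutT305 T y
    · rw [if_pos hy, if_pos hy, prod_update756 hw, mul_assoc]
    · rw [if_neg hy, if_neg hy, mul_zero]
  have hA : ∀ h y : G K, IsLocalAtFin w h →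
      (fun y => ∏ w' : InfinitePlace K, F w' (infGL305 w' y)) (h⁻¹ * y)
        = (fun y => ∏ w' : InfinitePlace K, F w' (infGL305 w' y)) y := by
    intro h y hh
    refine Finset.prod_congr rfl fun w' _ => ?_
    rw [map_mul, map_inv, (trivAtInf_iff_infGL756 w' h).1 (hh.1 w'), inv_one, one_mul]
  have h0 : pure305 T f₀ F = pure305 T (Function.update f₀ w iwFn893) F := by
    rw [← hf₀, Function.update_eq_self]
  rw [h0]
  exact regL_abs756 hH hz (fun ψ => pure305 T (Function.update f₀ w ψ) F) _ hE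
    (fun h y hh => rest_tr756 hw f₀ _ hA h y hh) e m y

/-- An element supported at a finite place is trivial at the real place of `ℚ`. -/
theorem reGLQ_eq_one756 {w : HeightOneSpectrum (𝓞 ℚ)} {h : G ℚ} (hh : IsLocalAtFin w h) :
    reGLQ298 h = 1 := by
  apply Units.ext
  ext i j
  show reHomQ298 ((h : Matrix (Fin 2) (Fin 2) (Adl ℚ)) i j) = _
  have h1 := hh.1 Rat.infinitePlace i j
  show (InfinitePlace.Completion.extensionEmbeddingOfIsReal Rat.isReal_infinitePlace)
    (((h : Matrix (Fin 2) (Fin 2) (Adl ℚ)) i j).1 Rat.infinitePlace) = _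
  rw [h1]
  by_cases hij : i = j
  · subst hij; simp
  · simp [Matrix.one_apply, hij]

/-- **LEAF T7.PT.6Q `RegLPureQC563`.** -/
theorem regLPureQC756 : PT563.RegLPureQC563 := by
  classical
  intro w z H hH hz T hw f₀ F hf₀ e m y
  have hE : ∀ (ψ : GL (Fin 2) (w.adicCompletion ℚ) → ℂ) (y : G ℚ),
      pureQ298 T (Function.update f₀ w ψ) F y
        = ψ (finGL305 w y) * rest756 T w f₀ (fun y => F (reGLQ298 y)) y := by
    intro ψ y
    unfold pureQ298 rest756
    by_cases hy : OutT305 T y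
    · rw [if_pos hy, if_pos hy, prod_update756 hw, mul_assoc]
    · rw [if_neg hy, if_neg hy, mul_zero]
  have hA : ∀ h y : G ℚ, IsLocalAtFin w h →
      (fun y => F (reGLQ298 y)) (h⁻¹ * y) = (fun y => F (reGLQ298 y)) y := by
    intro h y hh
    show F (reGLQ298 (h⁻¹ * y)) = F (reGLQ298 y)
    rw [map_mul, map_inv, reGLQ_eq_one756 hh, inv_one, one_mul]
  have h0 : pureQ298 T f₀ F = pureQ298 T (Function.update f₀ w iwFn893) F := by
    rw [← hf₀, Function.update_eq_self]
  rw [h0]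
  exact regL_abs756 hH hz (fun ψ => pureQ298 T (Function.update f₀ w ψ) F) _ hE
    (fun h y hh => rest_tr756 hw f₀ _ hA h y hh) e m y

end Fermat.Agent.LT.T7.H756

end

end
-- ===== PACK-END LT/T7/H756/RegLPure.lean

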