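import Mathlib
import Fermat.Agent.Pack.LT2.E20L0
import Fermat.Agent.Pack.LT4.E9L3
import Fermat.Agent.Pack.LT4.E9L1
import Fermat.Agent.Pack.LT4.E7L3
import Fermat.Agent.Pack.LT4.E5L3
import Fermat.Agent.Pack.LT3.E19L0
import Fermat.Agent.Pack.LT3.E20L3
import Fermat.Agent.Pack.LT4.E8L0
import Fermat.Agent.Pack.LT4.E6L3
import Fermat.Agent.Pack.LT4.E4L2
import Fermat.Agent.Pack.LT2.E7L2
import Fermat.Agent.Pack.LT4.E2L3
import Fermat.Agent.Pack.LT4.E3L3
import Fermat.Agent.Pack.LT4.E8L2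
import Fermat.Agent.Pack.LT3.E19L1
import Fermat.Agent.Pack.LT4.E1L3
import Fermat.Agent.Pack.LT4.E1L1
import Fermat.Agent.Pack.LT4.E9L0

set_option linter.all false

-- ===== PACK-BEGIN LT/CFT/H119/CycVanish.lean
section



/-!
# Row LT, tower CFT (architect helper53): leaf CYC-VANISH `CycVanishC`, PROVED (helper119)

`cycVanish119 : Fermat.Agent.LT.CFT.CycVanishC` (bytes of `LT/CFT/SpecH.lean`, helper53):
for a cyclic group `G` of ANY order acting faithfully on a number field `L`, `L^G` totally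
complex, `S ≠ ∅`, `L / L^G` unramified outside `S`:
`H¹(G, C_S(L)) = 0` and `|H²(G, C_S(L))| = |G|`.

Proof: the first inequality `|H²| = n · |H¹|` (`firstIneqCyc_admTC119`, from the Herbrand form
on main, `∏_{v | ∞} n_v = 1`) and the second inequality `|H²| ≤ n` (`secondIneqCyc119`: the
analytic index bound `H963.Br.indexBound` of main for the norm subgroup, Galois descent
`DescH773`, `T.H895.cyclicCard`).

Also `secondIneqCyc119` (no condition at infinity) and the odd analogue `cycVanish_odd119`.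
Imports: `SpecH.lean` (byte copy) + plain files on main only.
-/

set_option autoImplicit false
set_option linter.style.haveILetI false
set_option linter.unusedSectionVars false

open scoped NumberField TensorProduct Pointwise
open IsDedekindDomain CategoryTheory groupCohomology NumberField
open Fermat.Agent.S55 Fermat.Agent.S55.G Fermat.Agent.S55.G.UpH119
open Fermat.Agent.S55.G.DescH773 Fermat.Agent.S55.G.SI777

noncomputable section

namespace Fermat.Agent.LT.CFT.H119

/-- **Second inequality, cyclic groups of ANY order** (no condition at infinity, no root of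
unity): `H²(G, C_S(L))` is finite of order at most `|G|`. -/
theorem secondIneqCyc119 (S : Finset Nat.Primes) (G L : Type) [Group G] [Finite G]
    [IsCyclic G] [Field L] [NumberField L] [MulSemiringAction G L] [FaithfulSMul G L]
    (hS : S.Nonempty) (hunr : IsUnramOut S G L) :
    Finite (groupCohomology (CRep S G L) 2) ∧
      Nat.card (groupCohomology (CRep S G L) 2) ≤ Nat.card G := by
  have hB : IndexBoundStatement := Fermat.Agent.S55.H963.Br.indexBound
  have hT : T.CyclicCardSpec := T.H895.cyclicCard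
  let _ : Fintype G := Fintype.ofFinite G
  have hin : ∀ w : HeightOneSpectrum (𝓞 L), ¬ IsAbove S L w →
      ∀ g : G, (∀ x : 𝓞 L, g • x - x ∈ w.asIdeal) → g = 1 := by
    intro w hw g hg
    exact FaithfulSMul.eq_of_smul_eq_smul (α := L) (fun x => by rw [hunr w hw g hg x, one_smul])
  have hur : ∀ w : PrimeOut S L, eAt (FixedPoints.subfield G L) w.1 = 1 :=
    fun w => SI777.eAt_eq_one_of_inertia G (FixedPoints.subfield G L) w.1 (hin w.1 w.2)
  have hfin : Module.finrank (FixedPoints.subfield G L) L = Nat.card G := by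
    rw [← IsGaloisGroup.card_eq_finrank G]
  have hcardF : Fintype.card G = Nat.card G := by rw [← Nat.card_eq_fintype_card]
  have hpmem : ∀ c : CS S (FixedPoints.subfield G L),
      Nat.card G • c ∈ normSub S G (FixedPoints.subfield G L) L :=
    fun c => hcardF ▸ card_smul_mem_normSub S G (FixedPoints.subfield G L) L c
  obtain ⟨h0, hle⟩ := hB S (FixedPoints.subfield G L) L (Nat.card G) Nat.card_pos hS
    (normSub S G (FixedPoints.subfield G L) L) hpmem
    (fun w hw => single_mem_normSub S G (FixedPoints.subfield G L) L hur w (fun g hg =>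
      stabilizer_trivial G (FixedPoints.subfield G L) w.1 (hin w.1 w.2)
        (inertiaDeg_eq_one_of_absNorm_prime (FixedPoints.subfield G L) w.1 hw) g
        (congrArg Subtype.val hg)))
  rw [hfin] at hle
  have hH2 : Nat.card (groupCohomology (CRep S G L) 2) =
      (normSub S G (FixedPoints.subfield G L) L).index := by
    rw [(hT ℤ G (CRep S G L)).1]
    exact relIndex_norm_invariants S G (FixedPoints.subfield G L) L hS hur
  exact ⟨Nat.finite_of_card_ne_zero (hH2 ▸ h0), hH2 ▸ hle⟩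

/-- The cyclic layer from the two inequalities: `H¹ = 0` and `|H²| = n`. -/
theorem cyc_of_inequalities119 (S : Finset Nat.Primes) (G L : Type) [Group G] [Finite G]
    [IsCyclic G] [Field L] [NumberField L] [MulSemiringAction G L] [FaithfulSMul G L]
    (hS : S.Nonempty) (hunr : IsUnramOut S G L)
    (hFI : Finite (groupCohomology (CRep S G L) 1) ∧ Finite (groupCohomology (CRep S G L) 2) ∧
      Nat.card (groupCohomology (CRep S G L) 2) =
        Nat.card G * Nat.card (groupCohomology (CRep S G L) 1)) :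
    Limits.IsZero (groupCohomology (CRep S G L) 1) ∧
      Nat.card (groupCohomology (CRep S G L) 2) = Nat.card G := by
  obtain ⟨hf1, _, hc⟩ := hFI
  obtain ⟨_, hle⟩ := secondIneqCyc119 S G L hS hunr
  have hpos1 : 0 < Nat.card (groupCohomology (CRep S G L) 1) := Nat.card_pos
  have hn : 0 < Nat.card G := Nat.card_pos
  rw [hc] at hle
  have h1 : Nat.card (groupCohomology (CRep S G L) 1) = 1 := by
    have : Nat.card (groupCohomology (CRep S G L) 1) ≤ 1 := by
      by_contra hcon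
      rw [not_le] at hcon
      have : Nat.card G * 2 ≤ Nat.card G * Nat.card (groupCohomology (CRep S G L) 1) :=
        Nat.mul_le_mul_left _ hcon
      omega
    omega
  refine ⟨?_, ?_⟩
  · rw [ModuleCat.isZero_iff_subsingleton]
    exact (Nat.card_eq_one_iff_unique.1 h1).1
  · rw [hc, h1, mul_one]

/-- **Leaf CYC-VANISH** (helper53 `SpecH.lean`), PROVED: the cyclic layer for a cyclic group of
ANY order over a totally complex base. -/
theorem cycVanish119 : Fermat.Agent.LT.CFT.CycVanishC := by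
  intro S G L _ _ _ _ _ _ _ hTC hS hunr
  have hA : admTC119 G L := (admTC_iff119 G L).2 (fun v => hTC.isComplex v)
  exact cyc_of_inequalities119 S G L hS hunr
    (firstIneqCyc_admTC119 (Nat.card G) S G L hA hS rfl)

/-- The odd analogue (no condition at infinity): cyclic groups of odd order. -/
theorem cycVanish_odd119 (S : Finset Nat.Primes) (G L : Type) [Group G] [Finite G]
    [IsCyclic G] [Field L] [NumberField L] [MulSemiringAction G L] [FaithfulSMul G L]
    (hodd : Odd (Nat.card G)) (hS : S.Nonempty) (hunr : IsUnramOut S G L) :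
    Limits.IsZero (groupCohomology (CRep S G L) 1) ∧
      Nat.card (groupCohomology (CRep S G L) 2) = Nat.card G :=
  cyc_of_inequalities119 S G L hS hunr
    (FIClosedH604.firstInequalityCyc (Nat.card G) hodd S G L hS rfl)

end Fermat.Agent.LT.CFT.H119

end
end
-- ===== PACK-END LT/CFT/H119/CycVanish.lean

-- ===== PACK-BEGIN LT/T7/H309/Dn2Wfn.lean
section




/-!
# Row LT, tower T7, leaf T7.L2.1.H2a.4.5.B `Dn2WfnC309` (helper309, spare of registry 3030)

OFF-MAIN.  PROVED, nothing assumed: `dn2WfnC309 K K' : Dn2WfnC309 K K'` VERBATIM (field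
`dn2_wfn` of `B970.IsDn2_970` for `f₂ = c · nat193 a D (wsum970 s β (F₁ []))`).

`R(f₂) ψ = c ∑_{x ∈ s} β(x) (R(F₁ []) ψ)(· x)` (`rconv_f2_309`: `nat_facts309`, clause 5, and
`H553.Rconv_wsumDC553` of helper553); `E = R(F₁ []) ψ` is an invariant cusp function
(`dn1_wfn`); the right translates by elements trivial at infinity keep the continuity, the
bounds, the left invariance under `GL₂(K)`, the cuspidality (helper886 `CuspAlg`), the invariance
under the ray, the compact groups and the positive scalars at infinity; the right invariance of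
`R(f₂) ψ` under `U(𝔫)` and the Iwahori subgroup at `u` comes from the LEFT invariance of `f₂`
(`dn2NatC309`, clause `dn2_inv`) and the left invariance of the Haar measure
(`rconv_right_inv309`).
-/

set_option autoImplicit false
set_option linter.unusedSectionVars false

open AutomorphicForm IsDedekindDomain NumberField MeasureTheory
open scoped ComplexConjugate

noncomputable section

namespace Fermat.Agent.LT.T7.H309.Dn2

open Fermat.Agent.LT.H556 Fermat.Agent.LT.H556.A0 Fermat.Agent.LT.T7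
open Fermat.Agent.LT.T7.H305 Fermat.Agent.LT.T7.H893 Fermat.Agent.LT.T7.B981
open Fermat.Agent.LT.T7.B970 Fermat.Agent.LT

attribute [local instance] Fermat.Agent.LT.T5.instMeasurableSpaceG

section OneField

variable {K : Type} [Field K] [NumberField K]

/-- `R(f) ψ` is right invariant under `h` if `f` is left invariant under `h`. -/
theorem rconv_right_inv309 {μ : Measure (G K)} (hμ : μ.IsHaarMeasure) {f ψ : G K → ℂ}
    {h : G K} (hf : ∀ y : G K, f (h * y) = f y) (g : G K) :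
    T5.Rconv μ f ψ (g * h) = T5.Rconv μ f ψ g := by
  have : BorelSpace (G K) := ⟨rfl⟩
  have h1 := integral_mul_left_eq_self (μ := μ) (fun y => f y * ψ (g * y)) h
  show ∫ y, f y * ψ (g * h * y) ∂μ = ∫ y, f y * ψ (g * y) ∂μ
  rw [← h1]
  refine integral_congr_ae (Filter.Eventually.of_forall fun y => ?_)
  show f y * ψ (g * h * y) = f (h * y) * ψ (g * (h * y))
  rw [hf, mul_assoc]

/-- The weighted sum of right translates of a continuous bounded cuspidal function is
cuspidal. -/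
theorem cuspidal_wsum309 {E : G K → ℂ} (hc : Continuous E) {C : ℝ}
    (hb : ∀ g : G K, ‖E g‖ ≤ C) (hE : IsCuspidalFn E) (β : G K → ℂ) (s : Finset (G K)) :
    IsCuspidalFn (fun g : G K => ∑ x ∈ s, β x * E (g * x)) ∧
      Continuous (fun g : G K => ∑ x ∈ s, β x * E (g * x)) ∧
      ∃ C' : ℝ, ∀ g : G K, ‖∑ x ∈ s, β x * E (g * x)‖ ≤ C' := by
  classical
  induction s using Finset.induction_on with
  | empty =>
    refine ⟨?_, ?_, 0, fun g => ?_⟩
    · show IsCuspidalFn (fun _ : G K => (0 : ℂ))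
      exact T2.H886.isCuspidalFn_zero886
    · show Continuous (fun _ : G K => (0 : ℂ))
      exact continuous_const
    · rw [Finset.sum_empty, norm_zero]
  | insert a s ha ih =>
    obtain ⟨h1, h2, C', h3⟩ := ih
    have e : (fun g : G K => ∑ x ∈ insert a s, β x * E (g * x))
        = fun g : G K => β a * E (g * a) + ∑ x ∈ s, β x * E (g * x) := by
      funext g
      rw [Finset.sum_insert ha]
    rw [e]
    have ca : Continuous fun g : G K => β a * E (g * a) :=
      continuous_const.mul (hc.comp (continuous_id.mul continuous_const))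
    have ba : ∀ g : G K, ‖β a * E (g * a)‖ ≤ ‖β a‖ * C := fun g => by
      rw [norm_mul]
      exact mul_le_mul_of_nonneg_left (hb _) (norm_nonneg _)
    refine ⟨T2.H886.isCuspidalFn_add886 (φ := fun g => β a * E (g * a))
      (ψ := fun g => ∑ x ∈ s, β x * E (g * x)) ca ba h2 h3
      (T2.H886.isCuspidalFn_const_mul886 (β a) (T2.H886.isCuspidalFn_shift886 a hE)) h1,
      ca.add h2, ‖β a‖ * C + C', fun g => ?_⟩
    rw [Finset.sum_insert ha]
    exact (norm_add_le _ _).trans (add_le_add (ba g) (h3 g))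

end OneField

section Main

variable {K K' : Type} [Field K] [NumberField K] [Field K'] [NumberField K'] [Algebra K K']
variable {ℓ : ℕ} {Φ : HeckeEigensystem K' ℂ} {B : L2Base K K'} {𝔫 : Ideal (𝓞 K)}
  {μc : @Measure (GL (Fin 2) ℂ) (borel _)} {T₀ : Finset (HeightOneSpectrum (𝓞 K))}
  {n n₀ : HeightOneSpectrum (𝓞 K') → ℕ} {m : HeightOneSpectrum (𝓞 K) → ℕ}
  {a : (InfinitePlace K → ℝ) → G K} {D : Set (InfinitePlace K → ℝ)}
  {a' : (InfinitePlace K' → ℝ) → G K'} {D' : Set (InfinitePlace K' → ℝ)}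
  {s : Finset (G K)} {β : G K → ℂ}
  {b : ∀ v : HeightOneSpectrum (𝓞 K), GL (Fin 2) (v.adicCompletion K) → ℂ}
  {c₁ : EigData K' → ℂ} {Φ₁ : List (Gen K') → G K' → ℂ} {F₁ : List (Gen K') → G K → ℂ}

/-- **The operator of `f₂`** on the continuous functions invariant under the positive scalars
at infinity. -/
theorem rconv_f2_309 (hyp : IsDn2Hyp309 ℓ Φ B 𝔫 μc T₀ n n₀ m a D a' D' s β b c₁ Φ₁ F₁)
    (c : ℂ) {ψ : G K → ℂ} (hψc : Continuous ψ)
    (hψs : ∀ (w : InfinitePlace K) (z : G K), IsArchPosScalar w z →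
      ∀ g : G K, ψ (g * z) = ψ g) (g : G K) :
    T5.Rconv B.R.μ (fun h => c * H193.nat193 a D (wsum970 s β (F₁ [])) h) ψ g
      = c * ∑ x ∈ s, β x * T5.Rconv B.R.μ (F₁ []) ψ (g * x) := by
  have hFt : T5.IsTestFn 𝔫 T5.trivType (F₁ []) :=
    hyp.pair.dn1_test [] (fun x hx => absurd hx (List.not_mem_nil))
  have h1 : T5.Rconv B.R.μ (fun h => c * H193.nat193 a D (wsum970 s β (F₁ [])) h) ψ g
      = c * T5.Rconv B.R.μ (H193.nat193 a D (wsum970 s β (F₁ []))) ψ g := by
    show ∫ y, c * H193.nat193 a D (wsum970 s β (F₁ [])) y * ψ (g * y) ∂B.R.μ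
      = c * ∫ y, H193.nat193 a D (wsum970 s β (F₁ [])) y * ψ (g * y) ∂B.R.μ
    rw [← integral_const_mul]
    refine integral_congr_ae (Filter.Eventually.of_forall fun y => ?_)
    show c * H193.nat193 a D (wsum970 s β (F₁ [])) y * ψ (g * y)
      = c * (H193.nat193 a D (wsum970 s β (F₁ [])) y * ψ (g * y))
    rw [mul_assoc]
  rw [h1, (nat_facts309 hyp).2.2.2.2.1 ψ hψc hψs g,
    H553.Rconv_wsumDC553 hyp.base.frame.frame s β hFt.cont hFt.supp hψc g]
  rfl

end Main

/-- **LEAF D2.B `Dn2WfnC309`.** -/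
theorem dn2WfnC309 (K K' : Type) [Field K] [NumberField K] [Field K'] [NumberField K']
    [Algebra K K'] : Dn2WfnC309 K K' := by
  intro ℓ Φ B 𝔫 μc T₀ n n₀ m a D a' D' s β b c₁ Φ₁ F₁ hyp c ψ hψ
  have hE := hyp.pair.dn1_wfn ψ hψ
  obtain ⟨C, hC⟩ := hE.cusp.bdd
  obtain ⟨-, -, hinv, -⟩ := dn2NatC309 K K' ℓ Φ B 𝔫 μc T₀ n n₀ m a D a' D' s β b c₁ Φ₁ F₁ hyp c
  have hμ : B.R.μ.IsHaarMeasure := hyp.base.frame.frame.haar
  have hr : T5.IsRayGen B.R.r := hyp.base.frame.ray
  have hx : ∀ x ∈ s, ∀ w : InfinitePlace K, TrivAtInf w x := fun x hx => (hyp.wt.supp x hx).1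
  have hΘ : ∀ g : G K,
      T5.Rconv B.R.μ (fun h => c * H193.nat193 a D (wsum970 s β (F₁ [])) h) ψ g
        = c * ∑ x ∈ s, β x * T5.Rconv B.R.μ (F₁ []) ψ (g * x) :=
    fun g => rconv_f2_309 hyp c hψ.cusp.cont hψ.arch_scalar g
  have key : T5.Rconv B.R.μ (fun h => c * H193.nat193 a D (wsum970 s β (F₁ [])) h) ψ
      = fun g => c * ∑ x ∈ s, β x * T5.Rconv B.R.μ (F₁ []) ψ (g * x) := funext hΘ
  obtain ⟨hcu, hco, C', hbd⟩ := cuspidal_wsum309 hE.cusp.cont hC hE.cusp.cuspidal β s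
  refine ⟨⟨?_, ?_, ⟨?_, ?_, ?_, ?_⟩, ?_⟩, ?_, ?_⟩
  · rw [key]
    exact continuous_const.mul hco
  · refine ⟨‖c‖ * C', fun g => ?_⟩
    rw [hΘ g, norm_mul]
    exact mul_le_mul_of_nonneg_left (hbd g) (norm_nonneg c)
  · intro γ g
    rw [hΘ (T5.ratG γ * g), hΘ g]
    refine congrArg (fun t => c * t) (Finset.sum_congr rfl fun x _ => ?_)
    rw [mul_assoc, hE.cusp.aut.left_inv γ (g * x)]
  · intro u hu g
    exact rconv_right_inv309 hμ (fun y => (hinv.1 u hu y).1) g
  · intro w k hk g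
    have e1 : T5.trivType k = 1 := rfl
    rw [hΘ (g * k), hΘ g, e1, one_mul]
    refine congrArg (fun t => c * t) (Finset.sum_congr rfl fun x hxs => ?_)
    rw [mul_assoc, ← H311.commute_fin_inf311 (hx x hxs) hk.1.2, ← mul_assoc,
      hE.cusp.aut.arch_compact w k hk (g * x), e1, one_mul]
  · intro g
    rw [hΘ (g * B.R.r), hΘ g]
    refine congrArg (fun t => c * t) (Finset.sum_congr rfl fun x hxs => ?_)
    rw [mul_assoc, ← H311.commute_fin_inf311 (hx x hxs) hr.1, ← mul_assoc,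
      hE.cusp.aut.ray (g * x)]
  · rw [key]
    exact T2.H886.isCuspidalFn_const_mul886 c hcu
  · intro w z hz g
    rw [hΘ (g * z), hΘ g]
    refine congrArg (fun t => c * t) (Finset.sum_congr rfl fun x hxs => ?_)
    rw [mul_assoc, ← H311.commute_fin_inf311 (hx x hxs) hz.1.2, ← mul_assoc,
      hE.arch_scalar w z hz (g * x)]
  · intro h h1 h2 h3 g
    exact rconv_right_inv309 hμ (fun y => (hinv.2 h h1 h2 h3 y).1) g

end Fermat.Agent.LT.T7.H309.Dn2

end

end
-- ===== PACK-END LT/T7/H309/Dn2Wfn.lean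

-- ===== PACK-BEGIN LT/T7/H216/StepTQSpec.lean
section




/-!
# Row LT, tower T7, node T7.L2Q.1.H2a.A.1 `PQ484.StepTQC484` (sub-architect helper216, registry
# row 2955): THE CUT over `ℚ` -- Spec

OFF-MAIN.  Definitions and frozen Props only (the proved top is `StepTQTop.lean`).  No hole,
nothing assumed.  ADDITIVE (new names only, suffix `216`, namespace
`Fermat.Agent.LT.T7.TQ216`).  Vocabulary: `T7/H484/PairAQSpec.lean` (helper484, sha256 2232ea92)
and `T7/H589/StepTSpec.lean` (helper589, sha256 f2cef127) with their imports, byte-identical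
copies.

PORT over `ℚ` (`ℓ = 2`, TWO `K_∞`-types `w0`, `w1` downstairs) of the cut of helper589 of the
cubic node `B981.StepTC981`.  THE SAME STEPS (`ST589.tStep589`, `ST589.sStep589`,
`ST589.dStep589`): for the generator `T_w`, `w ∉ S'`, `v` the prime of `ℚ` under `w`, `d` the
residue degree,

    φ' = dStep589 w H' z' 1 φ,        f' t = dStep589 v H z d (f t)    (t = w0, w1).

    stepTQC_of216 : ST589.PlaceC589 ℚ F → PlaceQC216 F → ST589.SysC589 F → ST589.SysC589 ℚ
        → ST589.DTestC589 F → DTestTC216 ℚ → ST589.DEkC589 F → DEkTC216 ℚ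
        → ST589.DSuppC589 F → ST589.DSuppC589 ℚ → ST589.DOpC589 F → DOpTC216 ℚ
        → ShapeTQC216 F → PQ484.StepTQC484 F                                     (VERBATIM)

## The leaves

REUSED from the cubic cut (closed or being closed there, for EVERY number field): upstairs
`ST589.SysC589 F`, `ST589.DTestC589 F`, `ST589.DEkC589 F`, `ST589.DSuppC589 F`,
`ST589.DOpC589 F`; downstairs `ST589.SysC589 ℚ`, `ST589.DSuppC589 ℚ` (no `K_∞`-type in the
statement); the extension `ST589.PlaceC589 ℚ F` (second clause only: `v ∣ 𝔫 → w ∣ 𝔫 𝒪_F`).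

NEW (this file):

* **`DTestTC216 F`**, **`DEkTC216 F`**, **`DOpTC216 F`** [port]: the leaves `ST589.DTestC589`,
  `ST589.DEkC589`, `ST589.DOpC589` for an ARBITRARY `K_∞`-type `τ` in place of `T5.trivType`
  (used downstairs for `τ = t.type`, `t = w0, w1`; `w0.type = T5.trivType`).  The proofs of the
  cubic leaves do not use the type: the steps are finite sums of RIGHT translates by elements
  supported at ONE finite place, which commute with the elements supported at infinity, and the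
  type `τ` itself is not changed (`IsTestFn.ktype`).  So: the proof of the cubic leaf with
  `T5.trivType` replaced by `τ`.  Each implies the cubic leaf (`τ = T5.trivType`).
* **`PlaceQC216 F`** [S] (number theory): every finite place `w` of `F` lies over a place `v`
  of `ℚ` with a residue degree `d`, and there is a PRIME NUMBER `p` in `v` and in `w` with
  `N w = p ^ d` (the form of the first clause of `L2Q.IsBCDataQ`).
* **`ShapeTQC216 F`** [XL, NODE]: the local shape `IsAvgPureQ801 … (LocAQ801 c …) 1` of the new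
  triple.  Mirror of `ST589.ShapeTC589`.

## FALSITY CHECKS (helper216)

(a) `IsTestFn 𝔫 τ f` contains `IsKType τ`, and the type of the steps is the type of `f`
(`arch_right`, `arch_left`: `k` at infinity commutes with `z⁻¹ h` at `v`), so `DTestTC216` is
true for every `τ` for which the hypothesis can hold.  (b) `DOpTC216`: the function `χ` is only
continuous, right invariant under `U(𝔫₀)` and a Hecke eigenfunction at `v`; its type is not in
the statement and the type of `f` is not used (`I(d) = ∫ f(y) χ(x y d) dy`).  `d = 0`: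
`dStep589 … 0 f = 2 f` and `satakePow 0 a b = 2`.  (c) `PlaceQC216`: `v = w ∩ ℤ = (p)`,
`N v = p`, `d` the degree of the residue field; NO hypothesis on `F` is needed (the hypothesis
`IsImagQuad F` is there to allow the proof from `ST589.PlaceC589 ℚ F` and
`MQ298.isCycExt_of_imagQuad298`).  (d) `ShapeTQC216`: `w ∉ S'` and `3 ∈ S` (`IsRamQ60`, the only
ramified prime of `ℚ(√-3)`), `S'` a union of fibres: `w` is unramified, `d = 2` (inert:
upstairs the Satake transform is multiplied by `X + Y = x² + y²`, downstairs by the Dickson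
polynomial `x² + y²` of `x + y`, `x y`) or `d = 1` (split: ONE factor of the product over the
fibre is multiplied by `x + y`).  The SAME finite components downstairs for the two types, the
components at infinity are untouched, so the constant `c` of the Abel relation is kept.
(e) In the top the operator identity downstairs is asked for the eigenfunctions `χ` of type `t`
with `IsBCDataQ t c C S` only; the prime `p` of `PlaceQC216` is outside `S` because `S` consists
of primes under `S'` (`under_exact`) and `S'` is a union of fibres (`fibre`).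
-/

set_option autoImplicit false

open AutomorphicForm IsDedekindDomain NumberField MeasureTheory
open scoped ComplexConjugate

noncomputable section

namespace Fermat.Agent.LT.T7.TQ216

open Fermat.Agent.LT.H556 Fermat.Agent.LT.H556.A0 Fermat.Agent.LT.T7 Fermat.Agent.LT.T7.H305
  Fermat.Agent.LT.T7.L2Q Fermat.Agent.LT.T7.H893 Fermat.Agent.LT.T7.H962
  Fermat.Agent.LT.T7.H732 Fermat.Agent.LT.T7.MQ298 Fermat.Agent.LT.T7.CQ801
  Fermat.Agent.LT.T7.ST589 Fermat.Agent.LT.T7.PQ484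

attribute [local instance] Fermat.Agent.LT.T5.instMeasurableSpaceG

/-! ## 1. The leaves for ONE field and an arbitrary `K_∞`-type -/

section OneField

variable (F : Type) [Field F] [NumberField F]

/-- **LEAF TQ.2 = D-TEST for a type `τ`.**  `ST589.DTestC589` with `T5.trivType` replaced by an
arbitrary `τ`: the steps at a place prime to the level preserve the test functions of the level
and of the type `τ`.  See the header. -/
def DTestTC216 : Prop :=
  ∀ (τ : G F → ℂ) (𝔫 : Ideal (𝓞 F)) (v : HeightOneSpectrum (𝓞 F)), ¬ v.asIdeal ∣ 𝔫 →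
    ∀ (H : Finset (G F)) (z : G F), IsHeckeCosetSystem v H → IsScalarUniformizerAt v z →
    ∀ f : G F → ℂ, T5.IsTestFn 𝔫 τ f →
      ∀ d : ℕ, T5.IsTestFn 𝔫 τ (dStep589 v H z d f)

/-- **LEAF TQ.3 = D-EK for a type `τ`.**  `ST589.DEkC589` with `T5.trivType` replaced by an
arbitrary `τ`: the steps preserve the Eisenstein-killing functions with Eisenstein-killing
adjoints.  See the header. -/
def DEkTC216 : Prop :=
  ∀ (τ : G F → ℂ) (R : Frame5 F), IsFrame5 R →
    ∀ (𝔫 : Ideal (𝓞 F)) (v : HeightOneSpectrum (𝓞 F)), ¬ v.asIdeal ∣ 𝔫 →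
    ∀ (H : Finset (G F)) (z : G F), IsHeckeCosetSystem v H → IsScalarUniformizerAt v z →
    ∀ f : G F → ℂ, T5.IsTestFn 𝔫 τ f →
      (∀ d : ℕ, T5.IsTestFn 𝔫 τ (dStep589 v H z d f)) →
      T5.IsEK R.μ f → T5.IsEK R.μ (T5.adjointFn f) →
      ∀ d : ℕ, T5.IsEK R.μ (dStep589 v H z d f) ∧
        T5.IsEK R.μ (T5.adjointFn (dStep589 v H z d f))

/-- **LEAF TQ.4 = D-OP for a type `τ`.**  `ST589.DOpC589` with `T5.trivType` replaced by an
arbitrary `τ`: on a continuous function `χ` which is right invariant under a level group prime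
to `v` and is an eigenfunction of the Hecke operators at `v` with the eigenvalues `(a, b)`:
`R(dStep589 v H z d f) χ = satakePow d a b · R(f) χ`.  See the header. -/
def DOpTC216 : Prop :=
  ∀ (τ : G F → ℂ) (R : Frame5 F), IsFrame5 R →
    ∀ (𝔫 𝔫₀ : Ideal (𝓞 F)), 𝔫 ≤ 𝔫₀ →
    ∀ v : HeightOneSpectrum (𝓞 F), ¬ v.asIdeal ∣ 𝔫 →
    ∀ (H : Finset (G F)) (z : G F), IsHeckeCosetSystem v H → IsScalarUniformizerAt v z →
    ∀ f : G F → ℂ, T5.IsTestFn 𝔫 τ f →
      (∀ d : ℕ, T5.IsTestFn 𝔫 τ (dStep589 v H z d f)) →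
    ∀ (χ : G F → ℂ) (a b : ℂ), Continuous χ →
      (∀ u : G F, InLevelGroup 𝔫₀ u → ∀ g : G F, χ (g * u) = χ g) →
      IsHeckeEigenAt χ v a b →
      ∀ (d : ℕ) (x : G F),
        T5.Rconv R.μ (dStep589 v H z d f) χ x = satakePow d a b * T5.Rconv R.μ f χ x

/-- **LEAF TQ.1 = PLACE over `ℚ` (number theory).**  Every finite place `w` of `F` lies over a
finite place `v` of `ℚ` with a residue degree `d`, and there is a prime number `p` in `v` and
in `w` with `N w = p ^ d`.
Proof.  `v = w ∩ ℤ` and `d` from `ST589.PlaceC589 ℚ F` (first clause;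
`MQ298.isCycExt_of_imagQuad298`), `p` a prime number in `v` (`H732.exists_prime_mem_place732`),
`p ∈ w` (`H732.natCast_mem_of_placeOver732`), `N v = p` (`v = (p)`: `ℤ` is a principal ideal
domain and `N (p) = |N_{ℚ/ℚ} p| = p`). -/
def PlaceQC216 : Prop :=
  IsImagQuad F → ∀ w : HeightOneSpectrum (𝓞 F),
    ∃ (p : ℕ) (v : HeightOneSpectrum (𝓞 ℚ)) (d : ℕ),
      p.Prime ∧ ((p : ℕ) : 𝓞 ℚ) ∈ v.asIdeal ∧ ((p : ℕ) : 𝓞 F) ∈ w.asIdeal ∧
        Ideal.absNorm w.asIdeal = p ^ d ∧ HasResDeg ℚ F v w d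

/-- **NODE TQ.5 = SHAPE-T over `ℚ` (the local shape of the new triple).**  In the setting of
`PQ484.StepTQC484`: for `w ∉ S'` over `v` with residue degree `d`, Hecke coset systems and
scalar uniformisers at `w` and `v`, and a triple `(φ, f w0, f w1)` with the word-free
properties: the triple `(dStep589 w H' z' 1 φ, dStep589 v H z d (f w0), dStep589 v H z d (f w1))`
is an average of pure tensors with the local condition `LocAQ801 c`, constant `1`.  The leaves
`ST589.DTestC589 F`, `DTestTC216 ℚ` are given.  Mirror of `ST589.ShapeTC589`; see the header. -/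
def ShapeTQC216 : Prop :=
  ST589.DTestC589 F → DTestTC216 ℚ →
  HasSqrtNegThree F → IsImagQuad F →
    ∀ (Φ : HeckeEigensystem F ℂ) (B : L2Q.H60.L2QBase F),
      L2Q.H60.IsL2QBase Φ B → L2Q.H60.IsRamQ60 B →
      ∀ 𝔫 : Ideal (𝓞 ℚ), CQ57.IsLevQ57 (toBase962_732 B) 𝔫 →
      ∀ (T₀ : Finset (HeightOneSpectrum (𝓞 ℚ)))
        (n n₀ : HeightOneSpectrum (𝓞 F) → ℕ) (m : HeightOneSpectrum (𝓞 ℚ) → ℕ),
        CQ57.IsLevFnQ57 (toBase962_732 B) 𝔫 T₀ n n₀ m →
        ∀ c : ℂ, c ≠ 0 →
        ∀ w : HeightOneSpectrum (𝓞 F), w ∉ (toBase962_732 B).S' →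
        ∀ (v : HeightOneSpectrum (𝓞 ℚ)) (d : ℕ), HasResDeg ℚ F v w d →
        ∀ (H' : Finset (G F)) (z' : G F) (H : Finset (G ℚ)) (z : G ℚ),
          IsHeckeCosetSystem w H' → IsScalarUniformizerAt w z' →
          IsHeckeCosetSystem v H → IsScalarUniformizerAt v z →
        ∀ (φ : G F → ℂ) (f : QWt → G ℚ → ℂ),
          IsGoodAQ484 (toBase962_732 B) 𝔫 c T₀ n m φ f →
          IsAvgPureQ801 (upI (K' := F) 𝔫) 𝔫 T₀ (LocAQ801 c T₀ n m) 1
            (dStep589 w H' z' 1 φ) (dStep589 v H z d (f QWt.w0))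
            (dStep589 v H z d (f QWt.w1))

end OneField

/-! ## Appendix: the equation lemmas of the definitions of this file are realised HERE -/

theorem eqns_realised_stepTQ216 : True := by
  have _a0 := @DTestTC216.eq_1
  have _a1 := @DTestTC216.eq_def
  have _a2 := @DTestTC216.eq_unfold
  have _b0 := @DEkTC216.eq_1
  have _b1 := @DEkTC216.eq_def
  have _b2 := @DEkTC216.eq_unfold
  have _c0 := @DOpTC216.eq_1
  have _c1 := @DOpTC216.eq_def
  have _c2 := @DOpTC216.eq_unfold
  have _d0 := @PlaceQC216.eq_1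
  have _d1 := @PlaceQC216.eq_def
  have _d2 := @PlaceQC216.eq_unfold
  have _e0 := @ShapeTQC216.eq_1
  have _e1 := @ShapeTQC216.eq_def
  have _e2 := @ShapeTQC216.eq_unfold
  trivial

end Fermat.Agent.LT.T7.TQ216

end

end
-- ===== PACK-END LT/T7/H216/StepTQSpec.lean

-- ===== PACK-BEGIN LT/T7/H216/StepTQTop.lean
section



/-!
# Row LT, tower T7, node T7.L2Q.1.H2a.A.1 `PQ484.StepTQC484` (helper216, registry 2955): THE TOP

OFF-MAIN.  `stepTQC_of216`: the node from the leaves of `StepTQSpec.lean`, VERBATIM.  No hole,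
nothing assumed.  Port of `ST589.stepTC_of589` (helper589).
-/

set_option autoImplicit false

open AutomorphicForm IsDedekindDomain NumberField MeasureTheory
open scoped ComplexConjugate

noncomputable section

namespace Fermat.Agent.LT.T7.TQ216

open Fermat.Agent.LT.H556 Fermat.Agent.LT.H556.A0 Fermat.Agent.LT.T7 Fermat.Agent.LT.T7.H305
  Fermat.Agent.LT.T7.L2Q Fermat.Agent.LT.T7.H893 Fermat.Agent.LT.T7.H962
  Fermat.Agent.LT.T7.H732 Fermat.Agent.LT.T7.MQ298 Fermat.Agent.LT.T7.CQ801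
  Fermat.Agent.LT.T7.ST589 Fermat.Agent.LT.T7.PQ484

attribute [local instance] Fermat.Agent.LT.T5.instMeasurableSpaceG

variable {F : Type} [Field F] [NumberField F]

/-- The eigenvalue of `T_w` (by definition). -/
theorem ev_T216 (w : HeightOneSpectrum (𝓞 F)) (C : EigData F) : (Gen.T w).ev C = C.a w := rfl

/-- `T_w` lives outside `S` iff `w ∉ S` (by definition). -/
theorem out_T216 (S : Finset (HeightOneSpectrum (𝓞 F))) (w : HeightOneSpectrum (𝓞 F)) :
    (Gen.T w).Out S ↔ w ∉ S := Iff.rfl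

/-- **THE TOP**: `PQ484.StepTQC484` from the leaves. -/
theorem stepTQC_of216 (hP : ST589.PlaceC589 ℚ F) (hPQ : PlaceQC216 F)
    (hS' : ST589.SysC589 F) (hS : ST589.SysC589 ℚ)
    (hT' : ST589.DTestC589 F) (hT : DTestTC216 ℚ)
    (hE' : ST589.DEkC589 F) (hE : DEkTC216 ℚ)
    (hU' : ST589.DSuppC589 F) (hU : ST589.DSuppC589 ℚ)
    (hO' : ST589.DOpC589 F) (hO : DOpTC216 ℚ)
    (hSh : ShapeTQC216 F) : PQ484.StepTQC484 F := by
  intro h3 hF Φ B hB hRam 𝔫 hlev T₀ n n₀ m hexp c hc x hx hxout φ f hgood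
  obtain ⟨w, rfl⟩ := hx
  have hw : w ∉ B.S' := (out_T216 _ w).1 hxout
  obtain ⟨p, v, d, hp, hpv, hpw, hnorm, hvd⟩ := hPQ hF w
  have hw𝔑 : ¬ w.asIdeal ∣ upI (K' := F) 𝔫 := fun h => hw ((hlev.mem_S'_g w).2 h)
  have hw𝔑₀ : ¬ w.asIdeal ∣ B.𝔑₀ := fun h => hw ((hB.mem_S' w).2 h)
  have hv𝔫 : ¬ v.asIdeal ∣ 𝔫 := fun h => hw𝔑 (hP.2 𝔫 v w hvd.1 h)
  have hpS : p ∉ B.S := by
    intro hmem
    obtain ⟨_, w₁, hw₁, hpw₁⟩ := hB.under_exact p hmem
    exact hw (hB.fibre p hp w₁ w hpw₁ hpw hw₁)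
  obtain ⟨H', z', hH', hz'⟩ := hS' w
  obtain ⟨H, z, hH, hz⟩ := hS v
  have htest' := hT' (upI (K' := F) 𝔫) w hw𝔑 H' z' hH' hz' φ hgood.up_test
  have htest : ∀ t : QWt, ∀ e : ℕ, T5.IsTestFn 𝔫 t.type (dStep589 v H z e (f t)) :=
    fun t => hT t.type 𝔫 v hv𝔫 H z hH hz (f t) (hgood.dn_test t)
  have horb' : ∀ j : ℕ, j < 2 → B.o j ≠ w := fun j _ h => hw (h ▸ hB.orbit_level j)
  have horb : ∀ j : ℕ, j < 1 → (fun _ : ℕ => B.u) j ≠ v := fun j _ h =>
    hv𝔫 (h ▸ hlev.u_level)
  refine ⟨(dStep589 w H' z' 1 φ, fun t => dStep589 v H z d (f t)),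
    ⟨htest' 1, ?_, fun t => htest t d, ?_, ?_, ?_, ?_⟩, ⟨?_, ?_⟩⟩
  · exact hE' B.R' hB.frame' (upI (K' := F) 𝔫) w hw𝔑 H' z' hH' hz' φ hgood.up_test htest'
      hgood.up_ek.1 hgood.up_ek.2 1
  · intro t
    exact hE t.type B.R hB.frame 𝔫 v hv𝔫 H z hH hz (f t) (hgood.dn_test t) (htest t)
      (hgood.dn_ek t).1 (hgood.dn_ek t).2 d
  · exact hU' 2 B.o w horb' H' z' hH' hz' φ hgood.up_supp 1
  · intro t
    exact hU 1 (fun _ => B.u) v horb H z hH hz (f t) (hgood.dn_supp t) d
  · exact hSh hT' hT h3 hF Φ B hB hRam 𝔫 hlev T₀ n n₀ m hexp c hc w hw v d hvd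
      H' z' H z hH' hz' hH hz φ f hgood
  · intro χ C hχ y
    have h := hO' B.R' hB.frame' (upI (K' := F) 𝔫) B.𝔑₀ hlev.level_g w hw𝔑 H' z' hH' hz' φ
      hgood.up_test htest' χ (C.a w) (C.b w) hχ.inv.cusp.cont hχ.inv.cusp.aut.level_inv
      (hχ.hecke w hw𝔑₀) 1 y
    have h1 : satakePow 1 (C.a w) (C.b w) = C.a w := rfl
    rw [h1] at h
    exact h
  · intro t χ c' C hχ hbc y
    have h := hO t.type B.R hB.frame 𝔫 𝔫 le_rfl v hv𝔫 H z hH hz (f t)
      (hgood.dn_test t) (htest t) χ (c'.a v) (c'.b v) hχ.inv.cusp.cont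
      hχ.inv.cusp.aut.level_inv (hχ.hecke v hv𝔫) d y
    have hC := (hbc.1 p hp hpS v hpv w d hpw hnorm).1
    have hgoal : T5.Rconv B.R.μ (dStep589 v H z d (f t)) χ y
        = C.a w * T5.Rconv B.R.μ (f t) χ y := by
      rw [h, hC]
    exact hgoal

end Fermat.Agent.LT.T7.TQ216

end

end
-- ===== PACK-END LT/T7/H216/StepTQTop.lean

-- ===== PACK-BEGIN LT/T7/H87/BaseAQSpec.lean
section





/-!
# Row LT, tower T7, node T7.L2Q.1.H2a.A.0 `PQ484.BaseAQC484` (owner helper87, registry row 2954):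
# THE CUT over `ℚ` -- Spec

OFF-MAIN.  Definitions and frozen Props only (the proved top is `BaseAQTop.lean`).  No hole,
nothing assumed.  ADDITIVE (new names only, suffix `87`, namespace
`Fermat.Agent.LT.T7.BQ87`).  Vocabulary: the third cut over `ℚ` of helper484
(`T7/H484/PairAQSpec.lean` 2232ea92: `BaseAQC484`, `IsGoodAQ484`, `IsDnStabQ484`), the stations
T3.18M / T3.18R of helper14 (`T3/M/Spec.lean`, `T3/M/GenSpec.lean`, `T3/R/Spec.lean`),
byte-identical copies.

MIRROR over `ℚ` (quadratic step, `F = ℚ(√-3)`, `ℓ = 2`, TWO `K_∞`-types `w0`, `w1` downstairs,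
REAL place downstairs) of the third cut of helper981 of the cubic node `B981.BaseAC981`
(`T7/B981/PairBaseSpec.lean` cfa0d9f7 + `PairBaseTop.lean` 1139926f).

    baseAQC_of87 : DatQC87 F → UpGoodQC87 F → DnGoodQC87 F → IwSuppC87 F → IwSuppC87 ℚ
        → DnStabQC87 F → ShapeQC87 F → PQ484.BaseAQC484 T7.ekMulti F            (VERBATIM)

## The cut: THE DATA are separated from their CONSEQUENCES

`DatQ87 F` = the explicit local factors of the base triple: finitely many (`N`) pure tensors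
upstairs `T3.M.pureFnM F 𝔑 P' (φ₀ i) (Φ i)` with their coordinates `(A' i, β' i)`, and
downstairs, for the type `t`, `T3.R.pureFnR ℚ _ 𝔫 P (f₀ i) (Fr t i)` (`Fr w0 = F0`,
`Fr w1 = F1`: THE SAME finite components and THE SAME coordinates `(A i, β i)` for the two
types), and a Haar measure `μc` of `GL₂(ℂ)` with the constant `κc` of the Abel pairs upstairs.

`IsDatQ87` = the properties of the data (mirror of `B981.IsDat981`): the frames `T3.M.FrameM`
upstairs and downstairs (norm datum, `α > 0`); Satake pairs at `P'`, `P`; Abel pairs at the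
complex place upstairs (`HasAbelN`) and at the real place downstairs (`T3.R.HasAbelNR`, weights
`0` and `-1`); the coordinates TELESCOPE upstairs and downstairs; the Fourier transform upstairs
does not vanish at the good parameters; the local shape `CQ801.LocAQ801 c … (T₀ ∪ P)` for every
`i` (Abel relation with the GIVEN constant `c`), unit components over `P` outside `P'`.

* **`DatQC87 F`** (NODE [XL]; existence of the data: T3 core + T6 base change + push-forward
  under the norm + `T3.R.AbelRealC`).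
* **`UpGoodQC87 F`** (LEAF [L]; `T3.M.ekOfPairM_c` for `F`; PORT of `B981.UpGoodC981`).
* **`DnGoodQC87 F`** (LEAF [L]; `T3.R.ekOfPairR_c` for `ℚ`, both types; the scalars on the
  eigenfunctions `IsEigFnQ`).
* **`IwSuppC87 K`** (LEAF [S], ONE field; SAME BODY as `B981.IwSuppC981 K`, used for `F` and `ℚ`).
* **`DnStabQC87 F`** (LEAF [L]; the three properties of `R(f t)` downstairs; PORT of
  `B981.DnStabC981`).
* **`ShapeQC87 F`** (LEAF [L]; bookkeeping: `CQ801.IsAvgPureQ801` for `Ω = Fin N`; PORT of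
  `B981.ShapeC981`; bridges `pureFnM = pure305`, `pureFnR = pureQ298`).

## FALSITY CHECKS (helper87)

(a) `P ∩ T₀ = ∅` (`FrameM.prime`, `IsLevFnQ57.div`), so the Satake pairs at `P` and the unit
components at `T₀` do not collide.  (b) The norm of `a₀' ≠ 0` from the imaginary quadratic field
`F` is positive: `totpos`.  (c) `c` occurs in `IsDatQ87` through `loc` only (the Abel relation
`N`-integral of `F0`, `F1` `= c β'(·/2)`); `c ≠ 0` is a hypothesis of the node and of every
leaf.  (d) `μc` is a FIELD of the data (the node `BaseAQC484` does not fix Haar measures; the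
local shape `LocAQ801` does not mention them).  (e) The scalars downstairs are asked on the
eigenfunctions `IsEigFnQ t 𝔫 r u χ c` only (Hecke-eigen at every `v ∤ 𝔫`, in particular on `P`;
eigenfunctions of the circle means of type `t`); if `c.b v = 0` for some `v ∈ P` then `χ = 0`
and every scalar works.  (f) Every leaf has ALL the hypotheses of the node which make sense for
it (more hypotheses than the cubic leaves: harmless).
-/

set_option autoImplicit false

open AutomorphicForm IsDedekindDomain NumberField MeasureTheory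
open scoped ComplexConjugate

noncomputable section

namespace Fermat.Agent.LT.T7.BQ87

open Fermat.Agent.LT Fermat.Agent.LT.H556 Fermat.Agent.LT.H556.A0 Fermat.Agent.LT.T7
  Fermat.Agent.LT.T7.H305 Fermat.Agent.LT.T7.L2Q Fermat.Agent.LT.T7.H893
  Fermat.Agent.LT.T7.H962 Fermat.Agent.LT.T7.H732 Fermat.Agent.LT.T7.MQ298
  Fermat.Agent.LT.T7.CQ801 Fermat.Agent.LT.T7.PQ484

attribute [local instance] Fermat.Agent.LT.T5.instMeasurableSpaceG

/-- Every infinite place of `ℚ` is real. -/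
theorem ratReal87 : ∀ w : InfinitePlace ℚ, w.IsReal :=
  fun w => NumberField.IsTotallyReal.isReal w

/-! ## 1. The data -/

/-- **THE DATA OF THE BASE TRIPLE over `ℚ`**: the frames and the local factors of `N` pure
tensors upstairs (over `F`) and downstairs (over `ℚ`, two weights). -/
structure DatQ87 (F : Type) [Field F] [NumberField F] where
  /-- the number of pure tensors -/
  N : ℕ
  /-- the Eisenstein-killing places upstairs -/
  P' : Finset (HeightOneSpectrum (𝓞 F))
  /-- the exponents upstairs -/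
  e' : HeightOneSpectrum (𝓞 F) → ℕ
  /-- the generator upstairs -/
  a₀' : 𝓞 F
  /-- the generator upstairs as a unit of `F` -/
  α' : Fˣ
  /-- the places downstairs (under `P'`) -/
  P : Finset (HeightOneSpectrum (𝓞 ℚ))
  /-- the exponents downstairs -/
  e : HeightOneSpectrum (𝓞 ℚ) → ℕ
  /-- the generator downstairs (the norm) -/
  a₀ : 𝓞 ℚ
  /-- the generator downstairs as a unit of `ℚ` -/
  α : ℚˣ
  /-- the Haar measure of `GL₂(ℂ)` -/
  μc : @Measure (GL (Fin 2) ℂ) (borel _)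
  /-- the constant of the Abel pairs upstairs for the Haar measure `μc` -/
  κc : ℂ
  /-- the Satake coefficients upstairs -/
  A' : Fin N → HeightOneSpectrum (𝓞 F) → ℤ × ℤ → ℂ
  /-- the Abel transforms upstairs -/
  β' : Fin N → InfinitePlace F → ℝ × ℝ → ℂ
  /-- the components upstairs at the finite places -/
  φ₀ : Fin N → ∀ w : HeightOneSpectrum (𝓞 F), GL (Fin 2) (w.adicCompletion F) → ℂ
  /-- the components upstairs at the infinite places -/
  Φ : Fin N → InfinitePlace F → GL (Fin 2) ℂ → ℂ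
  /-- the Satake coefficients downstairs -/
  A : Fin N → HeightOneSpectrum (𝓞 ℚ) → ℤ × ℤ → ℂ
  /-- the Abel transforms downstairs (the same for the two weights) -/
  β : Fin N → InfinitePlace ℚ → ℝ × ℝ → ℂ
  /-- the components downstairs at the finite places (the same for the two weights) -/
  f₀ : Fin N → ∀ v : HeightOneSpectrum (𝓞 ℚ), GL (Fin 2) (v.adicCompletion ℚ) → ℂ
  /-- the components downstairs at the real place, weight `0` -/
  F0 : Fin N → GL (Fin 2) ℝ → ℂ
  /-- the components downstairs at the real place, weight `-1` -/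
  F1 : Fin N → GL (Fin 2) ℝ → ℂ

section Dat

variable {F : Type} [Field F] [NumberField F]

/-- The component at the real place of the `i`-th pure tensor downstairs of type `t`. -/
def DatQ87.Fr (D : DatQ87 F) : QWt → Fin D.N → GL (Fin 2) ℝ → ℂ
  | QWt.w0 => D.F0
  | QWt.w1 => D.F1

/-- The function upstairs: the sum of the pure tensors (`T3.M.pureFnM`) of level `𝔑`. -/
def DatQ87.up (D : DatQ87 F) (𝔑 : Ideal (𝓞 F)) : G F → ℂ := fun g =>
  ∑ i : Fin D.N, T3.M.pureFnM F 𝔑 D.P' (D.φ₀ i) (D.Φ i) g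

/-- The function downstairs of type `t`: the sum of the pure tensors (`T3.R.pureFnR`) of level
`𝔫`. -/
def DatQ87.dn (D : DatQ87 F) (t : QWt) (𝔫 : Ideal (𝓞 ℚ)) : G ℚ → ℂ := fun g =>
  ∑ i : Fin D.N, T3.R.pureFnR ℚ ratReal87 𝔫 D.P (D.f₀ i) (fun _ => D.Fr t i) g

/-- The coordinates upstairs. -/
def DatQ87.crdUp (D : DatQ87 F) : T3.M.CoordM F D.P' → ℂ := fun p =>
  ∑ i : Fin D.N, T3.M.pureCoordM F D.P' (D.A' i) (D.β' i) p

/-- The coordinates downstairs. -/
def DatQ87.crdDn (D : DatQ87 F) : T3.M.CoordM ℚ D.P → ℂ := fun p =>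
  ∑ i : Fin D.N, T3.M.pureCoordM ℚ D.P (D.A i) (D.β i) p

open Classical in
/-- **THE PROPERTIES OF THE DATA over `ℚ`** (mirror of `B981.IsDat981`). -/
structure IsDatQ87 (Φe : HeckeEigensystem F ℂ) (B : L2QBase962 F) (𝔫 : Ideal (𝓞 ℚ))
    (c : ℂ) (T₀ : Finset (HeightOneSpectrum (𝓞 ℚ)))
    (n : HeightOneSpectrum (𝓞 F) → ℕ) (m : HeightOneSpectrum (𝓞 ℚ) → ℕ)
    (D : DatQ87 F) : Prop where
  /-- `μc` is a Haar measure -/
  haar_c : @Measure.IsHaarMeasure _ _ _ (borel _) D.μc
  /-- the frame upstairs (the datum of `T7.GoodEKM` for `𝔫 𝒪_F`) -/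
  frame_up : T3.M.FrameM F (upI (K' := F) 𝔫) D.P' D.e' D.a₀' D.α'
  /-- the frame downstairs (the norm datum) -/
  frame_dn : T3.M.FrameM ℚ 𝔫 D.P D.e D.a₀ D.α
  /-- the generator downstairs is positive -/
  totpos : T3.R.IsTotPos ℚ ratReal87 D.α
  /-- the places of `P'` are outside `S'` -/
  out : ∀ w ∈ D.P', w ∉ B.S'
  /-- the non-vanishing clause of `T7.GoodEKM` -/
  good : ∀ z : HeightOneSpectrum (𝓞 F) → ℂ,
    (∀ w ∈ D.P', z w ^ 2 - Φe.a w * z w + Φe.b w = 0) → ∏ w ∈ D.P', z w ^ D.e' w ≠ 1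
  /-- `P` is the set of the places under `P'` -/
  under : ∀ v : HeightOneSpectrum (𝓞 ℚ), v ∈ D.P ↔ ∃ w ∈ D.P', PlaceOver ℚ F v w
  κc_ne : D.κc ≠ 0
  symA' : ∀ (i : Fin D.N) (w : HeightOneSpectrum (𝓞 F)), T3.AS.IsSymFin (D.A' i w)
  symβ' : ∀ (i : Fin D.N) (w : InfinitePlace F), T3.AS.IsSymBump (D.β' i w)
  sat_up : ∀ (i : Fin D.N), ∀ w ∈ D.P', T3.AS.IsSatakePair w (D.φ₀ i w) (D.A' i w)
  test_up : ∀ (i : Fin D.N) (w : InfinitePlace F), T3.AS.IsCplxTest (D.Φ i w)
  smooth_up : ∀ (i : Fin D.N) (w : InfinitePlace F), T3.AS.IsCplxSmooth (D.Φ i w)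
  abel_up : ∀ (i : Fin D.N) (w : InfinitePlace F), T3.AS.HasAbelN (D.Φ i w) (D.β' i w)
  acts_up : ∀ (i : Fin D.N) (w : InfinitePlace F),
    T3.AS.ActsBy D.μc (D.Φ i w) (D.κc * ∫ x : ℝ × ℝ, D.β' i w x)
  symA : ∀ (i : Fin D.N) (v : HeightOneSpectrum (𝓞 ℚ)), T3.AS.IsSymFin (D.A i v)
  symβ : ∀ (i : Fin D.N) (v : InfinitePlace ℚ), T3.AS.IsSymBump (D.β i v)
  sat_dn : ∀ (i : Fin D.N), ∀ v ∈ D.P, T3.AS.IsSatakePair v (D.f₀ i v) (D.A i v)
  test_dn : ∀ (t : QWt) (i : Fin D.N), T6.IsArchTestR t.wt (D.Fr t i)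
  abel_dn : ∀ (t : QWt) (i : Fin D.N) (v : InfinitePlace ℚ),
    T3.R.HasAbelNR (D.Fr t i) (D.β i v)
  /-- the coordinates upstairs telescope along `c₀' = coordTorM F P' e' α'` -/
  tel_up : ∀ Δ : T3.M.CoordM F D.P',
    HasSum (fun j : ℤ => D.crdUp (Δ + j • T3.M.coordTorM F D.P' D.e' D.α')) 0
  /-- the coordinates downstairs telescope along `c₀ = coordTorM ℚ P e α` -/
  tel_dn : ∀ Δ : T3.M.CoordM ℚ D.P,
    HasSum (fun j : ℤ => D.crdDn (Δ + j • T3.M.coordTorM ℚ D.P D.e D.α)) 0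
  /-- the Fourier transform upstairs does not vanish at the good parameters -/
  ft_ne : ∀ z₁ z₂ : HeightOneSpectrum (𝓞 F) → ℂ,
    (∀ w ∈ D.P', z₁ w ≠ 0) → (∀ w ∈ D.P', z₂ w ≠ 0) →
    (∀ z : HeightOneSpectrum (𝓞 F) → ℂ, (∀ w ∈ D.P', z w = z₁ w ∨ z w = z₂ w) →
      ∏ w ∈ D.P', z w ^ D.e' w ≠ 1) →
    T3.M.ftCoordM F D.P' D.crdUp z₁ z₂ ≠ 0
  /-- unit components at the places over `P` which are not in `P'` -/
  unit_rest : ∀ (i : Fin D.N) (w : HeightOneSpectrum (𝓞 F)), w ∉ D.P' →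
    (∃ v ∈ D.P, PlaceOver ℚ F v w) → D.φ₀ i w = unitFn893 0
  /-- the local shape of every triple of pure tensors, for the set `T = T₀ ∪ P` -/
  loc : ∀ i : Fin D.N,
    LocAQ801 c T₀ n m (T₀ ∪ D.P) (D.φ₀ i) (D.Φ i) (D.f₀ i) (D.F0 i) (D.F1 i)

end Dat

/-! ## 2. The node and the leaves -/

section Nodes

variable (F : Type) [Field F] [NumberField F]

/-- **NODE A.0.D over `ℚ` = DATA (existence; T3 core + T6 base change + push-forward under the
norm + `T3.R.AbelRealC`).**  For a cusp form `Φ` over `F` with good multi-place EK data, a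
common part of helper60 with `3 ∈ S`, every level with the level properties, the exponents of
the level and every constant `c ≠ 0` there are data with `IsDatQ87`.
Construction (mirror of `B981.DatC981`).  `(P', e', a₀')` from `T7.GoodEKM F Φ (𝔫 𝒪_F) S'`;
`Φ' ∈ SymSpanM F P'` telescoping with non-vanishing Fourier transform from `T3.M.EKCoreC`
(closed), written as a finite sum of symmetric pure tensors `pureCoordM (A' i) (β' i)`;
`φ₀ i w` from `T3.AS.SatakeLocC` at `w ∈ P'`, `unitFn893 (n w)` elsewhere; `μc`, `κc`,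
`Φ i w` from `T3.AS.AbelCplxSmoothC` / `T3.M.pairExistM_c`.  Downstairs: `P` = the primes under
`P'`, `e v = ∑_{w ∣ v, w ∈ P'} f_w e'_w`, `a₀ = N_{F/ℚ} a₀' > 0`; `A i v` = the push-forward of
`⊗_{w ∣ v} A' i w` under `(m_w) ↦ ∑ f_w m_w`, `f₀ i v` from `T3.AS.SatakeLocC` at `v ∈ P`,
`unitFn893 (m v)` elsewhere; `β i = halfQ801 c (β' i w)` (`w` the complex place of `F`),
`F0 i`, `F1 i` of weight `0`, `-1` with `N`-integral `β i` from `T3.R.AbelRealC`.  Telescoping
downstairs: push-forward of the coordinates upstairs under the norm of the coordinate groups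
(`N(c₀') = c₀`: `log |N α'| = 2 log |α'|_w`), station T3.19 of helper14 (`Push/EKPush.lean`) is
the cubic model. -/
def DatQC87 : Prop :=
  HasSqrtNegThree F → IsImagQuad F →
    ∀ Φ : HeckeEigensystem F ℂ, A0.IsCuspAdelicSph0 F Φ → ConstOnFibresQ Φ → ekMulti F Φ →
      ∀ B : L2Q.H60.L2QBase F, L2Q.H60.IsL2QBase Φ B → L2Q.H60.IsRamQ60 B →
      ∀ 𝔫 : Ideal (𝓞 ℚ), CQ57.IsLevQ57 (toBase962_732 B) 𝔫 →
      ∀ (T₀ : Finset (HeightOneSpectrum (𝓞 ℚ)))
        (n n₀ : HeightOneSpectrum (𝓞 F) → ℕ) (m : HeightOneSpectrum (𝓞 ℚ) → ℕ),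
        CQ57.IsLevFnQ57 (toBase962_732 B) 𝔫 T₀ n n₀ m →
        ∀ c : ℂ, c ≠ 0 →
          ∃ D : DatQ87 F, IsDatQ87 Φ (toBase962_732 B) 𝔫 c T₀ n m D

/-- **LEAF A.0.U over `ℚ` = UP** (`T3.M.ekOfPairM_c` for `F`; PORT of `B981.UpGoodC981`,
`ℓ = 2`).  The sum upstairs is a test function of level `𝔫 𝒪_F`, Eisenstein-killing with
Eisenstein-killing adjoint, supported at `P' ∪ S_∞`, acts by a scalar `c₁(C)` on the
eigenfunctions of the base level, `c₁ ≠ 0` on the class of `Φ`.
Proof.  `F` is totally complex.  `(D.crdUp, D.up 𝔑) ∈ pairSpanMS F μc κc 𝔑 P'`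
(`mem_pairSpanM_sum` with coefficients `1`), `tel_up`, `frame_up`: `ekOfPairM_c` gives the first
four properties and scalars `c z₁ z₂ m`; `c₁ C = 1` if `C.b w = 0` for some `w ∈ P'` (then
`χ = 0`), `= c (root1) (root2) C.m` otherwise; `c₁ ≠ 0`: `ft_ne`, `good`. -/
def UpGoodQC87 : Prop :=
  HasSqrtNegThree F → IsImagQuad F →
    ∀ Φ : HeckeEigensystem F ℂ, A0.IsCuspAdelicSph0 F Φ → ConstOnFibresQ Φ → ekMulti F Φ →
      ∀ B : L2Q.H60.L2QBase F, L2Q.H60.IsL2QBase Φ B → L2Q.H60.IsRamQ60 B →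
      ∀ 𝔫 : Ideal (𝓞 ℚ), CQ57.IsLevQ57 (toBase962_732 B) 𝔫 →
      ∀ (T₀ : Finset (HeightOneSpectrum (𝓞 ℚ)))
        (n n₀ : HeightOneSpectrum (𝓞 F) → ℕ) (m : HeightOneSpectrum (𝓞 ℚ) → ℕ),
        CQ57.IsLevFnQ57 (toBase962_732 B) 𝔫 T₀ n n₀ m →
        ∀ c : ℂ, c ≠ 0 →
        ∀ D : DatQ87 F, IsDatQ87 Φ (toBase962_732 B) 𝔫 c T₀ n m D →
          T5.IsTestFn (upI (K' := F) 𝔫) T5.trivType (D.up (upI (K' := F) 𝔫)) ∧
          T5.IsEK (toBase962_732 B).R'.μ (D.up (upI (K' := F) 𝔫)) ∧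
          T5.IsEK (toBase962_732 B).R'.μ (T5.adjointFn (D.up (upI (K' := F) 𝔫))) ∧
          T3.M.IsSuppAtM F (upI (K' := F) 𝔫) D.P' (D.up (upI (K' := F) 𝔫)) ∧
          ∃ c₁ : EigData F → ℂ,
            (∀ (χ : G F → ℂ) (C : EigData F),
              IsEigFn (toBase962_732 B).𝔑₀ (toBase962_732 B).R'.r 2 (toBase962_732 B).o χ C →
              ∀ y : G F, T5.Rconv (toBase962_732 B).R'.μ (D.up (upI (K' := F) 𝔫)) χ y
                = c₁ C * χ y) ∧
            ∀ C : EigData F, C.AgreeOut (toBase962_732 B).S' (eigOf Φ) → c₁ C ≠ 0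

/-- **LEAF A.0.W over `ℚ` = DOWN** (`T3.R.ekOfPairR_c` for `ℚ`, weights `0` and `-1`).  For
each type `t` the sum downstairs is a test function of level `𝔫` and type `t`,
Eisenstein-killing with Eisenstein-killing adjoint, supported at `P ∪ S_∞`, and acts by scalars
on the eigenfunctions of type `t`.
Proof.  `(D.crdDn, D.dn t 𝔫) ∈ T3.R.pairSpanR ℚ _ 𝔫 P (fun _ => t.wt)`
(`T3.R.mem_pairSpanR_sum` with coefficients `1`: `symA`, `symβ`, `sat_dn`, `test_dn`,
`abel_dn`), `tel_dn`, `frame_dn`, `totpos`: `T3.R.ekOfPairR_c` gives the test function of type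
`T3.R.typeR ℚ _ (fun _ => t.wt)` (`= t.type` on `K_∞`: `T6.wtChar`, bridge of the `ℚ`-step),
EK, EK adjoint, the support, and the scalars on the classes; an eigenfunction `χ`
(`IsEigFnQ`) is Hecke-eigen at `v ∈ P` (`v ∤ 𝔫`: `frame_dn.prime`) and belongs to the class of
its circle means (`T3.R.LocOfMeanRC`, `T3.R.MeanActsRC`; `c.b v = 0` for some `v ∈ P`:
`χ = 0`). -/
def DnGoodQC87 : Prop :=
  HasSqrtNegThree F → IsImagQuad F →
    ∀ Φ : HeckeEigensystem F ℂ, A0.IsCuspAdelicSph0 F Φ → ConstOnFibresQ Φ → ekMulti F Φ →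
      ∀ B : L2Q.H60.L2QBase F, L2Q.H60.IsL2QBase Φ B → L2Q.H60.IsRamQ60 B →
      ∀ 𝔫 : Ideal (𝓞 ℚ), CQ57.IsLevQ57 (toBase962_732 B) 𝔫 →
      ∀ (T₀ : Finset (HeightOneSpectrum (𝓞 ℚ)))
        (n n₀ : HeightOneSpectrum (𝓞 F) → ℕ) (m : HeightOneSpectrum (𝓞 ℚ) → ℕ),
        CQ57.IsLevFnQ57 (toBase962_732 B) 𝔫 T₀ n n₀ m →
        ∀ c : ℂ, c ≠ 0 →
        ∀ D : DatQ87 F, IsDatQ87 Φ (toBase962_732 B) 𝔫 c T₀ n m D →
        ∀ t : QWt,
          T5.IsTestFn 𝔫 t.type (D.dn t 𝔫) ∧
          T5.IsEK (toBase962_732 B).R.μ (D.dn t 𝔫) ∧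
          T5.IsEK (toBase962_732 B).R.μ (T5.adjointFn (D.dn t 𝔫)) ∧
          T3.M.IsSuppAtM ℚ 𝔫 D.P (D.dn t 𝔫) ∧
          ∃ cs : EigData ℚ → ℂ,
            ∀ (χ : G ℚ → ℂ) (cd : EigData ℚ),
              IsEigFnQ t 𝔫 (toBase962_732 B).R.r (toBase962_732 B).u χ cd →
              ∀ g : G ℚ, T5.Rconv (toBase962_732 B).R.μ (D.dn t 𝔫) χ g = cs cd * χ g

end Nodes

section OneField

variable (K : Type) [Field K] [NumberField K]

/-- **LEAF A.0.S = IW-SUPP (one field; SAME BODY as `B981.IwSuppC981 K`).**  A function of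
compact support which is supported at `P ∪ S_∞` (`T3.M.IsSuppAtM`) is Iwahori-supported along
places `o j ∣ 𝔫` outside `P`, in a compact set.
Proof.  `C = tsupport f` (`T5.H32.isIwSupported_of_support32`); at `o j` the entries of
`y - 1`, `y⁻¹ - 1` lie in the closure of `𝔫`, which is contained in the maximal ideal. -/
def IwSuppC87 : Prop :=
  ∀ (𝔫 : Ideal (𝓞 K)) (P : Finset (HeightOneSpectrum (𝓞 K))) (l : ℕ)
    (o : ℕ → HeightOneSpectrum (𝓞 K)),
    (∀ j < l, (o j).asIdeal ∣ 𝔫) → (∀ j < l, o j ∉ P) →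
    ∀ f : G K → ℂ, HasCompactSupport f → T3.M.IsSuppAtM K 𝔫 P f →
      ∃ C : Set (G K), IsCompact C ∧ T5.H32.IsIwSupported32 l o C f

end OneField

section Nodes2

variable (F : Type) [Field F] [NumberField F]

/-- **LEAF A.0.C over `ℚ` = DN-STAB** (PORT of `B981.DnStabC981`).  Test functions `f t` of
level `𝔫` and type `t` downstairs which are supported at `P ∪ S_∞` (`P` prime to `𝔫`) and act by
scalars on the eigenfunctions of type `t` have the three properties of `PQ484.IsDnStabQ484`.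
Proof (POINTWISE in `y`, as in the cubic case).  On the support of `f t` the component `y_u`
lies in `U(𝔫)_u ⊆ I_u` (`IsSuppAtM`, `u ∉ P` because `u ∣ 𝔫`: `IsLevQ57.u_level`).  `wfn`:
`R(f t) ψ` is a cusp function of type `t` (left invariance; level and `K_∞`-type: substitution
and the type of `f t`; ray: `r` is central; constant term: Fubini; bounded, continuous),
invariant under the positive scalars (central), Iwahori-invariant at `u`.  `cls`:
`R(f t) ψ = cs c · ψ` and `IsEigFnQ` is stable under scalars.  `comm`: left multiplication by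
`y_u ∈ I_u` permutes the cosets `h I_u`; `z` is central. -/
def DnStabQC87 : Prop :=
  HasSqrtNegThree F → IsImagQuad F →
    ∀ (Φ : HeckeEigensystem F ℂ) (B : L2Q.H60.L2QBase F), L2Q.H60.IsL2QBase Φ B →
      L2Q.H60.IsRamQ60 B →
      ∀ 𝔫 : Ideal (𝓞 ℚ), CQ57.IsLevQ57 (toBase962_732 B) 𝔫 →
      ∀ (P : Finset (HeightOneSpectrum (𝓞 ℚ))), (∀ v ∈ P, ¬ v.asIdeal ∣ 𝔫) →
      ∀ f : QWt → G ℚ → ℂ, (∀ t : QWt, T5.IsTestFn 𝔫 t.type (f t)) →
        (∀ t : QWt, T3.M.IsSuppAtM ℚ 𝔫 P (f t)) →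
        (∀ t : QWt, ∃ cs : EigData ℚ → ℂ,
          ∀ (χ : G ℚ → ℂ) (cd : EigData ℚ),
            IsEigFnQ t 𝔫 (toBase962_732 B).R.r (toBase962_732 B).u χ cd →
            ∀ g : G ℚ, T5.Rconv (toBase962_732 B).R.μ (f t) χ g = cs cd * χ g) →
        IsDnStabQ484 (toBase962_732 B) 𝔫 f

/-- **LEAF A.0.P over `ℚ` = SHAPE (bookkeeping; PORT of `B981.ShapeC981`).**  The sums of the
data are an average of pure tensors with the local shape `CQ801.LocAQ801 c`, constant `1`:
`Ω = Fin N` (discrete, counting measure), `T a = T₀ ∪ P`, `T' a` = the finite set of the places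
of `F` over `T₀ ∪ P`.
Proof.  BRIDGES `T3.M.pureFnM F 𝔑 P' (φ₀ i) (Φ i) = pure305 T' (φ₀ i) (Φ i)` (at a finite place
`w ∉ P'` the condition of `OutsideUM` is `InU (n w)`: `IsLevFnQ57.lev_up`; unit components:
`loc`, `unit_rest`) and `T3.R.pureFnR ℚ _ 𝔫 P (f₀ i) (fun _ => Fr t i)
= pureQ298 (T₀ ∪ P) (f₀ i) (Fr t i)` (`IsLevFnQ57.lev_dn`; `T3.R.reGL = MQ298.reGLQ298`: the
same term).  Every member is a test function (`T3.M.PureRegMC`, `T3.R.PureRegRC`: closed).
Joint continuity and the common compact support: `Fin N` is finite and discrete.  The integral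
over the counting measure is the sum. -/
def ShapeQC87 : Prop :=
  HasSqrtNegThree F → IsImagQuad F →
    ∀ Φ : HeckeEigensystem F ℂ, A0.IsCuspAdelicSph0 F Φ → ConstOnFibresQ Φ → ekMulti F Φ →
      ∀ B : L2Q.H60.L2QBase F, L2Q.H60.IsL2QBase Φ B → L2Q.H60.IsRamQ60 B →
      ∀ 𝔫 : Ideal (𝓞 ℚ), CQ57.IsLevQ57 (toBase962_732 B) 𝔫 →
      ∀ (T₀ : Finset (HeightOneSpectrum (𝓞 ℚ)))
        (n n₀ : HeightOneSpectrum (𝓞 F) → ℕ) (m : HeightOneSpectrum (𝓞 ℚ) → ℕ),
        CQ57.IsLevFnQ57 (toBase962_732 B) 𝔫 T₀ n n₀ m →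
        ∀ c : ℂ, c ≠ 0 →
        ∀ D : DatQ87 F, IsDatQ87 Φ (toBase962_732 B) 𝔫 c T₀ n m D →
          IsAvgPureQ801 (upI (K' := F) 𝔫) 𝔫 T₀ (LocAQ801 c T₀ n m) 1
            (D.up (upI (K' := F) 𝔫)) (D.dn QWt.w0 𝔫) (D.dn QWt.w1 𝔫)

end Nodes2

/-! ## Appendix: the equation lemmas of the definitions of this file are realised HERE -/

theorem eqns_realised_baseAQ87 : True := by
  have _a1 := @DatQ87.Fr.eq_1
  have _a2 := @DatQ87.Fr.eq_2
  have _a3 := @DatQ87.Fr.eq_def
  have _a4 := @DatQ87.Fr.eq_unfold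
  have _b1 := @DatQ87.up.eq_1
  have _b2 := @DatQ87.up.eq_def
  have _b3 := @DatQ87.up.eq_unfold
  have _c1 := @DatQ87.dn.eq_1
  have _c2 := @DatQ87.dn.eq_def
  have _c3 := @DatQ87.dn.eq_unfold
  have _d1 := @DatQ87.crdUp.eq_1
  have _d2 := @DatQ87.crdUp.eq_def
  have _d3 := @DatQ87.crdUp.eq_unfold
  have _e1 := @DatQ87.crdDn.eq_1
  have _e2 := @DatQ87.crdDn.eq_def
  have _e3 := @DatQ87.crdDn.eq_unfold
  have _f1 := @DatQC87.eq_1
  have _f2 := @DatQC87.eq_def
  have _f3 := @DatQC87.eq_unfold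
  have _g1 := @UpGoodQC87.eq_1
  have _g2 := @UpGoodQC87.eq_def
  have _g3 := @UpGoodQC87.eq_unfold
  have _h1 := @DnGoodQC87.eq_1
  have _h2 := @DnGoodQC87.eq_def
  have _h3 := @DnGoodQC87.eq_unfold
  have _i1 := @IwSuppC87.eq_1
  have _i2 := @IwSuppC87.eq_def
  have _i3 := @IwSuppC87.eq_unfold
  have _j1 := @DnStabQC87.eq_1
  have _j2 := @DnStabQC87.eq_def
  have _j3 := @DnStabQC87.eq_unfold
  have _k1 := @ShapeQC87.eq_1
  have _k2 := @ShapeQC87.eq_def
  have _k3 := @ShapeQC87.eq_unfold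
  trivial

end Fermat.Agent.LT.T7.BQ87

end

end
-- ===== PACK-END LT/T7/H87/BaseAQSpec.lean

-- ===== PACK-BEGIN LT/T7/H87/BaseAQ801Spec.lean
section




/-!
# Row LT, tower T7, node T7.L2Q.1.H2a.A.0b `CQ801.BaseAQC801` (the base of the first pair over
# `ℚ` FOR THE WORDS OF SPHERE MEANS; registry row 2984): CUT by helper87 -- Spec

OFF-MAIN.  Definitions and frozen Props only (the proved top is `BaseAQ801Top.lean`).  No hole,
nothing assumed.  ADDITIVE (new names only, suffix `87`, namespace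
`Fermat.Agent.LT.T7.BQ87`).  Vocabulary: the cut of helper801 (`T7/H801/PairAQCutSpec.lean`:
`IsMWord801`, `IsBaseAQ801`, `BaseAQC801`) and the cut of `PQ484.BaseAQC484` by helper87
(`T7/H87/BaseAQSpec.lean`: `DatQ87`, `IsDatQ87` and the leaves), byte-identical copies.

    baseAQC801_of87 : DatQC87 F → StepMDatQC87 F → UpGoodQC87 F → DnGoodQC87 F → IwSuppC87 F
        → IwSuppC87 ℚ → DnStabQC87 F → ShapeQC87 F → CQ801.BaseAQC801 T7.ekMulti F   (VERBATIM)

## The cut: INDUCTION ON THE WORD OF SPHERE MEANS, ON THE LEVEL OF THE DATA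

The leaves of the cut of `BaseAQC484` (`UpGoodQC87`, `DnGoodQC87`, `IwSuppC87`, `DnStabQC87`,
`ShapeQC87`) are statements on ARBITRARY data with `IsDatQ87`: they are REUSED VERBATIM for the
data of every word.  The only new node:

* **`StepMDatQC87 F`** (NODE [XL]; THE STEP `M_{w,d}` ON THE DATA, re-synthesis downstairs): data
  `D` with `IsDatQ87` and a radius `d > 0` at the complex place `w` of `F` give data `D'` with
  `IsDatQ87` whose operators on the eigenfunctions are those of `D` multiplied by `C.m w d`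
  (upstairs on `IsEigFn`; downstairs on `IsEigFnQ t` with `IsBCDataQ t c C S`).

Construction of `D'` (header of `T7/H801/PairAQCutSpec.lean`, helper801).  The frames, `μc`, `κc`
and the finite components are those of `D`.  Upstairs `Φ' i w` = the sphere mean of radius `d`
of `Φ i w` (right convolution with the sphere measure `σ_d` of `GL₂(ℂ)`; the cubic leaves of
helper445 for `B981.StepMC981`: `SphPureC445`, `SphOpC445`, `SphArchC445` in ONE field), with the
Abel transform `β'' = β' ⋆ A(σ_d)` (`A(σ_d)` = the Abel transform of the sphere measure: a finite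
positive symmetric measure with compact support): `R(D'.up) χ = C.m w d · R(D.up) χ` because `χ`
is an eigenfunction of the sphere means.  Downstairs RE-SYNTHESIS: `F0' i`, `F1' i` of weight
`0`, `-1` with `N`-integral `halfQ801 c β''` (`T3.R.AbelRealC`); the operator of a pure tensor
on an eigenfunction of type `t` and parameter `s` is the product of the Satake part and of the
spherical transform of the real component at `s`, which is the Fourier--Laplace transform of
its `N`-integral (`T6.sphTransR`, `T6.ArchMatchC` (b)): it is multiplied by the transform of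
the push-forward of `A(σ_d)` under `x ↦ 2 x`, i.e. by `4π · sphC (2 s) (cosh d) = C.m w d`
(`IsBCDataQ`, second clause).  The coordinates of `D'` are the convolutions of the coordinates
of `D` with `A(σ_d)` (resp. its push-forward) in the archimedean variable: telescoping is
preserved (the convolution commutes with the translations of the coordinate group), the
Fourier transform at the good parameters is multiplied by the total mass `≠ 0`.

FALSITY CHECKS (helper87).  (a) `F` has ONE infinite place; the statement is for every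
`w : InfinitePlace F`.  (b) The relations are asked on the eigenfunctions only; for `χ = 0`
they are empty.  (c) NO relation between `D'` and `D` other than the two operator relations is
asked (the top does not need more).  (d) `c` is the same for `D` and `D'` (the Abel relation
`N`-integral downstairs `= c β''(·/2)` is part of `IsDatQ87.loc` for `D'`).  (e) If `c.m` is not
of the form `2π · sphRad t.wt s ∘ cosh` there is no `C` with `IsBCDataQ t c C S`: the relation
downstairs is empty.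
-/

set_option autoImplicit false

open AutomorphicForm IsDedekindDomain NumberField MeasureTheory
open scoped ComplexConjugate

noncomputable section

namespace Fermat.Agent.LT.T7.BQ87

open Fermat.Agent.LT Fermat.Agent.LT.H556 Fermat.Agent.LT.H556.A0 Fermat.Agent.LT.T7
  Fermat.Agent.LT.T7.H305 Fermat.Agent.LT.T7.L2Q Fermat.Agent.LT.T7.H893
  Fermat.Agent.LT.T7.H962 Fermat.Agent.LT.T7.H732 Fermat.Agent.LT.T7.MQ298
  Fermat.Agent.LT.T7.CQ801 Fermat.Agent.LT.T7.PQ484

attribute [local instance] Fermat.Agent.LT.T5.instMeasurableSpaceG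

section Nodes

variable (F : Type) [Field F] [NumberField F]

/-- **NODE A.0b.M over `ℚ` = THE STEP `M_{w,d}` ON THE DATA** (sphere mean upstairs,
re-synthesis downstairs).  See the header. -/
def StepMDatQC87 : Prop :=
  HasSqrtNegThree F → IsImagQuad F →
    ∀ Φ : HeckeEigensystem F ℂ, A0.IsCuspAdelicSph0 F Φ → ConstOnFibresQ Φ → ekMulti F Φ →
      ∀ B : L2Q.H60.L2QBase F, L2Q.H60.IsL2QBase Φ B → L2Q.H60.IsRamQ60 B →
      ∀ 𝔫 : Ideal (𝓞 ℚ), CQ57.IsLevQ57 (toBase962_732 B) 𝔫 →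
      ∀ (T₀ : Finset (HeightOneSpectrum (𝓞 ℚ)))
        (n n₀ : HeightOneSpectrum (𝓞 F) → ℕ) (m : HeightOneSpectrum (𝓞 ℚ) → ℕ),
        CQ57.IsLevFnQ57 (toBase962_732 B) 𝔫 T₀ n n₀ m →
        ∀ c : ℂ, c ≠ 0 →
        ∀ D : DatQ87 F, IsDatQ87 Φ (toBase962_732 B) 𝔫 c T₀ n m D →
        ∀ (w : InfinitePlace F) (d : ℝ), 0 < d →
          ∃ D' : DatQ87 F, IsDatQ87 Φ (toBase962_732 B) 𝔫 c T₀ n m D' ∧
            (∀ (χ : G F → ℂ) (C : EigData F),
              IsEigFn (toBase962_732 B).𝔑₀ (toBase962_732 B).R'.r 2 (toBase962_732 B).o χ C →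
              ∀ y : G F, T5.Rconv (toBase962_732 B).R'.μ (D'.up (upI (K' := F) 𝔫)) χ y
                = C.m w d * T5.Rconv (toBase962_732 B).R'.μ (D.up (upI (K' := F) 𝔫)) χ y) ∧
            ∀ (t : QWt) (χ : G ℚ → ℂ) (cd : EigData ℚ) (C : EigData F),
              IsEigFnQ t 𝔫 (toBase962_732 B).R.r (toBase962_732 B).u χ cd →
              IsBCDataQ t cd C (toBase962_732 B).S →
              ∀ y : G ℚ, T5.Rconv (toBase962_732 B).R.μ (D'.dn t 𝔫) χ y
                = C.m w d * T5.Rconv (toBase962_732 B).R.μ (D.dn t 𝔫) χ y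

end Nodes

/-! ## Appendix: the equation lemmas of the definitions of this file are realised HERE -/

theorem eqns_realised_baseAQ801_87 : True := by
  have _a1 := @StepMDatQC87.eq_1
  have _a2 := @StepMDatQC87.eq_def
  have _a3 := @StepMDatQC87.eq_unfold
  trivial

end Fermat.Agent.LT.T7.BQ87

end

end
-- ===== PACK-END LT/T7/H87/BaseAQ801Spec.lean

-- ===== PACK-BEGIN LT/T7/DQ773/DatQSpec.lean
section




/-!
# Row LT, tower T7, node T7.L2Q.1.H2a.A.0.D `BQ87.DatQC87` (owner helper773, registry row 3088):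
# THE CUT over `ℚ` -- Spec

OFF-MAIN.  Definitions and frozen Props only (the proved top is `DatQTop.lean`).  No hole,
nothing assumed.  ADDITIVE (new names only, suffix `773`, namespace
`Fermat.Agent.LT.T7.DQ773`).  Vocabulary, byte-identical copies: the cut of helper87
(`T7/H87/BaseAQSpec.lean` 6471b15c: `DatQ87`, `IsDatQ87`, `DatQC87`), the fourth cut of the cubic
node by helper981 (`T7/B981/PairDatSpec.lean`: `fib981`, `resDeg981`, `pushFin981`, and the
ONE-FIELD leaf `B981.UpDatC981`, which is REUSED VERBATIM for `K = F`).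

MIRROR over `ℚ` (quadratic step, `F = ℚ(√-3)`, `ℓ = 2`, REAL place downstairs, two weights) of
the fourth cut of helper981 (`B981.datC_of981`).

    datQC_of773 : B981.UpDatC981 F → HaarCplxExC773 → NormFrameQC773 F → DownFinQC773 F
                    → DownArchQC773 F → PushTelQC773 F → BQ87.DatQC87 F            (VERBATIM)

## The cut: the PUSH-FORWARD under the norm, place by place

* **`B981.UpDatC981 F`** (leaf of helper981, registry row 2979, ONE field, every field with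
  complex places only): reused as it is.
* **`HaarCplxExC773`** (leaf [S]): `GL₂(ℂ)` has a Haar measure for the Borel σ-algebra (the
  measure of the data is CHOSEN here; e.g. the one of `T3.AS.AbelCplxSmoothC`, closed).
* **`NormFrameQC773 F`** (leaf [L]; number theory; PORT of `B981.NormFrameC981` to `F/ℚ`): the
  norm frame downstairs, `a₀ = N_{F/ℚ} a₀' > 0`, `log |α|_∞ = 2 log |α'|_w`.
* **`DownFinQC773 F`** (node [L-XL]; PORT of `B981.DownFinC981` with `ℓ = 2`, `K = ℚ`): the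
  finite places downstairs for ONE pure tensor: `A v = pushFin981 P' A' v`, Satake pairs, unit
  components at the level, `SphOut893 2 T₀ (T₀ ∪ P)`.
* **`DownArchQC773 F`** (leaf [M-L]; NOT a port: the real place): for `c ≠ 0` and Abel pairs
  upstairs, the components `F0`, `F1` of weight `0`, `-1` with `N`-integral
  `halfQ801 c (β' w)` (`T3.R.AbelRealC`, closed) and the clause `CQ801.ArchOkQ801 c`.
* **`PushTelQC773 F`** (leaf [L-XL]; MATHLIB + the definitions of the coordinates; the finite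
  part is the one of `B981.PushTelC981`, NO integral at infinity): the push-forward of a
  telescoping coordinate function telescopes.

## FALSITY CHECKS (helper773)

(a) `F` imaginary quadratic: ONE infinite place `w`, complex; `ℚ` has ONE infinite place `v`,
real; `N α' = σ(α') σ̄(α') > 0` and `v(N α') = w(α')²` (`InfinitePlace` = the absolute value of
the embedding, NOT squared): `log v(α) = 2 log w(α')`.  (b) `halfQ801 c β' (X) = c β'(X/2)`:
`β (X + j c₀_∞) = c β'(X/2 + j log w(α'))`, the translation upstairs by `c₀'`.  (c) Finite part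
of the telescoping: `∏_{v ∈ P} pushFin981 P' A' v (M_v) = ∑_{N(m) = M} ∏_{w ∈ P'} A' w (m_w)`
(`P' = ⊔_{v ∈ P} fib981 P' v`: `under`), `N(m + j e') = N(m) + j e` (the formula for `e`);
`crdDn (M, X) = c ∑_{N(m) = M} crdUp (m, X/2)`, and for fixed `(M, X)` only finitely many
`(j, m)` contribute (`m + j e'` in a finite support, `N(m) = M`, `e v > 0`, `P ≠ ∅`): the sum
over `j` downstairs is the finite sum over `m` of the sums over `j` upstairs, which vanish.
(d) `P ∩ T₀ = ∅` (`FrameM.prime`, `IsLevFnQ57.div`): the Satake pairs at `P` and the unit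
components at `T₀` do not collide (the hypothesis is GIVEN to `DownFinQC773`).  A place of `P`
is unramified in `F` (`w ∉ S'`, `IsRamQ60`), so the clauses of `SphOut893 2` (inert: `IsBC 2`,
`N w = (N v)²`; split: two places of residue degree `1`) are the right ones.  (e) `c` occurs in
`DownArchQC773`, `PushTelQC773` only.  (f) Every leaf has the hypotheses of the node which make
sense for it.
-/

set_option autoImplicit false

open AutomorphicForm IsDedekindDomain NumberField MeasureTheory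
open scoped ComplexConjugate

noncomputable section

namespace Fermat.Agent.LT.T7.DQ773

open Fermat.Agent.LT Fermat.Agent.LT.H556 Fermat.Agent.LT.H556.A0 Fermat.Agent.LT.T7
  Fermat.Agent.LT.T7.H305 Fermat.Agent.LT.T7.L2Q Fermat.Agent.LT.T7.H893
  Fermat.Agent.LT.T7.H962 Fermat.Agent.LT.T7.H732 Fermat.Agent.LT.T7.MQ298
  Fermat.Agent.LT.T7.CQ801 Fermat.Agent.LT.T7.PQ484

attribute [local instance] Fermat.Agent.LT.T5.instMeasurableSpaceG

/-- **LEAF DQ.0 = HAAR-CPLX-EX** [S].  `GL₂(ℂ)` has a Haar measure (Borel σ-algebra).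
Proof.  `T3.AS.AbelCplxSmoothC` (closed) contains one; or `Measure.haar` (`GL₂(ℂ)` is a locally
compact group). -/
def HaarCplxExC773 : Prop :=
  ∃ μc : @Measure (GL (Fin 2) ℂ) (borel _), @Measure.IsHaarMeasure _ _ _ (borel _) μc

section Nodes

variable (F : Type) [Field F] [NumberField F]

/-- **LEAF DQ.2 = NORM-FRAME over `ℚ`** [L] (number theory; PORT of `B981.NormFrameC981`).  A
frame upstairs for the level `𝔫 𝒪_F` gives the norm frame downstairs for the level `𝔫`, with a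
POSITIVE generator.
Proof.  As `B981.NormFrameC981` (closed: helper312, helper621): `P` = the places under `P'`,
`a₀ = N_{F/ℚ} a₀'`, `α = N α'`.  New: `N α' > 0` (`F` is imaginary quadratic: the norm is
`σ(α') σ̄(α')`), and at infinity `v(N α') = w(α')²` for the real place `v` of `ℚ` and the complex
place `w` of `F`. -/
def NormFrameQC773 : Prop :=
  IsImagQuad F →
    ∀ (𝔫 : Ideal (𝓞 ℚ)) (P' : Finset (HeightOneSpectrum (𝓞 F)))
      (e' : HeightOneSpectrum (𝓞 F) → ℕ) (a₀' : 𝓞 F) (α' : Fˣ), 𝔫 ≠ ⊥ →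
      T3.M.FrameM F (upI (K' := F) 𝔫) P' e' a₀' α' →
      ∃ (P : Finset (HeightOneSpectrum (𝓞 ℚ))) (e : HeightOneSpectrum (𝓞 ℚ) → ℕ)
        (a₀ : 𝓞 ℚ) (α : ℚˣ),
        T3.M.FrameM ℚ 𝔫 P e a₀ α ∧
        T3.R.IsTotPos ℚ BQ87.ratReal87 α ∧
        (∀ v : HeightOneSpectrum (𝓞 ℚ), v ∈ P ↔ ∃ w ∈ P', PlaceOver ℚ F v w) ∧
        (∀ v ∈ P, e v = ∑ w ∈ B981.fib981 (K := ℚ) P' v, B981.resDeg981 v w * e' w) ∧
        ∀ (v : InfinitePlace ℚ) (w : InfinitePlace F),
          Real.log (v (α : ℚ)) = 2 * Real.log (w (α' : F))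

open Classical in
/-- **NODE DQ.3 = DOWN-FIN over `ℚ`** [L-XL] (finite places, ONE pure tensor; PORT of
`B981.DownFinC981` with `ℓ = 2`, `K = ℚ`, `K' = F`).  Components upstairs: Satake pairs
`(φ₀ w, A' w)` at `w ∈ P'` (outside `S'`, hence unramified), `1_{GL₂(𝒪_w)}` at the other places
over `P`.  Then there are `A`, `f₀` downstairs: `A v = pushFin981 P' A' v` and `(f₀ v, A v)` a
Satake pair at `v ∈ P`, unit components at the level, and the clause `SphOut893 2` for
`T = T₀ ∪ P`.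
Proof.  As `B981.DownFinC981` (helper619 / helper717 `PushCalcC619`): `v ∈ P` is unramified in
`F`, so either ONE place `w` over `v` of residue degree `2`, or TWO places of residue degree
`1`; `laurent (pushFin981 P' A' v) x y = ∏_{w ∈ P', w ∣ v} laurent (A' w) (x^{f_w}) (y^{f_w})`;
`f₀ v` from `T3.AS.SatakeLocC` at `v ∈ P`, `unitFn893 (m v)` elsewhere; bridge T3 → T6 (Satake
pair = spherical function with the same Satake transform). -/
def DownFinQC773 : Prop :=
  HasSqrtNegThree F → IsImagQuad F →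
    ∀ (Φ : HeckeEigensystem F ℂ) (B : L2Q.H60.L2QBase F), L2Q.H60.IsL2QBase Φ B →
      L2Q.H60.IsRamQ60 B →
      ∀ 𝔫 : Ideal (𝓞 ℚ), CQ57.IsLevQ57 (toBase962_732 B) 𝔫 →
      ∀ (T₀ : Finset (HeightOneSpectrum (𝓞 ℚ)))
        (n n₀ : HeightOneSpectrum (𝓞 F) → ℕ) (m : HeightOneSpectrum (𝓞 ℚ) → ℕ),
        CQ57.IsLevFnQ57 (toBase962_732 B) 𝔫 T₀ n n₀ m →
      ∀ (P' : Finset (HeightOneSpectrum (𝓞 F))) (P : Finset (HeightOneSpectrum (𝓞 ℚ))),
        (∀ w ∈ P', w ∉ (toBase962_732 B).S') →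
        (∀ v : HeightOneSpectrum (𝓞 ℚ), v ∈ P ↔ ∃ w ∈ P', PlaceOver ℚ F v w) →
        (∀ v ∈ P, ¬ v.asIdeal ∣ 𝔫) →
      ∀ (A' : HeightOneSpectrum (𝓞 F) → ℤ × ℤ → ℂ)
        (φ₀ : ∀ w : HeightOneSpectrum (𝓞 F), GL (Fin 2) (w.adicCompletion F) → ℂ),
        (∀ w : HeightOneSpectrum (𝓞 F), T3.AS.IsSymFin (A' w)) →
        (∀ w ∈ P', T3.AS.IsSatakePair w (φ₀ w) (A' w)) →
        (∀ w : HeightOneSpectrum (𝓞 F), w ∉ P' → (∃ v ∈ P, PlaceOver ℚ F v w) →
          φ₀ w = unitFn893 0) →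
        ∃ (A : HeightOneSpectrum (𝓞 ℚ) → ℤ × ℤ → ℂ)
          (f₀ : ∀ v : HeightOneSpectrum (𝓞 ℚ), GL (Fin 2) (v.adicCompletion ℚ) → ℂ),
          (∀ v : HeightOneSpectrum (𝓞 ℚ), T3.AS.IsSymFin (A v)) ∧
          (∀ v ∈ P, A v = B981.pushFin981 (K := ℚ) P' A' v) ∧
          (∀ v ∈ P, T3.AS.IsSatakePair v (f₀ v) (A v)) ∧
          (∀ v ∈ T₀, f₀ v = unitFn893 (m v)) ∧
          SphOut893 (K := ℚ) (K' := F) 2 T₀ (T₀ ∪ P) φ₀ f₀

/-- **LEAF DQ.4 = DOWN-ARCH over `ℚ`** [M-L] (the real place, ONE pure tensor; NOT a port).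
For `c ≠ 0` and Abel pairs `(Φ w, β' w)` upstairs there are `F0`, `F1` of weight `0`, `-1` and
`β` downstairs with `β v = halfQ801 c (β' w)`, `N`-integrals `β v`, and the clause
`CQ801.ArchOkQ801 c`.
Proof.  `F` has ONE infinite place `w₀` (`IsImagQuad`); `β₀ = halfQ801 c (β' w₀)` is a symmetric
bump (`c •` a bump composed with the linear map `X ↦ X/2`); `T3.R.AbelRealC` (closed: helper501,
helper878, helper773 `T3/H773/AbelReal.lean`) for the weights `0` and `-1` gives `F0`, `F1`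
(`T6.IsArchTestR`, `T3.R.HasAbelNR`).  `T6.IsArchTestC (Φ w)`: `T3.AS.IsCplxTest` (continuous,
compact support, bi-`U(2)`-invariant) and `T3.AS.IsCplxSmooth` (along `t ↦ g * h t`, whose
entries are smooth). -/
def DownArchQC773 : Prop :=
  IsImagQuad F → ∀ c : ℂ, c ≠ 0 →
    ∀ (Φ : InfinitePlace F → GL (Fin 2) ℂ → ℂ) (β' : InfinitePlace F → ℝ × ℝ → ℂ),
      (∀ w : InfinitePlace F, T3.AS.IsSymBump (β' w)) →
      (∀ w : InfinitePlace F, T3.AS.IsCplxTest (Φ w)) →
      (∀ w : InfinitePlace F, T3.AS.IsCplxSmooth (Φ w)) →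
      (∀ w : InfinitePlace F, T3.AS.HasAbelN (Φ w) (β' w)) →
      ∃ (F0 F1 : GL (Fin 2) ℝ → ℂ) (β : InfinitePlace ℚ → ℝ × ℝ → ℂ),
        (∀ v : InfinitePlace ℚ, T3.AS.IsSymBump (β v)) ∧
        T6.IsArchTestR 0 F0 ∧ T6.IsArchTestR (-1) F1 ∧
        (∀ v : InfinitePlace ℚ, T3.R.HasAbelNR F0 (β v)) ∧
        (∀ v : InfinitePlace ℚ, T3.R.HasAbelNR F1 (β v)) ∧
        (∀ (v : InfinitePlace ℚ) (w : InfinitePlace F), β v = halfQ801 c (β' w)) ∧
        ArchOkQ801 c Φ F0 F1

/-- **LEAF DQ.5 = PUSH-TEL over `ℚ`** [L-XL] (MATHLIB + the definitions of the coordinates).  If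
the sum of the pure tensors upstairs telescopes along `c₀' = coordTorM F P' e' α'`, then the sum
of the pushed pure tensors downstairs telescopes along `c₀ = coordTorM ℚ P e α`.
Proof.  See the falsity checks (b), (c) of the header: `crdDn (M, X) = c ∑_{N(m) = M}
crdUp (m, X/2)` (finite sums: finite supports), the translation by `c₀'` maps the fibre over
`Δ` onto the fibre over `Δ + c₀`, for fixed `Δ` only finitely many `(j, m)` contribute.  The
finite part is the finite part of `B981.PushTelC981` (helper146); there is NO integral at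
infinity (one place over the real place). -/
def PushTelQC773 : Prop :=
  IsImagQuad F →
    ∀ (P' : Finset (HeightOneSpectrum (𝓞 F))) (P : Finset (HeightOneSpectrum (𝓞 ℚ)))
      (e' : HeightOneSpectrum (𝓞 F) → ℕ) (e : HeightOneSpectrum (𝓞 ℚ) → ℕ)
      (α' : Fˣ) (α : ℚˣ),
      (∀ v : HeightOneSpectrum (𝓞 ℚ), v ∈ P ↔ ∃ w ∈ P', PlaceOver ℚ F v w) →
      P.Nonempty → (∀ v ∈ P, 0 < e v) →
      (∀ v ∈ P, e v = ∑ w ∈ B981.fib981 (K := ℚ) P' v, B981.resDeg981 v w * e' w) →
      (∀ (v : InfinitePlace ℚ) (w : InfinitePlace F),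
        Real.log (v (α : ℚ)) = 2 * Real.log (w (α' : F))) →
      ∀ (c : ℂ) (N : ℕ) (A' : Fin N → HeightOneSpectrum (𝓞 F) → ℤ × ℤ → ℂ)
        (β' : Fin N → InfinitePlace F → ℝ × ℝ → ℂ)
        (A : Fin N → HeightOneSpectrum (𝓞 ℚ) → ℤ × ℤ → ℂ)
        (β : Fin N → InfinitePlace ℚ → ℝ × ℝ → ℂ),
        (∀ (i : Fin N) (w : HeightOneSpectrum (𝓞 F)), T3.AS.IsSymFin (A' i w)) →
        (∀ (i : Fin N) (w : InfinitePlace F), T3.AS.IsSymBump (β' i w)) →
        (∀ (i : Fin N), ∀ v ∈ P, A i v = B981.pushFin981 (K := ℚ) P' (A' i) v) →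
        (∀ (i : Fin N) (v : InfinitePlace ℚ) (w : InfinitePlace F),
          β i v = halfQ801 c (β' i w)) →
        (∀ Δ : T3.M.CoordM F P',
          HasSum (fun j : ℤ => ∑ i : Fin N,
            T3.M.pureCoordM F P' (A' i) (β' i) (Δ + j • T3.M.coordTorM F P' e' α')) 0) →
        ∀ Δ : T3.M.CoordM ℚ P,
          HasSum (fun j : ℤ => ∑ i : Fin N,
            T3.M.pureCoordM ℚ P (A i) (β i) (Δ + j • T3.M.coordTorM ℚ P e α)) 0

end Nodes

/-! ## Appendix: the equation lemmas of the definitions of this file are realised HERE -/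

theorem eqns_realised_datQSpec773 : True := by
  have _h0_0 := @HaarCplxExC773.eq_1
  have _h0_1 := @HaarCplxExC773.eq_def
  have _h0_2 := @HaarCplxExC773.eq_unfold
  have _h1_0 := @NormFrameQC773.eq_1
  have _h1_1 := @NormFrameQC773.eq_def
  have _h1_2 := @NormFrameQC773.eq_unfold
  have _h2_0 := @DownFinQC773.eq_1
  have _h2_1 := @DownFinQC773.eq_def
  have _h2_2 := @DownFinQC773.eq_unfold
  have _h3_0 := @DownArchQC773.eq_1
  have _h3_1 := @DownArchQC773.eq_def
  have _h3_2 := @DownArchQC773.eq_unfold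
  have _h4_0 := @PushTelQC773.eq_1
  have _h4_1 := @PushTelQC773.eq_def
  have _h4_2 := @PushTelQC773.eq_unfold
  trivial

end Fermat.Agent.LT.T7.DQ773

end

end
-- ===== PACK-END LT/T7/DQ773/DatQSpec.lean

-- ===== PACK-BEGIN LT/T7/H409/UpGoodQ.lean
section




/-!
# Row LT, tower T7, quadratic step, leaf T7.L2Q.1.H2a.A.0.U `BQ87.UpGoodQC87` (cut of helper87,
# registry row 3089, helper409): PROVED, VERBATIM

OFF-MAIN.  No hole, nothing assumed.  ADDITIVE (new names only, suffix `409`, namespace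
`Fermat.Agent.LT.T7.H409`).

    upGoodQC409 F : BQ87.UpGoodQC87 F                                  (UNCONDITIONAL)

Statement of `T7/H87/BaseAQSpec.lean` (helper87@ddfedf375, sha256 6471b15c): the PORT over `ℚ`
(`K' = F` imaginary quadratic, `ℓ = 2`) of the cubic leaf `B981.UpGoodC981` (registry row 2911,
proved by helper952, `T7/H952/UpGood.lean` 74c49223).

## Proof (the argument of helper952, for `F`)

`F` is totally complex (`IsImagQuad F`).  Plug of the closed `T3.M.ekOfPairM_c` for `F`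
(helper14, `T3/M/Explicit.lean`): the sum upstairs of the data is a member of `pairSpanMS`
(coefficients `1`: `symA'`, `symβ'`, `sat_up`, `test_up`, `smooth_up`, `abel_up`, `acts_up`),
the coordinates telescope (`tel_up`), the frame is `frame_up`, the Haar measure of `GL₂(ℂ)` is
the field `D.μc` (`haar_c`).  The scalar: `c₁ C = 1` if `C.b w = 0` for some `w ∈ P'` (then the
eigenfunctions vanish: `T3.H732.eq_zero_of_b_eq_zero732`), and `c (root1) (root2) C.m`
otherwise; an eigenfunction of the base level is `IsMeanLevel` for the level `𝔫 𝒪_F ≤ 𝔑₀`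
(`IsLevQ57.level_g`); `c₁ ≠ 0` on the class of `Φ`: `ft_ne` and `good`.

The hypotheses `HasSqrtNegThree F`, `IsCuspAdelicSph0`, `ConstOnFibresQ`, `ekMulti`, `IsRamQ60`,
`IsLevFnQ57`, `c ≠ 0` of the Prop are not used.  No equation lemma of a foreign definition is
realised here (`simp only` with the lemmas `if_pos`, `if_neg`, `one_mul`, `mul_zero`,
`integral_zero`, `not_exists`, `not_and` of Lean / Mathlib).
-/

set_option autoImplicit false
set_option linter.style.haveILetI false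
set_option linter.unusedVariables false

open AutomorphicForm IsDedekindDomain NumberField MeasureTheory
open scoped ComplexConjugate

noncomputable section

namespace Fermat.Agent.LT.T7.H409

open Fermat.Agent.LT Fermat.Agent.LT.H556 Fermat.Agent.LT.H556.A0 Fermat.Agent.LT.T7
  Fermat.Agent.LT.T7.H305 Fermat.Agent.LT.T7.L2Q Fermat.Agent.LT.T7.H893
  Fermat.Agent.LT.T7.H962 Fermat.Agent.LT.T7.H732 Fermat.Agent.LT.T7.MQ298
  Fermat.Agent.LT.T7.CQ801 Fermat.Agent.LT.T7.PQ484 Fermat.Agent.LT.T7.BQ87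

attribute [local instance] Fermat.Agent.LT.T5.instMeasurableSpaceG

section OneField

variable {K : Type} [Field K] [NumberField K]

/-- The level groups are monotone in the level. -/
theorem inLevelGroup_mono409 {𝔑 𝔑₀ : Ideal (𝓞 K)} (hle : 𝔑 ≤ 𝔑₀) {u : G K}
    (hu : InLevelGroup 𝔑 u) : InLevelGroup 𝔑₀ u := by
  have hmono : ∀ v : HeightOneSpectrum (𝓞 K), idealClosure 𝔑 v ⊆ idealClosure 𝔑₀ v :=
    fun v => closure_mono (Set.image_mono hle)
  exact ⟨hu.1, fun v i j => ⟨hmono v (hu.2 v i j).1, hmono v (hu.2 v i j).2⟩⟩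

/-- An eigenfunction of the level `𝔑₀` is a joint eigenfunction of the sphere means of every
smaller level. -/
theorem isMeanLevel_of_isEigFn409 {𝔑 𝔑₀ : Ideal (𝓞 K)} (hle : 𝔑 ≤ 𝔑₀) {r : G K} {l : ℕ}
    {o : ℕ → HeightOneSpectrum (𝓞 K)} {χ : G K → ℂ} {C : EigData K}
    (h : IsEigFn 𝔑₀ r l o χ C) : T3.M.IsMeanLevel K 𝔑 C.m χ where
  cont := h.inv.cusp.cont
  level_inv := fun u hu g => h.inv.cusp.aut.level_inv u (inLevelGroup_mono409 hle hu) g
  arch_scalar := h.inv.arch_scalar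
  arch_compact := fun w k hk g =>
    (h.inv.cusp.aut.arch_compact w k hk g).trans (one_mul (χ g))
  mean := h.mean

end OneField

section Leaf

variable (F : Type) [Field F] [NumberField F]

/-- **LEAF A.0.U over `ℚ` = UP** (`BQ87.UpGoodQC87`), VERBATIM. -/
theorem upGoodQC409 : UpGoodQC87 F := by
  intro _h3 hquad Φ _hcusp _hconst _hek B hB _hram 𝔫 h𝔫 T₀ n n₀ m _hlev c₀ _hc₀ D hD
  have hcx : ∀ w : InfinitePlace F, w.IsComplex := hquad.2
  have hout : ∀ w ∈ D.P', w ∉ B.S' := hD.out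
  have hlevg : upI (K' := F) 𝔫 ≤ B.𝔑₀ := h𝔫.level_g
  show T5.IsTestFn (upI (K' := F) 𝔫) T5.trivType (D.up (upI (K' := F) 𝔫)) ∧
    T5.IsEK B.R'.μ (D.up (upI (K' := F) 𝔫)) ∧
    T5.IsEK B.R'.μ (T5.adjointFn (D.up (upI (K' := F) 𝔫))) ∧
    T3.M.IsSuppAtM F (upI (K' := F) 𝔫) D.P' (D.up (upI (K' := F) 𝔫)) ∧
    ∃ c₁ : EigData F → ℂ,
      (∀ (χ : G F → ℂ) (C : EigData F), IsEigFn B.𝔑₀ B.R'.r 2 B.o χ C →
        ∀ y : G F, T5.Rconv B.R'.μ (D.up (upI (K' := F) 𝔫)) χ y = c₁ C * χ y) ∧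
      ∀ C : EigData F, C.AgreeOut B.S' (eigOf Φ) → c₁ C ≠ 0
  obtain ⟨κ₀, hκ₀, hall⟩ := T3.M.ekOfPairM_c F hcx B.R'.μ hB.frame'.frame.haar D.μc hD.haar_c
    D.κc hD.κc_ne (upI (K' := F) 𝔫) D.P' D.e' D.a₀' D.α' hD.frame_up
  -- the sums are a member of `pairSpanMS`
  have hmemS : (D.crdUp, D.up (upI (K' := F) 𝔫))
      ∈ T3.M.pairSpanMS F D.μc D.κc (upI (K' := F) 𝔫) D.P' := by
    have h : ((D.crdUp, D.up (upI (K' := F) 𝔫)) :
        (T3.M.CoordM F D.P' → ℂ) × (G F → ℂ))
        = ∑ i : Fin D.N, ((T3.M.pureCoordM F D.P' (D.A' i) (D.β' i),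
            T3.M.pureFnM F (upI (K' := F) 𝔫) D.P' (D.φ₀ i) (D.Φ i)) :
            (T3.M.CoordM F D.P' → ℂ) × (G F → ℂ)) := by
      refine Prod.ext ?_ ?_
      · rw [Prod.fst_sum]
        funext p
        rw [Finset.sum_apply]
        rfl
      · rw [Prod.snd_sum]
        funext g
        rw [Finset.sum_apply]
        rfl
    rw [h]
    refine Submodule.sum_mem _ fun i _ => Submodule.subset_span ?_
    exact ⟨D.A' i, D.β' i, D.φ₀ i, D.Φ i, hD.symA' i, hD.symβ' i, hD.sat_up i, hD.test_up i,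
      hD.smooth_up i, hD.abel_up i, hD.acts_up i, rfl⟩
  obtain ⟨h1, h2, h3, h4, c, hc, hop⟩ := hall D.crdUp (D.up (upI (K' := F) 𝔫))
    (T3.M.pairSpanMS_le D.μc D.κc _ _ hmemS) hD.tel_up
  refine ⟨h1, h2, h3, h4, ?_⟩
  classical
  refine ⟨fun C => if ∃ w ∈ D.P', C.b w = 0 then 1 else
    c (fun w => T3.H732.root1_732 (C.a w) (C.b w))
      (fun w => T3.H732.root2_732 (C.a w) (C.b w)) C.m, ?_, ?_⟩
  · -- the operator
    intro χ C hχ y
    have hheck : ∀ w ∈ D.P', IsHeckeEigenAt χ w (C.a w) (C.b w) := fun w hw =>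
      hχ.hecke w (fun hdvd => hout w hw ((hB.mem_S' w).2 hdvd))
    by_cases hb : ∃ w ∈ D.P', C.b w = 0
    · simp only [if_pos hb, one_mul]
      obtain ⟨w, hw, hbw⟩ := hb
      have hecke' := hheck w hw
      rw [hbw] at hecke'
      have hzero : ∀ g : G F, χ g = 0 :=
        T3.H732.eq_zero_of_b_eq_zero732 F (T3.inScalarUnif_u F) hecke'
      rw [hzero y]
      show ∫ x, D.up (upI (K' := F) 𝔫) x * χ (y * x) ∂B.R'.μ = 0
      simp only [hzero, mul_zero, integral_zero]
    · simp only [if_neg hb]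
      simp only [not_exists, not_and] at hb
      exact hop χ C.m (isMeanLevel_of_isEigFn409 hlevg hχ) C.a C.b _ _ hheck
        (fun w _ => (T3.H732.roots_spec732 (C.a w) (C.b w)).1)
        (fun w _ => (T3.H732.roots_spec732 (C.a w) (C.b w)).2) hb y
  · -- non-vanishing on the class of `Φ`
    intro C hC
    by_cases hb : ∃ w ∈ D.P', C.b w = 0
    · simp only [if_pos hb]
      exact one_ne_zero
    · simp only [if_neg hb]
      simp only [not_exists, not_and] at hb
      have hsph : T3.M.IsSph0Param F C.m := fun w d hd => hC.2 w d hd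
      rw [hc hmemS _ _ C.m hsph]
      have hr₁ : ∀ w ∈ D.P', T3.H732.root1_732 (C.a w) (C.b w) ≠ 0 := fun w hw h =>
        hb w hw (by rw [← (T3.H732.roots_spec732 (C.a w) (C.b w)).2, h, zero_mul])
      have hr₂ : ∀ w ∈ D.P', T3.H732.root2_732 (C.a w) (C.b w) ≠ 0 := fun w hw h =>
        hb w hw (by rw [← (T3.H732.roots_spec732 (C.a w) (C.b w)).2, h, mul_zero])
      refine mul_ne_zero hκ₀ (hD.ft_ne _ _ hr₁ hr₂ fun z hz => ?_)
      refine hD.good z fun w hw => ?_
      obtain ⟨hs, hp⟩ := T3.H732.roots_spec732 (C.a w) (C.b w)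
      have hag := hC.1 w (hout w hw)
      have ha : C.a w = Φ.a w := hag.1
      have hb' : C.b w = Φ.b w := hag.2
      rw [← ha, ← hb']
      rcases hz w hw with h | h
      · rw [h]
        linear_combination (T3.H732.root1_732 (C.a w) (C.b w)) * hs - hp
      · rw [h]
        linear_combination (T3.H732.root2_732 (C.a w) (C.b w)) * hs - hp

end Leaf

end Fermat.Agent.LT.T7.H409

end

end
-- ===== PACK-END LT/T7/H409/UpGoodQ.lean

-- ===== PACK-BEGIN LT/T7/H801/DnGoodQ.lean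
section








/-!
# Row LT, tower T7, leaf T7.L2Q.1.H2a.A.0.W `BQ87.DnGoodQC87` (registry row 3090; helper801,
# SPARE): PROVED

OFF-MAIN.  No hole, nothing assumed.  ADDITIVE (new names only, suffix `801`, namespace
`Fermat.Agent.LT.T7.DG801`).

    dnGoodQC801 (F) : BQ87.DnGoodQC87 F                       (VERBATIM, UNCONDITIONAL)

Spec: `T7/H87/BaseAQSpec.lean` (helper87, sha256 6471b15c), byte-identical copy.
Inputs (byte-identical copies): `T3.R.ekOfPairR_c`, `T3.R.mem_pairSpanR_sum` (helper14,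
`T3/R/Explicit.lean`), `T3.R.H96.meanActsRC96` (helper96), `T3.R.H981.locOfMeanRC981`
(helper981), `T3.R.H247.inHaarRC247` (helper247), `T3.H732.root1_732`, `roots_spec732`,
`eq_zero_of_b_eq_zero732` (`T3/H732/EKAlg.lean`), `T3.inScalarUnif_u` (`T3/ClosedT1.lean`),
and the two bridges of helper801: `T7/H801/TypeBridgeQ.lean` (the types `typeR` and `t.type`
agree on `K_∞`) and `T7/H801/EigBridgeQ.lean` (an eigenfunction `IsEigFnQ` of type `t` belongs
to the class of its circle means, `m_{T3.R} = m / 2π`).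

Proof (the real form of the leaf `UpGoodQC87`).  `(D.crdDn, D.dn t 𝔫) ∈ pairSpanR ℚ _ 𝔫 P
(fun _ => t.wt)` (sum of pure pairs with coefficients `1`); `ekOfPairR_c` with `frame_dn`,
`totpos`, `tel_dn` gives the test function of type `typeR` (hence of type `t.type`), the two
Eisenstein-killing properties, the support and, for the concrete classes
`locClassR t.wt (c.m w / 2π)` (scalar classes: `meanActsRC96`), the scalars `cc c z₁ z₂` on the
global class.  `cs c = 1` if `c.b v = 0` for some `v ∈ P` (then every eigenfunction vanishes),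
`= cc c (root1) (root2)` otherwise.  An eigenfunction is Hecke-eigen at the places of `P`
(prime to `𝔫`: `frame_dn.prime`).
-/

set_option autoImplicit false
set_option linter.unusedSectionVars false
set_option linter.style.haveILetI false

open AutomorphicForm IsDedekindDomain NumberField MeasureTheory

noncomputable section

namespace Fermat.Agent.LT.T7.DG801

open Fermat.Agent.LT Fermat.Agent.LT.H556 Fermat.Agent.LT.H556.A0 Fermat.Agent.LT.T7
  Fermat.Agent.LT.T7.H305 Fermat.Agent.LT.T7.L2Q Fermat.Agent.LT.T7.H893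
  Fermat.Agent.LT.T7.H962 Fermat.Agent.LT.T7.H732 Fermat.Agent.LT.T7.MQ298
  Fermat.Agent.LT.T7.CQ801 Fermat.Agent.LT.T7.PQ484 Fermat.Agent.LT.T7.BQ87
  Fermat.Agent.LT.T7.TB801 Fermat.Agent.LT.T7.EB801

attribute [local instance] Fermat.Agent.LT.T5.instMeasurableSpaceG

variable {F : Type} [Field F] [NumberField F]

/-- The pair of the sums of the data downstairs of type `t` is a member of `pairSpanR`. -/
theorem mem_pairSpanR_datQ801 {Φe : HeckeEigensystem F ℂ} {B : L2QBase962 F}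
    {𝔫 : Ideal (𝓞 ℚ)} {c : ℂ} {T₀ : Finset (HeightOneSpectrum (𝓞 ℚ))}
    {n : HeightOneSpectrum (𝓞 F) → ℕ} {m : HeightOneSpectrum (𝓞 ℚ) → ℕ}
    {D : DatQ87 F} (hD : IsDatQ87 Φe B 𝔫 c T₀ n m D) (t : QWt) (𝔫' : Ideal (𝓞 ℚ)) :
    ((D.crdDn, D.dn t 𝔫') : (T3.M.CoordM ℚ D.P → ℂ) × (G ℚ → ℂ))
      ∈ T3.R.pairSpanR ℚ ratReal87 𝔫' D.P (fun _ => t.wt) := by
  have h := T3.R.mem_pairSpanR_sum (K := ℚ) ratReal87 𝔫' D.P (fun _ => t.wt) Finset.univ
    (fun _ : Fin D.N => (1 : ℂ)) D.A D.β D.f₀ (fun i _ => D.Fr t i)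
    (fun i _ v => hD.symA i v) (fun i _ w => hD.symβ i w)
    (fun i _ v hv => hD.sat_dn i v hv) (fun i _ _ => hD.test_dn t i)
    (fun i _ w => hD.abel_dn t i w)
  have e1 : D.crdDn = ∑ i : Fin D.N, (1 : ℂ) • T3.M.pureCoordM ℚ D.P (D.A i) (D.β i) := by
    funext p
    rw [Finset.sum_apply]
    simp only [Pi.smul_apply, one_smul]
    rfl
  have e2 : D.dn t 𝔫' = ∑ i : Fin D.N, (1 : ℂ) • T3.R.pureFnR ℚ ratReal87 𝔫' D.P (D.f₀ i)
      (fun _ => D.Fr t i) := by
    funext g
    rw [Finset.sum_apply]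
    simp only [Pi.smul_apply, one_smul]
    rfl
  rw [e1, e2]
  exact h

variable (F)

/-- **LEAF A.0.W over `ℚ` = DOWN**, proved. -/
theorem dnGoodQC801 : BQ87.DnGoodQC87 F := by
  classical
  letI : MeasurableSpace (GL (Fin 2) ℝ) := borel (GL (Fin 2) ℝ)
  intro _hs _hiq Φ _hcusp _hconst _hek B hB _hram 𝔫 _h𝔫 T₀ n _n₀ m _hlf c _hc D hD t
  have hmem := mem_pairSpanR_datQ801 hD t 𝔫
  obtain ⟨μr, hμr⟩ : ∃ μr : Measure (GL (Fin 2) ℝ), μr.IsHaarMeasure :=
    T3.R.H247.inHaarRC247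
  obtain ⟨κ₀, -, hall⟩ := T3.R.ekOfPairR_c ℚ ratReal87 (toBase962_732 B).R.μ
    hB.frame.frame.haar μr hμr 𝔫 D.P D.e D.a₀ D.α hD.frame_dn hD.totpos (fun _ => t.wt)
  obtain ⟨hT, hEK, hEKa, hsupp, hsc⟩ := hall D.crdDn (D.dn t 𝔫) hmem hD.tel_dn
  refine ⟨isTestFn_type_of_typeR801 ratReal87 t hT, hEK, hEKa, hsupp, ?_⟩
  have hwt : T3.R.IsWt t.wt := by
    cases t with
    | w0 => exact Or.inl rfl
    | w1 => exact Or.inr (Or.inr rfl)
  have hcls : ∀ (cd : EigData ℚ) (w : InfinitePlace ℚ),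
      T3.R.IsScalarClassR μr t.wt
        (T3.R.locClassR t.wt (fun s => cd.m w s / ((2 * Real.pi : ℝ) : ℂ))) :=
    fun cd w => T3.R.H96.meanActsRC96 μr hμr t.wt hwt _
  choose cc hcc using fun cd : EigData ℚ =>
    hsc (fun w => T3.R.locClassR t.wt (fun s => cd.m w s / ((2 * Real.pi : ℝ) : ℂ)))
      (fun _ => 1) (hcls cd)
  refine ⟨fun cd => if ∃ v ∈ D.P, cd.b v = 0 then 1 else
    cc cd (fun v => T3.H732.root1_732 (cd.a v) (cd.b v))
      (fun v => T3.H732.root2_732 (cd.a v) (cd.b v)), ?_⟩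
  intro χ cd hχ g
  have hecke : ∀ v ∈ D.P, IsHeckeEigenAt χ v (cd.a v) (cd.b v) := fun v hv =>
    hχ.hecke v (hD.frame_dn.prime v hv)
  by_cases hb : ∃ v ∈ D.P, cd.b v = 0
  · simp only [if_pos hb, one_mul]
    obtain ⟨v, hv, hbv⟩ := hb
    have hecke' := hecke v hv
    rw [hbv] at hecke'
    have hzero : ∀ g : G ℚ, χ g = 0 :=
      T3.H732.eq_zero_of_b_eq_zero732 ℚ (T3.inScalarUnif_u ℚ) hecke'
    rw [hzero g]
    show (∫ z, D.dn t 𝔫 z * χ (g * z) ∂(toBase962_732 B).R.μ) = 0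
    simp only [hzero, mul_zero, integral_zero]
  · simp only [if_neg hb]
    simp only [not_exists, not_and] at hb
    exact (hcc cd).2 χ (isClassLevelR_of_eigFnQ801 ratReal87 t hχ) cd.a cd.b _ _ hecke
      (fun v _ => (T3.H732.roots_spec732 (cd.a v) (cd.b v)).1)
      (fun v _ => (T3.H732.roots_spec732 (cd.a v) (cd.b v)).2) hb g

/-- Check: the statement is the frozen Prop of helper87, verbatim. -/
example : Fermat.Agent.LT.T7.BQ87.DnGoodQC87 F := dnGoodQC801 F

end Fermat.Agent.LT.T7.DG801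

end

end
-- ===== PACK-END LT/T7/H801/DnGoodQ.lean

-- ===== PACK-BEGIN LT/T7/H283/IwSupp.lean
section



/-!
# Row LT, tower T7, leaf T7.L2Q.1.H2a.A.0.S `BQ87.IwSuppC87 K` (helper283, registry row 3091)

OFF-MAIN, ADDITIVE (new names only, suffix `283`).  Vocabulary: `T7/H87/BaseAQSpec.lean`
(helper87, sha256 6471b15c) and its imports, byte-identical copies.

    iwSuppC283 (K) : BQ87.IwSuppC87 K                         (VERBATIM, UNCONDITIONAL)

ONE field.  A function of compact support which is supported at `P ∪ S_∞` (`T3.M.IsSuppAtM`) is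
Iwahori-supported along places `o j ∣ 𝔫` outside `P`, in the compact set `C = tsupport f`
(`T5.H32.isIwSupported_of_support32`): at `o j` the entries of `y - 1`, `y⁻¹ - 1` lie in the
closure of `𝔫`, which is contained in the maximal ideal of the completion.
-/

set_option autoImplicit false

open IsDedekindDomain NumberField

noncomputable section

namespace Fermat.Agent.LT.T7.H283

open Fermat.Agent.LT.H556.A0 Fermat.Agent.LT.T5

variable {K : Type} [Field K] [NumberField K]

/-- The valuation of the completion on the image of `K`. -/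
theorem valuedAlg_iw283 (v : HeightOneSpectrum (𝓞 K)) (q : K) :
    Valued.v (algebraMap K (v.adicCompletion K) q) = v.valuation K q :=
  HeightOneSpectrum.valuedAdicCompletion_eq_valuation' v q

/-- The open unit ball of the completion is closed. -/
theorem isClosed_lt_one_iw283 (v : HeightOneSpectrum (𝓞 K)) :
    IsClosed {x : v.adicCompletion K | Valued.v x < 1} := by
  have h := Valued.isClosed_ball (v.adicCompletion K) (1 : MonoidWithZeroHom.ValueGroup₀ _)
  have e : {x : v.adicCompletion K | Valued.v x < 1} = {x | Valued.v.restrict x < 1} := by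
    ext x
    simp [Valuation.restrict_lt_iff_lt_embedding]
  rw [e]
  exact h

/-- The closure of an ideal divisible by `u` lies in the maximal ideal at `u`. -/
theorem idealClosure_lt_one_iw283 {𝔫 : Ideal (𝓞 K)} {u : HeightOneSpectrum (𝓞 K)}
    (hu : u.asIdeal ∣ 𝔫) {x : u.adicCompletion K} (hx : x ∈ idealClosure 𝔫 u) :
    Valued.v x < 1 := by
  refine closure_minimal ?_ (isClosed_lt_one_iw283 u) hx
  rintro _ ⟨n, hn, rfl⟩
  show Valued.v (algebraMap K (u.adicCompletion K) (algebraMap (𝓞 K) K n)) < 1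
  rw [valuedAlg_iw283]
  exact (HeightOneSpectrum.valuation_lt_one_iff_mem u n).2 (Ideal.dvd_iff_le.1 hu hn)

/-- An element which is congruent to `1` modulo `𝔫` at `u ∣ 𝔫` (with its inverse) lies in the
Iwahori subgroup at `u`. -/
theorem inIwahori_of_outside_iw283 {𝔫 : Ideal (𝓞 K)} {u : HeightOneSpectrum (𝓞 K)}
    (hu : u.asIdeal ∣ 𝔫) {y : G K}
    (h : ∀ i j : Fin 2, (finComp u y - 1) i j ∈ idealClosure 𝔫 u ∧
      (finComp u y⁻¹ - 1) i j ∈ idealClosure 𝔫 u) :
    InIwahori u y := by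
  have key : ∀ (M : Matrix (Fin 2) (Fin 2) (u.adicCompletion K)),
      (∀ i j, (M - 1) i j ∈ idealClosure 𝔫 u) → ∀ i j, M i j ∈ u.adicCompletionIntegers K := by
    intro M hM i j
    have e : M i j = (M - 1) i j + (1 : Matrix (Fin 2) (Fin 2) (u.adicCompletion K)) i j := by
      rw [Matrix.sub_apply, sub_add_cancel]
    rw [e]
    refine add_mem ?_ ?_
    · rw [HeightOneSpectrum.mem_adicCompletionIntegers]
      exact (idealClosure_lt_one_iw283 hu (hM i j)).le
    · by_cases hij : i = j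
      · subst hij
        rw [Matrix.one_apply_eq]
        exact one_mem _
      · rw [Matrix.one_apply_ne hij]
        exact zero_mem _
  refine ⟨key _ fun i j => (h i j).1, key _ fun i j => (h i j).2, ?_⟩
  have h1 := idealClosure_lt_one_iw283 hu (h 1 0).1
  rwa [Matrix.sub_apply, Matrix.one_apply_ne (by decide), sub_zero] at h1

/-- **LEAF A.0.S = IW-SUPP (one field)**, VERBATIM, unconditional. -/
theorem iwSuppC283 (K : Type) [Field K] [NumberField K] : BQ87.IwSuppC87 K := by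
  intro 𝔫 P l o hdiv hout f hf hsupp
  refine ⟨tsupport f, hf, T5.H32.isIwSupported_of_support32 ?_⟩
  intro y hy j hj
  exact inIwahori_of_outside_iw283 (hdiv j hj)
    (fun i j' => hsupp y hy (o j) (hout j hj) i j')

end Fermat.Agent.LT.T7.H283

end

end
-- ===== PACK-END LT/T7/H283/IwSupp.lean

-- ===== PACK-BEGIN LT/T7/H919/DnStabQ.lean
section




/-!
# Row LT, tower T7, Q-mirror: cut of `PQ484.BaseAQC484` (helper87, `T7/H87/BaseAQSpec.lean`):
# LEAVES A.0.C `DnStabQC87 F` and A.0.S `IwSuppC87 K` (helper919, OFF-MAIN, never land)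

Complete proofs, nothing assumed.  Ports of `DS919.dnStabC919` (`T7/H919/DnStab.lean`): the
one-field lemmas of that file are used verbatim; NEW here: `rconv_cuspFnT919` = `R(f)` preserves
the cusp functions of an ARBITRARY `K_∞`-type `τ` (`f(k⁻¹ y) = τ(k) f(y)`), and the stability of
the circle means under scalars.
-/

set_option autoImplicit false

open AutomorphicForm IsDedekindDomain NumberField MeasureTheory
open scoped ComplexConjugate

noncomputable section

namespace Fermat.Agent.LT.T7.DSQ919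

open Fermat.Agent.LT Fermat.Agent.LT.H556 Fermat.Agent.LT.H556.A0 Fermat.Agent.LT.T7
open Fermat.Agent.LT.T7.H305 Fermat.Agent.LT.T7.H893 Fermat.Agent.LT.H129
open Fermat.Agent.LT.T7.DS919 Fermat.Agent.LT.T7.BQ87 Fermat.Agent.LT.T7.L2Q
open Fermat.Agent.LT.T7.H962 Fermat.Agent.LT.T7.H732 Fermat.Agent.LT.T7.PQ484

attribute [local instance] Fermat.Agent.LT.T5.instMeasurableSpaceG

section OneField

variable {K : Type} [Field K] [NumberField K]
variable {μ : Measure (G K)} {F : Set (G K)}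

/-- **`R(f)` preserves the cusp functions** of level `𝔫` and of an arbitrary `K_∞`-type. -/
theorem rconv_cuspFnT919 (hF : T5.IsFrame μ F) {𝔫 : Ideal (𝓞 K)} {τ : G K → ℂ} {r : G K}
    (hr : T5.IsRayGen r) {f ψ : G K → ℂ} (hf : T5.IsTestFn 𝔫 τ f)
    (hψ : T5.IsCuspFn 𝔫 τ r ψ) :
    T5.IsCuspFn 𝔫 τ r (T5.Rconv μ f ψ) where
  cont := (H44.isNice_rconv44 hF hf.cont hf.supp ⟨hψ.cont, hψ.bdd⟩).1
  bdd := (H44.isNice_rconv44 hF hf.cont hf.supp ⟨hψ.cont, hψ.bdd⟩).2
  aut :=
    { left_inv := fun γ g => by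
        show ∫ y, f y * ψ (T5.ratG γ * g * y) ∂μ = ∫ y, f y * ψ (g * y) ∂μ
        refine integral_congr_ae (Filter.Eventually.of_forall fun y => ?_)
        show f y * ψ (T5.ratG γ * g * y) = f y * ψ (g * y)
        rw [mul_assoc, hψ.aut.left_inv]
      level_inv := fun u hu g =>
        rconv_left_inv919 hF (fun y => hf.inv.level_left u hu y) g
      arch_compact := fun w k hk g => by
        have hτ : τ k ≠ 0 := by
          intro h0
          have := hf.ktype.norm_one w k hk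
          rw [h0, norm_zero] at this
          exact zero_ne_one this
        have hk' : ∀ y : G K, f (k⁻¹ * y) = τ k * f y := by
          intro y
          have h1 := hf.inv.arch_left w k hk (k⁻¹ * y)
          rw [mul_inv_cancel_left] at h1
          rw [h1, ← mul_assoc, mul_inv_cancel₀ hτ, one_mul]
        rw [rconv_mul919 hF]
        show ∫ y, f (k⁻¹ * y) * ψ (g * y) ∂μ = τ k * ∫ y, f y * ψ (g * y) ∂μ
        rw [← integral_const_mul]
        refine integral_congr_ae (Filter.Eventually.of_forall fun y => ?_)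
        show f (k⁻¹ * y) * ψ (g * y) = τ k * (f y * ψ (g * y))
        rw [hk' y, mul_assoc]
      ray := fun g =>
        rconv_central919 (fun g' => (T5.H277.ray_comm277 hr g').symm) hψ.aut.ray g }
  cuspidal := isCuspidalFn_rconv919 hF hf.cont hf.supp hψ.cont hψ.bdd hψ.cuspidal

end OneField

section Q

variable {μ : Measure (G ℚ)} {F : Set (G ℚ)}

theorem meanEigR0_smul919 {ψ : G ℚ → ℂ} {w : InfinitePlace ℚ} {m : ℝ → ℂ}
    (h : MeanEigR0 ψ w m) (κ : ℂ) : MeanEigR0 (fun g => κ * ψ g) w m := by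
  intro t ht Y hY g
  show (∫ θ in (0 : ℝ)..(2 * Real.pi), κ * ψ (g * Y θ)) = m t * (κ * ψ g)
  rw [intervalIntegral.integral_const_mul, h t ht Y hY g]
  ring

theorem meanEigR1_smul919 {ψ : G ℚ → ℂ} {w : InfinitePlace ℚ} {m : ℝ → ℂ}
    (h : MeanEigR1 ψ w m) (κ : ℂ) : MeanEigR1 (fun g => κ * ψ g) w m := by
  intro t ht Y hY g
  have e : (∫ θ in (0 : ℝ)..(2 * Real.pi),
        Complex.exp (-(Complex.I * ((θ : ℝ) : ℂ))) * (κ * ψ (g * Y θ)))
      = κ * ∫ θ in (0 : ℝ)..(2 * Real.pi),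
        Complex.exp (-(Complex.I * ((θ : ℝ) : ℂ))) * ψ (g * Y θ) := by
    rw [← intervalIntegral.integral_const_mul]
    refine intervalIntegral.integral_congr fun θ _ => ?_
    show Complex.exp (-(Complex.I * ((θ : ℝ) : ℂ))) * (κ * ψ (g * Y θ))
      = κ * (Complex.exp (-(Complex.I * ((θ : ℝ) : ℂ))) * ψ (g * Y θ))
    ring
  show (∫ θ in (0 : ℝ)..(2 * Real.pi),
        Complex.exp (-(Complex.I * ((θ : ℝ) : ℂ))) * (κ * ψ (g * Y θ))) = m t * (κ * ψ g)
  rw [e, h t ht Y hY g]
  ring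

theorem qwtMeanEig_smul919 (t : QWt) {ψ : G ℚ → ℂ} {w : InfinitePlace ℚ} {m : ℝ → ℂ}
    (h : t.MeanEig ψ w m) (κ : ℂ) : t.MeanEig (fun g => κ * ψ g) w m := by
  cases t
  · exact meanEigR0_smul919 h κ
  · exact meanEigR1_smul919 h κ

/-- **`R(f)` preserves the invariant cusp functions of type `t`.** -/
theorem rconv_wfnQ919 (hF : T5.IsFrame μ F) {t : QWt} {𝔫 : Ideal (𝓞 ℚ)} {r : G ℚ}
    (hr : T5.IsRayGen r) {P : Finset (HeightOneSpectrum (𝓞 ℚ))}
    {u : HeightOneSpectrum (𝓞 ℚ)} (hu : u.asIdeal ∣ 𝔫) (huP : u ∉ P) {f : G ℚ → ℂ}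
    (hf : T5.IsTestFn 𝔫 t.type f) (hsupp : T3.M.IsSuppAtM ℚ 𝔫 P f) {ψ : G ℚ → ℂ}
    (hψ : IsWFnQ t 𝔫 r u ψ) : IsWFnQ t 𝔫 r u (T5.Rconv μ f ψ) where
  cusp := rconv_cuspFnT919 hF hr hf hψ.cusp
  arch_scalar := fun w z hz g =>
    rconv_central919 (central_archPos919 hz) (hψ.arch_scalar w z hz) g
  iw := rconv_iwInv919 hu huP hf.supp hsupp hψ.iw

end Q

section Leaves

/-- **LEAF A.0.S = IW-SUPP** (same body as `B981.IwSuppC981`). -/
theorem iwSuppC87_919 (K : Type) [Field K] [NumberField K] : IwSuppC87 K :=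
  H116.iwSuppC116 K

variable (F : Type) [Field F] [NumberField F]

/-- **LEAF A.0.C over `ℚ` = DN-STAB**, verbatim. -/
theorem dnStabQC919 : DnStabQC87 F := by
  intro _ _ Φ B hB _ 𝔫 hlev P hP f hf hsupp hc
  have huP : (toBase962_732 B).u ∉ P := fun h => hP _ h hlev.u_level
  have hF : T5.IsFrame (toBase962_732 B).R.μ (toBase962_732 B).R.F := hB.frame.frame
  have hr : T5.IsRayGen (toBase962_732 B).R.r := hB.frame.ray
  have hw : ∀ (t : QWt) (ψ : G ℚ → ℂ),
      IsWFnQ t 𝔫 (toBase962_732 B).R.r (toBase962_732 B).u ψ →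
      IsWFnQ t 𝔫 (toBase962_732 B).R.r (toBase962_732 B).u
        (T5.Rconv (toBase962_732 B).R.μ (f t) ψ) :=
    fun t ψ hψ => rconv_wfnQ919 hF hr hlev.u_level huP (hf t) (hsupp t) hψ
  refine ⟨hw, fun t ψ c hψ => ?_, fun t ψ hψ H z hH hz => ⟨fun x => ?_, fun k x => ?_⟩⟩
  · obtain ⟨cs, hcs⟩ := hc t
    have hκ : T5.Rconv (toBase962_732 B).R.μ (f t) ψ = fun g => cs c * ψ g :=
      funext fun g => hcs ψ c hψ g
    refine ⟨hw t ψ hψ.inv, fun v hv => ?_, fun w => ?_⟩
    · rw [hκ]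
      exact isHeckeEigenAt_smul919 (hψ.hecke v hv) _
    · rw [hκ]
      exact qwtMeanEig_smul919 t (hψ.mean w) _
  · exact rconv_iwOp919 hF hlev.u_level huP (hf t).cont (hf t).supp (hsupp t) hψ.cusp.cont
      hψ.iw hH x
  · exact rconv_shiftOp919 (f t) ψ hz k x

end Leaves

end Fermat.Agent.LT.T7.DSQ919

end

end
-- ===== PACK-END LT/T7/H919/DnStabQ.lean

-- ===== PACK-BEGIN LT/T7/H20/ShapeQ.lean
section








/-
T7.L2Q.1.H2a.A.0.P (registry row 3093), helper20: the leaf `BQ87.ShapeQC87` of helper87's cut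
of `PQ484.BaseAQC484` (`T7/H87/BaseAQSpec.lean`, sha256 6471b15c), VERBATIM, unconditional:

  shapeQC20 F : BQ87.ShapeQC87 F

PORT over `Q` of `shapeC607` (helper607, `T7/B981/H607/Shape.lean`, the cubic leaf
`B981.ShapeC981`): `Omega = Fin N` with the counting measure, `T = T0 u P`, `T'` = the places
of `F` over `T`.  Bridges `bridge20q` (`T3.M.pureFnM = pure305`, upstairs) and `bridgeR20q`
(`T3.R.pureFnR = MQ298.pureQ298` over `Q`: the real place of `Q` is unique, `T3.R.reGL` is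
`MQ298.reGLQ298`).  Members: test functions by `T3.M.openM_c` / `T3.M.pureSmoothM` upstairs and
by `T3.R.H709.pureRegRC709` (helper709) downstairs, of type `t.type` by `typeR_eq_type20q`
(`T3.R.typeR` of weight `t.wt` is `t.type` on the compact group at the real place; helper505
`so2_shape505`, `holPart_so2_505`) and `L2Q.wtOneKTypeC826` (helper826).
-/

set_option autoImplicit false

open AutomorphicForm IsDedekindDomain NumberField MeasureTheory
open scoped ComplexConjugate

noncomputable section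

namespace Fermat.Agent.LT.T7.H20

open Fermat.Agent.LT Fermat.Agent.LT.H556 Fermat.Agent.LT.H556.A0 Fermat.Agent.LT.T7
  Fermat.Agent.LT.T7.H305 Fermat.Agent.LT.T7.L2Q Fermat.Agent.LT.T7.H893
  Fermat.Agent.LT.T7.H962 Fermat.Agent.LT.T7.H732 Fermat.Agent.LT.T7.MQ298
  Fermat.Agent.LT.T7.CQ801 Fermat.Agent.LT.T7.PQ484 Fermat.Agent.LT.T7.BQ87

attribute [local instance] Fermat.Agent.LT.T5.instMeasurableSpaceG

section OneField

variable {F : Type} [Field F] [NumberField F]

/-- The condition of the level group at `w` is `InU (n w)`. -/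
theorem closure_iff_inU20q {𝔑 : Ideal (𝓞 F)} {n : HeightOneSpectrum (𝓞 F) → ℕ}
    (hn : IsLevelOf893 𝔑 n) (w : HeightOneSpectrum (𝓞 F)) (h : G F) :
    (∀ i j : Fin 2, (finComp w h - 1) i j ∈ idealClosure 𝔑 w ∧
        (finComp w h⁻¹ - 1) i j ∈ idealClosure 𝔑 w) ↔ T6.InU (n w) (finGL305 w h) := by
  have e : ((finGL305 w h)⁻¹ : GL (Fin 2) (w.adicCompletion F)) = finGL305 w h⁻¹ :=
    (map_inv _ _).symm
  constructor
  · intro H i j
    refine ⟨(hn w _).1 (H i j).1, ?_⟩
    rw [e]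
    exact (hn w _).1 (H i j).2
  · intro H i j
    refine ⟨(hn w _).2 (H i j).1, ?_⟩
    have h2 := (H i j).2
    rw [e] at h2
    exact (hn w _).2 h2

/-- An entry of the unit matrix is integral. -/
theorem one_entry_mem20q (w : HeightOneSpectrum (𝓞 F)) (i j : Fin 2) :
    (1 : Matrix (Fin 2) (Fin 2) (w.adicCompletion F)) i j ∈ w.adicCompletionIntegers F := by
  rw [Matrix.one_apply]
  split_ifs
  · exact one_mem _
  · exact zero_mem _

/-- `U(0) = GL₂(𝒪)`. -/
theorem inU_zero_iff20q (w : HeightOneSpectrum (𝓞 F)) (h : G F) :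
    T6.InU 0 (finGL305 w h) ↔ IsIntegralAt w h ∧ IsIntegralAt w h⁻¹ := by
  have e : ((finGL305 w h)⁻¹ : GL (Fin 2) (w.adicCompletion F)) = finGL305 w h⁻¹ :=
    (map_inv _ _).symm
  have h1 : WithZero.exp (-((0 : ℕ) : ℤ)) = (1 : T6.Γ₀) := by
    rw [Nat.cast_zero, neg_zero, WithZero.exp_zero]
  have key : ∀ (x : w.adicCompletion F) (i j : Fin 2),
      Valued.v (x - (1 : Matrix (Fin 2) (Fin 2) (w.adicCompletion F)) i j)
        ≤ WithZero.exp (-((0 : ℕ) : ℤ)) ↔ x ∈ w.adicCompletionIntegers F := by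
    intro x i j
    rw [h1]
    constructor
    · intro hx
      have h2 : x - (1 : Matrix (Fin 2) (Fin 2) (w.adicCompletion F)) i j
          ∈ w.adicCompletionIntegers F := hx
      have h3 := add_mem h2 (one_entry_mem20q w i j)
      rwa [sub_add_cancel] at h3
    · intro hx
      exact sub_mem hx (one_entry_mem20q w i j)
  constructor
  · intro H
    refine ⟨fun i j => (key _ i j).1 (H i j).1, fun i j => ?_⟩
    have h2 := (H i j).2
    rw [e] at h2
    exact (key _ i j).1 h2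
  · intro H i j
    refine ⟨(key _ i j).2 (H.1 i j), ?_⟩
    rw [e]
    exact (key _ i j).2 (H.2 i j)

/-- The exponent of the level vanishes at a place which does not divide the level. -/
theorem level_zero20q {𝔑 : Ideal (𝓞 F)} {n : HeightOneSpectrum (𝓞 F) → ℕ}
    (hn : IsLevelOf893 𝔑 n) (w : HeightOneSpectrum (𝓞 F)) (a : 𝓞 F) (ha : a ∈ 𝔑)
    (haw : a ∉ w.asIdeal) : n w = 0 := by
  have hmem : algebraMap F (w.adicCompletion F) (algebraMap (𝓞 F) F a) ∈ idealClosure 𝔑 w :=
    subset_closure ⟨a, ha, rfl⟩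
  have h1 := (hn w _).1 hmem
  have e0 : Valued.v (algebraMap F (w.adicCompletion F) (algebraMap (𝓞 F) F a))
      = w.valuation F (algebraMap (𝓞 F) F a) :=
    HeightOneSpectrum.valuedAdicCompletion_eq_valuation' w (algebraMap (𝓞 F) F a)
  rw [e0, (HeightOneSpectrum.valuation_eq_one_iff_notMem (K := F) (v := w)).2 haw,
    ← WithZero.exp_zero, WithZero.exp_le_exp] at h1
  omega

open Classical in
/-- **THE BRIDGE** between the pure tensors of T3 (station M) and of T7 (helper305). -/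
theorem bridge20q {𝔑 : Ideal (𝓞 F)} {n : HeightOneSpectrum (𝓞 F) → ℕ}
    (hn : IsLevelOf893 𝔑 n) (P T : Finset (HeightOneSpectrum (𝓞 F))) (hPT : P ⊆ T)
    (φ₀ : ∀ w : HeightOneSpectrum (𝓞 F), GL (Fin 2) (w.adicCompletion F) → ℂ)
    (Φ : InfinitePlace F → GL (Fin 2) ℂ → ℂ)
    (hunit : ∀ w ∈ T, w ∉ P → φ₀ w = unitFn893 (n w))
    (hzero : ∀ w : HeightOneSpectrum (𝓞 F), w ∉ T → n w = 0) :
    T3.M.pureFnM F 𝔑 P φ₀ Φ = pure305 T φ₀ Φ := by
  funext h
  have hout : OutT305 T h ↔ ∀ w, w ∉ T → T6.InU (n w) (finGL305 w h) := by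
    constructor
    · intro H w hw
      rw [hzero w hw]
      exact (inU_zero_iff20q w h).2 (H w hw)
    · intro H w hw
      have h2 := H w hw
      rw [hzero w hw] at h2
      exact (inU_zero_iff20q w h).1 h2
  have hUM : T3.M.OutsideUM F 𝔑 P h ↔ ∀ w, w ∉ P → T6.InU (n w) (finGL305 w h) := by
    constructor
    · intro H w hw
      exact (closure_iff_inU20q hn w h).1 (H w hw)
    · intro H w hw
      exact (closure_iff_inU20q hn w h).2 (H w hw)
  have hprod : (∀ w ∈ T, w ∉ P → T6.InU (n w) (finGL305 w h)) →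
      ∏ w ∈ T, φ₀ w (finGL305 w h) = ∏ w ∈ P, φ₀ w (finGL305 w h) := by
    intro H
    refine (Finset.prod_subset hPT fun w hw hwP => ?_).symm
    rw [hunit w hw hwP]
    show (if T6.InU (n w) (finGL305 w h) then (1 : ℂ) else 0) = 1
    rw [if_pos (H w hw hwP)]
  by_cases hU : T3.M.OutsideUM F 𝔑 P h
  · have hU' := hUM.1 hU
    have hO : OutT305 T h := hout.2 fun w hw => hU' w (fun hP => hw (hPT hP))
    show (if T3.M.OutsideUM F 𝔑 P h then
        (∏ v ∈ P, φ₀ v (T3.AS.finGL F v h)) * ∏ w : InfinitePlace F, Φ w (T3.AS.infGL F w h)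
      else 0)
      = (if OutT305 T h then
        (∏ v ∈ T, φ₀ v (finGL305 v h)) * ∏ w : InfinitePlace F, Φ w (infGL305 w h) else 0)
    rw [if_pos hU, if_pos hO, hprod fun w _ hwP => hU' w hwP]
    rfl
  · show (if T3.M.OutsideUM F 𝔑 P h then
        (∏ v ∈ P, φ₀ v (T3.AS.finGL F v h)) * ∏ w : InfinitePlace F, Φ w (T3.AS.infGL F w h)
      else 0)
      = (if OutT305 T h then
        (∏ v ∈ T, φ₀ v (finGL305 v h)) * ∏ w : InfinitePlace F, Φ w (infGL305 w h) else 0)
    rw [if_neg hU]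
    by_cases hO : OutT305 T h
    · rw [if_pos hO]
      have hex : ∃ w, w ∉ P ∧ ¬ T6.InU (n w) (finGL305 w h) := by
        by_contra hcon
        push Not at hcon
        exact hU (hUM.2 hcon)
      obtain ⟨w, hwP, hwn⟩ := hex
      have hwT : w ∈ T := by
        by_contra hwT
        exact hwn (hout.1 hO w hwT)
      have h0 : φ₀ w (finGL305 w h) = 0 := by
        rw [hunit w hwT hwP]
        show (if T6.InU (n w) (finGL305 w h) then (1 : ℂ) else 0) = 0
        rw [if_neg hwn]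
      rw [Finset.prod_eq_zero hwT h0, zero_mul]
    · rw [if_neg hO]

end OneField

section OverQ

open Classical in
/-- **THE BRIDGE over `ℚ`** between the pure tensors of T3 (station R) and of helper298. -/
theorem bridgeR20q {𝔑 : Ideal (𝓞 ℚ)} {n : HeightOneSpectrum (𝓞 ℚ) → ℕ}
    (hn : IsLevelOf893 𝔑 n) (P T : Finset (HeightOneSpectrum (𝓞 ℚ))) (hPT : P ⊆ T)
    (hR : ∀ w : InfinitePlace ℚ, w.IsReal)
    (φ₀ : ∀ w : HeightOneSpectrum (𝓞 ℚ), GL (Fin 2) (w.adicCompletion ℚ) → ℂ)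
    (Fr : GL (Fin 2) ℝ → ℂ)
    (hunit : ∀ w ∈ T, w ∉ P → φ₀ w = unitFn893 (n w))
    (hzero : ∀ w : HeightOneSpectrum (𝓞 ℚ), w ∉ T → n w = 0) :
    T3.R.pureFnR ℚ hR 𝔑 P φ₀ (fun _ => Fr) = MQ298.pureQ298 T φ₀ Fr := by
  funext h
  have hre : ∏ w : InfinitePlace ℚ, Fr (T3.R.reGL ℚ w (hR w) h) = Fr (MQ298.reGLQ298 h) := by
    rw [Fintype.prod_subsingleton _ Rat.infinitePlace]
    rfl
  have hout : OutT305 T h ↔ ∀ w, w ∉ T → T6.InU (n w) (finGL305 w h) := by
    constructor
    · intro H w hw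
      rw [hzero w hw]
      exact (inU_zero_iff20q w h).2 (H w hw)
    · intro H w hw
      have h2 := H w hw
      rw [hzero w hw] at h2
      exact (inU_zero_iff20q w h).1 h2
  have hUM : T3.M.OutsideUM ℚ 𝔑 P h ↔ ∀ w, w ∉ P → T6.InU (n w) (finGL305 w h) := by
    constructor
    · intro H w hw
      exact (closure_iff_inU20q hn w h).1 (H w hw)
    · intro H w hw
      exact (closure_iff_inU20q hn w h).2 (H w hw)
  have hprod : (∀ w ∈ T, w ∉ P → T6.InU (n w) (finGL305 w h)) →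
      ∏ w ∈ T, φ₀ w (finGL305 w h) = ∏ w ∈ P, φ₀ w (finGL305 w h) := by
    intro H
    refine (Finset.prod_subset hPT fun w hw hwP => ?_).symm
    rw [hunit w hw hwP]
    show (if T6.InU (n w) (finGL305 w h) then (1 : ℂ) else 0) = 1
    rw [if_pos (H w hw hwP)]
  by_cases hU : T3.M.OutsideUM ℚ 𝔑 P h
  · have hU' := hUM.1 hU
    have hO : OutT305 T h := hout.2 fun w hw => hU' w (fun hP => hw (hPT hP))
    show (if T3.M.OutsideUM ℚ 𝔑 P h then
        (∏ v ∈ P, φ₀ v (T3.AS.finGL ℚ v h)) *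
          ∏ w : InfinitePlace ℚ, Fr (T3.R.reGL ℚ w (hR w) h)
      else 0)
      = (if OutT305 T h then
        (∏ v ∈ T, φ₀ v (finGL305 v h)) * Fr (MQ298.reGLQ298 h) else 0)
    rw [if_pos hU, if_pos hO, hprod fun w _ hwP => hU' w hwP, hre]
    rfl
  · show (if T3.M.OutsideUM ℚ 𝔑 P h then
        (∏ v ∈ P, φ₀ v (T3.AS.finGL ℚ v h)) *
          ∏ w : InfinitePlace ℚ, Fr (T3.R.reGL ℚ w (hR w) h)
      else 0)
      = (if OutT305 T h then
        (∏ v ∈ T, φ₀ v (finGL305 v h)) * Fr (MQ298.reGLQ298 h) else 0)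
    rw [if_neg hU]
    by_cases hO : OutT305 T h
    · rw [if_pos hO]
      have hex : ∃ w, w ∉ P ∧ ¬ T6.InU (n w) (finGL305 w h) := by
        by_contra hcon
        push Not at hcon
        exact hU (hUM.2 hcon)
      obtain ⟨w, hwP, hwn⟩ := hex
      have hwT : w ∈ T := by
        by_contra hwT
        exact hwn (hout.1 hO w hwT)
      have h0 : φ₀ w (finGL305 w h) = 0 := by
        rw [hunit w hwT hwP]
        show (if T6.InU (n w) (finGL305 w h) then (1 : ℂ) else 0) = 0
        rw [if_neg hwn]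
      rw [Finset.prod_eq_zero hwT h0, zero_mul]
    · rw [if_neg hO]

end OverQ


section TwoFields

variable {K K' : Type} [Field K] [NumberField K] [Field K'] [NumberField K'] [Algebra K K']

/-- Every place of `K'` lies over a place of `K`. -/
theorem exists_under20q (w : HeightOneSpectrum (𝓞 K')) :
    ∃ v : HeightOneSpectrum (𝓞 K), PlaceOver K K' v w := by
  refine ⟨HeightOneSpectrum.under (𝓞 K) w, (H557.placeOver_iff_557 _ w).2 ?_⟩
  simp only [HeightOneSpectrum.under_asIdeal]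

/-- The exponents of `𝔫` and of `𝔫 𝒪_{K'}` vanish outside the places of the level. -/
theorem levelAt20q {𝔫 : Ideal (𝓞 K)} {T₀ : Finset (HeightOneSpectrum (𝓞 K))}
    {n : HeightOneSpectrum (𝓞 K') → ℕ} {m : HeightOneSpectrum (𝓞 K) → ℕ}
    (hT₀ : ∀ v : HeightOneSpectrum (𝓞 K), v ∈ T₀ ↔ v.asIdeal ∣ 𝔫)
    (hm : IsLevelOf893 𝔫 m) (hn : IsLevelOf893 (upI (K' := K') 𝔫) n) :
    IsLevelAt305 (K' := K') T₀ n m := by
  have hex : ∀ v : HeightOneSpectrum (𝓞 K), v ∉ T₀ → ∃ a ∈ 𝔫, a ∉ v.asIdeal := by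
    intro v hv
    have h1 : ¬ 𝔫 ≤ v.asIdeal := fun h => hv ((hT₀ v).2 (Ideal.dvd_iff_le.2 h))
    obtain ⟨a, ha, hav⟩ := Set.not_subset.1 h1
    exact ⟨a, ha, hav⟩
  refine ⟨fun v hv => ?_, fun v w hv hvw => ?_⟩
  · obtain ⟨a, ha, hav⟩ := hex v hv
    exact level_zero20q hm v a ha hav
  · obtain ⟨a, ha, hav⟩ := hex v hv
    refine level_zero20q hn w (algebraMap (𝓞 K) (𝓞 K') a) (Ideal.mem_map_of_mem _ ha) ?_
    exact fun h => hav ((hvw a (algebraMap (𝓞 K) (𝓞 K') a) rfl).2 h)

end TwoFields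


section OverQ2

/-- The two types are `K_∞`-types. -/
theorem isKType_type20q (t : QWt) : T5.IsKType t.type := by
  cases t with
  | w0 => exact T5.isKType_triv
  | w1 => exact wtOneKTypeC826

/-- The entries of the component at the real place. -/
theorem infComp_eq_reGL20q (k : G ℚ) (i j : Fin 2) :
    infComp Rat.infinitePlace k i j
      = (((T3.R.reGL ℚ Rat.infinitePlace (ratReal87 Rat.infinitePlace) k : GL (Fin 2) ℝ) :
        Matrix (Fin 2) (Fin 2) ℝ) i j : ℂ) :=
  T3.R.infHom_eq_reHom ℚ Rat.infinitePlace (ratReal87 Rat.infinitePlace) _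

/-- On the compact group at the real place the type `typeR` of weight `t.wt` is `t.type`. -/
theorem typeR_eq_type20q (t : QWt) (w : InfinitePlace ℚ) (k : G ℚ) (hk : IsArchCompact w k) :
    T3.R.typeR ℚ ratReal87 (fun _ => t.wt) k = t.type k := by
  rw [T3.R.H505.typeR_eq_single505 ℚ ratReal87 (fun _ => t.wt) w k hk]
  cases t with
  | w0 =>
    show (T6.holPart (T3.R.reGL ℚ w (ratReal87 w) k)) ^ (0 : ℤ) = 1
    exact zpow_zero _
  | w1 =>
    have hw : w = Rat.infinitePlace := Subsingleton.elim _ _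
    subst hw
    have hso := T3.R.H505.inSO2_of_archCompact505 ℚ Rat.infinitePlace
      (ratReal87 Rat.infinitePlace) k hk
    have hhol := T3.R.H505.holPart_so2_505 _ hso
    obtain ⟨-, a2, a3⟩ := T3.R.H505.so2_shape505 _ hso.1 hso.2
    show (T6.holPart (T3.R.reGL ℚ Rat.infinitePlace (ratReal87 Rat.infinitePlace) k)) ^ (-1 : ℤ)
      = infComp Rat.infinitePlace k 0 0 + Complex.I * infComp Rat.infinitePlace k 0 1
    rw [infComp_eq_reGL20q, infComp_eq_reGL20q, hhol, a2, zpow_neg_one]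
    apply inv_eq_of_mul_eq_one_right
    have h3 : (((((T3.R.reGL ℚ Rat.infinitePlace (ratReal87 Rat.infinitePlace) k :
        GL (Fin 2) ℝ) : Matrix (Fin 2) (Fin 2) ℝ) 0 0) ^ 2
        + (((T3.R.reGL ℚ Rat.infinitePlace (ratReal87 Rat.infinitePlace) k :
        GL (Fin 2) ℝ) : Matrix (Fin 2) (Fin 2) ℝ) 1 0) ^ 2 : ℝ) : ℂ) = 1 := by
      rw [a3]
      simp
    push_cast at h3 ⊢
    linear_combination h3 - (((T3.R.reGL ℚ Rat.infinitePlace (ratReal87 Rat.infinitePlace) k :
        GL (Fin 2) ℝ) : Matrix (Fin 2) (Fin 2) ℝ) 1 0 : ℂ) ^ 2 * Complex.I_sq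

end OverQ2

section Leaf

variable (F : Type) [Field F] [NumberField F]

/-- **LEAF T7.L2Q.1.H2a.A.0.P `ShapeQC87`, VERBATIM, unconditional.** -/
theorem shapeQC20 : ShapeQC87 F := by
  classical
  intro _ _ Φe _ _ _ B _ _ 𝔫 _ T₀ n n₀ m hexp c _ D hD
  have hLA : IsLevelAt305 (K' := F) T₀ n m := levelAt20q hexp.div hexp.lev_dn hexp.lev_up
  have hPT₀ : ∀ v ∈ D.P, v ∉ T₀ := fun v hv hT => hD.frame_dn.prime v hv ((hexp.div v).1 hT)
  -- the sets of places
  obtain ⟨T', hT'⟩ : ∃ T' : Finset (HeightOneSpectrum (𝓞 F)), IsOver305 (T₀ ∪ D.P) T' :=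
    ⟨(H557.finite_over_557 (K' := F) (T₀ ∪ D.P)).toFinset, fun w => by
      rw [Set.Finite.mem_toFinset]
      exact Iff.rfl⟩
  have hP'T' : D.P' ⊆ T' := by
    intro w hw
    obtain ⟨v, hv⟩ := exists_under20q (K := ℚ) w
    exact (hT' w).2 ⟨v, Finset.mem_union_right _ ((hD.under v).2 ⟨w, hw, hv⟩), hv⟩
  -- the bridges
  have hbu : ∀ i : Fin D.N, T3.M.pureFnM F (upI (K' := F) 𝔫) D.P' (D.φ₀ i) (D.Φ i)
      = pure305 T' (D.φ₀ i) (D.Φ i) := by
    intro i
    refine bridge20q hexp.lev_up D.P' T' hP'T' _ _ (fun w hw hwP => ?_) (fun w hw => ?_)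
    · obtain ⟨v, hv, hvw⟩ := (hT' w).1 hw
      rcases Finset.mem_union.1 hv with hv | hv
      · exact (hD.loc i).2.1 v hv w hvw
      · rw [hD.unit_rest i w hwP ⟨v, hv, hvw⟩, hLA.2 v w (hPT₀ v hv) hvw]
    · obtain ⟨v, hv⟩ := exists_under20q (K := ℚ) w
      refine hLA.2 v w (fun hT => hw ((hT' w).2 ⟨v, Finset.mem_union_left _ hT, hv⟩)) hv
  have hbd : ∀ (t : QWt) (i : Fin D.N),
      T3.R.pureFnR ℚ ratReal87 𝔫 D.P (D.f₀ i) (fun _ => D.Fr t i)
        = pureQ298 (T₀ ∪ D.P) (D.f₀ i) (D.Fr t i) := by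
    intro t i
    refine bridgeR20q hexp.lev_dn D.P (T₀ ∪ D.P) Finset.subset_union_right ratReal87 _ _
      (fun v hv hvP => ?_) (fun v hv => ?_)
    · rcases Finset.mem_union.1 hv with hv | hv
      · rw [(hD.loc i).1 v hv]
      · exact absurd hv hvP
    · exact hLA.1 v fun hT => hv (Finset.mem_union_left _ hT)
  -- the members are test functions
  have htu : ∀ i : Fin D.N, T5.IsTestFn (upI (K' := F) 𝔫) T5.trivType
      (pure305 T' (D.φ₀ i) (D.Φ i)) := by
    intro i
    obtain ⟨r1, r2, r3, -⟩ := (T3.M.openM_c F).pureReg (upI (K' := F) 𝔫) hD.frame_up.level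
      D.P' hD.frame_up.prime (D.φ₀ i) (D.Φ i) (fun w hw => (hD.sat_up i w hw).bi_inv)
      (fun w hw => (hD.sat_up i w hw).fin_supp) (hD.test_up i)
    rw [← hbu i]
    exact T3.isTestFn_T5 F r1 r2 (T3.M.pureSmoothM _ _ _ _ (hD.smooth_up i)) r3
  have hone : ∀ (t : QWt) (i : Fin D.N),
      (fun h => (1 : ℂ) * pureQ298 (T₀ ∪ D.P) (D.f₀ i) (D.Fr t i) h)
        = T3.R.pureFnR ℚ ratReal87 𝔫 D.P (D.f₀ i) (fun _ => D.Fr t i) := by
    intro t i
    rw [hbd t i]
    funext h
    exact one_mul _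
  have htd : ∀ (t : QWt) (i : Fin D.N), T5.IsTestFn 𝔫 t.type
      (fun h => (1 : ℂ) * pureQ298 (T₀ ∪ D.P) (D.f₀ i) (D.Fr t i) h) := by
    intro t i
    obtain ⟨r1, r2, r3, r4, -⟩ := T3.R.H709.pureRegRC709 ℚ ratReal87 𝔫 hD.frame_dn.level
      D.P hD.frame_dn.prime (fun _ => t.wt) (D.f₀ i) (fun _ => D.Fr t i)
      (fun v hv => (hD.sat_dn i v hv).bi_inv)
      (fun v hv => (hD.sat_dn i v hv).fin_supp) (fun _ => hD.test_dn t i)
    rw [hone t i]
    refine ⟨isKType_type20q t, r1, r2, r3, ⟨r4.level_right, r4.level_left, ?_, ?_⟩⟩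
    · intro w k hk g
      rw [r4.arch_right w k hk g, typeR_eq_type20q t w k hk]
    · intro w k hk g
      rw [r4.arch_left w k hk g, typeR_eq_type20q t w k hk]
  have hsupp : ∀ (t : QWt) (i : Fin D.N),
      IsCompact (tsupport (pureQ298 (T₀ ∪ D.P) (D.f₀ i) (D.Fr t i))) := by
    intro t i
    have h1 := (htd t i).supp
    have e : (fun h => (1 : ℂ) * pureQ298 (T₀ ∪ D.P) (D.f₀ i) (D.Fr t i) h)
        = pureQ298 (T₀ ∪ D.P) (D.f₀ i) (D.Fr t i) := funext fun h => one_mul _
    rw [e] at h1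
    exact h1
  refine ⟨Fin D.N, inferInstance, inferInstance, inferInstance, inferInstance, inferInstance,
    ⟨borel_eq_top_of_discrete.symm⟩, Measure.count, inferInstance, fun _ => T₀ ∪ D.P,
    fun _ => T', D.φ₀, D.Φ, D.f₀, D.F0, D.F1, ?_, htu, htd QWt.w0, htd QWt.w1,
    ?_, ?_, ?_, ?_, ?_, ?_, ?_, ?_, ?_⟩
  · exact fun a => ⟨Finset.subset_union_left, hT', hD.loc a⟩
  · exact continuous_prod_of_discrete_left.2 fun a => (htu a).cont
  · exact continuous_prod_of_discrete_left.2 fun a => (htd QWt.w0 a).cont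
  · exact continuous_prod_of_discrete_left.2 fun a => (htd QWt.w1 a).cont
  · refine ⟨⋃ i : Fin D.N, tsupport (pure305 T' (D.φ₀ i) (D.Φ i)),
      isCompact_iUnion fun i => (htu i).supp, fun a h hne => ?_⟩
    exact Set.mem_iUnion.2 ⟨a, subset_tsupport _ hne⟩
  · refine ⟨⋃ i : Fin D.N, tsupport (pureQ298 (T₀ ∪ D.P) (D.f₀ i) (D.F0 i)),
      isCompact_iUnion fun i => hsupp QWt.w0 i, fun a h hne => ?_⟩
    exact Set.mem_iUnion.2 ⟨a, subset_tsupport _ hne⟩
  · refine ⟨⋃ i : Fin D.N, tsupport (pureQ298 (T₀ ∪ D.P) (D.f₀ i) (D.F1 i)),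
      isCompact_iUnion fun i => hsupp QWt.w1 i, fun a h hne => ?_⟩
    exact Set.mem_iUnion.2 ⟨a, subset_tsupport _ hne⟩
  · intro h
    rw [integral_count]
    show ∑ i : Fin D.N, T3.M.pureFnM F (upI (K' := F) 𝔫) D.P' (D.φ₀ i) (D.Φ i) h = _
    exact Finset.sum_congr rfl fun i _ => congrFun (hbu i) h
  · intro h
    rw [integral_count]
    show ∑ i : Fin D.N, T3.R.pureFnR ℚ ratReal87 𝔫 D.P (D.f₀ i) (fun _ => D.Fr QWt.w0 i) h = _
    refine Finset.sum_congr rfl fun i _ => ?_
    rw [congrFun (hbd QWt.w0 i) h, one_mul]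
    rfl
  · intro h
    rw [integral_count]
    show ∑ i : Fin D.N, T3.R.pureFnR ℚ ratReal87 𝔫 D.P (D.f₀ i) (fun _ => D.Fr QWt.w1 i) h = _
    refine Finset.sum_congr rfl fun i _ => ?_
    rw [congrFun (hbd QWt.w1 i) h, one_mul]
    rfl

end Leaf

end Fermat.Agent.LT.T7.H20

end
end
-- ===== PACK-END LT/T7/H20/ShapeQ.lean

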