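import Mathlib
import Fermat.Agent.Pack.LT4.E4L2
import Fermat.Agent.Pack.LT4.E8L3
import Fermat.Agent.Pack.LT4.E4L1
import Fermat.Agent.Pack.LT4.E8L1
import Fermat.Agent.Pack.LT3.E28L0
import Fermat.Agent.Pack.LT3.E28L2
import Fermat.Agent.Pack.LT3.E28L3
import Fermat.Agent.Pack.LT3.E30L2
import Fermat.Agent.Pack.LT3.E30L1
import Fermat.Agent.Pack.LT3.E29L0
import Fermat.Agent.Pack.LT3.E29L2
import Fermat.Agent.Pack.LT3.E29L3
import Fermat.Agent.Pack.LT4.E5L2
import Fermat.Agent.Pack.LT2.E4L2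
import Fermat.Agent.Pack.LT4.E6L2
import Fermat.Agent.Pack.LT4.E3L2
import Fermat.Agent.Pack.LT3.E20L3
import Fermat.Agent.Pack.LT4.E8L2
import Fermat.Agent.Pack.LT4.E5L3
import Fermat.Agent.Pack.LT4.E5L0
import Fermat.Agent.Pack.LT4.E5L1
import Fermat.Agent.Pack.LT4.E7L3
import Fermat.Agent.Pack.LT4.E7L2
import Fermat.Agent.Pack.LT4.E8L0
import Fermat.Agent.Pack.LT4.E0L0
import Fermat.Agent.Pack.LT2.E19L1
import Fermat.Agent.Pack.LT4.E6L1

set_option linter.all false

-- ===== PACK-BEGIN LT/T7/H140/SpecDownQClosed.lean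
section




/-!
# Row LT, tower T7, quadratic step, registry row 2153 = NODE `L2Q.SpecDownQC`: CLOSED (helper140)

OFF-MAIN.  Additive, new names only (suffix `140`), no definition, no hole, nothing assumed.

    specDownQC_closed140 (F) : L2Q.SpecDownQC F          (every number field `F`)

= `specDownQC_of_v2basis140` (`H140/SpecDownQPlug.lean`: every other leaf of the three cuts,
by the theorem of its owner) applied to `V2Q140.v2BasisQC140` (`H140/V2BasisQ.lean`: the node
`WBQ341.V2BasisQC341`, registry row 2445).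
Also closed here: the nodes `SDQ140.WBasisQC n` and `SDQ140.DownBasisQC F n`.
-/

set_option autoImplicit false

namespace Fermat.Agent.LT.T7.SDQ140

open Fermat.Agent.LT

/-- The node `WBasisQC n` (registry row 2350), closed. -/
theorem wBasisQC_closed140 (n : L2Q.QWt) : WBasisQC n :=
  wBasisQC_of_v2basis140 n (V2Q140.v2BasisQC140 n)

/-- The node `DownBasisQC F n`, closed. -/
theorem downBasisQC_closed140 (F : Type) [Field F] [NumberField F] (n : L2Q.QWt) :
    DownBasisQC F n :=
  downBasisQC_of_v2basis140 F n (V2Q140.v2BasisQC140 n)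

/-- **Registry row 2153: `L2Q.SpecDownQC F`, CLOSED, for every number field `F`.** -/
theorem specDownQC_closed140 (F : Type) [Field F] [NumberField F] : L2Q.SpecDownQC F :=
  specDownQC_of_v2basis140 V2Q140.v2BasisQC140 F

end Fermat.Agent.LT.T7.SDQ140

end
-- ===== PACK-END LT/T7/H140/SpecDownQClosed.lean

-- ===== PACK-BEGIN LT/T7/H817/ClassModelUClosed.lean
section






/-!
# Row LT, tower T7, node `ClassModelUC` / `NonVanCoreC` (CORE form over `K'` alone): CLOSED

OFF-MAIN (helper817).  UNCONDITIONAL, in ONE import closure (byte copies of the owners' files):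

    classModelUC_closed817 (K') : SU736.ClassModelUC K'     (node of helper736, `T7/H736/UpS.lean`)
    nonVanCoreC_closed817  (K') : H29.NonVanCoreC K'        (node of helper29, `T7/H29/UpCore2.lean`)

by the top `classModelUC_of675` of helper675 with the eleven core leaves:
CM.01, CM.03, CM.09 `finDimUC675_963`, `stabGUC675_963`, `simpleUC675_963` (helper963),
CM.02 `nontrivUC296`, CM.06, CM.07, CM.08 `locCommUC296`, `locMoveUC296`, `powUC296` (helper296),
CM.10 `mulGUC228` (helper228), CM.04, CM.05, CM.11 `stabSUC817`, `commGIUC817`, `dictUC_of817`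
(`ClassModelUCore.lean`: ports of helper930, helper887, helper440).
The core node serves BOTH steps (cubic `K'/K` and quadratic `F/ℚ`): `H29.nonVanC_of_core`,
`H29.traceWordsQRegP_ofCore2`.  Nothing is assumed; no hole.
-/

set_option autoImplicit false

namespace Fermat.Agent.LT.T7.H817

open Fermat.Agent.LT.T7

variable (K' : Type) [Field K'] [NumberField K']

/-- **THE NODE `ClassModelUC` (core form), CLOSED.** -/
theorem classModelUC_closed817 : SU736.ClassModelUC K' :=
  CMU675.classModelUC_of675 (H963.finDimUC675_963 K') (H296.nontrivUC296 (K' := K'))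
    (H963.stabGUC675_963 K') (stabSUC817 K') (commGIUC817 K')
    (H296.locCommUC296 (K' := K')) (H296.locMoveUC296 (K' := K')) (H296.powUC296 (K' := K'))
    (H963.simpleUC675_963 K') (H228.mulGUC228 (K' := K'))
    (dictUC_of817 K' (H963.stabGUC675_963 K'))

/-- **THE NODE `NonVanCoreC` (core form), CLOSED.** -/
theorem nonVanCoreC_closed817 : H29.NonVanCoreC K' :=
  SU736.nonVanCoreC_of (classModelUC_closed817 K')

end Fermat.Agent.LT.T7.H817

end
-- ===== PACK-END LT/T7/H817/ClassModelUClosed.lean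

-- ===== PACK-BEGIN LT/T7/H893/SupplyClosed8.lean
section




/-!
# Row LT, tower T7, node T7.L2.1 `SupplySC` (sub-architect helper893): INTEGRATION v8

OFF-MAIN.  No `sorry`, nothing assumed.  ADDITIVE.  Integration v7 with the node `SphHypC893`
replaced by its cut (`SupplySphSpec.lean` / `SupplySphTop.lean`).

OPEN (the structure `OpenSupply893h`):
* `T6.T6Out` (CLOSED on the master: helper22, `LT/T6/Closed.lean` `top_closed`);
* `GlobMatchC893` (helper305 / helper340), `BaseCb P` (helper797 / helper981 / helper616),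
  `ProdShapeC893` (the calculus of pure tensors, helper724);
* the local leaves `SphInvC893 K`, `SphInvC893 K'`, `SphInertC893`, `SphSplitC893`;
* the small leaves `LevelUniqC893 K`, `LevelUniqC893 K'`, `LevelAtC893`.

    supplySC_of_open893h : OpenSupply893h P K K' → T7.SupplySC P K K'
-/

set_option autoImplicit false

open AutomorphicForm IsDedekindDomain NumberField MeasureTheory
open scoped ComplexConjugate

noncomputable section

namespace Fermat.Agent.LT.T7.H893

open Fermat.Agent.LT Fermat.Agent.LT.H556 Fermat.Agent.LT.H556.A0 Fermat.Agent.LT.T7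

attribute [local instance] Fermat.Agent.LT.T5.instMeasurableSpaceG

section Closed

variable (P : EKCond)
variable (K K' : Type) [Field K] [NumberField K] [Field K'] [NumberField K'] [Algebra K K']

/-- **THE OPEN WALL of `SupplySC`** (integration v8). -/
structure OpenSupply893h : Prop where
  t6 : T6.T6Out
  globMatch : GlobMatchC893 K K'
  base : BaseCb P K K'
  prodShape : ProdShapeC893 K K'
  sphInv : SphInvC893 K
  sphInv' : SphInvC893 K'
  sphInert : SphInertC893 K K'
  sphSplit : SphSplitC893 K K'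
  levelUniq : LevelUniqC893 K
  levelUniq' : LevelUniqC893 K'
  levelAt : LevelAtC893 K K'

variable {P K K'}

/-- **THE STABLE SUPPLY from the open wall (v8).** -/
theorem supplySC_of_open893h (h : OpenSupply893h P K K') : SupplySC P K K' :=
  supplySC_of_open893g
    { globMatch := h.globMatch
      base := h.base
      prodShape := h.prodShape
      sphHyp := sphHypC_of893 h.t6 h.sphInv h.sphInv' h.sphInert h.sphSplit
      levelUniq := h.levelUniq
      levelUniq' := h.levelUniq'
      levelAt := h.levelAt }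

end Closed

end Fermat.Agent.LT.T7.H893

end

end
-- ===== PACK-END LT/T7/H893/SupplyClosed8.lean

-- ===== PACK-BEGIN LT/T7/H893/SupplyClosed9.lean
section












/-!
# Row LT, tower T7, node T7.L2.1 `SupplySC` (sub-architect helper893): INTEGRATION v9

OFF-MAIN.  No `sorry`, nothing assumed.  ADDITIVE.  ONE closure with the cuts of the three open
nodes and their closed leaves (byte-identical copies):

* `GlobMatchC893`: integration v4 of helper305 (`H305.globMatchC893_of_open305c`), with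
  `LocEqSplitC305b` closed by helper555 (`locEqSplitC305b555`);
  OPEN: `T6.T6Out` (closed on the master, helper22), `H305.UpFactC305b`.
* `BaseCb P`: the cut of helper797 (`Q797.baseCb_of797`), with `ExpC797`, `CosetC797` closed by
  helper253 (`expC253`, `cosetC253`);
  OPEN: `Q797.PairAC797 P K K' LocA893`, `Q797.PairBC797 P K K' LocB893b`.
* `ProdMtCb κ`: TWO routes.
  (i) CUT OF RECORD = helper51 (`P51.prodMtCb_of51`, `locProdC_of51`, `globProdC_of51`), with
  the bookkeeping leaves closed by helper644 (`unramC644`, `levelAtC644`, `levelUniqC644`);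
  OPEN: `OpAvgC51`, `ConvAvgC51`, `RegOrbC51`, `RegSphC51`, `RegArchC51`, `InertSphC51`,
  `SplitOrbC51`, `SplitSphC51`, `ArchProdC51`.
  (ii) SPARE = the sixth cut of helper893 (`prodMtCb_of893`, `sphHypC_of893`), with
  `LevelUniqC893` closed by helper301 (`levelUniqC301`) and `LevelAtC893` by helper644;
  OPEN: `ProdShapeC893`, `SphInvC893 K`, `SphInvC893 K'`, `SphInertC893`, `SphSplitC893`.

    supplySC_of_open893i : OpenSupply893i P K K' → T7.SupplySC P K K'     (route (i))
    supplySC_of_open893j : OpenSupply893j P K K' → T7.SupplySC P K K'     (route (ii))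
-/

set_option autoImplicit false

open AutomorphicForm IsDedekindDomain NumberField MeasureTheory
open scoped ComplexConjugate

noncomputable section

namespace Fermat.Agent.LT.T7.H893

open Fermat.Agent.LT Fermat.Agent.LT.H556 Fermat.Agent.LT.H556.A0 Fermat.Agent.LT.T7

attribute [local instance] Fermat.Agent.LT.T5.instMeasurableSpaceG

section Closed

variable (P : EKCond)
variable (K K' : Type) [Field K] [NumberField K] [Field K'] [NumberField K'] [Algebra K K']

/-- The open wall of the matching theorem and of the base node (common to both routes). -/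
structure OpenCore893i : Prop where
  t6 : T6.T6Out
  upFact : H305.UpFactC305b K K'
  pairA : Q797.PairAC797 P K K' LocA893
  pairB : Q797.PairBC797 P K K' LocB893b

/-- **THE OPEN WALL of `SupplySC`** (integration v9, route (i): the cut of helper51 for
`ProdMtCb`). -/
structure OpenSupply893i : Prop extends OpenCore893i P K K' where
  opAvg : P51.OpAvgC51 K K'
  convAvg : P51.ConvAvgC51 K K'
  regOrb : P51.RegOrbC51 K K'
  regSph : P51.RegSphC51 K K'
  regArch : P51.RegArchC51 K K'
  inertSph : P51.InertSphC51 K K'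
  splitOrb : P51.SplitOrbC51 K K'
  splitSph : P51.SplitSphC51 K K'
  archProd : P51.ArchProdC51 K K'

/-- **THE OPEN WALL of `SupplySC`** (integration v9, route (ii): the sixth cut of helper893 for
`ProdMtCb`). -/
structure OpenSupply893j : Prop extends OpenCore893i P K K' where
  prodShape : ProdShapeC893 K K'
  sphInv : SphInvC893 K
  sphInv' : SphInvC893 K'
  sphInert : SphInertC893 K K'
  sphSplit : SphSplitC893 K K'

variable {P K K'}

/-- The matching theorem from the open core. -/
theorem globMatchC893_of_core893i (h : OpenCore893i P K K') : GlobMatchC893 K K' :=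
  H305.globMatchC893_of_open305c
    { t6 := h.t6
      upFact := h.upFact
      locEqSplit := H555.locEqSplitC305b555 (K := K) (K' := K') }

/-- The base node from the open core. -/
theorem baseCb_of_core893i (h : OpenCore893i P K K') : BaseCb P K K' :=
  Q797.baseCb_of797 (H253.expC253 K K') (H253.cosetC253 K K') h.pairA h.pairB

/-- **THE STABLE SUPPLY from the open wall (v9, route (i)).** -/
theorem supplySC_of_open893i (h : OpenSupply893i P K K') : SupplySC P K K' :=
  supplySC_of_open893f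
    { globMatch := globMatchC893_of_core893i h.toOpenCore893i
      base := baseCb_of_core893i h.toOpenCore893i
      prodMt := fun κ hκ =>
        P51.prodMtCb_of51 (P51.globProdC_of51 h.opAvg h.convAvg)
          (P51.locProdC_of51 h.regOrb h.regSph h.regArch h.inertSph h.splitOrb h.splitSph
            h.archProd)
          (H644.unramC644 K K') (H644.levelAtC644 K K') H644.levelUniqC644 κ hκ }

/-- **THE STABLE SUPPLY from the open wall (v9, route (ii)).** -/
theorem supplySC_of_open893j (h : OpenSupply893j P K K') : SupplySC P K K' :=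
  supplySC_of_open893h
    { t6 := h.t6
      globMatch := globMatchC893_of_core893i h.toOpenCore893i
      base := baseCb_of_core893i h.toOpenCore893i
      prodShape := h.prodShape
      sphInv := h.sphInv
      sphInv' := h.sphInv'
      sphInert := h.sphInert
      sphSplit := h.sphSplit
      levelUniq := H301.levelUniqC301 K
      levelUniq' := H301.levelUniqC301 K'
      levelAt := H644.levelAtC644 K K' }

end Closed

end Fermat.Agent.LT.T7.H893

end

end
-- ===== PACK-END LT/T7/H893/SupplyClosed9.lean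

-- ===== PACK-BEGIN LT/T7/H634/ConvAvg.lean
section



/-!
# Row LT, tower T7, calculus of pure tensors, leaf PT.3 `ConvAvgC563` (helper634, OFF-MAIN)

`convAvgC634 K : PT563.ConvAvgC563 K` — the frozen Prop of
`Fermat/Agent/LT/T7/H563/PTSpec.lean` (helper563@d74a8461a, sha256 `c4658dddcfd9…`) VERBATIM,
UNCONDITIONAL; `convAvgC_of_locComp634 K : T1.LocCompC K → PT563.ConvAvgC563 K` with the closed
leaf `T1.LocCompC K` (`GL₂(𝔸_K)` is locally compact, Hausdorff, second countable:
`T1.H11.locCompC_h11`, helper11, bytes of the master of helper17).  Imports: the spec and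
`T1/H11/LocComp.lean` (closure: `H11/LC.lean`, `H11/SC.lean`).  New names only (suffix `634`),
no hole, nothing assumed.

Proof (abstract part: a locally compact, Hausdorff, second countable group `H` with a Haar
measure `μ`).  `F(y, (a, b)) = p a y · q b (y⁻¹ h)` is continuous with compact support in
`C₁ × Ω₁ × Ω₂`, hence integrable for `μ × (ν₁ × ν₂)`; `integral_prod_mul` and Fubini
(`integral_integral_swap`) give the formula.  The convolution of the members is the integral
over the compact set `C₁` of a jointly continuous function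
(`continuous_parametric_integral_of_continuous`), and it is supported in `C₁ C₂`.
-/

set_option autoImplicit false
set_option linter.unusedSectionVars false
set_option linter.unusedVariables false

open MeasureTheory
open scoped Pointwise

noncomputable section

namespace Fermat.Agent.LT.T7.H634

open Fermat.Agent.LT.H556 Fermat.Agent.LT.H556.A0 Fermat.Agent.LT.T7

attribute [local instance] Fermat.Agent.LT.T5.instMeasurableSpaceG

/-! ## 1. The abstract statements -/

section Abstract

variable {H : Type} [Group H] [TopologicalSpace H] [IsTopologicalGroup H]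
  [LocallyCompactSpace H] [T2Space H] [SecondCountableTopology H]
  [MeasurableSpace H] [BorelSpace H]
  {Ω₁ : Type} [TopologicalSpace Ω₁] [CompactSpace Ω₁] [T2Space Ω₁]
  [SecondCountableTopology Ω₁] [MeasurableSpace Ω₁] [BorelSpace Ω₁]
  {Ω₂ : Type} [TopologicalSpace Ω₂] [CompactSpace Ω₂] [T2Space Ω₂]
  [SecondCountableTopology Ω₂] [MeasurableSpace Ω₂] [BorelSpace Ω₂]

/-- The integrand of the convolution of the members is jointly continuous. -/
theorem cont_integrand634 (p : Ω₁ → H → ℂ) (q : Ω₂ → H → ℂ)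
    (hp : Continuous (fun x : Ω₁ × H => p x.1 x.2))
    (hq : Continuous (fun x : Ω₂ × H => q x.1 x.2)) :
    Continuous (fun z : ((Ω₁ × Ω₂) × H) × H => p z.1.1.1 z.2 * q z.1.1.2 (z.2⁻¹ * z.1.2)) := by
  have h1 : Continuous (fun z : ((Ω₁ × Ω₂) × H) × H => (z.1.1.1, z.2)) := by fun_prop
  have h2 : Continuous (fun z : ((Ω₁ × Ω₂) × H) × H => (z.1.1.2, z.2⁻¹ * z.1.2)) := by fun_prop
  exact (hp.comp h1).mul (hq.comp h2)

/-- The convolution of two averages is the average of the convolutions. -/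
theorem conv_avg_eq634 (μ : Measure H) [μ.IsHaarMeasure]
    (ν₁ : Measure Ω₁) [IsFiniteMeasure ν₁] (ν₂ : Measure Ω₂) [IsFiniteMeasure ν₂]
    (p : Ω₁ → H → ℂ) (q : Ω₂ → H → ℂ)
    (hp : Continuous (fun x : Ω₁ × H => p x.1 x.2))
    (hq : Continuous (fun x : Ω₂ × H => q x.1 x.2))
    (C₁ : Set H) (hC₁ : IsCompact C₁) (hpC : ∀ (a : Ω₁) (h : H), p a h ≠ 0 → h ∈ C₁) (h : H) :
    ∫ y, (∫ a, p a y ∂ν₁) * (∫ b, q b (y⁻¹ * h) ∂ν₂) ∂μ
      = ∫ x : Ω₁ × Ω₂, (∫ y, p x.1 y * q x.2 (y⁻¹ * h) ∂μ) ∂(ν₁.prod ν₂) := by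
  have hA : ∀ y : H, (∫ a, p a y ∂ν₁) * (∫ b, q b (y⁻¹ * h) ∂ν₂)
      = ∫ x : Ω₁ × Ω₂, p x.1 y * q x.2 (y⁻¹ * h) ∂(ν₁.prod ν₂) := fun y =>
    (integral_prod_mul (μ := ν₁) (ν := ν₂) (fun a => p a y) (fun b => q b (y⁻¹ * h))).symm
  have hcont : Continuous (Function.uncurry
      (fun (y : H) (x : Ω₁ × Ω₂) => p x.1 y * q x.2 (y⁻¹ * h))) := by
    have h0 : Continuous (fun z : H × (Ω₁ × Ω₂) => (((z.2.1, z.2.2), h), z.1)) := by fun_prop
    exact (cont_integrand634 p q hp hq).comp h0
  have hsupp : HasCompactSupport (Function.uncurry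
      (fun (y : H) (x : Ω₁ × Ω₂) => p x.1 y * q x.2 (y⁻¹ * h))) := by
    refine HasCompactSupport.intro (hC₁.prod (isCompact_univ : IsCompact (Set.univ : Set (Ω₁ × Ω₂))))
      fun z hz => ?_
    have hz1 : z.1 ∉ C₁ := fun hmem => hz ⟨hmem, Set.mem_univ _⟩
    have hp0 : p z.2.1 z.1 = 0 := by
      by_contra h0
      exact hz1 (hpC _ _ h0)
    show p z.2.1 z.1 * q z.2.2 (z.1⁻¹ * h) = 0
    rw [hp0, zero_mul]
  have hint : Integrable (Function.uncurry
      (fun (y : H) (x : Ω₁ × Ω₂) => p x.1 y * q x.2 (y⁻¹ * h))) (μ.prod (ν₁.prod ν₂)) :=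
    hcont.integrable_of_hasCompactSupport hsupp
  calc ∫ y, (∫ a, p a y ∂ν₁) * (∫ b, q b (y⁻¹ * h) ∂ν₂) ∂μ
      = ∫ y, ∫ x : Ω₁ × Ω₂, p x.1 y * q x.2 (y⁻¹ * h) ∂(ν₁.prod ν₂) ∂μ :=
        integral_congr_ae (Filter.Eventually.of_forall hA)
    _ = ∫ x : Ω₁ × Ω₂, (∫ y, p x.1 y * q x.2 (y⁻¹ * h) ∂μ) ∂(ν₁.prod ν₂) :=
        integral_integral_swap hint

/-- The family of the convolutions is jointly continuous. -/
theorem conv_cont634 (μ : Measure H) [μ.IsHaarMeasure]
    (p : Ω₁ → H → ℂ) (q : Ω₂ → H → ℂ)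
    (hp : Continuous (fun x : Ω₁ × H => p x.1 x.2))
    (hq : Continuous (fun x : Ω₂ × H => q x.1 x.2))
    (C₁ : Set H) (hC₁ : IsCompact C₁) (hpC : ∀ (a : Ω₁) (h : H), p a h ≠ 0 → h ∈ C₁) :
    Continuous (fun x : (Ω₁ × Ω₂) × H => ∫ y, p x.1.1 y * q x.1.2 (y⁻¹ * x.2) ∂μ) := by
  have h1 : (fun x : (Ω₁ × Ω₂) × H => ∫ y, p x.1.1 y * q x.1.2 (y⁻¹ * x.2) ∂μ)
      = fun x : (Ω₁ × Ω₂) × H => ∫ y in C₁, p x.1.1 y * q x.1.2 (y⁻¹ * x.2) ∂μ := by
    funext x
    refine (setIntegral_eq_integral_of_forall_compl_eq_zero fun y hy => ?_).symm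
    have hp0 : p x.1.1 y = 0 := by
      by_contra h0
      exact hy (hpC _ _ h0)
    rw [hp0, zero_mul]
  rw [h1]
  exact continuous_parametric_integral_of_continuous
    (f := fun (x : (Ω₁ × Ω₂) × H) (y : H) => p x.1.1 y * q x.1.2 (y⁻¹ * x.2))
    (cont_integrand634 p q hp hq) hC₁

/-- The convolutions of the members are supported in `C₁ C₂`. -/
theorem conv_supp634 (μ : Measure H)
    (p : Ω₁ → H → ℂ) (q : Ω₂ → H → ℂ)
    (C₁ : Set H) (hpC : ∀ (a : Ω₁) (h : H), p a h ≠ 0 → h ∈ C₁)
    (C₂ : Set H) (hqC : ∀ (b : Ω₂) (h : H), q b h ≠ 0 → h ∈ C₂)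
    (x : Ω₁ × Ω₂) (h : H) (hne : ∫ y, p x.1 y * q x.2 (y⁻¹ * h) ∂μ ≠ 0) : h ∈ C₁ * C₂ := by
  by_contra hh
  apply hne
  have h0 : ∀ y : H, p x.1 y * q x.2 (y⁻¹ * h) = 0 := by
    intro y
    by_contra hy
    have hpy : p x.1 y ≠ 0 := fun h' => hy (by rw [h', zero_mul])
    have hqy : q x.2 (y⁻¹ * h) ≠ 0 := fun h' => hy (by rw [h', mul_zero])
    apply hh
    refine Set.mem_mul.2 ⟨y, hpC _ _ hpy, y⁻¹ * h, hqC _ _ hqy, ?_⟩
    rw [mul_inv_cancel_left]
  rw [integral_congr_ae (Filter.Eventually.of_forall h0), integral_zero]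

end Abstract

/-! ## 2. The leaf -/

section Leaf

variable (K : Type) [Field K] [NumberField K]

theorem conv_apply634 (μ : Measure (G K)) (φ₁ φ₂ : G K → ℂ) (g : G K) :
    T5.conv μ φ₁ φ₂ g = ∫ y, φ₁ y * φ₂ (y⁻¹ * g) ∂μ := rfl

/-- **PT.3 `ConvAvgC563`** from `T1.LocCompC` (VERBATIM `PT563.ConvAvgC563 K`). -/
theorem convAvgC_of_locComp634 (hLC : T1.LocCompC K) : PT563.ConvAvgC563 K := by
  intro μ hμ Ω₁ _ _ _ _ _ _ ν₁ _ Ω₂ _ _ _ _ _ _ ν₂ _ p q hp hq hC₁ hC₂
  obtain ⟨C₁, hC₁, hpC⟩ := hC₁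
  obtain ⟨C₂, hC₂, hqC⟩ := hC₂
  obtain ⟨_, hlc, ht2, hsc⟩ := hLC
  have : LocallyCompactSpace (G K) := hlc
  have : T2Space (G K) := ht2
  have : SecondCountableTopology (G K) := hsc
  have : BorelSpace (G K) := ⟨rfl⟩
  have : μ.IsHaarMeasure := hμ
  refine ⟨fun h => ?_, ?_, C₁ * C₂, hC₁.mul hC₂, fun x h hne => ?_⟩
  · exact conv_avg_eq634 μ ν₁ ν₂ p q hp hq C₁ hC₁ hpC h
  · exact conv_cont634 μ p q hp hq C₁ hC₁ hpC
  · exact conv_supp634 μ p q C₁ hpC C₂ hqC x h hne

/-- **PT.3 `ConvAvgC563`** (VERBATIM `PT563.ConvAvgC563 K`, unconditional). -/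
theorem convAvgC634 : PT563.ConvAvgC563 K :=
  convAvgC_of_locComp634 K (T1.H11.locCompC_h11 K)

end Leaf

end Fermat.Agent.LT.T7.H634

end

end
-- ===== PACK-END LT/T7/H634/ConvAvg.lean

-- ===== PACK-BEGIN LT/T7/H53/ConvFam.lean
section






/-!
# Row LT, tower T7, node T7.L2.1.H2b.G2.1 `P51.ConvFamC51` (helper53, SPARE)

OFF-MAIN.  `convFamC53 F : P51.ConvFamC51 F`, VERBATIM the Prop of `LT/T7/P51/ConvAvgSpec.lean`
(helper51, sha256 dc819a38), UNCONDITIONAL.

Proof.  The constant is `haarConst53 μ μc lv` (the constant of `H305.HaarSplitC305`).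
* `pure_ext53`: a pure tensor over `T` is the pure tensor over `S ⊇ T` of the components
  extended by `1_{GL₂(𝒪)}` (`P51.ext51`).
* `convPure_main53` (PT.1, `H53/ConvPureCore.lean`) for `S = T₁ ∪ T₂`:
  `P₁ ⋆ P₂ = c · pure305 S χ (Φ₁ * Φ₂)`.
* `convAvgC634` (PT.3 `PT563.ConvAvgC563`, helper634): the convolution of the averages is the
  average of the convolutions, jointly continuous, one compact support.
* `isTestFn_conv872` (helper872): the convolution of test functions is a test function.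
-/

set_option autoImplicit false
set_option linter.style.haveILetI false
set_option linter.unusedSectionVars false

open IsDedekindDomain NumberField WithZero Topology MeasureTheory
open Fermat.Agent.LT.H556.A0

noncomputable section

namespace Fermat.Agent.LT.T7.H53

open Fermat.Agent.LT Fermat.Agent.LT.T7

attribute [local instance] Fermat.Agent.LT.T5.instMeasurableSpaceG

variable {F : Type} [Field F] [NumberField F]

/-! ## 1. Extension of the components by the unit -/

theorem inU_zero_finGL_iff53 (v : HeightOneSpectrum (𝓞 F)) (h : G F) :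
    T6.InU 0 (H305.finGL305 v h) ↔ IsIntegralAt v h ∧ IsIntegralAt v h⁻¹ := by
  rw [inU_zero_iff53]
  constructor
  · rintro ⟨h1, h2⟩
    refine ⟨fun i j => ?_, fun i j => ?_⟩
    · have := h1 i j
      rwa [finGL_coe53] at this
    · have := h2 i j
      rwa [finGL_inv_coe53] at this
  · rintro ⟨h1, h2⟩
    refine ⟨fun i j => ?_, fun i j => ?_⟩
    · rw [finGL_coe53]
      exact h1 i j
    · rw [finGL_inv_coe53]
      exact h2 i j

theorem ext_of_mem53 {T : Finset (HeightOneSpectrum (𝓞 F))}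
    (φ : ∀ w : HeightOneSpectrum (𝓞 F), GL (Fin 2) (w.adicCompletion F) → ℂ)
    {w : HeightOneSpectrum (𝓞 F)} (hw : w ∈ T) : P51.ext51 T φ w = φ w :=
  if_pos hw

theorem ext_of_notMem53 {T : Finset (HeightOneSpectrum (𝓞 F))}
    (φ : ∀ w : HeightOneSpectrum (𝓞 F), GL (Fin 2) (w.adicCompletion F) → ℂ)
    {w : HeightOneSpectrum (𝓞 F)} (hw : w ∉ T) : P51.ext51 T φ w = H893.unitFn893 0 :=
  if_neg hw

theorem unitFn_zero_of53 {v : HeightOneSpectrum (𝓞 F)} {x : GL (Fin 2) (v.adicCompletion F)}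
    (hx : T6.InU 0 x) : H893.unitFn893 0 x = 1 :=
  if_pos hx

theorem unitFn_zero_of_not53 {v : HeightOneSpectrum (𝓞 F)}
    {x : GL (Fin 2) (v.adicCompletion F)} (hx : ¬ T6.InU 0 x) : H893.unitFn893 0 x = 0 :=
  if_neg hx

/-- **A pure tensor over `T` is the pure tensor over `S ⊇ T` of the extended components.** -/
theorem pure_ext53 {T S : Finset (HeightOneSpectrum (𝓞 F))} (hTS : T ⊆ S)
    (φ : ∀ w : HeightOneSpectrum (𝓞 F), GL (Fin 2) (w.adicCompletion F) → ℂ)
    (Φ : InfinitePlace F → GL (Fin 2) ℂ → ℂ) (h : G F) :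
    H305.pure305 T φ Φ h = H305.pure305 S (P51.ext51 T φ) Φ h := by
  classical
  unfold H305.pure305
  by_cases hT : H305.OutT305 T h
  · have hS : H305.OutT305 S h := fun v hv => hT v (fun hvT => hv (hTS hvT))
    rw [if_pos hT, if_pos hS]
    congr 1
    rw [← Finset.prod_subset hTS]
    · exact Finset.prod_congr rfl fun v hv => by rw [ext_of_mem53 φ hv]
    · intro v _ hvT
      rw [ext_of_notMem53 φ hvT, unitFn_zero_of53 ((inU_zero_finGL_iff53 v h).2 (hT v hvT))]
  · rw [if_neg hT]
    by_cases hS : H305.OutT305 S h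
    · rw [if_pos hS]
      have : ∃ v, v ∉ T ∧ ¬ (IsIntegralAt v h ∧ IsIntegralAt v h⁻¹) := by
        by_contra hc
        push Not at hc
        exact hT fun v hv => hc v hv
      obtain ⟨v, hvT, hv⟩ := this
      have hvS : v ∈ S := by
        by_contra hvS
        exact hv (hS v hvS)
      rw [Finset.prod_eq_zero hvS, zero_mul]
      rw [ext_of_notMem53 φ hvT,
        unitFn_zero_of_not53 (fun hc => hv ((inU_zero_finGL_iff53 v h).1 hc))]
    · rw [if_neg hS]

/-- The unit `1_{GL₂(𝒪)}` is bi-invariant under `U(n)`. -/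
theorem isBiInv_unit_zero53 (v : HeightOneSpectrum (𝓞 F)) (n : ℕ) :
    T6.IsBiInv (T6.InU n) (H893.unitFn893 (k := v.adicCompletion F) 0) := by
  classical
  intro u u' g hu hu'
  have hu0 := inU_zero_of_inU53 v hu
  have hu0' := inU_zero_of_inU53 v hu'
  have hiff : T6.InU 0 (u * g * u') ↔ T6.InU 0 g := by
    constructor
    · intro hg
      have h1 := inU_mul53 (inU_mul53 (inU_inv53 hu0) hg) (inU_inv53 hu0')
      have e : u⁻¹ * (u * g * u') * u'⁻¹ = g := by group
      rwa [e] at h1
    · intro hg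
      exact inU_mul53 (inU_mul53 hu0 hg) hu0'
  by_cases hg : T6.InU 0 g
  · rw [unitFn_zero_of53 hg, unitFn_zero_of53 (hiff.2 hg)]
  · rw [unitFn_zero_of_not53 hg, unitFn_zero_of_not53 (fun hc => hg (hiff.1 hc))]

theorem isBiInv_ext53 {T : Finset (HeightOneSpectrum (𝓞 F))}
    (lv : HeightOneSpectrum (𝓞 F) → ℕ)
    (φ : ∀ w : HeightOneSpectrum (𝓞 F), GL (Fin 2) (w.adicCompletion F) → ℂ)
    (hφ : ∀ w ∈ T, T6.IsBiInv (T6.InU (lv w)) (φ w)) (w : HeightOneSpectrum (𝓞 F)) :
    T6.IsBiInv (T6.InU (lv w)) (P51.ext51 T φ w) := by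
  by_cases hw : w ∈ T
  · rw [ext_of_mem53 φ hw]
    exact hφ w hw
  · rw [ext_of_notMem53 φ hw]
    exact isBiInv_unit_zero53 w (lv w)

/-! ## 2. Scalar multiples of test functions -/

theorem isTestFn_const_mul53 {𝔫 : Ideal (𝓞 F)} {τ : G F → ℂ} {φ : G F → ℂ} (c : ℂ)
    (hφ : T5.IsTestFn 𝔫 τ φ) : T5.IsTestFn 𝔫 τ (fun h => c * φ h) where
  ktype := hφ.ktype
  cont := continuous_const.mul hφ.cont
  supp := hφ.supp.mul_left
  smooth := fun n h h1 h2 g => contDiff_const.mul (hφ.smooth n h h1 h2 g)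
  inv :=
    { level_right := fun u hu g => by
        rw [hφ.inv.level_right u hu]
      level_left := fun u hu g => by
        rw [hφ.inv.level_left u hu]
      arch_right := fun w k hk g => by
        rw [hφ.inv.arch_right w k hk]
        ring
      arch_left := fun w k hk g => by
        rw [hφ.inv.arch_left w k hk]
        ring }

/-! ## 3. The convolution of two members -/

open Classical in
/-- **The convolution of two members of the families.** -/
theorem conv_member53 (hcx : TotCplx F) (μ : Measure (G F)) (hμ : μ.IsHaarMeasure)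
    (μc : @Measure (GL (Fin 2) ℂ) (borel _))
    (hμc : @Measure.IsHaarMeasure _ _ _ (borel _) μc)
    (T₀ : Finset (HeightOneSpectrum (𝓞 F))) (lv : HeightOneSpectrum (𝓞 F) → ℕ)
    (hlv : ∀ v : HeightOneSpectrum (𝓞 F), v ∉ T₀ → lv v = 0)
    (T₁ T₂ : Finset (HeightOneSpectrum (𝓞 F))) (h₁ : T₀ ⊆ T₁)
    (φ₁ φ₂ χ : ∀ w : HeightOneSpectrum (𝓞 F), GL (Fin 2) (w.adicCompletion F) → ℂ)
    (Φ₁ Φ₂ : InfinitePlace F → GL (Fin 2) ℂ → ℂ)
    (hr₁ : ∀ w ∈ T₁, T6.IsBiInv (T6.InU (lv w)) (φ₁ w))
    (hr₂ : ∀ w ∈ T₂, T6.IsBiInv (T6.InU (lv w)) (φ₂ w))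
    (hΦ₁ : ∀ w : InfinitePlace F, Continuous (Φ₁ w))
    (hΦ₂ : ∀ w : InfinitePlace F, Continuous (Φ₂ w))
    (hχ : ∀ w ∈ T₁ ∪ T₂, T6.IsConv (T6.InU (lv w)) (P51.ext51 T₁ φ₁ w) (P51.ext51 T₂ φ₂ w)
      (χ w)) (h : G F) :
    T5.conv μ (H305.pure305 T₁ φ₁ Φ₁) (H305.pure305 T₂ φ₂ Φ₂) h
      = (haarConst53 μ μc lv : ℂ)
        * H305.pure305 (T₁ ∪ T₂) χ
            (fun w => @T6.convInt _ _ (borel _) μc (Φ₁ w) (Φ₂ w)) h := by
  have e₁ : H305.pure305 T₁ φ₁ Φ₁ = H305.pure305 (T₁ ∪ T₂) (P51.ext51 T₁ φ₁) Φ₁ :=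
    funext fun y => pure_ext53 Finset.subset_union_left φ₁ Φ₁ y
  have e₂ : H305.pure305 T₂ φ₂ Φ₂ = H305.pure305 (T₁ ∪ T₂) (P51.ext51 T₂ φ₂) Φ₂ :=
    funext fun y => pure_ext53 Finset.subset_union_right φ₂ Φ₂ y
  rw [e₁, e₂]
  exact convPure_main53 hcx μ hμ μc hμc T₀ (T₁ ∪ T₂) lv hlv
    (h₁.trans Finset.subset_union_left) _ _ χ Φ₁ Φ₂
    (fun w _ => isBiInv_ext53 lv φ₁ hr₁ w) (fun w _ => isBiInv_ext53 lv φ₂ hr₂ w) hχ hΦ₁ hΦ₂ h

/-! ## 4. The node -/

/-- **P.G2.1 `ConvFamC51`, unconditional.** -/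
theorem convFamC53 (F : Type) [Field F] [NumberField F] : P51.ConvFamC51 F := by
  classical
  intro hcx μ hμ μc hμc T₀ lv hlv 𝔫 h𝔫
  have hcpos : 0 < haarConst53 μ μc lv := haarConst_pos53 μ hμ μc hμc T₀ lv hlv
  have hcne : (haarConst53 μ μc lv : ℂ) ≠ 0 := by
    exact_mod_cast hcpos.ne'
  refine ⟨⟨haarConst53 μ μc lv, hcpos.le⟩, ?_, ?_⟩
  · intro h0
    have : haarConst53 μ μc lv = 0 := congrArg NNReal.toReal h0
    exact hcpos.ne' this
  intro Ω₁ _ _ _ _ _ _ ν₁ _ Ω₂ _ _ _ _ _ _ ν₂ _ T₁ φ₁ Φ₁ T₂ φ₂ Φ₂ χ hF₁ hF₂ hχ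
  -- the convolution of the members
  have hmem : ∀ (p : Ω₁ × Ω₂) (h : G F),
      T5.conv μ (H305.pure305 (T₁ p.1) (φ₁ p.1) (Φ₁ p.1))
          (H305.pure305 (T₂ p.2) (φ₂ p.2) (Φ₂ p.2)) h
        = (haarConst53 μ μc lv : ℂ)
          * H305.pure305 (T₁ p.1 ∪ T₂ p.2) (χ p)
              (fun w => @T6.convInt _ _ (borel _) μc (Φ₁ p.1 w) (Φ₂ p.2 w)) h := by
    intro p h
    exact conv_member53 hcx μ hμ μc hμc T₀ lv hlv (T₁ p.1) (T₂ p.2) (hF₁.sub p.1)
      (φ₁ p.1) (φ₂ p.2) (χ p) (Φ₁ p.1) (Φ₂ p.2)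
      (fun w hw => (hF₁.reg p.1 w hw).1) (fun w hw => (hF₂.reg p.2 w hw).1)
      (fun w => (hF₁.arch p.1 w).1) (fun w => (hF₂.arch p.2 w).1) (hχ p) h
  have hmem' : ∀ (p : Ω₁ × Ω₂) (h : G F),
      H305.pure305 (T₁ p.1 ∪ T₂ p.2) (χ p)
          (fun w => @T6.convInt _ _ (borel _) μc (Φ₁ p.1 w) (Φ₂ p.2 w)) h
        = (haarConst53 μ μc lv : ℂ)⁻¹
          * T5.conv μ (H305.pure305 (T₁ p.1) (φ₁ p.1) (Φ₁ p.1))
              (H305.pure305 (T₂ p.2) (φ₂ p.2) (Φ₂ p.2)) h := by
    intro p h
    rw [hmem p h, ← mul_assoc, inv_mul_cancel₀ hcne, one_mul]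
  -- PT.3
  obtain ⟨hA, hB, C, hC, hCs⟩ := H634.convAvgC634 F μ hμ Ω₁ inferInstance inferInstance
    inferInstance inferInstance inferInstance inferInstance ν₁ inferInstance
    Ω₂ inferInstance inferInstance inferInstance inferInstance inferInstance inferInstance ν₂
    inferInstance
    (fun a => H305.pure305 (T₁ a) (φ₁ a) (Φ₁ a)) (fun b => H305.pure305 (T₂ b) (φ₂ b) (Φ₂ b))
    hF₁.cont hF₂.cont hF₁.supp hF₂.supp
  refine ⟨?_, ?_, ?_, ?_⟩
  · intro p
    have h1 := H872.isTestFn_conv872 hμ h𝔫 (hF₁.test p.1) (hF₂.test p.2)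
    have h2 := isTestFn_const_mul53 (haarConst53 μ μc lv : ℂ)⁻¹ h1
    have e : H305.pure305 (T₁ p.1 ∪ T₂ p.2) (χ p)
          (fun w => @T6.convInt _ _ (borel _) μc (Φ₁ p.1 w) (Φ₂ p.2 w))
        = fun h => (haarConst53 μ μc lv : ℂ)⁻¹
          * T5.conv μ (H305.pure305 (T₁ p.1) (φ₁ p.1) (Φ₁ p.1))
              (H305.pure305 (T₂ p.2) (φ₂ p.2) (Φ₂ p.2)) h :=
      funext fun h => hmem' p h
    rw [e]
    exact h2
  · have e : (fun q : (Ω₁ × Ω₂) × G F =>
          H305.pure305 (T₁ q.1.1 ∪ T₂ q.1.2) (χ q.1)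
            (fun w => @T6.convInt _ _ (borel _) μc (Φ₁ q.1.1 w) (Φ₂ q.1.2 w)) q.2)
        = fun q : (Ω₁ × Ω₂) × G F => (haarConst53 μ μc lv : ℂ)⁻¹
          * T5.conv μ (H305.pure305 (T₁ q.1.1) (φ₁ q.1.1) (Φ₁ q.1.1))
              (H305.pure305 (T₂ q.1.2) (φ₂ q.1.2) (Φ₂ q.1.2)) q.2 :=
      funext fun q => hmem' q.1 q.2
    rw [e]
    exact continuous_const.mul hB
  · refine ⟨C, hC, fun p h hne => hCs p h ?_⟩
    intro h0
    apply hne
    rw [hmem' p h, h0, mul_zero]
  · intro h
    rw [hA h]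
    rw [integral_congr_ae (Filter.Eventually.of_forall fun p => hmem p h)]
    rw [integral_const_mul]
    have key := integral_smul_nnreal_measure (μ := ν₁.prod ν₂)
      (fun p : Ω₁ × Ω₂ => H305.pure305 (T₁ p.1 ∪ T₂ p.2) (χ p)
        (fun w => @T6.convInt _ _ (borel _) μc (Φ₁ p.1 w) (Φ₂ p.2 w)) h)
      (⟨haarConst53 μ μc lv, hcpos.le⟩ : NNReal)
    rw [key]
    rfl

end Fermat.Agent.LT.T7.H53

end

end
-- ===== PACK-END LT/T7/H53/ConvFam.lean

-- ===== PACK-BEGIN LT/T7/H893/SupplyClosed10.lean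
section












/-!
# Row LT, tower T7, node T7.L2.1 `SupplySC` (sub-architect helper893): INTEGRATION v10

OFF-MAIN.  No `sorry`, nothing assumed.  ADDITIVE.  ONE closure with the cuts of the three nodes
and their closed leaves (byte-identical copies):

* `GlobMatchC893`: CLOSED by helper305 (`H305.globMatchC893_closed305`, from `T6.T6Out` only;
  `UpFactC305b` closed by helper930, `LocEqSplitC305b` by helper555).
* `BaseCb P`: the cut of helper797 (`Q797.baseCb_of797`), with `ExpC797`, `CosetC797` closed by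
  helper253, and the node PAIR-B reduced by helper193 (`H193.pairBCb_of_preBC193`) to the
  un-averaged, kill-free second pair `PB57.PreBC57` of helper57;
  OPEN: `Q797.PairAC797 P K K' LocA893`, `PB57.PreBC57 P K K' LocB893b`.
* `ProdMtCb κ`: TWO routes.
  (i) CUT OF RECORD = helper51 (`P51.prodMtCb_of51`, `locProdC_of51`, `globProdC_of51`,
  `convAvgC_of51`); closed leaves: `RegOrbC51` (helper409), `RegArchC51` (helper561),
  `ArchProdC51` (helper44), `ConvFamC51` (helper53), the eight small leaves of `ConvAvgC51` and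
  the three bookkeeping leaves (helper644);
  OPEN: `OpAvgC51`, `RegAC51`, `RegOpC51`, `RegSphC51`, `InertSphC51`, `SplitOrbC51`,
  `SplitSphC51`.
  (ii) SPARE = the sixth cut of helper893 (`prodMtCb_of893`), with the WHOLE node `SphHypC893`
  closed by helper314 (`H314.sphHypC_of314`, from `T6.T6Out`), `LevelUniqC893` by helper301,
  `LevelAtC893` by helper644;
  OPEN: `ProdShapeC893` ONLY.

    supplySC_of_open893k : OpenSupply893k P K K' → T7.SupplySC P K K'     (route (i))
    supplySC_of_open893l : OpenSupply893l P K K' → T7.SupplySC P K K'     (route (ii))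
-/

set_option autoImplicit false

open AutomorphicForm IsDedekindDomain NumberField MeasureTheory
open scoped ComplexConjugate

noncomputable section

namespace Fermat.Agent.LT.T7.H893

open Fermat.Agent.LT Fermat.Agent.LT.H556 Fermat.Agent.LT.H556.A0 Fermat.Agent.LT.T7

attribute [local instance] Fermat.Agent.LT.T5.instMeasurableSpaceG

section Closed

variable (P : EKCond)
variable (K K' : Type) [Field K] [NumberField K] [Field K'] [NumberField K'] [Algebra K K']

/-- The open wall of the base node (common to both routes), integration v10: the output of the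
tower T6 (closed on the master) and the two pairs. -/
structure OpenCore893k : Prop where
  t6 : T6.T6Out
  pairA : Q797.PairAC797 P K K' LocA893
  preB : PB57.PreBC57 P K K' LocB893b

/-- **THE OPEN WALL of `SupplySC`** (integration v10, route (i): the cut of helper51 for
`ProdMtCb`). -/
structure OpenSupply893k : Prop extends OpenCore893k P K K' where
  opAvg : P51.OpAvgC51 K K'
  regA : P51.RegAC51 K K'
  regOp : P51.RegOpC51 K K'
  regSph : P51.RegSphC51 K K'
  inertSph : P51.InertSphC51 K K'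
  splitOrb : P51.SplitOrbC51 K K'
  splitSph : P51.SplitSphC51 K K'

/-- **THE OPEN WALL of `SupplySC`** (integration v10, route (ii): the sixth cut of helper893 for
`ProdMtCb`). -/
structure OpenSupply893l : Prop extends OpenCore893k P K K' where
  prodShape : ProdShapeC893 K K'

variable {P K K'}

/-- The matching theorem from the open core (closed by helper305). -/
theorem globMatchC893_of_core893k (h : OpenCore893k P K K') : GlobMatchC893 K K' :=
  H305.globMatchC893_closed305 K K' h.t6

/-- The base node from the open core. -/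
theorem baseCb_of_core893k (h : OpenCore893k P K K') : BaseCb P K K' :=
  Q797.baseCb_of797 (H253.expC253 K K') (H253.cosetC253 K K') h.pairA
    (H193.pairBCb_of_preBC193 h.preB)

/-- The node `ConvAvgC51` of helper51 from its two open leaves. -/
theorem convAvgC_of_open893k (hRA : P51.RegAC51 K K') (hRO : P51.RegOpC51 K K') :
    P51.ConvAvgC51 K K' :=
  P51.convAvgC_of51 (H53.convFamC53 K') (H53.convFamC53 K) (H644.testSmulC644 K)
    H644.locConvExC644 H644.unitConvC644 H644.unitRegC644 hRA hRO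
    (H644.overFinC644 K K') (H644.belowUniqC644 K K') (H644.belowExC644 K K')
    (H644.totCplxUpC644 K K') (H644.levelAtC644 K K')

/-- **THE STABLE SUPPLY from the open wall (v10, route (i)).** -/
theorem supplySC_of_open893k (h : OpenSupply893k P K K') : SupplySC P K K' :=
  supplySC_of_open893f
    { globMatch := globMatchC893_of_core893k h.toOpenCore893k
      base := baseCb_of_core893k h.toOpenCore893k
      prodMt := fun κ hκ =>
        P51.prodMtCb_of51 (P51.globProdC_of51 h.opAvg (convAvgC_of_open893k h.regA h.regOp))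
          (P51.locProdC_of51 (H409.regOrbC409 K K') h.regSph (H561.regArchC561 K K')
            h.inertSph h.splitOrb h.splitSph (H44.archProdC44 K K'))
          (H644.unramC644 K K') (H644.levelAtC644 K K') H644.levelUniqC644 κ hκ }

/-- **THE STABLE SUPPLY from the open wall (v10, route (ii)).** -/
theorem supplySC_of_open893l (h : OpenSupply893l P K K') : SupplySC P K K' :=
  supplySC_of_open893g
    { globMatch := globMatchC893_of_core893k h.toOpenCore893k
      base := baseCb_of_core893k h.toOpenCore893k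
      prodShape := h.prodShape
      sphHyp := H314.sphHypC_of314 K K' h.t6
      levelUniq := H301.levelUniqC301 K
      levelUniq' := H301.levelUniqC301 K'
      levelAt := H644.levelAtC644 K K' }

end Closed

end Fermat.Agent.LT.T7.H893

end

end
-- ===== PACK-END LT/T7/H893/SupplyClosed10.lean

-- ===== PACK-BEGIN LT/T7/H717/PushCalc.lean
section




/-!
# Row LT, tower T7, leaf DF.1 `DF619.PushCalcC619` (cut of `B981.DownFinC981` by helper619):
# PROVED VERBATIM, UNCONDITIONAL (helper717, OFF-MAIN, never land)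

    pushCalcC717 (K K') : DF619.PushCalcC619 K K'

Plug of the Mathlib-only core `pushCalc_abs717` (`PushCalcAbs.lean`) for the index type
`↥(fib981 P' v)`, the weights `resDeg981 v w` and the coefficients `A' w`.
-/

set_option autoImplicit false
set_option linter.unusedSectionVars false
set_option linter.style.haveILetI false
set_option linter.unusedVariables false
set_option maxHeartbeats 1600000

open IsDedekindDomain NumberField

namespace Fermat.Agent.LT.T7.H717

open Fermat.Agent.LT Fermat.Agent.LT.T7 Fermat.Agent.LT.T7.B981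

theorem pushCalcC717 (K K' : Type) [Field K] [NumberField K] [Field K'] [NumberField K']
    [Algebra K K'] : DF619.PushCalcC619 K K' := by
  intro P' A' v hA
  obtain ⟨h1, h2, h3⟩ := pushCalc_abs717 (ι := ↥(fib981 (K := K) P' v))
    (f := fun w => resDeg981 v w.1) (A' := fun w => A' w.1)
    (hfin := fun w => (hA w.1 w.2).1) (hsym := fun w => (hA w.1 w.2).2)
    (push := pushFin981 (K := K) P' A' v) (hpush := fun M => rfl)
  refine ⟨⟨h1, h2⟩, fun x y hx hy => ?_⟩
  have h := h3 x y hx hy
  rw [← Finset.prod_coe_sort]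
  exact h

end Fermat.Agent.LT.T7.H717

end
-- ===== PACK-END LT/T7/H717/PushCalc.lean

-- ===== PACK-BEGIN LT/T7/B981/H619/DownFinTop.lean
section







/-!
# Row LT, tower T7, node T7.L2.1.H2a.A.0.D.3 `B981.DownFinC981` (owner helper619, registry 2981):
# THE CUT -- Top (PROVED)

OFF-MAIN.  ADDITIVE (new names only, suffix `619`, namespace
`Fermat.Agent.LT.T7.B981.DF619`).  Nothing assumed: the only hypothesis of the top is the frozen
Prop of the ONE leaf of the cut (`DownFinSpec.lean`).

    downFinC_of619 : PushCalcC619 K K' → B981.DownFinC981 K K'                  (VERBATIM)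

Proof.  `A v = pushFin981 P' A' v` for every `v`, `f₀ v = 1_{U(m v)}` at `v ∈ T₀` and a Satake
pair for `A v` elsewhere (`T3.H263.satakeLocC263`).  `P ∩ T₀ = ∅` (`IsLevel797.mem_S'_g`).  Bridge
T3 → T6 for a GIVEN Satake pair `(f, A)` at a place of norm `q`: `f = F ∘ cartan` with `F`
dominant and `satT893 q F = laurent A` (`T3.H681.bc_pair_of_biinv681`,
`T3.H681.sph_sum_eq_laurent681`).  The places over `v ∈ P` are outside `S'` (`IsL2Base.fibre`),
hence unramified (`RamIn`), and `H963.placesC963` gives the residue degrees: `ℓ` at an inert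
place, `1` at a split place, where every place over `v` is a member of every enumeration.
-/

set_option autoImplicit false
set_option linter.unusedSectionVars false
set_option linter.unusedVariables false

open IsDedekindDomain NumberField
open scoped Classical

noncomputable section

namespace Fermat.Agent.LT.T7.B981.DF619

open Fermat.Agent.LT Fermat.Agent.LT.T7 Fermat.Agent.LT.T7.B981 Fermat.Agent.LT.T7.H893
open Fermat.Agent.LT.T7.B981.SS503

/-- The norm of a finite place is at least `2`. -/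
theorem one_lt_absNorm619 {K : Type} [Field K] [NumberField K] (v : HeightOneSpectrum (𝓞 K)) :
    1 < Ideal.absNorm v.asIdeal := by
  rw [Nat.one_lt_iff_ne_zero_and_ne_one]
  constructor
  · intro h
    exact v.ne_bot (Ideal.absNorm_eq_zero_iff.1 h)
  · intro h
    exact v.isPrime.ne_top (Ideal.absNorm_eq_one_iff.1 h)

/-- `resDeg981` is the residue degree. -/
theorem resDeg_eq619 {K K' : Type} [Field K] [NumberField K] [Field K'] [NumberField K']
    [Algebra K K'] (v : HeightOneSpectrum (𝓞 K)) (w : HeightOneSpectrum (𝓞 K')) (f : ℕ)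
    (h : HasResDeg K K' v w f) : resDeg981 v w = f := by
  show Nat.log (Ideal.absNorm v.asIdeal) (Ideal.absNorm w.asIdeal) = f
  rw [h.2, Nat.log_pow (one_lt_absNorm619 v)]

/-- Membership in the fibre. -/
theorem mem_fib619 {K K' : Type} [Field K] [NumberField K] [Field K'] [NumberField K']
    [Algebra K K'] (P' : Finset (HeightOneSpectrum (𝓞 K'))) (v : HeightOneSpectrum (𝓞 K))
    (w : HeightOneSpectrum (𝓞 K')) :
    w ∈ fib981 (K := K) P' v ↔ w ∈ P' ∧ PlaceOver K K' v w :=
  Finset.mem_filter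

/-- **BRIDGE T3 → T6** for a given Satake pair. -/
theorem bridge619 {K : Type} [Field K] [NumberField K] (w : HeightOneSpectrum (𝓞 K))
    (f₀ : GL (Fin 2) (w.adicCompletion K) → ℂ) (A : ℤ × ℤ → ℂ) (hA : T3.AS.IsSymFin A)
    (hp : T3.AS.IsSatakePair w f₀ A) :
    ∃ F : (ℤ × ℤ) →₀ ℂ, IsSphFn893 f₀ F ∧
      ∀ x y : ℂ, x ≠ 0 → y ≠ 0 →
        satT893 (Ideal.absNorm w.asIdeal) F x y = T3.AS.laurent A x y := by
  obtain ⟨φ, hφ, hf, -⟩ := T3.H681.bc_pair_of_biinv681 (K := K) (K' := K) w w 1 one_pos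
    (pow_one _).symm f₀ A hA.1 hp.bi_inv hp.fin_supp hp.eigen
  refine ⟨φ, ⟨hφ, fun x => congrFun hf x⟩, fun x y hx hy => ?_⟩
  have he : T3.AS.HasSatakeEigen w (fun g => φ (T6.cartan g)) A := hf ▸ hp.eigen
  exact T3.H681.sph_sum_eq_laurent681 w φ hφ A he x y hx hy

/-- The Satake transform of the unit. -/
theorem satT_unit619 (q : ℕ) (x y : ℂ) :
    satT893 q (Finsupp.single ((0 : ℤ), (0 : ℤ)) (1 : ℂ)) x y = 1 := by
  show (Finsupp.single ((0 : ℤ), (0 : ℤ)) (1 : ℂ)).sum
    (fun lam c => c * T6.satake q lam x y) = 1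
  rw [Finsupp.sum_single_index (by rw [zero_mul])]
  show (1 : ℂ) * ((x * y) ^ (0 : ℤ) * T6.satPoly q x y ((0 : ℤ) - 0).toNat) = 1
  have h0 : T6.satPoly q x y ((0 : ℤ) - 0).toNat = 1 := rfl
  rw [h0, zpow_zero, mul_one, mul_one]

/-- **THE TOP of the cut of `DownFinC981`.** -/
theorem downFinC_of619 (K K' : Type) [Field K] [NumberField K] [Field K'] [NumberField K']
    [Algebra K K'] (hPC : PushCalcC619 K K') : DownFinC981 K K' := by
  intro ℓ hcyc _hℓ2 _htc Φ B hB hRam 𝔫 hL T₀ n n₀ m hE P' P hP'S hP A' φ₀ hA' hpair hunit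
  have hdeg : B.l = ℓ := hB.deg
  subst hdeg
  -- the push-forward
  have hpc := fun v : HeightOneSpectrum (𝓞 K) => hPC P' A' v (fun w _ => hA' w)
  -- a Satake pair for the push-forward
  have hsat : ∀ v : HeightOneSpectrum (𝓞 K), ∃ f : GL (Fin 2) (v.adicCompletion K) → ℂ,
      T3.AS.IsSatakePair v f (pushFin981 (K := K) P' A' v) :=
    fun v => T3.H263.satakeLocC263 K v _ (hpc v).1
  choose g hg using hsat
  -- `P` and `T₀` are disjoint
  have hdisj : ∀ v ∈ P, v ∉ T₀ := by
    intro v hv hvT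
    obtain ⟨w₀, hw₀, hov⟩ := (hP v).1 hv
    apply hP'S w₀ hw₀
    rw [hL.mem_S'_g, Ideal.dvd_iff_le]
    have h1 : 𝔫 ≤ v.asIdeal := Ideal.dvd_iff_le.1 ((hE.mem_T₀ v).1 hvT)
    show Ideal.map (algebraMap (𝓞 K) (𝓞 K')) 𝔫 ≤ w₀.asIdeal
    rw [Ideal.map_le_iff_le_comap]
    intro x hx
    rw [Ideal.mem_comap]
    exact (hov x (algebraMap (𝓞 K) (𝓞 K') x) rfl).1 (h1 hx)
  -- the bridge upstairs
  have hup : ∀ w ∈ P', ∃ F : (ℤ × ℤ) →₀ ℂ, IsSphFn893 (φ₀ w) F ∧
      ∀ x y : ℂ, x ≠ 0 → y ≠ 0 →
        satT893 (Ideal.absNorm w.asIdeal) F x y = T3.AS.laurent (A' w) x y :=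
    fun w hw => bridge619 w (φ₀ w) (A' w) (hA' w) (hpair w hw)
  refine ⟨fun v => pushFin981 (K := K) P' A' v,
    fun v => if v ∈ T₀ then unitFn893 (m v) else g v, fun v => (hpc v).1, fun v _ => rfl,
    ?_, ?_, ?_⟩
  · intro v hv
    show T3.AS.IsSatakePair v (if v ∈ T₀ then unitFn893 (m v) else g v) _
    rw [if_neg (hdisj v hv)]
    exact hg v
  · intro v hv
    show (if v ∈ T₀ then unitFn893 (m v) else g v) = _
    rw [if_pos hv]
  · intro v hv hvT₀
    have hvP : v ∈ P := by
      rcases Finset.mem_union.1 hv with h | h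
      · exact absurd h hvT₀
      · exact h
    -- the places over `v`
    have key : ∀ w : HeightOneSpectrum (𝓞 K'), PlaceOver K K' v w →
        ∃ f : ℕ, HasResDeg K K' v w f ∧
          ((∀ w' : HeightOneSpectrum (𝓞 K'), PlaceOver K K' v w' → w' = w) → f = B.l) ∧
          ∀ u : ℕ → HeightOneSpectrum (𝓞 K'), (∀ j : ℕ, PlaceOver K K' v (u j)) →
            (∀ j j' : ℕ, j < B.l → j' < B.l → u j = u j' → j = j') →
            f = 1 ∧ ∃ j : ℕ, j < B.l ∧ u j = w := by
      intro w how
      have hwS : w ∉ B.S' := by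
        intro hwS
        obtain ⟨w₀, hw₀, hov⟩ := (hP v).1 hvP
        exact hP'S w₀ hw₀ (hB.fibre v w w₀ how hov hwS)
      obtain ⟨v', f, -, hres, huniq, -, hun⟩ := H963.placesC963 K K' B.l hcyc w
      have hv' : v = v' := huniq v how
      subst hv'
      obtain ⟨h1, h2⟩ := hun (hRam v w how hwS)
      exact ⟨f, hres, h1, h2⟩
    let Aup : HeightOneSpectrum (𝓞 K') → (ℤ × ℤ) →₀ ℂ := fun w =>
      if hw : w ∈ P' then (hup w hw).choose else Finsupp.single ((0 : ℤ), (0 : ℤ)) (1 : ℂ)
    have hAup_pos : ∀ w (hw : w ∈ P'), Aup w = (hup w hw).choose := fun w hw => dif_pos hw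
    have hAup_neg : ∀ w, w ∉ P' → Aup w = Finsupp.single ((0 : ℤ), (0 : ℤ)) (1 : ℂ) :=
      fun w hw => dif_neg hw
    obtain ⟨Av, hAv, hAvs⟩ := bridge619 v (g v) _ (hpc v).1 (hg v)
    refine ⟨Aup, Av, ?_, ?_, ?_, ?_⟩
    · show IsSphFn893 (if v ∈ T₀ then unitFn893 (m v) else g v) Av
      rw [if_neg hvT₀]
      exact hAv
    · intro w how
      by_cases hw : w ∈ P'
      · rw [hAup_pos w hw]
        exact (hup w hw).choose_spec.1
      · rw [hAup_neg w hw, hunit w hw ⟨v, hvP, how⟩]
        exact H619.unitSphC619 _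
    · -- the inert clause
      intro w how honly x y hx hy
      obtain ⟨w₀, hw₀, hov⟩ := (hP v).1 hvP
      have hw₀w : w₀ = w := honly w₀ hov
      subst hw₀w
      obtain ⟨f, hres, hf, -⟩ := key w₀ how
      have hfl : f = B.l := hf honly
      have hfib : fib981 (K := K) P' v = {w₀} := by
        ext w'
        rw [mem_fib619, Finset.mem_singleton]
        constructor
        · rintro ⟨-, h⟩
          exact honly w' h
        · rintro rfl
          exact ⟨hw₀, how⟩
      have e1 := hAvs x y hx hy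
      have e2 := (hpc v).2 x y hx hy
      rw [hfib, Finset.prod_singleton, resDeg_eq619 v w₀ f hres] at e2
      have e3 : satT893 (Ideal.absNorm w₀.asIdeal) (Aup w₀) (x ^ f) (y ^ f)
          = T3.AS.laurent (A' w₀) (x ^ f) (y ^ f) := by
        rw [hAup_pos w₀ hw₀]
        exact (hup w₀ hw₀).choose_spec.2 (x ^ f) (y ^ f) (pow_ne_zero _ hx) (pow_ne_zero _ hy)
      rw [hres.2, hfl] at e3
      rw [hfl] at e2
      show satT893 (Ideal.absNorm v.asIdeal) Av x y
        = satT893 (Ideal.absNorm v.asIdeal ^ B.l) (Aup w₀) (x ^ B.l) (y ^ B.l)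
      rw [e1, e2, e3]
    · -- the split clause
      intro u hu hinj x y hx hy
      have hfib : fib981 (K := K) P' v
          = ((Finset.range B.l).filter (fun j => u j ∈ P')).image u := by
        ext w
        rw [mem_fib619, Finset.mem_image]
        constructor
        · rintro ⟨hwP', how⟩
          obtain ⟨f, -, -, h3⟩ := key w how
          obtain ⟨-, j, hj, rfl⟩ := h3 u hu hinj
          exact ⟨j, Finset.mem_filter.2 ⟨Finset.mem_range.2 hj, hwP'⟩, rfl⟩
        · rintro ⟨j, hj, rfl⟩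
          exact ⟨(Finset.mem_filter.1 hj).2, hu j⟩
      have hinj' : ∀ j ∈ (Finset.range B.l).filter (fun j => u j ∈ P'),
          ∀ j' ∈ (Finset.range B.l).filter (fun j => u j ∈ P'), u j = u j' → j = j' := by
        intro j hj j' hj' h
        exact hinj j j' (Finset.mem_range.1 (Finset.mem_filter.1 hj).1)
          (Finset.mem_range.1 (Finset.mem_filter.1 hj').1) h
      rw [hAvs x y hx hy, (hpc v).2 x y hx hy, hfib, Finset.prod_image hinj',
        Finset.prod_filter]
      refine Finset.prod_congr rfl fun j hj => ?_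
      obtain ⟨f, hres, -, h3⟩ := key (u j) (hu j)
      obtain ⟨hf1, -⟩ := h3 u hu hinj
      subst hf1
      by_cases hjP : u j ∈ P'
      · rw [if_pos hjP, resDeg_eq619 v (u j) 1 hres, pow_one, pow_one]
        have e3 : satT893 (Ideal.absNorm (u j).asIdeal) (Aup (u j)) x y
            = T3.AS.laurent (A' (u j)) x y := by
          rw [hAup_pos (u j) hjP]
          exact (hup (u j) hjP).choose_spec.2 x y hx hy
        rw [hres.2, pow_one] at e3
        exact e3.symm
      · rw [if_neg hjP, hAup_neg (u j) hjP, satT_unit619]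

end Fermat.Agent.LT.T7.B981.DF619

end

end
-- ===== PACK-END LT/T7/B981/H619/DownFinTop.lean

-- ===== PACK-BEGIN LT/T7/B981/H619/DownFinClosed.lean
section




/-!
# Row LT, tower T7, node T7.L2.1.H2a.A.0.D.3 `B981.DownFinC981` (owner helper619, registry 2981):
# CLOSED, UNCONDITIONAL

OFF-MAIN.  ADDITIVE.  Nothing assumed.

    downFinC619 (K K') : B981.DownFinC981 K K'                                  (VERBATIM)

The top `downFinC_of619` (`DownFinTop.lean`) with the ONE leaf of the cut,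
`DF619.PushCalcC619`, proved by helper717 (`T7/H717/PushCalc.lean`, `pushCalcC717`, the first
compiled proof of registry row 3037; byte-identical copy).
-/

set_option autoImplicit false

open IsDedekindDomain NumberField

namespace Fermat.Agent.LT.T7.B981.DF619

open Fermat.Agent.LT Fermat.Agent.LT.T7 Fermat.Agent.LT.T7.B981

/-- **NODE D.3 `DownFinC981`, CLOSED.** -/
theorem downFinC619 (K K' : Type) [Field K] [NumberField K] [Field K'] [NumberField K']
    [Algebra K K'] : DownFinC981 K K' :=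
  downFinC_of619 K K' (H717.pushCalcC717 K K')

end Fermat.Agent.LT.T7.B981.DF619

end
-- ===== PACK-END LT/T7/B981/H619/DownFinClosed.lean

-- ===== PACK-BEGIN LT/T3/Push/BinAbel910.lean
section



/-!
# Row LT, tower T7, leaf DA.1 `H910.BinAbelC910` of the cut of helper910 of `B981.DownArchC981`
# (row 3044), PROVED VERBATIM, UNCONDITIONAL (helper14, station T3.19)

OFF-MAIN.  Complete proofs, nothing assumed.  ADDITIVE (new names only, namespace `T3.Push`).

    binAbelC_c : T7.H910.BinAbelC910                                        (UNCONDITIONAL)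
    downArchC_of_enum (K K') : T7.H910.ArchEnumC910 K K' → T7.B981.DownArchC981 K K'

`BinAbelC910` is `AbelConvMC` of `Push/AbelConv.lean` (`abelConvM_c`: the two leaves of station
T6.20x closed by helper323, in the coordinates of tower T3) together with `isSymBump_convE` of
`Push/Sym.lean` (the convolution of two symmetric bumps is a symmetric bump).  The constant is
`cμ = κ₆₈₀ c`, `c` the Jacobian of `(ζ, r) ↦ ((ζ + r)/2, (ζ - r)/2)`.
-/

set_option autoImplicit false
set_option linter.style.haveILetI false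
set_option linter.unusedVariables false

open MeasureTheory NumberField

noncomputable section

namespace Fermat.Agent.LT.T3.Push

open Fermat.Agent.LT.T3.AS Fermat.Agent.LT.T6

/-- **LEAF DA.1 = THE BINARY STEP (LOCAL, `GL₂(ℂ)`), VERBATIM, UNCONDITIONAL.** -/
theorem binAbelC_c : T7.H910.BinAbelC910 := by
  intro μc hμc
  obtain ⟨κ, hκ, h⟩ := abelConvM_c μc hμc
  refine ⟨κ, fun F₁ F₂ β₁ β₂ hb1 hb2 hF1 hF2 hs1 hs2 ha1 ha2 => ?_⟩
  obtain ⟨h1, h2, h3⟩ := h F₁ F₂ β₁ β₂ hF1 hs1 hF2 hs2 ha1 ha2
  exact ⟨h2, isSymBump_convE hb1 hb2, hasAbelN_congr (fun y => rfl) h3⟩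

/-- **`DownArchC981`** (node D.4 of `DatC981`, helper981) from the enumeration of the fibres
alone: the top of helper910 with the binary step closed. -/
theorem downArchC_of_enum (K K' : Type) [Field K] [NumberField K] [Field K'] [NumberField K']
    [Algebra K K'] (hE : T7.H910.ArchEnumC910 K K') : T7.B981.DownArchC981 K K' :=
  T7.H910.downArchC_of910 K K' binAbelC_c hE

end Fermat.Agent.LT.T3.Push

end

end
-- ===== PACK-END LT/T3/Push/BinAbel910.lean

-- ===== PACK-BEGIN LT/T7/H60/SphHypQTop.lean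
section



/-!
# Row LT, tower T7, quadratic step, node T7.L2Q.1.H2b.3 `PQ563.SphHypQC563`: THE CUT -- Top

OFF-MAIN (helper60).  No hole, nothing assumed.  ADDITIVE.  Mirror of `H893.sphHypC_of893`.

    sphHypQC_of60 : T6.T6Out → SphInvC893 ℚ → SphInvC893 F → SphInertQC60 F → SphSplitQC60 F
        → PQ563.SphHypQC563 F                                                  (VERBATIM)
-/

set_option autoImplicit false

open AutomorphicForm IsDedekindDomain NumberField MeasureTheory
open scoped ComplexConjugate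

noncomputable section

namespace Fermat.Agent.LT.T7.H60

open Fermat.Agent.LT.H556 Fermat.Agent.LT.H556.A0 Fermat.Agent.LT.T7
open Fermat.Agent.LT.T7.H305 Fermat.Agent.LT.T7.H893 Fermat.Agent.LT.T7.L2Q

attribute [local instance] Fermat.Agent.LT.T5.instMeasurableSpaceG

section Top

variable {F : Type} [Field F] [NumberField F]

/-- **THE TOP OF THE CUT OF `PQ563.SphHypQC563`.** -/
theorem sphHypQC_of60 (ht6 : T6.T6Out) (hInv : SphInvC893 ℚ) (hInv' : SphInvC893 F)
    (hInert : SphInertQC60 F) (hSplit : SphSplitQC60 F) : PQ563.SphHypQC563 F := by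
  intro hquad D hD hcyc hl μr _ μc _ T₀ hT₀ n m hnm T _ φ₀ Φ f₀ F0 F1 h hS
  refine
    { inv_up := ?_
      inv_down := ?_
      arch_up := h.arch_up
      arch_down0 := h.arch_down0
      arch_down1 := h.arch_down1
      inert := ?_
      split := ?_
      arch := h.arch }
  · intro v hv w hvw
    by_cases hv0 : v ∈ T₀
    · exact h.inv_up v hv0 w hvw
    · obtain ⟨A, Av, -, hφ, -, -⟩ := hS v hv hv0
      rw [hnm.2 v w hv0 hvw]
      exact hInv' w (φ₀ w) (A w) (hφ w hvw)
  · intro v hv
    by_cases hv0 : v ∈ T₀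
    · exact h.inv_down v hv0
    · obtain ⟨A, Av, hf, -, -, -⟩ := hS v hv hv0
      rw [hnm.1 v hv0]
      exact hInv v (f₀ v) Av hf
  · intro v hv w hvw huniq e i sw hi hsw hext
    by_cases hv0 : v ∈ T₀
    · exact h.inert v hv0 w hvw huniq e i sw hi hsw hext
    · obtain ⟨A, Av, hf, hφ, hBC, -⟩ := hS v hv hv0
      exact hInert ht6 hquad D hD hcyc hl T₀ hT₀ v hv0 w hvw huniq (n w) (m v)
        (hnm.2 v w hv0 hvw) (hnm.1 v hv0) (φ₀ w) (f₀ v) (A w) Av (hφ w hvw) hf
        (hBC w hvw huniq) e i sw hi hsw hext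
  · intro v hv hsp
    by_cases hv0 : v ∈ T₀
    · exact h.split v hv0 hsp
    · obtain ⟨A, Av, hf, hφ, -, hprod⟩ := hS v hv hv0
      exact hSplit ht6 hquad D hD hcyc hl T₀ hT₀ v hv0 hsp n m
        (fun w hvw => hnm.2 v w hv0 hvw) (hnm.1 v hv0) φ₀ (f₀ v) A Av hf hφ hprod

/-- The statement of the node, verbatim. -/
example (ht6 : T6.T6Out) (hInv : SphInvC893 ℚ) (hInv' : SphInvC893 F)
    (hInert : SphInertQC60 F) (hSplit : SphSplitQC60 F) :
    Fermat.Agent.LT.T7.PQ563.SphHypQC563 F := sphHypQC_of60 ht6 hInv hInv' hInert hSplit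

end Top

end Fermat.Agent.LT.T7.H60

end

end
-- ===== PACK-END LT/T7/H60/SphHypQTop.lean

-- ===== PACK-BEGIN LT/T7/H60/SphInertQ.lean
section




/-!
# Row LT, tower T7, quadratic step, leaf T7.L2Q.1.H2b.3b `SphInertQC60` (cut of helper60 of the
# node `PQ563.SphHypQC563`)

OFF-MAIN (helper60).  `sphInertQC60 F : SphInertQC60 F` VERBATIM, unconditional (the hypothesis
`T6Out` is in the Prop).  Port of `H165.sphInertC165` (helper165@013501c49, the cubic leaf
`H893.SphInertC893`; its proof does not use `D.l ≠ 2`, `TotCplx K`), on his lemmas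
`ramIdx_eq_oneS165`, `ramIdx_uniqueS165`, `exists_genS165`, `placeOver_iffS165`,
`placeOver_of_leS165`.
-/

set_option autoImplicit false
set_option linter.style.haveILetI false
set_option linter.unusedSectionVars false

open AutomorphicForm IsDedekindDomain NumberField MeasureTheory
open scoped ComplexConjugate

noncomputable section

namespace Fermat.Agent.LT.T7.H60

open Fermat.Agent.LT.H556 Fermat.Agent.LT.H556.A0 Fermat.Agent.LT Fermat.Agent.LT.T7
open Fermat.Agent.LT.T7.H305 Fermat.Agent.LT.T7.H893 Fermat.Agent.LT.T7.H165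
open Fermat.Agent.LT.T7.L2Q

/-- **LEAF T7.L2Q.1.H2b.3b = SPH-INERT over `ℚ`**, VERBATIM. -/
theorem sphInertQC60 (F : Type) [Field F] [NumberField F] : SphInertQC60 F := by
  intro hT6 _hquad D _hD hcyc _hl2 T₀ hunram v hv w hvw huniq nw mv hnw hmv φ f A Av hφ hf hBC
    e i sw hi hsw hext
  obtain ⟨_, _, _, _, _, hInstLoc, hInstExt, _, _, _, _, _, _, hFL, _⟩ := hT6
  subst hnw hmv
  -- `e = 1`
  obtain ⟨x, hxv, hxw⟩ := hunram v hv w hvw
  have he : e = 1 := ramIdx_eq_oneS165 v w x hxv hxw e hext.e_pos i hi hext.val_i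
  subst he
  -- the local fields
  have hkv := hInstLoc ℚ v
  have hkw := hInstLoc F w
  have hkw' : T6.IsLocalField (w.adicCompletion F) (Ideal.absNorm v.asIdeal ^ D.l) := by
    haveI := hcyc.galois
    obtain ⟨s, hs⟩ := exists_genS165 D.l hcyc
    obtain ⟨e₀, i₀, sw₀, hi₀, _, hext₀, hN₀⟩ :=
      hInstExt ℚ F s hs (hcyc.degree ▸ hcyc.prime) v w (placeOver_iffS165 hvw)
        (fun w' hw' => huniq w' (placeOver_of_leS165 hw'))
    have he : 1 = e₀ := ramIdx_uniqueS165 v w 1 e₀ i i₀ hi hi₀ hext.val_i hext₀.val_i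
    rw [← he, Nat.div_one, hcyc.degree] at hN₀
    rw [← hN₀]
    exact hkw
  -- the functions
  have hφe : φ = fun g => A (T6.cartan g) := funext hφ.2
  have hfe : f = fun g => Av (T6.cartan g) := funext hf.2
  subst hφe hfe
  refine ⟨?_, ?_⟩
  · intro δ γ c c' hreg hconj hc hc'
    exact hFL.1 (v.adicCompletion ℚ) (w.adicCompletion F) (Ideal.absNorm v.asIdeal) D.l i sw
      hkv hkw' hext hcyc.prime A Av hφ.1 hf.1 hBC δ γ c c' hreg trivial hconj hc hc'
  · intro γ c' hreg hnn hc'
    exact hFL.2 (v.adicCompletion ℚ) (w.adicCompletion F) (Ideal.absNorm v.asIdeal) D.l i sw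
      hkv hkw' hext hcyc.prime A Av hφ.1 hf.1 hBC γ c' hreg hnn hc'

end Fermat.Agent.LT.T7.H60

end

end
-- ===== PACK-END LT/T7/H60/SphInertQ.lean

-- ===== PACK-BEGIN LT/T7/H60/SphSplitQ.lean
section




/-!
# Row LT, tower T7, quadratic step, leaf T7.L2Q.1.H2b.3c `SphSplitQC60` (cut of helper60 of the
# node `PQ563.SphHypQC563`)

OFF-MAIN (helper60).  `sphSplitQC60 F : SphSplitQC60 F` VERBATIM, unconditional (the hypothesis
`T6Out` is in the Prop).  Port of `H388.sphSplitC388` (helper388@8a62da2ee, the cubic leaf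
`H893.SphSplitC893`; its proof does not use `D.l ≠ 2`, `TotCplx K`), on his lemmas
`enumExists388`, `cartan_map388`, `satT_inj388` and `T3.H681.split_sph681` (helper681).
-/

set_option autoImplicit false
set_option linter.style.haveILetI false
set_option linter.unusedSectionVars false

open AutomorphicForm IsDedekindDomain NumberField MeasureTheory
open scoped ComplexConjugate

noncomputable section

namespace Fermat.Agent.LT.T7.H60

open Fermat.Agent.LT.H556 Fermat.Agent.LT.H556.A0 Fermat.Agent.LT Fermat.Agent.LT.T7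
open Fermat.Agent.LT.T7.H305 Fermat.Agent.LT.T7.H893 Fermat.Agent.LT.T7.H388
open Fermat.Agent.LT.T7.L2Q

/-- **LEAF T7.L2Q.1.H2b.3c = SPH-SPLIT over `ℚ`**, VERBATIM. -/
theorem sphSplitQC60 (F : Type) [Field F] [NumberField F] : SphSplitQC60 F := by
  intro hT6 _hquad D hD hcyc _hl2 T₀ hun v hv hex n m hn hm φ₀ f A Av hf hφ hsat
  obtain ⟨w, i, hw, hrel, hne0, hi1, hi2⟩ := enumExists388 ℚ F hT6 D hD hcyc T₀ hun v hv hex
  -- the enumeration is injective on `range l`
  have hstep : ∀ j j' : ℕ, w (j + 1) = w (j' + 1) → w j = w j' := by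
    intro j j' h
    have h1 : (w j).asIdeal = (w j').asIdeal := by
      rw [show (w j).asIdeal = _ from hrel j, show (w j').asIdeal = _ from hrel j', h]
    exact HeightOneSpectrum.ext h1
  have hshift : ∀ d j : ℕ, w (j + d) = w j → w d = w 0 := by
    intro d j
    induction j with
    | zero =>
      intro h
      rwa [Nat.zero_add] at h
    | succ j ih =>
      intro h
      apply ih
      apply hstep
      rw [show j + d + 1 = j + 1 + d by omega]
      exact h
  have hinj : ∀ j j' : ℕ, j < D.l → j' < D.l → w j = w j' → j = j' := by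
    intro j j' hj hj' h
    by_contra hne
    rcases Nat.lt_or_gt_of_ne hne with h1 | h1
    · refine hne0 (j' - j) (by omega) (by omega) (hshift (j' - j) j ?_)
      rw [show j + (j' - j) = j' by omega]
      exact h.symm
    · refine hne0 (j - j') (by omega) (by omega) (hshift (j - j') j' ?_)
      rw [show j' + (j - j') = j by omega]
      exact h
  refine ⟨w, i, hw, hrel, hne0, hi1, hi2, fun j => by rw [hn (w j) (hw j), hm], ?_⟩
  rw [hm]
  -- the components are spherical functions downstairs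
  have hcomp : (fun (j : ℕ) (g : GL (Fin 2) (v.adicCompletion ℚ)) => φ₀ (w j)
        (Matrix.GeneralLinearGroup.map ((i j : v.adicCompletion ℚ ≃+* _) :
          v.adicCompletion ℚ →+* (w j).adicCompletion F) g))
      = fun (j : ℕ) (g : GL (Fin 2) (v.adicCompletion ℚ)) => A (w j) (T6.cartan g) := by
    funext j g
    rw [(hφ (w j) (hw j)).2, cartan_map388 _ (fun x => hi2 j x)]
  rw [hcomp]
  -- the product is spherical, with Satake transform the product
  obtain ⟨Av', hAv', hprod, hsat', -⟩ := T3.H681.split_sph681 v D.l hcyc.prime.pos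
    (fun j => A (w j)) (fun j _ => (hφ (w j) (hw j)).1)
  have hq : 0 < Ideal.absNorm v.asIdeal := by
    rw [Nat.pos_iff_ne_zero, Ne, Ideal.absNorm_eq_zero_iff]
    exact v.ne_bot
  have hEq : Av = Av' := by
    refine satT_inj388 (Ideal.absNorm v.asIdeal) hq Av Av' hf.1 hAv' (fun x y hx hy => ?_)
    rw [hsat' x y hx hy]
    exact hsat w hw hinj x y hx hy
  have hff : f = fun g => Av' (T6.cartan g) := by
    funext g
    rw [hf.2 g, hEq]
  rw [hff]
  exact hprod

end Fermat.Agent.LT.T7.H60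

end

end
-- ===== PACK-END LT/T7/H60/SphSplitQ.lean

-- ===== PACK-BEGIN LT/T7/H60/SphHypQClosed.lean
section






/-!
# Row LT, tower T7, quadratic step, node T7.L2Q.1.H2b.3 `PQ563.SphHypQC563`: CLOSED from `T6Out`

OFF-MAIN (helper60).  `sphHypQC_closed60 F : T6.T6Out → PQ563.SphHypQC563 F` VERBATIM: the cut
`sphHypQC_of60` with its four leaves plugged (`SphInvC893 ℚ`, `SphInvC893 F`: helper165;
`SphInertQC60 F`, `SphSplitQC60 F`: this directory).
-/

set_option autoImplicit false

open AutomorphicForm IsDedekindDomain NumberField MeasureTheory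

noncomputable section

namespace Fermat.Agent.LT.T7.H60

open Fermat.Agent.LT Fermat.Agent.LT.T7

/-- **NODE T7.L2Q.1.H2b.3 `PQ563.SphHypQC563 F`, CLOSED from `T6.T6Out`.** -/
theorem sphHypQC_closed60 (F : Type) [Field F] [NumberField F] (hT6 : T6.T6Out) :
    PQ563.SphHypQC563 F :=
  sphHypQC_of60 hT6 (H165.sphInvC165 ℚ) (H165.sphInvC165 F) (sphInertQC60 F) (sphSplitQC60 F)

end Fermat.Agent.LT.T7.H60

end

end
-- ===== PACK-END LT/T7/H60/SphHypQClosed.lean

-- ===== PACK-BEGIN LT/T7/H78/SplitOrbQ.lean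
section



/-!
# Row LT, tower T7, node `PQ563.LocProdQC563`, leaf PS.L2 `SplitOrbQC563` (helper78, SPARE)

OFF-MAIN.  SPARE of registry row 2969.  Spec: `LT/T7/H563/ProdShapeQSpec.lean` (helper563).

    splitOrbQC78 (F) : PQ563.SplitOrbQC563 F        VERBATIM, UNCONDITIONAL

## Proof

PORT of `P51.H321.splitOrbC321` (helper321, the cubic leaf `P51.SplitOrbC51`) with `K = ℚ`,
`K' = F`, `ℓ = 2`: the local kit of helper321 (`exists_iwReps321`, `regLoc_map321`,
`iwL_map321`, `isConvProd_iw321`, `level_eq321`, `orbit_period321`) is field-independent.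
`t = [I : U(m_u)] = R.card`, the enumeration is `w j = o j` (`o (j + 2) = o j`), the
identifications of the completions are those of `T6.H116.instSplitC_h116` (two places over
`u`: `e = f = 1`, `H841.split_dataOF841` for the quadratic extension `F/ℚ`, which is Galois of
degree `2` because `F` has one infinite place and it is complex).

Every declaration of this file is in the namespace `Fermat.Agent.LT.T7.H78`; no equation lemma
of an imported definition is used.
-/

set_option autoImplicit false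
set_option linter.unusedSectionVars false

open AutomorphicForm IsDedekindDomain NumberField MeasureTheory

noncomputable section

namespace Fermat.Agent.LT.T7.H78

open Fermat.Agent.LT.H556 Fermat.Agent.LT.H556.A0 Fermat.Agent.LT.T7 Fermat.Agent.LT.T7.H305
  Fermat.Agent.LT.T7.L2Q Fermat.Agent.LT.T7.H893 Fermat.Agent.LT.T7.H962
  Fermat.Agent.LT.T7.H732 Fermat.Agent.LT.T7.MQ298 Fermat.Agent.LT.T7.CQ801
  Fermat.Agent.LT.T7.PQ563 Fermat.Agent.LT.T7.P51 Fermat.Agent.LT.T7.P51.H321

attribute [local instance] Fermat.Agent.LT.T5.instMeasurableSpaceG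

variable {F : Type} [Field F] [NumberField F]

/-- An imaginary quadratic field has degree `2`. -/
theorem finrank_of_imagQuad78 (h : IsImagQuad F) : Module.finrank ℚ F = 2 := by
  classical
  obtain ⟨hcard, htc⟩ := h
  have h1 := NumberField.InfinitePlace.card_add_two_mul_card_eq_rank F
  have hreal : NumberField.InfinitePlace.nrRealPlaces F = 0 := by
    unfold NumberField.InfinitePlace.nrRealPlaces
    rw [Fintype.card_eq_zero_iff]
    exact ⟨fun w => (NumberField.InfinitePlace.not_isReal_iff_isComplex.2 (htc w.1)) w.2⟩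
  have hcplx : NumberField.InfinitePlace.nrComplexPlaces F = 1 := by
    have h2 := NumberField.InfinitePlace.card_eq_nrRealPlaces_add_nrComplexPlaces F
    rw [hreal, zero_add, ← Nat.card_eq_fintype_card, hcard] at h2
    exact h2.symm
  rw [hreal, hcplx] at h1
  omega

/-- An imaginary quadratic field is a cyclic extension of `ℚ` of degree `2`. -/
theorem isCycExt_of_imagQuad78 (h : IsImagQuad F) : IsCycExt ℚ F 2 := by
  have hdeg := finrank_of_imagQuad78 h
  have : Algebra.IsQuadraticExtension ℚ F := ⟨hdeg⟩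
  exact ⟨Nat.prime_two, inferInstance, hdeg⟩

variable (F)

/-- **LEAF PS.L2 = SPLIT-ORB over `ℚ`** (spare of registry row 2969), VERBATIM, UNCONDITIONAL. -/
theorem splitOrbQC78 : Fermat.Agent.LT.T7.PQ563.SplitOrbQC563 F := by
  intro Φ B g 𝔫 μr μc T₀ n n₀ m hctx
  obtain ⟨R, hR1, hR2, hR3, hRne⟩ := exists_iwReps321 B.u (m B.u)
  refine ⟨(R.card : ℂ) ^ (2 - 1),
    pow_ne_zero _ (Nat.cast_ne_zero.mpr (Finset.card_ne_zero.mpr hRne)), ?_⟩
  intro c H' z' H z lam k j T φ₀ Φ' f₀ F0 F1 hloc hsplit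
  obtain ⟨_, hsys, _hc, _ht, _hlam, hprod⟩ := hloc
  obtain ⟨T₁, T₂, φ₁, Φ₁, f₁, F0₁, F1₁, φ₂, Φ₂, f₂, F0₂, F1₂, -, -, -, -, -, -, hfu, hφ0, hφ1,
    -, -, -, -⟩ := hprod
  have hfu' : f₀ B.u = fun x => (R.card : ℂ) ^ (2 - 1) * regLoc51 B.u z H k j iwFn893 x := hfu
  have hφ0' : φ₀ (B.o 0) = regLoc51 (B.o 0) z' H' k j iwFn893 := hφ0
  have hφ1' : φ₀ (B.o 1) = iwFn893 := hφ1
  have hcyc : IsCycExt ℚ F 2 := isCycExt_of_imagQuad78 hctx.quad
  have hper : ∀ a : ℕ, B.o (a + 2) = B.o a := fun a =>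
    orbit_period321 B.s 2 hctx.base.cyc.pow_eq B.o hctx.base.orbit_rel a
  have hover : ∀ j : ℕ, PlaceOver ℚ F B.u (B.o j) := fun j => hctx.base.orbit_over j
  have hdata : ∀ j : ℕ, ∃ i : B.u.adicCompletion ℚ ≃+* (B.o j).adicCompletion F,
      (∀ x : ℚ, i (algebraMap ℚ (B.u.adicCompletion ℚ) x)
        = algebraMap F ((B.o j).adicCompletion F) (algebraMap ℚ F x)) ∧
      ∀ x : B.u.adicCompletion ℚ, Valued.v (i x) = Valued.v x := by
    intro j
    obtain ⟨w₁, w₂, h1, h2, hne⟩ := hsplit
    have hex : ∃ w' : HeightOneSpectrum (𝓞 F),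
        PlaceOver ℚ F B.u w' ∧ w' ≠ B.o j := by
      by_cases h : w₁ = B.o j
      · exact ⟨w₂, h2, fun h' => hne (h.trans h'.symm)⟩
      · exact ⟨w₁, h1, h⟩
    obtain ⟨w', hw', hne'⟩ := hex
    obtain ⟨hN, hπ⟩ := Fermat.Agent.LT.T7.H841.split_dataOF841 2 hcyc B.u _ w'
      (hover j) hw' hne'
    exact Fermat.Agent.LT.T6.H116.instSplitC_h116 ℚ F B.u _
      ((Fermat.Agent.LT.T7.H841.placeOver_iffOF841 _ _).1 (hover j)) hN hπ
  choose i hi1 hi2 using hdata
  -- the components along the enumeration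
  have hG1 : ∀ y : GL (Fin 2) (B.u.adicCompletion ℚ),
      φ₀ (B.o 0) (Matrix.GeneralLinearGroup.map
        ((i 0 : B.u.adicCompletion ℚ ≃+* _) :
          B.u.adicCompletion ℚ →+* (B.o 0).adicCompletion F) y)
        = regLoc51 B.u z H k j iwFn893 y := by
    intro y
    rw [hφ0']
    exact regLoc_map321 (i 0) (hi2 0) hsys.sys hsys.sys' hsys.unif hsys.unif' k j y
  have hG2 : ∀ y : GL (Fin 2) (B.u.adicCompletion ℚ),
      φ₀ (B.o 1) (Matrix.GeneralLinearGroup.map
        ((i 1 : B.u.adicCompletion ℚ ≃+* _) :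
          B.u.adicCompletion ℚ →+* (B.o 1).adicCompletion F) y) = iwFn893 y := by
    classical
    intro y
    rw [hφ1']
    show (if InIw893 (Matrix.GeneralLinearGroup.map
        ((i 1 : B.u.adicCompletion ℚ ≃+* _) :
          B.u.adicCompletion ℚ →+* (B.o 1).adicCompletion F) y) then (1 : ℂ) else 0)
      = if InIw893 y then (1 : ℂ) else 0
    exact if_congr (iwL_map321 (i 1) (hi2 1) y) rfl rfl
  refine ⟨fun j => B.o j, i, hover, ?_, ?_, hi1, hi2, ?_, ?_⟩
  · intro j'
    show T5.PlaceRel B.s (B.o (j' + 1)) (B.o j')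
    have h1 := hctx.base.orbit_rel (j' + 1)
    have h2 : B.o (j' + 1 + 1) = B.o j' := hper j'
    rw [h2] at h1
    exact h1
  · intro j' hj0 hjl
    exact hctx.base.orbit_ne j' hj0 hjl
  · intro j'
    exact level_eq321 𝔫 n m hctx.lev_m hctx.lev_n B.u _ (i j') (hi1 j') (hi2 j')
  · have hf : f₀ B.u = fun y => (R.card : ℂ) ^ (2 - 1)
        * φ₀ (B.o 0) (Matrix.GeneralLinearGroup.map
          ((i 0 : B.u.adicCompletion ℚ ≃+* _) :
            B.u.adicCompletion ℚ →+* (B.o 0).adicCompletion F) y) := by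
      rw [hfu']
      funext y
      rw [hG1 y]
    show T6.IsConvProd (T6.InU (m B.u)) 2
      (fun j' y => φ₀ (B.o j') (Matrix.GeneralLinearGroup.map
        ((i j' : B.u.adicCompletion ℚ ≃+* _) :
          B.u.adicCompletion ℚ →+* (B.o j').adicCompletion F) y)) (f₀ B.u)
    rw [hf]
    refine isConvProd_iw321 hR1 hR2 hR3 2
      (fun j' y => φ₀ (B.o j') (Matrix.GeneralLinearGroup.map
        ((i j' : B.u.adicCompletion ℚ ≃+* _) :
          B.u.adicCompletion ℚ →+* (B.o j').adicCompletion F) y)) ?_ ?_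
    · intro i₁ y hi₁
      show φ₀ (B.o 0) _ = φ₀ (B.o 0) _
      rw [hG1, hG1]
      exact (Fermat.Agent.LT.T7.H409.isIwReg_regLoc409 0 hsys.sys hsys.unif k j).2.1 i₁ y hi₁
    · intro j' hj0 hjl
      have hj1 : j' = 1 := by omega
      subst hj1
      funext y
      exact hG2 y

/-- VERBATIM check. -/
example (F : Type) [Field F] [NumberField F] :
    Fermat.Agent.LT.T7.PQ563.SplitOrbQC563 F := splitOrbQC78 F

end Fermat.Agent.LT.T7.H78

end
end
-- ===== PACK-END LT/T7/H78/SplitOrbQ.lean

-- ===== PACK-BEGIN LT/T7/H488/PushTelCore.lean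
section



/-!
# Row LT, tower T7, leaf D.5 `B981.PushTelC981` (cut of helper981): the abstract core
# (helper488, OFF-MAIN)

Mathlib + the definition of `B981.convR981` only.

* `gen488`: the induction over the places downstairs, for an arbitrary predicate `Z` ("the
  family sums to zero") on the families of summands: a relation among pure tensors upstairs
  gives the relation among the pushed pure tensors downstairs, if it does so for one place.
* `flp488`: the step at a finite place (sums over the fibre; `Z` = the sum over `j : ℤ` of the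
  sums over `i` is `0`).
* `ilp488`: the step at an infinite place (iterated convolutions; `Z` = a finite sum is `0`).
-/

set_option autoImplicit false
set_option linter.unusedSectionVars false
set_option linter.unusedVariables false

open MeasureTheory

noncomputable section

namespace Fermat.Agent.LT.T7.H488.PT

open Fermat.Agent.LT.T7

/-! ## 1. The generic induction over the places downstairs -/

theorem gen488 {κ Ω V E E' : Type} [DecidableEq V] [Inhabited E]
    (Z : (κ → ℂ) → Prop) (below : Ω → V) (PΩ : Finset Ω) (PV : Finset V)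
    (u : κ → Ω → E → ℂ) (U : κ → V → E' → ℂ)
    (hbelow : ∀ w ∈ PΩ, below w ∈ PV)
    (H : ∀ v ∈ PV, ∀ d : κ → ℂ,
      (∀ x : Ω → E, Z fun k => d k * ∏ w ∈ PΩ.filter (fun w => below w = v), u k w (x w)) →
      ∀ Y : E', Z fun k => d k * U k v Y)
    (r : κ → ℂ)
    (h0 : ∀ x : Ω → E, Z fun k => r k * ∏ w ∈ PΩ, u k w (x w)) :
    ∀ X : V → E', Z fun k => r k * ∏ v ∈ PV, U k v (X v) := by
  classical
  have key : ∀ S : Finset V, S ⊆ PV → ∀ (X : V → E') (x : Ω → E),
      Z fun k => r k * (∏ v ∈ S, U k v (X v)) *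
        ∏ w ∈ PΩ.filter (fun w => below w ∉ S), u k w (x w) := by
    intro S
    induction S using Finset.induction_on with
    | empty =>
      intro _ X x
      have := h0 x
      simpa using this
    | insert v₀ S hv₀ ih =>
      intro hS X x
      have hS' : S ⊆ PV := fun a ha => hS (Finset.mem_insert_of_mem ha)
      have hv₀P : v₀ ∈ PV := hS (Finset.mem_insert_self _ _)
      have step := H v₀ hv₀P
        (fun k => r k * (∏ v ∈ S, U k v (X v)) *
          ∏ w ∈ PΩ.filter (fun w => below w ∉ insert v₀ S), u k w (x w)) ?_ (X v₀)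
      · have e : (fun k => r k * (∏ v ∈ insert v₀ S, U k v (X v)) *
            ∏ w ∈ PΩ.filter (fun w => below w ∉ insert v₀ S), u k w (x w))
            = fun k => (r k * (∏ v ∈ S, U k v (X v)) *
              ∏ w ∈ PΩ.filter (fun w => below w ∉ insert v₀ S), u k w (x w)) *
                U k v₀ (X v₀) := by
          funext k
          rw [Finset.prod_insert hv₀]
          ring
        rw [e]; exact step
      · intro x'
        have := ih hS' X (fun w => if below w = v₀ then x' w else x w)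
        have e : (fun k => r k * (∏ v ∈ S, U k v (X v)) *
            ∏ w ∈ PΩ.filter (fun w => below w ∉ S),
              u k w ((fun w => if below w = v₀ then x' w else x w) w))
            = fun k => (r k * (∏ v ∈ S, U k v (X v)) *
              ∏ w ∈ PΩ.filter (fun w => below w ∉ insert v₀ S), u k w (x w)) *
              ∏ w ∈ PΩ.filter (fun w => below w = v₀), u k w (x' w) := by
          funext k
          have h1 : ∏ w ∈ PΩ.filter (fun w => below w ∉ S),
              u k w (if below w = v₀ then x' w else x w)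
              = (∏ w ∈ PΩ.filter (fun w => below w = v₀), u k w (x' w)) *
                ∏ w ∈ PΩ.filter (fun w => below w ∉ insert v₀ S), u k w (x w) := by
            rw [← Finset.prod_filter_mul_prod_filter_not (PΩ.filter (fun w => below w ∉ S))
              (fun w => below w = v₀)]
            congr 1
            · apply Finset.prod_congr
              · ext w
                simp only [Finset.mem_filter]
                constructor
                · rintro ⟨⟨hw, _⟩, h2⟩; exact ⟨hw, h2⟩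
                · rintro ⟨hw, h2⟩; exact ⟨⟨hw, by rw [h2]; exact hv₀⟩, h2⟩
              · intro w hw
                rw [if_pos (Finset.mem_filter.1 hw).2]
            · apply Finset.prod_congr
              · ext w
                simp only [Finset.mem_filter, Finset.mem_insert, not_or]
                constructor
                · rintro ⟨⟨hw, h1⟩, h2⟩; exact ⟨hw, h2, h1⟩
                · rintro ⟨hw, h2, h1⟩; exact ⟨⟨hw, h1⟩, h2⟩
              · intro w hw
                have h3 := (Finset.mem_filter.1 hw).2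
                rw [if_neg (fun h => h3 (by rw [h]; exact Finset.mem_insert_self _ _))]
          show r k * (∏ v ∈ S, U k v (X v)) *
            ∏ w ∈ PΩ.filter (fun w => below w ∉ S),
              u k w (if below w = v₀ then x' w else x w) = _
          rw [h1]
          ring
        rw [e] at this
        exact this
  intro X
  have h := key PV (Finset.Subset.refl _) X (fun _ => default)
  have e0 : PΩ.filter (fun w => below w ∉ PV) = ∅ := by
    apply Finset.filter_eq_empty_iff.2
    intro w hw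
    simpa using hbelow w hw
  have e : (fun k => r k * (∏ v ∈ PV, U k v (X v)) *
        ∏ w ∈ PΩ.filter (fun w => below w ∉ PV), u k w ((fun _ => default : Ω → E) w))
      = fun k => r k * ∏ v ∈ PV, U k v (X v) := by
    funext k
    rw [e0, Finset.prod_empty, mul_one]
  rw [e] at h
  exact h

/-! ## 2. The push-forward over a finite fibre -/

/-- The push-forward of the coefficients over the finite set `W` with the weights `f`
(`B981.pushFin981` is the case `W = fib981 P' v`, `f = resDeg981 v`). -/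
def push488 {Ω : Type} (W : Finset Ω) (f : Ω → ℕ) (A' : Ω → ℤ × ℤ → ℂ) (M : ℤ × ℤ) : ℂ :=
  ∑ᶠ mm : W → ℤ × ℤ, if ∑ w, (f w.1 : ℤ) • mm w = M then ∏ w, A' w.1 (mm w) else 0

theorem push_shift488 {Ω : Type} (W : Finset Ω) (f : Ω → ℕ) (A' : Ω → ℤ × ℤ → ℂ)
    (s : Ω → ℤ × ℤ) (M : ℤ × ℤ) :
    push488 W f (fun w y => A' w (y + s w)) M
      = push488 W f A' (M + ∑ w ∈ W, (f w : ℤ) • s w) := by
  unfold push488
  rw [← finsum_comp_equiv (Equiv.addRight (fun w : W => s w.1))
    (f := fun mm : W → ℤ × ℤ =>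
      if ∑ w, (f w.1 : ℤ) • mm w = M + ∑ w ∈ W, (f w : ℤ) • s w
        then ∏ w, A' w.1 (mm w) else 0)]
  refine finsum_congr fun mm => ?_
  have e1 : ∑ w : W, (f w.1 : ℤ) • ((Equiv.addRight (fun w : W => s w.1)) mm) w
      = ∑ w : W, (f w.1 : ℤ) • mm w + ∑ w ∈ W, (f w : ℤ) • s w := by
    rw [← Finset.sum_coe_sort W (fun w => (f w : ℤ) • s w), ← Finset.sum_add_distrib]
    refine Finset.sum_congr rfl fun w _ => ?_
    show (f w.1 : ℤ) • (mm w + s w.1) = _
    rw [smul_add]
  rw [e1]
  by_cases h : ∑ w : W, (f w.1 : ℤ) • mm w = M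
  · rw [if_pos h, if_pos (by rw [h])]
    rfl
  · rw [if_neg h, if_neg (fun h' => h (add_right_cancel h'))]

/-- The support of a push-forward of finitely supported coefficients is finite. -/
theorem push_support_finite488 {Ω : Type} (W : Finset Ω) (f : Ω → ℕ) (A' : Ω → ℤ × ℤ → ℂ)
    (hA : ∀ w, (Function.support (A' w)).Finite) :
    (Function.support (push488 W f A')).Finite := by
  have hfin : (Set.pi Set.univ fun w : W => Function.support (A' w.1)).Finite :=
    Set.Finite.pi fun w => hA w.1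
  refine (hfin.image fun mm : W → ℤ × ℤ => ∑ w, (f w.1 : ℤ) • mm w).subset ?_
  intro M hM
  rw [Function.mem_support] at hM
  by_contra hcon
  apply hM
  unfold push488
  refine finsum_eq_zero_of_forall_eq_zero fun mm => ?_
  by_cases h : ∑ w, (f w.1 : ℤ) • mm w = M
  · rw [if_pos h]
    by_contra hne
    apply hcon
    refine ⟨mm, ?_, h⟩
    intro w _
    rw [Function.mem_support]
    intro h0
    exact hne (Finset.prod_eq_zero (Finset.mem_univ w) h0)
  · rw [if_neg h]

/-- **The step at a finite place.** -/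
theorem flp488 {Ω ι : Type} [Fintype ι] (W : Finset Ω) (f : Ω → ℕ) (e' : Ω → ℕ) (ev : ℕ)
    (hev : (ev : ℤ) = ∑ w ∈ W, (f w : ℤ) * (e' w : ℤ)) (hpos : 0 < ev)
    (A' : ι → Ω → ℤ × ℤ → ℂ) (hA : ∀ i w, (Function.support (A' i w)).Finite)
    (d : ℤ × ι → ℂ)
    (h : ∀ x : Ω → ℤ × ℤ, HasSum (fun j : ℤ => ∑ i, d (j, i) *
        ∏ w ∈ W, A' i w (x w + j • (((e' w : ℕ) : ℤ), (0 : ℤ)))) 0) (Y : ℤ × ℤ) :
    HasSum (fun j : ℤ => ∑ i, d (j, i) *
        push488 W f (A' i) (Y + j • (((ev : ℕ) : ℤ), (0 : ℤ)))) 0 := by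
  classical
  -- the shift
  have hshift : ∀ (j : ℤ) (i : ι), push488 W f (A' i) (Y + j • (((ev : ℕ) : ℤ), (0 : ℤ)))
      = push488 W f (fun w y => A' i w (y + j • (((e' w : ℕ) : ℤ), (0 : ℤ)))) Y := by
    intro j i
    rw [push_shift488]
    congr 2
    refine Prod.ext ?_ ?_
    · simp only [Prod.smul_fst, Prod.fst_sum, smul_eq_mul]
      rw [hev, Finset.mul_sum]
      refine Finset.sum_congr rfl fun w _ => by ring
    · simp [Prod.snd_sum]
  -- the finite set
  let N : (W → ℤ × ℤ) → ℤ × ℤ := fun mm => ∑ w, (f w.1 : ℤ) • mm w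
  let Bset : Set (W → ℤ × ℤ) := {mm | N mm = Y ∧ ∃ (j : ℤ) (i : ι), ∀ w : W,
      A' i w.1 (mm w + j • (((e' w.1 : ℕ) : ℤ), (0 : ℤ))) ≠ 0}
  have hB : Bset.Finite := by
    have hSig : (⋃ i : ι, Set.pi Set.univ fun w : W => Function.support (A' i w.1)).Finite :=
      Set.finite_iUnion fun i => Set.Finite.pi fun w => hA i w.1
    let jj : (W → ℤ × ℤ) → ℤ := fun s => (∑ w : W, (f w.1 : ℤ) * (s w).1 - Y.1) / (ev : ℤ)
    refine (hSig.image fun s : W → ℤ × ℤ => fun w : W =>
      s w - jj s • (((e' w.1 : ℕ) : ℤ), (0 : ℤ))).subset ?_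
    rintro mm ⟨hN, j, i, hne⟩
    refine ⟨fun w => mm w + j • (((e' w.1 : ℕ) : ℤ), (0 : ℤ)), ?_, ?_⟩
    · rw [Set.mem_iUnion]
      exact ⟨i, fun w _ => hne w⟩
    · have hj : jj (fun w => mm w + j • (((e' w.1 : ℕ) : ℤ), (0 : ℤ))) = j := by
        show (∑ w : W, (f w.1 : ℤ) * (mm w + j • (((e' w.1 : ℕ) : ℤ), (0 : ℤ))).1 - Y.1)
          / (ev : ℤ) = j
        have h1 : ∑ w : W, (f w.1 : ℤ) * (mm w + j • (((e' w.1 : ℕ) : ℤ), (0 : ℤ))).1
            = Y.1 + j * ev := by
          have hN1 : (N mm).1 = Y.1 := by rw [hN]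
          rw [← hN1, hev, ← Finset.sum_coe_sort W, Finset.mul_sum]
          show _ = (∑ w : W, (f w.1 : ℤ) • mm w).1 + _
          rw [Prod.fst_sum, ← Finset.sum_add_distrib]
          refine Finset.sum_congr rfl fun w _ => ?_
          simp only [Prod.fst_add, Prod.smul_fst, smul_eq_mul]
          ring
        rw [h1, add_sub_cancel_left, Int.mul_ediv_cancel _ (by exact_mod_cast hpos.ne')]
      funext w
      show (mm w + j • _) - jj _ • _ = mm w
      rw [hj, add_sub_cancel_right]
  let T : Finset (W → ℤ × ℤ) := hB.toFinset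
  have hfin : ∀ (j : ℤ) (i : ι),
      push488 W f (fun w y => A' i w (y + j • (((e' w : ℕ) : ℤ), (0 : ℤ)))) Y
        = ∑ mm ∈ T, if N mm = Y
            then ∏ w : W, A' i w.1 (mm w + j • (((e' w.1 : ℕ) : ℤ), (0 : ℤ))) else 0 := by
    intro j i
    unfold push488
    refine finsum_eq_sum_of_support_subset _ ?_
    intro mm hmm
    rw [Function.mem_support] at hmm
    rw [Finset.mem_coe, Set.Finite.mem_toFinset]
    by_cases hN : N mm = Y
    · refine ⟨hN, j, i, fun w h0 => hmm ?_⟩
      rw [if_pos hN]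
      exact Finset.prod_eq_zero (Finset.mem_univ w) h0
    · exact absurd (if_neg hN) hmm
  have e : (fun j : ℤ => ∑ i, d (j, i) *
        push488 W f (A' i) (Y + j • (((ev : ℕ) : ℤ), (0 : ℤ))))
      = fun j : ℤ => ∑ mm ∈ T, ∑ i, d (j, i) *
          (if N mm = Y
            then ∏ w : W, A' i w.1 (mm w + j • (((e' w.1 : ℕ) : ℤ), (0 : ℤ))) else 0) := by
    funext j
    rw [Finset.sum_comm]
    refine Finset.sum_congr rfl fun i _ => ?_
    rw [hshift, hfin, Finset.mul_sum]
  rw [e]
  have hsum : HasSum (fun j : ℤ => ∑ mm ∈ T, ∑ i, d (j, i) *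
      (if N mm = Y
        then ∏ w : W, A' i w.1 (mm w + j • (((e' w.1 : ℕ) : ℤ), (0 : ℤ))) else 0))
      (∑ mm ∈ T, (0 : ℂ)) := by
    refine hasSum_sum fun mm _ => ?_
    by_cases hN : N mm = Y
    · have h1 := h (fun w => if hw : w ∈ W then mm ⟨w, hw⟩ else 0)
      have e2 : (fun j : ℤ => ∑ i, d (j, i) *
          (if N mm = Y
            then ∏ w : W, A' i w.1 (mm w + j • (((e' w.1 : ℕ) : ℤ), (0 : ℤ))) else 0))
          = fun j : ℤ => ∑ i, d (j, i) *
            ∏ w ∈ W, A' i w ((fun w => if hw : w ∈ W then mm ⟨w, hw⟩ else 0) w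
              + j • (((e' w : ℕ) : ℤ), (0 : ℤ))) := by
        funext j
        refine Finset.sum_congr rfl fun i _ => ?_
        rw [if_pos hN]
        congr 1
        rw [← Finset.prod_coe_sort W]
        refine Finset.prod_congr rfl fun w _ => ?_
        show A' i w.1 (mm w + _) = A' i w.1 ((if hw : w.1 ∈ W then mm ⟨w.1, hw⟩ else 0) + _)
        rw [dif_pos w.2]
      rw [e2]
      exact h1
    · simp only [if_neg hN, mul_zero, Finset.sum_const_zero]
      exact hasSum_zero
  simpa using hsum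

/-! ## 3. Iterated convolutions on `ℝ²` -/

theorem convR_zero488 (β : ℕ → ℝ × ℝ → ℂ) : B981.convR981 β 0 = β 0 := rfl

theorem convR_succ488 (β : ℕ → ℝ × ℝ → ℂ) (n : ℕ) (X : ℝ × ℝ) :
    B981.convR981 β (n + 1) X = ∫ t : ℝ × ℝ, B981.convR981 β n t * β (n + 1) (X - t) := rfl

theorem convR_eq_convolution488 (β : ℕ → ℝ × ℝ → ℂ) (n : ℕ) :
    B981.convR981 β (n + 1)
      = MeasureTheory.convolution (B981.convR981 β n) (β (n + 1))
          (ContinuousLinearMap.mul ℝ ℂ) MeasureTheory.volume := by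
  funext X
  rfl

theorem convR_reg488 (β : ℕ → ℝ × ℝ → ℂ) (hc : ∀ m, Continuous (β m))
    (hs : ∀ m, HasCompactSupport (β m)) (n : ℕ) :
    Continuous (B981.convR981 β n) ∧ HasCompactSupport (B981.convR981 β n) := by
  induction n with
  | zero => exact ⟨hc 0, hs 0⟩
  | succ n ih =>
    rw [convR_eq_convolution488]
    exact ⟨(hs (n + 1)).continuous_convolution_right _ ih.1.locallyIntegrable (hc (n + 1)),
      ih.2.convolution _ (hs (n + 1))⟩

theorem convR_shift488 (β : ℕ → ℝ × ℝ → ℂ) (s : ℕ → ℝ × ℝ) (n : ℕ) :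
    ∀ Y : ℝ × ℝ, B981.convR981 (fun m y => β m (y + s m)) n Y
      = B981.convR981 β n (Y + ∑ m ∈ Finset.range (n + 1), s m) := by
  induction n with
  | zero =>
    intro Y
    rw [convR_zero488, convR_zero488]
    simp
  | succ n ih =>
    intro Y
    rw [convR_succ488, convR_succ488]
    simp_rw [ih]
    rw [← integral_add_right_eq_self
      (fun t => B981.convR981 β n t *
        β (n + 1) (Y + ∑ m ∈ Finset.range (n + 1 + 1), s m - t))
      (∑ m ∈ Finset.range (n + 1), s m)]
    refine integral_congr_ae (Filter.Eventually.of_forall fun t => ?_)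
    show B981.convR981 β n (t + ∑ m ∈ Finset.range (n + 1), s m) * β (n + 1) (Y - t + s (n + 1))
      = B981.convR981 β n (t + ∑ m ∈ Finset.range (n + 1), s m) *
        β (n + 1) (Y + ∑ m ∈ Finset.range (n + 1 + 1), s m
          - (t + ∑ m ∈ Finset.range (n + 1), s m))
    congr 2
    rw [Finset.sum_range_succ _ (n + 1)]
    abel

/-- **The inner induction**: a relation among the pure tensors of `n + 1` factors gives the
relation among the iterated convolutions. -/
theorem inner488 {κ : Type} (𝒦 : Finset κ) (βs : κ → ℕ → ℝ × ℝ → ℂ)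
    (hc : ∀ k m, Continuous (βs k m)) (hs : ∀ k m, HasCompactSupport (βs k m)) (n : ℕ) :
    ∀ d : κ → ℂ,
      (∀ y : ℕ → ℝ × ℝ, ∑ k ∈ 𝒦, d k * ∏ m ∈ Finset.range (n + 1), βs k m (y m) = 0) →
      ∀ Y : ℝ × ℝ, ∑ k ∈ 𝒦, d k * B981.convR981 (βs k) n Y = 0 := by
  induction n with
  | zero =>
    intro d h Y
    have := h (fun _ => Y)
    simpa [convR_zero488] using this
  | succ n ih =>
    intro d h Y
    have hint : ∀ k, Integrable
        (fun t : ℝ × ℝ => B981.convR981 (βs k) n t * βs k (n + 1) (Y - t)) := by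
      intro k
      have hr := convR_reg488 (βs k) (hc k) (hs k) n
      refine Continuous.integrable_of_hasCompactSupport ?_ ?_
      · exact hr.1.mul ((hc k (n + 1)).comp (continuous_const.sub continuous_id))
      · exact hr.2.mul_right
    have e : ∑ k ∈ 𝒦, d k * B981.convR981 (βs k) (n + 1) Y
        = ∫ t : ℝ × ℝ, ∑ k ∈ 𝒦,
            d k * (B981.convR981 (βs k) n t * βs k (n + 1) (Y - t)) := by
      rw [integral_finsetSum _ (fun k _ => (hint k).const_mul (d k))]
      refine Finset.sum_congr rfl fun k _ => ?_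
      rw [integral_const_mul, convR_succ488]
    rw [e]
    have z : ∀ t : ℝ × ℝ, ∑ k ∈ 𝒦,
        d k * (B981.convR981 (βs k) n t * βs k (n + 1) (Y - t)) = 0 := by
      intro t
      have h2 := ih (fun k => d k * βs k (n + 1) (Y - t)) ?_ t
      · rw [← h2]
        exact Finset.sum_congr rfl fun k _ => by ring
      · intro y
        have h3 := h (fun m => if m = n + 1 then Y - t else y m)
        rw [← h3]
        refine Finset.sum_congr rfl fun k _ => ?_
        rw [Finset.prod_range_succ _ (n + 1)]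
        have h4 : ∏ m ∈ Finset.range (n + 1), βs k m (if m = n + 1 then Y - t else y m)
            = ∏ m ∈ Finset.range (n + 1), βs k m (y m) :=
          Finset.prod_congr rfl fun m hm => by
            rw [if_neg (by have := Finset.mem_range.1 hm; omega)]
        rw [h4, if_pos rfl]
        ring
    simp [z]

/-- **The step at an infinite place.** -/
theorem ilp488 {κ Ω₂ : Type} [DecidableEq Ω₂] (𝒦 : Finset κ) (Wv : Finset Ω₂) (ℓ : ℕ)
    (hℓ : 0 < ℓ) (wen : ℕ → Ω₂)
    (hinj : ∀ j j' : ℕ, j < ℓ → j' < ℓ → wen j = wen j' → j = j')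
    (hW : Wv = (Finset.range ℓ).image wen)
    (b : κ → Ω₂ → ℝ × ℝ → ℂ) (hc : ∀ k w, Continuous (b k w))
    (hs : ∀ k w, HasCompactSupport (b k w)) (d : κ → ℂ)
    (h : ∀ x : Ω₂ → ℝ × ℝ, ∑ k ∈ 𝒦, d k * ∏ w ∈ Wv, b k w (x w) = 0) (Y : ℝ × ℝ) :
    ∑ k ∈ 𝒦, d k * B981.convR981 (fun j => b k (wen j)) (ℓ - 1) Y = 0 := by
  classical
  refine inner488 𝒦 (fun k j => b k (wen j)) (fun k m => hc k _) (fun k m => hs k _) (ℓ - 1) d
    ?_ Y
  intro y
  have hℓ' : ℓ - 1 + 1 = ℓ := by omega
  rw [hℓ']
  have h1 := h (fun w => if hw : ∃ j, j < ℓ ∧ wen j = w then y (Classical.choose hw) else 0)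
  rw [← h1]
  refine Finset.sum_congr rfl fun k _ => ?_
  congr 1
  rw [hW, Finset.prod_image]
  · refine Finset.prod_congr rfl fun m hm => ?_
    have hm' := Finset.mem_range.1 hm
    have hex : ∃ j, j < ℓ ∧ wen j = wen m := ⟨m, hm', rfl⟩
    show b k (wen m) (y m) = b k (wen m)
      (if hw : ∃ j, j < ℓ ∧ wen j = wen m then y (Classical.choose hw) else 0)
    rw [dif_pos hex]
    have := Classical.choose_spec hex
    rw [hinj _ _ this.1 hm' this.2]
  · intro a ha a' ha' haa
    exact hinj a a' (Finset.mem_range.1 ha) (Finset.mem_range.1 ha') haa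

end Fermat.Agent.LT.T7.H488.PT

end

end
-- ===== PACK-END LT/T7/H488/PushTelCore.lean

-- ===== PACK-BEGIN LT/T7/H488/PushTel.lean
section




/-!
# Row LT, tower T7, leaf D.5 `B981.PushTelC981` (fourth cut of helper981, `PairDatSpec.lean`)
# PROVED (helper488, OFF-MAIN, never land)

    pushTelC981_488 K K' : B981.PushTelC981 K K'        (VERBATIM, unconditional)

Proof.  Index set `ℤ × Fin N`, the data shifted by `j`.  `PT.gen488` (induction over the places
downstairs) with the steps `PT.flp488` (finite places: sums over the fibre, the joint support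
in `(j, mm)` is finite because `e v > 0`) and `PT.ilp488` (infinite places: iterated
convolutions, integrals of finite sums; the sum over `j` is finite after the finite places:
`P ≠ ∅`).  No residue degree is computed: the statement is formal in `resDeg981`.
-/

set_option autoImplicit false
set_option linter.unusedSectionVars false
set_option linter.unusedVariables false

open IsDedekindDomain NumberField MeasureTheory

noncomputable section

namespace Fermat.Agent.LT.T7.H488.PT

open Fermat.Agent.LT.T7 Fermat.Agent.LT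

variable {K K' : Type} [Field K] [NumberField K] [Field K'] [NumberField K'] [Algebra K K']

/-! ## 1. Bridges to the definitions of the spec -/

theorem pushFin_eq488 (P' : Finset (HeightOneSpectrum (𝓞 K')))
    (A' : HeightOneSpectrum (𝓞 K') → ℤ × ℤ → ℂ) (v : HeightOneSpectrum (𝓞 K)) (M : ℤ × ℤ) :
    B981.pushFin981 (K := K) P' A' v M
      = push488 (B981.fib981 (K := K) P' v) (B981.resDeg981 v) A' M := rfl

theorem mem_fib488 (P' : Finset (HeightOneSpectrum (𝓞 K')))
    (v : HeightOneSpectrum (𝓞 K)) (w : HeightOneSpectrum (𝓞 K')) :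
    w ∈ B981.fib981 (K := K) P' v ↔ w ∈ P' ∧ PlaceOver K K' v w := by
  classical
  exact Finset.mem_filter

theorem pureCoordM_shift488 (P : Finset (HeightOneSpectrum (𝓞 K)))
    (A : HeightOneSpectrum (𝓞 K) → ℤ × ℤ → ℂ) (β : InfinitePlace K → ℝ × ℝ → ℂ)
    (e : HeightOneSpectrum (𝓞 K) → ℕ) (α : Kˣ) (Δ : T3.M.CoordM K P) (j : ℤ) :
    T3.M.pureCoordM K P A β (Δ + j • T3.M.coordTorM K P e α)
      = (∏ v : P, A v.1 (Δ.1 v + j • (((e v.1 : ℕ) : ℤ), (0 : ℤ)))) *
        ∏ w : InfinitePlace K, β w (Δ.2 w + j • (Real.log (w (α : K)), (0 : ℝ))) := rfl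

/-! ## 2. The places -/

theorem placeOver_unique488b {v v' : HeightOneSpectrum (𝓞 K)} {w : HeightOneSpectrum (𝓞 K')}
    (h : PlaceOver K K' v w) (h' : PlaceOver K K' v' w) : v = v' := by
  refine HeightOneSpectrum.ext (Ideal.ext fun x => ?_)
  have e : ((algebraMap (𝓞 K) (𝓞 K') x : 𝓞 K') : K') = algebraMap K K' (x : K) := rfl
  rw [h x _ e, h' x _ e]

theorem exists_placeOver488b (w : HeightOneSpectrum (𝓞 K')) :
    ∃ v : HeightOneSpectrum (𝓞 K), PlaceOver K K' v w := by
  refine ⟨w.under (𝓞 K), fun x y hxy => ?_⟩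
  have hy : y = algebraMap (𝓞 K) (𝓞 K') x := RingOfIntegers.ext hxy
  subst hy
  rfl

/-- The place of `K` under a finite place of `K'`. -/
def belowF488 (w : HeightOneSpectrum (𝓞 K')) : HeightOneSpectrum (𝓞 K) :=
  Classical.choose (exists_placeOver488b (K := K) w)

theorem belowF_spec488 (w : HeightOneSpectrum (𝓞 K')) :
    PlaceOver K K' (belowF488 (K := K) w) w :=
  Classical.choose_spec (exists_placeOver488b (K := K) w)

theorem belowF_eq_iff488 (v : HeightOneSpectrum (𝓞 K)) (w : HeightOneSpectrum (𝓞 K')) :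
    belowF488 (K := K) w = v ↔ PlaceOver K K' v w :=
  ⟨fun h => h ▸ belowF_spec488 w, fun h => placeOver_unique488b (belowF_spec488 w) h⟩

open scoped Classical in
/-- The number of places of `K'` over a place of `K` (`K` totally complex, `K'/K` Galois). -/
theorem card_fibre488 [IsGalois K K'] (hK : TotCplx K) (v : InfinitePlace K) :
    (Finset.univ.filter fun u : InfinitePlace K' => u.comap (algebraMap K K') = v).card
      = Module.finrank K K' := by
  obtain ⟨u₀, hu₀'⟩ := InfinitePlace.comap_surjective (k := K) (K := K') v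
  have hu₀ : u₀.comap (algebraMap K K') = v := hu₀'
  have hset : ((Finset.univ.filter fun u : InfinitePlace K' => u.comap (algebraMap K K') = v :
      Finset (InfinitePlace K')) : Set (InfinitePlace K')) = MulAction.orbit Gal(K'/K) u₀ := by
    ext u
    rw [Finset.coe_filter, InfinitePlace.mem_orbit_iff]
    simp only [Finset.mem_univ, true_and, Set.mem_ofPred_eq]
    rw [hu₀]
    exact eq_comm
  have hunr : InfinitePlace.IsUnramified K u₀ := by
    rw [InfinitePlace.isUnramified_iff]
    exact Or.inr (hK _)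
  have hstab : MulAction.stabilizer Gal(K'/K) u₀ = ⊥ := hunr.stabilizer_eq_bot
  have hidx := MulAction.index_stabilizer Gal(K'/K) u₀
  rw [hstab, Subgroup.index_bot, IsGalois.card_aut_eq_finrank] at hidx
  rw [hidx, ← hset, Set.ncard_coe_finset]

open scoped Classical in
/-- An enumeration of the places over an infinite place. -/
theorem exists_enum488 (ℓ : ℕ) (hc : IsCycExt K K' ℓ) (hK : TotCplx K) (v : InfinitePlace K) :
    ∃ wen : ℕ → InfinitePlace K', B981.IsEnum981 ℓ v wen ∧
      (Finset.univ.filter fun u : InfinitePlace K' => u.comap (algebraMap K K') = v)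
        = (Finset.range ℓ).image wen := by
  have hgal : IsGalois K K' := hc.galois
  have hcard := card_fibre488 (K' := K') hK v
  rw [hc.degree] at hcard
  set Fib : Finset (InfinitePlace K') :=
    Finset.univ.filter fun u : InfinitePlace K' => u.comap (algebraMap K K') = v with hFib
  obtain ⟨u₀, hu₀'⟩ := InfinitePlace.comap_surjective (k := K) (K := K') v
  have hu₀ : u₀.comap (algebraMap K K') = v := hu₀'
  let eqv : Fib ≃ Fin ℓ := Fib.equivFinOfCardEq hcard
  let wen : ℕ → InfinitePlace K' := fun j => if h : j < ℓ then (eqv.symm ⟨j, h⟩).1 else u₀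
  have hmem : ∀ j, wen j ∈ Fib := by
    intro j
    by_cases h : j < ℓ
    · simp only [wen, dif_pos h]
      exact (eqv.symm ⟨j, h⟩).2
    · simp only [wen, dif_neg h]
      exact Finset.mem_filter.2 ⟨Finset.mem_univ _, hu₀⟩
  have hinj : ∀ j j' : ℕ, j < ℓ → j' < ℓ → wen j = wen j' → j = j' := by
    intro j j' hj hj' h
    simp only [wen, dif_pos hj, dif_pos hj'] at h
    have := eqv.symm.injective (Subtype.ext h)
    exact congrArg Fin.val this
  refine ⟨wen, ⟨fun j => (Finset.mem_filter.1 (hmem j)).2, hinj⟩, ?_⟩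
  symm
  apply Finset.eq_of_subset_of_card_le
  · intro u hu
    obtain ⟨a, _, rfl⟩ := Finset.mem_image.1 hu
    exact hmem a
  · rw [hcard, Finset.card_image_of_injOn, Finset.card_range]
    intro a ha b hb hab
    exact hinj a b (Finset.mem_range.1 ha) (Finset.mem_range.1 hb) hab

/-! ## 3. The leaf -/

theorem shift_reg488 (β : ℝ × ℝ → ℂ) (hβ : T3.AS.IsSymBump β) (c : ℝ × ℝ) :
    Continuous (fun y => β (y + c)) ∧ HasCompactSupport (fun y => β (y + c)) := by
  refine ⟨hβ.1.continuous.comp (continuous_id.add continuous_const), ?_⟩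
  exact hβ.2.1.comp_homeomorph (Homeomorph.addRight c)

/-- **LEAF D.5 = PUSH-TEL, PROVED.** -/
theorem pushTelC981_488 (K K' : Type) [Field K] [NumberField K] [Field K'] [NumberField K']
    [Algebra K K'] : B981.PushTelC981 K K' := by
  classical
  intro ℓ hcyc hℓ2 hK P' P e' e α' α hP hne hepos he hL cμ N A' β' A β hA' hβ' hA hβ hup Δ
  have hℓpos : 0 < ℓ := hcyc.prime.pos
  -- the places under `P'`
  have hbelow : ∀ w ∈ P', belowF488 (K := K) w ∈ P := fun w hw =>
    (hP _).2 ⟨w, hw, belowF_spec488 w⟩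
  have hfib : ∀ v : HeightOneSpectrum (𝓞 K),
      P'.filter (fun w => belowF488 (K := K) w = v) = B981.fib981 (K := K) P' v := by
    intro v
    ext w
    rw [Finset.mem_filter, mem_fib488, belowF_eq_iff488]
  -- Step B: the finite places
  have hB : ∀ (x₂ : InfinitePlace K' → ℝ × ℝ) (X : HeightOneSpectrum (𝓞 K) → ℤ × ℤ),
      HasSum (fun j : ℤ => ∑ i : Fin N,
        (∏ w : InfinitePlace K',
          β' i w (x₂ w + j • (Real.log (w (α' : K')), (0 : ℝ)))) *
        ∏ v ∈ P, A i v (X v + j • (((e v : ℕ) : ℤ), (0 : ℤ)))) 0 := by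
    intro x₂
    refine gen488 (κ := ℤ × Fin N) (fun g => HasSum (fun j : ℤ => ∑ i : Fin N, g (j, i)) 0)
      (belowF488 (K := K)) P' P
      (fun k w y => A' k.2 w (y + k.1 • (((e' w : ℕ) : ℤ), (0 : ℤ))))
      (fun k v Y => A k.2 v (Y + k.1 • (((e v : ℕ) : ℤ), (0 : ℤ)))) hbelow ?_
      (fun k => ∏ w : InfinitePlace K',
          β' k.2 w (x₂ w + k.1 • (Real.log (w (α' : K')), (0 : ℝ)))) ?_
    · -- the step at a finite place
      intro v hv d hd Y
      have hd' : ∀ x : HeightOneSpectrum (𝓞 K') → ℤ × ℤ,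
          HasSum (fun j : ℤ => ∑ i : Fin N, d (j, i) *
            ∏ w ∈ P'.filter (fun w => belowF488 (K := K) w = v),
              A' i w (x w + j • (((e' w : ℕ) : ℤ), (0 : ℤ)))) 0 := hd
      have hev : ((e v : ℕ) : ℤ) = ∑ w ∈ P'.filter (fun w => belowF488 (K := K) w = v),
          (B981.resDeg981 v w : ℤ) * (e' w : ℤ) := by
        rw [hfib v, he v hv, Nat.cast_sum]
        exact Finset.sum_congr rfl fun w _ => Nat.cast_mul _ _
      have h1 := flp488 (P'.filter (fun w => belowF488 (K := K) w = v)) (B981.resDeg981 v) e'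
        (e v) hev (hepos v hv) A' (fun i w => (hA' i w).1) d hd' Y
      have e1 : (fun j : ℤ => ∑ i : Fin N, d (j, i) *
          push488 (P'.filter (fun w => belowF488 (K := K) w = v)) (B981.resDeg981 v) (A' i)
            (Y + j • (((e v : ℕ) : ℤ), (0 : ℤ))))
          = fun j : ℤ => ∑ i : Fin N, d (j, i) * A i v (Y + j • (((e v : ℕ) : ℤ), (0 : ℤ))) := by
        funext j
        refine Finset.sum_congr rfl fun i _ => ?_
        rw [hA i v hv, pushFin_eq488, hfib v]
      rw [e1] at h1
      exact h1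
    · -- the relation upstairs
      intro x
      have h1 := hup (fun w : P' => x w.1, x₂)
      have e1 : (fun j : ℤ => ∑ i : Fin N, T3.M.pureCoordM K' P' (A' i) (β' i)
            ((fun w : P' => x w.1, x₂) + j • T3.M.coordTorM K' P' e' α'))
          = fun j : ℤ => ∑ i : Fin N,
            (∏ w : InfinitePlace K',
              β' i w (x₂ w + j • (Real.log (w (α' : K')), (0 : ℝ)))) *
            ∏ w ∈ P', A' i w (x w + j • (((e' w : ℕ) : ℤ), (0 : ℤ))) := by
        funext j
        refine Finset.sum_congr rfl fun i _ => ?_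
        rw [pureCoordM_shift488, mul_comm]
        congr 1
        exact Finset.prod_coe_sort P' (fun w => A' i w (x w + j • (((e' w : ℕ) : ℤ), (0 : ℤ))))
      rw [e1] at h1
      exact h1
  -- the point downstairs
  let X : HeightOneSpectrum (𝓞 K) → ℤ × ℤ := fun v => if h : v ∈ P then Δ.1 ⟨v, h⟩ else 0
  obtain ⟨v₀, hv₀⟩ := hne
  -- finitely many `j`
  have hJ : {j : ℤ | ∃ i : Fin N,
      A i v₀ (X v₀ + j • (((e v₀ : ℕ) : ℤ), (0 : ℤ))) ≠ 0}.Finite := by
    have hsupp : ∀ i : Fin N, (Function.support (A i v₀)).Finite := by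
      intro i
      rw [hA i v₀ hv₀]
      exact push_support_finite488 (B981.fib981 (K := K) P' v₀) (B981.resDeg981 v₀) (A' i)
        (fun w => (hA' i w).1)
    have hinj : Function.Injective
        (fun j : ℤ => X v₀ + j • (((e v₀ : ℕ) : ℤ), (0 : ℤ))) := by
      intro j j' h
      have h1 := congrArg Prod.fst (add_left_cancel h)
      simp only [Prod.smul_fst, smul_eq_mul] at h1
      exact mul_right_cancel₀ (by exact_mod_cast (hepos v₀ hv₀).ne') h1
    have hset : {j : ℤ | ∃ i : Fin N,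
        A i v₀ (X v₀ + j • (((e v₀ : ℕ) : ℤ), (0 : ℤ))) ≠ 0}
        = ⋃ i : Fin N, (fun j : ℤ => X v₀ + j • (((e v₀ : ℕ) : ℤ), (0 : ℤ))) ⁻¹'
            (Function.support (A i v₀)) := by
      ext j
      simp
    rw [hset]
    exact Set.finite_iUnion fun i => (hsupp i).preimage hinj.injOn
  let J₁ : Finset ℤ := hJ.toFinset
  have hvan : ∀ j : ℤ, j ∉ J₁ → ∀ i : Fin N,
      ∏ v ∈ P, A i v (X v + j • (((e v : ℕ) : ℤ), (0 : ℤ))) = 0 := by
    intro j hj i
    refine Finset.prod_eq_zero hv₀ ?_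
    by_contra h
    exact hj (hJ.mem_toFinset.2 ⟨i, h⟩)
  -- Step C: a finite sum
  have hC : ∀ x₂ : InfinitePlace K' → ℝ × ℝ,
      ∑ k ∈ J₁ ×ˢ (Finset.univ : Finset (Fin N)),
        (∏ v ∈ P, A k.2 v (X v + k.1 • (((e v : ℕ) : ℤ), (0 : ℤ)))) *
        ∏ w ∈ (Finset.univ : Finset (InfinitePlace K')),
          β' k.2 w (x₂ w + k.1 • (Real.log (w (α' : K')), (0 : ℝ))) = 0 := by
    intro x₂
    have h1 := hB x₂ X
    have h2 : HasSum (fun j : ℤ => ∑ i : Fin N,
        (∏ w : InfinitePlace K',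
          β' i w (x₂ w + j • (Real.log (w (α' : K')), (0 : ℝ)))) *
        ∏ v ∈ P, A i v (X v + j • (((e v : ℕ) : ℤ), (0 : ℤ))))
        (∑ j ∈ J₁, ∑ i : Fin N,
        (∏ w : InfinitePlace K',
          β' i w (x₂ w + j • (Real.log (w (α' : K')), (0 : ℝ)))) *
        ∏ v ∈ P, A i v (X v + j • (((e v : ℕ) : ℤ), (0 : ℤ)))) :=
      hasSum_sum_of_ne_finset_zero
        (fun j hj => Finset.sum_eq_zero fun i _ => by rw [hvan j hj i, mul_zero])
    have h3 := h2.unique h1
    rw [Finset.sum_product, ← h3]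
    refine Finset.sum_congr rfl fun j _ => Finset.sum_congr rfl fun i _ => ?_
    exact mul_comm _ _
  -- Step D: the infinite places
  have hD : ∀ X₂ : InfinitePlace K → ℝ × ℝ,
      ∑ k ∈ J₁ ×ˢ (Finset.univ : Finset (Fin N)),
        (∏ v ∈ P, A k.2 v (X v + k.1 • (((e v : ℕ) : ℤ), (0 : ℤ)))) *
        ∏ v ∈ (Finset.univ : Finset (InfinitePlace K)),
          β k.2 v (X₂ v + k.1 • (Real.log (v (α : K)), (0 : ℝ))) = 0 := by
    refine gen488 (κ := ℤ × Fin N)
      (fun g => ∑ k ∈ J₁ ×ˢ (Finset.univ : Finset (Fin N)), g k = 0)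
      (fun w : InfinitePlace K' => w.comap (algebraMap K K')) Finset.univ Finset.univ
      (fun k w y => β' k.2 w (y + k.1 • (Real.log (w (α' : K')), (0 : ℝ))))
      (fun k v Y => β k.2 v (Y + k.1 • (Real.log (v (α : K)), (0 : ℝ))))
      (fun _ _ => Finset.mem_univ _) ?_
      (fun k => ∏ v ∈ P, A k.2 v (X v + k.1 • (((e v : ℕ) : ℤ), (0 : ℤ)))) hC
    intro v _ d hd Y
    obtain ⟨wen, hen, hfibv⟩ := exists_enum488 ℓ hcyc hK v
    have hLv := hL v wen hen
    have hd' : ∀ x : InfinitePlace K' → ℝ × ℝ,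
        ∑ k ∈ J₁ ×ˢ (Finset.univ : Finset (Fin N)), (d k * cμ ^ (ℓ - 1)) *
          ∏ w ∈ Finset.univ.filter
              (fun w : InfinitePlace K' => w.comap (algebraMap K K') = v),
            β' k.2 w (x w + k.1 • (Real.log (w (α' : K')), (0 : ℝ))) = 0 := by
      intro x
      have h1 : ∑ k ∈ J₁ ×ˢ (Finset.univ : Finset (Fin N)), d k *
          ∏ w ∈ Finset.univ.filter
              (fun w : InfinitePlace K' => w.comap (algebraMap K K') = v),
            β' k.2 w (x w + k.1 • (Real.log (w (α' : K')), (0 : ℝ))) = 0 := hd x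
      calc _ = cμ ^ (ℓ - 1) * ∑ k ∈ J₁ ×ˢ (Finset.univ : Finset (Fin N)), d k *
              ∏ w ∈ Finset.univ.filter
                  (fun w : InfinitePlace K' => w.comap (algebraMap K K') = v),
                β' k.2 w (x w + k.1 • (Real.log (w (α' : K')), (0 : ℝ))) := by
            rw [Finset.mul_sum]
            exact Finset.sum_congr rfl fun k _ => by ring
        _ = 0 := by rw [h1, mul_zero]
    have key := ilp488 (J₁ ×ˢ (Finset.univ : Finset (Fin N))) _ ℓ hℓpos wen hen.2 hfibv
      (fun k w y => β' k.2 w (y + k.1 • (Real.log (w (α' : K')), (0 : ℝ))))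
      (fun k w => (shift_reg488 _ (hβ' k.2 w) _).1)
      (fun k w => (shift_reg488 _ (hβ' k.2 w) _).2)
      (fun k => d k * cμ ^ (ℓ - 1)) hd' Y
    show ∑ k ∈ J₁ ×ˢ (Finset.univ : Finset (Fin N)),
      d k * β k.2 v (Y + k.1 • (Real.log (v (α : K)), (0 : ℝ))) = 0
    rw [← key]
    refine Finset.sum_congr rfl fun k _ => ?_
    rw [hβ k.2 v wen hen]
    show d k * (cμ ^ (ℓ - 1) * B981.convR981 (fun j => β' k.2 (wen j)) (ℓ - 1)
        (Y + k.1 • (Real.log (v (α : K)), (0 : ℝ))))
      = d k * cμ ^ (ℓ - 1) * B981.convR981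
        (fun j y => β' k.2 (wen j) (y + k.1 • (Real.log ((wen j) (α' : K')), (0 : ℝ))))
        (ℓ - 1) Y
    rw [convR_shift488 (fun j => β' k.2 (wen j))
      (fun j => k.1 • (Real.log ((wen j) (α' : K')), (0 : ℝ))) (ℓ - 1) Y]
    have hsum : ∑ m ∈ Finset.range (ℓ - 1 + 1),
        k.1 • (Real.log ((wen m) (α' : K')), (0 : ℝ))
        = k.1 • (Real.log (v (α : K)), (0 : ℝ)) := by
      rw [show ℓ - 1 + 1 = ℓ by omega, ← Finset.smul_sum, hLv]
      congr 1
      refine Prod.ext ?_ ?_
      · simp [Prod.fst_sum]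
      · simp [Prod.snd_sum]
    rw [hsum, mul_assoc]
  -- Step E: the conclusion
  have hE := hD (fun v => Δ.2 v)
  have e1 : (fun j : ℤ => ∑ i : Fin N,
        T3.M.pureCoordM K P (A i) (β i) (Δ + j • T3.M.coordTorM K P e α))
      = fun j : ℤ => ∑ i : Fin N,
          (∏ v ∈ P, A i v (X v + j • (((e v : ℕ) : ℤ), (0 : ℤ)))) *
          ∏ v ∈ (Finset.univ : Finset (InfinitePlace K)),
            β i v (Δ.2 v + j • (Real.log (v (α : K)), (0 : ℝ))) := by
    funext j
    refine Finset.sum_congr rfl fun i _ => ?_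
    rw [pureCoordM_shift488]
    congr 1
    rw [← Finset.prod_coe_sort P]
    refine Finset.prod_congr rfl fun v _ => ?_
    show A i v.1 (Δ.1 v + _) = A i v.1 ((if h : v.1 ∈ P then Δ.1 ⟨v.1, h⟩ else 0) + _)
    rw [dif_pos v.2]
  rw [e1]
  have h2 : HasSum (fun j : ℤ => ∑ i : Fin N,
      (∏ v ∈ P, A i v (X v + j • (((e v : ℕ) : ℤ), (0 : ℤ)))) *
      ∏ v ∈ (Finset.univ : Finset (InfinitePlace K)),
        β i v (Δ.2 v + j • (Real.log (v (α : K)), (0 : ℝ))))
      (∑ j ∈ J₁, ∑ i : Fin N,
      (∏ v ∈ P, A i v (X v + j • (((e v : ℕ) : ℤ), (0 : ℤ)))) *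
      ∏ v ∈ (Finset.univ : Finset (InfinitePlace K)),
        β i v (Δ.2 v + j • (Real.log (v (α : K)), (0 : ℝ)))) :=
    hasSum_sum_of_ne_finset_zero
      (fun j hj => Finset.sum_eq_zero fun i _ => by rw [hvan j hj i, zero_mul])
  have h3 : ∑ j ∈ J₁, ∑ i : Fin N,
      (∏ v ∈ P, A i v (X v + j • (((e v : ℕ) : ℤ), (0 : ℤ)))) *
      ∏ v ∈ (Finset.univ : Finset (InfinitePlace K)),
        β i v (Δ.2 v + j • (Real.log (v (α : K)), (0 : ℝ))) = 0 := by
    rw [← hE, Finset.sum_product]
  rw [h3] at h2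
  exact h2

end Fermat.Agent.LT.T7.H488.PT

end

end
-- ===== PACK-END LT/T7/H488/PushTel.lean

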