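import Mathlib
import Fermat.Agent.Pack.LT4.E9L2
import Fermat.Agent.Pack.LT4.E6L2
import Fermat.Agent.Pack.LT4.E9L0
import Fermat.Agent.Pack.LT3.E29L3
import Fermat.Agent.Pack.LT4.E5L2
import Fermat.Agent.Pack.LT4.E8L2
import Fermat.Agent.Pack.LT4.E7L2
import Fermat.Agent.Pack.LT4.E9L1
import Fermat.Agent.Pack.LT4.E9L3
import Fermat.Agent.Pack.LT3.E25L1
import Fermat.Agent.Pack.LT3.E22L0
import Fermat.Agent.Pack.LT3.E22L2
import Fermat.Agent.Pack.LT4.E0L0
import Fermat.Agent.Pack.LT4.E8L3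

set_option linter.all false

-- ===== PACK-BEGIN LT/T7/H893/SupplyClosed11.lean
section




/-!
# Row LT, tower T7, node T7.L2.1 `SupplySC` (sub-architect helper893): INTEGRATION v11

OFF-MAIN.  No `sorry`, nothing assumed.  ADDITIVE.  Integration v10 with the SECOND CUT of the
un-averaged second pair `PB57.PreBC57` by helper57 (`PB57.preBC_of57`: THE SWAP; byte-identical
copies of `T7/H57/PreBSpec.lean`, `T7/H57/PreBTop.lean`): the second pair is the first pair with
the components at the places of the level swapped, so the node `PreBC57` follows from the node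
PAIR-A, the partner family `BadPartC57` (T6) and the thirteen swap leaves `OpenSwap57`.

    supplySC_of_open893m : OpenSupply893m P K K' → T7.SupplySC P K K'     (route (i))
    supplySC_of_open893n : OpenSupply893n P K K' → T7.SupplySC P K K'     (route (ii))

OPEN WALL (route (ii)): `T6.T6Out` (closed on the master), `Q797.PairAC797 P K K' LocA893`,
`PB57.BadPartC57 K K'`, `PB57.OpenSwap57 K K'`, `ProdShapeC893 K K'`.
-/

set_option autoImplicit false

open AutomorphicForm IsDedekindDomain NumberField MeasureTheory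
open scoped ComplexConjugate

noncomputable section

namespace Fermat.Agent.LT.T7.H893

open Fermat.Agent.LT Fermat.Agent.LT.H556 Fermat.Agent.LT.H556.A0 Fermat.Agent.LT.T7

attribute [local instance] Fermat.Agent.LT.T5.instMeasurableSpaceG

/-- A Haar measure on `GL₂(ℂ)` (Borel) exists. -/
theorem exists_haarC893 :
    ∃ μc : @Measure (GL (Fin 2) ℂ) (borel _), @Measure.IsHaarMeasure _ _ _ (borel _) μc := by
  letI : MeasurableSpace (GL (Fin 2) ℂ) := borel _
  haveI : BorelSpace (GL (Fin 2) ℂ) := ⟨rfl⟩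
  haveI : LocallyCompactSpace (GL (Fin 2) ℂ) := H561.locallyCompact_GL2C561
  exact ⟨MeasureTheory.Measure.haar, inferInstance⟩

section Closed

variable (P : EKCond)
variable (K K' : Type) [Field K] [NumberField K] [Field K'] [NumberField K'] [Algebra K K']

/-- The open wall of the base node (common to both routes), integration v11: the output of the
tower T6 (closed on the master), the first pair, the partner family and the swap leaves. -/
structure OpenCore893m : Prop where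
  t6 : T6.T6Out
  pairA : Q797.PairAC797 P K K' LocA893
  badPart : PB57.BadPartC57 K K'
  swap : PB57.OpenSwap57 K K'

/-- **THE OPEN WALL of `SupplySC`** (integration v11, route (i): the cut of helper51 for
`ProdMtCb`). -/
structure OpenSupply893m : Prop extends OpenCore893m P K K' where
  opAvg : P51.OpAvgC51 K K'
  regA : P51.RegAC51 K K'
  regOp : P51.RegOpC51 K K'
  regSph : P51.RegSphC51 K K'
  inertSph : P51.InertSphC51 K K'
  splitOrb : P51.SplitOrbC51 K K'
  splitSph : P51.SplitSphC51 K K'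

/-- **THE OPEN WALL of `SupplySC`** (integration v11, route (ii): the sixth cut of helper893 for
`ProdMtCb`). -/
structure OpenSupply893n : Prop extends OpenCore893m P K K' where
  prodShape : ProdShapeC893 K K'

variable {P K K'}

/-- The open core of v10 from the open core of v11 (the swap of helper57). -/
theorem openCore893k_of_core893m (h : OpenCore893m P K K') : OpenCore893k P K K' :=
  { t6 := h.t6
    pairA := h.pairA
    preB := PB57.preBC_of57 P K K' exists_haarC893 h.pairA h.badPart h.swap }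

/-- **THE STABLE SUPPLY from the open wall (v11, route (i)).** -/
theorem supplySC_of_open893m (h : OpenSupply893m P K K') : SupplySC P K K' :=
  supplySC_of_open893k
    { toOpenCore893k := openCore893k_of_core893m h.toOpenCore893m
      opAvg := h.opAvg
      regA := h.regA
      regOp := h.regOp
      regSph := h.regSph
      inertSph := h.inertSph
      splitOrb := h.splitOrb
      splitSph := h.splitSph }

/-- **THE STABLE SUPPLY from the open wall (v11, route (ii)).** -/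
theorem supplySC_of_open893n (h : OpenSupply893n P K K') : SupplySC P K K' :=
  supplySC_of_open893l
    { toOpenCore893k := openCore893k_of_core893m h.toOpenCore893m
      prodShape := h.prodShape }

end Closed

end Fermat.Agent.LT.T7.H893

end

end
-- ===== PACK-END LT/T7/H893/SupplyClosed11.lean

-- ===== PACK-BEGIN LT/T7/H563/ProdMtQClosed.lean
section













/-!
# Row LT, tower T7, node T7.L2Q.1.H2b `CQ801.ProdMtQC801` (row 2683, helper563): INTEGRATION

OFF-MAIN.  No hole, nothing assumed.  ADDITIVE.  The closed leaves of the three cuts are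
plugged (byte-identical copies of the files of their provers):

* `H893.LevelUniqC893` : helper301 (`T7/H301/LevelUniq.lean`);
* `H893.LevelAtC893 ℚ F` : helper627 (`T7/H627/LevelLeaves.lean`);
* `UnramQC563 F` : helper570 (`T7/H570/UnramQ.lean`);
* `SphHypQC563 F` : the cut of helper60 (`T7/H60/SphHypQTop.lean`), `SphInertQC60` (helper60),
  `H893.SphInvC893` (helper315);
* `P51.ConvFamC51 F` : helper724 (`T7/H724/ConvFam.lean`);
* `P51.LocConvExC51`, `P51.UnitConvC51`, `P51.UnitRegC51`, `P51.OverFinC51 ℚ F`,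
  `P51.BelowUniqC51 ℚ F`, `P51.BelowExC51 ℚ F` : helper644 (`T7/H644/ConvSmall.lean`);
* `RegOrbQC563 F` : helper409 (`T7/H409/RegOrbQ.lean`);
* `ArchProdQC563 F` : helper100 (`T7/H100/ArchProdQ.lean`, on `T3.H830.archProdN830`).

    prodMtQC801_of_open563 : T6.T6Out → H60.SphSplitQC60 F → OpAvgQC563 F → ConvFamQC563
        → TestSmulQC563 → RegAQC563 F → RegOpQC563 F → SplitOrbQC563 F → SphProdQC563 F
        → ∀ κ nowhere zero, CQ801.ProdMtQC801 F κ                             (VERBATIM)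
-/

set_option autoImplicit false

open AutomorphicForm IsDedekindDomain NumberField MeasureTheory
open scoped ComplexConjugate

noncomputable section

namespace Fermat.Agent.LT.T7.PQ563

open Fermat.Agent.LT.H556 Fermat.Agent.LT.H556.A0 Fermat.Agent.LT.T7 Fermat.Agent.LT.T7.H305
  Fermat.Agent.LT.T7.L2Q Fermat.Agent.LT.T7.H893 Fermat.Agent.LT.T7.H962
  Fermat.Agent.LT.T7.H732 Fermat.Agent.LT.T7.MQ298 Fermat.Agent.LT.T7.CQ801

attribute [local instance] Fermat.Agent.LT.T5.instMeasurableSpaceG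

variable {F : Type} [Field F] [NumberField F]

/-- **THE NODE `CQ801.ProdMtQC801` from its OPEN leaves** (the closed leaves are plugged). -/
theorem prodMtQC801_of_open563 (ht6 : T6.T6Out) (hSplit : T7.H60.SphSplitQC60 F)
    (hOp : OpAvgQC563 F) (hFamD : ConvFamQC563) (hTS : TestSmulQC563)
    (hRA : RegAQC563 F) (hRO : RegOpQC563 F) (h5 : SplitOrbQC563 F) (h6 : SphProdQC563 F)
    (κ : KapFnQ801 F) (hκ : ∀ D μr μc T₀ n m, κ D μr μc T₀ n m ≠ 0) : ProdMtQC801 F κ :=
  prodMtQC801_of_all563 (T7.H301.levelUniqC301 ℚ) (T7.H301.levelUniqC301 F)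
    (T7.H627.levelAtC627 ℚ F) (T7.H570UQ.unramQC570 F)
    (T7.H60.sphHypQC_of60 ht6 (T7.H315.sphInvC315 ℚ) (T7.H315.sphInvC315 F)
      (T7.H60.sphInertQC60 F) hSplit)
    hOp (T7.H724.convFamC724 (F := F)) hFamD hTS T7.H644.locConvExC644 T7.H644.unitConvC644
    T7.H644.unitRegC644 hRA hRO (T7.H644.overFinC644 (K := ℚ) (K' := F))
    (T7.H644.belowUniqC644 (K := ℚ) (K' := F)) (T7.H644.belowExC644 (K := ℚ) (K' := F))
    (T7.H409.regOrbQC409 F) h5 h6 (T7.H100.archProdQC100 F) κ hκ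

end Fermat.Agent.LT.T7.PQ563

end

end
-- ===== PACK-END LT/T7/H563/ProdMtQClosed.lean

-- ===== PACK-BEGIN LT/T7/H801/PairAQCutTop.lean
section




/-!
# Row LT, tower T7, node T7.L2Q.1.H2a.A `CQ801.PairAQC801` (registry row 2855): CUT -- the PROVED
# top

OFF-MAIN.  Complete proofs, nothing assumed.  ADDITIVE (new names only, suffix `801`).

    stepFin_of801  : StepTQC801 F → StepSQC801 F → StepGQC801 F (fun x => isMGen801 x = false)
    pairAQC_of801  : BaseAQC801 P F → StepTQC801 F → StepSQC801 F → PairAQC801 P F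
    baseQC_of_cut801 : BaseAQC801 P F → StepTQC801 F → StepSQC801 F → PairBQC801 P F
                         → BaseQC801 P F

The finite generators of the word `X` are applied, in their order, to the base pair of the
word of the sphere means of `X`; `wordEv X C = wordEv (finite part) C * wordEv (sphere means) C`.
-/

set_option autoImplicit false

open AutomorphicForm IsDedekindDomain NumberField MeasureTheory
open scoped ComplexConjugate

noncomputable section

namespace Fermat.Agent.LT.T7.CQ801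

open Fermat.Agent.LT.H556 Fermat.Agent.LT.H556.A0 Fermat.Agent.LT.T7 Fermat.Agent.LT.T7.H305
  Fermat.Agent.LT.T7.L2Q Fermat.Agent.LT.T7.H893 Fermat.Agent.LT.T7.H962
  Fermat.Agent.LT.T7.H732 Fermat.Agent.LT.T7.MQ298

attribute [local instance] Fermat.Agent.LT.T5.instMeasurableSpaceG

variable {P : EKCond}
variable {F : Type} [Field F] [NumberField F]

theorem wordEv_nil801 (C : EigData F) : wordEv ([] : List (Gen F)) C = 1 := by
  simp [wordEv]

theorem wordEv_cons801 (x : Gen F) (X : List (Gen F)) (C : EigData F) :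
    wordEv (x :: X) C = x.ev C * wordEv X C := by
  simp [wordEv]

/-- The word of the sphere means of a word. -/
def mPart801 (X : List (Gen F)) : List (Gen F) := X.filter isMGen801

/-- The word of the finite generators of a word. -/
def fPart801 (X : List (Gen F)) : List (Gen F) := X.filter fun x => !isMGen801 x

theorem mPart_nil801 : mPart801 ([] : List (Gen F)) = [] := rfl

theorem fPart_nil801 : fPart801 ([] : List (Gen F)) = [] := rfl

/-- The eigenvalue of a word is the product of the eigenvalues of its two parts. -/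
theorem wordEv_split801 (X : List (Gen F)) (C : EigData F) :
    wordEv X C = wordEv (fPart801 X) C * wordEv (mPart801 X) C := by
  induction X with
  | nil => simp [mPart801, fPart801, wordEv]
  | cons x X ih =>
    rw [wordEv_cons801, ih]
    cases hx : isMGen801 x with
    | true =>
      have h1 : mPart801 (x :: X) = x :: mPart801 X := by
        simp [mPart801, List.filter_cons, hx]
      have h2 : fPart801 (x :: X) = fPart801 X := by
        simp [fPart801, List.filter_cons, hx]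
      rw [h1, h2, wordEv_cons801]
      ring
    | false =>
      have h1 : mPart801 (x :: X) = mPart801 X := by
        simp [mPart801, List.filter_cons, hx]
      have h2 : fPart801 (x :: X) = x :: fPart801 X := by
        simp [fPart801, List.filter_cons, hx]
      rw [h1, h2, wordEv_cons801]
      ring

/-- The sphere means of a word outside `S'` form a word of sphere means of positive radius. -/
theorem isMWord_mPart801 {S' : Finset (HeightOneSpectrum (𝓞 F))} {X : List (Gen F)}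
    (hX : ∀ x ∈ X, x.Out S') : IsMWord801 (mPart801 X) := by
  intro x hx
  have hx' := List.mem_filter.1 hx
  have hout := hX x hx'.1
  cases x with
  | T w => exact absurd hx'.2 (by simp [isMGen801])
  | S w => exact absurd hx'.2 (by simp [isMGen801])
  | Sinv w => exact absurd hx'.2 (by simp [isMGen801])
  | M w d => exact ⟨w, d, hout, rfl⟩

/-- The finite generators of a word outside `S'`. -/
theorem fPart_spec801 {S' : Finset (HeightOneSpectrum (𝓞 F))} {X : List (Gen F)}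
    (hX : ∀ x ∈ X, x.Out S') :
    ∀ x ∈ fPart801 X, isMGen801 x = false ∧ x.Out S' := by
  intro x hx
  have hx' := List.mem_filter.1 hx
  refine ⟨?_, hX x hx'.1⟩
  have := hx'.2
  simpa using this

/-- The step for every finite generator from the two step nodes. -/
theorem stepFin_of801 (hT : StepTQC801 F) (hS : StepSQC801 F) :
    StepGQC801 F (fun x => isMGen801 x = false) := by
  intro h3 hquad Φ B hB hram 𝔫 hlev T₀ n n₀ m hexp c hc x hx hout φ f hgood
  cases x with
  | T w =>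
    exact hT h3 hquad Φ B hB hram 𝔫 hlev T₀ n n₀ m hexp c hc _ ⟨w, rfl⟩ hout φ f hgood
  | S w =>
    exact hS h3 hquad Φ B hB hram 𝔫 hlev T₀ n n₀ m hexp c hc _ ⟨w, Or.inl rfl⟩ hout φ f hgood
  | Sinv w =>
    exact hS h3 hquad Φ B hB hram 𝔫 hlev T₀ n n₀ m hexp c hc _ ⟨w, Or.inr rfl⟩ hout φ f hgood
  | M w d => exact absurd hx (by simp [isMGen801])

/-- **THE TOP OF THE CUT**: the node `PairAQC801` from the base (words of sphere means) and the
two steps (finite generators). -/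
theorem pairAQC_of801 (hB : BaseAQC801 P F) (hT : StepTQC801 F) (hS : StepSQC801 F) :
    PairAQC801 P F := by
  classical
  intro h3 hquad Φ hΦ hconst hP B hB' hram 𝔫 hlev T₀ n n₀ m hexp c hc
  obtain ⟨c₁, φ, f, hbase⟩ :=
    hB h3 hquad Φ hΦ hconst hP B hB' hram 𝔫 hlev T₀ n n₀ m hexp c hc
  have hstep := stepFin_of801 hT hS h3 hquad Φ B hB' hram 𝔫 hlev T₀ n n₀ m hexp c hc
  -- the step as a function (junk when the hypotheses fail)
  let stepFn : Gen F → (G F → ℂ) × (QWt → G ℚ → ℂ) → (G F → ℂ) × (QWt → G ℚ → ℂ) :=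
    fun x p =>
      if h : (isMGen801 x = false ∧ x.Out (toBase962_732 B).S') ∧
          IsGoodAQ801 (toBase962_732 B) 𝔫 c T₀ n m p.1 p.2 then
        Classical.choose (hstep x h.1.1 h.1.2 p.1 p.2 h.2)
      else p
  have key : ∀ p₀ : (G F → ℂ) × (QWt → G ℚ → ℂ),
      IsGoodAQ801 (toBase962_732 B) 𝔫 c T₀ n m p₀.1 p₀.2 →
      ∀ Y : List (Gen F), (∀ x ∈ Y, isMGen801 x = false ∧ x.Out (toBase962_732 B).S') →
      IsGoodAQ801 (toBase962_732 B) 𝔫 c T₀ n m (Y.foldr stepFn p₀).1 (Y.foldr stepFn p₀).2 ∧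
      (∀ (χ : G F → ℂ) (C : EigData F),
        IsEigFn (toBase962_732 B).𝔑₀ (toBase962_732 B).R'.r 2 (toBase962_732 B).o χ C →
        ∀ y : G F, T5.Rconv (toBase962_732 B).R'.μ (Y.foldr stepFn p₀).1 χ y
          = wordEv Y C * T5.Rconv (toBase962_732 B).R'.μ p₀.1 χ y) ∧
      (∀ (t : QWt) (χ : G ℚ → ℂ) (c' : EigData ℚ) (C : EigData F),
        IsEigFnQ t 𝔫 (toBase962_732 B).R.r (toBase962_732 B).u χ c' →
        IsBCDataQ t c' C (toBase962_732 B).S →
        ∀ y : G ℚ, T5.Rconv (toBase962_732 B).R.μ ((Y.foldr stepFn p₀).2 t) χ y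
          = wordEv Y C * T5.Rconv (toBase962_732 B).R.μ (p₀.2 t) χ y) := by
    intro p₀ hp₀ Y
    induction Y with
    | nil =>
      intro _
      refine ⟨hp₀, fun χ C _ y => ?_, fun t χ c' C _ _ y => ?_⟩
      · rw [wordEv_nil801, one_mul]
        rfl
      · rw [wordEv_nil801, one_mul]
        rfl
    | cons x Y ih =>
      intro hY
      have hx := hY x List.mem_cons_self
      obtain ⟨ig, iu, id⟩ := ih fun y hy => hY y (List.mem_cons_of_mem _ hy)
      have hcond : (isMGen801 x = false ∧ x.Out (toBase962_732 B).S') ∧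
          IsGoodAQ801 (toBase962_732 B) 𝔫 c T₀ n m (Y.foldr stepFn p₀).1
            (Y.foldr stepFn p₀).2 := ⟨hx, ig⟩
      have hspec := Classical.choose_spec
        (hstep x hx.1 hx.2 (Y.foldr stepFn p₀).1 (Y.foldr stepFn p₀).2 ig)
      have hWeq : (x :: Y).foldr stepFn p₀
          = Classical.choose
              (hstep x hx.1 hx.2 (Y.foldr stepFn p₀).1 (Y.foldr stepFn p₀).2 ig) := by
        rw [List.foldr_cons]
        simp only [stepFn]
        rw [dif_pos hcond]
      rw [hWeq]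
      refine ⟨hspec.1, fun χ C hχ y => ?_, fun t χ c' C hχ hC y => ?_⟩
      · rw [hspec.2.up χ C hχ y, iu χ C hχ y, wordEv_cons801]
        ring
      · rw [hspec.2.dn t χ c' C hχ hC y, id t χ c' C hχ hC y, wordEv_cons801]
        ring
  -- the families
  let W : List (Gen F) → (G F → ℂ) × (QWt → G ℚ → ℂ) := fun X =>
    (fPart801 X).foldr stepFn (φ (mPart801 X), f (mPart801 X))
  have hW : ∀ X : List (Gen F), (∀ x ∈ X, x.Out (toBase962_732 B).S') →
      IsGoodAQ801 (toBase962_732 B) 𝔫 c T₀ n m (W X).1 (W X).2 ∧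
      (∀ (χ : G F → ℂ) (C : EigData F),
        IsEigFn (toBase962_732 B).𝔑₀ (toBase962_732 B).R'.r 2 (toBase962_732 B).o χ C →
        ∀ y : G F, T5.Rconv (toBase962_732 B).R'.μ (W X).1 χ y
          = wordEv X C * c₁ C * χ y) ∧
      (∀ (t : QWt) (χ : G ℚ → ℂ) (c' : EigData ℚ) (C : EigData F),
        IsEigFnQ t 𝔫 (toBase962_732 B).R.r (toBase962_732 B).u χ c' →
        IsBCDataQ t c' C (toBase962_732 B).S →
        ∀ y : G ℚ, T5.Rconv (toBase962_732 B).R.μ ((W X).2 t) χ y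
          = wordEv X C * T5.Rconv (toBase962_732 B).R.μ (f [] t) χ y) := by
    intro X hX
    have hD : IsMWord801 (mPart801 X) := isMWord_mPart801 hX
    obtain ⟨kg, ku, kd⟩ := key (φ (mPart801 X), f (mPart801 X)) (hbase.good _ hD)
      (fPart801 X) (fPart_spec801 hX)
    refine ⟨kg, fun χ C hχ y => ?_, fun t χ c' C hχ hC y => ?_⟩
    · rw [ku χ C hχ y, hbase.up_op _ hD χ C hχ y, wordEv_split801 X C]
      ring
    · rw [kd t χ c' C hχ hC y, hbase.dn_op _ hD t χ c' C hχ hC y, wordEv_split801 X C]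
      ring
  have hW0 : (W []).2 = f [] := rfl
  refine ⟨c₁, fun X => (W X).1, fun t X => (W X).2 t, ?_⟩
  exact
    { up1_test := fun X hX => (hW X hX).1.up_test
      up1_ek := fun X hX => (hW X hX).1.up_ek
      up1_op := fun X hX χ C hχ y => (hW X hX).2.1 χ C hχ y
      up1_ne := hbase.up_ne
      dn1_test := fun t X hX => (hW X hX).1.dn_test t
      dn1_ek := fun t X hX => (hW X hX).1.dn_ek t
      dn1_op := fun t X hX χ c' C hχ hC y => by
        show T5.Rconv (toBase962_732 B).R.μ ((W X).2 t) χ y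
          = wordEv X C * T5.Rconv (toBase962_732 B).R.μ ((W []).2 t) χ y
        rw [hW0]
        exact (hW X hX).2.2 t χ c' C hχ hC y
      dn1_wfn := fun t ψ hψ => by
        show IsWFnQ t 𝔫 (toBase962_732 B).R.r (toBase962_732 B).u
          (T5.Rconv (toBase962_732 B).R.μ ((W []).2 t) ψ)
        rw [hW0]
        exact hbase.dn_stab.wfn t ψ hψ
      dn1_class := fun t ψ c' hψ => by
        show IsEigFnQ t 𝔫 (toBase962_732 B).R.r (toBase962_732 B).u
          (T5.Rconv (toBase962_732 B).R.μ ((W []).2 t) ψ) c'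
        rw [hW0]
        exact hbase.dn_stab.cls t ψ c' hψ
      dn1_comm := fun t ψ hψ H z hH hz => by
        have := hbase.dn_stab.comm t ψ hψ H z hH hz
        show (∀ x : G ℚ, T5.Rconv (toBase962_732 B).R.μ ((W []).2 t)
              (iwOp (toBase962_732 B).u H ψ) x
            = iwOp (toBase962_732 B).u H (T5.Rconv (toBase962_732 B).R.μ ((W []).2 t) ψ) x) ∧
          ∀ (k : ℤ) (x : G ℚ), T5.Rconv (toBase962_732 B).R.μ ((W []).2 t) (shiftOp z k ψ) x
            = shiftOp z k (T5.Rconv (toBase962_732 B).R.μ ((W []).2 t) ψ) x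
        rw [hW0]
        exact this
      up1_supp := fun X hX => (hW X hX).1.up_supp
      dn1_supp := fun t X hX => (hW X hX).1.dn_supp t
      shape := fun X hX => (hW X hX).1.shape }

/-- **THE BASE NODE OF THE CONSTRUCTION over `ℚ`** from the open nodes of the second and third
cut. -/
theorem baseQC_of_cut801 (hB : BaseAQC801 P F) (hT : StepTQC801 F) (hS : StepSQC801 F)
    (h2 : PairBQC801 P F) : BaseQC801 P F :=
  baseQC_of_pairs801 (pairAQC_of801 hB hT hS) h2

end Fermat.Agent.LT.T7.CQ801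

end

end
-- ===== PACK-END LT/T7/H801/PairAQCutTop.lean

-- ===== PACK-BEGIN LT/T7/H801/PairAQBridge.lean
section




/-!
# Row LT, tower T7, node T7.L2Q.1.H2a.A `CQ801.PairAQC801` (registry row 2855): THE TWO CUTS ARE
# ONE -- bridge between the cut of helper327 (`T7/AQ327/PairAQSpec.lean` 1d5f2de0: empty word +
# three generic steps) and the cut of helper801 (`PairAQCutSpec.lean`: words of sphere means in
# the base + two generic steps)

OFF-MAIN.  PROVED, no hole, nothing assumed.  ADDITIVE (new names only, suffix `801`).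

The vocabulary (`IsGoodAQ…`, `IsStepAQ…`, `IsDnStabQ…`) and the nodes STEP-T, STEP-S of the two
cuts are THE SAME statements under two names:

    stepGQC_iff801  : StepGQC801 F Q ↔ AQ327.StepGQC327 F Q
    stepTQC_iff801  : StepTQC801 F ↔ AQ327.StepTQC327 F
    stepSQC_iff801  : StepSQC801 F ↔ AQ327.StepSQC327 F

so every proof of a step serves both cuts.  The sphere means:

    baseAQC327_of801 : BaseAQC801 P F → AQ327.BaseAQC327 P F             (the empty word)
    baseAQC801_of327 : AQ327.BaseAQC327 P F → AQ327.StepMQC327 F → BaseAQC801 P F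
    pairAQC_of_either801 :
        (BaseAQC801 P F ∨ (AQ327.BaseAQC327 P F ∧ AQ327.StepMQC327 F))
          → AQ327.StepTQC327 F → AQ327.StepSQC327 F → PairAQC801 P F

i.e. the node `PairAQC801` needs STEP-T, STEP-S and EITHER the generic step STEP-M with the base
for the empty word OR the base for the words of sphere means.
-/

set_option autoImplicit false

open AutomorphicForm IsDedekindDomain NumberField MeasureTheory
open scoped ComplexConjugate

noncomputable section

namespace Fermat.Agent.LT.T7.CQ801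

open Fermat.Agent.LT.H556 Fermat.Agent.LT.H556.A0 Fermat.Agent.LT.T7 Fermat.Agent.LT.T7.H305
  Fermat.Agent.LT.T7.L2Q Fermat.Agent.LT.T7.H893 Fermat.Agent.LT.T7.H962
  Fermat.Agent.LT.T7.H732 Fermat.Agent.LT.T7.MQ298

attribute [local instance] Fermat.Agent.LT.T5.instMeasurableSpaceG

variable {P : EKCond}
variable {F : Type} [Field F] [NumberField F]

theorem isGoodAQ_iff801 {B : L2QBase962 F} {𝔫 : Ideal (𝓞 ℚ)} {c : ℂ}
    {T₀ : Finset (HeightOneSpectrum (𝓞 ℚ))}
    {n : HeightOneSpectrum (𝓞 F) → ℕ} {m : HeightOneSpectrum (𝓞 ℚ) → ℕ}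
    {φ : G F → ℂ} {f : QWt → G ℚ → ℂ} :
    IsGoodAQ801 B 𝔫 c T₀ n m φ f ↔ AQ327.IsGoodAQ327 B 𝔫 c T₀ n m φ f :=
  ⟨fun h => ⟨h.up_test, h.up_ek, h.dn_test, h.dn_ek, h.up_supp, h.dn_supp, h.shape⟩,
    fun h => ⟨h.up_test, h.up_ek, h.dn_test, h.dn_ek, h.up_supp, h.dn_supp, h.shape⟩⟩

theorem isStepAQ_iff801 {B : L2QBase962 F} {𝔫 : Ideal (𝓞 ℚ)} {x : Gen F}
    {φ : G F → ℂ} {f : QWt → G ℚ → ℂ} {φ' : G F → ℂ} {f' : QWt → G ℚ → ℂ} :
    IsStepAQ801 B 𝔫 x φ f φ' f' ↔ AQ327.IsStepAQ327 B 𝔫 x φ f φ' f' :=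
  ⟨fun h => ⟨h.up, h.dn⟩, fun h => ⟨h.up, h.dn⟩⟩

theorem isDnStabQ_iff801 {B : L2QBase962 F} {𝔫 : Ideal (𝓞 ℚ)} {f : QWt → G ℚ → ℂ} :
    IsDnStabQ801 B 𝔫 f ↔ AQ327.IsDnStabQ327 B 𝔫 f :=
  ⟨fun h => ⟨h.wfn, h.cls, h.comm⟩, fun h => ⟨h.wfn, h.cls, h.comm⟩⟩

variable (F)

/-- The generic step nodes of the two cuts agree. -/
theorem stepGQC_iff801 (Q : Gen F → Prop) : StepGQC801 F Q ↔ AQ327.StepGQC327 F Q := by
  constructor
  · intro h h3 hquad Φ B hB hram 𝔫 hlev T₀ n n₀ m hexp c hc x hx hout φ f hgood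
    obtain ⟨p, hp1, hp2⟩ := h h3 hquad Φ B hB hram 𝔫 hlev T₀ n n₀ m hexp c hc x hx hout φ f
      (isGoodAQ_iff801.2 hgood)
    exact ⟨p, isGoodAQ_iff801.1 hp1, isStepAQ_iff801.1 hp2⟩
  · intro h h3 hquad Φ B hB hram 𝔫 hlev T₀ n n₀ m hexp c hc x hx hout φ f hgood
    obtain ⟨p, hp1, hp2⟩ := h h3 hquad Φ B hB hram 𝔫 hlev T₀ n n₀ m hexp c hc x hx hout φ f
      (isGoodAQ_iff801.1 hgood)
    exact ⟨p, isGoodAQ_iff801.2 hp1, isStepAQ_iff801.2 hp2⟩

/-- STEP-T: the two cuts agree. -/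
theorem stepTQC_iff801 : StepTQC801 F ↔ AQ327.StepTQC327 F :=
  stepGQC_iff801 F _

/-- STEP-S: the two cuts agree. -/
theorem stepSQC_iff801 : StepSQC801 F ↔ AQ327.StepSQC327 F :=
  stepGQC_iff801 F _

variable {F}

/-- The base for the words of sphere means gives the base for the empty word. -/
theorem baseAQC327_of801 (h : BaseAQC801 P F) : AQ327.BaseAQC327 P F := by
  intro h3 hquad Φ hΦ hconst hP B hB hram 𝔫 hlev T₀ n n₀ m hexp c hc
  obtain ⟨c₁, φ, f, hb⟩ := h h3 hquad Φ hΦ hconst hP B hB hram 𝔫 hlev T₀ n n₀ m hexp c hc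
  have h0 : IsMWord801 ([] : List (Gen F)) := fun x hx => absurd hx (List.not_mem_nil)
  refine ⟨c₁, φ [], f [], isGoodAQ_iff801.1 (hb.good [] h0), fun χ C hχ y => ?_, hb.up_ne,
    isDnStabQ_iff801.1 hb.dn_stab⟩
  have := hb.up_op [] h0 χ C hχ y
  rw [wordEv_nil801, one_mul] at this
  exact this

/-- The base for the empty word and the generic step STEP-M give the base for the words of
sphere means. -/
theorem baseAQC801_of327 (hB : AQ327.BaseAQC327 P F) (hM : AQ327.StepMQC327 F) :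
    BaseAQC801 P F := by
  classical
  intro h3 hquad Φ hΦ hconst hP B hB' hram 𝔫 hlev T₀ n n₀ m hexp c hc
  obtain ⟨c₁, φ, f, hgood, hop, hne, hstab⟩ :=
    hB h3 hquad Φ hΦ hconst hP B hB' hram 𝔫 hlev T₀ n n₀ m hexp c hc
  have hgood' : IsGoodAQ801 (toBase962_732 B) 𝔫 c T₀ n m φ f := isGoodAQ_iff801.2 hgood
  have hstep : ∀ x : Gen F, (∃ (w : InfinitePlace F) (d : ℝ), x = Gen.M w d) →
      x.Out (toBase962_732 B).S' →
      ∀ (φ : G F → ℂ) (f : QWt → G ℚ → ℂ),
        IsGoodAQ801 (toBase962_732 B) 𝔫 c T₀ n m φ f →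
        ∃ p : (G F → ℂ) × (QWt → G ℚ → ℂ),
          IsGoodAQ801 (toBase962_732 B) 𝔫 c T₀ n m p.1 p.2 ∧
            IsStepAQ801 (toBase962_732 B) 𝔫 x φ f p.1 p.2 :=
    ((stepGQC_iff801 F _).2 hM) h3 hquad Φ B hB' hram 𝔫 hlev T₀ n n₀ m hexp c hc
  let stepFn : Gen F → (G F → ℂ) × (QWt → G ℚ → ℂ) → (G F → ℂ) × (QWt → G ℚ → ℂ) :=
    fun x p =>
      if h : ((∃ (w : InfinitePlace F) (d : ℝ), x = Gen.M w d) ∧
            x.Out (toBase962_732 B).S') ∧
          IsGoodAQ801 (toBase962_732 B) 𝔫 c T₀ n m p.1 p.2 then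
        Classical.choose (hstep x h.1.1 h.1.2 p.1 p.2 h.2)
      else p
  let W : List (Gen F) → (G F → ℂ) × (QWt → G ℚ → ℂ) := fun D => D.foldr stepFn (φ, f)
  have key : ∀ D : List (Gen F), IsMWord801 D →
      IsGoodAQ801 (toBase962_732 B) 𝔫 c T₀ n m (W D).1 (W D).2 ∧
      (∀ (χ : G F → ℂ) (C : EigData F),
        IsEigFn (toBase962_732 B).𝔑₀ (toBase962_732 B).R'.r 2 (toBase962_732 B).o χ C →
        ∀ y : G F, T5.Rconv (toBase962_732 B).R'.μ (W D).1 χ y = wordEv D C * c₁ C * χ y) ∧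
      (∀ (t : QWt) (χ : G ℚ → ℂ) (c' : EigData ℚ) (C : EigData F),
        IsEigFnQ t 𝔫 (toBase962_732 B).R.r (toBase962_732 B).u χ c' →
        IsBCDataQ t c' C (toBase962_732 B).S →
        ∀ y : G ℚ, T5.Rconv (toBase962_732 B).R.μ ((W D).2 t) χ y
          = wordEv D C * T5.Rconv (toBase962_732 B).R.μ (f t) χ y) := by
    intro D
    induction D with
    | nil =>
      intro _
      refine ⟨hgood', fun χ C hχ y => ?_, fun t χ c' C _ _ y => ?_⟩
      · rw [wordEv_nil801, one_mul]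
        exact hop χ C hχ y
      · rw [wordEv_nil801, one_mul]
        rfl
    | cons x D ih =>
      intro hD
      obtain ⟨w, d, hd, hxe⟩ := hD x List.mem_cons_self
      have hxM : ∃ (w : InfinitePlace F) (d : ℝ), x = Gen.M w d := ⟨w, d, hxe⟩
      have hxO : x.Out (toBase962_732 B).S' := by
        rw [hxe]
        exact hd
      obtain ⟨ig, iu, id⟩ := ih fun y hy => hD y (List.mem_cons_of_mem _ hy)
      have hcond : ((∃ (w : InfinitePlace F) (d : ℝ), x = Gen.M w d) ∧
            x.Out (toBase962_732 B).S') ∧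
          IsGoodAQ801 (toBase962_732 B) 𝔫 c T₀ n m (W D).1 (W D).2 := ⟨⟨hxM, hxO⟩, ig⟩
      have hspec := Classical.choose_spec (hstep x hxM hxO (W D).1 (W D).2 ig)
      have hWeq : W (x :: D) = Classical.choose (hstep x hxM hxO (W D).1 (W D).2 ig) := by
        show stepFn x (W D) = _
        simp only [stepFn]
        rw [dif_pos hcond]
      rw [hWeq]
      refine ⟨hspec.1, fun χ C hχ y => ?_, fun t χ c' C hχ hC y => ?_⟩
      · rw [hspec.2.up χ C hχ y, iu χ C hχ y, wordEv_cons801]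
        ring
      · rw [hspec.2.dn t χ c' C hχ hC y, id t χ c' C hχ hC y, wordEv_cons801]
        ring
  refine ⟨c₁, fun D => (W D).1, fun D => (W D).2, ?_⟩
  exact
    { good := fun D hD => (key D hD).1
      up_op := fun D hD χ C hχ y => (key D hD).2.1 χ C hχ y
      up_ne := hne
      dn_op := fun D hD t χ c' C hχ hC y => (key D hD).2.2 t χ c' C hχ hC y
      dn_stab := isDnStabQ_iff801.2 hstab }

/-- **THE NODE `PairAQC801` FROM EITHER CUT**: STEP-T, STEP-S and EITHER the base for the words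
of sphere means OR the base for the empty word with the generic step STEP-M. -/
theorem pairAQC_of_either801
    (hB : BaseAQC801 P F ∨ (AQ327.BaseAQC327 P F ∧ AQ327.StepMQC327 F))
    (hT : AQ327.StepTQC327 F) (hS : AQ327.StepSQC327 F) : PairAQC801 P F := by
  have hB' : BaseAQC801 P F := by
    rcases hB with h | ⟨h1, h2⟩
    · exact h
    · exact baseAQC801_of327 h1 h2
  exact pairAQC_of801 hB' ((stepTQC_iff801 F).2 hT) ((stepSQC_iff801 F).2 hS)

end Fermat.Agent.LT.T7.CQ801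

end

end
-- ===== PACK-END LT/T7/H801/PairAQBridge.lean

-- ===== PACK-BEGIN LT/T7/H62Q/RelTorusQ.lean
section






/-!
# Row LT, tower T7, leaf T7.L2Q.1.H2a.B.R `RelTorusQC973` (registry row 3041, owner helper62)

OFF-MAIN.  `relTorusQC62 (F) : PBQ973.RelTorusQC973 F`, VERBATIM against
`T7/H973/PairBQSpec.lean` (helper973@ae02d01c3, sha256 96c6054ecdb60177), unconditional.
No hole, nothing assumed.  New names only (suffix `62`).

Proof.  `a`, `a'` = the positive scalars (`H195.posScalC195`); `c = log t₀`, `t₀² = 2`,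
`c' = log t₀'`, `t₀'⁴ = 2` (`[F : ℚ] = 2`: one complex place), so `c = 2 c'`; `D`, `D'` = the
fundamental parallelepipeds of the bases `(fun _ => c)` of `ℝ^{S_∞(ℚ)}` and `(fun _ => c')` of
`ℝ^{S_∞(F)}` (the second one indexed by `S_∞(ℚ) ⊕ ∅`); torus data and `ray` from
`H193.torusParC193` (the periods are mapped to the ray generators: `H865.g_ext865`); `maps`,
`onto`, `push` from the Mathlib-only core `H62P.pushPar_core62` (= `H193.PushParC`) for the
linear map `N t' = 2 ∑_w t'_w`.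
-/

set_option autoImplicit false
set_option linter.unusedSectionVars false
set_option linter.style.haveILetI false

open IsDedekindDomain NumberField MeasureTheory

noncomputable section

namespace Fermat.Agent.LT.T7.H62Q

open Fermat.Agent.LT.H556 Fermat.Agent.LT.H556.A0 Fermat.Agent.LT Fermat.Agent.LT.T7
open Fermat.Agent.LT.T7.H193 Fermat.Agent.LT.T7.H893

/-- The value of the positive scalars at the constant vector `log t₀` is the ray generator. -/
theorem a_const_eq_ray62 (K : Type) [Field K] [NumberField K]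
    (a : (InfinitePlace K → ℝ) → G K)
    (ha_inf : ∀ (t : InfinitePlace K → ℝ) (w : InfinitePlace K),
      infComp w (a t) = Matrix.diagonal fun _ => ((Real.exp (t w) : ℝ) : ℂ))
    (ha_fin : ∀ (t : InfinitePlace K → ℝ) (v : HeightOneSpectrum (𝓞 K)), TrivAtFin v (a t))
    (r : G K) (hrfin : ∀ v : HeightOneSpectrum (𝓞 K), TrivAtFin v r) (t₀ : ℝ) (ht₀ : 0 < t₀)
    (hrinf : ∀ w : InfinitePlace K, infComp w r = Matrix.diagonal (fun _ => (t₀ : ℂ))) :
    a (fun _ => Real.log t₀) = r := by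
  apply H865.g_ext865
  · intro w
    rw [ha_inf, hrinf, Real.exp_log ht₀]
  · intro v
    rw [show finComp v (a fun _ => Real.log t₀) = 1 from ha_fin _ v,
      show finComp v r = 1 from hrfin v]

/-- Torus data for the fundamental parallelepiped of a basis of periods (any index type). -/
theorem torusData_of_basis62 (K : Type) [Field K] [NumberField K] {ι : Type} [Fintype ι]
    (B : Module.Basis ι ℝ (InfinitePlace K → ℝ))
    (a : (InfinitePlace K → ℝ) → G K) (ha_cont : Continuous a)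
    (ha_mul : ∀ s t : InfinitePlace K → ℝ, a (s + t) = a s * a t)
    (ha_inf : ∀ (t : InfinitePlace K → ℝ) (w : InfinitePlace K),
      infComp w (a t) = Matrix.diagonal fun _ => ((Real.exp (t w) : ℝ) : ℂ))
    (ha_fin : ∀ (t : InfinitePlace K → ℝ) (v : HeightOneSpectrum (𝓞 K)), TrivAtFin v (a t))
    (ha_central : ∀ (t : InfinitePlace K → ℝ) (g : G K), a t * g = g * a t)
    (𝔑 : Ideal (𝓞 K)) (r : G K) (hB : ∀ i, a (B i) = r) :
    IsTorusData 𝔑 r a (ZSpan.fundamentalDomain B) ∧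
      ∀ e : G K → ℂ, (∀ g : G K, e (g * r) = e g) →
        ∀ (g : G K) (s : InfinitePlace K → ℝ),
          ∫ t in ZSpan.fundamentalDomain B, e (g * a (t + s))
            = ∫ t in ZSpan.fundamentalDomain B, e (g * a t) := by
  obtain ⟨hDm, hDb, hDp, hDmean⟩ := torusParC193 ι (InfinitePlace K) B
  have hM : ∀ e : G K → ℂ, (∀ g : G K, e (g * r) = e g) →
      ∀ (g : G K) (s : InfinitePlace K → ℝ),
        ∫ t in ZSpan.fundamentalDomain B, e (g * a (t + s))
          = ∫ t in ZSpan.fundamentalDomain B, e (g * a t) := by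
    intro e he g s
    refine hDmean (fun t => e (g * a t)) (fun i t => ?_) s
    show e (g * a (t + B i)) = e (g * a t)
    rw [ha_mul, ← mul_assoc, hB i]
    exact he _
  exact ⟨⟨ha_cont, ha_mul, ha_inf, ha_fin, ha_central, hDm, hDb, hDp,
    fun e he _ g s => hM e he.ray g s⟩, hM⟩

/-- The degree of a field with one infinite place, which is complex. -/
theorem finrank_of_imagQuad62 (F : Type) [Field F] [NumberField F] (hF : IsImagQuad F) :
    Module.finrank ℚ F = 2 := by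
  classical
  obtain ⟨hcard, hcplx⟩ := hF
  have h1 : InfinitePlace.nrRealPlaces F = 0 :=
    NumberField.nrRealPlaces_eq_zero_iff.mpr ⟨hcplx⟩
  have h2 := InfinitePlace.card_eq_nrRealPlaces_add_nrComplexPlaces (K := F)
  have h3 := InfinitePlace.card_add_two_mul_card_eq_rank (K := F)
  rw [Nat.card_eq_fintype_card] at hcard
  omega

/-- The linear form of the norm of the quadratic step. -/
def normLin62 (F : Type) [Field F] [NumberField F] :
    (InfinitePlace F → ℝ) →ₗ[ℝ] (InfinitePlace ℚ → ℝ) where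
  toFun := PBQ973.normVec973
  map_add' x y := by
    funext _
    simp only [PBQ973.normVec973, Pi.add_apply, Finset.sum_add_distrib]
    ring
  map_smul' c x := by
    funext _
    simp only [PBQ973.normVec973, Pi.smul_apply, smul_eq_mul, RingHom.id_apply,
      ← Finset.mul_sum]
    ring

theorem normLin62_apply (F : Type) [Field F] [NumberField F] (t' : InfinitePlace F → ℝ) :
    normLin62 F t' = PBQ973.normVec973 t' := rfl

/-- **LEAF PBQ.R = REL-TORUS over `ℚ`**, closed. -/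
theorem relTorusQC62 (F : Type) [Field F] [NumberField F] : PBQ973.RelTorusQC973 F := by
  intro hF 𝔫 _h𝔫 r r' hr hr'
  classical
  have hrankF : Module.finrank ℚ F = 2 := finrank_of_imagQuad62 F hF
  have hrankQ : Module.finrank ℚ ℚ = 1 := Module.finrank_self ℚ
  obtain ⟨hcard, -⟩ := hF
  haveI : Subsingleton (InfinitePlace F) := (Nat.card_eq_one_iff_unique.mp hcard).1
  haveI : Nonempty (InfinitePlace F) := (Nat.card_eq_one_iff_unique.mp hcard).2
  have hcardF : Fintype.card (InfinitePlace F) = 1 := by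
    rw [← Nat.card_eq_fintype_card]
    exact hcard
  obtain ⟨a, ha_cont, ha_mul, ha_inf, ha_fin, ha_central⟩ := H195.posScalC195 ℚ
  obtain ⟨a', ha_cont', ha_mul', ha_inf', ha_fin', ha_central'⟩ := H195.posScalC195 F
  obtain ⟨hrfin, t₀, ht₀pos, ht₀pow, hrinf⟩ := hr
  obtain ⟨hrfin', t₀', ht₀pos', ht₀pow', hrinf'⟩ := hr'
  rw [hrankQ] at ht₀pow
  rw [hrankF] at ht₀pow'
  -- the periods
  have hl2 : 0 < Real.log 2 := Real.log_pos (by norm_num)
  have hlog : (2 : ℝ) * Real.log t₀ = Real.log 2 := by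
    have := congrArg Real.log ht₀pow
    rw [Real.log_pow] at this
    simpa using this
  have hlog' : (4 : ℝ) * Real.log t₀' = Real.log 2 := by
    have := congrArg Real.log ht₀pow'
    rw [Real.log_pow] at this
    simpa using this
  have hc : Real.log t₀ ≠ 0 := by
    intro h0
    rw [h0] at hlog
    linarith
  have hc' : Real.log t₀' ≠ 0 := by
    intro h0
    rw [h0] at hlog'
    linarith
  have hcc : Real.log t₀ = 2 * Real.log t₀' := by linarith
  -- the bases
  have hu : ∀ _ : InfinitePlace ℚ, IsUnit (Real.log t₀) := fun _ => IsUnit.mk0 _ hc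
  have hu' : ∀ _ : InfinitePlace F, IsUnit (Real.log t₀') := fun _ => IsUnit.mk0 _ hc'
  obtain ⟨b, hb⟩ : ∃ b : Module.Basis (InfinitePlace ℚ) ℝ (InfinitePlace ℚ → ℝ),
      ∀ i : InfinitePlace ℚ, b i = fun _ => Real.log t₀ := by
    refine ⟨(Pi.basisFun ℝ (InfinitePlace ℚ)).isUnitSMul hu, fun i => ?_⟩
    rw [Module.Basis.isUnitSMul_apply]
    funext w
    rw [Subsingleton.elim w i]
    simp
  letI : Unique (InfinitePlace F) := uniqueOfSubsingleton (Classical.arbitrary _)
  let eq0 : InfinitePlace F ≃ InfinitePlace ℚ ⊕ Empty :=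
    (Equiv.ofUnique (InfinitePlace F) (InfinitePlace ℚ)).trans
      (Equiv.sumEmpty (InfinitePlace ℚ) Empty).symm
  obtain ⟨B, hB⟩ : ∃ B : Module.Basis (InfinitePlace ℚ ⊕ Empty) ℝ (InfinitePlace F → ℝ),
      ∀ k : InfinitePlace ℚ ⊕ Empty, B k = fun _ => Real.log t₀' := by
    refine ⟨((Pi.basisFun ℝ (InfinitePlace F)).isUnitSMul hu').reindex eq0, fun k => ?_⟩
    rw [Module.Basis.reindex_apply, Module.Basis.isUnitSMul_apply]
    funext w
    rw [Subsingleton.elim w (eq0.symm k)]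
    simp
  -- the values at the periods
  have hab : ∀ i, a (b i) = r := fun i => by
    rw [hb i]
    exact a_const_eq_ray62 ℚ a ha_inf ha_fin r hrfin t₀ ht₀pos hrinf
  have haB : ∀ k, a' (B k) = r' := fun k => by
    rw [hB k]
    exact a_const_eq_ray62 F a' ha_inf' ha_fin' r' hrfin' t₀' ht₀pos' hrinf'
  obtain ⟨hdown, hray⟩ :=
    torusData_of_basis62 ℚ b a ha_cont ha_mul ha_inf ha_fin ha_central 𝔫 r hab
  obtain ⟨hup, -⟩ :=
    torusData_of_basis62 F B a' ha_cont' ha_mul' ha_inf' ha_fin' ha_central'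
      (upI (K' := F) 𝔫) r' haB
  -- the push-forward
  have hN1 : ∀ i, normLin62 F (B (Sum.inl i)) = b i := by
    intro i
    rw [hB, hb, normLin62_apply]
    funext _
    simp only [PBQ973.normVec973, Finset.sum_const, Finset.card_univ, hcardF, one_smul]
    linarith
  have hN2 : ∀ j : Empty, normLin62 F (B (Sum.inr j)) = 0 := fun j => j.elim
  obtain ⟨hmaps, honto, hpush⟩ :=
    H62P.pushPar_core62 (InfinitePlace ℚ) (InfinitePlace F) Empty (normLin62 F) b B hN1 hN2
  exact ⟨a, ZSpan.fundamentalDomain b, a', ZSpan.fundamentalDomain B,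
    ⟨hdown, hray, hup, hmaps, honto, hpush⟩⟩

end Fermat.Agent.LT.T7.H62Q

end

end
-- ===== PACK-END LT/T7/H62Q/RelTorusQ.lean

-- ===== PACK-BEGIN LT/T7/H873/NatShapeQArch.lean
section




/-!
# Row LT, tower T7, node T7.L2Q.1.H2a.B (cut of helper973): leaf PBQ.3 `NatShapeQC973`,
# the ARCHIMEDEAN part (helper873)

OFF-MAIN.  The translates of archimedean test functions by positive real scalar matrices are
test functions; the `N`-integral of the translate by `e^t` of a function on `GL₂(ℂ)` with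
`N`-integral `β` is `β(· - (t, t))` (Lebesgue measure of `ℂ` scales by `ρ²`), on `GL₂(ℝ)` the
same (Lebesgue measure of `ℝ` scales by `σ`, the factor `√(c₁ c₂)` by `σ⁻¹`); so the translates
by `e^{t}` upstairs and `e^{2 t}` downstairs of components in the Abel relation `c` are in the
Abel relation `c`.
-/

set_option autoImplicit false

open MeasureTheory
open scoped Matrix ContDiff

noncomputable section

namespace Fermat.Agent.LT.T7.H873

open Fermat.Agent.LT Fermat.Agent.LT.T7 Fermat.Agent.LT.T7.H305 Fermat.Agent.LT.T7.CQ801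

/-- The right translate `F(· z⁻¹)` on `GL₂(ℝ)`. -/
def trR873 (z : GL (Fin 2) ℝ) (F : GL (Fin 2) ℝ → ℂ) : GL (Fin 2) ℝ → ℂ :=
  fun x => F (x * z⁻¹)

/-- `z` is the scalar matrix of the real number `c` (in `GL₂(ℝ)`). -/
def IsScalR873 (z : GL (Fin 2) ℝ) (c : ℝ) : Prop :=
  (z : Matrix (Fin 2) (Fin 2) ℝ) = Matrix.diagonal fun _ => c

/-- The shift of a function on `ℝ²` by `(t, t)`. -/
def shift873 (t : ℝ) (β : ℝ × ℝ → ℂ) : ℝ × ℝ → ℂ := fun p => β (p - (t, t))

theorem central_of_scalar873 {R : Type} [CommRing R] {z : GL (Fin 2) R} {c : R}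
    (h : (z : Matrix (Fin 2) (Fin 2) R) = Matrix.diagonal fun _ => c) (x : GL (Fin 2) R) :
    z * x = x * z := by
  apply Units.ext
  show (z : Matrix (Fin 2) (Fin 2) R) * (x : Matrix (Fin 2) (Fin 2) R)
    = (x : Matrix (Fin 2) (Fin 2) R) * (z : Matrix (Fin 2) (Fin 2) R)
  rw [h, ← Matrix.smul_one_eq_diagonal, Matrix.smul_mul, Matrix.mul_smul, one_mul, mul_one]

theorem central_inv_of_scalar873 {R : Type} [CommRing R] {z : GL (Fin 2) R} {c : R}
    (h : (z : Matrix (Fin 2) (Fin 2) R) = Matrix.diagonal fun _ => c) (x : GL (Fin 2) R) :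
    z⁻¹ * x = x * z⁻¹ := by
  calc z⁻¹ * x = z⁻¹ * (x * z) * z⁻¹ := by group
    _ = z⁻¹ * (z * x) * z⁻¹ := by rw [central_of_scalar873 h x]
    _ = x * z⁻¹ := by group

/-- `[[c₁, x], [0, c₂]] · ρ⁻¹ = [[c₁/ρ, x/ρ], [0, c₂/ρ]]`. -/
theorem upperGL_mul_inv873 {𝕜 : Type} [Field 𝕜] {z : GL (Fin 2) 𝕜} {ρ : 𝕜ˣ}
    (h : (z : Matrix (Fin 2) (Fin 2) 𝕜) = Matrix.diagonal fun _ => (ρ : 𝕜)) (c₁ c₂ : 𝕜ˣ)
    (x : 𝕜) :
    T3.AS.upperGL c₁ c₂ x * z⁻¹
      = T3.AS.upperGL (c₁ * ρ⁻¹) (c₂ * ρ⁻¹) (x * ((ρ⁻¹ : 𝕜ˣ) : 𝕜)) := by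
  rw [mul_inv_eq_iff_eq_mul]
  apply Units.ext
  show (!![(c₁ : 𝕜), x; 0, (c₂ : 𝕜)] : Matrix (Fin 2) (Fin 2) 𝕜)
    = (!![((c₁ * ρ⁻¹ : 𝕜ˣ) : 𝕜), x * ((ρ⁻¹ : 𝕜ˣ) : 𝕜); 0, ((c₂ * ρ⁻¹ : 𝕜ˣ) : 𝕜)] :
        Matrix (Fin 2) (Fin 2) 𝕜) * (z : Matrix (Fin 2) (Fin 2) 𝕜)
  rw [h]
  have hρ : (ρ : 𝕜) ≠ 0 := ρ.ne_zero
  ext i j
  fin_cases i <;> fin_cases j <;>
    simp [Matrix.mul_apply, Matrix.diagonal_apply]

/-! ## Test functions -/

theorem isArchTestC_trC873 {z : GL (Fin 2) ℂ} {c : ℝ} (hz : IsScal873 z c)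
    {Φ : GL (Fin 2) ℂ → ℂ} (h : T6.IsArchTestC Φ) : T6.IsArchTestC (trC873 z Φ) where
  cont := continuous_trC873 z h.cont
  supp := hasCompactSupport_trC873 z h.supp
  smooth := by
    intro m hh h1 g
    have e : (fun t => trC873 z Φ (g * hh t)) = fun t => Φ (g * z⁻¹ * hh t) := by
      funext t
      show Φ (g * hh t * z⁻¹) = _
      rw [mul_assoc g, ← hz.central_inv (hh t), ← mul_assoc]
    rw [e]
    exact h.smooth m hh h1 (g * z⁻¹)
  left := by
    intro k g hk
    show Φ (k * g * z⁻¹) = Φ (g * z⁻¹)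
    rw [mul_assoc]
    exact h.left k _ hk
  right := by
    intro k g hk
    show Φ (g * k * z⁻¹) = Φ (g * z⁻¹)
    rw [mul_assoc g, ← hz.central_inv k, ← mul_assoc]
    exact h.right k _ hk

theorem IsScalR873.central_inv {z : GL (Fin 2) ℝ} {c : ℝ} (h : IsScalR873 z c)
    (x : GL (Fin 2) ℝ) : z⁻¹ * x = x * z⁻¹ :=
  central_inv_of_scalar873 h x

theorem IsScalR873.det_pos {z : GL (Fin 2) ℝ} {c : ℝ} (h : IsScalR873 z c) (hc : 0 < c) :
    0 < (z : Matrix (Fin 2) (Fin 2) ℝ).det := by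
  rw [h, Matrix.det_diagonal]
  simp only [Finset.prod_const, Finset.card_univ, Fintype.card_fin]
  positivity

theorem isArchTestR_trR873 {z : GL (Fin 2) ℝ} {c : ℝ} (hz : IsScalR873 z c) (hc : 0 < c)
    {n : ℤ} {F : GL (Fin 2) ℝ → ℂ} (h : T6.IsArchTestR n F) :
    T6.IsArchTestR n (trR873 z F) where
  cont := h.cont.comp (continuous_id.mul continuous_const)
  supp := h.supp.comp_homeomorph (Homeomorph.mulRight z⁻¹)
  smooth := by
    intro m hh h1 g
    have e : (fun t => trR873 z F (g * hh t)) = fun t => F (g * z⁻¹ * hh t) := by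
      funext t
      show F (g * hh t * z⁻¹) = _
      rw [mul_assoc g, ← hz.central_inv (hh t), ← mul_assoc]
    rw [e]
    exact h.smooth m hh h1 (g * z⁻¹)
  pos := by
    intro g hg
    have h1 : 0 < ((g * z⁻¹ : GL (Fin 2) ℝ) : Matrix (Fin 2) (Fin 2) ℝ).det := h.pos _ hg
    have h2 : (g : Matrix (Fin 2) (Fin 2) ℝ).det
        = ((g * z⁻¹ : GL (Fin 2) ℝ) : Matrix (Fin 2) (Fin 2) ℝ).det
          * (z : Matrix (Fin 2) (Fin 2) ℝ).det := by
      rw [← Matrix.det_mul]
      congr 1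
      show (g : Matrix (Fin 2) (Fin 2) ℝ) = ((g * z⁻¹ * z : GL (Fin 2) ℝ) :
        Matrix (Fin 2) (Fin 2) ℝ)
      rw [inv_mul_cancel_right]
    rw [h2]
    exact mul_pos h1 (hz.det_pos hc)
  left := by
    intro k g hk
    show F (k * g * z⁻¹) = _ * F (g * z⁻¹)
    rw [mul_assoc]
    exact h.left k _ hk
  right := by
    intro k g hk
    show F (g * k * z⁻¹) = _ * F (g * z⁻¹)
    rw [mul_assoc g, ← hz.central_inv k, ← mul_assoc]
    exact h.right k _ hk

/-! ## The `N`-integrals -/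

theorem isSymBump_shift873 (t : ℝ) {β : ℝ × ℝ → ℂ} (h : T3.AS.IsSymBump β) :
    T3.AS.IsSymBump (shift873 t β) := by
  obtain ⟨h1, h2, h3⟩ := h
  refine ⟨h1.comp (contDiff_id.sub contDiff_const), ?_, fun x y => ?_⟩
  · exact h2.comp_homeomorph (Homeomorph.subRight ((t, t) : ℝ × ℝ))
  · show β ((x, y) - (t, t)) = β ((y, x) - (t, t))
    exact h3 (x - t) (y - t)

/-- The `N`-integral of the translate by `e^t` on `GL₂(ℂ)`. -/
theorem hasAbelN_trC873 {z : GL (Fin 2) ℂ} {t : ℝ} (hz : IsScal873 z (Real.exp t))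
    {Φ : GL (Fin 2) ℂ → ℂ} {β : ℝ × ℝ → ℂ} (h : T3.AS.HasAbelN Φ β) :
    T3.AS.HasAbelN (trC873 z Φ) (shift873 t β) := by
  intro c₁ c₂
  have hρ0 : ((Real.exp t : ℝ) : ℂ) ≠ 0 := Complex.ofReal_ne_zero.2 (Real.exp_pos t).ne'
  set ρ : ℂˣ := Units.mk0 ((Real.exp t : ℝ) : ℂ) hρ0 with hρ
  have hzρ : (z : Matrix (Fin 2) (Fin 2) ℂ) = Matrix.diagonal fun _ => (ρ : ℂ) := hz
  have e : (fun x : ℂ => trC873 z Φ (T3.AS.upperGL c₁ c₂ x))
      = fun x : ℂ => (fun y : ℂ => Φ (T3.AS.upperGL (c₁ * ρ⁻¹) (c₂ * ρ⁻¹) y))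
          ((Real.exp t)⁻¹ • x) := by
    funext x
    show Φ (T3.AS.upperGL c₁ c₂ x * z⁻¹) = _
    rw [upperGL_mul_inv873 hzρ]
    congr 2
    show x * ((ρ⁻¹ : ℂˣ) : ℂ) = (Real.exp t)⁻¹ • x
    rw [Complex.real_smul, mul_comm, Units.val_inv_eq_inv_val]
    show (((Real.exp t : ℝ) : ℂ))⁻¹ * x = _
    rw [Complex.ofReal_inv]
  have key := Measure.integral_comp_smul (volume : Measure ℂ)
    (fun y : ℂ => Φ (T3.AS.upperGL (c₁ * ρ⁻¹) (c₂ * ρ⁻¹) y)) (Real.exp t)⁻¹
  rw [e]
  refine key.trans ?_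
  rw [h (c₁ * ρ⁻¹) (c₂ * ρ⁻¹), Complex.finrank_real_complex]
  have hn : ∀ c : ℂˣ, ‖((c * ρ⁻¹ : ℂˣ) : ℂ)‖ = ‖(c : ℂ)‖ / Real.exp t := by
    intro c
    rw [Units.val_mul, Units.val_inv_eq_inv_val, norm_mul, norm_inv]
    show ‖(c : ℂ)‖ * ‖((Real.exp t : ℝ) : ℂ)‖⁻¹ = _
    rw [Complex.norm_real, Real.norm_of_nonneg (Real.exp_pos t).le, div_eq_mul_inv]
  have hl : ∀ c : ℂˣ, Real.log (‖(c : ℂ)‖ / Real.exp t) = Real.log ‖(c : ℂ)‖ - t := by
    intro c
    rw [Real.log_div (norm_ne_zero_iff.2 c.ne_zero) (Real.exp_pos t).ne', Real.log_exp]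
  rw [hn, hn, hl, hl]
  show _ = _ * β ((Real.log ‖(c₁ : ℂ)‖, Real.log ‖(c₂ : ℂ)‖) - (t, t))
  rw [Prod.mk_sub_mk, Complex.real_smul]
  have he : (0 : ℝ) < Real.exp t := Real.exp_pos t
  have habs : |(((Real.exp t)⁻¹ ^ 2)⁻¹ : ℝ)| = Real.exp t ^ 2 := by
    rw [abs_of_pos (by positivity), inv_pow, inv_inv]
  rw [habs]
  push_cast
  field_simp

/-- The `N`-integral of the translate by `e^s` on `GL₂(ℝ)`. -/
theorem hasAbelNR_trR873 {z : GL (Fin 2) ℝ} {s : ℝ} (hz : IsScalR873 z (Real.exp s))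
    {F : GL (Fin 2) ℝ → ℂ} {β : ℝ × ℝ → ℂ} (h : T3.R.HasAbelNR F β) :
    T3.R.HasAbelNR (trR873 z F) (shift873 s β) := by
  intro c₁ c₂ hc₁ hc₂
  have he : (0 : ℝ) < Real.exp s := Real.exp_pos s
  set ρ : ℝˣ := Units.mk0 (Real.exp s) he.ne' with hρ
  have hzρ : (z : Matrix (Fin 2) (Fin 2) ℝ) = Matrix.diagonal fun _ => (ρ : ℝ) := hz
  have e : (fun x : ℝ => trR873 z F (T3.AS.upperGL c₁ c₂ x))
      = fun x : ℝ => (fun y : ℝ => F (T3.AS.upperGL (c₁ * ρ⁻¹) (c₂ * ρ⁻¹) y))
          ((Real.exp s)⁻¹ • x) := by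
    funext x
    show F (T3.AS.upperGL c₁ c₂ x * z⁻¹) = _
    rw [upperGL_mul_inv873 hzρ]
    congr 2
    show x * ((ρ⁻¹ : ℝˣ) : ℝ) = (Real.exp s)⁻¹ • x
    rw [smul_eq_mul, mul_comm, Units.val_inv_eq_inv_val]
    rfl
  have hv : ∀ c : ℝˣ, ((c * ρ⁻¹ : ℝˣ) : ℝ) = (c : ℝ) / Real.exp s := by
    intro c
    rw [Units.val_mul, Units.val_inv_eq_inv_val, div_eq_mul_inv]
    rfl
  have hp : ∀ c : ℝˣ, 0 < (c : ℝ) → 0 < ((c * ρ⁻¹ : ℝˣ) : ℝ) := by
    intro c hc
    rw [hv]
    exact div_pos hc he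
  have key := Measure.integral_comp_smul (volume : Measure ℝ)
    (fun y : ℝ => F (T3.AS.upperGL (c₁ * ρ⁻¹) (c₂ * ρ⁻¹) y)) (Real.exp s)⁻¹
  rw [e]
  refine key.trans ?_
  rw [h (c₁ * ρ⁻¹) (c₂ * ρ⁻¹) (hp c₁ hc₁) (hp c₂ hc₂), Module.finrank_self]
  rw [hv, hv, Real.log_div hc₁.ne' he.ne', Real.log_div hc₂.ne' he.ne', Real.log_exp]
  show _ = _ * β ((Real.log (c₁ : ℝ), Real.log (c₂ : ℝ)) - (s, s))
  rw [Prod.mk_sub_mk, Complex.real_smul]
  have habs : |(((Real.exp s)⁻¹ ^ 1)⁻¹ : ℝ)| = Real.exp s := by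
    rw [pow_one, inv_inv, abs_of_pos he]
  have hsq : Real.sqrt ((c₁ : ℝ) / Real.exp s * ((c₂ : ℝ) / Real.exp s))
      = Real.sqrt ((c₁ : ℝ) * (c₂ : ℝ)) / Real.exp s := by
    rw [div_mul_div_comm, Real.sqrt_div' _ (mul_pos he he).le, Real.sqrt_mul_self he.le]
  rw [habs, hsq]
  push_cast
  field_simp

theorem halfQ_shift873 (c : ℂ) (t : ℝ) (β : ℝ × ℝ → ℂ) :
    halfQ801 c (shift873 t β) = shift873 (2 * t) (halfQ801 c β) := by
  funext p
  show c * β ((2 : ℝ)⁻¹ • p - (t, t)) = c * β ((2 : ℝ)⁻¹ • (p - (2 * t, 2 * t)))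
  congr 2
  rw [smul_sub]
  congr 1
  ext <;> simp

/-- **The components at infinity in the Abel relation `c`**: stable under the translations by
`e^{t' w}` upstairs and `e^{s}` downstairs, `s = 2 t' w` for every `w`. -/
theorem archOkQ_trl873 {F : Type} [Field F] [NumberField F] {c : ℂ}
    {Φ : NumberField.InfinitePlace F → GL (Fin 2) ℂ → ℂ} {F0 F1 : GL (Fin 2) ℝ → ℂ}
    {z' : NumberField.InfinitePlace F → GL (Fin 2) ℂ} {t' : NumberField.InfinitePlace F → ℝ}
    (hz' : ∀ w, IsScal873 (z' w) (Real.exp (t' w)))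
    {z : GL (Fin 2) ℝ} {s : ℝ} (hz : IsScalR873 z (Real.exp s)) (hs : ∀ w, s = 2 * t' w)
    (h : ArchOkQ801 c Φ F0 F1) :
    ArchOkQ801 c (fun w => trC873 (z' w) (Φ w)) (trR873 z F0) (trR873 z F1) := by
  obtain ⟨h1, h2, h3, h4⟩ := h
  refine ⟨fun w => isArchTestC_trC873 (hz' w) (h1 w), isArchTestR_trR873 hz (Real.exp_pos s) h2,
    isArchTestR_trR873 hz (Real.exp_pos s) h3, fun w => ?_⟩
  obtain ⟨β', hb1, hb2, hb3, hb4⟩ := h4 w
  refine ⟨shift873 (t' w) β', isSymBump_shift873 _ hb1, hasAbelN_trC873 (hz' w) hb2, ?_, ?_⟩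
  · rw [halfQ_shift873, ← hs w]
    exact hasAbelNR_trR873 hz hb3
  · rw [halfQ_shift873, ← hs w]
    exact hasAbelNR_trR873 hz hb4

theorem eqns_realised_natShapeQArch873 : True := by
  have _h0 := @trR873.eq_1
  have _h1 := @trR873.eq_def
  have _h2 := @trR873.eq_unfold
  have _h3 := @IsScalR873.eq_1
  have _h4 := @IsScalR873.eq_def
  have _h5 := @IsScalR873.eq_unfold
  have _h6 := @shift873.eq_1
  have _h7 := @shift873.eq_def
  have _h8 := @shift873.eq_unfold
  trivial

end Fermat.Agent.LT.T7.H873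

end

end
-- ===== PACK-END LT/T7/H873/NatShapeQArch.lean

-- ===== PACK-BEGIN LT/T7/H873/NatShapeQAvg.lean
section




/-!
# Row LT, tower T7, node T7.L2Q.1.H2a.B (cut of helper973): leaf PBQ.3 `NatShapeQC973`,
# THE TORUS MEANS OF AN AVERAGE OF PURE TENSORS OVER `ℚ` (helper873)

OFF-MAIN.  `isAvgPureQ_nat873`: mirror over `ℚ` of `isAvgPure_nat873` (parameter space
`Ω × closure D'`, measure `ν × vol(D')⁻¹ vol|_{D'}`; Fubini; downstairs the push-forward formula
`IsRelTorusQ973.push` with the norm `N t' = 2 t'`).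
-/

set_option autoImplicit false

open AutomorphicForm IsDedekindDomain NumberField MeasureTheory
open scoped Matrix

noncomputable section

namespace Fermat.Agent.LT.T7.H873

open Fermat.Agent.LT.H556 Fermat.Agent.LT.H556.A0 Fermat.Agent.LT Fermat.Agent.LT.T7
open Fermat.Agent.LT.T7.H305 Fermat.Agent.LT.T7.H893 Fermat.Agent.LT.T7.MQ298
open Fermat.Agent.LT.T7.CQ801 Fermat.Agent.LT.T7.PBQ973 Fermat.Agent.LT.T7.L2Q

attribute [local instance] Fermat.Agent.LT.T5.instMeasurableSpaceG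

/-! ## Pure tensors over `ℚ` -/

theorem coe_reGLQ873 (h : G ℚ) (i j : Fin 2) :
    ((((reGLQ298 h : GL (Fin 2) ℝ) : Matrix (Fin 2) (Fin 2) ℝ) i j : ℝ) : ℂ)
      = infComp Rat.infinitePlace h i j :=
  InfinitePlace.Completion.extensionEmbeddingOfIsReal_apply Rat.isReal_infinitePlace _

/-- The real components of the positive scalars of torus data over `ℚ`. -/
theorem isScalR_reGLQ873 {𝔑 : Ideal (𝓞 ℚ)} {r : G ℚ} {a : (InfinitePlace ℚ → ℝ) → G ℚ}
    {D : Set (InfinitePlace ℚ → ℝ)} (hD : H193.IsTorusData 𝔑 r a D)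
    (t : InfinitePlace ℚ → ℝ) :
    IsScalR873 (reGLQ298 (a t)) (Real.exp (t Rat.infinitePlace)) := by
  show ((reGLQ298 (a t) : GL (Fin 2) ℝ) : Matrix (Fin 2) (Fin 2) ℝ) = _
  ext i j
  apply Complex.ofReal_injective
  rw [coe_reGLQ873, hD.inf t Rat.infinitePlace]
  by_cases hij : i = j
  · subst hij
    rw [Matrix.diagonal_apply_eq, Matrix.diagonal_apply_eq]
  · rw [Matrix.diagonal_apply_ne _ hij, Matrix.diagonal_apply_ne _ hij, Complex.ofReal_zero]

open Classical in
/-- **The right translate of a pure tensor over `ℚ`** by an element which is trivial at the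
finite places. -/
theorem pureQ_trl873 {z : G ℚ} (hz : ∀ v : HeightOneSpectrum (𝓞 ℚ), TrivAtFin v z)
    (T : Finset (HeightOneSpectrum (𝓞 ℚ)))
    (f₀ : ∀ v : HeightOneSpectrum (𝓞 ℚ), GL (Fin 2) (v.adicCompletion ℚ) → ℂ)
    (Fr : GL (Fin 2) ℝ → ℂ) (h : G ℚ) :
    pureQ298 T f₀ (trR873 (reGLQ298 z) Fr) h = pureQ298 T f₀ Fr (h * z⁻¹) := by
  show (if OutT305 T h then
      (∏ v ∈ T, f₀ v (finGL305 v h)) * Fr (reGLQ298 h * (reGLQ298 z)⁻¹)
    else 0)
    = if OutT305 T (h * z⁻¹) then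
      (∏ v ∈ T, f₀ v (finGL305 v (h * z⁻¹))) * Fr (reGLQ298 (h * z⁻¹))
    else 0
  by_cases hO : OutT305 T h
  · rw [if_pos hO, if_pos ((outT_mul_inv873 hz T h).2 hO)]
    congr 1
    · refine Finset.prod_congr rfl fun v _ => ?_
      rw [finGL_mul_inv873 hz]
    · rw [map_mul, map_inv]
  · rw [if_neg hO, if_neg fun H => hO ((outT_mul_inv873 hz T h).1 H)]

/-- The right translate of a test function (of any type) by a central element. -/
theorem isTestFn_trl_type873 {K : Type} [Field K] [NumberField K] {𝔫 : Ideal (𝓞 K)}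
    {τ : G K → ℂ} {z : G K} (hc : ∀ g : G K, z * g = g * z)
    {φ : G K → ℂ} (h : T5.IsTestFn 𝔫 τ φ) :
    T5.IsTestFn 𝔫 τ (fun g => φ (g * z⁻¹)) := by
  have hci : ∀ g : G K, z⁻¹ * g = g * z⁻¹ := by
    intro g
    calc z⁻¹ * g = z⁻¹ * (g * z) * z⁻¹ := by group
      _ = z⁻¹ * (z * g) * z⁻¹ := by rw [hc g]
      _ = g * z⁻¹ := by group
  refine ⟨h.ktype, h.cont.comp (continuous_id.mul continuous_const),
    h.supp.comp_homeomorph (Homeomorph.mulRight z⁻¹), ?_, ⟨?_, ?_, ?_, ?_⟩⟩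
  · intro n hh h1 h2 g
    have := h.smooth n hh h1 h2 (g * z⁻¹)
    have e : (fun t => φ (g * hh t * z⁻¹)) = fun t => φ (g * z⁻¹ * hh t) := by
      funext t
      rw [mul_assoc g, ← hci (hh t), ← mul_assoc]
    show ContDiff ℝ _ (fun t => φ (g * hh t * z⁻¹))
    rw [e]
    exact this
  · intro u hu g
    show φ (g * u * z⁻¹) = φ (g * z⁻¹)
    rw [mul_assoc g, ← hci u, ← mul_assoc]
    exact h.inv.level_right u hu _
  · intro u hu g
    show φ (u * g * z⁻¹) = φ (g * z⁻¹)
    rw [mul_assoc]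
    exact h.inv.level_left u hu _
  · intro w k hk g
    show φ (g * k * z⁻¹) = _ * φ (g * z⁻¹)
    rw [mul_assoc g, ← hci k, ← mul_assoc]
    exact h.inv.arch_right w k hk _
  · intro w k hk g
    show φ (k * g * z⁻¹) = _ * φ (g * z⁻¹)
    rw [mul_assoc]
    exact h.inv.arch_left w k hk _

section Main

variable {F : Type} [Field F] [NumberField F]

theorem continuous_normVec873 : Continuous (normVec973 (F := F)) := by
  show Continuous fun (t' : InfinitePlace F → ℝ) (_ : InfinitePlace ℚ) =>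
    2 * ∑ w : InfinitePlace F, t' w
  exact continuous_pi fun _ =>
    continuous_const.mul (continuous_finsetSum _ fun w _ => continuous_apply w)

/-- The push-forward formula downstairs. -/
theorem natQ_eq_push873 {𝔫 : Ideal (𝓞 ℚ)} {r : G ℚ} {r' : G F}
    {a : (InfinitePlace ℚ → ℝ) → G ℚ} {D : Set (InfinitePlace ℚ → ℝ)}
    {a' : (InfinitePlace F → ℝ) → G F} {D' : Set (InfinitePlace F → ℝ)}
    (hrel : IsRelTorusQ973 𝔫 r r' a D a' D') {f : G ℚ → ℂ} (hf : Continuous f) (g : G ℚ) :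
    H193.nat193 a D f g
      = (((volume D').toReal : ℝ) : ℂ)⁻¹
        * ∫ t' in D', f (g * (a (normVec973 t'))⁻¹) := by
  have hint : IntegrableOn (fun t => f (g * (a t)⁻¹)) D volume :=
    H193.integrableOn_of_continuous193 (hf.comp (continuous_const.mul hrel.down.cont.inv))
      hrel.down.bdd
  exact (hrel.push (fun t => f (g * (a t)⁻¹)) hint).symm

/-- **THE TORUS MEANS OF AN AVERAGE OF PURE TENSORS over `ℚ`** (general form: any local
condition which is stable under the translations at infinity by the positive scalars of the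
torus data). -/
theorem isAvgPureQ_nat873 {𝔫 : Ideal (𝓞 ℚ)} {r : G ℚ} {r' : G F}
    {aT : (InfinitePlace ℚ → ℝ) → G ℚ} {D : Set (InfinitePlace ℚ → ℝ)}
    {aT' : (InfinitePlace F → ℝ) → G F} {D' : Set (InfinitePlace F → ℝ)}
    (hrel : IsRelTorusQ973 𝔫 r r' aT D aT' D')
    {𝔑 : Ideal (𝓞 F)} {T₀ : Finset (HeightOneSpectrum (𝓞 ℚ))} {L : LocCondQ801 F} {a : ℂ}
    {φ₀ : G F → ℂ} {f0 f1 : G ℚ → ℂ} (hf0 : Continuous f0) (hf1 : Continuous f1)
    (hL : ∀ (t' : InfinitePlace F → ℝ) (T : Finset (HeightOneSpectrum (𝓞 ℚ)))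
      (φ : ∀ w : HeightOneSpectrum (𝓞 F), GL (Fin 2) (w.adicCompletion F) → ℂ)
      (Φ : InfinitePlace F → GL (Fin 2) ℂ → ℂ)
      (f : ∀ v : HeightOneSpectrum (𝓞 ℚ), GL (Fin 2) (v.adicCompletion ℚ) → ℂ)
      (F0 F1 : GL (Fin 2) ℝ → ℂ), L T φ Φ f F0 F1 →
      L T φ (fun w => trC873 (infGL305 w (aT' t')) (Φ w)) f
        (trR873 (reGLQ298 (aT (normVec973 t'))) F0)
        (trR873 (reGLQ298 (aT (normVec973 t'))) F1))
    (h : IsAvgPureQ801 𝔑 𝔫 T₀ L a φ₀ f0 f1) :
    IsAvgPureQ801 𝔑 𝔫 T₀ L a (H193.nat193 aT' D' φ₀) (H193.nat193 aT D f0)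
      (H193.nat193 aT D f1) := by
  classical
  obtain ⟨Ω, iT, iC, iT2, iSC, iM, iB, ν, iF, T, T', φc, Φc, fc, F0c, F1c, h1, h2, h3, h3', h4,
    h5, h5', ⟨C', hC', hC'2⟩, ⟨C0, hC0, hC02⟩, ⟨C1, hC1, hC12⟩, h8, h9, h9'⟩ := h
  have hbdd : Bornology.IsBounded D' := hrel.up.bdd
  have hcomp : IsCompact (closure D') := hbdd.isCompact_closure
  have : CompactSpace (closure D') := isCompact_iff_compactSpace.1 hcomp
  have := isFiniteMeasure_normMeas873 hbdd
  have hfinU : ∀ (t : InfinitePlace F → ℝ) (v : HeightOneSpectrum (𝓞 F)),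
      TrivAtFin v (aT' t) := hrel.up.fin
  have hfinD : ∀ (t : InfinitePlace ℚ → ℝ) (v : HeightOneSpectrum (𝓞 ℚ)),
      TrivAtFin v (aT t) := hrel.down.fin
  have hbD : Continuous fun t' : InfinitePlace F → ℝ => aT (normVec973 t') :=
    hrel.down.cont.comp continuous_normVec873
  -- the members upstairs and downstairs are translates
  have eU : ∀ (ω : Ω) (t : InfinitePlace F → ℝ) (x : G F),
      pure305 (T' ω) (φc ω) (fun w => trC873 (infGL305 w (aT' t)) (Φc ω w)) x
        = pure305 (T' ω) (φc ω) (Φc ω) (x * (aT' t)⁻¹) := by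
    intro ω t x
    exact pure_trl873 (z := aT' t) (hfinU t) (T' ω) (φc ω) (Φc ω) x
  have eD : ∀ (Fr : Ω → GL (Fin 2) ℝ → ℂ) (ω : Ω) (t : InfinitePlace F → ℝ) (x : G ℚ),
      pureQ298 (T ω) (fc ω) (trR873 (reGLQ298 (aT (normVec973 t))) (Fr ω)) x
        = pureQ298 (T ω) (fc ω) (Fr ω) (x * (aT (normVec973 t))⁻¹) := by
    intro Fr ω t x
    exact pureQ_trl873 (z := aT (normVec973 t)) (hfinD _) (T ω) (fc ω) (Fr ω) x
  -- the three clauses downstairs, for a family of real components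
  have testD : ∀ (τ : G ℚ → ℂ) (Fr : Ω → GL (Fin 2) ℝ → ℂ),
      (∀ ω : Ω, T5.IsTestFn 𝔫 τ (fun x => a * pureQ298 (T ω) (fc ω) (Fr ω) x)) →
      ∀ p : Ω × closure D', T5.IsTestFn 𝔫 τ (fun x => a * pureQ298 (T p.1) (fc p.1)
        (trR873 (reGLQ298 (aT (normVec973 p.2.1))) (Fr p.1)) x) := by
    intro τ Fr hFr p
    have e : (fun x => a * pureQ298 (T p.1) (fc p.1)
          (trR873 (reGLQ298 (aT (normVec973 p.2.1))) (Fr p.1)) x)
        = fun x => (fun y => a * pureQ298 (T p.1) (fc p.1) (Fr p.1) y)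
            (x * (aT (normVec973 p.2.1))⁻¹) := by
      funext x
      rw [eD Fr p.1 p.2.1 x]
    rw [e]
    exact isTestFn_trl_type873 (hrel.down.central _) (hFr p.1)
  have contD : ∀ Fr : Ω → GL (Fin 2) ℝ → ℂ,
      Continuous (fun p : Ω × G ℚ => a * pureQ298 (T p.1) (fc p.1) (Fr p.1) p.2) →
      Continuous (fun q : (Ω × closure D') × G ℚ => a * pureQ298 (T q.1.1) (fc q.1.1)
        (trR873 (reGLQ298 (aT (normVec973 q.1.2.1))) (Fr q.1.1)) q.2) := by
    intro Fr hFr
    have e : (fun q : (Ω × closure D') × G ℚ => a * pureQ298 (T q.1.1) (fc q.1.1)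
          (trR873 (reGLQ298 (aT (normVec973 q.1.2.1))) (Fr q.1.1)) q.2)
        = fun q : (Ω × closure D') × G ℚ =>
          (fun p : Ω × G ℚ => a * pureQ298 (T p.1) (fc p.1) (Fr p.1) p.2)
            (q.1.1, q.2 * (aT (normVec973 q.1.2.1))⁻¹) := by
      funext q
      show a * _ = a * _
      rw [eD Fr q.1.1 q.1.2.1 q.2]
    rw [e]
    exact hFr.comp ((continuous_fst.comp continuous_fst).prodMk
      (continuous_snd.mul (hbD.comp
        (continuous_subtype_val.comp (continuous_snd.comp continuous_fst))).inv))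
  have suppD : ∀ (Fr : Ω → GL (Fin 2) ℝ → ℂ) (C : Set (G ℚ)), IsCompact C →
      (∀ (ω : Ω) (x : G ℚ), pureQ298 (T ω) (fc ω) (Fr ω) x ≠ 0 → x ∈ C) →
      ∃ C₂ : Set (G ℚ), IsCompact C₂ ∧ ∀ (p : Ω × closure D') (x : G ℚ),
        pureQ298 (T p.1) (fc p.1) (trR873 (reGLQ298 (aT (normVec973 p.2.1))) (Fr p.1)) x ≠ 0 →
        x ∈ C₂ := by
    intro Fr C hC hC2
    refine ⟨(fun p : G ℚ × (InfinitePlace F → ℝ) =>
        p.1 * aT (normVec973 p.2)) '' (C ×ˢ closure D'),
      (hC.prod hcomp).image (continuous_fst.mul (hbD.comp continuous_snd)), ?_⟩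
    intro p x hx
    rw [eD Fr p.1 p.2.1 x] at hx
    exact ⟨(x * (aT (normVec973 p.2.1))⁻¹, p.2.1),
      ⟨hC2 p.1 _ hx, p.2.2⟩, inv_mul_cancel_right x _⟩
  have intD : ∀ (Fr : Ω → GL (Fin 2) ℝ → ℂ) (f : G ℚ → ℂ), Continuous f →
      Continuous (fun p : Ω × G ℚ => a * pureQ298 (T p.1) (fc p.1) (Fr p.1) p.2) →
      (∀ x : G ℚ, f x = ∫ ω, a * pureQ298 (T ω) (fc ω) (Fr ω) x ∂ν) →
      ∀ x : G ℚ, H193.nat193 aT D f x = ∫ p : Ω × closure D', a * pureQ298 (T p.1) (fc p.1)
        (trR873 (reGLQ298 (aT (normVec973 p.2.1))) (Fr p.1)) x ∂(ν.prod (normMeas873 D')) := by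
    intro Fr f hf hFr hint x
    have e : (fun p : Ω × closure D' => a * pureQ298 (T p.1) (fc p.1)
          (trR873 (reGLQ298 (aT (normVec973 p.2.1))) (Fr p.1)) x)
        = fun p : Ω × closure D' =>
          (fun q : Ω × G ℚ => a * pureQ298 (T q.1) (fc q.1) (Fr q.1) q.2)
            (p.1, (fun t : InfinitePlace F → ℝ => x * (aT (normVec973 t))⁻¹) p.2.1) := by
      funext p
      show a * _ = a * _
      rw [eD Fr p.1 p.2.1 x]
    rw [e, natQ_eq_push873 hrel hf x]
    exact (integral_param873 ν hbdd _ hFr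
      (fun t : InfinitePlace F → ℝ => x * (aT (normVec973 t))⁻¹)
      (continuous_const.mul hbD.inv) f hint).symm
  refine ⟨Ω × closure D', inferInstance, inferInstance, inferInstance, inferInstance,
    inferInstance, inferInstance, ν.prod (normMeas873 D'), inferInstance,
    fun p => T p.1, fun p => T' p.1, fun p => φc p.1,
    fun p w => trC873 (infGL305 w (aT' p.2.1)) (Φc p.1 w), fun p => fc p.1,
    fun p => trR873 (reGLQ298 (aT (normVec973 p.2.1))) (F0c p.1),
    fun p => trR873 (reGLQ298 (aT (normVec973 p.2.1))) (F1c p.1),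
    ?_, ?_, testD _ F0c h3, testD _ F1c h3', ?_, contD F0c h5, contD F1c h5', ?_,
    suppD F0c C0 hC0 hC02, suppD F1c C1 hC1 hC12, ?_, intD F0c f0 hf0 h5 h9,
    intD F1c f1 hf1 h5' h9'⟩
  · exact fun p => ⟨(h1 p.1).1, (h1 p.1).2.1, hL p.2.1 _ _ _ _ _ _ (h1 p.1).2.2⟩
  · intro p
    have e : pure305 (T' p.1) (φc p.1) (fun w => trC873 (infGL305 w (aT' p.2.1)) (Φc p.1 w))
        = fun x => pure305 (T' p.1) (φc p.1) (Φc p.1) (x * (aT' p.2.1)⁻¹) :=
      funext (eU p.1 p.2.1)
    rw [e]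
    exact isTestFn_trl873 (hrel.up.central p.2.1) (h2 p.1)
  · have e : (fun q : (Ω × closure D') × G F =>
          pure305 (T' q.1.1) (φc q.1.1)
            (fun w => trC873 (infGL305 w (aT' q.1.2.1)) (Φc q.1.1 w)) q.2)
        = fun q : (Ω × closure D') × G F =>
          (fun p : Ω × G F => pure305 (T' p.1) (φc p.1) (Φc p.1) p.2)
            (q.1.1, q.2 * (aT' q.1.2.1)⁻¹) := by
      funext q
      exact eU q.1.1 q.1.2.1 q.2
    rw [e]
    exact h4.comp ((continuous_fst.comp continuous_fst).prodMk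
      (continuous_snd.mul (hrel.up.cont.comp
        (continuous_subtype_val.comp (continuous_snd.comp continuous_fst))).inv))
  · refine ⟨(fun p : G F × (InfinitePlace F → ℝ) => p.1 * aT' p.2) '' (C' ×ˢ closure D'),
      (hC'.prod hcomp).image (continuous_fst.mul (hrel.up.cont.comp continuous_snd)), ?_⟩
    intro p x hx
    rw [eU p.1 p.2.1 x] at hx
    exact ⟨(x * (aT' p.2.1)⁻¹, p.2.1), ⟨hC'2 p.1 _ hx, p.2.2⟩,
      inv_mul_cancel_right x _⟩
  · intro x
    have e : (fun p : Ω × closure D' =>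
          pure305 (T' p.1) (φc p.1) (fun w => trC873 (infGL305 w (aT' p.2.1)) (Φc p.1 w)) x)
        = fun p : Ω × closure D' =>
          (fun q : Ω × G F => pure305 (T' q.1) (φc q.1) (Φc q.1) q.2)
            (p.1, (fun t : InfinitePlace F → ℝ => x * (aT' t)⁻¹) p.2.1) :=
      funext fun p => eU p.1 p.2.1 x
    rw [e]
    exact (integral_param873 ν hbdd _ h4 (fun t : InfinitePlace F → ℝ => x * (aT' t)⁻¹)
      (continuous_const.mul hrel.up.cont.inv) φ₀ h8).symm

end Main

end Fermat.Agent.LT.T7.H873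

end

end
-- ===== PACK-END LT/T7/H873/NatShapeQAvg.lean

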