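import Mathlib
import Fermat.Agent.Pack.LT4.E9L3
import Fermat.Agent.Pack.LT2.E11L2
import Fermat.Agent.Pack.LT2.E7L3
import Fermat.Agent.Pack.LT2.E20L1
import Fermat.Agent.Pack.LT4.E9L0
import Fermat.Agent.Pack.LT4.E8L2
import Fermat.Agent.Pack.LT4.E9L1
import Fermat.Agent.Pack.LT3.E8L2
import Fermat.Agent.Pack.LT3.E27L2
import Fermat.Agent.Pack.LT4.E2L1
import Fermat.Agent.Pack.LT3.E29L2
import Fermat.Agent.Pack.LT4.E4L3
import Fermat.Agent.Pack.LT4.E8L1
import Fermat.Agent.Pack.LT4.E1L3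
import Fermat.Agent.Pack.LT4.E3L3
import Fermat.Agent.Pack.LT4.E9L2

set_option linter.all false

-- ===== PACK-BEGIN LT/H17/MasterTowers.lean
section






/-!
# Row LT -- MASTER of the towers (row-lead helper17), OFF-MAIN

ONE import closure: the frozen S47 (as `LTB.S47Statement`) from the tops of the towers which end in
a wall leaf (A2 -> `A2_556`, T7 -> `A3c_556`, `A3q_556`, T8 -> `PAR556`), with IDENT (helper701)
and the dictionary `A6_556` (helper556) closed.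

v0: the hypotheses are the LEVEL-1 Props of the three towers (bytes of the tower Specs of
helper950@17cdc7aa9, helper797 T7/Spec v1, helper19@6d7f2471b).  The lower towers (T1-T6, CFT)
enter through the `Closed.lean` files of the architects as they arrive.
-/

set_option autoImplicit false

namespace Fermat.Agent.LT.H17

open Fermat.Agent.LT.H556.WT

/-- The level-1 state of tower A2 (14 Props). -/
structure A2Level1 : Prop where
  galSeed : Fermat.Agent.LT.A2.GalSeedC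
  torusChar : Fermat.Agent.LT.A2.TorusCharC
  weilLocal : Fermat.Agent.LT.A2.WeilLocalC
  poisson2 : Fermat.Agent.LT.A2.Poisson2C
  hasseNorm : Fermat.Agent.LT.A2.HasseNormC
  thetaInv : Fermat.Agent.LT.A2.ThetaInvC
  liftEx : Fermat.Agent.LT.A2.LiftExC
  whitEx : Fermat.Agent.LT.A2.WhitExC
  exp : Fermat.Agent.LT.A2.ExpC
  inv : Fermat.Agent.LT.A2.InvC
  adeleQuot : Fermat.Agent.LT.A2.AdeleQuotC
  cuspOfWhit : Fermat.Agent.LT.A2.CuspOfWhitC
  meanOfWhit : Fermat.Agent.LT.A2.MeanOfWhitC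
  neZeroOfWhit : Fermat.Agent.LT.A2.NeZeroOfWhitC

/-- The level-1 state of tower T7 (4 nodes + 8 leaves without trace formula; T7/Spec
sha256 76a196044a64). -/
structure T7Level1 : Prop where
  desc : Fermat.Agent.LT.T7.DescAll
  descQ : Fermat.Agent.LT.T7.DescQ3All
  thin : Fermat.Agent.LT.T7.ThinC
  rigid : Fermat.Agent.LT.T7.RigidAll
  twist : Fermat.Agent.LT.T7.TwistAll
  conj : Fermat.Agent.LT.T7.ConjAll
  descTrivFrom : Fermat.Agent.LT.T7.DescTrivFromC
  midUniqueFrom : Fermat.Agent.LT.T7.MidUniqueFromC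
  midStableFrom : Fermat.Agent.LT.T7.MidStableFromUniqueC
  dictEF : Fermat.Agent.LT.T7.DictEFC
  dictFQ : Fermat.Agent.LT.T7.DictFQC
  sqrt : Fermat.Agent.LT.T7.SqrtC

/-- The level-1 state of tower T8 (4 Props). -/
structure T8Level1 : Prop where
  centralEven : Fermat.Agent.LT.H19.CentralEven556
  heckeSeq : Fermat.Agent.LT.T8.HeckeSeqC
  horo : Fermat.Agent.LT.T8.HoroC
  horoCoeff : Fermat.Agent.LT.T8.HoroCoeffC

theorem a2_556_of_level1_17 (h : A2Level1) : A2_556 :=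
  Fermat.Agent.LT.A2.a2_top h.galSeed h.torusChar h.weilLocal h.poisson2 h.hasseNorm h.thetaInv
    h.liftEx h.whitEx h.exp h.inv h.adeleQuot h.cuspOfWhit h.meanOfWhit h.neZeroOfWhit

theorem a3_556_of_level1_17 (h : T7Level1) : A3c_556 ∧ A3q_556 :=
  Fermat.Agent.LT.T7.top h.desc h.descQ h.thin h.rigid h.twist h.conj h.descTrivFrom
    h.midUniqueFrom h.midStableFrom h.dictEF h.dictFQ h.sqrt

theorem par556_of_level1_17 (h : T8Level1) : PAR556 :=
  Fermat.Agent.LT.T8.top h.centralEven h.heckeSeq h.horo h.horoCoeff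

/-- **MASTER v0**: the frozen S47 from the level-1 Props of the towers A2, T7, T8. -/
theorem master_s47_of_level1_17 (hA2 : A2Level1) (hT7 : T7Level1) (hT8 : T8Level1) :
    LTB.S47Statement :=
  master_s47_of_four17 (a2_556_of_level1_17 hA2) (a3_556_of_level1_17 hT7).1
    (a3_556_of_level1_17 hT7).2 (par556_of_level1_17 hT8)

/-! ## State 14:00Z: tower T8 is CLOSED (`par556_468`, helper468 + helper19/47/51/864) -/

/-- The frozen S47 from the THREE remaining wall leaves. -/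
theorem master_s47_of_three17 (h2 : A2_556) (h3c : A3c_556) (h3q : A3q_556) :
    LTB.S47Statement :=
  master_s47_of_four17 h2 h3c h3q Fermat.Agent.LT.T8.H468.par556_468

/-- **MASTER v1**: the frozen S47 from the level-1 Props of the towers A2 and T7. -/
theorem master_s47_of_A2_T7_17 (hA2 : A2Level1) (hT7 : T7Level1) : LTB.S47Statement :=
  master_s47_of_three17 (a2_556_of_level1_17 hA2) (a3_556_of_level1_17 hT7).1
    (a3_556_of_level1_17 hT7).2

end Fermat.Agent.LT.H17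

end
-- ===== PACK-END LT/H17/MasterTowers.lean

-- ===== PACK-BEGIN LT/T7/H949/OpAvgLoc.lean
section







/-!
# Row LT, tower T7, node T7.L2Q.1.H2b.4.G1 `PQ563.OpAvgQC563` (registry row 2967, helper949):
# the local components and the pure tensors

OFF-MAIN, ADDITIVE (all names end in `949`).  Nothing assumed.  The definitions of the Specs
are unfolded by `show` only.

* left invariance of the components: `unitFn893 n` under `U(n)`, `iwFn893` and
  `PT563.iwRegFn563` under the Iwahori subgroup, spherical functions under `U(0)`;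
* `regLoc_iwFn949` : `P51.regLoc51 w z H k j iwFn893 = PT563.iwRegFn563 (N w) k j`;
* pure tensors: congruence in the components at the places of `T`, left invariance under the
  elements whose components leave the components of the tensor invariant.
-/

set_option autoImplicit false
set_option linter.unusedSectionVars false

open AutomorphicForm IsDedekindDomain NumberField

noncomputable section

namespace Fermat.Agent.LT.T7.H949

open Fermat.Agent.LT.H556 Fermat.Agent.LT.H556.A0 Fermat.Agent.LT.T7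
open Fermat.Agent.LT.T7.H305 Fermat.Agent.LT.T7.H893 Fermat.Agent.LT.T7.MQ298
open Fermat.Agent.LT

/-! ## 1. Local facts -/

section Local

variable {k : Type} [Field k] [Valued k T6.Γ₀]

theorem exp_neg_lt_one949 {n : ℕ} (hn : 1 ≤ n) :
    (WithZero.exp (-(n : ℤ)) : T6.Γ₀) < 1 := by
  rw [← WithZero.exp_zero, WithZero.exp_lt_exp]
  omega

theorem inIw_of_inU949 {n : ℕ} (hn : 1 ≤ n) {u : GL (Fin 2) k} (hu : T6.InU n u) :
    InIw893 u := by
  have h0 : (WithZero.exp (-((0 : ℕ) : ℤ)) : T6.Γ₀) = 1 := by simp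
  refine ⟨fun i j => ?_, fun i j => ?_, ?_⟩
  · have := T6.H777.small_of_inU777 hu i j
    rwa [h0] at this
  · have := T6.H777.small_inv_of_inU777 hu i j
    rwa [h0] at this
  · have h1 := ((T6.H777.inU_iff777 n u).1 hu).1 1 0
    have e : ((u : Matrix (Fin 2) (Fin 2) k) - 1) 1 0 = (u : Matrix (Fin 2) (Fin 2) k) 1 0 := by
      simp
    rw [e] at h1
    exact lt_of_le_of_lt h1 (exp_neg_lt_one949 hn)

theorem inIw_mul949 {a b : GL (Fin 2) k} (ha : InIw893 a) (hb : InIw893 b) :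
    InIw893 (a * b) :=
  H340.isIwG340_mul (v := (Valued.v : Valuation k _)) ha hb

theorem inIw_inv949 {a : GL (Fin 2) k} (ha : InIw893 a) : InIw893 a⁻¹ :=
  H340.isIwG340_inv (v := (Valued.v : Valuation k _)) ha

theorem inIw_mul_iff949 {u x : GL (Fin 2) k} (hu : InIw893 u) :
    InIw893 (u * x) ↔ InIw893 x := by
  constructor
  · intro h
    have := inIw_mul949 (inIw_inv949 hu) h
    rwa [inv_mul_cancel_left] at this
  · exact fun h => inIw_mul949 hu h

open Classical in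
theorem iwFn_left949 {u : GL (Fin 2) k} (hu : InIw893 u) (x : GL (Fin 2) k) :
    iwFn893 (u * x) = iwFn893 x := by
  show (if InIw893 (u * x) then (1 : ℂ) else 0) = if InIw893 x then (1 : ℂ) else 0
  exact if_congr (inIw_mul_iff949 hu) rfl rfl

open Classical in
theorem unitFn_left949 {n : ℕ} {u : GL (Fin 2) k} (hu : T6.InU n u) (x : GL (Fin 2) k) :
    unitFn893 n (u * x) = unitFn893 n x := by
  show (if T6.InU n (u * x) then (1 : ℂ) else 0) = if T6.InU n x then (1 : ℂ) else 0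
  refine if_congr ⟨fun h => ?_, fun h => T6.H777.inU_mul777 hu h⟩ rfl rfl
  have := T6.H777.inU_mul777 (T6.H777.inU_inv777 hu) h
  rwa [inv_mul_cancel_left] at this

theorem sph_left949 {φ : GL (Fin 2) k → ℂ} {A : (ℤ × ℤ) →₀ ℂ} (h : IsSphFn893 φ A)
    {u : GL (Fin 2) k} (hu : T6.InU 0 u) (x : GL (Fin 2) k) : φ (u * x) = φ x := by
  have e := H129.cartan_mul129 (g := x) hu (T6.H777.inU_one777 0)
  rw [mul_one] at e
  rw [h.2 (u * x), h.2 x, e]

/-- The condition of `PT563.iwRegFn563`. -/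
def IwRegSet949 (e : ℤ) (m : ℕ) (x : GL (Fin 2) k) : Prop :=
  ∃ (a b : GL (Fin 2) k) (c d : k), InIw893 a ∧ InIw893 b ∧
    Valued.v c = WithZero.exp (-(m : ℤ)) ∧ Valued.v d = WithZero.exp (-e) ∧
    (x : Matrix (Fin 2) (Fin 2) k)
      = d • ((a : Matrix (Fin 2) (Fin 2) k) * !![c, 0; 0, 1] * (b : Matrix (Fin 2) (Fin 2) k))

theorem iwRegSet_mul949 {e : ℤ} {m : ℕ} {u x : GL (Fin 2) k} (hu : InIw893 u)
    (hx : IwRegSet949 e m x) : IwRegSet949 e m (u * x) := by
  obtain ⟨a, b, c, d, ha, hb, hc, hd, hx⟩ := hx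
  refine ⟨u * a, b, c, d, inIw_mul949 hu ha, hb, hc, hd, ?_⟩
  rw [Units.val_mul, hx, Units.val_mul, Matrix.mul_smul, Matrix.mul_assoc, Matrix.mul_assoc,
    Matrix.mul_assoc]

open Classical in
theorem iwRegFn_left949 (q : ℕ) (e : ℤ) (m : ℕ) {u : GL (Fin 2) k} (hu : InIw893 u)
    (x : GL (Fin 2) k) :
    PT563.iwRegFn563 q e m (u * x) = PT563.iwRegFn563 q e m x := by
  show (if IwRegSet949 e m (u * x) then (((Real.sqrt (q : ℝ) : ℝ) : ℂ)⁻¹) ^ m else 0)
    = if IwRegSet949 e m x then (((Real.sqrt (q : ℝ) : ℝ) : ℂ)⁻¹) ^ m else 0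
  refine if_congr ⟨fun h => ?_, fun h => iwRegSet_mul949 hu h⟩ rfl rfl
  have := iwRegSet_mul949 (inIw_inv949 hu) h
  rwa [inv_mul_cancel_left] at this

end Local

/-! ## 2. The regular local function -/

section Reg

variable {K : Type} [Field K] [NumberField K]

theorem iwLoc_iterate949 {w : HeightOneSpectrum (𝓞 K)} {H : Finset (G K)}
    (hH : IsIwCosetSystem w H) (m : ℕ) :
    (P51.iwLoc51 w H)^[m] iwFn893 = PT563.iwRegFn563 (Ideal.absNorm w.asIdeal) 0 m := by
  induction m with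
  | zero => rw [Function.iterate_zero, id, H756.iwRegFn_zero_zero756]
  | succ m ih =>
    rw [Function.iterate_succ_apply', ih]
    funext x
    exact H756.iwReg_step756 w hH (Ideal.absNorm w.asIdeal) m x

theorem regLoc_iwFn949 {w : HeightOneSpectrum (𝓞 K)} {z : G K} {H : Finset (G K)}
    (hH : IsIwCosetSystem w H) (hz : IsScalarUniformizerAt w z) (e : ℤ) (m : ℕ) :
    P51.regLoc51 w z H e m iwFn893 = PT563.iwRegFn563 (Ideal.absNorm w.asIdeal) e m := by
  obtain ⟨_, c, hc, hzc⟩ := hz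
  funext y
  show ((P51.iwLoc51 w H)^[m] iwFn893) ((finGL305 w z ^ e)⁻¹ * y) = _
  rw [iwLoc_iterate949 hH m]
  exact H756.iwReg_shift756 _ m e hc (s := finGL305 w z)
    (by rw [H756.coe_finGL756]; exact hzc) y

/-- The component at `w` of an element of the Iwahori subgroup at `w`. -/
theorem inIw_finGL949 {w : HeightOneSpectrum (𝓞 K)} {h : G K} (hh : T5.InIwahori w h) :
    InIw893 (finGL305 w h) := by
  obtain ⟨h1, h2, h3⟩ := hh
  refine ⟨fun i j => ?_, fun i j => ?_, ?_⟩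
  · rw [H756.coe_finGL756]
    exact (HeightOneSpectrum.mem_adicCompletionIntegers (𝓞 K) K w).1 (h1 i j)
  · rw [H756.coe_finGL_inv756]
    exact (HeightOneSpectrum.mem_adicCompletionIntegers (𝓞 K) K w).1 (h2 i j)
  · rw [H756.coe_finGL756]
    exact h3

/-- The exponent of the level at a place which divides it is positive. -/
theorem level_pos949 {𝔑 : Ideal (𝓞 K)} {n : HeightOneSpectrum (𝓞 K) → ℕ}
    (hlev : IsLevelOf893 𝔑 n) {w : HeightOneSpectrum (𝓞 K)} (hw : w.asIdeal ∣ 𝔑) :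
    1 ≤ n w := by
  by_contra hn
  have h0 : n w = 0 := by omega
  have h1 : (1 : w.adicCompletion K) ∈ idealClosure 𝔑 w := by
    rw [hlev w 1, h0]
    simp
  have := H209.val_lt_one_of_mem_idealClosure209 hw h1
  rw [map_one] at this
  exact lt_irrefl _ this

end Reg

/-! ## 3. Pure tensors -/

section Pure

variable {K : Type} [Field K] [NumberField K]

open Classical in
theorem pure_congr949 {T : Finset (HeightOneSpectrum (𝓞 K))}
    {f₀ f₀' : ∀ v : HeightOneSpectrum (𝓞 K), GL (Fin 2) (v.adicCompletion K) → ℂ}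
    (F : InfinitePlace K → GL (Fin 2) ℂ → ℂ) (h : ∀ v ∈ T, f₀ v = f₀' v) (y : G K) :
    pure305 T f₀ F y = pure305 T f₀' F y := by
  show (if OutT305 T y then
      (∏ v ∈ T, f₀ v (finGL305 v y)) * ∏ w : InfinitePlace K, F w (infGL305 w y) else 0)
    = if OutT305 T y then
      (∏ v ∈ T, f₀' v (finGL305 v y)) * ∏ w : InfinitePlace K, F w (infGL305 w y) else 0
  rw [Finset.prod_congr rfl fun v hv => by rw [h v hv]]

open Classical in
theorem pureQ_congr949 {T : Finset (HeightOneSpectrum (𝓞 ℚ))}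
    {f₀ f₀' : ∀ v : HeightOneSpectrum (𝓞 ℚ), GL (Fin 2) (v.adicCompletion ℚ) → ℂ}
    (Fr : GL (Fin 2) ℝ → ℂ) (h : ∀ v ∈ T, f₀ v = f₀' v) (y : G ℚ) :
    pureQ298 T f₀ Fr y = pureQ298 T f₀' Fr y := by
  show (if OutT305 T y then (∏ v ∈ T, f₀ v (finGL305 v y)) * Fr (reGLQ298 y) else 0)
    = if OutT305 T y then (∏ v ∈ T, f₀' v (finGL305 v y)) * Fr (reGLQ298 y) else 0
  rw [Finset.prod_congr rfl fun v hv => by rw [h v hv]]

theorem outT_inv949 {T : Finset (HeightOneSpectrum (𝓞 K))} {u : G K}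
    (hout : ∀ v : HeightOneSpectrum (𝓞 K), v ∉ T → T6.InU 0 (finGL305 v u)) :
    OutT305 T u⁻¹ := by
  rw [H756.outT_iff756]
  intro v hv
  rw [map_inv]
  exact T6.H777.inU_inv777 (hout v hv)

/-- Left invariance of a pure tensor under an element which is trivial at infinity, integral
outside `T`, and whose components at the places of `T` leave the components invariant. -/
theorem pure_left949 {T : Finset (HeightOneSpectrum (𝓞 K))} {u : G K}
    (hinf : ∀ w : InfinitePlace K, infGL305 w u = 1)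
    (hout : ∀ v : HeightOneSpectrum (𝓞 K), v ∉ T → T6.InU 0 (finGL305 v u))
    {f₀ : ∀ v : HeightOneSpectrum (𝓞 K), GL (Fin 2) (v.adicCompletion K) → ℂ}
    (F : InfinitePlace K → GL (Fin 2) ℂ → ℂ)
    (hf : ∀ v ∈ T, ∀ x, f₀ v (finGL305 v u * x) = f₀ v x) (y : G K) :
    pure305 T f₀ F (u * y) = pure305 T f₀ F y := by
  have hTr := H102.trPureC102 K T u⁻¹ (outT_inv949 hout) f₀ F y
  rw [inv_inv] at hTr
  rw [hTr]
  have eF : (fun (w : InfinitePlace K) (x : GL (Fin 2) ℂ) => F w ((infGL305 w u⁻¹)⁻¹ * x)) = F := by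
    funext w x
    rw [map_inv, inv_inv, hinf w, one_mul]
  rw [eF]
  refine pure_congr949 F (fun v hv => ?_) y
  funext x
  rw [map_inv, inv_inv]
  exact hf v hv x

/-- The same over `ℚ`. -/
theorem pureQ_left949 {T : Finset (HeightOneSpectrum (𝓞 ℚ))} {u : G ℚ}
    (hinf : reGLQ298 u = 1)
    (hout : ∀ v : HeightOneSpectrum (𝓞 ℚ), v ∉ T → T6.InU 0 (finGL305 v u))
    {f₀ : ∀ v : HeightOneSpectrum (𝓞 ℚ), GL (Fin 2) (v.adicCompletion ℚ) → ℂ}
    (Fr : GL (Fin 2) ℝ → ℂ)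
    (hf : ∀ v ∈ T, ∀ x, f₀ v (finGL305 v u * x) = f₀ v x) (y : G ℚ) :
    pureQ298 T f₀ Fr (u * y) = pureQ298 T f₀ Fr y := by
  have hTr := H102.trPureQC102 T u⁻¹ (outT_inv949 hout) f₀ Fr y
  rw [inv_inv] at hTr
  rw [hTr]
  have eF : (fun (x : GL (Fin 2) ℝ) => Fr ((reGLQ298 u⁻¹)⁻¹ * x)) = Fr := by
    funext x
    rw [map_inv, inv_inv, hinf, one_mul]
  rw [eF]
  refine pureQ_congr949 Fr (fun v hv => ?_) y
  funext x
  rw [map_inv, inv_inv]
  exact hf v hv x

end Pure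

/-! ## 4. Places -/

section Places

variable {K K' : Type} [Field K] [NumberField K] [Field K'] [NumberField K'] [Algebra K K']

theorem placeOver_unique949 {v v' : HeightOneSpectrum (𝓞 K)} {w : HeightOneSpectrum (𝓞 K')}
    (h : PlaceOver K K' v w) (h' : PlaceOver K K' v' w) : v = v' := by
  apply HeightOneSpectrum.ext
  ext x
  have e : ((algebraMap (𝓞 K) (𝓞 K') x : 𝓞 K') : K') = algebraMap K K' (x : K) := rfl
  exact (h x _ e).trans (h' x _ e).symm

/-- A place which divides the extension of a non-zero ideal lies over a place which divides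
the ideal. -/
theorem exists_under949 {𝔫 : Ideal (𝓞 K)} (h𝔫 : 𝔫 ≠ ⊥) {w : HeightOneSpectrum (𝓞 K')}
    (hw : w.asIdeal ∣ upI (K' := K') 𝔫) :
    ∃ v : HeightOneSpectrum (𝓞 K), PlaceOver K K' v w ∧ v.asIdeal ∣ 𝔫 := by
  have hle : 𝔫 ≤ Ideal.comap (algebraMap (𝓞 K) (𝓞 K')) w.asIdeal := by
    intro x hx
    exact Ideal.le_of_dvd hw (Ideal.mem_map_of_mem _ hx)
  have hprime : (Ideal.comap (algebraMap (𝓞 K) (𝓞 K')) w.asIdeal).IsPrime :=
    Ideal.comap_isPrime _ _
  have hne : Ideal.comap (algebraMap (𝓞 K) (𝓞 K')) w.asIdeal ≠ ⊥ := by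
    intro e
    rw [e, le_bot_iff] at hle
    exact h𝔫 hle
  refine ⟨⟨_, hprime, hne⟩, ?_, Ideal.dvd_iff_le.2 hle⟩
  intro x y hxy
  have e : y = algebraMap (𝓞 K) (𝓞 K') x := by
    apply RingOfIntegers.ext
    rw [hxy]
    rfl
  rw [e]
  exact Iff.rfl

end Places

end Fermat.Agent.LT.T7.H949

end

end
-- ===== PACK-END LT/T7/H949/OpAvgLoc.lean

-- ===== PACK-BEGIN LT/T7/H949/OpAvgQ.lean
section






/-!
# Row LT, tower T7, node T7.L2Q.1.H2b.4.G1 `PQ563.OpAvgQC563` (registry row 2967, helper949)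

OFF-MAIN, ADDITIVE (all names end in `949`).  Nothing assumed.

    opAvgQC949 (F) : PQ563.OpAvgQC563 F      (VERBATIM, unconditional)

The operated second triple is an average of pure tensors of shape `PQ563.LocOpQ563` over the
SAME parameter space with the SAME measure: the new components are the double coset functions
at the bad places, `PT563.iwRegFn563` at `o 0` and at `u` (`= P51.regLoc51 … iwFn893`,
`regLoc_iwFn949`), the old ones elsewhere.  The members are the images of the old members under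
finite combinations of left translations (`OpAvgKit.lean`); pure tensors: PT.5
(`H756.lsumDblC756`), PT.6 (`H756.regLPureC756`, `H756.regLPureQC756`), PT.4
(`H102.trPureC102`, `H102.trPureQC102`); test functions: the kit of helper209.
-/

set_option autoImplicit false
set_option linter.unusedSectionVars false
set_option linter.unusedVariables false

open AutomorphicForm IsDedekindDomain NumberField MeasureTheory

noncomputable section

namespace Fermat.Agent.LT.T7.H949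

open Fermat.Agent.LT.H556 Fermat.Agent.LT.H556.A0 Fermat.Agent.LT.T7
  Fermat.Agent.LT.T7.H305 Fermat.Agent.LT.T7.L2Q Fermat.Agent.LT.T7.H893
  Fermat.Agent.LT.T7.H962 Fermat.Agent.LT.T7.H732 Fermat.Agent.LT.T7.MQ298
  Fermat.Agent.LT.T7.CQ801
open Fermat.Agent.LT

variable {F : Type} [Field F] [NumberField F]

/-- `w` lies over a bad place different from `u`. -/
def IsBadOver949 (B : L2Q.H60.L2QBase F) (T₀ : Finset (HeightOneSpectrum (𝓞 ℚ)))
    (w : HeightOneSpectrum (𝓞 F)) : Prop :=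
  ∃ v ∈ T₀, v ≠ B.u ∧ PlaceOver ℚ F v w

open Classical in
/-- The finite components upstairs of the operated pure tensors. -/
def opUp949 (B : L2Q.H60.L2QBase F) (g : G F) (T₀ : Finset (HeightOneSpectrum (𝓞 ℚ)))
    (n₀ : HeightOneSpectrum (𝓞 F) → ℕ) (k : ℤ) (j : ℕ)
    (φ₀ : ∀ w : HeightOneSpectrum (𝓞 F), GL (Fin 2) (w.adicCompletion F) → ℂ) :
    ∀ w : HeightOneSpectrum (𝓞 F), GL (Fin 2) (w.adicCompletion F) → ℂ :=
  fun w => if IsBadOver949 B T₀ w then dblFn893 (n₀ w) (finGL305 w g)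
    else Function.update φ₀ (B.o 0)
      (PT563.iwRegFn563 (Ideal.absNorm (B.o 0).asIdeal) k j) w

open Classical in
/-- The finite components downstairs of the operated pure tensors. -/
def opDn949 (B : L2Q.H60.L2QBase F) (k : ℤ) (j : ℕ)
    (f₀ : ∀ v : HeightOneSpectrum (𝓞 ℚ), GL (Fin 2) (v.adicCompletion ℚ) → ℂ) :
    ∀ v : HeightOneSpectrum (𝓞 ℚ), GL (Fin 2) (v.adicCompletion ℚ) → ℂ :=
  Function.update f₀ B.u (PT563.iwRegFn563 (Ideal.absNorm B.u.asIdeal) k j)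

theorem opUp_bad949 (B : L2Q.H60.L2QBase F) (g : G F) (T₀ : Finset (HeightOneSpectrum (𝓞 ℚ)))
    (n₀ : HeightOneSpectrum (𝓞 F) → ℕ) (k : ℤ) (j : ℕ)
    (φ₀ : ∀ w : HeightOneSpectrum (𝓞 F), GL (Fin 2) (w.adicCompletion F) → ℂ)
    {w : HeightOneSpectrum (𝓞 F)} (hw : IsBadOver949 B T₀ w) :
    opUp949 B g T₀ n₀ k j φ₀ w = dblFn893 (n₀ w) (finGL305 w g) := by
  unfold opUp949
  exact if_pos hw

open Classical in
theorem opUp_good949 (B : L2Q.H60.L2QBase F) (g : G F) (T₀ : Finset (HeightOneSpectrum (𝓞 ℚ)))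
    (n₀ : HeightOneSpectrum (𝓞 F) → ℕ) (k : ℤ) (j : ℕ)
    (φ₀ : ∀ w : HeightOneSpectrum (𝓞 F), GL (Fin 2) (w.adicCompletion F) → ℂ)
    {w : HeightOneSpectrum (𝓞 F)} (hw : ¬ IsBadOver949 B T₀ w) :
    opUp949 B g T₀ n₀ k j φ₀ w
      = Function.update φ₀ (B.o 0)
          (PT563.iwRegFn563 (Ideal.absNorm (B.o 0).asIdeal) k j) w := by
  unfold opUp949
  exact if_neg hw

theorem upI_ne_bot949 {𝔫 : Ideal (𝓞 ℚ)} (h : 𝔫 ≠ ⊥) : upI (K' := F) 𝔫 ≠ ⊥ := by
  intro e
  apply h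
  have hinj : Function.Injective (algebraMap (𝓞 ℚ) (𝓞 F)) :=
    FaithfulSMul.algebraMap_injective (𝓞 ℚ) (𝓞 F)
  exact (Ideal.map_eq_bot_iff_of_injective hinj).1 e

/-- **NODE PS.G1 = OP-AVG over `ℚ`.** -/
theorem opAvgQC949 (F : Type) [Field F] [NumberField F] : PQ563.OpAvgQC563 F := by
  classical
  intro Φ B g 𝔫 μr μc T₀ n n₀ m hctx c ca hc hca E hE𝔫 hop havg k j
  subst hE𝔫
  obtain ⟨Ω, iT, iC, iT2, iSC, iM, iB, ν, iF, T, T', φ₀, Φ', f₀, F0, F1, hL, htU, htD0, htD1,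
    hcU, hcD0, hcD1, hsU, hsD0, hsD1, hiU, hiD0, hiD1⟩ := havg
  have hbase := hctx.base
  have hsysD : IsIwCosetSystem B.u E.H := hop.sys
  have hunifD : IsScalarUniformizerAt B.u E.z := hop.unif
  have hsysU : IsIwCosetSystem (B.o 0) E.H' := hop.sys'
  have hunifU : IsScalarUniformizerAt (B.o 0) E.z' := hop.unif'
  have hbad := hctx.bad
  have hlev_n₀ := hctx.lev_n₀
  -- the level and the orbit
  have hu_T₀ : B.u ∈ T₀ := (hctx.mem_T₀ B.u).2 hop.u_level
  have ho_dvd : ∀ i : ℕ, (B.o i).asIdeal ∣ B.𝔑₀ := fun i =>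
    (hbase.mem_S' _).1 (hbase.orbit_level i)
  have hn₀pos : ∀ i : ℕ, 1 ≤ n₀ (B.o i) := fun i => level_pos949 hlev_n₀ (ho_dvd i)
  have h𝔑₀ne : B.𝔑₀ ≠ ⊥ := by
    intro e
    have h1 : upI (K' := F) E.𝔫 ≤ B.𝔑₀ := hop.level_g
    rw [e, le_bot_iff] at h1
    exact upI_ne_bot949 hop.level_ne h1
  have hnotBad : ∀ i : ℕ, ¬ IsBadOver949 B T₀ (B.o i) := by
    rintro i ⟨v, _, hne, hvw⟩
    exact hne (placeOver_unique949 hvw (hbase.orbit_over i))
  have ho10 : B.o 1 ≠ B.o 0 := hbase.orbit_ne 1 one_pos (by norm_num)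
  -- the elements of the systems are trivial at infinity
  have hHgT : ∀ h ∈ E.Hg, H209.TrivInf209 h := by
    intro h hh
    obtain ⟨u₁, u₂, hu₁, hu₂, rfl⟩ := hop.sysg.1 h hh
    exact H209.trivInf_mul209 (H209.trivInf_mul209 hu₁.1 hbad.1) hu₂.1
  have hH'T : ∀ h ∈ E.H', H209.TrivInf209 h := fun h hh => (hop.sys'.2.1 h hh).1.1
  have hz'T : H209.TrivInf209 E.z' := hop.unif'.1.1
  have hHT : ∀ h ∈ E.H, H209.TrivInf209 h := fun h hh => (hop.sys.2.1 h hh).1.1
  have hzT : H209.TrivInf209 E.z := hop.unif.1.1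
  -- per parameter
  have hoT' : ∀ (a : Ω) (i : ℕ), B.o i ∈ T' a := fun a i =>
    ((hL a).2.1 _).2 ⟨B.u, (hL a).1 hu_T₀, hbase.orbit_over i⟩
  have hφo : ∀ (a : Ω) (i : ℕ), φ₀ a (B.o i) = iwFn893 := fun a i =>
    (hL a).2.2.2.2.2.1 (B.o i) (hbase.orbit_over i)
  have hfu : ∀ a : Ω, f₀ a B.u = iwFn893 := fun a => (hL a).2.2.2.2.1
  -- left invariance of the old components upstairs
  have hcomp : ∀ (a : Ω) (v : HeightOneSpectrum (𝓞 F)), v ∈ T' a →
      ∀ (u x : GL (Fin 2) (v.adicCompletion F)), T6.InU (n₀ v) u →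
        φ₀ a v (u * x) = φ₀ a v x := by
    intro a v hv u x hu
    obtain ⟨hT₀a, hOver, _, hunit, _, _, hsph, _⟩ := hL a
    obtain ⟨v', hv', hvw⟩ := (hOver v).1 hv
    by_cases h0 : v' ∈ T₀
    · by_cases hu' : v' = B.u
      · rw [hu'] at hvw
        obtain ⟨i, _, rfl⟩ := hbase.orbit_all v hvw
        rw [hφo a i]
        exact iwFn_left949 (inIw_of_inU949 (hn₀pos i) hu) x
      · rw [hunit v' h0 hu' v hvw]
        exact unitFn_left949 hu x
    · obtain ⟨A, Av, _, hA, _, _⟩ := hsph v' hv' h0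
      exact sph_left949 (hA v hvw) (H756.inU_zero_of_inU756 hu) x
  -- the pointwise identity upstairs
  have hU : ∀ (a : Ω) (y : G F),
      lsum E.Hg (regL (B.o 0) E.z' E.H' k j (pure305 (T' a) (φ₀ a) (Φ' a))) y
        = pure305 (T' a) (opUp949 B g T₀ n₀ k j (φ₀ a)) (Φ' a) y := by
    intro a y
    obtain ⟨hT₀a, hOver, _, hunit, _, _, _, _⟩ := hL a
    have e1 : regL (B.o 0) E.z' E.H' k j (pure305 (T' a) (φ₀ a) (Φ' a))
        = pure305 (T' a) (Function.update (φ₀ a) (B.o 0)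
            (PT563.iwRegFn563 (Ideal.absNorm (B.o 0).asIdeal) k j)) (Φ' a) :=
      funext fun y => H756.regLPureC756 F (B.o 0) E.z' E.H' hop.sys' hop.unif' (T' a)
        (hoT' a 0) (φ₀ a) (Φ' a) (hφo a 0) k j y
    rw [e1]
    have hPT' : ∀ w, IsBadOver949 B T₀ w → w ∈ T' a := fun w hw => by
      obtain ⟨v, hv, _, hvw⟩ := hw
      exact (hOver w).2 ⟨v, hT₀a hv, hvw⟩
    have hmemS : ∀ w, w ∈ (T' a).filter (IsBadOver949 B T₀) ↔ IsBadOver949 B T₀ w := fun w => by
      rw [Finset.mem_filter]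
      exact ⟨fun h => h.2, fun h => ⟨hPT' w h, h⟩⟩
    have e2 := H756.lsumDblC756 F B.𝔑₀ n₀ h𝔑₀ne hlev_n₀ g
      ((T' a).filter (IsBadOver949 B T₀)) hbad.1
      (by
        intro v hv
        rw [hmemS] at hv
        apply hbad.2
        by_cases hS : v ∈ B.S'
        · right
          obtain ⟨v', hvw, hv'⟩ := exists_under949 hop.level_ne ((hop.mem_S'_g v).1 hS)
          by_cases hu' : v' = B.u
          · rw [hu'] at hvw
            exact hbase.orbit_all v hvw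
          · exact (hv ⟨v', (hctx.mem_T₀ v').2 hv', hu', hvw⟩).elim
        · exact Or.inl hS)
      E.Hg hop.sysg (T' a) (Finset.filter_subset _ _)
      (Function.update (φ₀ a) (B.o 0)
        (PT563.iwRegFn563 (Ideal.absNorm (B.o 0).asIdeal) k j)) (Φ' a)
      (by
        intro v hv
        rw [hmemS] at hv
        have hne : v ≠ B.o 0 := fun e => hnotBad 0 (e ▸ hv)
        rw [Function.update_of_ne hne]
        obtain ⟨v', hv', hne', hvw⟩ := hv
        exact hunit v' hv' hne' v hvw)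
      (by
        intro v hv hvS u x hu
        by_cases hv0 : v = B.o 0
        · subst hv0
          rw [Function.update_self]
          exact iwRegFn_left949 _ k j (inIw_of_inU949 (hn₀pos 0) hu) x
        · rw [Function.update_of_ne hv0]
          exact hcomp a v hv u x hu)
      y
    rw [e2]
    refine pure_congr949 (Φ' a) (fun v hv => ?_) y
    by_cases hP : IsBadOver949 B T₀ v
    · rw [opUp_bad949 B g T₀ n₀ k j (φ₀ a) hP]
      exact if_pos ((hmemS v).2 hP)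
    · rw [opUp_good949 B g T₀ n₀ k j (φ₀ a) hP]
      exact if_neg (fun h => hP ((hmemS v).1 h))
  -- left invariance of the old pure tensors upstairs
  have hLInv : ∀ a : Ω, H209.IsLInv209 B.𝔑₀ 2 B.o (pure305 (T' a) (φ₀ a) (Φ' a)) := by
    intro a
    refine ⟨fun u hu y => ?_, fun h h1 h2 h3 y => ?_⟩
    · obtain ⟨hinf, hU'⟩ := (H756.inLevelGroup_iff_inU756 hlev_n₀ u).1 hu
      exact pure_left949 hinf (fun v _ => H756.inU_zero_of_inU756 (hU' v)) (Φ' a)
        (fun v hv x => hcomp a v hv _ x (hU' v)) y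
    · refine pure_left949 (fun w => (H756.trivAtInf_iff_infGL756 w h).1 (h1 w))
        (fun v hv => ?_) (Φ' a) (fun v hv x => ?_) y
      · have : finGL305 v h = 1 := (H756.trivAtFin_iff_finGL756 v h).1
          (h2 v (fun i _ e => hv (e ▸ hoT' a i)))
        rw [this]
        exact T6.H777.inU_one777 0
      · by_cases hvo : ∃ i < 2, v = B.o i
        · obtain ⟨i, hi, rfl⟩ := hvo
          rw [hφo a i]
          exact iwFn_left949 (inIw_finGL949 (h3 i hi)) x
        · have : finGL305 v h = 1 := (H756.trivAtFin_iff_finGL756 v h).1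
            (h2 v (fun i hi e => hvo ⟨i, hi, e⟩))
          rw [this, one_mul]
  -- the members upstairs
  have hopU : IsFinTr949 (fun ψ : G F → ℂ => lsum E.Hg (regL (B.o 0) E.z' E.H' k j ψ)) :=
    isFinTr_comp949 (A := lsum E.Hg) (B := regL (B.o 0) E.z' E.H' k j)
      (isFinTr_lsum949 E.Hg) (isFinTr_regL949 (B.o 0) E.z' E.H' k j)
  have hAvgU : IsAvgFam949 ν (fun a => pure305 (T' a) (opUp949 B g T₀ n₀ k j (φ₀ a)) (Φ' a))
      (lsum E.Hg (regL (B.o 0) E.z' E.H' k j E.φ₂)) :=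
    isAvgFam_congr949 (isAvgFam_op949 hopU ⟨hcU, hsU, hiU⟩) hU
  have htU' : ∀ a : Ω, T5.IsTestFn (upI (K' := F) E.𝔫) T5.trivType
      (pure305 (T' a) (opUp949 B g T₀ n₀ k j (φ₀ a)) (Φ' a)) := by
    intro a
    have e : pure305 (T' a) (opUp949 B g T₀ n₀ k j (φ₀ a)) (Φ' a)
        = lsum E.Hg (regL (B.o 0) E.z' E.H' k j (pure305 (T' a) (φ₀ a) (Φ' a))) :=
      funext fun y => (hU a y).symm
    rw [e]
    refine H209.isTestFn_of_isRT209 (htU a).ktype
      (H209.isRT_lsum209 hHgT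
        (H209.isRT_regL209 (B.o 0) hz'T hH'T k j (H209.isRT_of_isTestFn209 (htU a))))
      (fun u hu y => ?_)
    exact H209.lsum_dbl_left_inv209 hop.sysg
      (H209.isLInv_regL209 (l := 2) (by norm_num) (ho_dvd 0) hop.sys' hop.unif' k j
        (hLInv a)).1
      (H209.inLevelGroup_mono209 hop.level_g hu) y
  -- downstairs, for the two weights
  have hopD : IsFinTr949 (regL B.u E.z E.H k j) := isFinTr_regL949 B.u E.z E.H k j
  have hDn : ∀ (τ : G ℚ → ℂ) (Fr : Ω → GL (Fin 2) ℝ → ℂ) (f : G ℚ → ℂ),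
      (∀ a : Ω, T5.IsTestFn E.𝔫 τ (fun h => ca * pureQ298 (T a) (f₀ a) (Fr a) h)) →
      Continuous (fun p : Ω × G ℚ => ca * pureQ298 (T p.1) (f₀ p.1) (Fr p.1) p.2) →
      (∃ C : Set (G ℚ), IsCompact C ∧
        ∀ (a : Ω) (h : G ℚ), pureQ298 (T a) (f₀ a) (Fr a) h ≠ 0 → h ∈ C) →
      (∀ h : G ℚ, f h = ∫ a, ca * pureQ298 (T a) (f₀ a) (Fr a) h ∂ν) →
      (∀ a : Ω, T5.IsTestFn E.𝔫 τ
        (fun h => ca * pureQ298 (T a) (opDn949 B k j (f₀ a)) (Fr a) h)) ∧
      Continuous (fun p : Ω × G ℚ =>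
        ca * pureQ298 (T p.1) (opDn949 B k j (f₀ p.1)) (Fr p.1) p.2) ∧
      (∃ C : Set (G ℚ), IsCompact C ∧
        ∀ (a : Ω) (h : G ℚ), pureQ298 (T a) (opDn949 B k j (f₀ a)) (Fr a) h ≠ 0 → h ∈ C) ∧
      ∀ h : G ℚ, regL B.u E.z E.H k j f h
        = ∫ a, ca * pureQ298 (T a) (opDn949 B k j (f₀ a)) (Fr a) h ∂ν := by
    intro τ Fr f ht hcn hsp hin
    -- the pointwise identity downstairs
    have hD : ∀ (a : Ω) (y : G ℚ),
        regL B.u E.z E.H k j (fun h => ca * pureQ298 (T a) (f₀ a) (Fr a) h) y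
          = ca * pureQ298 (T a) (opDn949 B k j (f₀ a)) (Fr a) y := by
      intro a y
      rw [isFinTr_const_mul949 hopD ca (pureQ298 (T a) (f₀ a) (Fr a)) y,
        H756.regLPureQC756 B.u E.z E.H hop.sys hop.unif (T a) ((hL a).1 hu_T₀) (f₀ a) (Fr a)
          (hfu a) k j y]
      rfl
    have hAvg : IsAvgFam949 ν
        (fun a h => ca * pureQ298 (T a) (opDn949 B k j (f₀ a)) (Fr a) h)
        (regL B.u E.z E.H k j f) := by
      refine isAvgFam_congr949 (isAvgFam_op949 hopD ⟨hcn, ?_, hin⟩) hD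
      obtain ⟨C, hC, hCs⟩ := hsp
      exact ⟨C, hC, fun a h hne => hCs a h (right_ne_zero_of_mul hne)⟩
    refine ⟨fun a => ?_, hAvg.cont, ?_, hAvg.int⟩
    · have e : (fun h => ca * pureQ298 (T a) (opDn949 B k j (f₀ a)) (Fr a) h)
          = regL B.u E.z E.H k j (fun h => ca * pureQ298 (T a) (f₀ a) (Fr a) h) :=
        funext fun y => (hD a y).symm
      rw [e]
      have hLI : H209.IsLInv209 E.𝔫 1 (fun _ => B.u)
          (fun h => ca * pureQ298 (T a) (f₀ a) (Fr a) h) := by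
        refine ⟨fun u hu y => (ht a).inv.level_left u hu y, fun h h1 h2 h3 y => ?_⟩
        have hloc : IsLocalAtFin B.u h := ⟨h1, fun v hv => h2 v (fun _ _ => hv)⟩
        show ca * pureQ298 (T a) (f₀ a) (Fr a) (h * y) = ca * pureQ298 (T a) (f₀ a) (Fr a) y
        rw [pureQ_left949 (H756.reGLQ_eq_one756 hloc) (fun v hv => ?_) (Fr a)
          (fun v hv x => ?_) y]
        · have : finGL305 v h = 1 := (H756.trivAtFin_iff_finGL756 v h).1
            (hloc.2 v (fun e => hv (e ▸ (hL a).1 hu_T₀)))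
          rw [this]
          exact T6.H777.inU_one777 0
        · by_cases hvu : v = B.u
          · subst hvu
            rw [hfu a]
            exact iwFn_left949 (inIw_finGL949 (h3 0 one_pos)) x
          · have : finGL305 v h = 1 := (H756.trivAtFin_iff_finGL756 v h).1 (hloc.2 v hvu)
            rw [this, one_mul]
      exact H209.isTestFn_of_isRTT209 (ht a).ktype
        (H209.isRTT_regL209 B.u hzT hHT k j (H209.isRTT_of_isTestFn209 (ht a)))
        (fun u hu y => (H209.isLInv_regL209 (l := 1) (o := fun _ => B.u) one_pos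
          hop.u_level hop.sys hop.unif k j hLI).1 u hu y)
    · obtain ⟨C, hC, hCs⟩ := hAvg.supp
      exact ⟨C, hC, fun a h hne => hCs a h (mul_ne_zero hca hne)⟩
  obtain ⟨htD0', hcD0', hsD0', hiD0'⟩ := hDn _ F0 _ htD0 hcD0 hsD0 hiD0
  obtain ⟨htD1', hcD1', hsD1', hiD1'⟩ := hDn _ F1 _ htD1 hcD1 hsD1 hiD1
  refine ⟨Ω, iT, iC, iT2, iSC, iM, iB, ν, iF, T, T',
    fun a => opUp949 B g T₀ n₀ k j (φ₀ a), Φ', fun a => opDn949 B k j (f₀ a), F0, F1,
    fun a => ?_, htU', htD0', htD1', hAvgU.cont, hcD0', hcD1', hAvgU.supp, hsD0', hsD1',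
    hAvgU.int, hiD0', hiD1'⟩
  -- the shape
  obtain ⟨hT₀a, hOver, hLocB⟩ := hL a
  refine ⟨hT₀a, hOver, φ₀ a, f₀ a, hLocB, fun v hv hne => ⟨?_, fun w hvw => ?_⟩, ?_, ?_, ?_,
    fun v hv hv0 => ⟨?_, fun w hvw => ?_⟩⟩
  · exact Function.update_of_ne hne _ _
  · exact opUp_bad949 B g T₀ n₀ k j (φ₀ a) ⟨v, hv, hne, hvw⟩
  · show opDn949 B k j (f₀ a) B.u = P51.regLoc51 B.u E.z E.H k j iwFn893
    rw [regLoc_iwFn949 hsysD hunifD]
    exact Function.update_self _ _ _
  · show opUp949 B g T₀ n₀ k j (φ₀ a) (B.o 0) = P51.regLoc51 (B.o 0) E.z' E.H' k j iwFn893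
    rw [regLoc_iwFn949 hsysU hunifU, opUp_good949 B g T₀ n₀ k j (φ₀ a) (hnotBad 0)]
    exact Function.update_self _ _ _
  · show opUp949 B g T₀ n₀ k j (φ₀ a) (B.o 1) = iwFn893
    rw [opUp_good949 B g T₀ n₀ k j (φ₀ a) (hnotBad 1), Function.update_of_ne ho10]
    exact hφo a 1
  · have hne : v ≠ B.u := fun e => hv0 (e ▸ hu_T₀)
    exact Function.update_of_ne hne _ _
  · have hnb : ¬ IsBadOver949 B T₀ w := by
      rintro ⟨v', hv', _, hv'w⟩
      exact hv0 (placeOver_unique949 hv'w hvw ▸ hv')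
    have hne : w ≠ B.o 0 := by
      intro e
      rw [e] at hvw
      exact hv0 (placeOver_unique949 (hbase.orbit_over 0) hvw ▸ hu_T₀)
    show opUp949 B g T₀ n₀ k j (φ₀ a) w = φ₀ a w
    rw [opUp_good949 B g T₀ n₀ k j (φ₀ a) hnb]
    exact Function.update_of_ne hne _ _

end Fermat.Agent.LT.T7.H949

end

end
-- ===== PACK-END LT/T7/H949/OpAvgQ.lean

-- ===== PACK-BEGIN LT/T7/H846/StepSQ.lean
section






/-!
# Row LT, tower T7, node T7.L2Q.1.H2a.A.2 `PQ484.StepSQC484` (registry row 2956, helper846)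

OFF-MAIN.  Complete proofs, nothing assumed.

    stepSQC846 (F) : PQ484.StepSQC484 F              (VERBATIM, UNCONDITIONAL)

PORT over `ℚ` (`ℓ = 2`, TWO types downstairs) of the closed cubic node `B981.StepSC981`
(`B981.SS503.stepSC503`, helper503): `x = S_w^{± 1}`, `w ∉ S'`; `v` the prime under `w`, `fr`
the residue degree; `z'` a scalar uniformiser at `w`, `z` a scalar uniformiser at `v`:

    φ' = φ(· z'^{∓ 1}),      f' t = f t (· z^{∓ fr})        (both types `t`).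

New with respect to the cubic step: (1) right translation by a power of a scalar uniformiser
preserves test functions of EVERY `K_∞`-type (`trTestTy846`); (2) the pure tensors over `ℚ`
(`MQ298.pureQ298`, one real component) are shifted as the pure tensors `pure305`
(`pureShiftQ846`); (3) `IsBCDataQ` is stated with the prime number `p` under `w`
(`absNorm_eq_prime846`).  The leaves of the cubic step (`UnifC503`, `TrEKC503`, `TrSuppC503`,
`TrOpC503`, `PlacesC503`, `SphShiftC503`, `UnitSphC503`, `PureShiftC503`) are statements over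
one number field or over a general extension, and are used as they are; `SS503.sphOut_new503`
is used as it is (`K = ℚ`, `K' = F`, `ℓ = 2`).  Unramifiedness outside `S'`:
`H644.unramQC644`; `IsCycExt ℚ F 2`: `H546.isCycExt_of_isImagQuad546c`.

No definition of another file is unfolded by `unfold` / `simp` / `rw` (only `show`, `rfl`,
`if_pos` / `if_neg` and projections).
-/

set_option autoImplicit false

open AutomorphicForm IsDedekindDomain NumberField MeasureTheory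
open scoped ComplexConjugate

noncomputable section

namespace Fermat.Agent.LT.T7.H846Q

open Fermat.Agent.LT.H556 Fermat.Agent.LT.H556.A0 Fermat.Agent.LT.T7 Fermat.Agent.LT.T7.H305
  Fermat.Agent.LT.T7.L2Q Fermat.Agent.LT.T7.H893 Fermat.Agent.LT.T7.H962
  Fermat.Agent.LT.T7.H732 Fermat.Agent.LT.T7.MQ298 Fermat.Agent.LT.T7.CQ801
  Fermat.Agent.LT.T7.PQ484 Fermat.Agent.LT.T7.B981.SS503

attribute [local instance] Fermat.Agent.LT.T5.instMeasurableSpaceG

/-! ## 1. Test functions of every type -/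

section TrTest

variable {K : Type} [Field K] [NumberField K]

/-- **TR-TEST for every `K_∞`-type** (the proof of `B981.H519.trTestC519`). -/
theorem trTestTy846 (𝔫 : Ideal (𝓞 K)) (τ : G K → ℂ) {v : HeightOneSpectrum (𝓞 K)} {z : G K}
    (hz : IsScalarUniformizerAt v z) (t : ℤ) {φ : G K → ℂ} (hφ : T5.IsTestFn 𝔫 τ φ) :
    T5.IsTestFn 𝔫 τ (rtr503 (z ^ t) φ) := by
  have hcomm : ∀ g : G K, g * z ^ t = z ^ t * g := B981.H519.scalarUnif_zpow_comm519 hz t
  have hmove : ∀ g h : G K, g * h * z ^ t = g * z ^ t * h := by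
    intro g h
    rw [mul_assoc, hcomm h, ← mul_assoc]
  refine ⟨hφ.ktype, ?_, ?_, ?_, ⟨?_, ?_, ?_, ?_⟩⟩
  · exact hφ.cont.comp (continuous_mul_const (z ^ t))
  · exact hφ.supp.comp_homeomorph (Homeomorph.mulRight (z ^ t))
  · intro n h hfin hsm g
    have h0 := hφ.smooth n h hfin hsm (g * z ^ t)
    have e : (fun s => rtr503 (z ^ t) φ (g * h s)) = fun s => φ (g * z ^ t * h s) := by
      funext s
      rw [rtr_apply503, hmove]
    rw [e]
    exact h0
  · intro u hu g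
    rw [rtr_apply503, rtr_apply503, hmove]
    exact hφ.inv.level_right u hu (g * z ^ t)
  · intro u hu g
    rw [rtr_apply503, rtr_apply503, mul_assoc]
    exact hφ.inv.level_left u hu (g * z ^ t)
  · intro w k hk g
    rw [rtr_apply503, rtr_apply503, hmove]
    exact hφ.inv.arch_right w k hk (g * z ^ t)
  · intro w k hk g
    rw [rtr_apply503, rtr_apply503, mul_assoc]
    exact hφ.inv.arch_left w k hk (g * z ^ t)

end TrTest

/-! ## 2. The pure tensors over `ℚ` -/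

section PureQ

theorem pureQ_pos846 {T : Finset (HeightOneSpectrum (𝓞 ℚ))}
    (f₀ : ∀ v : HeightOneSpectrum (𝓞 ℚ), GL (Fin 2) (v.adicCompletion ℚ) → ℂ)
    (Fr : GL (Fin 2) ℝ → ℂ) {h : G ℚ} (hO : OutT305 T h) :
    pureQ298 T f₀ Fr h = (∏ v ∈ T, f₀ v (finGL305 v h)) * Fr (reGLQ298 h) :=
  if_pos hO

theorem pureQ_neg846 {T : Finset (HeightOneSpectrum (𝓞 ℚ))}
    (f₀ : ∀ v : HeightOneSpectrum (𝓞 ℚ), GL (Fin 2) (v.adicCompletion ℚ) → ℂ)
    (Fr : GL (Fin 2) ℝ → ℂ) {h : G ℚ} (hO : ¬ OutT305 T h) :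
    pureQ298 T f₀ Fr h = 0 :=
  if_neg hO

/-- The real component of an element which is trivial at infinity. -/
theorem reGL_eq_one846 {z : G ℚ} (hz : TrivAtInf Rat.infinitePlace z) : reGLQ298 z = 1 := by
  apply Units.ext
  ext i j
  show (InfinitePlace.Completion.extensionEmbeddingOfIsReal Rat.isReal_infinitePlace)
      (((z : Matrix (Fin 2) (Fin 2) (Adl ℚ)) i j).1 Rat.infinitePlace)
        = (1 : Matrix (Fin 2) (Fin 2) ℝ) i j
  rw [hz i j]
  by_cases hij : i = j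
  · rw [hij, Matrix.one_apply_eq, Matrix.one_apply_eq, map_one]
  · rw [Matrix.one_apply_ne hij, Matrix.one_apply_ne hij, map_zero]

/-- **PURE-EXT for `extU503` over `ℚ`.** -/
theorem pureQ_extU846 {T S : Finset (HeightOneSpectrum (𝓞 ℚ))} (hTS : T ⊆ S)
    (f₀ : ∀ v : HeightOneSpectrum (𝓞 ℚ), GL (Fin 2) (v.adicCompletion ℚ) → ℂ)
    (Fr : GL (Fin 2) ℝ → ℂ) (y : G ℚ) :
    pureQ298 S (extU503 T f₀) Fr y = pureQ298 T f₀ Fr y := by
  classical
  by_cases hOT : OutT305 T y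
  · have hOT' := (H802.outT_iff802 T y).1 hOT
    have hOS : OutT305 S y := fun v hv => hOT v (fun hvT => hv (hTS hvT))
    rw [pureQ_pos846 _ _ hOS, pureQ_pos846 _ _ hOT]
    congr 1
    rw [← Finset.prod_subset hTS (fun v _ hvT => by
      rw [H802.extU_notMem802 f₀ hvT]
      exact H802.unitFn_pos802 (hOT' v hvT))]
    exact Finset.prod_congr rfl (fun v hv => by rw [H802.extU_mem802 f₀ hv])
  · rw [pureQ_neg846 _ _ hOT]
    by_cases hOS : OutT305 S y
    · rw [pureQ_pos846 _ _ hOS]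
      have hex : ∃ v : HeightOneSpectrum (𝓞 ℚ), v ∉ T ∧ ¬ T6.InU 0 (finGL305 v y) := by
        by_contra hcon
        apply hOT
        rw [H802.outT_iff802]
        intro v hv
        by_contra hv'
        exact hcon ⟨v, hv, hv'⟩
      obtain ⟨v, hvT, hv⟩ := hex
      have hvS : v ∈ S := by
        by_contra hvS
        exact hv ((H802.outT_iff802 S y).1 hOS v hvS)
      have h0 : ∏ v' ∈ S, extU503 T f₀ v' (finGL305 v' y) = 0 := by
        refine Finset.prod_eq_zero hvS ?_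
        rw [H802.extU_notMem802 f₀ hvT]
        exact H802.unitFn_neg802 hv
      rw [h0, zero_mul]
    · exact pureQ_neg846 _ _ hOS

open Classical in
/-- **PURE-SHIFT over `ℚ`.** -/
theorem pureShiftQ846 (T P : Finset (HeightOneSpectrum (𝓞 ℚ)))
    (f₀ : ∀ v : HeightOneSpectrum (𝓞 ℚ), GL (Fin 2) (v.adicCompletion ℚ) → ℂ)
    (Fr : GL (Fin 2) ℝ → ℂ) (v : HeightOneSpectrum (𝓞 ℚ)) (hvP : v ∈ P)
    (z : G ℚ) (hz : IsScalarUniformizerAt v z) (t : ℤ) (h : G ℚ) :
    pureQ298 (T ∪ P) (trC503 v (finGL305 v (z ^ t)) (extU503 T f₀)) Fr h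
      = pureQ298 T f₀ Fr (h * z ^ t) := by
  obtain ⟨⟨hzinf, hzfin⟩, -⟩ := hz
  have hvS : v ∈ T ∪ P := Finset.mem_union_right T hvP
  have hfin : ∀ v' : HeightOneSpectrum (𝓞 ℚ), v' ≠ v →
      finGL305 v' (h * z ^ t) = finGL305 v' h := by
    intro v' hv'
    rw [map_mul, map_zpow, H802.finGL_eq_one802 (hzfin v' hv'), one_zpow, mul_one]
  have hinf : reGLQ298 (h * z ^ t) = reGLQ298 h := by
    rw [map_mul, map_zpow, reGL_eq_one846 (hzinf Rat.infinitePlace), one_zpow, mul_one]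
  have hcomp : ∀ v' : HeightOneSpectrum (𝓞 ℚ),
      trC503 v (finGL305 v (z ^ t)) (extU503 T f₀) v' (finGL305 v' h)
        = extU503 T f₀ v' (finGL305 v' (h * z ^ t)) := by
    intro v'
    by_cases hv' : v' = v
    · subst hv'
      show Function.update (extU503 T f₀) v'
          (fun x => extU503 T f₀ v' (x * finGL305 v' (z ^ t))) v' (finGL305 v' h) = _
      rw [Function.update_self, map_mul]
    · show Function.update (extU503 T f₀) v
          (fun x => extU503 T f₀ v (x * finGL305 v (z ^ t))) v' (finGL305 v' h) = _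
      rw [Function.update_of_ne hv', hfin v' hv']
  have hOut : OutT305 (T ∪ P) h ↔ OutT305 (T ∪ P) (h * z ^ t) := by
    rw [H802.outT_iff802, H802.outT_iff802]
    refine forall_congr' fun v' => imp_congr_right fun hv'S => ?_
    have hne : v' ≠ v := fun e => hv'S (e ▸ hvS)
    rw [hfin v' hne]
  have hL : pureQ298 (T ∪ P) (trC503 v (finGL305 v (z ^ t)) (extU503 T f₀)) Fr h
      = pureQ298 (T ∪ P) (extU503 T f₀) Fr (h * z ^ t) := by
    by_cases hO : OutT305 (T ∪ P) h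
    · rw [pureQ_pos846 _ _ hO, pureQ_pos846 _ _ (hOut.1 hO), hinf]
      congr 1
      exact Finset.prod_congr rfl (fun v' _ => hcomp v')
    · rw [pureQ_neg846 _ _ hO, pureQ_neg846 _ _ (fun hO' => hO (hOut.2 hO'))]
  rw [hL]
  exact pureQ_extU846 Finset.subset_union_left f₀ Fr (h * z ^ t)

end PureQ

/-! ## 3. The prime number under a place of `ℚ` -/

section Prime

/-- The norm of the place of `ℚ` which contains the prime number `p` is `p`. -/
theorem absNorm_eq_prime846 {v : HeightOneSpectrum (𝓞 ℚ)} {p : ℕ} (hp : p.Prime)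
    (hpv : ((p : ℕ) : 𝓞 ℚ) ∈ v.asIdeal) : Ideal.absNorm v.asIdeal = p := by
  have hspan : v.asIdeal = Ideal.span {((p : ℕ) : 𝓞 ℚ)} := by
    ext x
    rw [H546.mem_iff_dvd546c v.isPrime.ne_top hp hpv, Ideal.mem_span_singleton]
    constructor
    · rintro ⟨c, hc⟩
      refine ⟨Rat.ringOfIntegersEquiv.symm c, ?_⟩
      apply Rat.ringOfIntegersEquiv.injective
      rw [hc, map_mul, RingEquiv.apply_symm_apply, map_natCast]
    · rintro ⟨c, rfl⟩
      rw [map_mul, map_natCast]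
      exact ⟨Rat.ringOfIntegersEquiv c, rfl⟩
  rw [hspan, Ideal.absNorm_span_singleton]
  have h1 : ((p : ℕ) : 𝓞 ℚ) = algebraMap ℤ (𝓞 ℚ) (p : ℤ) := by simp
  rw [h1, Algebra.norm_algebraMap, RingOfIntegers.rank, Module.finrank_self, pow_one]
  exact Int.natAbs_natCast p

end Prime

/-! ## 4. The local shape of the shifted triple -/

section Shape

variable {F : Type} [Field F] [NumberField F]

open Classical in
/-- **The local condition of the shifted components** (`LocAQ801`). -/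
theorem locAQ_new846 (hSh : SphShiftC503) (hUn : UnitSphC503) (c : ℂ)
    {T₀ T : Finset (HeightOneSpectrum (𝓞 ℚ))} {T' : Finset (HeightOneSpectrum (𝓞 F))}
    {n : HeightOneSpectrum (𝓞 F) → ℕ} {m : HeightOneSpectrum (𝓞 ℚ) → ℕ}
    (hT₀ : T₀ ⊆ T) (hOver : IsOver305 T T')
    {φ₀ : ∀ w : HeightOneSpectrum (𝓞 F), GL (Fin 2) (w.adicCompletion F) → ℂ}
    {Φ : InfinitePlace F → GL (Fin 2) ℂ → ℂ}
    {f₀ : ∀ v : HeightOneSpectrum (𝓞 ℚ), GL (Fin 2) (v.adicCompletion ℚ) → ℂ}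
    {F0 F1 : GL (Fin 2) ℝ → ℂ}
    (hloc : LocAQ801 c T₀ n m T φ₀ Φ f₀ F0 F1)
    {v : HeightOneSpectrum (𝓞 ℚ)} {w : HeightOneSpectrum (𝓞 F)} {fr : ℕ}
    (hv0 : v ∉ T₀) (hvw : PlaceOver ℚ F v w)
    (hinert : (∀ w' : HeightOneSpectrum (𝓞 F), PlaceOver ℚ F v w' → w' = w) → fr = 2)
    (hsplit : ∀ u : ℕ → HeightOneSpectrum (𝓞 F), (∀ j : ℕ, PlaceOver ℚ F v (u j)) →
      (∀ j j' : ℕ, j < 2 → j' < 2 → u j = u j' → j = j') →
      fr = 1 ∧ ∃ j : ℕ, j < 2 ∧ u j = w)
    {cw : GL (Fin 2) (w.adicCompletion F)} {cw₀ : w.adicCompletion F}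
    (hcw₀ : Valued.v cw₀ = WithZero.exp (-1 : ℤ))
    (hcw : (cw : Matrix (Fin 2) (Fin 2) (w.adicCompletion F)) = Matrix.diagonal (fun _ => cw₀))
    {cv : GL (Fin 2) (v.adicCompletion ℚ)} {cv₀ : v.adicCompletion ℚ}
    (hcv₀ : Valued.v cv₀ = WithZero.exp (-1 : ℤ))
    (hcv : (cv : Matrix (Fin 2) (Fin 2) (v.adicCompletion ℚ)) = Matrix.diagonal (fun _ => cv₀))
    (t : ℤ) :
    LocAQ801 c T₀ n m (T ∪ {v}) (trC503 w (cw ^ t) (extU503 T' φ₀)) Φ
      (trC503 v (cv ^ (t * fr)) (extU503 T f₀)) F0 F1 := by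
  obtain ⟨h1, h2, h3, h4⟩ := hloc
  refine ⟨?_, ?_, ?_, h4⟩
  · intro v' hv'
    have hne : v' ≠ v := fun h => hv0 (h ▸ hv')
    rw [trC_of_ne503 _ _ _ hne, extU_of_mem503 f₀ (hT₀ hv')]
    exact h1 v' hv'
  · intro v' hv' w' hw'
    have hne : w' ≠ w := fun h =>
      hv0 ((H557.placeOver_unique_557 (h ▸ hw') hvw) ▸ hv')
    have hwT : w' ∈ T' := (hOver w').2 ⟨v', hT₀ hv', hw'⟩
    rw [trC_of_ne503 _ _ _ hne, extU_of_mem503 φ₀ hwT]
    exact h2 v' hv' w' hw'
  · exact sphOut_new503 hSh hUn 2 hOver h3 hv0 hvw hinert hsplit hcw₀ hcw hcv₀ hcv t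

open Classical in
/-- **The shifted triple is an average of pure tensors with the local condition `LocAQ801`.** -/
theorem shapeQ_new846 (hT' : TrTestC503 F) (hSh : SphShiftC503) (hUn : UnitSphC503)
    (hPu' : PureShiftC503 F) (𝔫 : Ideal (𝓞 ℚ)) (c : ℂ)
    {T₀ : Finset (HeightOneSpectrum (𝓞 ℚ))}
    {n : HeightOneSpectrum (𝓞 F) → ℕ} {m : HeightOneSpectrum (𝓞 ℚ) → ℕ}
    {φ : G F → ℂ} {f0 f1 : G ℚ → ℂ}
    (hshape : IsAvgPureQ801 (upI (K' := F) 𝔫) 𝔫 T₀ (LocAQ801 c T₀ n m) 1 φ f0 f1)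
    {v : HeightOneSpectrum (𝓞 ℚ)} {w : HeightOneSpectrum (𝓞 F)} {fr : ℕ}
    (P : Finset (HeightOneSpectrum (𝓞 F)))
    (hP : ∀ w' : HeightOneSpectrum (𝓞 F), w' ∈ P ↔ PlaceOver ℚ F v w')
    (hv0 : v ∉ T₀) (hvw : PlaceOver ℚ F v w)
    (hinert : (∀ w' : HeightOneSpectrum (𝓞 F), PlaceOver ℚ F v w' → w' = w) → fr = 2)
    (hsplit : ∀ u : ℕ → HeightOneSpectrum (𝓞 F), (∀ j : ℕ, PlaceOver ℚ F v (u j)) →
      (∀ j j' : ℕ, j < 2 → j' < 2 → u j = u j' → j = j') →
      fr = 1 ∧ ∃ j : ℕ, j < 2 ∧ u j = w)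
    {z' : G F} (hz' : IsScalarUniformizerAt w z') {z : G ℚ} (hz : IsScalarUniformizerAt v z)
    (t : ℤ) :
    IsAvgPureQ801 (upI (K' := F) 𝔫) 𝔫 T₀ (LocAQ801 c T₀ n m) 1
      (rtr503 (z' ^ t) φ) (rtr503 (z ^ (t * fr)) f0) (rtr503 (z ^ (t * fr)) f1) := by
  obtain ⟨Ω, i1, i2, i3, i4, i5, i6, ν, i7, T, T', φ₀, Φc, f₀, F0, F1, hA, hB1, hB2, hB3,
    hC1, hC2, hC3, ⟨C', hC', hD1⟩, ⟨C0, hC0, hD2⟩, ⟨C1, hC1', hD3⟩, hE1, hE2, hE3⟩ := hshape
  obtain ⟨cw₀, hcw₀, hcw⟩ := finGL_unif503 hz'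
  obtain ⟨cv₀, hcv₀, hcv⟩ := finGL_unif503 hz
  have hwP : w ∈ P := (hP w).2 hvw
  have hvS : v ∈ ({v} : Finset (HeightOneSpectrum (𝓞 ℚ))) := Finset.mem_singleton_self v
  -- the key identities
  have hup : ∀ (a : Ω) (h : G F),
      pure305 (T' a ∪ P) (trC503 w (finGL305 w (z' ^ t)) (extU503 (T' a) (φ₀ a))) (Φc a) h
        = pure305 (T' a) (φ₀ a) (Φc a) (h * z' ^ t) := fun a h =>
    hPu' (T' a) P (φ₀ a) (Φc a) w hwP z' hz' t h
  have hdn : ∀ (Fr : Ω → GL (Fin 2) ℝ → ℂ) (a : Ω) (h : G ℚ),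
      pureQ298 (T a ∪ {v}) (trC503 v (finGL305 v (z ^ (t * fr))) (extU503 (T a) (f₀ a)))
          (Fr a) h
        = pureQ298 (T a) (f₀ a) (Fr a) (h * z ^ (t * fr)) := fun Fr a h =>
    pureShiftQ846 (T a) {v} (f₀ a) (Fr a) v hvS z hz (t * fr) h
  -- the three kinds of clauses downstairs, for the two archimedean components
  have htest : ∀ (τ : G ℚ → ℂ) (Fr : Ω → GL (Fin 2) ℝ → ℂ),
      (∀ a : Ω, T5.IsTestFn 𝔫 τ (fun h => (1 : ℂ) * pureQ298 (T a) (f₀ a) (Fr a) h)) →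
      ∀ a : Ω, T5.IsTestFn 𝔫 τ (fun h => (1 : ℂ) * pureQ298 (T a ∪ {v})
        (trC503 v (finGL305 v (z ^ (t * fr))) (extU503 (T a) (f₀ a))) (Fr a) h) := by
    intro τ Fr hB a
    have h : (fun h => (1 : ℂ) * pureQ298 (T a ∪ {v})
          (trC503 v (finGL305 v (z ^ (t * fr))) (extU503 (T a) (f₀ a))) (Fr a) h)
        = rtr503 (z ^ (t * fr)) (fun h => (1 : ℂ) * pureQ298 (T a) (f₀ a) (Fr a) h) :=
      funext fun h => by rw [rtr_apply503, hdn Fr a h]
    rw [h]
    exact trTestTy846 𝔫 τ hz (t * fr) (hB a)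
  have hcont : ∀ Fr : Ω → GL (Fin 2) ℝ → ℂ,
      Continuous (fun p : Ω × G ℚ => (1 : ℂ) * pureQ298 (T p.1) (f₀ p.1) (Fr p.1) p.2) →
      Continuous (fun p : Ω × G ℚ => (1 : ℂ) * pureQ298 (T p.1 ∪ {v})
        (trC503 v (finGL305 v (z ^ (t * fr))) (extU503 (T p.1) (f₀ p.1))) (Fr p.1) p.2) := by
    intro Fr hC
    have h : (fun p : Ω × G ℚ => (1 : ℂ) * pureQ298 (T p.1 ∪ {v})
          (trC503 v (finGL305 v (z ^ (t * fr))) (extU503 (T p.1) (f₀ p.1))) (Fr p.1) p.2)
        = (fun p : Ω × G ℚ => (1 : ℂ) * pureQ298 (T p.1) (f₀ p.1) (Fr p.1) p.2)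
            ∘ fun p : Ω × G ℚ => (p.1, p.2 * z ^ (t * fr)) :=
      funext fun p => by
        show (1 : ℂ) * _ = (1 : ℂ) * _
        rw [hdn Fr p.1 p.2]
    rw [h]
    exact hC.comp (continuous_fst.prodMk (continuous_snd.mul continuous_const))
  have hsupp : ∀ Fr : Ω → GL (Fin 2) ℝ → ℂ,
      (∃ C : Set (G ℚ), IsCompact C ∧
        ∀ (a : Ω) (h : G ℚ), pureQ298 (T a) (f₀ a) (Fr a) h ≠ 0 → h ∈ C) →
      ∃ C : Set (G ℚ), IsCompact C ∧
        ∀ (a : Ω) (h : G ℚ), pureQ298 (T a ∪ {v})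
          (trC503 v (finGL305 v (z ^ (t * fr))) (extU503 (T a) (f₀ a))) (Fr a) h ≠ 0 →
          h ∈ C := by
    rintro Fr ⟨C, hC, hD⟩
    refine ⟨(fun g : G ℚ => g * (z ^ (t * fr))⁻¹) '' C,
      hC.image (continuous_id.mul continuous_const), ?_⟩
    intro a h hne
    rw [hdn Fr a h] at hne
    exact ⟨h * z ^ (t * fr), hD a _ hne, by simp⟩
  have hint : ∀ (Fr : Ω → GL (Fin 2) ℝ → ℂ) (f : G ℚ → ℂ),
      (∀ h : G ℚ, f h = ∫ a, (1 : ℂ) * pureQ298 (T a) (f₀ a) (Fr a) h ∂ν) →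
      ∀ h : G ℚ, rtr503 (z ^ (t * fr)) f h = ∫ a, (1 : ℂ) * pureQ298 (T a ∪ {v})
        (trC503 v (finGL305 v (z ^ (t * fr))) (extU503 (T a) (f₀ a))) (Fr a) h ∂ν := by
    intro Fr f hE h
    rw [rtr_apply503, hE (h * z ^ (t * fr))]
    refine integral_congr_ae (Filter.Eventually.of_forall fun a => ?_)
    show (1 : ℂ) * _ = (1 : ℂ) * _
    rw [hdn Fr a h]
  refine ⟨Ω, i1, i2, i3, i4, i5, i6, ν, i7, fun a => T a ∪ {v}, fun a => T' a ∪ P,
    fun a => trC503 w (finGL305 w (z' ^ t)) (extU503 (T' a) (φ₀ a)), Φc,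
    fun a => trC503 v (finGL305 v (z ^ (t * fr))) (extU503 (T a) (f₀ a)), F0, F1,
    ?_, ?_, htest _ F0 hB2, htest _ F1 hB3, ?_, hcont F0 hC2, hcont F1 hC3, ?_,
    hsupp F0 ⟨C0, hC0, hD2⟩, hsupp F1 ⟨C1, hC1', hD3⟩, ?_, hint F0 f0 hE2, hint F1 f1 hE3⟩
  · -- the local conditions
    intro a
    obtain ⟨hT₀, hOver, hloc⟩ := hA a
    refine ⟨fun x hx => Finset.mem_union_left _ (hT₀ hx), ?_, ?_⟩
    · intro w'
      constructor
      · intro hw'
        rcases Finset.mem_union.1 hw' with h | h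
        · obtain ⟨v', hv', hvw'⟩ := (hOver w').1 h
          exact ⟨v', Finset.mem_union_left _ hv', hvw'⟩
        · exact ⟨v, Finset.mem_union_right _ hvS, (hP w').1 h⟩
      · rintro ⟨v', hv', hvw'⟩
        rcases Finset.mem_union.1 hv' with h | h
        · exact Finset.mem_union_left _ ((hOver w').2 ⟨v', h, hvw'⟩)
        · have hvv : v' = v := Finset.mem_singleton.1 h
          exact Finset.mem_union_right _ ((hP w').2 (hvv ▸ hvw'))
    · have h1 : finGL305 w (z' ^ t) = finGL305 w z' ^ t := map_zpow _ _ _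
      have h2 : finGL305 v (z ^ (t * fr)) = finGL305 v z ^ (t * fr) := map_zpow _ _ _
      rw [h1, h2]
      exact locAQ_new846 hSh hUn c hT₀ hOver hloc hv0 hvw hinert hsplit hcw₀ hcw hcv₀ hcv t
  · intro a
    have h : pure305 (T' a ∪ P) (trC503 w (finGL305 w (z' ^ t)) (extU503 (T' a) (φ₀ a))) (Φc a)
        = rtr503 (z' ^ t) (pure305 (T' a) (φ₀ a) (Φc a)) := funext fun h => hup a h
    rw [h]
    exact hT' _ w z' hz' t _ (hB1 a)
  · have h : (fun p : Ω × G F => pure305 (T' p.1 ∪ P)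
          (trC503 w (finGL305 w (z' ^ t)) (extU503 (T' p.1) (φ₀ p.1))) (Φc p.1) p.2)
        = (fun p : Ω × G F => pure305 (T' p.1) (φ₀ p.1) (Φc p.1) p.2)
            ∘ fun p : Ω × G F => (p.1, p.2 * z' ^ t) := funext fun p => hup p.1 p.2
    rw [h]
    exact hC1.comp (continuous_fst.prodMk (continuous_snd.mul continuous_const))
  · refine ⟨(fun g : G F => g * (z' ^ t)⁻¹) '' C',
      hC'.image (continuous_id.mul continuous_const), ?_⟩
    intro a h hne
    rw [hup a h] at hne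
    exact ⟨h * z' ^ t, hD1 a _ hne, by simp⟩
  · intro h
    rw [rtr_apply503, hE1 (h * z' ^ t)]
    exact integral_congr_ae (Filter.Eventually.of_forall fun a => (hup a h).symm)

end Shape

/-! ## 5. The step -/

section Top

variable {F : Type} [Field F] [NumberField F]

/-- A place outside `S'` does not divide the base level. -/
theorem not_dvd_baseQ846 {B : L2QBase962 F} {𝔫 : Ideal (𝓞 ℚ)} (hlev : CQ57.IsLevQ57 B 𝔫)
    {w : HeightOneSpectrum (𝓞 F)} (hwS : w ∉ B.S') : ¬ w.asIdeal ∣ B.𝔑₀ := by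
  intro h
  apply hwS
  rw [hlev.mem_S'_g]
  exact dvd_trans h (Ideal.dvd_iff_le.2 hlev.level_g)

/-- The prime under a place outside `S'` does not divide the level. -/
theorem not_dvd_levelQ846 {B : L2QBase962 F} {𝔫 : Ideal (𝓞 ℚ)} (hlev : CQ57.IsLevQ57 B 𝔫)
    {v : HeightOneSpectrum (𝓞 ℚ)} {w : HeightOneSpectrum (𝓞 F)} (hvw : PlaceOver ℚ F v w)
    (hwS : w ∉ B.S') : ¬ v.asIdeal ∣ 𝔫 := by
  intro h
  apply hwS
  rw [hlev.mem_S'_g, Ideal.dvd_iff_le]
  show Ideal.map (algebraMap (𝓞 ℚ) (𝓞 F)) 𝔫 ≤ w.asIdeal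
  rw [Ideal.map_le_iff_le_comap, ← (H557.placeOver_iff_557 v w).1 hvw]
  exact Ideal.dvd_iff_le.1 h

/-- **The shifted triples are good**, for every integer shift. -/
theorem coreQ846 (hS3 : HasSqrtNegThree F) (hIQ : IsImagQuad F)
    {Φ : HeckeEigensystem F ℂ} {B : L2Q.H60.L2QBase F}
    (hB : L2Q.H60.IsL2QBase Φ B) (hRam : L2Q.H60.IsRamQ60 B) {𝔫 : Ideal (𝓞 ℚ)}
    (hlev : CQ57.IsLevQ57 (toBase962_732 B) 𝔫) {T₀ : Finset (HeightOneSpectrum (𝓞 ℚ))}
    {n n₀ : HeightOneSpectrum (𝓞 F) → ℕ} {m : HeightOneSpectrum (𝓞 ℚ) → ℕ}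
    (hexp : CQ57.IsLevFnQ57 (toBase962_732 B) 𝔫 T₀ n n₀ m) (c : ℂ)
    {w : HeightOneSpectrum (𝓞 F)} (hwS : w ∉ B.S')
    {φ : G F → ℂ} {f : QWt → G ℚ → ℂ}
    (hgood : IsGoodAQ484 (toBase962_732 B) 𝔫 c T₀ n m φ f) :
    ∃ (v : HeightOneSpectrum (𝓞 ℚ)) (fr : ℕ) (z' : G F) (z : G ℚ),
      HasResDeg ℚ F v w fr ∧ IsScalarUniformizerAt w z' ∧ IsScalarUniformizerAt v z ∧
      ¬ v.asIdeal ∣ 𝔫 ∧
      ∀ t : ℤ, IsGoodAQ484 (toBase962_732 B) 𝔫 c T₀ n m (rtr503 (z' ^ t) φ)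
        (fun s => rtr503 (z ^ (t * fr)) (f s)) := by
  have hcyc : IsCycExt ℚ F 2 := H546.isCycExt_of_isImagQuad546c F hIQ
  have hRamIn : CQ57.RamInQ57 (toBase962_732 B) := H644.unramQC644 F hS3 hIQ Φ B hB hRam
  obtain ⟨v, fr, P, hres, -, hP, hunr⟩ := H963.placesC963 ℚ F 2 hcyc w
  have hvw : PlaceOver ℚ F v w := hres.1
  obtain ⟨hinert, hsplit⟩ := hunr (hRamIn v w hvw hwS)
  obtain ⟨z', hz'⟩ := B981.H704.unifC704 F w
  obtain ⟨z, hz⟩ := B981.H704.unifC704 ℚ v
  have hvn : ¬ v.asIdeal ∣ 𝔫 := not_dvd_levelQ846 hlev hvw hwS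
  have hv0 : v ∉ T₀ := fun h => hvn ((hexp.div v).1 h)
  have ho : ∀ j : ℕ, j < 2 → B.o j ≠ w := fun j _ h => hwS (h ▸ hB.orbit_level j)
  have hu : ∀ j : ℕ, j < 1 → (fun _ : ℕ => B.u) j ≠ v := by
    intro j _ h
    have h' : B.u = v := h
    obtain ⟨j', -, hj'⟩ := hB.orbit_all w (h' ▸ hvw)
    exact hwS (hj' ▸ hB.orbit_level j')
  refine ⟨v, fr, z', z, hres, hz', hz, hvn, fun t => ?_⟩
  exact
    { up_test := B981.H519.trTestC519 F _ w z' hz' t φ hgood.up_test
      up_ek := ⟨(H290S.trEKC290 F _ _ hB.frame'.frame w z' hz' t φ).1 hgood.up_ek.1,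
        (H290S.trEKC290 F _ _ hB.frame'.frame w z' hz' t φ).2 hgood.up_ek.2⟩
      dn_test := fun s => trTestTy846 𝔫 s.type hz (t * fr) (hgood.dn_test s)
      dn_ek := fun s =>
        ⟨(H290S.trEKC290 ℚ _ _ hB.frame.frame v z hz (t * fr) (f s)).1 (hgood.dn_ek s).1,
          (H290S.trEKC290 ℚ _ _ hB.frame.frame v z hz (t * fr) (f s)).2 (hgood.dn_ek s).2⟩
      up_supp := H387S.trSuppC387 F 2 B.o w z' hz' ho t φ hgood.up_supp
      dn_supp := fun s =>
        H387S.trSuppC387 ℚ 1 (fun _ => B.u) v z hz hu (t * fr) (f s) (hgood.dn_supp s)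
      shape := shapeQ_new846 (B981.H519.trTestC519 F) B981.H619.sphShiftC619
        B981.H619.unitSphC619 (H802.pureShiftC802 F) 𝔫 c hgood.shape P hP hv0 hvw hinert
        hsplit hz' hz t }

/-- The eigenvalue of `S_w` in the base change of eigen-data over `ℚ`. -/
theorem bcB_eq846 {Φ : HeckeEigensystem F ℂ} {B : L2Q.H60.L2QBase F}
    (hB : L2Q.H60.IsL2QBase Φ B) {w : HeightOneSpectrum (𝓞 F)} (hwS : w ∉ B.S')
    {v : HeightOneSpectrum (𝓞 ℚ)} {fr : ℕ} (hres : HasResDeg ℚ F v w fr)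
    {s : QWt} {c : EigData ℚ} {C : EigData F} (hBC : IsBCDataQ s c C B.S) :
    C.b w = c.b v ^ fr := by
  obtain ⟨p, hp, hpv⟩ := exists_prime_mem_place732 v
  have hpw : ((p : ℕ) : 𝓞 F) ∈ w.asIdeal := natCast_mem_of_placeOver732 hres.1 hpv
  have hpS : p ∉ B.S := by
    intro h
    obtain ⟨-, w', hw'S, hpw'⟩ := hB.under_exact p h
    exact hwS (hB.fibre p hp w' w hpw' hpw hw'S)
  have habs : Ideal.absNorm w.asIdeal = p ^ fr := by
    rw [hres.2, absNorm_eq_prime846 hp hpv]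
  exact (hBC.1 p hp hpS v hpv w fr hpw habs).2

variable (F)

/-- **NODE A.2 over `ℚ` = STEP-S**, verbatim, unconditional. -/
theorem stepSQC846 : PQ484.StepSQC484 F := by
  intro hS3 hIQ Φ B hB hRam 𝔫 hlev T₀ n n₀ m hexp c _ x hx hxout φ f hgood
  obtain ⟨w, hxw⟩ := hx
  have hwS : w ∉ B.S' := by
    rcases hxw with h | h
    · rw [h] at hxout
      exact hxout
    · rw [h] at hxout
      exact hxout
  obtain ⟨v, fr, z', z, hres, hz', hz, hvn, hgood'⟩ :=
    coreQ846 hS3 hIQ hB hRam hlev hexp c hwS hgood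
  have hwn : ¬ w.asIdeal ∣ B.𝔑₀ := not_dvd_baseQ846 hlev hwS
  rcases hxw with h | h
  · -- `x = S_w`
    refine ⟨(rtr503 (z' ^ (-1 : ℤ)) φ, fun s => rtr503 (z ^ ((-1 : ℤ) * fr)) (f s)),
      hgood' (-1), ?_⟩
    refine ⟨?_, ?_⟩
    · intro χ C hχ y
      have h1 := (H290S.trOpC290 F _ _ hB.frame'.frame χ w (C.a w) (C.b w)
        (hχ.hecke w hwn) z' hz' 1 φ y).1
      rw [h, Gen.ev_S797]
      rw [Nat.cast_one, pow_one] at h1
      exact h1
    · intro s χ c' C hχ hBC y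
      have hb : C.b w = c'.b v ^ fr := bcB_eq846 hB hwS hres hBC
      have h1 := (H290S.trOpC290 ℚ _ _ hB.frame.frame χ v (c'.a v) (c'.b v)
        (hχ.hecke v hvn) z hz fr (f s) y).1
      have he : ((-1 : ℤ) * (fr : ℤ)) = -((fr : ℕ) : ℤ) := by ring
      rw [h, Gen.ev_S797, hb]
      show T5.Rconv B.R.μ (rtr503 (z ^ ((-1 : ℤ) * fr)) (f s)) χ y = _
      rw [he]
      exact h1
  · -- `x = S_w⁻¹`
    refine ⟨(rtr503 (z' ^ (1 : ℤ)) φ, fun s => rtr503 (z ^ ((1 : ℤ) * fr)) (f s)),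
      hgood' 1, ?_⟩
    refine ⟨?_, ?_⟩
    · intro χ C hχ y
      have h1 := (H290S.trOpC290 F _ _ hB.frame'.frame χ w (C.a w) (C.b w)
        (hχ.hecke w hwn) z' hz' 1 φ y).2
      rw [h, Gen.ev_Sinv797]
      rw [Nat.cast_one, pow_one] at h1
      exact h1
    · intro s χ c' C hχ hBC y
      have hb : C.b w = c'.b v ^ fr := bcB_eq846 hB hwS hres hBC
      have h1 := (H290S.trOpC290 ℚ _ _ hB.frame.frame χ v (c'.a v) (c'.b v)
        (hχ.hecke v hvn) z hz fr (f s) y).2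
      have he : ((1 : ℤ) * (fr : ℤ)) = ((fr : ℕ) : ℤ) := by ring
      rw [h, Gen.ev_Sinv797, hb]
      show T5.Rconv B.R.μ (rtr503 (z ^ ((1 : ℤ) * fr)) (f s)) χ y = _
      rw [he]
      exact h1

end Top

/-- Verbatim check. -/
example (F : Type) [Field F] [NumberField F] : Fermat.Agent.LT.T7.PQ484.StepSQC484 F :=
  stepSQC846 F

end Fermat.Agent.LT.T7.H846Q

end

end
-- ===== PACK-END LT/T7/H846/StepSQ.lean

-- ===== PACK-BEGIN LT/T7/H484/PairAQTop.lean
section



/-!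
# Row LT, tower T7, node T7.L2Q.1.H2a.A `CQ801.PairAQC801` (sub-architect helper484, registry
# row 2855): THIRD CUT over `ℚ` -- the PROVED top

OFF-MAIN.  Complete proofs, nothing assumed.  ADDITIVE (new names only, suffix `484`).

    stepAllQ_of484 : StepTQC484 F → StepSQC484 F → StepMQC484 F → StepGQC484 F (fun _ => True)
    pairAQC_of484  : BaseAQC484 P F → StepTQC484 F → StepSQC484 F → StepMQC484 F
                       → CQ801.PairAQC801 P F                                   (VERBATIM)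

Induction on the word (mirror of `B981.pairAC_of981`): `(Φ₁ (x :: X), F₁ · (x :: X))` = the step
of `x` applied to `(Φ₁ X, F₁ · X)` (a choice); `wordEv (x :: X) C = x.ev C * wordEv X C`.
-/

set_option autoImplicit false

open AutomorphicForm IsDedekindDomain NumberField MeasureTheory
open scoped ComplexConjugate

noncomputable section

namespace Fermat.Agent.LT.T7.PQ484

open Fermat.Agent.LT.H556 Fermat.Agent.LT.H556.A0 Fermat.Agent.LT.T7 Fermat.Agent.LT.T7.H305
  Fermat.Agent.LT.T7.L2Q Fermat.Agent.LT.T7.H893 Fermat.Agent.LT.T7.H962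
  Fermat.Agent.LT.T7.H732 Fermat.Agent.LT.T7.MQ298 Fermat.Agent.LT.T7.CQ801

attribute [local instance] Fermat.Agent.LT.T5.instMeasurableSpaceG

variable {P : EKCond}
variable {F : Type} [Field F] [NumberField F]

theorem wordEv_nil484 (C : EigData F) : wordEv ([] : List (Gen F)) C = 1 := by
  show (List.map (fun g : Gen F => g.ev C) []).prod = 1
  rfl

theorem wordEv_cons484 (x : Gen F) (X : List (Gen F)) (C : EigData F) :
    wordEv (x :: X) C = x.ev C * wordEv X C := by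
  show (List.map (fun g : Gen F => g.ev C) (x :: X)).prod
    = x.ev C * (List.map (fun g : Gen F => g.ev C) X).prod
  rw [List.map_cons, List.prod_cons]

/-- The step for every generator from the three step nodes. -/
theorem stepAllQ_of484 (hT : StepTQC484 F) (hS : StepSQC484 F) (hM : StepMQC484 F) :
    StepGQC484 F (fun _ => True) := by
  intro h3 hiq Φ B hB hram 𝔫 hlev T₀ n n₀ m hexp c hc x _ hout φ f hgood
  cases x with
  | T w =>
    exact hT h3 hiq Φ B hB hram 𝔫 hlev T₀ n n₀ m hexp c hc _ ⟨w, rfl⟩ hout φ f hgood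
  | S w =>
    exact hS h3 hiq Φ B hB hram 𝔫 hlev T₀ n n₀ m hexp c hc _ ⟨w, Or.inl rfl⟩ hout φ f hgood
  | Sinv w =>
    exact hS h3 hiq Φ B hB hram 𝔫 hlev T₀ n n₀ m hexp c hc _ ⟨w, Or.inr rfl⟩ hout φ f hgood
  | M w d =>
    exact hM h3 hiq Φ B hB hram 𝔫 hlev T₀ n n₀ m hexp c hc _ ⟨w, d, rfl⟩ hout φ f hgood

/-- **THE TOP OF THE THIRD CUT over `ℚ`**: the node `CQ801.PairAQC801` from the base and the
three steps. -/
theorem pairAQC_of484 (hB : BaseAQC484 P F) (hT : StepTQC484 F) (hS : StepSQC484 F)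
    (hM : StepMQC484 F) : CQ801.PairAQC801 P F := by
  classical
  intro h3 hiq Φ hΦ hconst hP B hB' hram 𝔫 hlev T₀ n n₀ m hexp c hc
  obtain ⟨c₁, φ, f, hgood, hop, hne, hstab⟩ :=
    hB h3 hiq Φ hΦ hconst hP B hB' hram 𝔫 hlev T₀ n n₀ m hexp c hc
  have hstep := stepAllQ_of484 hT hS hM h3 hiq Φ B hB' hram 𝔫 hlev T₀ n n₀ m hexp c hc
  -- the step as a function (junk when the hypotheses fail)
  let stepFn : Gen F → (G F → ℂ) × (QWt → G ℚ → ℂ) → (G F → ℂ) × (QWt → G ℚ → ℂ) :=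
    fun x p =>
      if h : x.Out (toBase962_732 B).S' ∧
          IsGoodAQ484 (toBase962_732 B) 𝔫 c T₀ n m p.1 p.2 then
        Classical.choose (hstep x trivial h.1 p.1 p.2 h.2)
      else p
  let W : List (Gen F) → (G F → ℂ) × (QWt → G ℚ → ℂ) := fun X => X.foldr stepFn (φ, f)
  have hWc : ∀ (x : Gen F) (X : List (Gen F)), W (x :: X) = stepFn x (W X) := fun _ _ => rfl
  have key : ∀ X : List (Gen F), (∀ x ∈ X, x.Out (toBase962_732 B).S') →
      IsGoodAQ484 (toBase962_732 B) 𝔫 c T₀ n m (W X).1 (W X).2 ∧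
      (∀ (χ : G F → ℂ) (C : EigData F),
        IsEigFn (toBase962_732 B).𝔑₀ (toBase962_732 B).R'.r 2 (toBase962_732 B).o χ C →
        ∀ y : G F, T5.Rconv (toBase962_732 B).R'.μ (W X).1 χ y = wordEv X C * c₁ C * χ y) ∧
      (∀ (t : QWt) (χ : G ℚ → ℂ) (c' : EigData ℚ) (C : EigData F),
        IsEigFnQ t 𝔫 (toBase962_732 B).R.r (toBase962_732 B).u χ c' →
        IsBCDataQ t c' C (toBase962_732 B).S →
        ∀ y : G ℚ, T5.Rconv (toBase962_732 B).R.μ ((W X).2 t) χ y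
          = wordEv X C * T5.Rconv (toBase962_732 B).R.μ (f t) χ y) := by
    intro X
    induction X with
    | nil =>
      intro _
      refine ⟨hgood, fun χ C hχ y => ?_, fun t χ c' C _ _ y => ?_⟩
      · rw [wordEv_nil484, one_mul]
        exact hop χ C hχ y
      · rw [wordEv_nil484, one_mul]
        rfl
    | cons x X ih =>
      intro hX
      have hx : x.Out (toBase962_732 B).S' := hX x List.mem_cons_self
      obtain ⟨ig, iu, id⟩ := ih fun y hy => hX y (List.mem_cons_of_mem _ hy)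
      have hcond : x.Out (toBase962_732 B).S' ∧
          IsGoodAQ484 (toBase962_732 B) 𝔫 c T₀ n m (W X).1 (W X).2 := ⟨hx, ig⟩
      have hspec := Classical.choose_spec (hstep x trivial hx (W X).1 (W X).2 ig)
      have hWeq : W (x :: X) = Classical.choose (hstep x trivial hx (W X).1 (W X).2 ig) := by
        rw [hWc]
        show (if h : x.Out (toBase962_732 B).S' ∧
            IsGoodAQ484 (toBase962_732 B) 𝔫 c T₀ n m (W X).1 (W X).2 then
          Classical.choose (hstep x trivial h.1 (W X).1 (W X).2 h.2) else W X) = _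
        rw [dif_pos hcond]
      rw [hWeq]
      refine ⟨hspec.1, fun χ C hχ y => ?_, fun t χ c' C hχ hC y => ?_⟩
      · rw [hspec.2.up χ C hχ y, iu χ C hχ y, wordEv_cons484]
        ring
      · rw [hspec.2.dn t χ c' C hχ hC y, id t χ c' C hχ hC y, wordEv_cons484]
        ring
  refine ⟨c₁, fun X => (W X).1, fun t X => (W X).2 t, ?_⟩
  exact
    { up1_test := fun X hX => (key X hX).1.up_test
      up1_ek := fun X hX => (key X hX).1.up_ek
      up1_op := fun X hX χ C hχ y => (key X hX).2.1 χ C hχ y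
      up1_ne := hne
      dn1_test := fun t X hX => (key X hX).1.dn_test t
      dn1_ek := fun t X hX => (key X hX).1.dn_ek t
      dn1_op := fun t X hX χ c' C hχ hC y => (key X hX).2.2 t χ c' C hχ hC y
      dn1_wfn := hstab.wfn
      dn1_class := hstab.cls
      dn1_comm := hstab.comm
      up1_supp := fun X hX => (key X hX).1.up_supp
      dn1_supp := fun t X hX => (key X hX).1.dn_supp t
      shape := fun X hX => (key X hX).1.shape }

end Fermat.Agent.LT.T7.PQ484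

end

end
-- ===== PACK-END LT/T7/H484/PairAQTop.lean

-- ===== PACK-BEGIN LT/T7/H973/PairBQTop.lean
section




/-!
# Row LT, tower T7, node T7.L2Q.1.H2a.B `CQ801.PairBQC801` (registry row 2856, owner helper973):
# THE SECOND PAIR OF THE CONSTRUCTION OVER `ℚ` (quadratic step) -- FIRST CUT, proved top

OFF-MAIN.  Complete proofs, nothing assumed.  ADDITIVE (new names only, all suffixed `973`).

    natUpQC973        : NatUpQC973 F                       (plug of `H193.killing_of_torus193`, `K = F`)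
    killToolQ_w0_973  : KillToolQC973 QWt.w0               (`H193.killing_of_torus193`, `K = ℚ`)
    natDnQC_of973     : (∀ t, KillToolQC973 t) → NatDnQC973 F
    pairBQC_of973'    : RelTorusQC973 F → PreBQC973 P F → NatUpQC973 F → NatDnQC973 F
                          → NatShapeQC973 F → CQ801.PairBQC801 P F      (the mirror of `pairBC_of57`)
    pairBQC_of973     : RelTorusQC973 F → PreBQC973 P F → KillToolQC973 QWt.w1 → NatShapeQC973 F
                          → CQ801.PairBQC801 P F                        (VERBATIM node of record)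

The small lemmas on the support of a torus mean and on `iwOp`, `shiftOp` are those of helper115
(`T7/H115/NatUp.lean`, `NatDn.lean`; cubic leaves `PB57.NatUpC57`, `PB57.NatDnC57`), proved
again here under new names (the files of helper115 import the cubic Spec).
-/

set_option autoImplicit false
set_option linter.unusedSectionVars false
set_option linter.unusedVariables false

open AutomorphicForm IsDedekindDomain NumberField MeasureTheory
open scoped ComplexConjugate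

noncomputable section

namespace Fermat.Agent.LT.T7.PBQ973

open Fermat.Agent.LT.H556 Fermat.Agent.LT.H556.A0 Fermat.Agent.LT Fermat.Agent.LT.T7
  Fermat.Agent.LT.T7.H305
  Fermat.Agent.LT.T7.L2Q Fermat.Agent.LT.T7.H893 Fermat.Agent.LT.T7.H962
  Fermat.Agent.LT.T7.H732 Fermat.Agent.LT.T7.MQ298 Fermat.Agent.LT.T7.CQ801

attribute [local instance] Fermat.Agent.LT.T5.instMeasurableSpaceG

/-! ## 1. Small lemmas (one field) -/

section OneField

variable {K : Type} [Field K] [NumberField K]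

/-- If the torus mean does not vanish at `y`, the function does not vanish at some `y a(t)⁻¹`,
`t ∈ D`. -/
theorem exists_ne_of_nat_ne973 {a : (InfinitePlace K → ℝ) → G K}
    {D : Set (InfinitePlace K → ℝ)} (hDm : MeasurableSet D) {φ : G K → ℂ} {y : G K}
    (h : H193.nat193 a D φ y ≠ 0) : ∃ t ∈ D, φ (y * (a t)⁻¹) ≠ 0 := by
  by_contra hcon
  apply h
  have h0 : ∀ t ∈ D, φ (y * (a t)⁻¹) = 0 := fun t ht => by
    by_contra hne
    exact hcon ⟨t, ht, hne⟩
  have h1 : ∫ t in D, φ (y * (a t)⁻¹) = 0 := by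
    have h2 : ∫ t in D, φ (y * (a t)⁻¹) = ∫ t in D, (0 : ℂ) :=
      setIntegral_congr_fun hDm h0
    rw [h2, integral_zero]
  show (((volume D).toReal : ℝ) : ℂ)⁻¹ * ∫ t in D, φ (y * (a t)⁻¹) = 0
  rw [h1, mul_zero]

/-- An element which is trivial at the finite place `w` is Iwahori at `w`. -/
theorem inIwahori_of_trivAtFin973 (w : HeightOneSpectrum (𝓞 K)) {z : G K}
    (hz : TrivAtFin w z) : T5.InIwahori w z := by
  have h1 : finComp w z = 1 := hz
  have h2 : finComp w z⁻¹ = 1 := by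
    have h3 : finComp w z⁻¹ * finComp w z = 1 := by
      rw [← H942.finComp_mul942, inv_mul_cancel, H942.finComp_one942]
    rw [h1, mul_one] at h3
    exact h3
  have hint : ∀ i j, (1 : Matrix (Fin 2) (Fin 2) (w.adicCompletion K)) i j
      ∈ w.adicCompletionIntegers K := by
    intro i j
    by_cases h : i = j
    · subst h
      rw [Matrix.one_apply_eq]
      exact Subring.one_mem _
    · rw [Matrix.one_apply_ne h]
      exact Subring.zero_mem _
  refine ⟨fun i j => ?_, fun i j => ?_, ?_⟩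
  · rw [h1]; exact hint i j
  · rw [h2]; exact hint i j
  · rw [h1, Matrix.one_apply_ne (by decide : (1 : Fin 2) ≠ 0), map_zero]
    exact zero_lt_one

/-- **The support of a torus mean.**  If `φ` is Iwahori-supported in the compact set `C`, the
torus mean `φ♮` is Iwahori-supported in the compact set `C · a(closure D)`. -/
theorem isIwSupported_nat973 {𝔑 : Ideal (𝓞 K)} {r : G K}
    {a : (InfinitePlace K → ℝ) → G K} {D : Set (InfinitePlace K → ℝ)}
    (hD : H193.IsTorusData 𝔑 r a D) {l : ℕ} {o : ℕ → HeightOneSpectrum (𝓞 K)} {φ : G K → ℂ}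
    (h : ∃ C : Set (G K), IsCompact C ∧ T5.H32.IsIwSupported32 l o C φ) :
    ∃ C : Set (G K), IsCompact C ∧ T5.H32.IsIwSupported32 l o C (H193.nat193 a D φ) := by
  obtain ⟨C, hC, hsupp⟩ := h
  have hcl : IsCompact (closure D) := hD.bdd.isCompact_closure
  refine ⟨(fun p : G K × (InfinitePlace K → ℝ) => p.1 * a p.2) '' (C ×ˢ closure D),
    (hC.prod hcl).image (continuous_fst.mul (hD.cont.comp continuous_snd)), ?_⟩
  intro y hy
  obtain ⟨t, ht, hne⟩ := exists_ne_of_nat_ne973 hD.meas hy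
  obtain ⟨hiw, c, hc, hagree⟩ := hsupp _ hne
  have hy' : y = y * (a t)⁻¹ * a t := by rw [inv_mul_cancel_right]
  refine ⟨fun j hj => ?_, c * a t, ⟨(c, t), ⟨hc, subset_closure ht⟩, rfl⟩, ?_⟩
  · rw [hy']
    exact T5.H942.inIwahori_mul942 (o j) (hiw j hj)
      (inIwahori_of_trivAtFin973 (o j) (hD.fin t (o j)))
  · have := T5.H942.agreeOutside_mul942 {v | ∃ j < l, v = o j} hagree
      (T5.H942.agreeOutside_refl942 {v | ∃ j < l, v = o j} (a t))
    rw [← hy'] at this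
    exact this

/-- A positive scalar at an infinite place is central (torus data exist). -/
theorem posScalar_central973 {𝔑 : Ideal (𝓞 K)} {r : G K}
    {a : (InfinitePlace K → ℝ) → G K} {D : Set (InfinitePlace K → ℝ)}
    (hD : H193.IsTorusData 𝔑 r a D) {w : InfinitePlace K} {z : G K}
    (hz : IsArchPosScalar w z) (g : G K) : z * g = g * z := by
  obtain ⟨s, hs⟩ := H865.posScalar_eq865 hD hz
  rw [hs]
  exact hD.central s g

theorem continuous_iwOp973 (w : HeightOneSpectrum (𝓞 K)) (H : Finset (G K)) {ψ : G K → ℂ}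
    (hψ : Continuous ψ) : Continuous (iwOp w H ψ) := by
  have h : iwOp w H ψ = fun x => ((Real.sqrt (Ideal.absNorm w.asIdeal : ℝ) : ℝ) : ℂ)⁻¹
      * ∑ h ∈ H, ψ (x * h) := rfl
  rw [h]
  exact continuous_const.mul
    (continuous_finsetSum _ fun h _ => hψ.comp (continuous_id.mul continuous_const))

theorem continuous_shiftOp973 (z : G K) (k : ℤ) {ψ : G K → ℂ} (hψ : Continuous ψ) :
    Continuous (shiftOp z k ψ) := by
  have h : shiftOp z k ψ = fun x => ψ (x * z ^ k) := rfl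
  rw [h]
  exact hψ.comp (continuous_id.mul continuous_const)

/-- `iwOp` preserves the invariance under the positive scalars at infinity. -/
theorem iwOp_posScalar973 {𝔑 : Ideal (𝓞 K)} {r : G K}
    {a : (InfinitePlace K → ℝ) → G K} {D : Set (InfinitePlace K → ℝ)}
    (hD : H193.IsTorusData 𝔑 r a D) (v : HeightOneSpectrum (𝓞 K)) (H : Finset (G K))
    {ψ : G K → ℂ}
    (hψ : ∀ (w : InfinitePlace K) (z : G K), IsArchPosScalar w z → ∀ g : G K, ψ (g * z) = ψ g)
    (w : InfinitePlace K) (z : G K) (hz : IsArchPosScalar w z) (g : G K) :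
    iwOp v H ψ (g * z) = iwOp v H ψ g := by
  show ((Real.sqrt (Ideal.absNorm v.asIdeal : ℝ) : ℝ) : ℂ)⁻¹ * ∑ h ∈ H, ψ (g * z * h)
    = ((Real.sqrt (Ideal.absNorm v.asIdeal : ℝ) : ℝ) : ℂ)⁻¹ * ∑ h ∈ H, ψ (g * h)
  congr 1
  refine Finset.sum_congr rfl fun h _ => ?_
  rw [mul_assoc, posScalar_central973 hD hz h, ← mul_assoc]
  exact hψ w z hz (g * h)

/-- `shiftOp` preserves the invariance under the positive scalars at infinity. -/
theorem shiftOp_posScalar973 {𝔑 : Ideal (𝓞 K)} {r : G K}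
    {a : (InfinitePlace K → ℝ) → G K} {D : Set (InfinitePlace K → ℝ)}
    (hD : H193.IsTorusData 𝔑 r a D) (z₀ : G K) (k : ℤ) {ψ : G K → ℂ}
    (hψ : ∀ (w : InfinitePlace K) (z : G K), IsArchPosScalar w z → ∀ g : G K, ψ (g * z) = ψ g)
    (w : InfinitePlace K) (z : G K) (hz : IsArchPosScalar w z) (g : G K) :
    shiftOp z₀ k ψ (g * z) = shiftOp z₀ k ψ g := by
  show ψ (g * z * z₀ ^ k) = ψ (g * z₀ ^ k)
  rw [mul_assoc, posScalar_central973 hD hz (z₀ ^ k), ← mul_assoc]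
  exact hψ w z hz (g * z₀ ^ k)

end OneField

/-! ## 2. The killing tool of the trivial type over `ℚ` -/

section ToolW0

/-- The invariant cusp functions of type `w0` over `ℚ` are the invariant cusp functions of the
cyclic step for `K = ℚ`, `l = 1`, orbit `(u)`. -/
theorem isWFnQ_w0_iff973 {𝔫 : Ideal (𝓞 ℚ)} {r : G ℚ} {u : HeightOneSpectrum (𝓞 ℚ)}
    {ψ : G ℚ → ℂ} : IsWFnQ QWt.w0 𝔫 r u ψ ↔ IsWFn 𝔫 r 1 (fun _ => u) ψ :=
  ⟨fun h => ⟨h.cusp, h.arch_scalar, h.iw⟩, fun h => ⟨h.cusp, h.arch_scalar, h.iw⟩⟩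

/-- **THE KILLING TOOL over `ℚ` FOR THE TRIVIAL TYPE**: `H193.killing_of_torus193`, `K = ℚ`. -/
theorem killToolQ_w0_973 : KillToolQC973 QWt.w0 := by
  intro R hR 𝔫 h𝔫 u a D hD _ f₀ htest hek hadj hinv
  obtain ⟨ht, hek', hadj', hbi, hop, hkill⟩ :=
    H193.killing_of_torus193 (T1.t1Out ℚ) R hR 𝔫 𝔫 h𝔫 le_rfl 1 (fun _ => u) hD f₀ htest hek
      hadj hinv
  exact ⟨ht, hek', hadj', hbi, hop,
    fun ψ hψ horth x => hkill ψ hψ (fun χ hχ => horth χ (isWFnQ_w0_iff973.2 hχ)) x⟩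

end ToolW0

/-! ## 3. The plugs and the top -/

section Top

variable {P : EKCond}
variable {F : Type} [Field F] [NumberField F]

/-- The extension of a non-zero ideal is not zero. -/
theorem upI_ne_bot973 {𝔫 : Ideal (𝓞 ℚ)} (h : 𝔫 ≠ ⊥) : upI (K' := F) 𝔫 ≠ ⊥ := by
  intro h0
  apply h
  exact (Ideal.map_eq_bot_iff_of_injective
    (FaithfulSMul.algebraMap_injective (𝓞 ℚ) (𝓞 F))).1 h0

variable (F) in
/-- **PLUG PBQ.1 = NAT-UP over `ℚ`**, PROVED. -/
theorem natUpQC973 : NatUpQC973 F := by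
  intro Φ B hB g 𝔫 hlev μr μc c a T₀ n n₀ m c₂ φ₀ f₀ hpre aT D aT' D' hrel
  have hT1 : T1.T1Out F := T1.t1Out F
  have hD : H193.IsTorusData B.𝔑₀ B.R'.r aT' D' :=
    H193.isTorusData_mono193 hlev.level_g hrel.up
  obtain ⟨ht, hek, hadj, hbi, hop, hkill⟩ :=
    H193.killing_of_torus193 hT1 B.R' hB.frame' (upI (K' := F) 𝔫) B.𝔑₀
      (upI_ne_bot973 hlev.level_ne) hlev.level_g 2 B.o hD φ₀ hpre.up_test hpre.up_ek.1
      hpre.up_ek.2 hpre.up_inv
  exact
    { up2_test := ht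
      up2_ek := ⟨hek, hadj⟩
      up2_inv := hbi
      up2_op := fun ψ C hψ x => by
        rw [hop ψ hψ.inv.cusp.cont hψ.inv.arch_scalar x]
        exact hpre.up_op ψ C hψ x
      up2_kill := hkill
      up2_ne := hpre.up_ne
      up2_supp := isIwSupported_nat973 hD hpre.up_supp }

variable (F) in
/-- **PLUG PBQ.2 = NAT-DOWN over `ℚ`**, from the killing tool of the two types. -/
theorem natDnQC_of973 (hK : ∀ t : QWt, KillToolQC973 t) : NatDnQC973 F := by
  intro Φ B hB g 𝔫 hlev μr μc c a T₀ n n₀ m c₂ φ₀ f₀ hpre aT D aT' D' hrel t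
  have hD : H193.IsTorusData 𝔫 B.R.r aT D := hrel.down
  obtain ⟨ht, hek, hadj, hbi, hop, hkill⟩ :=
    hK t B.R hB.frame 𝔫 hlev.level_ne B.u aT D hD hrel.ray (f₀ t) (hpre.dn_test t)
      (hpre.dn_ek t).1 (hpre.dn_ek t).2 (hpre.dn_inv t)
  -- `R(f♮) ψ = R(f) ψ` on the invariant cusp functions
  have hfun : ∀ ψ : G ℚ → ℂ, IsWFnQ t 𝔫 B.R.r B.u ψ →
      T5.Rconv B.R.μ (H193.nat193 aT D (f₀ t)) ψ = T5.Rconv B.R.μ (f₀ t) ψ := fun ψ hψ =>
    funext fun x => hop ψ hψ.cusp.cont hψ.arch_scalar x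
  exact
    { dn2_test := ht
      dn2_ek := ⟨hek, hadj⟩
      dn2_inv := hbi
      dn2_wfn := fun ψ hψ => by
        rw [hfun ψ hψ]
        exact hpre.dn_wfn t ψ hψ
      dn2_class := fun ψ c hψ => by
        rw [hfun ψ hψ.inv]
        exact hpre.dn_class t ψ c hψ
      dn2_comm := fun ψ hψ H z hH hz => by
        obtain ⟨h1, h2⟩ := hpre.dn_comm t ψ hψ H z hH hz
        refine ⟨fun x => ?_, fun k x => ?_⟩
        · rw [hfun ψ hψ, hop (iwOp B.u H ψ) (continuous_iwOp973 B.u H hψ.cusp.cont)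
            (iwOp_posScalar973 hD B.u H hψ.arch_scalar) x]
          exact h1 x
        · rw [hfun ψ hψ, hop (shiftOp z k ψ) (continuous_shiftOp973 z k hψ.cusp.cont)
            (shiftOp_posScalar973 hD z k hψ.arch_scalar) x]
          exact h2 k x
      dn2_kill := hkill
      dn2_supp := isIwSupported_nat973 hD (hpre.dn_supp t) }

/-- The second pair from its two halves and the shape. -/
theorem isPairBQ_of_halves973 {Φ : HeckeEigensystem F ℂ} {B : L2QBase962 F} {g : G F}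
    {𝔫 : Ideal (𝓞 ℚ)} {μr : @Measure (GL (Fin 2) ℝ) (borel _)}
    {μc : @Measure (GL (Fin 2) ℂ) (borel _)} {c a : ℂ}
    {T₀ : Finset (HeightOneSpectrum (𝓞 ℚ))} {n n₀ : HeightOneSpectrum (𝓞 F) → ℕ}
    {m : HeightOneSpectrum (𝓞 ℚ) → ℕ} {c₂ : EigData F → ℂ} {φ₂ : G F → ℂ}
    {f₂ : QWt → G ℚ → ℂ} (hu : IsPairBUpQ973 Φ B 𝔫 c₂ φ₂)
    (hd : ∀ t : QWt, IsPairBDnQ973 B 𝔫 t (f₂ t))
    (hs : IsAvgPureQ801 (upI (K' := F) 𝔫) 𝔫 T₀ (LocBQ801 B g 𝔫 μr μc c T₀ n n₀ m) a
      φ₂ (f₂ QWt.w0) (f₂ QWt.w1)) :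
    IsPairBQ801 Φ B g 𝔫 μr μc c a T₀ n n₀ m c₂ φ₂ f₂ where
  up2_test := hu.up2_test
  up2_ek := hu.up2_ek
  up2_inv := hu.up2_inv
  up2_op := hu.up2_op
  up2_kill := hu.up2_kill
  up2_ne := hu.up2_ne
  dn2_test := fun t => (hd t).dn2_test
  dn2_ek := fun t => (hd t).dn2_ek
  dn2_inv := fun t => (hd t).dn2_inv
  dn2_wfn := fun t => (hd t).dn2_wfn
  dn2_class := fun t => (hd t).dn2_class
  dn2_comm := fun t => (hd t).dn2_comm
  dn2_kill := fun t => (hd t).dn2_kill
  up2_supp := hu.up2_supp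
  dn2_supp := fun t => (hd t).dn2_supp
  shape := hs

/-- **THE TOP OF THE FIRST CUT OF THE SECOND PAIR over `ℚ`** (the mirror of
`PB57.pairBC_of57`): the second pair is the pair of the torus means of the un-averaged pair for
compatible torus data. -/
theorem pairBQC_of973' (hRel : RelTorusQC973 F) (hPre : PreBQC973 P F)
    (hUp : NatUpQC973 F) (hDn : NatDnQC973 F) (hSh : NatShapeQC973 F) : PairBQC801 P F := by
  intro h3 hquad Φ hΦ hconst hPΦ B hB hram g hg
  have hB' := isL2QBase962_of60_732 hB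
  obtain ⟨𝔫, hlev, hpre⟩ := hPre h3 hquad Φ hΦ hconst hPΦ B hB hram g hg
  obtain ⟨aT, D, aT', D', hrel⟩ :=
    hRel hquad 𝔫 hlev.level_ne (toBase962_732 B).R.r (toBase962_732 B).R'.r
      hB'.frame.ray hB'.frame'.ray
  refine ⟨𝔫, hlev, fun μr μc hμr hμc T₀ n n₀ m hexp c a hc ha => ?_⟩
  obtain ⟨c₂, φ₀, f₀, h0⟩ := hpre μr μc hμr hμc T₀ n n₀ m hexp c a hc ha
  exact ⟨c₂, H193.nat193 aT' D' φ₀, fun t => H193.nat193 aT D (f₀ t),
    isPairBQ_of_halves973
      (hUp Φ _ hB' g 𝔫 hlev μr μc c a T₀ n n₀ m c₂ φ₀ f₀ h0 aT D aT' D' hrel)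
      (hDn Φ _ hB' g 𝔫 hlev μr μc c a T₀ n n₀ m c₂ φ₀ f₀ h0 aT D aT' D' hrel)
      (hSh hquad Φ _ hB' g 𝔫 hlev μr μc hμr hμc T₀ n n₀ m hexp c a hc ha c₂ φ₀ f₀ h0
        aT D aT' D' hrel)⟩

/-- **THE TOP OF THE FIRST CUT, with the plugs discharged**: the node of record
`CQ801.PairBQC801 P F` (registry row 2856) from the four open pieces. -/
theorem pairBQC_of973 (hRel : RelTorusQC973 F) (hPre : PreBQC973 P F)
    (hK1 : KillToolQC973 QWt.w1) (hSh : NatShapeQC973 F) : PairBQC801 P F :=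
  pairBQC_of973' hRel hPre (natUpQC973 F)
    (natDnQC_of973 F fun t => by
      cases t
      · exact killToolQ_w0_973
      · exact hK1)
    hSh

/-- The frozen node, VERBATIM. -/
example (hRel : RelTorusQC973 F) (hPre : PreBQC973 P F) (hK1 : KillToolQC973 QWt.w1)
    (hSh : NatShapeQC973 F) :
    Fermat.Agent.LT.T7.CQ801.PairBQC801 P F := pairBQC_of973 hRel hPre hK1 hSh

end Top

end Fermat.Agent.LT.T7.PBQ973

end

end
-- ===== PACK-END LT/T7/H973/PairBQTop.lean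

-- ===== PACK-BEGIN LT/T7/H973/KillToolQ.lean
section





/-!
# Row LT, tower T7, leaf T7.L2Q.1.H2a.B.K `PBQ973.KillToolQC973 QWt.w1` (registry row 3042,
# helper973): THE KILLING TOOL over `ℚ` FOR A `K_∞`-TYPE -- CLOSED, UNCONDITIONAL

OFF-MAIN.  Complete proofs, nothing assumed.  ADDITIVE (new names only, all suffixed `973`).

    killToolQ973 (t : QWt) : PBQ973.KillToolQC973 t           (BOTH types, one proof)
    killToolQ_w1_973 : PBQ973.KillToolQC973 QWt.w1           (the leaf, VERBATIM)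
    pairBQC_of_three973 : RelTorusQC973 F → PreBQC973 P F → NatShapeQC973 F
                            → CQ801.PairBQC801 P F            (in `PairBQTop2.lean`)

Proof.  Port of `H193.killing_of_torus193` / `H193.kill193` (helper193) to the type `t.type`:

* test function: `H496.continuous_nat496`, `H496.hasCompactSupport_nat496` (type-agnostic),
  `NatSmoothC` (type-agnostic), bi-invariance of type `τ` (`a t` is central);
* Eisenstein-killing, adjoint, bi-`H`-invariance, `R(f♮) e = R(f) e` on the invariant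
  functions: the type-agnostic leaves `NatEKC`, `NatAdjEKC`, `NatHInvC`, `NatOpC`, `TorAvgFixC`;
* killing: `R(f♮) ψ = R(f♮) (P_f ψ)` (`RconvFinAvgC`, `f♮` is right `H`-invariant)
  `= R(f) (P_∞ P_f ψ)` (`NatOpC`), and `P_∞ P_f ψ` is an invariant cusp function OF TYPE `τ`
  (`H820.finAvgCusp_T820`, `H820.torAvgW_T820`, helper820) which is orthogonal to itself
  (`H820.finAvgOrth_T820`, `H820.torAvgOrth_T820` and the hypothesis), hence killed by every
  `R(φ)` (`NullC`).  NO absorption property is needed in this order of the two averages.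
-/

set_option autoImplicit false
set_option linter.unusedSectionVars false
set_option linter.unusedVariables false

open AutomorphicForm IsDedekindDomain NumberField MeasureTheory
open scoped ComplexConjugate

noncomputable section

namespace Fermat.Agent.LT.T7.PBQ973

open Fermat.Agent.LT.H556 Fermat.Agent.LT.H556.A0 Fermat.Agent.LT Fermat.Agent.LT.T7
  Fermat.Agent.LT.T7.L2Q

attribute [local instance] Fermat.Agent.LT.T5.instMeasurableSpaceG

section OneField

variable {K : Type} [Field K] [NumberField K]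

/-- **The torus mean of a function which is bi-invariant of type `τ` is bi-invariant of type
`τ`** (`a t` is central). -/
theorem isBiInvariant_nat973 {𝔑 : Ideal (𝓞 K)} {r : G K}
    {a : (InfinitePlace K → ℝ) → G K} {D : Set (InfinitePlace K → ℝ)}
    (hD : H193.IsTorusData 𝔑 r a D) {𝔫 : Ideal (𝓞 K)} {τ : G K → ℂ} {φ : G K → ℂ}
    (hφ : T5.IsBiInvariant 𝔫 τ φ) : T5.IsBiInvariant 𝔫 τ (H193.nat193 a D φ) := by
  have hc : ∀ (t : InfinitePlace K → ℝ) (g : G K), g * (a t)⁻¹ = (a t)⁻¹ * g :=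
    fun t g => H496.inv_central496 (hD.central t) g
  refine ⟨fun u hu g => ?_, fun u hu g => ?_, fun w k hk g => ?_, fun w k hk g => ?_⟩
  · show (((volume D).toReal : ℝ) : ℂ)⁻¹ * ∫ t in D, φ (g * u * (a t)⁻¹)
      = (((volume D).toReal : ℝ) : ℂ)⁻¹ * ∫ t in D, φ (g * (a t)⁻¹)
    congr 1
    refine integral_congr_ae (Filter.Eventually.of_forall fun t => ?_)
    show φ (g * u * (a t)⁻¹) = φ (g * (a t)⁻¹)
    rw [mul_assoc, hc t u, ← mul_assoc]
    exact hφ.level_right u hu _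
  · show (((volume D).toReal : ℝ) : ℂ)⁻¹ * ∫ t in D, φ (u * g * (a t)⁻¹)
      = (((volume D).toReal : ℝ) : ℂ)⁻¹ * ∫ t in D, φ (g * (a t)⁻¹)
    congr 1
    refine integral_congr_ae (Filter.Eventually.of_forall fun t => ?_)
    show φ (u * g * (a t)⁻¹) = φ (g * (a t)⁻¹)
    rw [mul_assoc]
    exact hφ.level_left u hu _
  · show (((volume D).toReal : ℝ) : ℂ)⁻¹ * ∫ t in D, φ (g * k * (a t)⁻¹)
      = (τ k)⁻¹ * ((((volume D).toReal : ℝ) : ℂ)⁻¹ * ∫ t in D, φ (g * (a t)⁻¹))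
    have h1 : ∫ t in D, φ (g * k * (a t)⁻¹) = ∫ t in D, (τ k)⁻¹ * φ (g * (a t)⁻¹) := by
      refine integral_congr_ae (Filter.Eventually.of_forall fun t => ?_)
      show φ (g * k * (a t)⁻¹) = (τ k)⁻¹ * φ (g * (a t)⁻¹)
      rw [mul_assoc, hc t k, ← mul_assoc]
      exact hφ.arch_right w k hk _
    rw [h1, integral_const_mul]
    ring
  · show (((volume D).toReal : ℝ) : ℂ)⁻¹ * ∫ t in D, φ (k * g * (a t)⁻¹)
      = (τ k)⁻¹ * ((((volume D).toReal : ℝ) : ℂ)⁻¹ * ∫ t in D, φ (g * (a t)⁻¹))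
    have h1 : ∫ t in D, φ (k * g * (a t)⁻¹) = ∫ t in D, (τ k)⁻¹ * φ (g * (a t)⁻¹) := by
      refine integral_congr_ae (Filter.Eventually.of_forall fun t => ?_)
      show φ (k * g * (a t)⁻¹) = (τ k)⁻¹ * φ (g * (a t)⁻¹)
      rw [mul_assoc]
      exact hφ.arch_left w k hk _
    rw [h1, integral_const_mul]
    ring

/-- **The torus mean of a test function of type `τ` is a test function of type `τ`.** -/
theorem isTestFn_natT973 (hT1 : T1.T1Out K) {𝔑 : Ideal (𝓞 K)} {r : G K}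
    {a : (InfinitePlace K → ℝ) → G K} {D : Set (InfinitePlace K → ℝ)}
    (hD : H193.IsTorusData 𝔑 r a D) {𝔫 : Ideal (𝓞 K)} {τ : G K → ℂ} {φ : G K → ℂ}
    (hφ : T5.IsTestFn 𝔫 τ φ) : T5.IsTestFn 𝔫 τ (H193.nat193 a D φ) := by
  have : T2Space (G K) := hT1.locComp.2.2.1
  have : SecondCountableTopology (G K) := hT1.locComp.2.2.2
  exact ⟨hφ.ktype, H496.continuous_nat496 hD.cont hD.bdd hφ.cont hφ.supp,
    H496.hasCompactSupport_nat496 hD.cont hD.bdd hφ.supp,
    (H193.natLeaves193 K).smooth hT1 𝔑 r a D hD φ hφ.cont hφ.supp hφ.smooth,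
    isBiInvariant_nat973 hD hφ.inv⟩

/-- **THE KILLING TOOL FOR AN ARBITRARY `K_∞`-TYPE `τ`**, parametric in the torus data, under
the hypothesis that the mean over `D` of every `r`-invariant function is translation invariant
(`H820.MeanRay820`; fields with one infinite place). -/
theorem killing_of_torusT973 (hT1 : T1.T1Out K) (τ : G K → ℂ) (R : Frame5 K)
    (hR : IsFrame5 R) (𝔑 𝔑₀ : Ideal (𝓞 K)) (h𝔑 : 𝔑 ≠ ⊥) (hle : 𝔑 ≤ 𝔑₀) (l : ℕ)
    (o : ℕ → HeightOneSpectrum (𝓞 K))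
    {a : (InfinitePlace K → ℝ) → G K} {D : Set (InfinitePlace K → ℝ)}
    (hD : H193.IsTorusData 𝔑₀ R.r a D) (hM : H820.MeanRay820 R.r a D) (φ₀ : G K → ℂ)
    (htest : T5.IsTestFn 𝔑 τ φ₀) (hek : T5.IsEK R.μ φ₀)
    (hadj : T5.IsEK R.μ (T5.adjointFn φ₀)) (hinv : H193.IsBiHInv 𝔑₀ l o φ₀) :
    T5.IsTestFn 𝔑 τ (H193.nat193 a D φ₀) ∧ T5.IsEK R.μ (H193.nat193 a D φ₀) ∧
      T5.IsEK R.μ (T5.adjointFn (H193.nat193 a D φ₀)) ∧
      H193.IsBiHInv 𝔑₀ l o (H193.nat193 a D φ₀) ∧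
      (∀ e : G K → ℂ, Continuous e →
        (∀ (w : InfinitePlace K) (z : G K), IsArchPosScalar w z →
          ∀ g : G K, e (g * z) = e g) →
        ∀ x : G K, T5.Rconv R.μ (H193.nat193 a D φ₀) e x = T5.Rconv R.μ φ₀ e x) ∧
      ∀ ψ : G K → ℂ, T5.IsCuspFn 𝔑 τ R.r ψ →
        (∀ χ : G K → ℂ, H820.IsWFnT820 τ 𝔑₀ R.r l o χ → T5.innerD R.μ R.F ψ χ = 0) →
        ∀ x : G K, T5.Rconv R.μ (H193.nat193 a D φ₀) ψ x = 0 := by
  have L := H193.projLeaves193 K
  have N := H193.natLeaves193 K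
  have LK := H193.killLeaves193 K
  have ht : T5.IsTestFn 𝔑 τ (H193.nat193 a D φ₀) := isTestFn_natT973 hT1 hD htest
  have hr : H193.IsRightHInv 𝔑₀ l o (H193.nat193 a D φ₀) :=
    N.hInv 𝔑₀ R.r a D hD 𝔑₀ l o φ₀ (H193.isRightHInv_of_biHInv193 hinv)
  have hbi : H193.IsBiHInv 𝔑₀ l o (H193.nat193 a D φ₀) :=
    ⟨fun u hu y => ⟨H193.nat_left_inv193 a D (fun y => (hinv.1 u hu y).1) y, hr.1 u hu y⟩,
      fun h h1 h2 h3 y =>
        ⟨H193.nat_left_inv193 a D (fun y => (hinv.2 h h1 h2 h3 y).1) y,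
          hr.2 h ⟨h1, h2, h3⟩ y⟩⟩
  refine ⟨ht, N.ek hT1 N.op R hR 𝔑₀ R.r a D hD φ₀ htest.cont htest.supp hek,
    N.adjEK hT1 R hR 𝔑₀ R.r a D hD φ₀ htest.cont htest.supp hadj, hbi, ?_, ?_⟩
  · intro e he hi x
    rw [N.op hT1 R hR 𝔑₀ R.r a D hD φ₀ htest.cont htest.supp e he x]
    have hfix : H193.torAvg a D e = e := funext fun g => N.fix 𝔑₀ R.r a D hD e hi g
    rw [hfix]
  · intro ψ hψ horth x
    obtain ⟨Rep, hRep⟩ := H193.finDataC_of193 L 𝔑 𝔑₀ h𝔑 hle l o
    obtain ⟨hc, hiw⟩ := H820.finAvgCusp_T820 hT1 τ hRep hR.ray hψ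
    have hW := H820.torAvgW_T820 hT1 τ hD hM hc hiw
    -- the projection is orthogonal to the invariant cusp functions of type `τ`
    have hproj : ∀ χ : G K → ℂ, H820.IsWFnT820 τ 𝔑₀ R.r l o χ →
        T5.innerD R.μ R.F (fun x => ψ x - H193.torAvg a D (H193.finAvg Rep ψ) x) χ = 0 := by
      intro χ hχ
      have e1 := H820.finAvgOrth_T820 hT1 L.translInv R hR hRep hψ hχ.cusp hχ.iw
      have e2 := H820.torAvgOrth_T820 hT1 L.translInv R hR hD hc hχ.cusp hχ.arch_scalar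
      have hsplit : (fun x => ψ x - H193.torAvg a D (H193.finAvg Rep ψ) x)
          = fun x => (ψ x - H193.finAvg Rep ψ x)
            + (H193.finAvg Rep ψ x - H193.torAvg a D (H193.finAvg Rep ψ) x) := by
        funext x
        ring
      have c1 : Continuous fun x => ψ x - H193.finAvg Rep ψ x := hψ.cont.sub hc.cont
      have c2 : Continuous fun x =>
          H193.finAvg Rep ψ x - H193.torAvg a D (H193.finAvg Rep ψ) x :=
        hc.cont.sub hW.cusp.cont
      rw [hsplit, H193.innerD_add193 hR.frame.finite c1 c2 hχ.cusp.cont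
        (H193.bdd_sub193 hψ.bdd hc.bdd) (H193.bdd_sub193 hc.bdd hW.cusp.bdd) hχ.cusp.bdd,
        e1, e2, add_zero]
    -- so it has norm zero
    have hnorm : T5.innerD R.μ R.F (H193.torAvg a D (H193.finAvg Rep ψ))
        (H193.torAvg a D (H193.finAvg Rep ψ)) = 0 := by
      have h1 := hproj _ hW
      rw [H193.innerD_sub193 hR.frame.finite hψ.cont hW.cusp.cont hW.cusp.cont hψ.bdd
        hW.cusp.bdd hW.cusp.bdd, horth _ hW, zero_sub, neg_eq_zero] at h1
      exact h1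
    rw [← LK.rconvFinAvg hT1 R hR 𝔑 𝔑₀ l o Rep hRep (H193.nat193 a D φ₀) ht.cont ht.supp hr ψ
      hψ.cont x,
      N.op hT1 R hR 𝔑₀ R.r a D hD φ₀ htest.cont htest.supp (H193.finAvg Rep ψ) hc.cont x]
    exact LK.null hT1 R hR _ hW.cusp.cont hW.cusp.bdd hW.cusp.aut.left_inv hW.cusp.aut.ray
      hnorm φ₀ x

end OneField

/-- **LEAF PBQ.K = THE KILLING TOOL over `ℚ`, for BOTH types.** -/
theorem killToolQ973 (t : QWt) : KillToolQC973 t := by
  intro R hR 𝔫 h𝔫 u a D hD hM f₀ htest hek hadj hinv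
  obtain ⟨ht, hek', hadj', hbi, hop, hkill⟩ :=
    killing_of_torusT973 (T1.t1Out ℚ) t.type R hR 𝔫 𝔫 h𝔫 le_rfl 1 (fun _ => u) hD hM f₀ htest
      hek hadj hinv
  exact ⟨ht, hek', hadj', hbi, hop, fun ψ hψ horth x =>
    hkill ψ hψ (fun χ hχ => horth χ ((H820.isWFnQ_iff820 t 𝔫 R.r u χ).2 hχ)) x⟩

/-- **LEAF T7.L2Q.1.H2a.B.K (registry row 3042), CLOSED.** -/
theorem killToolQ_w1_973 : KillToolQC973 QWt.w1 := killToolQ973 QWt.w1

/-- The frozen Prop, VERBATIM. -/
example : Fermat.Agent.LT.T7.PBQ973.KillToolQC973 Fermat.Agent.LT.T7.L2Q.QWt.w1 :=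
  killToolQ_w1_973

end Fermat.Agent.LT.T7.PBQ973

end

end
-- ===== PACK-END LT/T7/H973/KillToolQ.lean

-- ===== PACK-BEGIN LT/T7/H973/PairBQTop2.lean
section




/-!
# Row LT, tower T7, node T7.L2Q.1.H2a.B `CQ801.PairBQC801` (registry row 2856, owner helper973):
# the top of the first cut with the killing tool discharged

OFF-MAIN.  Complete proofs, nothing assumed.  ADDITIVE.

    pairBQC_of_three973 : RelTorusQC973 F → PreBQC973 P F → NatShapeQC973 F
                            → CQ801.PairBQC801 P F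

(`KillToolQC973 QWt.w1` is CLOSED: `KillToolQ.lean`, `killToolQ_w1_973`.)
-/

set_option autoImplicit false

open AutomorphicForm IsDedekindDomain NumberField MeasureTheory
open scoped ComplexConjugate

noncomputable section

namespace Fermat.Agent.LT.T7.PBQ973

open Fermat.Agent.LT.H556 Fermat.Agent.LT.H556.A0 Fermat.Agent.LT Fermat.Agent.LT.T7
  Fermat.Agent.LT.T7.L2Q Fermat.Agent.LT.T7.CQ801

variable {P : EKCond}
variable {F : Type} [Field F] [NumberField F]

/-- **THE NODE OF RECORD `CQ801.PairBQC801 P F` FROM THE THREE OPEN PIECES**: compatible torus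
data, the un-averaged pair, the shape of the torus means. -/
theorem pairBQC_of_three973 (hRel : RelTorusQC973 F) (hPre : PreBQC973 P F)
    (hSh : NatShapeQC973 F) : PairBQC801 P F :=
  pairBQC_of973 hRel hPre killToolQ_w1_973 hSh

/-- The frozen node, VERBATIM. -/
example (hRel : RelTorusQC973 F) (hPre : PreBQC973 P F) (hSh : NatShapeQC973 F) :
    Fermat.Agent.LT.T7.CQ801.PairBQC801 P F := pairBQC_of_three973 hRel hPre hSh

end Fermat.Agent.LT.T7.PBQ973

end

end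
-- ===== PACK-END LT/T7/H973/PairBQTop2.lean

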