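import Mathlib
import Fermat.Agent.Pack.LT4.E10L1
import Fermat.Agent.Pack.LT4.E5L1
import Fermat.Agent.Pack.LT4.E8L2
import Fermat.Agent.Pack.LT4.E1L3
import Fermat.Agent.Pack.LT4.E6L3
import Fermat.Agent.Pack.LT4.E6L2
import Fermat.Agent.Pack.LT4.E7L3
import Fermat.Agent.Pack.LT4.E4L2
import Fermat.Agent.Pack.LT2.E7L2
import Fermat.Agent.Pack.LT4.E9L3
import Fermat.Agent.Pack.LT4.E2L3
import Fermat.Agent.Pack.LT4.E3L3

set_option linter.all false

-- ===== PACK-BEGIN LT/T7/H87/BaseAQ801Top.lean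
section



/-!
# Row LT, tower T7, node T7.L2Q.1.H2a.A.0b `CQ801.BaseAQC801` (registry row 2984): CUT by
# helper87 -- the PROVED top

OFF-MAIN.  Complete proofs, nothing assumed.  ADDITIVE (new names only, suffix `87`).

    baseAQC801_of87 : DatQC87 F → StepMDatQC87 F → UpGoodQC87 F → DnGoodQC87 F → IwSuppC87 F
        → IwSuppC87 ℚ → DnStabQC87 F → ShapeQC87 F → CQ801.BaseAQC801 T7.ekMulti F   (VERBATIM)

Induction on the word of sphere means on the level of the data; the family is chosen by the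
axiom of choice; the leaves of the cut of `BaseAQC484` are applied to the data of every word.
-/

set_option autoImplicit false

open AutomorphicForm IsDedekindDomain NumberField MeasureTheory
open scoped ComplexConjugate

noncomputable section

namespace Fermat.Agent.LT.T7.BQ87

open Fermat.Agent.LT Fermat.Agent.LT.H556 Fermat.Agent.LT.H556.A0 Fermat.Agent.LT.T7
  Fermat.Agent.LT.T7.H305 Fermat.Agent.LT.T7.L2Q Fermat.Agent.LT.T7.H893
  Fermat.Agent.LT.T7.H962 Fermat.Agent.LT.T7.H732 Fermat.Agent.LT.T7.MQ298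
  Fermat.Agent.LT.T7.CQ801 Fermat.Agent.LT.T7.PQ484

attribute [local instance] Fermat.Agent.LT.T5.instMeasurableSpaceG

variable {F : Type} [Field F] [NumberField F]

theorem wordEv_nil87 (C : EigData F) : wordEv ([] : List (Gen F)) C = 1 := by
  simp [wordEv]

theorem wordEv_cons87 (x : Gen F) (W : List (Gen F)) (C : EigData F) :
    wordEv (x :: W) C = x.ev C * wordEv W C := by
  simp [wordEv]

/-- **THE TOP OF THE CUT of `BaseAQC801`**: the base family for the words of sphere means. -/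
theorem baseAQC801_of87 (hD : DatQC87 F) (hM : StepMDatQC87 F) (hU : UpGoodQC87 F)
    (hW : DnGoodQC87 F) (hS' : IwSuppC87 F) (hS : IwSuppC87 ℚ) (hC : DnStabQC87 F)
    (hP : ShapeQC87 F) : BaseAQC801 ekMulti F := by
  intro h3 hiq Φ hΦ hconst hek B hB hram 𝔫 hlev T₀ n n₀ m hexp c hc
  obtain ⟨D₀, hD₀⟩ := hD h3 hiq Φ hΦ hconst hek B hB hram 𝔫 hlev T₀ n n₀ m hexp c hc
  -- the data of every word
  have key : ∀ W : List (Gen F), IsMWord801 W →
      ∃ E : DatQ87 F, IsDatQ87 Φ (toBase962_732 B) 𝔫 c T₀ n m E ∧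
        (∀ (χ : G F → ℂ) (C : EigData F),
          IsEigFn (toBase962_732 B).𝔑₀ (toBase962_732 B).R'.r 2 (toBase962_732 B).o χ C →
          ∀ y : G F, T5.Rconv (toBase962_732 B).R'.μ (E.up (upI (K' := F) 𝔫)) χ y
            = wordEv W C * T5.Rconv (toBase962_732 B).R'.μ (D₀.up (upI (K' := F) 𝔫)) χ y) ∧
        ∀ (t : QWt) (χ : G ℚ → ℂ) (cd : EigData ℚ) (C : EigData F),
          IsEigFnQ t 𝔫 (toBase962_732 B).R.r (toBase962_732 B).u χ cd →
          IsBCDataQ t cd C (toBase962_732 B).S →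
          ∀ y : G ℚ, T5.Rconv (toBase962_732 B).R.μ (E.dn t 𝔫) χ y
            = wordEv W C * T5.Rconv (toBase962_732 B).R.μ (D₀.dn t 𝔫) χ y := by
    intro W
    induction W with
    | nil =>
      intro _
      refine ⟨D₀, hD₀, fun χ C _ y => ?_, fun t χ cd C _ _ y => ?_⟩
      · rw [wordEv_nil87, one_mul]
      · rw [wordEv_nil87, one_mul]
    | cons x W ih =>
      intro hxW
      have hW' : IsMWord801 W := fun z hz => hxW z (List.mem_cons_of_mem x hz)
      obtain ⟨w, d, hd, hx⟩ := hxW x List.mem_cons_self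
      obtain ⟨E, hE, hEu, hEd⟩ := ih hW'
      obtain ⟨E', hE', hu, hdn⟩ :=
        hM h3 hiq Φ hΦ hconst hek B hB hram 𝔫 hlev T₀ n n₀ m hexp c hc E hE w d hd
      have hev : ∀ C : EigData F, x.ev C = C.m w d := fun C => by rw [hx]; rfl
      refine ⟨E', hE', fun χ C hχ y => ?_, fun t χ cd C hχ hbc y => ?_⟩
      · rw [hu χ C hχ y, hEu χ C hχ y, wordEv_cons87, hev, mul_assoc]
      · rw [hdn t χ cd C hχ hbc y, hEd t χ cd C hχ hbc y, wordEv_cons87, hev, mul_assoc]
  have : Nonempty (DatQ87 F) := ⟨D₀⟩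
  choose! fam hfam using key
  have hnil : IsMWord801 ([] : List (Gen F)) := fun z hz => absurd hz List.not_mem_nil
  -- the scalar of the base
  obtain ⟨-, -, -, -, c₁, u5, u6⟩ :=
    hU h3 hiq Φ hΦ hconst hek B hB hram 𝔫 hlev T₀ n n₀ m hexp c hc D₀ hD₀
  -- the word-free properties for given data
  have good : ∀ E : DatQ87 F, IsDatQ87 Φ (toBase962_732 B) 𝔫 c T₀ n m E →
      IsGoodAQ801 (toBase962_732 B) 𝔫 c T₀ n m (E.up (upI (K' := F) 𝔫))
        (fun t => E.dn t 𝔫) := by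
    intro E hE
    obtain ⟨u1, u2, u3, u4, -⟩ :=
      hU h3 hiq Φ hΦ hconst hek B hB hram 𝔫 hlev T₀ n n₀ m hexp c hc E hE
    have hdn := hW h3 hiq Φ hΦ hconst hek B hB hram 𝔫 hlev T₀ n n₀ m hexp c hc E hE
    have hs_up := hS' (upI (K' := F) 𝔫) E.P' 2 (toBase962_732 B).o
      (fun j _ => (hlev.mem_S'_g ((toBase962_732 B).o j)).1 (hB.orbit_level j))
      (fun j _ h => hE.out ((toBase962_732 B).o j) h (hB.orbit_level j))
      (E.up (upI (K' := F) 𝔫)) u1.supp u4
    have hs_dn : ∀ t : QWt, ∃ C : Set (G ℚ), IsCompact C ∧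
        T5.H32.IsIwSupported32 1 (fun _ => (toBase962_732 B).u) C (E.dn t 𝔫) := fun t =>
      hS 𝔫 E.P 1 (fun _ => (toBase962_732 B).u) (fun _ _ => hlev.u_level)
        (fun _ _ h => hE.frame_dn.prime (toBase962_732 B).u h hlev.u_level)
        (E.dn t 𝔫) (hdn t).1.supp (hdn t).2.2.2.1
    exact ⟨u1, ⟨u2, u3⟩, fun t => (hdn t).1, fun t => ⟨(hdn t).2.1, (hdn t).2.2.1⟩, hs_up,
      hs_dn, hP h3 hiq Φ hΦ hconst hek B hB hram 𝔫 hlev T₀ n n₀ m hexp c hc E hE⟩
  refine ⟨c₁, fun W => (fam W).up (upI (K' := F) 𝔫), fun W t => (fam W).dn t 𝔫, ?_⟩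
  refine ⟨fun W hWm => good (fam W) (hfam W hWm).1, fun W hWm χ C hχ y => ?_, u6,
    fun W hWm t χ cd C hχ hbc y => ?_, ?_⟩
  · rw [(hfam W hWm).2.1 χ C hχ y, u5 χ C hχ y, mul_assoc]
  · have h1 := (hfam W hWm).2.2 t χ cd C hχ hbc y
    have h2 := (hfam [] hnil).2.2 t χ cd C hχ hbc y
    rw [wordEv_nil87, one_mul] at h2
    rw [h1, h2]
  · have hE := (hfam [] hnil).1
    have hdn := hW h3 hiq Φ hΦ hconst hek B hB hram 𝔫 hlev T₀ n n₀ m hexp c hc (fam []) hE
    have h := hC h3 hiq Φ B hB hram 𝔫 hlev (fam []).P hE.frame_dn.prime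
      (fun t => (fam []).dn t 𝔫) (fun t => (hdn t).1) (fun t => (hdn t).2.2.2.1)
      (fun t => (hdn t).2.2.2.2)
    exact ⟨h.wfn, h.cls, h.comm⟩

end Fermat.Agent.LT.T7.BQ87

end

end
-- ===== PACK-END LT/T7/H87/BaseAQ801Top.lean

-- ===== PACK-BEGIN LT/T7/SM640/StepMDatSpec.lean
section




/-!
# Row LT, tower T7, node T7.L2Q.1.H2a.A.0b.M `BQ87.StepMDatQC87` (registry row 3188; the step
# `M_{w,d}` ON THE DATA, quadratic step): CUT by helper640 -- Spec

OFF-MAIN.  Definitions and frozen Props only (the proved top is `StepMDatTop.lean`).  No hole,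
nothing assumed.  ADDITIVE (new names only, suffix `640`, namespace
`Fermat.Agent.LT.T7.SM640`).  Vocabulary, byte-identical copies: the cut of helper87
(`T7/H87/BaseAQSpec.lean` 6471b15c, `BaseAQ801Spec.lean` 433c99f6: `DatQ87`, `IsDatQ87`,
`StepMDatQC87`), the cubic step of helper445 (`T7/H445/StepMSpec.lean` 95c0ff93: `sphMeanC445`,
`IsSphC445`), stations T3.18 / T3.18R, `T6/SpecArch.lean` (`sphTransR`, `sphC`).

    stepMDatQC_of640 : AbelUniqC640 → SegBumpC640 → SphLocTestC640 → SphLocAbelC640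
        → SphLocActsC640 → SphTransSegC640 → StepTelC640 F → StepFtC640 F → StepUpOpC640 F
        → DnOpFormC640 F → T3.R.AbelRealC → H445.SphExLocC445 → BQ87.StepMDatQC87 F  (VERBATIM)

## The construction: EXPLICIT new data `stepDat640 D d y F0' F1'`

Frames, `μc`, `κc`, the Satake coefficients and ALL finite components are those of `D`.
* upstairs `Φ' i w = sphMeanC445 y (Φ i w)` (`y` the sphere family of radius `d` of `GL₂(ℂ)`),
  `β'' i w = segUp640 d (β' i w)`, `segUp640 d β (X) = (4π / sinh d) ∫_{-d/2}^{d/2} β(X₁ + a, X₂ - a) da`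
  (ARCHIMEDES: the `N`-integral of the sphere mean; proved by helper698 `sphAbelUp698`, claimed by
  helper132);
* downstairs `β_new i v = segDn640 d (β i v)`,
  `segDn640 d β (X) = (2π / sinh d) ∫_{-d}^{d} β(X₁ + b, X₂ - b) db`
  (`halfQ801 c (segUp640 d β') = segDn640 d (halfQ801 c β')`: substitution `b = 2a`), and
  `F0' i`, `F1' i` of weight `0`, `-1` with `N`-integral `β_new i` (RE-SYNTHESIS,
  `T3.R.AbelRealC`, closed; chosen in the top).

## The leaves

LOCAL (no number field):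
* `AbelUniqC640` [S, Mathlib]: the `N`-integral determines `β` (complex and real form).
* `SegBumpC640` [M, Mathlib]: `segUp640`, `segDn640` preserve symmetric bumps; total mass of
  `segUp640 d β` is `4π (d / sinh d) ∫ β`; the relation with `halfQ801`.
* `SphLocTestC640` [M-L, `GL₂(ℂ)`]: the local sphere mean preserves `IsCplxTest` + `IsCplxSmooth`
  (and then `T6.IsArchTestC`).  Assets: the proofs of `H445.SphArchC445`, `H445.SphTestC445`.
* `SphLocAbelC640` [L, `GL₂(ℂ)`]: ARCHIMEDES.  Asset: helper698 `T7/H698/SphAbel.lean`.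
* `SphLocActsC640` [L, `GL₂(ℂ)`]: `ActsBy μc Φ C → ActsBy μc (sphMeanC445 y Φ) (4π (d/sinh d) C)`
  (Fubini, right invariance of the Haar measure of `GL₂(ℂ)`, `IsLocSph0.mean`; the computation
  of the falsity check (a) of `H445/StepMSpec.lean`).
* `SphTransSegC640` [XL, `GL₂(ℝ)`]: THE SPECTRAL STEP downstairs: test functions `F`, `F'` of
  weight `n ∈ {0, -1}` with `N`-integrals `β`, `segDn640 d β`:
  `sphTransR μr n F' s = 4π sphC (2s) (cosh d) · sphTransR μr n F s` for all `s`.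

GLOBAL (for the data):
* `StepTelC640 F` [L]: the coordinates of the new data telescope (upstairs and downstairs).
* `StepFtC640 F` [M-L]: the Fourier transform of the new coordinates upstairs is
  `4π (d / sinh d)` times the old one (one infinite place), in particular `ft_ne` is preserved.
* `StepUpOpC640 F` [L]: `R(D'.up) χ = C.m w d · R(D.up) χ` on `IsEigFn` (the cubic leaves
  `H445.SphPureC445` / `SphOpC445` / `SphExC445` for ONE field, `BQ87.UpGoodQC87`).
* `DnOpFormC640 F` [L]: THE PRODUCT FORM of the operator of the sums downstairs (station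
  T3.18R, `T3.R.ROpRC` + `T3.R.LocOfMeanRC`, closed; helper830 `actsOnR_sph830`): there are a
  Haar measure `μr` of `GL₂(ℝ)` and functions `Ξ i` such that for EVERY family `Fr` of test
  functions of weight `t.wt`: `R(∑ᵢ pureFnR (f₀ i) (Fr i)) χ = ∑ᵢ sphTransR μr t.wt (Fr i) s · Ξ i`.

## FALSITY CHECKS (helper640)

(a) Constants.  Upstairs the character of parameter `ν` on the torus is `e^{ν (X₁ - X₂)}`:
`(4π / sinh d) ∫_{-d/2}^{d/2} e^{2 ν a} da = 4π sinh(ν d) / (ν sinh d) = 4π sphC ν (cosh d)`,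
the eigenvalue of the sphere mean of radius `d` on the class of parameter `ν` (`ν = 0`:
`4π d / sinh d`, `IsLocSph0.mean`).  Downstairs (`halfQ801`: `x ↦ x/2`, parameter `s ↔ ν = 2s`):
`(2π / sinh d) ∫_{-d}^{d} e^{2 s b} db = 4π sinh(2 s d) / (2 s sinh d) = 4π sphC (2s) (cosh d)`
`= C.m w d` (`IsBCDataQ`, second clause).  (b) `SphTransSegC640` is TRUE by the closed stations:
take `Φ` with `N`-integral `β'`, `halfQ801 c β' = β` (`AS.AbelCplxSmoothC`), then
`sphMeanC445 y Φ` has the `N`-integral `segUp640 d β'` (`SphLocAbelC640`), the Abel relations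
`H626.IsAbelRel626 c` hold for `(Φ, F, ·)` and `(sphMeanC445 y Φ, F', ·)`
(helper830 `isAbelRel_iff830`), `H626.SpecRelC626` (closed, helper830) gives
`sphTransR F s = c_n sphTransC Φ (2s)` and the same for `F'`, and
`sphTransC (sphMeanC445 y Φ) ν = 4π sphC ν (cosh d) sphTransC Φ ν` (the mean value property of
`sphC ν ∘ rhoC`: hyperbolic law of cosines, `∫_{|r-d|}^{r+d} sinh(ν δ) dδ`).  The second
function of weight `±1` / `0` needed by `SpecRelC626` exists by `T3.R.AbelRealC`.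
(c) `DnOpFormC640`: if `cd.b v = 0` for some `v ∈ P` then `χ = 0` and `Ξ = 0` works; the same
`Ξ` for ALL families `Fr` (it is `κ₁ ∏_{v ∈ P} laurent (A i v) (z₁ v) (z₂ v) · χ`).
(d) `StepTelC640`: `c₀ = ((e_v, 0)_v, (log |α|_w, 0)_w)`, `e_v > 0`, `P ≠ ∅`, the `A i v` have
finite support: for fixed `Δ` only finitely many `j` contribute, uniformly in the variable of
the segment, so sum and integral commute.  ONE infinite place (`IsImagQuad F`; `ℚ`).
(e) The new data do not depend on `w`; `F` has one infinite place.  `d > 0` everywhere.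
-/

set_option autoImplicit false

open AutomorphicForm IsDedekindDomain NumberField MeasureTheory
open scoped ComplexConjugate

noncomputable section

namespace Fermat.Agent.LT.T7.SM640

open Fermat.Agent.LT Fermat.Agent.LT.H556 Fermat.Agent.LT.H556.A0 Fermat.Agent.LT.T7
  Fermat.Agent.LT.T7.H305 Fermat.Agent.LT.T7.L2Q Fermat.Agent.LT.T7.H893
  Fermat.Agent.LT.T7.H962 Fermat.Agent.LT.T7.H732 Fermat.Agent.LT.T7.MQ298
  Fermat.Agent.LT.T7.CQ801 Fermat.Agent.LT.T7.PQ484 Fermat.Agent.LT.T7.BQ87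

attribute [local instance] Fermat.Agent.LT.T5.instMeasurableSpaceG

/-! ## 1. Vocabulary -/

/-- The segment average upstairs: `(4π / sinh d) ∫_{-d/2}^{d/2} β(X₁ + a, X₂ - a) da`. -/
def segUp640 (d : ℝ) (β : ℝ × ℝ → ℂ) : ℝ × ℝ → ℂ :=
  fun X => ((4 * Real.pi / Real.sinh d : ℝ) : ℂ) *
    ∫ a in (-(d / 2))..(d / 2), β (X.1 + a, X.2 - a)

/-- The segment average downstairs: `(2π / sinh d) ∫_{-d}^{d} β(X₁ + b, X₂ - b) db`. -/
def segDn640 (d : ℝ) (β : ℝ × ℝ → ℂ) : ℝ × ℝ → ℂ :=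
  fun X => ((2 * Real.pi / Real.sinh d : ℝ) : ℂ) *
    ∫ b in (-d)..d, β (X.1 + b, X.2 - b)

/-- **THE NEW DATA**: the frames, the measure, the constants and the finite components of `D`;
at infinity the sphere means upstairs, the segment averages of the coordinates, and the GIVEN
real components `F0'`, `F1'`. -/
def stepDat640 {F : Type} [Field F] [NumberField F] (D : DatQ87 F) (d : ℝ)
    (y : ℝ → ℝ → GL (Fin 2) ℂ) (F0' F1' : Fin D.N → GL (Fin 2) ℝ → ℂ) : DatQ87 F where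
  N := D.N
  P' := D.P'
  e' := D.e'
  a₀' := D.a₀'
  α' := D.α'
  P := D.P
  e := D.e
  a₀ := D.a₀
  α := D.α
  μc := D.μc
  κc := D.κc
  A' := D.A'
  β' := fun i w => segUp640 d (D.β' i w)
  φ₀ := D.φ₀
  Φ := fun i w => H445.sphMeanC445 y (D.Φ i w)
  A := D.A
  β := fun i v => segDn640 d (D.β i v)
  f₀ := D.f₀
  F0 := F0'
  F1 := F1'

/-! ## 2. The local leaves -/

/-- **LEAF SM.0 = ABEL-UNIQ [S, Mathlib].**  The `N`-integral determines `β`: evaluate at
`c₁ = e^{X₁}`, `c₂ = e^{X₂}`. -/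
def AbelUniqC640 : Prop :=
  (∀ (Φ : GL (Fin 2) ℂ → ℂ) (β₁ β₂ : ℝ × ℝ → ℂ),
      T3.AS.HasAbelN Φ β₁ → T3.AS.HasAbelN Φ β₂ → β₁ = β₂) ∧
    ∀ (Fr : GL (Fin 2) ℝ → ℂ) (β₁ β₂ : ℝ × ℝ → ℂ),
      T3.R.HasAbelNR Fr β₁ → T3.R.HasAbelNR Fr β₂ → β₁ = β₂

/-- **LEAF SM.1 = SEG-BUMP [M, Mathlib].**  The segment averages of a symmetric bump are
symmetric bumps; the total mass upstairs; the relation with `halfQ801`. -/
def SegBumpC640 : Prop :=
  ∀ d : ℝ, 0 < d → ∀ β : ℝ × ℝ → ℂ, T3.AS.IsSymBump β →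
    T3.AS.IsSymBump (segUp640 d β) ∧ T3.AS.IsSymBump (segDn640 d β) ∧
      (∫ x : ℝ × ℝ, segUp640 d β x)
        = ((4 * Real.pi * (d / Real.sinh d) : ℝ) : ℂ) * ∫ x : ℝ × ℝ, β x ∧
      ∀ c : ℂ, halfQ801 c (segUp640 d β) = segDn640 d (halfQ801 c β)

/-- **LEAF SM.2 = SPH-LOC-TEST [M-L, `GL₂(ℂ)`].**  The local sphere mean of a smooth
bi-`U(2)`-invariant test function is one (both vocabularies). -/
def SphLocTestC640 : Prop :=
  ∀ (d : ℝ) (y : ℝ → ℝ → GL (Fin 2) ℂ), H445.IsSphC445 d y →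
    ∀ Φ : GL (Fin 2) ℂ → ℂ, T3.AS.IsCplxTest Φ → T3.AS.IsCplxSmooth Φ →
      T3.AS.IsCplxTest (H445.sphMeanC445 y Φ) ∧ T3.AS.IsCplxSmooth (H445.sphMeanC445 y Φ) ∧
        T6.IsArchTestC (H445.sphMeanC445 y Φ)

/-- **LEAF SM.3 = SPH-LOC-ABEL [L, `GL₂(ℂ)`] (ARCHIMEDES).**  The `N`-integral of the local
sphere mean is the segment average of the `N`-integral. -/
def SphLocAbelC640 : Prop :=
  ∀ d : ℝ, 0 < d → ∀ y : ℝ → ℝ → GL (Fin 2) ℂ, H445.IsSphC445 d y →
    ∀ (Φ : GL (Fin 2) ℂ → ℂ) (β : ℝ × ℝ → ℂ), T3.AS.IsCplxTest Φ → T3.AS.IsSymBump β →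
      T3.AS.HasAbelN Φ β → T3.AS.HasAbelN (H445.sphMeanC445 y Φ) (segUp640 d β)

/-- **LEAF SM.4 = SPH-LOC-ACTS [L, `GL₂(ℂ)`].**  On the functions of parameter `0` the local
sphere mean of radius `d` multiplies the scalar by `4π d / sinh d`. -/
def SphLocActsC640 : Prop :=
  ∀ μc : @Measure (GL (Fin 2) ℂ) (borel _), @Measure.IsHaarMeasure _ _ _ (borel _) μc →
    ∀ d : ℝ, 0 < d → ∀ y : ℝ → ℝ → GL (Fin 2) ℂ, H445.IsSphC445 d y →
    ∀ (Φ : GL (Fin 2) ℂ → ℂ) (C : ℂ), T3.AS.IsCplxTest Φ →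
      @T3.AS.ActsBy (borel _) μc Φ C →
      @T3.AS.ActsBy (borel _) μc (H445.sphMeanC445 y Φ)
        (((4 * Real.pi * (d / Real.sinh d) : ℝ) : ℂ) * C)

/-- **LEAF SM.5 = SPH-TRANS-SEG [XL, `GL₂(ℝ)`] (THE SPECTRAL STEP).**  For test functions `Fr`,
`Fr'` of weight `n ∈ {0, -1}` on `GL₂(ℝ)` whose `N`-integrals are `β` and `segDn640 d β`:
`sphTransR μr n Fr' s = 4π sphC (2s) (cosh d) · sphTransR μr n Fr s`.  Header, check (b). -/
def SphTransSegC640 : Prop :=
  ∀ μr : @Measure (GL (Fin 2) ℝ) (borel _), @Measure.IsHaarMeasure _ _ _ (borel _) μr →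
    ∀ n : ℤ, n = 0 ∨ n = -1 → ∀ d : ℝ, 0 < d →
    ∀ (Fr Fr' : GL (Fin 2) ℝ → ℂ) (β : ℝ × ℝ → ℂ), T3.AS.IsSymBump β →
      T6.IsArchTestR n Fr → T6.IsArchTestR n Fr' →
      T3.R.HasAbelNR Fr β → T3.R.HasAbelNR Fr' (segDn640 d β) →
      ∀ s : ℂ, T6.sphTransR μr n Fr' s
        = ((4 * Real.pi : ℝ) : ℂ) * T6.sphC (2 * s) (Real.cosh d) * T6.sphTransR μr n Fr s

/-! ## 3. The global leaves -/

section Global

variable (F : Type) [Field F] [NumberField F]

/-- **LEAF SM.6 = STEP-TEL [L].**  The coordinates of the new data telescope, upstairs and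
downstairs.  Header, check (d). -/
def StepTelC640 : Prop :=
  IsImagQuad F →
    ∀ (Φe : HeckeEigensystem F ℂ) (B : L2QBase962 F) (𝔫 : Ideal (𝓞 ℚ)) (c : ℂ)
      (T₀ : Finset (HeightOneSpectrum (𝓞 ℚ)))
      (n : HeightOneSpectrum (𝓞 F) → ℕ) (m : HeightOneSpectrum (𝓞 ℚ) → ℕ)
      (D : DatQ87 F), IsDatQ87 Φe B 𝔫 c T₀ n m D →
    ∀ d : ℝ, 0 < d → ∀ (y : ℝ → ℝ → GL (Fin 2) ℂ) (F0' F1' : Fin D.N → GL (Fin 2) ℝ → ℂ),
      (∀ Δ : T3.M.CoordM F D.P',
        HasSum (fun j : ℤ => (stepDat640 D d y F0' F1').crdUp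
          (Δ + j • T3.M.coordTorM F D.P' D.e' D.α')) 0) ∧
      ∀ Δ : T3.M.CoordM ℚ D.P,
        HasSum (fun j : ℤ => (stepDat640 D d y F0' F1').crdDn
          (Δ + j • T3.M.coordTorM ℚ D.P D.e D.α)) 0

/-- **LEAF SM.7 = STEP-FT [M-L].**  The Fourier transform of the new coordinates upstairs:
`4π (d / sinh d)` times the old one (`T3.M.FtPureC`, `SegBumpC640`; ONE infinite place). -/
def StepFtC640 : Prop :=
  IsImagQuad F →
    ∀ (Φe : HeckeEigensystem F ℂ) (B : L2QBase962 F) (𝔫 : Ideal (𝓞 ℚ)) (c : ℂ)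
      (T₀ : Finset (HeightOneSpectrum (𝓞 ℚ)))
      (n : HeightOneSpectrum (𝓞 F) → ℕ) (m : HeightOneSpectrum (𝓞 ℚ) → ℕ)
      (D : DatQ87 F), IsDatQ87 Φe B 𝔫 c T₀ n m D →
    ∀ d : ℝ, 0 < d → ∀ (y : ℝ → ℝ → GL (Fin 2) ℂ) (F0' F1' : Fin D.N → GL (Fin 2) ℝ → ℂ)
      (z₁ z₂ : HeightOneSpectrum (𝓞 F) → ℂ),
      T3.M.ftCoordM F D.P' (stepDat640 D d y F0' F1').crdUp z₁ z₂
        = ((4 * Real.pi * (d / Real.sinh d) : ℝ) : ℂ) * T3.M.ftCoordM F D.P' D.crdUp z₁ z₂

/-- **LEAF SM.8 = STEP-UP-OP [L].**  In the context of the node: the operator upstairs of the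
new data is `C.m w d` times the operator of `D` on the eigenfunctions.
Proof.  `F` is totally complex with ONE infinite place `w`.  `Y` = the sphere family at `w`
(`H445.SphExC445 F`): `(stepDat640 …).up 𝔑 = H445.sphMean445 Y (D.up 𝔑)` (the sphere mean of a
pure tensor `T3.M.pureFnM` is the pure tensor with the local sphere mean at `w`: proof of
`H445.SphPureC445`; linearity: the integrands are continuous), `D.up 𝔑` is a test function
(`BQ87.UpGoodQC87`, hypothesis here), `H445.SphOpC445 F`. -/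
def StepUpOpC640 : Prop :=
  HasSqrtNegThree F → IsImagQuad F →
    ∀ Φ : HeckeEigensystem F ℂ, A0.IsCuspAdelicSph0 F Φ → ConstOnFibresQ Φ → ekMulti F Φ →
      ∀ B : L2Q.H60.L2QBase F, L2Q.H60.IsL2QBase Φ B → L2Q.H60.IsRamQ60 B →
      ∀ 𝔫 : Ideal (𝓞 ℚ), CQ57.IsLevQ57 (toBase962_732 B) 𝔫 →
      ∀ (T₀ : Finset (HeightOneSpectrum (𝓞 ℚ)))
        (n n₀ : HeightOneSpectrum (𝓞 F) → ℕ) (m : HeightOneSpectrum (𝓞 ℚ) → ℕ),
        CQ57.IsLevFnQ57 (toBase962_732 B) 𝔫 T₀ n n₀ m →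
        ∀ c : ℂ, c ≠ 0 →
        ∀ D : DatQ87 F, IsDatQ87 Φ (toBase962_732 B) 𝔫 c T₀ n m D →
        T5.IsTestFn (upI (K' := F) 𝔫) T5.trivType (D.up (upI (K' := F) 𝔫)) →
        ∀ (w : InfinitePlace F) (d : ℝ), 0 < d →
        ∀ (y : ℝ → ℝ → GL (Fin 2) ℂ), H445.IsSphC445 d y →
        ∀ (F0' F1' : Fin D.N → GL (Fin 2) ℝ → ℂ) (χ : G F → ℂ) (C : EigData F),
          IsEigFn (toBase962_732 B).𝔑₀ (toBase962_732 B).R'.r 2 (toBase962_732 B).o χ C →
          ∀ x : G F,
            T5.Rconv (toBase962_732 B).R'.μ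
                ((stepDat640 D d y F0' F1').up (upI (K' := F) 𝔫)) χ x
              = C.m w d * T5.Rconv (toBase962_732 B).R'.μ (D.up (upI (K' := F) 𝔫)) χ x

/-- **LEAF SM.9 = DN-OP-FORM [L] (station T3.18R).**  In the context of the node, for data `D`,
a type `t`, an eigenfunction `χ` of type `t` with eigen-data `cd` of parameter `s` at infinity:
there are a Haar measure `μr` of `GL₂(ℝ)` and functions `Ξ i` such that for EVERY family `Fr`
of test functions of weight `t.wt` on `GL₂(ℝ)` the operator of the sum of the pure tensors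
`T3.R.pureFnR ℚ _ 𝔫 D.P (D.f₀ i) (fun _ => Fr i)` on `χ` is `∑ᵢ sphTransR μr t.wt (Fr i) s · Ξ i`.
Header, check (c). -/
def DnOpFormC640 : Prop :=
  HasSqrtNegThree F → IsImagQuad F →
    ∀ Φ : HeckeEigensystem F ℂ, A0.IsCuspAdelicSph0 F Φ → ConstOnFibresQ Φ → ekMulti F Φ →
      ∀ B : L2Q.H60.L2QBase F, L2Q.H60.IsL2QBase Φ B → L2Q.H60.IsRamQ60 B →
      ∀ 𝔫 : Ideal (𝓞 ℚ), CQ57.IsLevQ57 (toBase962_732 B) 𝔫 →
      ∀ (T₀ : Finset (HeightOneSpectrum (𝓞 ℚ)))
        (n n₀ : HeightOneSpectrum (𝓞 F) → ℕ) (m : HeightOneSpectrum (𝓞 ℚ) → ℕ),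
        CQ57.IsLevFnQ57 (toBase962_732 B) 𝔫 T₀ n n₀ m →
        ∀ c : ℂ, c ≠ 0 →
        ∀ D : DatQ87 F, IsDatQ87 Φ (toBase962_732 B) 𝔫 c T₀ n m D →
        ∀ (t : QWt) (χ : G ℚ → ℂ) (cd : EigData ℚ) (s : ℂ),
          IsEigFnQ t 𝔫 (toBase962_732 B).R.r (toBase962_732 B).u χ cd →
          (∀ (v : InfinitePlace ℚ) (r : ℝ), 0 < r →
            cd.m v r = ((2 * Real.pi : ℝ) : ℂ) * T6.sphRad t.wt s (Real.cosh r)) →
          ∃ (μr : @Measure (GL (Fin 2) ℝ) (borel _)) (Ξ : Fin D.N → G ℚ → ℂ),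
            @Measure.IsHaarMeasure _ _ _ (borel _) μr ∧
            ∀ Fr : Fin D.N → GL (Fin 2) ℝ → ℂ, (∀ i, T6.IsArchTestR t.wt (Fr i)) →
              ∀ x : G ℚ,
                T5.Rconv (toBase962_732 B).R.μ
                    (fun g => ∑ i : Fin D.N,
                      T3.R.pureFnR ℚ ratReal87 𝔫 D.P (D.f₀ i) (fun _ => Fr i) g) χ x
                  = ∑ i : Fin D.N, T6.sphTransR μr t.wt (Fr i) s * Ξ i x

end Global

/-! ## Appendix: the equation lemmas of the definitions of this file are realised HERE -/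

theorem eqns_realised_stepMDat640 : True := by
  have _a1 := @segUp640.eq_1
  have _a2 := @segUp640.eq_def
  have _a3 := @segUp640.eq_unfold
  have _b1 := @segDn640.eq_1
  have _b2 := @segDn640.eq_def
  have _b3 := @segDn640.eq_unfold
  have _c1 := @stepDat640.eq_1
  have _c2 := @stepDat640.eq_def
  have _c3 := @stepDat640.eq_unfold
  have _d1 := @AbelUniqC640.eq_1
  have _d2 := @AbelUniqC640.eq_def
  have _d3 := @AbelUniqC640.eq_unfold
  have _e1 := @SegBumpC640.eq_1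
  have _e2 := @SegBumpC640.eq_def
  have _e3 := @SegBumpC640.eq_unfold
  have _f1 := @SphLocTestC640.eq_1
  have _f2 := @SphLocTestC640.eq_def
  have _f3 := @SphLocTestC640.eq_unfold
  have _g1 := @SphLocAbelC640.eq_1
  have _g2 := @SphLocAbelC640.eq_def
  have _g3 := @SphLocAbelC640.eq_unfold
  have _h1 := @SphLocActsC640.eq_1
  have _h2 := @SphLocActsC640.eq_def
  have _h3 := @SphLocActsC640.eq_unfold
  have _i1 := @SphTransSegC640.eq_1
  have _i2 := @SphTransSegC640.eq_def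
  have _i3 := @SphTransSegC640.eq_unfold
  have _j1 := @StepTelC640.eq_1
  have _j2 := @StepTelC640.eq_def
  have _j3 := @StepTelC640.eq_unfold
  have _k1 := @StepFtC640.eq_1
  have _k2 := @StepFtC640.eq_def
  have _k3 := @StepFtC640.eq_unfold
  have _l1 := @StepUpOpC640.eq_1
  have _l2 := @StepUpOpC640.eq_def
  have _l3 := @StepUpOpC640.eq_unfold
  have _m1 := @DnOpFormC640.eq_1
  have _m2 := @DnOpFormC640.eq_def
  have _m3 := @DnOpFormC640.eq_unfold
  trivial

end Fermat.Agent.LT.T7.SM640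

end

end
-- ===== PACK-END LT/T7/SM640/StepMDatSpec.lean

-- ===== PACK-BEGIN LT/T7/SM640/StepMDatTop.lean
section



/-!
# Row LT, tower T7, node T7.L2Q.1.H2a.A.0b.M `BQ87.StepMDatQC87` (registry row 3188): CUT by
# helper640 -- the PROVED top

OFF-MAIN.  Complete proofs, nothing assumed.  ADDITIVE (new names only, suffix `640`).

    stepMDatQC_of640 : AbelUniqC640 → SegBumpC640 → SphLocTestC640 → SphLocAbelC640
        → SphLocActsC640 → SphTransSegC640 → StepTelC640 F → StepFtC640 F → StepUpOpC640 F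
        → DnOpFormC640 F → BQ87.UpGoodQC87 F → T3.R.AbelRealC → H445.SphExLocC445
        → BQ87.StepMDatQC87 F                                                   (VERBATIM)
-/

set_option autoImplicit false

open AutomorphicForm IsDedekindDomain NumberField MeasureTheory
open scoped ComplexConjugate

noncomputable section

namespace Fermat.Agent.LT.T7.SM640

open Fermat.Agent.LT Fermat.Agent.LT.H556 Fermat.Agent.LT.H556.A0 Fermat.Agent.LT.T7
  Fermat.Agent.LT.T7.H305 Fermat.Agent.LT.T7.L2Q Fermat.Agent.LT.T7.H893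
  Fermat.Agent.LT.T7.H962 Fermat.Agent.LT.T7.H732 Fermat.Agent.LT.T7.MQ298
  Fermat.Agent.LT.T7.CQ801 Fermat.Agent.LT.T7.PQ484 Fermat.Agent.LT.T7.BQ87

attribute [local instance] Fermat.Agent.LT.T5.instMeasurableSpaceG

variable {F : Type} [Field F] [NumberField F]

/-- The real components of the new data. -/
theorem fr_w0_640 (D : DatQ87 F) (d : ℝ) (y : ℝ → ℝ → GL (Fin 2) ℂ)
    (F0' F1' : Fin D.N → GL (Fin 2) ℝ → ℂ) :
    (stepDat640 D d y F0' F1').Fr QWt.w0 = F0' := rfl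

theorem fr_w1_640 (D : DatQ87 F) (d : ℝ) (y : ℝ → ℝ → GL (Fin 2) ℂ)
    (F0' F1' : Fin D.N → GL (Fin 2) ℝ → ℂ) :
    (stepDat640 D d y F0' F1').Fr QWt.w1 = F1' := rfl

/-- In data with `IsDatQ87` the coordinates downstairs are the halves of the coordinates
upstairs. -/
theorem beta_eq_half640 (hU : AbelUniqC640) {Φe : HeckeEigensystem F ℂ} {B : L2QBase962 F}
    {𝔫 : Ideal (𝓞 ℚ)} {c : ℂ} {T₀ : Finset (HeightOneSpectrum (𝓞 ℚ))}
    {n : HeightOneSpectrum (𝓞 F) → ℕ} {m : HeightOneSpectrum (𝓞 ℚ) → ℕ} {D : DatQ87 F}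
    (hD : IsDatQ87 Φe B 𝔫 c T₀ n m D) (i : Fin D.N) (w : InfinitePlace F)
    (v : InfinitePlace ℚ) : D.β i v = halfQ801 c (D.β' i w) := by
  obtain ⟨β'', -, h1, h2, -⟩ := (hD.loc i).2.2.2.2.2.2 w
  have e1 : β'' = D.β' i w := hU.1 _ _ _ h1 (hD.abel_up i w)
  have h3 : T3.R.HasAbelNR (D.F0 i) (D.β i v) := hD.abel_dn QWt.w0 i v
  rw [e1] at h2
  exact hU.2 _ _ _ h3 h2

/-- **THE TOP OF THE CUT of `StepMDatQC87`.** -/
theorem stepMDatQC_of640 (hU : AbelUniqC640) (hB : SegBumpC640) (hT : SphLocTestC640)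
    (hA : SphLocAbelC640) (hAc : SphLocActsC640) (hSp : SphTransSegC640)
    (hTel : StepTelC640 F) (hFt : StepFtC640 F) (hUp : StepUpOpC640 F)
    (hDn : DnOpFormC640 F) (hGood : UpGoodQC87 F) (hReal : T3.R.AbelRealC)
    (hEx : H445.SphExLocC445) : StepMDatQC87 F := by
  intro h3 hiq Φ hΦ hconst hek B hBase hram 𝔫 hlev T₀ n n₀ m hexp c hc D hD w d hd
  obtain ⟨y, hy⟩ := hEx d
  -- the real components of the new data
  have hbump : ∀ i : Fin D.N, T3.AS.IsSymBump (segDn640 d (D.β i Rat.infinitePlace)) :=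
    fun i => (hB d hd _ (hD.symβ i Rat.infinitePlace)).2.1
  have hw0 : T3.R.IsWt 0 := Or.inl rfl
  have hw1 : T3.R.IsWt (-1) := Or.inr (Or.inr rfl)
  choose F0' hF0t hF0a using fun i : Fin D.N => hReal 0 hw0 _ (hbump i)
  choose F1' hF1t hF1a using fun i : Fin D.N => hReal (-1) hw1 _ (hbump i)
  have hv : ∀ v : InfinitePlace ℚ, v = Rat.infinitePlace := fun v => Subsingleton.elim _ _
  -- the new data
  have hD' : IsDatQ87 Φ (toBase962_732 B) 𝔫 c T₀ n m (stepDat640 D d y F0' F1') := by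
    have htel := hTel hiq Φ (toBase962_732 B) 𝔫 c T₀ n m D hD d hd y F0' F1'
    have hloc : ∀ (i : Fin D.N) (w' : InfinitePlace F),
        T3.AS.IsCplxTest (H445.sphMeanC445 y (D.Φ i w')) ∧
          T3.AS.IsCplxSmooth (H445.sphMeanC445 y (D.Φ i w')) ∧
          T6.IsArchTestC (H445.sphMeanC445 y (D.Φ i w')) :=
      fun i w' => hT d y hy _ (hD.test_up i w') (hD.smooth_up i w')
    have habel : ∀ (t : QWt) (i : Fin D.N) (v : InfinitePlace ℚ),
        T3.R.HasAbelNR ((stepDat640 D d y F0' F1').Fr t i) (segDn640 d (D.β i v)) := by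
      intro t i v
      rw [hv v]
      cases t
      · exact hF0a i
      · exact hF1a i
    refine
      { haar_c := hD.haar_c
        frame_up := hD.frame_up
        frame_dn := hD.frame_dn
        totpos := hD.totpos
        out := hD.out
        good := hD.good
        under := hD.under
        κc_ne := hD.κc_ne
        symA' := hD.symA'
        symβ' := fun i w' => (hB d hd _ (hD.symβ' i w')).1
        sat_up := hD.sat_up
        test_up := fun i w' => (hloc i w').1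
        smooth_up := fun i w' => (hloc i w').2.1
        abel_up := fun i w' => hA d hd y hy _ _ (hD.test_up i w') (hD.symβ' i w')
          (hD.abel_up i w')
        acts_up := ?_
        symA := hD.symA
        symβ := fun i v => (hB d hd _ (hD.symβ i v)).2.1
        sat_dn := hD.sat_dn
        test_dn := ?_
        abel_dn := habel
        tel_up := htel.1
        tel_dn := htel.2
        ft_ne := ?_
        unit_rest := hD.unit_rest
        loc := ?_ }
    · -- acts_up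
      intro i w'
      have h1 := hAc D.μc hD.haar_c d hd y hy (D.Φ i w') _ (hD.test_up i w') (hD.acts_up i w')
      have h2 := (hB d hd _ (hD.symβ' i w')).2.2.1
      show T3.AS.ActsBy D.μc (H445.sphMeanC445 y (D.Φ i w'))
        (D.κc * ∫ x : ℝ × ℝ, segUp640 d (D.β' i w') x)
      rw [h2]
      have e : D.κc * (((4 * Real.pi * (d / Real.sinh d) : ℝ) : ℂ) * ∫ x : ℝ × ℝ, D.β' i w' x)
          = ((4 * Real.pi * (d / Real.sinh d) : ℝ) : ℂ) * (D.κc * ∫ x : ℝ × ℝ, D.β' i w' x) := by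
        ring
      rw [e]
      exact h1
    · -- test_dn
      intro t i
      cases t
      · exact hF0t i
      · exact hF1t i
    · -- ft_ne
      intro z₁ z₂ hz₁ hz₂ hz
      have h1 := hFt hiq Φ (toBase962_732 B) 𝔫 c T₀ n m D hD d hd y F0' F1' z₁ z₂
      have h2 := hD.ft_ne z₁ z₂ hz₁ hz₂ hz
      show T3.M.ftCoordM F D.P' (stepDat640 D d y F0' F1').crdUp z₁ z₂ ≠ 0
      rw [h1]
      refine mul_ne_zero ?_ h2
      have hs : 0 < Real.sinh d := Real.sinh_pos_iff.2 hd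
      have : (0 : ℝ) < 4 * Real.pi * (d / Real.sinh d) := by positivity
      exact_mod_cast this.ne'
    · -- loc
      intro i
      obtain ⟨l1, l2, l3, l4⟩ := hD.loc i
      refine ⟨l1, l2, l3, fun w' => (hloc i w').2.2, hF0t i, hF1t i, fun w' => ?_⟩
      refine ⟨segUp640 d (D.β' i w'), (hB d hd _ (hD.symβ' i w')).1,
        hA d hd y hy _ _ (hD.test_up i w') (hD.symβ' i w') (hD.abel_up i w'), ?_, ?_⟩
      · rw [(hB d hd _ (hD.symβ' i w')).2.2.2 c,
          ← beta_eq_half640 hU hD i w' Rat.infinitePlace]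
        exact hF0a i
      · rw [(hB d hd _ (hD.symβ' i w')).2.2.2 c,
          ← beta_eq_half640 hU hD i w' Rat.infinitePlace]
        exact hF1a i
  refine ⟨stepDat640 D d y F0' F1', hD', ?_, ?_⟩
  · -- the operator upstairs
    intro χ C hχ x
    obtain ⟨u1, -⟩ := hGood h3 hiq Φ hΦ hconst hek B hBase hram 𝔫 hlev T₀ n n₀ m hexp c hc D hD
    exact hUp h3 hiq Φ hΦ hconst hek B hBase hram 𝔫 hlev T₀ n n₀ m hexp c hc D hD u1 w d hd
      y hy F0' F1' χ C hχ x
  · -- the operator downstairs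
    intro t χ cd C hχ hbc x
    obtain ⟨-, s, hs1, hs2⟩ := hbc
    obtain ⟨μr, Ξ, hμr, hΞ⟩ :=
      hDn h3 hiq Φ hΦ hconst hek B hBase hram 𝔫 hlev T₀ n n₀ m hexp c hc D hD t χ cd s hχ hs1
    have hwt : t.wt = 0 ∨ t.wt = -1 := by
      cases t
      · exact Or.inl rfl
      · exact Or.inr rfl
    have e1 := hΞ ((stepDat640 D d y F0' F1').Fr t) (fun i => hD'.test_dn t i) x
    have e2 := hΞ (D.Fr t) (fun i => hD.test_dn t i) x
    have e3 : ∀ i : Fin D.N,
        T6.sphTransR μr t.wt ((stepDat640 D d y F0' F1').Fr t i) s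
          = ((4 * Real.pi : ℝ) : ℂ) * T6.sphC (2 * s) (Real.cosh d)
            * T6.sphTransR μr t.wt (D.Fr t i) s := fun i =>
      hSp μr hμr t.wt hwt d hd (D.Fr t i) ((stepDat640 D d y F0' F1').Fr t i)
        (D.β i Rat.infinitePlace) (hD.symβ i Rat.infinitePlace) (hD.test_dn t i)
        (hD'.test_dn t i) (hD.abel_dn t i Rat.infinitePlace)
        (hD'.abel_dn t i Rat.infinitePlace) s
    show T5.Rconv (toBase962_732 B).R.μ
        (fun g => ∑ i : Fin D.N, T3.R.pureFnR ℚ ratReal87 𝔫 D.P (D.f₀ i)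
          (fun _ => (stepDat640 D d y F0' F1').Fr t i) g) χ x
      = C.m w d * T5.Rconv (toBase962_732 B).R.μ
        (fun g => ∑ i : Fin D.N, T3.R.pureFnR ℚ ratReal87 𝔫 D.P (D.f₀ i)
          (fun _ => D.Fr t i) g) χ x
    rw [e1, e2, hs2 w d hd, Finset.mul_sum]
    refine Finset.sum_congr rfl fun i _ => ?_
    rw [e3 i]
    ring

end Fermat.Agent.LT.T7.SM640

end

end
-- ===== PACK-END LT/T7/SM640/StepMDatTop.lean

-- ===== PACK-BEGIN LT/T7/SM640/LocalLeaves.lean
section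





/-!
# Row LT, tower T7, node `BQ87.StepMDatQC87` (registry row 3188), cut of helper640
# (`SM640/StepMDatSpec.lean` 3bc5afa1): THE SIX LOCAL LEAVES, PROVED (helper640)

OFF-MAIN.  Complete proofs, nothing assumed.  ADDITIVE (new names only, suffix `640`, namespace
`Fermat.Agent.LT.T7.SM640`).

* `abelUniqC640 : AbelUniqC640` (Mathlib: evaluate at `c₁ = e^{X₁}`, `c₂ = e^{X₂}`);
* `segBumpC640 : SegBumpC640` (helper698 `isSymBump_abelMean698`, `integral_abelMean698`,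
  `abelMean_eq_half698`; helper842 `segAvg_half842`);
* `sphLocTestC640 : SphLocTestC640` (helper698 `isCplxTest_sphMean698`,
  `isCplxSmooth_sphMean698`);
* `sphLocAbelC640 : SphLocAbelC640` (helper698 `hasAbelN_sphMean698`);
* `sphLocActsC640 : SphLocActsC640` (helper698 `actsBy_sphMean698`);
* `sphTransSegC640 : SphTransSegC640` (helper842 `specStepR842`, on the closed
  `H830.hcTransRC830`).
-/

set_option autoImplicit false
set_option linter.style.haveILetI false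
set_option linter.unusedVariables false

open MeasureTheory
open scoped ContDiff

noncomputable section

namespace Fermat.Agent.LT.T7.SM640

open Fermat.Agent.LT Fermat.Agent.LT.T7

/-! ## 0. The segment averages in the vocabulary of the assets -/

/-- `segUp640 d β` is the Abel transform of the sphere mean of helper698 (`d ≠ 0`). -/
theorem segUp_eq_abelMean640 {d : ℝ} (hd : d ≠ 0) {β : ℝ × ℝ → ℂ} (hβ : Continuous β) :
    segUp640 d β = H698.abelMean698 d β := by
  funext X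
  exact (H698.abelMean_eq_half698 hd hβ X).symm

/-- `segDn640 d β` is the segment average of helper842. -/
theorem segDn_eq_segAvg640 (d : ℝ) (β : ℝ × ℝ → ℂ) :
    segDn640 d β = H842S.segAvg842 d β := rfl

/-- Constant multiples of symmetric bumps are symmetric bumps. -/
theorem isSymBump_const_mul640 (k : ℂ) {β : ℝ × ℝ → ℂ} (hβ : T3.AS.IsSymBump β) :
    T3.AS.IsSymBump (fun X => k * β X) := by
  refine ⟨contDiff_const.mul hβ.1, ?_, fun x y => ?_⟩
  · exact HasCompactSupport.mul_left (f := fun _ => k) hβ.2.1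
  · show k * β (x, y) = k * β (y, x)
    rw [hβ.2.2 x y]

/-- `segDn640 d β` is a constant multiple of `abelMean698 (2 d) β`. -/
theorem segDn_eq_mul_abelMean640 {d : ℝ} (hd : 0 < d) {β : ℝ × ℝ → ℂ} (hβ : Continuous β) :
    segDn640 d β = fun X => (((2 * Real.pi / Real.sinh d : ℝ) : ℂ)
      * (((4 * Real.pi / Real.sinh (2 * d) : ℝ) : ℂ))⁻¹) * H698.abelMean698 (2 * d) β X := by
  funext X
  have h2d : (2 * d : ℝ) ≠ 0 := by positivity
  have hs : Real.sinh (2 * d) ≠ 0 := fun h => h2d (Real.sinh_eq_zero.1 h)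
  have hk : (((4 * Real.pi / Real.sinh (2 * d) : ℝ) : ℂ)) ≠ 0 := by
    apply Complex.ofReal_ne_zero.2
    exact div_ne_zero (by positivity) hs
  have e := H698.abelMean_eq_half698 h2d hβ X
  have e2 : (2 * d / 2 : ℝ) = d := by ring
  rw [e2] at e
  rw [e]
  show ((2 * Real.pi / Real.sinh d : ℝ) : ℂ) * (∫ b in (-d)..d, β (X.1 + b, X.2 - b)) = _
  generalize (∫ b in (-d)..d, β (X.1 + b, X.2 - b)) = I
  generalize ((2 * Real.pi / Real.sinh d : ℝ) : ℂ) = a
  generalize (((4 * Real.pi / Real.sinh (2 * d) : ℝ) : ℂ)) = k at hk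
  field_simp

/-! ## 1. `AbelUniqC640` -/

theorem abelUniqC640 : AbelUniqC640 := by
  refine ⟨?_, ?_⟩
  · intro Φ β₁ β₂ h1 h2
    funext X
    obtain ⟨x₁, x₂⟩ := X
    have hc1 : ((Real.exp x₁ : ℝ) : ℂ) ≠ 0 := Complex.ofReal_ne_zero.2 (Real.exp_pos x₁).ne'
    have hc2 : ((Real.exp x₂ : ℝ) : ℂ) ≠ 0 := Complex.ofReal_ne_zero.2 (Real.exp_pos x₂).ne'
    have e1 := h1 (Units.mk0 _ hc1) (Units.mk0 _ hc2)
    have e2 := h2 (Units.mk0 _ hc1) (Units.mk0 _ hc2)
    rw [e1] at e2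
    have n1 : ‖((Units.mk0 _ hc1 : ℂˣ) : ℂ)‖ = Real.exp x₁ := by
      rw [Units.val_mk0, Complex.norm_real, Real.norm_eq_abs, abs_of_pos (Real.exp_pos x₁)]
    have n2 : ‖((Units.mk0 _ hc2 : ℂˣ) : ℂ)‖ = Real.exp x₂ := by
      rw [Units.val_mk0, Complex.norm_real, Real.norm_eq_abs, abs_of_pos (Real.exp_pos x₂)]
    rw [n1, n2, Real.log_exp, Real.log_exp] at e2
    have hne : ((Real.exp x₁ * Real.exp x₂ : ℝ) : ℂ) ≠ 0 :=
      Complex.ofReal_ne_zero.2 (mul_pos (Real.exp_pos x₁) (Real.exp_pos x₂)).ne'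
    exact mul_left_cancel₀ hne e2
  · intro Fr β₁ β₂ h1 h2
    funext X
    obtain ⟨x₁, x₂⟩ := X
    have hc1 : (Real.exp x₁ : ℝ) ≠ 0 := (Real.exp_pos x₁).ne'
    have hc2 : (Real.exp x₂ : ℝ) ≠ 0 := (Real.exp_pos x₂).ne'
    have p1 : 0 < ((Units.mk0 _ hc1 : ℝˣ) : ℝ) := by
      rw [Units.val_mk0]; exact Real.exp_pos x₁
    have p2 : 0 < ((Units.mk0 _ hc2 : ℝˣ) : ℝ) := by
      rw [Units.val_mk0]; exact Real.exp_pos x₂
    have e1 := h1 (Units.mk0 _ hc1) (Units.mk0 _ hc2) p1 p2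
    have e2 := h2 (Units.mk0 _ hc1) (Units.mk0 _ hc2) p1 p2
    rw [e1] at e2
    rw [Units.val_mk0, Units.val_mk0, Real.log_exp, Real.log_exp] at e2
    have hne : ((Real.sqrt (Real.exp x₁ * Real.exp x₂) : ℝ) : ℂ) ≠ 0 :=
      Complex.ofReal_ne_zero.2
        (Real.sqrt_pos.2 (mul_pos (Real.exp_pos x₁) (Real.exp_pos x₂))).ne'
    exact mul_left_cancel₀ hne e2

/-! ## 2. `SegBumpC640` -/

theorem segBumpC640 : SegBumpC640 := by
  intro d hd β hβ
  have hc : Continuous β := hβ.1.continuous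
  refine ⟨?_, ?_, ?_, ?_⟩
  · rw [segUp_eq_abelMean640 hd.ne' hc]
    exact H698.isSymBump_abelMean698 d hβ
  · rw [segDn_eq_mul_abelMean640 hd hc]
    exact isSymBump_const_mul640 _ (H698.isSymBump_abelMean698 (2 * d) hβ)
  · rw [segUp_eq_abelMean640 hd.ne' hc]
    exact H698.integral_abelMean698 hd.ne' hc hβ.2.1
  · intro c
    funext X
    exact (H842S.segAvg_half842 d c β X).symm

/-! ## 3. `SphLocTestC640`, `SphLocAbelC640`, `SphLocActsC640` -/

/-- A smooth bi-`U(2)`-invariant test function in the vocabulary of T3 is a test function in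
the vocabulary of T6. -/
theorem isArchTestC_of_cplx640 {Φ : GL (Fin 2) ℂ → ℂ} (hΦ : T3.AS.IsCplxTest Φ)
    (hs : T3.AS.IsCplxSmooth Φ) : T6.IsArchTestC Φ := by
  refine ⟨hΦ.cont, hΦ.supp, ?_, ?_, ?_⟩
  · intro m h hh g
    have h2 : ∀ i j : Fin 2, ContDiff ℝ ∞
        (fun t => (((g * h t : GL (Fin 2) ℂ)) : Matrix (Fin 2) (Fin 2) ℂ) i j) := by
      intro i j
      have e : (fun t => (((g * h t : GL (Fin 2) ℂ)) : Matrix (Fin 2) (Fin 2) ℂ) i j)
          = fun t => ∑ k : Fin 2, (g : Matrix (Fin 2) (Fin 2) ℂ) i k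
            * ((h t : GL (Fin 2) ℂ) : Matrix (Fin 2) (Fin 2) ℂ) k j := by
        funext t
        simp only [Units.val_mul, Matrix.mul_apply]
      rw [e]
      exact ContDiff.sum fun k _ => contDiff_const.mul (hh k j)
    exact hs m (fun t => g * h t) h2
  · intro k g hk
    have h := hΦ.bi_inv k 1 g hk (by
      show ((1 : GL (Fin 2) ℂ) : Matrix (Fin 2) (Fin 2) ℂ)
        * ((1 : GL (Fin 2) ℂ) : Matrix (Fin 2) (Fin 2) ℂ).conjTranspose = 1
      simp)
    rwa [mul_one] at h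
  · intro k g hk
    have h := hΦ.bi_inv 1 k g (by
      show ((1 : GL (Fin 2) ℂ) : Matrix (Fin 2) (Fin 2) ℂ)
        * ((1 : GL (Fin 2) ℂ) : Matrix (Fin 2) (Fin 2) ℂ).conjTranspose = 1
      simp) hk
    rwa [one_mul] at h

theorem sphLocTestC640 : SphLocTestC640 := by
  intro d y hy Φ hΦ hs
  have h1 := H698.isCplxTest_sphMean698 hy hΦ
  have h2 := H698.isCplxSmooth_sphMean698 hy hs
  exact ⟨h1, h2, isArchTestC_of_cplx640 h1 h2⟩

theorem sphLocAbelC640 : SphLocAbelC640 := by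
  intro d hd y hy Φ β hΦ hβ hN
  rw [segUp_eq_abelMean640 hd.ne' hβ.1.continuous]
  exact H698.hasAbelN_sphMean698 hy hΦ.cont hΦ.supp (H698.isCplxTest_right_sa698 hΦ) hN

theorem sphLocActsC640 : SphLocActsC640 := by
  intro μc hμ d hd y hy Φ C hΦ hA
  letI : MeasurableSpace (GL (Fin 2) ℂ) := borel _
  haveI : BorelSpace (GL (Fin 2) ℂ) := ⟨rfl⟩
  haveI : μc.IsHaarMeasure := hμ
  exact H698.actsBy_sphMean698 μc hd hy hΦ.cont hΦ.supp (H698.isCplxTest_right_sa698 hΦ) hA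

/-! ## 4. `SphTransSegC640` -/

theorem sphTransSegC640 : SphTransSegC640 := by
  intro μr hμ n hn d hd Fr Fr' β hβ hF hF' hN hN' s
  have hw : T3.R.IsWt n := by
    rcases hn with h | h
    · exact Or.inl h
    · exact Or.inr (Or.inr h)
  have h := H842S.specStepR842 μr hμ n hw hβ.1.continuous hβ.2.1 d hd hF hF' hN hN' s
  rw [h]
  push_cast
  ring

end Fermat.Agent.LT.T7.SM640

end

end
-- ===== PACK-END LT/T7/SM640/LocalLeaves.lean

-- ===== PACK-BEGIN LT/T7/H341/StepTel.lean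
section



/-!
# Row LT, tower T7, node `BQ87.StepMDatQC87` (registry row 3188), cut of helper640
# (`T7/SM640/StepMDatSpec.lean` 3bc5afa1): the GLOBAL leaves SM.6 `StepTelC640 F` and
# SM.7 `StepFtC640 F`, PROVED VERBATIM, UNCONDITIONAL (helper341)

OFF-MAIN.  ADDITIVE (new names only, suffix `341`, namespace `Fermat.Agent.LT.T7.SMT341`).
No hole, nothing assumed.

* `tel_seg341` (Mathlib + `T3.M.Crd` vocabulary): telescoping of a finite sum of pure tensors
  is preserved when the ONE archimedean component is replaced by `k ∫_{lo}^{hi}` of its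
  translates along `(a, -a)` (finite supports at ONE finite index of positive exponent: only
  finitely many `j` contribute, uniformly in the variable of the segment).
* `seg_mass341` (Mathlib only): for `β` continuous of compact support the segment integral is
  integrable and its integral is `(hi - lo) ∫ β` (Fubini on the strip + translation invariance).
* `ft_seg341`: the Fourier transform `T3.M.ftCrd` of the new sum is `k (hi - lo)` times the old
  one.
* `stepTelC_closed341 (F) : SM640.StepTelC640 F`, `stepFtC_closed341 (F) : SM640.StepFtC640 F`.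
-/

set_option autoImplicit false

open AutomorphicForm IsDedekindDomain NumberField MeasureTheory

noncomputable section

namespace Fermat.Agent.LT.T7.SMT341

open Fermat.Agent.LT Fermat.Agent.LT.T3.M

/-- The shift of the archimedean coordinates by `(a, -a)`. -/
def shiftCrd341 {ι₁ ι₂ : Type} (a : ℝ) (p : Crd ι₁ ι₂) : Crd ι₁ ι₂ :=
  (p.1, fun w => ((p.2 w).1 + a, (p.2 w).2 - a))

theorem shiftCrd_add341 {ι₁ ι₂ : Type} (a : ℝ) (Δ c : Crd ι₁ ι₂) (j : ℤ) :
    shiftCrd341 a (Δ + j • c) = shiftCrd341 a Δ + j • c := by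
  refine Prod.ext rfl ?_
  funext w
  refine Prod.ext ?_ ?_
  · show ((Δ + j • c).2 w).1 + a = ((Δ.2 w).1 + a) + ((j • c).2 w).1
    show (Δ.2 w).1 + ((j • c).2 w).1 + a = ((Δ.2 w).1 + a) + ((j • c).2 w).1
    ring
  · show ((Δ + j • c).2 w).2 - a = ((Δ.2 w).2 - a) + ((j • c).2 w).2
    show (Δ.2 w).2 + ((j • c).2 w).2 - a = ((Δ.2 w).2 - a) + ((j • c).2 w).2
    ring

/-- With ONE archimedean index: the pure tensor with the segment average at infinity is the
segment integral of the shifted pure tensor. -/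
theorem pureCrd_seg341 {ι₁ ι₂ : Type} [Fintype ι₁] [Fintype ι₂] (w₀ : ι₂)
    (hw : ∀ w : ι₂, w = w₀) (A : ι₁ → ℤ × ℤ → ℂ) (β : ι₂ → ℝ × ℝ → ℂ) (k : ℂ) (lo hi : ℝ)
    (p : Crd ι₁ ι₂) :
    pureCrd A (fun w X => k * ∫ a in lo..hi, β w (X.1 + a, X.2 - a)) p
      = k * ∫ a in lo..hi, pureCrd A β (shiftCrd341 a p) := by
  have h1 : ∀ g : ι₂ → ℂ, ∏ w, g w = g w₀ := fun g =>
    Fintype.prod_eq_single w₀ (fun w hne => absurd (hw w) hne)
  show (∏ i, A i (p.1 i)) * ∏ w, (k * ∫ a in lo..hi, β w ((p.2 w).1 + a, (p.2 w).2 - a))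
      = k * ∫ a in lo..hi, (∏ i, A i (p.1 i)) * ∏ w, β w ((p.2 w).1 + a, (p.2 w).2 - a)
  rw [h1]
  have h2 : ∀ a : ℝ, (∏ w, β w ((p.2 w).1 + a, (p.2 w).2 - a))
      = β w₀ ((p.2 w₀).1 + a, (p.2 w₀).2 - a) := fun a => h1 _
  simp only [h2]
  rw [intervalIntegral.integral_const_mul]
  ring

theorem continuous_pureCrd_shift341 {ι₁ ι₂ : Type} [Fintype ι₁] [Fintype ι₂]
    (A : ι₁ → ℤ × ℤ → ℂ) (β : ι₂ → ℝ × ℝ → ℂ) (hβ : ∀ w, Continuous (β w))
    (p : Crd ι₁ ι₂) : Continuous (fun a : ℝ => pureCrd A β (shiftCrd341 a p)) := by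
  show Continuous (fun a : ℝ =>
    (∏ i, A i (p.1 i)) * ∏ w, β w ((p.2 w).1 + a, (p.2 w).2 - a))
  refine continuous_const.mul (continuous_finsetProd _ (fun w _ => ?_))
  exact (hβ w).comp (by fun_prop)

/-- **Telescoping is preserved by the segment average at infinity** (one archimedean index,
finitely supported finite coefficients, continuous archimedean coefficients, one positive
exponent). -/
theorem tel_seg341 {ι₁ ι₂ : Type} [Fintype ι₁] [Fintype ι₂] (w₀ : ι₂)
    (hw : ∀ w : ι₂, w = w₀) (N : ℕ) (A : Fin N → ι₁ → ℤ × ℤ → ℂ)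
    (β : Fin N → ι₂ → ℝ × ℝ → ℂ)
    (hA : ∀ i v, (Function.support (A i v)).Finite) (hβ : ∀ i w, Continuous (β i w))
    (e : ι₁ → ℕ) (ℓ : ι₂ → ℝ) (i₀ : ι₁) (he : 0 < e i₀) (k : ℂ) (lo hi : ℝ)
    (htel : ∀ Δ : Crd ι₁ ι₂,
      HasSum (fun j : ℤ => ∑ i : Fin N, pureCrd (A i) (β i) (Δ + j • c0 e ℓ)) 0)
    (Δ : Crd ι₁ ι₂) :
    HasSum (fun j : ℤ => ∑ i : Fin N,
      pureCrd (A i) (fun w X => k * ∫ a in lo..hi, β i w (X.1 + a, X.2 - a))
        (Δ + j • c0 e ℓ)) 0 := by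
  classical
  -- the finite set of indices
  have hinj : Function.Injective (fun j : ℤ => (Δ + j • c0 e ℓ).1 i₀) := by
    intro j j' hjj
    have h1 : ((Δ + j • c0 e ℓ).1 i₀).1 = ((Δ + j' • c0 e ℓ).1 i₀).1 := congrArg Prod.fst hjj
    have h2 : ∀ t : ℤ, ((Δ + t • c0 e ℓ).1 i₀).1 = (Δ.1 i₀).1 + t * (e i₀ : ℤ) := by
      intro t
      show (Δ.1 i₀).1 + ((t • c0 e ℓ).1 i₀).1 = _
      show (Δ.1 i₀).1 + t • (((e i₀ : ℕ) : ℤ)) = _
      rw [smul_eq_mul]
    rw [h2, h2] at h1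
    have h3 : j * (e i₀ : ℤ) = j' * (e i₀ : ℤ) := by linarith
    have h4 : ((e i₀ : ℕ) : ℤ) ≠ 0 := by exact_mod_cast he.ne'
    exact mul_right_cancel₀ h4 h3
  have hJfin : {j : ℤ | ∃ i : Fin N, A i i₀ ((Δ + j • c0 e ℓ).1 i₀) ≠ 0}.Finite := by
    have : {j : ℤ | ∃ i : Fin N, A i i₀ ((Δ + j • c0 e ℓ).1 i₀) ≠ 0}
        = ⋃ i : Fin N, (fun j : ℤ => (Δ + j • c0 e ℓ).1 i₀) ⁻¹' Function.support (A i i₀) := by
      ext j
      simp [Function.mem_support]
    rw [this]
    exact Set.finite_iUnion (fun i => (hA i i₀).preimage hinj.injOn)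
  set J : Finset ℤ := hJfin.toFinset with hJ
  -- vanishing outside `J`
  have hzero : ∀ (β' : Fin N → ι₂ → ℝ × ℝ → ℂ) (j : ℤ), j ∉ J →
      ∀ q : Crd ι₁ ι₂, q.1 = (Δ + j • c0 e ℓ).1 →
        ∑ i : Fin N, pureCrd (A i) (β' i) q = 0 := by
    intro β' j hj q hq
    refine Finset.sum_eq_zero (fun i _ => ?_)
    have hAz : A i i₀ ((Δ + j • c0 e ℓ).1 i₀) = 0 := by
      by_contra hne
      exact hj (hJfin.mem_toFinset.2 ⟨i, hne⟩)
    show (∏ v, A i v (q.1 v)) * ∏ w, β' i w (q.2 w) = 0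
    rw [Finset.prod_eq_zero (Finset.mem_univ i₀) (by rw [hq]; exact hAz), zero_mul]
  -- the new function is supported in `J`
  have hsupp : ∀ j : ℤ, j ∉ J → (∑ i : Fin N,
      pureCrd (A i) (fun w X => k * ∫ a in lo..hi, β i w (X.1 + a, X.2 - a))
        (Δ + j • c0 e ℓ)) = 0 := fun j hj => hzero _ j hj _ rfl
  have hsum : HasSum (fun j : ℤ => ∑ i : Fin N,
      pureCrd (A i) (fun w X => k * ∫ a in lo..hi, β i w (X.1 + a, X.2 - a))
        (Δ + j • c0 e ℓ)) (∑ j ∈ J, (∑ i : Fin N,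
      pureCrd (A i) (fun w X => k * ∫ a in lo..hi, β i w (X.1 + a, X.2 - a))
        (Δ + j • c0 e ℓ))) := hasSum_sum_of_ne_finset_zero hsupp
  -- the finite sum vanishes
  have hval : ∑ j ∈ J, (∑ i : Fin N,
      pureCrd (A i) (fun w X => k * ∫ a in lo..hi, β i w (X.1 + a, X.2 - a))
        (Δ + j • c0 e ℓ)) = 0 := by
    have hrew : ∀ j : ℤ, (∑ i : Fin N,
        pureCrd (A i) (fun w X => k * ∫ a in lo..hi, β i w (X.1 + a, X.2 - a))
          (Δ + j • c0 e ℓ))
        = k * ∫ a in lo..hi, ∑ i : Fin N,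
            pureCrd (A i) (β i) (shiftCrd341 a Δ + j • c0 e ℓ) := by
      intro j
      have h1 : ∀ i : Fin N,
          pureCrd (A i) (fun w X => k * ∫ a in lo..hi, β i w (X.1 + a, X.2 - a))
            (Δ + j • c0 e ℓ)
          = k * ∫ a in lo..hi, pureCrd (A i) (β i) (shiftCrd341 a Δ + j • c0 e ℓ) := by
        intro i
        rw [pureCrd_seg341 w₀ hw]
        congr 1
        refine intervalIntegral.integral_congr (fun a _ => ?_)
        show pureCrd (A i) (β i) (shiftCrd341 a (Δ + j • c0 e ℓ)) = _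
        rw [shiftCrd_add341]
      rw [Finset.sum_congr rfl (fun i _ => h1 i), ← Finset.mul_sum,
        intervalIntegral.integral_finsetSum]
      intro i _
      have hc : Continuous (fun a : ℝ =>
          pureCrd (A i) (β i) (shiftCrd341 a Δ + j • c0 e ℓ)) := by
        have := continuous_pureCrd_shift341 (A i) (β i) (hβ i) (Δ + j • c0 e ℓ)
        refine this.congr (fun a => ?_)
        rw [shiftCrd_add341]
      exact hc.intervalIntegrable _ _
    rw [Finset.sum_congr rfl (fun j _ => hrew j), ← Finset.mul_sum,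
      ← intervalIntegral.integral_finsetSum]
    · have hz : ∀ a : ℝ, ∑ j ∈ J, ∑ i : Fin N,
          pureCrd (A i) (β i) (shiftCrd341 a Δ + j • c0 e ℓ) = 0 := by
        intro a
        have hs : HasSum (fun j : ℤ => ∑ i : Fin N,
            pureCrd (A i) (β i) (shiftCrd341 a Δ + j • c0 e ℓ))
            (∑ j ∈ J, ∑ i : Fin N,
              pureCrd (A i) (β i) (shiftCrd341 a Δ + j • c0 e ℓ)) :=
          hasSum_sum_of_ne_finset_zero (fun j hj => hzero β j hj _ rfl)
        exact hs.unique (htel (shiftCrd341 a Δ))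
      simp only [hz, intervalIntegral.integral_zero, mul_zero]
    · intro j _
      have hc : Continuous (fun a : ℝ => ∑ i : Fin N,
          pureCrd (A i) (β i) (shiftCrd341 a Δ + j • c0 e ℓ)) := by
        refine continuous_finsetSum _ (fun i _ => ?_)
        have := continuous_pureCrd_shift341 (A i) (β i) (hβ i) (Δ + j • c0 e ℓ)
        refine this.congr (fun a => ?_)
        rw [shiftCrd_add341]
      exact hc.intervalIntegrable _ _
  rw [hval] at hsum
  exact hsum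

/-- The shifted function is integrable on the strip. -/
theorem integrableOn_seg341 (β : ℝ × ℝ → ℂ) (hc : Continuous β) (hs : HasCompactSupport β)
    (lo hi : ℝ) :
    IntegrableOn (fun p : (ℝ × ℝ) × ℝ => β (p.1.1 + p.2, p.1.2 - p.2))
      (Set.univ ×ˢ Set.Ioc lo hi) ((volume : Measure (ℝ × ℝ)).prod (volume : Measure ℝ)) := by
  obtain ⟨R₀, hR₀⟩ := hs.isCompact.isBounded.subset_closedBall (0 : ℝ × ℝ)
  set M : ℝ := max |lo| |hi| with hM
  have hcont : Continuous (fun p : (ℝ × ℝ) × ℝ => β (p.1.1 + p.2, p.1.2 - p.2)) :=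
    hc.comp (by fun_prop)
  have hKc : IsCompact (Metric.closedBall (0 : ℝ × ℝ) (R₀ + M) ×ˢ Set.Icc lo hi) :=
    (isCompact_closedBall _ _).prod isCompact_Icc
  have hK : IntegrableOn (fun p : (ℝ × ℝ) × ℝ => β (p.1.1 + p.2, p.1.2 - p.2))
      (Metric.closedBall (0 : ℝ × ℝ) (R₀ + M) ×ˢ Set.Icc lo hi)
      ((volume : Measure (ℝ × ℝ)).prod (volume : Measure ℝ)) :=
    hcont.continuousOn.integrableOn_compact hKc
  refine hK.of_forall_sdiff_eq_zero (MeasurableSet.univ.prod measurableSet_Ioc) ?_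
  rintro ⟨X, a⟩ ⟨⟨-, ha⟩, hnK⟩
  have ha' : a ∈ Set.Icc lo hi := ⟨ha.1.le, ha.2⟩
  have hX : X ∉ Metric.closedBall (0 : ℝ × ℝ) (R₀ + M) := fun h => hnK ⟨h, ha'⟩
  have hXn : R₀ + M < ‖X‖ := by
    rw [Metric.mem_closedBall, dist_zero_right] at hX
    exact not_le.1 hX
  have haM : |a| ≤ M := by
    rw [abs_le]
    constructor
    · have : -|lo| ≤ lo := neg_abs_le lo
      have : |lo| ≤ M := le_max_left _ _
      linarith [ha'.1]
    · have : hi ≤ |hi| := le_abs_self hi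
      have : |hi| ≤ M := le_max_right _ _
      linarith [ha'.2]
  show β (X.1 + a, X.2 - a) = 0
  apply image_eq_zero_of_notMem_tsupport
  intro hmem
  have hq := hR₀ hmem
  rw [Metric.mem_closedBall, dist_zero_right] at hq
  have hdiff : ‖X‖ ≤ ‖((X.1 + a, X.2 - a) : ℝ × ℝ)‖ + |a| := by
    have h1 : |X.1| ≤ ‖((X.1 + a, X.2 - a) : ℝ × ℝ)‖ + |a| := by
      have : |X.1 + a| ≤ ‖((X.1 + a, X.2 - a) : ℝ × ℝ)‖ := by
        rw [Prod.norm_def]; exact le_max_left _ _
      have h2 : |X.1| ≤ |X.1 + a| + |a| := by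
        have := abs_sub (X.1 + a) a
        simpa using this
      linarith
    have h1' : |X.2| ≤ ‖((X.1 + a, X.2 - a) : ℝ × ℝ)‖ + |a| := by
      have : |X.2 - a| ≤ ‖((X.1 + a, X.2 - a) : ℝ × ℝ)‖ := by
        rw [Prod.norm_def]; exact le_max_right _ _
      have h2 : |X.2| ≤ |X.2 - a| + |a| := by
        have := abs_add_le (X.2 - a) a
        simpa using this
      linarith
    rw [Prod.norm_def X]
    exact max_le h1 h1'
  linarith

/-- The mass of the segment integral. -/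
theorem seg_mass341 (β : ℝ × ℝ → ℂ) (hc : Continuous β) (hs : HasCompactSupport β)
    (lo hi : ℝ) (hle : lo ≤ hi) :
    Integrable (fun X : ℝ × ℝ => ∫ a in lo..hi, β (X.1 + a, X.2 - a)) ∧
      (∫ X : ℝ × ℝ, ∫ a in lo..hi, β (X.1 + a, X.2 - a))
        = ((hi - lo : ℝ) : ℂ) * ∫ X : ℝ × ℝ, β X := by
  have hint : Integrable (Function.uncurry (fun (X : ℝ × ℝ) (a : ℝ) => β (X.1 + a, X.2 - a)))
      ((volume : Measure (ℝ × ℝ)).prod ((volume : Measure ℝ).restrict (Set.Ioc lo hi))) := by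
    have h : Integrable (fun p : (ℝ × ℝ) × ℝ => β (p.1.1 + p.2, p.1.2 - p.2))
        (((volume : Measure (ℝ × ℝ)).prod (volume : Measure ℝ)).restrict
          (Set.univ ×ˢ Set.Ioc lo hi)) := integrableOn_seg341 β hc hs lo hi
    rw [← Measure.prod_restrict, Measure.restrict_univ] at h
    exact h
  have hrew : (fun X : ℝ × ℝ => ∫ a in lo..hi, β (X.1 + a, X.2 - a))
      = fun X : ℝ × ℝ => ∫ a, β (X.1 + a, X.2 - a)
          ∂((volume : Measure ℝ).restrict (Set.Ioc lo hi)) := by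
    funext X
    rw [intervalIntegral.integral_of_le hle]
  refine ⟨?_, ?_⟩
  · rw [hrew]
    exact hint.integral_prod_left
  · rw [hrew, integral_integral_swap hint]
    have hin : ∀ a : ℝ, (∫ X : ℝ × ℝ, β (X.1 + a, X.2 - a)) = ∫ X : ℝ × ℝ, β X := by
      intro a
      have := integral_add_right_eq_self (μ := (volume : Measure (ℝ × ℝ))) β ((a, -a) : ℝ × ℝ)
      rw [← this]
      refine integral_congr_ae (Filter.Eventually.of_forall (fun X => ?_))
      show β (X.1 + a, X.2 - a) = β (X + (a, -a))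
      congr 1
    simp only [hin]
    rw [setIntegral_const]
    simp only [measureReal_def, Real.volume_Ioc, ENNReal.toReal_ofReal (sub_nonneg.2 hle)]
    rw [Complex.real_smul]


/-- **The Fourier transform of the segment-averaged sum** (one archimedean index). -/
theorem ft_seg341 {ι₁ ι₂ : Type} [Fintype ι₁] [Fintype ι₂] (w₀ : ι₂)
    (hw : ∀ w : ι₂, w = w₀) (N : ℕ) (A : Fin N → ι₁ → ℤ × ℤ → ℂ)
    (β : Fin N → ι₂ → ℝ × ℝ → ℂ)
    (hβc : ∀ i w, Continuous (β i w)) (hβs : ∀ i w, HasCompactSupport (β i w))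
    (k : ℂ) (lo hi : ℝ) (hle : lo ≤ hi) (z₁ z₂ : ι₁ → ℂ) :
    ftCrd (fun p : Crd ι₁ ι₂ => ∑ i : Fin N,
        pureCrd (A i) (fun w X => k * ∫ a in lo..hi, β i w (X.1 + a, X.2 - a)) p) z₁ z₂
      = (k * ((hi - lo : ℝ) : ℂ)) *
          ftCrd (fun p : Crd ι₁ ι₂ => ∑ i : Fin N, pureCrd (A i) (β i) p) z₁ z₂ := by
  have h1 : ∀ g : ι₂ → ℂ, ∏ w, g w = g w₀ := fun g =>
    Fintype.prod_eq_single w₀ (fun w hne => absurd (hw w) hne)
  -- integrability of the components
  have hi0 : ∀ i w, Integrable (β i w) := fun i w =>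
    (hβc i w).integrable_of_hasCompactSupport (hβs i w)
  have hi1 : ∀ i w, Integrable (fun X : ℝ × ℝ => k * ∫ a in lo..hi, β i w (X.1 + a, X.2 - a)) :=
    fun i w => (seg_mass341 (β i w) (hβc i w) (hβs i w) lo hi hle).1.const_mul k
  have hm1 : ∀ i w, (∫ X : ℝ × ℝ, k * ∫ a in lo..hi, β i w (X.1 + a, X.2 - a))
      = (k * ((hi - lo : ℝ) : ℂ)) * ∫ X : ℝ × ℝ, β i w X := by
    intro i w
    rw [integral_const_mul, (seg_mass341 (β i w) (hβc i w) (hβs i w) lo hi hle).2]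
    ring
  -- the integral of a finite sum of pure tensors
  have hpure : ∀ (γ : Fin N → ι₂ → ℝ × ℝ → ℂ), (∀ i w, Integrable (γ i w)) →
      ∀ m : ι₁ → ℤ × ℤ,
        (∫ x : ι₂ → ℝ × ℝ, ∑ i : Fin N, pureCrd (A i) (γ i) (m, x))
          = ∑ i : Fin N, (∏ v, A i v (m v)) * ∫ X : ℝ × ℝ, γ i w₀ X := by
    intro γ hγ m
    have hint : ∀ i : Fin N, Integrable (fun x : ι₂ → ℝ × ℝ => pureCrd (A i) (γ i) (m, x)) := by
      intro i
      show Integrable (fun x : ι₂ → ℝ × ℝ => (∏ v, A i v (m v)) * ∏ w, γ i w (x w))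
      exact (Integrable.fintype_prod (fun w => hγ i w)).const_mul _
    rw [integral_finsetSum _ (fun i _ => hint i)]
    refine Finset.sum_congr rfl (fun i _ => ?_)
    show (∫ x : ι₂ → ℝ × ℝ, (∏ v, A i v (m v)) * ∏ w, γ i w (x w)) = _
    rw [integral_const_mul, integral_fintype_prod_volume_eq_prod, h1]
  show (∑ᶠ m : ι₁ → ℤ × ℤ, (∫ x : ι₂ → ℝ × ℝ, ∑ i : Fin N,
        pureCrd (A i) (fun w X => k * ∫ a in lo..hi, β i w (X.1 + a, X.2 - a)) (m, x))
        * ∏ i, (z₁ i ^ (m i).1 * z₂ i ^ (m i).2))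
      = (k * ((hi - lo : ℝ) : ℂ)) *
        ∑ᶠ m : ι₁ → ℤ × ℤ, (∫ x : ι₂ → ℝ × ℝ, ∑ i : Fin N, pureCrd (A i) (β i) (m, x))
          * ∏ i, (z₁ i ^ (m i).1 * z₂ i ^ (m i).2)
  rw [mul_finsum]
  refine finsum_congr (fun m => ?_)
  rw [hpure _ hi1 m, hpure _ hi0 m]
  simp only [hm1]
  rw [← mul_assoc, Finset.mul_sum]
  congr 1
  refine Finset.sum_congr rfl (fun i _ => ?_)
  ring

/-! ## The leaves of helper640 -/

open Fermat.Agent.LT.T7 Fermat.Agent.LT.T7.BQ87 Fermat.Agent.LT.T7.SM640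

/-- **LEAF SM.6 `StepTelC640 F`, PROVED VERBATIM.** -/
theorem stepTelC_closed341 (F : Type) [Field F] [NumberField F] : SM640.StepTelC640 F := by
  intro hIQ Φe B 𝔫 c T₀ n m D hD d hd y F0' F1'
  refine ⟨fun Δ => ?_, fun Δ => ?_⟩
  · obtain ⟨v₀, hv₀⟩ := hD.frame_up.nonempty
    obtain ⟨hss, hne⟩ := Nat.card_eq_one_iff_unique.1 hIQ.1
    obtain ⟨w₀⟩ := hne
    have hw : ∀ w : InfinitePlace F, w = w₀ := fun w => Subsingleton.elim _ _
    exact tel_seg341 (ι₁ := D.P') (ι₂ := InfinitePlace F) w₀ hw D.N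
      (fun i (v : D.P') => D.A' i v) D.β' (fun i v => (hD.symA' i v).1)
      (fun i w => (hD.symβ' i w).1.continuous) (fun v : D.P' => D.e' v)
      (fun w : InfinitePlace F => Real.log (w (D.α' : F))) ⟨v₀, hv₀⟩
      (hD.frame_up.pos v₀ hv₀) ((4 * Real.pi / Real.sinh d : ℝ) : ℂ) (-(d / 2)) (d / 2)
      hD.tel_up Δ
  · obtain ⟨v₀, hv₀⟩ := hD.frame_dn.nonempty
    have hw : ∀ w : InfinitePlace ℚ, w = default := fun w => Subsingleton.elim _ _
    exact tel_seg341 (ι₁ := D.P) (ι₂ := InfinitePlace ℚ) default hw D.N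
      (fun i (v : D.P) => D.A i v) D.β (fun i v => (hD.symA i v).1)
      (fun i w => (hD.symβ i w).1.continuous) (fun v : D.P => D.e v)
      (fun w : InfinitePlace ℚ => Real.log (w (D.α : ℚ))) ⟨v₀, hv₀⟩
      (hD.frame_dn.pos v₀ hv₀) ((2 * Real.pi / Real.sinh d : ℝ) : ℂ) (-d) d
      hD.tel_dn Δ

/-- **LEAF SM.7 `StepFtC640 F`, PROVED VERBATIM.** -/
theorem stepFtC_closed341 (F : Type) [Field F] [NumberField F] : SM640.StepFtC640 F := by
  intro hIQ Φe B 𝔫 c T₀ n m D hD d hd y F0' F1' z₁ z₂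
  obtain ⟨hss, hne⟩ := Nat.card_eq_one_iff_unique.1 hIQ.1
  obtain ⟨w₀⟩ := hne
  have hw : ∀ w : InfinitePlace F, w = w₀ := fun w => Subsingleton.elim _ _
  have hsinh : Real.sinh d ≠ 0 := (Real.sinh_pos_iff.2 hd).ne'
  have hconst : (((4 * Real.pi / Real.sinh d : ℝ) : ℂ) * ((d / 2 - -(d / 2) : ℝ) : ℂ))
      = ((4 * Real.pi * (d / Real.sinh d) : ℝ) : ℂ) := by
    rw [← Complex.ofReal_mul]
    congr 1
    field_simp
    ring
  have h := ft_seg341 (ι₁ := D.P') (ι₂ := InfinitePlace F) w₀ hw D.N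
    (fun i (v : D.P') => D.A' i v) D.β'
    (fun i w => (hD.symβ' i w).1.continuous) (fun i w => (hD.symβ' i w).2.1)
    ((4 * Real.pi / Real.sinh d : ℝ) : ℂ) (-(d / 2)) (d / 2) (by linarith)
    (fun v : D.P' => z₁ v) (fun v : D.P' => z₂ v)
  rw [hconst] at h
  exact h

/-! ## Appendix: the equation lemmas of the definition of this file are realised HERE -/

theorem eqns_realised_stepTel341 : True := by
  have _a1 := @shiftCrd341.eq_1
  have _a2 := @shiftCrd341.eq_def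
  have _a3 := @shiftCrd341.eq_unfold
  trivial

end Fermat.Agent.LT.T7.SMT341

end

end
-- ===== PACK-END LT/T7/H341/StepTel.lean

-- ===== PACK-BEGIN LT/T7/H892/StepUpOp.lean
section






/-!
# Row LT, tower T7, leaf T7.L2Q.1.H2a.A.0b.M SM.8 `SM640.StepUpOpC640 F` (helper892, spare)

OFF-MAIN.  Proves VERBATIM the leaf `StepUpOpC640 F` of the cut of helper640
(`T7/SM640/StepMDatSpec.lean`, sha256 3bc5afa1) of the node `BQ87.StepMDatQC87`: the operator
upstairs of the new data is `C.m w d` times the operator of `D` on the eigenfunctions.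

Proof.  `F` has ONE infinite place (`IsImagQuad`), it is complex.  `Y` = a sphere family at `w`
(`H510.sphExC_h510`).  `(stepDat640 D d y F0' F1').up 𝔑 = H445.sphMean445 Y (D.up 𝔑)`
(`stepUp_eq892`: the sphere mean of a pure tensor `T3.M.pureFnM` is the pure tensor with the
local sphere mean at `w`; the finite sum commutes with the two interval integrals because the
integrands are continuous, `H266.continuous_sph266`).  Then `H868.sphOpC868` for the test
function `D.up 𝔑`.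

ADDITIVE: new names only (suffix `892`), theorems only.  No hole, nothing assumed.
-/

set_option autoImplicit false

open AutomorphicForm IsDedekindDomain NumberField MeasureTheory

noncomputable section

namespace Fermat.Agent.LT.T7.H892

open Fermat.Agent.LT Fermat.Agent.LT.H556 Fermat.Agent.LT.H556.A0 Fermat.Agent.LT.T7
  Fermat.Agent.LT.T7.H305 Fermat.Agent.LT.T7.L2Q Fermat.Agent.LT.T7.H893
  Fermat.Agent.LT.T7.H962 Fermat.Agent.LT.T7.H732 Fermat.Agent.LT.T7.MQ298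
  Fermat.Agent.LT.T7.CQ801 Fermat.Agent.LT.T7.PQ484 Fermat.Agent.LT.T7.BQ87

attribute [local instance] Fermat.Agent.LT.T5.instMeasurableSpaceG

variable {F : Type} [Field F] [NumberField F]

theorem finGL_locInf_su892 {w : InfinitePlace F} {g : G F} (hg : IsLocalAtInf w g)
    (v : HeightOneSpectrum (𝓞 F)) : T3.AS.finGL F v g = 1 := by
  apply Units.ext
  rw [T3.AS.finGL_coe]
  exact hg.2 v

theorem outsideUM_mul_locInf892 {w : InfinitePlace F} {Yab : G F} (hY : IsLocalAtInf w Yab)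
    (𝔑 : Ideal (𝓞 F)) (P : Finset (HeightOneSpectrum (𝓞 F))) (g : G F) :
    T3.M.OutsideUM F 𝔑 P (g * Yab) ↔ T3.M.OutsideUM F 𝔑 P g := by
  have h1 : ∀ v : HeightOneSpectrum (𝓞 F), T3.AS.finGL F v (g * Yab) = T3.AS.finGL F v g := by
    intro v
    rw [map_mul, finGL_locInf_su892 hY v, mul_one]
  have h2 : ∀ v : HeightOneSpectrum (𝓞 F),
      T3.AS.finGL F v (g * Yab)⁻¹ = T3.AS.finGL F v g⁻¹ := by
    intro v
    rw [map_inv, h1, map_inv]
  unfold T3.M.OutsideUM
  simp only [← T3.AS.finGL_coe, h1, h2]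

/-- Integrability of the local integrands of the sphere mean (abstract form). -/
theorem sph_integrable892 {y : ℝ → ℝ → GL (Fin 2) ℂ}
    (hyc : Continuous fun p : ℝ × ℝ => y p.1 p.2) {Ψ : GL (Fin 2) ℂ → ℂ} (hΨ : Continuous Ψ)
    (gw : GL (Fin 2) ℂ) (c : ℂ) :
    (∀ α : ℝ, IntervalIntegrable
      (fun β : ℝ => c * (Ψ (gw * y α β) * ((Real.sin β : ℝ) : ℂ))) volume 0 Real.pi) ∧
    IntervalIntegrable (fun α : ℝ => c * ∫ β in (0 : ℝ)..Real.pi,
      Ψ (gw * y α β) * ((Real.sin β : ℝ) : ℂ)) volume 0 (2 * Real.pi) := by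
  have hf : Continuous (Function.uncurry fun (α : ℝ) (β : ℝ) =>
      Ψ (gw * y α β) * ((Real.sin β : ℝ) : ℂ)) := by
    have h1 : Continuous fun p : ℝ × ℝ => Ψ (gw * y p.1 p.2) :=
      hΨ.comp (continuous_const.mul hyc)
    have h2 : Continuous fun p : ℝ × ℝ => ((Real.sin p.2 : ℝ) : ℂ) :=
      Complex.continuous_ofReal.comp (Real.continuous_sin.comp continuous_snd)
    exact h1.mul h2
  refine ⟨fun α => ?_, ?_⟩
  · have hβ : Continuous fun β : ℝ => Ψ (gw * y α β) * ((Real.sin β : ℝ) : ℂ) :=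
      hf.comp (continuous_const.prodMk continuous_id)
    exact (continuous_const.mul hβ).intervalIntegrable _ _
  · have hα : Continuous fun α : ℝ => ∫ β in (0 : ℝ)..Real.pi,
        Ψ (gw * y α β) * ((Real.sin β : ℝ) : ℂ) :=
      intervalIntegral.continuous_parametric_intervalIntegral_of_continuous' hf 0 Real.pi
    exact (continuous_const.mul hα).intervalIntegrable _ _

/-- **The sum upstairs of the new data is the sphere mean of the sum upstairs of `D`.** -/
theorem stepUp_eq892 (hIQ : IsImagQuad F) (D : DatQ87 F)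
    (hcont : ∀ (i : Fin D.N) (w : InfinitePlace F), Continuous (D.Φ i w))
    (𝔑 : Ideal (𝓞 F)) (w : InfinitePlace F) (d : ℝ) (y : ℝ → ℝ → GL (Fin 2) ℂ)
    (hy : H445.IsSphC445 d y) (Y : ℝ → ℝ → G F) (hY : H445.IsSph445 w d Y)
    (F0' F1' : Fin D.N → GL (Fin 2) ℝ → ℂ) :
    (SM640.stepDat640 D d y F0' F1').up 𝔑 = H445.sphMean445 Y (D.up 𝔑) := by
  funext g
  classical
  have hsub : Subsingleton (InfinitePlace F) := (Nat.card_eq_one_iff_unique.1 hIQ.1).1
  have hyc := H266.continuous_sph266 d y hy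
  have hinf : ∀ α β : ℝ, T3.AS.infGL F w (g * Y α β) = T3.AS.infGL F w g * y α β := by
    intro α β
    rw [map_mul]
    congr 1
    apply Units.ext
    rw [T3.AS.infGL_coe, (hY α β).2, hy α β]
  have hfin : ∀ (α β : ℝ) (v : HeightOneSpectrum (𝓞 F)),
      T3.AS.finGL F v (g * Y α β) = T3.AS.finGL F v g := by
    intro α β v
    rw [map_mul, finGL_locInf_su892 (hY α β).1 v, mul_one]
  have hout : ∀ α β : ℝ,
      T3.M.OutsideUM F 𝔑 D.P' (g * Y α β) ↔ T3.M.OutsideUM F 𝔑 D.P' g :=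
    fun α β => outsideUM_mul_locInf892 (hY α β).1 𝔑 D.P' g
  -- the constants
  obtain ⟨A, hA1, hA2⟩ : ∃ A : Fin D.N → ℂ,
      (∀ (i : Fin D.N) (Ψ : InfinitePlace F → GL (Fin 2) ℂ → ℂ) (h : G F),
        (T3.M.OutsideUM F 𝔑 D.P' h ↔ T3.M.OutsideUM F 𝔑 D.P' g) →
        (∀ v : HeightOneSpectrum (𝓞 F), T3.AS.finGL F v h = T3.AS.finGL F v g) →
        T3.M.pureFnM F 𝔑 D.P' (D.φ₀ i) Ψ h = A i * Ψ w (T3.AS.infGL F w h)) ∧ True := by
    by_cases hO : T3.M.OutsideUM F 𝔑 D.P' g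
    · refine ⟨fun i => ∏ v ∈ D.P', D.φ₀ i v (T3.AS.finGL F v g), ?_, trivial⟩
      intro i Ψ h hh hf
      unfold T3.M.pureFnM
      rw [if_pos (hh.2 hO), Fintype.prod_subsingleton _ w]
      simp only [hf]
    · refine ⟨fun _ => 0, ?_, trivial⟩
      intro i Ψ h hh _
      unfold T3.M.pureFnM
      rw [if_neg (fun h' => hO (hh.1 h')), zero_mul]
  -- the left hand side
  have hL : (SM640.stepDat640 D d y F0' F1').up 𝔑 g
      = ∑ i : Fin D.N, A i * H445.sphMeanC445 y (D.Φ i w) (T3.AS.infGL F w g) := by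
    show ∑ i : Fin D.N, T3.M.pureFnM F 𝔑 D.P' (D.φ₀ i)
        (fun w' => H445.sphMeanC445 y (D.Φ i w')) g = _
    refine Finset.sum_congr rfl (fun i _ => ?_)
    exact hA1 i _ g Iff.rfl (fun _ => rfl)
  -- the right hand side
  have hR : H445.sphMean445 Y (D.up 𝔑) g
      = ∑ i : Fin D.N, A i * H445.sphMeanC445 y (D.Φ i w) (T3.AS.infGL F w g) := by
    have hint : ∀ α β : ℝ, D.up 𝔑 (g * Y α β) * ((Real.sin β : ℝ) : ℂ)
        = ∑ i : Fin D.N, A i *
          (D.Φ i w (T3.AS.infGL F w g * y α β) * ((Real.sin β : ℝ) : ℂ)) := by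
      intro α β
      show (∑ i : Fin D.N, T3.M.pureFnM F 𝔑 D.P' (D.φ₀ i) (D.Φ i) (g * Y α β))
        * ((Real.sin β : ℝ) : ℂ) = _
      rw [Finset.sum_mul]
      refine Finset.sum_congr rfl (fun i _ => ?_)
      rw [hA1 i (D.Φ i) (g * Y α β) (hout α β) (hfin α β), hinf, mul_assoc]
    have hinner : ∀ α : ℝ, (∫ β in (0 : ℝ)..Real.pi,
        D.up 𝔑 (g * Y α β) * ((Real.sin β : ℝ) : ℂ))
        = ∑ i : Fin D.N, A i * ∫ β in (0 : ℝ)..Real.pi,
          D.Φ i w (T3.AS.infGL F w g * y α β) * ((Real.sin β : ℝ) : ℂ) := by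
      intro α
      simp only [hint]
      rw [intervalIntegral.integral_finsetSum]
      · refine Finset.sum_congr rfl (fun i _ => ?_)
        rw [intervalIntegral.integral_const_mul]
      · intro i _
        exact (sph_integrable892 hyc (hcont i w) (T3.AS.infGL F w g) (A i)).1 α
    unfold H445.sphMean445
    simp only [hinner]
    rw [intervalIntegral.integral_finsetSum]
    · refine Finset.sum_congr rfl (fun i _ => ?_)
      rw [intervalIntegral.integral_const_mul]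
      rfl
    · intro i _
      exact (sph_integrable892 hyc (hcont i w) (T3.AS.infGL F w g) (A i)).2
  rw [hL, hR]

/-- **LEAF SM.8 = STEP-UP-OP**, VERBATIM. -/
theorem stepUpOpC892 (F : Type) [Field F] [NumberField F] : SM640.StepUpOpC640 F := by
  intro _h3 hIQ Φ _hcusp _hfib _hek B hB _hram 𝔫 _hlev T₀ n n₀ m _hlf c _hc D hD htest w d hd
    y hy F0' F1' χ C hχ x
  have hw : w.IsComplex := hIQ.2 w
  obtain ⟨Y, hY⟩ := H510.sphExC_h510 F w hw d
  rw [stepUp_eq892 hIQ D (fun i w' => (hD.test_up i w').cont) (upI (K' := F) 𝔫) w d y hy Y hY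
    F0' F1']
  exact H868.sphOpC868 F (toBase962_732 B).R' hB.frame' (upI (K' := F) 𝔫) w hw d hd Y hY
    (D.up (upI (K' := F) 𝔫)) htest (toBase962_732 B).𝔑₀ 2 (toBase962_732 B).o χ C hχ x

end Fermat.Agent.LT.T7.H892

end

end
-- ===== PACK-END LT/T7/H892/StepUpOp.lean

-- ===== PACK-BEGIN LT/T7/H801/DnOpFormQ.lean
section









/-!
# Row LT, tower T7, node `BQ87.StepMDatQC87` (registry row 3188), cut of helper640, leaf SM.9
# `SM640.DnOpFormC640` (THE PRODUCT FORM of the operator of the sums downstairs): PROVED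

OFF-MAIN.  No hole, nothing assumed.  ADDITIVE (new names only, suffix `801`, namespace
`Fermat.Agent.LT.T7.DO801`).

    dnOpFormC801 (F) : SM640.DnOpFormC640 F                   (VERBATIM, UNCONDITIONAL)

Spec: `T7/SM640/StepMDatSpec.lean` (helper640, sha256 3bc5afa1), byte-identical copy.
Inputs (byte-identical copies): `T3.R.rOpR_c` (station T3.18R, the operator of a pure tensor
with GIVEN local factors and GIVEN local scalars), `T3.R.H709.pureRegRC709`,
`T3.H830.actsOnR_sph830` (helper830: the local scalar on the class of parameter `s` is the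
spherical transform), `T3.R.H981.locOfMeanRC981`, `T3.R.H247.inHaarRC247`,
`T3.H732.root1_732`, `eq_zero_of_b_eq_zero732`, and the bridge of helper801
`T7/H801/EigBridgeQ.lean` (an eigenfunction `IsEigFnQ` of type `t` belongs to the class of its
circle means, `m_{T3.R} = m / 2π`).

Proof.  If `cd.b v = 0` for some `v ∈ P` the eigenfunction vanishes and `Ξ = 0`.  Otherwise
`Ξ i = κ₁ ∏_{v ∈ P} laurent (A i v) (z₁ v) (z₂ v) · χ`, `z₁, z₂` the roots of
`X² - (cd.a v) X + cd.b v`: `χ` belongs to the global class of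
`locClassR t.wt (sphRad t.wt s ∘ cosh)` (the hypothesis on `cd.m` and the bridge), a test
function `Fr i` of weight `t.wt` acts on this class by `sphTransR μr t.wt (Fr i) s`
(`actsOnR_sph830`), `rOpR_c` gives the operator of each pure tensor, and the operator of the sum
is the sum of the operators (continuous integrands of compact support: `pureRegRC709`).
-/

set_option autoImplicit false
set_option linter.unusedSectionVars false
set_option linter.style.haveILetI false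

open AutomorphicForm IsDedekindDomain NumberField MeasureTheory

noncomputable section

namespace Fermat.Agent.LT.T7.DO801

open Fermat.Agent.LT Fermat.Agent.LT.H556 Fermat.Agent.LT.H556.A0 Fermat.Agent.LT.T7
  Fermat.Agent.LT.T7.H305 Fermat.Agent.LT.T7.L2Q Fermat.Agent.LT.T7.H893
  Fermat.Agent.LT.T7.H962 Fermat.Agent.LT.T7.H732 Fermat.Agent.LT.T7.MQ298
  Fermat.Agent.LT.T7.CQ801 Fermat.Agent.LT.T7.PQ484 Fermat.Agent.LT.T7.BQ87
  Fermat.Agent.LT.T7.TB801 Fermat.Agent.LT.T7.EB801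

attribute [local instance] Fermat.Agent.LT.T5.instMeasurableSpaceG

/-- The class `T3.R.IsMeanLevelR` only sees the eigenvalue functions on `t > 0`. -/
theorem isMeanLevelR_congr801 {K : Type} [Field K] [NumberField K]
    {hR : ∀ w : InfinitePlace K, w.IsReal} {𝔫 : Ideal (𝓞 K)} {n : InfinitePlace K → ℤ}
    {m m' : InfinitePlace K → ℝ → ℂ} {φ : G K → ℂ}
    (h : ∀ (w : InfinitePlace K) (t : ℝ), 0 < t → m w t = m' w t)
    (hφ : T3.R.IsMeanLevelR K hR 𝔫 n m φ) : T3.R.IsMeanLevelR K hR 𝔫 n m' φ where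
  cont := hφ.cont
  level_inv := hφ.level_inv
  arch_scalar := hφ.arch_scalar
  arch_compact := hφ.arch_compact
  mean := fun w t ht Y hY g => by
    rw [← h w t ht]
    exact hφ.mean w t ht Y hY g

/-- **THE BRIDGE with a parameter**: an eigenfunction of the quadratic step of type `t` whose
eigenvalue functions at infinity are `2π sphRad t.wt s ∘ cosh` belongs to the global class of
the local classes of parameter `s` of helper830. -/
theorem isClassLevelR_sph801 (hR : ∀ w : InfinitePlace ℚ, w.IsReal) (t : QWt)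
    {𝔫 : Ideal (𝓞 ℚ)} {r : G ℚ} {u : HeightOneSpectrum (𝓞 ℚ)} {χ : G ℚ → ℂ} {cd : EigData ℚ}
    {s : ℂ} (hχ : IsEigFnQ t 𝔫 r u χ cd)
    (hm : ∀ (v : InfinitePlace ℚ) (r : ℝ), 0 < r →
      cd.m v r = ((2 * Real.pi : ℝ) : ℂ) * T6.sphRad t.wt s (Real.cosh r)) :
    T3.R.IsClassLevelR ℚ hR 𝔫
      (fun _ => T3.R.locClassR t.wt (T3.H830.mSphR830 t.wt s)) χ := by
  refine T3.R.H981.locOfMeanRC981 ℚ hR 𝔫 (fun _ => t.wt)
    (fun _ => T3.H830.mSphR830 t.wt s) χ
    (isMeanLevelR_congr801 (fun w r hr => ?_) (isMeanLevelR_of_eigFnQ801 hR t hχ))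
  have hpi : ((2 * Real.pi : ℝ) : ℂ) ≠ 0 :=
    Complex.ofReal_ne_zero.2 (mul_ne_zero two_ne_zero Real.pi_ne_zero)
  show cd.m w r / ((2 * Real.pi : ℝ) : ℂ) = T6.sphRad t.wt s (Real.cosh r)
  rw [hm w r hr, mul_div_cancel_left₀ _ hpi]

variable (F : Type) [Field F] [NumberField F]

/-- **LEAF SM.9 = DN-OP-FORM**, proved. -/
theorem dnOpFormC801 : SM640.DnOpFormC640 F := by
  classical
  letI : MeasurableSpace (GL (Fin 2) ℝ) := borel (GL (Fin 2) ℝ)
  intro _hs _hiq Φ _hcusp _hconst _hek B hB _hram 𝔫 _h𝔫 T₀ n _n₀ m _hlf c _hc D hD t χ cd s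
    hχ hm
  obtain ⟨μr, hμr⟩ : ∃ μr : Measure (GL (Fin 2) ℝ), μr.IsHaarMeasure :=
    T3.R.H247.inHaarRC247
  haveI := hμr
  have hμ : (toBase962_732 B).R.μ.IsHaarMeasure := hB.frame.frame.haar
  haveI := hμ
  haveI : BorelSpace (G ℚ) := ⟨rfl⟩
  obtain ⟨κ₁, -, hop⟩ := T3.R.rOpR_c ℚ ratReal87 (toBase962_732 B).R.μ hμ μr hμr 𝔫
    hD.frame_dn.level D.P hD.frame_dn.prime
  have hecke : ∀ v ∈ D.P, IsHeckeEigenAt χ v (cd.a v) (cd.b v) := fun v hv =>
    hχ.hecke v (hD.frame_dn.prime v hv)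
  by_cases hb : ∃ v ∈ D.P, cd.b v = 0
  · obtain ⟨v, hv, hbv⟩ := hb
    have hecke' := hecke v hv
    rw [hbv] at hecke'
    have hzero : ∀ g : G ℚ, χ g = 0 :=
      T3.H732.eq_zero_of_b_eq_zero732 ℚ (T3.inScalarUnif_u ℚ) hecke'
    refine ⟨μr, fun _ _ => 0, hμr, fun Fr _ x => ?_⟩
    show (∫ z, (∑ i : Fin D.N,
        T3.R.pureFnR ℚ ratReal87 𝔫 D.P (D.f₀ i) (fun _ => Fr i) z) * χ (x * z)
          ∂(toBase962_732 B).R.μ) = _
    simp only [hzero, mul_zero, integral_zero, Finset.sum_const_zero]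
  · simp only [not_exists, not_and] at hb
    have hcls := isClassLevelR_sph801 ratReal87 t hχ hm
    refine ⟨μr, fun i x => κ₁ * (∏ v ∈ D.P, T3.AS.laurent (D.A i v)
        (T3.H732.root1_732 (cd.a v) (cd.b v)) (T3.H732.root2_732 (cd.a v) (cd.b v))) * χ x,
      hμr, fun Fr hFr x => ?_⟩
    have hreg : ∀ i : Fin D.N,
        Continuous (T3.R.pureFnR ℚ ratReal87 𝔫 D.P (D.f₀ i) (fun _ => Fr i)) ∧
          HasCompactSupport (T3.R.pureFnR ℚ ratReal87 𝔫 D.P (D.f₀ i) (fun _ => Fr i)) :=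
      fun i =>
        have h := T3.R.H709.pureRegRC709 ℚ ratReal87 𝔫 hD.frame_dn.level D.P
          hD.frame_dn.prime (fun _ => t.wt) (D.f₀ i) (fun _ => Fr i)
          (fun v hv => (hD.sat_dn i v hv).bi_inv) (fun v hv => (hD.sat_dn i v hv).fin_supp)
          (fun _ => hFr i)
        ⟨h.1, h.2.1⟩
    have hint : ∀ i : Fin D.N, Integrable
        (fun z => T3.R.pureFnR ℚ ratReal87 𝔫 D.P (D.f₀ i) (fun _ => Fr i) z * χ (x * z))
        (toBase962_732 B).R.μ := by
      intro i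
      refine Continuous.integrable_of_hasCompactSupport ?_ ?_
      · exact (hreg i).1.mul (hχ.inv.cusp.cont.comp (continuous_const.mul continuous_id))
      · exact HasCompactSupport.mul_right (f' := fun z => χ (x * z)) (hreg i).2
    show (∫ z, (∑ i : Fin D.N,
        T3.R.pureFnR ℚ ratReal87 𝔫 D.P (D.f₀ i) (fun _ => Fr i) z) * χ (x * z)
          ∂(toBase962_732 B).R.μ) = _
    simp_rw [Finset.sum_mul]
    rw [integral_finsetSum _ (fun i _ => hint i)]
    refine Finset.sum_congr rfl fun i _ => ?_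
    have h1 := hop (fun _ => t.wt) (D.A i) (fun _ => T6.sphTransR μr t.wt (Fr i) s)
      (fun _ => T3.R.locClassR t.wt (T3.H830.mSphR830 t.wt s)) (D.f₀ i) (fun _ => Fr i)
      (fun v hv => (hD.sat_dn i v hv).bi_inv) (fun v hv => (hD.sat_dn i v hv).fin_supp)
      (fun v hv => (hD.sat_dn i v hv).eigen) (fun _ => hFr i)
      (fun _ => T3.H830.actsOnR_sph830 μr t.wt (Fr i) (hFr i) s) χ hcls cd.a cd.b
      (fun v => T3.H732.root1_732 (cd.a v) (cd.b v))
      (fun v => T3.H732.root2_732 (cd.a v) (cd.b v)) hecke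
      (fun v _ => (T3.H732.roots_spec732 (cd.a v) (cd.b v)).1)
      (fun v _ => (T3.H732.roots_spec732 (cd.a v) (cd.b v)).2) hb x
    have hprod : (∏ _w : InfinitePlace ℚ, T6.sphTransR μr t.wt (Fr i) s)
        = T6.sphTransR μr t.wt (Fr i) s :=
      Fintype.prod_subsingleton _ Rat.infinitePlace
    rw [hprod] at h1
    have hRT : (∫ z, T3.R.pureFnR ℚ ratReal87 𝔫 D.P (D.f₀ i) (fun _ => Fr i) z * χ (x * z)
          ∂(toBase962_732 B).R.μ)
        = T3.Rop ℚ (toBase962_732 B).R.μ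
            (T3.R.pureFnR ℚ ratReal87 𝔫 D.P (D.f₀ i) (fun _ => Fr i)) χ x := by
      unfold T3.Rop
      refine integral_congr_ae (Filter.Eventually.of_forall fun y => ?_)
      exact mul_comm _ _
    rw [hRT, h1]
    ring

/-- Check: the statement is the frozen Prop of helper640, verbatim. -/
example : Fermat.Agent.LT.T7.SM640.DnOpFormC640 F := dnOpFormC801 F

end Fermat.Agent.LT.T7.DO801

end

end
-- ===== PACK-END LT/T7/H801/DnOpFormQ.lean

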