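import Mathlib
import Fermat.Agent.Pack.LT4.E10L2
import Fermat.Agent.Pack.LT4.E9L2
import Fermat.Agent.Pack.LT4.E9L0
import Fermat.Agent.Pack.LT4.E10L1
import Fermat.Agent.Pack.LT4.E1L1
import Fermat.Agent.Pack.LT4.E10L0
import Fermat.Agent.Pack.LT4.E10L3
import Fermat.Agent.Pack.LT4.E3L2
import Fermat.Agent.Pack.LT3.E21L2

set_option linter.all false

-- ===== PACK-BEGIN LT/T7/H563/ProdMtQClosed2.lean
section








/-!
# Row LT, tower T7, node T7.L2Q.1.H2b `CQ801.ProdMtQC801` (row 2683, helper563): INTEGRATION v2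

OFF-MAIN.  No hole, nothing assumed.  ADDITIVE (v1 = `ProdMtQClosed.lean`, unchanged).  Plugged
in addition to v1 (byte-identical copies of the files of their provers):

* `SphHypQC563 F` from `T6.T6Out` : helper60 (`T7/H60/SphHypQClosed.lean`, with `SphSplitQ`);
* `ConvFamQC563`, `TestSmulQC563` : helper627 (`T7/H627/ConvFamQ.lean`);
* `SplitOrbQC563 F` : helper78 (`T7/H78/SplitOrbQ.lean`, port of helper321 `splitOrbC321`);
* `RegOpQC563 F` : helper575 (`T7/H575/RegOpQ.lean`);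
* `SphProdQC563 F` : helper777 (`T7/H777/SphProdQ.lean`).

    prodMtQC801_of_open563b : T6.T6Out → OpAvgQC563 F → RegAQC563 F
        → ∀ κ nowhere zero, CQ801.ProdMtQC801 F κ                             (VERBATIM)
-/

set_option autoImplicit false

open AutomorphicForm IsDedekindDomain NumberField MeasureTheory
open scoped ComplexConjugate

noncomputable section

namespace Fermat.Agent.LT.T7.PQ563

open Fermat.Agent.LT.H556 Fermat.Agent.LT.H556.A0 Fermat.Agent.LT.T7 Fermat.Agent.LT.T7.H305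
  Fermat.Agent.LT.T7.L2Q Fermat.Agent.LT.T7.H893 Fermat.Agent.LT.T7.H962
  Fermat.Agent.LT.T7.H732 Fermat.Agent.LT.T7.MQ298 Fermat.Agent.LT.T7.CQ801

attribute [local instance] Fermat.Agent.LT.T5.instMeasurableSpaceG

variable {F : Type} [Field F] [NumberField F]

/-- **THE NODE `CQ801.ProdMtQC801` from its OPEN leaves, v2** (the closed leaves are plugged). -/
theorem prodMtQC801_of_open563b (ht6 : T6.T6Out) (hOp : OpAvgQC563 F) (hRA : RegAQC563 F)
    (κ : KapFnQ801 F) (hκ : ∀ D μr μc T₀ n m, κ D μr μc T₀ n m ≠ 0) : ProdMtQC801 F κ :=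
  prodMtQC801_of_all563 (T7.H301.levelUniqC301 ℚ) (T7.H301.levelUniqC301 F)
    (T7.H627.levelAtC627 ℚ F) (T7.H570UQ.unramQC570 F)
    (T7.H60.sphHypQC_closed60 F ht6)
    hOp (T7.H724.convFamC724 (F := F)) T7.H627.convFamQC627 T7.H627.testSmulQC627
    T7.H644.locConvExC644 T7.H644.unitConvC644
    T7.H644.unitRegC644 hRA (T7.H575.regOpQC575 (F := F))
    (T7.H644.overFinC644 (K := ℚ) (K' := F))
    (T7.H644.belowUniqC644 (K := ℚ) (K' := F)) (T7.H644.belowExC644 (K := ℚ) (K' := F))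
    (T7.H409.regOrbQC409 F) (T7.H78.splitOrbQC78 (F := F)) (T7.H777.sphProdQC777 F)
    (T7.H100.archProdQC100 F) κ hκ

end Fermat.Agent.LT.T7.PQ563

end

end
-- ===== PACK-END LT/T7/H563/ProdMtQClosed2.lean

-- ===== PACK-BEGIN LT/T7/H563/ProdMtQClosed3.lean
section




/-!
# Row LT, tower T7, node T7.L2Q.1.H2b `CQ801.ProdMtQC801` (row 2683, helper563): INTEGRATION v3

OFF-MAIN.  No hole, nothing assumed.  ADDITIVE (v1, v2 unchanged).  Plugged in addition to v2:
`RegAQC563 F` (`T7/H563/RegAQ.lean`, `regAQC_h563`, port of helper869).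

    prodMtQC801_of_open563c : T6.T6Out → OpAvgQC563 F
        → ∀ κ nowhere zero, CQ801.ProdMtQC801 F κ                             (VERBATIM)
-/

set_option autoImplicit false

open AutomorphicForm IsDedekindDomain NumberField MeasureTheory
open scoped ComplexConjugate

noncomputable section

namespace Fermat.Agent.LT.T7.PQ563

open Fermat.Agent.LT.H556 Fermat.Agent.LT.H556.A0 Fermat.Agent.LT.T7 Fermat.Agent.LT.T7.H305
  Fermat.Agent.LT.T7.L2Q Fermat.Agent.LT.T7.H893 Fermat.Agent.LT.T7.H962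
  Fermat.Agent.LT.T7.H732 Fermat.Agent.LT.T7.MQ298 Fermat.Agent.LT.T7.CQ801

attribute [local instance] Fermat.Agent.LT.T5.instMeasurableSpaceG

variable {F : Type} [Field F] [NumberField F]

/-- **THE NODE `CQ801.ProdMtQC801` from its OPEN leaf, v3** (the closed leaves are plugged). -/
theorem prodMtQC801_of_open563c (ht6 : T6.T6Out) (hOp : OpAvgQC563 F)
    (κ : KapFnQ801 F) (hκ : ∀ D μr μc T₀ n m, κ D μr μc T₀ n m ≠ 0) : ProdMtQC801 F κ :=
  prodMtQC801_of_open563b ht6 hOp (regAQC_h563 F) κ hκ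

end Fermat.Agent.LT.T7.PQ563

end

end
-- ===== PACK-END LT/T7/H563/ProdMtQClosed3.lean

-- ===== PACK-BEGIN LT/T7/DQ773/DatQTop.lean
section



/-!
# Row LT, tower T7, node T7.L2Q.1.H2a.A.0.D `BQ87.DatQC87` (owner helper773, registry row 3088):
# THE CUT over `ℚ` -- the PROVED top

OFF-MAIN.  Complete proofs, nothing assumed.  ADDITIVE (new names only, suffix `773`).

    datQC_of773 : B981.UpDatC981 F → HaarCplxExC773 → NormFrameQC773 F → DownFinQC773 F
                    → DownArchQC773 F → PushTelQC773 F → BQ87.DatQC87 F            (VERBATIM)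

Mirror of `B981.datC_of981` (helper981, `T7/B981/PairDatTop.lean`).
-/

set_option autoImplicit false

open AutomorphicForm IsDedekindDomain NumberField MeasureTheory
open scoped ComplexConjugate

noncomputable section

namespace Fermat.Agent.LT.T7.DQ773

open Fermat.Agent.LT Fermat.Agent.LT.H556 Fermat.Agent.LT.H556.A0 Fermat.Agent.LT.T7
  Fermat.Agent.LT.T7.H305 Fermat.Agent.LT.T7.L2Q Fermat.Agent.LT.T7.H893
  Fermat.Agent.LT.T7.H962 Fermat.Agent.LT.T7.H732 Fermat.Agent.LT.T7.MQ298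
  Fermat.Agent.LT.T7.CQ801 Fermat.Agent.LT.T7.PQ484

attribute [local instance] Fermat.Agent.LT.T5.instMeasurableSpaceG

variable {F : Type} [Field F] [NumberField F]

/-- The place under `w` is unique. -/
theorem placeOver_unique773 {v v₀ : HeightOneSpectrum (𝓞 ℚ)} {w : HeightOneSpectrum (𝓞 F)}
    (h : PlaceOver ℚ F v w) (h₀ : PlaceOver ℚ F v₀ w) : v = v₀ := by
  apply HeightOneSpectrum.ext
  ext x
  have e1 := h x (algebraMap (𝓞 ℚ) (𝓞 F) x) rfl
  have e2 := h₀ x (algebraMap (𝓞 ℚ) (𝓞 F) x) rfl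
  exact e1.trans e2.symm

/-- A place over a divisor of `𝔫` divides `𝔫 𝒪_F`. -/
theorem dvd_upI_of_placeOver773 {v : HeightOneSpectrum (𝓞 ℚ)} {w : HeightOneSpectrum (𝓞 F)}
    (h : PlaceOver ℚ F v w) {𝔫 : Ideal (𝓞 ℚ)} (hv : v.asIdeal ∣ 𝔫) :
    w.asIdeal ∣ upI (K' := F) 𝔫 := by
  rw [Ideal.dvd_iff_le] at hv ⊢
  unfold upI
  rw [Ideal.map_le_iff_le_comap]
  intro x hx
  rw [Ideal.mem_comap]
  exact (h x (algebraMap (𝓞 ℚ) (𝓞 F) x) rfl).1 (hv hx)

/-- The extension of a non-zero ideal is not zero. -/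
theorem upI_ne_bot773 {𝔫 : Ideal (𝓞 ℚ)} (h : 𝔫 ≠ ⊥) : upI (K' := F) 𝔫 ≠ ⊥ := by
  unfold upI
  intro h0
  rw [Ideal.map_eq_bot_iff_of_injective
    (FaithfulSMul.algebraMap_injective (𝓞 ℚ) (𝓞 F))] at h0
  exact h h0

/-- **THE TOP OF THE CUT over `ℚ`**: the data exist. -/
theorem datQC_of773 (hU : B981.UpDatC981 F) (hH : HaarCplxExC773) (hN : NormFrameQC773 F)
    (hF : DownFinQC773 F) (hA : DownArchQC773 F) (hT : PushTelQC773 F) : BQ87.DatQC87 F := by
  classical
  intro hs3 hiq Φ _hΦ _hconst hek B hB hram 𝔫 hlev T₀ n n₀ m hexp c hc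
  obtain ⟨μc, hμc⟩ := hH
  have h𝔑 : upI (K' := F) 𝔫 ≠ ⊥ := upI_ne_bot773 hlev.level_ne
  obtain ⟨P', e', a₀', hP'ne, hP', hspan, hmem, hgood⟩ :=
    hek (upI (K' := F) 𝔫) h𝔑 (toBase962_732 B).S'
  have ha₀ : algebraMap (𝓞 F) F a₀' ≠ 0 := by
    intro h0
    have h0' : a₀' = 0 :=
      (map_eq_zero_iff (algebraMap (𝓞 F) F)
        (FaithfulSMul.algebraMap_injective (𝓞 F) F)).1 h0
    rw [h0'] at hspan
    have hbot : (∏ v ∈ P', v.asIdeal ^ e' v) = ⊥ := by rw [← hspan]; simp
    rw [← Ideal.zero_eq_bot, Finset.prod_eq_zero_iff] at hbot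
    obtain ⟨v, hvP, hv⟩ := hbot
    exact v.ne_bot ((pow_eq_zero_iff (Nat.pos_iff_ne_zero.1 (hP' v hvP).2.2)).1 hv)
  set α' : Fˣ := Units.mk0 _ ha₀ with hα'
  have hfr' : T3.M.FrameM F (upI (K' := F) 𝔫) P' e' a₀' α' :=
    ⟨h𝔑, hP'ne, fun v hv => (hP' v hv).2.1, fun v hv => (hP' v hv).2.2, hspan, hmem, rfl⟩
  obtain ⟨N, κc, A', β', φ₀', Φa, hκ, hsA', hsβ', hsat', htest', hsm', habel', hacts', htel',
    hft'⟩ := hU hiq.2 μc hμc (upI (K' := F) 𝔫) P' e' a₀' α' hfr'
  obtain ⟨P, e, a₀, α, hfr, htot, hunder, he, hlog⟩ :=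
    hN hiq 𝔫 P' e' a₀' α' hlev.level_ne hfr'
  -- the components upstairs at ALL finite places
  set φ₀ : Fin N → ∀ w : HeightOneSpectrum (𝓞 F), GL (Fin 2) (w.adicCompletion F) → ℂ :=
    fun i w => if w ∈ P' then φ₀' i w
      else if ∃ v ∈ T₀, PlaceOver ℚ F v w then unitFn893 (n w) else unitFn893 0 with hφ₀
  have hφ₀P' : ∀ (i : Fin N), ∀ w ∈ P', φ₀ i w = φ₀' i w := fun i w hw => by
    simp only [hφ₀, if_pos hw]
  have hnotP' : ∀ (v : HeightOneSpectrum (𝓞 ℚ)) (w : HeightOneSpectrum (𝓞 F)), v ∈ T₀ →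
      PlaceOver ℚ F v w → w ∉ P' := fun v w hv hvw hw =>
    (hP' w hw).2.1 (dvd_upI_of_placeOver773 hvw ((hexp.div v).1 hv))
  have hunit_up : ∀ (i : Fin N), ∀ v ∈ T₀, ∀ w : HeightOneSpectrum (𝓞 F),
      PlaceOver ℚ F v w → φ₀ i w = unitFn893 (n w) := fun i v hv w hvw => by
    simp only [hφ₀, if_neg (hnotP' v w hv hvw)]
    rw [if_pos ⟨v, hv, hvw⟩]
  have hunit_rest : ∀ (i : Fin N) (w : HeightOneSpectrum (𝓞 F)), w ∉ P' →
      (∃ v ∈ P, PlaceOver ℚ F v w) → φ₀ i w = unitFn893 0 := fun i w hw hex => by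
    simp only [hφ₀, if_neg hw]
    rw [if_neg]
    rintro ⟨v₀, hv₀, hv₀w⟩
    obtain ⟨v, hv, hvw⟩ := hex
    have hvv : v = v₀ := placeOver_unique773 hvw hv₀w
    subst hvv
    exact hfr.prime v hv ((hexp.div v).1 hv₀)
  -- the finite places downstairs
  choose A f₀ hsA hApush hsat hunit hsph using fun i : Fin N =>
    hF hs3 hiq Φ B hB hram 𝔫 hlev T₀ n n₀ m hexp P' P (fun w hw => (hP' w hw).1) hunder
      hfr.prime (A' i) (φ₀ i) (hsA' i)
      (fun w hw => by rw [hφ₀P' i w hw]; exact hsat' i w hw) (hunit_rest i)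
  -- the real place downstairs
  choose F0 F1 β hsβ ht0 ht1 hab0 hab1 hβ harch using fun i : Fin N =>
    hA hiq c hc (Φa i) (β' i) (hsβ' i) (htest' i) (hsm' i) (habel' i)
  -- the telescoping downstairs
  have htel := hT hiq P' P e' e α' α hunder hfr.nonempty hfr.pos he hlog c N
    A' β' A β hsA' hsβ' hApush hβ htel'
  refine ⟨⟨N, P', e', a₀', α', P, e, a₀, α, μc, κc, A', β', φ₀, Φa, A, β, f₀, F0, F1⟩, ?_⟩
  exact
    { haar_c := hμc
      frame_up := hfr'
      frame_dn := hfr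
      totpos := htot
      out := fun w hw => (hP' w hw).1
      good := hgood
      under := hunder
      κc_ne := hκ
      symA' := hsA'
      symβ' := hsβ'
      sat_up := fun i w hw => by
        show T3.AS.IsSatakePair w (φ₀ i w) (A' i w)
        rw [hφ₀P' i w hw]
        exact hsat' i w hw
      test_up := htest'
      smooth_up := hsm'
      abel_up := habel'
      acts_up := hacts'
      symA := hsA
      symβ := hsβ
      sat_dn := hsat
      test_dn := fun t i => by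
        cases t
        · exact ht0 i
        · exact ht1 i
      abel_dn := fun t i v => by
        cases t
        · exact hab0 i v
        · exact hab1 i v
      tel_up := htel'
      tel_dn := htel
      ft_ne := hft'
      unit_rest := hunit_rest
      loc := fun i => ⟨hunit i, hunit_up i, hsph i, harch i⟩ }

end Fermat.Agent.LT.T7.DQ773

end

end
-- ===== PACK-END LT/T7/DQ773/DatQTop.lean

-- ===== PACK-BEGIN LT/T7/DQ773/DownArchQTop.lean
section



/-!
# Row LT, tower T7, leaf T7.L2Q.1.H2a.A.0.D.4 `DQ773.DownArchQC773` (helper773, registry row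
# 3178): the TOP

OFF-MAIN.  Complete proof, nothing assumed.  ADDITIVE (new names only, suffix `773`).

    downArchQC_of773 : T3.R.AbelRealC → DQ773.DownArchQC773 F

Route.  `F` has ONE infinite place (`IsImagQuad`); `β₀ = halfQ801 c (β' w₀)` is a symmetric
bump; `T3.R.AbelRealC` for the weights `0` and `-1`; `T6.IsArchTestC` from `T3.AS.IsCplxTest`
and `T3.AS.IsCplxSmooth` (the entries of `t ↦ g * h t` are smooth).
-/

set_option autoImplicit false

open AutomorphicForm IsDedekindDomain NumberField MeasureTheory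
open scoped ComplexConjugate ContDiff

noncomputable section

namespace Fermat.Agent.LT.T7.DQ773

open Fermat.Agent.LT Fermat.Agent.LT.H556 Fermat.Agent.LT.H556.A0 Fermat.Agent.LT.T7
  Fermat.Agent.LT.T7.CQ801

/-- `halfQ801 c β'` is a symmetric bump. -/
theorem isSymBump_half773 (c : ℂ) {β' : ℝ × ℝ → ℂ} (h : T3.AS.IsSymBump β') :
    T3.AS.IsSymBump (halfQ801 c β') := by
  obtain ⟨h1, h2, h3⟩ := h
  refine ⟨?_, ?_, ?_⟩
  · have hs : ContDiff ℝ ∞ (fun p : ℝ × ℝ => (2 : ℝ)⁻¹ • p) := contDiff_id.const_smul _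
    exact contDiff_const.mul (h1.comp hs)
  · have e : (fun p : ℝ × ℝ => β' ((2 : ℝ)⁻¹ • p))
        = β' ∘ (Homeomorph.smulOfNeZero (2 : ℝ)⁻¹ (by norm_num) : ℝ × ℝ ≃ₜ ℝ × ℝ) := rfl
    have hc : HasCompactSupport (fun p : ℝ × ℝ => β' ((2 : ℝ)⁻¹ • p)) := by
      rw [e]
      exact h2.comp_homeomorph _
    exact hc.mul_left
  · intro x y
    show c * β' ((2 : ℝ)⁻¹ • (x, y)) = c * β' ((2 : ℝ)⁻¹ • (y, x))
    rw [Prod.smul_mk, Prod.smul_mk, h3]

/-- The bridge from the regularity of T3 to the test functions of T6 on `GL₂(ℂ)`. -/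
theorem isArchTestC_of_cplx773 {Φ : GL (Fin 2) ℂ → ℂ} (h1 : T3.AS.IsCplxTest Φ)
    (h2 : T3.AS.IsCplxSmooth Φ) : T6.IsArchTestC Φ where
  cont := h1.cont
  supp := h1.supp
  smooth := by
    intro m h hh g
    refine h2 m (fun t => g * h t) ?_
    intro i j
    have e : (fun t => (((g * h t : GL (Fin 2) ℂ)) : Matrix (Fin 2) (Fin 2) ℂ) i j)
        = fun t => (g : Matrix (Fin 2) (Fin 2) ℂ) i 0
            * ((h t : GL (Fin 2) ℂ) : Matrix (Fin 2) (Fin 2) ℂ) 0 j
          + (g : Matrix (Fin 2) (Fin 2) ℂ) i 1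
            * ((h t : GL (Fin 2) ℂ) : Matrix (Fin 2) (Fin 2) ℂ) 1 j := by
      funext t
      rw [Units.val_mul, Matrix.mul_apply, Fin.sum_univ_two]
    rw [e]
    exact (contDiff_const.mul (hh 0 j)).add (contDiff_const.mul (hh 1 j))
  left := by
    intro k g hk
    have h1' : T3.AS.IsUnitary2 (1 : GL (Fin 2) ℂ) := by
      show ((1 : GL (Fin 2) ℂ) : Matrix (Fin 2) (Fin 2) ℂ)
        * ((1 : GL (Fin 2) ℂ) : Matrix (Fin 2) (Fin 2) ℂ).conjTranspose = 1
      simp
    have := h1.bi_inv k 1 g hk h1'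
    rwa [mul_one] at this
  right := by
    intro k g hk
    have h1' : T3.AS.IsUnitary2 (1 : GL (Fin 2) ℂ) := by
      show ((1 : GL (Fin 2) ℂ) : Matrix (Fin 2) (Fin 2) ℂ)
        * ((1 : GL (Fin 2) ℂ) : Matrix (Fin 2) (Fin 2) ℂ).conjTranspose = 1
      simp
    have := h1.bi_inv 1 k g h1' hk
    rwa [one_mul] at this

/-- **THE TOP of DQ.4.** -/
theorem downArchQC_of773 (F : Type) [Field F] (hAR : T3.R.AbelRealC) : DownArchQC773 F := by
  intro hiq c _hc Φ β' hsβ' htest hsm habel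
  have hcard : Nat.card (InfinitePlace F) = 1 := hiq.1
  obtain ⟨hsub, hne⟩ := Nat.card_eq_one_iff_unique.1 hcard
  obtain ⟨w₀⟩ := hne
  have hw : ∀ w : InfinitePlace F, w = w₀ := fun w => Subsingleton.elim w w₀
  have hβ₀ : T3.AS.IsSymBump (halfQ801 c (β' w₀)) := isSymBump_half773 c (hsβ' w₀)
  obtain ⟨F0, hF0, hA0⟩ := hAR 0 (Or.inl rfl) (halfQ801 c (β' w₀)) hβ₀
  obtain ⟨F1, hF1, hA1⟩ := hAR (-1) (Or.inr (Or.inr rfl)) (halfQ801 c (β' w₀)) hβ₀
  refine ⟨F0, F1, fun _ => halfQ801 c (β' w₀), fun _ => hβ₀, hF0, hF1, fun _ => hA0,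
    fun _ => hA1, ?_, ?_⟩
  · intro v w
    rw [hw w]
  · refine ⟨fun w => isArchTestC_of_cplx773 (htest w) (hsm w), hF0, hF1,
      fun w => ⟨β' w, hsβ' w, habel w, ?_, ?_⟩⟩
    · rw [hw w]
      exact hA0
    · rw [hw w]
      exact hA1

end Fermat.Agent.LT.T7.DQ773

end

end
-- ===== PACK-END LT/T7/DQ773/DownArchQTop.lean

-- ===== PACK-BEGIN LT/T7/DQ773/DownArchQ.lean
section




/-!
# Row LT, tower T7, leaf T7.L2Q.1.H2a.A.0.D.4 `DQ773.DownArchQC773` (helper773, registry row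
# 3178): CLOSED, UNCONDITIONAL

OFF-MAIN.  Complete proof, nothing assumed.

    downArchQC773 F : DQ773.DownArchQC773 F

= `downArchQC_of773` (`DownArchQTop.lean`) applied to the closed leaf `T3.R.AbelRealC`
(`T3/H773/AbelReal.lean` `abelRealC773`, helper773; also closed by helper501, helper878).
-/

set_option autoImplicit false

noncomputable section

namespace Fermat.Agent.LT.T7.DQ773

/-- **LEAF DQ.4 = DOWN-ARCH over `ℚ`, CLOSED.** -/
theorem downArchQC773 (F : Type) [Field F] : DownArchQC773 F :=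
  downArchQC_of773 F Fermat.Agent.LT.T3.H773.abelRealC773

end Fermat.Agent.LT.T7.DQ773

end

end
-- ===== PACK-END LT/T7/DQ773/DownArchQ.lean

-- ===== PACK-BEGIN LT/T7/H488/PushTelQ.lean
section




/-!
# Row LT, tower T7, leaf DQ.5 `DQ773.PushTelQC773` (cut of helper773 of `BQ87.DatQC87`, over `ℚ`)
# PROVED (helper488, OFF-MAIN, never land)

    pushTelQC773_488 F : DQ773.PushTelQC773 F          (VERBATIM, unconditional)

Proof.  The finite places: `PT.gen488` + `PT.flp488` (as for `B981.PushTelC981`, with `K = ℚ`,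
`K' = F`).  At infinity there is ONE place upstairs and ONE downstairs:
`β v (X + j (log v α, 0)) = c β' w (X/2 + j (log w α', 0))`, no integral.
-/

set_option autoImplicit false
set_option linter.unusedSectionVars false
set_option linter.unusedVariables false

open IsDedekindDomain NumberField MeasureTheory

noncomputable section

namespace Fermat.Agent.LT.T7.H488.PT

open Fermat.Agent.LT.T7 Fermat.Agent.LT

theorem halfQ_apply488 (c : ℂ) (β' : ℝ × ℝ → ℂ) (p : ℝ × ℝ) :
    CQ801.halfQ801 c β' p = c * β' ((2 : ℝ)⁻¹ • p) := rfl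

/-- **LEAF DQ.5 = PUSH-TEL over `ℚ`, PROVED.** -/
theorem pushTelQC773_488 (F : Type) [Field F] [NumberField F] : DQ773.PushTelQC773 F := by
  classical
  intro hF P' P e' e α' α hP hne hepos he hL c N A' β' A β hA' hβ' hA hβ hup Δ
  -- the places under `P'`
  have hbelow : ∀ w ∈ P', belowF488 (K := ℚ) w ∈ P := fun w hw =>
    (hP _).2 ⟨w, hw, belowF_spec488 w⟩
  have hfib : ∀ v : HeightOneSpectrum (𝓞 ℚ),
      P'.filter (fun w => belowF488 (K := ℚ) w = v) = B981.fib981 (K := ℚ) P' v := by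
    intro v
    ext w
    rw [Finset.mem_filter, mem_fib488, belowF_eq_iff488]
  -- the finite places
  have hB : ∀ (x₂ : InfinitePlace F → ℝ × ℝ) (X : HeightOneSpectrum (𝓞 ℚ) → ℤ × ℤ),
      HasSum (fun j : ℤ => ∑ i : Fin N,
        (∏ w : InfinitePlace F,
          β' i w (x₂ w + j • (Real.log (w (α' : F)), (0 : ℝ)))) *
        ∏ v ∈ P, A i v (X v + j • (((e v : ℕ) : ℤ), (0 : ℤ)))) 0 := by
    intro x₂
    refine gen488 (κ := ℤ × Fin N) (fun g => HasSum (fun j : ℤ => ∑ i : Fin N, g (j, i)) 0)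
      (belowF488 (K := ℚ)) P' P
      (fun k w y => A' k.2 w (y + k.1 • (((e' w : ℕ) : ℤ), (0 : ℤ))))
      (fun k v Y => A k.2 v (Y + k.1 • (((e v : ℕ) : ℤ), (0 : ℤ)))) hbelow ?_
      (fun k => ∏ w : InfinitePlace F,
          β' k.2 w (x₂ w + k.1 • (Real.log (w (α' : F)), (0 : ℝ)))) ?_
    · intro v hv d hd Y
      have hd' : ∀ x : HeightOneSpectrum (𝓞 F) → ℤ × ℤ,
          HasSum (fun j : ℤ => ∑ i : Fin N, d (j, i) *
            ∏ w ∈ P'.filter (fun w => belowF488 (K := ℚ) w = v),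
              A' i w (x w + j • (((e' w : ℕ) : ℤ), (0 : ℤ)))) 0 := hd
      have hev : ((e v : ℕ) : ℤ) = ∑ w ∈ P'.filter (fun w => belowF488 (K := ℚ) w = v),
          (B981.resDeg981 v w : ℤ) * (e' w : ℤ) := by
        rw [hfib v, he v hv, Nat.cast_sum]
        exact Finset.sum_congr rfl fun w _ => Nat.cast_mul _ _
      have h1 := flp488 (P'.filter (fun w => belowF488 (K := ℚ) w = v)) (B981.resDeg981 v) e'
        (e v) hev (hepos v hv) A' (fun i w => (hA' i w).1) d hd' Y
      have e1 : (fun j : ℤ => ∑ i : Fin N, d (j, i) *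
          push488 (P'.filter (fun w => belowF488 (K := ℚ) w = v)) (B981.resDeg981 v) (A' i)
            (Y + j • (((e v : ℕ) : ℤ), (0 : ℤ))))
          = fun j : ℤ => ∑ i : Fin N, d (j, i) * A i v (Y + j • (((e v : ℕ) : ℤ), (0 : ℤ))) := by
        funext j
        refine Finset.sum_congr rfl fun i _ => ?_
        rw [hA i v hv, pushFin_eq488, hfib v]
      rw [e1] at h1
      exact h1
    · intro x
      have h1 := hup (fun w : P' => x w.1, x₂)
      have e1 : (fun j : ℤ => ∑ i : Fin N, T3.M.pureCoordM F P' (A' i) (β' i)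
            ((fun w : P' => x w.1, x₂) + j • T3.M.coordTorM F P' e' α'))
          = fun j : ℤ => ∑ i : Fin N,
            (∏ w : InfinitePlace F,
              β' i w (x₂ w + j • (Real.log (w (α' : F)), (0 : ℝ)))) *
            ∏ w ∈ P', A' i w (x w + j • (((e' w : ℕ) : ℤ), (0 : ℤ))) := by
        funext j
        refine Finset.sum_congr rfl fun i _ => ?_
        rw [pureCoordM_shift488, mul_comm]
        congr 1
        exact Finset.prod_coe_sort P' (fun w => A' i w (x w + j • (((e' w : ℕ) : ℤ), (0 : ℤ))))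
      rw [e1] at h1
      exact h1
  -- the infinite places
  obtain ⟨hsubF, ⟨w₀⟩⟩ := Nat.card_eq_one_iff_unique.1 hF.1
  obtain ⟨v₀⟩ : Nonempty (InfinitePlace ℚ) := inferInstance
  let X : HeightOneSpectrum (𝓞 ℚ) → ℤ × ℤ := fun v => if h : v ∈ P then Δ.1 ⟨v, h⟩ else 0
  have h1 := (hB (fun _ => (2 : ℝ)⁻¹ • Δ.2 v₀) X).mul_left c
  rw [mul_zero] at h1
  have e1 : (fun j : ℤ => ∑ i : Fin N,
        T3.M.pureCoordM ℚ P (A i) (β i) (Δ + j • T3.M.coordTorM ℚ P e α))
      = fun j : ℤ => c * ∑ i : Fin N,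
        (∏ w : InfinitePlace F,
          β' i w ((2 : ℝ)⁻¹ • Δ.2 v₀ + j • (Real.log (w (α' : F)), (0 : ℝ)))) *
        ∏ v ∈ P, A i v (X v + j • (((e v : ℕ) : ℤ), (0 : ℤ))) := by
    funext j
    rw [Finset.mul_sum]
    refine Finset.sum_congr rfl fun i _ => ?_
    rw [pureCoordM_shift488, Fintype.prod_subsingleton _ v₀, Fintype.prod_subsingleton _ w₀,
      hβ i v₀ w₀, halfQ_apply488, hL v₀ w₀]
    have e2 : (2 : ℝ)⁻¹ • (Δ.2 v₀ + j • (2 * Real.log (w₀ (α' : F)), (0 : ℝ)))
        = (2 : ℝ)⁻¹ • Δ.2 v₀ + j • (Real.log (w₀ (α' : F)), (0 : ℝ)) := by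
      rw [smul_add, smul_comm]
      congr 2
      refine Prod.ext ?_ ?_
      · simp
      · simp
    rw [e2]
    have e3 : ∏ v : P, A i v.1 (Δ.1 v + j • (((e v.1 : ℕ) : ℤ), (0 : ℤ)))
        = ∏ v ∈ P, A i v (X v + j • (((e v : ℕ) : ℤ), (0 : ℤ))) := by
      rw [← Finset.prod_coe_sort P]
      refine Finset.prod_congr rfl fun v _ => ?_
      show A i v.1 (Δ.1 v + _) = A i v.1 ((if h : v.1 ∈ P then Δ.1 ⟨v.1, h⟩ else 0) + _)
      rw [dif_pos v.2]
    rw [e3]
    ring
  rw [e1]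
  exact h1

end Fermat.Agent.LT.T7.H488.PT

end

end
-- ===== PACK-END LT/T7/H488/PushTelQ.lean

-- ===== PACK-BEGIN LT/T7/H873/NatShapeQ.lean
section



/-!
# Row LT, tower T7, node T7.L2Q.1.H2a.B `CQ801.PairBQC801` (cut of helper973,
# `T7/H973/PairBQSpec.lean`): LEAF PBQ.3 `NatShapeQC973` (helper873)

OFF-MAIN.  VERBATIM, UNCONDITIONAL:

    natShapeQC873 F : PBQ973.NatShapeQC973 F

Proof.  `isAvgPureQ_nat873` (`NatShapeQAvg.lean`: parameter space `Ω × closure D'`, Fubini,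
the push-forward formula downstairs with the norm `N t' = 2 t'`) and the stability of the Abel
relation `c` under the translations by `e^{t'}` upstairs and `e^{2 t'}` downstairs
(`NatShapeQArch.lean`: the `N`-integral of the translate is the shifted bump;
`F` has one infinite place).
-/

set_option autoImplicit false

open AutomorphicForm IsDedekindDomain NumberField MeasureTheory

noncomputable section

namespace Fermat.Agent.LT.T7.H873

open Fermat.Agent.LT.H556 Fermat.Agent.LT.H556.A0 Fermat.Agent.LT Fermat.Agent.LT.T7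
open Fermat.Agent.LT.T7.H305 Fermat.Agent.LT.T7.H893 Fermat.Agent.LT.T7.MQ298
open Fermat.Agent.LT.T7.CQ801 Fermat.Agent.LT.T7.PBQ973 Fermat.Agent.LT.T7.L2Q

variable (F : Type) [Field F] [NumberField F]

/-- **LEAF PBQ.3 `NatShapeQC973`.** -/
theorem natShapeQC873 : PBQ973.NatShapeQC973 F := by
  intro hquad Φ B _hB g 𝔫 _hlev μr μc _hμr _hμc T₀ n n₀ m _hexp c a _hc _ha c₂ φ₀ f₀ hpre
    aT D aT' D' hrel
  refine isAvgPureQ_nat873 hrel (hpre.dn_test QWt.w0).cont (hpre.dn_test QWt.w1).cont ?_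
    hpre.shape
  intro t' T φ Φ' f F0 F1 hL
  obtain ⟨h1, h2, h3, h4, h5, h6⟩ := hL
  refine ⟨h1, h2, h3, h4, h5, archOkQ_trl873 (fun w => isScal_infGL873 hrel.up t' w)
    (isScalR_reGLQ873 hrel.down _) ?_ h6⟩
  intro w
  show 2 * ∑ w' : InfinitePlace F, t' w' = 2 * t' w
  have : Subsingleton (InfinitePlace F) := (Nat.card_eq_one_iff_unique.1 hquad.1).1
  rw [Fintype.sum_subsingleton _ w]

end Fermat.Agent.LT.T7.H873

end

end
-- ===== PACK-END LT/T7/H873/NatShapeQ.lean

-- ===== PACK-BEGIN LT/T7/H973/PreBQTop.lean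
section




/-!
# Row LT, tower T7, node T7.L2Q.1.H2a.B.0 `PBQ973.PreBQC973` (registry row 3040):
# THE UN-AVERAGED SECOND PAIR OVER `ℚ` -- SECOND CUT (THE SWAP), PROVED TOP (helper973)

OFF-MAIN.  Complete proofs, nothing assumed.  ADDITIVE (new names only, suffix `973`).

    preBQC_of973      : CQ801.PairAQC801 P F → BadPartQC973 F → OpenSwapQ973 F → PreBQC973 P F
    pairBQC_of_cuts973 : RelTorusQC973 F → NatShapeQC973 F → CQ801.PairAQC801 P F
                           → BadPartQC973 F → OpenSwapQ973 F → CQ801.PairBQC801 P F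

The un-averaged second pair is `(swapUpFnQ973 …, fun t => swapDnFnQ973 … a … (archQ973 F0 F1 t))`
for the data of the average of the first pair of the empty word; the fields of `IsPreBQ973` are
the swap leaves.  Mirror of `PB57.preBC_of57` (helper57).
-/

set_option autoImplicit false

open AutomorphicForm IsDedekindDomain NumberField MeasureTheory
open scoped ComplexConjugate

noncomputable section

namespace Fermat.Agent.LT.T7.PBQ973

open Fermat.Agent.LT.H556 Fermat.Agent.LT.H556.A0 Fermat.Agent.LT.T7 Fermat.Agent.LT.T7.H305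
  Fermat.Agent.LT.T7.L2Q Fermat.Agent.LT.T7.H893 Fermat.Agent.LT.T7.H962
  Fermat.Agent.LT.T7.H732 Fermat.Agent.LT.T7.MQ298 Fermat.Agent.LT.T7.CQ801

attribute [local instance] Fermat.Agent.LT.T5.instMeasurableSpaceG

variable (P : EKCond)
variable (F : Type) [Field F] [NumberField F]

/-- **THE SECOND CUT OF THE NODE `PreBQC973`, PROVED TOP.** -/
theorem preBQC_of973 (hA : PairAQC801 P F) (hBad : BadPartQC973 F) (hS : OpenSwapQ973 F) :
    PreBQC973 P F := by
  intro h3 hquad Φe hcusp hconst hP B hB hram g hg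
  obtain ⟨𝔫, hlev, hbad⟩ := hBad h3 hquad Φe B hB hram g hg
  refine ⟨𝔫, hlev, fun μr μc hμr hμc T₀ n n₀ m hexp c a hc _ => ?_⟩
  obtain ⟨c₁, Φ₁, F₁, hpa⟩ :=
    hA h3 hquad Φe hcusp hconst hP B hB hram 𝔫 hlev T₀ n n₀ m hexp c hc
  obtain ⟨fb, hfb⟩ := hbad T₀ n n₀ m hexp
  obtain ⟨Ω, iT, iC, i2, iS, iM, iB, ν, iF, T, T', φ₀, Φ, f₀, F0, F1, hdat⟩ :=
    hpa.shape [] (fun x hx => absurd hx (List.not_mem_nil))
  have hd : IsAvgDatQ973 (upI (K' := F) 𝔫) 𝔫 T₀ (LocAQ801 c T₀ n m) 1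
      (Φ₁ []) (F₁ QWt.w0 []) (F₁ QWt.w1 []) Ω iT iM ν T T' φ₀ Φ f₀ F0 F1 := hdat
  have ctx : ∀ Q, SwapCtxQ973 F Q →
      Q Φe (toBase962_732 B) g 𝔫 μr μc c T₀ n n₀ m c₁ fb Ω iT iM ν T T' φ₀ Φ f₀ F0 F1 :=
    fun Q hQ =>
      hQ h3 hquad Φe B hB hram g hg 𝔫 hlev μr μc hμr hμc T₀ n n₀ m hexp c hc c₁ Φ₁ F₁ hpa
        fb hfb Ω iT iC i2 iS iM iB ν iF T T' φ₀ Φ f₀ F0 F1 hd
  obtain ⟨c₂, hop, hne⟩ := ctx _ hS.upOp
  have hmu := ctx _ hS.memUp
  have hmd := ctx _ hS.memDn a
  have hdo := ctx _ hS.dnOp a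
  refine ⟨c₂, swapUpFnQ973 (toBase962_732 B) T₀ n₀ ν T' φ₀ Φ,
    fun t => swapDnFnQ973 (toBase962_732 B) T₀ fb a ν T f₀ (archQ973 F0 F1 t), ?_⟩
  exact
    { up_test := ctx _ hS.upTest
      up_ek := ctx _ hS.upEK
      up_inv := ctx _ hS.upInv
      up_op := hop
      up_ne := hne
      dn_test := fun t => ctx _ hS.dnTest a t
      dn_ek := fun t => ctx _ hS.dnEK a t
      dn_inv := fun t => ctx _ hS.dnInv a t
      dn_wfn := fun t => (hdo t).1
      dn_class := fun t => (hdo t).2.1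
      dn_comm := fun t => (hdo t).2.2
      up_supp := ctx _ hS.upSupp
      dn_supp := fun t => ctx _ hS.dnSupp a t
      shape := ⟨Ω, iT, iC, i2, iS, iM, iB, ν, iF, T, T',
        fun ω => swUpQ973 (toBase962_732 B) T₀ n₀ (φ₀ ω), Φ,
        fun ω => swDnQ973 (toBase962_732 B) T₀ fb (f₀ ω), F0, F1,
        fun ω => ⟨(hd.1 ω).1, (hd.1 ω).2.1, ctx _ hS.loc ω⟩,
        hmu.1, (hmd QWt.w0).1, (hmd QWt.w1).1, hmu.2.1, (hmd QWt.w0).2.1, (hmd QWt.w1).2.1,
        hmu.2.2, (hmd QWt.w0).2.2, (hmd QWt.w1).2.2, fun _ => rfl, fun _ => rfl,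
        fun _ => rfl⟩ }

/-- **THE NODE `CQ801.PairBQC801` (registry row 2856) from the two cuts**: the first cut
(`pairBQC_of_three973`: the natural average is split off, the killing tool closed) and the
second cut (`preBQC_of973`: the swap of the components of the first pair at the places of the
level). -/
theorem pairBQC_of_cuts973 (hRel : RelTorusQC973 F) (hSh : NatShapeQC973 F)
    (hA : PairAQC801 P F) (hBad : BadPartQC973 F) (hS : OpenSwapQ973 F) : PairBQC801 P F :=
  pairBQC_of_three973 hRel (preBQC_of973 P F hA hBad hS) hSh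

end Fermat.Agent.LT.T7.PBQ973

end

end
-- ===== PACK-END LT/T7/H973/PreBQTop.lean

-- ===== PACK-BEGIN LT/T7/H973/PairBQClosed.lean
section






/-!
# Row LT, tower T7, node T7.L2Q.1.H2a.B `CQ801.PairBQC801` (registry row 2856, owner helper973):
# INTEGRATION of the first cut -- the natural-average pack over `ℚ` is CLOSED

OFF-MAIN.  Complete proofs, nothing assumed.  ADDITIVE (new names only, suffix `973`).

    pairBQC_of_preBQ973 : PreBQC973 P F → CQ801.PairBQC801 P F
    pairBQC_of_swap973  : CQ801.PairAQC801 P F → BadPartQC973 F → OpenSwapQ973 F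
                            → CQ801.PairBQC801 P F

Closed leaves used (byte-identical copies of the files of the provers):
* `RelTorusQC973 F`  = `H62Q.relTorusQC62 F`   (helper62@c78a1dd05, `T7/H62Q/RelTorusQ.lean`);
* `NatShapeQC973 F`  = `H873.natShapeQC873 F`  (helper873@79632e35e, `T7/H873/NatShapeQ.lean`);
* `KillToolQC973 w1` = `killToolQ_w1_973`      (helper973, `T7/H973/KillToolQ.lean`);
* `SwapLocQC973 F`   = `swapLocQC973 F`        (helper973, `T7/H973/SwapLocQ.lean`).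

ONLY OPEN ITEM of the second pair over `ℚ`: the node `PreBQC973` (the un-averaged kill-free
pair) = `PairAQC801` + `BadPartQC973` + the swap leaves.
-/

set_option autoImplicit false

open AutomorphicForm IsDedekindDomain NumberField MeasureTheory
open scoped ComplexConjugate

noncomputable section

namespace Fermat.Agent.LT.T7.PBQ973

open Fermat.Agent.LT.H556 Fermat.Agent.LT.H556.A0 Fermat.Agent.LT Fermat.Agent.LT.T7
  Fermat.Agent.LT.T7.L2Q Fermat.Agent.LT.T7.CQ801

variable {P : EKCond}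
variable {F : Type} [Field F] [NumberField F]

/-- **THE SECOND PAIR over `ℚ` FROM THE UN-AVERAGED PAIR**, UNCONDITIONAL otherwise. -/
theorem pairBQC_of_preBQ973 (hPre : PreBQC973 P F) : PairBQC801 P F :=
  pairBQC_of_three973 (H62Q.relTorusQC62 F) hPre (H873.natShapeQC873 F)

/-- **THE SECOND PAIR over `ℚ` FROM THE FIRST PAIR, THE PARTNER FAMILY AND THE SWAP LEAVES.** -/
theorem pairBQC_of_swap973 (hA : PairAQC801 P F) (hBad : BadPartQC973 F)
    (hS : OpenSwapQ973 F) : PairBQC801 P F :=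
  pairBQC_of_preBQ973 (preBQC_of973 P F hA hBad hS)

/-- The frozen node, VERBATIM. -/
example (hPre : PreBQC973 P F) : Fermat.Agent.LT.T7.CQ801.PairBQC801 P F :=
  pairBQC_of_preBQ973 hPre

end Fermat.Agent.LT.T7.PBQ973

end

end
-- ===== PACK-END LT/T7/H973/PairBQClosed.lean

-- ===== PACK-BEGIN LT/T7/H607/SwapDnOpQ.lean
section





/-!
# Row LT, tower T7, leaf T7.L2Q.1.H2a.B.0.D4 `PBQ973.SwapDnOpQC973` (helper607, registry row 3141)

OFF-MAIN.  Complete proofs, nothing assumed.  Own names only (suffix `607`).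

    swapDnOpQC_of607 : PBQ973.SwapDnSumQC973 F → PBQ973.SwapDnInvQC973 F → PBQ973.SwapDnOpQC973 F

VERBATIM against `T7/H973/PreBQSpec.lean` (helper973@a2ff41d85, sha256 200eee4e).

By the key identity downstairs the swapped function is `a ·` a finite linear combination of left
translates of `F₁ t []`, so `R(f°) χ = a ∑ₓ cₓ (R(F₁ t []) χ)(· x)` (left invariance of the Haar
measure) for every continuous `χ`.  The elements `x` are trivial at infinity and outside `T₀` and
Iwahori at `u`: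

* they commute with the elements supported at infinity and at the places not dividing the level:
  continuity, bounds, left invariance, type, ray, cuspidality, invariance under the positive
  scalars, Hecke eigenvalues and circle means pass from `R(F₁ t []) χ` (fields `dn1_wfn`,
  `dn1_class` of the first pair) to `R(f°) χ`;
* the right invariance of `R(f°) χ` under `U(𝔫)` and under the Iwahori subgroup at `u` is the left
  invariance of `f°` (leaf D3 `SwapDnInvQC973`);
* `iwOp`: `x = x' k`, `k` the local component of `x` at `u` (Iwahori), `x'` trivial at `u`; the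
  coset operator preserves the Iwahori invariance (`H83.cosetOp_isIwInvAt83`) and commutes with
  the translation by `x'`; with `dn1_comm` of the first pair;
* `shiftOp`: a scalar uniformiser is central.
-/

set_option autoImplicit false
set_option linter.unusedSectionVars false
set_option linter.unusedVariables false
set_option linter.style.haveILetI false

open AutomorphicForm IsDedekindDomain NumberField MeasureTheory
open scoped ComplexConjugate

noncomputable section

namespace Fermat.Agent.LT.T7.H607.SwQ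

open Fermat.Agent.LT.H556 Fermat.Agent.LT.H556.A0 Fermat.Agent.LT.T7 Fermat.Agent.LT.T7.H305
  Fermat.Agent.LT.T7.L2Q Fermat.Agent.LT.T7.H893 Fermat.Agent.LT.T7.H962
  Fermat.Agent.LT.T7.H732 Fermat.Agent.LT.T7.MQ298 Fermat.Agent.LT.T7.CQ801
  Fermat.Agent.LT.T7.PBQ973 Fermat.Agent.LT.H129

attribute [local instance] Fermat.Agent.LT.T5.instMeasurableSpaceG

section OneField

variable {K : Type} [Field K] [NumberField K]

/-- The combination of right translates `a ∑ₓ cₓ e(· x)`. -/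
def trOp607 (a : ℂ) (X : Finset (G K)) (c : G K → ℂ) (e : G K → ℂ) : G K → ℂ :=
  fun g => a * ∑ x ∈ X, c x * e (g * x)

theorem trOp_apply607 (a : ℂ) (X : Finset (G K)) (c : G K → ℂ) (e : G K → ℂ) (g : G K) :
    trOp607 a X c e g = a * ∑ x ∈ X, c x * e (g * x) := rfl

theorem borelSpace607 : BorelSpace (G K) := ⟨rfl⟩

/-- `R(a ∑ₓ cₓ F(x⁻¹ ·)) χ = a ∑ₓ cₓ (R(F) χ)(· x)`. -/
theorem rconv_comb607 {μ : Measure (G K)} (hμ : μ.IsHaarMeasure) {F χ : G K → ℂ}
    (hF : Continuous F) (hFs : HasCompactSupport F) (hχ : Continuous χ)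
    (a : ℂ) (X : Finset (G K)) (c : G K → ℂ) (g : G K) :
    T5.Rconv μ (fun y => a * ∑ x ∈ X, c x * F (x⁻¹ * y)) χ g
      = trOp607 a X c (T5.Rconv μ F χ) g := by
  have : BorelSpace (G K) := borelSpace607
  have := hμ
  show ∫ y, (a * ∑ x ∈ X, c x * F (x⁻¹ * y)) * χ (g * y) ∂μ
    = a * ∑ x ∈ X, c x * ∫ y, F y * χ (g * x * y) ∂μ
  have hint : ∀ x : G K, Integrable (fun y => F (x⁻¹ * y) * χ (g * y)) μ := by
    intro x
    refine Continuous.integrable_of_hasCompactSupport
      ((hF.comp (continuous_const_mul x⁻¹)).mul (hχ.comp (continuous_const_mul g))) ?_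
    exact (hFs.comp_homeomorph (Homeomorph.mulLeft x⁻¹)).mul_right
  have e1 : (fun y => (a * ∑ x ∈ X, c x * F (x⁻¹ * y)) * χ (g * y))
      = fun y => a * ∑ x ∈ X, c x * (F (x⁻¹ * y) * χ (g * y)) := by
    funext y
    rw [mul_assoc, Finset.sum_mul]
    congr 1
    refine Finset.sum_congr rfl fun x _ => ?_
    ring
  rw [e1, integral_const_mul, integral_finsetSum _ (fun x _ => (hint x).const_mul _)]
  congr 1
  refine Finset.sum_congr rfl fun x _ => ?_
  rw [integral_const_mul]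
  congr 1
  have e2 : (fun y => F (x⁻¹ * y) * χ (g * y))
      = fun y => (fun z => F z * χ (g * x * z)) (x⁻¹ * y) := by
    funext y
    show F (x⁻¹ * y) * χ (g * y) = F (x⁻¹ * y) * χ (g * x * (x⁻¹ * y))
    congr 2
    group
  rw [e2]
  exact integral_mul_left_eq_self (fun z => F z * χ (g * x * z)) x⁻¹

/-- Left invariance of `φ` under `k` gives right invariance of `R(φ) ψ` under `k`. -/
theorem rconv_mul_right607 {μ : Measure (G K)} (hμ : μ.IsHaarMeasure) {φ ψ : G K → ℂ} {k : G K}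
    (hk : ∀ y, φ (k * y) = φ y) (g : G K) :
    T5.Rconv μ φ ψ (g * k) = T5.Rconv μ φ ψ g := by
  have : BorelSpace (G K) := borelSpace607
  have := hμ
  show ∫ y, φ y * ψ (g * k * y) ∂μ = ∫ y, φ y * ψ (g * y) ∂μ
  have e : (fun y => φ y * ψ (g * k * y)) = fun y => (fun z => φ z * ψ (g * z)) (k * y) := by
    funext y
    show φ y * ψ (g * k * y) = φ (k * y) * ψ (g * (k * y))
    rw [hk, mul_assoc]
  rw [e]
  exact integral_mul_left_eq_self (fun z => φ z * ψ (g * z)) k

/-- `R(φ)` commutes with the right translation by a central element. -/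
theorem rconv_central607 (μ : Measure (G K)) (φ ψ : G K → ℂ) {z : G K}
    (hz : ∀ h : G K, h * z = z * h) (x : G K) :
    T5.Rconv μ φ (fun y => ψ (y * z)) x = T5.Rconv μ φ ψ (x * z) := by
  show ∫ y, φ y * ψ (x * y * z) ∂μ = ∫ y, φ y * ψ (x * z * y) ∂μ
  congr 1
  funext y
  rw [mul_assoc x y z, hz y, ← mul_assoc]


/-! ## The combination of right translates -/

section TrOp

variable {a : ℂ} {X : Finset (G K)} {c : G K → ℂ}

theorem continuous_trOp607 {e : G K → ℂ} (he : Continuous e) :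
    Continuous (trOp607 a X c e) := by
  unfold trOp607
  refine continuous_const.mul (continuous_finsetSum _ fun x _ => ?_)
  exact continuous_const.mul (he.comp (continuous_mul_const x))

theorem bdd_trOp607 {e : G K → ℂ} (he : ∃ C : ℝ, ∀ g : G K, ‖e g‖ ≤ C) :
    ∃ C : ℝ, ∀ g : G K, ‖trOp607 a X c e g‖ ≤ C := by
  obtain ⟨C, hC⟩ := he
  refine ⟨‖a‖ * ∑ x ∈ X, ‖c x‖ * C, fun g => ?_⟩
  rw [trOp_apply607, norm_mul]
  refine mul_le_mul_of_nonneg_left ?_ (norm_nonneg _)
  refine (norm_sum_le _ _).trans (Finset.sum_le_sum fun x _ => ?_)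
  rw [norm_mul]
  exact mul_le_mul_of_nonneg_left (hC _) (norm_nonneg _)

/-- An element commuting with `X` which multiplies `e` by `m` multiplies the combination by
`m`. -/
theorem trOp_comm_mul607 {e : G K → ℂ} {z : G K} {m : ℂ} (hz : ∀ x ∈ X, x * z = z * x)
    (he : ∀ g, e (g * z) = m * e g) (g : G K) :
    trOp607 a X c e (g * z) = m * trOp607 a X c e g := by
  rw [trOp_apply607, trOp_apply607]
  have e1 : ∀ x ∈ X, c x * e (g * z * x) = m * (c x * e (g * x)) := by
    intro x hx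
    rw [mul_assoc g z x, ← hz x hx, ← mul_assoc, he]
    ring
  rw [Finset.sum_congr rfl e1, ← Finset.mul_sum]
  ring

theorem trOp_comm607 {e : G K → ℂ} {z : G K} (hz : ∀ x ∈ X, x * z = z * x)
    (he : ∀ g, e (g * z) = e g) (g : G K) :
    trOp607 a X c e (g * z) = trOp607 a X c e g := by
  have := trOp_comm_mul607 (a := a) (c := c) (e := e) (m := 1) hz
    (fun g => by rw [he, one_mul]) g
  rw [this, one_mul]

/-- The combination of a cusp function is a cusp function, as soon as it is right invariant under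
the level group. -/
theorem isCuspFn_trOp607 (hT : Fermat.Agent.LT.T1.T1Out K) {𝔫 : Ideal (𝓞 K)} {τ : G K → ℂ}
    {r : G K} (hr : T5.IsRayGen r) {e : G K → ℂ} (he : T5.IsCuspFn 𝔫 τ r e)
    (hX : ∀ x ∈ X, ∀ w : InfinitePlace K, TrivAtInf w x)
    (hlev : ∀ k : G K, InLevelGroup 𝔫 k → ∀ g : G K,
      trOp607 a X c e (g * k) = trOp607 a X c e g) :
    T5.IsCuspFn 𝔫 τ r (trOp607 a X c e) := by
  have hcomm : ∀ z : G K, (∀ v : HeightOneSpectrum (𝓞 K), TrivAtFin v z) →
      ∀ x ∈ X, x * z = z * x := fun z hz x hx =>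
    Fermat.Agent.LT.T7.H949.commute_of_triv949 (hX x hx) hz
  refine ⟨continuous_trOp607 he.cont, bdd_trOp607 he.bdd, ⟨?_, hlev, ?_, ?_⟩, ?_⟩
  · intro γ g
    rw [trOp_apply607, trOp_apply607]
    congr 1
    refine Finset.sum_congr rfl fun x _ => ?_
    rw [mul_assoc, he.aut.left_inv]
  · intro w k hk g
    exact trOp_comm_mul607 (hcomm k hk.1.2) (he.aut.arch_compact w k hk) g
  · intro g
    exact trOp_comm607 (hcomm r hr.1) he.aut.ray g
  · intro μ' hμ' D hD n hn g
    have hint := Fermat.Agent.LT.T7.H949.integrableOn_unip949 hT he.cont he.bdd μ' hμ' D hD n hn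
    have e1 : (fun x => trOp607 a X c e (n x * g))
        = fun x => a * ∑ q ∈ X, c q * e (n x * (g * q)) := by
      funext x
      rw [trOp_apply607]
      congr 1
      refine Finset.sum_congr rfl fun q _ => ?_
      rw [mul_assoc]
    rw [e1, integral_const_mul, integral_finsetSum _ (fun q _ => (hint _).const_mul _)]
    rw [Finset.sum_eq_zero (fun q _ => by
      rw [integral_const_mul, he.cuspidal μ' hμ' D hD n hn _, mul_zero]), mul_zero]

/-- The combination preserves the Hecke eigenfunctions at the places where `X` is trivial. -/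
theorem hecke_trOp607 {e : G K → ℂ} {v : HeightOneSpectrum (𝓞 K)} {α β : ℂ}
    (hX : ∀ x ∈ X, TrivAtFin v x) (h : IsHeckeEigenAt e v α β) :
    IsHeckeEigenAt (trOp607 a X c e) v α β := by
  refine ⟨fun H hH g => ?_, fun z hz g => ?_⟩
  · have e1 : ∀ h' ∈ H, trOp607 a X c e (g * h') = a * ∑ x ∈ X, c x * e (g * x * h') := by
      intro h' hh'
      rw [trOp_apply607]
      congr 1
      refine Finset.sum_congr rfl fun x hx => ?_
      rw [mul_assoc g h' x,
        Fermat.Agent.LT.T7.H83.mul_comm_of_local83 v (hH.2.1 h' hh').1 (hX x hx), ← mul_assoc]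
    rw [Finset.sum_congr rfl e1, ← Finset.mul_sum, Finset.sum_comm]
    have e2 : ∀ x ∈ X, ∑ h' ∈ H, c x * e (g * x * h')
        = ((Real.sqrt (Ideal.absNorm v.asIdeal : ℝ) : ℝ) : ℂ) * α * (c x * e (g * x)) := by
      intro x _
      rw [← Finset.mul_sum, h.1 H hH (g * x)]
      ring
    rw [Finset.sum_congr rfl e2, ← Finset.mul_sum, trOp_apply607]
    ring
  · exact trOp_comm_mul607 (fun x _ => Fermat.Agent.LT.T7.H247.scalarUnif_comm247 hz x)
      (h.2 z hz) g

/-- The combination preserves the eigenfunctions of an integral mean along a continuous family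
of elements which are trivial at the finite places. -/
theorem mean_trOp607 {e : G K → ℂ} (hc : Continuous e) {Y : ℝ → G K} (hYc : Continuous Y)
    (hYf : ∀ θ (v : HeightOneSpectrum (𝓞 K)), TrivAtFin v (Y θ))
    (hX : ∀ x ∈ X, ∀ w : InfinitePlace K, TrivAtInf w x)
    {κ : ℝ → ℂ} (hκ : Continuous κ) (p q : ℝ) (m : ℂ)
    (h : ∀ g : G K, (∫ θ in p..q, κ θ * e (g * Y θ)) = m * e g) (g : G K) :
    (∫ θ in p..q, κ θ * trOp607 a X c e (g * Y θ)) = m * trOp607 a X c e g := by
  have e1 : (fun θ => κ θ * trOp607 a X c e (g * Y θ))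
      = fun θ => a * ∑ x ∈ X, c x * (κ θ * e (g * x * Y θ)) := by
    funext θ
    rw [trOp_apply607]
    have hq : ∀ x ∈ X, c x * e (g * Y θ * x) = c x * e (g * x * Y θ) := by
      intro x hx
      rw [mul_assoc g, mul_assoc g,
        ← Fermat.Agent.LT.T7.H949.commute_of_triv949 (hX x hx) (hYf θ)]
    rw [Finset.sum_congr rfl hq, Finset.mul_sum, Finset.mul_sum, Finset.mul_sum]
    refine Finset.sum_congr rfl fun x _ => ?_
    ring
  have hint : ∀ x : G K,
      IntervalIntegrable (fun θ => c x * (κ θ * e (g * x * Y θ))) volume p q := fun x =>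
    (continuous_const.mul (hκ.mul (hc.comp (continuous_const.mul hYc)))).intervalIntegrable p q
  rw [e1, intervalIntegral.integral_const_mul,
    intervalIntegral.integral_finsetSum (fun x _ => hint x)]
  have e2 : ∀ x ∈ X, (∫ θ in p..q, c x * (κ θ * e (g * x * Y θ))) = m * (c x * e (g * x)) := by
    intro x _
    rw [intervalIntegral.integral_const_mul, h (g * x)]
    ring
  rw [Finset.sum_congr rfl e2, ← Finset.mul_sum, trOp_apply607]
  ring

/-- The coset operator at `u` commutes with the combination on the Iwahori-invariant functions,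
if the elements of `X` are Iwahori at `u`. -/
theorem cosetOp_trOp607 {u : HeightOneSpectrum (𝓞 K)} {H : Finset (G K)}
    (hH : IsIwCosetSystem u H) {e : G K → ℂ} (he : Fermat.Agent.LT.T7.H83.IsIwInvAt u e)
    (hX : ∀ x ∈ X, T5.InIwahori u x) (g : G K) :
    ∑ h ∈ H, trOp607 a X c e (g * h) = trOp607 a X c (fun y => ∑ h ∈ H, e (y * h)) g := by
  have key : ∀ x ∈ X, ∑ h ∈ H, e (g * h * x) = ∑ h ∈ H, e (g * x * h) := by
    intro x hx
    set k : G K := locFin129 u (finCompHom129 u x) with hk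
    have hkloc : IsLocalAtFin u k := isLocalAtFin_locFin129 u _
    have hkfin : finCompHom129 u k = finCompHom129 u x := finCompHom129_locFin129 u _
    have hkI : T5.InIwahori u k := by
      refine Fermat.Agent.LT.T7.H83.inIwahori_congr83 u ?_ (hX x hx)
      rw [← coe_finCompHom129, ← coe_finCompHom129, hkfin]
    have hx' : TrivAtFin u (x * k⁻¹) := by
      rw [trivAtFin_iff129, map_mul, map_inv, hkfin, mul_inv_cancel]
    have hxk : x = x * k⁻¹ * k := by group
    have hco := Fermat.Agent.LT.T7.H83.cosetOp_isIwInvAt83 u hH he k hkloc hkI (g * (x * k⁻¹))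
    have h1 : ∑ h ∈ H, e (g * h * x) = ∑ h ∈ H, e (g * (x * k⁻¹) * h) := by
      refine Finset.sum_congr rfl fun h hh => ?_
      have e1 : g * h * x = g * (x * k⁻¹) * h * k := by
        rw [mul_assoc g (x * k⁻¹) h,
          ← Fermat.Agent.LT.T7.H83.mul_comm_of_local83 u (hH.2.1 h hh).1 hx']
        group
      rw [e1, he k hkloc hkI]
    have h2 : ∑ h ∈ H, e (g * x * h) = ∑ h ∈ H, e (g * (x * k⁻¹) * k * h) := by
      refine Finset.sum_congr rfl fun h _ => ?_
      congr 2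
      group
    rw [h1, h2]
    exact hco.symm
  have e1 : ∀ h ∈ H, trOp607 a X c e (g * h) = a * ∑ x ∈ X, c x * e (g * h * x) :=
    fun h _ => rfl
  rw [Finset.sum_congr rfl e1, ← Finset.mul_sum, Finset.sum_comm, trOp_apply607]
  congr 1
  refine Finset.sum_congr rfl fun x hx => ?_
  rw [← Finset.mul_sum, key x hx]

end TrOp

end OneField

/-! ## The circle means over `ℚ` -/

section Mean

open Fermat.Agent.LT.T7.H247 Fermat.Agent.LT.H670

theorem meanEig_trOp607 {a : ℂ} {X : Finset (G ℚ)} {c : G ℚ → ℂ} (t : QWt) {e : G ℚ → ℂ}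
    (hc : Continuous e) (hX : ∀ x ∈ X, ∀ w : InfinitePlace ℚ, TrivAtInf w x)
    {w : InfinitePlace ℚ} {m : ℝ → ℂ} (h : t.MeanEig e w m) :
    t.MeanEig (trOp607 a X c e) w m := by
  cases t with
  | w0 =>
    have hm0 : MeanEigR0 e w m := h
    show MeanEigR0 _ w m
    intro s hs Y hY g
    have hYc : Continuous Y :=
      continuous_family247 w (fun θ => rotY θ) continuous_rotY247 det_rotY247 s Y hY
    have h1 := mean_trOp607 (a := a) (X := X) (c := c) hc hYc (fun θ v => (hY θ).1.2 v) hX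
      (κ := fun _ => (1 : ℂ)) continuous_const 0 (2 * Real.pi) (m s) (fun g => by
        have := hm0 s hs Y hY g
        simpa only [one_mul] using this) g
    simpa only [one_mul] using h1
  | w1 =>
    have hm1 : MeanEigR1 e w m := h
    show MeanEigR1 _ w m
    intro s hs Y hY g
    have hYc : Continuous Y :=
      continuous_family247 w (fun θ => QOut.rotC θ) continuous_rotC247 det_rotC247 s Y hY
    exact mean_trOp607 (a := a) (X := X) (c := c) hc hYc (fun θ v => (hY θ).1.2 v) hX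
      (κ := fun θ : ℝ => Complex.exp (-(Complex.I * ((θ : ℝ) : ℂ)))) (by fun_prop)
      0 (2 * Real.pi) (m s) (fun g => hm1 s hs Y hY g) g

end Mean

/-! ## The leaf -/

section Leaf

variable (F : Type) [Field F] [NumberField F]

/-- **Leaf PBQ.0.D4 `SwapDnOpQC973`** from the key identity downstairs and the invariance of the
swapped function (leaf D3). -/
theorem swapDnOpQC_of607 (hS : PBQ973.SwapDnSumQC973 F) (hI : PBQ973.SwapDnInvQC973 F) :
    PBQ973.SwapDnOpQC973 F := by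
  intro h3 hIQ Φe B hB hram g hg 𝔫 h𝔫 μr μc hμr hμc T₀ n n₀ m hexp c hc c₁ Φ₁ F₁ hA fb hfb
    Ω iT iC iT2 iSC iM iB ν iF T T' φ₀ Φ f₀ F0 F1 hdat a t
  obtain ⟨X, cX, hX, hid⟩ := hS h3 hIQ Φe B hB hram g hg 𝔫 h𝔫 μr μc hμr hμc T₀ n n₀ m hexp
    c hc c₁ Φ₁ F₁ hA fb hfb Ω iT iC iT2 iSC iM iB ν iF T T' φ₀ Φ f₀ F0 F1 hdat
  have hInv := hI h3 hIQ Φe B hB hram g hg 𝔫 h𝔫 μr μc hμr hμc T₀ n n₀ m hexp
    c hc c₁ Φ₁ F₁ hA fb hfb Ω iT iC iT2 iSC iM iB ν iF T T' φ₀ Φ f₀ F0 F1 hdat a t
  have hμ : (toBase962_732 B).R.μ.IsHaarMeasure := hB.frame.frame.haar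
  have hr : T5.IsRayGen (toBase962_732 B).R.r := hB.frame.ray
  have hT : Fermat.Agent.LT.T1.T1Out ℚ := Fermat.Agent.LT.T1.t1Out ℚ
  have hFt : T5.IsTestFn 𝔫 t.type (F₁ t []) := hA.dn1_test t [] (by simp)
  -- the data of the type `t`
  have hcont : Continuous (fun p : Ω × G ℚ =>
      pureQ298 (T p.1) (f₀ p.1) (archQ973 F0 F1 t p.1) p.2) := by
    cases t with
    | w0 =>
      have := hdat.2.2.2.2.2.1
      show Continuous (fun p : Ω × G ℚ => pureQ298 (T p.1) (f₀ p.1) (F0 p.1) p.2)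
      simpa only [one_mul] using this
    | w1 =>
      have := hdat.2.2.2.2.2.2.1
      show Continuous (fun p : Ω × G ℚ => pureQ298 (T p.1) (f₀ p.1) (F1 p.1) p.2)
      simpa only [one_mul] using this
  have hF₁ : ∀ h : G ℚ, F₁ t [] h
      = ∫ ω, pureQ298 (T ω) (f₀ ω) (archQ973 F0 F1 t ω) h ∂ν := by
    intro h
    cases t with
    | w0 =>
      have := hdat.2.2.2.2.2.2.2.2.2.2.2.1 h
      show F₁ QWt.w0 [] h = ∫ ω, pureQ298 (T ω) (f₀ ω) (F0 ω) h ∂ν
      simpa only [one_mul] using this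
    | w1 =>
      have := hdat.2.2.2.2.2.2.2.2.2.2.2.2 h
      show F₁ QWt.w1 [] h = ∫ ω, pureQ298 (T ω) (f₀ ω) (F1 ω) h ∂ν
      simpa only [one_mul] using this
  -- the swapped function is a combination of left translates of `F₁ t []`
  have e_f : swapDnFnQ973 (toBase962_732 B) T₀ fb a ν T f₀ (archQ973 F0 F1 t)
      = fun y => a * ∑ x ∈ X, cX x * F₁ t [] (x⁻¹ * y) := by
    funext y
    show (∫ ω, a * pureQ298 (T ω) (swDnQ973 (toBase962_732 B) T₀ fb (f₀ ω))
      (archQ973 F0 F1 t ω) y ∂ν) = _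
    have e1 : (fun ω => a * pureQ298 (T ω) (swDnQ973 (toBase962_732 B) T₀ fb (f₀ ω))
          (archQ973 F0 F1 t ω) y)
        = fun ω => a * ∑ x ∈ X, cX x * pureQ298 (T ω) (f₀ ω) (archQ973 F0 F1 t ω) (x⁻¹ * y) := by
      funext ω
      rw [hid t ω y]
    rw [e1, integral_const_mul, integral_finsetSum]
    · congr 1
      refine Finset.sum_congr rfl fun x _ => ?_
      rw [integral_const_mul, hF₁]
    · intro x _
      have hc' : Continuous (fun ω => pureQ298 (T ω) (f₀ ω) (archQ973 F0 F1 t ω) (x⁻¹ * y)) :=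
        hcont.comp (Continuous.prodMk continuous_id continuous_const)
      exact (hc'.integrable_of_hasCompactSupport
        (HasCompactSupport.of_compactSpace _)).const_mul _
  have hR : ∀ χ : G ℚ → ℂ, Continuous χ → ∀ y : G ℚ,
      T5.Rconv (toBase962_732 B).R.μ (swapDnFnQ973 (toBase962_732 B) T₀ fb a ν T f₀ (archQ973 F0 F1 t)) χ y
        = trOp607 a X cX (T5.Rconv (toBase962_732 B).R.μ (F₁ t []) χ) y := by
    intro χ hχ y
    rw [e_f]
    exact rconv_comb607 hμ hFt.cont hFt.supp hχ a X cX y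
  have hXinf : ∀ x ∈ X, ∀ w : InfinitePlace ℚ, TrivAtInf w x := fun x hx => (hX x hx).1
  have hXiw : ∀ x ∈ X, T5.InIwahori (toBase962_732 B).u x := fun x hx => (hX x hx).2.2
  have hlevL : ∀ k : G ℚ, InLevelGroup 𝔫 k → ∀ y : G ℚ,
      swapDnFnQ973 (toBase962_732 B) T₀ fb a ν T f₀ (archQ973 F0 F1 t) (k * y)
        = swapDnFnQ973 (toBase962_732 B) T₀ fb a ν T f₀ (archQ973 F0 F1 t) y :=
    fun k hk y => (hInv.1 k hk y).1
  -- the invariant cusp functions
  have wfn : ∀ ψ : G ℚ → ℂ, IsWFnQ t 𝔫 (toBase962_732 B).R.r (toBase962_732 B).u ψ →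
      IsWFnQ t 𝔫 (toBase962_732 B).R.r (toBase962_732 B).u
        (T5.Rconv (toBase962_732 B).R.μ (swapDnFnQ973 (toBase962_732 B) T₀ fb a ν T f₀ (archQ973 F0 F1 t))
          ψ) := by
    intro ψ hψ
    have he := hA.dn1_wfn t ψ hψ
    have heq : T5.Rconv (toBase962_732 B).R.μ
        (swapDnFnQ973 (toBase962_732 B) T₀ fb a ν T f₀ (archQ973 F0 F1 t)) ψ
        = trOp607 a X cX (T5.Rconv (toBase962_732 B).R.μ (F₁ t []) ψ) := funext (hR ψ hψ.cusp.cont)
    refine ⟨?_, ?_, ?_⟩
    · rw [heq]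
      refine isCuspFn_trOp607 hT hr he.cusp hXinf (fun k hk y => ?_)
      rw [← heq]
      exact rconv_mul_right607 hμ (hlevL k hk) y
    · intro w z hz y
      rw [heq]
      exact trOp_comm607
        (fun x hx => Fermat.Agent.LT.T7.H949.commute_of_triv949 (hXinf x hx) hz.1.2)
        (he.arch_scalar w z hz) y
    · intro h h1 h2 h3 y
      exact rconv_mul_right607 hμ (fun y' => (hInv.2 h h1 h2 h3 y').1) y
  refine ⟨wfn, ?_, ?_⟩
  · -- the eigenfunctions
    intro ψ c' hψ
    have he := hA.dn1_class t ψ c' hψ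
    have heq : T5.Rconv (toBase962_732 B).R.μ
        (swapDnFnQ973 (toBase962_732 B) T₀ fb a ν T f₀ (archQ973 F0 F1 t)) ψ
        = trOp607 a X cX (T5.Rconv (toBase962_732 B).R.μ (F₁ t []) ψ) := funext (hR ψ hψ.inv.cusp.cont)
    refine ⟨wfn ψ hψ.inv, fun v hv => ?_, fun w => ?_⟩
    · rw [heq]
      exact hecke_trOp607
        (fun x hx => (hX x hx).2.1 v (fun hvT => hv ((hexp.div v).1 hvT))) (he.hecke v hv)
    · rw [heq]
      exact meanEig_trOp607 t he.inv.cusp.cont hXinf (he.mean w)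
  · -- the commutations
    intro ψ hψ H z hH hz
    have he := hA.dn1_wfn t ψ hψ
    have hcomm := hA.dn1_comm t ψ hψ H z hH hz
    have heq : T5.Rconv (toBase962_732 B).R.μ
        (swapDnFnQ973 (toBase962_732 B) T₀ fb a ν T f₀ (archQ973 F0 F1 t)) ψ
        = trOp607 a X cX (T5.Rconv (toBase962_732 B).R.μ (F₁ t []) ψ) := funext (hR ψ hψ.cusp.cont)
    refine ⟨fun x => ?_, fun k x => ?_⟩
    · have hciw : Continuous (iwOp (toBase962_732 B).u H ψ) := by
        show Continuous fun y =>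
          ((Real.sqrt (Ideal.absNorm (toBase962_732 B).u.asIdeal : ℝ) : ℝ) : ℂ)⁻¹ * ∑ h ∈ H, ψ (y * h)
        exact continuous_const.mul (continuous_finsetSum _ fun h _ =>
          hψ.cusp.cont.comp (continuous_mul_const h))
      have heI : Fermat.Agent.LT.T7.H83.IsIwInvAt (toBase962_732 B).u (T5.Rconv (toBase962_732 B).R.μ (F₁ t []) ψ) :=
        Fermat.Agent.LT.T7.H83.isIwInvAt_of_isIwInv83 (o := fun _ => (toBase962_732 B).u) he.iw
          (j := 0) Nat.zero_lt_one
      rw [hR _ hciw x, heq, trOp_apply607]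
      have e1 : ∀ x' ∈ X, cX x' * T5.Rconv (toBase962_732 B).R.μ (F₁ t []) (iwOp (toBase962_732 B).u H ψ) (x * x')
          = ((Real.sqrt (Ideal.absNorm (toBase962_732 B).u.asIdeal : ℝ) : ℝ) : ℂ)⁻¹
            * (cX x' * ∑ h ∈ H, T5.Rconv (toBase962_732 B).R.μ (F₁ t []) ψ (x * x' * h)) := by
        intro x' _
        rw [hcomm.1 (x * x')]
        show cX x' * (((Real.sqrt (Ideal.absNorm (toBase962_732 B).u.asIdeal : ℝ) : ℝ) : ℂ)⁻¹
          * ∑ h ∈ H, T5.Rconv (toBase962_732 B).R.μ (F₁ t []) ψ (x * x' * h)) = _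
        ring
      rw [Finset.sum_congr rfl e1, ← Finset.mul_sum]
      show _ = ((Real.sqrt (Ideal.absNorm (toBase962_732 B).u.asIdeal : ℝ) : ℝ) : ℂ)⁻¹
        * ∑ h ∈ H, trOp607 a X cX (T5.Rconv (toBase962_732 B).R.μ (F₁ t []) ψ) (x * h)
      rw [cosetOp_trOp607 hH heI hXiw x, trOp_apply607]
      ring
    · have hzc : ∀ h : G ℚ, h * z ^ k = z ^ k * h := fun h =>
        ((show Commute h z from Fermat.Agent.LT.T7.H247.scalarUnif_comm247 hz h).zpow_right
          k).eq
      exact rconv_central607 (toBase962_732 B).R.μ _ ψ hzc x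

example (hS : PBQ973.SwapDnSumQC973 F) (hI : PBQ973.SwapDnInvQC973 F) :
    PBQ973.SwapDnOpQC973 F := swapDnOpQC_of607 F hS hI

end Leaf

end Fermat.Agent.LT.T7.H607.SwQ

end

end
-- ===== PACK-END LT/T7/H607/SwapDnOpQ.lean

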