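import Mathlib
import Fermat.Agent.Pack.LT2.E7L3
import Fermat.Agent.Pack.LT2.E13L0
import Fermat.Agent.Pack.LT2.E13L3
import Fermat.Agent.Pack.LT2.E9L3
import Fermat.Agent.Pack.LT2.E11L0
import Fermat.Agent.Pack.LT2.E12L3
import Fermat.Agent.Pack.LT2.E13L2
import Fermat.Agent.Pack.LT2.E12L1
import Fermat.Agent.Pack.LT2.E11L2
import Fermat.Agent.Pack.LT2.E16L1
import Fermat.Agent.Pack.LT2.E20L0
import Fermat.Agent.Pack.LT4.E2L0
import Fermat.Agent.Pack.LT2.E13L1
import Fermat.Agent.Pack.LT2.E18L1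
import Fermat.Agent.Pack.LT2.E19L1
import Fermat.Agent.Pack.LT2.E20L1
import Fermat.Agent.Pack.LT2.E14L0
import Fermat.Agent.Pack.LT4.E5L0
import Fermat.Agent.Pack.LT4.E4L3
import Fermat.Agent.Pack.LT4.E5L3
import Fermat.Agent.Pack.LT3.E22L2
import Fermat.Agent.Pack.LT4.E7L0
import Fermat.Agent.Pack.LT4.E10L2
import Fermat.Agent.Pack.LT4.E6L1
import Fermat.Agent.Pack.LT4.E6L2
import Fermat.Agent.Pack.LT4.E9L3
import Fermat.Agent.Pack.LT4.E8L3
import Fermat.Agent.Pack.LT4.E8L2
import Fermat.Agent.Pack.LT4.E8L0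
import Fermat.Agent.Pack.LT4.E7L1
import Fermat.Agent.Pack.LT4.E9L1
import Fermat.Agent.Pack.LT4.E10L1
import Fermat.Agent.Pack.LT4.E7L3
import Fermat.Agent.Pack.LT4.E10L3
import Fermat.Agent.Pack.LT4.E3L2
import Fermat.Agent.Pack.LT4.E9L2
import Fermat.Agent.Pack.LT4.E8L1
import Fermat.Agent.Pack.LT3.E29L2
import Fermat.Agent.Pack.LT4.E10L0
import Fermat.Agent.Pack.LT4.E7L2

set_option linter.all false

-- ===== PACK-BEGIN LT/T7/H231/Closed.lean
section





























/-!
# Row LT, tower T7: INTEGRATION CANDIDATE of the closed leaves (helper231, for architect helper797)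

OFF-MAIN.  Pattern of the row-lead (`LT/T1/Closed.lean` of helper54): this file imports
byte-identical copies of the volunteers' files in ONE closure and discharges the closed leaves of
`T7.top` (`LT/T7/Spec.lean`, v1.2, sha256 76a196044a64b920, helper797@d4e07e123).

| leaf | closed by |
|---|---|
| T7.01 `TwistAll` | helper496 `twistAll496` |
| T7.02 `ConjAll` | helper621 `conjAll621` (sub-leaves 637, 362, 621, 122, 584; adelic automorphism 930) |
| T7.03 `DescTrivFromC` | helper557 `descTrivFromC_557` |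
| T7.04 `MidStableFromC` (leaf of `top'` only) | helper231 `midStableFromC231` |
| T7.05 `DictEFC` | helper231 `dictEFC231` (spare proof; the claim of row 881 is helper622's) |
| T7.06 `DictFQC` | helper922 `dictFQC922` |
| T7.07 `MidUniqueFromC` | helper176 (proof), re-based copy on Spec v1.2 `R176.midUniqueFromC231` |
| T7.08 `MidStableFromUniqueC` | helper820 `midStableFromUniqueC820` (second proof: helper231 `midStableFromUniqueC231`) |
| T7.09 `SqrtC` | helper546 `sqrtC_h546` |
| T7.C4 `SepAll` (leaf of `Comparison.lean`) | helper309 `sepAll309` |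
| T7.13 `ThinC` (node) | helper37 `H37.thin_of_open'` : `H37.ThinOpen → SqrtC → ThinC`, 8 of its 10 leaves closed |
| T7.14 `RigidAll` (node) | cut of helper62; `rigidAll_of_open231` (`RigidClosed.lean`): frame, `PlaceSumC` 954, `EulerLogC` 27, `AbelC` 362, `NormPosC` 250 closed |
| T7.15 `SeedEKC`, T7.16 `MidEKC` | helper96 `seedEKC_of96`, `midEKC_of96` : `CFT.OddRayChebC → SqrtC → …` (dictionary) |

ALL LEAVES OF `T7/Spec.lean` ARE CLOSED, and so is `SepAll`.

THE TOP THAT IS USED = `T7.topReg` (`T7/Reg.lean`, sha256 d3ff893f1400169d, helper797@b38c7aa5e):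
`topReg_of_open231 : OpenReg231 → A3c_556 ∧ A3q_556`, and `OpenReg231` = what is STILL OPEN =
* NODES `TraceWordsRegAll`, `TraceWordsQRegAll` (T7.C3-REG, T7.C3Q-REG), `RigidAll` (T7.14);
* the two open leaves of node T7.13: `ChebFC` (T7.13c), `SqMass468C` (T7.13i / row 1353);
* LEAVES `ExpSepC` (T7.C7), `SeedEKC` (T7.15), `MidEKC` (T7.16).

| T7.C7 `ExpSepC` (leaf of `Reg.lean`) | helper496 `expSepC496` |
| T7.13c `ChebFC` | helper341 `chebFC341` (through `H37/ThinNode.lean`) |
| T7.13 `ThinC` (NODE, CLOSED 15:04Z) | helper37 `thinC37` (`H37/ThinDone.lean` 7f0bb211; `HoroCoeffFC` helper768) |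
| T7.15M `SeedEKMC`, T7.16M `MidEKMC` (leaves of `EKM.lean`) | helper619 `seedEKMC619`, `midEKMC619` |
| T7.14.4 `OrthC` | helper555 `orthC555` (in `RigidClosed.lean`) |
| CFT.17 `ChebKC` | helper881 `chebKC881` |
| T7.G1 `GeomC` (leaf of `Matching.lean` 0549163e) | helper32 `geomC32` |
| `SpecIdC` (`Matching.lean`) | helper32 `specIdC32` + T6 `NormClassC` 981, `NormInjC` 848 (`Level2Closed.lean`) |

NODE T7.14 on the cut of helper62 (`RigidPlug2.lean` dec298db, helper62@714b82ce7; `RigidState.lean`):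
`rigidAll_of_state231`, open = `CountC`, `FoldWhitC`, `IdeleSumC`, `LocC`; closed there: `OrthC` 555,
`WeightC` 179, `MixC` 267, `ArchUniqC` 724, `HeckeRecC` 941, `WhitInheritC` 878, `TorusAsmC` 550.
**CURRENT FINEST STATE = `topB_state231`** (route (B)).

LEVEL 2 of the cyclic node (`T7/Level2.lean` 15516646, helper797@819237e8b):
`TraceWordsRegPAll P ⇐ Level2Open231 P` = the three nodes `SupplyC P`, `SpecUpC`, `SpecDownC`
(`traceWordsRegPAll_of_level2_231`); `topB_level2_231`, `a3c_level2_231`.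

FINEST STATE (everything that is closed discharged, ONE closure), TWO ROUTES for the EK
condition (`T7/EKM.lean`, sha256 4b09755e2c75eed5, helper797@cb30661f3):

* route (B), multi-place `GoodEKM` (NO leaf of class field theory left):
  `topB231 : OpenB231 → A3c_556 ∧ A3q_556`, `OpenB231` =
  NODES `TraceWordsRegPAll ekMulti`, `TraceWordsQRegPAll ekMulti`, `Rigid.StripC` (T7.14.6);
  LEAF `Rigid.CountC` (T7.14.3).
* route (A), single-place `GoodEK`:  `topA231 : OpenA231 → A3c_556 ∧ A3q_556`, `OpenA231` =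
  NODES `TraceWordsRegAll`, `TraceWordsQRegAll`, `Rigid.StripC`;
  LEAVES `Rigid.CountC`, `CFT.ExistOddC` (CFT.16, sub-tower EX).

(`topReg_of_leaves231 : OpenLeaves231 → …` = the state of 14:58Z, kept.)

Earlier routes, kept: the EK route (`T7/EK.lean`, `OpenEK231`, `topEK_of_open231`), the route of
Spec v1.2 (`T7.top`, `Open231` = nodes `DescAll`, `DescQ3All`, `ThinC`, `RigidAll`), the route
of Spec v0 (`T7.top'`, nodes `DescAll`, `FibreAll`, `DescQAll`, `top'_of_open231`).
-/

set_option autoImplicit false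

namespace Fermat.Agent.LT.T7.H231

open Fermat.Agent.LT.H556

/-- The NODES of tower T7 that are still open (Spec v1.2, route of `T7.top`); no leaf is open. -/
structure Open231 : Prop where
  /-- NODE (T7.10): cyclic descent of degree 3, comparison of trace formulas. -/
  desc : DescAll
  /-- NODE (T7.12): quadratic descent to `ℚ` for the fields containing `√-3`. -/
  descQ3 : DescQ3All
  /-- NODE (T7.13): mass bound over `F`. -/
  thin : ThinC
  /-- NODE (T7.14): rigidity outside a thin set. -/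
  rigid : RigidAll

/-- The leaves of tower T7 that are closed, in one closure. -/
structure Closed231 : Prop where
  twist : TwistAll
  conj : ConjAll
  descTrivFrom : DescTrivFromC
  midStableFrom : MidStableFromC
  dictEF : DictEFC
  dictFQ : DictFQC
  midUniqueFrom : MidUniqueFromC
  midStableFromUnique : MidStableFromUniqueC
  sqrt : SqrtC
  sep : SepAll

/-- All nine leaves of `T7/Spec.lean` and the leaf `SepAll` of `T7/Comparison.lean` are closed
(unconditionally). -/
theorem closed231 : Closed231 where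
  twist := Fermat.Agent.LT.T7.H496.twistAll496
  conj := Fermat.Agent.LT.T7.H621.conjAll621
  descTrivFrom := Fermat.Agent.LT.T7.H557.descTrivFromC_557
  midStableFrom := midStableFromC231
  dictEF := dictEFC231
  dictFQ := Fermat.Agent.LT.T7.H922.dictFQC922
  midUniqueFrom := R176.midUniqueFromC231
  midStableFromUnique := Fermat.Agent.LT.T7.H820.midStableFromUniqueC820
  sqrt := Fermat.Agent.LT.T7.H546.sqrtC_h546
  sep := Fermat.Agent.LT.T7.H309.sepAll309

/-- **Tower T7 from its open leaves**: the two descent leaves of the frozen wall, VERBATIM. -/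
theorem top_of_open231 (h : Open231) : WT.A3c_556 ∧ WT.A3q_556 :=
  Fermat.Agent.LT.T7.top h.desc h.descQ3 h.thin h.rigid closed231.twist closed231.conj
    closed231.descTrivFrom closed231.midUniqueFrom closed231.midStableFromUnique closed231.dictEF
    closed231.dictFQ closed231.sqrt

/-- The same through the second proof of T7.08 (helper231). -/
theorem top_of_open231' (h : Open231) : WT.A3c_556 ∧ WT.A3q_556 :=
  Fermat.Agent.LT.T7.top h.desc h.descQ3 h.thin h.rigid closed231.twist closed231.conj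
    closed231.descTrivFrom closed231.midUniqueFrom midStableFromUniqueC231 closed231.dictEF
    closed231.dictFQ closed231.sqrt

/-- The route of Spec v0 (`T7.top'`, through the general fibre theorem): ALL leaves are closed,
open there are only the three nodes `DescAll`, `FibreAll`, `DescQAll`. -/
theorem top'_of_open231 (hDesc : DescAll) (hFib : FibreAll) (hDescQ : DescQAll) :
    WT.A3c_556 ∧ WT.A3q_556 :=
  Fermat.Agent.LT.T7.top' hDesc hFib hDescQ closed231.twist closed231.conj
    closed231.descTrivFrom closed231.midStableFrom closed231.dictEF closed231.dictFQ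

/-- `MidUniqueC` and `MidStableC` from the two nodes `ThinC`, `RigidAll`. -/
theorem midStable_of_nodes231 (hThin : ThinC) (hRigid : RigidAll) : MidUniqueC ∧ MidStableC :=
  ⟨closed231.midUniqueFrom hThin hRigid,
    closed231.midStableFromUnique (closed231.midUniqueFrom hThin hRigid) closed231.conj⟩

/-- `A3c_556` alone needs only the cubic descent node `DescAll`. -/
theorem a3c_of_desc231 (hDesc : DescAll) : WT.A3c_556 :=
  Fermat.Agent.LT.T7.a3c_of closed231.dictEF (closed231.descTrivFrom hDesc closed231.twist)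

/-! ## The EK route (`T7/EK.lean`, sha256 8051060af9f5d042): the top that is USED -/

/-- What is still open on the EK route: the four NODES `TraceWordsEKAll`, `TraceWordsQEKAll`,
`ThinC`, `RigidAll` and the two LEAVES `SeedEKC` (T7.15), `MidEKC` (T7.16). -/
structure OpenEK231 : Prop where
  /-- NODE: trace identity for words, cyclic case (T4/T5/T6 -> T7). -/
  traceWords : TraceWordsEKAll
  /-- NODE: trace identity for words, quadratic descent to `ℚ`. -/
  traceWordsQ : TraceWordsQEKAll
  /-- NODE (T7.13): mass bound over `F`. -/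
  thin : ThinC
  /-- NODE (T7.14): rigidity outside a thin set. -/
  rigid : RigidAll
  /-- LEAF T7.15: good EK places for the seed over `E`. -/
  seedEK : SeedEKC
  /-- LEAF T7.16: good EK places for `MidData` over `F`. -/
  midEK : MidEKC

/-- **Tower T7 along the EK route from what is still open**: the two descent leaves of the
frozen wall, VERBATIM. -/
theorem topEK_of_open231 (h : OpenEK231) : WT.A3c_556 ∧ WT.A3q_556 :=
  Fermat.Agent.LT.T7.topEK h.traceWords h.traceWordsQ closed231.sep h.seedEK h.midEK h.thin h.rigid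
    closed231.twist closed231.conj closed231.midUniqueFrom closed231.midStableFromUnique
    closed231.dictEF closed231.dictFQ closed231.sqrt

/-- `A3c_556` along the EK route: open are `TraceWordsEKAll`, `SeedEKC`. -/
theorem a3c_ofEK_open231 (hTW : TraceWordsEKAll) (hSeed : SeedEKC) :
    WT.A3c_556 :=
  Fermat.Agent.LT.T7.a3c_ofEK closed231.dictEF hSeed
    (Fermat.Agent.LT.T7.descTrivEKAll_of (Fermat.Agent.LT.T7.descEKAll_of hTW closed231.sep)
      closed231.twist)

/-! ## The regular route (`T7/Reg.lean`, sha256 d3ff893f1400169d): the top that is USED -/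

/-- Node T7.13 from its two open leaves (helper37 `ThinClosed.lean`, sha256 ef91f9cc03d7a40f). -/
theorem thin_of_open231 (O : Fermat.Agent.LT.T7.H37.ThinOpen) : ThinC :=
  Fermat.Agent.LT.T7.H37.thin_of_open O closed231.dictFQ closed231.sqrt

/-- What is still open on the regular route: the three NODES `TraceWordsRegAll`,
`TraceWordsQRegAll`, `RigidAll`, the two open leaves of node T7.13 (`ChebFC`, `SqMass468C`) and
the three LEAVES `ExpSepC` (T7.C7), `SeedEKC` (T7.15), `MidEKC` (T7.16). -/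
structure OpenReg231 : Prop where
  /-- NODE T7.C3-REG: regular trace identity for words, cyclic case. -/
  traceWordsReg : TraceWordsRegAll
  /-- NODE T7.C3Q-REG: regular trace identity for words, quadratic descent to `ℚ`. -/
  traceWordsQReg : TraceWordsQRegAll
  /-- NODE (T7.14): rigidity outside a thin set. -/
  rigid : RigidAll
  /-- The open leaves of NODE T7.13: `ChebFC` (T7.13c) and `SqMass468C` (T7.13i). -/
  thin : Fermat.Agent.LT.T7.H37.ThinOpen
  /-- LEAF T7.C7: linear independence of characters at the regular place. -/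
  expSep : ExpSepC
  /-- LEAF T7.15: good EK places for the seed over `E`. -/
  seedEK : SeedEKC
  /-- LEAF T7.16: good EK places for `MidData` over `F`. -/
  midEK : MidEKC

/-- **Tower T7 along the regular route from what is still open**: the two descent leaves of the
frozen wall, VERBATIM. -/
theorem topReg_of_open231 (h : OpenReg231) : WT.A3c_556 ∧ WT.A3q_556 :=
  Fermat.Agent.LT.T7.topReg h.traceWordsReg h.traceWordsQReg h.expSep closed231.sep h.seedEK
    h.midEK (thin_of_open231 h.thin) h.rigid closed231.twist closed231.conj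
    closed231.midUniqueFrom closed231.midStableFromUnique closed231.dictEF closed231.dictFQ
    closed231.sqrt

/-- The EK route from the regular route. -/
theorem openEK_of_openReg231 (h : OpenReg231) : OpenEK231 where
  traceWords := Fermat.Agent.LT.T7.traceWordsEKAll_of_reg h.traceWordsReg h.expSep
  traceWordsQ := Fermat.Agent.LT.T7.traceWordsQEKAll_of_reg h.traceWordsQReg h.expSep
  thin := thin_of_open231 h.thin
  rigid := h.rigid
  seedEK := h.seedEK
  midEK := h.midEK

/-- `A3c_556` along the regular route: open are `TraceWordsRegAll`, `ExpSepC`, `SeedEKC`. -/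
theorem a3c_ofReg_open231 (hTW : TraceWordsRegAll) (hExp : ExpSepC) (hSeed : SeedEKC) :
    WT.A3c_556 :=
  a3c_ofEK_open231 (Fermat.Agent.LT.T7.traceWordsEKAll_of_reg hTW hExp) hSeed

/-! ## The finest state: every closed leaf of the sub-towers discharged -/

/-- `SeedEKC` and `MidEKC` from the two open leaves of CFT (dictionary of helper96). -/
theorem goodEK_of_cft231 (hex : Fermat.Agent.LT.CFT.ExistOddC)
    (hcheb : Fermat.Agent.LT.CFT.ChebKC) : SeedEKC ∧ MidEKC :=
  ⟨Fermat.Agent.LT.T7.H96.seedEKC_of96 (Fermat.Agent.LT.CFT.oddRayCheb_of_leaves hex hcheb)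
      closed231.sqrt,
    Fermat.Agent.LT.T7.H96.midEKC_of96 (Fermat.Agent.LT.CFT.oddRayCheb_of_leaves hex hcheb)
      closed231.sqrt⟩

/-- EVERYTHING that is still open in tower T7 (regular route), sub-towers included: three NODES
(`TraceWordsRegAll`, `TraceWordsQRegAll`, `Rigid.StripC`) and seven LEAVES. -/
structure OpenLeaves231 : Prop where
  /-- NODE T7.C3-REG: regular trace identity for words, cyclic case. -/
  traceWordsReg : TraceWordsRegAll
  /-- NODE T7.C3Q-REG: regular trace identity for words, quadratic descent to `ℚ`. -/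
  traceWordsQReg : TraceWordsQRegAll
  /-- Node T7.14: NODE `StripC` (T7.14.6), LEAVES `CountC` (T7.14.3), `OrthC` (T7.14.4). -/
  rigid : RigidOpen231
  /-- Node T7.13: LEAVES `ChebFC` (T7.13c) and `SqMass468C` (T7.13i). -/
  thin : Fermat.Agent.LT.T7.H37.ThinOpen
  /-- LEAF T7.C7: linear independence of characters at the regular place. -/
  expSep : ExpSepC
  /-- LEAF CFT.16: existence at 2 (odd ray class order of split primes). -/
  existOdd : Fermat.Agent.LT.CFT.ExistOddC
  /-- LEAF CFT.17: Chebotarev for `G_K`. -/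
  chebK : Fermat.Agent.LT.CFT.ChebKC

/-- The regular route from the finest state. -/
theorem openReg_of_leaves231 (h : OpenLeaves231) : OpenReg231 where
  traceWordsReg := h.traceWordsReg
  traceWordsQReg := h.traceWordsQReg
  rigid := rigidAll_of_open231 h.rigid
  thin := h.thin
  expSep := h.expSep
  seedEK := (goodEK_of_cft231 h.existOdd h.chebK).1
  midEK := (goodEK_of_cft231 h.existOdd h.chebK).2

/-- **Tower T7 from EVERYTHING that is still open**: the two descent leaves of the frozen wall,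
VERBATIM. -/
theorem topReg_of_leaves231 (h : OpenLeaves231) : WT.A3c_556 ∧ WT.A3q_556 :=
  topReg_of_open231 (openReg_of_leaves231 h)

/-! ## The two routes of `T7/EKM.lean`, with `ExpSepC` and `ChebFC` discharged -/

/-- `ExpSepC` is closed (helper496). -/
theorem expSep_closed231 : ExpSepC := Fermat.Agent.LT.T7.H496.expSepC496

/-- Node T7.13 from its ONE open leaf (helper37 `ThinNode.lean`, `ChebFC` of helper341). -/
theorem thin_of_sqMass231 (h : Fermat.Agent.LT.T7.H37.SqMass468C) : ThinC :=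
  Fermat.Agent.LT.T7.H37.thinC_of_sqMass37 h

/-- Node T7.13 `ThinC` is CLOSED (helper37 `ThinDone.lean`). -/
theorem thin_closed231 : ThinC := Fermat.Agent.LT.T7.H37.thinC37

/-- `MidUniqueC` and `MidStableC` from the ONE node `RigidAll`. -/
theorem midStable_of_rigid231 (hRigid : RigidAll) : MidUniqueC ∧ MidStableC :=
  midStable_of_nodes231 thin_closed231 hRigid

/-- ROUTE (A): everything that is still open with the single-place EK condition. -/
structure OpenA231 : Prop where
  /-- NODE T7.C3-REG: regular trace identity for words, cyclic case. -/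
  traceWordsReg : TraceWordsRegAll
  /-- NODE T7.C3Q-REG: regular trace identity for words, quadratic descent to `ℚ`. -/
  traceWordsQReg : TraceWordsQRegAll
  /-- NODE T7.14.6: the strip identity. -/
  strip : ∀ (K : Type) [Field K] [NumberField K], Rigid.StripC K
  /-- LEAF T7.14.3: points of `ℙ¹(K)` of bounded twisted height. -/
  count : ∀ (K : Type) [Field K] [NumberField K], Rigid.CountC K
  /-- LEAF CFT.16: existence at 2 (odd ray class order of split primes). -/
  existOdd : Fermat.Agent.LT.CFT.ExistOddC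

/-- The state of 14:58Z from route (A). -/
theorem openLeaves_of_A231 (h : OpenA231) : OpenLeaves231 where
  traceWordsReg := h.traceWordsReg
  traceWordsQReg := h.traceWordsQReg
  rigid := ⟨h.strip, h.count, orthC_closed231⟩
  thin := Fermat.Agent.LT.T7.H37.thinOpen_of_sqMass37
    Fermat.Agent.LT.T7.H37.sqMass468C_closed37
  expSep := expSep_closed231
  existOdd := h.existOdd
  chebK := Fermat.Agent.LT.CFT.H881.chebKC881

/-- **Tower T7, route (A)**: the two descent leaves of the frozen wall, VERBATIM. -/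
theorem topA231 (h : OpenA231) : WT.A3c_556 ∧ WT.A3q_556 :=
  topReg_of_leaves231 (openLeaves_of_A231 h)

/-- ROUTE (B): everything that is still open with the multi-place EK condition. -/
structure OpenB231 : Prop where
  /-- NODE T7.C3-REG for `GoodEKM`. -/
  traceWordsRegM : TraceWordsRegPAll ekMulti
  /-- NODE T7.C3Q-REG for `GoodEKM`. -/
  traceWordsQRegM : TraceWordsQRegPAll ekMulti
  /-- NODE T7.14.6: the strip identity. -/
  strip : ∀ (K : Type) [Field K] [NumberField K], Rigid.StripC K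
  /-- LEAF T7.14.3: points of `ℙ¹(K)` of bounded twisted height. -/
  count : ∀ (K : Type) [Field K] [NumberField K], Rigid.CountC K

/-- **Tower T7, route (B)**: the two descent leaves of the frozen wall, VERBATIM. -/
theorem topB231 (h : OpenB231) : WT.A3c_556 ∧ WT.A3q_556 :=
  Fermat.Agent.LT.T7.topRegM h.traceWordsRegM h.traceWordsQRegM expSep_closed231 closed231.sep
    Fermat.Agent.LT.T7.H619.seedEKMC619 Fermat.Agent.LT.T7.H619.midEKMC619 thin_closed231
    (rigidAll_of231 h.strip h.count)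
    closed231.twist closed231.conj closed231.midUniqueFrom closed231.midStableFromUnique
    closed231.dictEF closed231.dictFQ closed231.sqrt

/-- Route (B) with the node `RigidAll` as ONE hypothesis (for the sub-architect's own top of
T7.14). -/
theorem topB_of_rigid231 (hTW : TraceWordsRegPAll ekMulti) (hTWQ : TraceWordsQRegPAll ekMulti)
    (hRigid : RigidAll) : WT.A3c_556 ∧ WT.A3q_556 :=
  Fermat.Agent.LT.T7.topRegM hTW hTWQ expSep_closed231 closed231.sep
    Fermat.Agent.LT.T7.H619.seedEKMC619 Fermat.Agent.LT.T7.H619.midEKMC619 thin_closed231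
    hRigid closed231.twist closed231.conj closed231.midUniqueFrom closed231.midStableFromUnique
    closed231.dictEF closed231.dictFQ closed231.sqrt

/-- `A3c_556` alone along route (B): ONE node is open. -/
theorem a3c_B231 (hTW : TraceWordsRegPAll ekMulti) : WT.A3c_556 :=
  Fermat.Agent.LT.T7.a3c_ofP ekMulti closed231.dictEF Fermat.Agent.LT.T7.H619.seedEKMC619
    (Fermat.Agent.LT.T7.descTrivEKPAll_of ekMulti
      (Fermat.Agent.LT.T7.descEKPAll_of ekMulti
        (Fermat.Agent.LT.T7.traceWordsEKPAll_of_reg ekMulti hTW expSep_closed231) closed231.sep)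
      closed231.twist)

/-- **Route (B) on level 2 of the cyclic node**: open are the three nodes of `Level2.lean` (for
`GoodEKM`), the node `TraceWordsQRegPAll ekMulti`, the node `StripC` and the leaf `CountC`. -/
theorem topB_level2_231 (h2 : Level2Open231 ekMulti) (hTWQ : TraceWordsQRegPAll ekMulti)
    (hStrip : ∀ (K : Type) [Field K] [NumberField K], Rigid.StripC K)
    (hCount : ∀ (K : Type) [Field K] [NumberField K], Rigid.CountC K) :
    WT.A3c_556 ∧ WT.A3q_556 :=
  topB231 ⟨traceWordsRegPAll_of_level2_231 ekMulti h2, hTWQ, hStrip, hCount⟩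

/-- `A3c_556` from the three nodes of level 2 (route (B)): nothing else is open for the cubic
step. -/
theorem a3c_level2_231 (h2 : Level2Open231 ekMulti) : WT.A3c_556 :=
  a3c_B231 (traceWordsRegPAll_of_level2_231 ekMulti h2)

/-- **CURRENT FINEST STATE, route (B)** (state 15:55Z): open are the three nodes of level 2 of
the cyclic step, the node of the quadratic step, and the four open leaves of node T7.14 on the
cut of helper62 (`CountC`, `FoldWhitC`, `IdeleSumC`, `LocC`). -/
theorem topB_state231 (h2 : Level2Open231 ekMulti) (hTWQ : TraceWordsQRegPAll ekMulti)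
    (hR : ∀ (K : Type) [Field K] [NumberField K], RigidState231 K) :
    WT.A3c_556 ∧ WT.A3q_556 :=
  topB_of_rigid231 (traceWordsRegPAll_of_level2_231 ekMulti h2) hTWQ (rigidAll_of_state231 hR)

/-- `GeomC` (leaf T7.G1 of `Matching.lean`) is closed (helper32). -/
theorem geomC_closed231 (K K' : Type) [Field K] [NumberField K] [Field K'] [NumberField K']
    [Algebra K K'] : GeomC K K' :=
  Fermat.Agent.LT.T7.H32.geomC32

/-- Mixed routes (`T7.topRegP`): any two EK conditions `P` (cubic step) and `Q` (quadratic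
step). -/
theorem topP231 (P Q : EKCond) (hTW : TraceWordsRegPAll P) (hTWQ : TraceWordsQRegPAll Q)
    (hSeed : SeedP P) (hMid : MidP Q) (hR : RigidOpen231) : WT.A3c_556 ∧ WT.A3q_556 :=
  Fermat.Agent.LT.T7.topRegP P Q hTW hTWQ expSep_closed231 closed231.sep hSeed hMid
    thin_closed231 (rigidAll_of_open231 hR) closed231.twist closed231.conj
    closed231.midUniqueFrom closed231.midStableFromUnique closed231.dictEF closed231.dictFQ
    closed231.sqrt

end Fermat.Agent.LT.T7.H231

end
-- ===== PACK-END LT/T7/H231/Closed.lean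

-- ===== PACK-BEGIN LT/T7/H231/Record.lean
section







/-!
# Row LT, tower T7 -- THE TOP ON THE NODES OF RECORD OF LEVEL 2 (integrator helper231), OFF-MAIN

ADDITIVE: nothing of `Closed.lean` is changed.  Forms of record = ruling of the architect
helper797 (15:58Z): the spectral half upstairs is proved ONCE, over `K'` alone (core of helper29,
`T7/H29/UpCore2.lean`), and serves the cubic step `E/F` and the quadratic step `F/ℚ`.

    top_record231 : Record231 → WT.A3c_556 ∧ WT.A3q_556

`Record231` = SIX nodes: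

* `SU736.SupplyCS ekMulti K K'`  (T7.L2.1, supplier helper893, glue helper732);
* `SpecDownC K K'`               (T7.L2.3, helper772 / helper534);
* `H29.ExpUpCoreC K'`, `H29.NonVanCoreC K'` (T7.L2.2 in core form, helper736 / helper561 / 29);
* `H29.SupplyQSC ekMulti F`      (T7.L2Q.1, helper60 / helper962 / helper732; T3.18R helper14);
* `L2Q.SpecDownQC F`             (T7.L2Q.3, helper140).

CLOSED and used here: `RigidAll` (`RigidPlug6` of helper62 + `FoldWhitC` of helper57), `SpecIdC`
(helper32 + T6 981 / 848), `SpecIdQC` (helper826 / helper797), `ExpSepC`, `SepAll`, `SeedEKMC`,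
`MidEKMC`, `ThinC` and the nine leaves of `T7/Spec.lean`.
-/

set_option autoImplicit false

namespace Fermat.Agent.LT.T7.H231

open Fermat.Agent.LT.H556
open Fermat.Agent.LT.T7

/-- **NODE T7.14 `RigidAll`, CLOSED** (sub-architect helper62, `RigidPlug6`; last leaf
`FoldWhitC` by helper57). -/
theorem rigidAll_closed231 : RigidAll :=
  Rigid.rigidAll_of_foldWhit62 (fun K _ _ => Fermat.Agent.LT.T7.H57.foldWhitC_closed57 K)

/-- **Route (B), `RigidAll` closed: TWO nodes are open** (the two trace identities). -/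
theorem topB_two231 (hTW : TraceWordsRegPAll ekMulti) (hTWQ : TraceWordsQRegPAll ekMulti) :
    WT.A3c_556 ∧ WT.A3q_556 :=
  topB_of_rigid231 hTW hTWQ rigidAll_closed231

/-- `A3q_556` alone: ONE node is open. -/
theorem a3q_two231 (hTWQ : TraceWordsQRegPAll ekMulti) : WT.A3q_556 :=
  Fermat.Agent.LT.T7.a3q_ofP ekMulti closed231.dictFQ closed231.sqrt
    Fermat.Agent.LT.T7.H619.midEKMC619
    (closed231.midStableFromUnique (closed231.midUniqueFrom thin_closed231 rigidAll_closed231)
      closed231.conj)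
    (Fermat.Agent.LT.T7.descQ3EKPAll_of ekMulti
      (Fermat.Agent.LT.T7.traceWordsQEKPAll_of_reg ekMulti hTWQ expSep_closed231)
      closed231.sep)

/-- The cubic node from the nodes of record: supply with base stability, the two core nodes
upstairs, the spectral side downstairs (`SpecIdC` is closed). -/
theorem traceWordsRegP_of_record231 (P : EKCond) (K K' : Type) [Field K] [NumberField K]
    [Field K'] [NumberField K'] [Algebra K K']
    (hS : SU736.SupplyCS P K K') (hE : H29.ExpUpCoreC K') (hN : H29.NonVanCoreC K')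
    (hD : SpecDownC K K') : TraceWordsRegP P K K' :=
  SU736.traceWordsRegP_ofS hS (H29.specUpCS_of_core (H29.specUpCoreSC_of hE hN)) hD
    (specIdC_closed231 K K')

/-- The quadratic node from the nodes of record (`SpecIdQC` is closed). -/
theorem traceWordsQRegP_of_record231 (P : EKCond) (F : Type) [Field F] [NumberField F]
    (hS : H29.SupplyQSC P F) (hE : H29.ExpUpCoreC F) (hN : H29.NonVanCoreC F)
    (hD : L2Q.SpecDownQC F) : TraceWordsQRegP P F :=
  H29.traceWordsQRegP_ofCore2 hS hE hN hD (L2Q.specIdQC_closed826 F)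

/-- **THE OPEN PART OF TOWER T7 ON THE NODES OF RECORD** (route (B), state 17:00Z). -/
structure Record231 : Prop where
  /-- NODE T7.L2.1: supply for the cubic step, with base stability -/
  supplyCS : ∀ (K K' : Type) [Field K] [NumberField K] [Field K'] [NumberField K']
    [Algebra K K'], SU736.SupplyCS ekMulti K K'
  /-- NODE T7.L2.3: the spectral side downstairs, cubic step -/
  specDown : ∀ (K K' : Type) [Field K] [NumberField K] [Field K'] [NumberField K']
    [Algebra K K'], SpecDownC K K'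
  /-- NODE T7.L2.2.Ec: spectral expansion upstairs, core form (both steps) -/
  expUpCore : ∀ (K' : Type) [Field K'] [NumberField K'], H29.ExpUpCoreC K'
  /-- NODE T7.L2.2.Nc: non-vanishing of the twisted trace, core form (both steps) -/
  nonVanCore : ∀ (K' : Type) [Field K'] [NumberField K'], H29.NonVanCoreC K'
  /-- NODE T7.L2Q.1: supply for the quadratic step, stable form -/
  supplyQS : ∀ (F : Type) [Field F] [NumberField F], H29.SupplyQSC ekMulti F
  /-- NODE T7.L2Q.3: the spectral side downstairs, quadratic step -/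
  specDownQ : ∀ (F : Type) [Field F] [NumberField F], L2Q.SpecDownQC F

theorem traceWordsRegPAll_of_record231 (h : Record231) : TraceWordsRegPAll ekMulti :=
  fun K K' _ _ _ _ _ =>
    traceWordsRegP_of_record231 ekMulti K K' (h.supplyCS K K') (h.expUpCore K')
      (h.nonVanCore K') (h.specDown K K')

theorem traceWordsQRegPAll_of_record231 (h : Record231) : TraceWordsQRegPAll ekMulti :=
  fun F _ _ =>
    traceWordsQRegP_of_record231 ekMulti F (h.supplyQS F) (h.expUpCore F) (h.nonVanCore F)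
      (h.specDownQ F)

/-- **TOP OF TOWER T7 ON THE NODES OF RECORD.** -/
theorem top_record231 (h : Record231) : WT.A3c_556 ∧ WT.A3q_556 :=
  topB_two231 (traceWordsRegPAll_of_record231 h) (traceWordsQRegPAll_of_record231 h)

/-- `A3c_556` from the cubic nodes of record alone. -/
theorem a3c_record231
    (hS : ∀ (K K' : Type) [Field K] [NumberField K] [Field K'] [NumberField K'] [Algebra K K'],
      SU736.SupplyCS ekMulti K K')
    (hD : ∀ (K K' : Type) [Field K] [NumberField K] [Field K'] [NumberField K'] [Algebra K K'],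
      SpecDownC K K')
    (hE : ∀ (K' : Type) [Field K'] [NumberField K'], H29.ExpUpCoreC K')
    (hN : ∀ (K' : Type) [Field K'] [NumberField K'], H29.NonVanCoreC K') : WT.A3c_556 :=
  a3c_B231 (fun K K' _ _ _ _ _ =>
    traceWordsRegP_of_record231 ekMulti K K' (hS K K') (hE K') (hN K') (hD K K'))

/-- `A3q_556` from the quadratic nodes of record alone. -/
theorem a3q_record231
    (hS : ∀ (F : Type) [Field F] [NumberField F], H29.SupplyQSC ekMulti F)
    (hD : ∀ (F : Type) [Field F] [NumberField F], L2Q.SpecDownQC F)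
    (hE : ∀ (K' : Type) [Field K'] [NumberField K'], H29.ExpUpCoreC K')
    (hN : ∀ (K' : Type) [Field K'] [NumberField K'], H29.NonVanCoreC K') : WT.A3q_556 :=
  a3q_two231 (fun F _ _ =>
    traceWordsQRegP_of_record231 ekMulti F (hS F) (hE F) (hN F) (hD F))

end Fermat.Agent.LT.T7.H231

end
-- ===== PACK-END LT/T7/H231/Record.lean

-- ===== PACK-BEGIN LT/T7/H893/SupplyClosed12.lean
section





/-!
# Row LT, tower T7, node T7.L2.1 `SupplySC` (sub-architect helper893): INTEGRATION v12

OFF-MAIN.  No `sorry`, nothing assumed.  ADDITIVE.  Integration v11 with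

* `P51.SplitOrbC51` closed by helper321 (`P51.H321.splitOrbC321`);
* the cut of `ProdShapeC893` by helper724 (`PS724.prodShapeC_of_leaves724`: on the vocabulary
  of the cut of helper51; ONE new leaf `PS724.SphProdC724`).

So the two routes to `ProdMtCb` share the global calculus (`OpAvgC51`, `ConvAvgC51`) and differ
only outside the level.

    supplySC_of_open893o : OpenSupply893o P K K' → T7.SupplySC P K K'     (route (i))
    supplySC_of_open893p : OpenSupply893p P K K' → T7.SupplySC P K K'     (route (ii))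

OPEN WALL, common part (`OpenGlob893o`): `T6.T6Out` (closed on the master),
`Q797.PairAC797 P K K' LocA893`, `PB57.BadPartC57 K K'`, `PB57.OpenSwap57 K K'`,
`P51.OpAvgC51 K K'`, `P51.RegAC51 K K'`, `P51.RegOpC51 K K'`;
route (i): + `P51.RegSphC51`, `P51.InertSphC51`, `P51.SplitSphC51`;
route (ii): + `PS724.SphProdC724`.
-/

set_option autoImplicit false

open AutomorphicForm IsDedekindDomain NumberField MeasureTheory
open scoped ComplexConjugate

noncomputable section

namespace Fermat.Agent.LT.T7.H893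

open Fermat.Agent.LT Fermat.Agent.LT.H556 Fermat.Agent.LT.H556.A0 Fermat.Agent.LT.T7

attribute [local instance] Fermat.Agent.LT.T5.instMeasurableSpaceG

section Closed

variable (P : EKCond)
variable (K K' : Type) [Field K] [NumberField K] [Field K'] [NumberField K'] [Algebra K K']

/-- The common part of the open wall (integration v12): the open core of v11 and the global
calculus of the cut of helper51. -/
structure OpenGlob893o : Prop extends OpenCore893m P K K' where
  opAvg : P51.OpAvgC51 K K'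
  regA : P51.RegAC51 K K'
  regOp : P51.RegOpC51 K K'

/-- **THE OPEN WALL of `SupplySC`** (integration v12, route (i): the cut of helper51 for
`ProdMtCb`). -/
structure OpenSupply893o : Prop extends OpenGlob893o P K K' where
  regSph : P51.RegSphC51 K K'
  inertSph : P51.InertSphC51 K K'
  splitSph : P51.SplitSphC51 K K'

/-- **THE OPEN WALL of `SupplySC`** (integration v12, route (ii): the sixth cut of helper893
for `ProdMtCb`, with the cut of helper724 for `ProdShapeC893`). -/
structure OpenSupply893p : Prop extends OpenGlob893o P K K' where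
  sphProd : PS724.SphProdC724 K K'

variable {P K K'}

/-- **THE STABLE SUPPLY from the open wall (v12, route (i)).** -/
theorem supplySC_of_open893o (h : OpenSupply893o P K K') : SupplySC P K K' :=
  supplySC_of_open893m
    { toOpenCore893m := h.toOpenCore893m
      opAvg := h.opAvg
      regA := h.regA
      regOp := h.regOp
      regSph := h.regSph
      inertSph := h.inertSph
      splitOrb := P51.H321.splitOrbC321 K K'
      splitSph := h.splitSph }

/-- The node `ProdShapeC893` from the common part and the leaf of helper724. -/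
theorem prodShapeC_of_open893p (h : OpenGlob893o P K K') (hS : PS724.SphProdC724 K K') :
    ProdShapeC893 K K' :=
  PS724.prodShapeC_of_leaves724 h.opAvg (convAvgC_of_open893k h.regA h.regOp)
    (H409.regOrbC409 K K') (H561.regArchC561 K K') (P51.H321.splitOrbC321 K K')
    (H44.archProdC44 K K') hS

/-- **THE STABLE SUPPLY from the open wall (v12, route (ii)).** -/
theorem supplySC_of_open893p (h : OpenSupply893p P K K') : SupplySC P K K' :=
  supplySC_of_open893n
    { toOpenCore893m := h.toOpenCore893m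
      prodShape := prodShapeC_of_open893p h.toOpenGlob893o h.sphProd }

end Closed

end Fermat.Agent.LT.T7.H893

end

end
-- ===== PACK-END LT/T7/H893/SupplyClosed12.lean

-- ===== PACK-BEGIN LT/T7/H893/SupplyClosed13.lean
section







/-!
# Row LT, tower T7, node T7.L2.1 `SupplySC` (sub-architect helper893): INTEGRATION v13

OFF-MAIN.  No `sorry`, nothing assumed.  ADDITIVE.  Integration v12 for the condition `ekMulti`
(the condition of the master) with the integration v1 of the FIRST PAIR by helper981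
(`B981.pairAC_open981`: cuts 2, 3, 4 of `Q797.PairAC797 ekMulti K K' LocA893`; discharged
there: `StepSC981` helper503, `DnGoodC981` helper34, `IwSuppC981` helper726, `ShapeC981`
helper607) and the leaves `UpGoodC981` (helper952), `DnStabC981` (helper919), `NormFrameC981`
(helper999), byte-identical copies.

    pairAC_of_open893q   : OpenPairA893q K K' → Q797.PairAC797 ekMulti K K' LocA893
    supplySC_of_open893q : OpenSupply893q K K' → T7.SupplySC ekMulti K K'     (route (i))
    supplySC_of_open893r : OpenSupply893r K K' → T7.SupplySC ekMulti K K'     (route (ii))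

OPEN WALL, common part (`OpenGlob893q`): `T6.T6Out` (closed on the master);
FIRST PAIR: `B981.UpDatC981 K'`, `B981.DownFinC981`, `B981.DownArchC981`, `B981.PushTelC981`,
`B981.StepTC981 K K' LocA893`, `B981.StepMC981 K K' LocA893`;
SECOND PAIR: `PB57.BadPartC57`, `PB57.OpenSwap57` (13 leaves);
PRODUCTS: `P51.OpAvgC51`, `P51.RegAC51`, `P51.RegOpC51`;
route (i): + `P51.RegSphC51`, `P51.InertSphC51`, `P51.SplitSphC51`;
route (ii): + `PS724.SphProdC724`.
-/

set_option autoImplicit false

open AutomorphicForm IsDedekindDomain NumberField MeasureTheory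
open scoped ComplexConjugate

noncomputable section

namespace Fermat.Agent.LT.T7.H893

open Fermat.Agent.LT Fermat.Agent.LT.H556 Fermat.Agent.LT.H556.A0 Fermat.Agent.LT.T7

attribute [local instance] Fermat.Agent.LT.T5.instMeasurableSpaceG

section Closed

variable (K K' : Type) [Field K] [NumberField K] [Field K'] [NumberField K'] [Algebra K K']

/-- The open wall of the FIRST PAIR (integration v1 of helper981 with three more leaves). -/
structure OpenPairA893q : Prop where
  upDat : B981.UpDatC981 K'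
  downFin : B981.DownFinC981 K K'
  downArch : B981.DownArchC981 K K'
  pushTel : B981.PushTelC981 K K'
  stepT : B981.StepTC981 K K' LocA893
  stepM : B981.StepMC981 K K' LocA893

/-- The common part of the open wall (integration v13, condition `ekMulti`). -/
structure OpenGlob893q : Prop extends OpenPairA893q K K' where
  t6 : T6.T6Out
  badPart : PB57.BadPartC57 K K'
  swap : PB57.OpenSwap57 K K'
  opAvg : P51.OpAvgC51 K K'
  regA : P51.RegAC51 K K'
  regOp : P51.RegOpC51 K K'

/-- **THE OPEN WALL of `SupplySC ekMulti`** (integration v13, route (i)). -/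
structure OpenSupply893q : Prop extends OpenGlob893q K K' where
  regSph : P51.RegSphC51 K K'
  inertSph : P51.InertSphC51 K K'
  splitSph : P51.SplitSphC51 K K'

/-- **THE OPEN WALL of `SupplySC ekMulti`** (integration v13, route (ii)). -/
structure OpenSupply893r : Prop extends OpenGlob893q K K' where
  sphProd : PS724.SphProdC724 K K'

variable {K K'}

/-- **THE FIRST PAIR from its open wall.** -/
theorem pairAC_of_open893q (h : OpenPairA893q K K') :
    Q797.PairAC797 ekMulti K K' LocA893 :=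
  B981.pairAC_open981 h.upDat (H999.normFrameC999 K K') h.downFin h.downArch h.pushTel
    (H952.upGoodC952 K K') (DS919.dnStabC919 K K') h.stepT h.stepM

/-- The common part of v12 from the common part of v13. -/
theorem openGlob893o_of_glob893q (h : OpenGlob893q K K') : OpenGlob893o ekMulti K K' :=
  { t6 := h.t6
    pairA := pairAC_of_open893q h.toOpenPairA893q
    badPart := h.badPart
    swap := h.swap
    opAvg := h.opAvg
    regA := h.regA
    regOp := h.regOp }

/-- **THE STABLE SUPPLY from the open wall (v13, route (i)).** -/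
theorem supplySC_of_open893q (h : OpenSupply893q K K') : SupplySC ekMulti K K' :=
  supplySC_of_open893o
    { toOpenGlob893o := openGlob893o_of_glob893q h.toOpenGlob893q
      regSph := h.regSph
      inertSph := h.inertSph
      splitSph := h.splitSph }

/-- **THE STABLE SUPPLY from the open wall (v13, route (ii)).** -/
theorem supplySC_of_open893r (h : OpenSupply893r K K') : SupplySC ekMulti K K' :=
  supplySC_of_open893p
    { toOpenGlob893o := openGlob893o_of_glob893q h.toOpenGlob893q
      sphProd := h.sphProd }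

end Closed

end Fermat.Agent.LT.T7.H893

end

end
-- ===== PACK-END LT/T7/H893/SupplyClosed13.lean

-- ===== PACK-BEGIN LT/T7/H309/Dn2Closed.lean
section








/-!
# Row LT, tower T7, leaf T7.L2.1.H2a.4.5 `Dn2C970` (helper309, registry 2866): CLOSED

OFF-MAIN.  `dn2C_closed309 K K' : B970.Dn2C970 K K'` VERBATIM, UNCONDITIONAL, for every
extension of number fields: the top `dn2C_of309` of the cut by fields with the five leaves

* `Dn2NatC309`   : `dn2NatC309` (helper309, `Dn2Nat.lean`, core `Dn2W.lean`),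
* `Dn2WfnC309`   : `dn2WfnC309` (helper309, `Dn2Wfn.lean`),
* `Dn2ClassC309` : `H553.dn2ClassC553` (helper553),
* `Dn2CommC309`  : `H661.dn2Comm661` (helper661, conditional on `Dn2NatC309`, `Dn2SuppC309`),
* `Dn2SuppC309`  : `H547.dn2SuppC547` (helper547),

byte-identical copies of the files of the owners.
-/

set_option autoImplicit false

noncomputable section

namespace Fermat.Agent.LT.T7.H309.Dn2

open Fermat.Agent.LT.T7

/-- **LEAF T7.L2.1.H2a.4.5 `Dn2C970`, CLOSED.** -/
theorem dn2C_closed309 (K K' : Type) [Field K] [NumberField K] [Field K'] [NumberField K']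
    [Algebra K K'] : B970.Dn2C970 K K' :=
  dn2C_of309 (dn2NatC309 K K') (dn2WfnC309 K K') (H553.dn2ClassC553 K K')
    (H661.dn2Comm661 K K' (dn2NatC309 K K') (H547.dn2SuppC547 K K')) (H547.dn2SuppC547 K K')

end Fermat.Agent.LT.T7.H309.Dn2

end

end
-- ===== PACK-END LT/T7/H309/Dn2Closed.lean

-- ===== PACK-BEGIN LT/T7/H216/StepTQDone.lean
section





/-!
# Row LT, tower T7, node T7.L2Q.1.H2a.A.1 `PQ484.StepTQC484` (helper216, registry 2955):
# THE NODE CLOSED, UNCONDITIONAL

OFF-MAIN.  Complete proofs, nothing assumed.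

    stepTQC216 (F) : PQ484.StepTQC484 F                              (VERBATIM, UNCONDITIONAL)

= `stepTQC_of216` (`StepTQTop.lean`) applied to

* the closed leaves of the cubic cut of helper589, byte-identical copies: `H861.placeC861`
  (helper861), `H805.sysC805` (helper805), `H32.dTestC32`, `H32.dEkC32`, `H32.dSuppC32`
  (helper32), `H176.dOpC176` (helper176);
* the leaves of `StepTQSpec.lean`, proved HERE:
  - `placeQC216_done` (TQ.1): `placeC861`, `H546.isCycExt_of_isImagQuad546c`,
    `H732.exists_prime_mem_place732`, `H846Q.absNorm_eq_prime846`;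
  - `dTestTC216_done` (TQ.2): `H32.isTestFn_dStep32` (helper32: already for every type);
  - `dEkTC216_done` (TQ.3): `H32.isEKc_dStep32` (helper32: no type);
  - `dOpTC216_done` (TQ.4): the proof of `H176.dOpC176` (helper176) for every type;
  - `shapeTQC216_done` (TQ.5, the node): PORT of `H311.shapeTC_of311` (helper311) with the
    pure tensors `MQ298.pureQ298` downstairs (TWO archimedean components, SAME finite
    components), `pureDQ216` = port of `H595.pureDC595` (helper595); `H311.sphOut_newT311` is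
    used as it is (`K = ℚ`, `K' = F`, `ℓ = 2`); unramifiedness outside `S'`: `H644.unramQC644`;
    places: `H963.placesC963`; closed one-field leaves `H311.sphDC_closed311`,
    `H90D.dContC311_h90`, `H90D.dSuppC311_h90`, `H90D.dIntC311_h90`, `H595.pureDC595`.

No definition of another file is unfolded by `unfold` / `simp` / `rw` (only `show`, `rfl` and
lemmas).
-/

set_option autoImplicit false
set_option linter.unusedSectionVars false
set_option linter.unusedVariables false

open AutomorphicForm IsDedekindDomain NumberField MeasureTheory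
open scoped ComplexConjugate

noncomputable section

namespace Fermat.Agent.LT.T7.TQ216

open Fermat.Agent.LT.H556 Fermat.Agent.LT.H556.A0 Fermat.Agent.LT.T7 Fermat.Agent.LT.T7.H305
  Fermat.Agent.LT.T7.L2Q Fermat.Agent.LT.T7.H893 Fermat.Agent.LT.T7.H962
  Fermat.Agent.LT.T7.H732 Fermat.Agent.LT.T7.MQ298 Fermat.Agent.LT.T7.CQ801
  Fermat.Agent.LT.T7.ST589 Fermat.Agent.LT.T7.PQ484 Fermat.Agent.LT.T7.B981.SS503
  Fermat.Agent.LT.T7.H311

attribute [local instance] Fermat.Agent.LT.T5.instMeasurableSpaceG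

/-! ## 1. The small leaves -/

section Small

variable (F : Type) [Field F] [NumberField F]

/-- **LEAF TQ.1 `PlaceQC216`, PROVED.** -/
theorem placeQC216_done : PlaceQC216 F := by
  intro hF w
  have hcyc : IsCycExt ℚ F 2 := H546.isCycExt_of_isImagQuad546c F hF
  obtain ⟨v, d, hvd⟩ := (H861.placeC861 (K := ℚ) (K' := F)).1 2 hcyc w
  obtain ⟨p, hp, hpv⟩ := exists_prime_mem_place732 v
  have hpw : ((p : ℕ) : 𝓞 F) ∈ w.asIdeal := natCast_mem_of_placeOver732 hvd.1 hpv
  have habs : Ideal.absNorm w.asIdeal = p ^ d := by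
    rw [hvd.2, H846Q.absNorm_eq_prime846 hp hpv]
  exact ⟨p, v, d, hp, hpv, hpw, habs, hvd⟩

/-- **LEAF TQ.2 `DTestTC216`, PROVED** (helper32). -/
theorem dTestTC216_done : DTestTC216 F :=
  fun _ _ _ hv _ _ hH hz _ hf d => H32.isTestFn_dStep32 hv hH hz hf d

/-- **LEAF TQ.3 `DEkTC216`, PROVED** (helper32). -/
theorem dEkTC216_done : DEkTC216 F := by
  intro τ R hR 𝔫 v _ H z _ _ f hf _ h1 h2 d
  have h := H32.isEKc_dStep32 hR.frame v H z (f := f) ⟨hf.cont, hf.supp, h1, h2⟩ d
  exact ⟨h.2.2.1, h.2.2.2⟩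

/-- **LEAF TQ.4 `DOpTC216`, PROVED** (the proof of `H176.dOpC176`, helper176). -/
theorem dOpTC216_done : DOpTC216 F := by
  intro τ R hR 𝔫 𝔫₀ hle v hv H z hH hz f hf hfd χ a b hχc hχinv hχe d x
  have hF := hR.frame
  have : R.μ.IsHaarMeasure := hF.haar
  have key : ∀ d : ℕ,
      (T5.Rconv R.μ (dStep589 v H z d f) χ x = satakePow d a b * T5.Rconv R.μ f χ x) ∧
      (T5.Rconv R.μ (dStep589 v H z (d + 1) f) χ x
        = satakePow (d + 1) a b * T5.Rconv R.μ f χ x) := by
    intro d
    induction d with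
    | zero =>
      refine ⟨?_, ?_⟩
      · show ∫ y, (2 * f y) * χ (x * y) ∂(R.μ) = satakePow 0 a b * ∫ y, f y * χ (x * y) ∂(R.μ)
        rw [satakePow_zero, ← integral_const_mul]
        refine integral_congr_ae (Filter.Eventually.of_forall fun y => ?_)
        show (2 * f y) * χ (x * y) = 2 * (f y * χ (x * y))
        ring
      · rw [satakePow_one]
        exact H176.rconv_tStep176 hF hle hv hH hz hχc hχinv hχe hf.cont hf.supp
          hf.inv.level_right x
    | succ d ih =>
      refine ⟨ih.2, ?_⟩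
      have h1 := hfd (d + 1)
      have h0 := hfd d
      have e : dStep589 v H z (d + 1 + 1) f = fun g =>
          tStep589 v H z (dStep589 v H z (d + 1) f) g - sStep589 z (dStep589 v H z d f) g :=
        rfl
      have hT := H176.rconv_tStep176 hF hle hv hH hz hχc hχinv hχe h1.cont h1.supp
        h1.inv.level_right x
      have hS := H176.rconv_sStep176 hF hz hχe (dStep589 v H z d f) x
      have hiT := H176.integrable_tStep176 (μ := R.μ) (v := v) (H := H) (z := z) hχc h1.cont
        h1.supp x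
      have hiS := H176.integrable_sStep176 (μ := R.μ) (z := z) hχc h0.cont h0.supp x
      have e2 : T5.Rconv R.μ (dStep589 v H z (d + 1 + 1) f) χ x
          = T5.Rconv R.μ (tStep589 v H z (dStep589 v H z (d + 1) f)) χ x
            - T5.Rconv R.μ (sStep589 z (dStep589 v H z d f)) χ x := by
        rw [e]
        show ∫ y, (tStep589 v H z (dStep589 v H z (d + 1) f) y
            - sStep589 z (dStep589 v H z d f) y) * χ (x * y) ∂(R.μ)
          = ∫ y, tStep589 v H z (dStep589 v H z (d + 1) f) y * χ (x * y) ∂(R.μ)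
            - ∫ y, sStep589 z (dStep589 v H z d f) y * χ (x * y) ∂(R.μ)
        rw [← integral_sub hiT hiS]
        refine integral_congr_ae (Filter.Eventually.of_forall fun y => ?_)
        show (tStep589 v H z (dStep589 v H z (d + 1) f) y
            - sStep589 z (dStep589 v H z d f) y) * χ (x * y) = _
        ring
      rw [e2, hT, hS, ih.1, ih.2, satakePow_add_two]
      ring
  exact (key d).1

end Small

/-! ## 2. The steps of a pure tensor over `ℚ` -/

section PureDQ

/-- The function `h ↦ θ (h_v) * P₁ h` over `ℚ`. -/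
def qFnQ216 (v : HeightOneSpectrum (𝓞 ℚ)) (P₁ : G ℚ → ℂ)
    (θ : GL (Fin 2) (v.adicCompletion ℚ) → ℂ) : G ℚ → ℂ :=
  fun h => θ (finGL305 v h) * P₁ h

open Classical in
/-- FACTORISATION of a pure tensor over `ℚ` in the component at `v ∈ S`. -/
theorem pureQ_fact216 {S : Finset (HeightOneSpectrum (𝓞 ℚ))} {v : HeightOneSpectrum (𝓞 ℚ)}
    (hvS : v ∈ S)
    (g₀ : ∀ v : HeightOneSpectrum (𝓞 ℚ), GL (Fin 2) (v.adicCompletion ℚ) → ℂ)
    (Fr : GL (Fin 2) ℝ → ℂ)
    (ψ : GL (Fin 2) (v.adicCompletion ℚ) → ℂ) (h : G ℚ) :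
    pureQ298 S (Function.update g₀ v ψ) Fr h
      = ψ (finGL305 v h) * pureQ298 S (Function.update g₀ v (fun _ => 1)) Fr h := by
  by_cases hO : OutT305 S h
  · rw [H846Q.pureQ_pos846 _ _ hO, H846Q.pureQ_pos846 _ _ hO]
    have h1 : ∏ v' ∈ S, Function.update g₀ v ψ v' (finGL305 v' h)
        = ψ (finGL305 v h) * ∏ v' ∈ S.erase v, g₀ v' (finGL305 v' h) := by
      rw [← Finset.mul_prod_erase S _ hvS, Function.update_self]
      congr 1
      refine Finset.prod_congr rfl fun v' hv' => ?_
      rw [Function.update_of_ne (Finset.ne_of_mem_erase hv')]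
    have h2 : ∏ v' ∈ S, Function.update g₀ v (fun _ => (1 : ℂ)) v' (finGL305 v' h)
        = ∏ v' ∈ S.erase v, g₀ v' (finGL305 v' h) := by
      rw [← Finset.mul_prod_erase S _ hvS, Function.update_self, one_mul]
      refine Finset.prod_congr rfl fun v' hv' => ?_
      rw [Function.update_of_ne (Finset.ne_of_mem_erase hv')]
    rw [h1, h2, mul_assoc]
  · rw [H846Q.pureQ_neg846 _ _ hO, H846Q.pureQ_neg846 _ _ hO, mul_zero]

open Classical in
/-- The pure tensor over `ℚ` with the component `1` at `v ∈ S` is invariant under the right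
translations by the elements with trivial components outside `v`. -/
theorem pureQ_one_mul216 {S : Finset (HeightOneSpectrum (𝓞 ℚ))} {v : HeightOneSpectrum (𝓞 ℚ)}
    (hvS : v ∈ S)
    (g₀ : ∀ v : HeightOneSpectrum (𝓞 ℚ), GL (Fin 2) (v.adicCompletion ℚ) → ℂ)
    (Fr : GL (Fin 2) ℝ → ℂ) {y : G ℚ}
    (hfin : ∀ v' : HeightOneSpectrum (𝓞 ℚ), v' ≠ v → finGL305 v' y = 1)
    (hinf : reGLQ298 y = 1) (h : G ℚ) :
    pureQ298 S (Function.update g₀ v (fun _ => 1)) Fr (h * y)
      = pureQ298 S (Function.update g₀ v (fun _ => 1)) Fr h := by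
  have hf : ∀ v' : HeightOneSpectrum (𝓞 ℚ), v' ≠ v →
      finGL305 v' (h * y) = finGL305 v' h := by
    intro v' hv'
    rw [map_mul, hfin v' hv', mul_one]
  have hi : reGLQ298 (h * y) = reGLQ298 h := by
    rw [map_mul, hinf, mul_one]
  have hOut : OutT305 S (h * y) ↔ OutT305 S h := by
    rw [H802.outT_iff802, H802.outT_iff802]
    refine forall_congr' fun v' => imp_congr_right fun hv'S => ?_
    have hne : v' ≠ v := fun e => hv'S (e ▸ hvS)
    rw [hf v' hne]
  by_cases hO : OutT305 S h
  · rw [H846Q.pureQ_pos846 _ _ hO, H846Q.pureQ_pos846 _ _ (hOut.2 hO), hi]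
    congr 1
    refine Finset.prod_congr rfl fun v' _ => ?_
    by_cases hv' : v' = v
    · subst hv'
      rw [Function.update_self]
    · rw [Function.update_of_ne hv', hf v' hv']
  · rw [H846Q.pureQ_neg846 _ _ hO, H846Q.pureQ_neg846 _ _ (fun hO' => hO (hOut.1 hO'))]

/-- The value of `qFnQ216` at a translate. -/
theorem qFnQ_mul216 (v : HeightOneSpectrum (𝓞 ℚ)) (P₁ : G ℚ → ℂ)
    (hP₁ : ∀ (y : G ℚ), (∀ v' : HeightOneSpectrum (𝓞 ℚ), v' ≠ v → finGL305 v' y = 1) →
      reGLQ298 y = 1 → ∀ h : G ℚ, P₁ (h * y) = P₁ h)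
    (θ : GL (Fin 2) (v.adicCompletion ℚ) → ℂ) {y : G ℚ}
    (hfin : ∀ v' : HeightOneSpectrum (𝓞 ℚ), v' ≠ v → finGL305 v' y = 1)
    (hinf : reGLQ298 y = 1) (h : G ℚ) :
    qFnQ216 v P₁ θ (h * y) = θ (finGL305 v h * finGL305 v y) * P₁ h := by
  show θ (finGL305 v (h * y)) * P₁ (h * y) = _
  rw [map_mul, hP₁ y hfin hinf h]

theorem finQ_triv_of_local216 {v : HeightOneSpectrum (𝓞 ℚ)} {y : G ℚ}
    (hy : IsLocalAtFin v y) :
    ∀ v' : HeightOneSpectrum (𝓞 ℚ), v' ≠ v → finGL305 v' y = 1 :=
  fun v' hv' => H802.finGL_eq_one802 (hy.2 v' hv')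

theorem reQ_triv_of_local216 {v : HeightOneSpectrum (𝓞 ℚ)} {y : G ℚ}
    (hy : IsLocalAtFin v y) : reGLQ298 y = 1 :=
  H846Q.reGL_eq_one846 (hy.1 Rat.infinitePlace)

/-- The step of `S_v` on the functions `qFnQ216`. -/
theorem sStep_qFnQ216 (v : HeightOneSpectrum (𝓞 ℚ)) (P₁ : G ℚ → ℂ)
    (hP₁ : ∀ (y : G ℚ), (∀ v' : HeightOneSpectrum (𝓞 ℚ), v' ≠ v → finGL305 v' y = 1) →
      reGLQ298 y = 1 → ∀ h : G ℚ, P₁ (h * y) = P₁ h)
    {z : G ℚ} (hz : IsLocalAtFin v z) (θ : GL (Fin 2) (v.adicCompletion ℚ) → ℂ) :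
    sStep589 z (qFnQ216 v P₁ θ) = qFnQ216 v P₁ (locS311 v z θ) := by
  funext h
  have hfin : ∀ v' : HeightOneSpectrum (𝓞 ℚ), v' ≠ v → finGL305 v' z⁻¹ = 1 := by
    intro v' hv'
    rw [map_inv, finQ_triv_of_local216 hz v' hv', inv_one]
  have hinf : reGLQ298 z⁻¹ = 1 := by
    rw [map_inv, reQ_triv_of_local216 hz, inv_one]
  show qFnQ216 v P₁ θ (h * z⁻¹) = θ (finGL305 v h * (finGL305 v z)⁻¹) * P₁ h
  rw [qFnQ_mul216 v P₁ hP₁ θ hfin hinf h, map_inv]

/-- The step of `T_v` on the functions `qFnQ216`. -/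
theorem tStep_qFnQ216 (v : HeightOneSpectrum (𝓞 ℚ)) (P₁ : G ℚ → ℂ)
    (hP₁ : ∀ (y : G ℚ), (∀ v' : HeightOneSpectrum (𝓞 ℚ), v' ≠ v → finGL305 v' y = 1) →
      reGLQ298 y = 1 → ∀ h : G ℚ, P₁ (h * y) = P₁ h)
    {H : Finset (G ℚ)} (hH : ∀ h ∈ H, IsLocalAtFin v h)
    {z : G ℚ} (hz : IsLocalAtFin v z) (θ : GL (Fin 2) (v.adicCompletion ℚ) → ℂ) :
    tStep589 v H z (qFnQ216 v P₁ θ) = qFnQ216 v P₁ (locT311 v H z θ) := by
  funext h
  show ((Real.sqrt (Ideal.absNorm v.asIdeal : ℝ) : ℝ) : ℂ)⁻¹
        * ∑ h' ∈ H, qFnQ216 v P₁ θ (h * z⁻¹ * h')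
      = (((Real.sqrt (Ideal.absNorm v.asIdeal : ℝ) : ℝ) : ℂ)⁻¹
        * ∑ h' ∈ H, θ (finGL305 v h * (finGL305 v z)⁻¹ * finGL305 v h')) * P₁ h
  rw [mul_assoc, Finset.sum_mul]
  congr 1
  refine Finset.sum_congr rfl fun h' hh' => ?_
  have hfin : ∀ v' : HeightOneSpectrum (𝓞 ℚ), v' ≠ v → finGL305 v' (z⁻¹ * h') = 1 := by
    intro v' hv'
    rw [map_mul, map_inv, finQ_triv_of_local216 hz v' hv',
      finQ_triv_of_local216 (hH h' hh') v' hv', inv_one, mul_one]
  have hinf : reGLQ298 (z⁻¹ * h') = 1 := by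
    rw [map_mul, map_inv, reQ_triv_of_local216 hz, reQ_triv_of_local216 (hH h' hh'),
      inv_one, mul_one]
  rw [mul_assoc h z⁻¹ h', qFnQ_mul216 v P₁ hP₁ θ hfin hinf h, map_mul, map_inv, mul_assoc]

/-- The step of the Dickson polynomial on the functions `qFnQ216`. -/
theorem dStep_qFnQ216 (v : HeightOneSpectrum (𝓞 ℚ)) (P₁ : G ℚ → ℂ)
    (hP₁ : ∀ (y : G ℚ), (∀ v' : HeightOneSpectrum (𝓞 ℚ), v' ≠ v → finGL305 v' y = 1) →
      reGLQ298 y = 1 → ∀ h : G ℚ, P₁ (h * y) = P₁ h)
    {H : Finset (G ℚ)} (hH : ∀ h ∈ H, IsLocalAtFin v h)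
    {z : G ℚ} (hz : IsLocalAtFin v z) (d : ℕ) (θ : GL (Fin 2) (v.adicCompletion ℚ) → ℂ) :
    dStep589 v H z d (qFnQ216 v P₁ θ) = qFnQ216 v P₁ (locD311 v H z d θ) := by
  induction d using Nat.twoStepInduction with
  | zero =>
    rw [H595.dStep_zero595, H595.locD_zero595]
    funext h
    show 2 * (θ (finGL305 v h) * P₁ h) = 2 * θ (finGL305 v h) * P₁ h
    rw [mul_assoc]
  | one =>
    rw [H595.dStep_one595, H595.locD_one595]
    exact tStep_qFnQ216 v P₁ hP₁ hH hz θ
  | more d ih0 ih1 =>
    rw [H595.dStep_add_two595, H595.locD_add_two595, ih0, ih1,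
      tStep_qFnQ216 v P₁ hP₁ hH hz, sStep_qFnQ216 v P₁ hP₁ hz]
    funext h
    show locT311 v H z (locD311 v H z (d + 1) θ) (finGL305 v h) * P₁ h
        - locS311 v z (locD311 v H z d θ) (finGL305 v h) * P₁ h
      = (locT311 v H z (locD311 v H z (d + 1) θ) (finGL305 v h)
          - locS311 v z (locD311 v H z d θ) (finGL305 v h)) * P₁ h
    rw [sub_mul]

open Classical in
/-- **PURE-D over `ℚ`** (port of `H595.pureDC595`): the step of a pure tensor over `ℚ` is the
pure tensor with the component at `v` replaced by its local step. -/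
theorem pureDQ216 (T P : Finset (HeightOneSpectrum (𝓞 ℚ)))
    (f₀ : ∀ v : HeightOneSpectrum (𝓞 ℚ), GL (Fin 2) (v.adicCompletion ℚ) → ℂ)
    (Fr : GL (Fin 2) ℝ → ℂ) (v : HeightOneSpectrum (𝓞 ℚ)) (hvP : v ∈ P)
    (H : Finset (G ℚ)) (z : G ℚ) (hH : IsHeckeCosetSystem v H)
    (hz : IsScalarUniformizerAt v z) (d : ℕ) (h : G ℚ) :
    pureQ298 (T ∪ P)
        (Function.update (extU503 T f₀) v (locD311 v H z d (extU503 T f₀ v))) Fr h
      = dStep589 v H z d (pureQ298 T f₀ Fr) h := by
  have hvS : v ∈ T ∪ P := Finset.mem_union_right T hvP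
  have hHl : ∀ h' ∈ H, IsLocalAtFin v h' := fun h' hh' => (hH.2.1 h' hh').1
  have hzl : IsLocalAtFin v z := hz.1
  have hP₁ : ∀ (y : G ℚ), (∀ v' : HeightOneSpectrum (𝓞 ℚ), v' ≠ v → finGL305 v' y = 1) →
      reGLQ298 y = 1 → ∀ h : G ℚ,
      pureQ298 (T ∪ P) (Function.update (extU503 T f₀) v (fun _ => 1)) Fr (h * y)
        = pureQ298 (T ∪ P) (Function.update (extU503 T f₀) v (fun _ => 1)) Fr h :=
    fun y hfin hinf h => pureQ_one_mul216 hvS _ Fr hfin hinf h
  have hbase : pureQ298 T f₀ Fr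
      = qFnQ216 v (pureQ298 (T ∪ P) (Function.update (extU503 T f₀) v (fun _ => 1)) Fr)
          (extU503 T f₀ v) := by
    funext y
    show pureQ298 T f₀ Fr y = extU503 T f₀ v (finGL305 v y)
      * pureQ298 (T ∪ P) (Function.update (extU503 T f₀) v (fun _ => 1)) Fr y
    rw [← pureQ_fact216 hvS (extU503 T f₀) Fr (extU503 T f₀ v) y,
      Function.update_eq_self]
    exact (H846Q.pureQ_extU846 Finset.subset_union_left f₀ Fr y).symm
  rw [hbase, dStep_qFnQ216 v _ hP₁ hHl hzl d (extU503 T f₀ v)]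
  exact pureQ_fact216 hvS (extU503 T f₀) Fr _ h

end PureDQ

/-! ## 3. The local shape of the new triple -/

section Shape

variable {F : Type} [Field F] [NumberField F]

open Classical in
/-- **The local condition of the new components** (`LocAQ801`). -/
theorem locAQ_newT216 (hSD : SphDC311 ℚ) (hSD' : SphDC311 F) (hUn : UnitSphC503) (c : ℂ)
    {T₀ T : Finset (HeightOneSpectrum (𝓞 ℚ))} {T' : Finset (HeightOneSpectrum (𝓞 F))}
    {n : HeightOneSpectrum (𝓞 F) → ℕ} {m : HeightOneSpectrum (𝓞 ℚ) → ℕ}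
    (hT₀ : T₀ ⊆ T) (hOver : IsOver305 T T')
    {φ₀ : ∀ w : HeightOneSpectrum (𝓞 F), GL (Fin 2) (w.adicCompletion F) → ℂ}
    {Φ : InfinitePlace F → GL (Fin 2) ℂ → ℂ}
    {f₀ : ∀ v : HeightOneSpectrum (𝓞 ℚ), GL (Fin 2) (v.adicCompletion ℚ) → ℂ}
    {F0 F1 : GL (Fin 2) ℝ → ℂ}
    (hloc : LocAQ801 c T₀ n m T φ₀ Φ f₀ F0 F1)
    {v : HeightOneSpectrum (𝓞 ℚ)} {w : HeightOneSpectrum (𝓞 F)} {d : ℕ}
    (hv0 : v ∉ T₀) (hres : HasResDeg ℚ F v w d)
    (hinert : (∀ w' : HeightOneSpectrum (𝓞 F), PlaceOver ℚ F v w' → w' = w) → d = 2)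
    (hsplit : ∀ u : ℕ → HeightOneSpectrum (𝓞 F), (∀ j : ℕ, PlaceOver ℚ F v (u j)) →
      (∀ j j' : ℕ, j < 2 → j' < 2 → u j = u j' → j = j') →
      d = 1 ∧ ∃ j : ℕ, j < 2 ∧ u j = w)
    {H' : Finset (G F)} {z' : G F} {H : Finset (G ℚ)} {z : G ℚ}
    (hH' : IsHeckeCosetSystem w H') (hz' : IsScalarUniformizerAt w z')
    (hH : IsHeckeCosetSystem v H) (hz : IsScalarUniformizerAt v z) :
    LocAQ801 c T₀ n m (T ∪ {v})
      (Function.update (extU503 T' φ₀) w (locD311 w H' z' 1 (extU503 T' φ₀ w))) Φ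
      (Function.update (extU503 T f₀) v (locD311 v H z d (extU503 T f₀ v))) F0 F1 := by
  have hvw : PlaceOver ℚ F v w := hres.1
  obtain ⟨h1, h2, h3, h4⟩ := hloc
  refine ⟨?_, ?_, ?_, h4⟩
  · intro v' hv'
    have hne : v' ≠ v := fun h => hv0 (h ▸ hv')
    rw [Function.update_of_ne hne, extU_of_mem503 f₀ (hT₀ hv')]
    exact h1 v' hv'
  · intro v' hv' w' hw'
    have hne : w' ≠ w := fun h =>
      hv0 ((H557.placeOver_unique_557 (h ▸ hw') hvw) ▸ hv')
    have hwT : w' ∈ T' := (hOver w').2 ⟨v', hT₀ hv', hw'⟩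
    rw [Function.update_of_ne hne, extU_of_mem503 φ₀ hwT]
    exact h2 v' hv' w' hw'
  · exact sphOut_newT311 hSD hSD' hUn 2 hOver h3 hv0 hres hinert hsplit hH' hz' hH hz

open Classical in
/-- **The new triple is an average of pure tensors with the local condition `LocAQ801`.** -/
theorem shapeQ_newT216 (hPu' : PureDC311 F) (hSD' : SphDC311 F) (hSD : SphDC311 ℚ)
    (hC' : DContC311 F) (hC : DContC311 ℚ) (hS' : DSuppC311 F) (hS : DSuppC311 ℚ)
    (hI' : DIntC311 F) (hI : DIntC311 ℚ) (hUn : UnitSphC503)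
    (hDT' : DTestC589 F) (hDT : DTestTC216 ℚ)
    (𝔫 : Ideal (𝓞 ℚ)) (c : ℂ)
    {T₀ : Finset (HeightOneSpectrum (𝓞 ℚ))}
    {n : HeightOneSpectrum (𝓞 F) → ℕ} {m : HeightOneSpectrum (𝓞 ℚ) → ℕ}
    {φ : G F → ℂ} {f0 f1 : G ℚ → ℂ}
    (hshape : IsAvgPureQ801 (upI (K' := F) 𝔫) 𝔫 T₀ (LocAQ801 c T₀ n m) 1 φ f0 f1)
    {v : HeightOneSpectrum (𝓞 ℚ)} {w : HeightOneSpectrum (𝓞 F)} {d : ℕ}
    (P : Finset (HeightOneSpectrum (𝓞 F)))
    (hP : ∀ w' : HeightOneSpectrum (𝓞 F), w' ∈ P ↔ PlaceOver ℚ F v w')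
    (hv0 : v ∉ T₀) (hres : HasResDeg ℚ F v w d)
    (hinert : (∀ w' : HeightOneSpectrum (𝓞 F), PlaceOver ℚ F v w' → w' = w) → d = 2)
    (hsplit : ∀ u : ℕ → HeightOneSpectrum (𝓞 F), (∀ j : ℕ, PlaceOver ℚ F v (u j)) →
      (∀ j j' : ℕ, j < 2 → j' < 2 → u j = u j' → j = j') →
      d = 1 ∧ ∃ j : ℕ, j < 2 ∧ u j = w)
    (hvn : ¬ v.asIdeal ∣ 𝔫) (hwn : ¬ w.asIdeal ∣ upI (K' := F) 𝔫)
    {H' : Finset (G F)} {z' : G F} {H : Finset (G ℚ)} {z : G ℚ}
    (hH' : IsHeckeCosetSystem w H') (hz' : IsScalarUniformizerAt w z')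
    (hH : IsHeckeCosetSystem v H) (hz : IsScalarUniformizerAt v z) :
    IsAvgPureQ801 (upI (K' := F) 𝔫) 𝔫 T₀ (LocAQ801 c T₀ n m) 1
      (dStep589 w H' z' 1 φ) (dStep589 v H z d f0) (dStep589 v H z d f1) := by
  obtain ⟨Ω, i1, i2, i3, i4, i5, i6, ν, i7, T, T', φ₀, Φc, f₀, F0, F1, hA, hB1, hB2, hB3,
    hC1, hC2, hC3, ⟨C', hC'c, hD1⟩, ⟨C0, hC0, hD2⟩, ⟨C1, hC1', hD3⟩, hE1, hE2, hE3⟩ := hshape
  have hvw : PlaceOver ℚ F v w := hres.1
  have hwP : w ∈ P := (hP w).2 hvw
  have hvS : v ∈ ({v} : Finset (HeightOneSpectrum (𝓞 ℚ))) := Finset.mem_singleton_self v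
  -- the key identities
  have hup : ∀ (a : Ω) (h : G F),
      pure305 (T' a ∪ P) (Function.update (extU503 (T' a) (φ₀ a)) w
          (locD311 w H' z' 1 (extU503 (T' a) (φ₀ a) w))) (Φc a) h
        = dStep589 w H' z' 1 (pure305 (T' a) (φ₀ a) (Φc a)) h := fun a h =>
    hPu' (T' a) P (φ₀ a) (Φc a) w hwP H' z' hH' hz' 1 h
  have hdn : ∀ (Fr : Ω → GL (Fin 2) ℝ → ℂ) (a : Ω) (h : G ℚ),
      pureQ298 (T a ∪ {v}) (Function.update (extU503 (T a) (f₀ a)) v
          (locD311 v H z d (extU503 (T a) (f₀ a) v))) (Fr a) h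
        = dStep589 v H z d (pureQ298 (T a) (f₀ a) (Fr a)) h := fun Fr a h =>
    pureDQ216 (T a) {v} (f₀ a) (Fr a) v hvS H z hH hz d h
  have hone : ∀ (Fr : Ω → GL (Fin 2) ℝ → ℂ) (a : Ω),
      (fun h => (1 : ℂ) * pureQ298 (T a) (f₀ a) (Fr a) h)
        = pureQ298 (T a) (f₀ a) (Fr a) := fun Fr a => funext fun h => one_mul _
  have hcont1 : ∀ Fr : Ω → GL (Fin 2) ℝ → ℂ,
      Continuous (fun p : Ω × G ℚ => (1 : ℂ) * pureQ298 (T p.1) (f₀ p.1) (Fr p.1) p.2) →
      Continuous (fun p : Ω × G ℚ => pureQ298 (T p.1) (f₀ p.1) (Fr p.1) p.2) := by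
    intro Fr hCc
    have e : (fun p : Ω × G ℚ => pureQ298 (T p.1) (f₀ p.1) (Fr p.1) p.2)
        = fun p : Ω × G ℚ => (1 : ℂ) * pureQ298 (T p.1) (f₀ p.1) (Fr p.1) p.2 :=
      funext fun p => (one_mul _).symm
    rw [e]
    exact hCc
  -- the clauses downstairs, for the two archimedean components
  have htest : ∀ (τ : G ℚ → ℂ) (Fr : Ω → GL (Fin 2) ℝ → ℂ),
      (∀ a : Ω, T5.IsTestFn 𝔫 τ (fun h => (1 : ℂ) * pureQ298 (T a) (f₀ a) (Fr a) h)) →
      ∀ a : Ω, T5.IsTestFn 𝔫 τ (fun h => (1 : ℂ) * pureQ298 (T a ∪ {v})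
        (Function.update (extU503 (T a) (f₀ a)) v
          (locD311 v H z d (extU503 (T a) (f₀ a) v))) (Fr a) h) := by
    intro τ Fr hB a
    have h : (fun h => (1 : ℂ) * pureQ298 (T a ∪ {v})
          (Function.update (extU503 (T a) (f₀ a)) v
            (locD311 v H z d (extU503 (T a) (f₀ a) v))) (Fr a) h)
        = dStep589 v H z d (fun h => (1 : ℂ) * pureQ298 (T a) (f₀ a) (Fr a) h) := by
      rw [hone Fr a]
      funext h
      rw [one_mul]
      exact hdn Fr a h
    rw [h]
    exact hDT τ 𝔫 v hvn H z hH hz _ (hB a) d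
  have hcont : ∀ Fr : Ω → GL (Fin 2) ℝ → ℂ,
      Continuous (fun p : Ω × G ℚ => (1 : ℂ) * pureQ298 (T p.1) (f₀ p.1) (Fr p.1) p.2) →
      Continuous (fun p : Ω × G ℚ => (1 : ℂ) * pureQ298 (T p.1 ∪ {v})
        (Function.update (extU503 (T p.1) (f₀ p.1)) v
          (locD311 v H z d (extU503 (T p.1) (f₀ p.1) v))) (Fr p.1) p.2) := by
    intro Fr hCc
    have h : (fun p : Ω × G ℚ => (1 : ℂ) * pureQ298 (T p.1 ∪ {v})
          (Function.update (extU503 (T p.1) (f₀ p.1)) v
            (locD311 v H z d (extU503 (T p.1) (f₀ p.1) v))) (Fr p.1) p.2)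
        = fun p : Ω × G ℚ => dStep589 v H z d (pureQ298 (T p.1) (f₀ p.1) (Fr p.1)) p.2 :=
      funext fun p => by
        rw [one_mul]
        exact hdn Fr p.1 p.2
    rw [h]
    exact hC Ω (fun a => pureQ298 (T a) (f₀ a) (Fr a)) (hcont1 Fr hCc) v H z d
  have hsupp : ∀ Fr : Ω → GL (Fin 2) ℝ → ℂ,
      (∃ C : Set (G ℚ), IsCompact C ∧
        ∀ (a : Ω) (h : G ℚ), pureQ298 (T a) (f₀ a) (Fr a) h ≠ 0 → h ∈ C) →
      ∃ C : Set (G ℚ), IsCompact C ∧
        ∀ (a : Ω) (h : G ℚ), pureQ298 (T a ∪ {v})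
          (Function.update (extU503 (T a) (f₀ a)) v
            (locD311 v H z d (extU503 (T a) (f₀ a) v))) (Fr a) h ≠ 0 → h ∈ C := by
    rintro Fr ⟨C, hCc, hD⟩
    obtain ⟨C₁, hC₁, hs⟩ := hS Ω (fun a => pureQ298 (T a) (f₀ a) (Fr a)) C hCc hD v H z d
    refine ⟨C₁, hC₁, fun a h hne => hs a h ?_⟩
    rw [hdn Fr a h] at hne
    exact hne
  have hint : ∀ (Fr : Ω → GL (Fin 2) ℝ → ℂ) (f : G ℚ → ℂ),
      Continuous (fun p : Ω × G ℚ => (1 : ℂ) * pureQ298 (T p.1) (f₀ p.1) (Fr p.1) p.2) →
      (∀ h : G ℚ, f h = ∫ a, (1 : ℂ) * pureQ298 (T a) (f₀ a) (Fr a) h ∂ν) →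
      ∀ h : G ℚ, dStep589 v H z d f h = ∫ a, (1 : ℂ) * pureQ298 (T a ∪ {v})
        (Function.update (extU503 (T a) (f₀ a)) v
          (locD311 v H z d (extU503 (T a) (f₀ a) v))) (Fr a) h ∂ν := by
    intro Fr f hCc hE h
    have hE' : ∀ h : G ℚ, f h = ∫ a, pureQ298 (T a) (f₀ a) (Fr a) h ∂ν := by
      intro h
      rw [hE h]
      exact integral_congr_ae (Filter.Eventually.of_forall fun a => one_mul _)
    rw [hI Ω ν (fun a => pureQ298 (T a) (f₀ a) (Fr a)) (hcont1 Fr hCc) f hE' v H z d h]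
    refine integral_congr_ae (Filter.Eventually.of_forall fun a => ?_)
    show _ = (1 : ℂ) * _
    rw [one_mul]
    exact (hdn Fr a h).symm
  refine ⟨Ω, i1, i2, i3, i4, i5, i6, ν, i7, fun a => T a ∪ {v}, fun a => T' a ∪ P,
    fun a => Function.update (extU503 (T' a) (φ₀ a)) w
      (locD311 w H' z' 1 (extU503 (T' a) (φ₀ a) w)), Φc,
    fun a => Function.update (extU503 (T a) (f₀ a)) v
      (locD311 v H z d (extU503 (T a) (f₀ a) v)), F0, F1,
    ?_, ?_, htest _ F0 hB2, htest _ F1 hB3, ?_, hcont F0 hC2, hcont F1 hC3, ?_,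
    hsupp F0 ⟨C0, hC0, hD2⟩, hsupp F1 ⟨C1, hC1', hD3⟩, ?_, hint F0 f0 hC2 hE2,
    hint F1 f1 hC3 hE3⟩
  · -- the local conditions
    intro a
    obtain ⟨hT₀, hOver, hloc⟩ := hA a
    refine ⟨fun x hx => Finset.mem_union_left _ (hT₀ hx), ?_, ?_⟩
    · intro w'
      constructor
      · intro hw'
        rcases Finset.mem_union.1 hw' with h | h
        · obtain ⟨v', hv', hvw'⟩ := (hOver w').1 h
          exact ⟨v', Finset.mem_union_left _ hv', hvw'⟩
        · exact ⟨v, Finset.mem_union_right _ hvS, (hP w').1 h⟩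
      · rintro ⟨v', hv', hvw'⟩
        rcases Finset.mem_union.1 hv' with h | h
        · exact Finset.mem_union_left _ ((hOver w').2 ⟨v', h, hvw'⟩)
        · have hvv : v' = v := Finset.mem_singleton.1 h
          exact Finset.mem_union_right _ ((hP w').2 (hvv ▸ hvw'))
    · exact locAQ_newT216 hSD hSD' hUn c hT₀ hOver hloc hv0 hres hinert hsplit
        hH' hz' hH hz
  · -- the members upstairs are test functions
    intro a
    have h : pure305 (T' a ∪ P) (Function.update (extU503 (T' a) (φ₀ a)) w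
          (locD311 w H' z' 1 (extU503 (T' a) (φ₀ a) w))) (Φc a)
        = dStep589 w H' z' 1 (pure305 (T' a) (φ₀ a) (Φc a)) := funext fun h => hup a h
    rw [h]
    exact hDT' _ w hwn H' z' hH' hz' _ (hB1 a) 1
  · -- joint continuity upstairs
    have h : (fun p : Ω × G F => pure305 (T' p.1 ∪ P)
          (Function.update (extU503 (T' p.1) (φ₀ p.1)) w
            (locD311 w H' z' 1 (extU503 (T' p.1) (φ₀ p.1) w))) (Φc p.1) p.2)
        = fun p : Ω × G F => dStep589 w H' z' 1 (pure305 (T' p.1) (φ₀ p.1) (Φc p.1)) p.2 :=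
      funext fun p => hup p.1 p.2
    rw [h]
    exact hC' Ω (fun a => pure305 (T' a) (φ₀ a) (Φc a)) hC1 w H' z' 1
  · -- common compact support upstairs
    obtain ⟨C₁, hC₁, hs⟩ := hS' Ω (fun a => pure305 (T' a) (φ₀ a) (Φc a)) C' hC'c hD1 w H' z' 1
    refine ⟨C₁, hC₁, fun a h hne => hs a h ?_⟩
    rw [hup a h] at hne
    exact hne
  · -- the integral upstairs
    intro h
    rw [hI' Ω ν (fun a => pure305 (T' a) (φ₀ a) (Φc a)) hC1 φ hE1 w H' z' 1 h]
    exact integral_congr_ae (Filter.Eventually.of_forall fun a => (hup a h).symm)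

end Shape

/-! ## 4. The node and the step -/

section Top

variable (F : Type) [Field F] [NumberField F]

/-- **NODE TQ.5 `ShapeTQC216`, PROVED.** -/
theorem shapeTQC216_done : ShapeTQC216 F := by
  intro hDT' hDT hS3 hIQ Φ B hB hRam 𝔫 hlev T₀ n n₀ m hexp c _ w hwS v d hres
    H' z' H z hH' hz' hH hz φ f hgood
  have hcyc : IsCycExt ℚ F 2 := H546.isCycExt_of_isImagQuad546c F hIQ
  have hRamIn : CQ57.RamInQ57 (toBase962_732 B) := H644.unramQC644 F hS3 hIQ Φ B hB hRam
  obtain ⟨vP, fr, P, hresP, huniqv, hP, hunr⟩ := H963.placesC963 (K := ℚ) (K' := F) 2 hcyc w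
  have hvw : PlaceOver ℚ F v w := hres.1
  have hvv : v = vP := huniqv v hvw
  rw [← hvv] at hresP hP hunr
  have hdfr : d = fr := by
    have h2 := H557.two_le_absNorm_557 v
    have e : Ideal.absNorm v.asIdeal ^ d = Ideal.absNorm v.asIdeal ^ fr := by
      rw [← hres.2, ← hresP.2]
    exact Nat.pow_right_injective h2 e
  rw [← hdfr] at hunr
  obtain ⟨hinert, hsplit⟩ := hunr (hRamIn v w hvw hwS)
  have hvn : ¬ v.asIdeal ∣ 𝔫 := H846Q.not_dvd_levelQ846 hlev hvw hwS
  have hwn : ¬ w.asIdeal ∣ upI (K' := F) 𝔫 := fun h => hwS ((hlev.mem_S'_g w).2 h)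
  have hv0 : v ∉ T₀ := fun h => hvn ((hexp.div v).1 h)
  exact shapeQ_newT216 (H595.pureDC595 F) (sphDC_closed311 F) (sphDC_closed311 ℚ)
    (H90D.dContC311_h90 F) (H90D.dContC311_h90 ℚ) (H90D.dSuppC311_h90 F)
    (H90D.dSuppC311_h90 ℚ) (H90D.dIntC311_h90 F) (H90D.dIntC311_h90 ℚ)
    B981.H619.unitSphC619 hDT' hDT 𝔫 c hgood.shape P hP hv0 hres hinert hsplit hvn hwn
    hH' hz' hH hz

/-- **NODE A.1 over `ℚ` = STEP-T**, VERBATIM, unconditional. -/
theorem stepTQC216 : PQ484.StepTQC484 F :=
  stepTQC_of216 (F := F) (H861.placeC861 (K := ℚ) (K' := F)) (placeQC216_done F)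
    (H805.sysC805 F) (H805.sysC805 ℚ)
    (H32.dTestC32 (F := F)) (dTestTC216_done ℚ)
    (H32.dEkC32 (F := F)) (dEkTC216_done ℚ)
    (H32.dSuppC32 (F := F)) (H32.dSuppC32 (F := ℚ))
    (H176.dOpC176 F) (dOpTC216_done ℚ) (shapeTQC216_done F)

end Top

/-- Verbatim check. -/
example (F : Type) [Field F] [NumberField F] : Fermat.Agent.LT.T7.PQ484.StepTQC484 F :=
  stepTQC216 F

/-! ## Appendix: the equation lemmas of the definition of this file are realised HERE -/

theorem eqns_realised_stepTQDone216 : True := by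
  have _a0 := @qFnQ216.eq_1
  have _a1 := @qFnQ216.eq_def
  have _a2 := @qFnQ216.eq_unfold
  trivial

end Fermat.Agent.LT.T7.TQ216

end

end
-- ===== PACK-END LT/T7/H216/StepTQDone.lean

-- ===== PACK-BEGIN LT/T7/H484/PairAQBridge484.lean
section




/-!
# Row LT, tower T7, node T7.L2Q.1.H2a.A `CQ801.PairAQC801` (registry row 2855): THE THREE CUTS
# ARE ONE -- bridge between the cut of helper484 (`T7/H484/PairAQSpec.lean`, registry rows
# 2954-2957) and the cuts of record of helper801 (`T7/H801/PairAQCutSpec.lean`) and helper327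
# (`T7/AQ327/PairAQSpec.lean`)

OFF-MAIN.  PROVED, no hole, nothing assumed.  ADDITIVE (new names only, suffix `484`).
Ruling of the architect helper801 (note 19045): ONE set of leaves, the forms of record are
`CQ801.BaseAQC801`, `AQ327.StepTQC327 = CQ801.StepTQC801`, `AQ327.StepSQC327 = CQ801.StepSQC801`.
The nodes registered under the names of helper484 are THE SAME statements:

    stepGQC_iff484  : PQ484.StepGQC484 F Q ↔ CQ801.StepGQC801 F Q
    stepTQC_iff484  : PQ484.StepTQC484 F ↔ AQ327.StepTQC327 F        (row 2955)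
    stepSQC_iff484  : PQ484.StepSQC484 F ↔ AQ327.StepSQC327 F        (row 2956)
    stepMQC_iff484  : PQ484.StepMQC484 F ↔ AQ327.StepMQC327 F        (row 2957, HEDGE)
    baseAQC_iff484  : PQ484.BaseAQC484 P F ↔ AQ327.BaseAQC327 P F    (row 2954, empty word)
    baseAQC484_of801 : CQ801.BaseAQC801 P F → PQ484.BaseAQC484 P F
    pairAQC_of_either484 :
        (CQ801.BaseAQC801 P F ∨ (PQ484.BaseAQC484 P F ∧ PQ484.StepMQC484 F))
          → PQ484.StepTQC484 F → PQ484.StepSQC484 F → CQ801.PairAQC801 P F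

so every proof of a leaf under one name serves all cuts.
-/

set_option autoImplicit false

open AutomorphicForm IsDedekindDomain NumberField MeasureTheory
open scoped ComplexConjugate

noncomputable section

namespace Fermat.Agent.LT.T7.PQ484

open Fermat.Agent.LT.H556 Fermat.Agent.LT.H556.A0 Fermat.Agent.LT.T7 Fermat.Agent.LT.T7.H305
  Fermat.Agent.LT.T7.L2Q Fermat.Agent.LT.T7.H893 Fermat.Agent.LT.T7.H962
  Fermat.Agent.LT.T7.H732 Fermat.Agent.LT.T7.MQ298 Fermat.Agent.LT.T7.CQ801

attribute [local instance] Fermat.Agent.LT.T5.instMeasurableSpaceG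

variable {P : EKCond}
variable {F : Type} [Field F] [NumberField F]

theorem isGoodAQ_iff484 {B : L2QBase962 F} {𝔫 : Ideal (𝓞 ℚ)} {c : ℂ}
    {T₀ : Finset (HeightOneSpectrum (𝓞 ℚ))}
    {n : HeightOneSpectrum (𝓞 F) → ℕ} {m : HeightOneSpectrum (𝓞 ℚ) → ℕ}
    {φ : G F → ℂ} {f : QWt → G ℚ → ℂ} :
    IsGoodAQ484 B 𝔫 c T₀ n m φ f ↔ CQ801.IsGoodAQ801 B 𝔫 c T₀ n m φ f :=
  ⟨fun h => ⟨h.up_test, h.up_ek, h.dn_test, h.dn_ek, h.up_supp, h.dn_supp, h.shape⟩,
    fun h => ⟨h.up_test, h.up_ek, h.dn_test, h.dn_ek, h.up_supp, h.dn_supp, h.shape⟩⟩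

theorem isStepAQ_iff484 {B : L2QBase962 F} {𝔫 : Ideal (𝓞 ℚ)} {x : Gen F}
    {φ : G F → ℂ} {f : QWt → G ℚ → ℂ} {φ' : G F → ℂ} {f' : QWt → G ℚ → ℂ} :
    IsStepAQ484 B 𝔫 x φ f φ' f' ↔ CQ801.IsStepAQ801 B 𝔫 x φ f φ' f' :=
  ⟨fun h => ⟨h.up, h.dn⟩, fun h => ⟨h.up, h.dn⟩⟩

theorem isDnStabQ_iff484 {B : L2QBase962 F} {𝔫 : Ideal (𝓞 ℚ)} {f : QWt → G ℚ → ℂ} :
    IsDnStabQ484 B 𝔫 f ↔ CQ801.IsDnStabQ801 B 𝔫 f :=
  ⟨fun h => ⟨h.wfn, h.cls, h.comm⟩, fun h => ⟨h.wfn, h.cls, h.comm⟩⟩

variable (F)

/-- The generic step nodes agree (helper484 / helper801). -/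
theorem stepGQC_iff484 (Q : Gen F → Prop) : StepGQC484 F Q ↔ CQ801.StepGQC801 F Q := by
  constructor
  · intro h h3 hquad Φ B hB hram 𝔫 hlev T₀ n n₀ m hexp c hc x hx hout φ f hgood
    obtain ⟨p, hp1, hp2⟩ := h h3 hquad Φ B hB hram 𝔫 hlev T₀ n n₀ m hexp c hc x hx hout φ f
      (isGoodAQ_iff484.2 hgood)
    exact ⟨p, isGoodAQ_iff484.1 hp1, isStepAQ_iff484.1 hp2⟩
  · intro h h3 hquad Φ B hB hram 𝔫 hlev T₀ n n₀ m hexp c hc x hx hout φ f hgood
    obtain ⟨p, hp1, hp2⟩ := h h3 hquad Φ B hB hram 𝔫 hlev T₀ n n₀ m hexp c hc x hx hout φ f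
      (isGoodAQ_iff484.1 hgood)
    exact ⟨p, isGoodAQ_iff484.2 hp1, isStepAQ_iff484.2 hp2⟩

/-- The generic step nodes agree (helper484 / helper327). -/
theorem stepGQC_iff327_484 (Q : Gen F → Prop) : StepGQC484 F Q ↔ AQ327.StepGQC327 F Q :=
  (stepGQC_iff484 F Q).trans (CQ801.stepGQC_iff801 F Q)

/-- STEP-T (registry row 2955) = the form of record. -/
theorem stepTQC_iff484 : StepTQC484 F ↔ AQ327.StepTQC327 F :=
  stepGQC_iff327_484 F _

/-- STEP-T (registry row 2955) = the node of helper801. -/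
theorem stepTQC_iff801_484 : StepTQC484 F ↔ CQ801.StepTQC801 F :=
  stepGQC_iff484 F _

/-- STEP-S (registry row 2956) = the form of record. -/
theorem stepSQC_iff484 : StepSQC484 F ↔ AQ327.StepSQC327 F :=
  stepGQC_iff327_484 F _

/-- STEP-S (registry row 2956) = the node of helper801. -/
theorem stepSQC_iff801_484 : StepSQC484 F ↔ CQ801.StepSQC801 F :=
  stepGQC_iff484 F _

/-- STEP-M (registry row 2957, HEDGE) = the node of helper327. -/
theorem stepMQC_iff484 : StepMQC484 F ↔ AQ327.StepMQC327 F :=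
  stepGQC_iff327_484 F _

variable {F}

/-- The base for the empty word (registry row 2954) = the node of helper327. -/
theorem baseAQC_iff484 : BaseAQC484 P F ↔ AQ327.BaseAQC327 P F := by
  constructor
  · intro h h3 hquad Φ hΦ hconst hP B hB hram 𝔫 hlev T₀ n n₀ m hexp c hc
    obtain ⟨c₁, φ, f, hgood, hop, hne, hstab⟩ :=
      h h3 hquad Φ hΦ hconst hP B hB hram 𝔫 hlev T₀ n n₀ m hexp c hc
    exact ⟨c₁, φ, f, CQ801.isGoodAQ_iff801.1 (isGoodAQ_iff484.1 hgood), hop, hne,
      CQ801.isDnStabQ_iff801.1 (isDnStabQ_iff484.1 hstab)⟩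
  · intro h h3 hquad Φ hΦ hconst hP B hB hram 𝔫 hlev T₀ n n₀ m hexp c hc
    obtain ⟨c₁, φ, f, hgood, hop, hne, hstab⟩ :=
      h h3 hquad Φ hΦ hconst hP B hB hram 𝔫 hlev T₀ n n₀ m hexp c hc
    exact ⟨c₁, φ, f, isGoodAQ_iff484.2 (CQ801.isGoodAQ_iff801.2 hgood), hop, hne,
      isDnStabQ_iff484.2 (CQ801.isDnStabQ_iff801.2 hstab)⟩

/-- The base for the words of sphere means (node of record of helper801) gives the base for the
empty word (registry row 2954). -/
theorem baseAQC484_of801 (h : CQ801.BaseAQC801 P F) : BaseAQC484 P F :=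
  baseAQC_iff484.2 (CQ801.baseAQC327_of801 h)

/-- **THE NODE `PairAQC801` FROM EITHER CUT, in the names of the registry rows 2954-2957.** -/
theorem pairAQC_of_either484
    (hB : CQ801.BaseAQC801 P F ∨ (BaseAQC484 P F ∧ StepMQC484 F))
    (hT : StepTQC484 F) (hS : StepSQC484 F) : CQ801.PairAQC801 P F := by
  refine CQ801.pairAQC_of_either801 ?_ ((stepTQC_iff484 F).1 hT) ((stepSQC_iff484 F).1 hS)
  rcases hB with h | ⟨h1, h2⟩
  · exact Or.inl h
  · exact Or.inr ⟨baseAQC_iff484.1 h1, (stepMQC_iff484 F).1 h2⟩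

end Fermat.Agent.LT.T7.PQ484

end

end
-- ===== PACK-END LT/T7/H484/PairAQBridge484.lean

-- ===== PACK-BEGIN LT/T7/H216/PairAQOpen.lean
section




/-!
# Row LT, tower T7, node T7.L2Q.1.H2a.A `CQ801.PairAQC801` (first pair over `ℚ`, registry row
# 2855): INTEGRATION of the two finite steps (helper216, OFF-MAIN)

OFF-MAIN.  Complete proofs, nothing assumed.

    pairAQC_of_base216 : CQ801.BaseAQC801 P F → CQ801.PairAQC801 P F
    pairAQC_of_open216 : (CQ801.BaseAQC801 P F ∨ (PQ484.BaseAQC484 P F ∧ PQ484.StepMQC484 F))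
                            → CQ801.PairAQC801 P F

= `PQ484.pairAQC_of_either484` (helper484 `PairAQBridge484.lean`) with the two closed steps at
the finite places: `TQ216.stepTQC216` (`StepTQDone.lean`, helper216) and `H846Q.stepSQC846`
(helper846), ONE closure, byte-identical copies.  OPEN for `PairAQC801`: the base node
(`CQ801.BaseAQC801`, all words of sphere means; or `PQ484.BaseAQC484` with the generic step
`PQ484.StepMQC484`) ONLY.
-/

set_option autoImplicit false

open AutomorphicForm IsDedekindDomain NumberField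

noncomputable section

namespace Fermat.Agent.LT.T7.TQ216

open Fermat.Agent.LT.H556 Fermat.Agent.LT.T7

variable (P : EKCond) (F : Type) [Field F] [NumberField F]

/-- **`PairAQC801` from either form of the base**: the two steps at the finite places are
closed. -/
theorem pairAQC_of_open216
    (hB : CQ801.BaseAQC801 P F ∨ (PQ484.BaseAQC484 P F ∧ PQ484.StepMQC484 F)) :
    CQ801.PairAQC801 P F :=
  PQ484.pairAQC_of_either484 hB (stepTQC216 F) (H846Q.stepSQC846 F)

/-- **`PairAQC801` from the base for the words of sphere means.** -/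
theorem pairAQC_of_base216 (hB : CQ801.BaseAQC801 P F) : CQ801.PairAQC801 P F :=
  pairAQC_of_open216 P F (Or.inl hB)

end Fermat.Agent.LT.T7.TQ216

end

end
-- ===== PACK-END LT/T7/H216/PairAQOpen.lean

-- ===== PACK-BEGIN LT/T7/DQ773/HaarCplxEx.lean
section




/-!
# Row LT, tower T7, leaf T7.L2Q.1.H2a.A.0.D.0 `DQ773.HaarCplxExC773` (helper773, registry row
# 3175): CLOSED, UNCONDITIONAL

OFF-MAIN.  Complete proof, nothing assumed.  The Haar measure of the closed station
`T3.AS.AbelCplxSmoothC` (`T3/Closed.lean` `abelCplxSmooth_closed`).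
-/

set_option autoImplicit false

noncomputable section

namespace Fermat.Agent.LT.T7.DQ773

/-- **LEAF DQ.0 = HAAR-CPLX-EX, CLOSED.** -/
theorem haarCplxExC773 : HaarCplxExC773 := by
  obtain ⟨μc, hμc, -⟩ := Fermat.Agent.LT.T3.abelCplxSmooth_closed
  exact ⟨μc, hμc⟩

end Fermat.Agent.LT.T7.DQ773

end

end
-- ===== PACK-END LT/T7/DQ773/HaarCplxEx.lean

-- ===== PACK-BEGIN LT/T7/H961/NormFrameQ.lean
section




/-!
# Row LT, tower T7, leaf T7.L2Q.1.H2a.A.0.D `DQ773.NormFrameQC773` (cut of helper773): SPARE, PROVED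

OFF-MAIN.  Spare proof by helper961.  ADDITIVE (new names only, suffix `961`); no hole, nothing
assumed.  Vocabulary: `T7/DQ773/DatQSpec.lean` of helper773 (byte-identical copy).

    normFrameQC_closed961 (F) : DQ773.NormFrameQC773 F                           (VERBATIM)

The frame is the one of `normFrameC_closed961` for `K = ℚ`, `K' = F` (`F/ℚ` is Galois: degree
`2`).  New: `N α' > 0` (`N x = φ(x) conj φ(x)` for the two complex embeddings) and
`log |N α'| = 2 log w(α')` (product formula at infinity, one complex place).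
-/

set_option autoImplicit false
set_option linter.style.haveILetI false
set_option linter.unusedSectionVars false

open IsDedekindDomain NumberField

noncomputable section

namespace Fermat.Agent.LT.T7.H961

open Fermat.Agent.LT.T7 Fermat.Agent.LT.T7.H893 Fermat.Agent.LT.T7.B981

variable {F : Type} [Field F] [NumberField F]

theorem subsingleton_place961 (hIQ : IsImagQuad F) : Subsingleton (InfinitePlace F) := by
  have h := hIQ.1
  rw [Nat.card_eq_fintype_card] at h
  exact Fintype.card_le_one_iff_subsingleton.mp h.le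

theorem finrank_imagQuad961 (hIQ : IsImagQuad F) : Module.finrank ℚ F = 2 := by
  classical
  haveI : IsTotallyComplex F := ⟨hIQ.2⟩
  have h1 := hIQ.1
  rw [Nat.card_eq_fintype_card, InfinitePlace.card_eq_nrRealPlaces_add_nrComplexPlaces,
    IsTotallyComplex.nrRealPlaces_eq_zero, zero_add] at h1
  rw [IsTotallyComplex.finrank, h1]

theorem isGalois_imagQuad961 (hIQ : IsImagQuad F) : IsGalois ℚ F := by
  haveI : Algebra.IsQuadraticExtension ℚ F := { finrank_eq_two' := finrank_imagQuad961 hIQ }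
  infer_instance

theorem norm_pos961 (hIQ : IsImagQuad F) {x : F} (hx : x ≠ 0) : 0 < Algebra.norm ℚ x := by
  classical
  haveI : IsTotallyComplex F := ⟨hIQ.2⟩
  obtain ⟨w⟩ : Nonempty (InfinitePlace F) := inferInstance
  set φ : F →+* ℂ := w.embedding with hφ
  have hne : ComplexEmbedding.conjugate φ ≠ φ := fun h =>
    IsTotallyComplex.complexEmbedding_not_isReal φ (ComplexEmbedding.isReal_iff.mpr h)
  have hcard : Fintype.card (F →+* ℂ) = 2 := by
    rw [Embeddings.card, finrank_imagQuad961 hIQ]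
  have huniv : (Finset.univ : Finset (F →+* ℂ)) = {φ, ComplexEmbedding.conjugate φ} := by
    symm
    apply Finset.eq_univ_of_card
    rw [Finset.card_pair hne.symm, hcard]
  have hprod : (algebraMap ℚ ℂ) (Algebra.norm ℚ x) = φ x * ComplexEmbedding.conjugate φ x := by
    rw [Algebra.norm_eq_prod_embeddings ℚ ℂ x,
      ← Fintype.prod_equiv (RingHom.equivRatAlgHom F ℂ) (fun f => f x) (fun ψ => ψ x)
        (fun _ => by simp [RingHom.equivRatAlgHom_apply]),
      huniv, Finset.prod_pair hne.symm]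
  have hsq : ((Algebra.norm ℚ x : ℚ) : ℂ) = ((Complex.normSq (φ x) : ℝ) : ℂ) := by
    rw [← eq_ratCast (algebraMap ℚ ℂ), hprod, ComplexEmbedding.conjugate_coe_eq,
      Complex.mul_conj]
  have hre : ((Algebra.norm ℚ x : ℚ) : ℝ) = Complex.normSq (φ x) := by
    have := congrArg Complex.re hsq
    simpa using this
  have hpos : 0 < Complex.normSq (φ x) :=
    Complex.normSq_pos.mpr ((map_ne_zero φ).mpr hx)
  rw [← hre] at hpos
  exact_mod_cast hpos

theorem log_normQ961 (hIQ : IsImagQuad F) (α' : Fˣ) (v : InfinitePlace ℚ)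
    (w : InfinitePlace F) :
    Real.log (v (Algebra.norm ℚ (α' : F))) = 2 * Real.log (w (α' : F)) := by
  classical
  haveI : IsTotallyComplex F := ⟨hIQ.2⟩
  haveI := subsingleton_place961 hIQ
  have h1 : v (Algebra.norm ℚ (α' : F)) = ((|Algebra.norm ℚ (α' : F)| : ℚ) : ℝ) := by
    rw [Subsingleton.elim v Rat.infinitePlace, Rat.infinitePlace_apply]
  have h2 := InfinitePlace.prod_eq_abs_norm (K := F) (α' : F)
  have huniv : (Finset.univ : Finset (InfinitePlace F)) = {w} := by
    ext w'
    simp [Subsingleton.elim w' w]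
  rw [huniv, Finset.prod_singleton, IsTotallyComplex.mult_eq] at h2
  rw [h1, ← h2, Real.log_pow]
  norm_num

open Classical in
/-- **LEAF `DQ773.NormFrameQC773`, VERBATIM.** -/
theorem normFrameQC_closed961 (F : Type) [Field F] [NumberField F] :
    DQ773.NormFrameQC773 F := by
  intro hIQ 𝔫 P' e' a₀' α' h𝔫 hF
  haveI : IsGalois ℚ F := isGalois_imagQuad961 hIQ
  refine ⟨P'.image (below961 (K := ℚ)),
    fun v => ∑ w ∈ fib981 (K := ℚ) P' v, resDeg981 v w * e' w,
    Algebra.intNorm (𝓞 ℚ) (𝓞 F) a₀',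
    Units.map (Algebra.norm ℚ : F →* ℚ) α', ?_, ?_, ?_, ?_, ?_⟩
  · refine ⟨h𝔫, hF.nonempty.image _, ?_, ?_, ?_, ?_, ?_⟩
    · intro v hv hdvd
      obtain ⟨w, hw, rfl⟩ := Finset.mem_image.mp hv
      refine hF.prime w hw ?_
      rw [Ideal.dvd_iff_le] at hdvd ⊢
      change Ideal.map (algebraMap (𝓞 ℚ) (𝓞 F)) 𝔫 ≤ w.asIdeal
      rw [Ideal.map_le_iff_le_comap]
      exact hdvd
    · intro v hv
      obtain ⟨w, hw, rfl⟩ := Finset.mem_image.mp hv
      have hwf : w ∈ fib981 (K := ℚ) P' (below961 (K := ℚ) w) :=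
        Finset.mem_filter.mpr ⟨hw, (placeOver_iff961 _ w).mpr rfl⟩
      exact lt_of_lt_of_le (Nat.mul_pos (resDeg_below_pos961 w) (hF.pos w hw))
        (Finset.single_le_sum (f := fun w' => resDeg981 (below961 (K := ℚ) w) w' * e' w')
          (fun _ _ => Nat.zero_le _) hwf)
    · rw [span_norm961 P' e' a₀' hF.span, prod_fibre961]
    · exact norm_sub_one_mem961 𝔫 a₀' hF.cong
    · rw [Units.coe_map, Algebra.algebraMap_intNorm (L := F), ← hF.coe]
  · intro v
    change 0 < InfinitePlace.embedding_of_isReal (BQ87.ratReal87 v)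
      ((Units.map (Algebra.norm ℚ : F →* ℚ) α' : ℚˣ) : ℚ)
    rw [eq_ratCast, Units.coe_map]
    exact_mod_cast norm_pos961 hIQ α'.ne_zero
  · intro v
    rw [Finset.mem_image]
    constructor
    · rintro ⟨w, hw, rfl⟩
      exact ⟨w, hw, (placeOver_iff961 _ w).mpr rfl⟩
    · rintro ⟨w, hw, hvw⟩
      exact ⟨w, hw, (placeOver_iff961 v w).mp hvw⟩
  · intro v _
    rfl
  · intro v w
    rw [Units.coe_map]
    exact log_normQ961 hIQ α' v w

end Fermat.Agent.LT.T7.H961

end

end
-- ===== PACK-END LT/T7/H961/NormFrameQ.lean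

-- ===== PACK-BEGIN LT/T7/H131/DownFinQ.lean
section






/-!
# Row LT, tower T7, node T7.L2Q.1.H2a.A.0.D.3 `DQ773.DownFinQC773` (registry row 3177, owner
# helper131)

OFF-MAIN.  Complete proofs, nothing assumed.

    downFinQC_h131 (F) : DQ773.DownFinQC773 F          (VERBATIM, UNCONDITIONAL)

PORT over `ℚ` (`K = ℚ`, `K' = F`, `ℓ = 2`) of the top `B981.DF619.downFinC_of619` of helper619
(cubic twin, registry row 2981), with the closed leaf `DF619.PushCalcC619 ℚ F` of helper717
(`H717.pushCalcC717`, every extension of number fields).  `A v = pushFin981 P' A' v`,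
`f₀ v = 1_{U(m v)}` at `v ∈ T₀` and a Satake pair for `A v` elsewhere
(`T3.H263.satakeLocC263 ℚ`).  `P ∩ T₀ = ∅`: the hypothesis `P` prime to `𝔫` and
`IsLevFnQ57.div`.  A place `w` over `v ∈ P` is outside `S'` (`IsLevQ57.mem_S'_g`: otherwise
`𝔫 𝒪_F ⊆ w`, so `𝔫 ⊆ v`), hence unramified (`CQ57.UnramQC57`, closed: helper644
`H644.unramQC644`), and `H963.placesC963 ℚ F 2` (`MQ298.isCycExt_of_imagQuad298`) gives the
residue degrees: `2` at an inert place, `1` at a split place.  Bridge T3 → T6:
`DF619.bridge619` (one field).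
-/

set_option autoImplicit false
set_option linter.unusedSectionVars false
set_option linter.unusedVariables false

open IsDedekindDomain NumberField
open scoped Classical

noncomputable section

namespace Fermat.Agent.LT.T7.H131

open Fermat.Agent.LT Fermat.Agent.LT.T7 Fermat.Agent.LT.T7.B981 Fermat.Agent.LT.T7.H893
open Fermat.Agent.LT.T7.B981.SS503 Fermat.Agent.LT.T7.B981.DF619
open Fermat.Agent.LT.T7.L2Q Fermat.Agent.LT.T7.H962 Fermat.Agent.LT.T7.H732

/-- A place of `F` over a place of `ℚ` prime to the level `𝔫` is outside `S'`. -/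
theorem notMem_S'_of_prime_h131 {F : Type} [Field F] [NumberField F]
    {B : L2QBase962 F} {𝔫 : Ideal (𝓞 ℚ)} (hL : CQ57.IsLevQ57 B 𝔫)
    {v : HeightOneSpectrum (𝓞 ℚ)} {w : HeightOneSpectrum (𝓞 F)} (hvw : PlaceOver ℚ F v w)
    (hv : ¬ v.asIdeal ∣ 𝔫) : w ∉ B.S' := by
  intro hw
  apply hv
  have hdvd := (hL.mem_S'_g w).1 hw
  have hle : upI (K' := F) 𝔫 ≤ w.asIdeal := Ideal.le_of_dvd hdvd
  refine Ideal.dvd_iff_le.2 (fun a ha => ?_)
  exact (hvw a (algebraMap (𝓞 ℚ) (𝓞 F) a) rfl).2 (hle (Ideal.mem_map_of_mem _ ha))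

/-- **NODE DQ.3 `DownFinQC773`, CLOSED.** -/
theorem downFinQC_h131 (F : Type) [Field F] [NumberField F] : DQ773.DownFinQC773 F := by
  intro h3 hquad Φ B hB hRam 𝔫 hL T₀ n n₀ m hE P' P hP'S hP hPn A' φ₀ hA' hpair hunit
  have hcyc : IsCycExt ℚ F 2 := MQ298.isCycExt_of_imagQuad298 hquad
  have hunr := H644.unramQC644 F h3 hquad Φ B hB hRam
  -- the push-forward
  have hpc := fun v : HeightOneSpectrum (𝓞 ℚ) =>
    H717.pushCalcC717 ℚ F P' A' v (fun w _ => hA' w)
  -- a Satake pair for the push-forward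
  have hsat : ∀ v : HeightOneSpectrum (𝓞 ℚ), ∃ f : GL (Fin 2) (v.adicCompletion ℚ) → ℂ,
      T3.AS.IsSatakePair v f (pushFin981 (K := ℚ) P' A' v) :=
    fun v => T3.H263.satakeLocC263 ℚ v _ (hpc v).1
  choose g hg using hsat
  -- `P` and `T₀` are disjoint
  have hdisj : ∀ v ∈ P, v ∉ T₀ := fun v hv hvT => hPn v hv ((hE.div v).1 hvT)
  -- the bridge upstairs
  have hup : ∀ w ∈ P', ∃ A : (ℤ × ℤ) →₀ ℂ, IsSphFn893 (φ₀ w) A ∧
      ∀ x y : ℂ, x ≠ 0 → y ≠ 0 →
        satT893 (Ideal.absNorm w.asIdeal) A x y = T3.AS.laurent (A' w) x y :=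
    fun w hw => bridge619 w (φ₀ w) (A' w) (hA' w) (hpair w hw)
  refine ⟨fun v => pushFin981 (K := ℚ) P' A' v,
    fun v => if v ∈ T₀ then unitFn893 (m v) else g v, fun v => (hpc v).1, fun v _ => rfl,
    ?_, ?_, ?_⟩
  · intro v hv
    show T3.AS.IsSatakePair v (if v ∈ T₀ then unitFn893 (m v) else g v) _
    rw [if_neg (hdisj v hv)]
    exact hg v
  · intro v hv
    show (if v ∈ T₀ then unitFn893 (m v) else g v) = _
    rw [if_pos hv]
  · intro v hv hvT₀
    have hvP : v ∈ P := by
      rcases Finset.mem_union.1 hv with h | h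
      · exact absurd h hvT₀
      · exact h
    -- the places over `v`
    have key : ∀ w : HeightOneSpectrum (𝓞 F), PlaceOver ℚ F v w →
        ∃ f : ℕ, HasResDeg ℚ F v w f ∧
          ((∀ w' : HeightOneSpectrum (𝓞 F), PlaceOver ℚ F v w' → w' = w) → f = 2) ∧
          ∀ u : ℕ → HeightOneSpectrum (𝓞 F), (∀ j : ℕ, PlaceOver ℚ F v (u j)) →
            (∀ j j' : ℕ, j < 2 → j' < 2 → u j = u j' → j = j') →
            f = 1 ∧ ∃ j : ℕ, j < 2 ∧ u j = w := by
      intro w how
      have hwS : w ∉ (toBase962_732 B).S' := notMem_S'_of_prime_h131 hL how (hPn v hvP)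
      obtain ⟨v', f, -, hres, huniq, -, hun⟩ := H963.placesC963 ℚ F 2 hcyc w
      have hv' : v = v' := huniq v how
      subst hv'
      obtain ⟨h1, h2⟩ := hun (hunr v w how hwS)
      exact ⟨f, hres, h1, h2⟩
    let Aup : HeightOneSpectrum (𝓞 F) → (ℤ × ℤ) →₀ ℂ := fun w =>
      if hw : w ∈ P' then (hup w hw).choose else Finsupp.single ((0 : ℤ), (0 : ℤ)) (1 : ℂ)
    have hAup_pos : ∀ w (hw : w ∈ P'), Aup w = (hup w hw).choose := fun w hw => dif_pos hw
    have hAup_neg : ∀ w, w ∉ P' → Aup w = Finsupp.single ((0 : ℤ), (0 : ℤ)) (1 : ℂ) :=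
      fun w hw => dif_neg hw
    obtain ⟨Av, hAv, hAvs⟩ := bridge619 v (g v) _ (hpc v).1 (hg v)
    refine ⟨Aup, Av, ?_, ?_, ?_, ?_⟩
    · show IsSphFn893 (if v ∈ T₀ then unitFn893 (m v) else g v) Av
      rw [if_neg hvT₀]
      exact hAv
    · intro w how
      by_cases hw : w ∈ P'
      · rw [hAup_pos w hw]
        exact (hup w hw).choose_spec.1
      · rw [hAup_neg w hw, hunit w hw ⟨v, hvP, how⟩]
        exact H619.unitSphC619 _
    · -- the inert clause
      intro w how honly x y hx hy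
      obtain ⟨w₀, hw₀, hov⟩ := (hP v).1 hvP
      have hw₀w : w₀ = w := honly w₀ hov
      subst hw₀w
      obtain ⟨f, hres, hf, -⟩ := key w₀ how
      have hfl : f = 2 := hf honly
      have hfib : fib981 (K := ℚ) P' v = {w₀} := by
        ext w'
        rw [mem_fib619, Finset.mem_singleton]
        constructor
        · rintro ⟨-, h⟩
          exact honly w' h
        · rintro rfl
          exact ⟨hw₀, how⟩
      have e1 := hAvs x y hx hy
      have e2 := (hpc v).2 x y hx hy
      rw [hfib, Finset.prod_singleton, resDeg_eq619 v w₀ f hres] at e2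
      have e3 : satT893 (Ideal.absNorm w₀.asIdeal) (Aup w₀) (x ^ f) (y ^ f)
          = T3.AS.laurent (A' w₀) (x ^ f) (y ^ f) := by
        rw [hAup_pos w₀ hw₀]
        exact (hup w₀ hw₀).choose_spec.2 (x ^ f) (y ^ f) (pow_ne_zero _ hx) (pow_ne_zero _ hy)
      rw [hres.2, hfl] at e3
      rw [hfl] at e2
      show satT893 (Ideal.absNorm v.asIdeal) Av x y
        = satT893 (Ideal.absNorm v.asIdeal ^ 2) (Aup w₀) (x ^ 2) (y ^ 2)
      rw [e1, e2, e3]
    · -- the split clause
      intro u hu hinj x y hx hy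
      have hfib : fib981 (K := ℚ) P' v
          = ((Finset.range 2).filter (fun j => u j ∈ P')).image u := by
        ext w
        rw [mem_fib619, Finset.mem_image]
        constructor
        · rintro ⟨hwP', how⟩
          obtain ⟨f, -, -, h3⟩ := key w how
          obtain ⟨-, j, hj, rfl⟩ := h3 u hu hinj
          exact ⟨j, Finset.mem_filter.2 ⟨Finset.mem_range.2 hj, hwP'⟩, rfl⟩
        · rintro ⟨j, hj, rfl⟩
          exact ⟨(Finset.mem_filter.1 hj).2, hu j⟩
      have hinj' : ∀ j ∈ (Finset.range 2).filter (fun j => u j ∈ P'),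
          ∀ j' ∈ (Finset.range 2).filter (fun j => u j ∈ P'), u j = u j' → j = j' := by
        intro j hj j' hj' h
        exact hinj j j' (Finset.mem_range.1 (Finset.mem_filter.1 hj).1)
          (Finset.mem_range.1 (Finset.mem_filter.1 hj').1) h
      rw [hAvs x y hx hy, (hpc v).2 x y hx hy, hfib, Finset.prod_image hinj',
        Finset.prod_filter]
      refine Finset.prod_congr rfl fun j hj => ?_
      obtain ⟨f, hres, -, h3⟩ := key (u j) (hu j)
      obtain ⟨hf1, -⟩ := h3 u hu hinj
      subst hf1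
      by_cases hjP : u j ∈ P'
      · rw [if_pos hjP, resDeg_eq619 v (u j) 1 hres, pow_one, pow_one]
        have e3 : satT893 (Ideal.absNorm (u j).asIdeal) (Aup (u j)) x y
            = T3.AS.laurent (A' (u j)) x y := by
          rw [hAup_pos (u j) hjP]
          exact (hup (u j) hjP).choose_spec.2 x y hx hy
        rw [hres.2, pow_one] at e3
        exact e3.symm
      · rw [if_neg hjP, hAup_neg (u j) hjP, satT_unit619]

end Fermat.Agent.LT.T7.H131

/-- Verbatim check. -/
example (F : Type) [Field F] [NumberField F] : Fermat.Agent.LT.T7.DQ773.DownFinQC773 F :=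
  Fermat.Agent.LT.T7.H131.downFinQC_h131 F

end

end
-- ===== PACK-END LT/T7/H131/DownFinQ.lean

-- ===== PACK-BEGIN LT/T7/H75/SwapDnSumQ.lean
section





/-!
# Row LT, tower T7, the swap over `ℚ` (cut of helper973): THE KEY IDENTITY DOWNSTAIRS
# `PBQ973.SwapDnSumQC973` and the leaf `PBQ973.SwapDnSuppQC973` UNCONDITIONAL (helper75,
# registry rows 3131 (spare) / 3142 (owner))

OFF-MAIN.  No hole, nothing assumed.  ADDITIVE (namespace `Fermat.Agent.LT.T7.H75.SQ`).

    swapDnSumQC75  (F) : PBQ973.SwapDnSumQC973 F         (tool leaf D0, both types)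
    swapDnSuppQC75 (F) : PBQ973.SwapDnSuppQC973 F        (leaf D5, both types)

VERBATIM vs `LT/T7/H973/PreBQSpec.lean` (helper973@a2ff41d85, sha256 200eee4e), UNCONDITIONAL.

Proof.  `swap_sum75` (`SwapSum.lean`: the induction over the places of the level of helper470,
with representatives in the supports, for pure tensors with an arbitrary archimedean factor)
for `K = ℚ`, the factor `Fr ∘ reGLQ298` (invariant under the left translations by the elements
which are trivial at infinity), the level exponents `m` (`u ∣ 𝔫`, so `m u ≥ 1` and the Iwahori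
function is right `U(m u)`-invariant of finite support), the partner family `fb`
(`IsBadPartQ973.inv_down`) and the unit components of the first pair (`LocAQ801`).  THE SAME
elements and weights for the two types and all parameters.
-/

set_option autoImplicit false
set_option linter.style.haveILetI false
set_option linter.unusedSectionVars false
set_option linter.unusedVariables false

open AutomorphicForm IsDedekindDomain NumberField MeasureTheory
open scoped ComplexConjugate

noncomputable section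

namespace Fermat.Agent.LT.T7.H75.SQ

open Fermat.Agent.LT Fermat.Agent.LT.H556 Fermat.Agent.LT.H556.A0 Fermat.Agent.LT.T7
open Fermat.Agent.LT.T7.H305 Fermat.Agent.LT.T7.L2Q Fermat.Agent.LT.T7.H893
open Fermat.Agent.LT.T7.H962 Fermat.Agent.LT.T7.H732 Fermat.Agent.LT.T7.MQ298
open Fermat.Agent.LT.T7.CQ801 Fermat.Agent.LT.T7.PBQ973

attribute [local instance] Fermat.Agent.LT.T5.instMeasurableSpaceG

/-- The real component of an element which is trivial at infinity. -/
theorem reGL_of_triv75 {x : G ℚ} (h : ∀ w : InfinitePlace ℚ, TrivAtInf w x) :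
    reGLQ298 x = 1 := by
  apply Units.ext
  ext i j
  show InfinitePlace.Completion.extensionEmbeddingOfIsReal Rat.isReal_infinitePlace
      (((x : Matrix (Fin 2) (Fin 2) (Adl ℚ)) i j).1 Rat.infinitePlace)
    = (1 : Matrix (Fin 2) (Fin 2) ℝ) i j
  rw [h Rat.infinitePlace i j, Matrix.one_apply, Matrix.one_apply]
  split_ifs
  · rw [map_one]
  · rw [map_zero]

/-- The factor at the real place is invariant under the left translations by the elements
which are trivial at infinity. -/
theorem reGL_transl75 (Fr : GL (Fin 2) ℝ → ℂ) (x y : G ℚ)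
    (h : ∀ w : InfinitePlace ℚ, TrivAtInf w x) :
    (fun z : G ℚ => Fr (reGLQ298 z)) (x⁻¹ * y) = (fun z : G ℚ => Fr (reGLQ298 z)) y := by
  show Fr (reGLQ298 (x⁻¹ * y)) = Fr (reGLQ298 y)
  rw [map_mul, map_inv, reGL_of_triv75 h, inv_one, one_mul]

/-- The pure tensors over `ℚ` are pure tensors with a factor at infinity. -/
theorem pureQ_eq75 (T : Finset (HeightOneSpectrum (𝓞 ℚ)))
    (f₀ : ∀ v : HeightOneSpectrum (𝓞 ℚ), GL (Fin 2) (v.adicCompletion ℚ) → ℂ)
    (Fr : GL (Fin 2) ℝ → ℂ) (h : G ℚ) :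
    pureQ298 T f₀ Fr h = pureA75 T f₀ (fun z : G ℚ => Fr (reGLQ298 z)) h := rfl

/-- **LEAF PBQ.0.D0 `PBQ973.SwapDnSumQC973`: THE KEY IDENTITY DOWNSTAIRS over `ℚ`.** -/
theorem swapDnSumQC75 (F : Type) [Field F] [NumberField F] : PBQ973.SwapDnSumQC973 F := by
  classical
  intro hsq hiq Φe B hB hram g hg 𝔫 h𝔫 μr μc hμr hμc T₀ n n₀ m hexp c hc c₁ Φ₁ F₁ hA fb hfb
    Ω iT iC iT2 iSC iM iB ν iF T T' φ₀ Φ f₀ F0 F1 hdat
  have huT₀ : (toBase962_732 B).u ∈ T₀ := (hexp.div _).2 h𝔫.u_level
  obtain ⟨s, β, hs, hrep⟩ := swap_sum75 h𝔫.level_ne hexp.lev_dn h𝔫.u_level T₀ fb hfb.inv_down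
  refine ⟨s, β, hs, fun t ω y => ?_⟩
  have hloc := hdat.1 ω
  have h1 := hrep (T ω) (f₀ ω) (fun z : G ℚ => archQ973 F0 F1 t ω (reGLQ298 z))
    (reGL_transl75 _) hloc.1 hloc.2.2.1 y
  have e : swDnQ973 (toBase962_732 B) T₀ fb (f₀ ω)
      = fun v => if v ∈ T₀ then (if v = (toBase962_732 B).u then iwFn893 else fb v)
          else f₀ ω v := by
    funext v
    show (if v = (toBase962_732 B).u then iwFn893 else if v ∈ T₀ then fb v else f₀ ω v) = _
    by_cases hvu : v = (toBase962_732 B).u
    · rw [if_pos hvu, if_pos (hvu ▸ huT₀), if_pos hvu]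
    · rw [if_neg hvu]
      by_cases hvT : v ∈ T₀
      · rw [if_pos hvT, if_pos hvT, if_neg hvu]
      · rw [if_neg hvT, if_neg hvT]
  rw [e, pureQ_eq75, ← h1]
  rfl

/-- **LEAF PBQ.0.D5 `PBQ973.SwapDnSuppQC973`**, UNCONDITIONAL. -/
theorem swapDnSuppQC75 (F : Type) [Field F] [NumberField F] : PBQ973.SwapDnSuppQC973 F :=
  swapDnSuppQC_of75 F (swapDnSumQC75 F)

end Fermat.Agent.LT.T7.H75.SQ

end

end
-- ===== PACK-END LT/T7/H75/SwapDnSumQ.lean

-- ===== PACK-BEGIN LT/T7/H75/SwapDnTestQ.lean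
section





/-!
# Row LT, tower T7, the swap over `ℚ` (cut of helper973): leaves D1 `SwapDnTestQC973` and D6
# `SwapMemDnQC973`, UNCONDITIONAL (helper75, spares of registry rows 3138 / 3143)

OFF-MAIN.  No hole, nothing assumed.  ADDITIVE (namespace `Fermat.Agent.LT.T7.H75.SQ`).

    swapDnTestQC75 (F) : PBQ973.SwapDnTestQC973 F      (field dn_test, both types)
    swapMemDnQC75  (F) : PBQ973.SwapMemDnQC973 F       (members downstairs, both types)

VERBATIM vs `LT/T7/H973/PreBQSpec.lean` (helper973@a2ff41d85, sha256 200eee4e), UNCONDITIONAL.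

Proof.  `isTestFn_wsum75` (one field, any `K_∞`-type): a finite combination of left translates
of a test function by elements which are trivial at infinity is a test function, PROVIDED it is
bi-invariant under the level group (continuity, compact support, smoothness at infinity and the
`K_∞`-equivariance on both sides pass to the combination: the translating elements commute with
`K_∞`; the left invariance under `U(𝔫)` does not).  The combination is the key identity
`swapDnSumQC75`; the bi-invariance under `U(𝔫)` is read off the components: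
`H459.pureQ_swDn_inv459` (members), `H459.swapDnInvQC459` (the average), helper459, byte copy.
-/

set_option autoImplicit false
set_option linter.style.haveILetI false
set_option linter.unusedSectionVars false
set_option linter.unusedVariables false

open AutomorphicForm IsDedekindDomain NumberField MeasureTheory
open scoped ComplexConjugate

noncomputable section

namespace Fermat.Agent.LT.T7.H75.SQ

open Fermat.Agent.LT Fermat.Agent.LT.H556 Fermat.Agent.LT.H556.A0 Fermat.Agent.LT.T7
open Fermat.Agent.LT.T7.H305 Fermat.Agent.LT.T7.L2Q Fermat.Agent.LT.T7.H893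
open Fermat.Agent.LT.T7.H962 Fermat.Agent.LT.T7.H732 Fermat.Agent.LT.T7.MQ298
open Fermat.Agent.LT.T7.CQ801 Fermat.Agent.LT.T7.PBQ973 Fermat.Agent.LT.H129

attribute [local instance] Fermat.Agent.LT.T5.instMeasurableSpaceG

section OneField

variable {K : Type} [Field K] [NumberField K]

/-- An element which is trivial at infinity commutes with an element which is trivial at the
finite places. -/
theorem commute_fin_inf75 {b r : G K} (hb : ∀ w : InfinitePlace K, TrivAtInf w b)
    (hr : ∀ v : HeightOneSpectrum (𝓞 K), TrivAtFin v r) : b * r = r * b := by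
  apply G_ext129
  · intro w
    rw [map_mul, map_mul, (trivAtInf_iff129 w b).1 (hb w), one_mul, mul_one]
  · intro v
    rw [map_mul, map_mul, (trivAtFin_iff129 v r).1 (hr v), one_mul, mul_one]

theorem trivAtInf_inv75 {b : G K} (hb : ∀ w : InfinitePlace K, TrivAtInf w b) :
    ∀ w : InfinitePlace K, TrivAtInf w b⁻¹ := by
  intro w
  rw [trivAtInf_iff129, map_inv, (trivAtInf_iff129 w b).1 (hb w), inv_one]

/-- **A finite combination of left translates of a test function**, by elements which are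
trivial at infinity, which is bi-invariant under the level group, is a test function. -/
theorem isTestFn_wsum75 {𝔫 : Ideal (𝓞 K)} {τ : G K → ℂ} {ψ : G K → ℂ}
    (hψ : T5.IsTestFn 𝔫 τ ψ) (X : Finset (G K))
    (hX : ∀ x ∈ X, ∀ w : InfinitePlace K, TrivAtInf w x) (c : G K → ℂ) {φ : G K → ℂ}
    (hφ : ∀ y, φ y = ∑ x ∈ X, c x * ψ (x⁻¹ * y))
    (hlev : ∀ u : G K, InLevelGroup 𝔫 u → ∀ y : G K, φ (u * y) = φ y ∧ φ (y * u) = φ y) :
    T5.IsTestFn 𝔫 τ φ := by
  have hφ' : φ = fun y => ∑ x ∈ X, c x * ψ (x⁻¹ * y) := funext hφ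
  refine ⟨hψ.ktype, ?_, ?_, ?_, ?_⟩
  · rw [hφ']
    exact continuous_finsetSum _ fun x _ =>
      continuous_const.mul (hψ.cont.comp (continuous_const.mul continuous_id))
  · refine HasCompactSupport.intro
      (K := ⋃ x ∈ X, (fun z => x * z) '' tsupport ψ) ?_ ?_
    · exact X.isCompact_biUnion fun x _ => hψ.supp.image (continuous_const.mul continuous_id)
    · intro y hy
      rw [hφ y]
      refine Finset.sum_eq_zero fun x hx => ?_
      have h0 : ψ (x⁻¹ * y) = 0 := by
        by_contra hne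
        apply hy
        refine Set.mem_biUnion hx ⟨x⁻¹ * y, subset_tsupport _ hne, ?_⟩
        show x * (x⁻¹ * y) = y
        rw [mul_inv_cancel_left]
      rw [h0, mul_zero]
  · intro n h hfin hsm g
    have e : (fun t => φ (g * h t)) = fun t => ∑ x ∈ X, c x * ψ (x⁻¹ * g * h t) := by
      funext t
      rw [hφ]
      refine Finset.sum_congr rfl fun x _ => ?_
      rw [mul_assoc]
    rw [e]
    exact ContDiff.sum fun x _ => contDiff_const.mul (hψ.smooth n h hfin hsm (x⁻¹ * g))
  · refine ⟨fun u hu g => (hlev u hu g).2, fun u hu g => (hlev u hu g).1,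
      fun w k hk g => ?_, fun w k hk g => ?_⟩
    · rw [hφ, hφ, Finset.mul_sum]
      refine Finset.sum_congr rfl fun x _ => ?_
      rw [← mul_assoc, hψ.inv.arch_right w k hk]
      ring
    · rw [hφ, hφ, Finset.mul_sum]
      refine Finset.sum_congr rfl fun x hx => ?_
      have hc : x⁻¹ * k = k * x⁻¹ :=
        commute_fin_inf75 (trivAtInf_inv75 (hX x hx)) hk.1.2
      rw [← mul_assoc, hc, mul_assoc, hψ.inv.arch_left w k hk]
      ring

end OneField

/-! ## The leaves -/

/-- **LEAF PBQ.0.D6 `PBQ973.SwapMemDnQC973`**, UNCONDITIONAL. -/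
theorem swapMemDnQC75 (F : Type) [Field F] [NumberField F] : PBQ973.SwapMemDnQC973 F := by
  classical
  intro hsq hiq Φe B hB hram g hg 𝔫 h𝔫 μr μc hμr hμc T₀ n n₀ m hexp c hc c₁ Φ₁ F₁ hA fb hfb
    Ω iT iC iT2 iSC iM iB ν iF T T' φ₀ Φ f₀ F0 F1 hdat a t
  obtain ⟨X, cx, hprop, hid⟩ := swapDnSumQC75 F hsq hiq Φe B hB hram g hg 𝔫 h𝔫 μr μc hμr hμc
    T₀ n n₀ m hexp c hc c₁ Φ₁ F₁ hA fb hfb Ω iT iC iT2 iSC iM iB ν iF T T' φ₀ Φ f₀ F0 F1 hdat
  have hfbI : ∀ v ∈ T₀.erase (toBase962_732 B).u, T6.IsBiInv (T6.InU (m v)) (fb v) :=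
    fun v hv => (hfb.inv_down v hv).1
  have hsph : ∀ ω : Ω, ∀ v ∈ T ω, v ∉ T₀ → ∃ Av : (ℤ × ℤ) →₀ ℂ, IsSphFn893 (f₀ ω v) Av := by
    intro ω v hv hvT
    obtain ⟨A, Av, hAv, -⟩ := (hdat.1 ω).2.2.2.2.1 v hv hvT
    exact ⟨Av, hAv⟩
  obtain ⟨-, -, ht0, ht1, -, hc0, hc1, -, hs0, hs1, -, -, -⟩ := hdat
  -- the members of the first pair of the type `t`
  have htest : ∀ ω : Ω, T5.IsTestFn 𝔫 t.type
      (fun h => 1 * pureQ298 (T ω) (f₀ ω) (archQ973 F0 F1 t ω) h) := by
    intro ω
    cases t
    · exact ht0 ω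
    · exact ht1 ω
  have hcont : Continuous (fun q : Ω × G ℚ =>
      pureQ298 (T q.1) (f₀ q.1) (archQ973 F0 F1 t q.1) q.2) := by
    simp only [one_mul] at hc0 hc1
    cases t
    · exact hc0
    · exact hc1
  have hsupp : ∃ C : Set (G ℚ), IsCompact C ∧ ∀ (ω : Ω) (h : G ℚ),
      pureQ298 (T ω) (f₀ ω) (archQ973 F0 F1 t ω) h ≠ 0 → h ∈ C := by
    cases t
    · exact hs0
    · exact hs1
  refine ⟨fun ω => ?_, ?_, ?_⟩
  · -- the members are test functions
    refine isTestFn_wsum75 (htest ω) X (fun x hx => (hprop x hx).1) (fun x => a * cx x)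
      (fun y => ?_) (fun u hu y => ?_)
    · show a * pureQ298 (T ω) (swDnQ973 (toBase962_732 B) T₀ fb (f₀ ω))
          (archQ973 F0 F1 t ω) y = _
      rw [hid t ω y, Finset.mul_sum]
      refine Finset.sum_congr rfl fun x _ => ?_
      ring
    · have hk := H459.isGood_of_level459 h𝔫.u_level hexp.lev_dn hu
      have h1 := H459.pureQ_swDn_inv459 (toBase962_732 B) T₀ (T ω) m fb (f₀ ω)
        (archQ973 F0 F1 t ω) hfbI (hsph ω) hk y
      exact ⟨by show a * _ = a * _; rw [h1.1], by show a * _ = a * _; rw [h1.2]⟩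
  · -- joint continuity
    have e : (fun p : Ω × G ℚ => a * pureQ298 (T p.1) (swDnQ973 (toBase962_732 B) T₀ fb (f₀ p.1))
        (archQ973 F0 F1 t p.1) p.2)
        = fun p : Ω × G ℚ => a * ∑ x ∈ X, cx x
            * pureQ298 (T p.1) (f₀ p.1) (archQ973 F0 F1 t p.1) (x⁻¹ * p.2) := by
      funext p
      rw [hid t p.1 p.2]
    rw [e]
    refine continuous_const.mul (continuous_finsetSum _ fun x _ => continuous_const.mul ?_)
    exact hcont.comp (continuous_fst.prodMk (continuous_const.mul continuous_snd))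
  · -- one compact support
    obtain ⟨C, hC, hCs⟩ := hsupp
    refine ⟨⋃ x ∈ X, (fun z => x * z) '' C, ?_, fun ω h hne => ?_⟩
    · exact X.isCompact_biUnion fun x _ => hC.image (continuous_const.mul continuous_id)
    · rw [hid t ω h] at hne
      obtain ⟨x, hx, hx0⟩ := Finset.exists_ne_zero_of_sum_ne_zero hne
      refine Set.mem_biUnion hx ⟨x⁻¹ * h, hCs ω _ (right_ne_zero_of_mul hx0), ?_⟩
      show x * (x⁻¹ * h) = h
      rw [mul_inv_cancel_left]

/-- **LEAF PBQ.0.D1 `PBQ973.SwapDnTestQC973`**, UNCONDITIONAL. -/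
theorem swapDnTestQC75 (F : Type) [Field F] [NumberField F] : PBQ973.SwapDnTestQC973 F := by
  classical
  intro hsq hiq Φe B hB hram g hg 𝔫 h𝔫 μr μc hμr hμc T₀ n n₀ m hexp c hc c₁ Φ₁ F₁ hA fb hfb
    Ω iT iC iT2 iSC iM iB ν iF T T' φ₀ Φ f₀ F0 F1 hdat a t
  obtain ⟨X, cx, hprop, hid⟩ := swapDnSumQC75 F hsq hiq Φe B hB hram g hg 𝔫 h𝔫 μr μc hμr hμc
    T₀ n n₀ m hexp c hc c₁ Φ₁ F₁ hA fb hfb Ω iT iC iT2 iSC iM iB ν iF T T' φ₀ Φ f₀ F0 F1 hdat
  have hinv := H459.swapDnInvQC459 F hsq hiq Φe B hB hram g hg 𝔫 h𝔫 μr μc hμr hμc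
    T₀ n n₀ m hexp c hc c₁ Φ₁ F₁ hA fb hfb Ω iT iC iT2 iSC iM iB ν iF T T' φ₀ Φ f₀ F0 F1 hdat
    a t
  obtain ⟨-, -, -, -, -, hc0, hc1, -, -, -, -, hf0, hf1⟩ := hdat
  have hcont : Continuous (fun q : Ω × G ℚ =>
      pureQ298 (T q.1) (f₀ q.1) (archQ973 F0 F1 t q.1) q.2) := by
    simp only [one_mul] at hc0 hc1
    cases t
    · exact hc0
    · exact hc1
  have hF₁ : ∀ h : G ℚ, F₁ t [] h
      = ∫ ω, pureQ298 (T ω) (f₀ ω) (archQ973 F0 F1 t ω) h ∂ν := by
    intro h
    have h0 := hf0 h
    have h1 := hf1 h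
    simp only [one_mul] at h0 h1
    cases t
    · exact h0
    · exact h1
  refine isTestFn_wsum75 (hA.dn1_test t [] (by simp)) X (fun x hx => (hprop x hx).1)
    (fun x => a * cx x) (fun y => ?_) (fun u hu y => hinv.1 u hu y)
  have e1 : (fun ω => a * pureQ298 (T ω) (swDnQ973 (toBase962_732 B) T₀ fb (f₀ ω))
      (archQ973 F0 F1 t ω) y)
      = fun ω => a * ∑ x ∈ X, cx x
          * pureQ298 (T ω) (f₀ ω) (archQ973 F0 F1 t ω) (x⁻¹ * y) := by
    funext ω
    rw [hid t ω y]
  show ∫ ω, a * pureQ298 (T ω) (swDnQ973 (toBase962_732 B) T₀ fb (f₀ ω))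
      (archQ973 F0 F1 t ω) y ∂ν = _
  rw [e1, integral_wsum75 ν
    (p := fun ω => pureQ298 (T ω) (f₀ ω) (archQ973 F0 F1 t ω)) hcont a X cx y,
    Finset.mul_sum]
  refine Finset.sum_congr rfl fun x _ => ?_
  rw [hF₁]
  ring

end Fermat.Agent.LT.T7.H75.SQ

end

end
-- ===== PACK-END LT/T7/H75/SwapDnTestQ.lean

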