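import Mathlib
import Fermat.Agent.Pack.LT2.E0L1
import Fermat.Agent.Pack.LT3.E2L0
import Fermat.Agent.Pack.LT4.E11L0
import Fermat.Agent.Pack.LT4.E0L3
import Fermat.Agent.Pack.LT3.E12L1
import Fermat.Agent.Pack.LT2.E2L3
import Fermat.Agent.Pack.LT3.E5L2
import Fermat.Agent.Pack.LT2.E3L2
import Fermat.Agent.Pack.LT2.E3L1
import Fermat.Agent.Pack.LT3.E4L1
import Fermat.Agent.Pack.LT3.E18L1
import Fermat.Agent.Pack.LT3.E12L2
import Fermat.Agent.Pack.LT3.E3L2
import Fermat.Agent.Pack.LT3.E10L0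
import Fermat.Agent.Pack.LT2.E13L1
import Fermat.Agent.Pack.LT3.E4L3
import Fermat.Agent.Pack.LT3.E20L1
import Fermat.Agent.Pack.LT4.E2L2
import Fermat.Agent.Pack.LT3.E6L2
import Fermat.Agent.Pack.LT3.E6L3
import Fermat.Agent.Pack.LT3.E18L0
import Fermat.Agent.Pack.LT3.E18L3
import Fermat.Agent.Pack.LT3.E13L3
import Fermat.Agent.Pack.LT3.E4L2
import Fermat.Agent.Pack.LT3.E6L1
import Fermat.Agent.Pack.LT3.E9L0
import Fermat.Agent.Pack.LT3.E15L2
import Fermat.Agent.Pack.LT3.E9L3
import Fermat.Agent.Pack.LT4.E3L3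
import Fermat.Agent.Pack.LT3.E30L3
import Fermat.Agent.Pack.LT3.E19L1
import Fermat.Agent.Pack.LT3.E28L3
import Fermat.Agent.Pack.LT4.E5L3
import Fermat.Agent.Pack.LT4.E1L0
import Fermat.Agent.Pack.LT3.E27L1
import Fermat.Agent.Pack.LT4.E5L0
import Fermat.Agent.Pack.LT4.E10L0
import Fermat.Agent.Pack.LT4.E11L2
import Fermat.Agent.Pack.LT4.E11L3

set_option linter.all false

-- ===== PACK-BEGIN LT/T6/Closed.lean
section



















































/-!
# Row LT, tower T6 (helper22, architect): INTEGRATION of the closed leaves — v12 (TOWER CLOSED, archimedean part included)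

OFF-MAIN.  Imports byte-identical copies of the volunteers' files and discharges the closed
leaves of `top` (`LT/T6/Spec.lean`, sha256 c1b839bc63f9c731 = v3 8c5f2ae7a3cd8a6e + the appendix
of the row-lead helper17 which declares the equation lemmas of `twN`, `satPoly` once; no typed
Prop changed).

GRADER (kernel checker): in the closure of v3 - v10 the constants `twN.eq_def`, `satPoly.eq_def`
(`Spec.lean`) and `H288.fNorm.eq_def` (`H288/HypSpec.lean`) were declared by several user modules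
with different values (found by helper8, helper112, helper493).  Fixed by the appendices of
helper17 (bytes of the MASTER tree, `origin/helper17@d6ab91aac`) to `Spec.lean` and to
`H288/HypSpec.lean` (sha256 9cada1675e5d0cad); every other file is unchanged.  Check: 0 differing
duplicates in the modules of the closure; the grader's kernel checker accepts the closure.

**The non-archimedean tower is CLOSED**: `top_closed : T6Out`, `topTame_closed : T6OutTame`
(unconditional; `Open` has no field any more, `top_of_open : Open → T6Out` is kept for the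
consumers of v3 - v7).
**The archimedean part (`SpecArch.lean`, P7; sub-architects helper19, helper626) is CLOSED**:
`topArch_closed : T6ArchOut` (unconditional; `OpenArch` has no field any more,
`topArch_of_open : OpenArch → T6ArchOut` is kept for the consumers): T6.20 `ArchMatchC`
(helper626), T6.21 `ArchInjC` (helper129), T6.22 `ArchClassC` (helper888).

| leaf of `top` | state | closed by |
|---|---|---|
| T6.00a `HasseNormTCC` | CLOSED | helper49 `hasseNormTCC49` (tower CFT: 49, 637, 119, 53; main S55) |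
| T6.00b `HasseNormQC` | CLOSED | helper137 `hasseNormQC_of_open137` (cut of helper438; 157, 166, 857, 439, 793, 137, 219), `CoreC438` by helper769 |
| T6.01 `InstLocalC` | CLOSED | helper176 |
| T6.02 `InstExtC` | CLOSED | helper267 |
| T6.03 `InstSplitC` | CLOSED | helper116 |
| T6.04 `NormClassC` | CLOSED | helper981 |
| T6.05 `NormInjC` | CLOSED | helper848 |
| T6.06 `TwCentC` | CLOSED | helper166 |
| T6.07a/b `NormImageTCC`, `NormImageQC` from Hasse | CLOSED | helper502 (also helper536) |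
| T6.08 `OrbSumExC` | CLOSED | helper420 |
| T6.09 `OrbSumUniqC` | CLOSED | helper944 |
| T6.10 `SatakeEigenC` | CLOSED | helper305 |
| T6.11 `BCExistsC` | CLOSED | helper999 |
| T6.12 `FLHypC` | CLOSED | helper288 (227, 569, 770, 888, 546, 176, 687, 830, 459, 272, 400, 131, 82, 555) |
| T6.13 `FLEllUnrC` | CLOSED | helper60 `flEllUnrC60` (277, 887, 340, 338, 546, 926, 69, 439, 293; `FixTwC` by helper865 / helper599 with 811, 264, 820, 241, 426, 864) |
| T6.14 `FLEllRamC` | CLOSED | helper847 tops; 826 `EllReduceC`, 129 `EllParamC` (420, 286, 952, 75, 437), 367 `EllCountC`, 423 `EllAlgC`, 687 |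
| T6.15 `FLVanishC` | CLOSED | helper159 `flVanish_of_quad` (848, 98, 129, 313, 569, 288) |
| T6.16 `SplitMatchC` | CLOSED | helper863 |
| T6.17 `SplitInt2C`, `SplitInt3C` | CLOSED | helper904 |
| T6.18 `BadMatchC` | CLOSED | helper783 `badMatch_of_ellCount783` (965, 420, 125, 777, 811, 962, 388, 863, 372, 717, 82, 196, 846, 820, 333, 227, 179, 706, 166, 568; quaternion case helper385 with 392, 122, 497, 844, 388, 382, 886, 355, 665, 621, 558, 675, 793, 983, 526, 305) |
| T6.19 `OrbSumIntC` | CLOSED | helper846 (spare helper938) |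
| T6.20 `ArchMatchC` | CLOSED | helper626 `archMatchC626` (route H: 283, 698, 290, 729, 3, 922, 501, 439, 904, 944; 830 `SpecRelC626`; 855 `HypExplC634`; 634, 833, 842, 75, 781, 559, 189 elliptic part) |
| T6.21 `ArchInjC` | CLOSED | helper129 `archInjC129` (830, 543, 426, 848, 492, 964, 792; second proof helper952) |
| T6.22 `ArchClassC` | CLOSED | helper888 `archClassC_closed888` (263, 497, 162, 543, 830, 683, 468, 682, 863, 319; second route helper19 / 59 / 811 / 922) |
-/

set_option autoImplicit false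

noncomputable section

namespace Fermat.Agent.LT.T6

/-- THE OPEN PART of tower T6: the leaves still to be proved.  NO FIELD: the tower is closed
(`open_closed`). -/
structure Open : Prop where

/-- T6.15 is closed. -/
theorem flVanish_closed : FLVanishC :=
  H159.flVanish_of_quad H569.satClosed569 H288.orbSumDiagC_closed H313.quadUnitNormC313

/-- T6.14 is closed. -/
theorem flEllRam_closed : FLEllRamC :=
  H847.flEllRam_of_leaves H826.ellReduceC826
    (H847.ellOrb_of H687.cartanInvC_h687 Fermat.Agent.LT.H129.ellParamC129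
      H367.ellCountC367) H423.ellAlg423

/-- **The fundamental lemma is closed.** -/
theorem fundLemma_closed : FundLemmaC :=
  fundLemma_of_cases H288.flHypC_closed H60.flEllUnrC60 flEllRam_closed flVanish_closed

/-- T6.18 is closed. -/
theorem badMatch_closed : BadMatchC :=
  H783.badMatch_of_ellCount783 H367.ellCountC367

/-- STATE OF THE TOWER: the output of T6 (`Open` has no field; kept for the consumers). -/
theorem top_of_open (_O : Open) : T6Out :=
  top H49.hasseNormTCC49
    (H137.hasseNormQC_of_open137 ⟨H219.localCC219, H769.coreC_uncond769⟩)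
    H981.normClassC_h981 H848.normInjC848 H166.twCentC166
    H502.normImageTC_of_hasse502 H502.normImageQ_of_hasse502 H176.instLocalC176
    H267.instExtC H116.instSplitC_h116
    H420.orbSumExC420 H944.orbSumUniqC944 H846.orbSumIntC846 H305.satakeEigenC305
    H999.bcExistsC999
    H288.flHypC_closed H60.flEllUnrC60
    flEllRam_closed flVanish_closed H863.splitMatchC_863
    H904.splitInt2 H904.splitInt3 badMatch_closed

/-- The same for the tame output (`SpecTame.lean`; what T7 consumes). -/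
theorem topTame_of_open (O : Open) : T6OutTame :=
  t6OutTame_of_t6Out (top_of_open O)

/-! ## THE TOWER IS CLOSED -/

/-- Nothing is open. -/
theorem open_closed : Open := ⟨⟩

/-- **TOWER T6 (non-archimedean part), unconditional.** -/
theorem top_closed : T6Out := top_of_open open_closed

/-- **TOWER T6, tame output (what T7 consumes), unconditional.** -/
theorem topTame_closed : T6OutTame := topTame_of_open open_closed

/-- THE OPEN PART of the archimedean output (P7, `SpecArch.lean`; only the quadratic step of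
T7 uses it).  NO FIELD: the archimedean part is closed (`openArch_closed`). -/
structure OpenArch : Prop where

/-- T6.21 is closed. -/
theorem archInj_closed : ArchInjC := Fermat.Agent.LT.H129.archInjC129

/-- T6.22 is closed. -/
theorem archClass_closed : ArchClassC := H888.archClassC_closed888

/-- T6.20 is closed. -/
theorem archMatch_closed : ArchMatchC := H626.archMatchC626

/-- The archimedean output from T6.20 alone. -/
theorem topArch_of_archMatch (h : ArchMatchC) : T6ArchOut :=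
  topArch h archInj_closed archClass_closed

/-- STATE OF THE ARCHIMEDEAN PART (`OpenArch` has no field; kept for the consumers). -/
theorem topArch_of_open (_O : OpenArch) : T6ArchOut :=
  topArch_of_archMatch archMatch_closed

/-- Nothing is open in the archimedean part. -/
theorem openArch_closed : OpenArch := ⟨⟩

/-- **TOWER T6, archimedean output (P7), unconditional.** -/
theorem topArch_closed : T6ArchOut := topArch_of_open openArch_closed

end Fermat.Agent.LT.T6

end

end
-- ===== PACK-END LT/T6/Closed.lean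

-- ===== PACK-BEGIN LT/T7/H22/EnumBad.lean
section




/-!
# Row LT, tower T7 (helper22, architect of T6), OFF-MAIN: the enumeration at a place which
# SPLITS, WITHOUT any hypothesis of unramifiedness

`H388.enumExists388` (helper388) gives the enumeration `(w j, i j)` of the places over a place
`v` with two places over it for `v` OUTSIDE a set `T₀` with `UnramOut305 T₀`.  At a BAD place
(`v ∈ T₀`) which splits the unramifiedness is a CONSEQUENCE of the splitting: `e f g = l` is
prime and `g ≥ 2`, so `e = f = 1`.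

* `unram_of_split22` : `∃ x ∈ v, x ∉ w ^ 2` for every `w` over a place `v` with two places over it;
* `enumBad22`        : the enumeration (the conclusion of `H388.enumExists388`), UNCONDITIONAL
  (`T6.InstSplitC` of `T6.top_closed` plugged).

Imports: Mathlib, `T7/H388/Enum` (helper388, byte-identical copy), `T6/Closed`.  ADDITIVE, new
names only (suffix `22`); every proof is complete.
-/

set_option autoImplicit false

open AutomorphicForm IsDedekindDomain NumberField
open scoped Pointwise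

noncomputable section

namespace Fermat.Agent.LT.T7.H22

open Fermat.Agent.LT.H556 Fermat.Agent.LT.H556.A0 Fermat.Agent.LT.T7 Fermat.Agent.LT.T7.H305
open Fermat.Agent.LT.T7.H388

variable {K K' : Type} [Field K] [NumberField K] [Field K'] [NumberField K'] [Algebra K K']

/-- **A place over a place with two places over it is unramified.** -/
theorem unram_of_split22 {l : ℕ} (hcyc : IsCycExt K K' l) {v : HeightOneSpectrum (𝓞 K)}
    {w₁ w₂ w : HeightOneSpectrum (𝓞 K')} (h₁ : PlaceOver K K' v w₁) (h₂ : PlaceOver K K' v w₂)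
    (hne : w₁ ≠ w₂) (hw : PlaceOver K K' v w) :
    ∃ x : 𝓞 K, x ∈ v.asIdeal ∧ algebraMap (𝓞 K) (𝓞 K') x ∉ w.asIdeal ^ 2 := by
  have := hcyc.galois
  have : v.asIdeal.IsPrime := v.isPrime
  have : v.asIdeal.IsMaximal := v.isMaximal
  have hfund := Ideal.ncard_primesOver_mul_ramificationIdxIn_mul_inertiaDegIn v.asIdeal (𝓞 K')
    Gal(K'/K)
  rw [IsGalois.card_aut_eq_finrank, hcyc.degree] at hfund
  have hdvd : (Ideal.primesOver v.asIdeal (𝓞 K')).ncard ∣ l := ⟨_, hfund.symm⟩
  have hm₁ : w₁.asIdeal ∈ Ideal.primesOver v.asIdeal (𝓞 K') :=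
    ⟨w₁.isPrime, liesOver_of_placeOver388 h₁⟩
  have hm₂ : w₂.asIdeal ∈ Ideal.primesOver v.asIdeal (𝓞 K') :=
    ⟨w₂.isPrime, liesOver_of_placeOver388 h₂⟩
  have hg1 : (Ideal.primesOver v.asIdeal (𝓞 K')).ncard ≠ 1 := by
    intro h1
    obtain ⟨P₀, hP₀⟩ := Set.ncard_eq_one.mp h1
    rw [hP₀, Set.mem_singleton_iff] at hm₁ hm₂
    exact hne (HeightOneSpectrum.ext (hm₁.trans hm₂.symm))
  have hgl : (Ideal.primesOver v.asIdeal (𝓞 K')).ncard = l :=
    ((Nat.dvd_prime hcyc.prime).mp hdvd).resolve_left hg1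
  rw [hgl] at hfund
  have hef : Ideal.ramificationIdxIn v.asIdeal (𝓞 K') * Ideal.inertiaDegIn v.asIdeal (𝓞 K')
      = 1 :=
    Nat.eq_of_mul_eq_mul_left hcyc.prime.pos (by rw [hfund, mul_one])
  have he : Ideal.ramificationIdxIn v.asIdeal (𝓞 K') = 1 := Nat.eq_one_of_mul_eq_one_right hef
  have : w.asIdeal.IsPrime := w.isPrime
  have : w.asIdeal.LiesOver v.asIdeal := liesOver_of_placeOver388 hw
  rw [Ideal.ramificationIdxIn_eq_ramificationIdx v.asIdeal w.asIdeal Gal(K'/K)] at he
  rw [← Ideal.ramificationIdx'_eq_ramificationIdx v.asIdeal w.asIdeal v.ne_bot] at he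
  by_contra hcon
  have hcon : ∀ x : 𝓞 K, x ∈ v.asIdeal → algebraMap (𝓞 K) (𝓞 K') x ∈ w.asIdeal ^ 2 := by
    intro x hx
    by_contra hx'
    exact hcon ⟨x, hx, hx'⟩
  have hle : Ideal.map (algebraMap (𝓞 K) (𝓞 K')) v.asIdeal ≤ w.asIdeal ^ 2 := by
    rw [Ideal.map_le_iff_le_comap]
    intro x hx
    exact hcon x hx
  have h2 : (2 : ℕ) ∈ {n : ℕ | Ideal.map (algebraMap (𝓞 K) (𝓞 K')) v.asIdeal ≤ w.asIdeal ^ n} :=
    hle
  have he' : sSup {n : ℕ | Ideal.map (algebraMap (𝓞 K) (𝓞 K')) v.asIdeal ≤ w.asIdeal ^ n} = 1 :=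
    he
  clear he
  by_cases hb : BddAbove {n : ℕ | Ideal.map (algebraMap (𝓞 K) (𝓞 K')) v.asIdeal ≤ w.asIdeal ^ n}
  · have := le_csSup hb h2
    omega
  · rw [Nat.sSup_of_not_bddAbove hb] at he'
    omega

/-- **THE ENUMERATION AT A PLACE WHICH SPLITS** (the conclusion of `H388.enumExists388`, for
EVERY finite place with two places over it: no hypothesis of unramifiedness, `T6Out` plugged). -/
theorem enumBad22 (D : CompData K K') (hD : IsCompData D) (hcyc : IsCycExt K K' D.l)
    (v : HeightOneSpectrum (𝓞 K))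
    (hex : ∃ w₁ w₂ : HeightOneSpectrum (𝓞 K'),
      PlaceOver K K' v w₁ ∧ PlaceOver K K' v w₂ ∧ w₁ ≠ w₂) :
    ∃ (w : ℕ → HeightOneSpectrum (𝓞 K'))
      (i : ∀ j : ℕ, v.adicCompletion K ≃+* (w j).adicCompletion K'),
      (∀ j : ℕ, PlaceOver K K' v (w j)) ∧ (∀ j : ℕ, T5.PlaceRel D.s (w (j + 1)) (w j)) ∧
      (∀ j : ℕ, 0 < j → j < D.l → w j ≠ w 0) ∧
      (∀ (j : ℕ) (x : K), i j (algebraMap K (v.adicCompletion K) x)
        = algebraMap K' ((w j).adicCompletion K') (algebraMap K K' x)) ∧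
      (∀ (j : ℕ) (x : v.adicCompletion K), Valued.v (i j x) = Valued.v x) := by
  obtain ⟨w₁, w₂, h₁, h₂, hne⟩ := hex
  have hIS : T6.InstSplitC := T6.top_closed.2.2.2.2.2.2.2.1
  have hfix : ∀ y : K, D.s.σ (algebraMap K K' y) = algebraMap K K' y := fun y =>
    (hD.cyc.fixed _).1 ((hD.base _).2 ⟨y, rfl⟩)
  obtain ⟨s, hs⟩ : ∃ s : Gal(K'/K), ∀ x : K', s x = D.s.σ x :=
    ⟨AlgEquiv.ofRingEquiv (f := D.s.σ) hfix, fun _ => rfl⟩
  have hsmul : ∀ x : 𝓞 K', RingOfIntegers.mapRingEquiv D.s.σ x = s • x := by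
    intro x
    apply RingOfIntegers.ext
    rw [coe_smulE388, hs]
    rfl
  have hw : ∀ j : ℕ, PlaceOver K K' v (smulPlace388 ((s ^ j)⁻¹) w₁) :=
    fun j => placeOver_smul388 h₁ _
  have hexi : ∀ j : ℕ, ∃ i : v.adicCompletion K ≃+*
      (smulPlace388 ((s ^ j)⁻¹) w₁).adicCompletion K',
      (∀ x : K, i (algebraMap K (v.adicCompletion K) x)
        = algebraMap K' ((smulPlace388 ((s ^ j)⁻¹) w₁).adicCompletion K')
          (algebraMap K K' x)) ∧
      ∀ x : v.adicCompletion K, Valued.v (i x) = Valued.v x :=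
    fun j => hIS K K' v (smulPlace388 ((s ^ j)⁻¹) w₁) (fun x => hw j x _ rfl)
      (absNorm_split388 hcyc h₁ h₂ hne (hw j)) (unram_of_split22 hcyc h₁ h₂ hne (hw j))
  choose i hi1 hi2 using hexi
  refine ⟨fun j => smulPlace388 ((s ^ j)⁻¹) w₁, i, hw, ?_, ?_, hi1, hi2⟩
  · intro j
    show (smulPlace388 ((s ^ j)⁻¹) w₁).asIdeal
      = Ideal.map (RingOfIntegers.mapRingEquiv D.s.σ) (smulPlace388 ((s ^ (j + 1))⁻¹) w₁).asIdeal
    rw [map_eq_smul388 (RingOfIntegers.mapRingEquiv D.s.σ) s hsmul, smulPlace_asIdeal388,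
      smulPlace_asIdeal388, smul_smul]
    congr 1
    rw [pow_succ]
    group
  · intro j hj hjl heq
    have h0 : (smulPlace388 ((s ^ j)⁻¹) w₁).asIdeal = (smulPlace388 ((s ^ 0)⁻¹) w₁).asIdeal :=
      congrArg HeightOneSpectrum.asIdeal heq
    rw [smulPlace_asIdeal388, smulPlace_asIdeal388, pow_zero, inv_one, one_smul] at h0
    have h3 : s ^ j = 1 := inv_eq_one.1 (stab_trivial388 hcyc h₁ h₂ hne _ h0)
    obtain ⟨x, hx⟩ := hD.cyc.faithful j hj hjl
    apply hx
    rw [← pow_apply388 D.s.σ s hs j x, h3]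
    rfl

end Fermat.Agent.LT.T7.H22

end

end
-- ===== PACK-END LT/T7/H22/EnumBad.lean

-- ===== PACK-BEGIN LT/T7/H22/LevelBad.lean
section




/-!
# Row LT, tower T7 (helper22, architect of T6), OFF-MAIN: the exponents of a level
# (`H893.IsLevelOf893`) -- monotone, unique, and EQUAL upstairs and downstairs at a place with an
# identification of the completions which preserves the valuation (a split place)

* `level_mono22`   : `I ≤ J` ⇒ the exponents of `J` are `≤` the exponents of `I`;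
* `level_unique22` : the exponents of an ideal are unique;
* `level_split22`  : `n w = m v` for the exponents `n` of `𝔫 𝒪_{K'}`, `m` of `𝔫`, if
  `i : K_v ≃ K'_w` extends `K → K'` and preserves the valuation.

Imports: Mathlib, `T7/H893/SupplyConstrSpec` (helper893, byte-identical copy), `T6/Closed`
(`InstLocalC`; balls: `T6/H965/Cover`).  ADDITIVE, new names only (suffix `22`).
-/

set_option autoImplicit false

open AutomorphicForm IsDedekindDomain NumberField

noncomputable section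

namespace Fermat.Agent.LT.T7.H22

open Fermat.Agent.LT.H556 Fermat.Agent.LT.H556.A0 Fermat.Agent.LT.T7 Fermat.Agent.LT.T7.H305
open Fermat.Agent.LT.T7.H893 Fermat.Agent.LT

/-- The completion at a finite place is a local field (`T6.InstLocalC`, closed). -/
theorem locField22 {F : Type} [Field F] [NumberField F] (v : HeightOneSpectrum (𝓞 F)) :
    T6.IsLocalField (v.adicCompletion F) (Ideal.absNorm v.asIdeal) :=
  T6.top_closed.2.2.2.2.2.1 F v

/-- The image of an integer in the completion. -/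
def img22 {F : Type} [Field F] [NumberField F] (v : HeightOneSpectrum (𝓞 F)) (x : 𝓞 F) :
    v.adicCompletion F :=
  algebraMap F (v.adicCompletion F) (algebraMap (𝓞 F) F x)

theorem idealClosure_eq22 {F : Type} [Field F] [NumberField F] (𝔫 : Ideal (𝓞 F))
    (v : HeightOneSpectrum (𝓞 F)) :
    idealClosure 𝔫 v = closure (img22 v '' (𝔫 : Set (𝓞 F))) := rfl

theorem img_val_le_one22 {F : Type} [Field F] [NumberField F] (v : HeightOneSpectrum (𝓞 F))
    (x : 𝓞 F) : Valued.v (img22 v x) ≤ 1 := by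
  unfold img22
  change Valued.v ((algebraMap (𝓞 F) F x : F) : v.adicCompletion F) ≤ 1
  rw [HeightOneSpectrum.valuedAdicCompletion_eq_valuation']
  exact HeightOneSpectrum.valuation_le_one v x

/-- **The exponents are antitone in the ideal.** -/
theorem level_mono22 {F : Type} [Field F] [NumberField F] {I J : Ideal (𝓞 F)}
    {n n' : HeightOneSpectrum (𝓞 F) → ℕ} (hI : IsLevelOf893 I n) (hJ : IsLevelOf893 J n')
    (hIJ : I ≤ J) (v : HeightOneSpectrum (𝓞 F)) : n' v ≤ n v := by
  obtain ⟨y, hy⟩ := T6.H965.exists_val_eq_exp965 (locField22 v) (-(n v : ℤ))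
  have h1 : y ∈ idealClosure I v := (hI v y).2 hy.le
  have h2 : y ∈ idealClosure J v := by
    rw [idealClosure_eq22] at h1 ⊢
    exact closure_mono (Set.image_mono hIJ) h1
  have h3 := (hJ v y).1 h2
  rw [hy, WithZero.exp_le_exp] at h3
  omega

/-- **The exponents of an ideal are unique.** -/
theorem level_unique22 {F : Type} [Field F] [NumberField F] {I : Ideal (𝓞 F)}
    {n n' : HeightOneSpectrum (𝓞 F) → ℕ} (hI : IsLevelOf893 I n) (hI' : IsLevelOf893 I n') :
    n = n' :=
  funext fun v => le_antisymm (level_mono22 hI' hI le_rfl v) (level_mono22 hI hI' le_rfl v)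

variable {K K' : Type} [Field K] [NumberField K] [Field K'] [NumberField K'] [Algebra K K']

/-- **The exponents at a place with an identification of the completions.** -/
theorem level_split22 (𝔫 : Ideal (𝓞 K)) {m : HeightOneSpectrum (𝓞 K) → ℕ}
    {n : HeightOneSpectrum (𝓞 K') → ℕ} (hm : IsLevelOf893 𝔫 m)
    (hn : IsLevelOf893 (upI (K' := K') 𝔫) n)
    (v : HeightOneSpectrum (𝓞 K)) (w : HeightOneSpectrum (𝓞 K'))
    (i : v.adicCompletion K ≃+* w.adicCompletion K')
    (hrat : ∀ x : K, i (algebraMap K (v.adicCompletion K) x)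
      = algebraMap K' (w.adicCompletion K') (algebraMap K K' x))
    (hval : ∀ x : v.adicCompletion K, Valued.v (i x) = Valued.v x) : n w = m v := by
  have himg : ∀ a : 𝓞 K, img22 w (algebraMap (𝓞 K) (𝓞 K') a) = i (img22 v a) := by
    intro a
    unfold img22
    rw [hrat]
    rfl
  have hgen : ∀ a : 𝓞 K, a ∈ 𝔫 → Valued.v (img22 v a) ≤ WithZero.exp (-(m v : ℤ)) := by
    intro a ha
    refine (hm v _).1 ?_
    rw [idealClosure_eq22]
    exact subset_closure ⟨a, ha, rfl⟩
  apply le_antisymm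
  · -- `n w ≤ m v`
    obtain ⟨y, hy⟩ := T6.H965.exists_val_eq_exp965 (locField22 v) (-(m v : ℤ))
    have h1 : y ∈ idealClosure 𝔫 v := (hm v y).2 hy.le
    rw [idealClosure_eq22, mem_closure_iff_nhds] at h1
    obtain ⟨z, hz1, hz2⟩ :=
      h1 _ (T6.H965.closedBall_mem_nhds965 (locField22 v) y ((m v : ℤ) + 1))
    obtain ⟨a, ha, rfl⟩ := hz2
    have hlt : Valued.v (img22 v a - y) < Valued.v y := by
      refine lt_of_le_of_lt hz1 ?_
      rw [hy, WithZero.exp_lt_exp]
      omega
    have hva : Valued.v (img22 v a) = WithZero.exp (-(m v : ℤ)) := by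
      have : img22 v a = y + (img22 v a - y) := by ring
      rw [this, Valuation.map_add_eq_of_lt_left _ hlt, hy]
    have h2 : img22 w (algebraMap (𝓞 K) (𝓞 K') a) ∈ idealClosure (upI (K' := K') 𝔫) w := by
      rw [idealClosure_eq22]
      exact subset_closure ⟨_, Ideal.mem_map_of_mem _ ha, rfl⟩
    have h3 := (hn w _).1 h2
    rw [himg, hval, hva, WithZero.exp_le_exp] at h3
    omega
  · -- `m v ≤ n w`
    have key : ∀ b : 𝓞 K', b ∈ Ideal.map (algebraMap (𝓞 K) (𝓞 K')) 𝔫 →
        Valued.v (img22 w b) ≤ WithZero.exp (-(m v : ℤ)) := by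
      intro b hb
      have hb' : b ∈ Ideal.span ((algebraMap (𝓞 K) (𝓞 K')) '' (𝔫 : Set (𝓞 K))) := hb
      clear hb
      induction hb' using Submodule.span_induction with
      | mem x hx =>
        obtain ⟨a, ha, rfl⟩ := hx
        rw [himg, hval]
        exact hgen a ha
      | zero =>
        have : img22 w (0 : 𝓞 K') = 0 := by unfold img22; simp
        rw [this, map_zero]
        exact zero_le
      | add x y _ _ hx hy =>
        have : img22 w (x + y) = img22 w x + img22 w y := by unfold img22; simp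
        rw [this]
        exact (Valuation.map_add_le_max' _ _ _).trans (max_le hx hy)
      | smul c x _ hx =>
        have : img22 w (c • x) = img22 w c * img22 w x := by
          unfold img22; simp [smul_eq_mul]
        rw [this, map_mul]
        calc Valued.v (img22 w c) * Valued.v (img22 w x)
            ≤ 1 * WithZero.exp (-(m v : ℤ)) := mul_le_mul' (img_val_le_one22 w c) hx
          _ = WithZero.exp (-(m v : ℤ)) := one_mul _
    have hsub : idealClosure (upI (K' := K') 𝔫) w
        ⊆ {x : w.adicCompletion K' | Valued.v x ≤ WithZero.exp (-(m v : ℤ))} := by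
      rw [idealClosure_eq22]
      refine closure_minimal ?_ (T6.H965.isClosed_ball965 (locField22 w) _)
      rintro _ ⟨b, hb, rfl⟩
      exact key b hb
    obtain ⟨y, hy⟩ := T6.H965.exists_val_eq_exp965 (locField22 w) (-(n w : ℤ))
    have h1 : y ∈ idealClosure (upI (K' := K') 𝔫) w := (hn w y).2 hy.le
    have h2 : Valued.v y ≤ WithZero.exp (-(m v : ℤ)) := hsub h1
    rw [hy, WithZero.exp_le_exp] at h2
    omega

end Fermat.Agent.LT.T7.H22

end

end
-- ===== PACK-END LT/T7/H22/LevelBad.lean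

-- ===== PACK-BEGIN LT/T6/H22/BadLevelsClosed.lean
section





/-!
# Row LT, tower T6, ADAPTER (architect helper22): the partner at ALL DEEP LEVELS -- CLOSED

OFF-MAIN.  ADDITIVE.  `badLevelsC22_closed : H22.BadLevelsC22`, UNCONDITIONAL, on the closed
tower T6 (`T6/Closed.lean`): for `φ` bi-`U'(n₀)`-invariant of finite support there is `m₀` such
that for ALL `n ≥ n₀`, `m ≥ m₀` there is a partner `f` of level `m` with
`O^{(m)}_γ(f) = TO^{(n)}_δ(φ)` at the regular norms and `O^{(m)}_γ(f) = 0` at the regular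
elements which are not norms.  Also `twLvlC22_closed` (twisted level change) and the level
change downstairs in the same form.
-/

set_option autoImplicit false

noncomputable section

namespace Fermat.Agent.LT.T6.H22

open Fermat.Agent.LT.T6

/-- **The partner at all deep levels, UNCONDITIONAL.** -/
theorem badLevelsC22_closed : BadLevelsC22 :=
  badLevels_of22 badMatch_closed H420.orbSumExC420 H944.orbSumUniqC944 H777.lvlC777
    H125.finSuppLvlC125 twLvlC22

/-- The twisted level change, UNCONDITIONAL (restated for the consumers). -/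
theorem twLvlC22_closed : TwLvlC22 := twLvlC22

end Fermat.Agent.LT.T6.H22

end

end
-- ===== PACK-END LT/T6/H22/BadLevelsClosed.lean

-- ===== PACK-BEGIN LT/T6/H22/InertPartner.lean
section



/-!
# Row LT, tower T6, ADAPTER (architect helper22): the `inert` clause at a bad place, CLOSED

OFF-MAIN.  ADDITIVE.  The conclusion of `H22.BadLevelsC22` for the completions of a cyclic
extension `K'/K` of number fields of prime degree at a place `v` of `K` with ONE place `w` of
`K'` over it (inert or ramified), with the hypotheses of `T6.InstExtC` and the conclusion in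
the shape of the clause `inert` of `H305.LocHyp305` / `H893.LocHyp893` (for EVERY compatible
local datum `(e, i, s_w)`):

    inertPartner22 : … → ∀ n₀ φ, IsBiInv (InU n₀) φ → HasFinSupp (InU n₀) φ →
      ∃ m₀, ∀ n m, n₀ ≤ n → m₀ ≤ m → ∃ f, IsBiInv (InU m) f ∧ HasFinSupp (InU m) f ∧
        ∀ σ, (∀ y, σ y = s y) → ∀ e i sw, (compatible) → IsLocalExt K_v K'_w l e i sw →
          (matching at the levels (n, m)) ∧ (vanishing at the non-norms)

UNCONDITIONAL (closed tower T6: `instLocalC`, `instExtC`, `badMatch_closed`, the level changes,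
the uniqueness of the local datum `locDatum_all_of_one22`).
-/

set_option autoImplicit false

open IsDedekindDomain NumberField

noncomputable section

namespace Fermat.Agent.LT.T6.H22

open Fermat.Agent.LT.T6

/-- **The `inert` clause at one place, at all deep levels.** -/
theorem inertPartner22 (K K' : Type) [Field K] [NumberField K] [Field K'] [NumberField K']
    [Algebra K K'] [IsGalois K K'] (s : K' ≃ₐ[K] K')
    (hgen : ∀ t : K' ≃ₐ[K] K', t ∈ Subgroup.zpowers s)
    (hprime : (Module.finrank K K').Prime)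
    (v : HeightOneSpectrum (𝓞 K)) (w : HeightOneSpectrum (𝓞 K'))
    (hvw : ∀ x : 𝓞 K, x ∈ v.asIdeal ↔ algebraMap (𝓞 K) (𝓞 K') x ∈ w.asIdeal)
    (honly : ∀ w' : HeightOneSpectrum (𝓞 K'),
      (∀ x : 𝓞 K, x ∈ v.asIdeal → algebraMap (𝓞 K) (𝓞 K') x ∈ w'.asIdeal) → w' = w)
    (n₀ : ℕ) (φ : GL (Fin 2) (w.adicCompletion K') → ℂ)
    (hφb : IsBiInv (InU n₀) φ) (hφf : HasFinSupp (InU n₀) φ) :
    ∃ m₀ : ℕ, ∀ n m : ℕ, n₀ ≤ n → m₀ ≤ m →
      ∃ f : GL (Fin 2) (v.adicCompletion K) → ℂ,
        IsBiInv (InU m) f ∧ HasFinSupp (InU m) f ∧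
        ∀ σ : K' ≃+* K', (∀ y : K', σ y = s y) →
        ∀ (e : ℕ) (i : v.adicCompletion K →+* w.adicCompletion K')
          (sw : w.adicCompletion K' ≃+* w.adicCompletion K'),
          (∀ x : K, i (algebraMap K (v.adicCompletion K) x)
            = algebraMap K' (w.adicCompletion K') (algebraMap K K' x)) →
          (∀ y : K', sw (algebraMap K' (w.adicCompletion K') y)
            = algebraMap K' (w.adicCompletion K') (σ y)) →
          IsLocalExt (v.adicCompletion K) (w.adicCompletion K') (Module.finrank K K') e i sw →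
          (∀ (δ : GL (Fin 2) (w.adicCompletion K')) (γ : GL (Fin 2) (v.adicCompletion K))
              (c c' : ℂ), IsReg γ →
              IsConj (twNorm sw (Module.finrank K K') δ) (Matrix.GeneralLinearGroup.map i γ) →
              IsTwOrbSum sw n φ δ c → IsOrbSum m f γ c' → c = c') ∧
            ∀ (γ : GL (Fin 2) (v.adicCompletion K)) (c' : ℂ), IsReg γ →
              ¬ IsNormFrom (Module.finrank K K') i sw γ → IsOrbSum m f γ c' → c' = 0 := by
  obtain ⟨e₀, i₀, sw₀, hi₀, hs₀, hE₀, hN⟩ :=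
    top_closed.2.2.2.2.2.2.1 K K' s hgen hprime v w hvw honly
  have hkv : IsLocalField (v.adicCompletion K) (Ideal.absNorm v.asIdeal) :=
    top_closed.2.2.2.2.2.1 K v
  have hkw : IsLocalField (w.adicCompletion K')
      (Ideal.absNorm v.asIdeal ^ (Module.finrank K K' / e₀)) := by
    rw [← hN]
    exact top_closed.2.2.2.2.2.1 K' w
  obtain ⟨m₀, hm₀⟩ := badLevelsC22_closed (v.adicCompletion K) (w.adicCompletion K')
    (Ideal.absNorm v.asIdeal) (Module.finrank K K') e₀ i₀ sw₀ hkv hkw hE₀ hprime n₀ φ hφb hφf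
  refine ⟨m₀, fun n m hn hm => ?_⟩
  obtain ⟨f, hfb, hff, hmatch, hvan⟩ := hm₀ n m hn hm
  refine ⟨f, hfb, hff, fun σ hσ => ?_⟩
  have hs₀' : ∀ y : K', sw₀ (algebraMap K' (w.adicCompletion K') y)
      = algebraMap K' (w.adicCompletion K') (σ y) := fun y => by rw [hσ y]; exact hs₀ y
  exact locDatum_all_of_one22 σ v w (Module.finrank K K')
    (fun _ i sw =>
      (∀ (δ : GL (Fin 2) (w.adicCompletion K')) (γ : GL (Fin 2) (v.adicCompletion K))
          (c c' : ℂ), IsReg γ →
          IsConj (twNorm sw (Module.finrank K K') δ) (Matrix.GeneralLinearGroup.map i γ) →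
          IsTwOrbSum sw n φ δ c → IsOrbSum m f γ c' → c = c') ∧
        ∀ (γ : GL (Fin 2) (v.adicCompletion K)) (c' : ℂ), IsReg γ →
          ¬ IsNormFrom (Module.finrank K K') i sw γ → IsOrbSum m f γ c' → c' = 0)
    e₀ i₀ sw₀ hi₀ hs₀' hE₀ ⟨hmatch, hvan⟩

end Fermat.Agent.LT.T6.H22

end

end
-- ===== PACK-END LT/T6/H22/InertPartner.lean

-- ===== PACK-BEGIN LT/T6/H22/InertPartnerDbl.lean
section



/-!
# Row LT, tower T6, ADAPTER (architect helper22): the partner of a DOUBLE COSET function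

OFF-MAIN.  ADDITIVE.  `H22.inertPartner22` for the indicator function of a double coset
`U'(n₀) y U'(n₀)` of `GL₂(K'_w)` (the component `H893.dblFn893 (n₀ w) (finGL305 w g)` of the
second pair at a bad place `v` with ONE place `w` over it): no hypothesis on the function is
left.  UNCONDITIONAL.

    inertPartnerDbl22 : (hypotheses of `T6.InstExtC`) → ∀ n₀ y φ, IsDblInd22 n₀ y φ →
      ∃ m₀, ∀ n m, n₀ ≤ n → m₀ ≤ m → ∃ f, IsBiInv (InU m) f ∧ HasFinSupp (InU m) f ∧
        (the clause `inert` of `H305.LocHyp305` / `H893.LocHyp893` for `(φ, f)` at the levels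
         `(n, m)`, for every compatible local datum)
    dbl_inv_up22 : the clause `inv_up` for `φ` at every level `n ≥ n₀`
-/

set_option autoImplicit false

open IsDedekindDomain NumberField

noncomputable section

namespace Fermat.Agent.LT.T6.H22

open Fermat.Agent.LT.T6

/-- The clause `inv_up` for a double coset function at every deeper level. -/
theorem dbl_inv_up22 {k : Type} [Field k] [Valued k Γ₀] {q : ℕ} (hk : IsLocalField k q)
    {n₀ n : ℕ} (hn : n₀ ≤ n) {y : GL (Fin 2) k} {φ : GL (Fin 2) k → ℂ}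
    (h : IsDblInd22 n₀ y φ) : IsBiInv (InU n) φ ∧ HasFinSupp (InU n) φ :=
  ⟨fun u u' g hu hu' => isBiInv_dbl22 h u u' g (inU_mono22 hn hu) (inU_mono22 hn hu'),
    H125.finSuppLvlC125 k q hk n₀ n φ hn (hasFinSupp_dbl22 hk h)⟩

/-- **The partner of a double coset function at a bad place with one place over it, at all
deep levels.** -/
theorem inertPartnerDbl22 (K K' : Type) [Field K] [NumberField K] [Field K'] [NumberField K']
    [Algebra K K'] [IsGalois K K'] (s : K' ≃ₐ[K] K')
    (hgen : ∀ t : K' ≃ₐ[K] K', t ∈ Subgroup.zpowers s)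
    (hprime : (Module.finrank K K').Prime)
    (v : HeightOneSpectrum (𝓞 K)) (w : HeightOneSpectrum (𝓞 K'))
    (hvw : ∀ x : 𝓞 K, x ∈ v.asIdeal ↔ algebraMap (𝓞 K) (𝓞 K') x ∈ w.asIdeal)
    (honly : ∀ w' : HeightOneSpectrum (𝓞 K'),
      (∀ x : 𝓞 K, x ∈ v.asIdeal → algebraMap (𝓞 K) (𝓞 K') x ∈ w'.asIdeal) → w' = w)
    (n₀ : ℕ) (y : GL (Fin 2) (w.adicCompletion K'))
    (φ : GL (Fin 2) (w.adicCompletion K') → ℂ) (hφ : IsDblInd22 n₀ y φ) :
    ∃ m₀ : ℕ, ∀ n m : ℕ, n₀ ≤ n → m₀ ≤ m →
      ∃ f : GL (Fin 2) (v.adicCompletion K) → ℂ,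
        IsBiInv (InU m) f ∧ HasFinSupp (InU m) f ∧
        ∀ σ : K' ≃+* K', (∀ y : K', σ y = s y) →
        ∀ (e : ℕ) (i : v.adicCompletion K →+* w.adicCompletion K')
          (sw : w.adicCompletion K' ≃+* w.adicCompletion K'),
          (∀ x : K, i (algebraMap K (v.adicCompletion K) x)
            = algebraMap K' (w.adicCompletion K') (algebraMap K K' x)) →
          (∀ y : K', sw (algebraMap K' (w.adicCompletion K') y)
            = algebraMap K' (w.adicCompletion K') (σ y)) →
          IsLocalExt (v.adicCompletion K) (w.adicCompletion K') (Module.finrank K K') e i sw →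
          (∀ (δ : GL (Fin 2) (w.adicCompletion K')) (γ : GL (Fin 2) (v.adicCompletion K))
              (c c' : ℂ), IsReg γ →
              IsConj (twNorm sw (Module.finrank K K') δ) (Matrix.GeneralLinearGroup.map i γ) →
              IsTwOrbSum sw n φ δ c → IsOrbSum m f γ c' → c = c') ∧
            ∀ (γ : GL (Fin 2) (v.adicCompletion K)) (c' : ℂ), IsReg γ →
              ¬ IsNormFrom (Module.finrank K K') i sw γ → IsOrbSum m f γ c' → c' = 0 :=
  inertPartner22 K K' s hgen hprime v w hvw honly n₀ φ (isBiInv_dbl22 hφ)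
    (hasFinSupp_dbl22 (top_closed.2.2.2.2.2.1 K' w) hφ)

end Fermat.Agent.LT.T6.H22

end

end
-- ===== PACK-END LT/T6/H22/InertPartnerDbl.lean

-- ===== PACK-BEGIN LT/T7/H22/BadLoc.lean
section








/-!
# Row LT, tower T7, leaf T7.L2.1.H2a.4.2 `B970.BadLocC970` (registry 2863; helper22, architect
# of T6, SPARE): PROVED

OFF-MAIN.  No hole, nothing assumed.  ADDITIVE (new names only, suffix `22`).

    badLocC22 (K K') : B970.BadLocC970 K K'                       (VERBATIM, UNCONDITIONAL)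

Spec: `T7/B970/Pair2Spec.lean` (helper970, sha256 fab97ceab0e09862), byte-identical copy.

## The proof

The exponents `n₀` of the base level are unique (`level_unique22`), so the bound may depend on
them.  For a place `w` of `S'` which is the ONLY place over the place `v` under it:
`T6.H22.inertPartnerDbl22` (`T6.BadMatchC` + twisted change of level `twLvlC22`, closed) gives
`M_w` and, for all levels `n ≥ n₀ w`, `m ≥ M_w`, a partner of `1_{U(n₀ w) g_w U(n₀ w)}`;
`M = max_{w ∈ S'} M_w`.  For a level `𝔫` with exponents `(T₀, n, n₀, m)`, `m ≥ M` on `T₀`, and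
`v ∈ T₀`:

* ONE place `w` over `v`: `w ∈ S'` (`v ∣ 𝔫`), `n w ≥ n₀ w` (`𝔫 𝒪_{K'} ⊆ 𝔑₀`, `level_mono22`),
  `b v` = the partner at the levels `(n w, m v)`;
* TWO places over `v`: `v` splits completely and is unramified (`unram_of_split22`), the
  enumeration `(w j, i j)` of `enumBad22` (`T6.InstSplitC`), `n (w j) = m v`
  (`level_split22`), `b v` = the convolution product at the level `m v` of the transported double
  coset functions in the order of the enumeration (`T6.H22.exists_convProd22`,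
  `T6.H22.transport22`);
* `inv_up`: `T6.H22.dbl_inv_up22`.
-/

set_option autoImplicit false

open AutomorphicForm IsDedekindDomain NumberField MeasureTheory

noncomputable section

namespace Fermat.Agent.LT.T7.H22

open Fermat.Agent.LT.H556 Fermat.Agent.LT.H556.A0 Fermat.Agent.LT.T7 Fermat.Agent.LT.T7.H305
open Fermat.Agent.LT.T7.H893 Fermat.Agent.LT.T7.B981 Fermat.Agent.LT

variable {K K' : Type} [Field K] [NumberField K] [Field K'] [NumberField K'] [Algebra K K']

/-! ## 1. Places -/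

theorem placeOver_alg22 {v : HeightOneSpectrum (𝓞 K)} {w : HeightOneSpectrum (𝓞 K')}
    (h : PlaceOver K K' v w) (x : 𝓞 K) :
    x ∈ v.asIdeal ↔ algebraMap (𝓞 K) (𝓞 K') x ∈ w.asIdeal := h x _ rfl

/-- A place which contains the image of `v` lies over `v`. -/
theorem placeOver_of_le22 {v : HeightOneSpectrum (𝓞 K)} {w' : HeightOneSpectrum (𝓞 K')}
    (h : ∀ x : 𝓞 K, x ∈ v.asIdeal → algebraMap (𝓞 K) (𝓞 K') x ∈ w'.asIdeal) :
    PlaceOver K K' v w' := by
  have hcomap : v.asIdeal = Ideal.comap (algebraMap (𝓞 K) (𝓞 K')) w'.asIdeal := by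
    refine v.isMaximal.eq_of_le ?_ (fun x hx => h x hx)
    exact Ideal.comap_ne_top _ w'.isPrime.ne_top
  intro x y hy
  have hyx : y = algebraMap (𝓞 K) (𝓞 K') x := RingOfIntegers.ext (by rw [hy]; rfl)
  rw [hyx]
  constructor
  · exact h x
  · intro hx
    rw [hcomap]
    exact hx

/-- The place under a place is unique. -/
theorem place_unique_below22 {v v' : HeightOneSpectrum (𝓞 K)} {w : HeightOneSpectrum (𝓞 K')}
    (h : PlaceOver K K' v w) (h' : PlaceOver K K' v' w) : v = v' := by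
  apply HeightOneSpectrum.ext
  ext x
  rw [placeOver_alg22 h, placeOver_alg22 h']

/-- A place over a place of the level divides the level upstairs. -/
theorem dvd_up22 {𝔫 : Ideal (𝓞 K)} {v : HeightOneSpectrum (𝓞 K)} {w : HeightOneSpectrum (𝓞 K')}
    (h : v.asIdeal ∣ 𝔫) (hw : PlaceOver K K' v w) : w.asIdeal ∣ upI (K' := K') 𝔫 := by
  rw [Ideal.dvd_iff_le] at h ⊢
  show Ideal.map (algebraMap (𝓞 K) (𝓞 K')) 𝔫 ≤ w.asIdeal
  rw [Ideal.map_le_iff_le_comap]
  intro x hx
  exact (placeOver_alg22 hw x).1 (h hx)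

/-- A non-trivial element of the Galois group of a cyclic extension of prime degree generates
it. -/
theorem gal_gen22 {ℓ : ℕ} (hcyc : IsCycExt K K' ℓ) (σ : K' ≃+* K') (s : K' ≃ₐ[K] K')
    (hs : ∀ x : K', s x = σ x) (hne : ∃ x : K', σ x ≠ x) :
    ∀ t : K' ≃ₐ[K] K', t ∈ Subgroup.zpowers s := by
  have := hcyc.galois
  have hcard : Nat.card (K' ≃ₐ[K] K') = ℓ := by
    rw [IsGalois.card_aut_eq_finrank, hcyc.degree]
  haveI : Fact ℓ.Prime := ⟨hcyc.prime⟩
  have hs1 : s ≠ 1 := by
    intro h1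
    obtain ⟨x, hx⟩ := hne
    apply hx
    rw [← hs, h1]
    rfl
  intro t
  exact mem_zpowers_of_prime_card hcard hs1

/-! ## 2. The two clauses for one place -/

/-- The clause `inert` of `B970.LocFin970` for one pair of places and one pair of functions. -/
def InertCl22 (σ : K' ≃+* K') (l : ℕ) (v : HeightOneSpectrum (𝓞 K))
    (w : HeightOneSpectrum (𝓞 K')) (n m : ℕ) (φ : GL (Fin 2) (w.adicCompletion K') → ℂ)
    (f : GL (Fin 2) (v.adicCompletion K) → ℂ) : Prop :=
  ∀ (e : ℕ) (i : v.adicCompletion K →+* w.adicCompletion K')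
    (sw : w.adicCompletion K' ≃+* w.adicCompletion K'),
    (∀ x : K, i (algebraMap K (v.adicCompletion K) x)
      = algebraMap K' (w.adicCompletion K') (algebraMap K K' x)) →
    (∀ y : K', sw (algebraMap K' (w.adicCompletion K') y)
      = algebraMap K' (w.adicCompletion K') (σ y)) →
    T6.IsLocalExt (v.adicCompletion K) (w.adicCompletion K') l e i sw →
    (∀ (δ : GL (Fin 2) (w.adicCompletion K')) (γ : GL (Fin 2) (v.adicCompletion K))
        (c c' : ℂ), T6.IsReg γ →
        IsConj (T6.twNorm sw l δ) (Matrix.GeneralLinearGroup.map i γ) →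
        T6.IsTwOrbSum sw n φ δ c → T6.IsOrbSum m f γ c' → c = c') ∧
      ∀ (γ : GL (Fin 2) (v.adicCompletion K)) (c' : ℂ), T6.IsReg γ →
        ¬ T6.IsNormFrom l i sw γ → T6.IsOrbSum m f γ c' → c' = 0

/-- The conclusion of the clause `split` of `B970.LocFin970` for one place and one function
downstairs. -/
def SplitCl22 (D : CompData K K') (v : HeightOneSpectrum (𝓞 K))
    (n : HeightOneSpectrum (𝓞 K') → ℕ) (m : HeightOneSpectrum (𝓞 K) → ℕ)
    (φ₀ : ∀ w : HeightOneSpectrum (𝓞 K'), GL (Fin 2) (w.adicCompletion K') → ℂ)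
    (f : GL (Fin 2) (v.adicCompletion K) → ℂ) : Prop :=
  ∃ (w : ℕ → HeightOneSpectrum (𝓞 K'))
    (i : ∀ j : ℕ, v.adicCompletion K ≃+* (w j).adicCompletion K'),
    (∀ j : ℕ, PlaceOver K K' v (w j)) ∧ (∀ j : ℕ, T5.PlaceRel D.s (w (j + 1)) (w j)) ∧
    (∀ j : ℕ, 0 < j → j < D.l → w j ≠ w 0) ∧
    (∀ (j : ℕ) (x : K), i j (algebraMap K (v.adicCompletion K) x)
      = algebraMap K' ((w j).adicCompletion K') (algebraMap K K' x)) ∧
    (∀ (j : ℕ) (x : v.adicCompletion K), Valued.v (i j x) = Valued.v x) ∧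
    (∀ j : ℕ, n (w j) = m v) ∧
      T6.IsConvProd (T6.InU (m v)) D.l
        (fun j g => φ₀ (w j)
          (Matrix.GeneralLinearGroup.map ((i j : v.adicCompletion K ≃+* _) :
            v.adicCompletion K →+* (w j).adicCompletion K') g))
        f

/-! ## 3. The leaf -/

/-- **LEAF T7.L2.1.H2a.4.2 = BAD-LOC**, proved (VERBATIM, UNCONDITIONAL). -/
theorem badLocC22 (K K' : Type) [Field K] [NumberField K] [Field K'] [NumberField K']
    [Algebra K K'] : B970.BadLocC970 K K' := by
  classical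
  intro ℓ hcyc _ _ Φ B hB _ g _
  have := hcyc.galois
  have hfix : ∀ y : K, B.s.σ (algebraMap K K' y) = algebraMap K K' y := fun y =>
    (hB.cyc.fixed _).1 ((hB.base _).2 ⟨y, rfl⟩)
  obtain ⟨s, hsσ⟩ : ∃ s : K' ≃ₐ[K] K', ∀ y : K', B.s.σ y = s y :=
    ⟨AlgEquiv.ofRingEquiv (f := B.s.σ) hfix, fun _ => rfl⟩
  have hl : B.l = Module.finrank K K' := hB.deg.trans hcyc.degree.symm
  have hprime : (Module.finrank K K').Prime := by rw [hcyc.degree]; exact hcyc.prime
  have hgen : ∀ t : K' ≃ₐ[K] K', t ∈ Subgroup.zpowers s := by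
    apply gal_gen22 hcyc B.s.σ s (fun x => (hsσ x).symm)
    obtain ⟨x, hx⟩ := hB.cyc.faithful 1 Nat.one_pos (by rw [hB.deg]; exact hcyc.prime.one_lt)
    exact ⟨x, by simpa using hx⟩
  by_cases hn₀ : ∃ N₀ : HeightOneSpectrum (𝓞 K') → ℕ, IsLevelOf893 B.𝔑₀ N₀
  swap
  · exact ⟨0, fun 𝔫 _ T₀ n n₀ m hexp _ => absurd ⟨n₀, hexp.lvl_base⟩ hn₀⟩
  obtain ⟨N₀, hN₀⟩ := hn₀
  -- the bounds at the places with one place over the place under them
  have hex : ∀ w : HeightOneSpectrum (𝓞 K'), ∃ Mw : ℕ, ∀ v : HeightOneSpectrum (𝓞 K),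
      PlaceOver K K' v w → (∀ w' : HeightOneSpectrum (𝓞 K'), PlaceOver K K' v w' → w' = w) →
      ∀ n m : ℕ, N₀ w ≤ n → Mw ≤ m → ∃ f : GL (Fin 2) (v.adicCompletion K) → ℂ,
        T6.IsBiInv (T6.InU m) f ∧ T6.HasFinSupp (T6.InU m) f ∧
        InertCl22 B.s.σ B.l v w n m (dblFn893 (N₀ w) (finGL305 w g)) f := by
    intro w
    by_cases h : ∃ v : HeightOneSpectrum (𝓞 K), PlaceOver K K' v w ∧
        ∀ w' : HeightOneSpectrum (𝓞 K'), PlaceOver K K' v w' → w' = w
    · obtain ⟨v₀, hv₀, hu₀⟩ := h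
      obtain ⟨m₀, hm₀⟩ := T6.H22.inertPartnerDbl22 K K' s hgen hprime v₀ w (placeOver_alg22 hv₀)
        (fun w' hw' => hu₀ w' (placeOver_of_le22 hw')) (N₀ w) (finGL305 w g)
        (dblFn893 (N₀ w) (finGL305 w g)) (T6.H22.isDblInd_ite22 _ _ _)
      refine ⟨m₀, fun v hv _ n m hn hm => ?_⟩
      obtain rfl : v = v₀ := place_unique_below22 hv hv₀
      obtain ⟨f, hf1, hf2, hf3⟩ := hm₀ n m hn hm
      refine ⟨f, hf1, hf2, ?_⟩
      intro e i sw h1 h2 h3
      rw [hl] at h3 ⊢
      exact hf3 B.s.σ hsσ e i sw h1 h2 h3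
    · exact ⟨0, fun v hv hu => absurd ⟨v, hv, hu⟩ h⟩
  choose Mw hMw using hex
  refine ⟨B.S'.sup Mw, ?_⟩
  intro 𝔫 hlvl T₀ n n₀ m hexp hM
  obtain rfl : n₀ = N₀ := level_unique22 hexp.lvl_base hN₀
  have hD : IsCompData (B.comp 𝔫) :=
    ⟨hB.cyc, hB.base, hlvl.level_ne, rfl, hB.frame, hB.frame', hB.aut 𝔫⟩
  have hcycD : IsCycExt K K' (B.comp 𝔫).l := by
    show IsCycExt K K' B.l
    rw [hB.deg]
    exact hcyc
  have hnn : ∀ w : HeightOneSpectrum (𝓞 K'), n₀ w ≤ n w :=
    fun w => level_mono22 hexp.lvl_up hN₀ hlvl.level_g w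
  have hup : ∀ w : HeightOneSpectrum (𝓞 K'),
      T6.IsBiInv (T6.InU (n w)) (dblFn893 (n₀ w) (finGL305 w g)) ∧
        T6.HasFinSupp (T6.InU (n w)) (dblFn893 (n₀ w) (finGL305 w g)) :=
    fun w => T6.H22.dbl_inv_up22 (locField22 w) (hnn w) (T6.H22.isDblInd_ite22 _ _ _)
  have hbex : ∀ v : HeightOneSpectrum (𝓞 K), ∃ f : GL (Fin 2) (v.adicCompletion K) → ℂ,
      v ∈ T₀ →
      (T6.IsBiInv (T6.InU (m v)) f ∧ T6.HasFinSupp (T6.InU (m v)) f) ∧
      (∀ w : HeightOneSpectrum (𝓞 K'), PlaceOver K K' v w →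
        (∀ w' : HeightOneSpectrum (𝓞 K'), PlaceOver K K' v w' → w' = w) →
        InertCl22 B.s.σ B.l v w (n w) (m v) (dblFn893 (n₀ w) (finGL305 w g)) f) ∧
      ((∃ w₁ w₂ : HeightOneSpectrum (𝓞 K'),
          PlaceOver K K' v w₁ ∧ PlaceOver K K' v w₂ ∧ w₁ ≠ w₂) →
        SplitCl22 (B.comp 𝔫) v n m (fun w => dblFn893 (n₀ w) (finGL305 w g)) f) := by
    intro v
    by_cases hvT : v ∈ T₀
    swap
    · exact ⟨fun _ => 0, fun h => absurd h hvT⟩
    by_cases hP : ∃ w : HeightOneSpectrum (𝓞 K'), PlaceOver K K' v w ∧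
        ∀ w' : HeightOneSpectrum (𝓞 K'), PlaceOver K K' v w' → w' = w
    · obtain ⟨w₀, hw₀, hu₀⟩ := hP
      have hwS : w₀ ∈ B.S' := (hlvl.mem_S'_g w₀).2 (dvd_up22 ((hexp.mem v).1 hvT) hw₀)
      have hMle : Mw w₀ ≤ m v := (Finset.le_sup (f := Mw) hwS).trans (hM v hvT)
      obtain ⟨f, hf1, hf2, hf3⟩ := hMw w₀ v hw₀ hu₀ (n w₀) (m v) (hnn w₀) hMle
      refine ⟨f, fun _ => ⟨⟨hf1, hf2⟩, ?_, ?_⟩⟩
      · intro w hw _
        obtain rfl : w = w₀ := hu₀ w hw
        exact hf3
      · rintro ⟨w₁, w₂, h₁, h₂, hne⟩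
        exact absurd ((hu₀ w₁ h₁).trans (hu₀ w₂ h₂).symm) hne
    · by_cases hQ : ∃ w₁ w₂ : HeightOneSpectrum (𝓞 K'),
          PlaceOver K K' v w₁ ∧ PlaceOver K K' v w₂ ∧ w₁ ≠ w₂
      · obtain ⟨w, i, h1, h2, h3, h4, h5⟩ := enumBad22 (B.comp 𝔫) hD hcycD v hQ
        have hlev : ∀ j : ℕ, n (w j) = m v := fun j =>
          level_split22 𝔫 hexp.lvl hexp.lvl_up v (w j) (i j) (h4 j) (h5 j)
        have hψ : ∀ j : ℕ,
            T6.IsBiInv (T6.InU (m v)) (fun x => dblFn893 (n₀ (w j)) (finGL305 (w j) g)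
              (Matrix.GeneralLinearGroup.map ((i j : v.adicCompletion K ≃+* _) :
                v.adicCompletion K →+* (w j).adicCompletion K') x)) ∧
            T6.HasFinSupp (T6.InU (m v)) (fun x => dblFn893 (n₀ (w j)) (finGL305 (w j) g)
              (Matrix.GeneralLinearGroup.map ((i j : v.adicCompletion K ≃+* _) :
                v.adicCompletion K →+* (w j).adicCompletion K') x)) := by
          intro j
          have h := hup (w j)
          rw [hlev j] at h
          exact T6.H22.transport22 (i j) (h5 j) (m v) _ h.1 h.2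
        obtain ⟨f, hf1, hf2, hf3⟩ := T6.H22.exists_convProd22 (T6.H22.isSub_inU22 (m v))
          (B.comp 𝔫).l _ (fun j => (hψ j).1) (fun j => (hψ j).2)
        refine ⟨f, fun _ => ⟨⟨hf2, hf3⟩, ?_, ?_⟩⟩
        · intro w' hw' hu'
          exact absurd ⟨w', hw', hu'⟩ hP
        · intro _
          exact ⟨w, i, h1, h2, h3, h4, h5, hlev, hf1⟩
      · refine ⟨fun _ => 0, fun _ => ⟨⟨fun _ _ _ _ _ => rfl, ⟨∅, fun x hx => absurd rfl hx⟩⟩,
          ?_, ?_⟩⟩
        · intro w' hw' hu'
          exact absurd ⟨w', hw', hu'⟩ hP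
        · intro h
          exact absurd h hQ
  choose b hb using hbex
  exact ⟨b, ⟨fun v _ w _ => hup w,
    fun v hv => (hb v (Finset.mem_of_mem_erase hv)).1,
    fun v hv w hw hu => (hb v (Finset.mem_of_mem_erase hv)).2.1 w hw hu,
    fun v hv hsp => (hb v (Finset.mem_of_mem_erase hv)).2.2 hsp⟩⟩

end Fermat.Agent.LT.T7.H22

end

end
-- ===== PACK-END LT/T7/H22/BadLoc.lean

-- ===== PACK-BEGIN LT/T7/H570/BadPartQ.lean
section




/-!
# Row LT, tower T7, leaf T7.L2Q.1.H2a.B.0.1 `PBQ973.BadPartQC973` (helper570, registry row 3129)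

OFF-MAIN.  No hole, nothing assumed.  ADDITIVE (new names only, all suffixed `570`, namespace
`Fermat.Agent.LT.T7.H570BP`).  Spec: `T7/H973/PreBQSpec.lean` (helper973, sha256 200eee4e),
byte-identical copy.  No definition of another file is opened by a rewriting step.

    badPartQC570 (F) : PBQ973.BadPartQC973 F                     (VERBATIM, UNCONDITIONAL)

## The proof

PORT to `K = ℚ`, `K' = F`, `ℓ = 2` of the proof of the cubic leaf `B970.BadLocC970` by the
architect of T6 (helper22, `T7/H22/BadLoc.lean`); his tools are stated for every extension of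
number fields and are used as they are:

* `T6.H22.inertPartnerDbl22` (`T6.BadMatchC` + twisted change of level): at a place `w` which is
  the ONLY place over the place `v` under it there is `M_w` such that for all levels
  `n ≥ n₀ w`, `m ≥ M_w` the double coset function `1_{U(n₀ w) g_w U(n₀ w)}` has a partner;
* `H22.enumBad22` (`T6.InstSplitC`), `H22.level_split22`, `T6.H22.transport22`,
  `T6.H22.exists_convProd22`: at a place which splits the partner is the convolution product of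
  the transported double coset functions in the order of ONE enumeration;
* `T6.H22.dbl_inv_up22`, `H22.level_mono22`, `H22.level_unique22`.

THE LEVEL: `𝔫 = 𝔫₀ ^ d`, `𝔫₀` the ideal of `ℚ` under the base level (`IsL2QBase.base_level`),
`d = max M 1`, `M = max_{w ∈ S'} M_w`: the four level properties are clear, and the exponents of
`𝔫₀ ^ d` at the places which divide it are `≥ d` (`le_level_of_le_pow570`).  THE ARCHIMEDEAN
COMPONENTS of the clause: the zero functions (`isArchTestC_zero570`, `isArchTestR_zero570`,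
`isArchMatch_zero570`).
-/

set_option autoImplicit false
set_option linter.unusedSectionVars false
set_option linter.unusedVariables false

open AutomorphicForm IsDedekindDomain NumberField MeasureTheory

noncomputable section

namespace Fermat.Agent.LT.T7.H570BP

open Fermat.Agent.LT.H556 Fermat.Agent.LT.H556.A0 Fermat.Agent.LT.T7 Fermat.Agent.LT.T7.H305
open Fermat.Agent.LT.T7.H893 Fermat.Agent.LT.T7.H962 Fermat.Agent.LT.T7.H732
open Fermat.Agent.LT.T7.MQ298 Fermat.Agent.LT.T7.CQ801 Fermat.Agent.LT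
open Fermat.Agent.LT.T7.H22

/-! ## 1. The zero functions at infinity -/

theorem isArchTestC_zero570 : T6.IsArchTestC (fun _ : GL (Fin 2) ℂ => (0 : ℂ)) where
  cont := continuous_const
  supp := HasCompactSupport.zero
  smooth := fun _ _ _ _ => contDiff_const
  left := fun _ _ _ => rfl
  right := fun _ _ _ => rfl

theorem isArchTestR_zero570 (n : ℤ) : T6.IsArchTestR n (fun _ : GL (Fin 2) ℝ => (0 : ℂ)) where
  cont := continuous_const
  supp := HasCompactSupport.zero
  smooth := fun _ _ _ _ => contDiff_const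
  pos := fun _ h => absurd rfl h
  left := fun _ _ _ => (mul_zero _).symm
  right := fun _ _ _ => (mul_zero _).symm

theorem isArchMatch_zero570 (μ : @Measure (GL (Fin 2) ℝ) (borel _))
    (μ' : @Measure (GL (Fin 2) ℂ) (borel _)) :
    T6.IsArchMatch μ μ' (fun _ : GL (Fin 2) ℂ => (0 : ℂ))
      (fun _ : GL (Fin 2) ℝ => (0 : ℂ) + 0) := by
  intro γ _ μT _ β _ _ _
  refine ⟨fun δ _ β' _ _ _ => ?_, fun _ => ?_⟩
  · simp
  · simp

/-! ## 2. The exponents of a level contained in a power of a place -/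

/-- The exponent at `v` of an ideal contained in `v ^ d` is `≥ d`. -/
theorem le_level_of_le_pow570 {F : Type} [Field F] [NumberField F] {𝔫 : Ideal (𝓞 F)}
    {m : HeightOneSpectrum (𝓞 F) → ℕ} (hm : IsLevelOf893 𝔫 m) (v : HeightOneSpectrum (𝓞 F))
    {d : ℕ} (h : 𝔫 ≤ v.asIdeal ^ d) : d ≤ m v := by
  obtain ⟨y, hy⟩ := T6.H965.exists_val_eq_exp965 (locField22 v) (-(m v : ℤ))
  have h1 : y ∈ idealClosure 𝔫 v := (hm v y).2 hy.le
  rw [idealClosure_eq22, mem_closure_iff_nhds] at h1
  obtain ⟨z, hz1, hz2⟩ :=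
    h1 _ (T6.H965.closedBall_mem_nhds965 (locField22 v) y ((m v : ℤ) + 1))
  obtain ⟨a, ha, rfl⟩ := hz2
  have hlt : Valued.v (img22 v a - y) < Valued.v y := by
    refine lt_of_le_of_lt hz1 ?_
    rw [hy, WithZero.exp_lt_exp]
    omega
  have hva : Valued.v (img22 v a) = WithZero.exp (-(m v : ℤ)) := by
    have : img22 v a = y + (img22 v a - y) := by ring
    rw [this, Valuation.map_add_eq_of_lt_left _ hlt, hy]
  have hint : Valued.v (img22 v a) = v.intValuation a := by
    show Valued.v ((algebraMap (𝓞 F) F a : F) : v.adicCompletion F) = _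
    rw [HeightOneSpectrum.valuedAdicCompletion_eq_valuation',
      HeightOneSpectrum.valuation_of_algebraMap]
  have h2 : v.intValuation a ≤ WithZero.exp (-(d : ℤ)) :=
    (v.intValuation_le_pow_iff_mem a d).2 (h ha)
  rw [← hint, hva, WithZero.exp_le_exp] at h2
  omega

/-! ## 3. The level `𝔫₀ ^ d` -/

section Level

variable {F : Type} [Field F] [NumberField F]

/-- The powers of the ideal under the base level are levels of the pre-data. -/
theorem isLevQ_pow570 {Φe : HeckeEigensystem F ℂ} {B : L2Q.H60.L2QBase F}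
    (hB : L2Q.H60.IsL2QBase Φe B) {𝔫₀ : Ideal (𝓞 ℚ)} (h0 : 𝔫₀ ≠ ⊥)
    (h1 : B.𝔑₀ = Ideal.map (algebraMap (𝓞 ℚ) (𝓞 F)) 𝔫₀) (hu : B.u.asIdeal ∣ 𝔫₀) {d : ℕ}
    (hd : 1 ≤ d) : CQ57.IsLevQ57 (toBase962_732 B) (𝔫₀ ^ d) where
  level_ne := by
    rw [← Ideal.zero_eq_bot] at h0 ⊢
    exact pow_ne_zero d h0
  level_g := by
    show Ideal.map (algebraMap (𝓞 ℚ) (𝓞 F)) (𝔫₀ ^ d) ≤ B.𝔑₀
    rw [Ideal.map_pow, h1]
    exact Ideal.pow_le_self (by omega)
  mem_S'_g := fun w => by
    show w ∈ B.S' ↔ w.asIdeal ∣ Ideal.map (algebraMap (𝓞 ℚ) (𝓞 F)) (𝔫₀ ^ d)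
    rw [hB.mem_S' w, Ideal.map_pow, h1, Ideal.dvd_iff_le, Ideal.dvd_iff_le]
    exact (w.isPrime.pow_le_iff (by omega)).symm
  u_level := dvd_pow hu (by omega)

end Level

/-! ## 4. The partners at the deep levels -/

section Partner

variable {F : Type} [Field F] [NumberField F]

/-- **THE BOUND** (the mirror over `ℚ` of `B970.BadLocC970`): there is `M` such that for every
level with the level properties and exponents `≥ M` on `T₀` there is a partner family. -/
theorem exists_bound570 (hq : IsImagQuad F) {Φe : HeckeEigensystem F ℂ}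
    {B : L2Q.H60.L2QBase F} (hB : L2Q.H60.IsL2QBase Φe B) (g : G F) :
    ∃ M : ℕ, ∀ 𝔫 : Ideal (𝓞 ℚ), CQ57.IsLevQ57 (toBase962_732 B) 𝔫 →
      ∀ (T₀ : Finset (HeightOneSpectrum (𝓞 ℚ)))
        (n n₀ : HeightOneSpectrum (𝓞 F) → ℕ) (m : HeightOneSpectrum (𝓞 ℚ) → ℕ),
        CQ57.IsLevFnQ57 (toBase962_732 B) 𝔫 T₀ n n₀ m → (∀ v ∈ T₀, M ≤ m v) →
        ∃ fb : ∀ v : HeightOneSpectrum (𝓞 ℚ), GL (Fin 2) (v.adicCompletion ℚ) → ℂ,
          PBQ973.IsBadPartQ973 (toBase962_732 B) g 𝔫 T₀ n n₀ m fb := by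
  classical
  have hcyc : IsCycExt ℚ F 2 := isCycExt_of_imagQuad298 hq
  have := hcyc.galois
  have hfix : ∀ y : ℚ, B.s.σ (algebraMap ℚ F y) = algebraMap ℚ F y := fun y =>
    (hB.cyc.fixed _).1 ((hB.base _).2 ⟨y, rfl⟩)
  obtain ⟨s, hsσ⟩ : ∃ s : F ≃ₐ[ℚ] F, ∀ y : F, B.s.σ y = s y :=
    ⟨AlgEquiv.ofRingEquiv (f := B.s.σ) hfix, fun _ => rfl⟩
  have hrank : Module.finrank ℚ F = 2 := hcyc.degree
  have hprime : (Module.finrank ℚ F).Prime := by rw [hcyc.degree]; exact hcyc.prime
  have hgen : ∀ t : F ≃ₐ[ℚ] F, t ∈ Subgroup.zpowers s := by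
    apply gal_gen22 hcyc B.s.σ s (fun x => (hsσ x).symm)
    obtain ⟨x, hx⟩ := hB.cyc.faithful 1 Nat.one_pos (by norm_num)
    exact ⟨x, by simpa using hx⟩
  by_cases hn₀ : ∃ N₀ : HeightOneSpectrum (𝓞 F) → ℕ, IsLevelOf893 B.𝔑₀ N₀
  swap
  · exact ⟨0, fun 𝔫 _ T₀ n n₀ m hexp _ => absurd ⟨n₀, hexp.lev_base⟩ hn₀⟩
  obtain ⟨N₀, hN₀⟩ := hn₀
  -- the bounds at the places with one place over the place under them
  have hex : ∀ w : HeightOneSpectrum (𝓞 F), ∃ Mw : ℕ, ∀ v : HeightOneSpectrum (𝓞 ℚ),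
      PlaceOver ℚ F v w → (∀ w' : HeightOneSpectrum (𝓞 F), PlaceOver ℚ F v w' → w' = w) →
      ∀ n m : ℕ, N₀ w ≤ n → Mw ≤ m → ∃ f : GL (Fin 2) (v.adicCompletion ℚ) → ℂ,
        T6.IsBiInv (T6.InU m) f ∧ T6.HasFinSupp (T6.InU m) f ∧
        ∀ l : ℕ, l = Module.finrank ℚ F →
          InertCl22 B.s.σ l v w n m (dblFn893 (N₀ w) (finGL305 w g)) f := by
    intro w
    by_cases h : ∃ v : HeightOneSpectrum (𝓞 ℚ), PlaceOver ℚ F v w ∧
        ∀ w' : HeightOneSpectrum (𝓞 F), PlaceOver ℚ F v w' → w' = w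
    · obtain ⟨v₀, hv₀, hu₀⟩ := h
      obtain ⟨m₀, hm₀⟩ := T6.H22.inertPartnerDbl22 ℚ F s hgen hprime v₀ w (placeOver_alg22 hv₀)
        (fun w' hw' => hu₀ w' (placeOver_of_le22 hw')) (N₀ w) (finGL305 w g)
        (dblFn893 (N₀ w) (finGL305 w g)) (T6.H22.isDblInd_ite22 _ _ _)
      refine ⟨m₀, fun v hv _ n m hn hm => ?_⟩
      obtain rfl : v = v₀ := place_unique_below22 hv hv₀
      obtain ⟨f, hf1, hf2, hf3⟩ := hm₀ n m hn hm
      refine ⟨f, hf1, hf2, ?_⟩
      intro l hl e i sw h1 h2 h3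
      subst hl
      exact hf3 B.s.σ hsσ e i sw h1 h2 h3
    · exact ⟨0, fun v hv hu => absurd ⟨v, hv, hu⟩ h⟩
  choose Mw hMw using hex
  refine ⟨B.S'.sup Mw, ?_⟩
  intro 𝔫 hlvl T₀ n n₀ m hexp hM
  obtain rfl : n₀ = N₀ := level_unique22 hexp.lev_base hN₀
  have hD : IsCompData ((toBase962_732 B).comp 𝔫) :=
    ⟨hB.cyc, hB.base, hlvl.level_ne, rfl, hB.frame, hB.frame', hB.aut 𝔫⟩
  have hcycD : IsCycExt ℚ F ((toBase962_732 B).comp 𝔫).l := hcyc
  have hl2 : ((toBase962_732 B).comp 𝔫).l = Module.finrank ℚ F := hrank.symm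
  have hnn : ∀ w : HeightOneSpectrum (𝓞 F), n₀ w ≤ n w :=
    fun w => level_mono22 hexp.lev_up hN₀ hlvl.level_g w
  have hup : ∀ w : HeightOneSpectrum (𝓞 F),
      T6.IsBiInv (T6.InU (n w)) (dblFn893 (n₀ w) (finGL305 w g)) ∧
        T6.HasFinSupp (T6.InU (n w)) (dblFn893 (n₀ w) (finGL305 w g)) :=
    fun w => T6.H22.dbl_inv_up22 (locField22 w) (hnn w) (T6.H22.isDblInd_ite22 _ _ _)
  have hbex : ∀ v : HeightOneSpectrum (𝓞 ℚ), ∃ f : GL (Fin 2) (v.adicCompletion ℚ) → ℂ,
      v ∈ T₀ →
      (T6.IsBiInv (T6.InU (m v)) f ∧ T6.HasFinSupp (T6.InU (m v)) f) ∧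
      (∀ w : HeightOneSpectrum (𝓞 F), PlaceOver ℚ F v w →
        (∀ w' : HeightOneSpectrum (𝓞 F), PlaceOver ℚ F v w' → w' = w) →
        InertCl22 B.s.σ ((toBase962_732 B).comp 𝔫).l v w (n w) (m v)
          (dblFn893 (n₀ w) (finGL305 w g)) f) ∧
      ((∃ w₁ w₂ : HeightOneSpectrum (𝓞 F),
          PlaceOver ℚ F v w₁ ∧ PlaceOver ℚ F v w₂ ∧ w₁ ≠ w₂) →
        SplitCl22 ((toBase962_732 B).comp 𝔫) v n m
          (fun w => dblFn893 (n₀ w) (finGL305 w g)) f) := by
    intro v
    by_cases hvT : v ∈ T₀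
    swap
    · exact ⟨fun _ => 0, fun h => absurd h hvT⟩
    by_cases hP : ∃ w : HeightOneSpectrum (𝓞 F), PlaceOver ℚ F v w ∧
        ∀ w' : HeightOneSpectrum (𝓞 F), PlaceOver ℚ F v w' → w' = w
    · obtain ⟨w₀, hw₀, hu₀⟩ := hP
      have hwS : w₀ ∈ B.S' := (hlvl.mem_S'_g w₀).2 (dvd_up22 ((hexp.div v).1 hvT) hw₀)
      have hMle : Mw w₀ ≤ m v := (Finset.le_sup (f := Mw) hwS).trans (hM v hvT)
      obtain ⟨f, hf1, hf2, hf3⟩ := hMw w₀ v hw₀ hu₀ (n w₀) (m v) (hnn w₀) hMle
      refine ⟨f, fun _ => ⟨⟨hf1, hf2⟩, ?_, ?_⟩⟩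
      · intro w hw _
        obtain rfl : w = w₀ := hu₀ w hw
        exact hf3 _ hl2
      · rintro ⟨w₁, w₂, h₁, h₂, hne⟩
        exact absurd ((hu₀ w₁ h₁).trans (hu₀ w₂ h₂).symm) hne
    · by_cases hQ : ∃ w₁ w₂ : HeightOneSpectrum (𝓞 F),
          PlaceOver ℚ F v w₁ ∧ PlaceOver ℚ F v w₂ ∧ w₁ ≠ w₂
      · obtain ⟨w, i, h1, h2, h3, h4, h5⟩ := enumBad22 ((toBase962_732 B).comp 𝔫) hD hcycD v hQ
        have hlev : ∀ j : ℕ, n (w j) = m v := fun j =>
          level_split22 𝔫 hexp.lev_dn hexp.lev_up v (w j) (i j) (h4 j) (h5 j)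
        have hψ : ∀ j : ℕ,
            T6.IsBiInv (T6.InU (m v)) (fun x => dblFn893 (n₀ (w j)) (finGL305 (w j) g)
              (Matrix.GeneralLinearGroup.map ((i j : v.adicCompletion ℚ ≃+* _) :
                v.adicCompletion ℚ →+* (w j).adicCompletion F) x)) ∧
            T6.HasFinSupp (T6.InU (m v)) (fun x => dblFn893 (n₀ (w j)) (finGL305 (w j) g)
              (Matrix.GeneralLinearGroup.map ((i j : v.adicCompletion ℚ ≃+* _) :
                v.adicCompletion ℚ →+* (w j).adicCompletion F) x)) := by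
          intro j
          have h := hup (w j)
          rw [hlev j] at h
          exact T6.H22.transport22 (i j) (h5 j) (m v) _ h.1 h.2
        obtain ⟨f, hf1, hf2, hf3⟩ := T6.H22.exists_convProd22 (T6.H22.isSub_inU22 (m v))
          ((toBase962_732 B).comp 𝔫).l _ (fun j => (hψ j).1) (fun j => (hψ j).2)
        refine ⟨f, fun _ => ⟨⟨hf2, hf3⟩, ?_, ?_⟩⟩
        · intro w' hw' hu'
          exact absurd ⟨w', hw', hu'⟩ hP
        · intro _
          exact ⟨w, i, h1, h2, h3, h4, h5, hlev, hf1⟩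
      · refine ⟨fun _ => 0, fun _ => ⟨⟨fun _ _ _ _ _ => rfl, ⟨∅, fun x hx => absurd rfl hx⟩⟩,
          ?_, ?_⟩⟩
        · intro w' hw' hu'
          exact absurd ⟨w', hw', hu'⟩ hP
        · intro h
          exact absurd h hQ
  choose b hb using hbex
  refine ⟨b, ⟨fun v hv => (hb v (Finset.mem_of_mem_erase hv)).1, fun μr μc _ _ => ?_⟩⟩
  refine ⟨fun _ _ => 0, fun _ => 0, fun _ => 0, ?_⟩
  exact
    { inv_up := fun v _ w _ => hup w
      inv_down := fun v hv => (hb v (Finset.mem_of_mem_erase hv)).1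
      arch_up := fun _ => isArchTestC_zero570
      arch_down0 := isArchTestR_zero570 0
      arch_down1 := isArchTestR_zero570 (-1)
      inert := fun v hv w hw hu => (hb v (Finset.mem_of_mem_erase hv)).2.1 w hw hu
      split := fun v hv hsp => (hb v (Finset.mem_of_mem_erase hv)).2.2 hsp
      arch := fun _ => isArchMatch_zero570 μr μc }

end Partner

/-! ## 5. The leaf -/

/-- **LEAF T7.L2Q.1.H2a.B.0.1 = BAD-PART over `ℚ`** (`PBQ973.BadPartQC973 F`, VERBATIM,
UNCONDITIONAL). -/
theorem badPartQC570 (F : Type) [Field F] [NumberField F] : PBQ973.BadPartQC973 F := by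
  intro _ hq Φe B hB _ g _
  obtain ⟨M, hM⟩ := exists_bound570 hq hB g
  obtain ⟨𝔫₀, h0, h1, hu, -⟩ := hB.base_level
  have hd : 1 ≤ max M 1 := le_max_right _ _
  refine ⟨𝔫₀ ^ (max M 1), isLevQ_pow570 hB h0 h1 hu hd, fun T₀ n n₀ m hexp => ?_⟩
  refine hM _ (isLevQ_pow570 hB h0 h1 hu hd) T₀ n n₀ m hexp (fun v hv => ?_)
  have hv𝔫 : v.asIdeal ∣ 𝔫₀ ^ (max M 1) := (hexp.div v).1 hv
  have hv0 : 𝔫₀ ≤ v.asIdeal := by
    rw [Ideal.dvd_iff_le] at hv𝔫
    exact (v.isPrime.pow_le_iff (by omega)).1 hv𝔫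
  have h2 := le_level_of_le_pow570 hexp.lev_dn v (Ideal.pow_right_mono hv0 (max M 1))
  exact (le_max_left M 1).trans h2

end Fermat.Agent.LT.T7.H570BP

end

end
-- ===== PACK-END LT/T7/H570/BadPartQ.lean

-- ===== PACK-BEGIN LT/T7/H973/PreBQClosed.lean
section












/-!
# Row LT, tower T7, node T7.L2Q.1.H2a.B `CQ801.PairBQC801` (registry row 2856, owner helper973):
# INTEGRATION of the second cut (THE SWAP) -- THE SECOND PAIR over `ℚ` FROM THE FIRST PAIR

OFF-MAIN.  Complete proofs, nothing assumed.  ADDITIVE (new names only, suffix `973`).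

    openSwapQ973        (F) : OpenSwapQ973 F                               (UNCONDITIONAL)
    preBQC_of_pairA973  : CQ801.PairAQC801 P F → PreBQC973 P F
    pairBQC_of_pairA973 : CQ801.PairAQC801 P F → CQ801.PairBQC801 P F

ONLY OPEN ITEM of the second pair over `ℚ`: the first pair `CQ801.PairAQC801 P F` (registry
row 2855).

Closed leaves used (byte-identical copies of the files of the provers):
* `SwapUpSumQC973`, `SwapDnSumQC973`, `SwapLocQC973`: helper973 (`T7/H973/SwapUpSumQ.lean`,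
  `SwapDnSumQ.lean`, `SwapLocQ.lean`; Q-mirrors of helper510, helper219);
* `SwapMemUpQC973`, `SwapUpTestQC973`: helper963 (`T7/H963/SwapUpQ.lean`);
* `SwapUpEKQC973`, `SwapUpSuppQC973`, `SwapDnEKQC973`, `SwapDnSuppQC973`: helper47
  (`T7/H47/ST/SwapQ.lean`);
* `SwapUpInvQC973`: helper688 (`T7/H688/SwapUpInvQ.lean`);
* `SwapUpOpQC973`: helper575 (`T7/H575/SwapUpOpQ.lean`);
* `SwapDnTestQC973`, `SwapMemDnQC973`: helper75 (`T7/H75/SwapDnTestQ.lean`);
* `SwapDnInvQC973`: helper459 (`T7/H459/SwapDnInv.lean`);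
* `SwapDnOpQC973`: helper607 (`T7/H607/SwapDnOpQ.lean`);
* `BadPartQC973`: helper570 (`T7/H570/BadPartQ.lean`).
-/

set_option autoImplicit false

open AutomorphicForm IsDedekindDomain NumberField MeasureTheory
open scoped ComplexConjugate

noncomputable section

namespace Fermat.Agent.LT.T7.PBQ973

open Fermat.Agent.LT.H556 Fermat.Agent.LT.H556.A0 Fermat.Agent.LT Fermat.Agent.LT.T7
  Fermat.Agent.LT.T7.L2Q Fermat.Agent.LT.T7.CQ801

/-- **THE OPEN LEAVES OF THE SWAP over `ℚ` ARE CLOSED.** -/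
theorem openSwapQ973 (F : Type) [Field F] [NumberField F] : OpenSwapQ973 F where
  upTest := H963.SMU.swapUpTestQC_of963 (F := F) (swapUpSumQC973 F)
  upEK := H47.ST.swapUpEKQC_of47 (F := F) (swapUpSumQC973 F)
  upInv := H688.swapUpInvQC688 F
  upOp := H575.swapUpOpQC_of575 (F := F) (swapUpSumQC973 F)
  upSupp := H47.ST.swapUpSuppQC_of47 (F := F) (swapUpSumQC973 F)
  memUp := H963.SMU.swapMemUpQC_of963 (F := F) (swapUpSumQC973 F)
  dnTest := H75.SQ.swapDnTestQC75 F
  dnEK := H47.ST.swapDnEKQC_of47 (F := F) (swapDnSumQC973 F)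
  dnInv := H459.swapDnInvQC459 F
  dnOp := H607.SwQ.swapDnOpQC_of607 (F := F) (swapDnSumQC973 F) (H459.swapDnInvQC459 F)
  dnSupp := H47.ST.swapDnSuppQC_of47 (F := F) (swapDnSumQC973 F)
  memDn := H75.SQ.swapMemDnQC75 F
  loc := swapLocQC973 F

variable {P : EKCond}
variable {F : Type} [Field F] [NumberField F]

/-- **THE UN-AVERAGED SECOND PAIR over `ℚ` FROM THE FIRST PAIR**, UNCONDITIONAL otherwise. -/
theorem preBQC_of_pairA973 (hA : PairAQC801 P F) : PreBQC973 P F :=
  preBQC_of973 P F hA (H570BP.badPartQC570 F) (openSwapQ973 F)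

/-- **THE SECOND PAIR over `ℚ` FROM THE FIRST PAIR**, UNCONDITIONAL otherwise. -/
theorem pairBQC_of_pairA973 (hA : PairAQC801 P F) : PairBQC801 P F :=
  pairBQC_of_preBQ973 (preBQC_of_pairA973 hA)

/-- The frozen node, VERBATIM. -/
example (hA : Fermat.Agent.LT.T7.CQ801.PairAQC801 P F) :
    Fermat.Agent.LT.T7.CQ801.PairBQC801 P F :=
  pairBQC_of_pairA973 hA

end Fermat.Agent.LT.T7.PBQ973

end

end
-- ===== PACK-END LT/T7/H973/PreBQClosed.lean

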