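import Mathlib
import Fermat.Agent.Pack.LT2.E20L0
import Fermat.Agent.Pack.LT4.E9L3
import Fermat.Agent.Pack.LT2.E21L0
import Fermat.Agent.Pack.LT2.E13L0
import Fermat.Agent.Pack.LT4.E1L3
import Fermat.Agent.Pack.LT4.E11L0
import Fermat.Agent.Pack.LT2.E14L2
import Fermat.Agent.Pack.LT2.E21L1
import Fermat.Agent.Pack.LT2.E20L2
import Fermat.Agent.Pack.LT2.E16L1
import Fermat.Agent.Pack.LT2.E16L0
import Fermat.Agent.Pack.LT2.E17L3
import Fermat.Agent.Pack.LT2.E16L2
import Fermat.Agent.Pack.LT2.E17L2
import Fermat.Agent.Pack.LT2.E19L1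
import Fermat.Agent.Pack.LT2.E18L3
import Fermat.Agent.Pack.LT2.E18L0
import Fermat.Agent.Pack.LT4.E4L1
import Fermat.Agent.Pack.LT2.E18L2
import Fermat.Agent.Pack.LT2.E18L1
import Fermat.Agent.Pack.LT2.E20L1
import Fermat.Agent.Pack.LT2.E19L2
import Fermat.Agent.Pack.LT2.E17L1
import Fermat.Agent.Pack.LT2.E17L0
import Fermat.Agent.Pack.LT2.E19L3
import Fermat.Agent.Pack.LT2.E14L0
import Fermat.Agent.Pack.LT2.E13L2
import Fermat.Agent.Pack.LT2.E13L3
import Fermat.Agent.Pack.LT2.E20L3
import Fermat.Agent.Pack.LT2.E14L3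
import Fermat.Agent.Pack.LT2.E16L3
import Fermat.Agent.Pack.LT2.E14L1
import Fermat.Agent.Pack.LT2.E11L0
import Fermat.Agent.Pack.LT2.E15L2
import Fermat.Agent.Pack.LT2.E11L2
import Fermat.Agent.Pack.LT2.E11L1
import Fermat.Agent.Pack.LT2.E10L0
import Fermat.Agent.Pack.LT2.E10L3
import Fermat.Agent.Pack.LT2.E9L3
import Fermat.Agent.Pack.LT4.E11L3
import Fermat.Agent.Pack.LT4.E8L0
import Fermat.Agent.Pack.LT4.E9L2
import Fermat.Agent.Pack.LT4.E9L1
import Fermat.Agent.Pack.LT4.E7L2
import Fermat.Agent.Pack.LT4.E6L1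
import Fermat.Agent.Pack.LT4.E6L3
import Fermat.Agent.Pack.LT4.E6L0
import Fermat.Agent.Pack.LT4.E7L0
import Fermat.Agent.Pack.LT4.E7L1
import Fermat.Agent.Pack.LT4.E8L2
import Fermat.Agent.Pack.LT4.E6L2
import Fermat.Agent.Pack.LT4.E9L0
import Fermat.Agent.Pack.LT4.E11L2
import Fermat.Agent.Pack.LT4.E10L3
import Fermat.Agent.Pack.LT4.E11L1
import Fermat.Agent.Pack.LT4.E10L1

set_option linter.all false

-- ===== PACK-BEGIN LT/CFT/Closed.lean
section











/-!
# Row LT, tower CFT (architect helper53), OFF-MAIN: THE TOWER IS CLOSED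

**`artinRay : ArtinRayC`** and **`heckeChar : HeckeCharC`**, UNCONDITIONAL (statements: the frozen
`LT/CFT/Spec.lean`): Artin reciprocity for every character of finite order of the absolute
Galois group of a TOTALLY COMPLEX number field, in ray form and in idèlic (Hecke character)
form.

Route C (cohomological), every file a byte copy of its owner's file, rebuilt here in ONE
closure:

* REC2 `H1.reciprocityTCClosed` — helper1 (Steps A', B', C', L5', G6), helper421 (HP2),
  helper119 (layer G), helper701 (adapter `isTC_of_noOrderTwo701`);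
* PRIM `H341.cycSumOfRec_Iloc341` — helper341;
* DICT `H681.rayOfCycSum_of_leaves` — helper681 (cut, EmbedC, FrobIndepC, RayOfArtinSumC),
  helper953 (CharFactorC), helper5 + helper701 (EntryC);
* IDELE `H861.heckeOfRay861` — helper861 (second proofs: helper769, helper618).

The ideal-theoretic route L (`SpecL.lean`, running top `Top.lean`) is independent of this file.
-/

set_option autoImplicit false

noncomputable section

namespace Fermat.Agent.LT.CFT

/-- The adapter `NoOrderTwo → H1.IsTC` (helper701). -/
theorem tcOfNoOrderTwo_closed : TCOfNoOrderTwoC :=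
  fun U hU hno => H701.isTC_of_noOrderTwo701 U hU hno

/-- **REC2**, closed: reciprocity for the `2`-primary Brauer group, totally complex fields. -/
theorem recTC2_closed : RecTC2 Iloc :=
  recTC2_of_h1 tcOfNoOrderTwo_closed Iloc (H1.reciprocityTCClosed Iloc)

/-- **DICT**, closed. -/
theorem rayOfCycSum_closed : RayOfCycSumC Iloc :=
  H681.rayOfCycSum_of_leaves H953.charFactor953 H5.entryC5 H681.embed681 H681.frobIndep681
    H681.rayOfArtinSum681

/-- **ARTIN RECIPROCITY, ray form, totally complex base: CLOSED.** -/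
theorem artinRay : ArtinRayC :=
  artinRay_of_leaves recTC2_closed H341.cycSumOfRec_Iloc341 rayOfCycSum_closed

/-- **ARTIN RECIPROCITY, idèlic form (Hecke characters), totally complex base: CLOSED.** -/
theorem heckeChar : HeckeCharC :=
  H861.heckeOfRay861 artinRay

end Fermat.Agent.LT.CFT

end

end
-- ===== PACK-END LT/CFT/Closed.lean

-- ===== PACK-BEGIN LT/A2/H442/Closed.lean
section






































































































/-!
# Row LT, tower A2 -- `Closed.lean` CANDIDATE v10: TOWER A2 CLOSED (helper442; pattern of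
row-lead note 15716)

OFF-MAIN.  ONE plain import closure with byte-identical copies of ALL the leaves of tower A2
and of the CLOSED towers T1 (helper54) and CFT (helper53) (sha256 and source commit of every
vendored file in `coord/LT-A2-closed-helper442.md`).

* `a2_closed442 : WT.A2_556` : the wall leaf of helper556, VERBATIM, UNCONDITIONAL, through the
                      v2 top `a2_top_tc` of the architect (helper950, `TopTC.lean`);
* `Open442`         : the leaves of tower A2 which are still open: NONE (no field);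
* `top_of_open442`  : `Open442 → WT.A2_556` (the API of v1 -- v9 of this file).

The inputs of the tower:

| input | owner | theorem |
|---|---|---|
| T1 `T1Out K` (every number field) | tower T1, helper54 | `T1.t1Out` |
| CFT `HeckeCharC` | tower CFT, helper53 | `CFT.heckeChar` |
| T6.00a `HasseNormTCC` | helper49 (on CFT `HasseNormC`) | `T6.H49.hasseNormTCC49` |

The leaves, discharged here:

| leaf | owner | theorem |
|---|---|---|
| A2.01 `GalSeedC` | trunk helper38 (+ 230, 144, 444, 138, 800, 131, 922, 494, 23, 743, 701) | `galSeedC_closed442` |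
| A2.02 `TorusCharC` | helper456 (+ 83, 772, 743) | `H456.torusCharC_closed456` |
| A2.03.1 `WL.WeilExC` (station) | helper467 (cuts, tops v2) | `weilExC_closed442` |
| A2.03.1.1 `WX467.DataC` (station) | helper467 (cut, top), helper441 (`AsmC`) | `dataC_closed442` |
| A2.03.1.1.01 `WX467.PsiC` | helper709 | `H709.psiC709` |
| A2.03.1.1.02 `WX467.ProdIntC` | helper201 | `H201.prodIntC201` |
| A2.03.1.1.03 `WX467.TorusMeasC` | helper621 on helper751 | `H621.torusMeasC621` |
| A2.03.1.1.04 `WX467.GoodArithC` | helper570 | `H570.goodArithC570` |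
| A2.03.1.1.05 `WX467.InducedC` | helper64 | `H64.inducedC64` |
| A2.03.1.1.06 `WX467.LocRepC` (station, ALL 20 leaves) | helper54 (cut, top) | `locRepC_closed442` |
| A2.03.1.1.06.01 `LF54.LeafHaar` | helper724 | `H724.leafHaar724` |
| A2.03.1.1.06.02 `LF54.LeafCov` | helper833 | `H833.leafCov833` |
| A2.03.1.1.06.03 `LF54.LeafFtSb` | helper709 | `H709.leafFtSb709` |
| A2.03.1.1.06.04 `LF54.LeafInv` | helper409 (+ 496, 361) | `H409.leafInv409` |
| A2.03.1.1.06.05 `LF54.LeafGauss` | helper323 | `H323.leafGauss323` |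
| A2.03.1.1.06.06 `LF54.LeafGaussNorm` | helper144 | `H144.leafGaussNorm144` |
| A2.03.1.1.06.07 `LF54.LeafGaussProd` | helper247 | `H247.leafGaussProd247` |
| A2.03.1.1.06.08 `LF54.LeafGaussSum` | helper79 | `H79.leafGaussSum_79` |
| A2.03.1.1.06.09 `LF54.LeafNormIndex` | helper258 (on 277, 361) | `H258.leafNormIndex258` |
| A2.03.1.1.06.10 `LF54.LeafNonNormSum` | helper887 | `H887.leafNonNormSum887` |
| A2.03.1.1.06.11 `LF54.LeafSqOpen` | helper949 | `H949.leafSqOpen949` |
| A2.03.1.1.06.12 `LF54.LeafEta` | helper793 | `H793.leafEta793` |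
| A2.03.1.1.06.13 `LF54.LeafBorelOp` | helper64 | `H64.leafBorelOp64` |
| A2.03.1.1.06.14 `LF54.LeafWeylOp` | helper83 | `H83.leafWeylOp_h83` |
| A2.03.1.1.06.15 `LF54.LeafRopSb` | helper487 | `H487.leafRopSb_h487` |
| A2.03.1.1.06.16 `LF54.LeafAxUnip` | helper333 | `H333.leafAxUnip333` |
| A2.03.1.1.06.17 `LF54.LeafAxDiag` | helper863 | `H863.leafAxDiag_863` |
| A2.03.1.1.06.18 `LF54.LeafAxWeyl` | helper286 | `H286.leafAxWeyl286` |
| A2.03.1.1.06.19 `LF54.LeafAxTor` | helper227 | `H227.leafAxTor227` |
| A2.03.1.1.06.20 `LF54.LeafAxReg` | helper267 | `LF54.H267.leafAxReg267` |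
| A2.03.1.1.07 `WX467.LocUniqC` | helper96 | `H96.locUniqC96` |
| A2.03.1.1.08 `WX467.LocGoodOfRepC` | helper999 (cut, top) | `locGoodOfRepC_closed442` |
| A2.03.1.1.08.1 `H999.InertEtaC` | helper999 | `H999.inertEtaC999` |
| A2.03.1.1.09 `WX467.LocBadOfRepC` | helper293 (+ 352, 129) | `H293.locBadOfRepC_closed293` |
| A2.03.1.1.10 `WX467.LocCpxC` (station, ALL 10 leaves) | helper798 (cut, top, transport) + 125, 61, 487, 894, 492, 724, 955, 820, 312 | `locCpxC_closed442` |
| A2.03.1.1.11 `WX467.AsmC` | helper441 | `H441.asmC441` |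
| A2.03.1.2 `WX467.BorelC` | helper569 | `H569.borelC569` |
| A2.03.1.3 `WX467.RegC` (ALL 9 leaves) | helper753 (cut, top) | `regC_closed442` |
| A2.03.1.3.0 `H753.DictC` | helper79 | `H79.dictC_79` |
| A2.03.1.3.1 `H753.ContProdC` | helper965 | `H965.contProdC965` |
| A2.03.1.3.2 `H753.SuppProdC` | helper922 | `H922.suppProdC922` |
| A2.03.1.3.3 `H753.LatticeC` | helper131 | `H131.latticeC_h131` |
| A2.03.1.3.4 `H753.StdAAC` | helper905 | `H905.stdAAC905` |
| A2.03.1.3.5 `H753.LocConstC` | helper753 (spare; owner helper600 = 2nd box) | `H753.locConstC753` |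
| A2.03.1.3.6 `H753.ArchBoundC` | helper848 | `H848.archBoundC848` |
| A2.03.1.3.7 `H753.ArchContC` | helper372 | `H372.archContC372` |
| A2.03.1.3.8 `H753.FinCoverC` | helper98 | `H98.finCoverC98` |
| A2.03.1.4 `WX467.WeylC` | helper276 | `H276.weylC276` |
| A2.03.1.5 `WX467.RatC` | helper409 | `H409.ratC409` |
| A2.03.1.6 `WX467.RightInvC` | helper151 | `H151.rightInvC151` |
| A2.03.1.7 `WX467.StdLocC` | helper915 | `H915.stdLocC915` |
| A2.03.1.8b `WX467.OrbTCC` (= `H637.OrbC637`) | helper637 | `H637.orbC637` |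
| A2.03.2 `WL.TorusOpenC` | helper426 | `H426.torusOpenC426` |
| A2.03.3 `WL.LiftContC` | helper989 | `H989.liftCont989` |
| A2.03.4 `WL.LiftBddC` | helper904 (+ 926, 139, 362) | `H904.liftBddC904` |
| A2.03.5 `WL.WhitContC` | helper971 | `H971.whitContC971` |
| A2.03.6b `WL.WhitSumAtC` | helper593 | `H593.whitSumAtC593` |
| A2.03.7 `WL.WhitMeanC` | helper416 (cut, core, top) | `whitMeanC_closed442` |
| A2.03.7.1 `H416.BesselInvC` | helper144 | `H144.besselInvC144` |
| A2.03.7.2 `H416.EigenOdeC` | helper949 | `H949.eigenOdeC949` |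
| A2.03.7.3 `H416.ArchInvC` | helper510 | `H510.archInvC_h510` |
| A2.03.7.4 `H416.IwasawaGL2C` | helper830 | `H830.iwasawaGL2C830` |
| A2.03.8 `WL.WhitHeckeC` | helper142 (top) + all of the above and below | `whitHeckeC_closed442` |
| A2.03.8.3 `H142.CentC` | helper965 | `H965.centC965` |
| A2.03.8.4 `H142.LocalAlgC` | helper820 | `H820.localAlgC820` |
| A2.03.8.5.1 `H254.PairC254` | helper124 | `H124.pairC124` |
| A2.03.8.5.2 `H254.PlusC254` | helper333 | `H333.plusC333` |
| A2.03.8.5.3 `H254.PartnerC254` | helper926 | `H926.partnerC254_926` |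
| A2.03.8.5.4 `H254.FormC254` | helper488 | `H488.formC254_488` |
| A2.03.8.5.6 `H254.TorGroupC254` | helper833 | `H833.torGroupC833` |
| A2.03.8.5.7 `H254.T1MeasC254` | helper922 | `H922.t1MeasC922` |
| A2.03.8.5.8 `H254.DecompC254` | helper314 | `H314.decompC314` |
| A2.03.8.5.9 `H254.SuppC254` | helper322 | `H322.suppC322` |
| A2.03.8.5.10 `H254.IntegrableC254` | helper826 | `H826.integrableC254_826` |
| A2.03.8.5.11 `H254.MeasC254` | helper254 | `H254.measC254` |
| A2.03.8.6 `H142.RecInertC` | helper792 | `H792.recInertC792` |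
| A2.04 `Poisson2C` | helper534 (+ helper127 `PerpC`, helper11, helper767, helper848/63) | `poisson2C_closed442` |
| A2.05b `HasseNormTC` | helper431, helper771 (adapter) on helper49 | `hasseNormTC_closed442` |
| A2.06 `ThetaInvC` | helper83 | `H83.thetaInvC_h83` |
| A2.07b `LiftExAtC` | helper546 | `H546.liftExAtC_h546` |
| A2.08 `WhitExC` | helper581 | `H581.whitExC_h581` |
| A2.09b `ExpAtC` | helper112 | `H112.expAtC_h112` |
| A2.10 `InvC` | helper352 | `H352.invC352` |
| A2.11 `AdeleQuotC` | helper63 | `H63.adeleQuotC_closed63` |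
| A2.12 `CuspOfWhitC` | helper409 | `H409.cuspOfWhitC409` |
| A2.13 `MeanOfWhitC` | helper751 | `H751.meanOfWhitC751` |
| A2.14 `NeZeroOfWhitC` | helper231 | `H231.neZeroOfWhitC231` |

Tops of the cuts used here (all proved by their owners): `WX467.weilEx_of_leaves_tc467` and
`WX467.dataC_of_leaves467` (helper467), `LF54.locRepC_of_leaves54` (helper54),
`CX798.locCpxC_of_leaves798` (helper798), `H999.locGoodOfRepC_of_inertEta999` (helper999),
`H753.regC_of_leaves753` (helper753),
`H416.whitMean_of_leaves416` (helper416), `H142.whitHecke_of_leaves142` (helper142),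
`H254.recSplit_of_leaves254` and `H254.int_of_leaves254` (helper254).

Nothing is assumed; axioms: `propext`, `Classical.choice`, `Quot.sound`.
-/

set_option autoImplicit false

open NumberField

namespace Fermat.Agent.LT.A2.H442

open Fermat.Agent.LT Fermat.Agent.LT.A2 Fermat.Agent.LT.H556

/-- **The leaves of tower A2 which are still open**: none (kept for the API of v1 -- v9). -/
structure Open442 : Prop where

/-! ## The inputs (closed towers) -/

/-- INPUT, tower T1 (helper54), CLOSED. -/
theorem t1_closed442 (K : Type) [Field K] [NumberField K] : T1.T1Out K :=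
  T1.t1Out K

/-- INPUT, tower CFT (helper53), CLOSED. -/
theorem heckeChar_closed442 : CFT.HeckeCharC :=
  CFT.heckeChar

/-- INPUT T6.00a (helper49 on the Hasse norm theorem of tower CFT), CLOSED. -/
theorem hasseTCC_closed442 : T6.HasseNormTCC :=
  T6.H49.hasseNormTCC49

/-! ## Closed leaves -/

/-- A2.04 `Poisson2C`, UNCONDITIONAL: helper534's reduction applied to the closed leaves of the
towers T1 (helper11, helper767, helper848) and T3 (helper127). -/
theorem poisson2C_closed442 : Poisson2C :=
  H534.poisson2_of534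
    (fun K _ _ => T1.H11.locCompC_h11 K)
    (fun K _ _ => H767.adeleLatticeC767 K)
    (fun K _ _ => H63.addFundDomC_closed63 K)
    (fun K _ _ => T3.H127.perpC127 K)

/-- A2.01 `GalSeedC`, UNCONDITIONAL (trunk of helper38 on the closed tower CFT). -/
theorem galSeedC_closed442 : GalSeedC :=
  H38.galSeedC_plugged4 heckeChar_closed442

/-- A2.05b `HasseNormTC`, UNCONDITIONAL. -/
theorem hasseNormTC_closed442 : HasseNormTC :=
  H431.hasseNormTC_of_T6TCC431 hasseTCC_closed442

/-- A2.03.4 `WL.LiftBddC`, UNCONDITIONAL (cut of helper904: 926, 139, 362). -/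
theorem liftBddC_closed442 : WL.LiftBddC :=
  H904.liftBdd_of_gaussSum H139.gaussSumC139

/-- A2.03.1.1.10 `WX467.LocCpxC`, UNCONDITIONAL (cut and top of helper798; leaves: 125, 61,
487, 894, 492, 724, 955, 820, 312, 798). -/
theorem locCpxC_closed442 : WX467.LocCpxC :=
  CX798.locCpxC_of_leaves798 H125.unipC125 CX798.H61.diagC_h61 H487.torC_h487 H894.weylC894
    H492.regC492 H724.decayC724 CX798.H955.rightInvC955 H820.charFormC820 H312.locNontrivC312
    CX798.transportC798

/-- A2.03.7 `WL.WhitMeanC`, UNCONDITIONAL (cut, adelic core and top of helper416; leaves: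
144, 949, 510, 830). -/
theorem whitMeanC_closed442 : WL.WhitMeanC :=
  H416.whitMean_of_leaves416 H144.besselInvC144 H949.eigenOdeC949 H510.archInvC_h510
    H830.iwasawaGL2C830

/-- A2.03.8.5.5 `H254.IntC254`, UNCONDITIONAL (cut of helper254; leaves: 833, 922, 314, 322,
826, 254). -/
theorem intC254_closed442 : H254.IntC254 :=
  H254.int_of_leaves254 H833.torGroupC833 H922.t1MeasC922 H314.decompC314 H322.suppC322
    H826.integrableC254_826 H254.measC254

/-- A2.03.8.5 `H142.RecSplitC`, UNCONDITIONAL (cut of helper254; leaves: 124, 333, 926,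
488). -/
theorem recSplitC_closed442 : H142.RecSplitC :=
  H254.recSplit_of_leaves254 H124.pairC124 H333.plusC333 H926.partnerC254_926
    H488.formC254_488 intC254_closed442

/-- A2.03.8 `WL.WhitHeckeC`, UNCONDITIONAL (top of helper142; `CentC`: helper965, `LocalAlgC`:
helper820, `RecInertC`: helper792). -/
theorem whitHeckeC_closed442 : WL.WhitHeckeC :=
  H142.whitHecke_of_leaves142 H965.centC965 H820.localAlgC820 recSplitC_closed442
    H792.recInertC792

/-! ## The stations -/

/-- The 20 leaves of helper54's cut of the station `LocRepC` (the theorems of their owners, see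
the table in the header). -/
theorem locFinLeaves_closed442 : LF54.Leaves where
  haar := H724.leafHaar724
  cov := H833.leafCov833
  ftSb := H709.leafFtSb709
  inv := H409.leafInv409
  gauss := H323.leafGauss323
  gaussNorm := H144.leafGaussNorm144
  gaussProd := H247.leafGaussProd247
  gaussSum := H79.leafGaussSum_79
  normIndex := H258.leafNormIndex258
  nonNormSum := H887.leafNonNormSum887
  sqOpen := H949.leafSqOpen949
  eta := H793.leafEta793
  borelOp := H64.leafBorelOp64
  weylOp := H83.leafWeylOp_h83
  ropSb := H487.leafRopSb_h487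
  axUnip := H333.leafAxUnip333
  axDiag := H863.leafAxDiag_863
  axWeyl := H286.leafAxWeyl286
  axTor := H227.leafAxTor227
  axReg := LF54.H267.leafAxReg267

/-- A2.03.1.1.06 `WX467.LocRepC`, UNCONDITIONAL (cut and top of helper54, all 20 leaves). -/
theorem locRepC_closed442 : WX467.LocRepC :=
  LF54.locRepC_of_leaves54 locFinLeaves_closed442

/-- A2.03.1.1.08 `WX467.LocGoodOfRepC`, UNCONDITIONAL (cut, top and sub-leaf of helper999). -/
theorem locGoodOfRepC_closed442 : WX467.LocGoodOfRepC :=
  H999.locGoodOfRepC_of_inertEta999 H999.inertEtaC999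

/-- A2.03.1.1 `WX467.DataC`, UNCONDITIONAL (cut and top of helper467; `AsmC`: helper441,
`PsiC`: helper709, `ProdIntC`: helper201, `TorusMeasC`: helper621, `GoodArithC`: helper570,
`InducedC`: helper64, `LocUniqC`: helper96, `LocCpxC`: station of helper798). -/
theorem dataC_closed442 : WX467.DataC :=
  WX467.dataC_of_leaves467 H441.asmC441 H709.psiC709 H201.prodIntC201 H621.torusMeasC621
    H570.goodArithC570 H64.inducedC64 locRepC_closed442 H96.locUniqC96
    locGoodOfRepC_closed442
    H293.locBadOfRepC_closed293 locCpxC_closed442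

/-- A2.03.1.3 `WX467.RegC`, UNCONDITIONAL (cut, top and `LocConstC` of helper753; `DictC`: helper79,
`ContProdC`: helper965, `SuppProdC`: helper922, `LatticeC`: helper131, `StdAAC`: helper905,
`ArchBoundC`: helper848, `ArchContC`: helper372, `FinCoverC`: helper98). -/
theorem regC_closed442 : WX467.RegC :=
  H753.regC_of_leaves753 H79.dictC_79 H965.contProdC965 H922.suppProdC922 H131.latticeC_h131
    H905.stdAAC905 H753.locConstC753 H848.archBoundC848 H372.archContC372 H98.finCoverC98

/-- A2.03.1 `WL.WeilExC`, UNCONDITIONAL (top v2 of helper467; `BorelC`: helper569,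
`WeylC`: helper276, `RatC`: helper409, `RightInvC`: helper151, `StdLocC`: helper915,
`OrbTCC`: helper637). -/
theorem weilExC_closed442 : WL.WeilExC :=
  WX467.weilEx_of_leaves_tc467 (fun K _ _ _ => t1_closed442 K) poisson2C_closed442
    dataC_closed442 H569.borelC569 regC_closed442 H276.weylC276 H409.ratC409
    H151.rightInvC151 H915.stdLocC915 H637.orbC637

/-- **THE TOWER A2, CLOSED**: the wall leaf `A2_556` of helper556, VERBATIM, UNCONDITIONAL.
(A2.03 `WeilLocalC` is not a field of the v2 top: its eight parts enter `a2_top_tc`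
directly.) -/
theorem a2_closed442 : WT.A2_556 :=
  a2_top_tc (fun K _ _ _ => t1_closed442 K) galSeedC_closed442 H456.torusCharC_closed456
    weilExC_closed442 H426.torusOpenC426 H989.liftCont989 liftBddC_closed442
    H971.whitContC971 H593.whitSumAtC593 whitMeanC_closed442 whitHeckeC_closed442
    poisson2C_closed442 hasseNormTC_closed442 H83.thetaInvC_h83
    H546.liftExAtC_h546 H581.whitExC_h581 H112.expAtC_h112 H352.invC352
    H63.adeleQuotC_closed63 H409.cuspOfWhitC409 H751.meanOfWhitC751 H231.neZeroOfWhitC231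

/-- Nothing is open. -/
theorem open_closed442 : Open442 := ⟨⟩

/-- The API of v1 -- v9 of this file. -/
theorem top_of_open442 (_ : Open442) : WT.A2_556 :=
  a2_closed442

end Fermat.Agent.LT.A2.H442

end
-- ===== PACK-END LT/A2/H442/Closed.lean

-- ===== PACK-BEGIN LT/T7/H893/SupplyClosed14.lean
section























/-!
# Row LT, tower T7, node T7.L2.1 `SupplySC` (sub-architect helper893): INTEGRATION v14

OFF-MAIN.  No `sorry`, nothing assumed.  ADDITIVE.  Integration v13 with the closed leaves
(byte-identical copies):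

* FIRST PAIR, CLOSED (`pairAC_closed893`): `UpDatC981` (helper413), `DownFinC981` (helper619,
  `PushCalcC619` helper717), `DownArchC981` (cut of helper910, `BinAbelC910` helper14,
  `ArchEnumC910` helper519), `PushTelC981` (helper942), `StepMC981` (integration of helper227,
  cut of helper445), `StepTC981` (cut of helper589 `ST589.stepTC_of589`: `PlaceC589` helper812,
  `SysC589` helper589, `DTestC589`, `DOpC589` helper16, `DEkC589`, `DSuppC589` helper562,
  `ShapeTC589` helper311);
* PRODUCTS, CLOSED from `T6.T6Out` (`prodMtCb_closed893`, both routes): `OpAvgC51` (helper526),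
  `RegAC51` (helper869), `RegOpC51` (helper448), `RegSphC51` (helper615), `InertSphC51`,
  `SplitSphC51`, `SphProdC724` (helper681);
* SECOND PAIR: `SwapLocC57` (helper475).

    supplySC_of_open893s : OpenSupply893s K K' → T7.SupplySC ekMulti K K'

OPEN WALL (`OpenSupply893s`): `T6.T6Out` (closed on the master), `PB57.BadPartC57 K K'` and the
twelve swap leaves of `PB57.OpenSwap57` other than `SwapLocC57`.
-/

set_option autoImplicit false

open AutomorphicForm IsDedekindDomain NumberField MeasureTheory
open scoped ComplexConjugate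

noncomputable section

namespace Fermat.Agent.LT.T7.H893

open Fermat.Agent.LT Fermat.Agent.LT.H556 Fermat.Agent.LT.H556.A0 Fermat.Agent.LT.T7

attribute [local instance] Fermat.Agent.LT.T5.instMeasurableSpaceG

section Closed

variable (K K' : Type) [Field K] [NumberField K] [Field K'] [NumberField K'] [Algebra K K']

/-- **THE STEP OF THE `T_w`, CLOSED** (cut of helper589 with its leaves). -/
theorem stepTC_closed893 : B981.StepTC981 K K' LocA893 :=
  ST589.stepTC_of589 (H812.placeC589_812 K K') (ST589.sysC589 K') (ST589.sysC589 K)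
    (H16.dTestC589_16 K') (H16.dTestC589_16 K) (H562.dEkC562 K') (H562.dEkC562 K)
    (H562.dSuppC562 K') (H562.dSuppC562 K) (H16.dOpC589_16 K') (H16.dOpC589_16 K)
    (H311.shapeTC311 K K')

/-- **THE FIRST PAIR, CLOSED** (condition `ekMulti`, shape of record `LocA893`). -/
theorem pairAC_closed893 : Q797.PairAC797 ekMulti K K' LocA893 :=
  pairAC_of_open893q
    { upDat := B981.H413.upDatC413 K'
      downFin := B981.DF619.downFinC619 K K'
      downArch := T3.Push.downArchC_of_enum K K' (H910.H519.archEnumC519 K K')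
      pushTel := H942.pushTelC942 K K'
      stepT := stepTC_closed893 K K'
      stepM := H227.stepMC981_closed227 K K' }

/-- The leaf `SphProdC724` of helper724 from the output of the tower T6 (helper681). -/
theorem sphProdC_closed893 (hT6 : T6.T6Out) : PS724.SphProdC724 K K' :=
  fun ℓ Φ B g 𝔫 μc T₀ n n₀ m H' z' H z t k j T φ₀ Φ' f₀ F h =>
    H681.sphOut_locProd681 K K' hT6 ℓ Φ B g 𝔫 μc T₀ n n₀ m H' z' H z t k j T φ₀ Φ' f₀ F h

/-- **THE OPEN WALL of `SupplySC ekMulti`** (integration v14): the output of the tower T6, the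
partner family and the swap leaves of the second pair. -/
structure OpenSupply893s : Prop where
  t6 : T6.T6Out
  badPart : PB57.BadPartC57 K K'
  upTest : PB57.SwapUpTestC57 K K'
  upEK : PB57.SwapUpEKC57 K K'
  upInv : PB57.SwapUpInvC57 K K'
  upOp : PB57.SwapUpOpC57 K K'
  upSupp : PB57.SwapUpSuppC57 K K'
  memUp : PB57.SwapMemUpC57 K K'
  dnTest : PB57.SwapDnTestC57 K K'
  dnEK : PB57.SwapDnEKC57 K K'
  dnInv : PB57.SwapDnInvC57 K K'
  dnOp : PB57.SwapDnOpC57 K K'
  dnSupp : PB57.SwapDnSuppC57 K K'
  memDn : PB57.SwapMemDnC57 K K'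

variable {K K'}

/-- The common part of v13 from the open wall of v14. -/
theorem openGlob893q_of_open893s (h : OpenSupply893s K K') : OpenGlob893q K K' :=
  { upDat := B981.H413.upDatC413 K'
    downFin := B981.DF619.downFinC619 K K'
    downArch := T3.Push.downArchC_of_enum K K' (H910.H519.archEnumC519 K K')
    pushTel := H942.pushTelC942 K K'
    stepT := stepTC_closed893 K K'
    stepM := H227.stepMC981_closed227 K K'
    t6 := h.t6
    badPart := h.badPart
    swap :=
      { upTest := h.upTest
        upEK := h.upEK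
        upInv := h.upInv
        upOp := h.upOp
        upSupp := h.upSupp
        memUp := h.memUp
        dnTest := h.dnTest
        dnEK := h.dnEK
        dnInv := h.dnInv
        dnOp := h.dnOp
        dnSupp := h.dnSupp
        memDn := h.memDn
        loc := H475.swapLocC475 K K' }
    opAvg := H526.opAvgC526 K K'
    regA := H869.regAC869 K K'
    regOp := H448.regOpC448 K K' }

/-- **THE STABLE SUPPLY from the open wall (v14)**, through route (ii) (the sixth cut of
helper893 with the cut of helper724). -/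
theorem supplySC_of_open893s (h : OpenSupply893s K K') : SupplySC ekMulti K K' :=
  supplySC_of_open893r
    { toOpenGlob893q := openGlob893q_of_open893s h
      sphProd := sphProdC_closed893 K K' h.t6 }

/-- The same through route (i) (the cut of record of helper51). -/
theorem supplySC_of_open893s' (h : OpenSupply893s K K') : SupplySC ekMulti K K' :=
  supplySC_of_open893q
    { toOpenGlob893q := openGlob893q_of_open893s h
      regSph := H615.regSphC615 K K'
      inertSph := H681.inertSphC_of681 K K' h.t6
      splitSph := H681.splitSphC_of681 K K' h.t6 }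

end Closed

end Fermat.Agent.LT.T7.H893

end

end
-- ===== PACK-END LT/T7/H893/SupplyClosed14.lean

-- ===== PACK-BEGIN LT/T7/H893/SupplyClosed15.lean
section






/-!
# Row LT, tower T7, node T7.L2.1 `SupplySC` (sub-architect helper893): INTEGRATION v15

OFF-MAIN.  No `sorry`, nothing assumed.  ADDITIVE.  **THE CUBIC SUPPLY `SupplySC ekMulti K K'`
FROM THE OUTPUT OF THE TOWER T6 AND THE LEAF `B970.BadLocC970` ALONE** (both closed on the master:
`T6.top_closed`, `H22.badLocC22` of helper22).

The SECOND PAIR through the route of record of helper970 (`B970.pairBCb_open3_797_970`,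
integration 3; byte-identical copies), with `Up2C970` closed by helper218 (`H218.up2C218`) and
`Dn2C970` closed by helper309 (`H309.Dn2.dn2C_closed309`), from the FIRST PAIR closed in v14
(`pairAC_closed893`).

    pairBCb_closed893    : B970.BadLocC970 K K' → Q797.PairBC797 ekMulti K K' LocB893b
    baseCb_closed893     : B970.BadLocC970 K K' → BaseCb ekMulti K K'
    prodShapeC_closed893 : T6.T6Out → ProdShapeC893 K K'
    prodMtCb_closed893   : T6.T6Out → ∀ κ, κ ≠ 0 → ProdMtCb K K' κ
    supplySC_closed893   : T6.T6Out → B970.BadLocC970 K K' → T7.SupplySC ekMulti K K'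

OPEN WALL: `T6.T6Out`, `B970.BadLocC970 K K'` -- NOTHING ELSE.  (The swap route of helper57,
integration v14, is a spare.)
-/

set_option autoImplicit false

open AutomorphicForm IsDedekindDomain NumberField MeasureTheory
open scoped ComplexConjugate

noncomputable section

namespace Fermat.Agent.LT.T7.H893

open Fermat.Agent.LT Fermat.Agent.LT.H556 Fermat.Agent.LT.H556.A0 Fermat.Agent.LT.T7

attribute [local instance] Fermat.Agent.LT.T5.instMeasurableSpaceG

section Closed

variable (K K' : Type) [Field K] [NumberField K] [Field K'] [NumberField K'] [Algebra K K']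

/-- **THE SECOND PAIR** (form of record v2, condition `ekMulti`) from the leaf `BadLocC970`
(route of record of helper970). -/
theorem pairBCb_closed893 (hBad : B970.BadLocC970 K K') :
    Q797.PairBC797 ekMulti K K' LocB893b :=
  B970.pairBCb_open3_797_970 (pairAC_closed893 K K') hBad (Or.inr (H218.up2C218 K K'))
    (Or.inr (H309.Dn2.dn2C_closed309 K K'))

/-- **THE BASE NODE `BaseCb ekMulti`** from the leaf `BadLocC970`. -/
theorem baseCb_closed893 (hBad : B970.BadLocC970 K K') : BaseCb ekMulti K K' :=
  Q797.baseCb_of797 (H253.expC253 K K') (H253.cosetC253 K K') (pairAC_closed893 K K')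
    (pairBCb_closed893 K K' hBad)

/-- **THE NODE `ProdShapeC893`** from the output of the tower T6 (cut of helper724). -/
theorem prodShapeC_closed893 (hT6 : T6.T6Out) : ProdShapeC893 K K' :=
  PS724.prodShapeC_of_leaves724 (H526.opAvgC526 K K')
    (convAvgC_of_open893k (H869.regAC869 K K') (H448.regOpC448 K K'))
    (H409.regOrbC409 K K') (H561.regArchC561 K K') (P51.H321.splitOrbC321 K K')
    (H44.archProdC44 K K') (sphProdC_closed893 K K' hT6)

/-- **THE CUBIC SUPPLY `SupplySC ekMulti K K'`** from the output of the tower T6 and the leaf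
`BadLocC970` (route (ii) for the products: the sixth cut of helper893). -/
theorem supplySC_closed893 (hT6 : T6.T6Out) (hBad : B970.BadLocC970 K K') :
    SupplySC ekMulti K K' :=
  supplySC_of_open893g
    { globMatch := H305.globMatchC893_closed305 K K' hT6
      base := baseCb_closed893 K K' hBad
      prodShape := prodShapeC_closed893 K K' hT6
      sphHyp := H314.sphHypC_of314 K K' hT6
      levelUniq := H301.levelUniqC301 K
      levelUniq' := H301.levelUniqC301 K'
      levelAt := H644.levelAtC644 K K' }

/-- The same through route (i) for the products (the cut of record of helper51). -/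
theorem supplySC_closed893' (hT6 : T6.T6Out) (hBad : B970.BadLocC970 K K') :
    SupplySC ekMulti K K' :=
  supplySC_of_open893f
    { globMatch := H305.globMatchC893_closed305 K K' hT6
      base := baseCb_closed893 K K' hBad
      prodMt := fun κ hκ =>
        P51.prodMtCb_of51
          (P51.globProdC_of51 (H526.opAvgC526 K K')
            (convAvgC_of_open893k (H869.regAC869 K K') (H448.regOpC448 K K')))
          (P51.locProdC_of51 (H409.regOrbC409 K K') (H615.regSphC615 K K')
            (H561.regArchC561 K K') (H681.inertSphC_of681 K K' hT6)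
            (P51.H321.splitOrbC321 K K') (H681.splitSphC_of681 K K' hT6)
            (H44.archProdC44 K K'))
          (H644.unramC644 K K') (H644.levelAtC644 K K') H644.levelUniqC644 κ hκ }

end Closed

end Fermat.Agent.LT.T7.H893

end

end
-- ===== PACK-END LT/T7/H893/SupplyClosed15.lean

-- ===== PACK-BEGIN LT/T7/H563/ProdMtQClosed4.lean
section




/-!
# Row LT, tower T7, node T7.L2Q.1.H2b `CQ801.ProdMtQC801` (row 2683, helper563): CLOSED

OFF-MAIN.  No hole, nothing assumed.  ADDITIVE (v1, v2, v3 unchanged).  Plugged in addition to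
v3: `OpAvgQC563 F` (helper949, `T7/H949/OpAvgQ.lean`, `opAvgQC949`).

    prodMtQC801_closed563 : T6.T6Out → ∀ κ nowhere zero, CQ801.ProdMtQC801 F κ   (VERBATIM)

ALL 21 leaves of the three cuts (`ProdMtQSpec`, `ProdShapeQSpec`, `ConvAvgQSpec`) are plugged;
the only hypothesis is the output `T6.T6Out` of the tower T6 (closed at the master:
`T6.top_closed`), which enters through `SphHypQC563` (fundamental lemma, Satake) only.

| leaf | prover | file |
|---|---|---|
| `H893.LevelUniqC893 ℚ`, `F` | helper301 | `T7/H301/LevelUniq.lean` |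
| `H893.LevelAtC893 ℚ F` | helper627 | `T7/H627/LevelLeaves.lean` |
| `UnramQC563 F` | helper570 | `T7/H570/UnramQ.lean` |
| `SphHypQC563 F` (from `T6Out`) | helper60 | `T7/H60/SphHypQClosed.lean` |
| `OpAvgQC563 F` | helper949 | `T7/H949/OpAvgQ.lean` |
| `P51.ConvFamC51 F` | helper724 | `T7/H724/ConvFam.lean` |
| `ConvFamQC563`, `TestSmulQC563` | helper627 | `T7/H627/ConvFamQ.lean` |
| `P51.LocConvExC51`, `UnitConvC51`, `UnitRegC51`, `OverFinC51`, `BelowUniqC51`, `BelowExC51` | helper644 | `T7/H644/ConvSmall.lean` |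
| `RegAQC563 F` | helper563 (port of helper869) | `T7/H563/RegAQ.lean` |
| `RegOpQC563 F` | helper575 | `T7/H575/RegOpQ.lean` |
| `RegOrbQC563 F` | helper409 | `T7/H409/RegOrbQ.lean` |
| `SplitOrbQC563 F` | helper78 (port of helper321) | `T7/H78/SplitOrbQ.lean` |
| `SphProdQC563 F` | helper777 | `T7/H777/SphProdQ.lean` |
| `ArchProdQC563 F` | helper100 (on helper830 `archProdN830`) | `T7/H100/ArchProdQ.lean` |
-/

set_option autoImplicit false

open AutomorphicForm IsDedekindDomain NumberField MeasureTheory
open scoped ComplexConjugate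

noncomputable section

namespace Fermat.Agent.LT.T7.PQ563

open Fermat.Agent.LT.H556 Fermat.Agent.LT.H556.A0 Fermat.Agent.LT.T7 Fermat.Agent.LT.T7.H305
  Fermat.Agent.LT.T7.L2Q Fermat.Agent.LT.T7.H893 Fermat.Agent.LT.T7.H962
  Fermat.Agent.LT.T7.H732 Fermat.Agent.LT.T7.MQ298 Fermat.Agent.LT.T7.CQ801

attribute [local instance] Fermat.Agent.LT.T5.instMeasurableSpaceG

/-- **THE NODE `CQ801.ProdMtQC801`, CLOSED** (from the output of the tower T6). -/
theorem prodMtQC801_closed563 (F : Type) [Field F] [NumberField F] (ht6 : T6.T6Out)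
    (κ : KapFnQ801 F) (hκ : ∀ D μr μc T₀ n m, κ D μr μc T₀ n m ≠ 0) : ProdMtQC801 F κ :=
  prodMtQC801_of_open563c ht6 (T7.H949.opAvgQC949 F) κ hκ

end Fermat.Agent.LT.T7.PQ563

end

end
-- ===== PACK-END LT/T7/H563/ProdMtQClosed4.lean

-- ===== PACK-BEGIN LT/T7/DQ773/DatQOpen.lean
section





/-!
# Row LT, tower T7, node T7.L2Q.1.H2a.A.0.D `BQ87.DatQC87` (owner helper773, registry row 3088):
# INTEGRATION v1 = FOUR OPEN ITEMS

OFF-MAIN.  Complete proof, nothing assumed.

    datQC_of_open773 : B981.UpDatC981 F → NormFrameQC773 F → DownFinQC773 F → PushTelQC773 F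
                         → BQ87.DatQC87 F

= `datQC_of773` with the closed leaves `haarCplxExC773` (DQ.0) and `downArchQC773` (DQ.4).
OPEN: `B981.UpDatC981 F` (registry row 2979, helper981's leaf, ONE field), `NormFrameQC773 F`
(row 3176), `DownFinQC773 F` (row 3177), `PushTelQC773 F` (row 3179).
-/

set_option autoImplicit false

open IsDedekindDomain NumberField

noncomputable section

namespace Fermat.Agent.LT.T7.DQ773

open Fermat.Agent.LT.T7

/-- **INTEGRATION v1**: the node from its four open leaves. -/
theorem datQC_of_open773 (F : Type) [Field F] [NumberField F] (hU : B981.UpDatC981 F)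
    (hN : NormFrameQC773 F) (hF : DownFinQC773 F) (hT : PushTelQC773 F) : BQ87.DatQC87 F :=
  datQC_of773 hU haarCplxExC773 hN hF (downArchQC773 F) hT

end Fermat.Agent.LT.T7.DQ773

end

end
-- ===== PACK-END LT/T7/DQ773/DatQOpen.lean

-- ===== PACK-BEGIN LT/T7/DQ773/DatQOpen2.lean
section






/-!
# Row LT, tower T7, node T7.L2Q.1.H2a.A.0.D `BQ87.DatQC87` (owner helper773, registry row 3088):
# INTEGRATION v2 = ONE OPEN ITEM

OFF-MAIN.  Complete proof, nothing assumed.

    datQC_of_downFin773 : DownFinQC773 F → BQ87.DatQC87 F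

= `datQC_of_open773` with the closed leaves, vendored byte-identical:

| leaf | proof | file |
|---|---|---|
| `B981.UpDatC981 F` (row 2979) | helper413 `upDatC413` | `T7/B981/H413/UpDat.lean` |
| DQ.0 `HaarCplxExC773` (row 3175) | helper773 `haarCplxExC773` | `T7/DQ773/HaarCplxEx.lean` |
| DQ.2 `NormFrameQC773 F` (row 3176) | helper961 `normFrameQC_closed961` | `T7/H961/NormFrameQ.lean` |
| DQ.4 `DownArchQC773 F` (row 3178) | helper773 `downArchQC773` | `T7/DQ773/DownArchQ.lean` |
| DQ.5 `PushTelQC773 F` (row 3179) | helper488 `pushTelQC773_488` | `T7/H488/PushTelQ.lean` |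

OPEN: DQ.3 `DownFinQC773 F` (row 3177).
-/

set_option autoImplicit false

open IsDedekindDomain NumberField

noncomputable section

namespace Fermat.Agent.LT.T7.DQ773

open Fermat.Agent.LT.T7

/-- **INTEGRATION v2**: the node from its last open leaf. -/
theorem datQC_of_downFin773 (F : Type) [Field F] [NumberField F] (hF : DownFinQC773 F) :
    BQ87.DatQC87 F :=
  datQC_of_open773 F (B981.H413.upDatC413 F) (H961.normFrameQC_closed961 F) hF
    (H488.PT.pushTelQC773_488 F)

end Fermat.Agent.LT.T7.DQ773

end

end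
-- ===== PACK-END LT/T7/DQ773/DatQOpen2.lean

-- ===== PACK-BEGIN LT/T7/DQ773/DatQClosed.lean
section




/-!
# Row LT, tower T7, node T7.L2Q.1.H2a.A.0.D `BQ87.DatQC87` (owner helper773, registry row 3088):
# CLOSED, UNCONDITIONAL

OFF-MAIN.  Complete proof, nothing assumed.

    datQC_closed773 F : BQ87.DatQC87 F

The node of helper87 (`T7/H87/BaseAQSpec.lean`, sha256 6471b15c) from the cut of helper773
(`DatQSpec.lean` 8d7d26d9, top `datQC_of773`) and the closed leaves, vendored byte-identical:

| leaf | proof | file |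
|---|---|---|
| `B981.UpDatC981 F` (row 2979) | helper413 `upDatC413` | `T7/B981/H413/UpDat.lean` |
| DQ.0 `HaarCplxExC773` (row 3175) | helper773 `haarCplxExC773` | `T7/DQ773/HaarCplxEx.lean` |
| DQ.2 `NormFrameQC773 F` (row 3176) | helper961 `normFrameQC_closed961` | `T7/H961/NormFrameQ.lean` |
| DQ.3 `DownFinQC773 F` (row 3177) | helper131 `downFinQC_h131` | `T7/H131/DownFinQ.lean` |
| DQ.4 `DownArchQC773 F` (row 3178) | helper773 `downArchQC773` | `T7/DQ773/DownArchQ.lean` |
| DQ.5 `PushTelQC773 F` (row 3179) | helper488 `pushTelQC773_488` | `T7/H488/PushTelQ.lean` |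
-/

set_option autoImplicit false

open IsDedekindDomain NumberField

noncomputable section

namespace Fermat.Agent.LT.T7.DQ773

open Fermat.Agent.LT.T7

/-- **NODE A.0.D over `ℚ` = DATA, CLOSED.** -/
theorem datQC_closed773 (F : Type) [Field F] [NumberField F] : BQ87.DatQC87 F :=
  datQC_of_downFin773 F (H131.downFinQC_h131 F)

end Fermat.Agent.LT.T7.DQ773

end

end
-- ===== PACK-END LT/T7/DQ773/DatQClosed.lean

-- ===== PACK-BEGIN LT/T7/H484/PairAQOpen484.lean
section










/-!
# Row LT, tower T7, node T7.L2Q.1.H2a.A `CQ801.PairAQC801` (first pair over `ℚ`, registry row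
# 2855): INTEGRATION by the owner helper484 -- OPEN FORM (one hypothesis)

OFF-MAIN.  Complete proofs, nothing assumed.  ADDITIVE (new names only, suffix `484`).

    baseAQC801_of_stepMDat484 : BQ87.StepMDatQC87 F → CQ801.BaseAQC801 T7.ekMulti F
    pairAQC_of_stepMDat484    : BQ87.StepMDatQC87 F → CQ801.PairAQC801 T7.ekMulti F

Plugged (proofs of record, byte-identical copies, ONE closure):

| node | owner | theorem |
|---|---|---|
| `BQ87.DatQC87 F` | helper773@d54b0df02 | `DQ773.datQC_closed773` |
| `BQ87.UpGoodQC87 F` | helper409@3f094f941 | `H409.upGoodQC409` |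
| `BQ87.DnGoodQC87 F` | helper801@d7c25c57e | `DG801.dnGoodQC801` |
| `BQ87.IwSuppC87 K` | helper283@09d23fbc0 | `H283.iwSuppC283` |
| `BQ87.DnStabQC87 F` | helper919@b23946962 | `DSQ919.dnStabQC919` |
| `BQ87.ShapeQC87 F` | helper20@9570adcf5 | `H20.shapeQC20` |
| top of `BaseAQC801` | helper87@214c6c402 | `BQ87.baseAQC801_of87` |
| `StepTQC484`, `StepSQC484`, top of `PairAQC801` | helper216@2a4fd6e99 | `TQ216.pairAQC_of_base216` |

OPEN: `BQ87.StepMDatQC87 F` (registry row 3188; cut of record helper640
`T7/SM640/StepMDatSpec.lean`; spare cut helper484 `T7/H484/StepMDatSpec.lean`).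
-/

set_option autoImplicit false

open AutomorphicForm IsDedekindDomain NumberField MeasureTheory

noncomputable section

namespace Fermat.Agent.LT.T7.PQ484

open Fermat.Agent.LT Fermat.Agent.LT.T7

/-- **The base of the first pair over `ℚ` for the words of sphere means**, from the step
`M_{w,d}` on the data. -/
theorem baseAQC801_of_stepMDat484 (F : Type) [Field F] [NumberField F]
    (hM : BQ87.StepMDatQC87 F) : CQ801.BaseAQC801 T7.ekMulti F :=
  BQ87.baseAQC801_of87 (DQ773.datQC_closed773 F) hM (H409.upGoodQC409 F)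
    (DG801.dnGoodQC801 F) (H283.iwSuppC283 F) (H283.iwSuppC283 ℚ) (DSQ919.dnStabQC919 F)
    (H20.shapeQC20 F)

/-- **THE FIRST PAIR over `ℚ`** (registry row 2855), from the step `M_{w,d}` on the data. -/
theorem pairAQC_of_stepMDat484 (F : Type) [Field F] [NumberField F]
    (hM : BQ87.StepMDatQC87 F) : CQ801.PairAQC801 T7.ekMulti F :=
  TQ216.pairAQC_of_base216 T7.ekMulti F (baseAQC801_of_stepMDat484 F hM)

end Fermat.Agent.LT.T7.PQ484

end

end
-- ===== PACK-END LT/T7/H484/PairAQOpen484.lean

-- ===== PACK-BEGIN LT/T7/SM640/StepMDatClosed.lean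
section










/-!
# Row LT, tower T7, node T7.L2Q.1.H2a.A.0b.M `BQ87.StepMDatQC87` (registry row 3188):
# CLOSED, UNCONDITIONAL (helper640, owner of the cut)

OFF-MAIN.  Complete proofs, nothing assumed.  ADDITIVE (one new theorem, namespace
`Fermat.Agent.LT.T7.SM640`).

    stepMDatQC_closed640 (F) : BQ87.StepMDatQC87 F

= the proved top `stepMDatQC_of640` (`SM640/StepMDatTop.lean`) with ALL leaves plugged in ONE
import closure:

* SM.0 -- SM.5 (local): `SM640/LocalLeaves.lean` (helper640, on helper698 `SphDat` / `SphAbel`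
  and helper842 `SpecStepR`);
* SM.6 `StepTelC640 F`, SM.7 `StepFtC640 F`: helper341 `T7/H341/StepTel.lean`;
* SM.8 `StepUpOpC640 F`: helper892 `T7/H892/StepUpOp.lean`;
* SM.9 `DnOpFormC640 F`: helper801 `T7/H801/DnOpFormQ.lean`;
* `BQ87.UpGoodQC87 F`: helper409 `T7/H409/UpGoodQ.lean`;
* `T3.R.AbelRealC`: station T3.18R, `T3/R/ClosedR.lean`;
* `H445.SphExLocC445`: helper510 `T7/H510/SphEx.lean`.
-/

set_option autoImplicit false

noncomputable section

namespace Fermat.Agent.LT.T7.SM640

open Fermat.Agent.LT Fermat.Agent.LT.T7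

/-- **NODE `BQ87.StepMDatQC87` (the step `M_{w,d}` ON THE DATA over `ℚ`): CLOSED.** -/
theorem stepMDatQC_closed640 (F : Type) [Field F] [NumberField F] : BQ87.StepMDatQC87 F :=
  stepMDatQC_of640 (F := F) abelUniqC640 segBumpC640 sphLocTestC640 sphLocAbelC640 sphLocActsC640
    sphTransSegC640 (SMT341.stepTelC_closed341 F) (SMT341.stepFtC_closed341 F)
    (H892.stepUpOpC892 F) (DO801.dnOpFormC801 F) (H409.upGoodQC409 F) T3.R.abelRealC_c
    H510.sphExLocC_h510

end Fermat.Agent.LT.T7.SM640

end

end
-- ===== PACK-END LT/T7/SM640/StepMDatClosed.lean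

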