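import Fermat.Agent.Pack.LT4.E10L3
import Fermat.Agent.Pack.LT4.E12L1
import Fermat.Agent.Pack.LT4.E11L3
import Fermat.Agent.Pack.LT4.E5L3
import Fermat.Agent.Pack.LT4.E5L0
import Fermat.Agent.Pack.LT4.E8L0
import Fermat.Agent.Pack.LT4.E9L2
import Fermat.Agent.Pack.LT4.E9L1
import Fermat.Agent.Pack.LT4.E9L3
import Fermat.Agent.Pack.LT4.E12L0
import Fermat.Agent.Pack.LT4.E8L1
import Fermat.Agent.Pack.LT3.E21L0
import Fermat.Agent.Pack.LT4.E11L2

set_option linter.all false

-- ===== PACK-BEGIN LT/H17/MasterState.lean
section
























/-!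
# Row LT -- MASTER, STATE OF THE WALL (row-lead helper17), OFF-MAIN

STATE FILE (rewritten whenever a node closes; it is NOT a Spec and nobody should import it).

    master_s47_of_state17  : State17 → LTB.S47Statement            (route B = route of record)
    master_s47_of_two17    : the same at the two trace identities  (cubic + quadratic)
    master_s47_of_stateB17 : T7.H231.OpenB231 → LTB.S47Statement   (the same, `RigidAll` cut)
    master_s47_of_stateA17 : T7.H231.OpenA231 → LTB.S47Statement   (route A, hedge)

ONE import closure, byte-identical copies of the owners' files, EXCEPT the six Spec files with a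
recursive definition (`T6/Spec`, `T6/H288/HypSpec`, `T5/Spec`, `T2/H511/FDSpec`,
`T2/H437/USSpec`, `T7/H62/RigidPkg`), which carry an APPENDIX realising the equation lemmas
(grader kernel checker: `coord/LT-collision-helper8.md`); no statement is changed.

CLOSED wall leaves: `PAR556` (tower T8), `A2_556` (tower A2, `a2_closed442`).
ALL FOUR WALL LEAVES ARE CLOSED (20:30Z): `PAR556` (T8), `A2_556` (A2), `A3c_556`
(`a3c_closed17`, cubic step), `A3q_556` (`a3q_closed17`, quadratic step; last node
`BQ87.StepMDatQC87` closed by helper640, `SM640.stepMDatQC_closed640`).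

    master_s47_closed17 : LTB.S47Statement        (UNCONDITIONAL)

`State17` (one field) and `master_s47_of_state17` are kept for the rehearsal tops of the packers.
-/

set_option autoImplicit false

namespace Fermat.Agent.LT.H17

open Fermat.Agent.LT Fermat.Agent.LT.H556.WT

/-- NODE T7.14 `RigidAll`, CLOSED 16:26Z (sub-architect helper62, `RigidPlug6`; last leaf
`FoldWhitC` by helper57 / helper290; `CountC` by helper671 / helper844). -/
theorem rigidAll_closed17 : T7.RigidAll :=
  T7.Rigid.rigidAll_of_foldWhit62 (fun K _ _ => T7.H57.foldWhitC_closed57 K)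

/-- **MASTER at the two trace identities** (cubic step `E/F`, quadratic step `F/ℚ`). -/
theorem master_s47_of_two17 (hc : T7.TraceWordsRegPAll T7.ekMulti)
    (hq : T7.TraceWordsQRegPAll T7.ekMulti) : LTB.S47Statement :=
  master_s47_of_three17 A2.H442.a2_closed442
    (T7.H231.topB_of_rigid231 hc hq rigidAll_closed17).1
    (T7.H231.topB_of_rigid231 hc hq rigidAll_closed17).2

/-- NODE T7.L2.3 `SpecDownC`, CLOSED 16:48Z (helper534; `WBasisC` of helper613 / helper75 /
helper389 / helper860 on the leaves of helper453, 543, 981, 454, 547, 387, 385, 899, 984). -/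
theorem specDownC_closed17 (K K' : Type) [Field K] [NumberField K] [Field K'] [NumberField K']
    [Algebra K K'] : T7.SpecDownC K K' :=
  T7.SD534.specDownC_closed534 K K'

/-- NODE T7.L2Q.3 `SpecDownQC`, CLOSED 17:16Z (helper140; `V2BasisQC341` with the assets of
helper19, helper130, helper566, helper341). -/
theorem specDownQC_closed17 (F : Type) [Field F] [NumberField F] : T7.L2Q.SpecDownQC F :=
  T7.SDQ140.specDownQC_closed140 F

/-- NODE T7.L2.2.Nc `NonVanCoreC` (core form, both steps), CLOSED 17:42Z (helper817 on the top
of helper675 with the core leaves of helper963, helper296, helper228). -/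
theorem nonVanCoreC_closed17 (K' : Type) [Field K'] [NumberField K'] : T7.H29.NonVanCoreC K' :=
  T7.H817.nonVanCoreC_closed817 K'

/-- NODE T7.L2.2 `SpecUpSC` (cubic step, stable form), CLOSED 17:43Z (integration helper561,
path 561: 18 leaves + `NonVanC561` of helper817 + `WSpecC561`). -/
theorem specUpSC_closed17 (K K' : Type) [Field K] [NumberField K] [Field K'] [NumberField K']
    [Algebra K K'] : T7.SpecUpSC K K' :=
  T7.H561.specUpSC_closed561

/-- NODE T7.L2.2.Ec `ExpUpCoreC` (core form, both steps), CLOSED 17:53Z (integration helper561: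
core leaves of helper736 Port, helper675, helper49, helper865, helper963, `WSpecU`). -/
theorem expUpCoreC_closed17 (K' : Type) [Field K'] [NumberField K'] : T7.H29.ExpUpCoreC K' :=
  T7.H561.expUpCoreC_closed561 K'

/-- NODE T7.L2.1 `SupplySC` (cubic supply, stable form), CLOSED 19:35Z (sub-architect helper893,
integration v15: `GlobMatchC893` of helper305, `PairAC797` of helper981, the second pair of
helper970 / helper218 / helper309 with `BadLocC970` of helper22, the products of helper51 /
helper724, from the closed tower T6). -/
theorem supplySC_closed17 (K K' : Type) [Field K] [NumberField K] [Field K'] [NumberField K']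
    [Algebra K K'] : T7.SupplySC T7.ekMulti K K' :=
  T7.H893.supplySC_closed893 K K' T6.top_closed (T7.H22.badLocC22 K K')

/-- The cubic trace identity, CLOSED. -/
theorem traceWordsRegM_closed17 : T7.TraceWordsRegPAll T7.ekMulti :=
  T7.traceWordsRegPAll_ofS T7.ekMulti supplySC_closed17 specUpSC_closed17 specDownC_closed17
    (fun K K' _ _ _ _ _ => T7.H231.specIdC_closed231 K K')

/-- **WALL LEAF `A3c_556`, CLOSED** (tower T7, cubic step `E/F`). -/
theorem a3c_closed17 : A3c_556 :=
  T7.H231.a3c_B231 traceWordsRegM_closed17

/-- The supply of the quadratic step from the base node `BaseQC801` (matching theorem over `ℚ`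
of helper298, products of helper563, AVG-MATCH of helper228: all closed). -/
theorem supplyQSC_of_base17 (F : Type) [Field F] [NumberField F]
    (hBase : T7.CQ801.BaseQC801 T7.ekMulti F) : T7.H29.SupplyQSC T7.ekMulti F := by
  classical
  have hnodes : ∃ Mt : T7.H732.MtRelQ732 F,
      T7.H732.GlobQC732 F Mt ∧ T7.H732.ConstrQRC732 T7.ekMulti F Mt := by
    by_cases h3 : T7.HasSqrtNegThree F
    · exact T7.CQ801.nodesQ_of_open801 (T7.MQ298.globMatchQC_closed298 h3 T6.top_closed) hBase
        (fun κ hκ => T7.PQ563.prodMtQC801_closed563 F T6.top_closed κ hκ)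
    · exact ⟨fun _ _ _ _ => True, fun h3' => absurd h3' h3, fun h3' => absurd h3' h3⟩
  obtain ⟨Mt, hG, hC⟩ := hnodes
  exact T7.H732.supplyQSC29_of_nodes732 hG hC

/-- The supply of the quadratic step from the step of a sphere mean on the data (first pair of
helper484 / helper87, second pair of helper973 / helper454, base of helper801). -/
theorem supplyQSC_of_stepMDat17 (F : Type) [Field F] [NumberField F]
    (hM : T7.BQ87.StepMDatQC87 F) : T7.H29.SupplyQSC T7.ekMulti F :=
  supplyQSC_of_base17 F
    (T7.CQ801.baseQC_of_pairs801 (T7.PQ484.pairAQC_of_stepMDat484 F hM)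
      (T7.PBQ973.pairBQC_of_pairA973 (T7.PQ484.pairAQC_of_stepMDat484 F hM)))

/-- THE OPEN PART OF THE WALL (route B, state 20:15Z): ONE NODE of tower T7, quadratic step. -/
structure State17 : Prop where
  /-- T7.L2Q.1.H2a.A.0b.M: the step of a sphere mean `M_{w,d}` ON THE DATA over `ℚ` (registry
  row 3188; cuts of helper484 / helper634 / helper640, leaves of helper801, 60, 797, 29 ...) -/
  stepMDatQ : ∀ (F : Type) [Field F] [NumberField F], T7.BQ87.StepMDatQC87 F

/-- `A3q_556` from the quadratic supply alone. -/
theorem a3q_of_supplyQ17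
    (h : ∀ (F : Type) [Field F] [NumberField F], T7.H29.SupplyQSC T7.ekMulti F) : A3q_556 :=
  T7.H231.a3q_two231 (fun F _ _ => T7.H231.traceWordsQRegP_of_record231 T7.ekMulti F (h F)
    (expUpCoreC_closed17 F) (nonVanCoreC_closed17 F) (specDownQC_closed17 F))

/-- `A3q_556` from the step on the data. -/
theorem a3q_of_state17 (h : State17) : A3q_556 :=
  a3q_of_supplyQ17 (fun F _ _ => supplyQSC_of_stepMDat17 F (h.stepMDatQ F))

/-- **MASTER, STATE OF THE WALL** (route B). -/
theorem master_s47_of_state17 (h : State17) : LTB.S47Statement :=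
  master_s47_of_three17 A2.H442.a2_closed442 a3c_closed17 (a3q_of_state17 h)

/-- The same on the nodes of record of helper231 (`T7/H231/Record.lean`). -/
theorem master_s47_of_record17 (h : T7.H231.Record231) : LTB.S47Statement :=
  master_s47_of_three17 A2.H442.a2_closed442 (T7.H231.top_record231 h).1
    (T7.H231.top_record231 h).2

/-- THE LAST NODE `BQ87.StepMDatQC87` (step of a sphere mean on the data over `ℚ`), CLOSED
20:25Z (owner of the cut helper640: leaves of helper909, 863, 400, 473, 546, 894, 801, 409, 773,
510; station T3.18R of helper14). -/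
theorem state17_closed : State17 :=
  ⟨fun F _ _ => T7.SM640.stepMDatQC_closed640 F⟩

/-- **WALL LEAF `A3q_556`, CLOSED** (tower T7, quadratic step `F/ℚ`). -/
theorem a3q_closed17 : A3q_556 :=
  a3q_of_state17 state17_closed

/-- **MASTER, THE WALL IS CLOSED: `LTB.S47Statement`, UNCONDITIONAL.** -/
theorem master_s47_closed17 : LTB.S47Statement :=
  master_s47_of_three17 A2.H442.a2_closed442 a3c_closed17 a3q_closed17

/-- **MASTER, route B, `RigidAll` cut into its open leaves (helper231).** -/
theorem master_s47_of_stateB17 (h : T7.H231.OpenB231) : LTB.S47Statement :=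
  master_s47_of_three17 A2.H442.a2_closed442 (T7.H231.topB231 h).1 (T7.H231.topB231 h).2

/-- **MASTER, route A (hedge).** -/
theorem master_s47_of_stateA17 (h : T7.H231.OpenA231) : LTB.S47Statement :=
  master_s47_of_three17 A2.H442.a2_closed442 (T7.H231.topA231 h).1 (T7.H231.topA231 h).2

end Fermat.Agent.LT.H17

end
-- ===== PACK-END LT/H17/MasterState.lean

-- ===== PACK-BEGIN LT/Final.lean
section


/-!
# Row LT -- THE OUTPUT OF THE ROW (row-lead helper17)

    Fermat.Agent.LT.Final.s47 : LTB.S47Statement

= the statement of Langlands--Tunnell in the form (ii) of row 42 (frozen statement S47), from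
the closed wall of helper556 (`PAR556`, `A2_556`, `A3c_556`, `A3q_556`): towers T1 -- T8, A2,
CFT, IDENT, GLUE2.  No hypothesis; axioms `propext`, `Classical.choice`, `Quot.sound` only.
-/

set_option autoImplicit false

namespace Fermat.Agent.LT.Final

/-- **Langlands--Tunnell for `GL₂(𝔽₃)`, form (ii) of row 42.** -/
theorem s47 : LTB.S47Statement :=
  Fermat.Agent.LT.H17.master_s47_closed17

end Fermat.Agent.LT.Final

end
-- ===== PACK-END LT/Final.lean

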